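/-
S18x/TsBasic (helper80): basic valuation-form lemmas on Prelude places and the
"residue disc" consequences of a divisor-compatible place reduction.
Abstract (no modular curves): used by S18x/TsMain (torsion step of S18).
-/
import Mathlib
import Fermat.Prelude.Def_AlgebraicCurve_Repartitions

set_option autoImplicit false

namespace Fermat.Agent.S18x

open AlgebraicCurve WithZero

section Place

variable {K F : Type*} [Field K] [Field F] [Algebra K F] (P : Place K F)

theorem ts_val_lt_one_iff {x : F} : P.adicValuation x < 1 ↔ x = 0 ∨ 1 ≤ P.ord x := by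
  rcases eq_or_ne x 0 with rfl | hx
  · simp
  · rw [P.adicValuation_eq_exp_neg_ord hx, or_iff_right hx, ← WithZero.exp_zero,
      WithZero.exp_lt_exp]
    omega

theorem ts_val_le_exp_one_iff {x : F} : P.adicValuation x ≤ exp (1 : ℤ) ↔ x = 0 ∨ -1 ≤ P.ord x :=
  P.adicValuation_le_exp_iff

theorem ts_val_eq_one_iff {x : F} (hx : x ≠ 0) : P.adicValuation x = 1 ↔ P.ord x = 0 := by
  rw [P.adicValuation_eq_exp_neg_ord hx, ← WithZero.exp_zero, WithZero.exp_inj]
  omega

theorem ts_val_algebraMap {c : K} (hc : c ≠ 0) : P.adicValuation (algebraMap K F c) = 1 := by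
  have h1 := P.adicValuation_algebraMap_le_one c
  have h2 := P.adicValuation_algebraMap_le_one c⁻¹
  rw [map_inv₀, map_inv₀] at h2
  have hne : P.adicValuation (algebraMap K F c) ≠ 0 :=
    P.adicValuation_ne_zero (by simpa using hc)
  refine le_antisymm h1 ?_
  by_contra hlt
  rw [not_le] at hlt
  have : 1 < (P.adicValuation (algebraMap K F c))⁻¹ := by
    exact (one_lt_inv₀ (zero_lt_iff.mpr hne)).mpr hlt
  exact absurd h2 (not_le.mpr this)

theorem ts_ord_algebraMap (c : K) : P.ord (algebraMap K F c) = 0 := by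
  rcases eq_or_ne c 0 with rfl | hc
  · simp
  · exact (ts_val_eq_one_iff P (by simpa using hc)).mp (ts_val_algebraMap P hc)

end Place


section MapDomain

open Classical in
theorem ts_mapDomain_apply {α β : Type*} (r : α → β) (D : α →₀ ℤ) (b : β) :
    Finsupp.mapDomain r D b = ∑ a ∈ D.support.filter (fun a => r a = b), D a := by
  rw [Finsupp.mapDomain, Finsupp.sum_apply, Finsupp.sum, Finset.sum_filter]
  refine Finset.sum_congr rfl fun a _ => ?_
  rw [Finsupp.single_apply]

theorem ts_mapDomain_nonneg {α β : Type*} (r : α → β) {D : α →₀ ℤ} (hD : ∀ a, 0 ≤ D a) (b : β) :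
    0 ≤ Finsupp.mapDomain r D b := by
  classical
  rw [ts_mapDomain_apply]
  exact Finset.sum_nonneg fun a _ => hD a

theorem ts_disc_zero {α β : Type*} (r : α → β) (B : α →₀ ℤ) (b : β)
    (hB : ∀ a, r a = b → 0 ≤ B a) (h0 : Finsupp.mapDomain r B b = 0) :
    ∀ a, r a = b → B a = 0 := by
  classical
  intro a ha
  by_contra hne
  have hmem : a ∈ B.support.filter (fun a => r a = b) := by
    rw [Finset.mem_filter, Finsupp.mem_support_iff]; exact ⟨hne, ha⟩
  have hpos : 0 < B a := lt_of_le_of_ne (hB a ha) (Ne.symm hne)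
  rw [ts_mapDomain_apply] at h0
  have hle : B a ≤ ∑ a ∈ B.support.filter (fun a => r a = b), B a :=
    Finset.single_le_sum (f := fun a => B a)
      (fun x hx => hB x (Finset.mem_filter.mp hx).2) hmem
  omega

theorem ts_disc_unique {α β : Type*} (r : α → β) (B : α →₀ ℤ) (b : β)
    (hB : ∀ a, r a = b → 0 ≤ B a) (h1 : Finsupp.mapDomain r B b = 1) :
    ∃ a₀, r a₀ = b ∧ B a₀ = 1 ∧ ∀ a, r a = b → a ≠ a₀ → B a = 0 := by
  classical
  rw [ts_mapDomain_apply] at h1
  set S := B.support.filter (fun a => r a = b) with hS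
  have hSne : S.Nonempty := by
    by_contra hemp
    rw [Finset.not_nonempty_iff_eq_empty] at hemp
    rw [hemp, Finset.sum_empty] at h1
    exact absurd h1 (by norm_num)
  obtain ⟨a₀, ha₀⟩ := hSne
  have hpos : ∀ a ∈ S, 1 ≤ B a := by
    intro a ha
    rw [hS, Finset.mem_filter, Finsupp.mem_support_iff] at ha
    have := hB a ha.2
    omega
  have hsplit : ∑ a ∈ S, B a = B a₀ + ∑ a ∈ S.erase a₀, B a := by
    rw [Finset.add_sum_erase S (fun a => B a) ha₀]
  have hrest : ∀ a ∈ S.erase a₀, 1 ≤ B a := fun a ha => hpos a (Finset.mem_of_mem_erase ha)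
  have hrest0 : 0 ≤ ∑ a ∈ S.erase a₀, B a :=
    Finset.sum_nonneg fun a ha => by have := hrest a ha; omega
  have h10 := hpos a₀ ha₀
  have hB1 : B a₀ = 1 := by omega
  have hsum0 : ∑ a ∈ S.erase a₀, B a = 0 := by omega
  have ha₀' := ha₀
  rw [hS, Finset.mem_filter] at ha₀'
  refine ⟨a₀, ha₀'.2, hB1, fun a ha hne => ?_⟩
  by_contra hBa
  have hmem : a ∈ S.erase a₀ := by
    rw [Finset.mem_erase, hS, Finset.mem_filter, Finsupp.mem_support_iff]
    exact ⟨hne, hBa, ha⟩
  have hle : B a ≤ ∑ a ∈ S.erase a₀, B a :=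
    Finset.single_le_sum (f := fun a => B a)
      (fun x hx => by have := hrest x hx; omega) hmem
  have := hrest a hmem
  omega

end MapDomain

section Setup

variable {L k F Fb : Type*} [Field L] [Field k] [Field F] [Field Fb] [Algebra L F] [Algebra k Fb]

/-- The abstract "good reduction data" used in the torsion step: a valuation ring `A` of the
constant field with residue map `π`, a Gauss-type valuation ring `W` of `F` with residue map `ρ`
onto (a subfield of) `Fb`, and a map `r` on places compatible with divisors of `W`-units. -/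
structure ts_Hyp (A : ValuationSubring L) (π : A →+* k) (W : ValuationSubring F) (ρ : W →+* Fb)
    (r : Place L F → Place k Fb) : Prop where
  mem_iff : ∀ c : L, algebraMap L F c ∈ W ↔ c ∈ A
  rho_alg : ∀ (c : L) (hc : c ∈ A) (hW : algebraMap L F c ∈ W),
    ρ ⟨algebraMap L F c, hW⟩ = algebraMap k Fb (π ⟨c, hc⟩)
  pi_surj : Function.Surjective π
  ker : ∀ x : W, ρ x = 0 ↔ ¬ IsUnit x
  norm : ∀ x : F, x ≠ 0 → ∃ c : L, c ≠ 0 ∧ algebraMap L F c * x ∈ W ∧ (algebraMap L F c * x)⁻¹ ∈ W
  compat : ∀ u : W, ρ u ≠ 0 → ∀ D : Divisor L F, (∀ P, D P = P.ord (u : F)) →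
    ∀ Q, Finsupp.mapDomain r D Q = Q.ord (ρ u)
  hpd : ∀ x : F, x ≠ 0 → ∃ D : Divisor L F, ∀ P : Place L F, D P = P.ord x
  eval : ∀ (P : Place L F) (x : F), P.adicValuation x ≤ 1 →
    ∃ c : L, P.adicValuation (x - algebraMap L F c) < 1
  rsurj : Function.Surjective r

variable {A : ValuationSubring L} {π : A →+* k} {W : ValuationSubring F} {ρ : W →+* Fb}
  {r : Place L F → Place k Fb}

/-- **Lemma A**: an element of `W` without poles in the residue disc of `Q` reduces to a function
regular at `Q`. -/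
theorem ts_Hyp.reg_of_disc (H : ts_Hyp A π W ρ r) (u : W) (Q : Place k Fb)
    (hu : ∀ P, r P = Q → P.adicValuation (u : F) ≤ 1) : Q.adicValuation (ρ u) ≤ 1 := by
  classical
  by_cases h0 : ρ u = 0
  · rw [h0, map_zero]; exact zero_le_one
  have hu0 : (u : F) ≠ 0 := by
    intro h
    apply h0
    have : u = 0 := Subtype.ext h
    rw [this, map_zero]
  obtain ⟨D, hD⟩ := H.hpd (u : F) hu0
  have hc := H.compat u h0 D hD Q
  rw [Q.adicValuation_le_one_iff]
  right
  rw [← hc, ts_mapDomain_apply]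
  refine Finset.sum_nonneg fun P hP => ?_
  rw [Finset.mem_filter] at hP
  rw [hD P]
  have := (P.adicValuation_le_one_iff).mp (hu P hP.2)
  exact this.resolve_left hu0

/-- **Lemma A⁺**: if moreover the element vanishes somewhere in the disc, its reduction vanishes
at `Q`. -/
theorem ts_Hyp.van_of_disc (H : ts_Hyp A π W ρ r) (u : W) (Q : Place k Fb)
    (hu : ∀ P, r P = Q → P.adicValuation (u : F) ≤ 1)
    (P₀ : Place L F) (hP₀ : r P₀ = Q) (hv : P₀.adicValuation (u : F) < 1) :
    Q.adicValuation (ρ u) < 1 := by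
  classical
  by_cases h0 : ρ u = 0
  · rw [h0, map_zero]; exact zero_lt_one
  have hu0 : (u : F) ≠ 0 := by
    intro h
    apply h0
    have : u = 0 := Subtype.ext h
    rw [this, map_zero]
  obtain ⟨D, hD⟩ := H.hpd (u : F) hu0
  have hc := H.compat u h0 D hD Q
  rw [ts_val_lt_one_iff]
  right
  rw [← hc, ts_mapDomain_apply]
  have h1 : 1 ≤ D P₀ := by
    rw [hD P₀]
    exact ((ts_val_lt_one_iff P₀).mp hv).resolve_left hu0
  have hmem : P₀ ∈ D.support.filter (fun a => r a = Q) := by
    rw [Finset.mem_filter, Finsupp.mem_support_iff]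
    exact ⟨by omega, hP₀⟩
  calc (1 : ℤ) ≤ D P₀ := h1
    _ ≤ ∑ a ∈ D.support.filter (fun a => r a = Q), D a := by
      refine Finset.single_le_sum (f := fun a => D a) (fun P hP => ?_) hmem
      rw [Finset.mem_filter] at hP
      show 0 ≤ D P
      rw [hD P]
      exact ((P.adicValuation_le_one_iff).mp (hu P hP.2)).resolve_left hu0

theorem ts_isUnit_of_inv_mem (x : W) (hx : (x : F) ≠ 0) (hi : (x : F)⁻¹ ∈ W) : IsUnit x :=
  ⟨⟨x, ⟨(x : F)⁻¹, hi⟩, Subtype.ext (mul_inv_cancel₀ hx), Subtype.ext (inv_mul_cancel₀ hx)⟩, rfl⟩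

theorem ts_inv_mem_of_isUnit (x : W) (hx : IsUnit x) : (x : F)⁻¹ ∈ W := by
  obtain ⟨u, rfl⟩ := hx
  have h : ((u : W) : F) * ((↑u⁻¹ : W) : F) = 1 := by
    have h1 : ((u : W) * (↑u⁻¹ : W) : W) = 1 := u.mul_inv
    have h2 := congrArg (Subtype.val) h1
    exact h2
  have : ((u : W) : F)⁻¹ = ((↑u⁻¹ : W) : F) := inv_eq_of_mul_eq_one_right h
  rw [this]
  exact (↑u⁻¹ : W).2

theorem ts_Hyp.algW (H : ts_Hyp A π W ρ r) {c : L} (hc : c ∈ A) : algebraMap L F c ∈ W :=
  (H.mem_iff c).mpr hc

theorem ts_Hyp.pi_eq_zero (H : ts_Hyp A π W ρ r) {c : L} (hc : c ∈ A) (hci : c⁻¹ ∉ A) :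
    π ⟨c, hc⟩ = 0 := by
  have hnu : ¬ IsUnit (⟨algebraMap L F c, H.algW hc⟩ : W) := by
    intro hu
    have := ts_inv_mem_of_isUnit _ hu
    simp only at this
    rw [← map_inv₀] at this
    exact hci ((H.mem_iff _).mp this)
  have h0 := (H.ker _).mpr hnu
  rw [H.rho_alg c hc] at h0
  exact (map_eq_zero_iff _ (algebraMap k Fb).injective).mp h0

theorem ts_const_eq_zero_of_van (Q : Place k Fb) {a : k}
    (h : Q.adicValuation (algebraMap k Fb a) < 1) : a = 0 := by
  by_contra ha
  rw [ts_val_algebraMap Q ha] at h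
  exact lt_irrefl _ h

/-- **Value lemma**: an element of `W` regular on the residue disc of `Q` takes at each point of
the disc a value in `A`, whose residue is the value of the reduction at `Q`. -/
theorem ts_Hyp.value (H : ts_Hyp A π W ρ r) (u : W) (Q : Place k Fb)
    (hu : ∀ P, r P = Q → P.adicValuation (u : F) ≤ 1) (P₀ : Place L F) (hP₀ : r P₀ = Q) :
    ∃ (c : L) (hc : c ∈ A), P₀.adicValuation ((u : F) - algebraMap L F c) < 1 ∧
      Q.adicValuation (ρ u - algebraMap k Fb (π ⟨c, hc⟩)) < 1 := by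
  obtain ⟨c, hcv⟩ := H.eval P₀ (u : F) (hu P₀ hP₀)
  have hcA : c ∈ A := by
    by_contra hcA
    have hc0 : c ≠ 0 := fun h => hcA (h ▸ A.zero_mem)
    have hciA : c⁻¹ ∈ A := (A.mem_or_inv_mem c).resolve_left hcA
    have hπ : π ⟨c⁻¹, hciA⟩ = 0 := H.pi_eq_zero hciA (by rwa [inv_inv])
    -- y = c⁻¹ u - 1
    let ci : W := ⟨algebraMap L F c⁻¹, H.algW hciA⟩
    let y : W := ci * u - 1
    have hρy : ρ y = -1 := by
      show ρ (ci * u - 1) = -1
      rw [map_sub, map_mul, map_one, H.rho_alg c⁻¹ hciA, hπ, map_zero, zero_mul, zero_sub]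
    have hyF : (y : F) = algebraMap L F c⁻¹ * ((u : F) - algebraMap L F c) := by
      show algebraMap L F c⁻¹ * (u : F) - 1 = _
      rw [mul_sub, ← map_mul, inv_mul_cancel₀ hc0, map_one]
    have hreg : ∀ P, r P = Q → P.adicValuation (y : F) ≤ 1 := by
      intro P hP
      show P.adicValuation (algebraMap L F c⁻¹ * (u : F) - 1) ≤ 1
      refine (Valuation.map_sub _ _ _).trans (max_le ?_ ?_)
      · rw [map_mul]
        exact mul_le_one' (P.adicValuation_algebraMap_le_one _) (hu P hP)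
      · rw [map_one]
    have hvan : P₀.adicValuation (y : F) < 1 := by
      rw [hyF, map_mul, ts_val_algebraMap P₀ (inv_ne_zero hc0), one_mul]
      exact hcv
    have := H.van_of_disc y Q hreg P₀ hP₀ hvan
    rw [hρy, Valuation.map_neg, map_one] at this
    exact lt_irrefl _ this
  refine ⟨c, hcA, hcv, ?_⟩
  let cW : W := ⟨algebraMap L F c, H.algW hcA⟩
  have hreg : ∀ P, r P = Q → P.adicValuation ((u - cW : W) : F) ≤ 1 := by
    intro P hP
    show P.adicValuation ((u : F) - algebraMap L F c) ≤ 1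
    exact (Valuation.map_sub _ _ _).trans
      (max_le (hu P hP) (P.adicValuation_algebraMap_le_one _))
  have := H.van_of_disc (u - cW) Q hreg P₀ hP₀ hcv
  rwa [map_sub, H.rho_alg c hcA] at this

end Setup

end Fermat.Agent.S18x
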