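/-
S18x/NsGreedy (helper4): abstract GREEDY NON-SPECIAL DIVISOR lemma for a function field `Fb/k`
all of whose places have degree one (`k` algebraically closed).  Inputs: principal divisors have
degree zero, Riemann's inequality with SOME constant, infinitely many places, and ONE divisor `D₀`
with `dim L(D₀) + g ≤ deg D₀ + 1` ("genus ≥ g").  Output: for every finite set `S` of places,
`g` distinct places `Q_i ∉ S` with `L(Q_1 + ... + Q_g) = k` -- exactly the inputs `Qs, hQinj, hG`
of `ts_main` (S18x/TsMain).  All names carry the prefix `ns_`.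
-/
import Fermat.Agent.S18x.TsBasic

set_option autoImplicit false

namespace Fermat.Agent.S18x

open AlgebraicCurve WithZero

section Basic

variable {k Fb : Type*} [Field k] [Field Fb] [Algebra k Fb]

theorem ns_mem_of_ord_nonneg (v : Place k Fb) {x : Fb} (hx : 0 ≤ v.ord x) :
    x ∈ v.toValuationSubring := by
  rcases eq_or_ne x 0 with rfl | hx0
  · exact v.toValuationSubring.zero_mem
  obtain ⟨π, hπ⟩ := IsDiscreteValuationRing.exists_irreducible v.toValuationSubring
  obtain ⟨u, hu⟩ := v.exists_unit_mul_zpow hx0 hπ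
  obtain ⟨m, hm⟩ := Int.eq_ofNat_of_zero_le hx
  rw [hu, hm, zpow_natCast]
  exact v.toValuationSubring.mul_mem _ _ (u : v.toValuationSubring).2
    (v.toValuationSubring.pow_mem π.2 m)

theorem ns_mem_of_val_le_one (v : Place k Fb) {x : Fb} (hx : v.adicValuation x ≤ 1) :
    x ∈ v.toValuationSubring := by
  rcases (v.adicValuation_le_one_iff).mp hx with rfl | h
  · exact v.toValuationSubring.zero_mem
  · exact ns_mem_of_ord_nonneg v h

theorem ns_val_lt_one_of_mem_maximalIdeal (v : Place k Fb) (a : v.toValuationSubring)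
    (ha : a ∈ IsLocalRing.maximalIdeal v.toValuationSubring) : v.adicValuation (a : Fb) < 1 := by
  rw [v.adicValuation_coe]
  rw [IsDedekindDomain.HeightOneSpectrum.intValuation_lt_one_iff_mem]
  exact ha

/-- At a place of degree one every element of the valuation ring is congruent to a constant. -/
theorem ns_exists_const (P : Place k Fb) (hP : P.deg = 1) {u : Fb}
    (hu : P.adicValuation u ≤ 1) : ∃ a : k, P.adicValuation (u - algebraMap k Fb a) < 1 := by
  have huO : u ∈ P.toValuationSubring := ns_mem_of_val_le_one P hu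
  have h1 : Module.finrank k P.ResidueField = 1 := hP
  have hone : (1 : P.ResidueField) ≠ 0 := one_ne_zero
  obtain ⟨c, hc⟩ := (finrank_eq_one_iff_of_nonzero' (1 : P.ResidueField) hone).mp h1
    (IsLocalRing.residue P.toValuationSubring ⟨u, huO⟩)
  refine ⟨c, ?_⟩
  have hmem : (⟨u, huO⟩ - algebraMap k P.toValuationSubring c : P.toValuationSubring)
      ∈ IsLocalRing.maximalIdeal P.toValuationSubring := by
    rw [← IsLocalRing.residue_eq_zero_iff, map_sub, ← hc, Algebra.smul_def, mul_one]
    rw [sub_eq_zero]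
    rfl
  exact ns_val_lt_one_of_mem_maximalIdeal P _ hmem

theorem ns_le_exp_of_lt_exp_succ {x : ℤᵐ⁰} {n : ℤ} (h : x < exp (n + 1)) : x ≤ exp n := by
  rcases eq_or_ne x 0 with rfl | hx
  · exact zero_le
  · rw [← WithZero.exp_log hx] at h ⊢
    rw [WithZero.exp_lt_exp] at h
    rw [WithZero.exp_le_exp]
    omega

end Basic

section Step

variable {k Fb : Type*} [Field k] [Field Fb] [Algebra k Fb]

theorem ns_add_single_apply_of_ne (D : Divisor k Fb) {P Q : Place k Fb} (h : Q ≠ P) (n : ℤ) :
    (D + Finsupp.single P n) Q = D Q := by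
  classical
  rw [Finsupp.add_apply, Finsupp.single_apply, if_neg (fun h' => h h'.symm), add_zero]

theorem ns_add_single_apply_self (D : Divisor k Fb) (P : Place k Fb) (n : ℤ) :
    (D + Finsupp.single P n) P = D P + n := by
  rw [Finsupp.add_apply, Finsupp.single_eq_same]

theorem ns_rr_mono {D D' : Divisor k Fb} (h : D ≤ D') :
    riemannRochSpace D ≤ riemannRochSpace D' := fun _ hf v =>
  (hf v).trans (exp_le_exp.mpr (Finsupp.le_def.mp h v))

theorem ns_le_add_single (D : Divisor k Fb) (P : Place k Fb) : D ≤ D + Finsupp.single P 1 := by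
  classical
  intro Q
  rw [Finsupp.add_apply, Finsupp.single_apply]
  split_ifs <;> omega

/-- One-step codimension bound: modulo `L(D)`, any element of `L(D + P)` is a constant multiple
of a fixed element of `L(D + P) \ L(D)`. -/
theorem ns_step (P : Place k Fb) (hP : P.deg = 1) (D : Divisor k Fb) {f g : Fb}
    (hf : f ∈ riemannRochSpace (D + Finsupp.single P 1))
    (hg : g ∈ riemannRochSpace (D + Finsupp.single P 1))
    (hgD : g ∉ riemannRochSpace D) : ∃ a : k, f - a • g ∈ riemannRochSpace D := by
  have hgP : ¬ P.adicValuation g ≤ exp (D P) := by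
    intro hle
    apply hgD
    intro Q
    by_cases hQ : Q = P
    · subst hQ; exact hle
    · have := hg Q
      rwa [ns_add_single_apply_of_ne D hQ] at this
  have hg0 : g ≠ 0 := by
    intro h; apply hgD; rw [h]; exact Submodule.zero_mem _
  have hgP' : P.adicValuation g ≤ exp (D P + 1) := by
    have := hg P
    rwa [ns_add_single_apply_self] at this
  have hgval : P.adicValuation g = exp (D P + 1) := by
    refine le_antisymm hgP' ?_
    by_contra hlt
    rw [not_le] at hlt
    exact hgP (ns_le_exp_of_lt_exp_succ hlt)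
  have hfP' : P.adicValuation f ≤ exp (D P + 1) := by
    have := hf P
    rwa [ns_add_single_apply_self] at this
  have hu : P.adicValuation (f / g) ≤ 1 := by
    rw [map_div₀, hgval]
    rw [div_le_one₀ (WithZero.exp_pos)]
    exact hfP'
  obtain ⟨a, ha⟩ := ns_exists_const P hP hu
  refine ⟨a, ?_⟩
  intro Q
  by_cases hQ : Q = P
  · subst hQ
    have hfac : f - a • g = g * (f / g - algebraMap k Fb a) := by
      rw [Algebra.smul_def]; field_simp
    rw [hfac, map_mul, hgval]
    apply ns_le_exp_of_lt_exp_succ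
    calc exp (D Q + 1) * Q.adicValuation (f / g - algebraMap k Fb a)
        < exp (D Q + 1) * 1 := by
          exact mul_lt_mul_of_pos_left ha (WithZero.exp_pos)
      _ = exp (D Q + 1) := mul_one _
  · have hmem : f - a • g ∈ riemannRochSpace (D + Finsupp.single P 1) :=
      Submodule.sub_mem _ hf (Submodule.smul_mem _ _ hg)
    have := hmem Q
    rwa [ns_add_single_apply_of_ne D hQ] at this

/-- One step: finite-dimensionality and dimension bound. -/
theorem ns_fg_step (P : Place k Fb) (hP : P.deg = 1) (D : Divisor k Fb)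
    (hfin : (riemannRochSpace D).FG) :
    (riemannRochSpace (D + Finsupp.single P 1)).FG ∧
      Module.finrank k (riemannRochSpace (D + Finsupp.single P 1))
        ≤ Module.finrank k (riemannRochSpace D) + 1 := by
  have hle : riemannRochSpace D ≤ riemannRochSpace (D + Finsupp.single P 1) :=
    ns_rr_mono (ns_le_add_single D P)
  by_cases hex : ∃ g, g ∈ riemannRochSpace (D + Finsupp.single P 1) ∧ g ∉ riemannRochSpace D
  · obtain ⟨g, hg, hgD⟩ := hex
    have heq : riemannRochSpace (D + Finsupp.single P 1)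
        = riemannRochSpace D ⊔ Submodule.span k {g} := by
      apply le_antisymm
      · intro f hf
        obtain ⟨a, ha⟩ := ns_step P hP D hf hg hgD
        rw [Submodule.mem_sup]
        refine ⟨f - a • g, ha, a • g, Submodule.smul_mem _ _ (Submodule.mem_span_singleton_self g), ?_⟩
        ring
      · refine sup_le hle ?_
        rw [Submodule.span_le, Set.singleton_subset_iff]
        exact hg
    rw [heq]
    refine ⟨hfin.sup (Submodule.fg_span_singleton g), ?_⟩
    have : Module.Finite k (riemannRochSpace D) := Module.Finite.iff_fg.mpr hfin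
    calc Module.finrank k ↥(riemannRochSpace D ⊔ Submodule.span k {g})
        ≤ Module.finrank k (riemannRochSpace D) + Module.finrank k (Submodule.span k {g}) :=
          Submodule.finrank_add_le_finrank_add_finrank _ _
      _ ≤ Module.finrank k (riemannRochSpace D) + 1 := by
          gcongr
          exact (finrank_span_le_card ({g} : Set Fb)).trans (by simp)
  · have heq : riemannRochSpace (D + Finsupp.single P 1) = riemannRochSpace D := by
      apply le_antisymm _ hle
      intro f hf
      by_contra hfD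
      exact hex ⟨f, hf, hfD⟩
    rw [heq]
    exact ⟨hfin, Nat.le_succ _⟩

end Step

section Chain

variable {k Fb : Type*} [Field k] [Field Fb] [Algebra k Fb]

theorem ns_degree_nonneg {E : Divisor k Fb} (hE : 0 ≤ E) : 0 ≤ Divisor.degree E := by
  have h : Divisor.degree E = E.sum fun v n => n * (v.deg : ℤ) := by
    simp [Divisor.degree, Finsupp.liftAddHom_apply]
  rw [h]
  refine Finsupp.sum_nonneg fun v _ => ?_
  have : 0 ≤ E v := Finsupp.le_def.mp hE v
  positivity

theorem ns_degree_mono {D D' : Divisor k Fb} (h : D ≤ D') :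
    Divisor.degree D ≤ Divisor.degree D' := by
  have h0 : 0 ≤ D' - D := sub_nonneg.mpr h
  have := ns_degree_nonneg h0
  rw [map_sub] at this
  omega

theorem ns_degree_single_one (hdeg : ∀ Q : Place k Fb, Q.deg = 1) (P : Place k Fb) :
    Divisor.degree (Finsupp.single P (1 : ℤ)) = 1 := by
  rw [Divisor.degree_single, hdeg P]; norm_num

/-- Monotonicity of `deg D + 1 - dim L(D)`: chain of one-step bounds. -/
theorem ns_finrank_le_of_le (hdeg : ∀ Q : Place k Fb, Q.deg = 1) :
    ∀ (n : ℕ) (D D' : Divisor k Fb), D ≤ D' → Divisor.degree D' - Divisor.degree D = n →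
      (riemannRochSpace D).FG →
      (riemannRochSpace D').FG ∧
        Module.finrank k (riemannRochSpace D') ≤ Module.finrank k (riemannRochSpace D) + n := by
  classical
  intro n
  induction n with
  | zero =>
    intro D D' hle hn hfin
    by_cases hall : ∀ P, D' P ≤ D P
    · have : D' = D := Finsupp.ext fun P => le_antisymm (hall P) (Finsupp.le_def.mp hle P)
      rw [this]; exact ⟨hfin, le_rfl⟩
    · exfalso
      simp only [not_forall, not_le] at hall
      obtain ⟨P, hP⟩ := hall
      have hle' : D + Finsupp.single P 1 ≤ D' := by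
        intro Q
        by_cases hQ : Q = P
        · subst hQ; rw [ns_add_single_apply_self]; omega
        · rw [ns_add_single_apply_of_ne D hQ]; exact Finsupp.le_def.mp hle Q
      have := ns_degree_mono hle'
      rw [map_add, ns_degree_single_one hdeg] at this
      simp only [Nat.cast_zero] at hn
      omega
  | succ m ih =>
    intro D D' hle hn hfin
    by_cases hall : ∀ P, D' P ≤ D P
    · have : D' = D := Finsupp.ext fun P => le_antisymm (hall P) (Finsupp.le_def.mp hle P)
      rw [this]; exact ⟨hfin, Nat.le_add_right _ _⟩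
    · simp only [not_forall, not_le] at hall
      obtain ⟨P, hP⟩ := hall
      set D'' : Divisor k Fb := D' - Finsupp.single P 1 with hD''
      have hD' : D' = D'' + Finsupp.single P 1 := by rw [hD'']; abel
      have hle'' : D ≤ D'' := by
        intro Q
        rw [hD'', Finsupp.sub_apply, Finsupp.single_apply]
        have := Finsupp.le_def.mp hle Q
        split_ifs with hQ
        · subst hQ; omega
        · omega
      have hdeg'' : Divisor.degree D'' - Divisor.degree D = m := by
        rw [hD'', map_sub, ns_degree_single_one hdeg]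
        push_cast at hn
        omega
      obtain ⟨hfin'', hrank''⟩ := ih D D'' hle'' hdeg'' hfin
      obtain ⟨hfin', hrank'⟩ := ns_fg_step P (hdeg P) D'' hfin''
      rw [← hD'] at hfin' hrank'
      exact ⟨hfin', by omega⟩

theorem ns_finrank_le_of_le' (hdeg : ∀ Q : Place k Fb, Q.deg = 1) {D D' : Divisor k Fb}
    (hle : D ≤ D') (hfin : (riemannRochSpace D).FG) :
    (riemannRochSpace D').FG ∧
      (Module.finrank k (riemannRochSpace D') : ℤ)
        ≤ Module.finrank k (riemannRochSpace D) + (Divisor.degree D' - Divisor.degree D) := by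
  have h0 : 0 ≤ Divisor.degree D' - Divisor.degree D := by
    have := ns_degree_mono hle; omega
  obtain ⟨n, hn⟩ := Int.eq_ofNat_of_zero_le h0
  obtain ⟨h1, h2⟩ := ns_finrank_le_of_le hdeg n D D' hle hn hfin
  refine ⟨h1, ?_⟩
  rw [hn]
  exact_mod_cast h2

end Chain

section Greedy

variable {k Fb : Type*} [Field k] [Field Fb] [Algebra k Fb]

theorem ns_exists_finset (hinf : ∀ S : Finset (Place k Fb), ∃ P, P ∉ S)
    (S : Finset (Place k Fb)) (n : ℕ) :
    ∃ T : Finset (Place k Fb), T.card = n ∧ Disjoint T S := by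
  classical
  induction n with
  | zero => exact ⟨∅, rfl, Finset.disjoint_empty_left _⟩
  | succ m ih =>
    obtain ⟨T, hT, hTS⟩ := ih
    obtain ⟨P, hP⟩ := hinf (S ∪ T)
    rw [Finset.mem_union, not_or] at hP
    refine ⟨insert P T, ?_, ?_⟩
    · rw [Finset.card_insert_of_notMem hP.2, hT]
    · rw [Finset.disjoint_insert_left]
      exact ⟨hP.1, hTS⟩

/-- `E + ∑_{P ∈ T} P`. -/
noncomputable def ns_DT (E : Divisor k Fb) (T : Finset (Place k Fb)) : Divisor k Fb :=
  E + ∑ P ∈ T, Finsupp.single P (1 : ℤ)

theorem ns_DT_empty (E : Divisor k Fb) : ns_DT E ∅ = E := by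
  rw [ns_DT, Finset.sum_empty, add_zero]

theorem ns_DT_insert (E : Divisor k Fb) {T : Finset (Place k Fb)} {P : Place k Fb}
    [DecidableEq (Place k Fb)] (hP : P ∉ T) :
    ns_DT E (insert P T) = ns_DT E T + Finsupp.single P 1 := by
  rw [ns_DT, ns_DT, Finset.sum_insert hP]; abel

theorem ns_DT_apply_of_notMem (E : Divisor k Fb) {T : Finset (Place k Fb)} {P : Place k Fb}
    (hP : P ∉ T) : ns_DT E T P = E P := by
  classical
  rw [ns_DT, Finsupp.add_apply, Finsupp.finsetSum_apply]
  rw [Finset.sum_eq_zero, add_zero]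
  intro Q hQ
  rw [Finsupp.single_apply, if_neg]
  rintro rfl
  exact hP hQ

theorem ns_le_DT (E : Divisor k Fb) (T : Finset (Place k Fb)) : E ≤ ns_DT E T := by
  classical
  induction T using Finset.induction_on with
  | empty => rw [ns_DT_empty]
  | insert P T hP ih =>
    rw [ns_DT_insert E hP]
    exact ih.trans (ns_le_add_single _ _)

theorem ns_add_single_le_DT (E : Divisor k Fb) {T : Finset (Place k Fb)} {P : Place k Fb}
    (hP : P ∈ T) : E + Finsupp.single P 1 ≤ ns_DT E T := by
  classical
  rw [ns_DT]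
  refine add_le_add le_rfl ?_
  rw [← Finset.add_sum_erase T _ hP]
  refine le_add_of_nonneg_right ?_
  refine Finset.sum_nonneg fun Q _ => ?_
  intro R
  rw [Finsupp.single_apply]
  simp only [Finsupp.coe_zero, Pi.zero_apply]
  split_ifs <;> omega

theorem ns_degree_DT (hdeg : ∀ Q : Place k Fb, Q.deg = 1) (E : Divisor k Fb)
    (T : Finset (Place k Fb)) : Divisor.degree (ns_DT E T) = Divisor.degree E + T.card := by
  rw [ns_DT, map_add, map_sum]
  simp only [ns_degree_single_one hdeg, Finset.sum_const, nsmul_eq_mul, mul_one]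

/-- Multiplication by `h⁻¹` embeds `L(D)` into `L(D + div h)`. -/
theorem ns_finrank_le_mul {D H : Divisor k Fb} {h : Fb} (hh : h ≠ 0)
    (hH : ∀ P : Place k Fb, H P = P.ord h) (hfin : (riemannRochSpace (D + H)).FG) :
    Module.finrank k (riemannRochSpace D) ≤ Module.finrank k (riemannRochSpace (D + H)) := by
  have hmem : ∀ x ∈ riemannRochSpace D, h⁻¹ * x ∈ riemannRochSpace (D + H) := by
    intro x hx P
    rw [map_mul, map_inv₀, P.adicValuation_eq_exp_neg_ord hh, Finsupp.add_apply, hH P,
      ← WithZero.exp_neg, neg_neg, add_comm (D P), WithZero.exp_add]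
    exact mul_le_mul_right (hx P) _
  let φ : riemannRochSpace D →ₗ[k] riemannRochSpace (D + H) :=
    { toFun := fun x => ⟨h⁻¹ * x, hmem x x.2⟩
      map_add' := fun x y => Subtype.ext (by simp [mul_add])
      map_smul' := fun c x => Subtype.ext (by simp) }
  have hinj : Function.Injective φ := by
    intro x y hxy
    have h1 : h⁻¹ * (x : Fb) = h⁻¹ * (y : Fb) := congrArg Subtype.val hxy
    exact Subtype.ext (mul_left_cancel₀ (inv_ne_zero hh) h1)
  have : Module.Finite k (riemannRochSpace (D + H)) := Module.Finite.iff_fg.mpr hfin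
  exact LinearMap.finrank_le_finrank_of_injective hinj

/-- A function without poles is constant (from: principal divisors have degree zero, places have
degree one, and there is at least one place). -/
theorem ns_const_of_rr_zero (hdeg : ∀ Q : Place k Fb, Q.deg = 1)
    (hpd : ∀ x : Fb, x ≠ 0 → ∃ H : Divisor k Fb, (∀ P, H P = P.ord x) ∧ Divisor.degree H = 0)
    (P₀ : Place k Fb) {y : Fb} (hy : y ∈ riemannRochSpace (0 : Divisor k Fb)) :
    ∃ a : k, y = algebraMap k Fb a := by
  have hy1 : ∀ P : Place k Fb, P.adicValuation y ≤ 1 := by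
    intro P
    have := hy P
    rwa [Finsupp.coe_zero, Pi.zero_apply, WithZero.exp_zero] at this
  obtain ⟨a, ha⟩ := ns_exists_const P₀ (hdeg P₀) (hy1 P₀)
  refine ⟨a, ?_⟩
  by_contra hne
  have hx0 : y - algebraMap k Fb a ≠ 0 := sub_ne_zero.mpr hne
  obtain ⟨H, hH, hH0⟩ := hpd _ hx0
  have hHnn : ∀ P, 0 ≤ H P := by
    intro P
    rw [hH P]
    have h1 : P.adicValuation (y - algebraMap k Fb a) ≤ 1 :=
      (Valuation.map_sub _ _ _).trans (max_le (hy1 P) (P.adicValuation_algebraMap_le_one a))
    exact ((P.adicValuation_le_one_iff).mp h1).resolve_left hx0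
  have hHP₀ : 1 ≤ H P₀ := by
    rw [hH P₀]
    exact ((ts_val_lt_one_iff P₀).mp ha).resolve_left hx0
  have hle : Finsupp.single P₀ (1 : ℤ) ≤ H := by
    classical
    intro Q
    rw [Finsupp.single_apply]
    split_ifs with hQ
    · subst hQ; exact hHP₀
    · exact hHnn Q
  have := ns_degree_mono hle
  rw [ns_degree_single_one hdeg, hH0] at this
  omega

/-- **Greedy step.** -/
theorem ns_exists_next (hdeg : ∀ Q : Place k Fb, Q.deg = 1)
    (hpd : ∀ x : Fb, x ≠ 0 → ∃ H : Divisor k Fb, (∀ P, H P = P.ord x) ∧ Divisor.degree H = 0)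
    (γ : ℤ) (hRiem : ∀ G : Divisor k Fb, γ ≤ Divisor.degree G →
      ∃ x : Fb, x ≠ 0 ∧ x ∈ riemannRochSpace G)
    (hinf : ∀ S : Finset (Place k Fb), ∃ P, P ∉ S)
    (D₀ : Divisor k Fb) (hD₀fin : (riemannRochSpace D₀).FG) (g : ℕ)
    (hD₀ : (Module.finrank k (riemannRochSpace D₀) : ℤ) + g ≤ Divisor.degree D₀ + 1)
    (E : Divisor k Fb) (hE0 : 0 ≤ E) (hEdeg : Divisor.degree E < g)
    (hEconst : ∀ y ∈ riemannRochSpace E, ∃ a : k, y = algebraMap k Fb a)
    (S : Finset (Place k Fb)) :
    ∃ P, P ∉ S ∧ P ∉ E.support ∧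
      ∀ y ∈ riemannRochSpace (E + Finsupp.single P 1), ∃ a : k, y = algebraMap k Fb a := by
  classical
  by_contra hcon
  have hcon' : ∀ P, P ∉ S ∪ E.support →
      ∃ y, y ∈ riemannRochSpace (E + Finsupp.single P 1) ∧ ¬ ∃ a : k, y = algebraMap k Fb a := by
    intro P hP
    rw [Finset.mem_union, not_or] at hP
    by_contra h
    apply hcon
    refine ⟨P, hP.1, hP.2, fun y hy => ?_⟩
    by_contra hy'
    exact h ⟨y, hy, hy'⟩
  choose! f hf hfnc using hcon'
  -- the big set of places
  set n : ℕ := (γ + Divisor.degree D₀ - Divisor.degree E).toNat with hn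
  obtain ⟨T, hTcard, hTdisj⟩ := ns_exists_finset hinf (S ∪ E.support) n
  -- `1 ∈ L(E)` and `L(E) = span {1}`
  have h1E : (1 : Fb) ∈ riemannRochSpace E := by
    intro P
    rw [map_one, ← WithZero.exp_zero, WithZero.exp_le_exp]
    exact Finsupp.le_def.mp hE0 P
  have hEspan : riemannRochSpace E = Submodule.span k {(1 : Fb)} := by
    apply le_antisymm
    · intro y hy
      obtain ⟨a, rfl⟩ := hEconst y hy
      rw [Submodule.mem_span_singleton]
      exact ⟨a, by rw [Algebra.smul_def, mul_one]⟩
    · rw [Submodule.span_le, Set.singleton_subset_iff]; exact h1E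
  -- dimension growth along subsets of `T`
  have hgrow : ∀ T' : Finset (Place k Fb), T' ⊆ T →
      (riemannRochSpace (ns_DT E T')).FG ∧
        T'.card + 1 ≤ Module.finrank k (riemannRochSpace (ns_DT E T')) := by
    intro T'
    induction T' using Finset.induction_on with
    | empty =>
      intro _
      rw [ns_DT_empty, hEspan]
      refine ⟨Submodule.fg_span_singleton _, ?_⟩
      rw [finrank_span_singleton (one_ne_zero)]
      simp
    | insert P T' hP ih =>
      intro hsub
      have hPT : P ∈ T := hsub (Finset.mem_insert_self P T')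
      have hT'sub : T' ⊆ T := fun Q hQ => hsub (Finset.mem_insert_of_mem hQ)
      obtain ⟨hfin, hrank⟩ := ih hT'sub
      have hPS : P ∉ S ∪ E.support := Finset.disjoint_left.mp hTdisj hPT
      have hEP : E P = 0 := by
        rw [Finset.mem_union, not_or] at hPS
        exact Finsupp.notMem_support_iff.mp hPS.2
      obtain ⟨hfin', -⟩ := ns_fg_step P (hdeg P) (ns_DT E T') hfin
      rw [← ns_DT_insert E hP] at hfin'
      refine ⟨hfin', ?_⟩
      have hfP_mem : f P ∈ riemannRochSpace (ns_DT E (insert P T')) :=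
        ns_rr_mono (ns_add_single_le_DT E (Finset.mem_insert_self P T')) (hf P hPS)
      have hfP_not : f P ∉ riemannRochSpace (ns_DT E T') := by
        intro hmem
        apply hfnc P hPS
        apply hEconst
        intro Q
        by_cases hQ : Q = P
        · subst hQ
          have := hmem Q
          rwa [ns_DT_apply_of_notMem E hP] at this
        · have := hf P hPS Q
          rwa [ns_add_single_apply_of_ne E hQ] at this
      have hlt : riemannRochSpace (ns_DT E T') < riemannRochSpace (ns_DT E (insert P T')) := by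
        refine lt_of_le_of_ne ?_ ?_
        · rw [ns_DT_insert E hP]; exact ns_rr_mono (ns_le_add_single _ _)
        · intro heq
          rw [heq] at hfP_not
          exact hfP_not hfP_mem
      have : Module.Finite k (riemannRochSpace (ns_DT E (insert P T'))) :=
        Module.Finite.iff_fg.mpr hfin'
      have := Submodule.finrank_lt_finrank_of_lt hlt
      rw [Finset.card_insert_of_notMem hP]
      omega
  obtain ⟨hDTfin, hDTrank⟩ := hgrow T subset_rfl
  -- Riemann on `DT - D₀`
  have hdegDT : Divisor.degree (ns_DT E T) = Divisor.degree E + n := by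
    rw [ns_degree_DT hdeg, hTcard]
  have hγ : γ ≤ Divisor.degree (ns_DT E T - D₀) := by
    rw [map_sub, hdegDT, hn]
    have := Int.self_le_toNat (γ + Divisor.degree D₀ - Divisor.degree E)
    omega
  obtain ⟨h, hh0, hhmem⟩ := hRiem _ hγ
  obtain ⟨H, hH, hHdeg⟩ := hpd h hh0
  have hle : D₀ ≤ ns_DT E T + H := by
    intro P
    have := ((mem_riemannRochSpace_iff.mp hhmem) P).resolve_left hh0
    rw [Finsupp.sub_apply] at this
    rw [Finsupp.add_apply, hH P]
    omega
  obtain ⟨hfin', hrank'⟩ := ns_finrank_le_of_le' hdeg hle hD₀fin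
  have hmul := ns_finrank_le_mul (D := ns_DT E T) hh0 hH hfin'
  rw [map_add, hHdeg, hdegDT] at hrank'
  have h3 : ((T.card : ℤ) + 1) ≤ Module.finrank k (riemannRochSpace (ns_DT E T + H)) := by
    exact_mod_cast hDTrank.trans hmul
  rw [hTcard] at h3
  omega

theorem ns_sumSingle_nonneg {n : ℕ} (Qs : Fin n → Place k Fb) :
    (0 : Divisor k Fb) ≤ ∑ i, Finsupp.single (Qs i) (1 : ℤ) := by
  classical
  refine Finset.sum_nonneg fun i _ => ?_
  intro R
  rw [Finsupp.single_apply]
  simp only [Finsupp.coe_zero, Pi.zero_apply]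
  split_ifs <;> omega

theorem ns_degree_sumSingle (hdeg : ∀ Q : Place k Fb, Q.deg = 1) {n : ℕ}
    (Qs : Fin n → Place k Fb) :
    Divisor.degree (∑ i, Finsupp.single (Qs i) (1 : ℤ)) = n := by
  rw [map_sum]
  simp only [ns_degree_single_one hdeg, Finset.sum_const, Finset.card_univ, Fintype.card_fin,
    nsmul_eq_mul, mul_one]

theorem ns_mem_support_sumSingle {n : ℕ} (Qs : Fin n → Place k Fb) (i : Fin n) :
    Qs i ∈ (∑ j, Finsupp.single (Qs j) (1 : ℤ)).support := by
  classical
  rw [Finsupp.mem_support_iff, Finsupp.finsetSum_apply]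
  have h1 : ∀ j ∈ Finset.univ, (0 : ℤ) ≤ (Finsupp.single (Qs j) (1 : ℤ)) (Qs i) := by
    intro j _
    rw [Finsupp.single_apply]
    split_ifs <;> omega
  have h2 : (Finsupp.single (Qs i) (1 : ℤ)) (Qs i) ≤
      ∑ j, (Finsupp.single (Qs j) (1 : ℤ)) (Qs i) :=
    Finset.single_le_sum (f := fun j => (Finsupp.single (Qs j) (1 : ℤ)) (Qs i)) h1
      (Finset.mem_univ i)
  rw [Finsupp.single_eq_same] at h2
  omega

/-- **Greedy non-special divisor.**  If some divisor `D₀` has `dim L(D₀) + g ≤ deg D₀ + 1`, then
for every finite set `S` of places there are `g` distinct places outside `S` whose sum `E` has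
`L(E) = k`. -/
theorem ns_exists_nonspecial (hdeg : ∀ Q : Place k Fb, Q.deg = 1)
    (hpd : ∀ x : Fb, x ≠ 0 → ∃ H : Divisor k Fb, (∀ P, H P = P.ord x) ∧ Divisor.degree H = 0)
    (γ : ℤ) (hRiem : ∀ G : Divisor k Fb, γ ≤ Divisor.degree G →
      ∃ x : Fb, x ≠ 0 ∧ x ∈ riemannRochSpace G)
    (hinf : ∀ S : Finset (Place k Fb), ∃ P, P ∉ S)
    (D₀ : Divisor k Fb) (hD₀fin : (riemannRochSpace D₀).FG) (g : ℕ)
    (hD₀ : (Module.finrank k (riemannRochSpace D₀) : ℤ) + g ≤ Divisor.degree D₀ + 1)
    (S : Finset (Place k Fb)) :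
    ∃ Qs : Fin g → Place k Fb, Function.Injective Qs ∧ (∀ i, Qs i ∉ S) ∧
      ∀ y : Fb, y ∈ riemannRochSpace (∑ i, Finsupp.single (Qs i) (1 : ℤ)) →
        ∃ a : k, y = algebraMap k Fb a := by
  classical
  have key : ∀ j : ℕ, j ≤ g → ∃ Qs : Fin j → Place k Fb, Function.Injective Qs ∧
      (∀ i, Qs i ∉ S) ∧
      ∀ y : Fb, y ∈ riemannRochSpace (∑ i, Finsupp.single (Qs i) (1 : ℤ)) →
        ∃ a : k, y = algebraMap k Fb a := by
    intro j
    induction j with
    | zero =>
      intro _
      obtain ⟨P₀, -⟩ := hinf ∅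
      refine ⟨Fin.elim0, fun i => i.elim0, fun i => i.elim0, fun y hy => ?_⟩
      rw [Finset.univ_eq_empty, Finset.sum_empty] at hy
      exact ns_const_of_rr_zero hdeg hpd P₀ hy
    | succ j ih =>
      intro hj
      obtain ⟨Qs, hinj, hS, hconst⟩ := ih (Nat.le_of_succ_le hj)
      set E : Divisor k Fb := ∑ i, Finsupp.single (Qs i) (1 : ℤ) with hE
      have hEdeg : Divisor.degree E < g := by
        rw [hE, ns_degree_sumSingle hdeg]
        exact_mod_cast hj
      obtain ⟨P, hPS, hPE, hPconst⟩ := ns_exists_next hdeg hpd γ hRiem hinf D₀ hD₀fin g hD₀ E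
        (ns_sumSingle_nonneg Qs) hEdeg hconst S
      refine ⟨Fin.cons P Qs, ?_, ?_, ?_⟩
      · rw [Fin.cons_injective_iff]
        refine ⟨?_, hinj⟩
        rintro ⟨i, hi⟩
        apply hPE
        rw [← hi]
        exact ns_mem_support_sumSingle Qs i
      · intro i
        refine Fin.cases ?_ (fun i' => ?_) i
        · rw [Fin.cons_zero]; exact hPS
        · rw [Fin.cons_succ]; exact hS i'
      · intro y hy
        apply hPconst
        rw [Fin.sum_univ_succ] at hy
        simp only [Fin.cons_zero, Fin.cons_succ] at hy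
        rwa [add_comm] at hy
  exact key g le_rfl

end Greedy

end Fermat.Agent.S18x
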