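/-
S18x/TsLocal (helper80): the local computation in one residue disc for the torsion step of S18.
If `f₁ ≡ 1`, `div f₁ = p (P' - P₁)` inside the disc of `Q`, the disc is uniformised by an element
`T` of the Gauss ring (no poles in the disc, reduction a uniformiser at `Q`), and
`f₁ - lam = c * u'` with `u'` in the Gauss ring, then the reduction of `u'` has at most a SIMPLE
pole at `Q`.  Uses `p ≠ 0` in the residue field.
-/
import Fermat.Agent.S18x.TsBasic

set_option autoImplicit false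

namespace Fermat.Agent.S18x

open AlgebraicCurve WithZero

section Local

variable {L k F Fb : Type*} [Field L] [Field k] [Field F] [Field Fb] [Algebra L F] [Algebra k Fb]
variable {A : ValuationSubring L} {π : A →+* k} {W : ValuationSubring F} {ρ : W →+* Fb}
  {r : Place L F → Place k Fb}

theorem ts_ord_pow {K' F' : Type*} [Field K'] [Field F'] [Algebra K' F'] (P : Place K' F')
    (x : F') (n : ℕ) : P.ord (x ^ n) = n * P.ord x := by
  have := P.ord_zpow x (n : ℤ)
  rwa [zpow_natCast] at this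

/-- In the disc of `Q`, an element `a` of `W`, regular on the disc, whose reduction has a simple
zero at `Q` and which vanishes at `P₁`, has a simple zero at `P₁` and no other zero in the disc. -/
theorem ts_Hyp.simple_zero (H : ts_Hyp A π W ρ r) (a : W) (Q : Place k Fb)
    (hQ : Q.ord (ρ a) = 1) (hreg : ∀ P, r P = Q → P.adicValuation (a : F) ≤ 1)
    (P₁ : Place L F) (hP₁ : r P₁ = Q) (hv : P₁.adicValuation (a : F) < 1) :
    P₁.ord (a : F) = 1 ∧ ∀ P, r P = Q → P ≠ P₁ → P.ord (a : F) = 0 := by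
  have hρ : ρ a ≠ 0 := by
    intro h; rw [h, Place.ord_zero] at hQ; exact absurd hQ (by norm_num)
  have ha0 : (a : F) ≠ 0 := by
    intro h
    apply hρ
    have : a = 0 := Subtype.ext h
    rw [this, map_zero]
  obtain ⟨D, hD⟩ := H.hpd (a : F) ha0
  have hc := H.compat a hρ D hD Q
  rw [hQ] at hc
  have hnn : ∀ P, r P = Q → 0 ≤ D P := by
    intro P hP
    rw [hD P]
    exact ((P.adicValuation_le_one_iff).mp (hreg P hP)).resolve_left ha0
  obtain ⟨P₀, hP₀, hD₀, hrest⟩ := ts_disc_unique r D Q hnn hc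
  have h1 : 1 ≤ D P₁ := by
    rw [hD P₁]; exact ((ts_val_lt_one_iff P₁).mp hv).resolve_left ha0
  have hEq : P₁ = P₀ := by
    by_contra hne
    have := hrest P₁ hP₁ hne
    omega
  subst hEq
  refine ⟨by rw [← hD P₁]; exact hD₀, fun P hP hne => ?_⟩
  rw [← hD P]
  exact hrest P hP hne

theorem ts_rho_unit_inv (hker : ∀ x : W, ρ x = 0 ↔ ¬ IsUnit x) (b : W) (hb : ρ b ≠ 0) :
    ∃ ib : W, b * ib = 1 ∧ ρ ib = (ρ b)⁻¹ ∧ (ib : F) = (b : F)⁻¹ := by
  have hu : IsUnit b := by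
    by_contra h
    exact hb ((hker b).mpr h)
  obtain ⟨ub, rfl⟩ := hu
  refine ⟨(↑ub⁻¹ : W), ub.mul_inv, ?_, ?_⟩
  · have h : ρ (ub : W) * ρ (↑ub⁻¹ : W) = 1 := by rw [← map_mul, ub.mul_inv, map_one]
    exact (inv_eq_of_mul_eq_one_right h).symm
  · have h : ((ub : W) : F) * ((↑ub⁻¹ : W) : F) = 1 := by
      have h1 : ((ub : W) * (↑ub⁻¹ : W) : W) = 1 := ub.mul_inv
      exact congrArg (Subtype.val) h1
    exact (inv_eq_of_mul_eq_one_right h).symm

/-- **Local lemma**: at most a simple pole at `Q` for the reduction of `u' = (f₁ - lam)/c`. -/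
theorem ts_Hyp.local_simple_pole (H : ts_Hyp A π W ρ r) (Q : Place k Fb)
    (T : W) (hTQ : Q.ord (ρ T) = 1) (hTreg : ∀ P, r P = Q → P.adicValuation (T : F) ≤ 1)
    (p : ℕ) (hp : (p : k) ≠ 0)
    (f₁ : W) (hf₁ : ρ f₁ = 1)
    (P₁ P' : Place L F) (hP₁ : r P₁ = Q) (hP' : r P' = Q)
    (B E : Place L F → ℤ)
    (hE₁ : E P₁ = 1) (hE₀ : ∀ P, r P = Q → P ≠ P₁ → E P = 0)
    (hB₁ : B P' = 1) (hB₀ : ∀ P, r P = Q → P ≠ P' → B P = 0)
    (hord : ∀ P, r P = Q → P.ord (f₁ : F) = p * (B P - E P))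
    (lam : L) (hlam : lam ∈ A) (hπlam : π ⟨lam, hlam⟩ = 1)
    (c : L) (hc : c ∈ A) (hc0 : c ≠ 0)
    (u' : W) (hu' : (f₁ : F) - algebraMap L F lam = algebraMap L F c * (u' : F)) :
    Q.adicValuation (ρ u') ≤ exp (1 : ℤ) := by
  -- basic facts on t = ρ T
  have ht0 : ρ T ≠ 0 := by
    intro h; rw [h, Place.ord_zero] at hTQ; exact absurd hTQ (by norm_num)
  have htv : Q.adicValuation (ρ T) < 1 :=
    (ts_val_lt_one_iff Q).mpr (Or.inr (by rw [hTQ]))
  -- Step 1: normalise T at P₁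
  obtain ⟨τ₀, hτ₀A, hτ₀v, hτ₀Q⟩ := H.value T Q hTreg P₁ hP₁
  have hπτ₀ : π ⟨τ₀, hτ₀A⟩ = 0 := by
    apply ts_const_eq_zero_of_van Q
    have : algebraMap k Fb (π ⟨τ₀, hτ₀A⟩) = ρ T - (ρ T - algebraMap k Fb (π ⟨τ₀, hτ₀A⟩)) := by ring
    rw [this]
    exact lt_of_le_of_lt (Valuation.map_sub _ _ _) (max_lt htv hτ₀Q)
  let τ₀W : W := ⟨algebraMap L F τ₀, H.algW hτ₀A⟩
  let a : W := T - τ₀W
  have hρa : ρ a = ρ T := by
    show ρ (T - τ₀W) = ρ T
    rw [map_sub, H.rho_alg τ₀ hτ₀A, hπτ₀, map_zero, sub_zero]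
  have haF : (a : F) = (T : F) - algebraMap L F τ₀ := rfl
  have hareg : ∀ P, r P = Q → P.adicValuation (a : F) ≤ 1 := by
    intro P hP
    rw [haF]
    exact (Valuation.map_sub _ _ _).trans
      (max_le (hTreg P hP) (P.adicValuation_algebraMap_le_one _))
  have hav : P₁.adicValuation (a : F) < 1 := by rw [haF]; exact hτ₀v
  have haQ : Q.ord (ρ a) = 1 := by rw [hρa]; exact hTQ
  obtain ⟨ha₁, ha₀⟩ := H.simple_zero a Q haQ hareg P₁ hP₁ hav
  -- Step 2: value of a at P'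
  obtain ⟨τ, hτA, hτv, hτQ⟩ := H.value a Q hareg P' hP'
  have hπτ : π ⟨τ, hτA⟩ = 0 := by
    apply ts_const_eq_zero_of_van Q
    have : algebraMap k Fb (π ⟨τ, hτA⟩) = ρ a - (ρ a - algebraMap k Fb (π ⟨τ, hτA⟩)) := by ring
    rw [this]
    exact lt_of_le_of_lt (Valuation.map_sub _ _ _) (max_lt (by rw [hρa]; exact htv) hτQ)
  let τW : W := ⟨algebraMap L F τ, H.algW hτA⟩
  have hρτW : ρ τW = 0 := by
    show ρ ⟨algebraMap L F τ, H.algW hτA⟩ = 0
    rw [H.rho_alg τ hτA, hπτ, map_zero]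
  let b : W := a - τW
  have hρb : ρ b = ρ T := by
    show ρ (a - τW) = ρ T
    rw [map_sub, hρτW, sub_zero, hρa]
  have hbF : (b : F) = (a : F) - algebraMap L F τ := rfl
  have hbreg : ∀ P, r P = Q → P.adicValuation (b : F) ≤ 1 := by
    intro P hP
    rw [hbF]
    exact (Valuation.map_sub _ _ _).trans
      (max_le (hareg P hP) (P.adicValuation_algebraMap_le_one _))
  have hbv : P'.adicValuation (b : F) < 1 := by rw [hbF]; exact hτv
  have hbQ : Q.ord (ρ b) = 1 := by rw [hρb]; exact hTQ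
  obtain ⟨hb₁, hb₀⟩ := H.simple_zero b Q hbQ hbreg P' hP' hbv
  -- orders of a, b on the disc in terms of E, B
  have hordA : ∀ P, r P = Q → P.ord (a : F) = E P := by
    intro P hP
    by_cases h : P = P₁
    · subst h; rw [ha₁, hE₁]
    · rw [ha₀ P hP h, hE₀ P hP h]
  have hordB : ∀ P, r P = Q → P.ord (b : F) = B P := by
    intro P hP
    by_cases h : P = P'
    · subst h; rw [hb₁, hB₁]
    · rw [hb₀ P hP h, hB₀ P hP h]
  -- inverses
  obtain ⟨ia, hia, hρia, hiaF⟩ := ts_rho_unit_inv (F := F) H.ker a (by rw [hρa]; exact ht0)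
  obtain ⟨ib, hib, hρib, hibF⟩ := ts_rho_unit_inv (F := F) H.ker b (by rw [hρb]; exact ht0)
  -- binomial expansion: b^p = a^p + p a^(p-1) (-τ) + K τ²
  obtain ⟨K, hK⟩ := Polynomial.powAddExpansion a (-τW) p
  have hb_eq : b = a + -τW := by show a - τW = a + -τW; ring
  let S : W := (p : W) * a ^ (p - 1) - K * τW
  have hS : a ^ p - b ^ p = τW * S := by
    rw [hb_eq, hK]; show _ = τW * ((p : W) * a ^ (p - 1) - K * τW); ring
  have hρS : ρ S = (p : Fb) * (ρ T) ^ (p - 1) := by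
    show ρ ((p : W) * a ^ (p - 1) - K * τW) = _
    rw [map_sub, map_mul, map_mul, map_pow, hρτW, mul_zero, sub_zero, map_natCast, hρa]
  -- ε
  let ε : W := f₁ * a ^ p * ib ^ p
  have hρε : ρ ε = 1 := by
    show ρ (f₁ * a ^ p * ib ^ p) = 1
    rw [map_mul, map_mul, map_pow, map_pow, hf₁, hρa, hρib, hρb, one_mul, ← mul_pow,
      mul_inv_cancel₀ ht0, one_pow]
  have hf₁0 : (f₁ : F) ≠ 0 := by
    intro h
    have : f₁ = 0 := Subtype.ext h
    rw [this, map_zero] at hf₁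
    exact zero_ne_one hf₁
  have ha0 : (a : F) ≠ 0 := by
    intro h
    have : a = 0 := Subtype.ext h
    rw [this, map_zero] at hρa
    exact ht0 hρa.symm
  have hb0 : (b : F) ≠ 0 := by
    intro h
    have : b = 0 := Subtype.ext h
    rw [this, map_zero] at hρb
    exact ht0 hρb.symm
  have hεF : (ε : F) = (f₁ : F) * (a : F) ^ p * ((b : F)⁻¹) ^ p := by
    show (f₁ : F) * (a : F) ^ p * (ib : F) ^ p = _
    rw [hibF]
  have hε0 : (ε : F) ≠ 0 := by
    rw [hεF]
    exact mul_ne_zero (mul_ne_zero hf₁0 (pow_ne_zero _ ha0)) (pow_ne_zero _ (inv_ne_zero hb0))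
  have hεord : ∀ P, r P = Q → P.ord (ε : F) = 0 := by
    intro P hP
    rw [hεF, P.ord_mul (mul_ne_zero hf₁0 (pow_ne_zero _ ha0)) (pow_ne_zero _ (inv_ne_zero hb0)),
      P.ord_mul hf₁0 (pow_ne_zero _ ha0), ts_ord_pow, ts_ord_pow, P.ord_inv, hord P hP,
      hordA P hP, hordB P hP]
    ring
  have hεval : ∀ P, r P = Q → P.adicValuation (ε : F) = 1 := fun P hP =>
    (ts_val_eq_one_iff P hε0).mpr (hεord P hP)
  let lamW : W := ⟨algebraMap L F lam, H.algW hlam⟩
  have hρlam : ρ lamW = 1 := by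
    show ρ ⟨algebraMap L F lam, H.algW hlam⟩ = 1
    rw [H.rho_alg lam hlam, hπlam, map_one]
  have hεlam_reg : ∀ P, r P = Q → P.adicValuation ((ε : F) - algebraMap L F lam) ≤ 1 := by
    intro P hP
    exact (Valuation.map_sub _ _ _).trans
      (max_le (le_of_eq (hεval P hP)) (P.adicValuation_algebraMap_le_one _))
  let cW : W := ⟨algebraMap L F c, H.algW hc⟩
  have hfl : f₁ - lamW = cW * u' := Subtype.ext hu'
  have hpFb : (p : Fb) ≠ 0 := by
    have : (p : Fb) = algebraMap k Fb (p : k) := by rw [map_natCast]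
    rw [this]
    exact (map_ne_zero_iff _ (algebraMap k Fb).injective).mpr hp
  have hQp : Q.adicValuation (p : Fb) = 1 := by
    have : (p : Fb) = algebraMap k Fb (p : k) := by rw [map_natCast]
    rw [this]
    exact ts_val_algebraMap Q hp
  have hpole : Q.adicValuation ((p : Fb) * (ρ T) ^ (p - 1) * ((ρ T)⁻¹) ^ p) = exp (1 : ℤ) := by
    have hp1 : 1 ≤ p := by
      rcases Nat.eq_zero_or_pos p with h | h
      · subst h; simp at hp
      · exact h
    have : (p : Fb) * (ρ T) ^ (p - 1) * ((ρ T)⁻¹) ^ p = (p : Fb) * (ρ T)⁻¹ := by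
      obtain ⟨m, rfl⟩ : ∃ m, p = m + 1 := ⟨p - 1, by omega⟩
      rw [Nat.add_sub_cancel, pow_succ ((ρ T)⁻¹), ← mul_assoc, mul_assoc (_ : Fb) ((ρ T) ^ m),
        ← mul_pow, mul_inv_cancel₀ ht0, one_pow, mul_one]
    rw [this, map_mul, hQp, one_mul, map_inv₀, Q.adicValuation_eq_exp_neg_ord ht0, hTQ,
      ← WithZero.exp_neg, neg_neg]
  -- case split
  by_cases hdiv : τ * c⁻¹ ∈ A
  · -- case (b)
    let κ : W := ⟨algebraMap L F (τ * c⁻¹), H.algW hdiv⟩
    have hκ : τW = κ * cW := by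
      apply Subtype.ext
      show algebraMap L F τ = algebraMap L F (τ * c⁻¹) * algebraMap L F c
      rw [← map_mul, mul_assoc, inv_mul_cancel₀ hc0, mul_one]
    let R₂ : W := -(S * ia ^ p)
    let X : W := u' - ε * κ * R₂
    have hkey : cW * X = ε - lamW := by
      have h1 : ε * b ^ p * ia ^ p = f₁ := by
        show f₁ * a ^ p * ib ^ p * b ^ p * ia ^ p = f₁
        have e1 : ib ^ p * b ^ p = 1 := by rw [← mul_pow, mul_comm, hib, one_pow]
        have e2 : a ^ p * ia ^ p = 1 := by rw [← mul_pow, hia, one_pow]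
        calc f₁ * a ^ p * ib ^ p * b ^ p * ia ^ p
            = f₁ * (a ^ p * ia ^ p) * (ib ^ p * b ^ p) := by ring
          _ = f₁ := by rw [e1, e2, mul_one, mul_one]
      have h2 : f₁ - ε = ε * τW * R₂ := by
        have e2 : a ^ p * ia ^ p = 1 := by rw [← mul_pow, hia, one_pow]
        have : ε * τW * R₂ = ε * (b ^ p - a ^ p) * ia ^ p := by
          show ε * τW * (-(S * ia ^ p)) = _
          have : b ^ p - a ^ p = -(τW * S) := by rw [← hS]; ring
          rw [this]; ring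
        rw [this]
        calc f₁ - ε = ε * b ^ p * ia ^ p - ε * (a ^ p * ia ^ p) := by rw [h1, e2, mul_one]
          _ = ε * (b ^ p - a ^ p) * ia ^ p := by ring
      show cW * (u' - ε * κ * R₂) = ε - lamW
      calc cW * (u' - ε * κ * R₂) = cW * u' - ε * (κ * cW) * R₂ := by ring
        _ = (f₁ - lamW) - (f₁ - ε) := by rw [← hfl, ← hκ, ← h2]
        _ = ε - lamW := by ring
    have hXF : (X : F) = (algebraMap L F c)⁻¹ * ((ε : F) - algebraMap L F lam) := by
      have h := congrArg (Subtype.val) hkey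
      have h' : algebraMap L F c * (X : F) = (ε : F) - algebraMap L F lam := h
      rw [← h', ← mul_assoc, inv_mul_cancel₀ (by simpa using hc0), one_mul]
    have hXreg : ∀ P, r P = Q → P.adicValuation (X : F) ≤ 1 := by
      intro P hP
      rw [hXF, map_mul, map_inv₀, ts_val_algebraMap P hc0, inv_one, one_mul]
      exact hεlam_reg P hP
    have hρX := H.reg_of_disc X Q hXreg
    have hρR₂ : ρ R₂ = -((p : Fb) * (ρ T) ^ (p - 1) * ((ρ T)⁻¹) ^ p) := by
      show ρ (-(S * ia ^ p)) = _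
      rw [map_neg, map_mul, map_pow, hρS, hρia, hρa]
    have hρu' : ρ u' = ρ X + ρ κ * (-((p : Fb) * (ρ T) ^ (p - 1) * ((ρ T)⁻¹) ^ p)) := by
      have hux : u' = X + ε * κ * R₂ := by
        show u' = u' - ε * κ * R₂ + ε * κ * R₂
        ring
      calc ρ u' = ρ (X + ε * κ * R₂) := by rw [← hux]
        _ = ρ X + ρ ε * ρ κ * ρ R₂ := by rw [map_add, map_mul, map_mul]
        _ = ρ X + ρ κ * (-((p : Fb) * (ρ T) ^ (p - 1) * ((ρ T)⁻¹) ^ p)) := by
            rw [hρε, hρR₂, one_mul]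
    rw [hρu']
    refine (Valuation.map_add _ _ _).trans (max_le (hρX.trans ?_) ?_)
    · rw [← WithZero.exp_zero]; exact WithZero.exp_le_exp.mpr (by norm_num)
    · rw [map_mul, Valuation.map_neg, hpole]
      have hκv : Q.adicValuation (ρ κ) ≤ 1 := by
        show Q.adicValuation (ρ ⟨algebraMap L F (τ * c⁻¹), H.algW hdiv⟩) ≤ 1
        rw [H.rho_alg _ hdiv]
        exact Q.adicValuation_algebraMap_le_one _
      exact mul_le_of_le_one_left' hκv
  · -- case (a): contradiction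
    exfalso
    have hτ0 : τ ≠ 0 := by
      intro h; apply hdiv; rw [h, zero_mul]; exact A.zero_mem
    have hinv : (τ * c⁻¹)⁻¹ ∈ A := (A.mem_or_inv_mem _).resolve_left hdiv
    have hinv' : c * τ⁻¹ ∈ A := by
      have : (τ * c⁻¹)⁻¹ = c * τ⁻¹ := by rw [mul_inv, inv_inv, mul_comm]
      rwa [this] at hinv
    have hπ0 : π ⟨c * τ⁻¹, hinv'⟩ = 0 := by
      apply H.pi_eq_zero hinv'
      have : (c * τ⁻¹)⁻¹ = τ * c⁻¹ := by rw [mul_inv, inv_inv, mul_comm]
      rwa [this]
    let μ : W := ⟨algebraMap L F (c * τ⁻¹), H.algW hinv'⟩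
    have hρμ : ρ μ = 0 := by
      show ρ ⟨algebraMap L F (c * τ⁻¹), H.algW hinv'⟩ = 0
      rw [H.rho_alg _ hinv', hπ0, map_zero]
    have hμ : cW = μ * τW := by
      apply Subtype.ext
      show algebraMap L F c = algebraMap L F (c * τ⁻¹) * algebraMap L F τ
      rw [← map_mul, mul_assoc, inv_mul_cancel₀ hτ0, mul_one]
    let R₁ : W := S * ib ^ p
    let Y : W := μ * u' * (a ^ p * ib ^ p) + lamW * R₁
    have hkey : τW * Y = ε - lamW := by
      have e1 : b ^ p * ib ^ p = 1 := by rw [← mul_pow, hib, one_pow]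
      have h3 : a ^ p * ib ^ p - 1 = τW * S * ib ^ p := by
        rw [← hS]
        calc a ^ p * ib ^ p - 1 = a ^ p * ib ^ p - b ^ p * ib ^ p := by rw [e1]
          _ = (a ^ p - b ^ p) * ib ^ p := by ring
      show τW * (μ * u' * (a ^ p * ib ^ p) + lamW * (S * ib ^ p)) = ε - lamW
      calc τW * (μ * u' * (a ^ p * ib ^ p) + lamW * (S * ib ^ p))
          = (μ * τW) * u' * (a ^ p * ib ^ p) + lamW * (τW * S * ib ^ p) := by ring
        _ = (f₁ - lamW) * (a ^ p * ib ^ p) + lamW * (a ^ p * ib ^ p - 1) := by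
            rw [← hμ, ← hfl, ← h3]
        _ = f₁ * a ^ p * ib ^ p - lamW := by ring
    have hYF : (Y : F) = (algebraMap L F τ)⁻¹ * ((ε : F) - algebraMap L F lam) := by
      have h := congrArg (Subtype.val) hkey
      have h' : algebraMap L F τ * (Y : F) = (ε : F) - algebraMap L F lam := h
      rw [← h', ← mul_assoc, inv_mul_cancel₀ (by simpa using hτ0), one_mul]
    have hYreg : ∀ P, r P = Q → P.adicValuation (Y : F) ≤ 1 := by
      intro P hP
      rw [hYF, map_mul, map_inv₀, ts_val_algebraMap P hτ0, inv_one, one_mul]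
      exact hεlam_reg P hP
    have hρY := H.reg_of_disc Y Q hYreg
    have hρYeq : ρ Y = (p : Fb) * (ρ T) ^ (p - 1) * ((ρ T)⁻¹) ^ p := by
      show ρ (μ * u' * (a ^ p * ib ^ p) + lamW * (S * ib ^ p)) = _
      rw [map_add, map_mul, map_mul, hρμ, zero_mul, zero_mul, zero_add, map_mul, hρlam, one_mul,
        map_mul, map_pow, hρS, hρib, hρb]
    rw [hρYeq, hpole] at hρY
    have : ¬ (exp (1 : ℤ) : ℤᵐ⁰) ≤ 1 := by
      rw [← WithZero.exp_zero, WithZero.exp_le_exp]; norm_num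
    exact this hρY

end Local

end Fermat.Agent.S18x
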