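/-
S18x/TsMain (helper80): THE TORSION STEP of S18 in abstract form (no modular curves, no models,
no formal functions, no Jacobians): under a divisor-compatible place reduction `r` with
Gauss ring `W`, Riemann's inequality on `F` with constant `g`, a NON-SPECIAL multiplicity-free
divisor `Q_1 + ... + Q_g` on the reduced field and uniformisers of the residue discs of the `Q_i`,
every divisor `D` with `m • D = div f`, `f ≡ 1` (Gauss), `m` invertible in the residue field,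
is principal.
-/
import Fermat.Agent.S18x.TsLocal

set_option autoImplicit false

namespace Fermat.Agent.S18x

open AlgebraicCurve WithZero

section SumSingle

theorem ts_sumSingle_apply_self {α : Type*} {n : ℕ} (Ps : Fin n → α)
    (hinj : Function.Injective Ps) (i : Fin n) :
    (∑ j, Finsupp.single (Ps j) (1 : ℤ)) (Ps i) = 1 := by
  classical
  rw [Finsupp.finsetSum_apply, Finset.sum_eq_single i]
  · rw [Finsupp.single_eq_same]
  · intro j _ hji
    rw [Finsupp.single_apply, if_neg (fun h => hji (hinj h))]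
  · intro h; exact absurd (Finset.mem_univ i) h

theorem ts_sumSingle_apply_of_ne {α : Type*} {n : ℕ} (Ps : Fin n → α) (a : α)
    (h : ∀ j, Ps j ≠ a) : (∑ j, Finsupp.single (Ps j) (1 : ℤ)) a = 0 := by
  classical
  rw [Finsupp.finsetSum_apply]
  refine Finset.sum_eq_zero fun j _ => ?_
  rw [Finsupp.single_apply, if_neg (h j)]

theorem ts_mapDomain_sumSingle {α β : Type*} {n : ℕ} (r : α → β) (Ps : Fin n → α) :
    Finsupp.mapDomain r (∑ j, Finsupp.single (Ps j) (1 : ℤ))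
      = ∑ j, Finsupp.single (r (Ps j)) (1 : ℤ) := by
  rw [Finsupp.mapDomain_finsetSum]
  refine Finset.sum_congr rfl fun j _ => ?_
  rw [Finsupp.mapDomain_single]

end SumSingle

section Main

variable {L k F Fb : Type*} [Field L] [Field k] [Field F] [Field Fb] [Algebra L F] [Algebra k Fb]
variable {A : ValuationSubring L} {π : A →+* k} {W : ValuationSubring F} {ρ : W →+* Fb}
  {r : Place L F → Place k Fb}

theorem ts_ne_zero_of_rho_ne_zero {x : W} (hx : ρ x ≠ 0) : (x : F) ≠ 0 := by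
  intro h
  apply hx
  have : x = 0 := Subtype.ext h
  rw [this, map_zero]

/-- Normalisation: every nonzero element of `F` is a constant times a unit of `W`. -/
theorem ts_Hyp.exists_unit (H : ts_Hyp A π W ρ r) (x : F) (hx : x ≠ 0) :
    ∃ (c : L) (u : W), c ≠ 0 ∧ IsUnit u ∧ (u : F) = algebraMap L F c * x := by
  obtain ⟨c, hc, h1, h2⟩ := H.norm x hx
  refine ⟨c, ⟨algebraMap L F c * x, h1⟩, hc, ?_, rfl⟩
  exact ts_isUnit_of_inv_mem _ (mul_ne_zero (by simpa using hc) hx) h2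

theorem ts_Hyp.rho_ne_zero_of_isUnit (H : ts_Hyp A π W ρ r) {u : W} (hu : IsUnit u) : ρ u ≠ 0 :=
  fun h => ((H.ker u).mp h) hu

/-- Reduction of `L(E + D)` lands in `L(r_*(E + D))`: valuation form. -/
theorem ts_Hyp.rho_mem_rr (H : ts_Hyp A π W ρ r) (u : W) (hu : ρ u ≠ 0) (G : Divisor L F)
    (hmem : (u : F) ∈ riemannRochSpace G) (Q : Place k Fb) :
    Q.adicValuation (ρ u) ≤ exp (Finsupp.mapDomain r G Q) := by
  have hu0 : (u : F) ≠ 0 := ts_ne_zero_of_rho_ne_zero hu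
  obtain ⟨D₁, hD₁⟩ := H.hpd (u : F) hu0
  have hc := H.compat u hu D₁ hD₁ Q
  rw [Q.adicValuation_le_exp_iff]
  right
  rw [← hc]
  have hnn : ∀ P, 0 ≤ (D₁ + G) P := by
    intro P
    rw [Finsupp.add_apply, hD₁ P]
    have := (mem_riemannRochSpace_iff.mp hmem P).resolve_left hu0
    omega
  have := ts_mapDomain_nonneg r hnn Q
  rw [Finsupp.mapDomain_add, Finsupp.add_apply] at this
  omega

/-- **Torsion step of S18, abstract form.** -/
theorem ts_main (H : ts_Hyp A π W ρ r)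
    (hdegF : ∀ P : Place L F, P.deg = 1)
    (g : ℕ)
    (hRiem : ∀ G : Divisor L F, (g : ℤ) ≤ Divisor.degree G →
      ∃ x : F, x ≠ 0 ∧ x ∈ riemannRochSpace G)
    (Qs : Fin g → Place k Fb) (hQinj : Function.Injective Qs)
    (hG : ∀ y : Fb, y ∈ riemannRochSpace (∑ i, Finsupp.single (Qs i) (1 : ℤ)) →
      ∃ a : k, y = algebraMap k Fb a)
    (hT : ∀ i, ∃ T : W, (Qs i).ord (ρ T) = 1 ∧ ∀ P, r P = Qs i → P.adicValuation (T : F) ≤ 1)
    (Qstar : Place k Fb) (hQstar : ∀ i, Qs i ≠ Qstar)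
    (p : ℕ) (hp : (p : k) ≠ 0)
    (D : Divisor L F) (hD0 : Divisor.degree D = 0)
    (f : W) (hf : ρ f = 1) (hfD : ∀ P, P.ord (f : F) = p * D P) :
    Divisor.IsPrincipal D := by
  classical
  have hp0 : (p : ℤ) ≠ 0 := by
    intro h
    apply hp
    have : p = 0 := by exact_mod_cast h
    rw [this, Nat.cast_zero]
  have hf0 : (f : F) ≠ 0 := ts_ne_zero_of_rho_ne_zero (by rw [hf]; exact one_ne_zero)
  -- Step 1: r_* D = 0
  have hrD : ∀ Q, Finsupp.mapDomain r D Q = 0 := by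
    intro Q
    have hc := H.compat f (by rw [hf]; exact one_ne_zero) ((p : ℤ) • D)
      (fun P => by rw [Finsupp.smul_apply, smul_eq_mul, hfD P]) Q
    rw [hf, Place.ord_one, Finsupp.mapDomain_smul, Finsupp.smul_apply, smul_eq_mul] at hc
    exact (mul_eq_zero.mp hc).resolve_left hp0
  -- Step 2: lifts of the Q_i and the divisor E
  choose Ps hPs using fun i => H.rsurj (Qs i)
  have hPinj : Function.Injective Ps := by
    intro i j hij
    apply hQinj
    rw [← hPs i, ← hPs j, hij]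
  set E : Divisor L F := ∑ j, Finsupp.single (Ps j) (1 : ℤ) with hE
  set Ebar : Divisor k Fb := ∑ j, Finsupp.single (Qs j) (1 : ℤ) with hEbar
  have hrE : Finsupp.mapDomain r E = Ebar := by
    rw [hE, ts_mapDomain_sumSingle]
    exact Finset.sum_congr rfl fun j _ => by rw [hPs j]
  have hdegE : Divisor.degree E = g := by
    rw [hE, map_sum]
    simp only [Divisor.degree_single, hdegF, Nat.cast_one, mul_one, Finset.sum_const,
      Finset.card_univ, Fintype.card_fin, nsmul_eq_mul]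
  obtain ⟨x₁, hx₁0, hx₁mem⟩ := hRiem (E + D) (by rw [map_add, hdegE, hD0, add_zero])
  obtain ⟨c₁, v₁, hc₁0, hv₁u, hv₁F⟩ := H.exists_unit x₁ hx₁0
  have hv₁mem : (v₁ : F) ∈ riemannRochSpace (E + D) := by
    rw [hv₁F, ← Algebra.smul_def]
    exact Submodule.smul_mem _ _ hx₁mem
  have hρv₁ : ρ v₁ ≠ 0 := H.rho_ne_zero_of_isUnit hv₁u
  have hv₁rr : ρ v₁ ∈ riemannRochSpace Ebar := by
    intro Q
    have := H.rho_mem_rr v₁ hρv₁ (E + D) hv₁mem Q
    rwa [Finsupp.mapDomain_add, Finsupp.add_apply, hrD Q, add_zero, hrE] at this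
  obtain ⟨a₁, ha₁⟩ := hG _ hv₁rr
  have ha₁0 : a₁ ≠ 0 := by
    intro h; apply hρv₁; rw [ha₁, h, map_zero]
  obtain ⟨⟨c₂, hc₂A⟩, hπc₂⟩ := H.pi_surj a₁⁻¹
  have hc₂0 : c₂ ≠ 0 := by
    intro h
    have h0 : (⟨c₂, hc₂A⟩ : A) = 0 := Subtype.ext h
    rw [h0, map_zero] at hπc₂
    exact inv_ne_zero ha₁0 hπc₂.symm
  let c₂W : W := ⟨algebraMap L F c₂, H.algW hc₂A⟩
  let u₁ : W := c₂W * v₁
  have hρu₁ : ρ u₁ = 1 := by
    show ρ (c₂W * v₁) = 1
    rw [map_mul, ha₁]
    show ρ ⟨algebraMap L F c₂, H.algW hc₂A⟩ * _ = 1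
    rw [H.rho_alg c₂ hc₂A, hπc₂, ← map_mul, inv_mul_cancel₀ ha₁0, map_one]
  have hu₁F : (u₁ : F) = algebraMap L F c₂ * (v₁ : F) := rfl
  have hu₁0 : (u₁ : F) ≠ 0 := ts_ne_zero_of_rho_ne_zero (by rw [hρu₁]; exact one_ne_zero)
  have hu₁mem : (u₁ : F) ∈ riemannRochSpace (E + D) := by
    rw [hu₁F, ← Algebra.smul_def]
    exact Submodule.smul_mem _ _ hv₁mem
  obtain ⟨D₁, hD₁⟩ := H.hpd (u₁ : F) hu₁0
  have hrD₁ : ∀ Q, Finsupp.mapDomain r D₁ Q = 0 := by
    intro Q
    have := H.compat u₁ (by rw [hρu₁]; exact one_ne_zero) D₁ hD₁ Q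
    rwa [hρu₁, Place.ord_one] at this
  -- Step 3: f₁ and B₁
  let f₁ : W := f * u₁ ^ p
  have hρf₁ : ρ f₁ = 1 := by
    show ρ (f * u₁ ^ p) = 1
    rw [map_mul, map_pow, hf, hρu₁, one_pow, one_mul]
  have hf₁F : (f₁ : F) = (f : F) * (u₁ : F) ^ p := rfl
  have hf₁0 : (f₁ : F) ≠ 0 := ts_ne_zero_of_rho_ne_zero (by rw [hρf₁]; exact one_ne_zero)
  set B₁ : Divisor L F := D₁ + E + D with hB₁
  have hB₁nn : ∀ P, 0 ≤ B₁ P := by
    intro P
    have := (mem_riemannRochSpace_iff.mp hu₁mem P).resolve_left hu₁0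
    rw [hB₁, Finsupp.add_apply, Finsupp.add_apply, hD₁ P]
    rw [Finsupp.add_apply] at this
    omega
  have hordf₁ : ∀ P, P.ord (f₁ : F) = p * (B₁ P - E P) := by
    intro P
    rw [hf₁F, P.ord_mul hf0 (pow_ne_zero _ hu₁0), ts_ord_pow, hfD P, hB₁, Finsupp.add_apply,
      Finsupp.add_apply, hD₁ P]
    ring
  have hrB₁ : ∀ Q, Finsupp.mapDomain r B₁ Q = Ebar Q := by
    intro Q
    rw [hB₁, Finsupp.mapDomain_add, Finsupp.mapDomain_add, Finsupp.add_apply, Finsupp.add_apply,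
      hrD Q, hrD₁ Q, hrE, zero_add, add_zero]
  have hEbar_self : ∀ i, Ebar (Qs i) = 1 := fun i => ts_sumSingle_apply_self Qs hQinj i
  have hEbar_ne : ∀ Q, (∀ j, Qs j ≠ Q) → Ebar Q = 0 := fun Q h => ts_sumSingle_apply_of_ne Qs Q h
  have hE_self : ∀ i, E (Ps i) = 1 := fun i => ts_sumSingle_apply_self Ps hPinj i
  have hE_ne : ∀ P, (∀ j, Ps j ≠ P) → E P = 0 := fun P h => ts_sumSingle_apply_of_ne Ps P h
  have hE_disc : ∀ i P, r P = Qs i → P ≠ Ps i → E P = 0 := by
    intro i P hP hne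
    apply hE_ne
    intro j hj
    by_cases hji : j = i
    · subst hji; exact hne hj.symm
    · apply hji
      apply hQinj
      rw [← hPs j, hj, hP]
  have hE_off : ∀ Q, (∀ j, Qs j ≠ Q) → ∀ P, r P = Q → E P = 0 := by
    intro Q hQ P hP
    apply hE_ne
    intro j hj
    apply hQ j
    rw [← hPs j, hj, hP]
  have hB_off : ∀ Q, (∀ j, Qs j ≠ Q) → ∀ P, r P = Q → B₁ P = 0 := by
    intro Q hQ
    exact ts_disc_zero r B₁ Q (fun a _ => hB₁nn a) (by rw [hrB₁ Q, hEbar_ne Q hQ])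
  have hf₁_off : ∀ Q, (∀ j, Qs j ≠ Q) → ∀ P, r P = Q → P.adicValuation (f₁ : F) = 1 := by
    intro Q hQ P hP
    rw [ts_val_eq_one_iff P hf₁0, hordf₁ P, hB_off Q hQ P hP, hE_off Q hQ P hP]
    ring
  -- Step 4: the base point
  obtain ⟨Pstar, hPstar⟩ := H.rsurj Qstar
  have hf₁reg_star : ∀ P, r P = Qstar → P.adicValuation (f₁ : F) ≤ 1 :=
    fun P hP => le_of_eq (hf₁_off Qstar hQstar P hP)
  obtain ⟨lam, hlamA, hlamv, hlamQ⟩ := H.value f₁ Qstar hf₁reg_star Pstar hPstar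
  have hπlam : π ⟨lam, hlamA⟩ = 1 := by
    have h1 : Qstar.adicValuation (algebraMap k Fb (1 - π ⟨lam, hlamA⟩)) < 1 := by
      rw [map_sub, map_one, ← hρf₁]; exact hlamQ
    have := ts_const_eq_zero_of_van Qstar h1
    exact (sub_eq_zero.mp this).symm
  by_cases hconst : (f₁ : F) = algebraMap L F lam
  · -- f₁ constant: D = -D₁ is principal
    refine ⟨(u₁ : F)⁻¹, inv_ne_zero hu₁0, fun P => ?_⟩
    have h1 : P.ord (f₁ : F) = 0 := by rw [hconst]; exact ts_ord_algebraMap P lam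
    rw [hf₁F, P.ord_mul hf0 (pow_ne_zero _ hu₁0), ts_ord_pow, hfD P] at h1
    rw [P.ord_inv]
    have h2 : (p : ℤ) * (D P + P.ord (u₁ : F)) = 0 := by rw [mul_add]; exact h1
    have := (mul_eq_zero.mp h2).resolve_left hp0
    omega
  · exfalso
    have hx0 : (f₁ : F) - algebraMap L F lam ≠ 0 := sub_ne_zero.mpr hconst
    obtain ⟨c', u', hc'0, hu'u, hu'F⟩ := H.exists_unit _ hx0
    let lamW : W := ⟨algebraMap L F lam, H.algW hlamA⟩
    -- c := c'⁻¹ ∈ A
    have hcW : algebraMap L F c'⁻¹ ∈ W := by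
      have h1 : algebraMap L F c'⁻¹ = ((f₁ - lamW : W) : F) * (u' : F)⁻¹ := by
        show _ = ((f₁ : F) - algebraMap L F lam) * (u' : F)⁻¹
        have hc'F : algebraMap L F c' ≠ 0 := by simpa using hc'0
        rw [hu'F, map_inv₀]
        field_simp
      rw [h1]
      exact W.mul_mem _ _ (f₁ - lamW).2 (ts_inv_mem_of_isUnit u' hu'u)
    have hcA : c'⁻¹ ∈ A := (H.mem_iff _).mp hcW
    have hc0 : c'⁻¹ ≠ 0 := inv_ne_zero hc'0
    have hu' : (f₁ : F) - algebraMap L F lam = algebraMap L F c'⁻¹ * (u' : F) := by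
      rw [hu'F, ← mul_assoc, ← map_mul, inv_mul_cancel₀ hc'0, map_one, one_mul]
    have hρu'0 : ρ u' ≠ 0 := H.rho_ne_zero_of_isUnit hu'u
    -- ρ u' ∈ L(Ebar)
    have hrr : ρ u' ∈ riemannRochSpace Ebar := by
      intro Q
      by_cases hQ : ∃ i, Qs i = Q
      · obtain ⟨i, rfl⟩ := hQ
        rw [hEbar_self i]
        obtain ⟨T, hTQ, hTreg⟩ := hT i
        obtain ⟨P', hP', hB', hB'0⟩ :=
          ts_disc_unique r B₁ (Qs i) (fun a _ => hB₁nn a) (by rw [hrB₁, hEbar_self i])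
        exact H.local_simple_pole (Qs i) T hTQ hTreg p hp f₁ hρf₁ (Ps i) P' (hPs i) hP'
          (fun P => B₁ P) (fun P => E P) (hE_self i) (hE_disc i) hB' hB'0
          (fun P hP => hordf₁ P) lam hlamA hπlam c'⁻¹ hcA hc0 u' hu'
      · have hQ' : ∀ j, Qs j ≠ Q := fun j hj => hQ ⟨j, hj⟩
        rw [hEbar_ne Q hQ', WithZero.exp_zero]
        refine H.reg_of_disc u' Q fun P hP => ?_
        rw [hu'F, map_mul, ts_val_algebraMap P hc'0, one_mul]
        exact (Valuation.map_sub _ _ _).trans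
          (max_le (le_of_eq (hf₁_off Q hQ' P hP)) (P.adicValuation_algebraMap_le_one _))
    obtain ⟨a', ha'⟩ := hG _ hrr
    -- u' vanishes at Pstar
    have hu'reg : ∀ P, r P = Qstar → P.adicValuation (u' : F) ≤ 1 := by
      intro P hP
      rw [hu'F, map_mul, ts_val_algebraMap P hc'0, one_mul]
      exact (Valuation.map_sub _ _ _).trans
        (max_le (hf₁reg_star P hP) (P.adicValuation_algebraMap_le_one _))
    have hu'van : Pstar.adicValuation (u' : F) < 1 := by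
      rw [hu'F, map_mul, ts_val_algebraMap Pstar hc'0, one_mul]; exact hlamv
    have := H.van_of_disc u' Qstar hu'reg Pstar hPstar hu'van
    rw [ha'] at this
    have ha'0 := ts_const_eq_zero_of_van Qstar this
    apply hρu'0
    rw [ha', ha'0, map_zero]

end Main

end Fermat.Agent.S18x
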