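/-
S18x/TsStep0 (helper80): abstract STEP 0 + final abstract injectivity statement for S18:
if `m • D` is principal on `F`, `m` is invertible in `k`, and the push-forward `r_* D` is principal
on the reduced field, then `D` is principal (given the inputs of `ts_main`, surjectivity of the
residue map on nonzero elements and "functions without zeros and poles are constant" on `Fb`).
-/
import Fermat.Agent.S18x.TsMain

set_option autoImplicit false

namespace Fermat.Agent.S18x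

open AlgebraicCurve WithZero

section Step0

variable {L k F Fb : Type*} [Field L] [Field k] [Field F] [Field Fb] [Algebra L F] [Algebra k Fb]
variable {A : ValuationSubring L} {π : A →+* k} {W : ValuationSubring F} {ρ : W →+* Fb}
  {r : Place L F → Place k Fb}

/-- **Abstract S18**: reduction is injective on classes killed by `m` prime to the residue
characteristic. -/
theorem ts_injective (H : ts_Hyp A π W ρ r)
    (hdegF : ∀ P : Place L F, P.deg = 1)
    (g : ℕ)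
    (hRiem : ∀ G : Divisor L F, (g : ℤ) ≤ Divisor.degree G →
      ∃ x : F, x ≠ 0 ∧ x ∈ riemannRochSpace G)
    (Qs : Fin g → Place k Fb) (hQinj : Function.Injective Qs)
    (hG : ∀ y : Fb, y ∈ riemannRochSpace (∑ i, Finsupp.single (Qs i) (1 : ℤ)) →
      ∃ a : k, y = algebraMap k Fb a)
    (hT : ∀ i, ∃ T : W, (Qs i).ord (ρ T) = 1 ∧ ∀ P, r P = Qs i → P.adicValuation (T : F) ≤ 1)
    (Qstar : Place k Fb) (hQstar : ∀ i, Qs i ≠ Qstar)
    (hρsurj : ∀ y : Fb, y ≠ 0 → ∃ u : W, ρ u = y)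
    (hconst : ∀ y : Fb, y ≠ 0 → (∀ Q : Place k Fb, Q.ord y = 0) → ∃ a : k, y = algebraMap k Fb a)
    (hprin0 : ∀ (x : F) (Dx : Divisor L F), x ≠ 0 → (∀ P, Dx P = P.ord x) →
      Divisor.degree Dx = 0)
    (m : ℕ) (hm : (m : k) ≠ 0)
    (D : Divisor L F) (hD0 : Divisor.degree D = 0)
    (hmD : Divisor.IsPrincipal ((m : ℤ) • D))
    (hred : Divisor.IsPrincipal (Finsupp.mapDomain r D)) :
    Divisor.IsPrincipal D := by
  obtain ⟨f₀, hf₀0, hf₀⟩ := hmD
  obtain ⟨gb, hgb0, hgb⟩ := hred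
  -- lift gb to a unit G of W
  obtain ⟨G, hG'⟩ := hρsurj gb hgb0
  have hρG0 : ρ G ≠ 0 := by rw [hG']; exact hgb0
  have hG0 : (G : F) ≠ 0 := ts_ne_zero_of_rho_ne_zero hρG0
  obtain ⟨DG, hDG⟩ := H.hpd (G : F) hG0
  have hrDG : ∀ Q, Finsupp.mapDomain r DG Q = Finsupp.mapDomain r D Q := by
    intro Q
    rw [H.compat G hρG0 DG hDG Q, hG', hgb Q]
  have hdegDG : Divisor.degree DG = 0 := hprin0 (G : F) DG hG0 hDG
  -- D' = D - div G
  set D' : Divisor L F := D - DG with hD'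
  have hD'0 : Divisor.degree D' = 0 := by rw [hD', map_sub, hD0, hdegDG, sub_zero]
  have hrD' : ∀ Q, Finsupp.mapDomain r D' Q = 0 := by
    intro Q
    rw [hD', Finsupp.mapDomain_sub, Finsupp.sub_apply, hrDG Q, sub_self]
  -- x = f₀ / G^m has divisor m • D'
  have hx0 : f₀ * ((G : F) ^ m)⁻¹ ≠ 0 := mul_ne_zero hf₀0 (inv_ne_zero (pow_ne_zero _ hG0))
  have hxord : ∀ P : Place L F, P.ord (f₀ * ((G : F) ^ m)⁻¹) = m * D' P := by
    intro P
    rw [P.ord_mul hf₀0 (inv_ne_zero (pow_ne_zero _ hG0)), P.ord_inv, ts_ord_pow, ← hf₀ P,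
      Finsupp.smul_apply, smul_eq_mul, hD', Finsupp.sub_apply, hDG P]
    ring
  obtain ⟨c, u, hc0, huu, huF⟩ := H.exists_unit _ hx0
  have hρu0 : ρ u ≠ 0 := H.rho_ne_zero_of_isUnit huu
  have huord : ∀ P : Place L F, P.ord (u : F) = m * D' P := by
    intro P
    rw [huF, P.ord_mul (by simpa using hc0) hx0, ts_ord_algebraMap, zero_add, hxord P]
  have hρu_ord : ∀ Q : Place k Fb, Q.ord (ρ u) = 0 := by
    intro Q
    have hc := H.compat u hρu0 ((m : ℤ) • D')
      (fun P => by rw [Finsupp.smul_apply, smul_eq_mul, huord P]) Q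
    rw [← hc, Finsupp.mapDomain_smul, Finsupp.smul_apply, hrD' Q, smul_zero]
  obtain ⟨a, ha⟩ := hconst (ρ u) hρu0 hρu_ord
  have ha0 : a ≠ 0 := by
    intro h; apply hρu0; rw [ha, h, map_zero]
  obtain ⟨⟨c₂, hc₂A⟩, hπc₂⟩ := H.pi_surj a⁻¹
  have hc₂0 : c₂ ≠ 0 := by
    intro h
    have h0 : (⟨c₂, hc₂A⟩ : A) = 0 := Subtype.ext h
    rw [h0, map_zero] at hπc₂
    exact inv_ne_zero ha0 hπc₂.symm
  let c₂W : W := ⟨algebraMap L F c₂, H.algW hc₂A⟩
  let f : W := c₂W * u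
  have hρf : ρ f = 1 := by
    show ρ (c₂W * u) = 1
    rw [map_mul, ha]
    show ρ ⟨algebraMap L F c₂, H.algW hc₂A⟩ * _ = 1
    rw [H.rho_alg c₂ hc₂A, hπc₂, ← map_mul, inv_mul_cancel₀ ha0, map_one]
  have hu0 : (u : F) ≠ 0 := ts_ne_zero_of_rho_ne_zero hρu0
  have hford : ∀ P : Place L F, P.ord (f : F) = m * D' P := by
    intro P
    show P.ord (algebraMap L F c₂ * (u : F)) = _
    rw [P.ord_mul (by simpa using hc₂0) hu0, ts_ord_algebraMap, zero_add, huord P]
  have hD'prin : Divisor.IsPrincipal D' :=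
    ts_main H hdegF g hRiem Qs hQinj hG hT Qstar hQstar m hm D' hD'0 f hρf hford
  obtain ⟨y, hy0, hy⟩ := hD'prin
  refine ⟨y * (G : F), mul_ne_zero hy0 hG0, fun P => ?_⟩
  rw [P.ord_mul hy0 hG0, ← hy P, ← hDG P, hD', Finsupp.sub_apply]
  ring

end Step0

end Fermat.Agent.S18x
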