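/-
S18x/NsTransfer (helper4): TRANSFER of the basic function-field facts from `F` (char 0) to the
reduced field `Fb` through helper80's abstract reduction data `ts_Hyp`, so that NO function-field
theory in characteristic `ℓ` is needed for the inputs of the torsion step except the genus
inequality itself:
* `ns_hdeg_of_ts`   : places of `Fb` have degree one;
* `ns_hpd_of_ts`    : every `y ≠ 0` in `Fb` has a (finitely supported) divisor, of degree zero;
* `ns_riem_of_ts`   : Riemann's inequality on `Fb` with the SAME constant `g` as on `F`;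
* `ns_hinf`         : `Fb` has infinitely many places;
* `ns_ts_injective` : `ts_injective` with all `Fb`-side inputs discharged, except ONE divisor `D₀`
  on `Fb` with `dim L(D₀) + g ≤ deg D₀ + 1` (the genus inequality) and disc uniformisers outside
  a finite set of places.
-/
import Fermat.Agent.S18x.NsGreedy
import Fermat.Agent.S18x.TsStep0

set_option autoImplicit false

namespace Fermat.Agent.S18x

open AlgebraicCurve WithZero

section Transfer

variable {L k F Fb : Type*} [Field L] [Field k] [Field F] [Field Fb] [Algebra L F] [Algebra k Fb]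
variable {A : ValuationSubring L} {π : A →+* k} {W : ValuationSubring F} {ρ : W →+* Fb}
  {r : Place L F → Place k Fb}

theorem ns_degree_mapDomain (hdegr : ∀ P : Place L F, (r P).deg = P.deg) (D : Divisor L F) :
    Divisor.degree (Finsupp.mapDomain r D) = Divisor.degree D := by
  induction D using Finsupp.induction with
  | zero => simp
  | single_add P n D _ _ ih =>
    rw [Finsupp.mapDomain_add, map_add, map_add, ih, Finsupp.mapDomain_single,
      Divisor.degree_single, Divisor.degree_single, hdegr]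

theorem ns_hdeg_of_ts (H : ts_Hyp A π W ρ r) (hdegF : ∀ P : Place L F, P.deg = 1)
    (hdegr : ∀ P : Place L F, (r P).deg = P.deg) : ∀ Q : Place k Fb, Q.deg = 1 := by
  intro Q
  obtain ⟨P, rfl⟩ := H.rsurj Q
  rw [hdegr P, hdegF P]

theorem ns_hpd_of_ts (H : ts_Hyp A π W ρ r)
    (hdegr : ∀ P : Place L F, (r P).deg = P.deg)
    (hprin0 : ∀ (x : F) (Dx : Divisor L F), x ≠ 0 → (∀ P, Dx P = P.ord x) →
      Divisor.degree Dx = 0)
    (hρsurj : ∀ y : Fb, y ≠ 0 → ∃ u : W, ρ u = y) :
    ∀ y : Fb, y ≠ 0 → ∃ Hd : Divisor k Fb, (∀ Q, Hd Q = Q.ord y) ∧ Divisor.degree Hd = 0 := by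
  intro y hy
  obtain ⟨u, hu⟩ := hρsurj y hy
  have hρu : ρ u ≠ 0 := by rw [hu]; exact hy
  have hu0 : (u : F) ≠ 0 := ts_ne_zero_of_rho_ne_zero hρu
  obtain ⟨D, hD⟩ := H.hpd (u : F) hu0
  refine ⟨Finsupp.mapDomain r D, fun Q => ?_, ?_⟩
  · rw [H.compat u hρu D hD Q, hu]
  · rw [ns_degree_mapDomain hdegr, hprin0 (u : F) D hu0 hD]

theorem ns_riem_of_ts (H : ts_Hyp A π W ρ r)
    (hdegr : ∀ P : Place L F, (r P).deg = P.deg) (g : ℤ)
    (hRiem : ∀ G : Divisor L F, g ≤ Divisor.degree G →
      ∃ x : F, x ≠ 0 ∧ x ∈ riemannRochSpace G) :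
    ∀ Gb : Divisor k Fb, g ≤ Divisor.degree Gb → ∃ y : Fb, y ≠ 0 ∧ y ∈ riemannRochSpace Gb := by
  intro Gb hGb
  set s : Place k Fb → Place L F := Function.surjInv H.rsurj with hs
  have hrs : r ∘ s = id := funext fun Q => Function.surjInv_eq H.rsurj Q
  set G : Divisor L F := Finsupp.mapDomain s Gb with hG
  have hrG : Finsupp.mapDomain r G = Gb := by
    rw [hG, ← Finsupp.mapDomain_comp, hrs, Finsupp.mapDomain_id]
  have hdegG : Divisor.degree G = Divisor.degree Gb := by
    rw [← ns_degree_mapDomain hdegr G, hrG]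
  obtain ⟨x, hx0, hxmem⟩ := hRiem G (by rw [hdegG]; exact hGb)
  obtain ⟨c, u, hc0, huu, huF⟩ := H.exists_unit x hx0
  have humem : (u : F) ∈ riemannRochSpace G := by
    rw [huF, ← Algebra.smul_def]
    exact Submodule.smul_mem _ _ hxmem
  have hρu : ρ u ≠ 0 := H.rho_ne_zero_of_isUnit huu
  refine ⟨ρ u, hρu, fun Q => ?_⟩
  have := H.rho_mem_rr u hρu G humem Q
  rwa [hrG] at this

end Transfer

section Infinite

variable {k Fb : Type*} [Field k] [Field Fb] [Algebra k Fb]

theorem ns_eq_zero_of_nonpos_of_degree_zero (hdeg : ∀ Q : Place k Fb, Q.deg = 1)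
    {E : Divisor k Fb} (hE : ∀ Q, E Q ≤ 0) (hE0 : Divisor.degree E = 0) : ∀ Q, E Q = 0 := by
  classical
  intro Q
  by_contra hne
  have hlt : E Q ≤ -1 := by have := hE Q; omega
  have hle : Finsupp.single Q (1 : ℤ) ≤ -E := by
    intro R
    rw [Finsupp.single_apply, Finsupp.neg_apply]
    split_ifs with hR
    · subst hR; omega
    · have := hE R; omega
  have := ns_degree_mono hle
  rw [ns_degree_single_one hdeg, map_neg, hE0] at this
  omega

/-- A function field with rational places, degree-zero principal divisors, infinite constant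
field and a non-constant element has infinitely many places. -/
theorem ns_hinf [Infinite k] (hdeg : ∀ Q : Place k Fb, Q.deg = 1)
    (hpd : ∀ x : Fb, x ≠ 0 → ∃ H : Divisor k Fb, (∀ P, H P = P.ord x) ∧ Divisor.degree H = 0)
    (Q₀ : Place k Fb) (y₀ : Fb) (hy₀ : ∀ a : k, y₀ ≠ algebraMap k Fb a) :
    ∀ S : Finset (Place k Fb), ∃ P, P ∉ S := by
  classical
  intro S
  by_contra hall
  simp only [not_exists, not_not] at hall
  -- values of `y₀` at the finitely many places
  have hval : ∀ Q : Place k Fb, Q.adicValuation y₀ ≤ 1 →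
      ∃ a : k, Q.adicValuation (y₀ - algebraMap k Fb a) < 1 :=
    fun Q hQ => ns_exists_const Q (hdeg Q) hQ
  let v : Place k Fb → k := fun Q =>
    if hQ : Q.adicValuation y₀ ≤ 1 then (hval Q hQ).choose else 0
  obtain ⟨c, hc⟩ := Infinite.exists_notMem_finset (S.image v)
  have hz0 : y₀ - algebraMap k Fb c ≠ 0 := sub_ne_zero.mpr (hy₀ c)
  obtain ⟨Hd, hHd, hHd0⟩ := hpd _ hz0
  have hge : ∀ Q : Place k Fb, 1 ≤ Q.adicValuation (y₀ - algebraMap k Fb c) := by
    intro Q
    by_cases hQ : Q.adicValuation y₀ ≤ 1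
    · have hvQ : v Q = (hval Q hQ).choose := dif_pos hQ
      have hspec := (hval Q hQ).choose_spec
      rw [← hvQ] at hspec
      have hne : v Q ≠ c := by
        intro h
        apply hc
        rw [Finset.mem_image]
        exact ⟨Q, hall Q, h⟩
      have h1 : Q.adicValuation (algebraMap k Fb (v Q - c)) = 1 :=
        ts_val_algebraMap Q (sub_ne_zero.mpr hne)
      have hsplit : y₀ - algebraMap k Fb c
          = (y₀ - algebraMap k Fb (v Q)) + algebraMap k Fb (v Q - c) := by
        rw [map_sub]; ring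
      rw [hsplit, Valuation.map_add_eq_of_lt_right _ (by rw [h1]; exact hspec), h1]
    · rw [not_le] at hQ
      have h1 : Q.adicValuation (algebraMap k Fb c) < Q.adicValuation y₀ :=
        lt_of_le_of_lt (Q.adicValuation_algebraMap_le_one c) hQ
      rw [Valuation.map_sub_eq_of_lt_left _ h1]
      exact hQ.le
  have hnonpos : ∀ Q, Hd Q ≤ 0 := by
    intro Q
    rw [hHd Q]
    by_contra hpos
    rw [not_le] at hpos
    have : Q.adicValuation (y₀ - algebraMap k Fb c) < 1 :=
      (ts_val_lt_one_iff Q).mpr (Or.inr (by omega))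
    exact absurd (hge Q) (not_le.mpr this)
  have hzero := ns_eq_zero_of_nonpos_of_degree_zero hdeg hnonpos hHd0
  have hmem : y₀ - algebraMap k Fb c ∈ riemannRochSpace (0 : Divisor k Fb) := by
    rw [mem_riemannRochSpace_iff]
    intro Q
    right
    rw [← hHd Q, hzero Q]
    simp
  obtain ⟨a, ha⟩ := ns_const_of_rr_zero hdeg hpd Q₀ hmem
  apply hy₀ (a + c)
  rw [map_add, ← ha]; ring

end Infinite

section Final

variable {L k F Fb : Type*} [Field L] [Field k] [Field F] [Field Fb] [Algebra L F] [Algebra k Fb]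
variable {A : ValuationSubring L} {π : A →+* k} {W : ValuationSubring F} {ρ : W →+* Fb}
  {r : Place L F → Place k Fb}

/-- **Abstract S18 with all `Fb`-side inputs discharged** except the genus inequality (one divisor
`D₀` on `Fb` with `dim L(D₀) + g ≤ deg D₀ + 1`) and the existence of disc uniformisers outside a
finite set `Sbad` of places of `Fb`. -/
theorem ns_ts_injective [Infinite k] (H : ts_Hyp A π W ρ r)
    (hdegF : ∀ P : Place L F, P.deg = 1)
    (hdegr : ∀ P : Place L F, (r P).deg = P.deg)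
    (hprin0 : ∀ (x : F) (Dx : Divisor L F), x ≠ 0 → (∀ P, Dx P = P.ord x) →
      Divisor.degree Dx = 0)
    (hρsurj : ∀ y : Fb, y ≠ 0 → ∃ u : W, ρ u = y)
    (g : ℕ)
    (hRiem : ∀ G : Divisor L F, (g : ℤ) ≤ Divisor.degree G →
      ∃ x : F, x ≠ 0 ∧ x ∈ riemannRochSpace G)
    (P₀ : Place L F) (y₀ : Fb) (hy₀ : ∀ a : k, y₀ ≠ algebraMap k Fb a)
    (D₀ : Divisor k Fb) (hD₀fin : (riemannRochSpace D₀).FG)
    (hD₀ : (Module.finrank k (riemannRochSpace D₀) : ℤ) + g ≤ Divisor.degree D₀ + 1)
    (Sbad : Finset (Place k Fb))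
    (hT : ∀ Q : Place k Fb, Q ∉ Sbad →
      ∃ T : W, Q.ord (ρ T) = 1 ∧ ∀ P, r P = Q → P.adicValuation (T : F) ≤ 1)
    (m : ℕ) (hm : (m : k) ≠ 0)
    (D : Divisor L F) (hD0 : Divisor.degree D = 0)
    (hmD : Divisor.IsPrincipal ((m : ℤ) • D))
    (hred : Divisor.IsPrincipal (Finsupp.mapDomain r D)) :
    Divisor.IsPrincipal D := by
  classical
  have hdeg := ns_hdeg_of_ts H hdegF hdegr
  have hpd := ns_hpd_of_ts H hdegr hprin0 hρsurj
  have hRiem' := ns_riem_of_ts H hdegr (g : ℤ) hRiem
  have hinf := ns_hinf hdeg hpd (r P₀) y₀ hy₀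
  obtain ⟨Qs, hQinj, hQS, hG⟩ :=
    ns_exists_nonspecial hdeg hpd (g : ℤ) hRiem' hinf D₀ hD₀fin g hD₀ Sbad
  obtain ⟨Qstar, hQstar⟩ := hinf (Finset.univ.image Qs)
  have hQstar' : ∀ i, Qs i ≠ Qstar := by
    intro i h
    apply hQstar
    rw [Finset.mem_image]
    exact ⟨i, Finset.mem_univ i, h⟩
  have hconst : ∀ y : Fb, y ≠ 0 → (∀ Q : Place k Fb, Q.ord y = 0) →
      ∃ a : k, y = algebraMap k Fb a := by
    intro y _ hy
    apply ns_const_of_rr_zero hdeg hpd (r P₀)
    rw [mem_riemannRochSpace_iff]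
    intro Q
    right
    rw [hy Q]; simp
  exact ts_injective H hdegF g hRiem Qs hQinj hG (fun i => hT (Qs i) (hQS i)) Qstar hQstar'
    hρsurj hconst hprin0 m hm D hD0 hmD hred

end Final

end Fermat.Agent.S18x
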