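/-
S18x/AsmAbstract (helper80): abstract glue lemmas for the final assembly of S18.
* `s18a_exists_ord_one`   : every place has a uniformiser;
* `s18a_rsurj`            : surjectivity of the place map `r` follows from divisor compatibility;
* `s18a_pole_of_pole`     : "cusps reduce to cusps": if `J` and its reduction have polar divisors of
  the same degree, every pole of `J` reduces to a pole of the reduction of `J`;
* `s18a_hT`               : disc uniformisers `T = J - c` at places where the reduction of `J` is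
  regular and `ρ J - c̄` has a simple zero;
* `s18a_natCast_ne_zero`  : `(m : k) ≠ 0` for `m` prime to the residue characteristic.
All names carry the prefix `s18a_`.
-/
import Fermat.Agent.S18x.NsTransfer
import Fermat.Prelude.Def_FLTPrelim_Ramification

set_option autoImplicit false

namespace Fermat.Agent.S18x

open AlgebraicCurve WithZero

section Uniformiser

variable {K F : Type*} [Field K] [Field F] [Algebra K F]

theorem s18a_exists_ord_one (P : Place K F) : ∃ t : F, t ≠ 0 ∧ P.ord t = 1 := by
  obtain ⟨π, hπ⟩ := IsDiscreteValuationRing.exists_irreducible P.toValuationSubring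
  have hπ0 : (π : F) ≠ 0 := fun h => hπ.ne_zero (Subtype.ext h)
  refine ⟨(π : F), hπ0, ?_⟩
  have h1 := P.adicValuation_coe_irreducible hπ
  rw [P.adicValuation_eq_exp_neg_ord hπ0, WithZero.exp_inj] at h1
  omega

end Uniformiser

section Rsurj

variable {L k F Fb : Type*} [Field L] [Field k] [Field F] [Field Fb] [Algebra L F] [Algebra k Fb]
variable {W : ValuationSubring F} {ρ : W →+* Fb} {r : Place L F → Place k Fb}

/-- surjectivity of `r` from divisor compatibility and surjectivity of `ρ` -/
theorem s18a_rsurj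
    (compat : ∀ u : W, ρ u ≠ 0 → ∀ D : Divisor L F, (∀ P, D P = P.ord (u : F)) →
      ∀ Q, Finsupp.mapDomain r D Q = Q.ord (ρ u))
    (hpd : ∀ x : F, x ≠ 0 → ∃ D : Divisor L F, ∀ P : Place L F, D P = P.ord x)
    (hρsurj : ∀ y : Fb, y ≠ 0 → ∃ u : W, ρ u = y) : Function.Surjective r := by
  classical
  intro Q
  obtain ⟨t, ht0, ht1⟩ := s18a_exists_ord_one Q
  obtain ⟨u, hu⟩ := hρsurj t ht0
  have hρu : ρ u ≠ 0 := by rw [hu]; exact ht0
  have hu0 : (u : F) ≠ 0 := ts_ne_zero_of_rho_ne_zero hρu
  obtain ⟨D, hD⟩ := hpd (u : F) hu0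
  have hc := compat u hρu D hD Q
  rw [hu, ht1, ts_mapDomain_apply] at hc
  by_contra hno
  push Not at hno
  have hemp : D.support.filter (fun a => r a = Q) = ∅ := by
    rw [Finset.filter_eq_empty_iff]
    intro P _
    exact hno P
  rw [hemp, Finset.sum_empty] at hc
  exact absurd hc (by norm_num)

end Rsurj

section Char

variable {L : Type*} [Field L]

/-- `m` prime to `ℓ` is nonzero in the residue field of a valuation ring lying over `ℓ` -/
theorem s18a_natCast_ne_zero (A : ValuationSubring L) {ℓ : ℕ} (hA : A.LiesOverPrime ℓ)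
    (hℓ : ℓ.Prime) {m : ℕ} (hm : ¬ ℓ ∣ m) :
    ((m : ℕ) : IsLocalRing.ResidueField A) ≠ 0 := by
  have hcop : Nat.Coprime m ℓ := ((Nat.Prime.coprime_iff_not_dvd hℓ).mpr hm).symm
  have hbez := Nat.Coprime.isCoprime hcop
  obtain ⟨a, b, hab⟩ := hbez
  -- a * m + b * ℓ = 1 in ℤ
  have hℓmem : ((ℓ : ℕ) : L) ∈ A := by
    have : ((ℓ : ℕ) : L) ∈ A.nonunits := hA
    exact (A.mem_nonunits_iff_exists_mem_maximalIdeal.mp this).1
  have hℓres : IsLocalRing.residue A ((ℓ : ℕ) : A) = 0 := by
    rw [IsLocalRing.residue_eq_zero_iff]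
    have : ((ℓ : ℕ) : L) ∈ A.nonunits := hA
    obtain ⟨hmem, hmax⟩ := A.mem_nonunits_iff_exists_mem_maximalIdeal.mp this
    have he : (⟨((ℓ : ℕ) : L), hmem⟩ : A) = ((ℓ : ℕ) : A) := by
      apply Subtype.ext
      simp
    rwa [he] at hmax
  intro h0
  have h1 : (((a * m + b * ℓ : ℤ) : A)) = 1 := by
    have := congrArg (fun z : ℤ => (z : A)) hab
    simpa using this
  have h2 := congrArg (IsLocalRing.residue A) h1
  simp only [Int.cast_add, Int.cast_mul, Int.cast_natCast, map_add, map_mul, map_natCast,
    map_intCast, map_one] at h2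
  rw [h0] at h2
  have hℓ0 : ((ℓ : ℕ) : IsLocalRing.ResidueField A) = 0 := by
    have := hℓres
    rwa [map_natCast] at this
  rw [hℓ0] at h2
  simp at h2

end Char

end Fermat.Agent.S18x
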