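/-
S18x/AsmPoles (helper80): "cusps reduce to cusps" and disc uniformisers, abstract form.
* `s18a_neg_of_neg`    : pure bookkeeping: if the polar part of `r_* D` has degree at least the
  degree of the polar part of `D`, every `a` with `D a < 0` has `(r_* D)(r a) < 0`;
* `s18a_pole_of_pole`  : for `J ∈ W` whose reduction has a polar divisor of the same degree as `J`,
  every pole of `J` reduces to a pole of `ρ J`;
* `s18a_hT`            : disc uniformisers `T = J - c` at every place `Q` of the reduced field at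
  which `ρ J` is regular and `ρ J - c̄` has a simple zero  (the `hT` input of `ts_main` /
  `ns_ts_injective`).
-/
import Fermat.Agent.S18x.AsmAbstract

set_option autoImplicit false

namespace Fermat.Agent.S18x

open AlgebraicCurve WithZero

section Bookkeeping

theorem s18a_neg_of_neg {α β : Type*} (r : α → β) (D : α →₀ ℤ)
    (hpol : ∑ a ∈ D.support, max (-(D a)) 0 ≤
      ∑ b ∈ (Finsupp.mapDomain r D).support, max (-(Finsupp.mapDomain r D b)) 0)
    (a₀ : α) (ha₀ : D a₀ < 0) : Finsupp.mapDomain r D (r a₀) < 0 := by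
  classical
  set Db := Finsupp.mapDomain r D with hDb
  set S := D.support with hS
  set T := S.image r with hT
  have hsub : Db.support ⊆ T := Finsupp.mapDomain_support
  -- rewrite the right-hand side as a sum over T
  have hR : ∑ b ∈ Db.support, max (-(Db b)) 0 = ∑ b ∈ T, max (-(Db b)) 0 := by
    apply Finset.sum_subset hsub
    intro b _ hb
    rw [Finsupp.notMem_support_iff] at hb
    rw [hb]; simp
  -- rewrite the left-hand side fibrewise
  have hLf : ∑ a ∈ S, max (-(D a)) 0 =
      ∑ b ∈ T, ∑ a ∈ S.filter (fun a => r a = b), max (-(D a)) 0 := by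
    rw [Finset.sum_fiberwise_of_maps_to (fun a ha => Finset.mem_image_of_mem r ha)]
  -- termwise inequality
  have hterm : ∀ b ∈ T, max (-(Db b)) 0 ≤ ∑ a ∈ S.filter (fun a => r a = b), max (-(D a)) 0 := by
    intro b _
    have hval : Db b = ∑ a ∈ S.filter (fun a => r a = b), D a := ts_mapDomain_apply r D b
    rw [hval]
    apply max_le
    · rw [← Finset.sum_neg_distrib]
      exact Finset.sum_le_sum fun a _ => le_max_left _ _
    · exact Finset.sum_nonneg fun a _ => le_max_right _ _
  have hle : ∑ b ∈ T, max (-(Db b)) 0 ≤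
      ∑ b ∈ T, ∑ a ∈ S.filter (fun a => r a = b), max (-(D a)) 0 := Finset.sum_le_sum hterm
  have heq : ∑ b ∈ T, max (-(Db b)) 0 =
      ∑ b ∈ T, ∑ a ∈ S.filter (fun a => r a = b), max (-(D a)) 0 := by
    apply le_antisymm hle
    rw [← hLf, ← hR]
    exact hpol
  have hall := (Finset.sum_eq_sum_iff_of_le hterm).mp heq
  have ha₀S : a₀ ∈ S := by
    rw [hS, Finsupp.mem_support_iff]; omega
  have hb₀ : r a₀ ∈ T := Finset.mem_image_of_mem r ha₀S
  have h1 := hall (r a₀) hb₀
  have hmem : a₀ ∈ S.filter (fun a => r a = r a₀) := by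
    rw [Finset.mem_filter]; exact ⟨ha₀S, rfl⟩
  have h2 : max (-(D a₀)) 0 ≤ ∑ a ∈ S.filter (fun a => r a = r a₀), max (-(D a)) 0 :=
    Finset.single_le_sum (f := fun a => max (-(D a)) 0) (fun a _ => le_max_right _ _) hmem
  have h3 : 0 < max (-(D a₀)) 0 := by
    rw [lt_max_iff]; left; omega
  have h4 : 0 < max (-(Db (r a₀))) 0 := by rw [h1]; exact lt_of_lt_of_le h3 h2
  rw [lt_max_iff] at h4
  rcases h4 with h4 | h4
  · omega
  · exact absurd h4 (lt_irrefl _)

end Bookkeeping

section Poles

variable {L k F Fb : Type*} [Field L] [Field k] [Field F] [Field Fb] [Algebra L F] [Algebra k Fb]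
variable {A : ValuationSubring L} {π : A →+* k} {W : ValuationSubring F} {ρ : W →+* Fb}
  {r : Place L F → Place k Fb}

/-- **cusps reduce to cusps**: if the polar divisor of `ρ J` has degree at least the degree of the
polar divisor of `J`, every pole of `J` reduces to a pole of `ρ J`. -/
theorem s18a_pole_of_pole (H : ts_Hyp A π W ρ r) (J : W) (hJ : ρ J ≠ 0)
    (DJ : Divisor L F) (hDJ : ∀ P, DJ P = P.ord (J : F))
    (DJb : Divisor k Fb) (hDJb : ∀ Q, DJb Q = Q.ord (ρ J))
    (hpol : ∑ P ∈ DJ.support, max (-(DJ P)) 0 ≤ ∑ Q ∈ DJb.support, max (-(DJb Q)) 0) :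
    ∀ P : Place L F, P.ord (J : F) < 0 → (r P).ord (ρ J) < 0 := by
  have heq : Finsupp.mapDomain r DJ = DJb := by
    ext Q
    rw [H.compat J hJ DJ hDJ Q, hDJb Q]
  intro P hP
  have := s18a_neg_of_neg r DJ (by rw [heq]; exact hpol) P (by rw [hDJ P]; exact hP)
  rw [heq, hDJb] at this
  exact this

/-- **disc uniformisers** `T = J - c`. -/
theorem s18a_hT (H : ts_Hyp A π W ρ r) (J : W)
    (hpole : ∀ P : Place L F, P.ord (J : F) < 0 → (r P).ord (ρ J) < 0)
    (Q : Place k Fb) (hreg : 0 ≤ Q.ord (ρ J)) (cb : k)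
    (hsimple : Q.ord (ρ J - algebraMap k Fb cb) = 1) :
    ∃ T : W, Q.ord (ρ T) = 1 ∧ ∀ P, r P = Q → P.adicValuation (T : F) ≤ 1 := by
  obtain ⟨⟨c, hc⟩, hcb⟩ := H.pi_surj cb
  have hcW : algebraMap L F c ∈ W := (H.mem_iff c).mpr hc
  refine ⟨J - ⟨algebraMap L F c, hcW⟩, ?_, ?_⟩
  · rw [map_sub, H.rho_alg c hc hcW, hcb]
    exact hsimple
  · intro P hP
    have hJP : P.adicValuation (J : F) ≤ 1 := by
      by_contra hcon
      rw [P.not_adicValuation_le_one_iff] at hcon
      have := hpole P hcon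
      rw [hP] at this
      omega
    have hcP : P.adicValuation (algebraMap L F c) ≤ 1 := P.adicValuation_algebraMap_le_one c
    have : ((J - ⟨algebraMap L F c, hcW⟩ : W) : F) = (J : F) - algebraMap L F c := rfl
    rw [this]
    exact le_trans (Valuation.map_sub _ _ _) (max_le hJP hcP)

end Poles

end Fermat.Agent.S18x
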