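/-
S18x/RmnBasic (helper95): abstract Riemann-theorem package, part 1.
For a function field `F/K` given through the Prelude places, under the hypothesis bundle `rmn_Hyp`
(rational residue fields, divisors of functions, `L(0) = K`): monotonicity of `L(D)`, the step
lemma `dim L(D+P) ≤ dim L(D) + 1`, finite-dimensionality of every `L(D)`, and the defect function
`δ(D) = deg D + 1 - dim L(D)`, which is monotone and invariant under linear equivalence.
No repartitions, no differentials.  Consumed by helper80's `ts_main` (shapes `hRiem`, `hG`).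
-/
import Mathlib
import Fermat.Prelude.Def_AlgebraicCurve_Repartitions

set_option autoImplicit false

namespace Fermat.Agent.S18x

open AlgebraicCurve WithZero

variable {K F : Type*} [Field K] [Field F] [Algebra K F]

/-- hypothesis bundle for the Riemann-theorem package -/
structure rmn_Hyp (K F : Type*) [Field K] [Field F] [Algebra K F] : Prop where
  /-- residue fields of places are `K` -/
  eval : ∀ (P : Place K F) (x : F), P.adicValuation x ≤ 1 →
    ∃ c : K, P.adicValuation (x - algebraMap K F c) < 1
  /-- places have degree one -/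
  hdeg : ∀ P : Place K F, P.deg = 1
  /-- divisors of functions exist -/
  hpd : ∀ x : F, x ≠ 0 → ∃ D : Divisor K F, ∀ P : Place K F, D P = P.ord x
  /-- principal divisors have degree zero -/
  hprin0 : ∀ (x : F) (Dx : Divisor K F), x ≠ 0 → (∀ P, Dx P = P.ord x) → Divisor.degree Dx = 0
  /-- functions without poles are constant -/
  hconst : ∀ y : F, y ≠ 0 → (∀ Q : Place K F, 0 ≤ Q.ord y) → ∃ a : K, y = algebraMap K F a

/-! ## elementary facts on `ord` -/

theorem rmn_val_lt_one_iff (P : Place K F) {x : F} :
    P.adicValuation x < 1 ↔ x = 0 ∨ 1 ≤ P.ord x := by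
  rcases eq_or_ne x 0 with rfl | hx
  · simp
  · rw [P.adicValuation_eq_exp_neg_ord hx, or_iff_right hx, ← WithZero.exp_zero,
      WithZero.exp_lt_exp]
    omega

theorem rmn_ord_add_ge (P : Place K F) {x y : F} {n : ℤ} (hx : x = 0 ∨ n ≤ P.ord x)
    (hy : y = 0 ∨ n ≤ P.ord y) : x + y = 0 ∨ n ≤ P.ord (x + y) := by
  have hx' := (P.adicValuation_le_exp_iff (f := x) (n := -n)).mpr (by simpa using hx)
  have hy' := (P.adicValuation_le_exp_iff (f := y) (n := -n)).mpr (by simpa using hy)
  have := (Valuation.map_add _ x y).trans (max_le hx' hy')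
  simpa using (P.adicValuation_le_exp_iff (f := x + y) (n := -n)).mp this

theorem rmn_ord_algebraMap (P : Place K F) (c : K) : P.ord (algebraMap K F c) = 0 := by
  rcases eq_or_ne c 0 with rfl | hc
  · simp
  have h1 := P.adicValuation_algebraMap_le_one c
  have h2 := P.adicValuation_algebraMap_le_one c⁻¹
  have hc' : algebraMap K F c ≠ 0 := by simpa using hc
  have hci' : algebraMap K F c⁻¹ ≠ 0 := by simpa using hc
  have h1' := (P.adicValuation_le_one_iff).mp h1
  have h2' := (P.adicValuation_le_one_iff).mp h2
  have e1 := h1'.resolve_left hc'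
  have e2 := h2'.resolve_left hci'
  rw [map_inv₀, P.ord_inv] at e2
  omega

/-! ## monotonicity and constants -/

theorem rmn_L_mono {D D' : Divisor K F} (h : D ≤ D') :
    riemannRochSpace D ≤ riemannRochSpace D' := by
  intro f hf
  rw [mem_riemannRochSpace_iff] at hf ⊢
  intro v
  rcases hf v with h0 | h1
  · exact Or.inl h0
  · right
    have := Finsupp.le_def.mp h v
    omega

theorem rmn_algebraMap_mem {D : Divisor K F} (hD : ∀ P, 0 ≤ D P) (c : K) :
    algebraMap K F c ∈ riemannRochSpace D := by
  rw [mem_riemannRochSpace_iff]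
  intro v
  right
  rw [rmn_ord_algebraMap]
  have := hD v
  omega

theorem rmn_mem_L_zero_iff (H : rmn_Hyp K F) {f : F} :
    f ∈ riemannRochSpace (0 : Divisor K F) ↔ ∃ a : K, f = algebraMap K F a := by
  constructor
  · intro hf
    rcases eq_or_ne f 0 with rfl | h0
    · exact ⟨0, by simp⟩
    rw [mem_riemannRochSpace_iff] at hf
    refine H.hconst f h0 fun Q => ?_
    have := (hf Q).resolve_left h0
    simpa using this
  · rintro ⟨a, rfl⟩
    exact rmn_algebraMap_mem (fun _ => le_rfl) a

theorem rmn_L_zero_eq (H : rmn_Hyp K F) :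
    riemannRochSpace (0 : Divisor K F) = Submodule.span K {(1 : F)} := by
  ext f
  rw [rmn_mem_L_zero_iff H, Submodule.mem_span_singleton]
  constructor
  · rintro ⟨a, rfl⟩
    exact ⟨a, by rw [Algebra.smul_def, mul_one]⟩
  · rintro ⟨a, rfl⟩
    exact ⟨a, by rw [Algebra.smul_def, mul_one]⟩

theorem rmn_finrank_L_zero (H : rmn_Hyp K F) :
    Module.finrank K (riemannRochSpace (0 : Divisor K F)) = 1 := by
  rw [rmn_L_zero_eq H]
  exact finrank_span_singleton one_ne_zero

theorem rmn_finite_L_zero (H : rmn_Hyp K F) :
    Module.Finite K (riemannRochSpace (0 : Divisor K F)) := by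
  rw [rmn_L_zero_eq H]
  infer_instance

/-! ## the step lemma -/

/-- `L(D + P) ≤ L(D) ⊔ K g` for any `g ∈ L(D+P) \ L(D)`. -/
theorem rmn_step_le (H : rmn_Hyp K F) (D : Divisor K F) (P : Place K F) {g : F}
    (hg : g ∈ riemannRochSpace (D + Finsupp.single P 1)) (hg' : g ∉ riemannRochSpace D) :
    riemannRochSpace (D + Finsupp.single P 1) ≤ riemannRochSpace D ⊔ Submodule.span K {g} := by
  classical
  have hg0 : g ≠ 0 := fun h => hg' (h ▸ Submodule.zero_mem _)
  rw [mem_riemannRochSpace_iff] at hg
  -- the order of `g` at `P` is exactly `-(D P + 1)`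
  have hgP : P.ord g = -(D P + 1) := by
    have h1 := (hg P).resolve_left hg0
    simp only [Finsupp.coe_add, Pi.add_apply, Finsupp.single_eq_same] at h1
    by_contra hne
    apply hg'
    rw [mem_riemannRochSpace_iff]
    intro v
    right
    by_cases hv : v = P
    · subst hv; omega
    · have h2 := (hg v).resolve_left hg0
      simp only [Finsupp.coe_add, Pi.add_apply, Finsupp.single_apply, if_neg (Ne.symm hv),
        add_zero] at h2
      exact h2
  intro f hf
  rcases eq_or_ne f 0 with rfl | hf0
  · exact Submodule.zero_mem _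
  rw [mem_riemannRochSpace_iff] at hf
  -- `f / g` is regular at `P`
  have hfg : P.adicValuation (f * g⁻¹) ≤ 1 := by
    rw [P.adicValuation_le_one_iff]
    right
    rw [P.ord_mul hf0 (inv_ne_zero hg0), P.ord_inv, hgP]
    have h1 := (hf P).resolve_left hf0
    simp only [Finsupp.coe_add, Pi.add_apply, Finsupp.single_eq_same] at h1
    omega
  obtain ⟨c, hc⟩ := H.eval P (f * g⁻¹) hfg
  have hdecomp : f = (f - c • g) + c • g := by ring
  rw [hdecomp]
  refine Submodule.add_mem_sup ?_ (Submodule.smul_mem _ _ (Submodule.mem_span_singleton_self g))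
  rw [mem_riemannRochSpace_iff]
  intro v
  by_cases hv : v = P
  · subst hv
    -- at `P`: `f - c g = g (f/g - c)` has order `≥ -(D P + 1) + 1`
    by_cases hz : f - c • g = 0
    · exact Or.inl hz
    right
    have heq : f - c • g = g * (f * g⁻¹ - algebraMap K F c) := by
      rw [Algebra.smul_def]; field_simp
    have hne : f * g⁻¹ - algebraMap K F c ≠ 0 := by
      intro h; apply hz; rw [heq, h, mul_zero]
    rw [heq, v.ord_mul hg0 hne, hgP]
    have := ((rmn_val_lt_one_iff v).mp hc).resolve_left hne
    omega
  · -- away from `P` both `f` and `g` satisfy the bound of `D`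
    have hfv := hf v
    have hgv := hg v
    simp only [Finsupp.coe_add, Pi.add_apply, Finsupp.single_apply, if_neg (Ne.symm hv),
      add_zero] at hfv hgv
    have hcg : c • g = 0 ∨ -D v ≤ v.ord (c • g) := by
      rcases eq_or_ne c 0 with rfl | hc0
      · left; simp
      right
      rw [Algebra.smul_def, v.ord_mul (by simpa using hc0) hg0, rmn_ord_algebraMap, zero_add]
      exact hgv.resolve_left hg0
    have hneg : -(c • g) = 0 ∨ -D v ≤ v.ord (-(c • g)) := by
      rcases hcg with h | h
      · left; simp [h]
      · right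
        have : v.ord (-(c • g)) = v.ord (c • g) := by
          simp [Place.ord, Valuation.map_neg]
        rw [this]; exact h
    have := rmn_ord_add_ge v (n := -D v) hfv hneg
    rwa [← sub_eq_add_neg] at this

theorem rmn_L_le_step (D : Divisor K F) (P : Place K F) :
    riemannRochSpace D ≤ riemannRochSpace (D + Finsupp.single P 1) := by
  classical
  apply rmn_L_mono
  intro v
  simp only [Finsupp.coe_add, Pi.add_apply]
  rw [Finsupp.single_apply]
  split_ifs <;> omega

/-- finite-dimensionality propagates along `D ↦ D + P`, and the dimension grows by at most one -/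
theorem rmn_step (H : rmn_Hyp K F) (D : Divisor K F) (P : Place K F)
    (hfin : Module.Finite K (riemannRochSpace D)) :
    Module.Finite K (riemannRochSpace (D + Finsupp.single P 1)) ∧
      Module.finrank K (riemannRochSpace (D + Finsupp.single P 1)) ≤
        Module.finrank K (riemannRochSpace D) + 1 := by
  classical
  by_cases hex : ∃ g, g ∈ riemannRochSpace (D + Finsupp.single P 1) ∧ g ∉ riemannRochSpace D
  · obtain ⟨g, hg, hg'⟩ := hex
    have hle := rmn_step_le H D P hg hg'
    have := hfin
    have : Module.Finite K ↥(riemannRochSpace D ⊔ Submodule.span K {g}) :=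
      Submodule.finite_sup _ _
    have hfin' : Module.Finite K (riemannRochSpace (D + Finsupp.single P 1)) :=
      Submodule.finiteDimensional_of_le hle
    refine ⟨hfin', ?_⟩
    calc Module.finrank K (riemannRochSpace (D + Finsupp.single P 1))
        ≤ Module.finrank K ↥(riemannRochSpace D ⊔ Submodule.span K {g}) :=
          Submodule.finrank_mono hle
      _ ≤ Module.finrank K (riemannRochSpace D) + Module.finrank K (Submodule.span K {g}) :=
          Submodule.finrank_add_le_finrank_add_finrank _ _
      _ ≤ Module.finrank K (riemannRochSpace D) + 1 := by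
          have := finrank_span_singleton (K := K) (fun h : g = 0 => hg' (h ▸ Submodule.zero_mem _))
          omega
  · push Not at hex
    have heq : riemannRochSpace (D + Finsupp.single P 1) = riemannRochSpace D :=
      le_antisymm (fun g hg => hex g hg) (rmn_L_le_step D P)
    rw [heq]
    exact ⟨hfin, Nat.le_succ _⟩

end Fermat.Agent.S18x
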