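/-
S18x/RmnRiemann (helper95): abstract Riemann-theorem package, part 2.
Finite-dimensionality of all `L(D)`, the defect `δ(D) = deg D + 1 - dim L(D)` (monotone, invariant
under linear equivalence), Riemann's inequality from ONE linear lower bound along the multiples of a
positive divisor (`rmn_Bound`), the genus `g = max δ`, `δ(D) = g` for `deg D` large, and the exact
`hRiem` shape of helper80's `ts_main`.
-/
import Mathlib
import Fermat.Agent.S18x.RmnBasic

set_option autoImplicit false

namespace Fermat.Agent.S18x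

open AlgebraicCurve WithZero

variable {K F : Type*} [Field K] [Field F] [Algebra K F]

/-! ## degrees -/

theorem rmn_degree_single (H : rmn_Hyp K F) (P : Place K F) (n : ℤ) :
    Divisor.degree (Finsupp.single P n) = n := by
  rw [Divisor.degree_single, H.hdeg P]; simp

theorem rmn_degree_eq_sum (H : rmn_Hyp K F) (D : Divisor K F) :
    Divisor.degree D = D.sum fun _ n => n := by
  induction D using Finsupp.induction with
  | zero => simp
  | single_add P n D hP hn ih =>
    rw [map_add, ih, rmn_degree_single H, Finsupp.sum_add_index' (by simp) (by simp),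
      Finsupp.sum_single_index (by simp)]

theorem rmn_degree_nonneg (H : rmn_Hyp K F) {D : Divisor K F} (hD : ∀ P, 0 ≤ D P) :
    0 ≤ Divisor.degree D := by
  rw [rmn_degree_eq_sum H]
  exact Finset.sum_nonneg fun P _ => hD P

/-! ## finite-dimensionality -/

theorem rmn_step_nat (H : rmn_Hyp K F) (D : Divisor K F) (P : Place K F)
    (hfin : Module.Finite K (riemannRochSpace D)) (n : ℕ) :
    Module.Finite K (riemannRochSpace (D + Finsupp.single P (n : ℤ))) ∧
      Module.finrank K (riemannRochSpace (D + Finsupp.single P (n : ℤ))) ≤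
        Module.finrank K (riemannRochSpace D) + n := by
  induction n with
  | zero =>
    have h0 : D + Finsupp.single P ((0 : ℕ) : ℤ) = D := by simp
    rw [h0]
    exact ⟨hfin, le_rfl⟩
  | succ n ih =>
    have h := rmn_step H (D + Finsupp.single P (n : ℤ)) P ih.1
    have heq : D + Finsupp.single P ((n + 1 : ℕ) : ℤ) =
        D + Finsupp.single P (n : ℤ) + Finsupp.single P 1 := by
      rw [add_assoc, ← Finsupp.single_add]; push_cast; rfl
    rw [heq]
    refine ⟨h.1, ?_⟩
    have := h.2
    have := ih.2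
    omega

/-- adding a nonnegative divisor `E`: finiteness is preserved and the dimension grows by at most
`deg E` -/
theorem rmn_add_nonneg (H : rmn_Hyp K F) (E : Divisor K F) (hE : ∀ P, 0 ≤ E P) :
    ∀ D : Divisor K F, Module.Finite K (riemannRochSpace D) →
      Module.Finite K (riemannRochSpace (D + E)) ∧
        (Module.finrank K (riemannRochSpace (D + E)) : ℤ) ≤
          Module.finrank K (riemannRochSpace D) + Divisor.degree E := by
  induction E using Finsupp.induction with
  | zero =>
    intro D hfin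
    rw [add_zero, map_zero, add_zero]
    exact ⟨hfin, le_rfl⟩
  | single_add P n E hP hn ih =>
    intro D hfin
    have hnP : 0 ≤ n := by
      have := hE P
      simpa [Finsupp.notMem_support_iff.mp hP] using this
    have hE' : ∀ Q, 0 ≤ E Q := by
      intro Q
      by_cases hQ : Q = P
      · subst hQ; rw [Finsupp.notMem_support_iff.mp hP]
      · have := hE Q
        simpa [Finsupp.single_apply, Ne.symm hQ] using this
    obtain ⟨m, rfl⟩ := Int.eq_ofNat_of_zero_le hnP
    have h1 := rmn_step_nat H D P hfin m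
    have h2 := ih hE' (D + Finsupp.single P (m : ℤ)) h1.1
    have heq : D + (Finsupp.single P (m : ℤ) + E) = D + Finsupp.single P (m : ℤ) + E := by
      rw [add_assoc]
    rw [heq]
    refine ⟨h2.1, ?_⟩
    rw [map_add, rmn_degree_single H]
    have := h2.2
    have : (Module.finrank K (riemannRochSpace (D + Finsupp.single P (m : ℤ))) : ℤ) ≤
        Module.finrank K (riemannRochSpace D) + m := by exact_mod_cast h1.2
    omega

/-- the positive part of a divisor -/
noncomputable def rmn_pos (D : Divisor K F) : Divisor K F :=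
  Finsupp.mapRange (fun n : ℤ => max n 0) (by simp) D

theorem rmn_pos_apply (D : Divisor K F) (P : Place K F) : rmn_pos D P = max (D P) 0 := by
  simp [rmn_pos]

theorem rmn_le_pos (D : Divisor K F) : D ≤ rmn_pos D := by
  intro P; rw [rmn_pos_apply]; exact le_max_left _ _

theorem rmn_pos_nonneg (D : Divisor K F) (P : Place K F) : 0 ≤ rmn_pos D P := by
  rw [rmn_pos_apply]; exact le_max_right _ _

theorem rmn_finite_nonneg (H : rmn_Hyp K F) (E : Divisor K F) (hE : ∀ P, 0 ≤ E P) :
    Module.Finite K (riemannRochSpace E) := by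
  have := (rmn_add_nonneg H E hE 0 (rmn_finite_L_zero H)).1
  rwa [zero_add] at this

/-- every Riemann-Roch space is finite-dimensional -/
theorem rmn_finite (H : rmn_Hyp K F) (D : Divisor K F) :
    Module.Finite K (riemannRochSpace D) := by
  have := rmn_finite_nonneg H (rmn_pos D) (rmn_pos_nonneg D)
  exact Submodule.finiteDimensional_of_le (rmn_L_mono (rmn_le_pos D))

/-! ## the defect -/

/-- `δ(D) = deg D + 1 - dim L(D)` -/
noncomputable def rmn_delta (D : Divisor K F) : ℤ :=
  Divisor.degree D + 1 - (Module.finrank K (riemannRochSpace D) : ℤ)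

theorem rmn_delta_zero (H : rmn_Hyp K F) : rmn_delta (0 : Divisor K F) = 0 := by
  rw [rmn_delta, rmn_finrank_L_zero H]; simp

/-- `δ` is monotone: `δ(D) ≤ δ(D + E)` for `E ≥ 0` -/
theorem rmn_delta_le_add (H : rmn_Hyp K F) (D E : Divisor K F) (hE : ∀ P, 0 ≤ E P) :
    rmn_delta D ≤ rmn_delta (D + E) := by
  have h := (rmn_add_nonneg H E hE D (rmn_finite H D)).2
  rw [rmn_delta, rmn_delta, map_add]
  omega

theorem rmn_delta_mono (H : rmn_Hyp K F) {D D' : Divisor K F} (h : D ≤ D') :
    rmn_delta D ≤ rmn_delta D' := by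
  have := rmn_delta_le_add H D (D' - D) (fun P => by
    have := Finsupp.le_def.mp h P
    simp only [Finsupp.coe_sub, Pi.sub_apply]; omega)
  rwa [add_sub_cancel] at this

/-! ## linear equivalence -/

theorem rmn_mul_mem_iff {z : F} (hz : z ≠ 0) {Dz : Divisor K F} (hDz : ∀ P, Dz P = P.ord z)
    (D : Divisor K F) (f : F) :
    z * f ∈ riemannRochSpace D ↔ f ∈ riemannRochSpace (D + Dz) := by
  rw [mem_riemannRochSpace_iff, mem_riemannRochSpace_iff]
  refine forall_congr' fun v => ?_
  rcases eq_or_ne f 0 with rfl | hf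
  · simp
  · rw [or_iff_right (mul_ne_zero hz hf), or_iff_right hf, v.ord_mul hz hf]
    simp only [Finsupp.coe_add, Pi.add_apply, hDz v]
    constructor <;> intro h <;> omega

/-- `L(D + (z)) ≃ L(D)` via multiplication by `z` -/
theorem rmn_finrank_add_principal {z : F} (hz : z ≠ 0) {Dz : Divisor K F}
    (hDz : ∀ P, Dz P = P.ord z) (D : Divisor K F) :
    Module.finrank K (riemannRochSpace (D + Dz)) = Module.finrank K (riemannRochSpace D) := by
  let e : F ≃ₗ[K] F :=
    { toFun := fun f => z * f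
      map_add' := fun a b => mul_add z a b
      map_smul' := fun c a => by simp [Algebra.smul_def, mul_left_comm]
      invFun := fun f => z⁻¹ * f
      left_inv := fun f => by simp [← mul_assoc, inv_mul_cancel₀ hz]
      right_inv := fun f => by simp [← mul_assoc, mul_inv_cancel₀ hz] }
  have hmap : (riemannRochSpace (D + Dz)).map e.toLinearMap = riemannRochSpace D := by
    ext f
    constructor
    · rintro ⟨f', hf', rfl⟩
      exact (rmn_mul_mem_iff hz hDz D f').mpr hf'
    · intro hf
      refine ⟨z⁻¹ * f, ?_, ?_⟩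
      · apply (rmn_mul_mem_iff hz hDz D _).mp
        rwa [← mul_assoc, mul_inv_cancel₀ hz, one_mul]
      · show z * (z⁻¹ * f) = f
        rw [← mul_assoc, mul_inv_cancel₀ hz, one_mul]
  rw [← hmap]
  exact (LinearEquiv.finrank_eq (e.submoduleMap (riemannRochSpace (D + Dz)))).symm ▸ rfl

theorem rmn_delta_add_principal (H : rmn_Hyp K F) {z : F} (hz : z ≠ 0) {Dz : Divisor K F}
    (hDz : ∀ P, Dz P = P.ord z) (D : Divisor K F) : rmn_delta (D + Dz) = rmn_delta D := by
  rw [rmn_delta, rmn_delta, rmn_finrank_add_principal hz hDz, map_add, H.hprin0 z Dz hz hDz,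
    add_zero]

/-! ## Riemann's inequality -/

/-- the single arithmetic input: along the multiples of a positive divisor `B` the defect is
bounded -/
def rmn_Bound (K F : Type*) [Field K] [Field F] [Algebra K F] : Prop :=
  ∃ (B : Divisor K F) (γ : ℤ), 0 < Divisor.degree B ∧ (∀ P, 0 ≤ B P) ∧
    ∀ m : ℕ, rmn_delta (m • B) ≤ γ

theorem rmn_exists_ne_zero_of_finrank_pos {D : Divisor K F}
    (h : 0 < Module.finrank K (riemannRochSpace D)) :
    ∃ x : F, x ≠ 0 ∧ x ∈ riemannRochSpace D := by
  have : Nontrivial (riemannRochSpace D) := Module.nontrivial_of_finrank_pos h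
  obtain ⟨x, hx⟩ := exists_ne (0 : riemannRochSpace D)
  exact ⟨x, fun h0 => hx (Subtype.ext h0), x.2⟩

/-- **Riemann's inequality**: the defect is bounded above. -/
theorem rmn_delta_bounded (H : rmn_Hyp K F) (hB : rmn_Bound K F) :
    ∃ γ : ℤ, ∀ D : Divisor K F, rmn_delta D ≤ γ := by
  obtain ⟨B, γ, hBdeg, hBpos, hBγ⟩ := hB
  refine ⟨γ, fun D => ?_⟩
  set D₁ := rmn_pos D with hD₁
  have hD₁pos : ∀ P, 0 ≤ D₁ P := rmn_pos_nonneg D
  have hn₁ : 0 ≤ Divisor.degree D₁ := rmn_degree_nonneg H hD₁pos
  -- choose `m` large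
  set m : ℕ := (γ + Divisor.degree D₁).toNat with hm
  have hm1 : γ + Divisor.degree D₁ ≤ (m : ℤ) * Divisor.degree B := by
    have h1 : γ + Divisor.degree D₁ ≤ (m : ℤ) := Int.self_le_toNat _
    have h2 : (m : ℤ) ≤ (m : ℤ) * Divisor.degree B := by
      have : (0 : ℤ) ≤ m := Int.natCast_nonneg m
      nlinarith
    omega
  -- `dim L(mB - D₁) ≥ 1`
  have hstep := (rmn_add_nonneg H D₁ hD₁pos (m • B - D₁) (rmn_finite H _)).2
  rw [sub_add_cancel] at hstep
  have hγ := hBγ m
  rw [rmn_delta, map_nsmul, nsmul_eq_mul] at hγ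
  have hpos : 0 < Module.finrank K (riemannRochSpace (m • B - D₁)) := by
    have : (0 : ℤ) < Module.finrank K (riemannRochSpace (m • B - D₁)) := by omega
    exact_mod_cast this
  obtain ⟨z, hz0, hz⟩ := rmn_exists_ne_zero_of_finrank_pos hpos
  obtain ⟨Dz, hDz⟩ := H.hpd z hz0
  -- `D₁ - Dz ≤ mB`
  have hle : D₁ - Dz ≤ m • B := by
    intro P
    rw [mem_riemannRochSpace_iff] at hz
    have := (hz P).resolve_left hz0
    simp only [Finsupp.coe_sub, Pi.sub_apply, hDz P] at this ⊢
    omega
  calc rmn_delta D ≤ rmn_delta D₁ := rmn_delta_mono H (rmn_le_pos D)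
    _ = rmn_delta (D₁ - Dz + Dz) := by rw [sub_add_cancel]
    _ = rmn_delta (D₁ - Dz) := rmn_delta_add_principal H hz0 hDz _
    _ ≤ rmn_delta (m • B) := rmn_delta_mono H hle
    _ ≤ γ := hBγ m

/-- existence of the genus: the maximum of the defect -/
theorem rmn_exists_genus (H : rmn_Hyp K F) (hB : rmn_Bound K F) :
    ∃ g : ℕ, (∀ D : Divisor K F, rmn_delta D ≤ g) ∧ ∃ D₀ : Divisor K F, rmn_delta D₀ = g := by
  obtain ⟨γ, hγ⟩ := rmn_delta_bounded H hB
  obtain ⟨g, ⟨D₀, hD₀⟩, hmax⟩ := Int.exists_greatest_of_bdd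
    (P := fun z => ∃ D : Divisor K F, rmn_delta D = z) ⟨γ, fun z ⟨D, hD⟩ => hD ▸ hγ D⟩
    ⟨0, 0, rmn_delta_zero H⟩
  have hg0 : 0 ≤ g := hmax 0 ⟨0, rmn_delta_zero H⟩
  obtain ⟨n, rfl⟩ := Int.eq_ofNat_of_zero_le hg0
  exact ⟨n, fun D => hmax _ ⟨D, rfl⟩, D₀, hD₀⟩

open Classical in
/-- the genus in the sense of Riemann: `max (deg D + 1 - dim L(D))` (junk `0` without the
hypotheses) -/
noncomputable def rmn_genus (K F : Type*) [Field K] [Field F] [Algebra K F] : ℕ :=
  if h : ∃ g : ℕ, (∀ D : Divisor K F, rmn_delta D ≤ g) ∧ ∃ D₀ : Divisor K F, rmn_delta D₀ = g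
  then h.choose else 0

theorem rmn_genus_spec (H : rmn_Hyp K F) (hB : rmn_Bound K F) :
    (∀ D : Divisor K F, rmn_delta D ≤ rmn_genus K F) ∧
      ∃ D₀ : Divisor K F, rmn_delta D₀ = rmn_genus K F := by
  have h := rmn_exists_genus H hB
  rw [rmn_genus, dif_pos h]
  exact h.choose_spec

/-- characterisation of the genus -/
theorem rmn_genus_eq (H : rmn_Hyp K F) (hB : rmn_Bound K F) {g : ℕ}
    (h1 : ∀ D : Divisor K F, rmn_delta D ≤ g) (h2 : ∃ D₀ : Divisor K F, rmn_delta D₀ = g) :
    rmn_genus K F = g := by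
  obtain ⟨hs1, D₁, hD₁⟩ := rmn_genus_spec H hB
  obtain ⟨D₀, hD₀⟩ := h2
  have a := hs1 D₀
  have b := h1 D₁
  omega

/-- **Riemann's inequality** with the genus -/
theorem rmn_riemann (H : rmn_Hyp K F) (hB : rmn_Bound K F) (D : Divisor K F) :
    Divisor.degree D + 1 - (rmn_genus K F : ℤ) ≤ Module.finrank K (riemannRochSpace D) := by
  have := (rmn_genus_spec H hB).1 D
  rw [rmn_delta] at this
  omega

/-- for divisors of large degree the defect equals the genus -/
theorem rmn_delta_eq_of_large (H : rmn_Hyp K F) (hB : rmn_Bound K F) :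
    ∃ c : ℤ, ∀ D : Divisor K F, c ≤ Divisor.degree D → rmn_delta D = rmn_genus K F := by
  obtain ⟨hs1, D₀, hD₀⟩ := rmn_genus_spec H hB
  refine ⟨Divisor.degree D₀ + rmn_genus K F, fun D hD => le_antisymm (hs1 D) ?_⟩
  have hr := rmn_riemann H hB (D - D₀)
  rw [map_sub] at hr
  have hpos : 0 < Module.finrank K (riemannRochSpace (D - D₀)) := by
    have : (0 : ℤ) < Module.finrank K (riemannRochSpace (D - D₀)) := by omega
    exact_mod_cast this
  obtain ⟨z, hz0, hz⟩ := rmn_exists_ne_zero_of_finrank_pos hpos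
  obtain ⟨Dz, hDz⟩ := H.hpd z hz0
  have hle : D₀ ≤ D + Dz := by
    intro P
    rw [mem_riemannRochSpace_iff] at hz
    have := (hz P).resolve_left hz0
    simp only [Finsupp.coe_sub, Pi.sub_apply, Finsupp.coe_add, Pi.add_apply, hDz P] at this ⊢
    omega
  calc (rmn_genus K F : ℤ) = rmn_delta D₀ := hD₀.symm
    _ ≤ rmn_delta (D + Dz) := rmn_delta_mono H hle
    _ = rmn_delta D := rmn_delta_add_principal H hz0 hDz D

/-- **the exact `hRiem` shape of `ts_main`**, with `g = rmn_genus K F` -/
theorem rmn_hRiem (H : rmn_Hyp K F) (hB : rmn_Bound K F) (G : Divisor K F)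
    (hG : (rmn_genus K F : ℤ) ≤ Divisor.degree G) :
    ∃ x : F, x ≠ 0 ∧ x ∈ riemannRochSpace G := by
  have hr := rmn_riemann H hB G
  apply rmn_exists_ne_zero_of_finrank_pos
  have : (0 : ℤ) < Module.finrank K (riemannRochSpace G) := by omega
  exact_mod_cast this

end Fermat.Agent.S18x
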