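/-
S18x/RmnGreedy (helper95): abstract Riemann-theorem package, part 3.
Greedy construction of NON-SPECIAL multiplicity-free effective divisors `Q₁ + ... + Q_n`, `n ≤ g`,
avoiding a prescribed finite set of places, i.e. the exact `hG` shape of helper80's `ts_main`;
and the genus read off from the multiples of one place (used to compare the genera of `F` and of
its reduction).
-/
import Mathlib
import Fermat.Agent.S18x.RmnRiemann

set_option autoImplicit false

namespace Fermat.Agent.S18x

open AlgebraicCurve WithZero

variable {K F : Type*} [Field K] [Field F] [Algebra K F]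

/-- an element of `L(D+P) \ L(D)` has order exactly `-(D P + 1)` at `P` -/
theorem rmn_ord_of_mem_of_notMem {D : Divisor K F} {P : Place K F} {g : F}
    (hg : g ∈ riemannRochSpace (D + Finsupp.single P 1)) (hg' : g ∉ riemannRochSpace D) :
    g ≠ 0 ∧ P.ord g = -(D P + 1) := by
  classical
  have hg0 : g ≠ 0 := fun h => hg' (h ▸ Submodule.zero_mem _)
  refine ⟨hg0, ?_⟩
  rw [mem_riemannRochSpace_iff] at hg
  have h1 := (hg P).resolve_left hg0
  simp only [Finsupp.coe_add, Pi.add_apply, Finsupp.single_eq_same] at h1
  by_contra hne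
  apply hg'
  rw [mem_riemannRochSpace_iff]
  intro v
  right
  by_cases hv : v = P
  · subst hv; omega
  · have h2 := (hg v).resolve_left hg0
    simp only [Finsupp.coe_add, Pi.add_apply, Finsupp.single_apply, if_neg (Ne.symm hv),
      add_zero] at h2
    exact h2

/-- the divisor `∑_{P ∈ S} P` -/
noncomputable def rmn_sumDiv (S : Finset (Place K F)) : Divisor K F :=
  ∑ P ∈ S, Finsupp.single P (1 : ℤ)

theorem rmn_sumDiv_apply_of_notMem {S : Finset (Place K F)} {P : Place K F} (hP : P ∉ S) :
    rmn_sumDiv S P = 0 := by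
  classical
  rw [rmn_sumDiv, Finsupp.finsetSum_apply]
  refine Finset.sum_eq_zero fun Q hQ => ?_
  rw [Finsupp.single_apply, if_neg]
  rintro rfl
  exact hP hQ

theorem rmn_sumDiv_nonneg (S : Finset (Place K F)) (P : Place K F) : 0 ≤ rmn_sumDiv S P := by
  classical
  rw [rmn_sumDiv, Finsupp.finsetSum_apply]
  refine Finset.sum_nonneg fun Q _ => ?_
  rw [Finsupp.single_apply]
  split_ifs <;> norm_num

theorem rmn_degree_sumDiv (H : rmn_Hyp K F) (S : Finset (Place K F)) :
    Divisor.degree (rmn_sumDiv S) = S.card := by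
  rw [rmn_sumDiv, map_sum]
  simp [rmn_degree_single H]

/-- if adding any place outside `T` enlarges `L(D)`, then adding the places of a finite set `S`
disjoint from `T` enlarges the dimension by `#S` -/
theorem rmn_finrank_add_sumDiv (H : rmn_Hyp K F) (D : Divisor K F) (T : Finset (Place K F))
    (hall : ∀ P ∉ T, ∃ f, f ∈ riemannRochSpace (D + Finsupp.single P 1) ∧ f ∉ riemannRochSpace D)
    (S : Finset (Place K F)) (hS : ∀ P ∈ S, P ∉ T) :
    Module.finrank K (riemannRochSpace D) + S.card ≤
      Module.finrank K (riemannRochSpace (D + rmn_sumDiv S)) := by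
  classical
  induction S using Finset.induction_on with
  | empty =>
    have h0 : rmn_sumDiv (∅ : Finset (Place K F)) = 0 := by simp [rmn_sumDiv]
    rw [h0, add_zero]; simp
  | insert P S hPS ih =>
    have ih' := ih fun Q hQ => hS Q (Finset.mem_insert_of_mem hQ)
    obtain ⟨f, hf, hf'⟩ := hall P (hS P (Finset.mem_insert_self P S))
    obtain ⟨hf0, hfP⟩ := rmn_ord_of_mem_of_notMem hf hf'
    have hsum : rmn_sumDiv (insert P S) = rmn_sumDiv S + Finsupp.single P 1 := by
      rw [rmn_sumDiv, Finset.sum_insert hPS, add_comm]; rfl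
    set E := D + rmn_sumDiv S with hE
    have hEq : D + rmn_sumDiv (insert P S) = E + Finsupp.single P 1 := by
      rw [hsum, hE, add_assoc]
    rw [hEq]
    -- `f ∈ L(E + P) \ L(E)`
    have hfE : f ∈ riemannRochSpace (E + Finsupp.single P 1) := by
      refine rmn_L_mono ?_ hf
      intro v
      have := rmn_sumDiv_nonneg S v
      simp only [hE, Finsupp.coe_add, Pi.add_apply]
      omega
    have hfE' : f ∉ riemannRochSpace E := by
      intro hmem
      rw [mem_riemannRochSpace_iff] at hmem
      have := (hmem P).resolve_left hf0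
      rw [hE, Finsupp.coe_add, Pi.add_apply, rmn_sumDiv_apply_of_notMem hPS, hfP] at this
      omega
    have hlt : riemannRochSpace E < riemannRochSpace (E + Finsupp.single P 1) :=
      lt_of_le_of_ne (rmn_L_le_step E P) fun heq => hfE' (heq ▸ hfE)
    have hfin := rmn_finite H (E + Finsupp.single P 1)
    have := Submodule.finrank_lt_finrank_of_lt hlt
    rw [Finset.card_insert_of_notMem hPS]
    omega

/-- **greedy step**: if `δ(D) < g` there is a place outside any given finite set whose addition
does not enlarge `L(D)` -/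
theorem rmn_exists_drop (H : rmn_Hyp K F) (hB : rmn_Bound K F) [Infinite (Place K F)]
    (D : Divisor K F) (hD : rmn_delta D < rmn_genus K F) (T : Finset (Place K F)) :
    ∃ P ∉ T, riemannRochSpace (D + Finsupp.single P 1) = riemannRochSpace D := by
  classical
  by_contra hcon
  push Not at hcon
  have hall : ∀ P ∉ T, ∃ f, f ∈ riemannRochSpace (D + Finsupp.single P 1) ∧
      f ∉ riemannRochSpace D := by
    intro P hP
    by_contra hno
    push Not at hno
    exact hcon P hP (le_antisymm (fun f hf => hno f hf) (rmn_L_le_step D P))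
  obtain ⟨c, hc⟩ := rmn_delta_eq_of_large H hB
  set r : ℕ := (c - Divisor.degree D).toNat with hr
  have hinf : ((T : Set (Place K F))ᶜ).Infinite := T.finite_toSet.infinite_compl
  obtain ⟨S, hST, hScard⟩ := hinf.exists_subset_card_eq r
  have hS : ∀ P ∈ S, P ∉ T := fun P hP => by
    have := hST hP
    simpa using this
  have h1 := rmn_finrank_add_sumDiv H D T hall S hS
  have hdeg : c ≤ Divisor.degree (D + rmn_sumDiv S) := by
    rw [map_add, rmn_degree_sumDiv H, hScard]
    have := Int.self_le_toNat (c - Divisor.degree D)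
    omega
  have h2 := hc _ hdeg
  rw [rmn_delta, map_add, rmn_degree_sumDiv H] at h2
  rw [rmn_delta] at hD
  have h1' : (Module.finrank K (riemannRochSpace D) : ℤ) + S.card ≤
      Module.finrank K (riemannRochSpace (D + rmn_sumDiv S)) := by exact_mod_cast h1
  omega

/-- **non-special multiplicity-free divisors**: for every `n ≤ g` and every finite set `T` of
places there are `n` distinct places outside `T` whose sum `E` has `dim L(E) = 1` -/
theorem rmn_exists_nonspecial (H : rmn_Hyp K F) (hB : rmn_Bound K F) [Infinite (Place K F)]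
    (T : Finset (Place K F)) :
    ∀ n : ℕ, n ≤ rmn_genus K F → ∃ Qs : Fin n → Place K F, Function.Injective Qs ∧
      (∀ i, Qs i ∉ T) ∧
      Module.finrank K (riemannRochSpace (∑ i, Finsupp.single (Qs i) (1 : ℤ))) = 1 := by
  classical
  intro n
  induction n with
  | zero =>
    intro _
    refine ⟨Fin.elim0, fun i => i.elim0, fun i => i.elim0, ?_⟩
    rw [Finset.univ_eq_empty, Finset.sum_empty]
    exact rmn_finrank_L_zero H
  | succ n ih =>
    intro hn
    obtain ⟨Qs, hinj, hT, hdim⟩ := ih (Nat.le_of_succ_le hn)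
    set D : Divisor K F := ∑ i, Finsupp.single (Qs i) (1 : ℤ) with hD
    have hdegD : Divisor.degree D = n := by
      rw [hD, map_sum]
      simp [rmn_degree_single H]
    have hδ : rmn_delta D < rmn_genus K F := by
      rw [rmn_delta, hdegD, hdim]
      have : (n : ℤ) + 1 ≤ rmn_genus K F := by exact_mod_cast hn
      push_cast
      omega
    obtain ⟨P, hP, hPeq⟩ := rmn_exists_drop H hB D hδ (T ∪ Finset.univ.image Qs)
    rw [Finset.mem_union, not_or] at hP
    have hPQ : ∀ i, Qs i ≠ P := fun i h => hP.2 (by rw [← h]; simp)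
    refine ⟨Fin.snoc Qs P, ?_, ?_, ?_⟩
    · intro i j hij
      induction i using Fin.lastCases with
      | last =>
        induction j using Fin.lastCases with
        | last => rfl
        | cast j => simp only [Fin.snoc_last, Fin.snoc_castSucc] at hij; exact absurd hij.symm (hPQ j)
      | cast i =>
        induction j using Fin.lastCases with
        | last => simp only [Fin.snoc_last, Fin.snoc_castSucc] at hij; exact absurd hij (hPQ i)
        | cast j =>
          simp only [Fin.snoc_castSucc] at hij
          rw [hinj hij]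
    · intro i
      induction i using Fin.lastCases with
      | last => simpa using hP.1
      | cast i => simpa using hT i
    · rw [Fin.sum_univ_castSucc]
      have e1 : ∀ i : Fin n, (Fin.snoc Qs P : Fin (n + 1) → Place K F) i.castSucc = Qs i :=
        fun i => Fin.snoc_castSucc (α := fun _ => Place K F) P Qs i
      have e2 : (Fin.snoc Qs P : Fin (n + 1) → Place K F) (Fin.last n) = P :=
        Fin.snoc_last (α := fun _ => Place K F) P Qs
      have hsum : (∑ i : Fin n, Finsupp.single ((Fin.snoc Qs P : Fin (n + 1) → Place K F)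
          i.castSucc) (1 : ℤ)) = D := by
        rw [hD]
        exact Finset.sum_congr rfl fun i _ => by rw [e1 i]
      rw [hsum, e2, hPeq, hdim]

/-- **the exact `hG` shape of `ts_main`**: a divisor `E ≥ 0` with `dim L(E) = 1` has only constant
functions in `L(E)` -/
theorem rmn_const_of_finrank_eq_one {E : Divisor K F} (hE : ∀ P, 0 ≤ E P)
    (hdim : Module.finrank K (riemannRochSpace E) = 1) (y : F) (hy : y ∈ riemannRochSpace E) :
    ∃ a : K, y = algebraMap K F a := by
  have h1 : (1 : F) ∈ riemannRochSpace E := by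
    have := rmn_algebraMap_mem hE (1 : K)
    rwa [map_one] at this
  have hne : (⟨1, h1⟩ : riemannRochSpace E) ≠ 0 := fun h => one_ne_zero (congrArg Subtype.val h)
  obtain ⟨c, hc⟩ := (finrank_eq_one_iff_of_nonzero' _ hne).mp hdim ⟨y, hy⟩
  refine ⟨c, ?_⟩
  have := congrArg Subtype.val hc
  simp only [Submodule.coe_smul] at this
  rw [← this, Algebra.smul_def, mul_one]

/-- combined form feeding `ts_main`: `g' ≤ g` distinct places outside `T` with only constants in
`L(Q₁ + ... + Q_{g'})` -/
theorem rmn_hG (H : rmn_Hyp K F) (hB : rmn_Bound K F) [Infinite (Place K F)]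
    (T : Finset (Place K F)) (n : ℕ) (hn : n ≤ rmn_genus K F) :
    ∃ Qs : Fin n → Place K F, Function.Injective Qs ∧ (∀ i, Qs i ∉ T) ∧
      ∀ y : F, y ∈ riemannRochSpace (∑ i, Finsupp.single (Qs i) (1 : ℤ)) →
        ∃ a : K, y = algebraMap K F a := by
  classical
  obtain ⟨Qs, hinj, hT, hdim⟩ := rmn_exists_nonspecial H hB T n hn
  refine ⟨Qs, hinj, hT, rmn_const_of_finrank_eq_one (fun P => ?_) hdim⟩
  rw [Finsupp.finsetSum_apply]
  refine Finset.sum_nonneg fun i _ => ?_
  rw [Finsupp.single_apply]
  split_ifs <;> norm_num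

/-! ## the genus from the multiples of one place -/

theorem rmn_finrank_nsmul_place (H : rmn_Hyp K F) (hB : rmn_Bound K F) (P : Place K F) :
    ∃ c : ℕ, ∀ n : ℕ, c ≤ n →
      (Module.finrank K (riemannRochSpace (Finsupp.single P (n : ℤ))) : ℤ) =
        n + 1 - rmn_genus K F := by
  obtain ⟨c, hc⟩ := rmn_delta_eq_of_large H hB
  refine ⟨c.toNat, fun n hn => ?_⟩
  have hdeg : c ≤ Divisor.degree (Finsupp.single P (n : ℤ)) := by
    rw [rmn_degree_single H]
    have := Int.self_le_toNat c
    have : (c.toNat : ℤ) ≤ n := by exact_mod_cast hn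
    omega
  have := hc _ hdeg
  rw [rmn_delta, rmn_degree_single H] at this
  omega

/-- **comparison of genera**: if for one place `P` of `F` and one place `Q` of `Fb` the spaces
`L(nQ)` are eventually no larger than `L(nP)`, then `g(F) ≤ g(Fb)`. -/
theorem rmn_genus_le_of_finrank_le {k Fb : Type*} [Field k] [Field Fb] [Algebra k Fb]
    (H : rmn_Hyp K F) (hB : rmn_Bound K F) (Hb : rmn_Hyp k Fb) (hBb : rmn_Bound k Fb)
    (P : Place K F) (Q : Place k Fb)
    (hle : ∀ c : ℕ, ∃ n : ℕ, c ≤ n ∧
      Module.finrank k (riemannRochSpace (Finsupp.single Q (n : ℤ))) ≤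
        Module.finrank K (riemannRochSpace (Finsupp.single P (n : ℤ)))) :
    rmn_genus K F ≤ rmn_genus k Fb := by
  obtain ⟨c₁, h₁⟩ := rmn_finrank_nsmul_place H hB P
  obtain ⟨c₂, h₂⟩ := rmn_finrank_nsmul_place Hb hBb Q
  obtain ⟨n, hn, hdim⟩ := hle (max c₁ c₂)
  have e₁ := h₁ n (le_trans (le_max_left _ _) hn)
  have e₂ := h₂ n (le_trans (le_max_right _ _) hn)
  have : (Module.finrank k (riemannRochSpace (Finsupp.single Q (n : ℤ))) : ℤ) ≤
      Module.finrank K (riemannRochSpace (Finsupp.single P (n : ℤ))) := by exact_mod_cast hdim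
  have : (rmn_genus K F : ℤ) ≤ rmn_genus k Fb := by omega
  exact_mod_cast this

end Fermat.Agent.S18x
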