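/-
S18x/Wrapper (helper40): the Pic0 bookkeeping that turns the divisor-level core statement
"m • D principal, r_* D principal, deg D = 0 ⟹ D principal" into the frozen S18 statement.
Imports: Mathlib + the Prelude definition module of `reductionModL` only.
-/
import Mathlib
import Fermat.Prelude.Def_ModularCurve_ReductionModL

set_option autoImplicit false
set_option synthInstance.maxHeartbeats 400000

namespace Fermat.Agent.S18x

open ModularCurve AlgebraicCurve

/-- The divisor-level core of S18 for a fixed level `N`, valuation ring `A`, reduction inputs `h`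
and integer `m`. -/
def s18w_Core (N : ℕ) (A : ValuationSubring (AlgebraicClosure ℚ))
    (h : ModularCurve.ReductionInputsModL A N) (m : ℕ) : Prop :=
  ∀ D : Divisor (AlgebraicClosure ℚ) (modularFunctionFieldBar N),
    Divisor.degree D = 0 →
    Divisor.IsPrincipal ((m : ℤ) • D) →
    Divisor.IsPrincipal (Finsupp.mapDomain (placeReductionModL h) D) →
    Divisor.IsPrincipal D

theorem s18w_mk_eq_zero_iff {K F : Type*} [Field K] [Field F] [Algebra K F]
    (D : Divisor.degZero (K := K) (F := F)) :
    Pic0.mk D = 0 ↔ Divisor.IsPrincipal (D : Divisor K F) := by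
  unfold Pic0.mk
  rw [QuotientAddGroup.eq_zero_iff, AddSubgroup.mem_addSubgroupOf, Divisor.mem_principal]

/-- Wrapper: the core statement implies the frozen S18 conclusion. -/
theorem s18w_of_core (N : ℕ) (A : ValuationSubring (AlgebraicClosure ℚ))
    (h : ModularCurve.ReductionInputsModL A N) (m : ℕ)
    (core : s18w_Core N A h m)
    (z : ModularCurve.JZero N) (hmz : m • z = 0)
    (hz : ModularCurve.reductionModL A N z = 0) : z = 0 := by
  obtain ⟨D, rfl⟩ := Pic0.mk_surjective z
  rw [s18w_mk_eq_zero_iff]
  refine core D D.2 ?_ ?_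
  · have h1 : Pic0.mk (m • D) = 0 := hmz
    rw [s18w_mk_eq_zero_iff] at h1
    have h2 : ((m • D : Divisor.degZero (K := AlgebraicClosure ℚ)
        (F := modularFunctionFieldBar N)) : Divisor (AlgebraicClosure ℚ)
          (modularFunctionFieldBar N)) = (m : ℤ) • (D : Divisor (AlgebraicClosure ℚ)
          (modularFunctionFieldBar N)) := by
      rw [AddSubgroupClass.coe_nsmul, natCast_zsmul]
    rwa [h2] at h1
  · rw [reductionModL_mk h D, s18w_mk_eq_zero_iff] at hz
    exact hz

end Fermat.Agent.S18x
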