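/-
S18x/Assembly (helper80): CONDITIONAL TOP THEOREM for S18.

`s18a_result_of_inputs` proves the frozen S18 conclusion `z = 0` from explicit hypotheses, one per
remaining block of the S18 plan:
* `G  : s18a_Gauss ..`   -- the Gauss valuation ring `W` of `F_N`, its residue map `ρ` onto the
                            reduced field and divisor compatibility of `r = placeReductionModL h`
                            (block I1);
* `HF : rmn_Hyp`, `hBF : rmn_Bound` on `F_N / ℚ̄`  -- places of the characteristic zero field and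
                            one linear lower bound for `dim L(mB)` (blocks PL0 / RT0);
* `D₀, hD₀fin, hD₀`      -- ONE divisor on the reduced field with
                            `dim L(D₀) + g(F_N) ≤ deg D₀ + 1`  (the genus inequality, block GE);
* `J, DJ, DJb, hpol, Sbad, hunr` -- a coordinate `J ∈ W` (`J = j`) whose reduction has a polar
                            divisor of the same degree, and is unramified outside a finite set
                            (block UNR).
It combines `ns_ts_injective` (helper4, all reduced-field inputs discharged through `ts_Hyp`),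
`rmn_hRiem` (helper95), `s18a_hT`/`s18a_pole_of_pole`/`s18a_rsurj` and `s18w_of_core` (helper40).
-/
import Fermat.Agent.S18x.AsmPoles
import Fermat.Agent.S18x.RmnGreedy
import Fermat.Agent.S18x.Wrapper

set_option autoImplicit false

namespace Fermat.Agent.S18x

open AlgebraicCurve WithZero Polynomial

section Residue

theorem s18a_isAlgClosed_residue {L : Type*} [Field L] [IsAlgClosed L] (A : ValuationSubring L) :
    IsAlgClosed (IsLocalRing.ResidueField A) := by
  apply IsAlgClosed.of_exists_root
  intro p hp hirr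
  have hsurj : Function.Surjective (IsLocalRing.residue A) := IsLocalRing.residue_surjective
  have hlift : p ∈ Polynomial.lifts (IsLocalRing.residue A) :=
    (Polynomial.mem_lifts p).mpr (Polynomial.map_surjective _ hsurj p)
  obtain ⟨P, hPmap, hPdeg, hPmonic⟩ := Polynomial.lifts_and_natDegree_eq_and_monic hlift hp
  have hdeg : (P.map (algebraMap A L)).degree ≠ 0 := by
    rw [Polynomial.degree_map_eq_of_injective (FaithfulSMul.algebraMap_injective A L)]
    intro h0
    have : P.natDegree = 0 := Polynomial.natDegree_eq_zero_iff_degree_le_zero.mpr (le_of_eq h0)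
    rw [hPdeg] at this
    exact hirr.natDegree_pos.ne' this
  obtain ⟨x, hx⟩ := IsAlgClosed.exists_root (P.map (algebraMap A L)) hdeg
  have hint : IsIntegral A x := ⟨P, hPmonic, by rwa [Polynomial.eval₂_eq_eval_map]⟩
  obtain ⟨y, rfl⟩ := (IsIntegrallyClosed.isIntegral_iff (R := A) (K := L)).mp hint
  refine ⟨IsLocalRing.residue A y, ?_⟩
  have hy : P.eval y = 0 := by
    apply FaithfulSMul.algebraMap_injective A L
    rw [map_zero, ← Polynomial.eval₂_hom, Polynomial.eval₂_eq_eval_map]
    exact hx
  rw [← hPmap, Polynomial.eval_map, Polynomial.eval₂_hom, hy, map_zero]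

theorem s18a_infinite_residue {L : Type*} [Field L] [IsAlgClosed L] (A : ValuationSubring L) :
    Infinite (IsLocalRing.ResidueField A) :=
  haveI := s18a_isAlgClosed_residue A
  IsAlgClosed.instInfinite

end Residue

section Abstract

variable {L k F Fb : Type*} [Field L] [Field k] [Field F] [Field Fb] [Algebra L F] [Algebra k Fb]

/-- The Gauss data of block I1: everything in `ts_Hyp` that does not belong to the place theory of
`F`, plus surjectivity of `ρ` and degree preservation of `r`. -/
structure s18a_Gauss (A : ValuationSubring L) (π : A →+* k) (W : ValuationSubring F)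
    (ρ : W →+* Fb) (r : Place L F → Place k Fb) : Prop where
  mem_iff : ∀ c : L, algebraMap L F c ∈ W ↔ c ∈ A
  rho_alg : ∀ (c : L) (hc : c ∈ A) (hW : algebraMap L F c ∈ W),
    ρ ⟨algebraMap L F c, hW⟩ = algebraMap k Fb (π ⟨c, hc⟩)
  pi_surj : Function.Surjective π
  ker : ∀ x : W, ρ x = 0 ↔ ¬ IsUnit x
  norm : ∀ x : F, x ≠ 0 → ∃ c : L, c ≠ 0 ∧ algebraMap L F c * x ∈ W ∧ (algebraMap L F c * x)⁻¹ ∈ W
  compat : ∀ u : W, ρ u ≠ 0 → ∀ D : Divisor L F, (∀ P, D P = P.ord (u : F)) →
    ∀ Q, Finsupp.mapDomain r D Q = Q.ord (ρ u)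
  rho_surj : ∀ y : Fb, y ≠ 0 → ∃ u : W, ρ u = y
  hdegr : ∀ P : Place L F, (r P).deg = P.deg

variable {A : ValuationSubring L} {π : A →+* k} {W : ValuationSubring F} {ρ : W →+* Fb}
  {r : Place L F → Place k Fb}

theorem s18a_Gauss.toHyp (G : s18a_Gauss A π W ρ r) (HF : rmn_Hyp L F) : ts_Hyp A π W ρ r where
  mem_iff := G.mem_iff
  rho_alg := G.rho_alg
  pi_surj := G.pi_surj
  ker := G.ker
  norm := G.norm
  compat := G.compat
  hpd := HF.hpd
  eval := HF.eval
  rsurj := s18a_rsurj G.compat HF.hpd G.rho_surj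

/-- **Abstract assembly**: Gauss data + Riemann's theorem on `F` + ONE divisor on `Fb` witnessing
the genus inequality + a coordinate `J` that is unramified outside a finite set and whose reduction
has the same polar degree  ⟹  the torsion statement. -/
theorem s18a_abstract [Infinite k] (G : s18a_Gauss A π W ρ r)
    (HF : rmn_Hyp L F) (hBF : rmn_Bound L F) (P₀ : Place L F)
    (D₀ : Divisor k Fb) (hD₀fin : (riemannRochSpace D₀).FG)
    (hD₀ : (Module.finrank k (riemannRochSpace D₀) : ℤ) + rmn_genus L F ≤ Divisor.degree D₀ + 1)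
    (J : W) (hJnc : ∀ a : k, ρ J ≠ algebraMap k Fb a)
    (DJ : Divisor L F) (hDJ : ∀ P, DJ P = P.ord (J : F))
    (DJb : Divisor k Fb) (hDJb : ∀ Q, DJb Q = Q.ord (ρ J))
    (hpol : ∑ P ∈ DJ.support, max (-(DJ P)) 0 ≤ ∑ Q ∈ DJb.support, max (-(DJb Q)) 0)
    (Sbad : Finset (Place k Fb))
    (hunr : ∀ Q : Place k Fb, Q ∉ Sbad →
      0 ≤ Q.ord (ρ J) ∧ ∃ cb : k, Q.ord (ρ J - algebraMap k Fb cb) = 1)
    (m : ℕ) (hm : (m : k) ≠ 0)
    (D : Divisor L F) (hD0 : Divisor.degree D = 0)
    (hmD : Divisor.IsPrincipal ((m : ℤ) • D))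
    (hred : Divisor.IsPrincipal (Finsupp.mapDomain r D)) :
    Divisor.IsPrincipal D := by
  have H : ts_Hyp A π W ρ r := G.toHyp HF
  have hJ0 : ρ J ≠ 0 := by
    intro h0
    apply hJnc 0
    rw [h0, map_zero]
  have hpole := s18a_pole_of_pole H J hJ0 DJ hDJ DJb hDJb hpol
  refine ns_ts_injective H HF.hdeg G.hdegr HF.hprin0 G.rho_surj (rmn_genus L F)
    (fun Gd hGd => rmn_hRiem HF hBF Gd hGd) P₀ (ρ J) hJnc D₀ hD₀fin hD₀ Sbad ?_ m hm D hD0 hmD hred
  intro Q hQ
  obtain ⟨hreg, cb, hcb⟩ := hunr Q hQ
  exact s18a_hT H J hpole Q hreg cb hcb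

end Abstract

section Concrete

open ModularCurve

set_option synthInstance.maxHeartbeats 400000

/-- **Conditional S18**: the frozen conclusion from the explicit inputs of the remaining blocks. -/
theorem s18a_result_of_inputs (N : ℕ) [NeZero N] {ℓ : ℕ} [Fact ℓ.Prime]
    (A : ValuationSubring (AlgebraicClosure ℚ)) (hA : A.LiesOverPrime ℓ)
    (h : ModularCurve.ReductionInputsModL A N)
    (W : ValuationSubring (modularFunctionFieldBar N))
    (ρ : W →+* modularFunctionFieldFullC (IsLocalRing.ResidueField A) N)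
    (G : s18a_Gauss A (IsLocalRing.residue A) W ρ (placeReductionModL h))
    (HF : rmn_Hyp (AlgebraicClosure ℚ) (modularFunctionFieldBar N))
    (hBF : rmn_Bound (AlgebraicClosure ℚ) (modularFunctionFieldBar N))
    (P₀ : Place (AlgebraicClosure ℚ) (modularFunctionFieldBar N))
    (D₀ : Divisor (IsLocalRing.ResidueField A)
      (modularFunctionFieldFullC (IsLocalRing.ResidueField A) N))
    (hD₀fin : (riemannRochSpace D₀).FG)
    (hD₀ : (Module.finrank (IsLocalRing.ResidueField A) (riemannRochSpace D₀) : ℤ) +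
      rmn_genus (AlgebraicClosure ℚ) (modularFunctionFieldBar N) ≤ Divisor.degree D₀ + 1)
    (J : W)
    (hJnc : ∀ a : IsLocalRing.ResidueField A, ρ J ≠
      algebraMap (IsLocalRing.ResidueField A)
        (modularFunctionFieldFullC (IsLocalRing.ResidueField A) N) a)
    (DJ : Divisor (AlgebraicClosure ℚ) (modularFunctionFieldBar N))
    (hDJ : ∀ P, DJ P = P.ord (J : modularFunctionFieldBar N))
    (DJb : Divisor (IsLocalRing.ResidueField A)
      (modularFunctionFieldFullC (IsLocalRing.ResidueField A) N))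
    (hDJb : ∀ Q, DJb Q = Q.ord (ρ J))
    (hpol : ∑ P ∈ DJ.support, max (-(DJ P)) 0 ≤ ∑ Q ∈ DJb.support, max (-(DJb Q)) 0)
    (Sbad : Finset (Place (IsLocalRing.ResidueField A)
      (modularFunctionFieldFullC (IsLocalRing.ResidueField A) N)))
    (hunr : ∀ Q : Place (IsLocalRing.ResidueField A)
        (modularFunctionFieldFullC (IsLocalRing.ResidueField A) N), Q ∉ Sbad →
      0 ≤ Q.ord (ρ J) ∧ ∃ cb : IsLocalRing.ResidueField A,
        Q.ord (ρ J - algebraMap (IsLocalRing.ResidueField A)
          (modularFunctionFieldFullC (IsLocalRing.ResidueField A) N) cb) = 1)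
    (m : ℕ) (hm : ¬ ℓ ∣ m) (z : ModularCurve.JZero N) (hmz : m • z = 0)
    (hz : ModularCurve.reductionModL A N z = 0) : z = 0 := by
  have : Infinite (IsLocalRing.ResidueField A) := s18a_infinite_residue A
  have hmk : ((m : ℕ) : IsLocalRing.ResidueField A) ≠ 0 :=
    s18a_natCast_ne_zero A hA (Fact.out : ℓ.Prime) hm
  refine s18w_of_core N A h m ?_ z hmz hz
  intro D hD0 hmD hred
  exact s18a_abstract G HF hBF P₀ D₀ hD₀fin hD₀ J hJnc DJ hDJ DJb hDJb hpol Sbad hunr m hmk
    D hD0 hmD hred

end Concrete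

end Fermat.Agent.S18x
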