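/-
S18x/GlueChar (helper40): TOP-glue (G4): the residue field of a valuation subring lying over a
prime `ℓ` has characteristic `ℓ`; hence `(m : k) ≠ 0` when `ℓ ∤ m`.
-/
import Mathlib
import Fermat.Prelude.Def_FLTPrelim_Ramification

set_option autoImplicit false

namespace Fermat.Agent.S18x

variable {L : Type*} [Field L]

theorem glu_residue_natCast_prime_eq_zero (A : ValuationSubring L) {ℓ : ℕ}
    (hA : A.LiesOverPrime ℓ) : ((ℓ : ℕ) : IsLocalRing.ResidueField A) = 0 := by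
  have hmemA : (ℓ : L) ∈ A := A.nonunits_le hA
  have hnu : (⟨(ℓ : L), hmemA⟩ : A) ∈ IsLocalRing.maximalIdeal A := by
    rw [IsLocalRing.mem_maximalIdeal, mem_nonunits_iff]
    intro hu
    have := (A.mem_nonunits_iff_exists_mem_maximalIdeal).mp hA
    obtain ⟨ha, hmax⟩ := this
    rw [IsLocalRing.mem_maximalIdeal, mem_nonunits_iff] at hmax
    exact hmax hu
  have h0 : IsLocalRing.residue A (⟨(ℓ : L), hmemA⟩ : A) = 0 :=
    (IsLocalRing.residue_eq_zero_iff _).mpr hnu
  have hcast : (⟨(ℓ : L), hmemA⟩ : A) = ((ℓ : ℕ) : A) := Subtype.ext (by simp)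
  rw [hcast, map_natCast] at h0
  exact h0

theorem glu_charP (A : ValuationSubring L) {ℓ : ℕ} (hℓ : ℓ.Prime) (hA : A.LiesOverPrime ℓ) :
    CharP (IsLocalRing.ResidueField A) ℓ := by
  have h0 := glu_residue_natCast_prime_eq_zero A hA
  have hdvd : ringChar (IsLocalRing.ResidueField A) ∣ ℓ :=
    (CharP.cast_eq_zero_iff (IsLocalRing.ResidueField A)
      (ringChar (IsLocalRing.ResidueField A)) ℓ).mp h0
  rcases (Nat.dvd_prime hℓ).mp hdvd with h1 | h1
  · exact absurd h1 (CharP.ringChar_ne_one)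
  · rw [← h1]
    exact ringChar.charP _

theorem glu_natCast_ne_zero (A : ValuationSubring L) {ℓ : ℕ} (hℓ : ℓ.Prime)
    (hA : A.LiesOverPrime ℓ) {m : ℕ} (hm : ¬ ℓ ∣ m) :
    ((m : ℕ) : IsLocalRing.ResidueField A) ≠ 0 := by
  have := glu_charP A hℓ hA
  intro h0
  exact hm ((CharP.cast_eq_zero_iff (IsLocalRing.ResidueField A) ℓ m).mp h0)

end Fermat.Agent.S18x
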