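/-
S18x/PlsFund (helper34): the fundamental identity `∑_{v | t = c} ord_v (t - c) = [F : K(t)]`
(and at the poles of `t`) for a SEPARATING coordinate `t` of a function field `F/K` in ANY
characteristic (`K` algebraically closed).  Char-free port of the end results of
`S24x/FundIdentity` (which assume `[CharZero K]` only to get separability).
-/
import Mathlib
import Fermat.Agent.S24x.AlgDefs
import Fermat.Agent.S24x.FundIdentity

set_option autoImplicit false

namespace Fermat.Agent.S18x

open AlgebraicCurve IsDedekindDomain WithZero Polynomial IntermediateField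
open Fermat.Agent.S24x
open scoped IntermediateField.algebraAdjoinAdjoin

variable {K F : Type*} [Field K] [Field F] [Algebra K F]

/-- `t` is a separating coordinate of `F/K`. -/
structure pls_IsSepCoordinate (K F : Type*) [Field K] [Field F] [Algebra K F] (t : F) : Prop where
  coord : IsCoordinate K F t
  sep : Algebra.IsSeparable K⟮t⟯ F

theorem pls_sum_zeros_aux [IsAlgClosed K] {t : F} (ht : pls_IsSepCoordinate K F t) (c : K) :
    ∃ hfin : (fidZeros K (F := F) (⟨t, Algebra.self_mem_adjoin_singleton K t⟩ - algebraMap K _ c :
        Algebra.adjoin K {t})).Finite,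
      ∑ v ∈ hfin.toFinset, v.ord (t - algebraMap K F c) = (cdeg K F t : ℤ) := by
  have := ht.coord.finite
  have := ht.sep
  have : IsPrincipalIdealRing (Algebra.adjoin K {t}) :=
    IsPrincipalIdealRing.of_surjective
      (Polynomial.algEquivOfTranscendental K t ht.coord.transcendental).toRingEquiv.toRingHom
      (Polynomial.algEquivOfTranscendental K t ht.coord.transcendental).surjective
  obtain ⟨ha0, hmax, hres⟩ := fid_coord_maximal ht.coord.transcendental c
  exact fid_sum_zeros_generic (Algebra.adjoin K {t}) K⟮t⟯ _ ha0 hmax hres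

/-- **Fundamental identity at a finite point**, separating coordinate, any characteristic. -/
theorem pls_sum_ord_placesOver [IsAlgClosed K] {t : F} (ht : pls_IsSepCoordinate K F t) (c : K) :
    ∃ hfin : (placesOver K F t c).Finite,
      ∑ v ∈ hfin.toFinset, v.ord (t - algebraMap K F c) = (cdeg K F t : ℤ) := by
  obtain ⟨hfin, hsum⟩ := pls_sum_zeros_aux ht c
  have hfin' : (placesOver K F t c).Finite := by rw [← fid_zeros_eq]; exact hfin
  refine ⟨hfin', ?_⟩
  rw [← hsum]
  refine Finset.sum_congr ?_ fun _ _ => rfl
  ext v
  simp [fid_zeros_eq]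

/-- the inverse of a separating coordinate is a separating coordinate. -/
theorem pls_isSepCoordinate_inv {t : F} (ht : pls_IsSepCoordinate K F t) :
    pls_IsSepCoordinate K F t⁻¹ := by
  refine ⟨fid_isCoordinate_inv ht.coord, ?_⟩
  have h := ht.sep
  rw [← fid_adjoin_inv (K := K) t] at h
  exact h

/-- **Fundamental identity at the poles**, separating coordinate, any characteristic. -/
theorem pls_sum_ord_polePlaces [IsAlgClosed K] {t : F} (ht : pls_IsSepCoordinate K F t) :
    ∃ hfin : (polePlaces K F t).Finite,
      ∑ v ∈ hfin.toFinset, -v.ord t = (cdeg K F t : ℤ) := by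
  obtain ⟨hfin, hsum⟩ := pls_sum_ord_placesOver (pls_isSepCoordinate_inv ht) 0
  have hfin' : (polePlaces K F t).Finite := by rw [fid_polePlaces_eq]; exact hfin
  refine ⟨hfin', ?_⟩
  rw [← fid_cdeg_inv, ← hsum]
  refine Finset.sum_congr ?_ fun v _ => ?_
  · ext v
    simp [fid_polePlaces_eq]
  · rw [map_zero, sub_zero, Place.ord_inv]

theorem pls_cdeg_pos {t : F} (ht : IsCoordinate K F t) : 0 < cdeg K F t := by
  have := ht.finite
  exact Module.finrank_pos

/-- every finite value of a separating coordinate is taken at some place. -/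
theorem pls_exists_place_over [IsAlgClosed K] {t : F} (ht : pls_IsSepCoordinate K F t) (c : K) :
    ∃ v : Place K F, 0 < v.ord (t - algebraMap K F c) := by
  obtain ⟨hfin, hsum⟩ := pls_sum_ord_placesOver ht c
  have hpos := pls_cdeg_pos ht.coord
  by_contra hne
  push Not at hne
  have hempty : hfin.toFinset = ∅ := by
    rw [Finset.eq_empty_iff_forall_notMem]
    intro v hv
    rw [Set.Finite.mem_toFinset] at hv
    exact absurd hv (not_lt.mpr (hne v))
  rw [hempty, Finset.sum_empty] at hsum
  have : (cdeg K F t : ℤ) = 0 := hsum.symm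
  omega

/-- a separating coordinate has a pole. -/
theorem pls_exists_pole [IsAlgClosed K] {t : F} (ht : pls_IsSepCoordinate K F t) :
    ∃ v : Place K F, v.ord t < 0 := by
  obtain ⟨v, hv⟩ := pls_exists_place_over (pls_isSepCoordinate_inv ht) 0
  refine ⟨v, ?_⟩
  rw [map_zero, sub_zero, Place.ord_inv] at hv
  omega

end Fermat.Agent.S18x
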