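/-
S18x/PlsKaehler (helper34): Kähler differentials of a function field of one variable with a
SEPARATING coordinate `t`, any characteristic: `Ω[F⁄K]` is free of rank one on `D t`
(char-free port of `S24x/KaehlerBasis`), and every `u` with `D u ≠ 0` is again a separating
coordinate (`Ω[F⁄K(u)] = 0` ⇒ formally unramified ⇒ separable).
-/
import Mathlib
import Fermat.Agent.S24x.KaehlerBasis
import Fermat.Agent.S24x.PrincipalDegree
import Fermat.Agent.S18x.PlsFund

set_option autoImplicit false
set_option linter.style.haveILetI false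

open Polynomial KaehlerDifferential IntermediateField TensorProduct

namespace Fermat.Agent.S18x

open Fermat.Agent.S24x AlgebraicCurve

variable {K F : Type*} [Field K] [Field F] [Algebra K F]

/-- If `t` is a separating coordinate then `Ω[F⁄K]` is free of rank one with basis `D t`. -/
theorem pls_kd_exists_equiv (t : F) (ht : pls_IsSepCoordinate K F t) :
    ∃ e : Ω[F⁄K] ≃ₗ[F] F, e (D K F t) = 1 := by
  classical
  have htr : Transcendental K t := ht.coord.transcendental
  haveI := ht.coord.finite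
  haveI := ht.sep
  have halg : Algebra.IsAlgebraic K⟮t⟯ F := Algebra.IsAlgebraic.of_finite K⟮t⟯ F
  letI algPF : Algebra K[X] F := (aeval t : K[X] →ₐ[K] F).toRingHom.toAlgebra
  have halgmap : ∀ p : K[X], algebraMap K[X] F p = aeval t p := fun p => rfl
  haveI : IsScalarTower K K[X] F := IsScalarTower.of_algebraMap_eq (fun a => by
    rw [halgmap, Polynomial.algebraMap_apply, aeval_C]; simp)
  have hinj : Function.Injective (algebraMap K[X] F) := transcendental_iff_injective.mp htr
  letI algRF : Algebra (RatFunc K) F := (IsFractionRing.lift (K := RatFunc K) hinj).toAlgebra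
  haveI : IsScalarTower K[X] (RatFunc K) F := IsScalarTower.of_algebraMap_eq (fun p => by
    show algebraMap K[X] F p
      = (IsFractionRing.lift (K := RatFunc K) hinj) (algebraMap K[X] (RatFunc K) p)
    rw [IsFractionRing.lift_algebraMap])
  haveI : IsScalarTower K (RatFunc K) F := IsScalarTower.of_algebraMap_eq (fun a => by
    rw [IsScalarTower.algebraMap_apply K K[X] (RatFunc K),
      ← IsScalarTower.algebraMap_apply K[X] (RatFunc K) F,
      ← IsScalarTower.algebraMap_apply K K[X] F])
  haveI : Algebra.IsAlgebraic (RatFunc K) F := kd_isAlgebraic_ratFunc t halg halgmap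
  -- separability over `RatFunc K`, transported from `K⟮t⟯`
  haveI : Algebra.IsSeparable (RatFunc K) F := by
    let φ : RatFunc K →+* F := algebraMap (RatFunc K) F
    have hφ : ∀ p : K[X], φ (algebraMap K[X] (RatFunc K) p) = aeval t p := fun p => by
      rw [← halgmap]; exact (IsScalarTower.algebraMap_apply K[X] (RatFunc K) F p).symm
    have hφmem : ∀ r, φ r ∈ K⟮t⟯ := by
      intro r
      obtain ⟨p, q, hq, rfl⟩ := IsFractionRing.div_surjective (A := K[X]) r
      rw [map_div₀, hφ, hφ]
      exact div_mem (kd_aeval_mem t p) (kd_aeval_mem t q)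
    let f : RatFunc K →+* K⟮t⟯ := φ.codRestrict K⟮t⟯ hφmem
    have hf : Function.Surjective f := by
      rintro ⟨y, hy⟩
      obtain ⟨r, s, rfl⟩ := (IntermediateField.mem_adjoin_simple_iff K y).mp hy
      refine ⟨algebraMap K[X] (RatFunc K) r / algebraMap K[X] (RatFunc K) s, ?_⟩
      apply Subtype.ext
      show φ _ = _
      rw [map_div₀, hφ, hφ]
    let e₁ : RatFunc K ≃+* K⟮t⟯ := RingEquiv.ofBijective f ⟨f.injective, hf⟩
    refine (Algebra.IsSeparable.iff_of_equiv_equiv e₁ (RingEquiv.refl F) ?_).mpr inferInstance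
    ext r
    rfl
  haveI : Algebra.FormallyEtale (RatFunc K) F := Algebra.FormallyEtale.of_isSeparable _ _
  haveI : Algebra.FormallyEtale K[X] (RatFunc K) :=
    Algebra.FormallyEtale.of_isLocalization (nonZeroDivisors K[X])
  haveI : Algebra.FormallyEtale K[X] F := Algebra.FormallyEtale.comp K[X] (RatFunc K) F
  let e1 : F ⊗[K[X]] Ω[K[X]⁄K] ≃ₗ[F] Ω[F⁄K] := tensorKaehlerEquivOfFormallyEtale K K[X] F
  let e2 : F ⊗[K[X]] Ω[K[X]⁄K] ≃ₗ[F] F ⊗[K[X]] K[X] :=
    TensorProduct.AlgebraTensorModule.congr (LinearEquiv.refl F F) (polynomialEquiv K)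
  let e3 : F ⊗[K[X]] K[X] ≃ₗ[F] F := TensorProduct.AlgebraTensorModule.rid K[X] F F
  refine ⟨e1.symm.trans (e2.trans e3), ?_⟩
  have h1 : e1.symm (D K F t) = (1 : F) ⊗ₜ[K[X]] D K K[X] X := by
    have := tensorKaehlerEquivOfFormallyEtale_symm_D_algebraMap K K[X] F (X : K[X])
    rw [halgmap, aeval_X] at this
    exact this
  simp only [LinearEquiv.trans_apply, h1]
  simp [e2, e3, polynomialEquiv_D]

theorem pls_kd_D_ne_zero (t : F) (ht : pls_IsSepCoordinate K F t) : D K F t ≠ 0 := by
  obtain ⟨e, he⟩ := pls_kd_exists_equiv t ht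
  intro h
  rw [h, map_zero] at he
  exact zero_ne_one he

/-- Every differential is a multiple of `D t`; the coefficient of `D f` is a derivation `δ`
with `δ t = 1`. -/
theorem pls_kd_exists_derivation (t : F) (ht : pls_IsSepCoordinate K F t) :
    ∃ δ : Derivation K F F, δ t = 1 ∧ (∀ ω : Ω[F⁄K], ∃ g : F, ω = g • D K F t) ∧
      ∀ f : F, D K F f = δ f • D K F t := by
  obtain ⟨e, he⟩ := pls_kd_exists_equiv t ht
  have key : ∀ ω : Ω[F⁄K], ω = e ω • D K F t := by
    intro ω
    apply e.injective
    rw [map_smul, he, smul_eq_mul, mul_one]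
  refine ⟨(e : Ω[F⁄K] →ₗ[F] F).compDer (D K F), ?_, fun ω => ⟨e ω, key ω⟩, fun f => ?_⟩
  · simpa using he
  · simpa using key (D K F f)

/-- In a function field with a separating coordinate, any nonzero differential spans. -/
theorem pls_kd_span_of_ne_zero (t : F) (ht : pls_IsSepCoordinate K F t) {ω : Ω[F⁄K]}
    (hω : ω ≠ 0) (η : Ω[F⁄K]) : ∃ g : F, η = g • ω := by
  obtain ⟨e, he⟩ := pls_kd_exists_equiv t ht
  have hne : e ω ≠ 0 := fun h => hω (e.injective (by rw [h, map_zero]))
  refine ⟨e η / e ω, ?_⟩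
  apply e.injective
  rw [map_smul, smul_eq_mul, div_mul_cancel₀ _ hne]

/-- **Separability criterion.**  If `D u ≠ 0` then `u` is a separating coordinate. -/
theorem pls_isSepCoordinate_of_D_ne_zero [IsAlgClosed K] {t : F} (ht : pls_IsSepCoordinate K F t)
    {u : F} (hu : D K F u ≠ 0) : pls_IsSepCoordinate K F u := by
  -- `u` is transcendental
  have htr : Transcendental K u := by
    intro halg
    obtain ⟨a, rfl⟩ := pd_mem_range_of_isAlgebraic halg
    exact hu ((D K F).map_algebraMap a)
  have hcoord : IsCoordinate K F u := isCoordinate_of_transcendental ht.coord htr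
  refine ⟨hcoord, ?_⟩
  haveI := hcoord.finite
  -- `Ω[F⁄K(u)] = 0`
  have hsub : Subsingleton Ω[F⁄K⟮u⟯] := by
    refine ⟨fun a b => ?_⟩
    have hzero : ∀ η : Ω[F⁄K⟮u⟯], η = 0 := by
      intro η
      obtain ⟨ω, rfl⟩ := KaehlerDifferential.map_surjective K K⟮u⟯ F η
      obtain ⟨g, rfl⟩ := pls_kd_span_of_ne_zero t ht hu ω
      rw [map_smul, KaehlerDifferential.map_D]
      have : D K⟮u⟯ F u = 0 := by
        have := (D K⟮u⟯ F).map_algebraMap (⟨u, mem_adjoin_simple_self K u⟩ : K⟮u⟯)
        exact this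
      simp [this]
    rw [hzero a, hzero b]
  haveI : Algebra.FormallyUnramified K⟮u⟯ F := ⟨hsub⟩
  exact Algebra.FormallyUnramified.isSeparable K⟮u⟯ F

end Fermat.Agent.S18x
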