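/-
S18x/PlsDegree (helper34): principal divisors of a function field `F/K` with a separating
coordinate (`K` algebraically closed, ANY characteristic) have finite support and degree zero;
`HasPrincipalDivisors K F`; a function without zeros and poles is constant.
The inseparable case `D g = 0` is handled by `g = (g t) / t` with `g t`, `t` separating.
-/
import Mathlib
import Fermat.Prelude.Def_AlgebraicCurve_Repartitions
import Fermat.Agent.S24x.PlaceCenter
import Fermat.Agent.S18x.PlsKaehler

set_option autoImplicit false

open KaehlerDifferential IntermediateField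

namespace Fermat.Agent.S18x

open Fermat.Agent.S24x AlgebraicCurve

variable {K F : Type*} [Field K] [Field F] [Algebra K F]

/-- divisor of a separating coordinate: finite support, degree zero. -/
theorem pls_degree_zero_of_sep [IsAlgClosed K] {g : F} (hg : pls_IsSepCoordinate K F g) :
    ∃ hfin : {v : Place K F | v.ord g ≠ 0}.Finite, ∑ v ∈ hfin.toFinset, v.ord g = 0 := by
  classical
  obtain ⟨hf0, hs0⟩ := pls_sum_ord_placesOver hg 0
  obtain ⟨hfp, hsp⟩ := pls_sum_ord_polePlaces hg
  simp only [map_zero, sub_zero] at hs0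
  have hset : {v : Place K F | v.ord g ≠ 0} = placesOver K F g 0 ∪ polePlaces K F g := by
    ext v
    simp only [Set.mem_ofPred_eq, Set.mem_union, placesOver, polePlaces, map_zero, sub_zero]
    omega
  have hfin : {v : Place K F | v.ord g ≠ 0}.Finite := hset ▸ hf0.union hfp
  refine ⟨hfin, ?_⟩
  have hfs : hfin.toFinset = hf0.toFinset ∪ hfp.toFinset := by
    ext v
    simp only [Set.Finite.mem_toFinset, Finset.mem_union, hset, Set.mem_union]
  have hdisj : Disjoint hf0.toFinset hfp.toFinset := by
    rw [Finset.disjoint_left]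
    intro v h0 hp
    simp only [Set.Finite.mem_toFinset, placesOver, polePlaces, Set.mem_ofPred_eq, map_zero,
      sub_zero] at h0 hp
    omega
  rw [hfs, Finset.sum_union hdisj, hs0]
  have : ∑ v ∈ hfp.toFinset, v.ord g = -(cdeg K F g : ℤ) := by
    rw [← hsp, Finset.sum_neg_distrib, neg_neg]
  rw [this]; ring

/-- a sum of `ord`s over the exact support may be computed over any larger finite set. -/
theorem pls_sum_ord_eq_of_subset (g : F) (hfin : {v : Place K F | v.ord g ≠ 0}.Finite)
    (S : Finset (Place K F)) (hS : hfin.toFinset ⊆ S) :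
    ∑ v ∈ S, v.ord g = ∑ v ∈ hfin.toFinset, v.ord g := by
  classical
  symm
  refine Finset.sum_subset hS fun v _ hv => ?_
  rw [Set.Finite.mem_toFinset, Set.mem_ofPred_eq, not_not] at hv
  exact hv

/-- **Principal divisors have finite support and degree zero** (any characteristic). -/
theorem pls_principal_degree_zero [IsAlgClosed K] {t : F} (ht : pls_IsSepCoordinate K F t)
    (g : F) (hg : g ≠ 0) :
    ∃ hfin : {v : Place K F | v.ord g ≠ 0}.Finite, ∑ v ∈ hfin.toFinset, v.ord g = 0 := by
  classical
  by_cases hD : D K F g = 0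
  swap
  · exact pls_degree_zero_of_sep (pls_isSepCoordinate_of_D_ne_zero ht hD)
  -- inseparable (or constant) case: `u = g t` is separating
  have ht0 : t ≠ 0 := by
    rintro rfl
    exact ht.coord.transcendental isAlgebraic_zero
  have hDu : D K F (g * t) ≠ 0 := by
    rw [Derivation.leibniz, hD, smul_zero, add_zero]
    intro h
    rcases smul_eq_zero.mp h with h | h
    · exact hg h
    · exact pls_kd_D_ne_zero t ht h
  have hu : pls_IsSepCoordinate K F (g * t) := pls_isSepCoordinate_of_D_ne_zero ht hDu
  obtain ⟨hfu, hsu⟩ := pls_degree_zero_of_sep hu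
  obtain ⟨hft, hst⟩ := pls_degree_zero_of_sep ht
  have hord : ∀ v : Place K F, v.ord g = v.ord (g * t) - v.ord t := by
    intro v
    rw [v.ord_mul hg ht0]
    ring
  have hsub : {v : Place K F | v.ord g ≠ 0} ⊆
      {v : Place K F | v.ord (g * t) ≠ 0} ∪ {v : Place K F | v.ord t ≠ 0} := by
    intro v hv
    simp only [Set.mem_ofPred_eq, Set.mem_union] at hv ⊢
    rw [hord v] at hv
    omega
  have hfin : {v : Place K F | v.ord g ≠ 0}.Finite := (hfu.union hft).subset hsub
  refine ⟨hfin, ?_⟩
  set S : Finset (Place K F) := hfu.toFinset ∪ hft.toFinset with hS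
  have h1 : hfin.toFinset ⊆ S := by
    intro v hv
    rw [Set.Finite.mem_toFinset] at hv
    have := hsub hv
    rw [hS, Finset.mem_union, Set.Finite.mem_toFinset, Set.Finite.mem_toFinset]
    exact this
  rw [← pls_sum_ord_eq_of_subset g hfin S h1]
  have h2 : ∑ v ∈ S, v.ord g = ∑ v ∈ S, v.ord (g * t) - ∑ v ∈ S, v.ord t := by
    rw [← Finset.sum_sub_distrib]
    exact Finset.sum_congr rfl fun v _ => hord v
  rw [h2, pls_sum_ord_eq_of_subset (g * t) hfu S Finset.subset_union_left,
    pls_sum_ord_eq_of_subset t hft S Finset.subset_union_right, hsu, hst, sub_zero]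

/-- all places have degree one. -/
theorem pls_place_deg_eq_one [IsAlgClosed K] {t : F} (ht : pls_IsSepCoordinate K F t)
    (v : Place K F) : v.deg = 1 :=
  pc_place_deg_eq_one ht.coord v

/-- **`HasPrincipalDivisors`** for a function field with a separating coordinate. -/
theorem pls_hasPrincipalDivisors [IsAlgClosed K] {t : F} (ht : pls_IsSepCoordinate K F t) :
    HasPrincipalDivisors K F := by
  classical
  refine ⟨fun f hf => ?_⟩
  obtain ⟨hfin, hsum⟩ := pls_principal_degree_zero ht f hf
  refine ⟨Finsupp.onFinset hfin.toFinset (fun v => v.ord f) (fun v hv => by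
    rw [Set.Finite.mem_toFinset]; exact hv), fun v => rfl, ?_⟩
  rw [Divisor.degree, Finsupp.liftAddHom_apply, Finsupp.sum]
  have hsupp : (Finsupp.onFinset hfin.toFinset (fun v : Place K F => v.ord f) (fun v hv => by
      rw [Set.Finite.mem_toFinset]; exact hv)).support = hfin.toFinset := by
    ext v
    rw [Finsupp.mem_support_iff, Finsupp.onFinset_apply, Set.Finite.mem_toFinset]
    rfl
  rw [hsupp]
  refine Eq.trans (Finset.sum_congr rfl fun v _ => ?_) hsum
  rw [AddMonoidHom.mulRight_apply, Finsupp.onFinset_apply, pls_place_deg_eq_one ht v]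
  simp

/-- **No zeros and no poles ⇒ constant.** -/
theorem pls_const_of_ord_eq_zero [IsAlgClosed K] {t : F} (ht : pls_IsSepCoordinate K F t)
    (y : F) (_hy0 : y ≠ 0) (hy : ∀ v : Place K F, v.ord y = 0) :
    ∃ a : K, y = algebraMap K F a := by
  classical
  -- pick any place (a pole of `t`)
  obtain ⟨v, -⟩ := pls_exists_pole ht
  -- `y` lies in the valuation ring of `v`; its residue is a constant `a`
  have hymem : y ∈ v.toValuationSubring := fid_mem_of_ord_nonneg v (by rw [hy v])
  obtain ⟨a, ha⟩ := pc_place_residue_surjective ht.coord v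
    (IsLocalRing.residue v.toValuationSubring ⟨y, hymem⟩)
  refine ⟨a, ?_⟩
  by_contra hne
  have hz0 : y - algebraMap K F a ≠ 0 := sub_ne_zero.mpr hne
  -- `z = y - a` vanishes at `v`
  have hzv : 0 < v.ord (y - algebraMap K F a) := by
    have hiff : 0 < v.ord (y - algebraMap K F a) ↔ v.adicValuation (y - algebraMap K F a) < 1 := by
      rw [v.adicValuation_eq_exp_neg_ord hz0, ← WithZero.exp_zero, WithZero.exp_lt_exp]
      omega
    rw [hiff]
    have hmem : (⟨y, hymem⟩ - algebraMap K v.toValuationSubring a : v.toValuationSubring) ∈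
        IsLocalRing.maximalIdeal v.toValuationSubring := by
      rw [← IsLocalRing.residue_eq_zero_iff, map_sub, sub_eq_zero, ← ha]
      rfl
    have hval := v.adicValuation_coe (⟨y, hymem⟩ - algebraMap K v.toValuationSubring a)
    have hcoe : ((⟨y, hymem⟩ - algebraMap K v.toValuationSubring a : v.toValuationSubring) : F) =
        y - algebraMap K F a := by
      rw [AddSubgroupClass.coe_sub, v.coe_algebraMap]
    rw [hcoe] at hval
    rw [hval]
    exact (IsDedekindDomain.HeightOneSpectrum.intValuation_lt_one_iff_mem _ _).mpr hmem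
  -- but `z` has no poles, so its divisor (degree zero) has no zeros either
  have hnopole : ∀ w : Place K F, 0 ≤ w.ord (y - algebraMap K F a) := by
    intro w
    have h1 : y ∈ w.toValuationSubring := fid_mem_of_ord_nonneg w (by rw [hy w])
    have h2 : y - algebraMap K F a ∈ w.toValuationSubring :=
      w.toValuationSubring.sub_mem h1 (w.algebraMap_mem' a)
    exact fid_ord_nonneg_of_mem w h2
  obtain ⟨hfin, hsum⟩ := pls_principal_degree_zero ht _ hz0
  have hvmem : v ∈ hfin.toFinset := by
    rw [Set.Finite.mem_toFinset]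
    exact ne_of_gt hzv
  have hpos : 0 < ∑ w ∈ hfin.toFinset, w.ord (y - algebraMap K F a) :=
    Finset.sum_pos' (fun w _ => hnopole w) ⟨v, hvmem, hzv⟩
  omega

end Fermat.Agent.S18x
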