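/-
S18x/PlsTsFields (helper34, block PL): the place-theoretic fields of `ts_Hyp` / hypotheses of
`ts_injective` (`hdegF`, `hpd`, `hprin0`, `eval`, `hconst`) for ANY function field `F/K` with a
separating coordinate (`K` algebraically closed, any characteristic), and their specialisation to
`F = modularFunctionFieldBar N` over `Q̄` (coordinate `j`).
-/
import Mathlib
import Fermat.Agent.S24x.DegreeLower
import Fermat.Agent.S18x.PlsDegree

set_option autoImplicit false

open KaehlerDifferential IntermediateField

namespace Fermat.Agent.S18x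

open Fermat.Agent.S24x AlgebraicCurve ModularCurve

section Generic

variable {K F : Type*} [Field K] [Field F] [Algebra K F]

/-- in characteristic zero every coordinate is separating. -/
theorem pls_isSepCoordinate_of_charZero [CharZero K] {t : F} (ht : IsCoordinate K F t) :
    pls_IsSepCoordinate K F t := by
  refine ⟨ht, ?_⟩
  have := ht.finite
  have : CharZero K⟮t⟯ := charZero_of_injective_algebraMap (algebraMap K K⟮t⟯).injective
  have : Algebra.IsAlgebraic K⟮t⟯ F := Algebra.IsAlgebraic.of_finite K⟮t⟯ F
  exact Algebra.IsAlgebraic.isSeparable_of_perfectField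

variable [IsAlgClosed K] {t : F} (ht : pls_IsSepCoordinate K F t)
include ht

/-- `hpd`: every nonzero function has a divisor. -/
theorem pls_hpd (x : F) (hx : x ≠ 0) : ∃ D : Divisor K F, ∀ P : Place K F, D P = P.ord x := by
  obtain ⟨D, hD, -⟩ := (pls_hasPrincipalDivisors ht).exists_divisor x hx
  exact ⟨D, hD⟩

/-- `hprin0`: the divisor of a nonzero function has degree zero. -/
theorem pls_hprin0 (x : F) (Dx : Divisor K F) (hx : x ≠ 0) (hDx : ∀ P, Dx P = P.ord x) :
    Divisor.degree Dx = 0 := by
  obtain ⟨D, hD, hdeg⟩ := (pls_hasPrincipalDivisors ht).exists_divisor x hx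
  have : Dx = D := by
    ext P
    rw [hDx P, hD P]
  rw [this, hdeg]

/-- `eval`: places are `K`-rational: every function regular at `P` is congruent to a constant. -/
theorem pls_eval (P : Place K F) (x : F) (hx : P.adicValuation x ≤ 1) :
    ∃ c : K, P.adicValuation (x - algebraMap K F c) < 1 := by
  have hxmem : x ∈ P.toValuationSubring := by
    rcases (P.adicValuation_le_one_iff).mp hx with h | h
    · rw [h]; exact P.toValuationSubring.zero_mem
    · exact fid_mem_of_ord_nonneg P h
  obtain ⟨c, hc⟩ := pc_place_residue_surjective ht.coord P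
    (IsLocalRing.residue P.toValuationSubring ⟨x, hxmem⟩)
  refine ⟨c, ?_⟩
  have hmem : (⟨x, hxmem⟩ - algebraMap K P.toValuationSubring c : P.toValuationSubring) ∈
      IsLocalRing.maximalIdeal P.toValuationSubring := by
    rw [← IsLocalRing.residue_eq_zero_iff, map_sub, sub_eq_zero, ← hc]
    rfl
  have hval := P.adicValuation_coe (⟨x, hxmem⟩ - algebraMap K P.toValuationSubring c)
  have hcoe : ((⟨x, hxmem⟩ - algebraMap K P.toValuationSubring c : P.toValuationSubring) : F) =
      x - algebraMap K F c := by
    rw [AddSubgroupClass.coe_sub, P.coe_algebraMap]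
  rw [hcoe] at hval
  rw [hval]
  exact (IsDedekindDomain.HeightOneSpectrum.intValuation_lt_one_iff_mem _ _).mpr hmem

/-- `hconst`, in the exact shape of `ts_injective`. -/
theorem pls_hconst (y : F) (hy0 : y ≠ 0) (hy : ∀ Q : Place K F, Q.ord y = 0) :
    ∃ a : K, y = algebraMap K F a :=
  pls_const_of_ord_eq_zero ht y hy0 hy

end Generic

section LevelN

variable (N : ℕ) [NeZero N]

/-- `j` is a separating coordinate of `F_N · Q̄`. -/
theorem pls_isSepCoordinate_jBar : pls_IsSepCoordinate Qbar (FBar N) (jBar N) :=
  pls_isSepCoordinate_of_charZero (isCoordinate_jBar N)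

theorem pls_hdegF_levelN (P : Place (AlgebraicClosure ℚ) (modularFunctionFieldBar N)) :
    P.deg = 1 :=
  pls_place_deg_eq_one (pls_isSepCoordinate_jBar N) P

theorem pls_hpd_levelN (x : modularFunctionFieldBar N) (hx : x ≠ 0) :
    ∃ D : Divisor (AlgebraicClosure ℚ) (modularFunctionFieldBar N),
      ∀ P : Place (AlgebraicClosure ℚ) (modularFunctionFieldBar N), D P = P.ord x :=
  pls_hpd (pls_isSepCoordinate_jBar N) x hx

theorem pls_hprin0_levelN (x : modularFunctionFieldBar N)
    (Dx : Divisor (AlgebraicClosure ℚ) (modularFunctionFieldBar N)) (hx : x ≠ 0)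
    (hDx : ∀ P, Dx P = P.ord x) : Divisor.degree Dx = 0 :=
  pls_hprin0 (pls_isSepCoordinate_jBar N) x Dx hx hDx

theorem pls_eval_levelN (P : Place (AlgebraicClosure ℚ) (modularFunctionFieldBar N))
    (x : modularFunctionFieldBar N) (hx : P.adicValuation x ≤ 1) :
    ∃ c : AlgebraicClosure ℚ,
      P.adicValuation (x - algebraMap (AlgebraicClosure ℚ) (modularFunctionFieldBar N) c) < 1 :=
  pls_eval (pls_isSepCoordinate_jBar N) P x hx

end LevelN

end Fermat.Agent.S18x
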