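/-
S18x/PlsFbar (helper34, block PL): for ANY field `k`, `j̄ = jqModC k` is a COORDINATE of the
reduced modular function field `F̄_N = modularFunctionFieldFullC k N` (as a type):
transcendental over `k` and `F̄_N` finite over `k(j̄)`.  (Integrality of the generators
`j̄(q^d)` over `k[j̄]` is S28x `mpcf_exists_monic_jqd`.)  Together with separability
(`S18x/SepLaurent`, helper81) this gives `pls_IsSepCoordinate k F̄_N j̄`.
-/
import Mathlib
import Fermat.Agent.S28x.ModPolyConsFinal
import Fermat.Agent.S28x.GaussV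
import Fermat.Agent.S18x.PlsTsFields

set_option autoImplicit false

namespace Fermat.Agent.S18x

open ModularCurve IntermediateField Polynomial
open Fermat.Agent.S24x Fermat.Agent.S28x AlgebraicCurve

section

variable (k : Type*) [Field k] (N : ℕ) [NeZero N]

/-- the reduced modular function field as a type -/
abbrev pls_Fb : Type _ := ↥(modularFunctionFieldFullC k N)

/-- `j̄(q^d)` as an element of `F̄_N` -/
noncomputable def pls_jdb (d : ℕ) [NeZero d] (hd : d ∣ N) : pls_Fb k N :=
  ⟨qExpand k d (jqModC k), jqModCd_mem_full k N hd⟩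

/-- `j̄` as an element of `F̄_N` -/
noncomputable def pls_jb : pls_Fb k N := ⟨jqModC k, jqModC_mem_full k N⟩

omit [NeZero N] in
@[simp] theorem pls_coe_jb : ((pls_jb k N : pls_Fb k N) : LaurentSeries k) = jqModC k := rfl

omit [NeZero N] in
@[simp] theorem pls_coe_jdb (d : ℕ) [NeZero d] (hd : d ∣ N) :
    ((pls_jdb k N d hd : pls_Fb k N) : LaurentSeries k) = qExpand k d (jqModC k) := rfl

omit [NeZero N] in
/-- `j̄` is transcendental over `k`. -/
theorem pls_transcendental_jb : Transcendental k (pls_jb k N) := by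
  rw [transcendental_iff]
  intro p hp
  by_contra hp0
  have h := Polynomial.aeval_algHom_apply (modularFunctionFieldFullC k N).val (pls_jb k N) p
  rw [hp, map_zero] at h
  exact gv_aeval_jqModC_ne_zero k hp0 h

/-- the generators of `F̄_N` -/
def pls_gens : Set (pls_Fb k N) :=
  {x | ∃ (d : ℕ) (_ : NeZero d) (hd : d ∣ N), x = pls_jdb k N d hd}

omit [NeZero N] in
theorem pls_val_image_gens :
    (⇑(modularFunctionFieldFullC k N).val '' pls_gens k N) = divisorExpansionsC k N := by
  ext x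
  constructor
  · rintro ⟨_, ⟨d, hne, hd, rfl⟩, rfl⟩
    exact ⟨d, hne, hd, rfl⟩
  · rintro ⟨d, hne, hd, rfl⟩
    exact ⟨@pls_jdb k _ N d hne hd, ⟨d, hne, hd, rfl⟩, rfl⟩

theorem pls_adjoin_gens_eq_top : IntermediateField.adjoin k (pls_gens k N) = ⊤ := by
  rw [eq_top_iff]
  rintro ⟨y, hy⟩ -
  have h2 : y ∈ (IntermediateField.adjoin k (pls_gens k N)).map
      (modularFunctionFieldFullC k N).val := by
    rw [adjoin_map, pls_val_image_gens]
    exact hy
  obtain ⟨y', hy', hyy'⟩ := h2
  have : y' = ⟨y, hy⟩ := Subtype.ext hyy'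
  rw [← this]
  exact hy'

theorem pls_finite_gens : (pls_gens k N).Finite := by
  classical
  let g : ℕ → pls_Fb k N := fun d =>
    if h : d ∣ N ∧ d ≠ 0 then @pls_jdb k _ N d ⟨h.2⟩ h.1 else 0
  refine ((N.divisors : Set ℕ).toFinite.image g).subset ?_
  rintro _ ⟨d, hne, hd, rfl⟩
  refine ⟨d, ?_, ?_⟩
  · simpa using ⟨hd, NeZero.ne N⟩
  · have h : d ∣ N ∧ d ≠ 0 := ⟨hd, NeZero.ne d⟩
    simp only [g, dif_pos h]

omit [NeZero N] in
set_option synthInstance.maxHeartbeats 400000 in
set_option maxHeartbeats 1000000 in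
/-- each generator `j̄(q^d)` is integral over `k(j̄)`. -/
theorem pls_isIntegral_jdb (d : ℕ) [NeZero d] (hd : d ∣ N) :
    IsIntegral k⟮pls_jb k N⟯ (pls_jdb k N d hd) := by
  obtain ⟨P, hPm, hP⟩ := mpcf_exists_monic_jqd k d
  -- the coefficient map `k[X] → k(j̄)`
  let φ : k[X] →+* k⟮pls_jb k N⟯ :=
    ((Polynomial.aeval (⟨pls_jb k N, mem_adjoin_simple_self k _⟩ : k⟮pls_jb k N⟯)) :
      k[X] →ₐ[k] k⟮pls_jb k N⟯).toRingHom
  refine ⟨P.map φ, hPm.map φ, ?_⟩
  rw [Polynomial.eval₂_map]
  apply (modularFunctionFieldFullC k N).val.injective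
  rw [map_zero, Polynomial.hom_eval₂]
  rw [← hP]
  congr 1
  apply RingHom.ext
  intro f
  show (modularFunctionFieldFullC k N).val
      (algebraMap k⟮pls_jb k N⟯ (pls_Fb k N) (φ f)) = Polynomial.aeval (jqModC k) f
  have h1 : algebraMap k⟮pls_jb k N⟯ (pls_Fb k N) (φ f) = Polynomial.aeval (pls_jb k N) f := by
    show ((Polynomial.aeval (⟨pls_jb k N, mem_adjoin_simple_self k _⟩ : k⟮pls_jb k N⟯) f :
      k⟮pls_jb k N⟯) : pls_Fb k N) = _
    have := Polynomial.aeval_algHom_apply (k⟮pls_jb k N⟯.val)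
      (⟨pls_jb k N, mem_adjoin_simple_self k _⟩ : k⟮pls_jb k N⟯) f
    exact this.symm
  rw [h1]
  exact (Polynomial.aeval_algHom_apply (modularFunctionFieldFullC k N).val (pls_jb k N) f).symm

set_option synthInstance.maxHeartbeats 400000 in
set_option maxHeartbeats 1000000 in
/-- `F̄_N` is a finite extension of `k(j̄)`. -/
theorem pls_finiteDimensional_jb : FiniteDimensional k⟮pls_jb k N⟯ (pls_Fb k N) := by
  have hfin : Finite (pls_gens k N) := (pls_finite_gens k N).to_subtype
  have h : ∀ x ∈ pls_gens k N, IsIntegral k⟮pls_jb k N⟯ x := by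
    rintro _ ⟨d, hne, hd, rfl⟩
    exact @pls_isIntegral_jdb k _ N d hne hd
  have h1 : FiniteDimensional k⟮pls_jb k N⟯
      (IntermediateField.adjoin k⟮pls_jb k N⟯ (pls_gens k N)) :=
    IntermediateField.finiteDimensional_adjoin h
  have h2 : IntermediateField.adjoin k⟮pls_jb k N⟯ (pls_gens k N) = ⊤ := by
    rw [← IntermediateField.restrictScalars_eq_top_iff (K := k), adjoin_adjoin_left, eq_top_iff,
      ← pls_adjoin_gens_eq_top k N]
    exact adjoin.mono k _ _ Set.subset_union_right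
  rw [h2] at h1
  exact LinearEquiv.finiteDimensional
    (IntermediateField.topEquiv (F := k⟮pls_jb k N⟯) (E := pls_Fb k N)).toLinearEquiv

/-- **`j̄` is a coordinate of `F̄_N`** (any field `k`). -/
theorem pls_isCoordinate_jb : IsCoordinate k (pls_Fb k N) (pls_jb k N) :=
  ⟨pls_transcendental_jb k N, pls_finiteDimensional_jb k N⟩

/-- with separability supplied, `j̄` is a separating coordinate, so the whole `Pls*` theory
applies to `F̄_N`. -/
theorem pls_isSepCoordinate_jb (hsep : Algebra.IsSeparable k⟮pls_jb k N⟯ (pls_Fb k N)) :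
    pls_IsSepCoordinate k (pls_Fb k N) (pls_jb k N) :=
  ⟨pls_isCoordinate_jb k N, hsep⟩

end

end Fermat.Agent.S18x
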