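/-
S18x/GlueDegK (helper40): TOP-glue, block PL-d (DEG), part 1.
For a field `k` of characteristic `ℓ ∤ N`, Igusa's degree theorem over `k`:
  `glu_psi_le_cdeg : ψ(N) ≤ [F̄_N(k) : k(j̄)]`
(S28x `deg_all` over `𝔽_ℓ`, lifted to `k` by linear disjointness of `𝔽_ℓ((q))` and `k` over
`𝔽_ℓ`: S24x `ld_linearIndependent_coeffMap`, S28x `du_linearIndependent_pow_mul`,
`du_linearIndependent_adjoin_of_pow_mul`).  `F̄_N(k)`, `j̄` are helper34's `pls_Fb`, `pls_jb`.
-/
import Mathlib
import Fermat.Agent.S24x.AlgDefs
import Fermat.Agent.S24x.LinDisjoint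
import Fermat.Agent.S24x.FBarFinite
import Fermat.Agent.S28x.DegAll
import Fermat.Agent.S28x.DegBridge
import Fermat.Agent.S28x.DegreeUpperAlg
import Fermat.Agent.S28x.ModPolyConsFinal
import Fermat.Agent.S28x.GaussV
import Fermat.Agent.S18x.PlsFbar

set_option autoImplicit false
set_option synthInstance.maxHeartbeats 400000
set_option linter.unusedSectionVars false

namespace Fermat.Agent.S18x

open ModularCurve IntermediateField Polynomial
open Fermat.Agent.S24x Fermat.Agent.S28x

noncomputable section

/-- coefficientwise base change maps `F̄_N(k₁)` into `F̄_N(k₂)` -/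
theorem glu_coeffMap_mem_fullC {k₁ k₂ : Type*} [Field k₁] [Field k₂] (f : k₁ →+* k₂) (N : ℕ)
    {x : LaurentSeries k₁} (hx : x ∈ modularFunctionFieldFullC k₁ N) :
    coeffMap f x ∈ modularFunctionFieldFullC k₂ N := by
  unfold modularFunctionFieldFullC at hx
  induction hx using IntermediateField.adjoin_induction with
  | mem x hx =>
    obtain ⟨d, hne, hd, rfl⟩ := hx
    rw [coeffMap_qExpand, coeffMap_jqModC]
    exact jqModCd_mem_full k₂ N hd
  | algebraMap r =>
    rw [algebraMap_laurentSeries_eq_single, coeffMap_single, ← algebraMap_laurentSeries_eq_single]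
    exact IntermediateField.algebraMap_mem _ _
  | add x y _ _ hx hy => rw [map_add]; exact add_mem hx hy
  | inv x _ hx => rw [map_inv₀]; exact inv_mem hx
  | mul x y _ _ hx hy => rw [map_mul]; exact mul_mem hx hy

section DegK

variable (ℓ : ℕ) [Fact ℓ.Prime] (k : Type*) [Field k] [CharP k ℓ] (N : ℕ) [NeZero N]

set_option maxHeartbeats 1000000 in
/-- **Igusa's degree theorem over any field of characteristic `ℓ ∤ N`**:
`ψ(N) ≤ [F̄_N(k) : k(j̄)]`. -/
theorem glu_psi_le_cdeg (hℓN : ¬ ℓ ∣ N) :
    dedekindPsi N ≤ cdeg k (pls_Fb k N) (pls_jb k N) := by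
  classical
  let _ : Algebra (ZMod ℓ) k := ZMod.algebra k ℓ
  have h := deg_all ℓ N hℓN
  set m := dedekindPsi N with hm
  have hle := db_Kj_le_Ft ℓ N
  rw [DEG, IntermediateField.relfinrank_eq_finrank_of_le hle] at h
  set E := IntermediateField.extendScalars hle with hE
  have hfin : FiniteDimensional (Kj ℓ) E :=
    mpcf_finiteDimensional_fullC_extendScalars (ZMod ℓ) N (Kj ℓ)
      (IntermediateField.subset_adjoin _ _ rfl) hle
  let B := Module.finBasis (Kj ℓ) E
  let e : Fin m → E := fun i => B (Fin.castLE h i)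
  have hli : LinearIndependent (Kj ℓ) e :=
    B.linearIndependent.comp _ (Fin.castLE_injective h)
  have hli' : LinearIndependent (Kj ℓ) (fun i => ((e i : E) : LaurentSeries (ZMod ℓ))) := by
    have := hli.map' (E.val.toLinearMap) (LinearMap.ker_eq_bot.mpr E.val.injective)
    exact this
  have hmem : ∀ i, ((e i : E) : LaurentSeries (ZMod ℓ)) ∈ Ft ℓ N := fun i =>
    (IntermediateField.mem_extendScalars hle).mp (e i).2
  -- (a) the products `j̃ ^ a * e i` are `𝔽_ℓ`-linearly independent
  have ht : Transcendental (ZMod ℓ) (jqModC (ZMod ℓ)) := by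
    rw [transcendental_iff]
    intro p hp
    by_contra hp0
    exact gv_aeval_jqModC_ne_zero (ZMod ℓ) hp0 hp
  have h1 := du_linearIndependent_pow_mul ht hli'
  -- (b) extend the coefficients to `k`
  rw [fbf_module_eq (ZMod ℓ)] at h1
  have h2 := ld_linearIndependent_coeffMap (L := k) h1
  rw [← fbf_module_eq k] at h2
  -- move into `F̄_N(k)`
  let y : Fin m → pls_Fb k N := fun i =>
    ⟨coeffMap (algebraMap (ZMod ℓ) k) ((e i : E) : LaurentSeries (ZMod ℓ)),
      glu_coeffMap_mem_fullC _ N (hmem i)⟩
  have h3 : LinearIndependent k (fun p : ℕ × Fin m => (pls_jb k N) ^ p.1 * y p.2) := by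
    let _ : Module k (LaurentSeries k) := Algebra.toModule
    refine LinearIndependent.of_comp ((modularFunctionFieldFullC k N).val.toLinearMap) ?_
    have heq : ((modularFunctionFieldFullC k N).val.toLinearMap ∘
        fun p : ℕ × Fin m => (pls_jb k N) ^ p.1 * y p.2)
        = fun p : ℕ × Fin m => coeffMap (algebraMap (ZMod ℓ) k)
            (jqModC (ZMod ℓ) ^ p.1 * ((e p.2 : E) : LaurentSeries (ZMod ℓ))) := by
      funext p
      simp only [Function.comp_apply, AlgHom.toLinearMap_apply, map_mul, map_pow,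
        IntermediateField.coe_val, pls_coe_jb, y, coeffMap_jqModC]
    rw [heq]
    exact h2
  -- (c) linear independence over `k(j̄)`
  have h4 := du_linearIndependent_adjoin_of_pow_mul h3
  have hfd := pls_finiteDimensional_jb k N
  have h5 := h4.fintype_card_le_finrank
  rw [Fintype.card_fin] at h5
  exact h5

end DegK

end

end Fermat.Agent.S18x
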