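/-
S18x/CpFund (helper15): characteristic-free versions of the S24x layer-A fundamental identities.
For a function field `F/K` (`K` algebraically closed, ANY characteristic) and a coordinate `t`
with `F/K(t)` SEPARABLE:  `∑_{v | t = c} ord_v (t - c) = [F : K(t)]`, the same at the poles,
and consequences.  All names carry the prefix `cp15_`.
(The S24x versions `sum_ord_placesOver`, `sum_ord_polePlaces` assume `CharZero K`; the abstract
core `fid_sum_zeros_generic` does not, so this file is a thin re-wrapping.)
-/
import Mathlib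
import Fermat.Agent.S24x.FundIdentity
import Fermat.Agent.S24x.PrincipalDegree

set_option autoImplicit false

namespace Fermat.Agent.S18x

open AlgebraicCurve IsDedekindDomain WithZero Polynomial IntermediateField
open Fermat.Agent.S24x

variable {K F : Type*} [Field K] [Field F] [Algebra K F]

/-- `t` is a *separable* coordinate of `F/K`: a coordinate with `F/K(t)` separable. -/
structure cp15_IsSepCoordinate (K F : Type*) [Field K] [Field F] [Algebra K F] (t : F) : Prop where
  coord : IsCoordinate K F t
  sep : Algebra.IsSeparable K⟮t⟯ F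

open scoped IntermediateField.algebraAdjoinAdjoin in
theorem cp15_sum_zeros_aux [IsAlgClosed K] {t : F} (ht : cp15_IsSepCoordinate K F t) (c : K) :
    ∃ hfin : (fidZeros K (F := F) (⟨t, Algebra.self_mem_adjoin_singleton K t⟩ - algebraMap K _ c :
        Algebra.adjoin K {t})).Finite,
      ∑ v ∈ hfin.toFinset, v.ord (t - algebraMap K F c) = (cdeg K F t : ℤ) := by
  haveI := ht.coord.finite
  haveI := ht.sep
  haveI : IsPrincipalIdealRing (Algebra.adjoin K {t}) :=
    IsPrincipalIdealRing.of_surjective
      (Polynomial.algEquivOfTranscendental K t ht.coord.transcendental).toRingEquiv.toRingHom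
      (Polynomial.algEquivOfTranscendental K t ht.coord.transcendental).surjective
  obtain ⟨ha0, hmax, hres⟩ := fid_coord_maximal ht.coord.transcendental c
  exact fid_sum_zeros_generic (Algebra.adjoin K {t}) K⟮t⟯ _ ha0 hmax hres

/-- **Fundamental identity at a finite point**, separable coordinate, any characteristic. -/
theorem cp15_sum_ord_placesOver [IsAlgClosed K] {t : F} (ht : cp15_IsSepCoordinate K F t)
    (c : K) :
    ∃ hfin : (placesOver K F t c).Finite,
      ∑ v ∈ hfin.toFinset, v.ord (t - algebraMap K F c) = (cdeg K F t : ℤ) := by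
  obtain ⟨hfin, hsum⟩ := cp15_sum_zeros_aux ht c
  have hfin' : (placesOver K F t c).Finite := by rw [← fid_zeros_eq]; exact hfin
  refine ⟨hfin', ?_⟩
  rw [← hsum]
  refine Finset.sum_congr ?_ fun _ _ => rfl
  ext v
  simp [fid_zeros_eq]

theorem cp15_isSepCoordinate_inv {t : F} (ht : cp15_IsSepCoordinate K F t) :
    cp15_IsSepCoordinate K F t⁻¹ := by
  refine ⟨fid_isCoordinate_inv ht.coord, ?_⟩
  have h := ht.sep
  rw [fid_adjoin_inv]
  exact h

/-- **Fundamental identity at the poles**, separable coordinate, any characteristic. -/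
theorem cp15_sum_ord_polePlaces [IsAlgClosed K] {t : F} (ht : cp15_IsSepCoordinate K F t) :
    ∃ hfin : (polePlaces K F t).Finite,
      ∑ v ∈ hfin.toFinset, -v.ord t = (cdeg K F t : ℤ) := by
  obtain ⟨hfin, hsum⟩ := cp15_sum_ord_placesOver (cp15_isSepCoordinate_inv ht) 0
  have hfin' : (polePlaces K F t).Finite := by rw [fid_polePlaces_eq]; exact hfin
  refine ⟨hfin', ?_⟩
  rw [← fid_cdeg_inv, ← hsum]
  refine Finset.sum_congr ?_ fun v _ => ?_
  · ext v
    simp [fid_polePlaces_eq]
  · rw [map_zero, sub_zero, Place.ord_inv]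

/-- A separable coordinate has a zero over every `c` and a pole (the degree is positive). -/
theorem cp15_cdeg_pos {t : F} (ht : cp15_IsSepCoordinate K F t) : 0 < cdeg K F t := by
  haveI := ht.coord.finite
  exact Module.finrank_pos

theorem cp15_placesOver_nonempty [IsAlgClosed K] {t : F} (ht : cp15_IsSepCoordinate K F t)
    (c : K) : (placesOver K F t c).Nonempty := by
  obtain ⟨hfin, hsum⟩ := cp15_sum_ord_placesOver ht c
  by_contra hne
  rw [Set.not_nonempty_iff_eq_empty] at hne
  have h0 : hfin.toFinset = ∅ := by
    ext v; simp [hne]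
  rw [h0, Finset.sum_empty] at hsum
  have := cp15_cdeg_pos ht
  omega

theorem cp15_polePlaces_nonempty [IsAlgClosed K] {t : F} (ht : cp15_IsSepCoordinate K F t) :
    (polePlaces K F t).Nonempty := by
  obtain ⟨hfin, hsum⟩ := cp15_sum_ord_polePlaces ht
  by_contra hne
  rw [Set.not_nonempty_iff_eq_empty] at hne
  have h0 : hfin.toFinset = ∅ := by
    ext v; simp [hne]
  rw [h0, Finset.sum_empty] at hsum
  have := cp15_cdeg_pos ht
  omega

/-- the divisor of a separable coordinate has finite support and degree zero. -/
theorem cp15_principal_degree_zero_of_sep [IsAlgClosed K] {g : F}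
    (hg : cp15_IsSepCoordinate K F g) :
    ∃ hfin : {v : Place K F | v.ord g ≠ 0}.Finite, ∑ v ∈ hfin.toFinset, v.ord g = 0 := by
  classical
  obtain ⟨hf0, hs0⟩ := cp15_sum_ord_placesOver hg 0
  obtain ⟨hfp, hsp⟩ := cp15_sum_ord_polePlaces hg
  simp only [map_zero, sub_zero] at hs0
  have hset : {v : Place K F | v.ord g ≠ 0} = placesOver K F g 0 ∪ polePlaces K F g := by
    ext v
    simp only [Set.mem_ofPred_eq, Set.mem_union, placesOver, polePlaces, map_zero, sub_zero]
    omega
  have hfin : {v : Place K F | v.ord g ≠ 0}.Finite := hset ▸ hf0.union hfp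
  refine ⟨hfin, ?_⟩
  have hfs : hfin.toFinset = hf0.toFinset ∪ hfp.toFinset := by
    ext v
    simp only [Set.Finite.mem_toFinset, Finset.mem_union, hset, Set.mem_union]
  have hdisj : Disjoint hf0.toFinset hfp.toFinset := by
    rw [Finset.disjoint_left]
    intro v h0 hp
    simp only [Set.Finite.mem_toFinset, placesOver, polePlaces, Set.mem_ofPred_eq, map_zero,
      sub_zero] at h0 hp
    omega
  rw [hfs, Finset.sum_union hdisj, hs0]
  have : ∑ v ∈ hfp.toFinset, v.ord g = -(cdeg K F g : ℤ) := by
    rw [← hsp, Finset.sum_neg_distrib, neg_neg]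
  rw [this]; ring

end Fermat.Agent.S18x
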