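/-
S18x/SepFull (helper81): the reduced modular function field `F̄_N = k(j̄(q^d) : d ∣ N) ⊆ k((q))`
is SEPARABLE over `k(j̄)` for every perfect field `k` (any characteristic, any `N`), as soon as it
is algebraic over `k(j̄)`.  Consequently `j̄` is a separating coordinate in the sense of
`pls_IsSepCoordinate` (helper34) and `cp15_IsSepCoordinate` (helper15) once it is a coordinate.
Prefix `sepl_`.  Uses `S18x/SepLaurent` (no modular polynomials).
-/
import Mathlib
import Fermat.Prelude.Def_ModularCurve_X0ModL
import Fermat.Agent.S18x.SepLaurent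
import Fermat.Agent.S18x.PlsFund
import Fermat.Agent.S18x.CpFund

set_option autoImplicit false
set_option synthInstance.maxHeartbeats 400000

namespace Fermat.Agent.S18x

open ModularCurve IntermediateField Fermat.Agent.S24x

/-- The `q`-expansion of `j` over any nontrivial ring has order `-1`. -/
theorem sepl_order_jqModC (R : Type*) [CommRing R] [Nontrivial R] : (jqModC R).order = -1 := by
  have h1 : (jqModC R).coeff (-1) ≠ 0 := by
    rw [coeff_jqModC_neg_one]; exact one_ne_zero
  refine le_antisymm (HahnSeries.order_le_of_coeff_ne_zero h1) ?_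
  by_contra hlt
  rw [not_le] at hlt
  have h2 : (jqModC R).coeff (jqModC R).order = 0 := coeff_jqModC_of_lt R hlt
  rw [HahnSeries.coeff_order_eq_zero] at h2
  rw [h2, HahnSeries.coeff_zero] at h1
  exact h1 rfl

/-- `j̄` as an element of `F̄_N`. -/
noncomputable def sepl_jbar (k : Type*) [Field k] (N : ℕ) : ↥(modularFunctionFieldFullC k N) :=
  ⟨jqModC k, jqModC_mem_full k N⟩

@[simp]
theorem sepl_coe_jbar (k : Type*) [Field k] (N : ℕ) :
    ((sepl_jbar k N : ↥(modularFunctionFieldFullC k N)) : LaurentSeries k) = jqModC k := rfl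

variable (k : Type*) [Field k] [PerfectField k] (N : ℕ)

/-- **Separability of `F̄_N / k(j̄)`** for perfect `k`, given algebraicity. -/
theorem sepl_isSeparable_full
    [Algebra.IsAlgebraic k⟮sepl_jbar k N⟯ ↥(modularFunctionFieldFullC k N)] :
    Algebra.IsSeparable k⟮sepl_jbar k N⟯ ↥(modularFunctionFieldFullC k N) :=
  sepl_algebra_isSeparable_of_order_neg_one (modularFunctionFieldFullC k N) (sepl_jbar k N)
    (by rw [sepl_coe_jbar]; exact sepl_order_jqModC k)

/-- `j̄` is a separating coordinate of `F̄_N` (helper34's structure) as soon as it is a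
coordinate. -/
theorem sepl_pls_isSepCoordinate_full
    (hco : IsCoordinate k ↥(modularFunctionFieldFullC k N) (sepl_jbar k N)) :
    pls_IsSepCoordinate k ↥(modularFunctionFieldFullC k N) (sepl_jbar k N) := by
  have := hco.finite
  have : Algebra.IsAlgebraic k⟮sepl_jbar k N⟯ ↥(modularFunctionFieldFullC k N) :=
    Algebra.IsAlgebraic.of_finite _ _
  exact ⟨hco, sepl_isSeparable_full k N⟩

/-- `j̄` is a separating coordinate of `F̄_N` (helper15's structure) as soon as it is a
coordinate. -/
theorem sepl_cp15_isSepCoordinate_full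
    (hco : IsCoordinate k ↥(modularFunctionFieldFullC k N) (sepl_jbar k N)) :
    cp15_IsSepCoordinate k ↥(modularFunctionFieldFullC k N) (sepl_jbar k N) := by
  have := hco.finite
  have : Algebra.IsAlgebraic k⟮sepl_jbar k N⟯ ↥(modularFunctionFieldFullC k N) :=
    Algebra.IsAlgebraic.of_finite _ _
  exact ⟨hco, sepl_isSeparable_full k N⟩

end Fermat.Agent.S18x
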