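/-
S18x/PlsFbarFinal (helper34, block PL): UNCONDITIONAL place theory of the reduced modular function
field `F̄_N = modularFunctionFieldFullC k N` over a perfect (resp. algebraically closed) field `k`
of ANY characteristic: `j̄` is a separating coordinate (`PlsFbar` + helper81's `SepFull`), hence
fundamental identity, places over every value, `HasPrincipalDivisors`, degree one, `hconst`.
-/
import Mathlib
import Fermat.Agent.S18x.PlsFbar
import Fermat.Agent.S18x.SepFull

set_option autoImplicit false
set_option synthInstance.maxHeartbeats 400000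

namespace Fermat.Agent.S18x

open ModularCurve IntermediateField
open Fermat.Agent.S24x AlgebraicCurve

section Perfect

variable (k : Type*) [Field k] [PerfectField k] (N : ℕ) [NeZero N]

/-- **`j̄` is a separating coordinate of `F̄_N`** for every perfect field `k`. -/
theorem pls_isSepCoordinate_jb_perfect : pls_IsSepCoordinate k (pls_Fb k N) (pls_jb k N) :=
  sepl_pls_isSepCoordinate_full k N (pls_isCoordinate_jb k N)

end Perfect

section AlgClosed

variable (k : Type*) [Field k] [IsAlgClosed k] (N : ℕ) [NeZero N]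

/-- fundamental identity on `F̄_N` at `j̄ = c`. -/
theorem pls_fb_sum_ord_placesOver (c : k) :
    ∃ hfin : (placesOver k (pls_Fb k N) (pls_jb k N) c).Finite,
      ∑ v ∈ hfin.toFinset, v.ord (pls_jb k N - algebraMap k (pls_Fb k N) c) =
        (cdeg k (pls_Fb k N) (pls_jb k N) : ℤ) :=
  pls_sum_ord_placesOver (pls_isSepCoordinate_jb_perfect k N) c

/-- fundamental identity on `F̄_N` at the poles of `j̄`. -/
theorem pls_fb_sum_ord_polePlaces :
    ∃ hfin : (polePlaces k (pls_Fb k N) (pls_jb k N)).Finite,
      ∑ v ∈ hfin.toFinset, -v.ord (pls_jb k N) = (cdeg k (pls_Fb k N) (pls_jb k N) : ℤ) :=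
  pls_sum_ord_polePlaces (pls_isSepCoordinate_jb_perfect k N)

theorem pls_fb_hasPrincipalDivisors : HasPrincipalDivisors k (pls_Fb k N) :=
  pls_hasPrincipalDivisors (pls_isSepCoordinate_jb_perfect k N)

theorem pls_fb_deg_eq_one (Q : Place k (pls_Fb k N)) : Q.deg = 1 :=
  pls_place_deg_eq_one (pls_isSepCoordinate_jb_perfect k N) Q

theorem pls_fb_principal_degree_zero (g : pls_Fb k N) (hg : g ≠ 0) :
    ∃ hfin : {v : Place k (pls_Fb k N) | v.ord g ≠ 0}.Finite,
      ∑ v ∈ hfin.toFinset, v.ord g = 0 :=
  pls_principal_degree_zero (pls_isSepCoordinate_jb_perfect k N) g hg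

/-- `hconst` on `F̄_N`, exact `ts_injective` shape. -/
theorem pls_fb_hconst (y : modularFunctionFieldFullC k N) (hy0 : y ≠ 0)
    (hy : ∀ Q : Place k (modularFunctionFieldFullC k N), Q.ord y = 0) :
    ∃ a : k, y = algebraMap k (modularFunctionFieldFullC k N) a :=
  pls_hconst (pls_isSepCoordinate_jb_perfect k N) y hy0 hy

theorem pls_fb_hpd (x : modularFunctionFieldFullC k N) (hx : x ≠ 0) :
    ∃ D : Divisor k (modularFunctionFieldFullC k N),
      ∀ P : Place k (modularFunctionFieldFullC k N), D P = P.ord x :=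
  pls_hpd (pls_isSepCoordinate_jb_perfect k N) x hx

theorem pls_fb_hprin0 (x : modularFunctionFieldFullC k N)
    (Dx : Divisor k (modularFunctionFieldFullC k N)) (hx : x ≠ 0)
    (hDx : ∀ P, Dx P = P.ord x) : Divisor.degree Dx = 0 :=
  pls_hprin0 (pls_isSepCoordinate_jb_perfect k N) x Dx hx hDx

theorem pls_fb_eval (P : Place k (modularFunctionFieldFullC k N))
    (x : modularFunctionFieldFullC k N) (hx : P.adicValuation x ≤ 1) :
    ∃ c : k, P.adicValuation (x - algebraMap k (modularFunctionFieldFullC k N) c) < 1 :=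
  pls_eval (pls_isSepCoordinate_jb_perfect k N) P x hx

/-- every value of `j̄` is taken at some place of `F̄_N`, and `j̄` has a pole. -/
theorem pls_fb_exists_place_over (c : k) :
    ∃ v : Place k (pls_Fb k N), 0 < v.ord (pls_jb k N - algebraMap k (pls_Fb k N) c) :=
  pls_exists_place_over (pls_isSepCoordinate_jb_perfect k N) c

theorem pls_fb_exists_pole : ∃ v : Place k (pls_Fb k N), v.ord (pls_jb k N) < 0 :=
  pls_exists_pole (pls_isSepCoordinate_jb_perfect k N)

end AlgClosed

end Fermat.Agent.S18x
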