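/-
S18x/GlueHpol (helper40): TOP-glue, block PL-d (DEG), part 2 = the `hpol` input of
`s18a_result_of_inputs` (S18x/Assembly.lean), CONCRETE and UNCONDITIONAL:

* `glu_sum_polar_eq`          : for `D = div x`: `Σ_{P ∈ supp D} max(-D P, 0) = Σ_{poles v} -ord_v x`;
* `glu_polar_degree_eq_cdeg`  : for a separating coordinate `t`, the polar degree is `[F : K(t)]`;
* `glu_hpol`                  : polar degree of `jBar N` on `F_N/ℚ̄` (`= ψ(N)`, S24) `≤` polar degree
                                of `j̄` on `F̄_N(k)` (`≥ ψ(N)`, `glu_psi_le_cdeg`), `k` algebraically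
                                closed of characteristic `ℓ ∤ N`;
* `glu_hpol_assembly`         : the same in the literal shape of the Assembly (`J : W`, `ρ J`,
                                `k = IsLocalRing.ResidueField A`).
-/
import Mathlib
import Fermat.Agent.S24
import Fermat.Agent.S18x.GlueDegK
import Fermat.Agent.S18x.GlueChar
import Fermat.Agent.S18x.PlsFbarFinal
import Fermat.Agent.S18x.PlsTsFields
import Fermat.Agent.S18x.Assembly

set_option autoImplicit false
set_option synthInstance.maxHeartbeats 400000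

namespace Fermat.Agent.S18x

open AlgebraicCurve ModularCurve
open Fermat.Agent.S24x

section Generic

variable {K F : Type*} [Field K] [Field F] [Algebra K F]

/-- the polar part of a principal divisor, as a sum over the pole places -/
theorem glu_sum_polar_eq {x : F} (D : Divisor K F) (hD : ∀ P, D P = P.ord x)
    (hfin : (polePlaces K F x).Finite) :
    ∑ P ∈ D.support, max (-(D P)) 0 = ∑ v ∈ hfin.toFinset, -v.ord x := by
  classical
  have hsub : hfin.toFinset ⊆ D.support := by
    intro v hv
    rw [Set.Finite.mem_toFinset] at hv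
    have hv' : v.ord x < 0 := hv
    rw [Finsupp.mem_support_iff, hD]
    exact ne_of_lt hv'
  have h1 : ∑ v ∈ hfin.toFinset, -v.ord x = ∑ v ∈ hfin.toFinset, max (-(D v)) 0 := by
    refine Finset.sum_congr rfl fun v hv => ?_
    rw [Set.Finite.mem_toFinset] at hv
    have hv' : v.ord x < 0 := hv
    rw [hD, max_eq_left (by omega)]
  rw [h1]
  symm
  refine Finset.sum_subset hsub fun v _ hnv => ?_
  rw [Set.Finite.mem_toFinset] at hnv
  have hnv' : ¬ v.ord x < 0 := hnv
  rw [hD, max_eq_right (by omega)]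

/-- the polar degree of a separating coordinate is the degree of the function field over it -/
theorem glu_polar_degree_eq_cdeg [IsAlgClosed K] {t : F} (ht : pls_IsSepCoordinate K F t)
    (D : Divisor K F) (hD : ∀ P, D P = P.ord t) :
    ∑ P ∈ D.support, max (-(D P)) 0 = (cdeg K F t : ℤ) := by
  obtain ⟨hfin, hsum⟩ := pls_sum_ord_polePlaces ht
  rw [glu_sum_polar_eq D hD hfin, hsum]

end Generic

section Concrete

/-- **DEG / `hpol`**: the polar degree of `j` does not drop under reduction mod `ℓ ∤ N`. -/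
theorem glu_hpol (N : ℕ) [NeZero N] (ℓ : ℕ) [Fact ℓ.Prime] (hℓN : ¬ ℓ ∣ N)
    (k : Type*) [Field k] [IsAlgClosed k] [CharP k ℓ]
    (DJ : Divisor Qbar (FBar N)) (hDJ : ∀ P, DJ P = P.ord (jBar N))
    (DJb : Divisor k (pls_Fb k N)) (hDJb : ∀ Q, DJb Q = Q.ord (pls_jb k N)) :
    ∑ P ∈ DJ.support, max (-(DJ P)) 0 ≤ ∑ Q ∈ DJb.support, max (-(DJb Q)) 0 := by
  rw [glu_polar_degree_eq_cdeg (pls_isSepCoordinate_jBar N) DJ hDJ,
    glu_polar_degree_eq_cdeg (pls_isSepCoordinate_jb_perfect k N) DJb hDJb,
    (Fermat.Agent.S24.cInputs N).cdeg_jBar]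
  exact_mod_cast glu_psi_le_cdeg ℓ k N hℓN

/-- `hpol` in the literal shape of `s18a_result_of_inputs`. -/
theorem glu_hpol_assembly (N : ℕ) [NeZero N] {ℓ : ℕ} [Fact ℓ.Prime] (hℓN : ¬ ℓ ∣ N)
    (A : ValuationSubring (AlgebraicClosure ℚ)) (hA : A.LiesOverPrime ℓ)
    (W : ValuationSubring (modularFunctionFieldBar N))
    (ρ : W →+* modularFunctionFieldFullC (IsLocalRing.ResidueField A) N)
    (J : W) (hJ : (J : modularFunctionFieldBar N) = jBar N)
    (hρJ : ((ρ J : modularFunctionFieldFullC (IsLocalRing.ResidueField A) N) :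
      LaurentSeries (IsLocalRing.ResidueField A)) = jqModC (IsLocalRing.ResidueField A))
    (DJ : Divisor (AlgebraicClosure ℚ) (modularFunctionFieldBar N))
    (hDJ : ∀ P, DJ P = P.ord (J : modularFunctionFieldBar N))
    (DJb : Divisor (IsLocalRing.ResidueField A)
      (modularFunctionFieldFullC (IsLocalRing.ResidueField A) N))
    (hDJb : ∀ Q, DJb Q = Q.ord (ρ J)) :
    ∑ P ∈ DJ.support, max (-(DJ P)) 0 ≤ ∑ Q ∈ DJb.support, max (-(DJb Q)) 0 := by
  have : IsAlgClosed (IsLocalRing.ResidueField A) := s18a_isAlgClosed_residue A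
  have : CharP (IsLocalRing.ResidueField A) ℓ := glu_charP A (Fact.out : ℓ.Prime) hA
  have hρJ' : ρ J = pls_jb (IsLocalRing.ResidueField A) N := Subtype.ext hρJ
  refine glu_hpol N ℓ hℓN (IsLocalRing.ResidueField A) DJ ?_ DJb ?_
  · intro P; rw [hDJ P, hJ]
  · intro Q; rw [hDJb Q, hρJ']

end Concrete

end Fermat.Agent.S18x
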