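/-
S18 project (reduction of `J₀(N)` mod `ℓ` is injective on prime-to-`ℓ` torsion), foundation module
GAUSS-A (helper19, prefix `ga_`): the Gauss valuation ring attached to a valuation subring `A` of a
field `L`, inside `L((q))`.

* `ga_iota A : A((q)) →+* L((q))`, `ga_red A π : A((q)) →+* k((q))` (`k` the residue field of `A`),
  coefficientwise;
* `ga_W A π : Subring (L((q)))` : quotients `a / b` with `a, b ∈ A((q))`, `b` non-zero mod `𝔪_A`;
* `ga_rho A π : ga_W A π →+* k((q))` the residue map, `ga_rho_eq`;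
* `ga_rho_eq_zero_iff`-type lemmas, units: `ga_inv_mem` (`ρ x ≠ 0 → x⁻¹ ∈ W`).

This generalises `S28x/RedDefs.lean` (the case `A = ℤ_(ℓ) ⊂ ℚ`).
-/
import Mathlib
import Fermat.Prelude.Def_ModularCurve_LaurentCoeff

set_option autoImplicit false

namespace Fermat.Agent.S18x

open ModularCurve HahnSeries

noncomputable section

variable {L : Type*} [Field L] (A : ValuationSubring L) {k : Type*} [Field k] (π : A →+* k)

/-- `A((q)) → L((q))` -/
def ga_iota : LaurentSeries A →+* LaurentSeries L := coeffMap A.subtype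

/-- `A((q)) → k((q))` -/
def ga_red : LaurentSeries A →+* LaurentSeries k := coeffMap π

theorem ga_iota_coeff (a : LaurentSeries A) (n : ℤ) : (ga_iota A a).coeff n = (a.coeff n : L) := rfl

theorem ga_red_coeff (a : LaurentSeries A) (n : ℤ) :
    (ga_red A π a).coeff n = π (a.coeff n) := rfl

theorem ga_iota_injective : Function.Injective (ga_iota A) := by
  intro a b h
  ext k
  have := congrArg (fun x : LaurentSeries L => x.coeff k) h
  simpa [ga_iota] using this

/-- the Gauss valuation ring `W` (as a set): quotients `a / b` with `b` non-zero modulo `𝔪_A` -/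
def ga_Wset : Set (LaurentSeries L) :=
  {x | ∃ a b : LaurentSeries A, ga_red A π b ≠ 0 ∧ x * ga_iota A b = ga_iota A a}

theorem ga_W_wd {x : LaurentSeries L} {a b a' b' : LaurentSeries A}
    (hb : ga_red A π b ≠ 0) (hb' : ga_red A π b' ≠ 0)
    (h : x * ga_iota A b = ga_iota A a) (h' : x * ga_iota A b' = ga_iota A a') :
    ga_red A π a / ga_red A π b = ga_red A π a' / ga_red A π b' := by
  have h1 : ga_iota A (a * b') = ga_iota A (a' * b) := by
    rw [map_mul, map_mul, ← h, ← h']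
    ring
  have h2 : a * b' = a' * b := ga_iota_injective A h1
  have h3 : ga_red A π a * ga_red A π b' = ga_red A π a' * ga_red A π b := by
    rw [← map_mul, ← map_mul, h2]
  rw [div_eq_div_iff hb hb', h3]

/-- the Gauss valuation ring `W` of `A` inside `L((q))` -/
def ga_W : Subring (LaurentSeries L) where
  carrier := ga_Wset A π
  zero_mem' := ⟨0, 1, by simp, by simp⟩
  one_mem' := ⟨1, 1, by simp, by simp⟩
  add_mem' := by
    rintro x y ⟨a, b, hb, h⟩ ⟨a', b', hb', h'⟩
    refine ⟨a * b' + a' * b, b * b', ?_, ?_⟩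
    · rw [map_mul]
      exact mul_ne_zero hb hb'
    · rw [map_mul, map_add, map_mul, map_mul, ← h, ← h']
      ring
  mul_mem' := by
    rintro x y ⟨a, b, hb, h⟩ ⟨a', b', hb', h'⟩
    refine ⟨a * a', b * b', ?_, ?_⟩
    · rw [map_mul]
      exact mul_ne_zero hb hb'
    · rw [map_mul, map_mul, ← h, ← h']
      ring
  neg_mem' := by
    rintro x ⟨a, b, hb, h⟩
    exact ⟨-a, b, hb, by rw [map_neg, ← h]; ring⟩

theorem ga_mem_W_iff {x : LaurentSeries L} :
    x ∈ ga_W A π ↔ ∃ a b : LaurentSeries A, ga_red A π b ≠ 0 ∧ x * ga_iota A b = ga_iota A a :=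
  Iff.rfl

/-- integral series lie in `W` -/
theorem ga_iota_mem_W (a : LaurentSeries A) : ga_iota A a ∈ ga_W A π :=
  ⟨a, 1, by simp, by simp⟩

/-- the residue map `W → k((q))`, as a function -/
def ga_rhoFun (x : ga_W A π) : LaurentSeries k :=
  ga_red A π (Classical.choose x.2) / ga_red A π (Classical.choose (Classical.choose_spec x.2))

theorem ga_rhoFun_eq (x : ga_W A π) {a b : LaurentSeries A} (hb : ga_red A π b ≠ 0)
    (h : (x : LaurentSeries L) * ga_iota A b = ga_iota A a) :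
    ga_rhoFun A π x = ga_red A π a / ga_red A π b := by
  unfold ga_rhoFun
  have hs := Classical.choose_spec (Classical.choose_spec x.2)
  exact ga_W_wd A π hs.1 hb hs.2 h

/-- the residue map `W → k((q))` -/
def ga_rho : ga_W A π →+* LaurentSeries k where
  toFun := ga_rhoFun A π
  map_one' := by
    rw [ga_rhoFun_eq A π 1 (a := 1) (b := 1) (by simp) (by simp)]
    simp
  map_zero' := by
    rw [ga_rhoFun_eq A π 0 (a := 0) (b := 1) (by simp) (by simp)]
    simp
  map_mul' := by
    rintro ⟨x, a, b, hb, h⟩ ⟨y, a', b', hb', h'⟩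
    rw [ga_rhoFun_eq A π ⟨x, a, b, hb, h⟩ hb h, ga_rhoFun_eq A π ⟨y, a', b', hb', h'⟩ hb' h',
      ga_rhoFun_eq A π _ (a := a * a') (b := b * b') (by rw [map_mul]; exact mul_ne_zero hb hb')
        (by
          show x * y * ga_iota A (b * b') = ga_iota A (a * a')
          rw [map_mul, map_mul, ← h, ← h']; ring)]
    rw [map_mul, map_mul, div_mul_div_comm]
  map_add' := by
    rintro ⟨x, a, b, hb, h⟩ ⟨y, a', b', hb', h'⟩
    rw [ga_rhoFun_eq A π ⟨x, a, b, hb, h⟩ hb h, ga_rhoFun_eq A π ⟨y, a', b', hb', h'⟩ hb' h',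
      ga_rhoFun_eq A π _ (a := a * b' + a' * b) (b := b * b')
        (by rw [map_mul]; exact mul_ne_zero hb hb')
        (by
          show (x + y) * ga_iota A (b * b') = ga_iota A (a * b' + a' * b)
          rw [map_mul, map_add, map_mul, map_mul, ← h, ← h']; ring)]
    rw [map_add, map_mul, map_mul, map_mul, div_add_div _ _ hb hb',
      mul_comm (ga_red A π b) (ga_red A π a')]

theorem ga_rho_eq (x : ga_W A π) {a b : LaurentSeries A} (hb : ga_red A π b ≠ 0)
    (h : (x : LaurentSeries L) * ga_iota A b = ga_iota A a) :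
    ga_rho A π x = ga_red A π a / ga_red A π b :=
  ga_rhoFun_eq A π x hb h

/-- `ρ` on integral series is the coefficientwise reduction -/
theorem ga_rho_iota (a : LaurentSeries A) :
    ga_rho A π ⟨ga_iota A a, ga_iota_mem_W A π a⟩ = ga_red A π a := by
  rw [ga_rho_eq A π _ (a := a) (b := 1) (by simp) (by simp)]
  simp

/-- proof-irrelevant rewriting of `ρ` -/
theorem ga_rho_congr {x y : LaurentSeries L} (h : x = y) (hx : x ∈ ga_W A π) (hy : y ∈ ga_W A π) :
    ga_rho A π ⟨x, hx⟩ = ga_rho A π ⟨y, hy⟩ := by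
  subst h; rfl

/-- if `ρ x ≠ 0` then `x⁻¹ ∈ W` -/
theorem ga_inv_mem {x : LaurentSeries L} (hx : x ∈ ga_W A π) (hρ : ga_rho A π ⟨x, hx⟩ ≠ 0) :
    x⁻¹ ∈ ga_W A π := by
  obtain ⟨a, b, hb, h⟩ := hx
  have hρ' : ga_red A π a / ga_red A π b ≠ 0 := by
    rw [← ga_rho_eq A π ⟨x, a, b, hb, h⟩ hb h]; exact hρ
  have ha : ga_red A π a ≠ 0 := fun h0 => hρ' (by rw [h0, zero_div])
  have hb0 : ga_iota A b ≠ 0 := by
    intro h0
    have : b = 0 := ga_iota_injective A (by rw [h0, map_zero])
    exact hb (by rw [this, map_zero])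
  have ha0 : ga_iota A a ≠ 0 := by
    intro h0
    have : a = 0 := ga_iota_injective A (by rw [h0, map_zero])
    exact ha (by rw [this, map_zero])
  have hx0 : x ≠ 0 := by
    rintro rfl
    rw [zero_mul] at h
    exact ha0 h.symm
  refine ⟨b, a, ha, ?_⟩
  rw [← h]
  field_simp

theorem ga_rho_inv {x : LaurentSeries L} (hx : x ∈ ga_W A π) (hρ : ga_rho A π ⟨x, hx⟩ ≠ 0) :
    ga_rho A π ⟨x⁻¹, ga_inv_mem A π hx hρ⟩ = (ga_rho A π ⟨x, hx⟩)⁻¹ := by
  have hx0 : x ≠ 0 := by
    rintro rfl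
    apply hρ
    have : (⟨0, hx⟩ : ga_W A π) = 0 := rfl
    rw [this, map_zero]
  have h1 : ga_rho A π ⟨x⁻¹, ga_inv_mem A π hx hρ⟩ * ga_rho A π ⟨x, hx⟩ = 1 := by
    rw [← map_mul]
    have : (⟨x⁻¹, ga_inv_mem A π hx hρ⟩ * ⟨x, hx⟩ : ga_W A π) = 1 := by
      apply Subtype.ext
      show x⁻¹ * x = 1
      exact inv_mul_cancel₀ hx0
    rw [this, map_one]
  exact eq_inv_of_mul_eq_one_left h1

/-- constants of `A` -/
theorem ga_C_mem_W (c : A) : HahnSeries.C (c : L) ∈ ga_W A π := by
  have : HahnSeries.C (c : L) = ga_iota A (HahnSeries.C c) := by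
    rw [ga_iota, HahnSeries.C_apply, HahnSeries.C_apply, coeffMap_single]
    rfl
  rw [this]
  exact ga_iota_mem_W A π _

theorem ga_rho_C (c : A) :
    ga_rho A π ⟨HahnSeries.C (c : L), ga_C_mem_W A π c⟩ = HahnSeries.C (π c) := by
  have h : HahnSeries.C (c : L) = ga_iota A (HahnSeries.C c) := by
    rw [ga_iota, HahnSeries.C_apply, HahnSeries.C_apply, coeffMap_single]
    rfl
  rw [ga_rho_congr A π h (ga_C_mem_W A π c) (ga_iota_mem_W A π _), ga_rho_iota, ga_red,
    HahnSeries.C_apply, HahnSeries.C_apply, coeffMap_single]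

/-- a constant lying in the Gauss ring lies in `A` (if `π` kills only non-units) -/
theorem ga_mem_of_C_mem (hπ : ∀ a : A, π a ≠ 0 → IsUnit a) {c : L}
    (hc : HahnSeries.C c ∈ ga_W A π) : c ∈ A := by
  obtain ⟨a, b, hb, h⟩ := hc
  obtain ⟨n, hn⟩ : ∃ n, (ga_red A π b).coeff n ≠ 0 := by
    by_contra hall
    push Not at hall
    exact hb (HahnSeries.ext (funext hall))
  rw [ga_red_coeff] at hn
  have hu := hπ _ hn
  have hcoef : c * ((b.coeff n : A) : L) = ((a.coeff n : A) : L) := by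
    have h2 := congrArg (fun x : LaurentSeries L => x.coeff n) h
    simp only [ga_iota_coeff] at h2
    rw [← h2, HahnSeries.C_apply]
    have h3 := HahnSeries.coeff_single_mul_add (r := c) (x := ga_iota A b) (a := n) (b := (0 : ℤ))
    rw [add_zero] at h3
    rw [h3, ga_iota_coeff]
  obtain ⟨v, hv⟩ := hu
  have hb0 : ((b.coeff n : A) : L) ≠ 0 := by
    intro h0
    have : (b.coeff n : A) = 0 := Subtype.ext h0
    rw [this, map_zero] at hn
    exact hn rfl
  have hc : c = ((a.coeff n : A) : L) * ((b.coeff n : A) : L)⁻¹ := by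
    rw [← hcoef]; field_simp
  rw [hc]
  have hinv : ((b.coeff n : A) : L)⁻¹ = ((v⁻¹ : Aˣ) : A) := by
    have h1 : ((b.coeff n : A) : L) * (((v⁻¹ : Aˣ) : A) : L) = 1 := by
      rw [← hv]
      have : ((v : A) * ((v⁻¹ : Aˣ) : A) : A) = 1 := by simp
      exact_mod_cast congrArg (Subtype.val) this
    exact inv_eq_of_mul_eq_one_right h1
  rw [hinv]
  exact A.mul_mem _ _ (a.coeff n).2 (((v⁻¹ : Aˣ) : A)).2

end

end Fermat.Agent.S18x
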