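/-
S18 project, module (I1)-CORE (helper19, prefix `gi_`): instantiation of the abstract
"good reduction data" `ts_Hyp` of `S18x/TsBasic` (helper80) for the modular function fields

  `F  = laurentBaseChange L (modularFunctionFieldFull N)  ⊂ L((q))`,
  `Fb = modularFunctionFieldFullC k N ⊂ k((q))`,   `k` a field with `π : A →+* k`,

from the two clauses of the hypothesis `ReductionInputsAlong A π N` of the frozen S18
PLUS the (characteristic-zero, `S24x`-type) inputs
  `hpd`    : every non-zero `x : F` has a divisor,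
  `hconst` : an `x : F` without zeros and poles is a constant.

Key point: *everything* (normalisation `x = c·u`, `ρ(W) ⊆ Fb`, compatibility for all `W`-units)
follows from `PrincipalGeneratedByIntegral` — no degree preservation / q-expansion principle is
needed here.
-/
import Mathlib
import Fermat.Prelude.Def_ModularCurve_ReductionModL
import Fermat.Agent.S18x.GaussA
import Fermat.Agent.S18x.TsBasic

set_option autoImplicit false

namespace Fermat.Agent.S18x

open ModularCurve HahnSeries AlgebraicCurve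

noncomputable section

section Abbrevs

variable (L : Type*) [Field L] [Algebra ℚ L] (k : Type*) [Field k] (N : ℕ) [NeZero N]

/-- the characteristic-zero function field `F ⊂ L((q))` -/
abbrev gi_F : IntermediateField L (LaurentSeries L) :=
  laurentBaseChange L (modularFunctionFieldFull N)

/-- the residue function field `Fb ⊂ k((q))` -/
abbrev gi_Fb : IntermediateField k (LaurentSeries k) :=
  modularFunctionFieldFullC k N

end Abbrevs

variable {L : Type*} [Field L] [Algebra ℚ L] {A : ValuationSubring L}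
variable {k : Type*} [Field k] (π : A →+* k) {N : ℕ} [NeZero N]
variable (r : Place L (gi_F L N) → Place k (gi_Fb k N))

/-- "good units": elements of `F` lying in the Gauss ring with non-zero residue in `Fb`, which
have a divisor, compatible with `r`. -/
def gi_Good (u : gi_F L N) : Prop :=
  ∃ hW : (u : LaurentSeries L) ∈ ga_W A π,
    ga_rho A π ⟨u, hW⟩ ≠ 0 ∧
    ∃ hFb : ga_rho A π ⟨u, hW⟩ ∈ gi_Fb k N,
      ∃ D : Divisor L (gi_F L N), (∀ P, D P = P.ord u) ∧
        ∀ Q, Finsupp.mapDomain r D Q = Q.ord (⟨ga_rho A π ⟨u, hW⟩, hFb⟩ : gi_Fb k N)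

omit [Algebra ℚ L] in
theorem gi_rho_zero (hW : (0 : LaurentSeries L) ∈ ga_W A π) : ga_rho A π ⟨0, hW⟩ = 0 := by
  have : (⟨0, hW⟩ : ga_W A π) = 0 := rfl
  rw [this, map_zero]

omit [Algebra ℚ L] in
theorem gi_rho_one (hW : (1 : LaurentSeries L) ∈ ga_W A π) : ga_rho A π ⟨1, hW⟩ = 1 := by
  have : (⟨1, hW⟩ : ga_W A π) = 1 := rfl
  rw [this, map_one]

omit [Algebra ℚ L] in
theorem gi_rho_mul {x y : LaurentSeries L} (hx : x ∈ ga_W A π) (hy : y ∈ ga_W A π)
    (hxy : x * y ∈ ga_W A π) :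
    ga_rho A π ⟨x * y, hxy⟩ = ga_rho A π ⟨x, hx⟩ * ga_rho A π ⟨y, hy⟩ := by
  rw [← map_mul]
  rfl

variable {π r}

theorem gi_Good.ne_zero {u : gi_F L N} (h : gi_Good π r u) : u ≠ 0 := by
  obtain ⟨hW, hne, -⟩ := h
  rintro rfl
  exact hne (gi_rho_zero π hW)

variable (π r)

theorem gi_Good_one : gi_Good π r (1 : gi_F L N) := by
  have hW : ((1 : gi_F L N) : LaurentSeries L) ∈ ga_W A π := (ga_W A π).one_mem
  have h1 : ga_rho A π ⟨((1 : gi_F L N) : LaurentSeries L), hW⟩ = 1 := gi_rho_one π hW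
  refine ⟨hW, by rw [h1]; exact one_ne_zero, by rw [h1]; exact one_mem _, 0, ?_, ?_⟩
  · intro P
    rw [Place.ord_one, Finsupp.zero_apply]
  · intro Q
    rw [Finsupp.mapDomain_zero, Finsupp.zero_apply]
    have : (⟨ga_rho A π ⟨((1 : gi_F L N) : LaurentSeries L), hW⟩,
        by rw [h1]; exact one_mem _⟩ : gi_Fb k N) = 1 := Subtype.ext h1
    rw [this, Place.ord_one]

variable {π r}

theorem gi_Good.mul {u v : gi_F L N} (hu : gi_Good π r u) (hv : gi_Good π r v) :
    gi_Good π r (u * v) := by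
  have hu0 := hu.ne_zero
  have hv0 := hv.ne_zero
  obtain ⟨hWu, hneu, hFbu, Du, hDu, hcu⟩ := hu
  obtain ⟨hWv, hnev, hFbv, Dv, hDv, hcv⟩ := hv
  have hW : ((u * v : gi_F L N) : LaurentSeries L) ∈ ga_W A π := (ga_W A π).mul_mem hWu hWv
  have hρ : ga_rho A π ⟨((u * v : gi_F L N) : LaurentSeries L), hW⟩ =
      ga_rho A π ⟨u, hWu⟩ * ga_rho A π ⟨v, hWv⟩ := gi_rho_mul π hWu hWv hW
  refine ⟨hW, by rw [hρ]; exact mul_ne_zero hneu hnev, by rw [hρ]; exact mul_mem hFbu hFbv,
    Du + Dv, ?_, ?_⟩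
  · intro P
    rw [Finsupp.add_apply, hDu, hDv, Place.ord_mul _ hu0 hv0]
  · intro Q
    rw [Finsupp.mapDomain_add, Finsupp.add_apply, hcu, hcv]
    have : (⟨ga_rho A π ⟨((u * v : gi_F L N) : LaurentSeries L), hW⟩,
        by rw [hρ]; exact mul_mem hFbu hFbv⟩ : gi_Fb k N) =
        ⟨ga_rho A π ⟨u, hWu⟩, hFbu⟩ * ⟨ga_rho A π ⟨v, hWv⟩, hFbv⟩ := Subtype.ext hρ
    rw [this, Place.ord_mul]
    · intro h; exact hneu (congrArg Subtype.val h)
    · intro h; exact hnev (congrArg Subtype.val h)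

theorem gi_Good.inv {u : gi_F L N} (hu : gi_Good π r u) : gi_Good π r u⁻¹ := by
  have hu0 := hu.ne_zero
  obtain ⟨hWu, hneu, hFbu, Du, hDu, hcu⟩ := hu
  have hW : ((u⁻¹ : gi_F L N) : LaurentSeries L) ∈ ga_W A π := ga_inv_mem A π hWu hneu
  have hρ : ga_rho A π ⟨((u⁻¹ : gi_F L N) : LaurentSeries L), hW⟩ =
      (ga_rho A π ⟨u, hWu⟩)⁻¹ := ga_rho_inv A π hWu hneu
  refine ⟨hW, by rw [hρ]; exact inv_ne_zero hneu, by rw [hρ]; exact inv_mem hFbu,
    -Du, ?_, ?_⟩
  · intro P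
    rw [Finsupp.neg_apply, hDu, Place.ord_inv]
  · intro Q
    have hneg : Finsupp.mapDomain r (-Du) = -Finsupp.mapDomain r Du := by
      rw [← Finsupp.mapDomain.addMonoidHom_apply, map_neg, Finsupp.mapDomain.addMonoidHom_apply]
    rw [hneg, Finsupp.neg_apply, hcu]
    have : (⟨ga_rho A π ⟨((u⁻¹ : gi_F L N) : LaurentSeries L), hW⟩,
        by rw [hρ]; exact inv_mem hFbu⟩ : gi_Fb k N) =
        (⟨ga_rho A π ⟨u, hWu⟩, hFbu⟩ : gi_Fb k N)⁻¹ := Subtype.ext hρ
    rw [this, Place.ord_inv]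

/-- the generators of `PrincipalGeneratedByIntegral` are good units -/
theorem gi_Good_of_ipd (hr : IsPlaceReductionAlong A π N r)
    {D : Divisor L (gi_F L N)} (hD : D ∈ integralPrincipalDivisors A π N) :
    ∃ u : gi_F L N, gi_Good π r u ∧ ∀ P, D P = P.ord u := by
  obtain ⟨y, hy, hyk, hne, hDy⟩ := hD
  refine ⟨⟨coeffMap A.subtype y, hy⟩, ?_, hDy⟩
  have hW : (coeffMap A.subtype y : LaurentSeries L) ∈ ga_W A π := ga_iota_mem_W A π y
  have hρ : ga_rho A π ⟨coeffMap A.subtype y, hW⟩ = coeffMap π y := ga_rho_iota A π y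
  refine ⟨hW, by rw [hρ]; exact hne, by rw [hρ]; exact hyk, D, hDy, ?_⟩
  intro Q
  rw [hr.2 y hy hyk hne D hDy Q]
  congr 1
  exact Subtype.ext hρ.symm

/-- every principal divisor is the divisor of a good unit -/
theorem gi_exists_good (hr : IsPlaceReductionAlong A π N r)
    (hgen : PrincipalGeneratedByIntegral A π N)
    {D : Divisor L (gi_F L N)} (hD : D ∈ Divisor.principal (K := L) (F := gi_F L N)) :
    ∃ u : gi_F L N, gi_Good π r u ∧ ∀ P, D P = P.ord u := by
  have hD' := hgen hD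
  clear hD
  induction hD' using AddSubgroup.closure_induction with
  | mem E hE => exact gi_Good_of_ipd hr hE
  | zero => exact ⟨1, gi_Good_one π r, fun P => by rw [Place.ord_one, Finsupp.zero_apply]⟩
  | add E E' _ _ hE hE' =>
    obtain ⟨u, hu, hEu⟩ := hE
    obtain ⟨v, hv, hEv⟩ := hE'
    exact ⟨u * v, hu.mul hv, fun P => by
      rw [Finsupp.add_apply, hEu, hEv, Place.ord_mul _ hu.ne_zero hv.ne_zero]⟩
  | neg E _ hE =>
    obtain ⟨u, hu, hEu⟩ := hE
    exact ⟨u⁻¹, hu.inv, fun P => by rw [Finsupp.neg_apply, hEu, Place.ord_inv]⟩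

/-- **normal form**: every non-zero `x : F` is a constant times a good unit. -/
theorem gi_normal_form (hr : IsPlaceReductionAlong A π N r)
    (hgen : PrincipalGeneratedByIntegral A π N)
    (hpd : ∀ x : gi_F L N, x ≠ 0 → ∃ D : Divisor L (gi_F L N), ∀ P, D P = P.ord x)
    (hconst : ∀ x : gi_F L N, x ≠ 0 → (∀ P : Place L (gi_F L N), P.ord x = 0) →
      ∃ c : L, x = algebraMap L (gi_F L N) c)
    (x : gi_F L N) (hx : x ≠ 0) :
    ∃ c : L, c ≠ 0 ∧ ∃ u : gi_F L N, gi_Good π r u ∧ x = algebraMap L (gi_F L N) c * u := by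
  obtain ⟨D, hD⟩ := hpd x hx
  obtain ⟨u, hu, hDu⟩ := gi_exists_good hr hgen (D := D) ⟨x, hx, hD⟩
  have hu0 := hu.ne_zero
  have hxu : x * u⁻¹ ≠ 0 := mul_ne_zero hx (inv_ne_zero hu0)
  obtain ⟨c, hc⟩ := hconst (x * u⁻¹) hxu (fun P => by
    rw [Place.ord_mul _ hx (inv_ne_zero hu0), Place.ord_inv, ← hD, ← hDu, add_neg_cancel])
  refine ⟨c, ?_, u, hu, ?_⟩
  · rintro rfl
    rw [map_zero] at hc
    exact hxu hc
  · rw [← hc, mul_assoc, inv_mul_cancel₀ hu0, mul_one]

end

end Fermat.Agent.S18x
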