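/-
S18 project, module (I1)-CORE part 2 (helper19, prefix `gi_`): the Gauss valuation ring `gi_W` of
`F = laurentBaseChange L (modularFunctionFieldFull N)`, its residue map `gi_rho : W →+* Fb`
(`Fb = modularFunctionFieldFullC k N`), and the fields of helper80's `ts_Hyp`.
See `S18x/InstGauss.lean` for the normal form these rest on.
-/
import Mathlib
import Fermat.Agent.S18x.InstGauss

set_option autoImplicit false

namespace Fermat.Agent.S18x

open ModularCurve HahnSeries AlgebraicCurve

noncomputable section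

variable {L : Type*} [Field L] [Algebra ℚ L] {A : ValuationSubring L}
variable {k : Type*} [Field k] {π : A →+* k} {N : ℕ} [NeZero N]
variable {r : Place L (gi_F L N) → Place k (gi_Fb k N)}

/-- the inputs: the two clauses of `ReductionInputsAlong`, the two characteristic-zero facts about
places of `F`, and the fact that `π` is "the" residue map. -/
structure gi_Inputs (π : A →+* k) (r : Place L (gi_F L N) → Place k (gi_Fb k N)) : Prop where
  hr : IsPlaceReductionAlong A π N r
  hgen : PrincipalGeneratedByIntegral A π N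
  hpd : ∀ x : gi_F L N, x ≠ 0 → ∃ D : Divisor L (gi_F L N), ∀ P, D P = P.ord x
  hconst : ∀ x : gi_F L N, x ≠ 0 → (∀ P : Place L (gi_F L N), P.ord x = 0) →
    ∃ c : L, x = algebraMap L (gi_F L N) c
  hπu : ∀ a : A, π a ≠ 0 → IsUnit a
  hπs : Function.Surjective π

omit [NeZero N] in
theorem gi_coe_algebraMap (c : L) :
    ((algebraMap L (gi_F L N) c : gi_F L N) : LaurentSeries L) = HahnSeries.C c := by
  show algebraMap L (LaurentSeries L) c = HahnSeries.C c
  rw [algebraMap_laurentSeries_eq_single, HahnSeries.C_apply]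

theorem gi_Inputs.nf (H : gi_Inputs π r) (x : gi_F L N) (hx : x ≠ 0) :
    ∃ c : L, c ≠ 0 ∧ ∃ u : gi_F L N, gi_Good π r u ∧ x = algebraMap L (gi_F L N) c * u :=
  gi_normal_form H.hr H.hgen H.hpd H.hconst x hx

/-- the Gauss valuation ring of `F` -/
def gi_W (H : gi_Inputs π r) : ValuationSubring (gi_F L N) where
  carrier := {x | (x : LaurentSeries L) ∈ ga_W A π}
  zero_mem' := (ga_W A π).zero_mem
  one_mem' := (ga_W A π).one_mem
  add_mem' := fun hx hy => (ga_W A π).add_mem hx hy
  mul_mem' := fun hx hy => (ga_W A π).mul_mem hx hy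
  neg_mem' := fun hx => (ga_W A π).neg_mem hx
  mem_or_inv_mem' := by
    intro x
    rcases eq_or_ne x 0 with rfl | hx
    · exact Or.inl (ga_W A π).zero_mem
    obtain ⟨c, hc, u, hu, rfl⟩ := H.nf x hx
    obtain ⟨hWui, -⟩ := hu.inv
    obtain ⟨hWu, -⟩ := hu
    rcases A.mem_or_inv_mem c with hcA | hcA
    · left
      show ((algebraMap L (gi_F L N) c * u : gi_F L N) : LaurentSeries L) ∈ ga_W A π
      have : ((algebraMap L (gi_F L N) c * u : gi_F L N) : LaurentSeries L) =
          HahnSeries.C c * (u : LaurentSeries L) := by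
        rw [← gi_coe_algebraMap (N := N) c]; rfl
      rw [this]
      exact (ga_W A π).mul_mem (ga_C_mem_W A π ⟨c, hcA⟩) hWu
    · right
      show (((algebraMap L (gi_F L N) c * u)⁻¹ : gi_F L N) : LaurentSeries L) ∈ ga_W A π
      have : (((algebraMap L (gi_F L N) c * u)⁻¹ : gi_F L N) : LaurentSeries L) =
          HahnSeries.C c⁻¹ * ((u⁻¹ : gi_F L N) : LaurentSeries L) := by
        rw [mul_inv, ← map_inv₀, ← gi_coe_algebraMap (N := N) c⁻¹]; rfl
      rw [this]
      exact (ga_W A π).mul_mem (ga_C_mem_W A π ⟨c⁻¹, hcA⟩) hWui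

theorem gi_mem_W_iff (H : gi_Inputs π r) (x : gi_F L N) :
    x ∈ gi_W H ↔ (x : LaurentSeries L) ∈ ga_W A π := Iff.rfl

/-- inclusion `gi_W → ga_W` -/
def gi_incl (H : gi_Inputs π r) : gi_W H →+* ga_W A π where
  toFun x := ⟨((x : gi_F L N) : LaurentSeries L), x.2⟩
  map_one' := rfl
  map_mul' _ _ := rfl
  map_zero' := rfl
  map_add' _ _ := rfl

/-- the constant of the normal form of an element of `W` lies in `A` -/
theorem gi_Inputs.const_mem (H : gi_Inputs π r) {c : L} {u : gi_F L N} (hu : gi_Good π r u)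
    (hx : ((algebraMap L (gi_F L N) c * u : gi_F L N) : LaurentSeries L) ∈ ga_W A π) : c ∈ A := by
  obtain ⟨hWui, -⟩ := hu.inv
  have hu0 := hu.ne_zero
  refine ga_mem_of_C_mem A π H.hπu ?_
  have h1 : HahnSeries.C c =
      ((algebraMap L (gi_F L N) c * u : gi_F L N) : LaurentSeries L) *
        ((u⁻¹ : gi_F L N) : LaurentSeries L) := by
    rw [← gi_coe_algebraMap (N := N) c]
    have : algebraMap L (gi_F L N) c = algebraMap L (gi_F L N) c * u * u⁻¹ := by
      rw [mul_assoc, mul_inv_cancel₀ hu0, mul_one]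
    conv_lhs => rw [this]
    rfl
  rw [h1]
  exact (ga_W A π).mul_mem hx hWui

/-- `ρ` of a normal form -/
theorem gi_Inputs.rho_nf (H : gi_Inputs π r) {c : L} {u : gi_F L N}
    (hWu : (u : LaurentSeries L) ∈ ga_W A π) (hc : c ∈ A)
    (hx : ((algebraMap L (gi_F L N) c * u : gi_F L N) : LaurentSeries L) ∈ ga_W A π) :
    ga_rho A π ⟨((algebraMap L (gi_F L N) c * u : gi_F L N) : LaurentSeries L), hx⟩ =
      HahnSeries.C (π ⟨c, hc⟩) * ga_rho A π ⟨u, hWu⟩ := by
  have h1 : ((algebraMap L (gi_F L N) c * u : gi_F L N) : LaurentSeries L) =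
      HahnSeries.C c * (u : LaurentSeries L) := by
    rw [← gi_coe_algebraMap (N := N) c]; rfl
  have hCW : HahnSeries.C c ∈ ga_W A π := ga_C_mem_W A π ⟨c, hc⟩
  rw [ga_rho_congr A π h1 hx ((ga_W A π).mul_mem hCW hWu), gi_rho_mul π hCW hWu]
  congr 1
  exact ga_rho_C A π ⟨c, hc⟩

omit [NeZero N] in
theorem gi_C_mem_Fb (a : k) : HahnSeries.C a ∈ gi_Fb k N := by
  have : HahnSeries.C a = algebraMap k (LaurentSeries k) a := by
    rw [algebraMap_laurentSeries_eq_single, HahnSeries.C_apply]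
  rw [this]
  exact (gi_Fb k N).algebraMap_mem a

theorem gi_rho_mem (H : gi_Inputs π r) (x : gi_W H) :
    ga_rho A π (gi_incl H x) ∈ gi_Fb k N := by
  rcases eq_or_ne x 0 with rfl | hx
  · rw [map_zero, map_zero]; exact zero_mem _
  have hx' : (x : gi_F L N) ≠ 0 := fun h => hx (Subtype.ext h)
  obtain ⟨c, hc, u, hu, hxu⟩ := H.nf (x : gi_F L N) hx'
  have hxW : ((algebraMap L (gi_F L N) c * u : gi_F L N) : LaurentSeries L) ∈ ga_W A π := by
    rw [← hxu]; exact x.2
  have hcA := H.const_mem hu hxW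
  obtain ⟨hWu, hne, hFbu, -⟩ := hu
  have h2 : gi_incl H x = ⟨((algebraMap L (gi_F L N) c * u : gi_F L N) : LaurentSeries L), hxW⟩ :=
    Subtype.ext (by show ((x : gi_F L N) : LaurentSeries L) = _; rw [hxu])
  rw [h2, H.rho_nf hWu hcA hxW]
  exact mul_mem (gi_C_mem_Fb _) hFbu

/-- the residue map `W → Fb` -/
def gi_rho (H : gi_Inputs π r) : gi_W H →+* gi_Fb k N :=
  ((ga_rho A π).comp (gi_incl H)).codRestrict (gi_Fb k N) (gi_rho_mem H)

theorem gi_rho_coe (H : gi_Inputs π r) (x : gi_W H) :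
    ((gi_rho H x : gi_Fb k N) : LaurentSeries k) = ga_rho A π (gi_incl H x) := rfl

end

end Fermat.Agent.S18x
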