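/-
S18 project, module (I1)-CORE part 3 (helper19, prefix `gi_`): the fields of helper80's `ts_Hyp`
for `W = gi_W`, `ρ = gi_rho`, and surjectivity of `ρ` and of the place map `r`.
-/
import Mathlib
import Fermat.Agent.S18x.InstGaussW

set_option autoImplicit false

namespace Fermat.Agent.S18x

open ModularCurve HahnSeries AlgebraicCurve

noncomputable section

variable {L : Type*} [Field L] [Algebra ℚ L] {A : ValuationSubring L}
variable {k : Type*} [Field k] {π : A →+* k} {N : ℕ} [NeZero N]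
variable {r : Place L (gi_F L N) → Place k (gi_Fb k N)}

theorem gi_mem_iff (H : gi_Inputs π r) (c : L) :
    algebraMap L (gi_F L N) c ∈ gi_W H ↔ c ∈ A := by
  rw [gi_mem_W_iff, gi_coe_algebraMap]
  exact ⟨ga_mem_of_C_mem A π H.hπu, fun hc => ga_C_mem_W A π ⟨c, hc⟩⟩

theorem gi_rho_alg (H : gi_Inputs π r) (c : L) (hc : c ∈ A)
    (hW : algebraMap L (gi_F L N) c ∈ gi_W H) :
    gi_rho H ⟨algebraMap L (gi_F L N) c, hW⟩ = algebraMap k (gi_Fb k N) (π ⟨c, hc⟩) := by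
  apply Subtype.ext
  rw [gi_rho_coe]
  show _ = algebraMap k (LaurentSeries k) (π ⟨c, hc⟩)
  rw [algebraMap_laurentSeries_eq_single, ← HahnSeries.C_apply, ← ga_rho_C A π ⟨c, hc⟩]
  exact ga_rho_congr A π (gi_coe_algebraMap (N := N) c) _ _

theorem gi_ker (H : gi_Inputs π r) (x : gi_W H) : gi_rho H x = 0 ↔ ¬ IsUnit x := by
  constructor
  · intro h0 hu
    have := hu.map (gi_rho H)
    rw [h0] at this
    exact not_isUnit_zero this
  · intro hnu
    by_contra hne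
    apply hnu
    have hne' : ga_rho A π (gi_incl H x) ≠ 0 := by
      intro h
      apply hne
      apply Subtype.ext
      rw [gi_rho_coe, h]; rfl
    have hinv : (((x : gi_F L N)⁻¹ : gi_F L N) : LaurentSeries L) ∈ ga_W A π :=
      ga_inv_mem A π x.2 hne'
    have hx0 : (x : gi_F L N) ≠ 0 := by
      intro h
      apply hne
      have : x = 0 := Subtype.ext h
      rw [this, map_zero]
    refine IsUnit.of_mul_eq_one (⟨(x : gi_F L N)⁻¹, hinv⟩ : gi_W H) ?_
    apply Subtype.ext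
    show (x : gi_F L N) * (x : gi_F L N)⁻¹ = 1
    exact mul_inv_cancel₀ hx0

theorem gi_norm (H : gi_Inputs π r) (x : gi_F L N) (hx : x ≠ 0) :
    ∃ c : L, c ≠ 0 ∧ algebraMap L (gi_F L N) c * x ∈ gi_W H ∧
      (algebraMap L (gi_F L N) c * x)⁻¹ ∈ gi_W H := by
  obtain ⟨c, hc, u, hu, rfl⟩ := H.nf x hx
  have hcu : algebraMap L (gi_F L N) c⁻¹ * (algebraMap L (gi_F L N) c * u) = u := by
    rw [← mul_assoc, ← map_mul, inv_mul_cancel₀ hc, map_one, one_mul]
  refine ⟨c⁻¹, inv_ne_zero hc, ?_, ?_⟩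
  · rw [hcu]; exact hu.1
  · rw [hcu]; exact hu.inv.1

theorem gi_compat (H : gi_Inputs π r) (u : gi_W H) (hρ : gi_rho H u ≠ 0)
    (D : Divisor L (gi_F L N)) (hD : ∀ P, D P = P.ord (u : gi_F L N))
    (Q : Place k (gi_Fb k N)) :
    Finsupp.mapDomain r D Q = Q.ord (gi_rho H u) := by
  have hu0 : (u : gi_F L N) ≠ 0 := by
    intro h
    apply hρ
    have : u = 0 := Subtype.ext h
    rw [this, map_zero]
  obtain ⟨c, hc, u₀, hu₀, hxu⟩ := H.nf (u : gi_F L N) hu0
  have hxW : ((algebraMap L (gi_F L N) c * u₀ : gi_F L N) : LaurentSeries L) ∈ ga_W A π := by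
    rw [← hxu]; exact u.2
  have hcA := H.const_mem hu₀ hxW
  have hu₀0 := hu₀.ne_zero
  obtain ⟨hWu, hne, hFbu, D₀, hD₀, hc₀⟩ := hu₀
  have h2 : gi_incl H u =
      ⟨((algebraMap L (gi_F L N) c * u₀ : gi_F L N) : LaurentSeries L), hxW⟩ :=
    Subtype.ext (by show ((u : gi_F L N) : LaurentSeries L) = _; rw [hxu])
  have hρu : gi_rho H u = algebraMap k (gi_Fb k N) (π ⟨c, hcA⟩) *
      (⟨ga_rho A π ⟨u₀, hWu⟩, hFbu⟩ : gi_Fb k N) := by
    apply Subtype.ext
    rw [gi_rho_coe, h2, H.rho_nf hWu hcA hxW]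
    show _ = algebraMap k (LaurentSeries k) (π ⟨c, hcA⟩) * _
    rw [algebraMap_laurentSeries_eq_single, ← HahnSeries.C_apply]
  have hπc : algebraMap k (gi_Fb k N) (π ⟨c, hcA⟩) ≠ 0 := by
    intro h
    rw [hρu, h, zero_mul] at hρ
    exact hρ rfl
  have hρ₀ : (⟨ga_rho A π ⟨u₀, hWu⟩, hFbu⟩ : gi_Fb k N) ≠ 0 := by
    intro h
    exact hne (congrArg Subtype.val h)
  have hDD : D = D₀ := by
    ext P
    rw [hD P, hD₀ P, hxu, Place.ord_mul _ (by
      intro h
      rw [h, zero_mul] at hxu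
      exact hu0 hxu) hu₀0, ts_ord_algebraMap, zero_add]
  rw [hDD, hc₀ Q, hρu, Place.ord_mul _ hπc hρ₀, ts_ord_algebraMap, zero_add]

/-- the image of `ρ`, as an intermediate field of `k((q))/k` -/
def gi_range (H : gi_Inputs π r) : IntermediateField k (LaurentSeries k) where
  carrier := {y | ∃ u : gi_W H, ((gi_rho H u : gi_Fb k N) : LaurentSeries k) = y}
  mul_mem' := by
    rintro _ _ ⟨u, rfl⟩ ⟨v, rfl⟩
    exact ⟨u * v, by rw [map_mul]; rfl⟩
  add_mem' := by
    rintro _ _ ⟨u, rfl⟩ ⟨v, rfl⟩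
    exact ⟨u + v, by rw [map_add]; rfl⟩
  algebraMap_mem' := by
    intro a
    obtain ⟨c, rfl⟩ := H.hπs a
    have hW : algebraMap L (gi_F L N) (c : L) ∈ gi_W H := (gi_mem_iff H _).mpr c.2
    refine ⟨⟨algebraMap L (gi_F L N) (c : L), hW⟩, ?_⟩
    rw [gi_rho_alg H (c : L) c.2 hW]
    rfl
  inv_mem' := by
    rintro _ ⟨u, rfl⟩
    by_cases h0 : gi_rho H u = 0
    · refine ⟨0, ?_⟩
      rw [map_zero, h0]
      simp
    · have hu : IsUnit u := by
        by_contra hnu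
        exact h0 ((gi_ker H u).mpr hnu)
      obtain ⟨v, hv⟩ := hu.exists_right_inv
      refine ⟨v, ?_⟩
      have h1 : gi_rho H u * gi_rho H v = 1 := by rw [← map_mul, hv, map_one]
      have h2 : gi_rho H v = (gi_rho H u)⁻¹ := eq_inv_of_mul_eq_one_right h1
      rw [h2]
      rfl

theorem gi_mem_range (H : gi_Inputs π r) {y : LaurentSeries k} :
    y ∈ gi_range H ↔ ∃ u : gi_W H, ((gi_rho H u : gi_Fb k N) : LaurentSeries k) = y := Iff.rfl

omit [NeZero N] in
theorem gi_jqd_eq (d : ℕ) [NeZero d] :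
    coeffMap A.subtype (qExpand A d (jqModC A)) = qExpand L d (jqModC L) := by
  rw [coeffMap_qExpand, coeffMap_jqModC]

omit [NeZero N] in
theorem gi_jqd_mem_F {d : ℕ} [NeZero d] (hd : d ∣ N) :
    qExpand L d (jqModC L) ∈ gi_F L N := by
  have h1 : coeffEmb L (qExpand ℚ d jq) ∈ laurentBaseChange L (modularFunctionFieldFull N) :=
    coeffEmb_mem_laurentBaseChange L (jqd_mem_full N hd)
  have h2 : coeffEmb L (qExpand ℚ d jq) = qExpand L d (jqModC L) := by
    rw [coeffEmb, ← jqModC_rat, coeffMap_qExpand, coeffMap_jqModC]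
  rw [← h2]
  exact h1

theorem gi_Fb_le_range (H : gi_Inputs π r) : gi_Fb k N ≤ gi_range H := by
  show modularFunctionFieldFullC k N ≤ gi_range H
  rw [modularFunctionFieldFullC, IntermediateField.adjoin_le_iff]
  rintro x ⟨d, hne, hdvd, rfl⟩
  haveI := hne
  have hF : qExpand L d (jqModC L) ∈ gi_F L N := gi_jqd_mem_F hdvd
  have hW : (qExpand L d (jqModC L) : LaurentSeries L) ∈ ga_W A π := by
    rw [← gi_jqd_eq (A := A) d]
    exact ga_iota_mem_W A π _
  refine ⟨⟨⟨qExpand L d (jqModC L), hF⟩, hW⟩, ?_⟩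
  rw [gi_rho_coe]
  have h3 : gi_incl H ⟨⟨qExpand L d (jqModC L), hF⟩, hW⟩ =
      ⟨ga_iota A (qExpand A d (jqModC A)), ga_iota_mem_W A π _⟩ :=
    Subtype.ext (gi_jqd_eq (A := A) d).symm
  rw [h3, ga_rho_iota]
  show coeffMap π (qExpand A d (jqModC A)) = _
  rw [coeffMap_qExpand, coeffMap_jqModC]

/-- `ρ : W → Fb` is surjective -/
theorem gi_rho_surj (H : gi_Inputs π r) : Function.Surjective (gi_rho H) := by
  intro y
  obtain ⟨u, hu⟩ := gi_Fb_le_range H y.2
  exact ⟨u, Subtype.ext hu⟩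

end

end Fermat.Agent.S18x
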