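/-
S18 project, module (I1)-CORE part 4 (helper19, prefix `gi_`): surjectivity of the place map and
the assembled `ts_Hyp` (helper80, `S18x/TsBasic`) for the modular function fields.

`gi_ts_Hyp : gi_Inputs π r → (eval hypothesis) → ts_Hyp A π (gi_W H) (gi_rho H) r`.
-/
import Mathlib
import Fermat.Agent.S18x.InstGaussHyp

set_option autoImplicit false

namespace Fermat.Agent.S18x

open ModularCurve HahnSeries AlgebraicCurve

noncomputable section

variable {L : Type*} [Field L] [Algebra ℚ L] {A : ValuationSubring L}
variable {k : Type*} [Field k] {π : A →+* k} {N : ℕ} [NeZero N]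
variable {r : Place L (gi_F L N) → Place k (gi_Fb k N)}

/-- every place of `Fb` is the reduction of a place of `F` -/
theorem gi_rsurj (H : gi_Inputs π r) : Function.Surjective r := by
  classical
  intro Q
  obtain ⟨t, ht⟩ := IsDiscreteValuationRing.exists_irreducible Q.toValuationSubring
  have hord : Q.ord ((t : Q.toValuationSubring) : gi_Fb k N) = 1 := Q.ord_coe_irreducible ht
  obtain ⟨u, hu⟩ := gi_rho_surj H ((t : Q.toValuationSubring) : gi_Fb k N)
  have hρ : gi_rho H u ≠ 0 := by
    rw [hu]
    intro h
    rw [h, Place.ord_zero] at hord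
    exact absurd hord (by norm_num)
  have hu0 : (u : gi_F L N) ≠ 0 := by
    intro h
    apply hρ
    have : u = 0 := Subtype.ext h
    rw [this, map_zero]
  obtain ⟨D, hD⟩ := H.hpd (u : gi_F L N) hu0
  have hc := gi_compat H u hρ D hD Q
  rw [hu, hord, ts_mapDomain_apply] at hc
  by_contra hno
  have hempty : D.support.filter (fun a => r a = Q) = ∅ := by
    rw [Finset.filter_eq_empty_iff]
    intro P _ hP
    exact hno ⟨P, hP⟩
  rw [hempty, Finset.sum_empty] at hc
  exact absurd hc (by norm_num)

/-- **(I1)-core**: the abstract good-reduction data of the torsion step, for the modular function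
fields, from the hypothesis of the frozen S18 and place theory of `F`. -/
theorem gi_ts_Hyp (H : gi_Inputs π r)
    (heval : ∀ (P : Place L (gi_F L N)) (x : gi_F L N), P.adicValuation x ≤ 1 →
      ∃ c : L, P.adicValuation (x - algebraMap L (gi_F L N) c) < 1) :
    ts_Hyp A π (gi_W H) (gi_rho H) r where
  mem_iff := gi_mem_iff H
  rho_alg := gi_rho_alg H
  pi_surj := H.hπs
  ker := gi_ker H
  norm := gi_norm H
  compat := gi_compat H
  hpd := H.hpd
  eval := heval
  rsurj := gi_rsurj H

section ModL

set_option synthInstance.maxHeartbeats 400000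

variable (A₀ : ValuationSubring (AlgebraicClosure ℚ)) (N₀ : ℕ) [NeZero N₀]

/-- the inputs in the setting of the frozen S18: `π` the residue map of `A₀`, `r` the chosen place
reduction; only the two place-theoretic facts about `F` remain as hypotheses. -/
theorem gi_Inputs_modL (h : ReductionInputsModL A₀ N₀)
    (hpd : ∀ x : gi_F (AlgebraicClosure ℚ) N₀, x ≠ 0 →
      ∃ D : Divisor (AlgebraicClosure ℚ) (gi_F (AlgebraicClosure ℚ) N₀), ∀ P, D P = P.ord x)
    (hconst : ∀ x : gi_F (AlgebraicClosure ℚ) N₀, x ≠ 0 →
      (∀ P : Place (AlgebraicClosure ℚ) (gi_F (AlgebraicClosure ℚ) N₀), P.ord x = 0) →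
      ∃ c : AlgebraicClosure ℚ, x = algebraMap (AlgebraicClosure ℚ) (gi_F (AlgebraicClosure ℚ) N₀) c) :
    gi_Inputs (N := N₀) (IsLocalRing.residue A₀) (placeReductionModL h) where
  hr := isPlaceReductionModL_placeReductionModL h
  hgen := h.choose_spec.2
  hpd := hpd
  hconst := hconst
  hπu := fun a ha => by
    by_contra hnu
    exact ha ((IsLocalRing.residue_eq_zero_iff a).mpr ((IsLocalRing.mem_maximalIdeal a).mpr hnu))
  hπs := IsLocalRing.residue_surjective

end ModL

end

end Fermat.Agent.S18x
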