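/-
S18x/RmnCoord (helper95, RT block): the linear bound `rmn_Bound` from ONE coordinate.
`x ∈ F` transcendental over `K`, `F` finite over `K(x)` of degree `n`, pole divisor `B = (x)_∞`
with `deg B ≤ n` (the pole-side fundamental (in)equality, supplied by the PL block):
`dim L(l B + C) ≥ (l+1) n` for a suitable `C ≥ 0`, hence `δ(l B) ≤ deg C + 1 - n` for all `l`
(Stichtenoth 1.4.14-1.4.17).  Pure linear algebra on top of `RmnBasic/RmnRiemann`.
-/
import Fermat.Agent.S18x.RmnRiemann

set_option autoImplicit false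

namespace Fermat.Agent.S18x

open AlgebraicCurve WithZero IntermediateField Polynomial

variable {K F : Type*} [Field K] [Field F] [Algebra K F]

/-! ## linear independence of `x ^ i * u j` -/

theorem rmn_li_pow {x : F} (hx : Transcendental K x) :
    LinearIndependent K (fun i : ℕ => x ^ i) := by
  have h := (Polynomial.basisMonomials K).linearIndependent
  have h2 := h.map' (aeval x).toLinearMap (by
    rw [LinearMap.ker_eq_bot]
    exact transcendental_iff_injective.mp hx)
  have e : (fun i : ℕ => x ^ i) = (aeval x).toLinearMap ∘ (basisMonomials K) := by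
    funext i
    simp [Polynomial.coe_basisMonomials]
  rw [e]
  exact h2

theorem rmn_li_pow_gen {x : F} (hx : Transcendental K x) :
    LinearIndependent K (fun i : ℕ => (AdjoinSimple.gen K x) ^ i) := by
  apply rmn_li_pow
  intro h
  apply hx
  have := h.algebraMap (A := F)
  simpa using this

/-- a `K(x)`-linearly independent family `u` and a transcendental `x` give the `K`-linearly
independent family `x ^ i * u j` -/
theorem rmn_li_pow_mul {x : F} (hx : Transcendental K x) {ι : Type*} {u : ι → F}
    (hu : LinearIndependent K⟮x⟯ u) :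
    LinearIndependent K (fun p : ℕ × ι => x ^ p.1 * u p.2) := by
  have h := linearIndependent_smul (R := K) (rmn_li_pow_gen hx) hu
  have e : (fun p : ℕ × ι => x ^ p.1 * u p.2) =
      fun p : ℕ × ι => (AdjoinSimple.gen K x) ^ p.1 • u p.2 := by
    funext p
    rw [IntermediateField.smul_def]
    simp
  rw [e]
  exact h

/-! ## the pole divisor and the bound -/

theorem rmn_ord_pow (P : Place K F) (x : F) (i : ℕ) : P.ord (x ^ i) = i * P.ord x := by
  have := P.ord_zpow x (i : ℤ)
  simpa using this

/-- membership of `x ^ i * u` in `L(l • (x)_∞ + C)` -/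
theorem rmn_pow_mul_mem {x : F} (hx0 : x ≠ 0) {Dx : Divisor K F} (hDx : ∀ P, Dx P = P.ord x)
    {u : F} (hu0 : u ≠ 0) {C : Divisor K F} (hC : ∀ P, -C P ≤ P.ord u) {i l : ℕ} (hil : i ≤ l) :
    x ^ i * u ∈ riemannRochSpace (l • rmn_pos (-Dx) + C) := by
  rw [mem_riemannRochSpace_iff]
  intro P
  right
  rw [P.ord_mul (pow_ne_zero _ hx0) hu0, rmn_ord_pow]
  have e : (l • rmn_pos (-Dx) + C) P = l * max (-P.ord x) 0 + C P := by
    rw [Finsupp.add_apply, Finsupp.smul_apply, rmn_pos_apply, nsmul_eq_mul, Finsupp.neg_apply,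
      hDx]
  rw [e]
  have hC' := hC P
  have h1 : (i : ℤ) * max (-P.ord x) 0 ≤ l * max (-P.ord x) 0 :=
    mul_le_mul_of_nonneg_right (by exact_mod_cast hil) (le_max_right _ _)
  have h2 : -((i : ℤ) * max (-P.ord x) 0) ≤ i * P.ord x := by
    have : -P.ord x ≤ max (-P.ord x) 0 := le_max_left _ _
    have h3 : (i : ℤ) * (-P.ord x) ≤ i * max (-P.ord x) 0 :=
      mul_le_mul_of_nonneg_left this (by positivity)
    linarith
  linarith

/-- **the linear bound from an independent family** `x ^ i * u j` (`j < n`), when the pole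
divisor of `x` has degree `≤ n`. -/
theorem rmn_bound_of_indep (H : rmn_Hyp K F) {x : F} (hx0 : x ≠ 0) {Dx : Divisor K F}
    (hDx : ∀ P, Dx P = P.ord x) {n : ℕ} (u : Fin n → F)
    (hu : LinearIndependent K (fun p : ℕ × Fin n => x ^ p.1 * u p.2))
    (hdeg : Divisor.degree (rmn_pos (-Dx)) ≤ n)
    (hpos : 0 < Divisor.degree (rmn_pos (-Dx))) :
    rmn_Bound K F := by
  classical
  have hu0 : ∀ j, u j ≠ 0 := by
    intro j
    have := hu.ne_zero (0, j)
    simpa using this
  choose Du hDu using fun j => H.hpd (u j) (hu0 j)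
  set B : Divisor K F := rmn_pos (-Dx) with hB
  set C : Divisor K F := ∑ j, rmn_pos (-Du j) with hCdef
  have hCnonneg : ∀ P, 0 ≤ C P := by
    intro P
    rw [hCdef, Finsupp.finsetSum_apply]
    exact Finset.sum_nonneg fun j _ => rmn_pos_nonneg _ P
  have hCu : ∀ j P, -C P ≤ P.ord (u j) := by
    intro j P
    have h1 : rmn_pos (-Du j) P ≤ C P := by
      rw [hCdef, Finsupp.finsetSum_apply]
      exact Finset.single_le_sum (f := fun j => rmn_pos (-Du j) P)
        (fun j _ => rmn_pos_nonneg _ P) (Finset.mem_univ j)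
    rw [rmn_pos_apply] at h1
    have h2 : -Du j P ≤ max ((-Du j) P) 0 := le_max_left _ _
    have h3 := hDu j P
    simp only [Finsupp.coe_neg, Pi.neg_apply] at h1 h2
    omega
  refine ⟨B, Divisor.degree C + 1 - n, hpos, fun P => rmn_pos_nonneg _ P, fun l => ?_⟩
  -- the family in `L(l B + C)`
  have : Module.Finite K (riemannRochSpace (l • B + C)) := rmn_finite H _
  let w : Fin (l + 1) × Fin n → riemannRochSpace (l • B + C) := fun p =>
    ⟨x ^ (p.1 : ℕ) * u p.2,
      rmn_pow_mul_mem hx0 hDx (hu0 p.2) (hCu p.2) (Nat.lt_succ_iff.mp p.1.2)⟩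
  have hw : LinearIndependent K w := by
    apply LinearIndependent.of_comp (riemannRochSpace (l • B + C)).subtype
    have hinj : Function.Injective (fun p : Fin (l + 1) × Fin n => (((p.1 : ℕ), p.2) : ℕ × Fin n)) := by
      intro p q hpq
      simp only [Prod.mk.injEq] at hpq
      exact Prod.ext (Fin.ext hpq.1) hpq.2
    exact hu.comp _ hinj
  have hcard := hw.fintype_card_le_finrank
  rw [Fintype.card_prod, Fintype.card_fin, Fintype.card_fin] at hcard
  have hcard' : ((l : ℤ) + 1) * n ≤ Module.finrank K (riemannRochSpace (l • B + C)) := by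
    exact_mod_cast hcard
  have hmono := rmn_delta_le_add H (l • B) C hCnonneg
  have hdegl : Divisor.degree (l • B + C) = l * Divisor.degree B + Divisor.degree C := by
    rw [map_add, map_nsmul, nsmul_eq_mul]
  have hl : (l : ℤ) * Divisor.degree B ≤ l * n :=
    mul_le_mul_of_nonneg_left hdeg (by positivity)
  calc rmn_delta (l • B) ≤ rmn_delta (l • B + C) := hmono
    _ = l * Divisor.degree B + Divisor.degree C + 1 -
          Module.finrank K (riemannRochSpace (l • B + C)) := by rw [rmn_delta, hdegl]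
    _ ≤ Divisor.degree C + 1 - n := by nlinarith

/-- **the linear bound from a coordinate**: `x` transcendental, `F` finite over `K(x)`, and the
pole divisor of `x` has positive degree `≤ [F : K(x)]`. -/
theorem rmn_bound_of_coordinate (H : rmn_Hyp K F) {x : F} (hx : Transcendental K x)
    [FiniteDimensional K⟮x⟯ F] {Dx : Divisor K F} (hDx : ∀ P, Dx P = P.ord x)
    (hdeg : Divisor.degree (rmn_pos (-Dx)) ≤ Module.finrank K⟮x⟯ F)
    (hpos : 0 < Divisor.degree (rmn_pos (-Dx))) :
    rmn_Bound K F := by
  have hx0 : x ≠ 0 := by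
    rintro rfl
    exact hx (isAlgebraic_zero)
  let b := Module.finBasis K⟮x⟯ F
  exact rmn_bound_of_indep H hx0 hDx (fun j => b j) (rmn_li_pow_mul hx b.linearIndependent)
    hdeg hpos

/-- an effective divisor of degree `≤ 0` is zero -/
theorem rmn_eq_zero_of_degree_le_zero (H : rmn_Hyp K F) {D : Divisor K F} (hD : ∀ P, 0 ≤ D P)
    (hdeg : Divisor.degree D ≤ 0) : D = 0 := by
  ext P
  by_contra hP
  have hPpos : 0 < D P := lt_of_le_of_ne (hD P) (Ne.symm hP)
  have hmem : P ∈ D.support := Finsupp.mem_support_iff.mpr hP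
  rw [rmn_degree_eq_sum H, Finsupp.sum] at hdeg
  have := Finset.single_le_sum (f := fun Q => D Q) (fun Q _ => hD Q) hmem
  omega

/-- a transcendental element has a pole: its pole divisor has positive degree -/
theorem rmn_pole_degree_pos (H : rmn_Hyp K F) {x : F} (hx : Transcendental K x)
    {Dx : Divisor K F} (hDx : ∀ P, Dx P = P.ord x) :
    0 < Divisor.degree (rmn_pos (-Dx)) := by
  by_contra hle
  rw [not_lt] at hle
  have h0 := rmn_eq_zero_of_degree_le_zero H (fun P => rmn_pos_nonneg (-Dx) P) hle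
  have hx0 : x ≠ 0 := by
    rintro rfl
    exact hx (isAlgebraic_zero)
  have hord : ∀ P : Place K F, 0 ≤ P.ord x := by
    intro P
    have h1 := DFunLike.congr_fun h0 P
    rw [rmn_pos_apply, Finsupp.neg_apply, hDx, Finsupp.zero_apply] at h1
    have : -P.ord x ≤ max (-P.ord x) 0 := le_max_left _ _
    omega
  obtain ⟨a, ha⟩ := H.hconst x hx0 hord
  exact hx (ha ▸ isAlgebraic_algebraMap a)

/-- **the linear bound from a coordinate**, final form: `x` transcendental, `F` finite over
`K(x)`, and `deg (x)_∞ ≤ [F : K(x)]`. -/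
theorem rmn_bound_of_coordinate' (H : rmn_Hyp K F) {x : F} (hx : Transcendental K x)
    [FiniteDimensional K⟮x⟯ F] {Dx : Divisor K F} (hDx : ∀ P, Dx P = P.ord x)
    (hdeg : Divisor.degree (rmn_pos (-Dx)) ≤ Module.finrank K⟮x⟯ F) :
    rmn_Bound K F :=
  rmn_bound_of_coordinate H hx hDx hdeg (rmn_pole_degree_pos H hx hDx)

end Fermat.Agent.S18x
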