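/-
S18x/UnrFinite (helper95): the `hunr` input of `s18a_abstract` in GENERIC form.
`K` algebraically closed (any characteristic), `t` a separating coordinate of the function field
`F/K`: outside a finite set of places `Q`, `t` is regular at `Q` and `t - t(Q)` is a uniformizer:
`∃ Sbad, ∀ Q ∉ Sbad, 0 ≤ Q.ord t ∧ ∃ c, Q.ord (t - c) = 1`.
Proof: places regular for `t` ↔ primes of the integral closure `S` of `K[t]` (S24x dictionary);
the different ideal of `S/K[t]` is nonzero (separability), has finitely many prime factors, and
a prime not dividing it is unramified (Mathlib `not_dvd_differentIdeal_iff`), so `e = 1`.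
-/
import Mathlib
import Fermat.Agent.S18x.PlsFund
import Fermat.Agent.S24x.PlaceCenter

set_option autoImplicit false

namespace Fermat.Agent.S18x

open AlgebraicCurve IsDedekindDomain WithZero Polynomial IntermediateField
open Fermat.Agent.S24x
open scoped IntermediateField.algebraAdjoinAdjoin

attribute [local instance] FractionRing.liftAlgebra FractionRing.isScalarTower_liftAlgebra

section Abstract

variable {K F : Type*} [Field K] [Field F] [Algebra K F]
variable {A S : Type*} [CommRing A] [CommRing S] [IsDedekindDomain A] [IsDedekindDomain S]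
  [Algebra A S] [Algebra A F] [Algebra S F] [IsScalarTower A S F] [IsFractionRing S F]
  [Module.Finite A S] [FaithfulSMul A S]
  [Algebra K A] [Algebra K S] [IsScalarTower K A S] [IsScalarTower K S F]

/-- at a prime of `S` not dividing the different, a generator of the prime below has order one -/
theorem unr_ord_eq_one_of_not_dvd [Module.IsTorsionFree A S]
    [Algebra.IsSeparable (FractionRing A) (FractionRing S)]
    (a : A) (ha0 : a ≠ 0) (w : HeightOneSpectrum S) [w.asIdeal.LiesOver (Ideal.span {a})]
    (hw : ¬ w.asIdeal ∣ differentIdeal A S) :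
    (Place.ofHeightOneSpectrum (K := K) w).ord (algebraMap A F a) = 1 := by
  haveI := w.isPrime
  haveI : Algebra.IsUnramifiedAt A w.asIdeal := not_dvd_differentIdeal_iff.mp hw
  rw [fid_ord_eq_ramificationIdx (K := K) (F := F) a ha0 w, Ideal.ramificationIdx_eq_one]
  rfl

end Abstract

section Concrete

variable {K F : Type*} [Field K] [Field F] [Algebra K F]

/-- elementwise form of "the residue field is `K`" at a regular element -/
theorem unr_exists_value (v : Place K F)
    (hres : Function.Surjective (algebraMap K v.ResidueField)) {u : F}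
    (hu : u ∈ v.toValuationSubring) :
    ∃ c : K, u = algebraMap K F c ∨ 0 < v.ord (u - algebraMap K F c) := by
  obtain ⟨c, hc⟩ := hres (IsLocalRing.residue v.toValuationSubring ⟨u, hu⟩)
  refine ⟨c, ?_⟩
  by_cases h : u = algebraMap K F c
  · exact Or.inl h
  · right
    have hsub : u - algebraMap K F c ≠ 0 := sub_ne_zero.mpr h
    have hmem : (⟨u, hu⟩ - algebraMap K v.toValuationSubring c : v.toValuationSubring) ∈
        IsLocalRing.maximalIdeal v.toValuationSubring := by
      rw [← IsLocalRing.residue_eq_zero_iff, map_sub, sub_eq_zero]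
      exact hc.symm
    rw [pb_pos_iff v hsub]
    intro hinv
    apply (IsLocalRing.mem_maximalIdeal _).mp hmem
    refine isUnit_iff_exists_inv.mpr ⟨⟨_, hinv⟩, ?_⟩
    ext
    simp [hsub]

/-- **generic unramifiedness outside a finite set** (`hunr` of `s18a_abstract`). -/
theorem unr_finite [IsAlgClosed K] {t : F} (ht : pls_IsSepCoordinate K F t) :
    ∃ Sbad : Finset (Place K F), ∀ Q : Place K F, Q ∉ Sbad →
      0 ≤ Q.ord t ∧ ∃ c : K, Q.ord (t - algebraMap K F c) = 1 := by
  classical
  have := ht.coord.finite
  have := ht.sep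
  have : IsPrincipalIdealRing (Algebra.adjoin K {t}) :=
    IsPrincipalIdealRing.of_surjective
      (Polynomial.algEquivOfTranscendental K t ht.coord.transcendental).toRingEquiv.toRingHom
      (Polynomial.algEquivOfTranscendental K t ht.coord.transcendental).surjective
  have : IsDedekindDomain (integralClosure (Algebra.adjoin K {t}) F) :=
    integralClosure.isDedekindDomain (Algebra.adjoin K {t}) K⟮t⟯ F
  have : IsFractionRing (integralClosure (Algebra.adjoin K {t}) F) F :=
    integralClosure.isFractionRing_of_finite_extension K⟮t⟯ F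
  have : Module.Finite (Algebra.adjoin K {t}) (integralClosure (Algebra.adjoin K {t}) F) :=
    IsIntegralClosure.finite (Algebra.adjoin K {t}) K⟮t⟯ F _
  have hsepFr : Algebra.IsSeparable (FractionRing (Algebra.adjoin K {t}))
      (FractionRing (integralClosure (Algebra.adjoin K {t}) F)) := by
    refine Algebra.IsSeparable.of_equiv_equiv
      (FractionRing.algEquiv (Algebra.adjoin K {t}) K⟮t⟯).symm.toRingEquiv
      (FractionRing.algEquiv (integralClosure (Algebra.adjoin K {t}) F) F).symm.toRingEquiv ?_
    ext _
    exact IsFractionRing.algEquiv_commutes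
      (FractionRing.algEquiv (Algebra.adjoin K {t}) K⟮t⟯).symm
      (FractionRing.algEquiv (integralClosure (Algebra.adjoin K {t}) F) F).symm _
  have hD : differentIdeal (Algebra.adjoin K {t}) (integralClosure (Algebra.adjoin K {t}) F) ≠ ⊥ :=
    differentIdeal_ne_bot
  have hfinD := Ideal.finite_factors hD
  obtain ⟨hpole, -⟩ := pls_sum_ord_polePlaces ht
  refine ⟨hfinD.toFinset.image (Place.ofHeightOneSpectrum (K := K) (F := F)) ∪ hpole.toFinset,
    fun Q hQ => ?_⟩
  rw [Finset.mem_union, not_or] at hQ
  obtain ⟨hQD, hQp⟩ := hQ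
  have hreg : 0 ≤ Q.ord t := by
    rw [Set.Finite.mem_toFinset, mem_polePlaces, not_lt] at hQp
    exact hQp
  refine ⟨hreg, ?_⟩
  have htQ : t ∈ Q.toValuationSubring := fid_mem_of_ord_nonneg Q hreg
  have hA : ∀ x ∈ Algebra.adjoin K {t}, x ∈ Q.toValuationSubring := fid_adjoin_le Q htQ
  obtain ⟨w, hw⟩ := fid_exists_heightOneSpectrum (K := K) (F := F)
    (S := integralClosure (Algebra.adjoin K {t}) F) Q
    (fun s => fid_icl_le (Algebra.adjoin K {t}) Q hA s)
  have hwD : ¬ w.asIdeal ∣
      differentIdeal (Algebra.adjoin K {t}) (integralClosure (Algebra.adjoin K {t}) F) := by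
    intro hdvd
    apply hQD
    rw [Finset.mem_image]
    exact ⟨w, by rw [Set.Finite.mem_toFinset]; exact hdvd, hw⟩
  -- the value of `t` at `Q`
  obtain ⟨c, hc | hc⟩ := unr_exists_value Q (pc_place_residue_surjective ht.coord Q) htQ
  · exfalso
    apply ht.coord.transcendental
    rw [hc]
    exact isAlgebraic_algebraMap c
  refine ⟨c, ?_⟩
  obtain ⟨ha0, hmax, -⟩ := fid_coord_maximal ht.coord.transcendental c
  set a : Algebra.adjoin K {t} :=
    ⟨t, Algebra.self_mem_adjoin_singleton K t⟩ - algebraMap K _ c with ha
  have haF : algebraMap (Algebra.adjoin K {t}) F a = t - algebraMap K F c := rfl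
  have ha'0 : algebraMap (Algebra.adjoin K {t}) (integralClosure (Algebra.adjoin K {t}) F) a ≠ 0 := by
    rw [Ne, map_eq_zero_iff _ (FaithfulSMul.algebraMap_injective _ _)]
    exact ha0
  have haw : algebraMap (Algebra.adjoin K {t}) (integralClosure (Algebra.adjoin K {t}) F) a ∈
      w.asIdeal := by
    rw [fid_mem_asIdeal_iff (K := K) (F := F) w ha'0, hw,
      ← IsScalarTower.algebraMap_apply (Algebra.adjoin K {t}) _ F, haF]
    exact hc
  have hle : Ideal.span {a} ≤ w.asIdeal.under (Algebra.adjoin K {t}) := by
    rw [Ideal.span_le, Set.singleton_subset_iff]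
    exact haw
  have hne : w.asIdeal.under (Algebra.adjoin K {t}) ≠ ⊤ := by
    haveI := w.isPrime
    exact (Ideal.comap_isPrime _ _).ne_top
  haveI hlo : w.asIdeal.LiesOver (Ideal.span {a}) := ⟨(hmax.eq_of_le hne hle)⟩
  have h1 := unr_ord_eq_one_of_not_dvd (K := K) (F := F) a ha0 w hwD
  rw [hw, haF] at h1
  exact h1

end Concrete

end Fermat.Agent.S18x
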