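/-
S18x/RmnFbar (helper95): the reduced modular function field `F̄_N = modularFunctionFieldFullC k N`
over an algebraically closed field `k` of ANY characteristic satisfies the hypotheses of the
Riemann-theorem package (`rmn_Hyp`, `rmn_Bound`): all `L(D)` are finite-dimensional (`hD₀fin` of
the Assembly for every `D₀`), Riemann's theorem holds on `F̄_N`; and the CONCRETE `hunr`/`hJnc`
inputs of `s18a_abstract` for the coordinate `j̄` (`unr_fb`, `unr_fb_nonconst`).
-/
import Fermat.Agent.S18x.PlsFbarFinal
import Fermat.Agent.S18x.PlsTsFields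
import Fermat.Agent.S18x.RmnCoord
import Fermat.Agent.S18x.UnrFinite

set_option autoImplicit false
set_option synthInstance.maxHeartbeats 400000

namespace Fermat.Agent.S18x

open ModularCurve IntermediateField
open Fermat.Agent.S24x AlgebraicCurve

variable (k : Type*) [Field k] [IsAlgClosed k] (N : ℕ) [NeZero N]

/-- degree as the sum of the coefficients, when all places have degree one -/
theorem rmn_degree_eq_sum_of_deg {K F : Type*} [Field K] [Field F] [Algebra K F]
    (hdeg : ∀ P : Place K F, P.deg = 1) (D : Divisor K F) :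
    Divisor.degree D = D.sum fun _ n => n := by
  induction D using Finsupp.induction with
  | zero => simp
  | single_add P n D hP hn ih =>
    rw [map_add, ih, Divisor.degree_single, hdeg P,
      Finsupp.sum_add_index' (by simp) (by simp), Finsupp.sum_single_index (by simp)]
    simp

/-- an effective divisor of degree zero vanishes, when all places have degree one -/
theorem rmn_eq_zero_of_degree_eq_zero_of_deg {K F : Type*} [Field K] [Field F] [Algebra K F]
    (hdeg : ∀ P : Place K F, P.deg = 1) {D : Divisor K F} (hD : ∀ P, 0 ≤ D P)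
    (h0 : Divisor.degree D = 0) : D = 0 := by
  ext P
  by_contra hP
  have hpos : 0 < D P := lt_of_le_of_ne (hD P) (Ne.symm hP)
  have hmem : P ∈ D.support := Finsupp.mem_support_iff.mpr hP
  rw [rmn_degree_eq_sum_of_deg hdeg, Finsupp.sum] at h0
  have := Finset.single_le_sum (f := fun Q => D Q) (fun Q _ => hD Q) hmem
  omega

/-- the hypothesis bundle of the Riemann-theorem package on `F̄_N` -/
theorem rmn_hyp_fb : rmn_Hyp k (pls_Fb k N) where
  eval := pls_fb_eval k N
  hdeg := pls_fb_deg_eq_one k N
  hpd := pls_fb_hpd k N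
  hprin0 x Dx hx hDx := pls_fb_hprin0 k N x Dx hx hDx
  hconst y hy0 hy := by
    obtain ⟨D, hD⟩ := pls_fb_hpd k N y hy0
    have hdeg := pls_fb_hprin0 k N y D hy0 hD
    have hD0 : D = 0 := rmn_eq_zero_of_degree_eq_zero_of_deg (pls_fb_deg_eq_one k N)
      (fun P => by rw [hD P]; exact hy P) hdeg
    refine pls_fb_hconst k N y hy0 fun Q => ?_
    rw [← hD Q, hD0, Finsupp.zero_apply]

/-- Riemann's linear bound on `F̄_N` (from the coordinate `j̄`) -/
theorem rmn_bound_fb : rmn_Bound k (pls_Fb k N) := by
  have hc := pls_isCoordinate_jb k N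
  have := hc.finite
  obtain ⟨Dx, hDx⟩ := pls_fb_hpd k N (pls_jb k N)
    (fun h0 => (pls_transcendental_jb k N) (h0 ▸ isAlgebraic_zero))
  refine rmn_bound_of_coordinate' (rmn_hyp_fb k N) hc.transcendental hDx ?_
  obtain ⟨hfin, hsum⟩ := pls_fb_sum_ord_polePlaces k N
  have hH := rmn_hyp_fb k N
  rw [rmn_degree_eq_sum hH, Finsupp.sum]
  have hsupp : (rmn_pos (-Dx)).support = hfin.toFinset := by
    ext v
    rw [Finsupp.mem_support_iff, rmn_pos_apply, Finsupp.neg_apply, hDx, Set.Finite.mem_toFinset,
      mem_polePlaces]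
    constructor
    · intro h
      by_contra hcon
      exact h (max_eq_right (by omega))
    · intro h
      rw [max_eq_left (by omega)]
      omega
  rw [hsupp]
  have hle : ∑ v ∈ hfin.toFinset, rmn_pos (-Dx) v = ∑ v ∈ hfin.toFinset, -v.ord (pls_jb k N) := by
    refine Finset.sum_congr rfl fun v hv => ?_
    rw [Set.Finite.mem_toFinset, mem_polePlaces] at hv
    rw [rmn_pos_apply, Finsupp.neg_apply, hDx, max_eq_left (by omega)]
  rw [hle, hsum]
  rfl

/-- every Riemann–Roch space of `F̄_N` is finitely generated (`hD₀fin` of the Assembly) -/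
theorem rmn_fg_fb (D : Divisor k (modularFunctionFieldFullC k N)) :
    (riemannRochSpace D).FG := by
  have := rmn_finite (rmn_hyp_fb k N) D
  exact Module.Finite.iff_fg.mp this

/-- **`hunr` for `j̄`**: outside a finite set of places of `F̄_N`, `j̄` is regular and `j̄ - j̄(Q)` is
a uniformizer. -/
theorem unr_fb : ∃ Sbad : Finset (Place k (modularFunctionFieldFullC k N)),
    ∀ Q : Place k (modularFunctionFieldFullC k N), Q ∉ Sbad →
      0 ≤ Q.ord (pls_jb k N) ∧ ∃ cb : k,
        Q.ord (pls_jb k N - algebraMap k (modularFunctionFieldFullC k N) cb) = 1 :=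
  unr_finite (pls_isSepCoordinate_jb_perfect k N)

/-- **`hJnc` for `j̄`**: `j̄` is not a constant. -/
theorem unr_fb_nonconst (a : k) :
    pls_jb k N ≠ algebraMap k (modularFunctionFieldFullC k N) a := by
  intro h
  apply pls_transcendental_jb k N
  rw [h]
  exact isAlgebraic_algebraMap a

end Fermat.Agent.S18x
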