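/-
S18x/RiemannBase (helper24): Riemann–Roch spaces in the Prelude `Place`/`Divisor` API, any
characteristic, algebraically closed constants.  Basic layer: divisors of functions, `L(D) = 0`
for `deg D < 0`, the one–place step `l(D + P) ≤ l(D) + 1`, finiteness of `l(D)`, invariance
under linear equivalence.  No differentials.
-/
import Mathlib
import Fermat.Prelude.Def_AlgebraicCurve_Repartitions
import Fermat.Agent.S24x.PlaceBasic

set_option autoImplicit false

namespace Fermat.Agent.S18x

open AlgebraicCurve Fermat.Agent.S24x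

variable (K F : Type*) [Field K] [Field F] [Algebra K F]

/-- Hypotheses under which the elementary theory of Riemann–Roch spaces works: principal
divisors have finite support and degree zero (S24x shape `principal_degree_zero`), residue
fields are `K` (S24x shape `place_residue_surjective`), and there is at least one place. -/
structure RmtBase : Prop where
  principal : ∀ g : F, g ≠ 0 →
    ∃ hfin : {v : Place K F | v.ord g ≠ 0}.Finite, ∑ v ∈ hfin.toFinset, v.ord g = 0
  residue : ∀ v : Place K F, Function.Surjective (algebraMap K v.ResidueField)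
  nonempty : Nonempty (Place K F)

variable {K F}

/-- `L(D)`. -/
abbrev rmtL (D : Divisor K F) : Submodule K F := riemannRochSpace D

/-- `l(D)`. -/
noncomputable def rmtl (D : Divisor K F) : ℕ := Module.finrank K (rmtL D)

theorem rmt_mem_iff {D : Divisor K F} {f : F} :
    f ∈ rmtL D ↔ ∀ v : Place K F, f = 0 ∨ -D v ≤ v.ord f :=
  mem_riemannRochSpace_iff

theorem rmt_mem_iff' {D : Divisor K F} {f : F} (hf : f ≠ 0) :
    f ∈ rmtL D ↔ ∀ v : Place K F, -D v ≤ v.ord f := by
  rw [rmt_mem_iff]
  exact forall_congr' fun v => or_iff_right hf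

theorem rmtL_mono {D D' : Divisor K F} (h : D ≤ D') : rmtL D ≤ rmtL D' := by
  intro f hf
  rw [rmt_mem_iff] at hf ⊢
  intro v
  rcases hf v with h0 | h1
  · exact Or.inl h0
  · exact Or.inr (le_trans (neg_le_neg (Finsupp.le_def.mp h v)) h1)

theorem rmt_ord_algebraMap' (v : Place K F) (a : K) : v.ord (algebraMap K F a) = 0 :=
  pb_ord_algebraMap v a

/-! ### degree -/

theorem rmt_deg_one (hb : RmtBase K F) (v : Place K F) : v.deg = 1 := by
  have hsurj := hb.residue v
  have hinj : Function.Injective (algebraMap K v.ResidueField) := (algebraMap K _).injective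
  show Module.finrank K v.ResidueField = 1
  rw [← Module.finrank_self K]
  exact ((AlgEquiv.ofBijective (Algebra.ofId K v.ResidueField) ⟨hinj, hsurj⟩).toLinearEquiv.finrank_eq).symm

theorem rmt_degree_eq_sum (hb : RmtBase K F) (D : Divisor K F) :
    Divisor.degree D = D.sum fun _ n => n := by
  induction D using Finsupp.induction with
  | zero => simp
  | single_add P n D hP hn ih =>
    rw [map_add, ih, Divisor.degree_single, rmt_deg_one hb, Nat.cast_one, mul_one,
      Finsupp.sum_add_index' (fun _ => rfl) (fun _ _ _ => rfl), Finsupp.sum_single_index rfl]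

theorem rmt_degree_nonneg (hb : RmtBase K F) {D : Divisor K F} (hD : 0 ≤ D) :
    0 ≤ Divisor.degree D := by
  rw [rmt_degree_eq_sum hb, Finsupp.sum]
  exact Finset.sum_nonneg fun v _ => by simpa using Finsupp.le_def.mp hD v

theorem rmt_degree_mono (hb : RmtBase K F) {D D' : Divisor K F} (h : D ≤ D') :
    Divisor.degree D ≤ Divisor.degree D' := by
  have := rmt_degree_nonneg hb (sub_nonneg.mpr h)
  rw [map_sub] at this
  linarith

/-- an effective divisor with a positive coefficient has positive degree -/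
theorem rmt_degree_pos (hb : RmtBase K F) {D : Divisor K F} (hD : 0 ≤ D) {v : Place K F}
    (hv : 0 < D v) : 0 < Divisor.degree D := by
  classical
  have h1 : Finsupp.single v 1 ≤ D := by
    rw [Finsupp.le_def]
    intro w
    by_cases hw : w = v
    · subst hw; simp; omega
    · rw [Finsupp.single_apply, if_neg (Ne.symm hw)]
      simpa using Finsupp.le_def.mp hD w
  have := rmt_degree_mono hb h1
  rw [Divisor.degree_single, rmt_deg_one hb] at this
  have h2 : (1 : ℤ) ≤ Divisor.degree D := by simpa using this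
  omega

/-! ### divisor of a function -/

open Classical in
/-- the divisor of `f` (zero divisor for `f = 0`) -/
noncomputable def rmtDiv (hb : RmtBase K F) (f : F) : Divisor K F :=
  if hf : f = 0 then 0 else
    Finsupp.ofSupportFinite (fun v => v.ord f) (by
      have := (hb.principal f hf).choose
      exact this.subset fun v hv => by simpa [Function.mem_support] using hv)

theorem rmtDiv_apply (hb : RmtBase K F) (f : F) (v : Place K F) : rmtDiv hb f v = v.ord f := by
  unfold rmtDiv
  split_ifs with hf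
  · simp [hf]
  · rfl

theorem rmtDiv_degree (hb : RmtBase K F) (f : F) : Divisor.degree (rmtDiv hb f) = 0 := by
  classical
  rcases eq_or_ne f 0 with rfl | hf
  · have : rmtDiv hb (0 : F) = 0 := by ext v; simp [rmtDiv_apply]
    rw [this, map_zero]
  · obtain ⟨hfin, hsum⟩ := hb.principal f hf
    rw [rmt_degree_eq_sum hb, Finsupp.sum]
    rw [← hsum]
    refine Finset.sum_congr ?_ fun v _ => rmtDiv_apply hb f v
    ext v
    simp [Finsupp.mem_support_iff, rmtDiv_apply]

theorem rmtDiv_mul (hb : RmtBase K F) {f g : F} (hf : f ≠ 0) (hg : g ≠ 0) :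
    rmtDiv hb (f * g) = rmtDiv hb f + rmtDiv hb g := by
  ext v
  simp [rmtDiv_apply, Place.ord_mul v hf hg]

theorem rmtDiv_inv (hb : RmtBase K F) (f : F) : rmtDiv hb f⁻¹ = - rmtDiv hb f := by
  ext v
  simp [rmtDiv_apply, Place.ord_inv]

theorem rmt_mem_iff_div (hb : RmtBase K F) {D : Divisor K F} {f : F} (hf : f ≠ 0) :
    f ∈ rmtL D ↔ 0 ≤ rmtDiv hb f + D := by
  rw [rmt_mem_iff' hf, Finsupp.le_def]
  refine forall_congr' fun v => ?_
  simp only [Finsupp.coe_zero, Pi.zero_apply, Finsupp.coe_add, Pi.add_apply, rmtDiv_apply]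
  omega

/-- `L(D) = 0` for `deg D < 0`. -/
theorem rmtL_eq_bot_of_degree_neg (hb : RmtBase K F) {D : Divisor K F}
    (hD : Divisor.degree D < 0) : rmtL D = ⊥ := by
  rw [eq_bot_iff]
  intro f hf
  by_contra hf0
  have hf0' : f ≠ 0 := fun h => hf0 (by simp [h])
  have h1 := rmt_degree_nonneg hb ((rmt_mem_iff_div hb hf0').mp hf)
  rw [map_add, rmtDiv_degree] at h1
  omega

/-! ### residues -/

/-- elementwise form of "the residue field is `K`". -/
theorem rmt_exists_residue (hb : RmtBase K F) (v : Place K F) {u : F}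
    (hu : u ∈ v.toValuationSubring) :
    ∃ c : K, u = algebraMap K F c ∨ 0 < v.ord (u - algebraMap K F c) := by
  obtain ⟨c, hc⟩ := hb.residue v (IsLocalRing.residue v.toValuationSubring ⟨u, hu⟩)
  refine ⟨c, ?_⟩
  by_cases h : u = algebraMap K F c
  · exact Or.inl h
  · right
    have hsub : u - algebraMap K F c ≠ 0 := sub_ne_zero.mpr h
    have hmem : (⟨u, hu⟩ - algebraMap K v.toValuationSubring c : v.toValuationSubring) ∈
        IsLocalRing.maximalIdeal v.toValuationSubring := by
      rw [← IsLocalRing.residue_eq_zero_iff, map_sub, sub_eq_zero]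
      exact hc.symm
    -- not a unit, so its inverse is not in the valuation ring
    rw [pb_pos_iff v hsub]
    intro hinv
    apply (IsLocalRing.mem_maximalIdeal _).mp hmem
    refine isUnit_iff_exists_inv.mpr ⟨⟨_, hinv⟩, ?_⟩
    ext
    simp [hsub]

/-! ### the one-place step -/

/-- `D + P`. -/
noncomputable abbrev rmtAddPlace (D : Divisor K F) (P : Place K F) : Divisor K F :=
  D + Finsupp.single P 1

theorem rmtAddPlace_apply_self (D : Divisor K F) (P : Place K F) :
    rmtAddPlace D P P = D P + 1 := by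
  simp [rmtAddPlace]

theorem rmtAddPlace_apply_ne (D : Divisor K F) {P v : Place K F} (h : v ≠ P) :
    rmtAddPlace D P v = D v := by
  classical
  simp [rmtAddPlace, Ne.symm h]

theorem rmt_le_addPlace (D : Divisor K F) (P : Place K F) : D ≤ rmtAddPlace D P := by
  classical
  rw [Finsupp.le_def]
  intro v
  by_cases h : v = P
  · subst h; rw [rmtAddPlace_apply_self]; omega
  · rw [rmtAddPlace_apply_ne D h]

theorem rmt_degree_addPlace (hb : RmtBase K F) (D : Divisor K F) (P : Place K F) :
    Divisor.degree (rmtAddPlace D P) = Divisor.degree D + 1 := by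
  rw [rmtAddPlace, map_add, Divisor.degree_single, rmt_deg_one hb]
  simp

/-- an element of `L(D+P)` not in `L(D)` has exact order `-(D P) - 1` at `P`. -/
theorem rmt_ord_of_not_mem {D : Divisor K F} {P : Place K F} {g : F}
    (hg : g ∈ rmtL (rmtAddPlace D P)) (hg' : g ∉ rmtL D) :
    g ≠ 0 ∧ P.ord g = -(D P) - 1 := by
  have hg0 : g ≠ 0 := fun h => hg' (by rw [h]; exact Submodule.zero_mem _)
  refine ⟨hg0, ?_⟩
  rw [rmt_mem_iff' hg0] at hg hg'
  push Not at hg'
  obtain ⟨v, hv⟩ := hg'
  have hvP : v = P := by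
    by_contra hne
    have := hg v
    rw [rmtAddPlace_apply_ne D hne] at this
    omega
  subst hvP
  have := hg v
  rw [rmtAddPlace_apply_self] at this
  omega

/-- **one-place step**: modulo `L(D)`, the space `L(D+P)` is spanned by any one element outside
`L(D)`. -/
theorem rmt_step (hb : RmtBase K F) {D : Divisor K F} {P : Place K F} {f g : F}
    (hf : f ∈ rmtL (rmtAddPlace D P)) (hg : g ∈ rmtL (rmtAddPlace D P)) (hg' : g ∉ rmtL D) :
    ∃ c : K, f - c • g ∈ rmtL D := by
  obtain ⟨hg0, hgP⟩ := rmt_ord_of_not_mem hg hg'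
  rcases eq_or_ne f 0 with rfl | hf0
  · exact ⟨0, by simp⟩
  have hfP : P.ord g ≤ P.ord f := by
    have := (rmt_mem_iff' hf0).mp hf P
    rw [rmtAddPlace_apply_self] at this
    omega
  have hu0 : f / g ≠ 0 := div_ne_zero hf0 hg0
  have hu : f / g ∈ P.toValuationSubring := by
    rw [pb_mem_iff P hu0, div_eq_mul_inv, Place.ord_mul P hf0 (inv_ne_zero hg0), Place.ord_inv]
    omega
  obtain ⟨c, hc⟩ := rmt_exists_residue hb P hu
  refine ⟨c, ?_⟩
  have hkey : f - c • g = g * (f / g - algebraMap K F c) := by
    rw [Algebra.smul_def]; field_simp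
  rcases hc with hc | hc
  · rw [hkey, hc, sub_self, mul_zero]; exact Submodule.zero_mem _
  · have hne : f / g - algebraMap K F c ≠ 0 := by
      intro h; rw [h] at hc; simp at hc
    have hne' : f - c • g ≠ 0 := by rw [hkey]; exact mul_ne_zero hg0 hne
    rw [rmt_mem_iff' hne']
    intro v
    by_cases hv : v = P
    · subst hv
      rw [hkey, Place.ord_mul v hg0 hne, hgP]
      omega
    · have h1 : f - c • g ∈ rmtL (rmtAddPlace D P) :=
        Submodule.sub_mem _ hf (Submodule.smul_mem _ c hg)
      have := (rmt_mem_iff' hne').mp h1 v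
      rwa [rmtAddPlace_apply_ne D hv] at this

theorem rmtL_addPlace_le_sup (hb : RmtBase K F) {D : Divisor K F} {P : Place K F} {g : F}
    (hg : g ∈ rmtL (rmtAddPlace D P)) (hg' : g ∉ rmtL D) :
    rmtL (rmtAddPlace D P) ≤ rmtL D ⊔ Submodule.span K {g} := by
  intro f hf
  obtain ⟨c, hc⟩ := rmt_step hb hf hg hg'
  have : f = (f - c • g) + c • g := by ring
  rw [this]
  exact Submodule.add_mem_sup hc (Submodule.smul_mem _ c (Submodule.mem_span_singleton_self g))

/-- finiteness and the dimension bound pass from `D` to `D + P`. -/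
theorem rmt_finite_addPlace (hb : RmtBase K F) (D : Divisor K F) (P : Place K F)
    [hfin : Module.Finite K (rmtL D)] :
    Module.Finite K (rmtL (rmtAddPlace D P)) ∧ rmtl (rmtAddPlace D P) ≤ rmtl D + 1 := by
  by_cases h : ∃ g, g ∈ rmtL (rmtAddPlace D P) ∧ g ∉ rmtL D
  · obtain ⟨g, hg, hg'⟩ := h
    have hle := rmtL_addPlace_le_sup hb hg hg'
    have : Module.Finite K ↥(rmtL D ⊔ Submodule.span K {g}) := Submodule.finite_sup _ _
    have hfin2 : Module.Finite K (rmtL (rmtAddPlace D P)) :=
      Module.Finite.of_injective (Submodule.inclusion hle) (Submodule.inclusion_injective hle)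
    refine ⟨hfin2, ?_⟩
    calc rmtl (rmtAddPlace D P) ≤ Module.finrank K ↥(rmtL D ⊔ Submodule.span K {g}) :=
          Submodule.finrank_mono hle
      _ ≤ Module.finrank K (rmtL D) + Module.finrank K (Submodule.span K {g}) :=
          Submodule.finrank_add_le_finrank_add_finrank _ _
      _ ≤ rmtl D + 1 := by
          have hg0 : g ≠ 0 := fun h => hg' (by rw [h]; exact Submodule.zero_mem _)
          have := finrank_span_singleton (K := K) hg0
          unfold rmtl; omega
  · push Not at h
    have heq : rmtL (rmtAddPlace D P) = rmtL D :=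
      le_antisymm h (rmtL_mono (rmt_le_addPlace D P))
    unfold rmtl
    rw [heq]
    exact ⟨hfin, Nat.le_succ _⟩

/-! ### iterating the step -/

theorem rmt_eq_of_le_of_degree_eq (hb : RmtBase K F) {D D' : Divisor K F} (h : D ≤ D')
    (hdeg : Divisor.degree D' = Divisor.degree D) : D = D' := by
  by_contra hne
  have hsub : 0 ≤ D' - D := sub_nonneg.mpr h
  obtain ⟨v, hv⟩ : ∃ v, D v ≠ D' v := by
    by_contra hall
    push Not at hall
    exact hne (Finsupp.ext hall)
  have hv' : 0 < (D' - D) v := by
    have := Finsupp.le_def.mp h v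
    simp only [Finsupp.coe_sub, Pi.sub_apply]
    omega
  have := rmt_degree_pos hb hsub hv'
  rw [map_sub] at this
  omega

theorem rmt_finite_of_le_aux (hb : RmtBase K F) (n : ℕ) :
    ∀ D D' : Divisor K F, D ≤ D' → Divisor.degree D' - Divisor.degree D = n →
      Module.Finite K (rmtL D) → Module.Finite K (rmtL D') ∧ rmtl D' ≤ rmtl D + n := by
  induction n with
  | zero =>
    intro D D' h hdeg hfin
    have : D = D' := rmt_eq_of_le_of_degree_eq hb h (by simpa [sub_eq_zero] using hdeg)
    subst this
    exact ⟨hfin, le_rfl⟩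
  | succ n ih =>
    intro D D' h hdeg hfin
    obtain ⟨v, hv⟩ : ∃ v, D v < D' v := by
      by_contra hall
      push Not at hall
      have : D' ≤ D := Finsupp.le_def.mpr hall
      have := le_antisymm h this
      subst this
      simp at hdeg
      omega
    have h1 : rmtAddPlace D v ≤ D' := by
      classical
      rw [Finsupp.le_def]
      intro w
      by_cases hw : w = v
      · subst hw; rw [rmtAddPlace_apply_self]; omega
      · rw [rmtAddPlace_apply_ne D hw]; exact Finsupp.le_def.mp h w
    obtain ⟨hfin1, hl1⟩ := rmt_finite_addPlace hb D v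
    have hdeg1 : Divisor.degree D' - Divisor.degree (rmtAddPlace D v) = n := by
      rw [rmt_degree_addPlace hb]; push_cast at hdeg; omega
    obtain ⟨hfin2, hl2⟩ := ih (rmtAddPlace D v) D' h1 hdeg1 hfin1
    exact ⟨hfin2, by omega⟩

/-- finiteness and the dimension bound pass from `D` to any `D' ≥ D`. -/
theorem rmt_finite_of_le (hb : RmtBase K F) {D D' : Divisor K F} (h : D ≤ D')
    (hfin : Module.Finite K (rmtL D)) :
    Module.Finite K (rmtL D') ∧
      (rmtl D' : ℤ) ≤ rmtl D + (Divisor.degree D' - Divisor.degree D) := by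
  have hn : 0 ≤ Divisor.degree D' - Divisor.degree D := by
    have := rmt_degree_mono hb h; omega
  obtain ⟨n, hn'⟩ := Int.eq_ofNat_of_zero_le hn
  obtain ⟨h1, h2⟩ := rmt_finite_of_le_aux hb n D D' h hn' hfin
  exact ⟨h1, by rw [hn']; exact_mod_cast h2⟩

/-- **`L(D)` is finite dimensional.** -/
theorem rmt_finite (hb : RmtBase K F) (D : Divisor K F) : Module.Finite K (rmtL D) := by
  classical
  obtain ⟨P₀⟩ := hb.nonempty
  -- a divisor below `D` of negative degree
  set n : ℤ := Divisor.degree D + 1 with hn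
  set D₀ : Divisor K F := D - Finsupp.single P₀ (max n 0) with hD₀
  have hle : D₀ ≤ D := by
    rw [hD₀, sub_le_self_iff]
    rw [Finsupp.le_def]
    intro v
    simp only [Finsupp.coe_zero, Pi.zero_apply, Finsupp.single_apply]
    split_ifs
    · exact le_max_right _ _
    · exact le_rfl
  have hdeg : Divisor.degree D₀ < 0 := by
    rw [hD₀, map_sub, Divisor.degree_single, rmt_deg_one hb]
    have := le_max_left n 0
    simp only [Nat.cast_one, mul_one]
    omega
  have hbot := rmtL_eq_bot_of_degree_neg hb hdeg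
  have hfin0 : Module.Finite K (rmtL D₀) := by
    rw [hbot]; infer_instance
  exact (rmt_finite_of_le hb hle hfin0).1

instance rmt_finite_inst [h : Fact (RmtBase K F)] (D : Divisor K F) : Module.Finite K (rmtL D) :=
  rmt_finite h.out D

/-- `l(D') ≤ l(D) + deg D' - deg D` for `D ≤ D'`. -/
theorem rmtl_le_of_le (hb : RmtBase K F) {D D' : Divisor K F} (h : D ≤ D') :
    (rmtl D' : ℤ) ≤ rmtl D + (Divisor.degree D' - Divisor.degree D) :=
  (rmt_finite_of_le hb h (rmt_finite hb D)).2

theorem rmtl_mono (hb : RmtBase K F) {D D' : Divisor K F} (h : D ≤ D') : rmtl D ≤ rmtl D' := by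
  have := rmt_finite hb D'
  exact Submodule.finrank_mono (rmtL_mono h)

theorem rmtl_eq_zero_of_degree_neg (hb : RmtBase K F) {D : Divisor K F}
    (hD : Divisor.degree D < 0) : rmtl D = 0 := by
  unfold rmtl
  rw [rmtL_eq_bot_of_degree_neg hb hD]
  exact finrank_bot K F

theorem rmtl_pos_iff (hb : RmtBase K F) {D : Divisor K F} :
    0 < rmtl D ↔ ∃ f, f ≠ 0 ∧ f ∈ rmtL D := by
  have := rmt_finite hb D
  unfold rmtl
  rw [Module.finrank_pos_iff_exists_ne_zero]
  constructor
  · rintro ⟨⟨f, hf⟩, hne⟩
    exact ⟨f, fun h => hne (Subtype.ext h), hf⟩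
  · rintro ⟨f, hf0, hf⟩
    exact ⟨⟨f, hf⟩, fun h => hf0 (congrArg Subtype.val h)⟩

/-! ### linear equivalence -/

/-- multiplication by `f` maps `L(D + div f)` isomorphically onto `L(D)`. -/
theorem rmtL_add_div (hb : RmtBase K F) (D : Divisor K F) {f : F} (hf : f ≠ 0) :
    (rmtL (D + rmtDiv hb f)).map (LinearMap.mulLeft K f) = rmtL D := by
  ext g
  constructor
  · rintro ⟨h, hh, rfl⟩
    rcases eq_or_ne h 0 with rfl | h0
    · simp
    have hfh : f * h ≠ 0 := mul_ne_zero hf h0
    rw [LinearMap.mulLeft_apply, rmt_mem_iff' hfh]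
    intro v
    have := (rmt_mem_iff' h0).mp hh v
    simp only [Finsupp.coe_add, Pi.add_apply, rmtDiv_apply] at this
    rw [Place.ord_mul v hf h0]
    omega
  · intro hg
    refine ⟨f⁻¹ * g, ?_, by simp [LinearMap.mulLeft_apply, hf]⟩
    rcases eq_or_ne g 0 with rfl | g0
    · simp
    have hne : f⁻¹ * g ≠ 0 := mul_ne_zero (inv_ne_zero hf) g0
    show f⁻¹ * g ∈ rmtL (D + rmtDiv hb f)
    rw [rmt_mem_iff' hne]
    intro v
    have := (rmt_mem_iff' g0).mp hg v
    simp only [Finsupp.coe_add, Pi.add_apply, rmtDiv_apply]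
    rw [Place.ord_mul v (inv_ne_zero hf) g0, Place.ord_inv]
    omega

theorem rmtl_add_div (hb : RmtBase K F) (D : Divisor K F) {f : F} (hf : f ≠ 0) :
    rmtl (D + rmtDiv hb f) = rmtl D := by
  unfold rmtl
  rw [← rmtL_add_div hb D hf]
  have hinj : Function.Injective (LinearMap.mulLeft K f) := fun a b h => by
    simpa [LinearMap.mulLeft_apply, hf] using h
  exact (LinearEquiv.finrank_eq (Submodule.equivMapOfInjective _ hinj _))

/-! ### `L(0) = K` -/

theorem rmtL_zero (hb : RmtBase K F) : rmtL (0 : Divisor K F) = Submodule.span K {(1 : F)} := by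
  obtain ⟨P₀⟩ := hb.nonempty
  apply le_antisymm
  · intro f hf
    rcases eq_or_ne f 0 with rfl | hf0
    · exact Submodule.zero_mem _
    have hmem : f ∈ P₀.toValuationSubring := by
      rw [pb_mem_iff P₀ hf0]
      simpa using (rmt_mem_iff' hf0).mp hf P₀
    obtain ⟨c, hc | hc⟩ := rmt_exists_residue hb P₀ hmem
    · rw [hc, Algebra.algebraMap_eq_smul_one]
      exact Submodule.smul_mem _ c (Submodule.mem_span_singleton_self 1)
    · exfalso
      have hne : f - algebraMap K F c ≠ 0 := by
        intro h; rw [h] at hc; simp at hc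
      have hmem' : f - algebraMap K F c ∈ rmtL (0 : Divisor K F) := by
        refine Submodule.sub_mem _ hf ?_
        rw [rmt_mem_iff]
        intro v
        right
        simp [rmt_ord_algebraMap']
      have h0 : 0 ≤ rmtDiv hb (f - algebraMap K F c) := by
        simpa using (rmt_mem_iff_div hb hne).mp hmem'
      have hpos := rmt_degree_pos hb h0 (v := P₀) (by rwa [rmtDiv_apply])
      rw [rmtDiv_degree] at hpos
      exact lt_irrefl _ hpos
  · rw [Submodule.span_singleton_le_iff_mem, rmt_mem_iff]
    intro v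
    right
    simp

theorem rmtl_zero (hb : RmtBase K F) : rmtl (0 : Divisor K F) = 1 := by
  unfold rmtl
  rw [rmtL_zero hb]
  exact finrank_span_singleton one_ne_zero

/-- if `L(D) ≠ 0` then `l(D) ≤ deg D + 1`. -/
theorem rmtl_le_degree_add_one (hb : RmtBase K F) {D : Divisor K F} (h : 0 < rmtl D) :
    (rmtl D : ℤ) ≤ Divisor.degree D + 1 := by
  obtain ⟨f, hf0, hf⟩ := (rmtl_pos_iff hb).mp h
  have hge : 0 ≤ D + rmtDiv hb f := by
    rw [add_comm]; exact (rmt_mem_iff_div hb hf0).mp hf
  have h1 := rmtl_le_of_le hb hge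
  rw [rmtl_add_div hb D hf0, rmtl_zero hb, map_zero, map_add, rmtDiv_degree] at h1
  push_cast at h1
  omega

/-- `deg D - l(D)` is monotone in `D`. -/
theorem rmt_defect_mono (hb : RmtBase K F) {D D' : Divisor K F} (h : D ≤ D') :
    Divisor.degree D - rmtl D ≤ Divisor.degree D' - rmtl D' := by
  have := rmtl_le_of_le hb h
  omega

end Fermat.Agent.S18x
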