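/-
S18x/RiemannThm (helper24): RIEMANN'S THEOREM in the Prelude `Place`/`Divisor` API, any
characteristic, algebraically closed constants:  from one coordinate `x` of `F/K` whose pole divisor
has degree at most `[F : K(x)]`, there is `γ` with `l(D) ≥ deg D + 1 - γ` for all `D`, with equality
for `deg D` large (Stichtenoth 1.4.14 - 1.4.17).  No differentials.
-/
import Mathlib
import Fermat.Agent.S18x.RiemannBase

set_option autoImplicit false

namespace Fermat.Agent.S18x

open AlgebraicCurve Fermat.Agent.S24x Polynomial IntermediateField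

variable {K F : Type*} [Field K] [Field F] [Algebra K F]

/-! ### pole divisors -/

/-- the pole divisor `(f)_∞`. -/
noncomputable def rmtPoleDiv (hb : RmtBase K F) (f : F) : Divisor K F :=
  (rmtDiv hb f).mapRange (fun n => max (-n) 0) (by simp)

theorem rmtPoleDiv_apply (hb : RmtBase K F) (f : F) (v : Place K F) :
    rmtPoleDiv hb f v = max (-(v.ord f)) 0 := by
  simp [rmtPoleDiv, rmtDiv_apply]

theorem rmtPoleDiv_nonneg (hb : RmtBase K F) (f : F) : 0 ≤ rmtPoleDiv hb f := by
  rw [Finsupp.le_def]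
  intro v
  rw [rmtPoleDiv_apply]
  exact le_max_right _ _

theorem rmt_mem_poleDiv (hb : RmtBase K F) (f : F) : f ∈ rmtL (rmtPoleDiv hb f) := by
  rw [rmt_mem_iff]
  intro v
  right
  rw [rmtPoleDiv_apply]
  have := le_max_left (-(v.ord f)) 0
  omega

theorem rmt_mul_mem {D₁ D₂ : Divisor K F} {f g : F} (hf : f ∈ rmtL D₁) (hg : g ∈ rmtL D₂) :
    f * g ∈ rmtL (D₁ + D₂) := by
  rcases eq_or_ne f 0 with rfl | hf0
  · simp
  rcases eq_or_ne g 0 with rfl | hg0
  · simp
  rw [rmt_mem_iff' (mul_ne_zero hf0 hg0)]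
  intro v
  have h1 := (rmt_mem_iff' hf0).mp hf v
  have h2 := (rmt_mem_iff' hg0).mp hg v
  rw [Place.ord_mul v hf0 hg0]
  simp only [Finsupp.coe_add, Pi.add_apply]
  omega

/-- sums of elements of the valuation ring with coefficients in `K` -/
theorem rmt_sum_mem_valuationSubring (v : Place K F) {y : F} (hy : y ∈ v.toValuationSubring)
    (c : ℕ → K) (e : ℕ → ℕ) (s : Finset ℕ) :
    ∑ i ∈ s, c i • y ^ (e i) ∈ v.toValuationSubring := by
  refine Subring.sum_mem v.toValuationSubring.toSubring fun i _ => ?_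
  rw [Algebra.smul_def]
  exact v.toValuationSubring.mul_mem _ _ (v.algebraMap_mem' _) (v.toValuationSubring.pow_mem hy _)

/-- `p(x) ∈ L(l (x)_∞)` for `deg p ≤ l`. -/
theorem rmt_aeval_mem (hb : RmtBase K F) (x : F) {l : ℕ} {p : K[X]} (hp : p.natDegree < l + 1) :
    aeval x p ∈ rmtL ((l : ℤ) • rmtPoleDiv hb x) := by
  rw [rmt_mem_iff]
  intro v
  by_cases h0 : aeval x p = 0
  · exact Or.inl h0
  right
  simp only [Finsupp.coe_smul, Pi.smul_apply, smul_eq_mul, rmtPoleDiv_apply]
  rw [aeval_eq_sum_range' hp] at h0 ⊢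
  by_cases hx : 0 ≤ v.ord x
  · -- `x` integral at `v`
    have hxm : x ∈ v.toValuationSubring := by
      rcases eq_or_ne x 0 with rfl | hx0
      · exact v.toValuationSubring.zero_mem
      · exact (pb_mem_iff v hx0).mpr hx
    have hmem := rmt_sum_mem_valuationSubring v hxm (fun i => p.coeff i) (fun i => i)
      (Finset.range (l + 1))
    have := (pb_mem_iff v h0).mp hmem
    rw [max_eq_right (by omega)]
    omega
  · -- `x` has a pole at `v`
    push Not at hx
    have hx0 : x ≠ 0 := by rintro rfl; simp at hx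
    have hxi : x⁻¹ ∈ v.toValuationSubring := by
      rw [pb_mem_iff v (inv_ne_zero hx0), Place.ord_inv]; omega
    have hmem := rmt_sum_mem_valuationSubring v hxi (fun i => p.coeff i) (fun i => l - i)
      (Finset.range (l + 1))
    have hkey : ∑ i ∈ Finset.range (l + 1), p.coeff i • x ^ i =
        x ^ l * ∑ i ∈ Finset.range (l + 1), p.coeff i • x⁻¹ ^ (l - i) := by
      rw [Finset.mul_sum]
      refine Finset.sum_congr rfl fun i hi => ?_
      have hil : i ≤ l := Nat.lt_succ_iff.mp (Finset.mem_range.mp hi)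
      rw [Algebra.smul_def, Algebra.smul_def, inv_pow, mul_left_comm]
      congr 1
      rw [eq_mul_inv_iff_mul_eq₀ (pow_ne_zero _ hx0), ← pow_add, Nat.add_sub_cancel' hil]
    have hs0 : ∑ i ∈ Finset.range (l + 1), p.coeff i • x⁻¹ ^ (l - i) ≠ 0 := by
      intro h; rw [hkey, h, mul_zero] at h0; exact h0 rfl
    have h1 := (pb_mem_iff v hs0).mp hmem
    rw [hkey, Place.ord_mul v (pow_ne_zero _ hx0) hs0, ← zpow_natCast, Place.ord_zpow,
      max_eq_left (by omega)]
    nlinarith

/-! ### the lower bound `l(l B + C) ≥ n (l + 1)` -/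

section Coord

variable (hb : RmtBase K F) (x : F) [FiniteDimensional K⟮x⟯ F]

/-- the effective divisor bounding the poles of a `K(x)`-basis of `F`. -/
noncomputable def rmtBasisDiv : Divisor K F :=
  ∑ j, rmtPoleDiv hb ((Module.finBasis K⟮x⟯ F) j)

theorem rmtBasisDiv_nonneg : 0 ≤ rmtBasisDiv hb x :=
  Finset.sum_nonneg fun _ _ => rmtPoleDiv_nonneg hb _

theorem rmt_basis_mem (j : Fin (Module.finrank K⟮x⟯ F)) :
    (Module.finBasis K⟮x⟯ F) j ∈ rmtL (rmtBasisDiv hb x) := by
  refine rmtL_mono ?_ (rmt_mem_poleDiv hb _)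
  unfold rmtBasisDiv
  exact Finset.single_le_sum (f := fun j => rmtPoleDiv hb ((Module.finBasis K⟮x⟯ F) j))
    (fun i _ => rmtPoleDiv_nonneg hb _) (Finset.mem_univ j)

/-- the `K`-linear map `(p_j) ↦ Σ p_j(x) b_j`. -/
noncomputable def rmtPhi (l : ℕ) :
    (Fin (Module.finrank K⟮x⟯ F) → degreeLT K (l + 1)) →ₗ[K] F where
  toFun p := ∑ j, aeval x (p j : K[X]) * (Module.finBasis K⟮x⟯ F) j
  map_add' p q := by
    simp only [Pi.add_apply, Submodule.coe_add, map_add, add_mul, Finset.sum_add_distrib]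
  map_smul' c p := by
    simp only [Pi.smul_apply, Submodule.coe_smul, map_smul, RingHom.id_apply, Finset.smul_sum,
      smul_mul_assoc]

theorem rmtPhi_apply (l : ℕ) (p : Fin (Module.finrank K⟮x⟯ F) → degreeLT K (l + 1)) :
    rmtPhi x l p = ∑ j, aeval x (p j : K[X]) * (Module.finBasis K⟮x⟯ F) j := rfl

theorem rmtPhi_injective (hx : Transcendental K x) (l : ℕ) :
    Function.Injective (rmtPhi (K := K) x l) := by
  rw [← LinearMap.ker_eq_bot, LinearMap.ker_eq_bot']
  intro p hp
  rw [rmtPhi_apply] at hp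
  have hmem : ∀ j, aeval x (p j : K[X]) ∈ K⟮x⟯ := fun j =>
    IntermediateField.algebra_adjoin_le_adjoin K {x} (aeval_mem_adjoin_singleton K x (p := (p j : K[X])))
  have hp' : ∑ j, (⟨aeval x (p j : K[X]), hmem j⟩ : K⟮x⟯) • (Module.finBasis K⟮x⟯ F) j = 0 := by
    rw [← hp]
    refine Finset.sum_congr rfl fun j _ => ?_
    rw [Algebra.smul_def]
    rfl
  have hli := (Module.finBasis K⟮x⟯ F).linearIndependent
  rw [Fintype.linearIndependent_iff] at hli
  have h0 := hli _ hp'
  funext j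
  have hj : aeval x (p j : K[X]) = 0 := congrArg Subtype.val (h0 j)
  have := (transcendental_iff.mp hx) _ hj
  exact Subtype.ext this

theorem rmtPhi_mem (l : ℕ) (p : Fin (Module.finrank K⟮x⟯ F) → degreeLT K (l + 1)) :
    rmtPhi x l p ∈ rmtL ((l : ℤ) • rmtPoleDiv hb x + rmtBasisDiv hb x) := by
  rw [rmtPhi_apply]
  refine Submodule.sum_mem _ fun j _ => ?_
  refine rmt_mul_mem (rmt_aeval_mem hb x ?_) (rmt_basis_mem hb x j)
  have hdeg := Polynomial.mem_degreeLT.mp (p j).2
  rcases eq_or_ne (p j : K[X]) 0 with h0 | h0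
  · rw [h0]; simp
  · rw [Polynomial.natDegree_lt_iff_degree_lt h0]; exact_mod_cast hdeg

omit [FiniteDimensional K⟮x⟯ F] in
theorem rmt_finrank_domain (l : ℕ) :
    Module.finrank K (Fin (Module.finrank K⟮x⟯ F) → degreeLT K (l + 1)) =
      Module.finrank K⟮x⟯ F * (l + 1) := by
  rw [Module.finrank_pi_fintype]
  have : Module.finrank K (degreeLT K (l + 1)) = l + 1 := by
    rw [(degreeLTEquiv K (l + 1)).finrank_eq, Module.finrank_fin_fun]
  simp [this]

/-- **Lower bound** `l(l B + C) ≥ n (l + 1)`. -/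
theorem rmt_lower (hx : Transcendental K x) (l : ℕ) :
    Module.finrank K⟮x⟯ F * (l + 1) ≤ rmtl ((l : ℤ) • rmtPoleDiv hb x + rmtBasisDiv hb x) := by
  have := rmt_finite hb ((l : ℤ) • rmtPoleDiv hb x + rmtBasisDiv hb x)
  rw [← rmt_finrank_domain x l]
  exact LinearMap.finrank_le_finrank_of_injective
    (f := (rmtPhi x l).codRestrict _ (rmtPhi_mem hb x l))
    (fun p q h => rmtPhi_injective x hx l (by
      have := congrArg Subtype.val h
      simpa using this))

/-- `deg (l B) - l(l B) ≤ deg C - n`. -/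
theorem rmt_defect_mul (hx : Transcendental K x)
    (hB : Divisor.degree (rmtPoleDiv hb x) ≤ Module.finrank K⟮x⟯ F) (l : ℕ) :
    Divisor.degree ((l : ℤ) • rmtPoleDiv hb x) - rmtl ((l : ℤ) • rmtPoleDiv hb x) ≤
      Divisor.degree (rmtBasisDiv hb x) - Module.finrank K⟮x⟯ F := by
  have h1 := rmt_lower hb x hx l
  have hle : (l : ℤ) • rmtPoleDiv hb x ≤ (l : ℤ) • rmtPoleDiv hb x + rmtBasisDiv hb x :=
    le_add_of_nonneg_right (rmtBasisDiv_nonneg hb x)
  have h2 := rmtl_le_of_le hb hle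
  rw [map_add, add_sub_cancel_left] at h2
  rw [map_zsmul, smul_eq_mul]
  have h3 : (l : ℤ) * Divisor.degree (rmtPoleDiv hb x) ≤ l * Module.finrank K⟮x⟯ F :=
    mul_le_mul_of_nonneg_left hB (by positivity)
  have h1' : ((Module.finrank K⟮x⟯ F : ℤ)) * (l + 1) ≤
      rmtl ((l : ℤ) • rmtPoleDiv hb x + rmtBasisDiv hb x) := by exact_mod_cast h1
  nlinarith

omit [FiniteDimensional K⟮x⟯ F] in
/-- a transcendental element has a pole. -/
theorem rmt_poleDiv_degree_pos (hx : Transcendental K x) :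
    0 < Divisor.degree (rmtPoleDiv hb x) := by
  by_contra hcon
  have hzero : rmtPoleDiv hb x = 0 := by
    by_contra hne
    obtain ⟨v, hv⟩ : ∃ v, rmtPoleDiv hb x v ≠ 0 := by
      by_contra hall
      push Not at hall
      exact hne (Finsupp.ext hall)
    have hpos : 0 < rmtPoleDiv hb x v :=
      lt_of_le_of_ne (Finsupp.le_def.mp (rmtPoleDiv_nonneg hb x) v) (Ne.symm hv)
    exact hcon (rmt_degree_pos hb (rmtPoleDiv_nonneg hb x) hpos)
  have hmem := rmt_mem_poleDiv hb x
  rw [hzero, rmtL_zero hb, Submodule.mem_span_singleton] at hmem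
  obtain ⟨c, hc⟩ := hmem
  apply hx
  rw [← hc, ← Algebra.algebraMap_eq_smul_one]
  exact isAlgebraic_algebraMap c

/-- the positive part of a divisor -/
noncomputable def rmtPos (D : Divisor K F) : Divisor K F :=
  D.mapRange (fun n => max n 0) (by simp)

theorem rmtPos_apply (D : Divisor K F) (v : Place K F) : rmtPos D v = max (D v) 0 := by
  simp [rmtPos]

theorem rmt_le_pos (D : Divisor K F) : D ≤ rmtPos D := by
  rw [Finsupp.le_def]; intro v; rw [rmtPos_apply]; exact le_max_left _ _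

/-- **Riemann's inequality, preliminary form**: `deg D - l(D)` is bounded above. -/
theorem rmt_defect_le (hx : Transcendental K x)
    (hB : Divisor.degree (rmtPoleDiv hb x) ≤ Module.finrank K⟮x⟯ F) (D : Divisor K F) :
    Divisor.degree D - rmtl D ≤
      Divisor.degree (rmtBasisDiv hb x) - Module.finrank K⟮x⟯ F := by
  have hBpos := rmt_poleDiv_degree_pos hb x hx
  -- choose `l` large
  obtain ⟨l, hl⟩ : ∃ l : ℕ, Divisor.degree (rmtBasisDiv hb x) - Module.finrank K⟮x⟯ F +
      Divisor.degree (rmtPos D) + 1 ≤ (l : ℤ) :=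
    ⟨(Divisor.degree (rmtBasisDiv hb x) - Module.finrank K⟮x⟯ F +
      Divisor.degree (rmtPos D) + 1).toNat, Int.self_le_toNat _⟩
  have hdef := rmt_defect_mul hb x hx hB l
  have hle : (l : ℤ) • rmtPoleDiv hb x - rmtPos D ≤ (l : ℤ) • rmtPoleDiv hb x := by
    rw [sub_le_self_iff]
    rw [Finsupp.le_def]; intro v; rw [rmtPos_apply]; exact le_max_right _ _
  have h2 := rmtl_le_of_le hb hle
  rw [map_sub, sub_sub_cancel] at h2
  have hdegl : Divisor.degree ((l : ℤ) • rmtPoleDiv hb x) =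
      l * Divisor.degree (rmtPoleDiv hb x) := by
    rw [map_zsmul, smul_eq_mul]
  have hpos : 0 < rmtl ((l : ℤ) • rmtPoleDiv hb x - rmtPos D) := by
    have h5 : (l : ℤ) ≤ l * Divisor.degree (rmtPoleDiv hb x) := by nlinarith
    have : (0 : ℤ) < rmtl ((l : ℤ) • rmtPoleDiv hb x - rmtPos D) := by
      rw [hdegl] at hdef
      omega
    exact_mod_cast this
  obtain ⟨z, hz0, hz⟩ := (rmtl_pos_iff hb).mp hpos
  have hz' := (rmt_mem_iff_div hb hz0).mp hz
  have hle2 : rmtPos D + rmtDiv hb z⁻¹ ≤ (l : ℤ) • rmtPoleDiv hb x := by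
    rw [rmtDiv_inv]
    have : (l : ℤ) • rmtPoleDiv hb x - (rmtPos D + -rmtDiv hb z) =
        rmtDiv hb z + ((l : ℤ) • rmtPoleDiv hb x - rmtPos D) := by abel
    rw [← sub_nonneg, this]
    exact hz'
  have h3 := rmt_defect_mono hb (rmt_le_pos D)
  have h4 := rmt_defect_mono hb hle2
  rw [rmtl_add_div hb (rmtPos D) (inv_ne_zero hz0), map_add, rmtDiv_degree, add_zero] at h4
  omega

end Coord

/-! ### the genus and Riemann's theorem -/

section Genus

variable (K F)

/-- the set of values `deg D + 1 - l(D)`. -/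
def rmtDefectSet : Set ℤ := {z | ∃ D : Divisor K F, z = Divisor.degree D + 1 - rmtl D}

open Classical in
/-- the (Riemann) genus: the maximum of `deg D + 1 - l(D)`. -/
noncomputable def rmtGenus : ℕ := (sSup (rmtDefectSet K F)).toNat

variable {K F}

/-- the data needed for Riemann's theorem: a coordinate whose pole divisor has degree at most
`[F : K(x)]`. -/
structure RmtCoord (hb : RmtBase K F) (x : F) : Prop where
  transcendental : Transcendental K x
  finite : FiniteDimensional K⟮x⟯ F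
  pole_le : Divisor.degree (rmtPoleDiv hb x) ≤ Module.finrank K⟮x⟯ F

theorem rmtDefectSet_bddAbove (hb : RmtBase K F) {x : F} (hc : RmtCoord hb x) :
    BddAbove (rmtDefectSet K F) := by
  have := hc.finite
  refine ⟨Divisor.degree (rmtBasisDiv hb x) - Module.finrank K⟮x⟯ F + 1, ?_⟩
  rintro z ⟨D, rfl⟩
  have := rmt_defect_le hb x hc.transcendental hc.pole_le D
  omega

theorem rmtDefectSet_zero_mem (hb : RmtBase K F) : (0 : ℤ) ∈ rmtDefectSet K F :=
  ⟨0, by rw [rmtl_zero hb, map_zero]; simp⟩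

theorem rmtGenus_spec (hb : RmtBase K F) {x : F} (hc : RmtCoord hb x) :
    ((rmtGenus K F : ℕ) : ℤ) = sSup (rmtDefectSet K F) := by
  unfold rmtGenus
  rw [Int.toNat_of_nonneg]
  exact le_csSup (rmtDefectSet_bddAbove hb hc) (rmtDefectSet_zero_mem hb)

/-- **Riemann's inequality** `l(D) ≥ deg D + 1 - γ`. -/
theorem rmt_riemann_ineq (hb : RmtBase K F) {x : F} (hc : RmtCoord hb x) (D : Divisor K F) :
    Divisor.degree D + 1 - rmtGenus K F ≤ rmtl D := by
  have h := le_csSup (rmtDefectSet_bddAbove hb hc) (⟨D, rfl⟩ : Divisor.degree D + 1 - rmtl D ∈ rmtDefectSet K F)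
  rw [← rmtGenus_spec hb hc] at h
  omega

/-- the genus is attained. -/
theorem rmt_genus_attained (hb : RmtBase K F) {x : F} (hc : RmtCoord hb x) :
    ∃ D₀ : Divisor K F, (rmtl D₀ : ℤ) = Divisor.degree D₀ + 1 - rmtGenus K F := by
  have h := Int.csSup_mem ⟨0, rmtDefectSet_zero_mem hb⟩ (rmtDefectSet_bddAbove hb hc)
  rw [← rmtGenus_spec hb hc] at h
  obtain ⟨D₀, hD₀⟩ := h
  exact ⟨D₀, by omega⟩

/-- **Riemann's theorem**: `l(D) = deg D + 1 - γ` for `deg D` large. -/
theorem rmt_riemann_eq (hb : RmtBase K F) {x : F} (hc : RmtCoord hb x) :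
    ∃ c : ℤ, ∀ D : Divisor K F, c ≤ Divisor.degree D →
      (rmtl D : ℤ) = Divisor.degree D + 1 - rmtGenus K F := by
  obtain ⟨D₀, hD₀⟩ := rmt_genus_attained hb hc
  refine ⟨Divisor.degree D₀ + rmtGenus K F, fun D hD => ?_⟩
  have h1 := rmt_riemann_ineq hb hc D
  have h2 := rmt_riemann_ineq hb hc (D - D₀)
  rw [map_sub] at h2
  have hpos : 0 < rmtl (D - D₀) := by
    have : (0 : ℤ) < rmtl (D - D₀) := by omega
    exact_mod_cast this
  obtain ⟨z, hz0, hz⟩ := (rmtl_pos_iff hb).mp hpos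
  have hz' := (rmt_mem_iff_div hb hz0).mp hz
  have hle : D₀ ≤ D + rmtDiv hb z := by
    have : D + rmtDiv hb z - D₀ = rmtDiv hb z + (D - D₀) := by abel
    rw [← sub_nonneg, this]
    exact hz'
  have h3 := rmt_defect_mono hb hle
  rw [rmtl_add_div hb D hz0, map_add, rmtDiv_degree, add_zero] at h3
  omega

end Genus

end Fermat.Agent.S18x
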