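/-
S18x/RiemannCor (helper24): consequences of Riemann's theorem used in the S18 torsion step:
divisors of degree `≥ γ` are linearly equivalent to effective ones; there are infinitely many
places; greedy construction of non-special multiplicity-free effective divisors
`Q_1 + ... + Q_g` (`g ≤ γ`) avoiding any finite set of places.
-/
import Mathlib
import Fermat.Agent.S18x.RiemannThm

set_option autoImplicit false

namespace Fermat.Agent.S18x

open AlgebraicCurve Fermat.Agent.S24x Polynomial IntermediateField

variable {K F : Type*} [Field K] [Field F] [Algebra K F]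

/-- a divisor of degree `≥ γ` is linearly equivalent to an effective divisor. -/
theorem rmt_exists_effective (hb : RmtBase K F) {x : F} (hc : RmtCoord hb x) {D : Divisor K F}
    (hD : (rmtGenus K F : ℤ) ≤ Divisor.degree D) :
    ∃ f : F, f ≠ 0 ∧ 0 ≤ rmtDiv hb f + D := by
  have h1 := rmt_riemann_ineq hb hc D
  have hpos : 0 < rmtl D := by
    have : (0 : ℤ) < rmtl D := by omega
    exact_mod_cast this
  obtain ⟨f, hf0, hf⟩ := (rmtl_pos_iff hb).mp hpos
  exact ⟨f, hf0, (rmt_mem_iff_div hb hf0).mp hf⟩

/-! ### infinitely many places -/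

/-- a nonzero function with a pole has a zero. -/
theorem rmt_exists_zero_of_pole (hb : RmtBase K F) {f : F} {v : Place K F}
    (hv : v.ord f < 0) : ∃ w : Place K F, 0 < w.ord f := by
  by_contra hcon
  push Not at hcon
  have hle : rmtDiv hb f ≤ 0 := by
    rw [Finsupp.le_def]; intro w; rw [rmtDiv_apply]; exact hcon w
  have h0 : 0 ≤ -rmtDiv hb f := neg_nonneg.mpr hle
  have hpos := rmt_degree_pos hb h0 (v := v) (by
    simp only [Finsupp.coe_neg, Pi.neg_apply, rmtDiv_apply]; omega)
  rw [map_neg, rmtDiv_degree] at hpos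
  simp at hpos

theorem rmt_transcendental_sub {x : F} (hx : Transcendental K x) (c : K) :
    Transcendental K (x - algebraMap K F c) := by
  intro h
  apply hx
  have := h.add (isAlgebraic_algebraMap (R := K) (A := F) c)
  simpa using this

/-- for every `c : K` there is a place where `x - c` vanishes. -/
theorem rmt_exists_zero_sub (hb : RmtBase K F) {x : F} (hx : Transcendental K x) (c : K) :
    ∃ w : Place K F, 0 < w.ord (x - algebraMap K F c) := by
  have htr := rmt_transcendental_sub hx c
  have hpos := rmt_poleDiv_degree_pos hb _ htr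
  obtain ⟨v, hv⟩ : ∃ v, rmtPoleDiv hb (x - algebraMap K F c) v ≠ 0 := by
    by_contra hall
    push Not at hall
    have : rmtPoleDiv hb (x - algebraMap K F c) = 0 := Finsupp.ext hall
    rw [this, map_zero] at hpos
    exact lt_irrefl _ hpos
  rw [rmtPoleDiv_apply] at hv
  have hv' : v.ord (x - algebraMap K F c) < 0 := by
    by_contra h
    push Not at h
    exact hv (max_eq_right (by omega))
  exact rmt_exists_zero_of_pole hb hv'

theorem rmt_infinite_places (hb : RmtBase K F) [Infinite K] {x : F} (hx : Transcendental K x) :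
    Infinite (Place K F) := by
  choose w hw using rmt_exists_zero_sub hb hx
  refine Infinite.of_injective w fun c c' h => ?_
  by_contra hne
  have h1 := hw c
  have h2 := hw c'
  rw [← h] at h2
  have hsub : (x - algebraMap K F c') - (x - algebraMap K F c) = algebraMap K F (c - c') := by
    rw [map_sub]; ring
  have hne' : algebraMap K F (c - c') ≠ 0 := by
    rw [_root_.map_ne_zero]; exact sub_ne_zero.mpr hne
  have h3 := pb_ord_add (w c) (f := x - algebraMap K F c') (g := -(x - algebraMap K F c))
    (by rw [← sub_eq_add_neg, hsub]; exact hne')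
  rw [← sub_eq_add_neg, hsub, pb_ord_algebraMap] at h3
  have h4 : (w c).ord (-(x - algebraMap K F c)) = (w c).ord (x - algebraMap K F c) := by
    have hx0 : x - algebraMap K F c ≠ 0 := fun h0 => by rw [h0] at h1; simp at h1
    rw [neg_eq_neg_one_mul, Place.ord_mul _ (by simp) hx0]
    have : (w c).ord (-1 : F) = 0 := by
      have := pb_ord_algebraMap (w c) (-1 : K)
      simpa using this
    rw [this, zero_add]
  rw [h4] at h3
  have := le_min h1.le h2.le
  have hlt : 0 < min ((w c).ord (x - algebraMap K F c')) ((w c).ord (x - algebraMap K F c)) :=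
    lt_min h2 h1
  omega

/-! ### multiplicity-free effective divisors -/

/-- the multiplicity-free effective divisor `Σ_{Q ∈ T} Q`. -/
noncomputable def rmtSumPlaces (T : Finset (Place K F)) : Divisor K F :=
  ∑ Q ∈ T, Finsupp.single Q 1

open Classical in
theorem rmtSumPlaces_apply (T : Finset (Place K F)) (v : Place K F) :
    rmtSumPlaces T v = if v ∈ T then 1 else 0 := by
  unfold rmtSumPlaces
  rw [Finsupp.finsetSum_apply]
  simp [Finsupp.single_apply]

theorem rmtSumPlaces_apply_of_not_mem {T : Finset (Place K F)} {v : Place K F} (h : v ∉ T) :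
    rmtSumPlaces T v = 0 := by
  classical
  rw [rmtSumPlaces_apply, if_neg h]

theorem rmtSumPlaces_nonneg (T : Finset (Place K F)) : 0 ≤ rmtSumPlaces T :=
  Finset.sum_nonneg fun Q _ => by
    classical
    rw [Finsupp.le_def]; intro v
    simp only [Finsupp.coe_zero, Pi.zero_apply, Finsupp.single_apply]
    split_ifs <;> simp

theorem rmtSumPlaces_degree (hb : RmtBase K F) (T : Finset (Place K F)) :
    Divisor.degree (rmtSumPlaces T) = T.card := by
  unfold rmtSumPlaces
  rw [map_sum]
  simp [Divisor.degree_single, rmt_deg_one hb]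

theorem rmtSumPlaces_empty : rmtSumPlaces (∅ : Finset (Place K F)) = 0 := by
  simp [rmtSumPlaces]

open Classical in
theorem rmtSumPlaces_insert {T : Finset (Place K F)} {Q : Place K F} (hQ : Q ∉ T) :
    rmtSumPlaces (insert Q T) = rmtAddPlace (rmtSumPlaces T) Q := by
  unfold rmtSumPlaces rmtAddPlace
  rw [Finset.sum_insert hQ, add_comm]

/-- (K1) a new pole at `Q` persists in every larger divisor with the same coefficient at `Q`. -/
theorem rmtl_addPlace_succ_le (hb : RmtBase K F) {D D' : Divisor K F} {Q : Place K F} {f : F}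
    (hDD' : D ≤ D') (hQ : D' Q = D Q) (hf : f ∈ rmtL (rmtAddPlace D Q)) (hf' : f ∉ rmtL D) :
    rmtl D' + 1 ≤ rmtl (rmtAddPlace D' Q) := by
  obtain ⟨hf0, hord⟩ := rmt_ord_of_not_mem hf hf'
  have h1 : f ∈ rmtL (rmtAddPlace D' Q) :=
    rmtL_mono (add_le_add_left hDD' _) hf
  have h2 : f ∉ rmtL D' := by
    intro h
    have := (rmt_mem_iff' hf0).mp h Q
    omega
  have hlt : rmtL D' < rmtL (rmtAddPlace D' Q) :=
    lt_of_le_of_ne (rmtL_mono (rmt_le_addPlace D' Q)) (fun heq => h2 (heq ▸ h1))
  have := rmt_finite hb (rmtAddPlace D' Q)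
  exact Submodule.finrank_lt_finrank_of_lt hlt

/-- (K2) -/
theorem rmtl_add_sumPlaces_ge (hb : RmtBase K F) {E : Divisor K F} {S' : Finset (Place K F)}
    (hS' : ∀ Q, Q ∉ S' → ∃ f, f ∈ rmtL (rmtAddPlace E Q) ∧ f ∉ rmtL E)
    (T' : Finset (Place K F)) (hT' : Disjoint T' S') :
    rmtl E + T'.card ≤ rmtl (E + rmtSumPlaces T') := by
  classical
  induction T' using Finset.induction_on with
  | empty => simp [rmtSumPlaces_empty]
  | insert Q T'' hQ ih =>
    rw [Finset.disjoint_insert_left] at hT'
    obtain ⟨f, hf, hf'⟩ := hS' Q hT'.1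
    have ih' := ih hT'.2
    have hle : E ≤ E + rmtSumPlaces T'' := le_add_of_nonneg_right (rmtSumPlaces_nonneg T'')
    have hcoef : (E + rmtSumPlaces T'') Q = E Q := by
      simp [rmtSumPlaces_apply_of_not_mem hQ]
    have h1 := rmtl_addPlace_succ_le hb hle hcoef hf hf'
    rw [rmtSumPlaces_insert hQ, Finset.card_insert_of_notMem hQ]
    have : E + rmtAddPlace (rmtSumPlaces T'') Q = rmtAddPlace (E + rmtSumPlaces T'') Q := by
      unfold rmtAddPlace; abel
    rw [this]
    omega

open Classical in
/-- the greedy step. -/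
theorem rmt_nonspecial_step (hb : RmtBase K F) [Infinite K] {x : F} (hc : RmtCoord hb x)
    {T : Finset (Place K F)} (hT : rmtl (rmtSumPlaces T) = 1)
    (hcard : T.card < rmtGenus K F) (S : Finset (Place K F)) :
    ∃ Q, Q ∉ S ∧ Q ∉ T ∧ rmtl (rmtSumPlaces (insert Q T)) = 1 := by
  classical
  by_contra hcon
  push Not at hcon
  set E := rmtSumPlaces T with hE
  have hS' : ∀ Q, Q ∉ S ∪ T → ∃ f, f ∈ rmtL (rmtAddPlace E Q) ∧ f ∉ rmtL E := by
    intro Q hQ
    rw [Finset.mem_union, not_or] at hQ
    have h1 := hcon Q hQ.1 hQ.2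
    rw [rmtSumPlaces_insert hQ.2] at h1
    by_contra hnone
    push Not at hnone
    have heq : rmtL (rmtAddPlace E Q) = rmtL E :=
      le_antisymm hnone (rmtL_mono (rmt_le_addPlace E Q))
    apply h1
    unfold rmtl
    rw [heq]
    exact hT
  obtain ⟨c, hc'⟩ := rmt_riemann_eq hb hc
  have hinf := rmt_infinite_places hb hc.transcendental
  obtain ⟨T', hT'card⟩ :=
    Infinite.exists_subset_card_eq (Place K F) ((c - T.card).toNat + (S ∪ T).card)
  -- remove the bad places
  set T'' := T' \ (S ∪ T) with hT''
  have hdisj : Disjoint T'' (S ∪ T) := Finset.sdiff_disjoint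
  have hcard'' : (c - T.card).toNat ≤ T''.card := by
    have := Finset.le_card_sdiff (S ∪ T) T'
    rw [← hT''] at this
    omega
  have h2 := rmtl_add_sumPlaces_ge hb hS' T'' hdisj
  have hdeg : Divisor.degree (E + rmtSumPlaces T'') = T.card + T''.card := by
    rw [map_add, hE, rmtSumPlaces_degree hb, rmtSumPlaces_degree hb]
  have h3 := hc' (E + rmtSumPlaces T'') (by
    rw [hdeg]
    have := Int.self_le_toNat (c - T.card)
    omega)
  rw [hdeg] at h3
  rw [hT] at h2
  omega

/-- **Non-special multiplicity-free divisors**: for `g ≤ γ` and any finite set `S` of places there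
are `g` distinct places outside `S` with `l(Q_1 + ... + Q_g) = 1`. -/
theorem rmt_exists_nonspecial (hb : RmtBase K F) [Infinite K] {x : F} (hc : RmtCoord hb x)
    (S : Finset (Place K F)) (g : ℕ) (hg : g ≤ rmtGenus K F) :
    ∃ T : Finset (Place K F), T.card = g ∧ Disjoint T S ∧ rmtl (rmtSumPlaces T) = 1 := by
  classical
  induction g with
  | zero => exact ⟨∅, rfl, Finset.disjoint_empty_left S, by rw [rmtSumPlaces_empty, rmtl_zero hb]⟩
  | succ g ih =>
    obtain ⟨T, hTcard, hTS, hTl⟩ := ih (Nat.le_of_succ_le hg)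
    obtain ⟨Q, hQS, hQT, hQl⟩ := rmt_nonspecial_step hb hc hTl (by omega) S
    refine ⟨insert Q T, by rw [Finset.card_insert_of_notMem hQT, hTcard], ?_, hQl⟩
    rw [Finset.disjoint_insert_left]
    exact ⟨hQS, hTS⟩

end Fermat.Agent.S18x
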