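/-
S18x/RiemannOfCoord (helper24): bridge from the S24x "layer A" shapes (fundamental identities at
finite points and at the poles, `IsCoordinate`) to the hypotheses `RmtBase` / `RmtCoord` of
Riemann's theorem.  In characteristic zero everything is discharged by S24x.
-/
import Mathlib
import Fermat.Agent.S18x.RiemannCor
import Fermat.Agent.S24x.PrincipalDegree
import Fermat.Agent.S24x.PlaceCenter

set_option autoImplicit false

namespace Fermat.Agent.S18x

open AlgebraicCurve Fermat.Agent.S24x IntermediateField

variable {K F : Type*} [Field K] [Field F] [Algebra K F]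

/-- `RmtBase` from the two fundamental identities (S24x shapes), any characteristic. -/
theorem rmt_base_of_fund [IsAlgClosed K]
    (hA3z : ∀ {t : F}, IsCoordinate K F t → ∀ c : K, ∃ hfin : (placesOver K F t c).Finite,
        ∑ v ∈ hfin.toFinset, v.ord (t - algebraMap K F c) = (cdeg K F t : ℤ))
    (hA3p : ∀ {t : F}, IsCoordinate K F t → ∃ hfin : (polePlaces K F t).Finite,
        ∑ v ∈ hfin.toFinset, - v.ord t = (cdeg K F t : ℤ))
    {t : F} (ht : IsCoordinate K F t) : RmtBase K F where
  principal g hg := principal_degree_of_fund hA3z hA3p ht hg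
  residue v := pc_place_residue_surjective ht v
  nonempty := by
    obtain ⟨hfin, hsum⟩ := hA3p ht
    have := ht.finite
    have hpos : 0 < cdeg K F t := Module.finrank_pos
    by_contra hne
    rw [not_nonempty_iff] at hne
    have : hfin.toFinset = ∅ := Finset.eq_empty_of_isEmpty _
    rw [this, Finset.sum_empty] at hsum
    omega

/-- the degree of the pole divisor is the sum of the pole orders. -/
theorem rmt_degree_poleDiv (hb : RmtBase K F) (t : F) (hfin : (polePlaces K F t).Finite) :
    Divisor.degree (rmtPoleDiv hb t) = ∑ v ∈ hfin.toFinset, - v.ord t := by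
  classical
  rw [rmt_degree_eq_sum hb, Finsupp.sum]
  have hsupp : (rmtPoleDiv hb t).support = hfin.toFinset := by
    ext v
    rw [Finsupp.mem_support_iff, rmtPoleDiv_apply, Set.Finite.mem_toFinset, mem_polePlaces]
    constructor
    · intro h
      by_contra hcon
      exact h (max_eq_right (by omega))
    · intro h
      rw [max_eq_left (by omega)]
      omega
  rw [hsupp]
  refine Finset.sum_congr rfl fun v hv => ?_
  rw [Set.Finite.mem_toFinset, mem_polePlaces] at hv
  rw [rmtPoleDiv_apply, max_eq_left (by omega)]

/-- `RmtCoord` from the fundamental identity at the poles. -/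
theorem rmt_coord_of_fund (hb : RmtBase K F) {t : F} (ht : IsCoordinate K F t)
    (hA3p : ∃ hfin : (polePlaces K F t).Finite,
        ∑ v ∈ hfin.toFinset, - v.ord t = (cdeg K F t : ℤ)) : RmtCoord hb t where
  transcendental := ht.transcendental
  finite := ht.finite
  pole_le := by
    obtain ⟨hfin, hsum⟩ := hA3p
    rw [rmt_degree_poleDiv hb t hfin, hsum]
    rfl

/-- characteristic zero: everything from S24x. -/
theorem rmt_base_of_isCoordinate [IsAlgClosed K] [CharZero K] {t : F}
    (ht : IsCoordinate K F t) : RmtBase K F :=
  rmt_base_of_fund (fun ht' c => sum_ord_placesOver ht' c) (fun ht' => sum_ord_polePlaces ht') ht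

theorem rmt_coord_of_isCoordinate [IsAlgClosed K] [CharZero K] {t : F}
    (ht : IsCoordinate K F t) : RmtCoord (rmt_base_of_isCoordinate ht) t :=
  rmt_coord_of_fund _ ht (sum_ord_polePlaces ht)

end Fermat.Agent.S18x
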