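/-
S18x/RmnCompare (helper95, RT block): comparison of the Riemann genera of two function fields
from dimension inequalities between Riemann-Roch spaces of divisors of equal (large) degree.
This is the last line of the "normality ⇒ genus equality" argument: the NRM/ONB squads only
have to deliver `dim L̄(t • B̄) ≤ dim L(t • B)` (resp. `≥`) for arbitrarily large `t`.
-/
import Fermat.Agent.S18x.RmnGreedy

set_option autoImplicit false

namespace Fermat.Agent.S18x

open AlgebraicCurve WithZero

variable {K F : Type*} [Field K] [Field F] [Algebra K F]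

/-- for divisors of large degree, `dim L(D) = deg D + 1 - g` -/
theorem rmn_finrank_eq_of_large (H : rmn_Hyp K F) (hB : rmn_Bound K F) :
    ∃ c : ℤ, ∀ D : Divisor K F, c ≤ Divisor.degree D →
      (Module.finrank K (riemannRochSpace D) : ℤ) = Divisor.degree D + 1 - rmn_genus K F := by
  obtain ⟨c, hc⟩ := rmn_delta_eq_of_large H hB
  refine ⟨c, fun D hD => ?_⟩
  have := hc D hD
  rw [rmn_delta] at this
  omega

/-- **comparison of genera, pair form**: if there are divisors `D` on `F` and `Db` on `Fb` of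
equal, arbitrarily large degree with `dim L(Db) ≤ dim L(D)`, then `g(F) ≤ g(Fb)`. -/
theorem rmn_genus_le_of_pairs {k Fb : Type*} [Field k] [Field Fb] [Algebra k Fb]
    (H : rmn_Hyp K F) (hB : rmn_Bound K F) (Hb : rmn_Hyp k Fb) (hBb : rmn_Bound k Fb)
    (hle : ∀ c : ℤ, ∃ (D : Divisor K F) (Db : Divisor k Fb), c ≤ Divisor.degree D ∧
      Divisor.degree D = Divisor.degree Db ∧
      Module.finrank k (riemannRochSpace Db) ≤ Module.finrank K (riemannRochSpace D)) :
    rmn_genus K F ≤ rmn_genus k Fb := by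
  obtain ⟨c₁, h₁⟩ := rmn_finrank_eq_of_large H hB
  obtain ⟨c₂, h₂⟩ := rmn_finrank_eq_of_large Hb hBb
  obtain ⟨D, Db, hc, hdeg, hdim⟩ := hle (max c₁ c₂)
  have e₁ := h₁ D (le_trans (le_max_left _ _) hc)
  have e₂ := h₂ Db (hdeg ▸ le_trans (le_max_right _ _) hc)
  have : (Module.finrank k (riemannRochSpace Db) : ℤ) ≤
      Module.finrank K (riemannRochSpace D) := by exact_mod_cast hdim
  have : (rmn_genus K F : ℤ) ≤ rmn_genus k Fb := by omega
  exact_mod_cast this

theorem rmn_degree_nsmul (B : Divisor K F) (n : ℕ) :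
    Divisor.degree (n • B) = n * Divisor.degree B := by
  rw [map_nsmul, nsmul_eq_mul]

/-- along the multiples of a divisor of positive degree, `dim L(n • B) = n deg B + 1 - g`
for large `n` -/
theorem rmn_finrank_nsmul (H : rmn_Hyp K F) (hB : rmn_Bound K F) (B : Divisor K F)
    (hpos : 0 < Divisor.degree B) :
    ∃ c : ℕ, ∀ n : ℕ, c ≤ n →
      (Module.finrank K (riemannRochSpace (n • B)) : ℤ) =
        n * Divisor.degree B + 1 - rmn_genus K F := by
  obtain ⟨c, hc⟩ := rmn_finrank_eq_of_large H hB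
  refine ⟨c.toNat, fun n hn => ?_⟩
  have hdeg : c ≤ Divisor.degree (n • B) := by
    rw [rmn_degree_nsmul]
    have h1 := Int.self_le_toNat c
    have h2 : (c.toNat : ℤ) ≤ n := by exact_mod_cast hn
    have h3 : (n : ℤ) * 1 ≤ n * Divisor.degree B :=
      mul_le_mul_of_nonneg_left (by omega) (by positivity)
    omega
  have := hc _ hdeg
  rw [rmn_degree_nsmul] at this
  exact this

/-- **comparison of genera along multiples of a divisor**: `B` on `F`, `Bb` on `Fb` of the same
positive degree; if `dim L(n • Bb) ≤ dim L(n • B)` for arbitrarily large `n`, then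
`g(F) ≤ g(Fb)`. -/
theorem rmn_genus_le_of_finrank_nsmul_le {k Fb : Type*} [Field k] [Field Fb] [Algebra k Fb]
    (H : rmn_Hyp K F) (hB : rmn_Bound K F) (Hb : rmn_Hyp k Fb) (hBb : rmn_Bound k Fb)
    (B : Divisor K F) (Bb : Divisor k Fb) (hdeg : Divisor.degree B = Divisor.degree Bb)
    (hpos : 0 < Divisor.degree B)
    (hle : ∀ c : ℕ, ∃ n : ℕ, c ≤ n ∧
      Module.finrank k (riemannRochSpace (n • Bb)) ≤
        Module.finrank K (riemannRochSpace (n • B))) :
    rmn_genus K F ≤ rmn_genus k Fb := by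
  apply rmn_genus_le_of_pairs H hB Hb hBb
  intro c
  obtain ⟨n, hn, hdim⟩ := hle c.toNat
  refine ⟨n • B, n • Bb, ?_, ?_, hdim⟩
  · rw [rmn_degree_nsmul]
    have h1 := Int.self_le_toNat c
    have h2 : (c.toNat : ℤ) ≤ n := by exact_mod_cast hn
    have h3 : (n : ℤ) * 1 ≤ n * Divisor.degree B :=
      mul_le_mul_of_nonneg_left (by omega) (by positivity)
    omega
  · rw [rmn_degree_nsmul, rmn_degree_nsmul, hdeg]

/-- the symmetric statement: `dim L(n • B) ≤ dim L(n • Bb)` for arbitrarily large `n` gives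
`g(Fb) ≤ g(F)` (semicontinuity direction). -/
theorem rmn_genus_ge_of_finrank_nsmul_le {k Fb : Type*} [Field k] [Field Fb] [Algebra k Fb]
    (H : rmn_Hyp K F) (hB : rmn_Bound K F) (Hb : rmn_Hyp k Fb) (hBb : rmn_Bound k Fb)
    (B : Divisor K F) (Bb : Divisor k Fb) (hdeg : Divisor.degree B = Divisor.degree Bb)
    (hpos : 0 < Divisor.degree B)
    (hle : ∀ c : ℕ, ∃ n : ℕ, c ≤ n ∧
      Module.finrank K (riemannRochSpace (n • B)) ≤
        Module.finrank k (riemannRochSpace (n • Bb))) :
    rmn_genus k Fb ≤ rmn_genus K F :=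
  rmn_genus_le_of_finrank_nsmul_le Hb hBb H hB Bb B hdeg.symm (hdeg ▸ hpos) hle

/-- equality of genera from equality of dimensions along multiples -/
theorem rmn_genus_eq_of_finrank_nsmul_eq {k Fb : Type*} [Field k] [Field Fb] [Algebra k Fb]
    (H : rmn_Hyp K F) (hB : rmn_Bound K F) (Hb : rmn_Hyp k Fb) (hBb : rmn_Bound k Fb)
    (B : Divisor K F) (Bb : Divisor k Fb) (hdeg : Divisor.degree B = Divisor.degree Bb)
    (hpos : 0 < Divisor.degree B)
    (heq : ∀ c : ℕ, ∃ n : ℕ, c ≤ n ∧
      Module.finrank K (riemannRochSpace (n • B)) =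
        Module.finrank k (riemannRochSpace (n • Bb))) :
    rmn_genus K F = rmn_genus k Fb := by
  apply le_antisymm
  · exact rmn_genus_le_of_finrank_nsmul_le H hB Hb hBb B Bb hdeg hpos fun c => by
      obtain ⟨n, hn, h⟩ := heq c
      exact ⟨n, hn, h.ge⟩
  · exact rmn_genus_ge_of_finrank_nsmul_le H hB Hb hBb B Bb hdeg hpos fun c => by
      obtain ⟨n, hn, h⟩ := heq c
      exact ⟨n, hn, h.le⟩

end Fermat.Agent.S18x
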