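/-
S18x/RmnOfRmt (helper95, RT block): bridge between the two Riemann-theorem packages on main
(helper24's `RmtBase/RmtCoord` and helper95's `rmn_Hyp/rmn_Bound`), and the characteristic-zero
instances from S24x layer A; in particular for the S18 field `FBar N = modularFunctionFieldBar N`
over `Qbar`:  `rmn_hyp_FBar`, `rmn_bound_FBar`, `rmn_hRiem_FBar` (= item (I3) of the S18 DAG: the
`hRiem` input of `ts_injective`, with `g := rmn_genus Qbar (FBar N)`).
-/
import Fermat.Agent.S18x.RiemannOfCoord
import Fermat.Agent.S18x.RmnCoord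
import Fermat.Agent.S18x.RmnCompare
import Fermat.Agent.S24x.FBarFinite

set_option autoImplicit false

namespace Fermat.Agent.S18x

open AlgebraicCurve WithZero IntermediateField Fermat.Agent.S24x

variable {K F : Type*} [Field K] [Field F] [Algebra K F]

/-- helper24's base hypotheses give the hypothesis bundle `rmn_Hyp`. -/
theorem rmn_hyp_of_rmtBase (hb : RmtBase K F) : rmn_Hyp K F where
  eval P x hx := by
    rcases eq_or_ne x 0 with rfl | hx0
    · exact ⟨0, by simp⟩
    have hmem : x ∈ P.toValuationSubring := by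
      rw [pb_mem_iff P hx0]
      exact (P.adicValuation_le_one_iff.mp hx).resolve_left hx0
    obtain ⟨c, hc | hc⟩ := rmt_exists_residue hb P hmem
    · exact ⟨c, by rw [hc, sub_self, map_zero]; exact zero_lt_one⟩
    · refine ⟨c, (rmn_val_lt_one_iff P).mpr (Or.inr ?_)⟩
      omega
  hdeg P := rmt_deg_one hb P
  hpd x _ := ⟨rmtDiv hb x, fun P => rmtDiv_apply hb x P⟩
  hprin0 x Dx _ hDx := by
    have : Dx = rmtDiv hb x := by
      ext P
      rw [hDx P, rmtDiv_apply]
    rw [this, rmtDiv_degree]
  hconst y hy0 hy := by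
    have hmem : y ∈ rmtL (0 : Divisor K F) := by
      rw [rmt_mem_iff]
      intro v
      right
      simpa using hy v
    rw [rmtL_zero hb, Submodule.mem_span_singleton] at hmem
    obtain ⟨a, ha⟩ := hmem
    exact ⟨a, by rw [← ha, Algebra.algebraMap_eq_smul_one]⟩

/-- helper24's coordinate hypotheses give the linear bound `rmn_Bound`. -/
theorem rmn_bound_of_rmtCoord (hb : RmtBase K F) {x : F} (hc : RmtCoord hb x) :
    rmn_Bound K F := by
  have := hc.finite
  refine rmn_bound_of_coordinate' (rmn_hyp_of_rmtBase hb) hc.transcendental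
    (Dx := rmtDiv hb x) (fun P => rmtDiv_apply hb x P) ?_
  have e : rmn_pos (-rmtDiv hb x) = rmtPoleDiv hb x := by
    ext P
    rw [rmn_pos_apply, Finsupp.neg_apply, rmtDiv_apply, rmtPoleDiv_apply]
  rw [e]
  exact hc.pole_le

/-! ## characteristic zero: everything from S24x layer A -/

theorem rmn_hyp_of_isCoordinate [IsAlgClosed K] [CharZero K] {t : F}
    (ht : IsCoordinate K F t) : rmn_Hyp K F :=
  rmn_hyp_of_rmtBase (rmt_base_of_isCoordinate ht)

theorem rmn_bound_of_isCoordinate [IsAlgClosed K] [CharZero K] {t : F}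
    (ht : IsCoordinate K F t) : rmn_Bound K F :=
  rmn_bound_of_rmtCoord _ (rmt_coord_of_isCoordinate ht)

/-- **Riemann's inequality in `hRiem` shape, characteristic zero**: every divisor of degree
`≥ rmn_genus K F` has a nonzero section. -/
theorem rmn_hRiem_of_isCoordinate [IsAlgClosed K] [CharZero K] {t : F}
    (ht : IsCoordinate K F t) (G : Divisor K F)
    (hG : (rmn_genus K F : ℤ) ≤ Divisor.degree G) :
    ∃ x : F, x ≠ 0 ∧ x ∈ riemannRochSpace G :=
  rmn_hRiem (rmn_hyp_of_isCoordinate ht) (rmn_bound_of_isCoordinate ht) G hG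

/-! ## the S18 field -/

theorem rmn_hyp_FBar (N : ℕ) [NeZero N] : rmn_Hyp Qbar (FBar N) :=
  rmn_hyp_of_isCoordinate (fbf_isCoordinate_jBar N)

theorem rmn_bound_FBar (N : ℕ) [NeZero N] : rmn_Bound Qbar (FBar N) :=
  rmn_bound_of_isCoordinate (fbf_isCoordinate_jBar N)

/-- **(I3) of the S18 DAG**: the `hRiem` input of `ts_injective` for the modular function field
over `Qbar`, with `g := rmn_genus Qbar (FBar N)`. -/
theorem rmn_hRiem_FBar (N : ℕ) [NeZero N] (G : Divisor Qbar (FBar N))
    (hG : (rmn_genus Qbar (FBar N) : ℤ) ≤ Divisor.degree G) :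
    ∃ x : FBar N, x ≠ 0 ∧ x ∈ riemannRochSpace G :=
  rmn_hRiem_of_isCoordinate (fbf_isCoordinate_jBar N) G hG

/-- **(I4') target shape**: on the special fibre it suffices to bound `dim L̄(n • Bb)` by
`dim L(n • B)` for ONE large `n` (divisors of equal positive degree): then
`D₀ := n • Bb` satisfies `dim L̄(D₀) + g ≤ deg D₀ + 1` with `g = rmn_genus K F`
(the input `hD0` of helper4's `ns_ts_injective`). -/
theorem rmn_exists_D0 {k Fb : Type*} [Field k] [Field Fb] [Algebra k Fb]
    (H : rmn_Hyp K F) (hB : rmn_Bound K F) (B : Divisor K F) (Bb : Divisor k Fb)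
    (hdeg : Divisor.degree B = Divisor.degree Bb) (hpos : 0 < Divisor.degree B)
    (hle : ∀ c : ℕ, ∃ n : ℕ, c ≤ n ∧
      Module.finrank k (riemannRochSpace (n • Bb)) ≤
        Module.finrank K (riemannRochSpace (n • B))) :
    ∃ D₀ : Divisor k Fb,
      (Module.finrank k (riemannRochSpace D₀) : ℤ) + rmn_genus K F ≤ Divisor.degree D₀ + 1 := by
  obtain ⟨c, hc⟩ := rmn_finrank_nsmul H hB B hpos
  obtain ⟨n, hn, hdim⟩ := hle c
  refine ⟨n • Bb, ?_⟩
  have e := hc n hn
  have hdim' : (Module.finrank k (riemannRochSpace (n • Bb)) : ℤ) ≤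
      Module.finrank K (riemannRochSpace (n • B)) := by exact_mod_cast hdim
  rw [map_nsmul, nsmul_eq_mul, ← hdeg]
  omega

end Fermat.Agent.S18x
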