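/-
S18x/AssemblyFinal (helper80): S18 FROM ONE REMAINING INPUT.

Everything except the two-chart normality of the reduction of `X₀(N)` is now on main:
* (I1) `gi_W`, `gi_rho`, `gi_ts_Hyp`, `gi_rho_surj` (helper19),
* Riemann on `F_N/ℚ̄` (`rmn_hyp_FBar`, `rmn_bound_FBar`) and on `F̄_N/k` (`rmn_hyp_fb`, `rmn_bound_fb`),
  unramifiedness `unr_fb`, non-constancy `unr_fb_nonconst` (helper95, helper34, helper24),
* polar degrees `glu_hpol_assembly` (helper40), transfer + greedy (`ns_ts_injective`, helper4),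
* the last mile `nl_D0` and the torsion step `ts_injective` (helper80), wrapper `s18w_of_core`.

`s18f_result` proves the frozen S18 conclusion from `s18f_Normality N A h`, i.e.
  (N0)   every `yb ∈ F̄_N` regular off the poles of `j̄` is the reduction of some `u ∈ gi_W`
         regular off the poles of `j`,
  (Ninf) every `yb ∈ F̄_N` regular off the zeros of `j̄` is the reduction of some `u ∈ gi_W`
         regular off the zeros of `j`.
-/
import Fermat.Agent.S18x.Assembly
import Fermat.Agent.S18x.NlLift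
import Fermat.Agent.S18x.InstGaussFinal
import Fermat.Agent.S18x.RmnOfRmt
import Fermat.Agent.S18x.RmnFbar
import Fermat.Agent.S18x.GlueHpol

set_option autoImplicit false
set_option synthInstance.maxHeartbeats 400000

namespace Fermat.Agent.S18x

open AlgebraicCurve WithZero ModularCurve Fermat.Agent.S24x

section PolarDegree

variable {K F : Type*} [Field K] [Field F] [Algebra K F]

/-- degree of the polar divisor as the polar sum of the divisor of the function -/
theorem s18f_degree_polar (hdeg : ∀ P : Place K F, P.deg = 1) {x : F} (Dx : Divisor K F)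
    (hDx : ∀ P, Dx P = P.ord x) (B : Divisor K F) (hB : nl_IsPolar x B) :
    Divisor.degree B = ∑ P ∈ Dx.support, max (-(Dx P)) 0 := by
  classical
  rw [rmn_degree_eq_sum_of_deg hdeg, Finsupp.sum]
  have hsub : B.support ⊆ Dx.support := by
    intro P hP
    rw [Finsupp.mem_support_iff] at hP ⊢
    intro h0
    apply hP
    rw [hB P, ← hDx P, h0]
    simp
  have h1 : ∑ P ∈ Dx.support, max (-(Dx P)) 0 = ∑ P ∈ Dx.support, B P :=
    Finset.sum_congr rfl fun P _ => by rw [hB P, hDx P]
  rw [h1]
  exact Finset.sum_subset hsub fun P _ hP => Finsupp.notMem_support_iff.mp hP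

end PolarDegree

section Final

variable (N : ℕ) [NeZero N] (A : ValuationSubring (AlgebraicClosure ℚ))
  (h : ModularCurve.ReductionInputsModL A N)

/-- the inputs of helper19's Gauss package in the frozen setting -/
theorem s18f_inputs :
    gi_Inputs (N := N) (IsLocalRing.residue A) (placeReductionModL h) :=
  gi_Inputs_modL A N h (rmn_hyp_FBar N).hpd
    (fun x hx hord => (rmn_hyp_FBar N).hconst x hx (fun P => by rw [hord P]))

/-- the Gauss valuation ring of `F_N` -/
noncomputable abbrev s18f_W : ValuationSubring (modularFunctionFieldBar N) :=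
  gi_W (s18f_inputs N A h)

/-- the residue map onto the reduced function field -/
noncomputable abbrev s18f_rho :
    s18f_W N A h →+* modularFunctionFieldFullC (IsLocalRing.ResidueField A) N :=
  gi_rho (s18f_inputs N A h)

theorem s18f_hyp :
    ts_Hyp A (IsLocalRing.residue A) (s18f_W N A h) (s18f_rho N A h) (placeReductionModL h) :=
  gi_ts_Hyp (s18f_inputs N A h) (rmn_hyp_FBar N).eval

omit [NeZero N] in
theorem s18f_jBar_coe :
    ((jBar N : FBar N) : LaurentSeries (AlgebraicClosure ℚ)) =
      ga_iota A (qExpand A 1 (jqModC A)) := by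
  rw [coe_jBar]
  have h2 : coeffEmb (AlgebraicClosure ℚ) jq = qExpand (AlgebraicClosure ℚ) 1
      (jqModC (AlgebraicClosure ℚ)) := by
    rw [qExpand_one_apply, coeffEmb, ← jqModC_rat, coeffMap_jqModC]
  rw [h2]
  exact (gi_jqd_eq (A := A) 1).symm

theorem s18f_jBar_mem : jBar N ∈ s18f_W N A h := by
  show ((jBar N : FBar N) : LaurentSeries (AlgebraicClosure ℚ)) ∈ ga_W A (IsLocalRing.residue A)
  rw [s18f_jBar_coe N A]
  exact ga_iota_mem_W A _ _

/-- `j` as an element of the Gauss ring -/
noncomputable def s18f_J : s18f_W N A h := ⟨jBar N, s18f_jBar_mem N A h⟩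

theorem s18f_J_coe : ((s18f_J N A h : s18f_W N A h) : modularFunctionFieldBar N) = jBar N := rfl

theorem s18f_rho_J :
    s18f_rho N A h (s18f_J N A h) = pls_jb (IsLocalRing.ResidueField A) N := by
  apply Subtype.ext
  rw [gi_rho_coe]
  have h3 : gi_incl (s18f_inputs N A h) (s18f_J N A h) =
      ⟨ga_iota A (qExpand A 1 (jqModC A)), ga_iota_mem_W A _ _⟩ :=
    Subtype.ext (s18f_jBar_coe N A)
  rw [h3, ga_rho_iota]
  show coeffMap (IsLocalRing.residue A) (qExpand A 1 (jqModC A)) = jqModC _
  rw [coeffMap_qExpand, coeffMap_jqModC, qExpand_one_apply]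

/-- **THE ONE REMAINING INPUT**: normality of the reduction on the two charts of the `j`-line. -/
def s18f_Normality : Prop :=
  (∀ yb : modularFunctionFieldFullC (IsLocalRing.ResidueField A) N,
    (∀ Q : Place (IsLocalRing.ResidueField A)
        (modularFunctionFieldFullC (IsLocalRing.ResidueField A) N),
      0 ≤ Q.ord (pls_jb (IsLocalRing.ResidueField A) N) → 0 ≤ Q.ord yb) →
    ∃ u : s18f_W N A h, s18f_rho N A h u = yb ∧
      ∀ P : Place (AlgebraicClosure ℚ) (modularFunctionFieldBar N),
        0 ≤ P.ord (jBar N) → 0 ≤ P.ord (u : modularFunctionFieldBar N)) ∧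
  (∀ yb : modularFunctionFieldFullC (IsLocalRing.ResidueField A) N,
    (∀ Q : Place (IsLocalRing.ResidueField A)
        (modularFunctionFieldFullC (IsLocalRing.ResidueField A) N),
      Q.ord (pls_jb (IsLocalRing.ResidueField A) N) ≤ 0 → 0 ≤ Q.ord yb) →
    ∃ u : s18f_W N A h, s18f_rho N A h u = yb ∧
      ∀ P : Place (AlgebraicClosure ℚ) (modularFunctionFieldBar N),
        P.ord (jBar N) ≤ 0 → 0 ≤ P.ord (u : modularFunctionFieldBar N))

/-- **S18 from two-chart normality.** -/
theorem s18f_result {ℓ : ℕ} [Fact ℓ.Prime] (hℓN : ¬ ℓ ∣ N) (hA : A.LiesOverPrime ℓ)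
    (hnorm : s18f_Normality N A h)
    (m : ℕ) (hm : ¬ ℓ ∣ m) (z : ModularCurve.JZero N) (hmz : m • z = 0)
    (hz : ModularCurve.reductionModL A N z = 0) : z = 0 := by
  classical
  have hAC : IsAlgClosed (IsLocalRing.ResidueField A) := s18a_isAlgClosed_residue A
  have H := s18f_hyp N A h
  have HF := rmn_hyp_FBar N
  have hBF := rmn_bound_FBar N
  have Hb := rmn_hyp_fb (IsLocalRing.ResidueField A) N
  have hBb := rmn_bound_fb (IsLocalRing.ResidueField A) N
  have hρJ := s18f_rho_J N A h
  have hρJ0 : s18f_rho N A h (s18f_J N A h) ≠ 0 := by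
    rw [hρJ]
    intro h0
    exact unr_fb_nonconst (IsLocalRing.ResidueField A) N 0 (by rw [h0, map_zero])
  have hJ0 : ((s18f_J N A h : s18f_W N A h) : modularFunctionFieldBar N) ≠ 0 :=
    ts_ne_zero_of_rho_ne_zero hρJ0
  -- divisors of `j` and `j̄`
  obtain ⟨DJ, hDJ⟩ := HF.hpd _ hJ0
  obtain ⟨DJb, hDJb⟩ := Hb.hpd _ hρJ0
  obtain ⟨B, hB⟩ := nl_exists_polar _ DJ hDJ
  obtain ⟨Bb, hBbp⟩ := nl_exists_polar _ DJb hDJb
  have hpol := glu_hpol_assembly N hℓN A hA (s18f_W N A h) (s18f_rho N A h) (s18f_J N A h)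
    (s18f_J_coe N A h) (by rw [hρJ]; rfl) DJ hDJ DJb hDJb
  have hdegB := s18f_degree_polar HF.hdeg DJ hDJ B hB
  have hdegBb := s18f_degree_polar Hb.hdeg DJb hDJb Bb hBbp
  have hle : Divisor.degree B ≤ Divisor.degree Bb := by rw [hdegB, hdegBb]; exact hpol
  have hposB : 0 < Divisor.degree B := by
    rw [hdegB, glu_polar_degree_eq_cdeg (pls_isSepCoordinate_jBar N) DJ
      (fun P => by rw [hDJ P, s18f_J_coe])]
    have hfin : FiniteDimensional (IntermediateField.adjoin (AlgebraicClosure ℚ) {jBar N})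
        (FBar N) := (pls_isSepCoordinate_jBar N).coord.finite
    have : 0 < cdeg (AlgebraicClosure ℚ) (FBar N) (jBar N) := Module.finrank_pos
    exact_mod_cast this
  -- the genus inequality from normality
  obtain ⟨hN0, hNinf⟩ := hnorm
  obtain ⟨D₀, hD₀fin, hD₀⟩ := nl_D0 H HF hBF Hb hBb (s18f_J N A h) hρJ0 B hB hposB Bb hBbp hle
    (fun yb hyb => hN0 yb (fun Q hQ => hyb Q (by rw [hρJ]; exact hQ)))
    (fun yb hyb => hNinf yb (fun Q hQ => hyb Q (by rw [hρJ]; exact hQ)))
  -- the remaining inputs of the Assembly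
  obtain ⟨Sbad, hunr⟩ := unr_fb (IsLocalRing.ResidueField A) N
  obtain ⟨P₀, -⟩ : ∃ P₀ : Place (AlgebraicClosure ℚ) (modularFunctionFieldBar N), True := by
    by_contra hno
    push Not at hno
    have : B = 0 := by
      ext P
      exact (hno P).elim
    rw [this, map_zero] at hposB
    exact lt_irrefl _ hposB
  have G : s18a_Gauss A (IsLocalRing.residue A) (s18f_W N A h) (s18f_rho N A h)
      (placeReductionModL h) :=
    { mem_iff := H.mem_iff
      rho_alg := H.rho_alg
      pi_surj := H.pi_surj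
      ker := H.ker
      norm := H.norm
      compat := H.compat
      rho_surj := fun y _ => gi_rho_surj (s18f_inputs N A h) y
      hdegr := (isPlaceReductionModL_placeReductionModL h).1 }
  exact s18a_result_of_inputs N A hA h (s18f_W N A h) (s18f_rho N A h) G HF hBF P₀ D₀ hD₀fin hD₀
    (s18f_J N A h)
    (fun a => by rw [hρJ]; exact unr_fb_nonconst (IsLocalRing.ResidueField A) N a)
    DJ hDJ DJb hDJb hpol Sbad
    (fun Q hQ => by rw [hρJ]; exact hunr Q hQ)
    m hm z hmz hz

end Final

end Fermat.Agent.S18x
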