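/-
S18x/CuspConjExpl (helper72; N3 sub-row D of helper23's split; prefix `cce_`).

Pure formal-series statements on the "parameter form" conjugates `J(ζ t^m)` of `j`:
the difference of two such series is `t^(-max m m') * (unit power series)` as soon as
`(ζ, m) ≠ (ζ', m')` and, when `m = m'`, `ζ' - ζ` is a unit.  Everything is stated for an ARBITRARY
map `σ` having the coefficient behaviour of `f(q) ↦ f(ζ t^m)` (`cce_IsSubst`), so that it applies
verbatim to `pxs_subst` (helper81, S18x/PuiseuxSubst.lean) through `pxs_subst_coeff_mul` and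
`pxs_subst_coeff_of_not_dvd`.  Also: the power series version after multiplication by a common
factor `t^c * unit`, and `1 - ω^c` is a unit when `N` is invertible.
Imports: Mathlib + Prelude (`jqModC`) only.
-/
import Mathlib
import Fermat.Prelude.Def_ModularCurve_JqCoeff
import Fermat.Prelude.Thm_ModularCurve_coeff_jqModC_neg_one

set_option autoImplicit false

namespace Fermat.Agent.S18x

open HahnSeries ModularCurve

section General

variable {A : Type*} [CommRing A]

/-- coefficients of `t^n * (power series)` -/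
theorem cce_coeff_single_mul_ofPowerSeries (n : ℤ) (u : PowerSeries A) (k : ℤ) :
    (HahnSeries.single n (1 : A) * HahnSeries.ofPowerSeries ℤ A u).coeff k =
      if n ≤ k then PowerSeries.coeff (k - n).toNat u else 0 := by
  have hk : k = (k - n) + n := by ring
  rw [hk, HahnSeries.coeff_single_mul_add, one_mul]
  have hk' : k - n + n - n = k - n := by ring
  rw [hk']
  split_ifs with h
  · have h0 : 0 ≤ k - n := by omega
    obtain ⟨i, hi⟩ := Int.eq_ofNat_of_zero_le h0
    rw [hi, Int.toNat_natCast, HahnSeries.ofPowerSeries_apply_coeff]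
  · exact ofPowerSeries_coeff_of_neg u (by omega)

/-- the power series of coefficients from `n` on -/
noncomputable def cce_part (D : LaurentSeries A) (n : ℤ) : PowerSeries A :=
  PowerSeries.mk fun i => D.coeff (n + i)

theorem cce_coeff_part (D : LaurentSeries A) (n : ℤ) (i : ℕ) :
    PowerSeries.coeff i (cce_part D n) = D.coeff (n + i) := by
  rw [cce_part, PowerSeries.coeff_mk]

theorem cce_constantCoeff_part (D : LaurentSeries A) (n : ℤ) :
    PowerSeries.constantCoeff (cce_part D n) = D.coeff n := by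
  rw [← PowerSeries.coeff_zero_eq_constantCoeff_apply, cce_coeff_part]
  simp

/-- a Laurent series whose coefficients vanish below `n` is `t^n *` a power series. -/
theorem cce_eq_single_mul_part (D : LaurentSeries A) (n : ℤ) (h0 : ∀ k < n, D.coeff k = 0) :
    D = HahnSeries.single n (1 : A) * HahnSeries.ofPowerSeries ℤ A (cce_part D n) := by
  ext k
  rw [cce_coeff_single_mul_ofPowerSeries]
  split_ifs with h
  · rw [cce_coeff_part]
    congr 1
    have : ((k - n).toNat : ℤ) = k - n := Int.toNat_of_nonneg (by omega)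
    omega
  · exact h0 k (by omega)

/-- ... and the power series is a unit if the coefficient at `n` is. -/
theorem cce_exists_unit (D : LaurentSeries A) (n : ℤ) (h0 : ∀ k < n, D.coeff k = 0)
    (hn : IsUnit (D.coeff n)) :
    ∃ u : (PowerSeries A)ˣ,
      D = HahnSeries.single n (1 : A) * HahnSeries.ofPowerSeries ℤ A (u : PowerSeries A) := by
  have hu : IsUnit (cce_part D n) := by
    rw [PowerSeries.isUnit_iff_constantCoeff, cce_constantCoeff_part]
    exact hn
  exact ⟨hu.unit, cce_eq_single_mul_part D n h0⟩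

/-- a Laurent series without negative part is a power series -/
theorem cce_ofPowerSeries_part_zero (D : LaurentSeries A) (h0 : ∀ k < 0, D.coeff k = 0) :
    HahnSeries.ofPowerSeries ℤ A (cce_part D 0) = D := by
  have h := cce_eq_single_mul_part D 0 h0
  have h1 : HahnSeries.single (0 : ℤ) (1 : A) = 1 := rfl
  rw [h1, one_mul] at h
  exact h.symm

end General

/-! ### the series `J(ζ t^m)` -/

section Subst

variable {A : Type*} [CommRing A]

/-- `σ` acts on coefficients like the substitution `f(q) ↦ f(ζ t^m)`. -/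
structure cce_IsSubst (σ : LaurentSeries A → LaurentSeries A) (ζ : Aˣ) (m : ℕ) : Prop where
  coeff_mul : ∀ (f : LaurentSeries A) (n : ℤ),
    (σ f).coeff ((m : ℤ) * n) = ((ζ ^ n : Aˣ) : A) * f.coeff n
  coeff_of_not_dvd : ∀ (f : LaurentSeries A) (k : ℤ), ¬ (m : ℤ) ∣ k → (σ f).coeff k = 0

theorem cce_jq_coeff_of_lt {k : ℤ} (hk : k < -1) : (jqModC A).coeff k = 0 := by
  have hk' : k = (k + 1) + (-1) := by ring
  rw [jqModC, hk', HahnSeries.coeff_single_mul_add, one_mul]
  exact ofPowerSeries_coeff_of_neg _ (by omega)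

variable {σ σ' : LaurentSeries A → LaurentSeries A} {ζ ζ' : Aˣ} {m m' : ℕ}

/-- below `-m` the series `J(ζ t^m)` has no coefficients -/
theorem cce_subst_jq_coeff_of_lt (h : cce_IsSubst σ ζ m) (hm : 0 < m) {k : ℤ} (hk : k < -(m : ℤ)) :
    (σ (jqModC A)).coeff k = 0 := by
  by_cases hd : (m : ℤ) ∣ k
  · obtain ⟨n, rfl⟩ := hd
    rw [h.coeff_mul]
    have hn : n < -1 := by
      have hm' : (0 : ℤ) < m := by exact_mod_cast hm
      by_contra hcon
      rw [not_lt] at hcon
      have : (m : ℤ) * (-1) ≤ (m : ℤ) * n := mul_le_mul_of_nonneg_left hcon hm'.le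
      omega
    rw [cce_jq_coeff_of_lt hn, mul_zero]
  · exact h.coeff_of_not_dvd _ k hd

/-- the leading coefficient of `J(ζ t^m)` is `ζ⁻¹` -/
theorem cce_subst_jq_coeff_neg (h : cce_IsSubst σ ζ m) :
    (σ (jqModC A)).coeff (-(m : ℤ)) = ((ζ⁻¹ : Aˣ) : A) := by
  have : -(m : ℤ) = (m : ℤ) * (-1) := by ring
  rw [this, h.coeff_mul, coeff_jqModC_neg_one, mul_one, zpow_neg_one]

/-- difference of two parameter-form conjugates, case `m' < m`. -/
theorem cce_sub_of_lt (h : cce_IsSubst σ ζ m) (h' : cce_IsSubst σ' ζ' m') (hm' : 0 < m')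
    (hlt : m' < m) :
    ∃ u : (PowerSeries A)ˣ, σ (jqModC A) - σ' (jqModC A) =
      HahnSeries.single (-(m : ℤ)) (1 : A) * HahnSeries.ofPowerSeries ℤ A (u : PowerSeries A) := by
  have hm : 0 < m := hm'.trans hlt
  have hmm : -(m : ℤ) < -(m' : ℤ) := by
    have : (m' : ℤ) < m := by exact_mod_cast hlt
    omega
  refine cce_exists_unit _ _ (fun k hk => ?_) ?_
  · rw [HahnSeries.coeff_sub, cce_subst_jq_coeff_of_lt h hm hk,
      cce_subst_jq_coeff_of_lt h' hm' (hk.trans hmm), sub_zero]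
  · rw [HahnSeries.coeff_sub, cce_subst_jq_coeff_neg h,
      cce_subst_jq_coeff_of_lt h' hm' hmm, sub_zero]
    exact Units.isUnit _

/-- difference of two parameter-form conjugates, case `m = m'`, `ζ' - ζ` a unit. -/
theorem cce_sub_of_eq (h : cce_IsSubst σ ζ m) (h' : cce_IsSubst σ' ζ' m) (hm : 0 < m)
    (hu : IsUnit ((ζ' : A) - (ζ : A))) :
    ∃ u : (PowerSeries A)ˣ, σ (jqModC A) - σ' (jqModC A) =
      HahnSeries.single (-(m : ℤ)) (1 : A) * HahnSeries.ofPowerSeries ℤ A (u : PowerSeries A) := by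
  refine cce_exists_unit _ _ (fun k hk => ?_) ?_
  · rw [HahnSeries.coeff_sub, cce_subst_jq_coeff_of_lt h hm hk,
      cce_subst_jq_coeff_of_lt h' hm hk, sub_zero]
  · rw [HahnSeries.coeff_sub, cce_subst_jq_coeff_neg h, cce_subst_jq_coeff_neg h']
    have e : ((ζ⁻¹ : Aˣ) : A) - ((ζ'⁻¹ : Aˣ) : A) =
        ((ζ⁻¹ : Aˣ) : A) * ((ζ'⁻¹ : Aˣ) : A) * ((ζ' : A) - (ζ : A)) := by
      have h1 : ((ζ⁻¹ : Aˣ) : A) * (ζ : A) = 1 := by rw [← Units.val_mul, inv_mul_cancel, Units.val_one]
      have h2 : ((ζ'⁻¹ : Aˣ) : A) * (ζ' : A) = 1 := by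
        rw [← Units.val_mul, inv_mul_cancel, Units.val_one]
      calc ((ζ⁻¹ : Aˣ) : A) - ((ζ'⁻¹ : Aˣ) : A)
          = ((ζ⁻¹ : Aˣ) : A) * (((ζ'⁻¹ : Aˣ) : A) * (ζ' : A)) -
              ((ζ'⁻¹ : Aˣ) : A) * (((ζ⁻¹ : Aˣ) : A) * (ζ : A)) := by rw [h1, h2, mul_one, mul_one]
        _ = ((ζ⁻¹ : Aˣ) : A) * ((ζ'⁻¹ : Aˣ) : A) * ((ζ' : A) - (ζ : A)) := by ring
    rw [e]
    exact ((Units.isUnit _).mul (Units.isUnit _)).mul hu

/-- **difference of two parameter-form conjugates** (`(ζ,m) ≠ (ζ',m')`; when `m = m'` the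
difference `ζ' - ζ` is a unit): `J(ζ t^m) - J(ζ' t^m') = t^(-max m m') * unit`. -/
theorem cce_sub (h : cce_IsSubst σ ζ m) (h' : cce_IsSubst σ' ζ' m') (hm : 0 < m) (hm' : 0 < m')
    (hu : m = m' → IsUnit ((ζ' : A) - (ζ : A))) :
    ∃ u : (PowerSeries A)ˣ, σ (jqModC A) - σ' (jqModC A) =
      HahnSeries.single (-((max m m' : ℕ) : ℤ)) (1 : A) *
        HahnSeries.ofPowerSeries ℤ A (u : PowerSeries A) := by
  rcases lt_trichotomy m m' with hlt | heq | hgt
  · obtain ⟨u, hu'⟩ := cce_sub_of_lt h' h hm hlt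
    refine ⟨-u, ?_⟩
    rw [max_eq_right hlt.le, Units.val_neg, map_neg, mul_neg, ← hu', neg_sub]
  · subst heq
    rw [max_self]
    exact cce_sub_of_eq h h' hm (hu rfl)
  · rw [max_eq_left hgt.le]
    exact cce_sub_of_lt h h' hm' hgt

end Subst

/-! ### power series version, after multiplication by a common factor `t^c * unit` -/

section PowerSeriesVersion

variable {A : Type*} [CommRing A]

theorem cce_ofPowerSeries_X_pow (c : ℕ) :
    HahnSeries.ofPowerSeries ℤ A ((PowerSeries.X : PowerSeries A) ^ c) =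
      HahnSeries.single (c : ℤ) (1 : A) := by
  rw [HahnSeries.ofPowerSeries_X_pow]

variable {σ σ' : LaurentSeries A → LaurentSeries A} {ζ ζ' : Aˣ} {m m' : ℕ}

/-- `t^c * v * J(ζ t^m)` is a power series when `m ≤ c`. -/
theorem cce_common_mul_coeff_of_neg (h : cce_IsSubst σ ζ m) (hm : 0 < m) (c : ℕ) (hc : m ≤ c)
    (v : PowerSeries A) {k : ℤ} (hk : k < 0) :
    (HahnSeries.single (c : ℤ) (1 : A) * HahnSeries.ofPowerSeries ℤ A v *
      σ (jqModC A)).coeff k = 0 := by
  -- `σ J = t^(-m) * w`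
  have hw := cce_eq_single_mul_part (σ (jqModC A)) (-(m : ℤ))
    (fun k hk => cce_subst_jq_coeff_of_lt h hm hk)
  rw [hw]
  have e : HahnSeries.single (c : ℤ) (1 : A) * HahnSeries.ofPowerSeries ℤ A v *
      (HahnSeries.single (-(m : ℤ)) (1 : A) *
        HahnSeries.ofPowerSeries ℤ A (cce_part (σ (jqModC A)) (-(m : ℤ)))) =
      HahnSeries.single ((c : ℤ) + -(m : ℤ)) (1 : A) *
        HahnSeries.ofPowerSeries ℤ A (v * cce_part (σ (jqModC A)) (-(m : ℤ))) := by
    rw [map_mul, ← mul_one (1 : A), ← HahnSeries.single_mul_single, mul_one]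
    ring
  rw [e, cce_coeff_single_mul_ofPowerSeries, if_neg]
  have : (m : ℤ) ≤ c := by exact_mod_cast hc
  omega

/-- the power series `t^c * v * J(ζ t^m)` (`m ≤ c`) -/
noncomputable def cce_ps (σ : LaurentSeries A → LaurentSeries A) (c : ℕ) (v : PowerSeries A) :
    PowerSeries A :=
  cce_part (HahnSeries.single (c : ℤ) (1 : A) * HahnSeries.ofPowerSeries ℤ A v * σ (jqModC A)) 0

theorem cce_ofPowerSeries_ps (h : cce_IsSubst σ ζ m) (hm : 0 < m) (c : ℕ) (hc : m ≤ c)
    (v : PowerSeries A) :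
    HahnSeries.ofPowerSeries ℤ A (cce_ps σ c v) =
      HahnSeries.single (c : ℤ) (1 : A) * HahnSeries.ofPowerSeries ℤ A v * σ (jqModC A) :=
  cce_ofPowerSeries_part_zero _ fun _ hk => cce_common_mul_coeff_of_neg h hm c hc v hk

/-- **power series version** (helper35's shape (c)): after multiplying by the common factor
`t^c * v` (`v` a unit power series, `max m m' ≤ c`), the difference of two conjugates is
`X^(c - max m m') * unit`. -/
theorem cce_ps_sub (h : cce_IsSubst σ ζ m) (h' : cce_IsSubst σ' ζ' m') (hm : 0 < m) (hm' : 0 < m')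
    (hu : m = m' → IsUnit ((ζ' : A) - (ζ : A))) (c : ℕ) (hc : max m m' ≤ c)
    (v : (PowerSeries A)ˣ) :
    ∃ w : (PowerSeries A)ˣ, cce_ps σ c (v : PowerSeries A) - cce_ps σ' c (v : PowerSeries A) =
      (PowerSeries.X : PowerSeries A) ^ (c - max m m') * (w : PowerSeries A) := by
  obtain ⟨u, hsub⟩ := cce_sub h h' hm hm' hu
  refine ⟨v * u, ?_⟩
  apply HahnSeries.ofPowerSeries_injective (Γ := ℤ) (R := A)
  rw [map_sub, cce_ofPowerSeries_ps h hm c ((le_max_left m m').trans hc),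
    cce_ofPowerSeries_ps h' hm' c ((le_max_right m m').trans hc), ← mul_sub, hsub, map_mul,
    HahnSeries.ofPowerSeries_X_pow, Units.val_mul, map_mul]
  have hcast : ((c - max m m' : ℕ) : ℤ) = (c : ℤ) + -((max m m' : ℕ) : ℤ) := by
    rw [Nat.cast_sub hc]; ring
  rw [hcast, ← mul_one (1 : A), ← HahnSeries.single_mul_single, mul_one]
  ring

end PowerSeriesVersion

/-! ### units `1 - ω^c` -/

section Units

variable {A : Type*} [CommRing A] [IsDomain A]

/-- `1 - ω^c` is a unit when `ω` is a primitive `N`-th root of unity, `N` is invertible and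
`N ∤ c`. -/
theorem cce_isUnit_one_sub_pow {N : ℕ} {ω : A} (hω : IsPrimitiveRoot ω N) (hN : IsUnit (N : A))
    {c : ℕ} (hc : ¬ N ∣ c) : IsUnit (1 - ω ^ c) := by
  rcases Nat.eq_zero_or_pos N with rfl | hNpos
  · rw [Nat.cast_zero] at hN
    exact absurd hN not_isUnit_zero
  obtain ⟨n, rfl⟩ : ∃ n, N = n + 1 := ⟨N - 1, by omega⟩
  -- reduce `c` modulo `N`
  have hmod : ω ^ c = ω ^ (c % (n + 1)) := by
    conv_lhs => rw [← Nat.div_add_mod c (n + 1), _root_.pow_add, _root_.pow_mul, hω.pow_eq_one, one_pow, one_mul]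
  have hr0 : c % (n + 1) ≠ 0 := fun h0 => hc (Nat.dvd_of_mod_eq_zero h0)
  have hrlt : c % (n + 1) < n + 1 := Nat.mod_lt _ (Nat.succ_pos n)
  obtain ⟨k, hk⟩ : ∃ k, c % (n + 1) = k + 1 := ⟨c % (n + 1) - 1, by omega⟩
  have hkn : k ∈ Finset.range n := by rw [Finset.mem_range]; omega
  have hprod := hω.prod_one_sub_pow_eq_order
  have hdvd : (1 - ω ^ (k + 1)) ∣ ∏ i ∈ Finset.range n, (1 - ω ^ (i + 1)) :=
    Finset.dvd_prod_of_mem (fun i => 1 - ω ^ (i + 1)) hkn
  rw [hprod] at hdvd
  have hN' : IsUnit ((n : A) + 1) := by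
    have : ((n + 1 : ℕ) : A) = (n : A) + 1 := by push_cast; ring
    rwa [this] at hN
  rw [hmod, hk]
  exact isUnit_of_dvd_unit hdvd hN'

/-- two distinct `N`-th roots of unity differ by a unit when `N` is invertible (and the ring
contains a primitive `N`-th root of unity). -/
theorem cce_isUnit_sub_of_pow_eq_one {N : ℕ} [NeZero N] {ω : A} (hω : IsPrimitiveRoot ω N)
    (hN : IsUnit (N : A)) (ζ ζ' : Aˣ) (hζ : ζ ^ N = 1) (hζ' : ζ' ^ N = 1) (hne : ζ ≠ ζ') :
    IsUnit ((ζ' : A) - (ζ : A)) := by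
  -- `ξ = ζ' / ζ` is an `N`-th root of unity different from `1`
  set ξ : Aˣ := ζ' * ζ⁻¹ with hξ
  have hξN : (ξ : A) ^ N = 1 := by
    rw [← Units.val_pow_eq_pow_val, hξ, mul_pow, inv_pow, hζ, hζ', inv_one, mul_one, Units.val_one]
  obtain ⟨i, hiN, hi⟩ := hω.eq_pow_of_pow_eq_one hξN
  have hi0 : ¬ N ∣ i := by
    intro hd
    have hiz : i = 0 := Nat.eq_zero_of_dvd_of_lt hd hiN
    rw [hiz, pow_zero] at hi
    apply hne
    have h1 : ξ = 1 := Units.ext (by rw [← hi, Units.val_one])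
    rw [hξ, mul_inv_eq_one] at h1
    exact h1.symm
  have hunit := cce_isUnit_one_sub_pow hω hN hi0
  have e : (ζ' : A) - (ζ : A) = -((ζ : A) * (1 - ω ^ i)) := by
    rw [hi, hξ, Units.val_mul]
    have h1 : (ζ : A) * ((ζ' : A) * ((ζ⁻¹ : Aˣ) : A)) = (ζ' : A) := by
      rw [mul_comm (ζ' : A), ← mul_assoc, ← Units.val_mul, mul_inv_cancel, Units.val_one, one_mul]
    rw [mul_sub, mul_one, h1]
    ring
  rw [e]
  exact ((Units.isUnit ζ).mul hunit).neg

end Units

end Fermat.Agent.S18x
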