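/-
S18x/PuiseuxSubst (helper81; row N3a of the NRM block): the monomial substitution
`f(q) ↦ f(ζ · t^m)` on Laurent series over a commutative ring.  Prefix `pxs_`.
Imports: Mathlib + Prelude (`qExpand`, `coeffMap`, `jqModC`) only.

* `pxs_rescale R ζ : LaurentSeries R →+* LaurentSeries R`, `∑ aₙ qⁿ ↦ ∑ ζⁿ aₙ qⁿ` (`ζ : Rˣ`);
* `pxs_subst R ζ m = (qExpand R m).comp (pxs_rescale R ζ)`, i.e. `f(q) ↦ f(ζ t^m)`;
* coefficients, `C`, `single`, composition law, compatibility with `coeffMap`, injectivity,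
  order / leading coefficient, compatibility with two-variable polynomial relations
  (`pxs_subst_eval₂`), and the `j`-specific facts `pxs_subst_jq_order`, `pxs_subst_jq_coeff`,
  `pxs_subst_jq_injective`.
-/
import Mathlib
import Fermat.Prelude.Def_ModularCurve_X0
import Fermat.Prelude.Def_ModularCurve_LaurentCoeff
import Fermat.Prelude.Def_ModularCurve_JqCoeff
import Fermat.Prelude.Thm_ModularCurve_coeffMap_qExpand
import Fermat.Prelude.Thm_ModularCurve_coeff_jqModC_neg_one
import Fermat.Prelude.Thm_ModularCurve_coeff_jqModC_pow_of_lt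
import Fermat.Prelude.Def_ModularCurve_X0ModL

set_option autoImplicit false

namespace Fermat.Agent.S18x

open ModularCurve HahnSeries

noncomputable section

section Rescale

variable (R : Type*) [CommRing R]

/-- `∑ aₙ qⁿ ↦ ∑ ζⁿ aₙ qⁿ` as a function. -/
def pxs_rescaleFun (ζ : Rˣ) (x : LaurentSeries R) : LaurentSeries R :=
  ⟨fun n => ((ζ ^ n : Rˣ) : R) * x.coeff n, x.isPWO_support.mono (by
    intro n hn
    rw [Function.mem_support] at hn
    rw [HahnSeries.mem_support]
    exact right_ne_zero_of_mul hn)⟩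

variable {R}

theorem pxs_rescaleFun_coeff (ζ : Rˣ) (x : LaurentSeries R) (n : ℤ) :
    (pxs_rescaleFun R ζ x).coeff n = ((ζ ^ n : Rˣ) : R) * x.coeff n := rfl

theorem pxs_rescaleFun_support (ζ : Rˣ) (x : LaurentSeries R) :
    (pxs_rescaleFun R ζ x).support = x.support := by
  ext n
  rw [HahnSeries.mem_support, HahnSeries.mem_support, pxs_rescaleFun_coeff]
  exact not_congr (Units.mul_right_eq_zero _)

variable (R)

/-- the substitution `q ↦ ζ q` as a ring endomorphism of `R((q))`. -/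
def pxs_rescale (ζ : Rˣ) : LaurentSeries R →+* LaurentSeries R where
  toFun := pxs_rescaleFun R ζ
  map_one' := by
    ext n
    rw [pxs_rescaleFun_coeff, HahnSeries.coeff_one]
    split_ifs with h
    · rw [h]; simp
    · simp
  map_mul' x y := by
    ext n
    rw [pxs_rescaleFun_coeff, HahnSeries.coeff_mul, HahnSeries.coeff_mul, Finset.mul_sum]
    have hset : Finset.antidiagonal (pxs_rescaleFun R ζ x).isPWO_support
        (pxs_rescaleFun R ζ y).isPWO_support n =
        Finset.antidiagonal x.isPWO_support y.isPWO_support n := by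
      ext ij
      simp only [Finset.mem_antidiagonal, pxs_rescaleFun_support]
    rw [hset]
    refine Finset.sum_congr rfl fun ij hij => ?_
    rw [Finset.mem_antidiagonal] at hij
    rw [pxs_rescaleFun_coeff, pxs_rescaleFun_coeff, ← hij.2.2, zpow_add, Units.val_mul]
    ring
  map_zero' := by
    ext n
    rw [pxs_rescaleFun_coeff]
    simp
  map_add' x y := by
    ext n
    rw [HahnSeries.coeff_add, pxs_rescaleFun_coeff, pxs_rescaleFun_coeff, pxs_rescaleFun_coeff,
      HahnSeries.coeff_add, mul_add]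

variable {R}

@[simp]
theorem pxs_rescale_coeff (ζ : Rˣ) (x : LaurentSeries R) (n : ℤ) :
    (pxs_rescale R ζ x).coeff n = ((ζ ^ n : Rˣ) : R) * x.coeff n := rfl

theorem pxs_rescale_one (x : LaurentSeries R) : pxs_rescale R 1 x = x := by
  ext n; simp

theorem pxs_rescale_rescale (ζ ζ' : Rˣ) (x : LaurentSeries R) :
    pxs_rescale R ζ' (pxs_rescale R ζ x) = pxs_rescale R (ζ * ζ') x := by
  ext n
  rw [pxs_rescale_coeff, pxs_rescale_coeff, pxs_rescale_coeff, mul_zpow, Units.val_mul]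
  ring

theorem pxs_rescale_single (ζ : Rˣ) (n : ℤ) (r : R) :
    pxs_rescale R ζ (HahnSeries.single n r) = HahnSeries.single n (((ζ ^ n : Rˣ) : R) * r) := by
  ext k
  rw [pxs_rescale_coeff]
  rcases eq_or_ne k n with rfl | hk
  · rw [HahnSeries.coeff_single_same, HahnSeries.coeff_single_same]
  · rw [HahnSeries.coeff_single_of_ne hk, HahnSeries.coeff_single_of_ne hk, mul_zero]

theorem pxs_rescale_C (ζ : Rˣ) (r : R) :
    pxs_rescale R ζ (HahnSeries.C r) = HahnSeries.C r := by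
  rw [HahnSeries.C_apply, pxs_rescale_single, zpow_zero, Units.val_one, one_mul]

theorem pxs_rescale_injective (ζ : Rˣ) : Function.Injective (pxs_rescale R ζ) := by
  intro x y h
  ext n
  have := congrArg (fun z => z.coeff n) h
  simp only [pxs_rescale_coeff] at this
  exact (Units.mul_right_inj _).mp this

end Rescale

section Subst

variable (R : Type*) [CommRing R]

/-- The monomial substitution `f(q) ↦ f(ζ · t^m)`. -/
def pxs_subst (ζ : Rˣ) (m : ℕ) [NeZero m] : LaurentSeries R →+* LaurentSeries R :=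
  (qExpand R m).comp (pxs_rescale R ζ)

variable {R}

theorem pxs_subst_apply (ζ : Rˣ) (m : ℕ) [NeZero m] (f : LaurentSeries R) :
    pxs_subst R ζ m f = qExpand R m (pxs_rescale R ζ f) := rfl

theorem pxs_subst_coeff_mul (ζ : Rˣ) (m : ℕ) [NeZero m] (f : LaurentSeries R) (n : ℤ) :
    (pxs_subst R ζ m f).coeff ((m : ℤ) * n) = ((ζ ^ n : Rˣ) : R) * f.coeff n := by
  rw [pxs_subst_apply, qExpand_coeff_mul, pxs_rescale_coeff]

theorem pxs_subst_coeff_of_not_dvd (ζ : Rˣ) (m : ℕ) [NeZero m] (f : LaurentSeries R) {n : ℤ}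
    (h : ¬ (m : ℤ) ∣ n) : (pxs_subst R ζ m f).coeff n = 0 := by
  rw [pxs_subst_apply]
  exact qExpand_coeff_of_not_dvd m _ h

theorem pxs_subst_one_left (m : ℕ) [NeZero m] : pxs_subst R 1 m = qExpand R m := by
  ext f : 1
  rw [pxs_subst_apply, pxs_rescale_one]

theorem pxs_subst_one_right (ζ : Rˣ) : pxs_subst R ζ 1 = pxs_rescale R ζ := by
  ext f : 1
  rw [pxs_subst_apply, qExpand_one_apply]

theorem pxs_subst_C (ζ : Rˣ) (m : ℕ) [NeZero m] (r : R) :
    pxs_subst R ζ m (HahnSeries.C r) = HahnSeries.C r := by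
  rw [pxs_subst_apply, pxs_rescale_C, qExpand_C]

theorem pxs_subst_single (ζ : Rˣ) (m : ℕ) [NeZero m] (n : ℤ) (r : R) :
    pxs_subst R ζ m (HahnSeries.single n r) =
      HahnSeries.single ((m : ℤ) * n) (((ζ ^ n : Rˣ) : R) * r) := by
  rw [pxs_subst_apply, pxs_rescale_single, qExpand_single]

/-- `q ↦ ζ q` and `q ↦ q^m` commute up to `ζ ↦ ζ^m`. -/
theorem pxs_rescale_qExpand (ζ : Rˣ) (m : ℕ) [NeZero m] (f : LaurentSeries R) :
    pxs_rescale R ζ (qExpand R m f) = qExpand R m (pxs_rescale R (ζ ^ m) f) := by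
  ext k
  by_cases hk : (m : ℤ) ∣ k
  · obtain ⟨n, rfl⟩ := hk
    rw [pxs_rescale_coeff, qExpand_coeff_mul, qExpand_coeff_mul, pxs_rescale_coeff,
      ← zpow_natCast ζ m, ← zpow_mul]
  · rw [pxs_rescale_coeff, qExpand_coeff_of_not_dvd m _ hk, qExpand_coeff_of_not_dvd m _ hk,
      mul_zero]

/-- **Composition law**: `f(ζ q^m)` followed by `q := ζ' t^m'` is `f(ζ ζ'^m t^(m m'))`. -/
theorem pxs_subst_subst (ζ ζ' : Rˣ) (m m' : ℕ) [NeZero m] [NeZero m'] [NeZero (m * m')]
    (f : LaurentSeries R) :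
    pxs_subst R ζ' m' (pxs_subst R ζ m f) = pxs_subst R (ζ * ζ' ^ m) (m * m') f := by
  rw [pxs_subst_apply, pxs_subst_apply, pxs_subst_apply, pxs_rescale_qExpand, qExpand_qExpand,
    pxs_rescale_rescale]
  exact qExpand_congr (mul_comm m' m) _

theorem pxs_subst_comp (ζ ζ' : Rˣ) (m m' : ℕ) [NeZero m] [NeZero m'] [NeZero (m * m')] :
    (pxs_subst R ζ' m').comp (pxs_subst R ζ m) = pxs_subst R (ζ * ζ' ^ m) (m * m') :=
  RingHom.ext fun f => pxs_subst_subst ζ ζ' m m' f

/-- compatibility with change of coefficients -/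
theorem pxs_coeffMap_rescale {S : Type*} [CommRing S] (φ : R →+* S) (ζ : Rˣ)
    (f : LaurentSeries R) :
    coeffMap φ (pxs_rescale R ζ f) = pxs_rescale S (Units.map (φ : R →* S) ζ) (coeffMap φ f) := by
  ext n
  rw [coeffMap_coeff, pxs_rescale_coeff, pxs_rescale_coeff, coeffMap_coeff, map_mul,
    ← map_zpow, Units.coe_map]
  rfl

theorem pxs_coeffMap_subst {S : Type*} [CommRing S] (φ : R →+* S) (ζ : Rˣ) (m : ℕ) [NeZero m]
    (f : LaurentSeries R) :
    coeffMap φ (pxs_subst R ζ m f) =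
      pxs_subst S (Units.map (φ : R →* S) ζ) m (coeffMap φ f) := by
  rw [pxs_subst_apply, pxs_subst_apply, coeffMap_qExpand, pxs_coeffMap_rescale]

theorem pxs_subst_injective (ζ : Rˣ) (m : ℕ) [NeZero m] :
    Function.Injective (pxs_subst R ζ m) :=
  (qExpand_injective m).comp (pxs_rescale_injective ζ)

theorem pxs_subst_ne_zero (ζ : Rˣ) (m : ℕ) [NeZero m] {f : LaurentSeries R} (hf : f ≠ 0) :
    pxs_subst R ζ m f ≠ 0 := fun h =>
  hf (pxs_subst_injective ζ m (by rw [h, map_zero]))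

/-- order of `f(ζ t^m)` -/
theorem pxs_subst_order (ζ : Rˣ) (m : ℕ) [NeZero m] {f : LaurentSeries R} (hf : f ≠ 0) :
    (pxs_subst R ζ m f).order = (m : ℤ) * f.order := by
  have hm : (0 : ℤ) < m := by exact_mod_cast Nat.pos_of_ne_zero (NeZero.ne m)
  have h1 : (pxs_subst R ζ m f).coeff ((m : ℤ) * f.order) ≠ 0 := by
    rw [pxs_subst_coeff_mul]
    intro h
    rw [Units.mul_right_eq_zero] at h
    exact hf (HahnSeries.coeff_order_eq_zero.mp h)
  refine le_antisymm (HahnSeries.order_le_of_coeff_ne_zero h1) ?_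
  by_contra hlt
  rw [not_le] at hlt
  have h2 : (pxs_subst R ζ m f).coeff (pxs_subst R ζ m f).order ≠ 0 := fun h =>
    pxs_subst_ne_zero ζ m hf (HahnSeries.coeff_order_eq_zero.mp h)
  by_cases hd : (m : ℤ) ∣ (pxs_subst R ζ m f).order
  · obtain ⟨n, hn⟩ := hd
    rw [hn, pxs_subst_coeff_mul] at h2
    have h3 : f.coeff n ≠ 0 := right_ne_zero_of_mul h2
    have h4 : f.order ≤ n := HahnSeries.order_le_of_coeff_ne_zero h3
    rw [hn] at hlt
    have := (mul_lt_mul_iff_of_pos_left hm).mp hlt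
    omega
  · exact h2 (pxs_subst_coeff_of_not_dvd ζ m f hd)

/-- leading coefficient of `f(ζ t^m)` -/
theorem pxs_subst_coeff_order (ζ : Rˣ) (m : ℕ) [NeZero m] {f : LaurentSeries R} (hf : f ≠ 0) :
    (pxs_subst R ζ m f).coeff (pxs_subst R ζ m f).order =
      ((ζ ^ f.order : Rˣ) : R) * f.coeff f.order := by
  rw [pxs_subst_order ζ m hf, pxs_subst_coeff_mul]

theorem pxs_subst_leadingCoeff (ζ : Rˣ) (m : ℕ) [NeZero m] {f : LaurentSeries R} (hf : f ≠ 0) :
    (pxs_subst R ζ m f).leadingCoeff = ((ζ ^ f.order : Rˣ) : R) * f.leadingCoeff := by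
  rw [HahnSeries.leadingCoeff_eq, HahnSeries.leadingCoeff_eq, pxs_subst_coeff_order ζ m hf]

/-- compatibility with two-variable polynomial relations -/
theorem pxs_subst_eval₂ (ζ : Rˣ) (m : ℕ) [NeZero m] (Φ : Polynomial (Polynomial R))
    (x y : LaurentSeries R) :
    pxs_subst R ζ m (Φ.eval₂ (Polynomial.aeval (R := R) y).toRingHom x) =
      Φ.eval₂ (Polynomial.aeval (R := R) (pxs_subst R ζ m y)).toRingHom (pxs_subst R ζ m x) := by
  rw [Polynomial.hom_eval₂]
  congr 1
  refine Polynomial.ringHom_ext (fun a => ?_) ?_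
  · simp only [RingHom.comp_apply, AlgHom.toRingHom_eq_coe, RingHom.coe_coe, Polynomial.aeval_C]
    rw [HahnSeries.algebraMap_apply']
    have h1 : algebraMap R (PowerSeries R) a = PowerSeries.C a := by simp
    rw [h1, HahnSeries.ofPowerSeries_C, pxs_subst_C]
  · simp only [RingHom.comp_apply, AlgHom.toRingHom_eq_coe, RingHom.coe_coe, Polynomial.aeval_X]

end Subst

section Jq

variable {K : Type*} [CommRing K] [Nontrivial K]

/-- the `q`-expansion of `j` has order `-1` -/
theorem pxs_order_jqModC : (jqModC K).order = -1 := by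
  have h1 : (jqModC K).coeff (-1) ≠ 0 := by
    rw [coeff_jqModC_neg_one]; exact one_ne_zero
  refine le_antisymm (HahnSeries.order_le_of_coeff_ne_zero h1) ?_
  by_contra hlt
  rw [not_le] at hlt
  have h2 : (jqModC K).coeff (jqModC K).order = 0 := coeff_jqModC_of_lt K hlt
  rw [HahnSeries.coeff_order_eq_zero] at h2
  rw [h2, HahnSeries.coeff_zero] at h1
  exact h1 rfl

/-- `J(ζ t^m)` has order `-m` -/
theorem pxs_subst_jq_order (ζ : Kˣ) (m : ℕ) [NeZero m] :
    (pxs_subst K ζ m (jqModC K)).order = -(m : ℤ) := by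
  rw [pxs_subst_order ζ m (jqModC_ne_zero_of_nontrivial K), pxs_order_jqModC, mul_neg, mul_one]

omit [Nontrivial K] in
/-- the leading coefficient of `J(ζ t^m)` is `ζ⁻¹` -/
theorem pxs_subst_jq_coeff (ζ : Kˣ) (m : ℕ) [NeZero m] :
    (pxs_subst K ζ m (jqModC K)).coeff (-(m : ℤ)) = ((ζ⁻¹ : Kˣ) : K) := by
  have h : -(m : ℤ) = (m : ℤ) * (-1) := by ring
  rw [h, pxs_subst_coeff_mul, coeff_jqModC_neg_one, mul_one, zpow_neg_one]

/-- coefficients of `J(ζ t^m)` below `-m` vanish -/
theorem pxs_subst_jq_coeff_of_lt (ζ : Kˣ) (m : ℕ) [NeZero m] {n : ℤ} (hn : n < -(m : ℤ)) :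
    (pxs_subst K ζ m (jqModC K)).coeff n = 0 := by
  apply HahnSeries.coeff_eq_zero_of_lt_order
  rw [pxs_subst_jq_order]; exact hn

omit [Nontrivial K] in
/-- the constant term of `J(ζ t^m)` is `744`, in the form: coefficient `0` is that of `j`. -/
theorem pxs_subst_jq_coeff_zero (ζ : Kˣ) (m : ℕ) [NeZero m] :
    (pxs_subst K ζ m (jqModC K)).coeff 0 = (jqModC K).coeff 0 := by
  have h : (0 : ℤ) = (m : ℤ) * 0 := by ring
  rw [h, pxs_subst_coeff_mul, zpow_zero, Units.val_one, one_mul, mul_zero]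

/-- the parameters `(ζ, m)` are determined by the series `J(ζ t^m)` -/
theorem pxs_subst_jq_injective {ζ ζ' : Kˣ} {m m' : ℕ} [NeZero m] [NeZero m']
    (h : pxs_subst K ζ m (jqModC K) = pxs_subst K ζ' m' (jqModC K)) : ζ = ζ' ∧ m = m' := by
  have h1 := congrArg HahnSeries.order h
  rw [pxs_subst_jq_order, pxs_subst_jq_order] at h1
  have hm : m = m' := by exact_mod_cast neg_injective h1
  subst hm
  refine ⟨?_, rfl⟩
  have h2 := congrArg (fun f => f.coeff (-(m : ℤ))) h
  simp only [pxs_subst_jq_coeff] at h2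
  exact inv_injective (Units.ext h2)

end Jq

end

end Fermat.Agent.S18x
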