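/-
S18x/CuspConjExplPxs (helper72; N3 sub-row D, second file; prefix `cce_`).

Instantiation of `S18x/CuspConjExpl.lean` at helper81's monomial substitution `pxs_subst`
(`f(q) ↦ f(ζ t^m)`, `S18x/PuiseuxSubst.lean`):
`J(ζ t^m) - J(ζ' t^m') = t^(-max m m') * (unit power series)` and its power series version.
-/
import Mathlib
import Fermat.Agent.S18x.PuiseuxSubst
import Fermat.Agent.S18x.CuspConjExpl

set_option autoImplicit false

namespace Fermat.Agent.S18x

open HahnSeries ModularCurve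

section

variable {A : Type*} [CommRing A]

/-- `pxs_subst A ζ m` has the coefficient behaviour `cce_IsSubst`. -/
theorem cce_isSubst_pxs (ζ : Aˣ) (m : ℕ) [NeZero m] :
    cce_IsSubst (fun f => pxs_subst A ζ m f) ζ m where
  coeff_mul f n := pxs_subst_coeff_mul ζ m f n
  coeff_of_not_dvd f _ hk := pxs_subst_coeff_of_not_dvd ζ m f hk

/-- **difference of two parameter-form conjugates of `j`**:
`J(ζ t^m) - J(ζ' t^m') = t^(-max m m') * unit` as soon as `ζ' - ζ` is a unit when `m = m'`. -/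
theorem cce_pxs_sub (ζ ζ' : Aˣ) (m m' : ℕ) [NeZero m] [NeZero m']
    (hu : m = m' → IsUnit ((ζ' : A) - (ζ : A))) :
    ∃ u : (PowerSeries A)ˣ,
      pxs_subst A ζ m (jqModC A) - pxs_subst A ζ' m' (jqModC A) =
        HahnSeries.single (-((max m m' : ℕ) : ℤ)) (1 : A) *
          HahnSeries.ofPowerSeries ℤ A (u : PowerSeries A) :=
  cce_sub (cce_isSubst_pxs ζ m) (cce_isSubst_pxs ζ' m') (NeZero.pos m) (NeZero.pos m') hu

/-- over a field: distinct parameters `(ζ, m) ≠ (ζ', m')` suffice. -/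
theorem cce_pxs_sub_field {K : Type*} [Field K] (ζ ζ' : Kˣ) (m m' : ℕ) [NeZero m] [NeZero m']
    (hne : ¬ (ζ = ζ' ∧ m = m')) :
    ∃ u : (PowerSeries K)ˣ,
      pxs_subst K ζ m (jqModC K) - pxs_subst K ζ' m' (jqModC K) =
        HahnSeries.single (-((max m m' : ℕ) : ℤ)) (1 : K) *
          HahnSeries.ofPowerSeries ℤ K (u : PowerSeries K) := by
  refine cce_pxs_sub ζ ζ' m m' fun hmm => ?_
  have hζ : ζ ≠ ζ' := fun h => hne ⟨h, hmm⟩
  rw [isUnit_iff_ne_zero, sub_ne_zero]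
  exact fun h => hζ (Units.ext h.symm)

/-- the order of the difference of two parameter-form conjugates is `-max m m'`. -/
theorem cce_pxs_sub_order [Nontrivial A] (ζ ζ' : Aˣ) (m m' : ℕ) [NeZero m] [NeZero m']
    (hu : m = m' → IsUnit ((ζ' : A) - (ζ : A))) :
    (pxs_subst A ζ m (jqModC A) - pxs_subst A ζ' m' (jqModC A)).coeff
        (-((max m m' : ℕ) : ℤ)) ≠ 0 ∧
      ∀ k : ℤ, k < -((max m m' : ℕ) : ℤ) →
        (pxs_subst A ζ m (jqModC A) - pxs_subst A ζ' m' (jqModC A)).coeff k = 0 := by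
  obtain ⟨u, hu'⟩ := cce_pxs_sub ζ ζ' m m' hu
  rw [hu']
  refine ⟨?_, fun k hk => ?_⟩
  · rw [cce_coeff_single_mul_ofPowerSeries, if_pos le_rfl, sub_self, Int.toNat_zero,
      PowerSeries.coeff_zero_eq_constantCoeff_apply]
    have := (PowerSeries.isUnit_iff_constantCoeff.mp u.isUnit)
    exact this.ne_zero
  · rw [cce_coeff_single_mul_ofPowerSeries, if_neg (not_le.mpr hk)]

/-- the power series `t^c * v * J(ζ t^m)` (`m ≤ c`) for `pxs_subst`. -/
noncomputable def cce_pxs_ps (ζ : Aˣ) (m : ℕ) [NeZero m] (c : ℕ) (v : PowerSeries A) :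
    PowerSeries A :=
  cce_ps (fun f => pxs_subst A ζ m f) c v

theorem cce_ofPowerSeries_pxs_ps (ζ : Aˣ) (m : ℕ) [NeZero m] (c : ℕ) (hc : m ≤ c)
    (v : PowerSeries A) :
    HahnSeries.ofPowerSeries ℤ A (cce_pxs_ps ζ m c v) =
      HahnSeries.single (c : ℤ) (1 : A) * HahnSeries.ofPowerSeries ℤ A v *
        pxs_subst A ζ m (jqModC A) :=
  cce_ofPowerSeries_ps (cce_isSubst_pxs ζ m) (NeZero.pos m) c hc v

/-- **power series version** (shape (c) of N7): `yc i - yc i' = X^e * unit`, where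
`yc = t^c * v * J(ζ t^m)` and `e = c - max m m'`. -/
theorem cce_pxs_ps_sub (ζ ζ' : Aˣ) (m m' : ℕ) [NeZero m] [NeZero m']
    (hu : m = m' → IsUnit ((ζ' : A) - (ζ : A))) (c : ℕ) (hc : max m m' ≤ c)
    (v : (PowerSeries A)ˣ) :
    ∃ w : (PowerSeries A)ˣ,
      cce_pxs_ps ζ m c (v : PowerSeries A) - cce_pxs_ps ζ' m' c (v : PowerSeries A) =
        (PowerSeries.X : PowerSeries A) ^ (c - max m m') * (w : PowerSeries A) :=
  cce_ps_sub (cce_isSubst_pxs ζ m) (cce_isSubst_pxs ζ' m') (NeZero.pos m) (NeZero.pos m') hu c hc v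

end

end Fermat.Agent.S18x
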