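/-
S18 project, block NRM, row N3 (helper23): **parameter form of the embeddings of `F_N` into the
Puiseux field**.  For fields `k ⊆ K` (`K` containing a primitive `N`-th root of unity), every
ring hom `τ` from `F_N(k) = k(j(q^d) : d ∣ N) ⊆ k((q))` into a field `Ω` lying over
`k(j) → K((t)) → Ω`, `j ↦ J(t^N)`, sends `j(q^d)` to `J(ζ t^m)` with `ζ^d = 1`, `(N/d) ∣ m`.
-/
import Mathlib
import Fermat.Agent.S18x.PuiseuxSubst
import Fermat.Agent.S28x.ModPoly
import Fermat.Agent.S28x.StepACore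

set_option autoImplicit false

namespace Fermat.Agent.S18x

open ModularCurve Polynomial Fermat.Agent.S28x

noncomputable section

universe u v

/-- roots of roots of unity inside `μ_N`. -/
theorem ccj_exists_root {K : Type*} [Field K] {N : ℕ} [NeZero N] {zN : K}
    (hzN : IsPrimitiveRoot zN N) {p d' : ℕ} (hpd : p * d' ∣ N) {ζ : Kˣ}
    (hζ : ζ ^ d' = 1) : ∃ ζ' : Kˣ, ζ' ^ p = ζ ∧ ζ' ^ (p * d') = 1 := by
  obtain ⟨c, hc⟩ := hpd
  have hN0 : N ≠ 0 := NeZero.ne N
  have hd'0 : d' ≠ 0 := by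
    rintro rfl
    simp at hc
    exact hN0 hc
  have hζN : (ζ : K) ^ N = 1 := by
    rw [← Units.val_pow_eq_pow_val, hc, mul_comm p d', mul_assoc, pow_mul, hζ, one_pow,
      Units.val_one]
  obtain ⟨i, -, hi⟩ := hzN.eq_pow_of_pow_eq_one hζN
  have h1 : zN ^ (i * d') = 1 := by
    rw [pow_mul, hi, ← Units.val_pow_eq_pow_val, hζ, Units.val_one]
  have h2 : N ∣ i * d' := (hzN.pow_eq_one_iff_dvd _).1 h1
  have h3 : p * c ∣ i := by
    rw [hc] at h2
    have : d' * (p * c) ∣ d' * i := by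
      convert h2 using 1 <;> ring
    exact (Nat.mul_dvd_mul_iff_left (Nat.pos_of_ne_zero hd'0)).1 this
  obtain ⟨i', hi'⟩ := h3
  set u : Kˣ := Units.mk0 zN (hzN.ne_zero hN0) with hu
  have hui : u ^ i = ζ := by
    apply Units.ext
    rw [Units.val_pow_eq_pow_val, hu, Units.val_mk0, hi]
  have key : (u ^ (c * i')) ^ p = ζ := by
    rw [← pow_mul, ← hui, hi']
    congr 1
    ring
  refine ⟨u ^ (c * i'), key, ?_⟩
  rw [pow_mul, key, hζ]

/-- the relation `Φ_p(j(q^{d'p}), j(q^{d'})) = 0` over any commutative ring. -/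
theorem ccj_rel (Φ : Polynomial (Polynomial ℤ)) (p : ℕ) [NeZero p]
    (hΦ1 : Φ.eval₂ (Polynomial.aeval (R := ℤ) jq).toRingHom (qExpand ℚ p jq) = 0)
    (R : Type*) [CommRing R] (d' : ℕ) [NeZero d'] [NeZero (d' * p)] :
    Φ.eval₂ (saEv R (qExpand R d' (jqModC R))) (qExpand R (d' * p) (jqModC R)) = 0 := by
  have h := sa_transfer Φ 1 p (by rw [← sa_aeval_int_eq, qExpand_one_apply]; exact hΦ1) R
  have h' := congrArg (qExpand R d') h
  rw [Polynomial.hom_eval₂, map_zero, qExpand_qExpand, qExpand_one_apply] at h'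
  have : (qExpand R d').comp (saEv R (jqModC R)) = saEv R (qExpand R d' (jqModC R)) :=
    sa_ringHom_ext_int (by simp [saEv_X])
  rw [this] at h'
  exact h'

/-- pushing an integral two-variable relation through a ring hom defined on an intermediate
field of `k((q))`. -/
theorem ccj_push {k : Type*} [Field k] {Ω : Type*} [Field Ω]
    (F : IntermediateField k (LaurentSeries k)) (τ : F →+* Ω) (Φ : Polynomial (Polynomial ℤ))
    (a b : F)
    (h : Φ.eval₂ (saEv k (a : LaurentSeries k)) (b : LaurentSeries k) = 0)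
    (g : Polynomial ℤ →+* Ω) (hg : g X = τ a) : Φ.eval₂ g (τ b) = 0 := by
  set gF : Polynomial ℤ →+* F := Polynomial.eval₂RingHom (Int.castRingHom F) a with hgF
  have h1 : (algebraMap F (LaurentSeries k)).comp gF = saEv k (a : LaurentSeries k) :=
    sa_ringHom_ext_int (by simp [hgF, saEv_X])
  have h2 : Φ.eval₂ gF b = 0 := by
    apply (algebraMap F (LaurentSeries k)).injective
    rw [Polynomial.hom_eval₂, h1, map_zero]
    exact h
  have h3 : τ.comp gF = g := sa_ringHom_ext_int (by simp [hgF, hg])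
  have h4 := congrArg τ h2
  rw [Polynomial.hom_eval₂, h3, map_zero] at h4
  exact h4

/-- **Sub-row N3b as a hypothesis** (the roots of `Φ_p(X, J(ζ t^{pm'}))` in any field extension
of the Puiseux field are `J(ζ^p t^{p·pm'})` and `J(ξ^b ζ' t^{m'})`, `ζ'^p = ζ`, `b < p`).  Proved
by helper10 in `S18x/CuspConjXFactor.lean` (`ccx_`); the unconditional statements are in
`S18x/CuspConjFinal.lean`. -/
def ccj_RootCases (K : Type u) [Field K] : Prop :=
  ∀ (p : ℕ) [Fact p.Prime] [NeZero p] (ξ : Kˣ), IsPrimitiveRoot ξ p →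
    ∀ (Φ : Polynomial (Polynomial K)), Φ.Monic → Φ.natDegree = p + 1 →
    Φ.eval₂ (Polynomial.aeval (jqModC K)).toRingHom (qExpand K p (jqModC K)) = 0 →
    Φ.eval₂ (Polynomial.aeval (qExpand K p (jqModC K))).toRingHom (jqModC K) = 0 →
    ∀ (ζ ζ' : Kˣ), ζ' ^ p = ζ → ∀ (m' : ℕ) [NeZero m'] [NeZero (p * m')] [NeZero (p * (p * m'))]
      {Ω : Type v} [Field Ω] (φ : LaurentSeries K →+* Ω) (x : Ω),
      Φ.eval₂ (φ.comp (Polynomial.aeval (pxs_subst K ζ (p * m') (jqModC K))).toRingHom) x = 0 →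
      x = φ (pxs_subst K (ζ ^ p) (p * (p * m')) (jqModC K)) ∨
        ∃ b : ℕ, b < p ∧ x = φ (pxs_subst K (ξ ^ b * ζ') m' (jqModC K))

variable {k : Type*} {K : Type u} {Ω : Type v} [Field k] [Field K] [Field Ω]

/-- **Parameter form of the embeddings** (induction over the divisors of `N`). -/
theorem ccj_param_aux (hRC : ccj_RootCases.{u, v} K) (N : ℕ) [NeZero N] (zN : K)
    (hzN : IsPrimitiveRoot zN N)
    (φ : LaurentSeries K →+* Ω) (τ : modularFunctionFieldFullC k N →+* Ω)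
    (hτj : τ ⟨jqModC k, jqModC_mem_full k N⟩ = φ (qExpand K N (jqModC K))) :
    ∀ (d : ℕ) (inst : NeZero d) (hd : d ∣ N), ∃ (ζ : Kˣ) (m : ℕ) (_ : NeZero m),
      ζ ^ d = 1 ∧ N / d ∣ m ∧
      τ ⟨qExpand k d (jqModC k), jqModCd_mem_full k N hd⟩ = φ (pxs_subst K ζ m (jqModC K)) := by
  intro d
  induction d using Nat.strong_induction_on with
  | _ d ih =>
    intro inst hd
    have hN0 : N ≠ 0 := NeZero.ne N
    have hd0 : d ≠ 0 := NeZero.ne d
    rcases eq_or_ne d 1 with rfl | hd1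
    · refine ⟨1, N, inferInstance, one_pow _, by simp, ?_⟩
      rw [pxs_subst_one_left, ← hτj]
      congr 1
      exact Subtype.ext (qExpand_one_apply _)
    · obtain ⟨p, hp, d', rfl⟩ : ∃ p : ℕ, p.Prime ∧ ∃ d' : ℕ, d = d' * p := by
        obtain ⟨c, hc⟩ := Nat.minFac_dvd d
        exact ⟨d.minFac, Nat.minFac_prime hd1, c, by rw [mul_comm]; exact hc⟩
      haveI : Fact p.Prime := ⟨hp⟩
      haveI : NeZero p := ⟨hp.ne_zero⟩
      have hd'0 : d' ≠ 0 := fun h => hd0 (by rw [h, zero_mul])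
      haveI : NeZero d' := ⟨hd'0⟩
      have hd'N : d' ∣ N := (Dvd.intro _ rfl).trans hd
      have hlt : d' < d' * p := by
        have := hp.two_le
        nlinarith [Nat.pos_of_ne_zero hd'0]
      obtain ⟨ζ₁, m₁, hm₁, hζ₁, hdiv₁, hτ₁⟩ := ih d' hlt inferInstance hd'N
      obtain ⟨c, hc⟩ := hd
      -- `N / d' = p * c`, `N / (d' * p) = c`
      have hNd' : N / d' = p * c := by
        rw [hc, mul_assoc]
        exact Nat.mul_div_cancel_left _ (Nat.pos_of_ne_zero hd'0)
      have hNd : N / (d' * p) = c := by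
        rw [hc]
        exact Nat.mul_div_cancel_left _ (Nat.pos_of_ne_zero hd0)
      rw [hNd'] at hdiv₁
      obtain ⟨m₂, rfl⟩ : p ∣ m₁ := (Dvd.intro _ rfl).trans hdiv₁
      have hm₂0 : m₂ ≠ 0 := fun h => (NeZero.ne (p * m₂)) (by rw [h, mul_zero])
      haveI : NeZero m₂ := ⟨hm₂0⟩
      haveI : NeZero (p * (p * m₂)) := ⟨mul_ne_zero hp.ne_zero (NeZero.ne _)⟩
      have hcm₂ : c ∣ m₂ := by
        have := hdiv₁
        exact (Nat.mul_dvd_mul_iff_left hp.pos).1 this
      -- roots of unity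
      obtain ⟨ζ₂, hζ₂, hζ₂d⟩ := ccj_exists_root hzN (p := p) (d' := d')
        (by rw [mul_comm]; exact ⟨c, hc⟩) hζ₁
      obtain ⟨c', hc'⟩ : p ∣ N := ⟨d' * c, by rw [hc]; ring⟩
      have hξK : IsPrimitiveRoot (zN ^ c') p :=
        hzN.pow (Nat.pos_of_ne_zero hN0) (by rw [hc', mul_comm])
      set ξ : Kˣ := Units.mk0 (zN ^ c') (hξK.ne_zero hp.ne_zero) with hξdef
      have hξ : IsPrimitiveRoot ξ p := by
        rw [← IsPrimitiveRoot.coe_units_iff, hξdef, Units.val_mk0]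
        exact hξK
      -- the modular polynomial
      obtain ⟨Φ, hΦm, hΦd, hΦ1, hΦ2⟩ := exists_modPoly p
      set ΦK : Polynomial (Polynomial K) :=
        Φ.map (Polynomial.mapRingHom (Int.castRingHom K)) with hΦK
      have h1K : ΦK.eval₂ (Polynomial.aeval (jqModC K)).toRingHom
          (qExpand K p (jqModC K)) = 0 := by
        rw [hΦK, sa_eval₂_map]
        have := sa_transfer Φ 1 p
          (by rw [← sa_aeval_int_eq, qExpand_one_apply]; exact hΦ1) K
        rwa [qExpand_one_apply] at this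
      have h2K : ΦK.eval₂ (Polynomial.aeval (qExpand K p (jqModC K))).toRingHom
          (jqModC K) = 0 := by
        rw [hΦK, sa_eval₂_map]
        have := sa_transfer Φ p 1
          (by rw [← sa_aeval_int_eq, qExpand_one_apply]; exact hΦ2) K
        rwa [qExpand_one_apply] at this
      -- the relation in `Ω`
      have hrel := ccj_rel Φ p hΦ1 k d'
      have hx : ΦK.eval₂ (φ.comp
          (Polynomial.aeval (pxs_subst K ζ₁ (p * m₂) (jqModC K))).toRingHom)
          (τ ⟨qExpand k (d' * p) (jqModC k), jqModCd_mem_full k N ⟨c, hc⟩⟩) = 0 := by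
        rw [hΦK, Polynomial.eval₂_map]
        refine ccj_push (modularFunctionFieldFullC k N) τ Φ
          ⟨qExpand k d' (jqModC k), jqModCd_mem_full k N hd'N⟩
          ⟨qExpand k (d' * p) (jqModC k), jqModCd_mem_full k N ⟨c, hc⟩⟩ hrel _ ?_
        rw [hτ₁]
        simp
      rcases hRC p ξ hξ ΦK (hΦm.map _) (by rw [hΦK, hΦm.natDegree_map, hΦd]) h1K h2K
        ζ₁ ζ₂ hζ₂ m₂ φ _ hx with h | ⟨b, -, h⟩
      · refine ⟨ζ₁ ^ p, p * (p * m₂), inferInstance, ?_, ?_, h⟩
        · rw [← pow_mul, mul_comm p, mul_assoc, pow_mul, hζ₁, one_pow]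
        · rw [hNd]
          exact hcm₂.trans ⟨p * p, by ring⟩
      · refine ⟨ξ ^ b * ζ₂, m₂, inferInstance, ?_, ?_, h⟩
        · rw [mul_pow, mul_comm d' p, hζ₂d, mul_one, ← pow_mul, mul_comm b, mul_assoc, pow_mul,
            hξ.pow_eq_one, one_pow]
        · rw [hNd]
          exact hcm₂

/-- **Parameter form of the embeddings of `F_N` into (extensions of) the Puiseux field.** -/
theorem ccj_param_of (hRC : ccj_RootCases.{u, v} K) (N : ℕ) [NeZero N] (zN : K)
    (hzN : IsPrimitiveRoot zN N) (φ : LaurentSeries K →+* Ω) (τ : modularFunctionFieldFullC k N →+* Ω)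
    (hτj : τ ⟨jqModC k, jqModC_mem_full k N⟩ = φ (qExpand K N (jqModC K)))
    (d : ℕ) [NeZero d] (hd : d ∣ N) :
    ∃ (ζ : Kˣ) (m : ℕ) (_ : NeZero m), ζ ^ d = 1 ∧ N / d ∣ m ∧
      τ ⟨qExpand k d (jqModC k), jqModCd_mem_full k N hd⟩ = φ (pxs_subst K ζ m (jqModC K)) :=
  ccj_param_aux hRC N zN hzN φ τ hτj d inferInstance hd

end

end Fermat.Agent.S18x
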