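/-
S18 project, block NRM, sub-row N3b (helper10, prefix `ccx_`): the roots of the modular polynomial
`Φ_p(X, J(ζ t^{p m'}))` in an arbitrary field extension of the Puiseux field.

`K` a field, `J = jqModC K`, `pxs_subst K ζ m : f(q) ↦ f(ζ t^m)` (helper81, `S18x/PuiseuxSubst`).
If `Φ ∈ K[Y][X]` is monic of degree `p + 1` in `X` with `Φ(J(q^p), J(q)) = 0 = Φ(J(q), J(q^p))`
(the two relations of `mpc_exists_modPoly_ring K p`), `ξ` is a primitive `p`-th root of unity and
`ζ'^p = ζ`, then in any field `Ω` with a ring hom `φ : K((t)) → Ω` the roots of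
`Φ(X, φ(J(ζ t^{p m'})))` are exactly the `p + 1` elements
`φ(J(ζ^p t^{p · p m'}))` and `φ(J(ξ^b ζ' t^{m'}))`, `b < p`.

Only the definition `pxs_subst` and its two coefficient lemmas are used from `PuiseuxSubst`.
-/
import Mathlib
import Fermat.Prelude.Def_ModularCurve_X0
import Fermat.Prelude.Def_ModularCurve_X0ModL
import Fermat.Prelude.Thm_ModularCurve_coeff_jqModC_neg_one
import Fermat.Agent.S18x.PuiseuxSubst

set_option autoImplicit false

open HahnSeries ModularCurve Polynomial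

namespace Fermat.Agent.S18x

noncomputable section

section general

variable {R : Type*} [CommRing R]

/-- `pxs_subst` fixes constants. -/
theorem ccx_subst_C (ζ : Rˣ) (m : ℕ) [NeZero m] (a : R) :
    pxs_subst R ζ m (HahnSeries.C a) = HahnSeries.C a := by
  ext n
  by_cases hn : (m : ℤ) ∣ n
  · obtain ⟨k, rfl⟩ := hn
    rw [pxs_subst_coeff_mul, HahnSeries.C_apply, HahnSeries.coeff_single, HahnSeries.coeff_single]
    have hm : (m : ℤ) ≠ 0 := by exact_mod_cast NeZero.ne m
    by_cases hk : k = 0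
    · subst hk
      simp
    · rw [if_neg hk, if_neg (mul_ne_zero hm hk), mul_zero]
  · rw [pxs_subst_coeff_of_not_dvd ζ m _ hn, HahnSeries.C_apply, HahnSeries.coeff_single, if_neg]
    rintro rfl
    exact hn (dvd_zero _)

theorem ccx_subst_algebraMap (ζ : Rˣ) (m : ℕ) [NeZero m] (a : R) :
    pxs_subst R ζ m (algebraMap R (LaurentSeries R) a) = algebraMap R (LaurentSeries R) a := by
  have h1 : algebraMap R (PowerSeries R) a = PowerSeries.C a := by simp
  rw [HahnSeries.algebraMap_apply', h1, HahnSeries.ofPowerSeries_C]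
  exact ccx_subst_C ζ m a

/-- `f(q^a)` followed by `q ↦ ζ t^m` is `f(ζ^a t^{a m})`. -/
theorem ccx_subst_qExpand (ζ : Rˣ) (m : ℕ) [NeZero m] (a : ℕ) [NeZero a] (f : LaurentSeries R) :
    pxs_subst R ζ m (qExpand R a f) = pxs_subst R (ζ ^ a) (a * m) f := by
  have hm : (m : ℤ) ≠ 0 := by exact_mod_cast NeZero.ne m
  have ha : (a : ℤ) ≠ 0 := by exact_mod_cast NeZero.ne a
  ext n
  by_cases hn : ((a * m : ℕ) : ℤ) ∣ n
  · obtain ⟨k, rfl⟩ := hn
    rw [pxs_subst_coeff_mul]
    have h1 : ((a * m : ℕ) : ℤ) * k = (m : ℤ) * ((a : ℤ) * k) := by push_cast; ring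
    rw [h1, pxs_subst_coeff_mul, qExpand_coeff_mul]
    congr 2
    rw [← zpow_natCast, ← zpow_mul]
  · rw [pxs_subst_coeff_of_not_dvd (ζ ^ a) (a * m) _ hn]
    by_cases hn' : (m : ℤ) ∣ n
    · obtain ⟨l, rfl⟩ := hn'
      rw [pxs_subst_coeff_mul]
      have hl : ¬ (a : ℤ) ∣ l := by
        rintro ⟨k, rfl⟩
        apply hn
        refine ⟨k, ?_⟩
        push_cast; ring
      rw [qExpand_coeff_of_not_dvd a f hl, mul_zero]
    · exact pxs_subst_coeff_of_not_dvd ζ m _ hn'

/-- transport of a two-variable polynomial relation along a ring hom `σ` of `R((q))` fixing the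
constants. -/
theorem ccx_hom_eval₂ {Om : Type*} [CommRing Om] (σ : LaurentSeries R →+* Om)
    (σ' : LaurentSeries R →+* LaurentSeries R)
    (hσ' : ∀ a : R, σ' (algebraMap R (LaurentSeries R) a) = algebraMap R (LaurentSeries R) a)
    (Φ : Polynomial (Polynomial R)) (y x : LaurentSeries R) :
    (σ.comp σ') (Φ.eval₂ (Polynomial.aeval y).toRingHom x) =
      Φ.eval₂ (σ.comp (Polynomial.aeval (σ' y)).toRingHom) (σ (σ' x)) := by
  rw [Polynomial.hom_eval₂]
  congr 1
  apply Polynomial.ringHom_ext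
  · intro a
    simp only [RingHom.comp_apply, AlgHom.toRingHom_eq_coe, RingHom.coe_coe, Polynomial.aeval_C]
    rw [hσ']
  · simp only [RingHom.comp_apply, AlgHom.toRingHom_eq_coe, RingHom.coe_coe, Polynomial.aeval_X]

end general

section jq

variable {K : Type*} [CommRing K]

/-- the coefficients of `J(ζ t^m)` below `-m` vanish -/
theorem ccx_subst_jq_coeff_of_lt (ζ : Kˣ) (m : ℕ) [NeZero m] {n : ℤ} (hn : n < -(m : ℤ)) :
    (pxs_subst K ζ m (jqModC K)).coeff n = 0 := by
  by_cases hd : (m : ℤ) ∣ n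
  · obtain ⟨k, rfl⟩ := hd
    rw [pxs_subst_coeff_mul]
    have hm : (0 : ℤ) < m := by exact_mod_cast Nat.pos_of_ne_zero (NeZero.ne m)
    have hk : k < -1 := by
      by_contra hk
      rw [not_lt] at hk
      nlinarith
    rw [coeff_jqModC_of_lt K hk, mul_zero]
  · exact pxs_subst_coeff_of_not_dvd ζ m _ hd

/-- the coefficient of `J(ζ t^m)` at `t^{-m}` is `ζ⁻¹` -/
theorem ccx_subst_jq_coeff_neg (ζ : Kˣ) (m : ℕ) [NeZero m] :
    (pxs_subst K ζ m (jqModC K)).coeff (-(m : ℤ)) = ((ζ⁻¹ : Kˣ) : K) := by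
  have h : -(m : ℤ) = (m : ℤ) * (-1) := by ring
  rw [h, pxs_subst_coeff_mul, coeff_jqModC_neg_one, mul_one, zpow_neg_one]

/-- `J(ζ t^m)` determines `(ζ, m)`. -/
theorem ccx_subst_jq_injective [Nontrivial K] {ζ ζ' : Kˣ} {m m' : ℕ} [NeZero m] [NeZero m']
    (h : pxs_subst K ζ m (jqModC K) = pxs_subst K ζ' m' (jqModC K)) : ζ = ζ' ∧ m = m' := by
  have hmm : m = m' := by
    rcases lt_trichotomy m m' with hlt | heq | hgt
    · exfalso
      have h1 := ccx_subst_jq_coeff_of_lt (K := K) ζ m (n := -(m' : ℤ))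
        (by exact_mod_cast neg_lt_neg (Int.ofNat_lt.mpr hlt))
      rw [h, ccx_subst_jq_coeff_neg] at h1
      exact (ζ'⁻¹).ne_zero h1
    · exact heq
    · exfalso
      have h1 := ccx_subst_jq_coeff_of_lt (K := K) ζ' m' (n := -(m : ℤ))
        (by exact_mod_cast neg_lt_neg (Int.ofNat_lt.mpr hgt))
      rw [← h, ccx_subst_jq_coeff_neg] at h1
      exact (ζ⁻¹).ne_zero h1
  subst hmm
  refine ⟨?_, rfl⟩
  have h1 := congrArg (fun f : LaurentSeries K => f.coeff (-(m : ℤ))) h
  simp only [ccx_subst_jq_coeff_neg] at h1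
  exact inv_injective (Units.ext h1)

end jq

section roots

variable {K : Type*} [Field K] (p : ℕ) [Fact p.Prime]

/-- the "first" root: `Φ(φ J(ζ^p t^{p·m}), φ J(ζ t^m)) = 0`. -/
theorem ccx_root_zero (Φ : Polynomial (Polynomial K))
    (h1 : Φ.eval₂ (Polynomial.aeval (jqModC K)).toRingHom (qExpand K p (jqModC K)) = 0)
    (ζ : Kˣ) (m : ℕ) [NeZero m] {Om : Type*} [CommRing Om] (phi : LaurentSeries K →+* Om) :
    Φ.eval₂ (phi.comp (Polynomial.aeval (pxs_subst K ζ m (jqModC K))).toRingHom)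
      (phi (pxs_subst K (ζ ^ p) (p * m) (jqModC K))) = 0 := by
  have h := ccx_hom_eval₂ phi (pxs_subst K ζ m) (ccx_subst_algebraMap ζ m) Φ (jqModC K)
    (qExpand K p (jqModC K))
  rw [h1, map_zero, ccx_subst_qExpand] at h
  exact h.symm

/-- the "other" roots: if `η^p = ζ` then `Φ(φ J(η t^{m'}), φ J(ζ t^{p m'})) = 0`. -/
theorem ccx_root_of_pow (Φ : Polynomial (Polynomial K))
    (h2 : Φ.eval₂ (Polynomial.aeval (qExpand K p (jqModC K))).toRingHom (jqModC K) = 0)
    (ζ η : Kˣ) (hη : η ^ p = ζ) (m' : ℕ) [NeZero m'] {Om : Type*} [CommRing Om]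
    (phi : LaurentSeries K →+* Om) :
    Φ.eval₂ (phi.comp (Polynomial.aeval (pxs_subst K ζ (p * m') (jqModC K))).toRingHom)
      (phi (pxs_subst K η m' (jqModC K))) = 0 := by
  have h := ccx_hom_eval₂ phi (pxs_subst K η m') (ccx_subst_algebraMap η m') Φ
    (qExpand K p (jqModC K)) (jqModC K)
  rw [h2, map_zero, ccx_subst_qExpand, hη] at h
  exact h.symm

/-- **Sub-row N3b.** The roots of `Φ_p(X, J(ζ t^{p m'}))` in any field `Ω ⊇ K((t))`. -/
theorem ccx_root_cases (ξ : Kˣ) (hξ : IsPrimitiveRoot ξ p)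
    (Φ : Polynomial (Polynomial K)) (hmonic : Φ.Monic) (hdeg : Φ.natDegree = p + 1)
    (h1 : Φ.eval₂ (Polynomial.aeval (jqModC K)).toRingHom (qExpand K p (jqModC K)) = 0)
    (h2 : Φ.eval₂ (Polynomial.aeval (qExpand K p (jqModC K))).toRingHom (jqModC K) = 0)
    (ζ ζ' : Kˣ) (hζ : ζ' ^ p = ζ) (m' : ℕ) [NeZero m']
    {Om : Type*} [Field Om] (phi : LaurentSeries K →+* Om) (x : Om)
    (hx : Φ.eval₂ (phi.comp (Polynomial.aeval (pxs_subst K ζ (p * m') (jqModC K))).toRingHom)
      x = 0) :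
    x = phi (pxs_subst K (ζ ^ p) (p * (p * m')) (jqModC K)) ∨
      ∃ b < p, x = phi (pxs_subst K (ξ ^ b * ζ') m' (jqModC K)) := by
  classical
  have hp : p.Prime := Fact.out
  set g : Polynomial K →+* Om :=
    phi.comp (Polynomial.aeval (pxs_subst K ζ (p * m') (jqModC K))).toRingHom with hg
  set P : Polynomial Om := Φ.map g with hP
  have hPmonic : P.Monic := hmonic.map g
  have hPdeg : P.natDegree = p + 1 := by rw [hP, hmonic.natDegree_map, hdeg]
  have hP0 : P ≠ 0 := hPmonic.ne_zero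
  have hroot : ∀ y : Om, Φ.eval₂ g y = 0 → y ∈ P.roots := by
    intro y hy
    rw [Polynomial.mem_roots hP0, Polynomial.IsRoot.def, hP, Polynomial.eval_map]
    exact hy
  have hphi : Function.Injective phi := phi.injective
  -- the roots
  set y₀ : Om := phi (pxs_subst K (ζ ^ p) (p * (p * m')) (jqModC K)) with hy₀
  set yb : ℕ → Om := fun b => phi (pxs_subst K (ξ ^ b * ζ') m' (jqModC K)) with hyb
  have hy₀root : y₀ ∈ P.roots := hroot _ (ccx_root_zero p Φ h1 ζ (p * m') phi)
  have hybroot : ∀ b, yb b ∈ P.roots := by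
    intro b
    refine hroot _ (ccx_root_of_pow p Φ h2 ζ (ξ ^ b * ζ') ?_ m' phi)
    rw [mul_pow, ← pow_mul, mul_comm b p, pow_mul, hξ.pow_eq_one, one_pow, one_mul, hζ]
  have hybinj : Set.InjOn yb (Finset.range p : Set ℕ) := by
    intro b hb b' hb' hbb
    rw [Finset.coe_range, Set.mem_Iio] at hb hb'
    have h := (ccx_subst_jq_injective (hphi hbb)).1
    exact hξ.pow_inj hb hb' (mul_right_cancel h)
  have hy₀ne : ∀ b, y₀ ≠ yb b := by
    intro b hb
    have h := (ccx_subst_jq_injective (hphi hb)).2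
    have hm' : 0 < m' := Nat.pos_of_ne_zero (NeZero.ne m')
    have h2p : 2 ≤ p := hp.two_le
    have h4 : 2 * (2 * m') ≤ p * (p * m') := Nat.mul_le_mul h2p (Nat.mul_le_mul h2p le_rfl)
    omega
  set S : Finset Om := insert y₀ ((Finset.range p).image yb) with hS
  have hScard : S.card = p + 1 := by
    rw [hS, Finset.card_insert_of_notMem, Finset.card_image_of_injOn hybinj, Finset.card_range]
    intro hmem
    obtain ⟨b, -, hb⟩ := Finset.mem_image.mp hmem
    exact hy₀ne b hb.symm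
  have hSroots : ∀ y ∈ S, y ∈ P.roots := by
    intro y hy
    rw [hS, Finset.mem_insert, Finset.mem_image] at hy
    rcases hy with rfl | ⟨b, -, rfl⟩
    · exact hy₀root
    · exact hybroot b
  have hxS : x ∈ S := by
    by_contra hxS
    have hsub : (insert x S).val ⊆ P.roots := by
      intro y hy
      rw [Finset.mem_val, Finset.mem_insert] at hy
      rcases hy with rfl | hy
      · exact hroot _ hx
      · exact hSroots y hy
    have hcard := Polynomial.card_le_degree_of_subset_roots hsub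
    rw [Finset.card_insert_of_notMem hxS, hScard, hPdeg] at hcard
    omega
  rw [hS, Finset.mem_insert, Finset.mem_image] at hxS
  rcases hxS with h | ⟨b, hb, h⟩
  · exact Or.inl h
  · exact Or.inr ⟨b, Finset.mem_range.mp hb, h.symm⟩

/-- variant of `ccx_root_cases` with the primitive root given in `K`. -/
theorem ccx_root_cases' (ξ : Kˣ) (hξ : IsPrimitiveRoot (ξ : K) p)
    (Φ : Polynomial (Polynomial K)) (hmonic : Φ.Monic) (hdeg : Φ.natDegree = p + 1)
    (h1 : Φ.eval₂ (Polynomial.aeval (jqModC K)).toRingHom (qExpand K p (jqModC K)) = 0)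
    (h2 : Φ.eval₂ (Polynomial.aeval (qExpand K p (jqModC K))).toRingHom (jqModC K) = 0)
    (ζ ζ' : Kˣ) (hζ : ζ' ^ p = ζ) (m' : ℕ) [NeZero m']
    {Om : Type*} [Field Om] (phi : LaurentSeries K →+* Om) (x : Om)
    (hx : Φ.eval₂ (phi.comp (Polynomial.aeval (pxs_subst K ζ (p * m') (jqModC K))).toRingHom)
      x = 0) :
    x = phi (pxs_subst K (ζ ^ p) (p * (p * m')) (jqModC K)) ∨
      ∃ b < p, x = phi (pxs_subst K (ξ ^ b * ζ') m' (jqModC K)) :=
  ccx_root_cases p ξ (IsPrimitiveRoot.coe_units_iff.mp hξ) Φ hmonic hdeg h1 h2 ζ ζ' hζ m' phi x hx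

/-- **Factorisation** of `Φ_p(X, J(ζ t^{p m'}))` over any field `Ω ⊇ K((t))`. -/
theorem ccx_map_eq_prod (ξ : Kˣ) (hξ : IsPrimitiveRoot ξ p)
    (Φ : Polynomial (Polynomial K)) (hmonic : Φ.Monic) (hdeg : Φ.natDegree = p + 1)
    (h1 : Φ.eval₂ (Polynomial.aeval (jqModC K)).toRingHom (qExpand K p (jqModC K)) = 0)
    (h2 : Φ.eval₂ (Polynomial.aeval (qExpand K p (jqModC K))).toRingHom (jqModC K) = 0)
    (ζ ζ' : Kˣ) (hζ : ζ' ^ p = ζ) (m' : ℕ) [NeZero m']
    {Om : Type*} [Field Om] (phi : LaurentSeries K →+* Om) :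
    Φ.map (phi.comp (Polynomial.aeval (pxs_subst K ζ (p * m') (jqModC K))).toRingHom) =
      (Polynomial.X - Polynomial.C (phi (pxs_subst K (ζ ^ p) (p * (p * m')) (jqModC K)))) *
        ∏ b ∈ Finset.range p,
          (Polynomial.X - Polynomial.C (phi (pxs_subst K (ξ ^ b * ζ') m' (jqModC K)))) := by
  classical
  have hp : p.Prime := Fact.out
  set g : Polynomial K →+* Om :=
    phi.comp (Polynomial.aeval (pxs_subst K ζ (p * m') (jqModC K))).toRingHom with hg
  set y₀ : Om := phi (pxs_subst K (ζ ^ p) (p * (p * m')) (jqModC K)) with hy₀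
  set yb : ℕ → Om := fun b => phi (pxs_subst K (ξ ^ b * ζ') m' (jqModC K)) with hyb
  have hPmonic : (Φ.map g).Monic := hmonic.map g
  have hPdeg : (Φ.map g).natDegree = p + 1 := by rw [hmonic.natDegree_map, hdeg]
  have hphi : Function.Injective phi := phi.injective
  -- the right-hand side
  set Q : Polynomial Om := (Polynomial.X - Polynomial.C y₀) *
    ∏ b ∈ Finset.range p, (Polynomial.X - Polynomial.C (yb b)) with hQ
  have hQmonic : Q.Monic :=
    (Polynomial.monic_X_sub_C y₀).mul (Polynomial.monic_prod_of_monic _ _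
      fun b _ => Polynomial.monic_X_sub_C (yb b))
  have hQdeg : Q.natDegree = p + 1 := by
    rw [hQ, Polynomial.Monic.natDegree_mul (Polynomial.monic_X_sub_C y₀)
      (Polynomial.monic_prod_of_monic _ _ fun b _ => Polynomial.monic_X_sub_C (yb b)),
      Polynomial.natDegree_X_sub_C, Polynomial.natDegree_prod_of_monic _ _
        (fun b _ => Polynomial.monic_X_sub_C (yb b))]
    simp only [Polynomial.natDegree_X_sub_C, Finset.sum_const, Finset.card_range, smul_eq_mul,
      mul_one]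
    ring
  -- `Q ∣ Φ.map g`: pairwise coprime linear factors, each dividing
  have hdvd0 : (Polynomial.X - Polynomial.C y₀) ∣ Φ.map g := by
    rw [Polynomial.dvd_iff_isRoot, Polynomial.IsRoot.def, Polynomial.eval_map]
    exact ccx_root_zero p Φ h1 ζ (p * m') phi
  have hdvdb : ∀ b, (Polynomial.X - Polynomial.C (yb b)) ∣ Φ.map g := by
    intro b
    rw [Polynomial.dvd_iff_isRoot, Polynomial.IsRoot.def, Polynomial.eval_map]
    refine ccx_root_of_pow p Φ h2 ζ (ξ ^ b * ζ') ?_ m' phi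
    rw [mul_pow, ← pow_mul, mul_comm b p, pow_mul, hξ.pow_eq_one, one_pow, one_mul, hζ]
  have hybinj : Set.InjOn yb (Finset.range p : Set ℕ) := by
    intro b hb b' hb' hbb
    rw [Finset.coe_range, Set.mem_Iio] at hb hb'
    have h := (ccx_subst_jq_injective (hphi hbb)).1
    exact hξ.pow_inj hb hb' (mul_right_cancel h)
  have hy₀ne : ∀ b, y₀ ≠ yb b := by
    intro b hb
    have h := (ccx_subst_jq_injective (hphi hb)).2
    have hm' : 0 < m' := Nat.pos_of_ne_zero (NeZero.ne m')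
    have h2p : 2 ≤ p := hp.two_le
    have h4 : 2 * (2 * m') ≤ p * (p * m') := Nat.mul_le_mul h2p (Nat.mul_le_mul h2p le_rfl)
    omega
  have hprod : (∏ b ∈ Finset.range p, (Polynomial.X - Polynomial.C (yb b))) ∣ Φ.map g := by
    refine Finset.prod_dvd_of_coprime ?_ fun b _ => hdvdb b
    intro b hb b' hb' hne
    exact Polynomial.isCoprime_X_sub_C_of_isUnit_sub
      (sub_ne_zero.mpr fun h => hne (hybinj hb hb' h)).isUnit
  have hQdvd : Q ∣ Φ.map g := by
    refine IsCoprime.mul_dvd ?_ hdvd0 hprod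
    refine IsCoprime.prod_right fun b _ => ?_
    exact Polynomial.isCoprime_X_sub_C_of_isUnit_sub (sub_ne_zero.mpr (hy₀ne b)).isUnit
  exact Polynomial.eq_of_monic_of_dvd_of_natDegree_le hQmonic hPmonic hQdvd
    (by rw [hPdeg, hQdeg])

end roots

end

end Fermat.Agent.S18x
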