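/-
S18 project, block NRM, row N3 (helper23): unconditional **parameter form of the embeddings of
`F_N` into the Puiseux field** (`ccj_param`), obtained from `ccj_param_of` (`S18x/CuspConj`) and
helper10's root analysis of `Φ_p` (`S18x/CuspConjXFactor`).
-/
import Mathlib
import Fermat.Agent.S18x.CuspConj
import Fermat.Agent.S18x.CuspConjXFactor

set_option autoImplicit false

namespace Fermat.Agent.S18x

open ModularCurve Polynomial

noncomputable section

universe u v

/-- sub-row N3b (helper10) discharges the hypothesis of `ccj_param_of`. -/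
theorem ccj_rootCases (K : Type u) [Field K] : ccj_RootCases.{u, v} K := by
  intro p _ _ ξ hξ Φ hm hd h1 h2 ζ ζ' hζ m' _ _ _ Ω _ φ x hx
  rcases ccx_root_cases p ξ hξ Φ hm hd h1 h2 ζ ζ' hζ m' φ x hx with h | ⟨b, hb, h⟩
  · exact Or.inl h
  · exact Or.inr ⟨b, hb, h⟩

variable {k : Type*} {K : Type u} {Ω : Type v} [Field k] [Field K] [Field Ω]

/-- **Parameter form of the embeddings of `F_N(k)` into (extensions of) the Puiseux field
`K((t))`, `t = q^{1/N}`**: if `τ : F_N(k) → Ω` and `φ : K((t)) → Ω` are ring homs into a field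
with `τ(j) = φ(J(t^N))`, and `K` contains a primitive `N`-th root of unity, then for every `d ∣ N`
there are an `N`-th root of unity `ζ` (indeed `ζ^d = 1`) and `m ≥ 1` with `(N/d) ∣ m` such that
`τ(j(q^d)) = φ(J(ζ t^m))`. -/
theorem ccj_param (N : ℕ) [NeZero N] (zN : K) (hzN : IsPrimitiveRoot zN N)
    (φ : LaurentSeries K →+* Ω) (τ : modularFunctionFieldFullC k N →+* Ω)
    (hτj : τ ⟨jqModC k, jqModC_mem_full k N⟩ = φ (qExpand K N (jqModC K)))
    (d : ℕ) [NeZero d] (hd : d ∣ N) :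
    ∃ (ζ : Kˣ) (m : ℕ) (_ : NeZero m), ζ ^ d = 1 ∧ N / d ∣ m ∧
      τ ⟨qExpand k d (jqModC k), jqModCd_mem_full k N hd⟩ = φ (pxs_subst K ζ m (jqModC K)) :=
  ccj_param_of (ccj_rootCases K) N zN hzN φ τ hτj d hd

/-- the same with `φ = id`: ring homs `F_N(k) → K((t))` lying over `j ↦ J(t^N)`. -/
theorem ccj_param_id (N : ℕ) [NeZero N] (zN : K) (hzN : IsPrimitiveRoot zN N)
    (τ : modularFunctionFieldFullC k N →+* LaurentSeries K)
    (hτj : τ ⟨jqModC k, jqModC_mem_full k N⟩ = qExpand K N (jqModC K))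
    (d : ℕ) [NeZero d] (hd : d ∣ N) :
    ∃ (ζ : Kˣ) (m : ℕ) (_ : NeZero m), ζ ^ d = 1 ∧ N / d ∣ m ∧
      τ ⟨qExpand k d (jqModC k), jqModCd_mem_full k N hd⟩ = pxs_subst K ζ m (jqModC K) :=
  ccj_param N zN hzN (RingHom.id _) τ hτj d hd

end

end Fermat.Agent.S18x
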