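/-
S18 project, block NRM, sub-row N3m (helper7), part 1: the parameter form of the embeddings of
`F_N` into the Puiseux field (`ccj_param`, helper23) **with the pole-order bound** `m ≤ N * d`
(so `m ≤ N^2` for `j(q^N)`).  Same induction as `ccj_param_aux` with one more conjunct.
-/
import Mathlib
import Fermat.Agent.S18x.CuspConjFinal

set_option autoImplicit false

namespace Fermat.Agent.S18x

open ModularCurve Polynomial Fermat.Agent.S28x

noncomputable section

universe u v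

variable {k : Type*} {K : Type u} {Ω : Type v} [Field k] [Field K] [Field Ω]

/-- **Parameter form of the embeddings with pole-order bound** (induction over the divisors of
`N`, as in `ccj_param_aux`). -/
theorem cph_param_aux (N : ℕ) [NeZero N] (zN : K)
    (hzN : IsPrimitiveRoot zN N)
    (φ : LaurentSeries K →+* Ω) (τ : modularFunctionFieldFullC k N →+* Ω)
    (hτj : τ ⟨jqModC k, jqModC_mem_full k N⟩ = φ (qExpand K N (jqModC K))) :
    ∀ (d : ℕ) (inst : NeZero d) (hd : d ∣ N), ∃ (ζ : Kˣ) (m : ℕ) (_ : NeZero m),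
      ζ ^ d = 1 ∧ N / d ∣ m ∧ m ≤ N * d ∧
      τ ⟨qExpand k d (jqModC k), jqModCd_mem_full k N hd⟩ = φ (pxs_subst K ζ m (jqModC K)) := by
  have hRC : ccj_RootCases.{u, v} K := ccj_rootCases K
  intro d
  induction d using Nat.strong_induction_on with
  | _ d ih =>
    intro inst hd
    have hN0 : N ≠ 0 := NeZero.ne N
    have hd0 : d ≠ 0 := NeZero.ne d
    rcases eq_or_ne d 1 with rfl | hd1
    · refine ⟨1, N, inferInstance, one_pow _, by simp, by simp, ?_⟩
      rw [pxs_subst_one_left, ← hτj]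
      congr 1
      exact Subtype.ext (qExpand_one_apply _)
    · obtain ⟨p, hp, d', rfl⟩ : ∃ p : ℕ, p.Prime ∧ ∃ d' : ℕ, d = d' * p := by
        obtain ⟨c, hc⟩ := Nat.minFac_dvd d
        exact ⟨d.minFac, Nat.minFac_prime hd1, c, by rw [mul_comm]; exact hc⟩
      haveI : Fact p.Prime := ⟨hp⟩
      haveI : NeZero p := ⟨hp.ne_zero⟩
      have hd'0 : d' ≠ 0 := fun h => hd0 (by rw [h, zero_mul])
      haveI : NeZero d' := ⟨hd'0⟩
      have hd'N : d' ∣ N := (Dvd.intro _ rfl).trans hd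
      have hlt : d' < d' * p := by
        have := hp.two_le
        nlinarith [Nat.pos_of_ne_zero hd'0]
      obtain ⟨ζ₁, m₁, hm₁, hζ₁, hdiv₁, hle₁, hτ₁⟩ := ih d' hlt inferInstance hd'N
      obtain ⟨c, hc⟩ := hd
      -- `N / d' = p * c`, `N / (d' * p) = c`
      have hNd' : N / d' = p * c := by
        rw [hc, mul_assoc]
        exact Nat.mul_div_cancel_left _ (Nat.pos_of_ne_zero hd'0)
      have hNd : N / (d' * p) = c := by
        rw [hc]
        exact Nat.mul_div_cancel_left _ (Nat.pos_of_ne_zero hd0)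
      rw [hNd'] at hdiv₁
      obtain ⟨m₂, rfl⟩ : p ∣ m₁ := (Dvd.intro _ rfl).trans hdiv₁
      have hm₂0 : m₂ ≠ 0 := fun h => (NeZero.ne (p * m₂)) (by rw [h, mul_zero])
      haveI : NeZero m₂ := ⟨hm₂0⟩
      haveI : NeZero (p * (p * m₂)) := ⟨mul_ne_zero hp.ne_zero (NeZero.ne _)⟩
      have hcm₂ : c ∣ m₂ := by
        have := hdiv₁
        exact (Nat.mul_dvd_mul_iff_left hp.pos).1 this
      -- roots of unity
      obtain ⟨ζ₂, hζ₂, hζ₂d⟩ := ccj_exists_root hzN (p := p) (d' := d')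
        (by rw [mul_comm]; exact ⟨c, hc⟩) hζ₁
      obtain ⟨c', hc'⟩ : p ∣ N := ⟨d' * c, by rw [hc]; ring⟩
      have hξK : IsPrimitiveRoot (zN ^ c') p :=
        hzN.pow (Nat.pos_of_ne_zero hN0) (by rw [hc', mul_comm])
      set ξ : Kˣ := Units.mk0 (zN ^ c') (hξK.ne_zero hp.ne_zero) with hξdef
      have hξ : IsPrimitiveRoot ξ p := by
        rw [← IsPrimitiveRoot.coe_units_iff, hξdef, Units.val_mk0]
        exact hξK
      -- the modular polynomial
      obtain ⟨Φ, hΦm, hΦd, hΦ1, hΦ2⟩ := exists_modPoly p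
      set ΦK : Polynomial (Polynomial K) :=
        Φ.map (Polynomial.mapRingHom (Int.castRingHom K)) with hΦK
      have h1K : ΦK.eval₂ (Polynomial.aeval (jqModC K)).toRingHom
          (qExpand K p (jqModC K)) = 0 := by
        rw [hΦK, sa_eval₂_map]
        have := sa_transfer Φ 1 p
          (by rw [← sa_aeval_int_eq, qExpand_one_apply]; exact hΦ1) K
        rwa [qExpand_one_apply] at this
      have h2K : ΦK.eval₂ (Polynomial.aeval (qExpand K p (jqModC K))).toRingHom
          (jqModC K) = 0 := by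
        rw [hΦK, sa_eval₂_map]
        have := sa_transfer Φ p 1
          (by rw [← sa_aeval_int_eq, qExpand_one_apply]; exact hΦ2) K
        rwa [qExpand_one_apply] at this
      -- the relation in `Ω`
      have hrel := ccj_rel Φ p hΦ1 k d'
      have hx : ΦK.eval₂ (φ.comp
          (Polynomial.aeval (pxs_subst K ζ₁ (p * m₂) (jqModC K))).toRingHom)
          (τ ⟨qExpand k (d' * p) (jqModC k), jqModCd_mem_full k N ⟨c, hc⟩⟩) = 0 := by
        rw [hΦK, Polynomial.eval₂_map]
        refine ccj_push (modularFunctionFieldFullC k N) τ Φ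
          ⟨qExpand k d' (jqModC k), jqModCd_mem_full k N hd'N⟩
          ⟨qExpand k (d' * p) (jqModC k), jqModCd_mem_full k N ⟨c, hc⟩⟩ hrel _ ?_
        rw [hτ₁]
        simp
      have hp1 : 1 ≤ p := hp.one_lt.le
      rcases hRC p ξ hξ ΦK (hΦm.map _) (by rw [hΦK, hΦm.natDegree_map, hΦd]) h1K h2K
        ζ₁ ζ₂ hζ₂ m₂ φ _ hx with h | ⟨b, -, h⟩
      · refine ⟨ζ₁ ^ p, p * (p * m₂), inferInstance, ?_, ?_, ?_, h⟩
        · rw [← pow_mul, mul_comm p, mul_assoc, pow_mul, hζ₁, one_pow]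
        · rw [hNd]
          exact hcm₂.trans ⟨p * p, by ring⟩
        · calc p * (p * m₂) ≤ p * (N * d') := Nat.mul_le_mul_left p hle₁
            _ = N * (d' * p) := by ring
      · refine ⟨ξ ^ b * ζ₂, m₂, inferInstance, ?_, ?_, ?_, h⟩
        · rw [mul_pow, mul_comm d' p, hζ₂d, mul_one, ← pow_mul, mul_comm b, mul_assoc, pow_mul,
            hξ.pow_eq_one, one_pow]
        · rw [hNd]
          exact hcm₂
        · calc m₂ ≤ p * m₂ := Nat.le_mul_of_pos_left m₂ hp.pos
            _ ≤ N * d' := hle₁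
            _ ≤ N * (d' * p) := Nat.mul_le_mul_left N (Nat.le_mul_of_pos_right d' hp.pos)

/-- **Parameter form with pole bound**: every ring hom `τ : F_N(k) → Ω` over
`j ↦ φ(J(t^N))` sends `j(q^d)` (`d ∣ N`) to `φ(J(ζ t^m))` with `ζ^d = 1`, `(N/d) ∣ m`,
`m ≤ N d`. -/
theorem cph_param (N : ℕ) [NeZero N] (zN : K) (hzN : IsPrimitiveRoot zN N)
    (φ : LaurentSeries K →+* Ω) (τ : modularFunctionFieldFullC k N →+* Ω)
    (hτj : τ ⟨jqModC k, jqModC_mem_full k N⟩ = φ (qExpand K N (jqModC K)))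
    (d : ℕ) [NeZero d] (hd : d ∣ N) :
    ∃ (ζ : Kˣ) (m : ℕ) (_ : NeZero m), ζ ^ d = 1 ∧ N / d ∣ m ∧ m ≤ N * d ∧
      τ ⟨qExpand k d (jqModC k), jqModCd_mem_full k N hd⟩ = φ (pxs_subst K ζ m (jqModC K)) :=
  cph_param_aux N zN hzN φ τ hτj d inferInstance hd

end

end Fermat.Agent.S18x
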