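/-
S18 project, block NRM, sub-row N3m (helper7), part 2: **the product formula for the minimal
polynomial of `j(q^N)` over `K(j)`** (`K` a field of characteristic `0` containing a primitive
`N`-th root of unity), i.e. the char-0 half of input (H2) of N7 (helper35).

* `cph_Gι K N`      : `minpoly_{K(j)}(j(q^N))` with coefficients pushed to `K((t))`, `q = t^N`;
* `cph_Gι_eq_prod'` : `Gι = ∏_i (Y - J(ζ_i t^(m_i)))`, `ζ_i^N = 1`, `1 ≤ m_i ≤ N^2`, the pairs
  `(ζ_i, m_i)` pairwise distinct, containing the identity branch `(1, N^2)` and stable under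
  `(ζ, m) ↦ (ζ z^m, m)` (`z^N = 1`);
* `cph_exists_G₁`   : `Gι = G₁(J(t^N), Y)` with `G₁ ∈ K[X][Y]` monic (Gauss lemma).
-/
import Mathlib
import Fermat.Agent.S18x.CuspConjPhiParam
import Fermat.Agent.S18x.PlsFbar
import Fermat.Agent.S18x.CuspConjExplPxs

set_option autoImplicit false

namespace Fermat.Agent.S18x

open ModularCurve Polynomial IntermediateField Fermat.Agent.S28x

noncomputable section

universe u

theorem cph_exists_hom_of_root {E F Ω : Type*} [Field E] [Field F] [Field Ω] [Algebra E F]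
    [Algebra.IsIntegral E F] [IsAlgClosed Ω] (ι : F →+* Ω) (x : F) (y : Ω)
    (hy : ((minpoly E x).map (ι.comp (algebraMap E F))).IsRoot y) :
    ∃ τ : F →+* Ω, (∀ e : E, τ (algebraMap E F e) = ι (algebraMap E F e)) ∧ τ x = y := by
  let _ : Algebra E Ω := (ι.comp (algebraMap E F)).toAlgebra
  have hy' : aeval y (minpoly E x) = 0 := by
    rw [Polynomial.aeval_def, ← Polynomial.eval_map]
    exact hy
  obtain ⟨τ, hτ⟩ := IntermediateField.exists_algHom_of_splits_of_aeval (F := E) (E := F) (K := Ω)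
    (fun s => ⟨Algebra.IsIntegral.isIntegral s, IsAlgClosed.splits _⟩) hy'
  exact ⟨τ.toRingHom, fun e => τ.commutes e, hτ⟩

open scoped IntermediateField.algebraAdjoinAdjoin in
/-- Gauss: the minimal polynomial over `k(J)` of an element integral over `k[J]` (`J`
transcendental) has coefficients in `k[J]`. -/
theorem cph_minpoly_polyCoeffs {k 𝕃 : Type*} [Field k] [Field 𝕃] [Algebra k 𝕃] (J : 𝕃)
    (hJ : Transcendental k J) (y : 𝕃) (hy : IsIntegral (Algebra.adjoin k {J}) y) :
    ∃ G₁ : Polynomial (Polynomial k), G₁.Monic ∧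
      G₁.map (Polynomial.aeval (R := k) J).toRingHom =
        (minpoly k⟮J⟯ y).map (algebraMap k⟮J⟯ 𝕃) := by
  have hinj : Function.Injective (Polynomial.aeval (R := k) J) :=
    transcendental_iff_injective.1 hJ
  have hrange : (Polynomial.aeval (R := k) J).range = Algebra.adjoin k {J} :=
    (Algebra.adjoin_singleton_eq_range_aeval k J).symm
  let e : Polynomial k ≃ₐ[k] (Polynomial.aeval (R := k) J).range := AlgEquiv.ofInjective _ hinj
  let e' : Polynomial k ≃ₐ[k] Algebra.adjoin k {J} := e.trans (Subalgebra.equivOfEq _ _ hrange)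
  have hic' : IsIntegrallyClosed (Algebra.adjoin k {J}) :=
    IsIntegrallyClosed.of_equiv e'.toRingEquiv
  have h1 : minpoly k⟮J⟯ y = (minpoly (Algebra.adjoin k {J}) y).map
      (algebraMap (Algebra.adjoin k {J}) k⟮J⟯) :=
    minpoly.isIntegrallyClosed_eq_field_fractions' k⟮J⟯ hy
  refine ⟨(minpoly (Algebra.adjoin k {J}) y).map (e'.symm : Algebra.adjoin k {J} →+* Polynomial k),
    (minpoly.monic hy).map _, ?_⟩
  rw [h1, Polynomial.map_map, Polynomial.map_map]
  congr 1
  apply RingHom.ext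
  intro r
  obtain ⟨p, rfl⟩ := e'.surjective r
  simp only [RingHom.comp_apply]
  have : (e'.symm : Algebra.adjoin k {J} →+* Polynomial k) (e' p) = p := e'.symm_apply_apply p
  rw [this]
  rfl

section J

variable (R : Type*) [CommRing R]

/-- `J(ζ t^m)` as a total function of `m` (`0` for `m = 0`). -/
def cph_J (ζ : Rˣ) (m : ℕ) : LaurentSeries R :=
  if h : m = 0 then 0 else @pxs_subst R _ ζ m ⟨h⟩ (jqModC R)

variable {R}

theorem cph_J_eq (ζ : Rˣ) (m : ℕ) [NeZero m] : cph_J R ζ m = pxs_subst R ζ m (jqModC R) := by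
  unfold cph_J
  rw [dif_neg (NeZero.ne m)]

theorem cph_coeffMap_J {S : Type*} [CommRing S] (φ : R →+* S) (ζ : Rˣ) (m : ℕ) :
    coeffMap φ (cph_J R ζ m) = cph_J S (Units.map (φ : R →* S) ζ) m := by
  rcases eq_or_ne m 0 with rfl | hm
  · simp [cph_J]
  · have : NeZero m := ⟨hm⟩
    rw [cph_J_eq, cph_J_eq, pxs_coeffMap_subst, coeffMap_jqModC]

theorem cph_J_injective {K : Type*} [Field K] {ζ ζ' : Kˣ} {m m' : ℕ} (hm : m ≠ 0) (hm' : m' ≠ 0)
    (h : cph_J K ζ m = cph_J K ζ' m') : ζ = ζ' ∧ m = m' := by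
  have : NeZero m := ⟨hm⟩
  have : NeZero m' := ⟨hm'⟩
  rw [cph_J_eq, cph_J_eq] at h
  exact pxs_subst_jq_injective h

end J

section Field

variable (K : Type u) [Field K] (N : ℕ) [NeZero N]

/-- the identity embedding `f(q) ↦ f(t^N)` of `F_N(K)` into the Puiseux field. -/
def cph_iota : pls_Fb K N →+* LaurentSeries K :=
  (qExpand K N).comp (algebraMap (pls_Fb K N) (LaurentSeries K))

theorem cph_iota_apply (f : pls_Fb K N) : cph_iota K N f = qExpand K N (f : LaurentSeries K) := rfl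

/-- `j(q^N)` as an element of `F_N(K)` -/
abbrev cph_jN : pls_Fb K N := pls_jdb K N N dvd_rfl

/-- the base field `K(j)` inside `F_N(K)` -/
abbrev cph_E : IntermediateField K (pls_Fb K N) := K⟮pls_jb K N⟯

/-- the minimal polynomial of `j(q^N)` over `K(j)`, with coefficients pushed to `K((t))`. -/
def cph_Gι : Polynomial (LaurentSeries K) :=
  (minpoly (cph_E K N) (cph_jN K N)).map ((cph_iota K N).comp (algebraMap (cph_E K N) (pls_Fb K N)))

instance cph_isIntegral : Algebra.IsIntegral (cph_E K N) (pls_Fb K N) := by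
  have := pls_finiteDimensional_jb K N
  exact Algebra.IsIntegral.of_finite _ _

/-- every root of `Gι` in the algebraic closure of the Puiseux field is a `J(ζ t^m)`. -/
theorem cph_root_param_acl (zN : K) (hzN : IsPrimitiveRoot zN N)
    (y : AlgebraicClosure (LaurentSeries K))
    (hy : ((cph_Gι K N).map (algebraMap (LaurentSeries K) (AlgebraicClosure (LaurentSeries K)))).IsRoot y) :
    ∃ (ζ : Kˣ) (m : ℕ), ζ ^ N = 1 ∧ 0 < m ∧ m ≤ N * N ∧
      y = algebraMap (LaurentSeries K) (AlgebraicClosure (LaurentSeries K)) (cph_J K ζ m) := by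
  set φ := algebraMap (LaurentSeries K) (AlgebraicClosure (LaurentSeries K)) with hφ
  have hy' : ((minpoly (cph_E K N) (cph_jN K N)).map
      ((φ.comp (cph_iota K N)).comp (algebraMap (cph_E K N) (pls_Fb K N)))).IsRoot y := by
    rw [cph_Gι, Polynomial.map_map] at hy
    exact hy
  obtain ⟨τ, hτE, hτy⟩ := cph_exists_hom_of_root (φ.comp (cph_iota K N)) (cph_jN K N) y hy'
  have hτj : τ ⟨jqModC K, jqModC_mem_full K N⟩ = φ (qExpand K N (jqModC K)) := by
    have := hτE ⟨pls_jb K N, mem_adjoin_simple_self K _⟩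
    exact this
  obtain ⟨ζ, m, hm, hζ, -, hle, h⟩ := cph_param N zN hzN φ τ hτj N dvd_rfl
  refine ⟨ζ, m, hζ, Nat.pos_of_ne_zero (NeZero.ne m), hle, ?_⟩
  rw [cph_J_eq, ← h, ← hτy]
  rfl


variable [CharZero K]

omit [CharZero K] in
theorem cph_Gι_monic : (cph_Gι K N).Monic :=
  (minpoly.monic (Algebra.IsIntegral.isIntegral (cph_jN K N))).map _

omit [CharZero K] in
theorem cph_Gι_natDegree :
    (cph_Gι K N).natDegree = (minpoly (cph_E K N) (cph_jN K N)).natDegree :=
  (minpoly.monic (Algebra.IsIntegral.isIntegral (cph_jN K N))).natDegree_map _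

theorem cph_Gι_separable : (cph_Gι K N).Separable :=
  ((minpoly.irreducible (Algebra.IsIntegral.isIntegral (cph_jN K N))).separable).map

omit [CharZero K] in
/-- every root of `Gι` in the Puiseux field is a `J(ζ t^m)`, `ζ^N = 1`, `1 ≤ m ≤ N^2`. -/
theorem cph_root_param (zN : K) (hzN : IsPrimitiveRoot zN N) (y : LaurentSeries K)
    (hy : (cph_Gι K N).IsRoot y) :
    ∃ (ζ : Kˣ) (m : ℕ), ζ ^ N = 1 ∧ 0 < m ∧ m ≤ N * N ∧ y = cph_J K ζ m := by
  have h1 : ((cph_Gι K N).map (algebraMap (LaurentSeries K)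
      (AlgebraicClosure (LaurentSeries K)))).IsRoot
      (algebraMap (LaurentSeries K) (AlgebraicClosure (LaurentSeries K)) y) := by
    rw [Polynomial.IsRoot.def, Polynomial.eval_map, Polynomial.eval₂_hom, hy.eq_zero, map_zero]
  obtain ⟨ζ, m, hζ, hm, hle, h⟩ := cph_root_param_acl K N zN hzN _ h1
  exact ⟨ζ, m, hζ, hm, hle, (algebraMap (LaurentSeries K) _).injective h⟩

omit [CharZero K] in
theorem cph_Gι_splits (zN : K) (hzN : IsPrimitiveRoot zN N) : (cph_Gι K N).Splits := by
  refine Polynomial.Splits.of_splits_map (algebraMap (LaurentSeries K)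
    (AlgebraicClosure (LaurentSeries K))) (IsAlgClosed.splits _) ?_
  intro a ha
  have hne : (cph_Gι K N).map (algebraMap (LaurentSeries K)
      (AlgebraicClosure (LaurentSeries K))) ≠ 0 :=
    ((cph_Gι_monic K N).map _).ne_zero
  obtain ⟨ζ, m, -, -, -, h⟩ := cph_root_param_acl K N zN hzN a ((Polynomial.mem_roots hne).mp ha)
  exact ⟨_, h.symm⟩

/-- **the product formula over the Puiseux field** -/
theorem cph_Gι_eq_prod (zN : K) (hzN : IsPrimitiveRoot zN N) :
    ∃ (n : ℕ) (ζ : Fin n → Kˣ) (m : Fin n → ℕ), (∀ i, ζ i ^ N = 1) ∧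
      (∀ i, 0 < m i ∧ m i ≤ N * N) ∧ Function.Injective (fun i => (ζ i, m i)) ∧
      n = (cph_Gι K N).natDegree ∧
      cph_Gι K N = ∏ i, (X - C (cph_J K (ζ i) (m i))) := by
  classical
  have hsp := cph_Gι_splits K N zN hzN
  have hmon := cph_Gι_monic K N
  have hnd : (cph_Gι K N).roots.Nodup := Polynomial.nodup_roots (cph_Gι_separable K N)
  set s : Finset (LaurentSeries K) := (cph_Gι K N).roots.toFinset with hs
  have hsval : s.val = (cph_Gι K N).roots := by
    rw [hs, Multiset.toFinset_val, Multiset.dedup_eq_self.mpr hnd]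
  have hprod : cph_Gι K N = ∏ y ∈ s, (X - C y) := by
    conv_lhs => rw [hsp.eq_prod_roots_of_monic hmon]
    rw [Finset.prod_eq_multiset_prod, hsval]
  have hcard : s.card = (cph_Gι K N).natDegree := by
    rw [Finset.card_def, hsval]
    exact hsp.natDegree_eq_card_roots.symm
  have hroot : ∀ y : s, (cph_Gι K N).IsRoot y.1 := fun y =>
    (Polynomial.mem_roots hmon.ne_zero).mp (Multiset.mem_toFinset.mp y.2)
  choose ζf mf h1 h2 h3 h4 using fun y : s => cph_root_param K N zN hzN y.1 (hroot y)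
  let e : Fin s.card ≃ s := s.equivFin.symm
  refine ⟨s.card, fun i => ζf (e i), fun i => mf (e i), fun i => h1 _, fun i => ⟨h2 _, h3 _⟩,
    ?_, hcard, ?_⟩
  · intro i i' hii'
    simp only [Prod.mk.injEq] at hii'
    apply e.injective
    apply Subtype.ext
    rw [h4 (e i), h4 (e i'), hii'.1, hii'.2]
  · rw [hprod, ← Finset.prod_coe_sort s (fun y => X - C y)]
    rw [← Fintype.prod_equiv e (fun i => X - C (cph_J K (ζf (e i)) (mf (e i))))
      (fun y : s => X - C (y : LaurentSeries K)) (fun i => by rw [← h4 (e i)])]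


omit [CharZero K] in
theorem cph_Gι_isRoot_iota_jN : (cph_Gι K N).IsRoot (cph_iota K N (cph_jN K N)) := by
  rw [Polynomial.IsRoot.def, cph_Gι, Polynomial.eval_map, ← Polynomial.hom_eval₂,
    ← Polynomial.aeval_def, minpoly.aeval, map_zero]

omit [CharZero K] in
theorem cph_iota_jN : cph_iota K N (cph_jN K N) = cph_J K 1 (N * N) := by
  have : NeZero (N * N) := ⟨mul_ne_zero (NeZero.ne N) (NeZero.ne N)⟩
  rw [cph_J_eq, pxs_subst_one_left, cph_iota_apply]
  show qExpand K N (qExpand K N (jqModC K)) = _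
  rw [qExpand_qExpand]

omit [CharZero K] in
theorem cph_rescale_iota (z : Kˣ) (hz : z ^ N = 1) (f : pls_Fb K N) :
    pxs_rescale K z (cph_iota K N f) = cph_iota K N f := by
  rw [cph_iota_apply, pxs_rescale_qExpand, hz, pxs_rescale_one]

omit [CharZero K] in
theorem cph_Gι_map_rescale (z : Kˣ) (hz : z ^ N = 1) :
    (cph_Gι K N).map (pxs_rescale K z) = cph_Gι K N := by
  rw [cph_Gι, Polynomial.map_map]
  congr 1
  apply RingHom.ext
  intro e
  exact cph_rescale_iota K N z hz _

omit [CharZero K] [NeZero N] in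
theorem cph_rescale_J (ζ z : Kˣ) (m : ℕ) :
    pxs_rescale K z (cph_J K ζ m) = cph_J K (ζ * z ^ m) m := by
  rcases eq_or_ne m 0 with rfl | hm
  · simp [cph_J]
  · have : NeZero m := ⟨hm⟩
    rw [cph_J_eq, cph_J_eq, pxs_subst_apply, pxs_subst_apply, pxs_rescale_qExpand,
      pxs_rescale_rescale]

/-- **the product formula over the Puiseux field**, with identity branch and rotation. -/
theorem cph_Gι_eq_prod' (zN : K) (hzN : IsPrimitiveRoot zN N) :
    ∃ (n : ℕ) (ζ : Fin n → Kˣ) (m : Fin n → ℕ), (∀ i, ζ i ^ N = 1) ∧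
      (∀ i, 0 < m i ∧ m i ≤ N * N) ∧ Function.Injective (fun i => (ζ i, m i)) ∧
      (∃ i0, ζ i0 = 1 ∧ m i0 = N * N) ∧
      (∀ (z : Kˣ), z ^ N = 1 → ∀ i, ∃ i', ζ i' = ζ i * z ^ m i ∧ m i' = m i) ∧
      n = (cph_Gι K N).natDegree ∧
      cph_Gι K N = ∏ i, (X - C (cph_J K (ζ i) (m i))) := by
  obtain ⟨n, ζ, m, h1, h2, h3, h4, h5⟩ := cph_Gι_eq_prod K N zN hzN
  have hN2 : N * N ≠ 0 := mul_ne_zero (NeZero.ne N) (NeZero.ne N)
  -- roots are among the `J i`
  have hroot : ∀ y : LaurentSeries K, (cph_Gι K N).IsRoot y → ∃ i, y = cph_J K (ζ i) (m i) := by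
    intro y hy
    rw [Polynomial.IsRoot.def, h5, Polynomial.eval_prod, Finset.prod_eq_zero_iff] at hy
    obtain ⟨i, -, hi⟩ := hy
    refine ⟨i, ?_⟩
    rw [Polynomial.eval_sub, Polynomial.eval_X, Polynomial.eval_C, sub_eq_zero] at hi
    exact hi
  have hisroot : ∀ i, (cph_Gι K N).IsRoot (cph_J K (ζ i) (m i)) := by
    intro i
    rw [Polynomial.IsRoot.def, h5, Polynomial.eval_prod]
    apply Finset.prod_eq_zero (Finset.mem_univ i)
    simp
  refine ⟨n, ζ, m, h1, h2, h3, ?_, ?_, h4, h5⟩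
  · obtain ⟨i0, hi0⟩ := hroot _ (cph_Gι_isRoot_iota_jN K N)
    rw [cph_iota_jN] at hi0
    obtain ⟨hζ, hm⟩ := cph_J_injective hN2 (h2 i0).1.ne' hi0
    exact ⟨i0, hζ.symm, hm.symm⟩
  · intro z hz i
    have hr : (cph_Gι K N).IsRoot (pxs_rescale K z (cph_J K (ζ i) (m i))) := by
      have := (hisroot i).map (f := pxs_rescale K z)
      rwa [cph_Gι_map_rescale K N z hz] at this
    obtain ⟨i', hi'⟩ := hroot _ hr
    rw [cph_rescale_J] at hi'
    obtain ⟨hζ, hm⟩ := cph_J_injective (h2 i).1.ne' (h2 i').1.ne' hi'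
    exact ⟨i', hζ.symm, hm.symm⟩


omit [CharZero K] in
/-- `j(q^N)` is integral over `K[j]` (as a subalgebra of `F_N(K)`). -/
theorem cph_isIntegral_jN : IsIntegral (Algebra.adjoin K {pls_jb K N}) (cph_jN K N) := by
  obtain ⟨P, hPm, hP⟩ := mpcf_exists_monic_jqd K N
  refine sa_isIntegral_subalgebra_of_rel _ P hPm (pls_jb K N) (cph_jN K N)
    (Algebra.self_mem_adjoin_singleton _ _) ?_
  apply (algebraMap (pls_Fb K N) (LaurentSeries K)).injective
  rw [map_zero, Polynomial.hom_eval₂]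
  rw [← hP]
  congr 1
  apply RingHom.ext
  intro f
  exact (Polynomial.aeval_algHom_apply (modularFunctionFieldFullC K N).val (pls_jb K N) f).symm

omit [CharZero K] in
/-- **Gauss**: the minimal polynomial of `j(q^N)` over `K(j)` has coefficients in `K[j]`:
`Gι = G₁(J(t^N), Y)` with `G₁ ∈ K[X][Y]` monic. -/
theorem cph_exists_G₁ : ∃ G₁ : Polynomial (Polynomial K), G₁.Monic ∧
    G₁.map (Polynomial.aeval (R := K) (qExpand K N (jqModC K))).toRingHom = cph_Gι K N := by
  obtain ⟨G₁, hm, h⟩ := cph_minpoly_polyCoeffs (pls_jb K N) (pls_transcendental_jb K N)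
    (cph_jN K N) (cph_isIntegral_jN K N)
  refine ⟨G₁, hm, ?_⟩
  have h2 := congrArg (Polynomial.map (cph_iota K N)) h
  rw [Polynomial.map_map, Polynomial.map_map] at h2
  rw [cph_Gι, ← h2]
  congr 1
  apply RingHom.ext
  intro f
  symm
  show cph_iota K N (Polynomial.aeval (pls_jb K N) f) = Polynomial.aeval (qExpand K N (jqModC K)) f
  rw [cph_iota_apply]
  have h3 := Polynomial.aeval_algHom_apply (modularFunctionFieldFullC K N).val (pls_jb K N) f
  have h4 : ((Polynomial.aeval (pls_jb K N) f : pls_Fb K N) : LaurentSeries K) =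
      Polynomial.aeval (jqModC K) f := h3.symm
  rw [h4]
  have h5 := Polynomial.aeval_algHom_apply (qExpandAlgHomC K N) (jqModC K) f
  exact h5.symm

end Field

end

end Fermat.Agent.S18x
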