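/-
S18 block NRM, sub-row N3h (helper3): CHARACTERISTIC ZERO PRIMITIVITY of `j_N = j(q^N)`.

Over `Q̄` the modular function field of level `N` is generated over `Q̄(j)` by the single element `j_N`:
* `ccp_adjoin_jdBar_eq_top`   : `Q̄(j)(j_N) = ⊤` inside `FBar N` (S24x language), from the degree lower bound
                                `dl_natDegree_ge` (every nonzero polynomial over `Q̄(j)` killing `j_N` has degree `≥ ψ(N)`)
                                and `[F_N : Q̄(j)] = ψ(N)` (S24 `cdeg_jBar`);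
* `ccp_fullC_eq_bar`          : `modularFunctionFieldFullC Q̄ N = modularFunctionFieldBar N` (two Prelude descriptions of the same
                                subfield of `Q̄((q))`);
* `ccp_fieldC_eq_fullC`       : `modularFunctionFieldC Q̄ N = modularFunctionFieldFullC Q̄ N`, i.e. `Q̄(j, j_N) = Q̄(j_d : d ∣ N)`;
* `ccp_algHom_ext`            : two `Q̄`-algebra homs out of `modularFunctionFieldFullC Q̄ N` that agree on `j` and `j_N` are equal
                                (consumer: distinct embeddings `σ ∈ ccm_Emb Q̄ N` have distinct conjugates `σ(j_N)`);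
* `ccp_algHom_ext_bar`        : the same for `modularFunctionFieldBar N`.
-/
import Fermat.Agent.S24
import Fermat.Agent.S24x.DegreeLowerCore
import Fermat.Agent.S24x.FBarFinite
import Fermat.Agent.S24x.Realize
import Fermat.Prelude.Def_ModularCurve_X0ModL
import Fermat.Prelude.Thm_ModularCurve_coeffMap_qExpand

set_option autoImplicit false

namespace Fermat.Agent.S18x

open ModularCurve IntermediateField Fermat.Agent.S24x

/-- the generator `j(q^d)` of the S24x field is the generator of the Prelude's `modularFunctionFieldFullC` -/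
theorem ccp_coeffEmb_qExpand_jq (d : ℕ) [NeZero d] :
    coeffEmb Qbar (qExpand ℚ d jq) = qExpand Qbar d (jqModC Qbar) := by
  rw [coeffEmb, ModularCurve.coeffMap_qExpand, ← jqModC_rat, coeffMap_jqModC]

/-- the two Prelude descriptions of the level `N` function field over `Q̄` coincide -/
theorem ccp_fullC_eq_bar (N : ℕ) [NeZero N] :
    modularFunctionFieldFullC Qbar N = modularFunctionFieldBar N := by
  rw [modularFunctionFieldBar_eq_adjoin, modularFunctionFieldFullC]
  congr 1
  ext x
  constructor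
  · rintro ⟨d, hne, hd, rfl⟩
    exact ⟨d, hne, hd, (ccp_coeffEmb_qExpand_jq d).symm⟩
  · rintro ⟨d, hne, hd, rfl⟩
    exact ⟨d, hne, hd, ccp_coeffEmb_qExpand_jq d⟩

/-- **primitivity in characteristic zero**: `F_N = Q̄(j)(j_N)` -/
theorem ccp_adjoin_jdBar_eq_top (N : ℕ) [NeZero N] :
    (Qbar⟮jBar N⟯)⟮jdBar N N dvd_rfl⟯ = ⊤ := by
  have hfin : FiniteDimensional Qbar⟮jBar N⟯ (FBar N) := fbf_finiteDimensional_jBar N
  have hint : IsIntegral Qbar⟮jBar N⟯ (jdBar N N dvd_rfl) := IsIntegral.of_finite _ _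
  have h1 : dedekindPsi N ≤ (minpoly Qbar⟮jBar N⟯ (jdBar N N dvd_rfl)).natDegree := by
    have := dl_natDegree_ge N (minpoly Qbar⟮jBar N⟯ (jdBar N N dvd_rfl)) (minpoly.ne_zero hint)
      (minpoly.aeval _ _)
    rwa [dl_idx_eq] at this
  have h2 : Module.finrank Qbar⟮jBar N⟯ (FBar N) = dedekindPsi N :=
    (Fermat.Agent.S24.cInputs N).cdeg_jBar
  have h3 : Module.finrank Qbar⟮jBar N⟯ ((Qbar⟮jBar N⟯)⟮jdBar N N dvd_rfl⟯) =
      (minpoly Qbar⟮jBar N⟯ (jdBar N N dvd_rfl)).natDegree :=
    IntermediateField.adjoin.finrank hint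
  apply IntermediateField.toSubalgebra_injective
  apply Subalgebra.toSubmodule_injective
  rw [IntermediateField.top_toSubalgebra, Algebra.top_toSubmodule]
  apply Submodule.eq_top_of_finrank_eq
  apply le_antisymm (Submodule.finrank_le _)
  rw [h2]
  exact h1.trans h3.symm.le

/-- `Q̄(j, j_N) = ⊤` inside `FBar N` (adjunction over the constant field) -/
theorem ccp_adjoin_pair_eq_top (N : ℕ) [NeZero N] :
    IntermediateField.adjoin Qbar ({jBar N} ∪ {jdBar N N dvd_rfl} : Set (FBar N)) = ⊤ := by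
  have h := IntermediateField.adjoin_adjoin_left Qbar (S := ({jBar N} : Set (FBar N)))
    ({jdBar N N dvd_rfl} : Set (FBar N))
  rw [← h, eq_top_iff]
  intro x _
  have hx : x ∈ (Qbar⟮jBar N⟯)⟮jdBar N N dvd_rfl⟯ := by
    rw [ccp_adjoin_jdBar_eq_top]
    exact IntermediateField.mem_top
  exact hx

/-- `modularFunctionFieldBar N = Q̄(j, j_N)` as subfields of `Q̄((q))` -/
theorem ccp_bar_eq_adjoin_pair (N : ℕ) [NeZero N] :
    modularFunctionFieldBar N =
      IntermediateField.adjoin Qbar ({jqModC Qbar, jqNModC Qbar N} : Set (LaurentSeries Qbar)) := by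
  have h1 : (⊤ : IntermediateField Qbar (FBar N)).map (modularFunctionFieldBar N).val =
      modularFunctionFieldBar N := by
    rw [← AlgHom.fieldRange_eq_map, IntermediateField.fieldRange_val]
  rw [← h1, ← ccp_adjoin_pair_eq_top N, IntermediateField.adjoin_map]
  congr 1
  rw [Set.image_union, Set.image_singleton, Set.image_singleton, Set.singleton_union]
  have e1 : (modularFunctionFieldBar N).val (jBar N) = jqModC Qbar := by
    show ((jBar N : FBar N) : LaurentSeries Qbar) = jqModC Qbar
    rw [coe_jBar]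
    have := ccp_coeffEmb_qExpand_jq 1
    rwa [qExpand_one_apply, qExpand_one_apply] at this
  have e2 : (modularFunctionFieldBar N).val (jdBar N N dvd_rfl) = jqNModC Qbar N := by
    show ((jdBar N N dvd_rfl : FBar N) : LaurentSeries Qbar) = jqNModC Qbar N
    rw [coe_jdBar, ccp_coeffEmb_qExpand_jq, jqNModC]
  rw [e1, e2]

/-- `Q̄(j, j_N) = Q̄(j_d : d ∣ N)` -/
theorem ccp_fieldC_eq_fullC (N : ℕ) [NeZero N] :
    modularFunctionFieldC Qbar N = modularFunctionFieldFullC Qbar N := by
  rw [ccp_fullC_eq_bar, ccp_bar_eq_adjoin_pair, modularFunctionFieldC]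

/-- `modularFunctionFieldFullC Q̄ N = Q̄(j, j_N)` in the form needed by `algHom_ext_of_eq_adjoin` -/
theorem ccp_fullC_eq_adjoin_pair (N : ℕ) [NeZero N] :
    modularFunctionFieldFullC Qbar N =
      IntermediateField.adjoin Qbar ({jqModC Qbar, jqNModC Qbar N} : Set (LaurentSeries Qbar)) := by
  rw [ccp_fullC_eq_bar, ccp_bar_eq_adjoin_pair]

/-- **extensionality**: two `Q̄`-algebra homs out of the level `N` function field which agree on `j` and on `j_N`
are equal. -/
theorem ccp_algHom_ext (N : ℕ) [NeZero N] {B : Type*} [Semiring B] [Algebra Qbar B]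
    (σ σ' : modularFunctionFieldFullC Qbar N →ₐ[Qbar] B)
    (hj : σ ⟨jqModC Qbar, jqModC_mem_full Qbar N⟩ = σ' ⟨jqModC Qbar, jqModC_mem_full Qbar N⟩)
    (hjN : σ ⟨qExpand Qbar N (jqModC Qbar), jqModCd_mem_full Qbar N dvd_rfl⟩ =
      σ' ⟨qExpand Qbar N (jqModC Qbar), jqModCd_mem_full Qbar N dvd_rfl⟩) :
    σ = σ' := by
  refine IntermediateField.algHom_ext_of_eq_adjoin Qbar (ccp_fullC_eq_adjoin_pair N) ?_
  intro x hx
  rcases hx with rfl | hx
  · exact hj
  · rw [Set.mem_singleton_iff] at hx
    subst hx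
    exact hjN

/-- the same for `modularFunctionFieldBar N` (S24x language) -/
theorem ccp_algHom_ext_bar (N : ℕ) [NeZero N] {B : Type*} [Semiring B] [Algebra Qbar B]
    (σ σ' : FBar N →ₐ[Qbar] B)
    (hj : σ (jBar N) = σ' (jBar N))
    (hjN : σ (jdBar N N dvd_rfl) = σ' (jdBar N N dvd_rfl)) :
    σ = σ' := by
  have h := ccp_adjoin_pair_eq_top N
  have h2 : (⊤ : IntermediateField Qbar (FBar N)) =
      IntermediateField.adjoin Qbar ({jBar N} ∪ {jdBar N N dvd_rfl} : Set (FBar N)) := h.symm
  have key : σ.comp (IntermediateField.topEquiv (F := Qbar) (E := FBar N)).toAlgHom =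
      σ'.comp (IntermediateField.topEquiv (F := Qbar) (E := FBar N)).toAlgHom := by
    refine IntermediateField.algHom_ext_of_eq_adjoin Qbar h2 ?_
    intro x hx
    rcases hx with hx | hx
    · rw [Set.mem_singleton_iff] at hx
      subst hx
      exact hj
    · rw [Set.mem_singleton_iff] at hx
      subst hx
      exact hjN
  ext x
  exact congrArg (fun f => f ⟨x, IntermediateField.mem_top⟩) key

/-- **injectivity of `σ ↦ σ(j_N)`** on `Q̄`-embeddings of the level `N` function field with prescribed value on `j`. -/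
theorem ccp_eq_of_apply_jN_eq (N : ℕ) [NeZero N] {B : Type*} [Semiring B] [Algebra Qbar B] (y : B)
    (σ σ' : modularFunctionFieldFullC Qbar N →ₐ[Qbar] B)
    (hσ : σ ⟨jqModC Qbar, jqModC_mem_full Qbar N⟩ = y)
    (hσ' : σ' ⟨jqModC Qbar, jqModC_mem_full Qbar N⟩ = y)
    (hjN : σ ⟨qExpand Qbar N (jqModC Qbar), jqModCd_mem_full Qbar N dvd_rfl⟩ =
      σ' ⟨qExpand Qbar N (jqModC Qbar), jqModCd_mem_full Qbar N dvd_rfl⟩) :
    σ = σ' :=
  ccp_algHom_ext N σ σ' (hσ.trans hσ'.symm) hjN

end Fermat.Agent.S18x
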