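/-
S18 project, NRM block, N7 leaf `cspd_` (helper89, for helper35): the characteristic-zero degree
`[F_N(Q̄) : Q̄(j)] = ψ(N)` in the `pls_Fb` / `cph_E` spelling of helper7's `cph_H2`, and the bound
`deg minpoly_{Q̄(j)}(j_N) ≤ ψ(N)`.

* `cspd_finrank N`               : `finrank (cph_E Q̄ N) (pls_Fb Q̄ N) = ψ(N)`
                                   (`cph_E Q̄ N = Q̄⟮pls_jb Q̄ N⟯`, `pls_Fb Q̄ N = ↥(modularFunctionFieldFullC Q̄ N)`);
* `cspd_natDegree_minpoly_le N`  : `(minpoly (cph_E Q̄ N) (cph_jN Q̄ N)).natDegree ≤ ψ(N)`;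
* `cspd_natDegree_minpoly_eq N`  : equality (char-0 primitivity, helper3's `ccp_adjoin_jdBar_eq_top`);
* `cspd_le_psi`                  : `n ≤ finrank (cph_E Q̄ N) (pls_Fb Q̄ N) → n ≤ ψ(N)`  (the conjunct of `cph_H2`).
-/
import Fermat.Agent.S18x.CuspConjPrim
import Fermat.Agent.S18x.CuspConjPhi

set_option autoImplicit false

namespace Fermat.Agent.S18x

open ModularCurve IntermediateField Fermat.Agent.S24x

noncomputable section

/-- transport of the degree over a simple subfield along an equality of intermediate fields -/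
theorem cspd_finrank_congr {K Ω : Type*} [Field K] [Field Ω] [Algebra K Ω]
    {E₁ E₂ : IntermediateField K Ω} (h : E₁ = E₂) (t₁ : E₁) (t₂ : E₂)
    (ht : (t₁ : Ω) = (t₂ : Ω)) :
    Module.finrank K⟮t₁⟯ E₁ = Module.finrank K⟮t₂⟯ E₂ := by
  subst h
  have h12 : t₁ = t₂ := Subtype.ext ht
  subst h12
  rfl

/-- transport of the degree of a minimal polynomial over a simple subfield along an equality of
intermediate fields -/
theorem cspd_natDegree_minpoly_congr {K Ω : Type*} [Field K] [Field Ω] [Algebra K Ω]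
    {E₁ E₂ : IntermediateField K Ω} (h : E₁ = E₂) (t₁ y₁ : E₁) (t₂ y₂ : E₂)
    (ht : (t₁ : Ω) = (t₂ : Ω)) (hy : (y₁ : Ω) = (y₂ : Ω)) :
    (minpoly K⟮t₁⟯ y₁).natDegree = (minpoly K⟮t₂⟯ y₂).natDegree := by
  subst h
  have h12 : t₁ = t₂ := Subtype.ext ht
  subst h12
  have h34 : y₁ = y₂ := Subtype.ext hy
  subst h34
  rfl

theorem cspd_coe_jBar (N : ℕ) [NeZero N] :
    ((jBar N : FBar N) : LaurentSeries Qbar) = jqModC Qbar := by
  rw [coe_jBar]
  have := ccp_coeffEmb_qExpand_jq 1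
  rwa [qExpand_one_apply, qExpand_one_apply] at this

theorem cspd_coe_jdBar (N : ℕ) [NeZero N] (d : ℕ) [NeZero d] (hd : d ∣ N) :
    ((jdBar N d hd : FBar N) : LaurentSeries Qbar) = qExpand Qbar d (jqModC Qbar) := by
  rw [coe_jdBar, ccp_coeffEmb_qExpand_jq]

/-- **(a)** `[F_N(Q̄) : Q̄(j)] = ψ(N)` in the `pls_`/`cph_` spelling. -/
theorem cspd_finrank (N : ℕ) [NeZero N] :
    Module.finrank (cph_E Qbar N) (pls_Fb Qbar N) = dedekindPsi N := by
  have h2 : Module.finrank Qbar⟮jBar N⟯ (FBar N) = dedekindPsi N :=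
    (Fermat.Agent.S24.cInputs N).cdeg_jBar
  rw [← h2]
  exact cspd_finrank_congr (ccp_fullC_eq_bar N) (pls_jb Qbar N) (jBar N)
    (by rw [pls_coe_jb, cspd_coe_jBar])

/-- the same with the simple adjoin written out -/
theorem cspd_finrank' (N : ℕ) [NeZero N] :
    Module.finrank (IntermediateField.adjoin Qbar {pls_jb Qbar N}) (pls_Fb Qbar N) =
      dedekindPsi N :=
  cspd_finrank N

/-- the conjunct `n ≤ finrank (cph_E K N) (pls_Fb K N)` of `cph_H2` at `K = Q̄` gives `n ≤ ψ(N)`. -/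
theorem cspd_le_psi (N : ℕ) [NeZero N] {n : ℕ}
    (hn : n ≤ Module.finrank (cph_E Qbar N) (pls_Fb Qbar N)) : n ≤ dedekindPsi N :=
  hn.trans (cspd_finrank N).le

/-- **(b)** `deg minpoly_{Q̄(j)}(j_N) ≤ ψ(N)`. -/
theorem cspd_natDegree_minpoly_le (N : ℕ) [NeZero N] :
    (minpoly (cph_E Qbar N) (cph_jN Qbar N)).natDegree ≤ dedekindPsi N := by
  haveI : FiniteDimensional (cph_E Qbar N) (pls_Fb Qbar N) := pls_finiteDimensional_jb Qbar N
  rw [← cspd_finrank N]
  exact minpoly.natDegree_le (cph_jN Qbar N)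

/-- equality: `deg minpoly_{Q̄(j)}(j_N) = ψ(N)` (char-0 primitivity of `j_N`). -/
theorem cspd_natDegree_minpoly_eq (N : ℕ) [NeZero N] :
    (minpoly (cph_E Qbar N) (cph_jN Qbar N)).natDegree = dedekindPsi N := by
  have hcongr : (minpoly (cph_E Qbar N) (cph_jN Qbar N)).natDegree =
      (minpoly Qbar⟮jBar N⟯ (jdBar N N dvd_rfl)).natDegree :=
    cspd_natDegree_minpoly_congr (ccp_fullC_eq_bar N) (pls_jb Qbar N) (cph_jN Qbar N)
      (jBar N) (jdBar N N dvd_rfl) (by rw [pls_coe_jb, cspd_coe_jBar])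
      (by rw [pls_coe_jdb, cspd_coe_jdBar])
  rw [hcongr]
  have hfin : FiniteDimensional Qbar⟮jBar N⟯ (FBar N) := fbf_finiteDimensional_jBar N
  have hint : IsIntegral Qbar⟮jBar N⟯ (jdBar N N dvd_rfl) := IsIntegral.of_finite _ _
  have h2 : Module.finrank Qbar⟮jBar N⟯ (FBar N) = dedekindPsi N :=
    (Fermat.Agent.S24.cInputs N).cdeg_jBar
  have h3 : Module.finrank Qbar⟮jBar N⟯ ((Qbar⟮jBar N⟯)⟮jdBar N N dvd_rfl⟯) =
      (minpoly Qbar⟮jBar N⟯ (jdBar N N dvd_rfl)).natDegree :=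
    IntermediateField.adjoin.finrank hint
  rw [← h3, ccp_adjoin_jdBar_eq_top, ← h2]
  exact IntermediateField.finrank_top'

end

end Fermat.Agent.S18x
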