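import Mathlib

/-!
# Field-theoretic front end of OUT-C (S18 block NRM, row N7; helper17 for helper35; prefix `cspf_`)

`a, b` elements of a field `E ⊇ k`, `b` integral over `k[a]`:
* `cspf_num_den`: every `y ∈ k(a,b)` is `H₀(a,b)/d(a)` with `H₀ ∈ k[X][Y]`, `d ∈ k[X]`, `d(a) ≠ 0`;
* `cspf_LI`: if `a` is transcendental and `n ≤ [k(a,b) : k(a)]`, then `1, b, …, b^(n-1)` are linearly
  independent over `k[a]`;
* `cspf_adjoin_inv`: change of generators `(j, j_N) ↔ (1/j, j^(-N) j_N)`.
-/

set_option autoImplicit false

noncomputable section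

namespace Fermat.Agent.S18x

open Polynomial IntermediateField

section

variable {k E : Type*} [Field k] [Field E] [Algebra k E]

/-- two-variable evaluation: inner variable at `a`, outer variable at `b`. -/
theorem cspf_e2_C (a b : E) (p : Polynomial k) :
    Polynomial.eval₂ (Polynomial.eval₂RingHom (algebraMap k E) a) b (Polynomial.C p)
      = Polynomial.aeval a p := by
  rw [Polynomial.eval₂_C]
  rfl

/-- an element of `k(a)` is a quotient `r(a)/s(a)` with `s(a) ≠ 0`. -/
theorem cspf_mem_simple (a c : E) (hc : c ∈ IntermediateField.adjoin k {a}) :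
    ∃ r s : Polynomial k, Polynomial.aeval a s ≠ 0 ∧ Polynomial.aeval a s * c = Polynomial.aeval a r := by
  obtain ⟨r, s, hrs⟩ := (IntermediateField.mem_adjoin_simple_iff k c).mp hc
  by_cases hs : Polynomial.aeval a s = 0
  · refine ⟨0, 1, by simp, ?_⟩
    rw [hrs, hs, div_zero]
    simp
  · refine ⟨r, s, hs, ?_⟩
    rw [hrs, mul_div_cancel₀ _ hs]

/-- clearing denominators in a polynomial over `k(a)` evaluated at `b`. -/
theorem cspf_clear (a b : E) (g : Polynomial (IntermediateField.adjoin k {a})) :
    ∃ (H0 : Polynomial (Polynomial k)) (d : Polynomial k), Polynomial.aeval a d ≠ 0 ∧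
      Polynomial.aeval a d * Polynomial.aeval b g =
        Polynomial.eval₂ (Polynomial.eval₂RingHom (algebraMap k E) a) b H0 := by
  induction g using Polynomial.induction_on with
  | C c =>
    obtain ⟨r, s, hs, hrs⟩ := cspf_mem_simple a (c : E) c.2
    refine ⟨Polynomial.C r, s, hs, ?_⟩
    rw [cspf_e2_C, Polynomial.aeval_C]
    exact hrs
  | add p q hp hq =>
    obtain ⟨H1, d1, hd1, h1⟩ := hp
    obtain ⟨H2, d2, hd2, h2⟩ := hq
    refine ⟨Polynomial.C d2 * H1 + Polynomial.C d1 * H2, d1 * d2, ?_, ?_⟩
    · rw [map_mul]; exact mul_ne_zero hd1 hd2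
    · rw [map_add, map_mul, Polynomial.eval₂_add, Polynomial.eval₂_mul, Polynomial.eval₂_mul,
        cspf_e2_C, cspf_e2_C, ← h1, ← h2]
      ring
  | monomial n c h =>
    obtain ⟨H1, d1, hd1, h1⟩ := h
    refine ⟨H1 * Polynomial.X, d1, hd1, ?_⟩
    rw [Polynomial.eval₂_mul, Polynomial.eval₂_X, ← h1, pow_succ, ← mul_assoc, map_mul,
      Polynomial.aeval_X]
    ring

/-- **(alpha)** numerator/denominator form of the elements of `k(a,b)`, `b` integral over `k[a]`. -/
theorem cspf_num_den {k E : Type*} [Field k] [Field E] [Algebra k E] (a b : E)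
    (hb : ∃ f : Polynomial (Polynomial k), f.Monic ∧
      Polynomial.eval₂ (Polynomial.eval₂RingHom (algebraMap k E) a) b f = 0)
    (y : E) (hy : y ∈ IntermediateField.adjoin k {a, b}) :
    ∃ (H0 : Polynomial (Polynomial k)) (d : Polynomial k), Polynomial.aeval a d ≠ 0 ∧
      Polynomial.aeval a d * y =
        Polynomial.eval₂ (Polynomial.eval₂RingHom (algebraMap k E) a) b H0 := by
  obtain ⟨f, hfm, hf0⟩ := hb
  set F : IntermediateField k E := IntermediateField.adjoin k {a} with hF
  have haF : a ∈ F := IntermediateField.mem_adjoin_simple_self k a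
  -- the ring hom `k[X] → F`, `p ↦ p(a)`
  let φ : Polynomial k →+* F := (Polynomial.aeval (⟨a, haF⟩ : F)).toRingHom
  have hφ : ∀ p : Polynomial k, ((φ p : F) : E) = Polynomial.aeval a p := by
    intro p
    show ((Polynomial.aeval (⟨a, haF⟩ : F) p : F) : E) = _
    rw [← IntermediateField.algebraMap_apply, ← Polynomial.aeval_algebraMap_apply]
    rfl
  -- `b` is integral over `F`
  have hcomp : (algebraMap F E).comp φ = Polynomial.eval₂RingHom (algebraMap k E) a := by
    apply RingHom.ext
    intro p
    rw [RingHom.comp_apply, IntermediateField.algebraMap_apply, hφ]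
    rfl
  have hint : IsIntegral F b := by
    refine ⟨f.map φ, hfm.map φ, ?_⟩
    rw [Polynomial.eval₂_map, hcomp]
    exact hf0
  -- `y ∈ F(b) = F[b]`
  have hy' : y ∈ IntermediateField.adjoin F {b} := by
    have h1 : (IntermediateField.adjoin F {b}).restrictScalars k = IntermediateField.adjoin k {a, b} :=
      IntermediateField.adjoin_simple_adjoin_simple k a b
    have : y ∈ (IntermediateField.adjoin F {b}).restrictScalars k := by rw [h1]; exact hy
    exact this
  have hy'' : y ∈ Algebra.adjoin F {b} := by
    rw [← IntermediateField.adjoin_simple_toSubalgebra_of_isAlgebraic hint.isAlgebraic]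
    exact hy'
  rw [Algebra.adjoin_singleton_eq_range_aeval] at hy''
  obtain ⟨g, hg⟩ := hy''
  obtain ⟨H0, d, hd, h⟩ := cspf_clear a b g
  refine ⟨H0, d, hd, ?_⟩
  rw [← h]
  congr 1
  exact hg.symm

/-- **(gamma)** change of generators. -/
theorem cspf_adjoin_inv {k E : Type*} [Field k] [Field E] [Algebra k E] (j jN : E) (hj : j ≠ 0)
    (N : ℕ) :
    IntermediateField.adjoin k {j⁻¹, (j⁻¹) ^ N * jN} = IntermediateField.adjoin k {j, jN} ∧
    IntermediateField.adjoin k {j⁻¹} = IntermediateField.adjoin k {j} := by
  constructor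
  · apply le_antisymm
    · rw [IntermediateField.adjoin_le_iff]
      rintro x (rfl | rfl)
      · exact inv_mem (IntermediateField.subset_adjoin k _ (Set.mem_insert _ _))
      · exact mul_mem (pow_mem (inv_mem (IntermediateField.subset_adjoin k _ (Set.mem_insert _ _))) N)
          (IntermediateField.subset_adjoin k _ (Set.mem_insert_of_mem _ rfl))
    · rw [IntermediateField.adjoin_le_iff]
      have h1 : j⁻¹ ∈ IntermediateField.adjoin k {j⁻¹, (j⁻¹) ^ N * jN} :=
        IntermediateField.subset_adjoin k _ (Set.mem_insert _ _)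
      have h2 : (j⁻¹) ^ N * jN ∈ IntermediateField.adjoin k {j⁻¹, (j⁻¹) ^ N * jN} :=
        IntermediateField.subset_adjoin k _ (Set.mem_insert_of_mem _ rfl)
      have hjm : j ∈ IntermediateField.adjoin k {j⁻¹, (j⁻¹) ^ N * jN} := by
        have := inv_mem h1
        rwa [inv_inv] at this
      have hjNm : jN ∈ IntermediateField.adjoin k {j⁻¹, (j⁻¹) ^ N * jN} := by
        have e : j ^ N * ((j⁻¹) ^ N * jN) = jN := by
          rw [← mul_assoc, ← mul_pow, mul_inv_cancel₀ hj, one_pow, one_mul]
        have := mul_mem (pow_mem hjm N) h2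
        rwa [e] at this
      rintro x (rfl | rfl)
      · exact hjm
      · exact hjNm
  · apply le_antisymm
    · rw [IntermediateField.adjoin_simple_le_iff]
      exact inv_mem (IntermediateField.mem_adjoin_simple_self k j)
    · rw [IntermediateField.adjoin_simple_le_iff]
      have := inv_mem (IntermediateField.mem_adjoin_simple_self k j⁻¹)
      rwa [inv_inv] at this

/-- **(beta)** linear independence of `1, b, …, b^(n-1)` over `k[a]` from the degree. -/
theorem cspf_LI {k E : Type*} [Field k] [Field E] [Algebra k E] (a b : E)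
    (ha : Transcendental k a) (n : ℕ)
    (hdeg : n ≤ IntermediateField.relfinrank (IntermediateField.adjoin k {a})
      (IntermediateField.adjoin k {a, b}))
    (H : Polynomial (Polynomial k)) (hH : H.natDegree < n)
    (h0 : Polynomial.eval₂ (Polynomial.eval₂RingHom (algebraMap k E) a) b H = 0) : H = 0 := by
  by_contra hne
  set F : IntermediateField k E := IntermediateField.adjoin k {a} with hF
  have haF : a ∈ F := IntermediateField.mem_adjoin_simple_self k a
  let φ : Polynomial k →+* F := (Polynomial.aeval (⟨a, haF⟩ : F)).toRingHom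
  have hφ : ∀ p : Polynomial k, ((φ p : F) : E) = Polynomial.aeval a p := by
    intro p
    show ((Polynomial.aeval (⟨a, haF⟩ : F) p : F) : E) = _
    rw [← IntermediateField.algebraMap_apply, ← Polynomial.aeval_algebraMap_apply]
    rfl
  have hφinj : Function.Injective φ := by
    rw [injective_iff_map_eq_zero]
    intro p hp
    have : Polynomial.aeval a p = 0 := by rw [← hφ, hp]; rfl
    by_contra hp0
    exact ha ⟨p, hp0, this⟩
  have hcomp : (algebraMap F E).comp φ = Polynomial.eval₂RingHom (algebraMap k E) a := by
    apply RingHom.ext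
    intro p
    rw [RingHom.comp_apply, IntermediateField.algebraMap_apply, hφ]
    rfl
  -- the image `G = H.map φ ∈ F[Y]` is nonzero, of the same degree, and kills `b`
  have hG0 : H.map φ ≠ 0 := (Polynomial.map_ne_zero_iff hφinj).mpr hne
  have hGdeg : (H.map φ).natDegree = H.natDegree := Polynomial.natDegree_map_eq_of_injective hφinj H
  have hGb : Polynomial.aeval b (H.map φ) = 0 := by
    rw [Polynomial.aeval_def, Polynomial.eval₂_map, hcomp]
    exact h0
  have hint : IsIntegral F b := (IsAlgebraic.isIntegral ⟨H.map φ, hG0, hGb⟩)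
  -- `[k(a,b) : k(a)] = deg minpoly ≤ deg G < n`
  have hle : F ≤ IntermediateField.adjoin k {a, b} :=
    IntermediateField.adjoin.mono k _ _ (by
      intro x hx
      rw [Set.mem_singleton_iff] at hx
      rw [hx]; exact Set.mem_insert _ _)
  have hrel : IntermediateField.relfinrank F (IntermediateField.adjoin k {a, b})
      = (minpoly F b).natDegree := by
    rw [IntermediateField.relfinrank_eq_finrank_of_le hle]
    have hext : IntermediateField.extendScalars hle = IntermediateField.adjoin F {b} := by
      apply IntermediateField.restrictScalars_injective k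
      rw [IntermediateField.extendScalars_restrictScalars]
      exact (IntermediateField.adjoin_simple_adjoin_simple k a b).symm
    rw [hext]
    exact IntermediateField.adjoin.finrank hint
  have hmin : (minpoly F b).natDegree ≤ (H.map φ).natDegree :=
    Polynomial.natDegree_le_natDegree (minpoly.degree_le_of_ne_zero F b hG0 hGb)
  rw [hrel] at hdeg
  omega

end

end Fermat.Agent.S18x
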