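/-
S18 / block NRM / row N7 (helper35), part 8: CHAR-0 REGULARITY of the lifts, series form.

Over a field `K`: if `f ∈ K[x][Y]` is monic with `f(x(t^N), Y) = ∏ (Y - y i)` and `G' ∈ K[x][Y]`
has all values `G'(x, y i)` divisible by `x^e1`, then there is `c'` such that for every `m` the
series `x^c' * (G'(x, ỹ) / x^e1)^m` is a POLYNOMIAL in `(x, ỹ)` over `K`.  (Hence `G'(x,ỹ)/x^e1`
has non-negative valuation at every place where `x` and the constants are regular.)
Mathlib only.
-/
import Fermat.Agent.S18x.CspnConductor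

set_option autoImplicit false

namespace Fermat.Agent.S18x

open PowerSeries Finset

section PowBound

variable {K : Type*} [Field K]
variable {ι : Type*} [Fintype ι] [DecidableEq ι]

/-- evaluation of `H ∈ K[x][Y]` at `(x, ys)` in `K[[q]]` -/
noncomputable def cspn_evq {B : Type*} [CommRing B] (x ys : B⟦X⟧) (H : Polynomial (Polynomial B)) :
    B⟦X⟧ :=
  Polynomial.eval₂ (cspn_aev x) ys H

theorem cspn_exp_evq {B : Type*} [CommRing B] (N : ℕ) (hN : N ≠ 0) (x ys : B⟦X⟧)
    (H : Polynomial (Polynomial B)) :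
    cspn_exp B N hN (cspn_evq x ys H) = cspn_ev2 N hN x (cspn_exp B N hN ys) H := by
  rw [cspn_evq, cspn_ev2, Polynomial.hom_eval₂]

theorem cspn_pow_bound (N : ℕ) (hN : N ≠ 0) (y : ι → K⟦X⟧)
    (hy : ∀ i i', i ≠ i' → cspn_IsMonUnit (y i - y i'))
    (x ε δ : K⟦X⟧) (hx : x = X * ε) (hεδ : δ * ε = 1)
    (f : Polynomial (Polynomial K)) (hfm : f.Monic)
    (hf : f.map ((cspn_exp K N hN).comp (cspn_aev x)) =
      ∏ i, (Polynomial.X - Polynomial.C (y i)))
    (ys : K⟦X⟧) (i0 : ι) (hi0 : y i0 = cspn_exp K N hN ys)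
    (G' : Polynomial (Polynomial K)) (e1 : ℕ)
    (hG' : ∀ i, (X : K⟦X⟧) ^ (N * e1) ∣ cspn_ev2 N hN x (y i) G') :
    ∃ c' : ℕ, ∀ m : ℕ, ∃ R' : Polynomial (Polynomial K),
      x ^ c' * (cspn_evq x ys G') ^ m = x ^ (e1 * m) * cspn_evq x ys R' := by
  classical
  obtain ⟨c', hc'⟩ := cspn_conductor N hN y hy
  refine ⟨c', fun m => ?_⟩
  set φ : K⟦X⟧ →+* K⟦X⟧ := cspn_exp K N hN with hφ
  have hφinj : Function.Injective φ := cspn_expand_injective N hN
  -- `f` vanishes at all conjugates and at `(x, ys)`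
  have hfev : ∀ i, cspn_ev2 N hN x (y i) f = 0 := by
    intro i
    rw [cspn_ev2, ← Polynomial.eval_map, hf, Polynomial.eval_prod]
    exact Finset.prod_eq_zero (mem_univ i) (by simp)
  have hfq : cspn_evq x ys f = 0 := by
    apply hφinj
    rw [map_zero, hφ, cspn_exp_evq, ← hi0]
    exact hfev i0
  have hfdeg : f.natDegree = Fintype.card ι := by
    have h1 : (f.map ((cspn_exp K N hN).comp (cspn_aev x))).natDegree = f.natDegree :=
      hfm.natDegree_map _
    rw [← h1, hf, Polynomial.natDegree_prod_of_monic _ _ fun i _ => Polynomial.monic_X_sub_C _]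
    simp
  -- division of `G'^m` by `f`
  set H : Polynomial (Polynomial K) := G' ^ m with hH
  set Rem : Polynomial (Polynomial K) := H %ₘ f with hRem
  set Q : Polynomial (Polynomial K) := H /ₘ f with hQ
  have hdiv : Rem + f * Q = H := Polynomial.modByMonic_add_div H f
  have hRemdeg : Rem.degree < Fintype.card ι := by
    have := Polynomial.degree_modByMonic_lt H hfm
    rwa [Polynomial.degree_eq_natDegree hfm.ne_zero, hfdeg] at this
  have hRemq : cspn_evq x ys Rem = (cspn_evq x ys G') ^ m := by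
    have h1 : cspn_evq x ys H = cspn_evq x ys Rem + cspn_evq x ys f * cspn_evq x ys Q := by
      rw [← hdiv, cspn_evq, cspn_evq, cspn_evq, cspn_evq, Polynomial.eval₂_add,
        Polynomial.eval₂_mul]
    rw [hfq, zero_mul, add_zero] at h1
    rw [← h1, hH, cspn_evq, cspn_evq, Polynomial.eval₂_pow]
  have hRemev : ∀ i, cspn_ev2 N hN x (y i) Rem = (cspn_ev2 N hN x (y i) G') ^ m := by
    intro i
    have h1 : cspn_ev2 N hN x (y i) H =
        cspn_ev2 N hN x (y i) Rem + cspn_ev2 N hN x (y i) f * cspn_ev2 N hN x (y i) Q := by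
      rw [← hdiv, cspn_ev2, cspn_ev2, cspn_ev2, cspn_ev2, Polynomial.eval₂_add,
        Polynomial.eval₂_mul]
    rw [hfev i, zero_mul, add_zero] at h1
    rw [← h1, hH, cspn_ev2, cspn_ev2, Polynomial.eval₂_pow]
  -- the conductor
  have hcond := hc' (Rem.map (cspn_aev x))
    (lt_of_le_of_lt Polynomial.degree_map_le hRemdeg) (e1 * m) (fun i => by
      rw [Polynomial.map_map, Polynomial.eval_map]
      have : Polynomial.eval₂ ((cspn_exp K N hN).comp (cspn_aev x)) (y i) Rem =
          cspn_ev2 N hN x (y i) Rem := rfl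
      rw [this, hRemev i, ← mul_assoc, pow_mul]
      exact pow_dvd_pow_of_dvd (hG' i) m)
  have hdvd : Polynomial.C ((Polynomial.X : Polynomial K) ^ (e1 * m)) ∣
      Polynomial.C ((Polynomial.X : Polynomial K) ^ c') * Rem := by
    rw [Polynomial.C_dvd_iff_dvd_coeff]
    intro j
    rw [Polynomial.coeff_C_mul]
    apply cspn_X_pow_dvd_of_aeval x ε δ hx hεδ
    have h1 := (Polynomial.C_dvd_iff_dvd_coeff _ _).mp hcond j
    rw [Polynomial.coeff_C_mul, Polynomial.coeff_map] at h1
    exact h1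
  obtain ⟨R', hR'⟩ := hdvd
  refine ⟨R', ?_⟩
  have h2 := congrArg (cspn_evq x ys) hR'
  simp only [cspn_evq, Polynomial.eval₂_mul, Polynomial.eval₂_C] at h2
  have hxp : ∀ d : ℕ, cspn_aev x ((Polynomial.X : Polynomial K) ^ d) = x ^ d := fun d => by
    rw [map_pow, cspn_aev_apply, Polynomial.aeval_X]
  rw [hxp, hxp] at h2
  rw [← hRemq]
  exact h2

end PowBound

end Fermat.Agent.S18x
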