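/-
S18 / block NRM / row N7 (helper35), part 9: plumbing for two-variable evaluations
(`H ∈ R[x][Y]` evaluated at a pair of elements of a ring `T` with constants `c : R → T`),
base change of the core data along a ring homomorphism, passage PowerSeries → LaurentSeries.
Mathlib only.
-/
import Fermat.Agent.S18x.CspnPowBound

set_option autoImplicit false

namespace Fermat.Agent.S18x

open PowerSeries Finset

section E2

variable {R T T' R' : Type*} [CommRing R] [CommRing T] [CommRing T'] [CommRing R']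

/-- `H(X, Y)` for `H ∈ R[x][Y]`, constants through `c : R →+* T` -/
noncomputable def cspn_e2 (c : R →+* T) (X Y : T) (H : Polynomial (Polynomial R)) : T :=
  Polynomial.eval₂ (Polynomial.eval₂RingHom c X) Y H

theorem cspn_e2_hom (g : T →+* T') (c : R →+* T) (X Y : T) (H : Polynomial (Polynomial R)) :
    g (cspn_e2 c X Y H) = cspn_e2 (g.comp c) (g X) (g Y) H := by
  rw [cspn_e2, cspn_e2, Polynomial.hom_eval₂]
  congr 1
  refine Polynomial.ringHom_ext (fun a => ?_) ?_
  · simp [Polynomial.eval₂_C]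
  · simp [Polynomial.eval₂_X]

theorem cspn_e2_map (h : R' →+* R) (c : R →+* T) (X Y : T) (H : Polynomial (Polynomial R')) :
    cspn_e2 c X Y (H.map (Polynomial.mapRingHom h)) = cspn_e2 (c.comp h) X Y H := by
  rw [cspn_e2, cspn_e2, Polynomial.eval₂_map]
  congr 1
  refine Polynomial.ringHom_ext (fun a => ?_) ?_
  · simp [Polynomial.eval₂_C]
  · simp [Polynomial.eval₂_X]

theorem cspn_e2_mul (c : R →+* T) (X Y : T) (H H' : Polynomial (Polynomial R)) :
    cspn_e2 c X Y (H * H') = cspn_e2 c X Y H * cspn_e2 c X Y H' := by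
  rw [cspn_e2, cspn_e2, cspn_e2, Polynomial.eval₂_mul]

theorem cspn_e2_C_X_pow (c : R →+* T) (X Y : T) (d : ℕ) :
    cspn_e2 c X Y (Polynomial.C ((Polynomial.X : Polynomial R) ^ d)) = X ^ d := by
  rw [cspn_e2, Polynomial.eval₂_C]
  simp [Polynomial.eval₂_X]

theorem cspn_aev_eq (x : R⟦X⟧) : cspn_aev x = Polynomial.eval₂RingHom (PowerSeries.C) x := by
  refine Polynomial.ringHom_ext (fun a => ?_) ?_
  · rw [cspn_aev_apply, Polynomial.aeval_C, Polynomial.coe_eval₂RingHom, Polynomial.eval₂_C]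
    rfl
  · rw [cspn_aev_apply, Polynomial.aeval_X, Polynomial.coe_eval₂RingHom, Polynomial.eval₂_X]

theorem cspn_evq_eq_e2 (x ys : R⟦X⟧) (H : Polynomial (Polynomial R)) :
    cspn_evq x ys H = cspn_e2 (PowerSeries.C) x ys H := by
  rw [cspn_evq, cspn_e2, cspn_aev_eq]

theorem cspn_ev2_eq_e2 (N : ℕ) (hN : N ≠ 0) (x yi : R⟦X⟧) (H : Polynomial (Polynomial R)) :
    cspn_ev2 N hN x yi H = cspn_e2 (PowerSeries.C) (cspn_exp R N hN x) yi H := by
  rw [cspn_ev2, cspn_e2, cspn_aev_eq]
  congr 1
  refine Polynomial.ringHom_ext (fun a => ?_) ?_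
  · rw [RingHom.comp_apply, Polynomial.coe_eval₂RingHom, Polynomial.eval₂_C,
      Polynomial.coe_eval₂RingHom, Polynomial.eval₂_C, cspn_exp_apply]
    exact expand_C N hN a
  · rw [RingHom.comp_apply, Polynomial.coe_eval₂RingHom, Polynomial.eval₂_X,
      Polynomial.coe_eval₂RingHom, Polynomial.eval₂_X]

end E2

section BaseChange

variable {R S : Type*} [CommRing R] [CommRing S]

theorem cspn_map_comp_exp (g : R →+* S) (N : ℕ) (hN : N ≠ 0) :
    (PowerSeries.map g).comp (cspn_exp R N hN) = (cspn_exp S N hN).comp (PowerSeries.map g) :=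
  RingHom.ext fun s => map_expand N hN g s

theorem cspn_map_exp_apply (g : R →+* S) (N : ℕ) (hN : N ≠ 0) (s : R⟦X⟧) :
    PowerSeries.map g (cspn_exp R N hN s) = cspn_exp S N hN (PowerSeries.map g s) :=
  map_expand N hN g s

theorem cspn_map_C_comp (g : R →+* S) :
    (PowerSeries.map g).comp (PowerSeries.C : R →+* R⟦X⟧) = (PowerSeries.C : S →+* S⟦X⟧).comp g := by
  ext r
  simp

/-- base change of evaluations -/
theorem cspn_map_evq (g : R →+* S) (x ys : R⟦X⟧) (H : Polynomial (Polynomial R)) :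
    PowerSeries.map g (cspn_evq x ys H) =
      cspn_evq (PowerSeries.map g x) (PowerSeries.map g ys) (H.map (Polynomial.mapRingHom g)) := by
  rw [cspn_evq_eq_e2, cspn_evq_eq_e2, cspn_e2_hom, cspn_e2_map, cspn_map_C_comp]

theorem cspn_map_ev2 (g : R →+* S) (N : ℕ) (hN : N ≠ 0) (x yi : R⟦X⟧)
    (H : Polynomial (Polynomial R)) :
    PowerSeries.map g (cspn_ev2 N hN x yi H) =
      cspn_ev2 N hN (PowerSeries.map g x) (PowerSeries.map g yi)
        (H.map (Polynomial.mapRingHom g)) := by
  rw [cspn_ev2_eq_e2, cspn_ev2_eq_e2, cspn_e2_hom, cspn_e2_map, cspn_map_C_comp,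
    cspn_map_exp_apply]

/-- base change of the product formula `(H2)` -/
theorem cspn_map_prod_formula {ι : Type*} [Fintype ι] (g : R →+* S) (N : ℕ) (hN : N ≠ 0)
    (x : R⟦X⟧) (y : ι → R⟦X⟧) (f : Polynomial (Polynomial R))
    (hf : f.map ((cspn_exp R N hN).comp (cspn_aev x)) =
      ∏ i, (Polynomial.X - Polynomial.C (y i))) :
    (f.map (Polynomial.mapRingHom g)).map
        ((cspn_exp S N hN).comp (cspn_aev (PowerSeries.map g x))) =
      ∏ i, (Polynomial.X - Polynomial.C (PowerSeries.map g (y i))) := by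
  have h1 := congrArg (Polynomial.map (PowerSeries.map g)) hf
  rw [Polynomial.map_prod] at h1
  simp only [Polynomial.map_sub, Polynomial.map_X, Polynomial.map_C] at h1
  rw [← h1, Polynomial.map_map, Polynomial.map_map]
  congr 1
  rw [cspn_aev_eq, cspn_aev_eq]
  refine Polynomial.ringHom_ext (fun a => ?_) ?_
  · simp only [RingHom.comp_apply, Polynomial.coe_mapRingHom, Polynomial.map_C,
      Polynomial.coe_eval₂RingHom, Polynomial.eval₂_C, cspn_exp_apply]
    rw [expand_C, expand_C, PowerSeries.map_C]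
  · simp only [RingHom.comp_apply, Polynomial.coe_mapRingHom, Polynomial.map_X,
      Polynomial.coe_eval₂RingHom, Polynomial.eval₂_X]
    exact (cspn_map_exp_apply g N hN x).symm

end BaseChange

end Fermat.Agent.S18x
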