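/-
S18 / block NRM / row N7 (helper35), part 11: CHAR-`ℓ` FRONT END of OUT-C, series form.

Over a field `k`: core data `x = X·ε`, `ys`, conjugates `y i ∈ k⟦t⟧`, `f ∈ k[x][Y]` monic with
`f(x(t^N), Y) = ∏ (Y - y i)`, `y i0 = ys(t^N)`, and (LI) linear independence of
`1, ys, …, ys^(n-1)` over `k[x]`.  Then every Laurent series `yL` of the shape `H0(x, ys)/d(x)`
which is integral over `k[x]` satisfies, with `d = X^e · s1`, `s1(0) ≠ 0`:
`x^e · (s1(x) · yL) = H0(x, ys)` and ALL conjugate values `H0(x(t^N), y i)` are divisible by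
`t^(N e)`.  (Input of `cspn_main`.)  Mathlib only.
-/
import Fermat.Agent.S18x.CspnEval

set_option autoImplicit false

namespace Fermat.Agent.S18x

open PowerSeries Finset

section RationalRoot

/-- rational root lemma, homogeneous form -/
theorem cspn_dvd_of_hom_sum {R : Type*} [CommRing R] [IsDomain R] [IsIntegrallyClosed R]
    (M : ℕ) (a : ℕ → R) (haM : a M = 1) (D w : R) (hD : D ≠ 0)
    (h : ∑ j ∈ Finset.range (M + 1), a j * w ^ j * D ^ (M - j) = 0) : D ∣ w := by
  classical
  set φ : R →+* FractionRing R := algebraMap R (FractionRing R) with hφ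
  have hφinj : Function.Injective φ := IsFractionRing.injective R (FractionRing R)
  have hD' : φ D ≠ 0 := fun h0 => hD (hφinj (by rw [h0, map_zero]))
  set z : FractionRing R := φ w / φ D with hz
  set p : Polynomial R := ∑ j ∈ Finset.range (M + 1), Polynomial.C (a j) * Polynomial.X ^ j with hp
  have hpm : p.Monic := by
    apply Polynomial.monic_of_natDegree_le_of_coeff_eq_one M
    · rw [hp]
      refine Polynomial.natDegree_sum_le_of_forall_le _ _ (fun j hj => ?_)
      refine (Polynomial.natDegree_C_mul_X_pow_le _ _).trans ?_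
      exact Nat.lt_succ_iff.mp (Finset.mem_range.mp hj)
    · rw [hp, Polynomial.finsetSum_coeff]
      rw [Finset.sum_eq_single M]
      · rw [Polynomial.coeff_C_mul_X_pow, if_pos rfl, haM]
      · intro j _ hjM
        rw [Polynomial.coeff_C_mul_X_pow, if_neg (Ne.symm hjM)]
      · intro hM
        exact absurd (Finset.mem_range.mpr (Nat.lt_succ_self M)) hM
  have hroot : Polynomial.eval₂ φ z p = 0 := by
    rw [hp, Polynomial.eval₂_finsetSum]
    have hmul : φ D ^ M * ∑ j ∈ Finset.range (M + 1),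
        Polynomial.eval₂ φ z (Polynomial.C (a j) * Polynomial.X ^ j) = 0 := by
      rw [Finset.mul_sum]
      have := congrArg φ h
      rw [map_sum, map_zero] at this
      rw [← this]
      refine Finset.sum_congr rfl (fun j hj => ?_)
      have hjM : j ≤ M := Nat.lt_succ_iff.mp (Finset.mem_range.mp hj)
      rw [Polynomial.eval₂_mul, Polynomial.eval₂_C, Polynomial.eval₂_pow, Polynomial.eval₂_X,
        map_mul, map_mul, map_pow, map_pow, hz, div_pow]
      have hsplit : φ D ^ M = φ D ^ j * φ D ^ (M - j) := by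
        rw [← pow_add, Nat.add_sub_cancel' hjM]
      rw [hsplit]
      have hDj : φ D ^ j ≠ 0 := pow_ne_zero _ hD'
      field_simp
    rcases mul_eq_zero.mp hmul with h0 | h0
    · exact absurd h0 (pow_ne_zero _ hD')
    · exact h0
  have hint : IsIntegral R z := ⟨p, hpm, hroot⟩
  obtain ⟨r, hr⟩ := (IsIntegrallyClosed.isIntegral_iff (R := R) (K := FractionRing R)).mp hint
  refine ⟨r, ?_⟩
  apply hφinj
  rw [map_mul, mul_comm]
  have : φ r = z := hr
  rw [this, hz, div_mul_cancel₀ _ hD']

end RationalRoot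

section Front

variable {k : Type*} [Field k]
variable {ι : Type*} [Fintype ι]

/-- `f` kills the base branch -/
theorem cspn_front_evq_f (N : ℕ) (hN : N ≠ 0) (x ys : k⟦X⟧) (y : ι → k⟦X⟧) (i0 : ι)
    (hi0 : y i0 = cspn_exp k N hN ys) (f : Polynomial (Polynomial k))
    (hf : f.map ((cspn_exp k N hN).comp (cspn_aev x)) =
      ∏ i, (Polynomial.X - Polynomial.C (y i))) :
    cspn_evq x ys f = 0 := by
  classical
  apply cspn_expand_injective N hN
  show cspn_exp k N hN (cspn_evq x ys f) = expand N hN 0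
  rw [cspn_exp_evq, ← hi0, cspn_ev2, ← Polynomial.eval_map, hf, Polynomial.eval_prod, map_zero]
  exact Finset.prod_eq_zero (Finset.mem_univ i0) (by simp)

theorem cspn_front_ev2_f (N : ℕ) (hN : N ≠ 0) (x : k⟦X⟧) (y : ι → k⟦X⟧)
    (f : Polynomial (Polynomial k))
    (hf : f.map ((cspn_exp k N hN).comp (cspn_aev x)) =
      ∏ i, (Polynomial.X - Polynomial.C (y i))) (i : ι) :
    cspn_ev2 N hN x (y i) f = 0 := by
  classical
  rw [cspn_ev2, ← Polynomial.eval_map, hf, Polynomial.eval_prod]
  exact Finset.prod_eq_zero (Finset.mem_univ i) (by simp)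

theorem cspn_front_natDegree (N : ℕ) (hN : N ≠ 0) (x : k⟦X⟧) (y : ι → k⟦X⟧)
    (f : Polynomial (Polynomial k)) (hfm : f.Monic)
    (hf : f.map ((cspn_exp k N hN).comp (cspn_aev x)) =
      ∏ i, (Polynomial.X - Polynomial.C (y i))) :
    f.natDegree = Fintype.card ι := by
  classical
  rw [← hfm.natDegree_map ((cspn_exp k N hN).comp (cspn_aev x)), hf,
    Polynomial.natDegree_finsetProd_X_sub_C_eq_card]
  rfl

/-- (MIN): every relation on the base branch holds on all conjugate branches. -/
theorem cspn_front_conj (N : ℕ) (hN : N ≠ 0) (x ys : k⟦X⟧) (y : ι → k⟦X⟧) (i0 : ι)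
    (hi0 : y i0 = cspn_exp k N hN ys) (f : Polynomial (Polynomial k)) (hfm : f.Monic)
    (hf : f.map ((cspn_exp k N hN).comp (cspn_aev x)) =
      ∏ i, (Polynomial.X - Polynomial.C (y i)))
    (hLI : ∀ H : Polynomial (Polynomial k), H.natDegree < Fintype.card ι →
      cspn_evq x ys H = 0 → H = 0)
    (P : Polynomial (Polynomial k)) (hP : cspn_evq x ys P = 0) (i : ι) :
    cspn_ev2 N hN x (y i) P = 0 := by
  classical
  have hdeg := cspn_front_natDegree N hN x y f hfm hf
  have hcard : 0 < Fintype.card ι := Fintype.card_pos_iff.mpr ⟨i0⟩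
  have hf1 : f ≠ 1 := by
    intro h1
    rw [h1, Polynomial.natDegree_one] at hdeg
    omega
  have hsplit : P %ₘ f + f * (P /ₘ f) = P := Polynomial.modByMonic_add_div P f
  have hR : cspn_evq x ys (P %ₘ f) = 0 := by
    have h1 := congrArg (cspn_evq x ys) hsplit
    rw [cspn_evq, Polynomial.eval₂_add, Polynomial.eval₂_mul] at h1
    have h2 : Polynomial.eval₂ (cspn_aev x) ys f = 0 := cspn_front_evq_f N hN x ys y i0 hi0 f hf
    rw [h2, zero_mul, add_zero] at h1
    rw [cspn_evq, h1]
    exact hP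
  have hR0 : P %ₘ f = 0 :=
    hLI _ (by rw [← hdeg]; exact Polynomial.natDegree_modByMonic_lt P hfm hf1) hR
  rw [hR0, zero_add] at hsplit
  rw [← hsplit, cspn_ev2, Polynomial.eval₂_mul]
  have := cspn_front_ev2_f N hN x y f hf i
  rw [cspn_ev2] at this
  rw [this, zero_mul]

/-- divisibility of the conjugate values by the denominator -/
theorem cspn_front_dvd (N : ℕ) (hN : N ≠ 0) (x ys : k⟦X⟧) (y : ι → k⟦X⟧) (i0 : ι)
    (hi0 : y i0 = cspn_exp k N hN ys) (f : Polynomial (Polynomial k)) (hfm : f.Monic)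
    (hf : f.map ((cspn_exp k N hN).comp (cspn_aev x)) =
      ∏ i, (Polynomial.X - Polynomial.C (y i)))
    (hLI : ∀ H : Polynomial (Polynomial k), H.natDegree < Fintype.card ι →
      cspn_evq x ys H = 0 → H = 0)
    (H0 : Polynomial (Polynomial k)) (D : Polynomial k) (hD : Polynomial.aeval x D ≠ 0)
    (M : ℕ) (Ψ : ℕ → Polynomial k) (hΨ : Ψ M = 1)
    (hrel : ∑ j ∈ Finset.range (M + 1),
      Polynomial.aeval x (Ψ j) * cspn_evq x ys H0 ^ j * Polynomial.aeval x D ^ (M - j) = 0)
    (i : ι) :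
    cspn_exp k N hN (Polynomial.aeval x D) ∣ cspn_ev2 N hN x (y i) H0 := by
  classical
  set P : Polynomial (Polynomial k) :=
    ∑ j ∈ Finset.range (M + 1), Polynomial.C (Ψ j) * H0 ^ j * Polynomial.C D ^ (M - j) with hP
  have hevq : cspn_evq x ys P = 0 := by
    rw [hP, cspn_evq, Polynomial.eval₂_finsetSum, ← hrel]
    refine Finset.sum_congr rfl (fun j _ => ?_)
    rw [Polynomial.eval₂_mul, Polynomial.eval₂_mul, Polynomial.eval₂_pow, Polynomial.eval₂_pow,
      Polynomial.eval₂_C, Polynomial.eval₂_C, cspn_aev_apply, cspn_aev_apply, cspn_evq]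
  have hev2 := cspn_front_conj N hN x ys y i0 hi0 f hfm hf hLI P hevq i
  rw [hP, cspn_ev2, Polynomial.eval₂_finsetSum] at hev2
  apply cspn_dvd_of_hom_sum M (fun j => cspn_exp k N hN (Polynomial.aeval x (Ψ j)))
  · show cspn_exp k N hN (Polynomial.aeval x (Ψ M)) = 1
    rw [hΨ, map_one, map_one]
  · intro h0
    apply hD
    apply cspn_expand_injective N hN
    show cspn_exp k N hN (Polynomial.aeval x D) = expand N hN 0
    rw [h0, map_zero]
  · rw [← hev2]
    refine Finset.sum_congr rfl (fun j _ => ?_)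
    rw [Polynomial.eval₂_mul, Polynomial.eval₂_mul, Polynomial.eval₂_pow, Polynomial.eval₂_pow,
      Polynomial.eval₂_C, Polynomial.eval₂_C, cspn_ev2, RingHom.comp_apply, RingHom.comp_apply,
      cspn_aev_apply, cspn_aev_apply]

theorem cspn_front_ofPS_comp_C :
    (HahnSeries.ofPowerSeries ℤ k).comp (PowerSeries.C : k →+* k⟦X⟧) =
      algebraMap k (LaurentSeries k) := by
  ext c : 1
  have h1 : algebraMap k (PowerSeries k) c = PowerSeries.C c := by simp
  rw [RingHom.comp_apply, HahnSeries.algebraMap_apply', h1]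

theorem cspn_front_ofPS_aeval (x : k⟦X⟧) (p : Polynomial k) :
    HahnSeries.ofPowerSeries ℤ k (Polynomial.aeval x p) =
      Polynomial.aeval (HahnSeries.ofPowerSeries ℤ k x) p := by
  rw [Polynomial.aeval_def, Polynomial.aeval_def, Polynomial.hom_eval₂]
  congr 1

theorem cspn_front_ofPS_evq (x ys : k⟦X⟧) (H : Polynomial (Polynomial k)) :
    HahnSeries.ofPowerSeries ℤ k (cspn_evq x ys H) =
      cspn_e2 (algebraMap k (LaurentSeries k)) (HahnSeries.ofPowerSeries ℤ k x)
        (HahnSeries.ofPowerSeries ℤ k ys) H := by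
  rw [cspn_evq_eq_e2, cspn_e2_hom, cspn_front_ofPS_comp_C]

/-- **front end**: numerator/denominator form + integrality over `k[x]`
  ⇒ regular conjugate values. -/
theorem cspn_front (N : ℕ) (hN : N ≠ 0) (x ys : k⟦X⟧) (ε : k⟦X⟧) (hx : x = X * ε)
    (y : ι → k⟦X⟧) (i0 : ι)
    (hi0 : y i0 = cspn_exp k N hN ys) (f : Polynomial (Polynomial k)) (hfm : f.Monic)
    (hf : f.map ((cspn_exp k N hN).comp (cspn_aev x)) =
      ∏ i, (Polynomial.X - Polynomial.C (y i)))
    (hLI : ∀ H : Polynomial (Polynomial k), H.natDegree < Fintype.card ι →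
      cspn_evq x ys H = 0 → H = 0)
    (yL : LaurentSeries k)
    (hnd : ∃ (H0 : Polynomial (Polynomial k)) (d : Polynomial k),
      Polynomial.aeval (HahnSeries.ofPowerSeries ℤ k x) d ≠ 0 ∧
      Polynomial.aeval (HahnSeries.ofPowerSeries ℤ k x) d * yL =
        cspn_e2 (algebraMap k (LaurentSeries k)) (HahnSeries.ofPowerSeries ℤ k x)
          (HahnSeries.ofPowerSeries ℤ k ys) H0)
    (hint : IsIntegral (Algebra.adjoin k {HahnSeries.ofPowerSeries ℤ k x}) yL) :
    ∃ (gb : Polynomial (Polynomial k)) (e : ℕ) (s1 : Polynomial k), s1.eval 0 ≠ 0 ∧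
      HahnSeries.ofPowerSeries ℤ k (x ^ e) *
          (Polynomial.aeval (HahnSeries.ofPowerSeries ℤ k x) s1 * yL) =
        HahnSeries.ofPowerSeries ℤ k (cspn_evq x ys gb) ∧
      ∀ i, (X : k⟦X⟧) ^ (N * e) ∣ cspn_ev2 N hN x (y i) gb := by
  classical
  obtain ⟨H0, d, hd0, hdy⟩ := hnd
  set ofPS := HahnSeries.ofPowerSeries ℤ k with hofPS
  have hofinj : Function.Injective ofPS := HahnSeries.ofPowerSeries_injective
  set xL : LaurentSeries k := ofPS x with hxL
  have hdne : d ≠ 0 := by
    rintro rfl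
    exact hd0 (map_zero _)
  -- split `d = X^e * s1`
  obtain ⟨s1, hds1, hs1⟩ := Polynomial.exists_eq_pow_rootMultiplicity_mul_and_not_dvd d hdne 0
  set e := Polynomial.rootMultiplicity 0 d with he
  rw [Polynomial.C_0, sub_zero] at hds1 hs1
  have hs1ev : s1.eval 0 ≠ 0 := by
    rw [← Polynomial.coeff_zero_eq_eval_zero]
    intro h0
    exact hs1 (Polynomial.X_dvd_iff.mpr h0)
  have hdx : Polynomial.aeval x d = x ^ e * Polynomial.aeval x s1 := by
    rw [hds1, map_mul, map_pow, Polynomial.aeval_X]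
  have hdxL : Polynomial.aeval xL d = ofPS (x ^ e) * Polynomial.aeval xL s1 := by
    rw [hds1, map_mul, map_pow, Polynomial.aeval_X, map_pow]
  have hdx0 : Polynomial.aeval x d ≠ 0 := by
    intro h0
    apply hd0
    rw [← cspn_front_ofPS_aeval, h0, map_zero]
  refine ⟨H0, e, s1, hs1ev, ?_, ?_⟩
  · rw [← mul_assoc, ← hdxL, hdy, cspn_front_ofPS_evq]
  · -- integrality relation
    obtain ⟨p, hpm, hp0⟩ := hint
    set M := p.natDegree with hM
    have hcoef : ∀ j, ∃ q : Polynomial k, Polynomial.aeval xL q =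
        ((p.coeff j : Algebra.adjoin k {xL}) : LaurentSeries k) := by
      intro j
      have hmem : ((p.coeff j : Algebra.adjoin k {xL}) : LaurentSeries k) ∈
          (Polynomial.aeval (R := k) xL).range := by
        rw [← Algebra.adjoin_singleton_eq_range_aeval]
        exact (p.coeff j).2
      obtain ⟨q, hq⟩ := hmem
      exact ⟨q, hq⟩
    choose Ψ' hΨ' using hcoef
    set Ψ : ℕ → Polynomial k := fun j => if j = M then 1 else Ψ' j with hΨdef
    have hΨM : Ψ M = 1 := by rw [hΨdef]; simp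
    have hΨ : ∀ j, Polynomial.aeval xL (Ψ j) =
        ((p.coeff j : Algebra.adjoin k {xL}) : LaurentSeries k) := by
      intro j
      rw [hΨdef]
      by_cases hj : j = M
      · simp only [hj, if_true, map_one]
        rw [hM, Polynomial.coeff_natDegree, hpm.leadingCoeff]
        rfl
      · simp only [hj, if_false]
        exact hΨ' j
    have hrelL : ∑ j ∈ Finset.range (M + 1),
        Polynomial.aeval xL (Ψ j) * yL ^ j = 0 := by
      rw [Polynomial.eval₂_eq_sum_range] at hp0
      rw [← hp0]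
      refine Finset.sum_congr rfl (fun j _ => ?_)
      rw [hΨ j]
      rfl
    have hrel : ∑ j ∈ Finset.range (M + 1),
        Polynomial.aeval x (Ψ j) * cspn_evq x ys H0 ^ j * Polynomial.aeval x d ^ (M - j) = 0 := by
      apply hofinj
      rw [map_zero, map_sum]
      have h1 : Polynomial.aeval xL d ^ M * ∑ j ∈ Finset.range (M + 1),
          Polynomial.aeval xL (Ψ j) * yL ^ j = 0 := by rw [hrelL, mul_zero]
      rw [Finset.mul_sum] at h1
      rw [← h1]
      refine Finset.sum_congr rfl (fun j hj => ?_)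
      have hjM : j ≤ M := Nat.lt_succ_iff.mp (Finset.mem_range.mp hj)
      rw [map_mul, map_mul, map_pow, map_pow, cspn_front_ofPS_aeval, cspn_front_ofPS_aeval,
        cspn_front_ofPS_evq, ← hdy]
      have hsplit : Polynomial.aeval xL d ^ M =
          Polynomial.aeval xL d ^ j * Polynomial.aeval xL d ^ (M - j) := by
        rw [← pow_add, Nat.add_sub_cancel' hjM]
      rw [hsplit, mul_pow]
      ring
    intro i
    have hdvd := cspn_front_dvd N hN x ys y i0 hi0 f hfm hf hLI H0 d hdx0 M Ψ hΨM hrel i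
    refine dvd_trans ?_ hdvd
    rw [hdx, map_mul, map_pow, pow_mul]
    refine Dvd.dvd.mul_right (pow_dvd_pow_of_dvd ?_ e) _
    rw [hx, map_mul, cspn_exp_apply, expand_X]
    exact Dvd.intro _ rfl

end Front

end Fermat.Agent.S18x
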