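/-
S18 / block NRM / row N7 (helper35), part 2: power-series lemmas (invariants of `t ↦ ζ t`,
divisibility by powers of `X` through `expand`, low part / high part, monomial-times-unit).
Mathlib only.
-/
import Mathlib

set_option autoImplicit false

namespace Fermat.Agent.S18x

open PowerSeries

section Invariants

variable {A : Type*} [CommRing A]

/-- a power series in `t` fixed by `t ↦ ζ t`, `ζ` of exact order `N`, is a power series in `t^N` -/
theorem cspn_exists_expand_of_rescale_eq [IsDomain A] (N : ℕ) (hN : N ≠ 0) (ζ : A)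
    (hζ : ∀ m : ℕ, ¬ N ∣ m → ζ ^ m ≠ 1) (s : A⟦X⟧) (hs : rescale ζ s = s) :
    ∃ r : A⟦X⟧, expand N hN r = s := by
  refine ⟨PowerSeries.mk fun m => coeff (N * m) s, ?_⟩
  ext n
  rw [coeff_expand]
  split_ifs with h
  · obtain ⟨m, rfl⟩ := h
    rw [coeff_mk, Nat.mul_div_cancel_left _ (Nat.pos_of_ne_zero hN)]
  · have h1 := congrArg (coeff n) hs
    rw [coeff_rescale] at h1
    have h2 : (ζ ^ n - 1) * coeff n s = 0 := by rw [sub_mul, h1, one_mul, sub_self]
    rcases mul_eq_zero.mp h2 with h3 | h3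
    · exact absurd (sub_eq_zero.mp h3) (hζ n h)
    · exact h3.symm

/-- a power series in `t^N` is fixed by `t ↦ ζ t` when `ζ^N = 1` -/
theorem cspn_rescale_expand (N : ℕ) (hN : N ≠ 0) (ζ : A) (hζ1 : ζ ^ N = 1) (r : A⟦X⟧) :
    rescale ζ (expand N hN r) = expand N hN r := by
  ext n
  rw [coeff_rescale, coeff_expand]
  split_ifs with h
  · obtain ⟨m, rfl⟩ := h
    rw [pow_mul, hζ1, one_pow, one_mul]
  · rw [mul_zero]

theorem cspn_expand_injective (N : ℕ) (hN : N ≠ 0) :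
    Function.Injective (expand N hN : A⟦X⟧ → A⟦X⟧) := by
  intro r r' h
  ext m
  have := congrArg (coeff (N * m)) h
  simpa [coeff_expand_mul] using this

/-- `t^(N e) ∣ r(t^N) ⇒ q^e ∣ r(q)` -/
theorem cspn_X_pow_dvd_of_expand (N : ℕ) (hN : N ≠ 0) (e : ℕ) (r : A⟦X⟧)
    (h : (X : A⟦X⟧) ^ (N * e) ∣ expand N hN r) : (X : A⟦X⟧) ^ e ∣ r := by
  rw [X_pow_dvd_iff] at h ⊢
  intro m hm
  have := h (N * m) (Nat.mul_lt_mul_of_pos_left hm (Nat.pos_of_ne_zero hN))
  rwa [coeff_expand_mul] at this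

theorem cspn_expand_X_pow (N : ℕ) (hN : N ≠ 0) (e : ℕ) :
    expand N hN ((X : A⟦X⟧) ^ e) = X ^ (N * e) := by
  rw [map_pow, expand_X, ← pow_mul]

end Invariants

section LowHigh

variable {A : Type*} [CommRing A]

/-- the part of degree `< M` -/
noncomputable def cspn_low (M : ℕ) (g : A⟦X⟧) : A⟦X⟧ :=
  PowerSeries.mk fun m => if m < M then coeff m g else 0

/-- the part of degree `≥ M`, divided by `X^M` -/
noncomputable def cspn_high (M : ℕ) (g : A⟦X⟧) : A⟦X⟧ :=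
  PowerSeries.mk fun m => coeff (m + M) g

theorem cspn_low_add_high (M : ℕ) (g : A⟦X⟧) : g = cspn_low M g + X ^ M * cspn_high M g := by
  ext m
  rw [map_add, cspn_low, cspn_high, coeff_mk, coeff_X_pow_mul']
  by_cases h : m < M
  · rw [if_pos h, if_neg (by omega), add_zero]
  · rw [if_neg h, if_pos (by omega), zero_add, coeff_mk, Nat.sub_add_cancel (by omega)]

theorem cspn_low_map {B : Type*} [CommRing B] (f : A →+* B) (M : ℕ) (g : A⟦X⟧) :
    PowerSeries.map f (cspn_low M g) = cspn_low M (PowerSeries.map f g) := by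
  ext m
  simp only [cspn_low, coeff_map, coeff_mk]
  split_ifs <;> simp

theorem cspn_low_rescale (ζ : A) (M : ℕ) (g : A⟦X⟧) :
    rescale ζ (cspn_low M g) = cspn_low M (rescale ζ g) := by
  ext m
  simp only [cspn_low, coeff_rescale, coeff_mk]
  split_ifs <;> simp

theorem cspn_low_eq_zero_of_dvd (M : ℕ) (g : A⟦X⟧) (h : (X : A⟦X⟧) ^ M ∣ g) : cspn_low M g = 0 := by
  rw [X_pow_dvd_iff] at h
  ext m
  simp only [cspn_low, coeff_mk, map_zero]
  split_ifs with hm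
  · exact h m hm
  · rfl

end LowHigh

section MonomialUnit

variable {A : Type*} [CommRing A]

/-- `s = X^m * unit` -/
def cspn_IsMonUnit (s : A⟦X⟧) : Prop := ∃ (m : ℕ) (u : A⟦X⟧), IsUnit u ∧ s = X ^ m * u

theorem cspn_isMonUnit_one : cspn_IsMonUnit (1 : A⟦X⟧) := ⟨0, 1, isUnit_one, by simp⟩

theorem cspn_IsMonUnit.mul {s s' : A⟦X⟧} (h : cspn_IsMonUnit s) (h' : cspn_IsMonUnit s') :
    cspn_IsMonUnit (s * s') := by
  obtain ⟨m, u, hu, rfl⟩ := h
  obtain ⟨m', u', hu', rfl⟩ := h'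
  exact ⟨m + m', u * u', hu.mul hu', by rw [pow_add]; ring⟩

theorem cspn_isMonUnit_prod {ι : Type*} (s : Finset ι) (f : ι → A⟦X⟧)
    (h : ∀ i ∈ s, cspn_IsMonUnit (f i)) : cspn_IsMonUnit (∏ i ∈ s, f i) :=
  Finset.prod_induction f cspn_IsMonUnit (fun _ _ => cspn_IsMonUnit.mul) cspn_isMonUnit_one h

theorem cspn_IsMonUnit.map {B : Type*} [CommRing B] (f : A →+* B) {s : A⟦X⟧}
    (h : cspn_IsMonUnit s) : cspn_IsMonUnit (PowerSeries.map f s) := by
  obtain ⟨m, u, hu, rfl⟩ := h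
  exact ⟨m, PowerSeries.map f u, hu.map _, by rw [map_mul, map_pow, PowerSeries.map_X]⟩

theorem cspn_IsMonUnit.ne_zero [Nontrivial A] [NoZeroDivisors A] {s : A⟦X⟧} (h : cspn_IsMonUnit s) :
    s ≠ 0 := by
  obtain ⟨m, u, hu, rfl⟩ := h
  exact mul_ne_zero (pow_ne_zero _ X_ne_zero) hu.ne_zero

/-- a monomial-times-unit divides a large power of `X` -/
theorem cspn_IsMonUnit.exists_mul_eq {s : A⟦X⟧} (h : cspn_IsMonUnit s) :
    ∃ m : ℕ, ∀ M : ℕ, m ≤ M → ∃ e : A⟦X⟧, e * s = X ^ M := by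
  obtain ⟨m, u, hu, rfl⟩ := h
  refine ⟨m, fun M hM => ?_⟩
  obtain ⟨v, hv⟩ := hu.exists_left_inv
  refine ⟨X ^ (M - m) * v, ?_⟩
  calc X ^ (M - m) * v * (X ^ m * u) = X ^ (M - m) * X ^ m * (v * u) := by ring
    _ = X ^ M := by rw [hv, mul_one, ← pow_add, Nat.sub_add_cancel hM]

end MonomialUnit

end Fermat.Agent.S18x
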