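/-
S18 / block NRM / row N7 (helper35), part 3: THE CORE of cusp normality (OUT-C).

`A` a domain, `π : A → k` onto a field, `t = q^(1/N)`, `y i ∈ A[[t]]` the `n` conjugates of one
element, permuted by `t ↦ ζ t` (`ζ` of exact order `N`), all differences `y i - y i'` of the form
`t^m * unit`.  Then every polynomial `Gb` over `k[[q]]` of degree `< n` such that `q^(-e) Gb(ȳ)`
is regular in all conjugates lifts to a polynomial `G` over `A[[q]]` such that `q^(-e1) G(y)` is
regular in all conjugates.  Mathlib only.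
-/
import Fermat.Agent.S18x.CspnLagr
import Fermat.Agent.S18x.CspnSeries

set_option autoImplicit false

namespace Fermat.Agent.S18x

open PowerSeries Finset

section Core

variable {A k : Type*} [CommRing A] [Field k]
variable {ι : Type*} [Fintype ι] [DecidableEq ι]

/-- `q ↦ t^N` as a ring homomorphism -/
noncomputable def cspn_exp (B : Type*) [CommRing B] (N : ℕ) (hN : N ≠ 0) : B⟦X⟧ →+* B⟦X⟧ :=
  (expand N hN : B⟦X⟧ →ₐ[B] B⟦X⟧).toRingHom

theorem cspn_exp_apply {B : Type*} [CommRing B] (N : ℕ) (hN : N ≠ 0) (s : B⟦X⟧) :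
    cspn_exp B N hN s = expand N hN s := rfl

/-- commutation of reduction and `q ↦ t^N` -/
theorem cspn_map_comp_expand (π : A →+* k) (N : ℕ) (hN : N ≠ 0) :
    (PowerSeries.map π).comp (cspn_exp A N hN) =
      (cspn_exp k N hN).comp (PowerSeries.map π) :=
  RingHom.ext fun s => map_expand N hN π s

theorem cspn_rescale_comp_expand (N : ℕ) (hN : N ≠ 0) (ζ : A) (hζ1 : ζ ^ N = 1) :
    (rescale ζ).comp (cspn_exp A N hN) = (cspn_exp A N hN) :=
  RingHom.ext fun s => cspn_rescale_expand N hN ζ hζ1 s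

theorem cspn_core [IsDomain A] (π : A →+* k) (hπ : Function.Surjective π) (N : ℕ) (hN : N ≠ 0)
    (ζ : A) (hζ1 : ζ ^ N = 1) (hζ : ∀ m : ℕ, ¬ N ∣ m → ζ ^ m ≠ 1)
    (τ : ι ≃ ι) (y : ι → A⟦X⟧)
    (hyτ : ∀ i, y (τ i) = rescale ζ (y i))
    (hy : ∀ i i', i ≠ i' → cspn_IsMonUnit (y i - y i'))
    (Gb : Polynomial k⟦X⟧) (hdeg : Gb.degree < Fintype.card ι) (e : ℕ)
    (hGb : ∀ i, (X : k⟦X⟧) ^ (N * e) ∣
      (Gb.map (cspn_exp k N hN)).eval (PowerSeries.map π (y i))) :
    ∃ (G : Polynomial A⟦X⟧) (e1 : ℕ),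
      (∀ i, (X : A⟦X⟧) ^ (N * e1) ∣ (G.map (cspn_exp A N hN)).eval (y i)) ∧
      Polynomial.C ((X : k⟦X⟧) ^ e) * G.map (PowerSeries.map π) =
        Polynomial.C ((X : k⟦X⟧) ^ e1) * Gb := by
  classical
  -- trivial case: no conjugates
  rcases Nat.eq_zero_or_pos (Fintype.card ι) with h0 | hpos
  · have hGb0 : Gb = 0 := by
      rw [h0, Nat.cast_zero] at hdeg
      exact Polynomial.degree_eq_bot.mp (Nat.WithBot.lt_zero_iff.mp hdeg)
    have : IsEmpty ι := Fintype.card_eq_zero_iff.mp h0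
    exact ⟨0, 0, fun i => isEmptyElim i, by simp [hGb0]⟩
  set φA : A⟦X⟧ →+* A⟦X⟧ := (cspn_exp A N hN) with hφA
  set φk : k⟦X⟧ →+* k⟦X⟧ := (cspn_exp k N hN) with hφk
  set ρ : A⟦X⟧ →+* k⟦X⟧ := PowerSeries.map π with hρ
  have hρφ : ρ.comp φA = φk.comp ρ := cspn_map_comp_expand π N hN
  have hθφ : (rescale ζ).comp φA = φA := cspn_rescale_comp_expand N hN ζ hζ1
  set yb : ι → k⟦X⟧ := fun i => ρ (y i) with hyb
  -- the discriminant-type products
  set d : ι → A⟦X⟧ := fun i => ∏ i' ∈ univ.erase i, (y i - y i') with hd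
  have hdMU : ∀ i, cspn_IsMonUnit (d i) := fun i =>
    cspn_isMonUnit_prod _ _ fun i' hi' => hy i i' (by
      simp only [mem_erase, mem_univ, and_true] at hi'
      exact fun h => hi' h.symm)
  have hdne : ∀ i, d i ≠ 0 := fun i => (hdMU i).ne_zero
  choose mi hmi using fun i => (hdMU i).exists_mul_eq
  set c' : ℕ := ∑ i, mi i with hc'
  have hmile : ∀ i, mi i ≤ N * c' := fun i =>
    le_trans (Finset.single_le_sum (f := mi) (fun _ _ => Nat.zero_le _) (mem_univ i))
      (Nat.le_mul_of_pos_left _ (Nat.pos_of_ne_zero hN))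
  choose ei hei using fun i => hmi i (N * c') (hmile i)
  -- reductions
  have hdb : ∀ i, ρ (d i) = ∏ i' ∈ univ.erase i, (yb i - yb i') := fun i => by
    simp only [hd, hyb, map_prod, map_sub]
  have heib : ∀ i, ρ (ei i) * ∏ i' ∈ univ.erase i, (yb i - yb i') = X ^ (N * c') := fun i => by
    rw [← hdb, ← map_mul, hei, map_pow, hρ, PowerSeries.map_X]
  have hybinj : Function.Injective yb := by
    intro i i' h
    by_contra hne
    have := ((hy i i' hne).map π).ne_zero
    apply this
    rw [map_sub]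
    exact sub_eq_zero.mpr h
  -- Step 1: conductor argument mod the kernel of π
  choose bq hbq using hGb
  have hLag : Polynomial.C ((X : k⟦X⟧) ^ (N * c')) * Gb.map φk =
      Polynomial.C ((X : k⟦X⟧) ^ (N * e)) * cspn_lagr yb (fun i => bq i * ρ (ei i)) := by
    rw [← cspn_lagr_smul]
    refine Polynomial.eq_of_degrees_lt_of_eval_index_eq (v := yb) univ
      (hybinj.injOn) ?_ ?_ ?_
    · rw [card_univ]
      refine lt_of_le_of_lt ?_ hdeg
      refine le_trans (Polynomial.degree_mul_le _ _) ?_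
      refine le_trans (add_le_add (Polynomial.degree_C_le) (Polynomial.degree_map_le)) ?_
      rw [zero_add]
    · rw [card_univ]
      exact cspn_lagr_degree_lt _ _ hpos
    · intro i _
      rw [cspn_lagr_eval, Polynomial.eval_mul, Polynomial.eval_C, hbq i]
      have := heib i
      calc (X : k⟦X⟧) ^ (N * c') * (X ^ (N * e) * bq i)
          = X ^ (N * e) * bq i * X ^ (N * c') := by ring
        _ = X ^ (N * e) * bq i * (ρ (ei i) * ∏ i' ∈ univ.erase i, (yb i - yb i')) := by rw [this]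
        _ = X ^ (N * e) * (bq i * ρ (ei i)) * ∏ i' ∈ univ.erase i, (yb i - yb i') := by ring
  have hdvd : Polynomial.C ((X : k⟦X⟧) ^ e) ∣ Polynomial.C ((X : k⟦X⟧) ^ c') * Gb := by
    rw [Polynomial.C_dvd_iff_dvd_coeff]
    intro m
    rw [Polynomial.coeff_C_mul]
    apply cspn_X_pow_dvd_of_expand N hN
    have h1 := congrArg (fun p => p.coeff m) hLag
    simp only [Polynomial.coeff_C_mul, Polynomial.coeff_map] at h1
    rw [map_mul, cspn_expand_X_pow]
    exact ⟨_, h1⟩
  obtain ⟨P1, hP1⟩ := hdvd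
  have hXne : ∀ M : ℕ, (X : k⟦X⟧) ^ M ≠ 0 := fun M => pow_ne_zero _ X_ne_zero
  have hP1eval : ∀ i, (P1.map φk).eval (yb i) = X ^ (N * c') * bq i := by
    intro i
    have h1 := congrArg (fun p => (p.map φk).eval (yb i)) hP1
    simp only [Polynomial.map_mul, Polynomial.map_C, Polynomial.eval_mul, Polynomial.eval_C] at h1
    rw [hφk] at h1
    erw [cspn_expand_X_pow, cspn_expand_X_pow] at h1
    rw [← hφk, hbq i] at h1
    apply mul_left_cancel₀ (hXne (N * e))
    rw [← h1]
    ring
  -- Step 2: lift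
  obtain ⟨G0, hG0⟩ := Polynomial.map_surjective ρ (PowerSeries.map_surjective π hπ) P1
  set g : ι → A⟦X⟧ := fun i => (G0.map φA).eval (y i) with hg
  have hρg : ∀ i, ρ (g i) = X ^ (N * c') * bq i := by
    intro i
    rw [← hP1eval, hg, ← hG0]
    simp only [Polynomial.eval_map, Polynomial.hom_eval₂, Polynomial.eval₂_map]
    rw [hρφ]
  set lo : ι → A⟦X⟧ := fun i => cspn_low (N * c') (g i) with hlo
  have hρlo : ∀ i, ρ (lo i) = 0 := by
    intro i
    rw [hlo, hρ]
    simp only
    rw [cspn_low_map]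
    apply cspn_low_eq_zero_of_dvd
    rw [← hρ, hρg]
    exact dvd_mul_right _ _
  have hgτ : ∀ i, g (τ i) = rescale ζ (g i) := by
    intro i
    simp only [hg, Polynomial.eval_map, Polynomial.hom_eval₂]
    rw [hθφ, hyτ]
  have hloτ : ∀ i, lo (τ i) = rescale ζ (lo i) := by
    intro i
    simp only [hlo]
    rw [cspn_low_rescale, hgτ]
  -- Step 3: the correction polynomial
  have hdτ : ∀ i, rescale ζ (d i) = d (τ i) := by
    intro i
    simp only [hd, map_prod, map_sub, ← hyτ]
    refine Finset.prod_bij (fun j _ => τ j) ?_ ?_ ?_ ?_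
    · intro j hj
      simp only [mem_erase, mem_univ, and_true, ne_eq] at hj ⊢
      exact fun h => hj (τ.injective h)
    · intro j _ j' _ h
      exact τ.injective h
    · intro j hj
      refine ⟨τ.symm j, ?_, by simp⟩
      simp only [mem_erase, mem_univ, and_true, ne_eq] at hj ⊢
      intro h
      exact hj (by rw [← h]; simp)
    · intro j _
      rfl
  have heiτ : ∀ i, ei (τ i) = rescale ζ (ei i) := by
    intro i
    apply mul_right_cancel₀ (hdne (τ i))
    rw [hei, ← hdτ, ← map_mul, hei, ← cspn_expand_X_pow N hN c', cspn_rescale_expand N hN ζ hζ1]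
  obtain ⟨H0, hH0⟩ := cspn_lagr_mem_lifts φA (rescale ζ)
    (fun s hs => by
      obtain ⟨r, hr⟩ := cspn_exists_expand_of_rescale_eq N hN ζ hζ s hs
      exact ⟨r, hr⟩) τ y (fun i => lo i * ei i) hyτ
    (fun i => by simp only [hloτ, heiτ, map_mul])
  have hH0b : H0.map ρ = 0 := by
    apply Polynomial.map_injective φk (cspn_expand_injective N hN)
    rw [Polynomial.map_map, ← hρφ, ← Polynomial.map_map, hH0, cspn_lagr_map, Polynomial.map_zero]
    simp only [map_mul, hρlo, zero_mul]
    exact cspn_lagr_zero _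
  -- Step 4: assemble
  refine ⟨Polynomial.C ((X : A⟦X⟧) ^ c') * G0 - H0, 2 * c', ?_, ?_⟩
  · intro i
    refine ⟨cspn_high (N * c') (g i), ?_⟩
    rw [Polynomial.map_sub, Polynomial.map_mul, Polynomial.map_C, Polynomial.eval_sub,
      Polynomial.eval_mul, Polynomial.eval_C, hH0, cspn_lagr_eval]
    have h1 : φA ((X : A⟦X⟧) ^ c') = X ^ (N * c') := cspn_expand_X_pow N hN c'
    have h2 : (G0.map φA).eval (y i) = lo i + X ^ (N * c') * cspn_high (N * c') (g i) :=
      cspn_low_add_high (N * c') (g i)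
    have h3 : ei i * d i = X ^ (N * c') := hei i
    rw [h1, h2]
    calc (X : A⟦X⟧) ^ (N * c') * (lo i + X ^ (N * c') * cspn_high (N * c') (g i)) -
          lo i * ei i * ∏ i' ∈ univ.erase i, (y i - y i')
        = X ^ (N * c') * lo i + X ^ (N * c') * X ^ (N * c') * cspn_high (N * c') (g i) -
          lo i * (ei i * d i) := by simp only [hd]; ring
      _ = X ^ (N * (2 * c')) * cspn_high (N * c') (g i) := by
          rw [h3, ← pow_add]
          have : N * c' + N * c' = N * (2 * c') := by ring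
          rw [this]
          ring
  · have hρX : ρ ((X : A⟦X⟧) ^ c') = X ^ c' := by rw [map_pow, hρ, PowerSeries.map_X]
    rw [Polynomial.map_sub, hH0b, sub_zero, Polynomial.map_mul, Polynomial.map_C, hG0, hρX]
    calc Polynomial.C ((X : k⟦X⟧) ^ e) * (Polynomial.C (X ^ c') * P1)
        = Polynomial.C (X ^ c') * (Polynomial.C (X ^ e) * P1) := by ring
      _ = Polynomial.C (X ^ c') * (Polynomial.C (X ^ c') * Gb) := by rw [hP1]
      _ = Polynomial.C (X ^ (2 * c')) * Gb := by
          rw [← mul_assoc, ← Polynomial.C_mul, ← pow_add]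
          congr 3
          ring

end Core

end Fermat.Agent.S18x
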