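/-
S18 / block NRM / row N7 (helper35), part 4: `cspn_core` without the degree restriction
(division by the monic polynomial `∏ (Y - y i)`, whose coefficients are invariant), and with
`e ≤ e1`.  Mathlib only.
-/
import Fermat.Agent.S18x.CspnCore

set_option autoImplicit false

namespace Fermat.Agent.S18x

open PowerSeries Finset

section AnyDeg

variable {A k : Type*} [CommRing A] [Field k]
variable {ι : Type*} [Fintype ι] [DecidableEq ι]

omit [DecidableEq ι] in
/-- the product `∏ (Y - y i)` has coefficients in the invariants -/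
theorem cspn_prod_mem_lifts {R S : Type*} [CommRing R] [CommRing S] (φ : R →+* S) (θ : S →+* S)
    (hinv : ∀ s : S, θ s = s → s ∈ Set.range φ) (τ : ι ≃ ι) (y : ι → S)
    (hy : ∀ i, y (τ i) = θ (y i)) :
    ∃ f : Polynomial R, f.map φ = ∏ i, (Polynomial.X - Polynomial.C (y i)) := by
  have hfix : (∏ i, (Polynomial.X - Polynomial.C (y i))).map θ =
      ∏ i, (Polynomial.X - Polynomial.C (y i)) := by
    rw [Polynomial.map_prod]
    simp only [Polynomial.map_sub, Polynomial.map_X, Polynomial.map_C, ← hy]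
    exact Fintype.prod_equiv τ _ _ fun i => rfl
  have hmem : (∏ i, (Polynomial.X - Polynomial.C (y i))) ∈ Polynomial.lifts φ := by
    rw [Polynomial.lifts_iff_coeff_lifts]
    intro m
    apply hinv
    have := congrArg (fun p => p.coeff m) hfix
    simpa [Polynomial.coeff_map] using this
  exact hmem

theorem cspn_core_anydeg [IsDomain A] (π : A →+* k) (hπ : Function.Surjective π) (N : ℕ)
    (hN : N ≠ 0) (ζ : A) (hζ1 : ζ ^ N = 1) (hζ : ∀ m : ℕ, ¬ N ∣ m → ζ ^ m ≠ 1)
    (τ : ι ≃ ι) (y : ι → A⟦X⟧)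
    (hyτ : ∀ i, y (τ i) = rescale ζ (y i))
    (hy : ∀ i i', i ≠ i' → cspn_IsMonUnit (y i - y i'))
    (Gb : Polynomial k⟦X⟧) (e : ℕ)
    (hGb : ∀ i, (X : k⟦X⟧) ^ (N * e) ∣
      (Gb.map (cspn_exp k N hN)).eval (PowerSeries.map π (y i))) :
    ∃ (G : Polynomial A⟦X⟧) (e1 : ℕ), e ≤ e1 ∧
      (∀ i, (X : A⟦X⟧) ^ (N * e1) ∣ (G.map (cspn_exp A N hN)).eval (y i)) ∧
      G.map (PowerSeries.map π) = Polynomial.C ((X : k⟦X⟧) ^ (e1 - e)) * Gb := by
  classical
  set φA : A⟦X⟧ →+* A⟦X⟧ := cspn_exp A N hN with hφA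
  set φk : k⟦X⟧ →+* k⟦X⟧ := cspn_exp k N hN with hφk
  set ρ : A⟦X⟧ →+* k⟦X⟧ := PowerSeries.map π with hρ
  have hρφ : ρ.comp φA = φk.comp ρ := cspn_map_comp_expand π N hN
  -- the monic polynomial of the conjugates
  obtain ⟨f, hf⟩ := cspn_prod_mem_lifts φA (rescale ζ)
    (fun s hs => by
      obtain ⟨r, hr⟩ := cspn_exists_expand_of_rescale_eq N hN ζ hζ s hs
      exact ⟨r, hr⟩) τ y hyτ
  have hφAinj : Function.Injective φA := cspn_expand_injective N hN
  have hfmonic : f.Monic := by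
    apply Polynomial.monic_of_injective hφAinj
    rw [hf]
    exact Polynomial.monic_prod_of_monic _ _ fun i _ => Polynomial.monic_X_sub_C _
  have hfdeg : f.natDegree = Fintype.card ι := by
    have h1 : (f.map φA).natDegree = f.natDegree :=
      Polynomial.natDegree_map_eq_of_injective hφAinj f
    rw [← h1, hf, Polynomial.natDegree_prod_of_monic _ _ fun i _ => Polynomial.monic_X_sub_C _]
    simp
  set fb : Polynomial k⟦X⟧ := f.map ρ with hfb
  have hfbmonic : fb.Monic := hfmonic.map ρ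
  have hfbdeg : fb.degree = Fintype.card ι := by
    rw [Polynomial.degree_eq_natDegree hfbmonic.ne_zero, hfb, hfmonic.natDegree_map, hfdeg]
  have hfeval : ∀ i, (f.map φA).eval (y i) = 0 := by
    intro i
    rw [hf, Polynomial.eval_prod]
    exact Finset.prod_eq_zero (mem_univ i) (by simp)
  have hfbeval : ∀ i, (fb.map φk).eval (ρ (y i)) = 0 := by
    intro i
    have h1 := congrArg ρ (hfeval i)
    rw [map_zero] at h1
    rw [← h1, hfb]
    simp only [Polynomial.eval_map, Polynomial.hom_eval₂, Polynomial.eval₂_map]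
    rw [hρφ]
  -- division
  set Rb : Polynomial k⟦X⟧ := Gb %ₘ fb with hRb
  set Qb : Polynomial k⟦X⟧ := Gb /ₘ fb with hQb
  have hdiv : Rb + fb * Qb = Gb := Polynomial.modByMonic_add_div Gb fb
  have hRbdeg : Rb.degree < Fintype.card ι := by
    rw [← hfbdeg]
    exact Polynomial.degree_modByMonic_lt Gb hfbmonic
  have hRbeval : ∀ i, (Rb.map φk).eval (ρ (y i)) = (Gb.map φk).eval (ρ (y i)) := by
    intro i
    rw [← hdiv, Polynomial.map_add, Polynomial.map_mul, Polynomial.eval_add, Polynomial.eval_mul,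
      hfbeval i, zero_mul, add_zero]
  obtain ⟨G0, e0, hG0dvd, hG0red⟩ := cspn_core π hπ N hN ζ hζ1 hζ τ y hyτ hy Rb hRbdeg e
    (fun i => by rw [hRbeval i]; exact hGb i)
  -- make e ≤ e1
  set d : ℕ := e - e0 with hd
  set e1 : ℕ := e0 + d with he1
  have hee1 : e ≤ e1 := by omega
  obtain ⟨QA, hQA⟩ := Polynomial.map_surjective ρ (PowerSeries.map_surjective π hπ) Qb
  refine ⟨Polynomial.C ((X : A⟦X⟧) ^ d) * G0 + Polynomial.C ((X : A⟦X⟧) ^ (e1 - e)) * (f * QA),
    e1, hee1, ?_, ?_⟩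
  · intro i
    rw [Polynomial.map_add, Polynomial.map_mul, Polynomial.map_mul, Polynomial.map_mul,
      Polynomial.eval_add, Polynomial.eval_mul, Polynomial.eval_mul, Polynomial.eval_mul,
      hfeval i, zero_mul, mul_zero, add_zero, Polynomial.map_C, Polynomial.eval_C]
    have h1 : φA ((X : A⟦X⟧) ^ d) = X ^ (N * d) := cspn_expand_X_pow N hN d
    rw [h1, he1, Nat.mul_add, pow_add, mul_comm ((X : A⟦X⟧) ^ (N * e0))]
    exact mul_dvd_mul_left _ (hG0dvd i)
  · have hXe : Polynomial.C ((X : k⟦X⟧) ^ e) ≠ 0 := by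
      rw [Ne, Polynomial.C_eq_zero]
      exact pow_ne_zero _ X_ne_zero
    apply mul_left_cancel₀ hXe
    have hρX : ∀ m : ℕ, ρ ((X : A⟦X⟧) ^ m) = X ^ m := fun m => by
      rw [map_pow, hρ, PowerSeries.map_X]
    rw [Polynomial.map_add, Polynomial.map_mul, Polynomial.map_mul, Polynomial.map_mul,
      Polynomial.map_C, Polynomial.map_C, hρX, hρX, hQA, ← hfb]
    calc Polynomial.C ((X : k⟦X⟧) ^ e) *
          (Polynomial.C (X ^ d) * G0.map ρ + Polynomial.C (X ^ (e1 - e)) * (fb * Qb))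
        = Polynomial.C (X ^ d) * (Polynomial.C (X ^ e) * G0.map ρ) +
          Polynomial.C (X ^ e) * Polynomial.C (X ^ (e1 - e)) * (fb * Qb) := by ring
      _ = Polynomial.C (X ^ d) * (Polynomial.C (X ^ e0) * Rb) +
          Polynomial.C (X ^ e) * Polynomial.C (X ^ (e1 - e)) * (fb * Qb) := by rw [hG0red]
      _ = Polynomial.C (X ^ e) * Polynomial.C (X ^ (e1 - e)) * (Rb + fb * Qb) := by
          have h2 : Polynomial.C ((X : k⟦X⟧) ^ d) * Polynomial.C (X ^ e0) =
              Polynomial.C (X ^ e) * Polynomial.C (X ^ (e1 - e)) := by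
            rw [← Polynomial.C_mul, ← Polynomial.C_mul, ← pow_add, ← pow_add]
            congr 2
            omega
          rw [← mul_assoc, h2]
          ring
      _ = Polynomial.C (X ^ e) * (Polynomial.C (X ^ (e1 - e)) * Gb) := by rw [hdiv]; ring

end AnyDeg

end Fermat.Agent.S18x
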