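/-
S18 / block NRM / row N7 (helper35), part 6: the lifting theorem in POLYNOMIAL form.

`x = q * unit ∈ A[[q]]` (think `x = 1/j`), conjugates `y i ∈ A[[t]]` as in `cspn_core`.  Every
two-variable polynomial `gb ∈ k[x][Y]` such that `gb(x̄, ȳ) / x̄^e` is regular in all conjugates
is, up to the factor `x̄^(e1-e)`, the reduction of a polynomial `G' ∈ A[x][Y]` such that
`G'(x, y) / x^e1` is regular in all conjugates.  Mathlib only.
-/
import Fermat.Agent.S18x.CspnAnyDeg
import Fermat.Agent.S18x.CspnApprox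

set_option autoImplicit false

namespace Fermat.Agent.S18x

open PowerSeries Finset

section Main

variable {A k : Type*} [CommRing A] [Field k]
variable {ι : Type*} [Fintype ι] [DecidableEq ι]

/-- `p ↦ p(x)` as a ring homomorphism `B[x] → B[[q]]` -/
noncomputable def cspn_aev {B : Type*} [CommRing B] (x : B⟦X⟧) : Polynomial B →+* B⟦X⟧ :=
  (Polynomial.aeval x : Polynomial B →ₐ[B] B⟦X⟧).toRingHom

theorem cspn_aev_apply {B : Type*} [CommRing B] (x : B⟦X⟧) (p : Polynomial B) :
    cspn_aev x p = Polynomial.aeval x p := rfl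

/-- evaluation of `H ∈ B[x][Y]` at `(x(t^N), yi)` -/
noncomputable def cspn_ev2 {B : Type*} [CommRing B] (N : ℕ) (hN : N ≠ 0) (x yi : B⟦X⟧)
    (H : Polynomial (Polynomial B)) : B⟦X⟧ :=
  Polynomial.eval₂ ((cspn_exp B N hN).comp (cspn_aev x)) yi H

theorem cspn_map_comp_aev (π : A →+* k) (x : A⟦X⟧) :
    (PowerSeries.map π).comp (cspn_aev x) =
      (cspn_aev (PowerSeries.map π x)).comp (Polynomial.mapRingHom π) :=
  RingHom.ext fun p => cspn_map_aeval π x p

theorem cspn_sum_monomial_coeff {B : Type*} [CommRing B] (D : ℕ) (c : ℕ → B) (n : ℕ) :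
    (∑ m ∈ range D, Polynomial.monomial m (c m)).coeff n = if n < D then c n else 0 := by
  rw [Polynomial.finsetSum_coeff]
  simp only [Polynomial.coeff_monomial]
  rw [Finset.sum_ite_eq' (range D) n]
  simp

theorem cspn_main [IsDomain A] (π : A →+* k) (hπ : Function.Surjective π) (N : ℕ)
    (hN : N ≠ 0) (ζ : A) (hζ1 : ζ ^ N = 1) (hζ : ∀ m : ℕ, ¬ N ∣ m → ζ ^ m ≠ 1)
    (τ : ι ≃ ι) (y : ι → A⟦X⟧)
    (hyτ : ∀ i, y (τ i) = rescale ζ (y i))
    (hy : ∀ i i', i ≠ i' → cspn_IsMonUnit (y i - y i'))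
    (x ε δ : A⟦X⟧) (hx : x = X * ε) (hεδ : δ * ε = 1)
    (gb : Polynomial (Polynomial k)) (e : ℕ)
    (hgb : ∀ i, (X : k⟦X⟧) ^ (N * e) ∣
      cspn_ev2 N hN (PowerSeries.map π x) (PowerSeries.map π (y i)) gb) :
    ∃ (G' : Polynomial (Polynomial A)) (e1 : ℕ), e ≤ e1 ∧
      (∀ i, (X : A⟦X⟧) ^ (N * e1) ∣ cspn_ev2 N hN x (y i) G') ∧
      G'.map (Polynomial.mapRingHom π) =
        Polynomial.C ((Polynomial.X : Polynomial k) ^ (e1 - e)) * gb := by
  classical
  set φA : A⟦X⟧ →+* A⟦X⟧ := cspn_exp A N hN with hφA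
  set φk : k⟦X⟧ →+* k⟦X⟧ := cspn_exp k N hN with hφk
  set ρ : A⟦X⟧ →+* k⟦X⟧ := PowerSeries.map π with hρ
  set xb : k⟦X⟧ := ρ x with hxb
  set aA : Polynomial A →+* A⟦X⟧ := cspn_aev x with haA
  set ak : Polynomial k →+* k⟦X⟧ := cspn_aev xb with hak
  have hρa : ρ.comp aA = ak.comp (Polynomial.mapRingHom π) := cspn_map_comp_aev π x
  have hρaapp : ∀ p : Polynomial A, ρ (aA p) = ak (p.map π) := fun p => by
    have := congrArg (fun f => f p) hρa
    simpa using this
  have hakX : ∀ d : ℕ, ak ((Polynomial.X : Polynomial k) ^ d) = xb ^ d := fun d => by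
    rw [map_pow, hak, cspn_aev_apply, Polynomial.aeval_X]
  -- pass to power-series coefficients
  set Gb : Polynomial k⟦X⟧ := gb.map ak with hGb
  have hGbev : ∀ i, (Gb.map φk).eval (ρ (y i)) = cspn_ev2 N hN xb (ρ (y i)) gb := by
    intro i
    rw [hGb, Polynomial.map_map, Polynomial.eval_map, cspn_ev2]
  obtain ⟨G, e1, hee1, hGdvd, hGred⟩ := cspn_core_anydeg π hπ N hN ζ hζ1 hζ τ y hyτ hy Gb e
    (fun i => by rw [hGbev i]; exact hgb i)
  set d : ℕ := e1 - e with hd
  -- multiply by the unit to turn `q^d` into `x^d`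
  set Gh : Polynomial A⟦X⟧ := Polynomial.C (ε ^ d) * G with hGh
  have hxbε : xb = X * ρ ε := by rw [hxb, hx, map_mul, hρ, PowerSeries.map_X]
  have hGhred : Gh.map ρ = (Polynomial.C ((Polynomial.X : Polynomial k) ^ d) * gb).map ak := by
    rw [hGh, Polynomial.map_mul, Polynomial.map_C, hGred, Polynomial.map_mul, Polynomial.map_C,
      hakX, hxbε, mul_pow, map_pow, ← mul_assoc, ← Polynomial.C_mul, ← hGb, mul_comm (ρ ε ^ d)]
  have hGhdvd : ∀ i, (X : A⟦X⟧) ^ (N * e1) ∣ (Gh.map φA).eval (y i) := by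
    intro i
    rw [hGh, Polynomial.map_mul, Polynomial.eval_mul]
    exact Dvd.dvd.mul_left (hGdvd i) _
  -- choose the polynomial coefficients
  set D : ℕ := max Gh.natDegree gb.natDegree + 1 with hD
  choose P hP using fun m : ℕ =>
    Polynomial.map_surjective π hπ ((Polynomial.X : Polynomial k) ^ d * gb.coeff m)
  set I : Ideal A := RingHom.ker π with hI
  have hrestI : ∀ m j, coeff j (Gh.coeff m - aA (P m)) ∈ I := by
    intro m j
    rw [hI, RingHom.mem_ker, ← PowerSeries.coeff_map, ← hρ, map_sub, hρaapp, hP]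
    have h1 : ρ (Gh.coeff m) = (Gh.map ρ).coeff m := (Polynomial.coeff_map ρ m).symm
    rw [h1, hGhred, Polynomial.coeff_map, Polynomial.coeff_C_mul, sub_self, map_zero]
  choose r hrI hr using fun m : ℕ =>
    cspn_approx_ideal I x ε δ hx hεδ e1 (Gh.coeff m - aA (P m)) (hrestI m)
  have hrmap : ∀ m, (r m).map π = 0 := by
    intro m
    ext j
    rw [Polynomial.coeff_map, Polynomial.coeff_zero]
    exact (RingHom.mem_ker).mp (hrI m j)
  refine ⟨∑ m ∈ range D, Polynomial.monomial m (P m + r m), e1, hee1, ?_, ?_⟩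
  · intro i
    -- compare with `Gh`
    have h1 : cspn_ev2 N hN x (y i) (∑ m ∈ range D, Polynomial.monomial m (P m + r m)) =
        ∑ m ∈ range D, φA (aA (P m + r m)) * y i ^ m := by
      rw [cspn_ev2, Polynomial.eval₂_finsetSum]
      refine Finset.sum_congr rfl fun m _ => ?_
      rw [Polynomial.eval₂_monomial]
      rfl
    have h2 : (Gh.map φA).eval (y i) = ∑ m ∈ range D, φA (Gh.coeff m) * y i ^ m := by
      rw [Polynomial.eval_eq_sum_range' (n := D)]
      · refine Finset.sum_congr rfl fun m _ => ?_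
        rw [Polynomial.coeff_map]
      · refine lt_of_le_of_lt (Polynomial.natDegree_map_le) ?_
        rw [hD]
        exact Nat.lt_succ_of_le (le_max_left _ _)
    have h3 : cspn_ev2 N hN x (y i) (∑ m ∈ range D, Polynomial.monomial m (P m + r m)) =
        (Gh.map φA).eval (y i) -
          ∑ m ∈ range D, φA (Gh.coeff m - aA (P m) - aA (r m)) * y i ^ m := by
      rw [h1, h2, ← Finset.sum_sub_distrib]
      refine Finset.sum_congr rfl fun m _ => ?_
      rw [← sub_mul, ← map_sub, map_add]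
      congr 2
      ring
    rw [h3]
    refine dvd_sub (hGhdvd i) (Finset.dvd_sum fun m _ => Dvd.dvd.mul_right ?_ _)
    obtain ⟨w, hw⟩ := hr m
    refine ⟨φA w, ?_⟩
    have h4 : aA (r m) = Polynomial.aeval x (r m) := rfl
    rw [h4, hw, map_mul]
    congr 1
    exact cspn_expand_X_pow N hN e1
  · ext1 n
    rw [Polynomial.coeff_map, cspn_sum_monomial_coeff, Polynomial.coeff_C_mul]
    split_ifs with hn
    · show (P n + r n).map π = _
      rw [Polynomial.map_add, hrmap, add_zero, hP]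
    · have : gb.coeff n = 0 := by
        apply Polynomial.coeff_eq_zero_of_natDegree_lt
        rw [hD] at hn
        have := le_max_right Gh.natDegree gb.natDegree
        omega
      rw [this, mul_zero]
      exact Polynomial.map_zero _

end Main

end Fermat.Agent.S18x
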