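/-
S18 project, NRM block, row N3g (helper83), prefix `cci_`: INTEGRAL FORM of the parameter-form
conjugates `J(ζ t^m)` of `j`.

Setting: `A` a domain, `f : A →+* K` an injective ring homomorphism into a field, `zA : Aˣ` with
`f zA` a primitive `N`-th root of unity in `K`.
(1) every `N`-th root of unity of `K` is `f (zA ^ i)`, `i < N`;
(2) `J(ζ t^m)` over `K` is the coefficientwise image of `J(zA^i t^m)` over `A`;
(3) distinct powers `zA^i`, `zA^i'` (`i, i' < N`) differ by a unit of `A` when `N` is a unit of `A`;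
(4) differences of two distinct parameter-form conjugates over `A` are `t^n * (unit power series)`;
(5) power series forms: `x = 1/j = q * unit` in `A⟦q⟧`, `x(t^N) = t^N * unit`, and
    `yc ζ m := x(t^N)^N * J(ζ t^m) ∈ A⟦t⟧` for `m ≤ N * N`, with `yc - yc' = t^e * unit`.
Built on helper81's `pxs_` and helper72's `cce_`.
-/
import Mathlib
import Fermat.Agent.S18x.PuiseuxSubst
import Fermat.Agent.S18x.CuspConjExplPxs

set_option autoImplicit false
set_option linter.unusedSectionVars false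

noncomputable section

namespace Fermat.Agent.S18x

open HahnSeries ModularCurve

section Roots

variable {A K : Type*} [CommRing A] [IsDomain A] [Field K] (f : A →+* K)
  {N : ℕ} [NeZero N] (zA : Aˣ)

/-- `zA` is a primitive `N`-th root of unity of `A` as soon as its image in `K` is. -/
theorem cci_isPrimitiveRoot (hf : Function.Injective f) (hz : IsPrimitiveRoot (f zA) N) :
    IsPrimitiveRoot (zA : A) N :=
  IsPrimitiveRoot.of_map_of_injective hz hf

/-- **(1)** every `N`-th root of unity of `K` comes from a power of `zA`. -/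
theorem cci_exists_pow (hz : IsPrimitiveRoot (f zA) N) (ζ : Kˣ) (hζ : ζ ^ N = 1) :
    ∃ i < N, ζ = Units.map (f : A →* K) (zA ^ i) := by
  have hζ' : (ζ : K) ^ N = 1 := by
    rw [← Units.val_pow_eq_pow_val, hζ, Units.val_one]
  obtain ⟨i, hi, hpow⟩ := hz.eq_pow_of_pow_eq_one hζ'
  refine ⟨i, hi, Units.ext ?_⟩
  rw [Units.coe_map, Units.val_pow_eq_pow_val, ← hpow]
  simp

/-- **(2)** the conjugate `J(ζ t^m)` over `K` is the image of the conjugate `J(zA^i t^m)` over `A`. -/
theorem cci_subst_eq_coeffMap (i m : ℕ) [NeZero m] :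
    pxs_subst K (Units.map (f : A →* K) (zA ^ i)) m (jqModC K) =
      coeffMap f (pxs_subst A (zA ^ i) m (jqModC A)) := by
  rw [pxs_coeffMap_subst]
  congr 1
  exact (map_jqModC f).symm

/-- (1) + (2): every parameter-form conjugate over `K` with an `N`-th root of unity comes from `A`. -/
theorem cci_exists_integral (hz : IsPrimitiveRoot (f zA) N) (ζ : Kˣ) (hζ : ζ ^ N = 1) (m : ℕ)
    [NeZero m] :
    ∃ i < N, pxs_subst K ζ m (jqModC K) = coeffMap f (pxs_subst A (zA ^ i) m (jqModC A)) := by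
  obtain ⟨i, hi, rfl⟩ := cci_exists_pow f zA hz ζ hζ
  exact ⟨i, hi, cci_subst_eq_coeffMap f zA i m⟩

/-- distinct exponents `< N` give distinct powers of a primitive root. -/
theorem cci_pow_ne (hzA : IsPrimitiveRoot (zA : A) N) {i i' : ℕ} (hi : i < N) (hi' : i' < N)
    (hne : i ≠ i') : zA ^ i ≠ zA ^ i' := by
  intro h
  apply hne
  have h' : (zA : A) ^ i = (zA : A) ^ i' := by
    rw [← Units.val_pow_eq_pow_val, ← Units.val_pow_eq_pow_val, h]
  exact hzA.pow_inj hi hi' h'

/-- **(3)** distinct powers of `zA` differ by a unit when `N` is invertible in `A`. -/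
theorem cci_isUnit_sub (hzA : IsPrimitiveRoot (zA : A) N) (hN : IsUnit (N : A)) {i i' : ℕ}
    (hi : i < N) (hi' : i' < N) (hne : i ≠ i') :
    IsUnit (((zA ^ i' : Aˣ) : A) - ((zA ^ i : Aˣ) : A)) := by
  refine cce_isUnit_sub_of_pow_eq_one hzA hN (zA ^ i) (zA ^ i') ?_ ?_ (cci_pow_ne zA hzA hi hi' hne)
  · rw [← pow_mul, mul_comm, pow_mul]
    have : zA ^ N = 1 := Units.ext (by rw [Units.val_pow_eq_pow_val, hzA.pow_eq_one, Units.val_one])
    rw [this, one_pow]
  · rw [← pow_mul, mul_comm, pow_mul]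
    have : zA ^ N = 1 := Units.ext (by rw [Units.val_pow_eq_pow_val, hzA.pow_eq_one, Units.val_one])
    rw [this, one_pow]

/-- **(4)** the difference of two distinct parameter-form conjugates over `A` is
`t^(-max m m') * (unit power series)`. -/
theorem cci_sub (hzA : IsPrimitiveRoot (zA : A) N) (hN : IsUnit (N : A)) {i i' : ℕ}
    (hi : i < N) (hi' : i' < N) (m m' : ℕ) [NeZero m] [NeZero m'] (hne : ¬ (i = i' ∧ m = m')) :
    ∃ u : (PowerSeries A)ˣ,
      pxs_subst A (zA ^ i) m (jqModC A) - pxs_subst A (zA ^ i') m' (jqModC A) =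
        HahnSeries.single (-((max m m' : ℕ) : ℤ)) (1 : A) *
          HahnSeries.ofPowerSeries ℤ A (u : PowerSeries A) :=
  cce_pxs_sub (zA ^ i) (zA ^ i') m m' fun hmm =>
    cci_isUnit_sub zA hzA hN hi hi' fun hii => hne ⟨hii, hmm⟩

/-- (4) in the shape `∃ n u, IsUnit u ∧ …`. -/
theorem cci_sub' (hzA : IsPrimitiveRoot (zA : A) N) (hN : IsUnit (N : A)) {i i' : ℕ}
    (hi : i < N) (hi' : i' < N) (m m' : ℕ) [NeZero m] [NeZero m'] (hne : ¬ (i = i' ∧ m = m')) :
    ∃ (n : ℤ) (u : PowerSeries A), IsUnit u ∧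
      pxs_subst A (zA ^ i) m (jqModC A) - pxs_subst A (zA ^ i') m' (jqModC A) =
        HahnSeries.single n (1 : A) * HahnSeries.ofPowerSeries ℤ A u := by
  obtain ⟨u, hu⟩ := cci_sub zA hzA hN hi hi' m m' hne
  exact ⟨_, u, u.isUnit, hu⟩

end Roots

/-! ### (5) power series forms -/

section PowerSeriesForms

variable (A : Type*) [CommRing A]

/-- `q · j(q) ∈ 1 + q A⟦q⟧`. -/
def cci_jnum : PowerSeries A := jNum.map (Int.castRingHom A)

/-- the inverse of `q · j(q)` over `ℤ`. -/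
def cci_jnumInvZ : PowerSeries ℤ := jNum.invOfUnit 1

theorem cci_jnum_mul_invZ : jNum * cci_jnumInvZ = 1 :=
  PowerSeries.mul_invOfUnit _ _ (by rw [constantCoeff_jNum]; rfl)

/-- the inverse of `q · j(q)` over `A`. -/
def cci_jnumInv : PowerSeries A := cci_jnumInvZ.map (Int.castRingHom A)

theorem cci_jnum_mul_inv : cci_jnum A * cci_jnumInv A = 1 := by
  rw [cci_jnum, cci_jnumInv, ← map_mul, cci_jnum_mul_invZ, map_one]

/-- the unit `(q j)⁻¹` of `A⟦q⟧`. -/
def cci_xunit : (PowerSeries A)ˣ :=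
  ⟨cci_jnumInv A, cci_jnum A, by rw [mul_comm]; exact cci_jnum_mul_inv A, cci_jnum_mul_inv A⟩

@[simp] theorem cci_xunit_val : ((cci_xunit A : (PowerSeries A)ˣ) : PowerSeries A) = cci_jnumInv A :=
  rfl

/-- `x = 1/j = q · unit` as a power series over `A`. -/
def cci_x : PowerSeries A := PowerSeries.X * cci_jnumInv A

/-- `j · x = 1`. -/
theorem cci_jq_mul_x : jqModC A * HahnSeries.ofPowerSeries ℤ A (cci_x A) = 1 := by
  have h1 : HahnSeries.single (-1 : ℤ) (1 : A) * HahnSeries.single (1 : ℤ) (1 : A) = 1 := by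
    rw [HahnSeries.single_mul_single]
    simp
  rw [jqModC, cci_x, map_mul, HahnSeries.ofPowerSeries_X]
  calc HahnSeries.single (-1 : ℤ) (1 : A) *
        HahnSeries.ofPowerSeries ℤ A (jNum.map (Int.castRingHom A)) *
        (HahnSeries.single (1 : ℤ) (1 : A) * HahnSeries.ofPowerSeries ℤ A (cci_jnumInv A))
      = (HahnSeries.single (-1 : ℤ) (1 : A) * HahnSeries.single (1 : ℤ) (1 : A)) *
        HahnSeries.ofPowerSeries ℤ A (cci_jnum A * cci_jnumInv A) := by
        rw [map_mul, cci_jnum]; ring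
    _ = 1 := by rw [h1, cci_jnum_mul_inv, map_one, mul_one]

variable (N : ℕ) [NeZero N]

/-- `x(t^N)`, `t = q^(1/N)`. -/
def cci_xN : PowerSeries A := PowerSeries.expand N (NeZero.ne N) (cci_x A)

/-- the unit part of `x(t^N)`. -/
def cci_xNunit : (PowerSeries A)ˣ :=
  Units.map (PowerSeries.expand N (NeZero.ne N) : PowerSeries A →ₐ[A] PowerSeries A).toRingHom.toMonoidHom
    (cci_xunit A)

theorem cci_xNunit_val : ((cci_xNunit A N : (PowerSeries A)ˣ) : PowerSeries A) =
    PowerSeries.expand N (NeZero.ne N) (cci_jnumInv A) := rfl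

/-- `x(t^N) = t^N · unit`. -/
theorem cci_xN_eq : cci_xN A N = PowerSeries.X ^ N * (cci_xNunit A N : PowerSeries A) := by
  rw [cci_xN, cci_x, map_mul, PowerSeries.expand_X, cci_xNunit_val]

omit [NeZero N] in
theorem cci_qExpand_ofPowerSeries (N : ℕ) [NeZero N] (P : PowerSeries A) :
    qExpand A N (HahnSeries.ofPowerSeries ℤ A P) =
      HahnSeries.ofPowerSeries ℤ A (PowerSeries.expand N (NeZero.ne N) P) := by
  ext k
  by_cases hk : (N : ℤ) ∣ k
  · obtain ⟨m, rfl⟩ := hk
    rw [qExpand_coeff_mul]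
    rcases le_or_gt 0 m with hm | hm
    · lift m to ℕ using hm
      rw [HahnSeries.ofPowerSeries_apply_coeff,
        show (N : ℤ) * (m : ℤ) = ((N * m : ℕ) : ℤ) by push_cast; ring,
        HahnSeries.ofPowerSeries_apply_coeff, PowerSeries.coeff_expand_mul]
    · rw [ofPowerSeries_coeff_of_neg _ hm, ofPowerSeries_coeff_of_neg]
      exact mul_neg_of_pos_of_neg (by exact_mod_cast Nat.pos_of_ne_zero (NeZero.ne N)) hm
  · rw [qExpand_coeff_of_not_dvd N _ hk]
    rcases le_or_gt 0 k with hk0 | hk0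
    · lift k to ℕ using hk0
      rw [HahnSeries.ofPowerSeries_apply_coeff, PowerSeries.coeff_expand_of_not_dvd]
      intro h
      exact hk (by exact_mod_cast h)
    · rw [ofPowerSeries_coeff_of_neg _ hk0]

/-- `x(t^N)` as a Laurent series is `qExpand N` of `x`. -/
theorem cci_ofPowerSeries_xN :
    HahnSeries.ofPowerSeries ℤ A (cci_xN A N) =
      qExpand A N (HahnSeries.ofPowerSeries ℤ A (cci_x A)) := by
  rw [cci_xN, cci_qExpand_ofPowerSeries]

/-- `j(t^N) · x(t^N) = 1`. -/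
theorem cci_jqN_mul_xN :
    qExpand A N (jqModC A) * HahnSeries.ofPowerSeries ℤ A (cci_xN A N) = 1 := by
  rw [cci_ofPowerSeries_xN, ← map_mul, cci_jq_mul_x, map_one]

/-- the common factor `x(t^N)^N = t^(N·N) · v`, `v = cci_v A N` a unit. -/
def cci_v : (PowerSeries A)ˣ := cci_xNunit A N ^ N

theorem cci_xN_pow : cci_xN A N ^ N = PowerSeries.X ^ (N * N) * (cci_v A N : PowerSeries A) := by
  rw [cci_xN_eq, mul_pow, ← pow_mul, cci_v, Units.val_pow_eq_pow_val]

/-- **the power series conjugates** `yc ζ m = x(t^N)^N · J(ζ t^m) ∈ A⟦t⟧` (`m ≤ N · N`). -/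
def cci_yc (ζ : Aˣ) (m : ℕ) [NeZero m] : PowerSeries A :=
  cce_pxs_ps ζ m (N * N) (cci_v A N : PowerSeries A)

theorem cci_ofPowerSeries_yc (ζ : Aˣ) (m : ℕ) [NeZero m] (hm : m ≤ N * N) :
    HahnSeries.ofPowerSeries ℤ A (cci_yc A N ζ m) =
      HahnSeries.ofPowerSeries ℤ A (cci_xN A N) ^ N * pxs_subst A ζ m (jqModC A) := by
  rw [cci_yc, cce_ofPowerSeries_pxs_ps ζ m (N * N) hm, ← map_pow, cci_xN_pow, map_mul,
    HahnSeries.ofPowerSeries_X_pow]

/-- the identity branch: `yc 1 (N·N) = x(t^N)^N · j(t^(N·N))`, i.e. `x^N · j(q^N)` in `t = q^(1/N)`. -/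
theorem cci_ofPowerSeries_yc_one [NeZero (N * N)] :
    HahnSeries.ofPowerSeries ℤ A (cci_yc A N 1 (N * N)) =
      HahnSeries.ofPowerSeries ℤ A (cci_xN A N) ^ N * qExpand A (N * N) (jqModC A) := by
  rw [cci_ofPowerSeries_yc A N 1 (N * N) le_rfl, pxs_subst_one_left]

/-- **differences of the power series conjugates** are `t^e · unit`. -/
theorem cci_yc_sub (ζ ζ' : Aˣ) (m m' : ℕ) [NeZero m] [NeZero m']
    (hu : m = m' → IsUnit ((ζ' : A) - (ζ : A))) (hm : m ≤ N * N) (hm' : m' ≤ N * N) :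
    ∃ w : (PowerSeries A)ˣ, cci_yc A N ζ m - cci_yc A N ζ' m' =
      (PowerSeries.X : PowerSeries A) ^ (N * N - max m m') * (w : PowerSeries A) :=
  cce_pxs_ps_sub ζ ζ' m m' hu (N * N) (max_le hm hm') (cci_v A N)

/-! ### the action of `t ↦ ξ t`, `ξ^N = 1` -/

/-- `PowerSeries.rescale` and `pxs_rescale` agree on power series. -/
theorem cci_ofPowerSeries_rescale (ξ : Aˣ) (P : PowerSeries A) :
    HahnSeries.ofPowerSeries ℤ A (PowerSeries.rescale (ξ : A) P) =
      pxs_rescale A ξ (HahnSeries.ofPowerSeries ℤ A P) := by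
  ext k
  rw [pxs_rescale_coeff]
  rcases le_or_gt 0 k with hk | hk
  · lift k to ℕ using hk
    rw [HahnSeries.ofPowerSeries_apply_coeff, HahnSeries.ofPowerSeries_apply_coeff,
      PowerSeries.coeff_rescale, zpow_natCast, Units.val_pow_eq_pow_val]
  · rw [ofPowerSeries_coeff_of_neg _ hk, ofPowerSeries_coeff_of_neg _ hk, mul_zero]

/-- `x(t^N)` is invariant under `t ↦ ξ t` when `ξ^N = 1`. -/
theorem cci_rescale_xN (ξ : Aˣ) (hξ : ξ ^ N = 1) :
    pxs_rescale A ξ (HahnSeries.ofPowerSeries ℤ A (cci_xN A N)) =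
      HahnSeries.ofPowerSeries ℤ A (cci_xN A N) := by
  rw [cci_ofPowerSeries_xN, pxs_rescale_qExpand, hξ, pxs_rescale_one]

/-- `J(ζ t^m)` under `t ↦ ξ t` is `J(ζ ξ^m t^m)`. -/
theorem cci_rescale_subst (ξ ζ : Aˣ) (m : ℕ) [NeZero m] (F : LaurentSeries A) :
    pxs_rescale A ξ (pxs_subst A ζ m F) = pxs_subst A (ζ * ξ ^ m) m F := by
  rw [pxs_subst_apply, pxs_rescale_qExpand, pxs_rescale_rescale, pxs_subst_apply]

/-- **(b) Galois action**: `t ↦ ξ t` (`ξ^N = 1`) permutes the power series conjugates: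
`yc ζ m (ξ t) = yc (ζ ξ^m) m (t)`. -/
theorem cci_rescale_yc (ξ ζ : Aˣ) (hξ : ξ ^ N = 1) (m : ℕ) [NeZero m] (hm : m ≤ N * N) :
    PowerSeries.rescale (ξ : A) (cci_yc A N ζ m) = cci_yc A N (ζ * ξ ^ m) m := by
  apply HahnSeries.ofPowerSeries_injective (Γ := ℤ) (R := A)
  rw [cci_ofPowerSeries_rescale, cci_ofPowerSeries_yc A N ζ m hm,
    cci_ofPowerSeries_yc A N (ζ * ξ ^ m) m hm, map_mul, map_pow, cci_rescale_xN A N ξ hξ,
    cci_rescale_subst]

/-! ### functoriality in the coefficient ring -/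

variable {A} {B : Type*} [CommRing B] (φ : A →+* B)

theorem cci_map_jnumInv : (cci_jnumInv A).map φ = cci_jnumInv B := by
  ext n
  simp [cci_jnumInv, PowerSeries.coeff_map]

theorem cci_map_x : (cci_x A).map φ = cci_x B := by
  rw [cci_x, cci_x, map_mul, PowerSeries.map_X, cci_map_jnumInv]

theorem cci_map_xN : (cci_xN A N).map φ = cci_xN B N := by
  rw [cci_xN, cci_xN, PowerSeries.map_expand, cci_map_x]

/-- the power series conjugates are compatible with every ring homomorphism (embedding into the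
fraction field, reduction modulo the maximal ideal, …). -/
theorem cci_map_yc (ζ : Aˣ) (m : ℕ) [NeZero m] (hm : m ≤ N * N) :
    (cci_yc A N ζ m).map φ = cci_yc B N (Units.map (φ : A →* B) ζ) m := by
  apply HahnSeries.ofPowerSeries_injective (Γ := ℤ) (R := B)
  rw [← coeffMap_ofPowerSeries, cci_ofPowerSeries_yc A N ζ m hm,
    cci_ofPowerSeries_yc B N _ m hm, map_mul, map_pow, coeffMap_ofPowerSeries, cci_map_xN,
    pxs_coeffMap_subst]
  congr 2
  exact map_jqModC φ

end PowerSeriesForms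

/-- differences of the power series conjugates attached to powers of `zA`: `t^e · unit`. -/
theorem cci_yc_sub_pow {A : Type*} [CommRing A] [IsDomain A] {N : ℕ} [NeZero N] (zA : Aˣ)
    (hzA : IsPrimitiveRoot (zA : A) N) (hN : IsUnit (N : A)) {i i' : ℕ}
    (hi : i < N) (hi' : i' < N) (m m' : ℕ) [NeZero m] [NeZero m'] (hne : ¬ (i = i' ∧ m = m'))
    (hm : m ≤ N * N) (hm' : m' ≤ N * N) :
    ∃ w : (PowerSeries A)ˣ, cci_yc A N (zA ^ i) m - cci_yc A N (zA ^ i') m' =
      (PowerSeries.X : PowerSeries A) ^ (N * N - max m m') * (w : PowerSeries A) :=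
  cci_yc_sub A N (zA ^ i) (zA ^ i') m m'
    (fun hmm => cci_isUnit_sub zA hzA hN hi hi' fun hii => hne ⟨hii, hmm⟩) hm hm'

end Fermat.Agent.S18x
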