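/-
S18x/PrimSeries (helper89): small Laurent-series / valuation helpers for the row PRIM.

* `prim_liftSeries` : a Laurent series all of whose coefficients lie in a subring `S` comes from a
  Laurent series over `S`;
* `prim_order_eq_of_coeff` : order / leading coefficient from "first non-zero coefficient";
* `prim_isUnit_sub` : over a domain, a series whose first non-zero coefficient is a unit is a unit;
* `prim_val_one_sub_eq_one` : for a valuation subring over `ℓ` and a root of unity `ω ≠ 1` of order
  prime to `ℓ`, `1 - ω` is a unit.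
-/
import Mathlib
import Fermat.Prelude.Def_ModularCurve_LaurentCoeff
import Fermat.Prelude.Def_FLTPrelim_Ramification

set_option autoImplicit false

namespace Fermat.Agent.S18x

open ModularCurve HahnSeries

noncomputable section

section Lift

variable {R₀ : Type*} [CommRing R₀]

/-- A Laurent series with all coefficients in the subring `S`, as a Laurent series over `S`. -/
def prim_liftSeries (S : Subring R₀) (f : LaurentSeries R₀) (h : ∀ k, f.coeff k ∈ S) :
    LaurentSeries S where
  coeff k := ⟨f.coeff k, h k⟩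
  isPWO_support' := by
    have hs : Function.support (fun k => (⟨f.coeff k, h k⟩ : S)) = f.support := by
      ext k
      simp only [Function.mem_support, ne_eq, HahnSeries.mem_support]
      rw [not_iff_not]
      constructor
      · intro h0
        exact congrArg Subtype.val h0
      · intro h0
        exact Subtype.ext h0
    rw [hs]
    exact f.isPWO_support

@[simp]
theorem prim_liftSeries_coeff (S : Subring R₀) (f : LaurentSeries R₀) (h : ∀ k, f.coeff k ∈ S)
    (k : ℤ) : ((prim_liftSeries S f h).coeff k : R₀) = f.coeff k := rfl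

theorem prim_coeffMap_liftSeries (S : Subring R₀) (f : LaurentSeries R₀)
    (h : ∀ k, f.coeff k ∈ S) : coeffMap S.subtype (prim_liftSeries S f h) = f := by
  ext k
  rw [coeffMap_coeff]
  rfl

theorem prim_coeffMap_subtype_injective (S : Subring R₀) :
    Function.Injective (coeffMap S.subtype) := by
  intro a b hab
  ext k
  have := congrArg (fun x : LaurentSeries R₀ => x.coeff k) hab
  simpa using this

theorem prim_mem_range_coeffMap_iff (S : Subring R₀) (f : LaurentSeries R₀) :
    f ∈ (coeffMap S.subtype).range ↔ ∀ k, f.coeff k ∈ S := by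
  constructor
  · rintro ⟨g, rfl⟩ k
    rw [coeffMap_coeff]
    exact (g.coeff k).2
  · intro h
    exact ⟨prim_liftSeries S f h, prim_coeffMap_liftSeries S f h⟩

end Lift

section Order

variable {R : Type*} [CommRing R]

theorem prim_order_eq_of_coeff {x : LaurentSeries R} {n : ℤ} (hn : x.coeff n ≠ 0)
    (hlt : ∀ k, k < n → x.coeff k = 0) : x.order = n ∧ x.leadingCoeff = x.coeff n := by
  have hx : x ≠ 0 := by
    rintro rfl
    exact hn (HahnSeries.coeff_zero)
  have h1 : x.order = n := by
    refine le_antisymm (HahnSeries.order_le_of_coeff_ne_zero hn) ?_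
    by_contra hlt'
    rw [not_le] at hlt'
    exact hx (HahnSeries.coeff_order_eq_zero.mp (hlt _ hlt'))
  refine ⟨h1, ?_⟩
  rw [HahnSeries.leadingCoeff_eq, h1]

/-- Over a domain: a Laurent series whose first non-zero coefficient is a unit is a unit. -/
theorem prim_isUnit_of_coeff [IsDomain R] {x : LaurentSeries R} {n : ℤ} (hn : IsUnit (x.coeff n))
    (hlt : ∀ k, k < n → x.coeff k = 0) : IsUnit x := by
  have h := prim_order_eq_of_coeff hn.ne_zero hlt
  rw [HahnSeries.isUnit_iff, h.2]
  exact hn

end Order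

section Val

variable {L : Type*} [Field L] (A : ValuationSubring L)

theorem prim_val_eq_one_of_pow {x : L} {n : ℕ} (hn : n ≠ 0) (hx : x ^ n = 1) :
    A.valuation x = 1 := by
  have h : A.valuation x ^ n = 1 := by rw [← map_pow, hx, map_one]
  exact (pow_eq_one_iff_of_nonneg zero_le' hn).mp h

theorem prim_mem_of_pow {x : L} {n : ℕ} (hn : n ≠ 0) (hx : x ^ n = 1) : x ∈ A :=
  (A.valuation_le_one_iff x).mp (le_of_eq (prim_val_eq_one_of_pow A hn hx))

theorem prim_val_natCast_eq_one {ℓ : ℕ} (hℓ : ℓ.Prime) (hA : A.LiesOverPrime ℓ) {n : ℕ}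
    (hn : ¬ ℓ ∣ n) : A.valuation (n : L) = 1 := by
  have hle : A.valuation (n : L) ≤ 1 := (A.valuation_le_one_iff _).mpr (natCast_mem A n)
  refine le_antisymm hle ?_
  by_contra hlt
  rw [not_le] at hlt
  have hcop : IsCoprime (ℓ : ℤ) (n : ℤ) := by
    have hp : Prime (ℓ : ℤ) := Nat.prime_iff_prime_int.mp hℓ
    exact (Prime.coprime_iff_not_dvd hp).mpr (by exact_mod_cast hn)
  obtain ⟨u, v, huv⟩ := hcop
  have h1 : ((u : L) * (ℓ : L) + (v : L) * (n : L)) = 1 := by
    have := congrArg (fun t : ℤ => (t : L)) huv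
    simpa using this
  have hℓlt : A.valuation (ℓ : L) < 1 := A.mem_nonunits_iff.mp hA
  have hint : ∀ z : ℤ, A.valuation (z : L) ≤ 1 := fun z =>
    (A.valuation_le_one_iff _).mpr (intCast_mem A z)
  have h2 : A.valuation ((u : L) * (ℓ : L) + (v : L) * (n : L)) < 1 := by
    refine lt_of_le_of_lt (A.valuation.map_add _ _) (max_lt ?_ ?_)
    · rw [map_mul]
      calc A.valuation (u : L) * A.valuation (ℓ : L)
          ≤ 1 * A.valuation (ℓ : L) := by
            gcongr
            exact hint u
        _ = A.valuation (ℓ : L) := one_mul _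
        _ < 1 := hℓlt
    · rw [map_mul]
      calc A.valuation (v : L) * A.valuation (n : L)
          ≤ 1 * A.valuation (n : L) := by
            gcongr
            exact hint v
        _ = A.valuation (n : L) := one_mul _
        _ < 1 := hlt
  rw [h1, map_one] at h2
  exact lt_irrefl _ h2

/-- For a root of unity `ω ≠ 1` of order prime to the residue characteristic, `1 - ω` is a unit of
the valuation ring. -/
theorem prim_val_one_sub_eq_one {ℓ : ℕ} (hℓ : ℓ.Prime) (hA : A.LiesOverPrime ℓ) {N : ℕ}
    (hN0 : N ≠ 0) (hN : ¬ ℓ ∣ N) {ω : L} (hω : ω ^ N = 1) (hω1 : ω ≠ 1) :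
    A.valuation (1 - ω) = 1 := by
  have hfin : IsOfFinOrder ω := isOfFinOrder_iff_pow_eq_one.mpr ⟨N, Nat.pos_of_ne_zero hN0, hω⟩
  set M := orderOf ω with hM
  have hMpos : 0 < M := hfin.orderOf_pos
  have hMN : M ∣ N := orderOf_dvd_of_pow_eq_one hω
  have hM1 : M ≠ 1 := fun h => hω1 (orderOf_eq_one_iff.mp h)
  have hprim : IsPrimitiveRoot ω M := IsPrimitiveRoot.orderOf ω
  obtain ⟨n, hn⟩ : ∃ n, M = n + 1 := ⟨M - 1, by omega⟩
  have hn1 : 1 ≤ n := by omega
  rw [hn] at hprim
  have hprod := hprim.prod_one_sub_pow_eq_order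
  obtain ⟨n', rfl⟩ : ∃ n', n = n' + 1 := ⟨n - 1, by omega⟩
  rw [Finset.prod_range_succ', zero_add, pow_one] at hprod
  have hℓM : ¬ ℓ ∣ M := fun h => hN (h.trans hMN)
  have hvM : A.valuation ((n' + 1 : ℕ) + 1 : L) = 1 := by
    have := prim_val_natCast_eq_one A hℓ hA hℓM
    rw [hn] at this
    push_cast at this ⊢
    exact this
  have hωA : ω ∈ A := prim_mem_of_pow A hN0 hω
  have hle1 : A.valuation (1 - ω) ≤ 1 :=
    (A.valuation_le_one_iff _).mpr (A.sub_mem A.one_mem hωA)
  have hle2 : A.valuation (∏ k ∈ Finset.range n', (1 - ω ^ (k + 1 + 1))) ≤ 1 := by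
    rw [A.valuation_le_one_iff]
    refine Subring.prod_mem A.toSubring fun k _ => ?_
    exact A.toSubring.sub_mem A.one_mem (A.toSubring.pow_mem hωA _)
  have hv := congrArg A.valuation hprod
  rw [map_mul, hvM] at hv
  refine le_antisymm hle1 ?_
  calc (1 : A.ValueGroup) = A.valuation (∏ k ∈ Finset.range n', (1 - ω ^ (k + 1 + 1))) *
        A.valuation (1 - ω) := hv.symm
    _ ≤ 1 * A.valuation (1 - ω) := by gcongr
    _ = A.valuation (1 - ω) := one_mul _

end Val

end

end Fermat.Agent.S18x
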