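/-
S18 project, NRM block, row N7i (helper83, prefix `cspi_`): INSTANCE DATA for helper35's `cspn_main`
from the power series conjugates `cci_yc A N (ζ i) (m i) = x(t^N)^N · J(ζ_i t^(m_i))`.

(G1) the rotation `t ↦ zN t` permutes the conjugates: `τ : Fin n ≃ Fin n`;
(G2) all differences are `X^e * unit` (`cspn_IsMonUnit`);
(G3) the identity branch: `cci_yc A N 1 (N·N) = ys(t^N)`, `ys = x^N · j(q^N) ∈ A⟦q⟧`;
(G4) spelling of the evaluation map `A[x] → A⟦t⟧`;
(G5) valuation subrings of `ℚ̄` over `ℓ ∤ N`: `N` is a unit and there is a primitive `N`-th root of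
     unity.
-/
import Mathlib
import Fermat.Agent.S18x.CuspConjInt
import Fermat.Agent.S18x.CspnMain
import Fermat.Agent.S18x.PrimSeries

set_option autoImplicit false
set_option linter.unusedSectionVars false

noncomputable section

namespace Fermat.Agent.S18x

open ModularCurve

/-- `cci_yc` only depends on the values of its parameters. -/
theorem cspi_yc_congr (A : Type*) [CommRing A] (N : ℕ) [NeZero N] {ζ ζ' : Aˣ} {m m' : ℕ}
    [NeZero m] [NeZero m'] (hζ : ζ = ζ') (hm : m = m') :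
    cci_yc A N ζ m = cci_yc A N ζ' m' := by
  subst hζ
  subst hm
  rfl

section Data

variable {A : Type*} [CommRing A] [IsDomain A] {N : ℕ} [NeZero N] (zN : Aˣ)
  (hzN : IsPrimitiveRoot (zN : A) N) (hNu : IsUnit (N : A))
  {n : ℕ} (ζ : Fin n → Aˣ) (m : Fin n → ℕ) [∀ i, NeZero (m i)]

include hzN in
theorem cspi_zN_pow : zN ^ N = 1 :=
  Units.ext (by rw [Units.val_pow_eq_pow_val, hzN.pow_eq_one, Units.val_one])

include hzN in
/-- **(G1)** the rotation `t ↦ zN t` permutes the conjugates. -/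
theorem cspi_tau (hm : ∀ i, m i ≤ N * N)
    (hinj : Function.Injective (fun i => (ζ i, m i)))
    (hrot : ∀ i, ∃ i', ζ i' = ζ i * zN ^ (m i) ∧ m i' = m i) :
    ∃ τ : Fin n ≃ Fin n, ∀ i, cci_yc A N (ζ (τ i)) (m (τ i)) =
      PowerSeries.rescale (zN : A) (cci_yc A N (ζ i) (m i)) := by
  classical
  choose σ hσ using hrot
  have hσinj : Function.Injective σ := by
    intro i j hij
    apply hinj
    have h1 := (hσ i).1
    have h2 := (hσ j).1
    have h3 := (hσ i).2
    have h4 := (hσ j).2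
    rw [hij] at h1 h3
    have hm' : m i = m j := by rw [← h3, h4]
    have hζ' : ζ i = ζ j := by
      have : ζ i * zN ^ (m i) = ζ j * zN ^ (m j) := by rw [← h1, h2]
      rw [hm'] at this
      exact mul_right_cancel this
    exact Prod.ext hζ' hm'
  refine ⟨Equiv.ofBijective σ (Finite.injective_iff_bijective.mp hσinj), fun i => ?_⟩
  rw [Equiv.ofBijective_apply, cci_rescale_yc A N zN (ζ i) (cspi_zN_pow zN hzN) (m i) (hm i)]
  exact cspi_yc_congr A N (hσ i).1 (hσ i).2

include hzN hNu in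
/-- **(G2)** all differences of distinct conjugates are `X^e * unit`. -/
theorem cspi_monunit (hζ : ∀ i, ζ i ^ N = 1) (hm : ∀ i, m i ≤ N * N)
    (hinj : Function.Injective (fun i => (ζ i, m i))) :
    ∀ i i', i ≠ i' →
      cspn_IsMonUnit (cci_yc A N (ζ i) (m i) - cci_yc A N (ζ i') (m i')) := by
  intro i i' hne
  have hu : m i = m i' → IsUnit (((ζ i' : Aˣ) : A) - ((ζ i : Aˣ) : A)) := by
    intro hmm
    refine cce_isUnit_sub_of_pow_eq_one hzN hNu (ζ i) (ζ i') (hζ i) (hζ i') ?_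
    intro hζζ
    exact hne (hinj (Prod.ext hζζ hmm))
  obtain ⟨w, hw⟩ := cci_yc_sub A N (ζ i) (ζ i') (m i) (m i') hu (hm i) (hm i')
  exact ⟨_, w, w.isUnit, hw⟩

end Data

/-! ### (G3) the identity branch -/

section Identity

variable (A : Type*) [CommRing A] (N : ℕ) [NeZero N]

/-- `ys = x^N · j(q^N) ∈ A⟦q⟧`. -/
def cspi_ys : PowerSeries A :=
  cci_jnumInv A ^ N * PowerSeries.expand N (NeZero.ne N) (cci_jnum A)

theorem cspi_ofPowerSeries_ys :
    HahnSeries.ofPowerSeries ℤ A (cspi_ys A N) =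
      HahnSeries.ofPowerSeries ℤ A (cci_x A) ^ N * jqNModC A N := by
  have h1 : HahnSeries.single (N : ℤ) (1 : A) * HahnSeries.single (-(N : ℤ)) (1 : A) = 1 := by
    rw [HahnSeries.single_mul_single]
    simp
  have hx : HahnSeries.ofPowerSeries ℤ A (cci_x A) ^ N =
      HahnSeries.single (N : ℤ) (1 : A) * HahnSeries.ofPowerSeries ℤ A (cci_jnumInv A) ^ N := by
    rw [cci_x, map_mul, HahnSeries.ofPowerSeries_X, mul_pow, HahnSeries.single_pow, one_pow]
    simp
  have hj : jqNModC A N = HahnSeries.single (-(N : ℤ)) (1 : A) *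
      HahnSeries.ofPowerSeries ℤ A (PowerSeries.expand N (NeZero.ne N) (cci_jnum A)) := by
    rw [jqNModC, jqModC, map_mul, qExpand_single, cci_qExpand_ofPowerSeries, cci_jnum]
    simp
  rw [hx, hj, cspi_ys, map_mul, map_pow]
  calc HahnSeries.ofPowerSeries ℤ A (cci_jnumInv A) ^ N *
        HahnSeries.ofPowerSeries ℤ A (PowerSeries.expand N (NeZero.ne N) (cci_jnum A))
      = (HahnSeries.single (N : ℤ) (1 : A) * HahnSeries.single (-(N : ℤ)) (1 : A)) *
        (HahnSeries.ofPowerSeries ℤ A (cci_jnumInv A) ^ N *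
          HahnSeries.ofPowerSeries ℤ A (PowerSeries.expand N (NeZero.ne N) (cci_jnum A))) := by
        rw [h1, one_mul]
    _ = _ := by ring

/-- **(G3)** the identity branch `yc 1 (N·N)` is `ys(t^N)`. -/
theorem cspi_yc_one [NeZero (N * N)] :
    cci_yc A N 1 (N * N) = cspn_exp A N (NeZero.ne N) (cspi_ys A N) := by
  apply HahnSeries.ofPowerSeries_injective (Γ := ℤ) (R := A)
  rw [cci_ofPowerSeries_yc_one, cspn_exp_apply, ← cci_qExpand_ofPowerSeries,
    cspi_ofPowerSeries_ys, map_mul, map_pow, ← cci_ofPowerSeries_xN, jqNModC, qExpand_qExpand]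

variable {A} {B : Type*} [CommRing B] (φ : A →+* B)

theorem cspi_map_jnum : (cci_jnum A).map φ = cci_jnum B := by
  ext k
  simp [cci_jnum, PowerSeries.coeff_map]

/-- functoriality of `ys`. -/
theorem cspi_map_ys : (cspi_ys A N).map φ = cspi_ys B N := by
  rw [cspi_ys, cspi_ys, map_mul, map_pow, PowerSeries.map_expand, cci_map_jnumInv, cspi_map_jnum]

variable (A)

/-- **(G4)** spelling of the evaluation map `A[x] → A⟦t⟧`, `x ↦ x(t^N)`. -/
theorem cspi_exp_comp_aev :
    (cspn_exp A N (NeZero.ne N)).comp (cspn_aev (cci_x A)) =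
      Polynomial.eval₂RingHom (PowerSeries.C : A →+* PowerSeries A) (cci_xN A N) := by
  apply Polynomial.ringHom_ext
  · intro a
    rw [RingHom.comp_apply, cspn_aev_apply, Polynomial.aeval_C, cspn_exp_apply,
      Polynomial.coe_eval₂RingHom, Polynomial.eval₂_C]
    have : algebraMap A (PowerSeries A) a = PowerSeries.C a := rfl
    rw [this, PowerSeries.expand_C]
  · rw [RingHom.comp_apply, cspn_aev_apply, Polynomial.aeval_X, cspn_exp_apply,
      Polynomial.coe_eval₂RingHom, Polynomial.eval₂_X, cci_xN]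

/-- `x = X · ε`, `δ ε = 1` for `x = cci_x A` (the `hx`, `hεδ` inputs of `cspn_main`). -/
theorem cspi_x_eq : cci_x A = PowerSeries.X * cci_jnumInv A := rfl

theorem cspi_jnum_mul_jnumInv : cci_jnum A * cci_jnumInv A = 1 := cci_jnum_mul_inv A

end Identity

/-! ### (G5) valuation subrings of `ℚ̄` -/

section Valuation

variable {L : Type*} [Field L] (A : ValuationSubring L)

/-- `N` is a unit of a valuation ring of residue characteristic `ℓ ∤ N`. -/
theorem cspi_isUnit_natCast {ℓ : ℕ} (hℓ : ℓ.Prime) (hA : A.LiesOverPrime ℓ) {N : ℕ}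
    (hN : ¬ ℓ ∣ N) : IsUnit ((N : ℕ) : A) := by
  rw [A.valuation_eq_one_iff]
  have : (((N : ℕ) : A) : L) = (N : L) := by simp
  rw [this]
  exact prim_val_natCast_eq_one A hℓ hA hN

/-- a primitive `N`-th root of unity of `L` gives one in the valuation ring. -/
theorem cspi_exists_primitiveRoot {N : ℕ} [NeZero N] {z : L} (hz : IsPrimitiveRoot z N) :
    ∃ zN : Aˣ, IsPrimitiveRoot ((zN : Aˣ) : A) N ∧ (((zN : Aˣ) : A) : L) = z := by
  have hN0 : N ≠ 0 := NeZero.ne N
  have hz0 : z ≠ 0 := hz.ne_zero hN0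
  have hzmem : z ∈ A := prim_mem_of_pow A hN0 hz.pow_eq_one
  have hzinv : z⁻¹ ∈ A := prim_mem_of_pow A hN0 (by rw [inv_pow, hz.pow_eq_one, inv_one])
  refine ⟨⟨⟨z, hzmem⟩, ⟨z⁻¹, hzinv⟩, Subtype.ext (mul_inv_cancel₀ hz0),
    Subtype.ext (inv_mul_cancel₀ hz0)⟩, ?_, rfl⟩
  exact IsPrimitiveRoot.of_map_of_injective (f := A.subtype) hz Subtype.val_injective

/-- **(G5)** for a valuation subring of `ℚ̄` over `ℓ ∤ N`. -/
theorem cspi_exists_zN (A : ValuationSubring (AlgebraicClosure ℚ)) (N : ℕ) [NeZero N] :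
    ∃ zN : Aˣ, IsPrimitiveRoot ((zN : Aˣ) : A) N := by
  have : NeZero (N : AlgebraicClosure ℚ) := ⟨by exact_mod_cast NeZero.ne N⟩
  obtain ⟨z, hz⟩ := HasEnoughRootsOfUnity.exists_primitiveRoot (AlgebraicClosure ℚ) N
  obtain ⟨zN, hzN, -⟩ := cspi_exists_primitiveRoot A hz
  exact ⟨zN, hzN⟩

end Valuation

end Fermat.Agent.S18x
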