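/-
S18 project, module LV (helper94), file 1: coefficientwise base change `F((q)) → k((q))` along a
field extension `k / F` preserves linear independence (i.e. `F((q)) ⊗_F k → k((q))` is injective).
Prefix `lv_`.  Mathlib + Prelude `coeffMap` only.
-/
import Mathlib
import Fermat.Prelude.Def_ModularCurve_LaurentCoeff

set_option autoImplicit false

namespace Fermat.Agent.S18x

open ModularCurve HahnSeries

noncomputable section

section BaseChange

variable {F k : Type*} [Field F] [Field k] [Algebra F k]

/-- If `z i ∈ F((q))` are `F`-linearly independent, their coefficientwise images in `k((q))`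
are `k`-linearly independent. -/
theorem lv_li_coeffMap {ι : Type*} (z : ι → LaurentSeries F) (hz : LinearIndependent F z) :
    LinearIndependent k (fun i => coeffMap (algebraMap F k) (z i)) := by
  classical
  rw [linearIndependent_iff']
  intro s g hg i₀ hi₀
  -- `V` = the `F`-span of the coefficients `g i`, `i ∈ s`
  set V : Submodule F k := Submodule.span F (g '' (s : Set ι)) with hV
  have : Module.Finite F V :=
    Module.Finite.span_of_finite F ((s.finite_toSet).image g)
  let b := Module.finBasis F V
  have hgV : ∀ i ∈ s, g i ∈ V := fun i hi => Submodule.subset_span ⟨i, hi, rfl⟩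
  -- coordinates of `g i` in the basis `b`
  let a : ι → Fin (Module.finrank F V) → F := fun i t =>
    if hi : i ∈ s then b.repr ⟨g i, hgV i hi⟩ t else 0
  have ha : ∀ i ∈ s, g i = ∑ t, a i t • ((b t : V) : k) := by
    intro i hi
    have h1 := b.sum_repr ⟨g i, hgV i hi⟩
    have h2 := congrArg (fun v : V => (v : k)) h1
    simp only [Submodule.coe_sum, Submodule.coe_smul] at h2
    rw [← h2]
    refine Finset.sum_congr rfl fun t _ => ?_
    simp only [a, dif_pos hi]
  -- the basis vectors are `F`-independent in `k`
  have hbli : LinearIndependent F (fun t => ((b t : V) : k)) :=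
    b.linearIndependent.map' V.subtype (Submodule.ker_subtype V)
  -- coefficientwise relation
  have hcoef : ∀ (n : ℤ) (t : Fin (Module.finrank F V)),
      ∑ i ∈ s, a i t * (z i).coeff n = 0 := by
    intro n
    have h1 : (∑ i ∈ s, g i • coeffMap (algebraMap F k) (z i)).coeff n = 0 := by
      rw [hg]; rfl
    rw [HahnSeries.coeff_sum] at h1
    have h2 : ∑ i ∈ s, (g i • coeffMap (algebraMap F k) (z i)).coeff n =
        ∑ t, (∑ i ∈ s, a i t * (z i).coeff n) • ((b t : V) : k) := by
      calc ∑ i ∈ s, (g i • coeffMap (algebraMap F k) (z i)).coeff n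
          = ∑ i ∈ s, ∑ t, (a i t * (z i).coeff n) • ((b t : V) : k) := by
            refine Finset.sum_congr rfl fun i hi => ?_
            rw [HahnSeries.coeff_smul, coeffMap_coeff, smul_eq_mul]
            conv_lhs => rw [ha i hi]
            rw [Finset.sum_mul]
            refine Finset.sum_congr rfl fun t _ => ?_
            rw [Algebra.smul_def, Algebra.smul_def, map_mul]
            ring
        _ = ∑ t, ∑ i ∈ s, (a i t * (z i).coeff n) • ((b t : V) : k) := Finset.sum_comm
        _ = ∑ t, (∑ i ∈ s, a i t * (z i).coeff n) • ((b t : V) : k) := by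
            refine Finset.sum_congr rfl fun t _ => ?_
            rw [Finset.sum_smul]
    rw [h2] at h1
    intro t
    exact (linearIndependent_iff'.mp hbli) Finset.univ _ h1 t (Finset.mem_univ t)
  -- hence the `F`-relations `∑ a i t • z i = 0`
  have hrel : ∀ t, ∑ i ∈ s, a i t • z i = 0 := by
    intro t
    ext n
    rw [HahnSeries.coeff_sum]
    simp only [HahnSeries.coeff_smul, smul_eq_mul]
    rw [hcoef n t]; rfl
  have hzero : ∀ t, ∀ i ∈ s, a i t = 0 := fun t =>
    (linearIndependent_iff'.mp hz) s (fun i => a i t) (hrel t)
  rw [ha i₀ hi₀]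
  refine Finset.sum_eq_zero fun t _ => ?_
  rw [hzero t i₀ hi₀, zero_smul]

end BaseChange

end

end Fermat.Agent.S18x
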