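/-
S18 project, module LV (helper94), file 2: `DEG` over an ARBITRARY field `k` of characteristic `ℓ`
(`ℓ ∤ N`):  `ψ(N) ≤ [k(j̃(q^d) : d ∣ N) : k(j̃)]`, by base change of S28x `deg_all` (which is the
case `k = 𝔽_ℓ`) along `𝔽_ℓ((q)) → k((q))`.  Prefix `lv_`.
-/
import Fermat.Agent.S18x.LvBaseChange
import Fermat.Agent.S28x.DegAll
import Fermat.Agent.S28x.DegreeUpperLI
import Fermat.Agent.S28x.StepACore
import Fermat.Agent.S28x.ModPolyConsFinal

set_option autoImplicit false

namespace Fermat.Agent.S18x

open ModularCurve HahnSeries IntermediateField Fermat.Agent.S28x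

noncomputable section

section

variable {F k : Type*} [Field F] [Field k] [Algebra F k]

/-- coefficientwise base change on constants -/
theorem lv_coeffMap_algebraMap (c : F) :
    coeffMap (algebraMap F k) (algebraMap F (LaurentSeries F) c) =
      algebraMap k (LaurentSeries k) (algebraMap F k c) := by
  rw [algebraMap_laurentSeries_eq_single, algebraMap_laurentSeries_eq_single, coeffMap_single]

/-- the base change `F((q)) → k((q))` maps `F(j̃(q^d) : d ∣ N)` into `k(j̃(q^d) : d ∣ N)` -/
theorem lv_coeffMap_mem_fullC (N : ℕ) {x : LaurentSeries F}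
    (hx : x ∈ modularFunctionFieldFullC F N) :
    coeffMap (algebraMap F k) x ∈ modularFunctionFieldFullC k N := by
  let T : IntermediateField F (LaurentSeries F) :=
    Subfield.toIntermediateField
      ((modularFunctionFieldFullC k N).toSubfield.comap (coeffMap (algebraMap F k)))
      (fun c => by
        show coeffMap (algebraMap F k) (algebraMap F (LaurentSeries F) c) ∈
          modularFunctionFieldFullC k N
        rw [lv_coeffMap_algebraMap]
        exact (modularFunctionFieldFullC k N).algebraMap_mem _)
  have hle : modularFunctionFieldFullC F N ≤ T := by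
    rw [modularFunctionFieldFullC, adjoin_le_iff]
    rintro y ⟨d, hne, hd, rfl⟩
    have := hne
    show coeffMap (algebraMap F k) (qExpand F d (jqModC F)) ∈ modularFunctionFieldFullC k N
    rw [coeffMap_qExpand, coeffMap_jqModC]
    exact jqModCd_mem_full k N hd
  exact hle hx

end

/-- the two `K`-module structures on `K((q))` (via `powerSeriesAlgebra`, and the coefficientwise
one) coincide -/
theorem lv_module_eq (K : Type*) [Field K] :
    (Algebra.toModule : Module K (LaurentSeries K)) = HahnSeries.instModule := by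
  refine Module.ext' _ _ fun r x => ?_
  rw [Algebra.smul_def, algebraMap_laurentSeries_eq_single]
  ext n
  rw [HahnSeries.coeff_single_zero_mul]
  rfl

/-- from S28x `deg_all`: a `𝔽_ℓ(j̃)`-independent family of size `ψ(N)` in `F̃_N` -/
theorem lv_exists_family (ℓ N : ℕ) [Fact ℓ.Prime] [NeZero N] (hℓN : ¬ ℓ ∣ N) :
    ∃ e : Fin (dedekindPsi N) → LaurentSeries (ZMod ℓ),
      (∀ i, e i ∈ Ft ℓ N) ∧ LinearIndependent (Kj ℓ) e := by
  have h := deg_all ℓ N hℓN
  have hle : Kj ℓ ≤ Ft ℓ N :=
    IntermediateField.adjoin_le_iff.mpr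
      (Set.singleton_subset_iff.mpr (jqModC_mem_full (ZMod ℓ) N))
  rw [DEG, IntermediateField.relfinrank_eq_finrank_of_le hle] at h
  obtain ⟨e, hli⟩ : ∃ e : Fin (dedekindPsi N) → (IntermediateField.extendScalars hle),
      LinearIndependent (Kj ℓ) e :=
    exists_linearIndependent_of_le_finrank h
  refine ⟨fun i => ((e i : IntermediateField.extendScalars hle) : LaurentSeries (ZMod ℓ)),
    fun i => (IntermediateField.mem_extendScalars hle).mp (e i).2, ?_⟩
  exact hli.map' ((IntermediateField.extendScalars hle).val.toLinearMap)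
    (LinearMap.ker_eq_bot.mpr (IntermediateField.extendScalars hle).val.injective)

/-- transfer of a `𝔽_ℓ(j̃)`-independent family to a `k(j̃)`-independent family -/
theorem lv_li_transfer (ℓ : ℕ) [Fact ℓ.Prime] (k : Type*) [Field k] [Algebra (ZMod ℓ) k]
    {m : ℕ} (e : Fin m → LaurentSeries (ZMod ℓ)) (he : LinearIndependent (Kj ℓ) e) :
    LinearIndependent (↥(IntermediateField.adjoin k {jqModC k}))
      (fun i : Fin m => coeffMap (algebraMap (ZMod ℓ) k) (e i)) := by
  have h1 := duli_linearIndependent_pow_mul_of_adjoin (jqModC (ZMod ℓ))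
      (sa_transcendental_jqModC (ZMod ℓ)) _ he
  rw [lv_module_eq (ZMod ℓ)] at h1
  have h2 := lv_li_coeffMap (k := k) _ h1
  have h3 : LinearIndependent k
      (fun p : Fin m × ℕ => jqModC k ^ p.2 * coeffMap (algebraMap (ZMod ℓ) k) (e p.1)) := by
    convert h2 using 2 with p
    rw [map_mul, map_pow, coeffMap_jqModC]
  rw [← lv_module_eq k] at h3
  exact duli_linearIndependent_adjoin_of_pow_mul (jqModC k) _ h3

/-- **DEG over `k`**: for a field `k` of characteristic `ℓ ∤ N`,
`ψ(N) ≤ [k(j̃(q^d) : d ∣ N) : k(j̃)]`. -/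
theorem lv_deg_le (ℓ N : ℕ) [Fact ℓ.Prime] [NeZero N] (hℓN : ¬ ℓ ∣ N)
    (k : Type*) [Field k] [Algebra (ZMod ℓ) k] :
    dedekindPsi N ≤
      IntermediateField.relfinrank (IntermediateField.adjoin k {jqModC k})
        (modularFunctionFieldFullC k N) := by
  obtain ⟨e, hmem, hli⟩ := lv_exists_family ℓ N hℓN
  have h4 := lv_li_transfer ℓ k e hli
  have hmemk : ∀ i, coeffMap (algebraMap (ZMod ℓ) k) (e i) ∈ modularFunctionFieldFullC k N :=
    fun i => lv_coeffMap_mem_fullC N (hmem i)
  have hlek : IntermediateField.adjoin k {jqModC k} ≤ modularFunctionFieldFullC k N :=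
    IntermediateField.adjoin_le_iff.mpr (Set.singleton_subset_iff.mpr (jqModC_mem_full k N))
  rw [IntermediateField.relfinrank_eq_finrank_of_le hlek]
  have hfink : Module.Finite (↥(IntermediateField.adjoin k {jqModC k}))
      (IntermediateField.extendScalars hlek) :=
    mpcf_finiteDimensional_fullC_extendScalars k N (IntermediateField.adjoin k {jqModC k})
      (IntermediateField.subset_adjoin _ _ rfl) hlek
  let c' : Fin (dedekindPsi N) → (IntermediateField.extendScalars hlek) := fun i =>
    ⟨coeffMap (algebraMap (ZMod ℓ) k) (e i),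
      (IntermediateField.mem_extendScalars hlek).mpr (hmemk i)⟩
  have hc'li : LinearIndependent (↥(IntermediateField.adjoin k {jqModC k})) c' := by
    apply LinearIndependent.of_comp ((IntermediateField.extendScalars hlek).val.toLinearMap)
    exact h4
  have := hc'li.fintype_card_le_finrank
  rwa [Fintype.card_fin] at this

end

end Fermat.Agent.S18x
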