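/-
S18x/PrimCharZero (helper89): characteristic-zero primitivity over `ℚ`:
`F_N = ℚ(j)(j(q^N))` inside `ℚ((q))`, in the form
`(minpoly ℚ(j) j_N).natDegree = [F_N : ℚ(j)]` and `ℚ(j)⟮j_N⟯ = ⊤`.

Inputs: S24x `dl_natDegree_ge` (lower bound over `Q̄(j)`), S28x `du_rank_le` (upper bound).
-/
import Fermat.Agent.S24x.DegreeLowerCore
import Fermat.Agent.S28x.DegreeUpper

set_option autoImplicit false

namespace Fermat.Agent.S18x

open ModularCurve IntermediateField Fermat.Agent.S24x Fermat.Agent.S28x Polynomial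

noncomputable section

local notation "𝕃" => LaurentSeries ℚ

/-- `F_N` as an extension field of `ℚ(j)`. -/
abbrev prim_FQ (N : ℕ) [NeZero N] : IntermediateField Qj 𝕃 :=
  IntermediateField.extendScalars (du_Qj_le_full N)

/-- `j(q^d)` as an element of `F_N / ℚ(j)`. -/
def prim_jd (N d : ℕ) [NeZero N] [NeZero d] (hd : d ∣ N) : prim_FQ N :=
  ⟨qExpand ℚ d jq, jqd_mem_full N hd⟩

/-- the coefficient embedding `ℚ((q)) → Q̄((q))` restricted to `F_N → FBar N` -/
def prim_emb (N : ℕ) [NeZero N] : prim_FQ N →+* FBar N where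
  toFun x := ⟨coeffEmb Qbar (x : 𝕃), coeffEmb_mem_laurentBaseChange Qbar x.2⟩
  map_one' := Subtype.ext (map_one (coeffEmb Qbar))
  map_zero' := Subtype.ext (map_zero (coeffEmb Qbar))
  map_mul' x y := Subtype.ext (map_mul (coeffEmb Qbar) _ _)
  map_add' x y := Subtype.ext (map_add (coeffEmb Qbar) _ _)

theorem prim_emb_coe (N : ℕ) [NeZero N] (x : prim_FQ N) :
    ((prim_emb N x : FBar N) : LaurentSeries Qbar) = coeffEmb Qbar (x : 𝕃) := rfl

theorem prim_emb_jd (N d : ℕ) [NeZero N] [NeZero d] (hd : d ∣ N) :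
    prim_emb N (prim_jd N d hd) = jdBar N d hd := rfl

theorem prim_emb_algebraMap_rat (N : ℕ) [NeZero N] (r : ℚ)
    (h : algebraMap ℚ 𝕃 r ∈ modularFunctionFieldFull N) :
    prim_emb N ⟨algebraMap ℚ 𝕃 r, h⟩ = algebraMap Qbar (FBar N) (algebraMap ℚ Qbar r) := by
  apply Subtype.ext
  rw [prim_emb_coe]
  change coeffEmb Qbar (algebraMap ℚ 𝕃 r) =
    algebraMap Qbar (LaurentSeries Qbar) (algebraMap ℚ Qbar r)
  rw [algebraMap_laurentSeries_eq_single, algebraMap_laurentSeries_eq_single, coeffEmb,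
    coeffMap_single]

/-- `prim_emb` maps `ℚ(j)` into `Q̄(j)`. -/
theorem prim_emb_mem (N : ℕ) [NeZero N] (a : Qj) :
    prim_emb N (algebraMap Qj (prim_FQ N) a) ∈ Qbar⟮jBar N⟯ := by
  let T : IntermediateField ℚ 𝕃 :=
    { carrier := {x | ∃ hx : x ∈ modularFunctionFieldFull N,
        prim_emb N ⟨x, hx⟩ ∈ Qbar⟮jBar N⟯}
      mul_mem' := by
        rintro x y ⟨hx, hx'⟩ ⟨hy, hy'⟩
        refine ⟨mul_mem hx hy, ?_⟩
        have : (⟨x * y, mul_mem hx hy⟩ : prim_FQ N) = ⟨x, hx⟩ * ⟨y, hy⟩ := rfl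
        rw [this, map_mul]
        exact mul_mem hx' hy'
      one_mem' := ⟨one_mem _, by
        have : (⟨1, one_mem _⟩ : prim_FQ N) = 1 := rfl
        rw [this, map_one]; exact one_mem _⟩
      add_mem' := by
        rintro x y ⟨hx, hx'⟩ ⟨hy, hy'⟩
        refine ⟨add_mem hx hy, ?_⟩
        have : (⟨x + y, add_mem hx hy⟩ : prim_FQ N) = ⟨x, hx⟩ + ⟨y, hy⟩ := rfl
        rw [this, map_add]
        exact add_mem hx' hy'
      zero_mem' := ⟨zero_mem _, by
        have : (⟨0, zero_mem _⟩ : prim_FQ N) = 0 := rfl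
        rw [this, map_zero]; exact zero_mem _⟩
      algebraMap_mem' := by
        intro r
        refine ⟨IntermediateField.algebraMap_mem _ r, ?_⟩
        rw [prim_emb_algebraMap_rat]
        exact IntermediateField.algebraMap_mem _ _
      inv_mem' := by
        rintro x ⟨hx, hx'⟩
        refine ⟨inv_mem hx, ?_⟩
        have : (⟨x⁻¹, inv_mem hx⟩ : prim_FQ N) = (⟨x, hx⟩ : prim_FQ N)⁻¹ := rfl
        rw [this, map_inv₀]
        exact inv_mem hx' }
  have hle : Qj ≤ T := by
    rw [IntermediateField.adjoin_le_iff]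
    intro y hy
    rw [Set.mem_singleton_iff] at hy
    subst hy
    refine ⟨du_Qj_le_full N (IntermediateField.mem_adjoin_simple_self ℚ jq), ?_⟩
    have h1 : prim_emb N ⟨jq, du_Qj_le_full N (IntermediateField.mem_adjoin_simple_self ℚ jq)⟩
        = jBar N := by
      apply Subtype.ext
      rw [prim_emb_coe, coe_jBar]
    rw [h1]
    exact IntermediateField.mem_adjoin_simple_self Qbar (jBar N)
  obtain ⟨hx, hx'⟩ := hle a.2
  exact hx'

/-- the induced field homomorphism `ℚ(j) → Q̄(j)` -/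
def prim_embK (N : ℕ) [NeZero N] : Qj →+* Qbar⟮jBar N⟯ :=
  ((prim_emb N).comp (algebraMap Qj (prim_FQ N))).codRestrict (Qbar⟮jBar N⟯).toSubring
    (fun a => prim_emb_mem N a)

theorem prim_embK_spec (N : ℕ) [NeZero N] (a : Qj) :
    algebraMap Qbar⟮jBar N⟯ (FBar N) (prim_embK N a) = prim_emb N (algebraMap Qj (prim_FQ N) a) :=
  rfl

/-- **Lower bound over `ℚ(j)`**: a non-zero polynomial over `ℚ(j)` killing `j(q^N)` has degree
at least `ψ(N)`. -/
theorem prim_natDegree_ge (N : ℕ) [NeZero N] (P : Polynomial Qj) (hP : P ≠ 0)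
    (h : aeval (prim_jd N N dvd_rfl) P = 0) : dedekindPsi N ≤ P.natDegree := by
  have hmap : P.map (prim_embK N) ≠ 0 :=
    (Polynomial.map_ne_zero_iff (prim_embK N).injective).mpr hP
  have hev : aeval (jdBar N N dvd_rfl) (P.map (prim_embK N)) = 0 := by
    rw [aeval_def, eval₂_map]
    have hcomp : (algebraMap Qbar⟮jBar N⟯ (FBar N)).comp (prim_embK N) =
        (prim_emb N).comp (algebraMap Qj (prim_FQ N)) := RingHom.ext fun a => prim_embK_spec N a
    rw [hcomp, ← prim_emb_jd N N dvd_rfl, ← hom_eval₂, ← aeval_def, h, map_zero]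
  have := dl_natDegree_ge N _ hmap hev
  rw [dl_idx_eq, natDegree_map] at this
  exact this

theorem prim_finiteDimensional (N : ℕ) [NeZero N] : FiniteDimensional Qj (prim_FQ N) :=
  finiteDimensional_full N

theorem prim_finrank_le (N : ℕ) [NeZero N] : Module.finrank Qj (prim_FQ N) ≤ dedekindPsi N :=
  Module.finrank_le_of_rank_le (du_rank_le N)

/-- **Characteristic zero PRIM**: `[F_N : ℚ(j)] = ψ(N) = deg minpoly(j_N)`. -/
theorem prim_finrank_eq (N : ℕ) [NeZero N] : Module.finrank Qj (prim_FQ N) = dedekindPsi N := by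
  have := prim_finiteDimensional N
  refine le_antisymm (prim_finrank_le N) ?_
  have hint : IsIntegral Qj (prim_jd N N dvd_rfl) := IsIntegral.of_finite _ _
  have h1 := prim_natDegree_ge N (minpoly Qj (prim_jd N N dvd_rfl)) (minpoly.ne_zero hint)
    (minpoly.aeval _ _)
  exact h1.trans (minpoly.natDegree_le _)

theorem prim_minpoly_natDegree (N : ℕ) [NeZero N] :
    (minpoly Qj (prim_jd N N dvd_rfl)).natDegree = Module.finrank Qj (prim_FQ N) := by
  have := prim_finiteDimensional N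
  have hint : IsIntegral Qj (prim_jd N N dvd_rfl) := IsIntegral.of_finite _ _
  refine le_antisymm (minpoly.natDegree_le _) ?_
  rw [prim_finrank_eq]
  exact prim_natDegree_ge N _ (minpoly.ne_zero hint) (minpoly.aeval _ _)

/-- **Characteristic zero PRIM**: `j(q^N)` generates `F_N` over `ℚ(j)`. -/
theorem prim_adjoin_eq_top (N : ℕ) [NeZero N] :
    IntermediateField.adjoin Qj {prim_jd N N dvd_rfl} = ⊤ := by
  have := prim_finiteDimensional N
  exact (Field.primitive_element_iff_minpoly_natDegree_eq Qj _).mpr (prim_minpoly_natDegree N)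

end

end Fermat.Agent.S18x
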