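/-
S18x/PrimConjA (helper89): integrality of the Puiseux conjugates `J(ζ t^m)` (`ζ^N = 1`) over a
valuation subring `A` of a field `L` lying over `ℓ ∤ N`, and units among their differences.
Part of the row PRIM of block NRM.
-/
import Fermat.Agent.S18x.PrimSeries
import Fermat.Agent.S18x.PuiseuxSubst

set_option autoImplicit false

namespace Fermat.Agent.S18x

open ModularCurve HahnSeries

noncomputable section

variable {L : Type*} [Field L] (A : ValuationSubring L)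

/-- A root of unity of `L`, as a unit of the valuation ring. -/
def prim_unitOf {N : ℕ} (hN0 : N ≠ 0) (ζ : Lˣ) (hζ : ζ ^ N = 1) : (A.toSubring)ˣ where
  val := ⟨(ζ : L), prim_mem_of_pow A hN0 (by rw [← Units.val_pow_eq_pow_val, hζ, Units.val_one])⟩
  inv := ⟨((ζ⁻¹ : Lˣ) : L), prim_mem_of_pow A hN0
    (by rw [← Units.val_pow_eq_pow_val, inv_pow, hζ, inv_one, Units.val_one])⟩
  val_inv := Subtype.ext (by simp)
  inv_val := Subtype.ext (by simp)

theorem prim_unitOf_map {N : ℕ} (hN0 : N ≠ 0) (ζ : Lˣ) (hζ : ζ ^ N = 1) :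
    Units.map (A.toSubring.subtype : A.toSubring →* L) (prim_unitOf A hN0 ζ hζ) = ζ :=
  Units.ext rfl

/-- `J(ζ t^m)` over `L` is the image of `J(ζ t^m)` over the valuation ring. -/
theorem prim_subst_eq_coeffMap {N : ℕ} (hN0 : N ≠ 0) (ζ : Lˣ) (hζ : ζ ^ N = 1) (m : ℕ)
    [NeZero m] :
    pxs_subst L ζ m (jqModC L) = coeffMap A.toSubring.subtype
      (pxs_subst A.toSubring (prim_unitOf A hN0 ζ hζ) m (jqModC A.toSubring)) := by
  rw [pxs_coeffMap_subst, coeffMap_jqModC, prim_unitOf_map]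

theorem prim_isUnit_of_val_eq_one (x : A.toSubring) (hx : A.valuation (x : L) = 1) : IsUnit x := by
  have h : IsUnit (⟨(x : L), x.2⟩ : A) := (A.valuation_eq_one_iff _).mpr hx
  obtain ⟨u, hu⟩ := h
  refine ⟨⟨x, ⟨((u⁻¹ : Aˣ) : A), (u⁻¹ : Aˣ).1.2⟩, ?_, ?_⟩, rfl⟩
  · apply Subtype.ext
    have := congrArg (fun y : A => (y : L)) u.mul_inv
    simp only [hu] at this
    exact this
  · apply Subtype.ext
    have := congrArg (fun y : A => (y : L)) u.inv_mul
    simp only [hu] at this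
    exact this

/-- **Unit differences**: for distinct parameters `(ζ, m) ≠ (ζ', m')` with `ζ^N = ζ'^N = 1` and
`ℓ ∤ N`, the difference `J(ζ t^m) - J(ζ' t^m')` is a unit of `A((t))`. -/
theorem prim_isUnit_sub {ℓ : ℕ} (hℓ : ℓ.Prime) (hA : A.LiesOverPrime ℓ) {N : ℕ} (hN0 : N ≠ 0)
    (hN : ¬ ℓ ∣ N) (ζ ζ' : Lˣ) (hζ : ζ ^ N = 1) (hζ' : ζ' ^ N = 1) (m m' : ℕ) [NeZero m]
    [NeZero m'] (hne : ¬ (ζ = ζ' ∧ m = m')) :
    IsUnit (pxs_subst A.toSubring (prim_unitOf A hN0 ζ hζ) m (jqModC A.toSubring) -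
      pxs_subst A.toSubring (prim_unitOf A hN0 ζ' hζ') m' (jqModC A.toSubring)) := by
  set u := prim_unitOf A hN0 ζ hζ with hu
  set u' := prim_unitOf A hN0 ζ' hζ' with hu'
  rcases lt_trichotomy m m' with hlt | heq | hgt
  · -- leading term from the second series
    refine prim_isUnit_of_coeff (n := -(m' : ℤ)) ?_ ?_
    · rw [HahnSeries.coeff_sub, pxs_subst_jq_coeff,
        pxs_subst_jq_coeff_of_lt u m (by omega), zero_sub]
      exact (Units.isUnit _).neg
    · intro k hk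
      rw [HahnSeries.coeff_sub, pxs_subst_jq_coeff_of_lt u' m' hk,
        pxs_subst_jq_coeff_of_lt u m (by omega), sub_zero]
  · subst heq
    have hζne : ζ ≠ ζ' := fun h => hne ⟨h, rfl⟩
    refine prim_isUnit_of_coeff (n := -(m : ℤ)) ?_ ?_
    · rw [HahnSeries.coeff_sub, pxs_subst_jq_coeff, pxs_subst_jq_coeff]
      apply prim_isUnit_of_val_eq_one
      have hval : (((u⁻¹ : (A.toSubring)ˣ) : A.toSubring) - ((u'⁻¹ : (A.toSubring)ˣ) : A.toSubring) :
          A.toSubring) = ((⟨((ζ⁻¹ : Lˣ) : L) - ((ζ'⁻¹ : Lˣ) : L),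
            A.toSubring.sub_mem (u⁻¹ : (A.toSubring)ˣ).1.2 (u'⁻¹ : (A.toSubring)ˣ).1.2⟩ :
              A.toSubring)) := rfl
      rw [hval]
      show A.valuation (((ζ⁻¹ : Lˣ) : L) - ((ζ'⁻¹ : Lˣ) : L)) = 1
      have hω : ((ζ'⁻¹ * ζ : Lˣ) : L) ^ N = 1 := by
        rw [← Units.val_pow_eq_pow_val, mul_pow, inv_pow, hζ, hζ', inv_one, one_mul, Units.val_one]
      have hω1 : ((ζ'⁻¹ * ζ : Lˣ) : L) ≠ 1 := by
        intro h
        apply hζne
        have : ζ'⁻¹ * ζ = 1 := Units.ext h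
        rw [inv_mul_eq_one] at this
        exact this.symm
      have h1 := prim_val_one_sub_eq_one A hℓ hA hN0 hN hω hω1
      have hfac : ((ζ⁻¹ : Lˣ) : L) - ((ζ'⁻¹ : Lˣ) : L) =
          ((ζ⁻¹ : Lˣ) : L) * (1 - ((ζ'⁻¹ * ζ : Lˣ) : L)) := by
        rw [Units.val_mul, mul_sub, mul_one, ← mul_assoc, mul_comm ((ζ⁻¹ : Lˣ) : L),
          mul_assoc, ← Units.val_mul, inv_mul_cancel, Units.val_one, mul_one]
      rw [hfac, map_mul, h1, mul_one]
      exact prim_val_eq_one_of_pow A hN0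
        (by rw [← Units.val_pow_eq_pow_val, inv_pow, hζ, inv_one, Units.val_one])
    · intro k hk
      rw [HahnSeries.coeff_sub, pxs_subst_jq_coeff_of_lt u m hk,
        pxs_subst_jq_coeff_of_lt u' m hk, sub_zero]
  · refine prim_isUnit_of_coeff (n := -(m : ℤ)) ?_ ?_
    · rw [HahnSeries.coeff_sub, pxs_subst_jq_coeff,
        pxs_subst_jq_coeff_of_lt u' m' (by omega), sub_zero]
      exact Units.isUnit _
    · intro k hk
      rw [HahnSeries.coeff_sub, pxs_subst_jq_coeff_of_lt u m hk,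
        pxs_subst_jq_coeff_of_lt u' m' (by omega), sub_zero]

end

end Fermat.Agent.S18x
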