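/-
S18x/PrimLagrange (helper89): abstract Lagrange-interpolation core for the row PRIM of block NRM
("`j̄(q^N)` is a primitive element of `F̄_N` over `k(j̄)`").

Mathlib only.  Setting: `K ⊆ F` fields, `y z : F`, a polynomial `G` over `K` of degree `< n` with
`z = G(y)`; `n` embeddings `σ i : F →ₐ[K] Om` with pairwise distinct values at `y`; a subring `R` of
`Om` (the "integral" elements) containing the `σ i y`, the `σ i z` and the inverses of the
differences `σ i y - σ i' y`.  Then all coefficients of `G` land in `R`.
-/
import Mathlib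

set_option autoImplicit false

namespace Fermat.Agent.S18x

open Polynomial

section Core

variable {Om : Type*} [Field Om]

/-- The polynomials over `Om` all of whose coefficients lie in the subring `R`. -/
theorem prim_mem_liftsRing_iff (R : Subring Om) (p : Om[X]) :
    p ∈ Polynomial.liftsRing R.subtype ↔ ∀ m, p.coeff m ∈ R := by
  rw [← Polynomial.lifts_iff_liftsRing, Polynomial.lifts_iff_coeff_lifts]
  simp

theorem prim_C_mem_liftsRing (R : Subring Om) {r : Om} (hr : r ∈ R) :
    (C r : Om[X]) ∈ Polynomial.liftsRing R.subtype := by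
  rw [← Polynomial.lifts_iff_liftsRing]
  exact Polynomial.C_mem_lifts R.subtype ⟨r, hr⟩

theorem prim_X_mem_liftsRing (R : Subring Om) :
    (X : Om[X]) ∈ Polynomial.liftsRing R.subtype := by
  rw [← Polynomial.lifts_iff_liftsRing]
  exact Polynomial.X_mem_lifts R.subtype

/-- Lagrange interpolation with nodes and values in a subring `R`, the inverses of the differences
of the nodes also in `R`: the interpolation polynomial has coefficients in `R`. -/
theorem prim_interpolate_mem {ι : Type*} [DecidableEq ι] (s : Finset ι) (v w : ι → Om)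
    (R : Subring Om) (hv : ∀ i ∈ s, v i ∈ R) (hw : ∀ i ∈ s, w i ∈ R)
    (hd : ∀ i ∈ s, ∀ i' ∈ s, i ≠ i' → (v i - v i')⁻¹ ∈ R) :
    Lagrange.interpolate s v w ∈ Polynomial.liftsRing R.subtype := by
  rw [Lagrange.interpolate_apply]
  refine Subring.sum_mem _ fun i hi => ?_
  refine Subring.mul_mem _ (prim_C_mem_liftsRing R (hw i hi)) ?_
  rw [Lagrange.basis]
  refine Subring.prod_mem _ fun i' hi' => ?_
  rw [Finset.mem_erase] at hi'
  rw [Lagrange.basisDivisor]
  refine Subring.mul_mem _ (prim_C_mem_liftsRing R (hd i hi i' hi'.2 (Ne.symm hi'.1))) ?_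
  exact Subring.sub_mem _ (prim_X_mem_liftsRing R) (prim_C_mem_liftsRing R (hv i' hi'.2))

end Core

section Main

variable {K F Om : Type*} [Field K] [Field F] [Field Om] [Algebra K F] [Algebra K Om]

/-- **Lagrange core of PRIM.**  If `z = G(y)` with `deg G < n`, and there are `n` embeddings over
`K` with pairwise distinct values at `y`, then the coefficients of `G` are given by Lagrange
interpolation; in particular they lie in every subring `R` of `Om` containing the conjugates of `y`
and `z` and the inverses of the differences of the conjugates of `y`. -/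
theorem prim_lagrange_coeff_mem {n : ℕ} (y z : F) (σ : Fin n → (F →ₐ[K] Om))
    (hinj : Function.Injective fun i => σ i y)
    (G : K[X]) (hGdeg : G.degree < (n : WithBot ℕ)) (hG : aeval y G = z)
    (R : Subring Om) (hy : ∀ i, σ i y ∈ R) (hz : ∀ i, σ i z ∈ R)
    (hdiff : ∀ i i', i ≠ i' → (σ i y - σ i' y)⁻¹ ∈ R) (m : ℕ) :
    algebraMap K Om (G.coeff m) ∈ R := by
  classical
  have hmapdeg : (G.map (algebraMap K Om)).degree < ((Finset.univ : Finset (Fin n)).card : WithBot ℕ) := by
    rw [Finset.card_univ, Fintype.card_fin]
    exact lt_of_le_of_lt (Polynomial.degree_map_le) hGdeg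
  have hvinj : Set.InjOn (fun i => σ i y) (↑(Finset.univ : Finset (Fin n))) :=
    fun a _ b _ h => hinj h
  have heval : ∀ i ∈ (Finset.univ : Finset (Fin n)),
      (G.map (algebraMap K Om)).eval ((fun i => σ i y) i) = (fun i => σ i z) i := by
    intro i _
    show (G.map (algebraMap K Om)).eval (σ i y) = σ i z
    rw [Polynomial.eval_map, ← Polynomial.aeval_def, Polynomial.aeval_algHom_apply, hG]
  have hI := Lagrange.eq_interpolate_of_eval_eq (fun i => σ i z) hvinj hmapdeg heval
  have hmem : G.map (algebraMap K Om) ∈ Polynomial.liftsRing R.subtype := by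
    rw [hI]
    exact prim_interpolate_mem _ _ _ R (fun i _ => hy i) (fun i _ => hz i)
      (fun i _ i' _ hne => hdiff i i' hne)
  have h := (prim_mem_liftsRing_iff R _).mp hmem m
  rwa [Polynomial.coeff_map] at h

/-- Existence of `G`: if `y` generates `F` over `K` as a field and `[F : K] = n`, every `z : F`
is `G(y)` for a polynomial `G` of degree `< n`. -/
theorem prim_exists_poly {n : ℕ} (y z : F) [FiniteDimensional K F]
    (hprim : IntermediateField.adjoin K {y} = ⊤) (hn : Module.finrank K F = n) :
    ∃ G : K[X], G.degree < (n : WithBot ℕ) ∧ aeval y G = z := by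
  have hint : IsIntegral K y := IsIntegral.of_finite K y
  have hz : z ∈ IntermediateField.adjoin K {y} := by rw [hprim]; trivial
  have halg : z ∈ Algebra.adjoin K {y} := by
    rw [← IntermediateField.adjoin_simple_toSubalgebra_of_isAlgebraic hint.isAlgebraic]
    exact hz
  rw [Algebra.adjoin_singleton_eq_range_aeval] at halg
  obtain ⟨P, hP⟩ := halg
  refine ⟨P %ₘ minpoly K y, ?_, ?_⟩
  · have hdeg : (minpoly K y).natDegree = n := by
      rw [← hn, ← IntermediateField.adjoin.finrank hint, hprim, IntermediateField.finrank_top']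
    calc (P %ₘ minpoly K y).degree < (minpoly K y).degree :=
          Polynomial.degree_modByMonic_lt _ (minpoly.monic hint)
      _ = ((minpoly K y).natDegree : WithBot ℕ) :=
          Polynomial.degree_eq_natDegree (minpoly.ne_zero hint)
      _ = (n : WithBot ℕ) := by rw [hdeg]
  · rw [← hP]
    exact minpoly.aeval_modByMonic_minpoly P y

end Main

end Fermat.Agent.S18x
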