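/-
S18x/PrimReduce (helper89): reduction and base-change halves of the row PRIM of block NRM
("`j̄(q^N)` is a primitive element of `F̄_N` over `k(j̄)`").

* `prim_red_of_sum` : if `j(q^d) = ∑_{m<n} c_m j(q^N)^m` in `ℚ((q))` with all `c_m` in the Gauss
  valuation ring `V = W ∩ ℚ(j)` at `ℓ`, then `j̄(q^d) ∈ 𝔽_ℓ(j̄, j̄(q^N))`.
* `prim_coeffMap_mem_adjoin` : coefficientwise base change of membership in an adjoined field.
* `prim_fullC_eq_of_zmod` : `F̄_N = k(j̄, j̄(q^N))` over `𝔽_ℓ` implies the same over any field of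
  characteristic `ℓ`.
-/
import Fermat.Agent.S28x.GaussRing
import Fermat.Agent.S28x.GaussV

set_option autoImplicit false

namespace Fermat.Agent.S18x

open ModularCurve IntermediateField Fermat.Agent.S28x

noncomputable section

section Reduce

variable (ℓ : ℕ) [Fact ℓ.Prime] (N : ℕ) [NeZero N]

theorem prim_Kj_le_fieldC : Kj ℓ ≤ modularFunctionFieldC (ZMod ℓ) N := by
  rw [IntermediateField.adjoin_le_iff]
  intro x hx
  rw [Set.mem_singleton_iff] at hx
  subst hx
  exact jqModC_mem (ZMod ℓ) N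

/-- **Reduction step of PRIM.** -/
theorem prim_red_of_sum (d : ℕ) [NeZero d] (n : ℕ) (c : ℕ → LaurentSeries ℚ)
    (hc : ∀ m, c m ∈ gaussV ℓ)
    (h : qExpand ℚ d jq = ∑ m ∈ Finset.range n, c m * (qExpand ℚ N jq) ^ m) :
    qExpand (ZMod ℓ) d (jqModC (ZMod ℓ)) ∈ modularFunctionFieldC (ZMod ℓ) N := by
  have hcW : ∀ m, c m ∈ gaussRing ℓ := fun m => gaussV_le_gaussRing ℓ (hc m)
  have hsub : (⟨qExpand ℚ d jq, jqd_mem_gaussRing ℓ d⟩ : gaussRing ℓ) =
      ∑ m ∈ Finset.range n, (⟨c m, hcW m⟩ : gaussRing ℓ) *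
        (⟨qExpand ℚ N jq, jqd_mem_gaussRing ℓ N⟩ : gaussRing ℓ) ^ m := by
    apply Subtype.ext
    show qExpand ℚ d jq = _
    rw [h]
    push_cast
    rfl
  have hrho := congrArg (rho ℓ) hsub
  rw [rho_jqd, map_sum] at hrho
  rw [hrho]
  refine sum_mem fun m _ => ?_
  rw [map_mul, map_pow, rho_jqd]
  refine mul_mem (prim_Kj_le_fieldC ℓ N (gv_rho_mem_Kj ℓ (hc m))) (pow_mem ?_ m)
  exact jqNModC_mem (ZMod ℓ) N

end Reduce

section BaseChange

variable {K₁ K₂ : Type*} [Field K₁] [Field K₂]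

theorem prim_coeffMap_algebraMap (φ : K₁ →+* K₂) (a : K₁) :
    coeffMap φ (algebraMap K₁ (LaurentSeries K₁) a) = algebraMap K₂ (LaurentSeries K₂) (φ a) := by
  rw [algebraMap_laurentSeries_eq_single, algebraMap_laurentSeries_eq_single, coeffMap_single]

/-- Coefficientwise base change maps `K₁(S)` into `K₂(φ S)`. -/
theorem prim_coeffMap_mem_adjoin (φ : K₁ →+* K₂) (S : Set (LaurentSeries K₁))
    {x : LaurentSeries K₁} (hx : x ∈ IntermediateField.adjoin K₁ S) :
    coeffMap φ x ∈ IntermediateField.adjoin K₂ (coeffMap φ '' S) := by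
  induction hx using IntermediateField.adjoin_induction with
  | mem y hy => exact IntermediateField.subset_adjoin _ _ ⟨y, hy, rfl⟩
  | algebraMap a =>
    rw [prim_coeffMap_algebraMap]
    exact IntermediateField.algebraMap_mem _ _
  | add y z _ _ hy hz => rw [map_add]; exact add_mem hy hz
  | inv y _ hy => rw [map_inv₀]; exact inv_mem hy
  | mul y z _ _ hy hz => rw [map_mul]; exact mul_mem hy hz

/-- **Base change of PRIM**: if `j̄(q^d) ∈ K₁(j̄, j̄(q^N))` for all `d ∣ N` then the same holds over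
every field `K₂` receiving a ring homomorphism from `K₁`, and `F̄_N(K₂) = K₂(j̄, j̄(q^N))`. -/
theorem prim_fieldC_eq_fullC_of_hom (φ : K₁ →+* K₂) (N : ℕ) [NeZero N]
    (h : modularFunctionFieldC K₁ N = modularFunctionFieldFullC K₁ N) :
    modularFunctionFieldC K₂ N = modularFunctionFieldFullC K₂ N := by
  refine le_antisymm (modularFunctionFieldC_le_full K₂ N) ?_
  rw [modularFunctionFieldFullC, IntermediateField.adjoin_le_iff]
  rintro x ⟨d, hne, hd, rfl⟩
  have := hne
  have h1 : qExpand K₁ d (jqModC K₁) ∈ modularFunctionFieldC K₁ N := by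
    rw [h]; exact jqModCd_mem_full K₁ N hd
  have h2 := prim_coeffMap_mem_adjoin φ _ h1
  rw [coeffMap_qExpand, coeffMap_jqModC] at h2
  have himg : coeffMap φ '' {jqModC K₁, jqNModC K₁ N} = {jqModC K₂, jqNModC K₂ N} := by
    rw [Set.image_pair, coeffMap_jqModC, coeffMap_jqNModC]
  rw [himg] at h2
  exact h2

end BaseChange

end

end Fermat.Agent.S18x
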