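/-
S18x/PrimMain (helper89): row PRIM of block NRM.

`j̄(q^N)` is a primitive element of `F̄_N` over `k(j̄)` for every field `k` of characteristic
`ℓ ∤ N`:  `modularFunctionFieldC k N = modularFunctionFieldFullC k N`.

Proof: Lagrange interpolation in characteristic zero (`PrimLagrange`, `PrimCharZero`): for `d ∣ N`,
`j(q^d) = G_d(j(q^N))` with `G_d ∈ ℚ(j)[X]`; the coefficients of `G_d` are given by the Lagrange
formula in terms of the Puiseux conjugates `J(ζ t^m)` (`CuspConj.ccj_param_of`), which are integral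
with unit differences (`PrimConjA`), so they are `ℓ`-integral; reduce (`PrimReduce`).

The only external hypothesis is `hRC : ccj_RootCases Q̄` (roots of the modular equation over the
Puiseux field; discharged in `S18x/CuspConjFinal.lean`).
-/
import Fermat.Agent.S18x.PrimLagrange
import Fermat.Agent.S18x.PrimReduce
import Fermat.Agent.S18x.PrimCharZero
import Fermat.Agent.S18x.PrimConjA
import Fermat.Agent.S18x.CuspConj

set_option autoImplicit false

namespace Fermat.Agent.S18x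

open ModularCurve IntermediateField Fermat.Agent.S24x Fermat.Agent.S28x Polynomial HahnSeries

noncomputable section

local notation "𝕃" => LaurentSeries ℚ

/-- Laurent series in `t = q^(1/N)` over `Q̄`. -/
abbrev prim_LQ : Type := LaurentSeries Qbar

/-- An algebraically closed field containing the Puiseux conjugates. -/
abbrev prim_Om : Type := AlgebraicClosure (LaurentSeries Qbar)

/-- `ℚ((q)) → Q̄((t))`, `q ↦ t^N`. -/
def prim_iota (N : ℕ) [NeZero N] : 𝕃 →+* prim_LQ := (qExpand Qbar N).comp (coeffEmb Qbar)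

/-- the structure map `ℚ(j) → Ω` -/
def prim_strMap (N : ℕ) [NeZero N] : Qj →+* prim_Om :=
  ((algebraMap prim_LQ prim_Om).comp (prim_iota N)).comp (algebraMap Qj 𝕃)

/-- `Ω` as a `ℚ(j)`-algebra via `q ↦ t^N`. -/
@[reducible] def prim_algOm (N : ℕ) [NeZero N] : Algebra Qj prim_Om := (prim_strMap N).toAlgebra

theorem prim_iota_jq (N : ℕ) [NeZero N] : prim_iota N jq = qExpand Qbar N (jqModC Qbar) := by
  show qExpand Qbar N (coeffEmb Qbar jq) = _
  rw [coeffEmb, ← jqModC_rat, coeffMap_jqModC]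

/-- the identification `F_N = modularFunctionFieldFullC ℚ N → F_N / ℚ(j)` -/
def prim_toFQ (N : ℕ) [NeZero N] : ↥(modularFunctionFieldFullC ℚ N) →+* prim_FQ N where
  toFun x := ⟨x.1, x.2⟩
  map_one' := rfl
  map_zero' := rfl
  map_mul' _ _ := rfl
  map_add' _ _ := rfl

/-! ### Step 1: the conjugates are `J(ζ t^m)` -/

theorem prim_conj_form (hRC : ccj_RootCases.{0, 0} Qbar) (N : ℕ) [NeZero N] (zN : Qbar)
    (hzN : IsPrimitiveRoot zN N) (τ : prim_FQ N →+* prim_Om)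
    (hτ : ∀ a : Qj, τ (algebraMap Qj (prim_FQ N) a) = prim_strMap N a)
    (d : ℕ) [NeZero d] (hd : d ∣ N) :
    ∃ (ζ : Qbarˣ) (m : ℕ) (_ : NeZero m), ζ ^ N = 1 ∧
      τ (prim_jd N d hd) = algebraMap prim_LQ prim_Om (pxs_subst Qbar ζ m (jqModC Qbar)) := by
  have hτj : (τ.comp (prim_toFQ N)) ⟨jqModC ℚ, jqModC_mem_full ℚ N⟩ =
      algebraMap prim_LQ prim_Om (qExpand Qbar N (jqModC Qbar)) := by
    have h1 : prim_toFQ N ⟨jqModC ℚ, jqModC_mem_full ℚ N⟩ =
        algebraMap Qj (prim_FQ N) ⟨jq, IntermediateField.mem_adjoin_simple_self ℚ jq⟩ := rfl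
    rw [RingHom.comp_apply, h1, hτ]
    show algebraMap prim_LQ prim_Om (prim_iota N jq) = _
    rw [prim_iota_jq]
  obtain ⟨ζ, m, hm, hζ, -, h⟩ :=
    ccj_param_of hRC N zN hzN (algebraMap prim_LQ prim_Om) (τ.comp (prim_toFQ N)) hτj d hd
  refine ⟨ζ, m, hm, ?_, ?_⟩
  · obtain ⟨c, rfl⟩ := hd
    rw [pow_mul, hζ, one_pow]
  · rw [← h]
    rfl

/-! ### Step 2: the ring of integral elements of `Ω` -/

variable (A : ValuationSubring Qbar)

/-- series in `t` with coefficients in `A` -/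
def prim_RA : Subring prim_LQ := (coeffMap A.toSubring.subtype).range

/-- their image in `Ω` -/
def prim_R : Subring prim_Om := (prim_RA A).map (algebraMap prim_LQ prim_Om)

theorem prim_subst_mem_R {N : ℕ} (hN0 : N ≠ 0) (ζ : Qbarˣ) (hζ : ζ ^ N = 1) (m : ℕ) [NeZero m] :
    algebraMap prim_LQ prim_Om (pxs_subst Qbar ζ m (jqModC Qbar)) ∈ prim_R A := by
  refine ⟨_, ⟨_, (prim_subst_eq_coeffMap A hN0 ζ hζ m).symm⟩, rfl⟩

theorem prim_inv_sub_mem_R {ℓ : ℕ} (hℓ : ℓ.Prime) (hA : A.LiesOverPrime ℓ) {N : ℕ} (hN0 : N ≠ 0)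
    (hN : ¬ ℓ ∣ N) (ζ ζ' : Qbarˣ) (hζ : ζ ^ N = 1) (hζ' : ζ' ^ N = 1) (m m' : ℕ) [NeZero m]
    [NeZero m'] (hne : ¬ (ζ = ζ' ∧ m = m')) :
    (algebraMap prim_LQ prim_Om (pxs_subst Qbar ζ m (jqModC Qbar)) -
      algebraMap prim_LQ prim_Om (pxs_subst Qbar ζ' m' (jqModC Qbar)))⁻¹ ∈ prim_R A := by
  obtain ⟨u, hu⟩ := prim_isUnit_sub A hℓ hA hN0 hN ζ ζ' hζ hζ' m m' hne
  have h1 : (algebraMap prim_LQ prim_Om (pxs_subst Qbar ζ m (jqModC Qbar)) -
      algebraMap prim_LQ prim_Om (pxs_subst Qbar ζ' m' (jqModC Qbar))) *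
      algebraMap prim_LQ prim_Om (coeffMap A.toSubring.subtype ((u⁻¹ : (LaurentSeries A.toSubring)ˣ) :
        LaurentSeries A.toSubring)) = 1 := by
    rw [prim_subst_eq_coeffMap A hN0 ζ hζ m, prim_subst_eq_coeffMap A hN0 ζ' hζ' m', ← map_sub,
      ← map_sub, ← hu, ← map_mul, ← map_mul, Units.mul_inv, map_one, map_one]
  rw [inv_eq_of_mul_eq_one_right h1]
  exact ⟨_, ⟨_, rfl⟩, rfl⟩

/-! ### Step 3: integrality of the coefficients -/

theorem prim_rat_mem {ℓ : ℕ} (hℓ : ℓ.Prime) (hA : A.LiesOverPrime ℓ) {r : ℚ}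
    (hr : algebraMap ℚ Qbar r ∈ A) : r ∈ GaloisRep.ratLocalizedAt ℓ := by
  show r.den.Coprime ℓ
  by_contra hcop
  have hdvd : ℓ ∣ r.den := by
    rcases (Nat.coprime_or_dvd_of_prime hℓ r.den) with h | h
    · exact absurd h.symm hcop
    · exact h
  have hnum : ¬ ℓ ∣ r.num.natAbs := by
    intro h
    have := Nat.dvd_gcd h hdvd
    rw [r.reduced] at this
    exact hℓ.one_lt.ne' (Nat.dvd_one.mp this)
  have hv1 : A.valuation ((r.num.natAbs : ℕ) : Qbar) = 1 :=
    prim_val_natCast_eq_one A hℓ hA hnum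
  have hv1' : A.valuation ((r.num : ℤ) : Qbar) = 1 := by
    rcases Int.natAbs_eq r.num with h | h
    · rw [h]; simpa using hv1
    · rw [h]; simpa using hv1
  have hvr : A.valuation (algebraMap ℚ Qbar r) ≤ 1 := (A.valuation_le_one_iff _).mpr hr
  have hvd : A.valuation ((r.den : ℕ) : Qbar) < 1 := by
    obtain ⟨c, hc⟩ := hdvd
    rw [hc, Nat.cast_mul, map_mul]
    have h1 : A.valuation ((ℓ : ℕ) : Qbar) < 1 := A.mem_nonunits_iff.mp hA
    have h2 : A.valuation ((c : ℕ) : Qbar) ≤ 1 := (A.valuation_le_one_iff _).mpr (natCast_mem A c)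
    calc A.valuation ((ℓ : ℕ) : Qbar) * A.valuation ((c : ℕ) : Qbar)
        ≤ A.valuation ((ℓ : ℕ) : Qbar) * 1 := by gcongr
      _ = A.valuation ((ℓ : ℕ) : Qbar) := mul_one _
      _ < 1 := h1
  have hmul : algebraMap ℚ Qbar r * ((r.den : ℕ) : Qbar) = ((r.num : ℤ) : Qbar) := by
    rw [eq_ratCast]
    exact_mod_cast Rat.mul_den_eq_num r
  have hv := congrArg A.valuation hmul
  rw [map_mul, hv1'] at hv
  have : A.valuation (algebraMap ℚ Qbar r) * A.valuation ((r.den : ℕ) : Qbar) < 1 := by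
    calc A.valuation (algebraMap ℚ Qbar r) * A.valuation ((r.den : ℕ) : Qbar)
        ≤ 1 * A.valuation ((r.den : ℕ) : Qbar) := by gcongr
      _ = A.valuation ((r.den : ℕ) : Qbar) := one_mul _
      _ < 1 := hvd
  rw [hv] at this
  exact lt_irrefl _ this

theorem prim_mem_gaussV_of_strMap_mem {ℓ : ℕ} [Fact ℓ.Prime] (hA : A.LiesOverPrime ℓ) (N : ℕ)
    [NeZero N] (c : Qj) (hc : prim_strMap N c ∈ prim_R A) : (c : 𝕃) ∈ gaussV ℓ := by
  obtain ⟨f, hf, hfc⟩ := hc
  have hinj : Function.Injective (algebraMap prim_LQ prim_Om) :=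
    (algebraMap prim_LQ prim_Om).injective
  have hfeq : f = prim_iota N (c : 𝕃) := hinj hfc
  rw [hfeq] at hf
  have hcoeff : ∀ k : ℤ, (c : 𝕃).coeff k ∈ GaloisRep.ratLocalizedAt ℓ := by
    intro k
    apply prim_rat_mem A (Fact.out : ℓ.Prime) hA
    have h1 := (prim_mem_range_coeffMap_iff A.toSubring _).mp hf ((N : ℤ) * k)
    have h2 : (prim_iota N (c : 𝕃)).coeff ((N : ℤ) * k) = algebraMap ℚ Qbar ((c : 𝕃).coeff k) := by
      show (qExpand Qbar N (coeffEmb Qbar (c : 𝕃))).coeff ((N : ℤ) * k) = _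
      rw [qExpand_coeff_mul, coeffEmb_coeff]
    rw [h2] at h1
    exact h1
  refine ⟨?_, c.2⟩
  have : (c : 𝕃) = toQ ℓ (prim_liftSeries (GaloisRep.ratLocalizedAt ℓ) (c : 𝕃) hcoeff) :=
    (prim_coeffMap_liftSeries _ _ hcoeff).symm
  rw [this]
  exact toQ_mem_gaussRing ℓ _

/-! ### Step 4: assembly over `𝔽_ℓ` -/

theorem prim_algHom_ext (N : ℕ) [NeZero N] {B : Type*} [Field B] [Algebra Qj B]
    (f g : prim_FQ N →ₐ[Qj] B) (h : f (prim_jd N N dvd_rfl) = g (prim_jd N N dvd_rfl)) : f = g := by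
  have := prim_finiteDimensional N
  have hint : IsIntegral Qj (prim_jd N N dvd_rfl) := IsIntegral.of_finite _ _
  have htop : Algebra.adjoin Qj {prim_jd N N dvd_rfl} = ⊤ := by
    rw [← IntermediateField.adjoin_simple_toSubalgebra_of_isAlgebraic hint.isAlgebraic,
      prim_adjoin_eq_top]
    rfl
  refine AlgHom.ext_of_adjoin_eq_top htop ?_
  intro x hx
  rw [Set.mem_singleton_iff] at hx
  subst hx
  exact h

theorem prim_mem_fieldC_zmod (hRC : ccj_RootCases.{0, 0} Qbar) {ℓ : ℕ} [Fact ℓ.Prime]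
    (hA : A.LiesOverPrime ℓ) (N : ℕ) [NeZero N] (hN : ¬ ℓ ∣ N) (zN : Qbar)
    (hzN : IsPrimitiveRoot zN N) (d : ℕ) [NeZero d] (hd : d ∣ N) :
    qExpand (ZMod ℓ) d (jqModC (ZMod ℓ)) ∈ modularFunctionFieldC (ZMod ℓ) N := by
  classical
  have hℓ : ℓ.Prime := Fact.out
  have hN0 : N ≠ 0 := NeZero.ne N
  letI : Algebra Qj prim_Om := prim_algOm N
  have hfd := prim_finiteDimensional N
  have hmap : ∀ a : Qj, algebraMap Qj prim_Om a = prim_strMap N a := fun _ => rfl
  set n := Module.finrank Qj (prim_FQ N) with hn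
  set y := prim_jd N N dvd_rfl with hy
  set z := prim_jd N d hd with hz
  obtain ⟨G, hGdeg, hG⟩ := prim_exists_poly (K := Qj) y z (prim_adjoin_eq_top N) hn.symm
  -- the embeddings
  have hcard : Fintype.card (prim_FQ N →ₐ[Qj] prim_Om) = n := AlgHom.card Qj (prim_FQ N) prim_Om
  let e := Fintype.equivFinOfCardEq hcard
  let σ : Fin n → (prim_FQ N →ₐ[Qj] prim_Om) := fun i => e.symm i
  have hinj : Function.Injective fun i => σ i y := by
    intro i i' h
    have h1 : σ i = σ i' := prim_algHom_ext N _ _ h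
    exact e.symm.injective h1
  have hform : ∀ (i : Fin n) (d' : ℕ) [NeZero d'] (hd' : d' ∣ N),
      ∃ (ζ : Qbarˣ) (m : ℕ) (_ : NeZero m), ζ ^ N = 1 ∧
        σ i (prim_jd N d' hd') =
          algebraMap prim_LQ prim_Om (pxs_subst Qbar ζ m (jqModC Qbar)) := by
    intro i d' _ hd'
    exact prim_conj_form hRC N zN hzN (σ i).toRingHom (fun a => (σ i).commutes a) d' hd'
  have hyR : ∀ i, σ i y ∈ prim_R A := by
    intro i
    obtain ⟨ζ, m, hm, hζ, h⟩ := hform i N dvd_rfl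
    rw [hy, h]
    exact prim_subst_mem_R A hN0 ζ hζ m
  have hzR : ∀ i, σ i z ∈ prim_R A := by
    intro i
    obtain ⟨ζ, m, hm, hζ, h⟩ := hform i d hd
    rw [hz, h]
    exact prim_subst_mem_R A hN0 ζ hζ m
  have hdiff : ∀ i i', i ≠ i' → (σ i y - σ i' y)⁻¹ ∈ prim_R A := by
    intro i i' hii'
    obtain ⟨ζ, m, hm, hζ, h⟩ := hform i N dvd_rfl
    obtain ⟨ζ', m', hm', hζ', h'⟩ := hform i' N dvd_rfl
    have hne : ¬ (ζ = ζ' ∧ m = m') := by
      rintro ⟨rfl, rfl⟩
      apply hii'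
      apply hinj
      show σ i y = σ i' y
      rw [hy, h, h']
    rw [hy, h, h']
    exact prim_inv_sub_mem_R A hℓ hA hN0 hN ζ ζ' hζ hζ' m m' hne
  have hcoeff : ∀ m, ((G.coeff m : Qj) : 𝕃) ∈ gaussV ℓ := by
    intro m
    apply prim_mem_gaussV_of_strMap_mem A hA N
    rw [← hmap]
    exact prim_lagrange_coeff_mem y z σ hinj G hGdeg hG (prim_R A) hyR hzR hdiff m
  -- the sum form
  have hnat : G.natDegree < n ∨ G = 0 := by
    by_cases h0 : G = 0
    · exact Or.inr h0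
    · left
      have := hGdeg
      rw [Polynomial.degree_eq_natDegree h0] at this
      exact_mod_cast this
  have hsum : (z : 𝕃) = ∑ m ∈ Finset.range n, ((G.coeff m : Qj) : 𝕃) * (y : 𝕃) ^ m := by
    rcases hnat with hlt | h0
    · have h1 := Polynomial.aeval_eq_sum_range' hlt y
      rw [hG] at h1
      have h2 : (z : 𝕃) = ((∑ i ∈ Finset.range n, G.coeff i • y ^ i : prim_FQ N) : 𝕃) :=
        congrArg (fun w : prim_FQ N => (w : 𝕃)) h1
      rw [h2]
      push_cast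
      refine Finset.sum_congr rfl fun m _ => ?_
      rw [Algebra.smul_def]
      rfl
    · have hz0 : z = 0 := by rw [← hG, h0, map_zero]
      rw [hz0, h0]
      simp
  exact prim_red_of_sum ℓ N d n (fun m => ((G.coeff m : Qj) : 𝕃)) hcoeff hsum

/-- **PRIM over `𝔽_ℓ`.** -/
theorem prim_fieldC_eq_fullC_zmod (hRC : ccj_RootCases.{0, 0} Qbar) {ℓ : ℕ} [Fact ℓ.Prime]
    (hA : A.LiesOverPrime ℓ) (N : ℕ) [NeZero N] (hN : ¬ ℓ ∣ N) (zN : Qbar)
    (hzN : IsPrimitiveRoot zN N) :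
    modularFunctionFieldC (ZMod ℓ) N = modularFunctionFieldFullC (ZMod ℓ) N := by
  refine le_antisymm (modularFunctionFieldC_le_full (ZMod ℓ) N) ?_
  rw [modularFunctionFieldFullC, IntermediateField.adjoin_le_iff]
  rintro x ⟨d, hne, hd, rfl⟩
  have := hne
  exact prim_mem_fieldC_zmod A hRC hA N hN zN hzN d hd

/-- **PRIM over any field of characteristic `ℓ ∤ N`** (given a valuation subring of `Q̄` over `ℓ`,
a primitive `N`-th root of unity of `Q̄` and `ccj_RootCases Q̄`). -/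
theorem prim_fieldC_eq_fullC_of (hRC : ccj_RootCases.{0, 0} Qbar) {ℓ : ℕ} [Fact ℓ.Prime]
    (hA : A.LiesOverPrime ℓ) (N : ℕ) [NeZero N] (hN : ¬ ℓ ∣ N) (zN : Qbar)
    (hzN : IsPrimitiveRoot zN N) (k : Type*) [Field k] [CharP k ℓ] :
    modularFunctionFieldC k N = modularFunctionFieldFullC k N :=
  prim_fieldC_eq_fullC_of_hom (ZMod.castHom (dvd_refl ℓ) k) N
    (prim_fieldC_eq_fullC_zmod A hRC hA N hN zN hzN)

end

end Fermat.Agent.S18x
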