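/-
S18x/PrimFinal (helper89): row PRIM of block NRM, valuation-ring-free form.

`modularFunctionFieldC k N = modularFunctionFieldFullC k N` for every field `k` of characteristic
`ℓ ∤ N`, with `ccj_RootCases Q̄` as the only hypothesis (the valuation subring of `Q̄` over `ℓ`
comes from S54x `exists_isFrobeniusAt`, the primitive root of unity from algebraic closedness).
-/
import Fermat.Agent.S18x.PrimMain
import Fermat.Agent.S18x.CuspConjFinal
import Fermat.Agent.S54x.FrobExists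

set_option autoImplicit false

namespace Fermat.Agent.S18x

open ModularCurve Fermat.Agent.S24x

theorem prim_exists_primitiveRoot (N : ℕ) [NeZero N] : ∃ zN : Qbar, IsPrimitiveRoot zN N := by
  have : NeZero (N : Qbar) := ⟨by exact_mod_cast NeZero.ne N⟩
  exact HasEnoughRootsOfUnity.exists_primitiveRoot Qbar N

/-- `F̄_N = k(j̄, j̄(q^N))` for every field `k` of characteristic `ℓ ∤ N`, hypothesis form. -/
theorem prim_fieldC_eq_fullC_of_rootCases (hRC : ccj_RootCases.{0, 0} Qbar) (ℓ : ℕ)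
    [Fact ℓ.Prime] (N : ℕ) [NeZero N] (hN : ¬ ℓ ∣ N) (k : Type*) [Field k] [CharP k ℓ] :
    modularFunctionFieldC k N = modularFunctionFieldFullC k N := by
  obtain ⟨A, hA, -⟩ := Fermat.Agent.S54x.exists_isFrobeniusAt ℓ (Fact.out : ℓ.Prime)
  obtain ⟨zN, hzN⟩ := prim_exists_primitiveRoot N
  exact prim_fieldC_eq_fullC_of A hRC hA N hN zN hzN k

/-- **PRIM (unconditional)**: `j̄(q^N)` is a primitive element of `F̄_N` over `k(j̄)`, i.e.
`F̄_N = k(j̄, j̄(q^N))`, for every field `k` of characteristic `ℓ ∤ N`. -/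
theorem prim_fieldC_eq_fullC (ℓ : ℕ) [Fact ℓ.Prime] (N : ℕ) [NeZero N] (hN : ¬ ℓ ∣ N)
    (k : Type*) [Field k] [CharP k ℓ] :
    modularFunctionFieldC k N = modularFunctionFieldFullC k N :=
  prim_fieldC_eq_fullC_of_rootCases (ccj_rootCases Qbar) ℓ N hN k

/-- Element form: every `j̄(q^d)`, `d ∣ N`, lies in `k(j̄, j̄(q^N))`. -/
theorem prim_jd_mem_fieldC (ℓ : ℕ) [Fact ℓ.Prime] (N : ℕ) [NeZero N] (hN : ¬ ℓ ∣ N)
    (k : Type*) [Field k] [CharP k ℓ] (d : ℕ) [NeZero d] (hd : d ∣ N) :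
    qExpand k d (jqModC k) ∈ modularFunctionFieldC k N := by
  rw [prim_fieldC_eq_fullC ℓ N hN k]
  exact jqModCd_mem_full k N hd

end Fermat.Agent.S18x
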