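import Mathlib
import Fermat.Agent.S18x.CspnFieldFront
import Fermat.Agent.S18x.CspnInstData
import Fermat.Agent.S18x.CspnFront
import Fermat.Agent.S18x.PrimFinal
import Fermat.Agent.S18x.LvDegK

/-!
# Level-`N` instantiation of the field-theoretic front end of OUT-C
(S18 block NRM, row N7; helper17 for helper35; prefix `cspl_`)

`a = ofPS (cci_x k) = 1/j̄`, `b = ofPS (cspi_ys k N) = a^N · j̄(q^N)`, `F̄_N = k(a, b)` (PRIM),
`[F̄_N : k(a)] ≥ ψ(N)` (DEG over `k`).
-/

set_option autoImplicit false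

noncomputable section

namespace Fermat.Agent.S18x

open ModularCurve Polynomial IntermediateField Fermat.Agent.S28x

section

variable (k : Type*) [Field k] (N : ℕ) [NeZero N]

/-- `a = 1/j̄`. -/
theorem cspl_a_eq : HahnSeries.ofPowerSeries ℤ k (cci_x k) = (jqModC k)⁻¹ :=
  eq_inv_of_mul_eq_one_right (cci_jq_mul_x k)

theorem cspl_jq_ne_zero : jqModC k ≠ 0 := by
  intro h
  have := cci_jq_mul_x k
  rw [h, zero_mul] at this
  exact zero_ne_one this

/-- `b = a^N · j̄(q^N)`. -/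
theorem cspl_b_eq : HahnSeries.ofPowerSeries ℤ k (cspi_ys k N)
    = ((jqModC k)⁻¹) ^ N * jqNModC k N := by
  rw [cspi_ofPowerSeries_ys, cspl_a_eq]

/-- `k(a, b) = k(j̄, j̄(q^N))`. -/
theorem cspl_adjoin_pair :
    IntermediateField.adjoin k {HahnSeries.ofPowerSeries ℤ k (cci_x k),
      HahnSeries.ofPowerSeries ℤ k (cspi_ys k N)} = modularFunctionFieldC k N := by
  rw [cspl_a_eq, cspl_b_eq, modularFunctionFieldC]
  exact (cspf_adjoin_inv (k := k) (jqModC k) (jqNModC k N) (cspl_jq_ne_zero k) N).1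

/-- `k(a) = k(j̄)`. -/
theorem cspl_adjoin_a :
    IntermediateField.adjoin k {HahnSeries.ofPowerSeries ℤ k (cci_x k)}
      = IntermediateField.adjoin k {jqModC k} := by
  rw [cspl_a_eq]
  exact (cspf_adjoin_inv (k := k) (jqModC k) (jqModC k) (cspl_jq_ne_zero k) 1).2

theorem cspl_transcendental_a :
    Transcendental k (HahnSeries.ofPowerSeries ℤ k (cci_x k)) := by
  intro h
  apply sa_transcendental_jqModC k
  have := h.inv
  rwa [cspl_a_eq, inv_inv] at this

end

/-- **(L6)** linear independence of `1, ys, …, ys^(n-1)` over `k[x]`, `n ≤ ψ(N)`. -/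
theorem cspl_hLI (ℓ N : ℕ) [Fact ℓ.Prime] [NeZero N] (hℓN : ¬ ℓ ∣ N) (k : Type*) [Field k]
    [CharP k ℓ] (n : ℕ) (hn : n ≤ ModularCurve.dedekindPsi N) (H : Polynomial (Polynomial k))
    (hH : H.natDegree < n) (h0 : cspn_evq (cci_x k) (cspi_ys k N) H = 0) : H = 0 := by
  letI := ZMod.algebra k ℓ
  have hdeg := lv_deg_le ℓ N hℓN k
  rw [← prim_fieldC_eq_fullC ℓ N hℓN k, ← cspl_adjoin_pair k N, ← cspl_adjoin_a k] at hdeg
  refine cspf_LI (HahnSeries.ofPowerSeries ℤ k (cci_x k))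
    (HahnSeries.ofPowerSeries ℤ k (cspi_ys k N)) (cspl_transcendental_a k) n (hn.trans hdeg) H hH ?_
  have := congrArg (HahnSeries.ofPowerSeries ℤ k) h0
  rw [cspn_front_ofPS_evq, map_zero] at this
  exact this

/-- **(L7)** numerator/denominator form of the elements of `F̄_N`. -/
theorem cspl_hnd (ℓ N : ℕ) [Fact ℓ.Prime] [NeZero N] (hℓN : ¬ ℓ ∣ N) (k : Type*) [Field k]
    [CharP k ℓ] (fb : Polynomial (Polynomial k)) (hfm : fb.Monic)
    (hf0 : cspn_evq (cci_x k) (cspi_ys k N) fb = 0) (yb : modularFunctionFieldFullC k N) :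
    ∃ (H0 : Polynomial (Polynomial k)) (d : Polynomial k),
      Polynomial.aeval (HahnSeries.ofPowerSeries ℤ k (cci_x k)) d ≠ 0 ∧
      Polynomial.aeval (HahnSeries.ofPowerSeries ℤ k (cci_x k)) d * (yb : LaurentSeries k) =
        cspn_e2 (algebraMap k (LaurentSeries k)) (HahnSeries.ofPowerSeries ℤ k (cci_x k))
          (HahnSeries.ofPowerSeries ℤ k (cspi_ys k N)) H0 := by
  have hf0' : cspn_e2 (algebraMap k (LaurentSeries k)) (HahnSeries.ofPowerSeries ℤ k (cci_x k))
      (HahnSeries.ofPowerSeries ℤ k (cspi_ys k N)) fb = 0 := by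
    have := congrArg (HahnSeries.ofPowerSeries ℤ k) hf0
    rw [cspn_front_ofPS_evq, map_zero] at this
    exact this
  have hy : (yb : LaurentSeries k) ∈ IntermediateField.adjoin k
      {HahnSeries.ofPowerSeries ℤ k (cci_x k), HahnSeries.ofPowerSeries ℤ k (cspi_ys k N)} := by
    rw [cspl_adjoin_pair k N, prim_fieldC_eq_fullC ℓ N hℓN k]
    exact yb.2
  exact cspf_num_den (HahnSeries.ofPowerSeries ℤ k (cci_x k))
    (HahnSeries.ofPowerSeries ℤ k (cspi_ys k N)) ⟨fb, hfm, hf0'⟩ (yb : LaurentSeries k) hy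

end Fermat.Agent.S18x
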