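/-
S18x/CpPlaces (helper15): places of a function field `F/K` versus primes of the integral closure
`B` of `K[x]`, for a SEPARABLE coordinate `x`, in ANY characteristic (char-p port of
S24x/PlacePrime + consequences).  Prefix `cp15_`.

Main results (`K` algebraically closed where indicated):
* `cp15_isDedekindDomain_ringB`, `cp15_finite_ringB`
* `cp15_exists_prime_of_place` : places with `x ∈ O_v` come from primes of `B`
* `cp15_mem_ringB_iff` : `B = ⋂_{x ∈ O_v} O_v`
* `cp15_const_of_ord_eq_zero` : a function without zeros and poles is constant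
* `cp15_finite_ord_ne_zero` : a nonzero function has finitely many zeros and poles
-/
import Mathlib
import Fermat.Agent.S24x.PlacePrime
import Fermat.Agent.S24x.PlaceLocal
import Fermat.Agent.S18x.CpFund

set_option autoImplicit false

namespace Fermat.Agent.S18x

open AlgebraicCurve IsDedekindDomain WithZero Polynomial IntermediateField
open Fermat.Agent.S24x
open scoped IntermediateField.algebraAdjoinAdjoin

variable {K F : Type*} [Field K] [Field F] [Algebra K F]

section Rings

variable (x : F) [FFData K F x] [Algebra.IsSeparable K⟮x⟯ F]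

theorem cp15_isDedekindDomain_ringB : IsDedekindDomain (ringB K x) :=
  integralClosure.isDedekindDomain (ringA K x) K⟮x⟯ F

theorem cp15_finite_ringB : Module.Finite (ringA K x) (ringB K x) :=
  IsIntegralClosure.finite (ringA K x) K⟮x⟯ F (ringB K x)

end Rings

/-- a separable coordinate gives the `FFData` package. -/
theorem cp15_ffData {t : F} (ht : cp15_IsSepCoordinate K F t) : FFData K F t :=
  ⟨ht.coord.transcendental, ht.coord.finite⟩

section Bij

variable (x : F) [FFData K F x] [Algebra.IsSeparable K⟮x⟯ F]

/-- **Every place with `x ∈ O_v` comes from a prime of `B`** (separable coordinate, any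
characteristic). -/
theorem cp15_exists_prime_of_place (v : Place K F) (hx : x ∈ v.toValuationSubring) :
    haveI := cp15_isDedekindDomain_ringB (K := K) x
    ∃ P : HeightOneSpectrum (ringB K x), Place.ofHeightOneSpectrum (K := K) P = v := by
  haveI := cp15_isDedekindDomain_ringB (K := K) x
  exact fid_exists_heightOneSpectrum (K := K) (F := F) (S := ringB K x) v
    (fun s => ringB_mem_place x v hx s)

/-- `B` is the intersection of the valuation rings of the places with `x ∈ O_v`. -/
theorem cp15_mem_ringB_iff (y : F) :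
    y ∈ ringB K x ↔ ∀ v : Place K F, x ∈ v.toValuationSubring → y ∈ v.toValuationSubring := by
  haveI := cp15_isDedekindDomain_ringB (K := K) x
  constructor
  · intro hy v hx
    exact ringB_mem_place x v hx ⟨y, hy⟩
  · intro h
    have hval : ∀ P : HeightOneSpectrum (ringB K x), P.valuation F y ≤ 1 := by
      intro P
      have h1 := h (Place.ofHeightOneSpectrum (K := K) P) (by
        rw [Place.ofHeightOneSpectrum_toValuationSubring, Valuation.mem_valuationSubring_iff]
        exact P.valuation_le_one (⟨x, (ringB K x).algebraMap_mem (genA K x)⟩ : ringB K x))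
      rw [Place.ofHeightOneSpectrum_toValuationSubring, Valuation.mem_valuationSubring_iff] at h1
      exact h1
    obtain ⟨b, hb⟩ := HeightOneSpectrum.mem_integers_of_valuation_le_one F y hval
    rw [← hb]
    exact b.2

end Bij


section Constants

/-- an element of `F` which is a polynomial in `x` and a polynomial in `x⁻¹` is a constant. -/
theorem cp15_const_of_mem_ringA_inv {x : F} (hx : Transcendental K x) {a : F}
    (h1 : a ∈ ringA K x) (h2 : a ∈ ringA K x⁻¹) : ∃ c : K, a = algebraMap K F c := by
  have h1' : a ∈ (aeval (R := K) x).range := by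
    rw [← Algebra.adjoin_singleton_eq_range_aeval]; exact h1
  have h2' : a ∈ (aeval (R := K) x⁻¹).range := by
    rw [← Algebra.adjoin_singleton_eq_range_aeval]; exact h2
  obtain ⟨p, hp⟩ := h1'
  obtain ⟨q, hq⟩ := h2'
  have hx0 : x ≠ 0 := fun h => hx (h ▸ isAlgebraic_zero)
  let _ : Invertible x := invertibleOfNonzero hx0
  set N := q.natDegree with hN
  have hle : (q.reflect N).natDegree ≤ N := by
    have := Polynomial.natDegree_reflect_le (p := q) (N := N)
    rw [max_eq_left (le_of_eq hN.symm)] at this
    exact this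
  have hrefl := Polynomial.eval₂_reflect_mul_pow (algebraMap K F) x N (q.reflect N) hle
  rw [Polynomial.reflect_reflect, invOf_eq_inv] at hrefl
  -- aeval x (p * X^N) = aeval x (reflect N q)
  have hq' : aeval x⁻¹ q = a := hq
  have hp' : aeval x p = a := hp
  have hEq : aeval x (p * X ^ N) = aeval x (q.reflect N) := by
    rw [map_mul, map_pow, aeval_X, hp', ← hq']
    exact hrefl
  have hinj : Function.Injective (aeval (R := K) x) := transcendental_iff_injective.mp hx
  have hpoly : p * X ^ N = q.reflect N := hinj hEq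
  by_cases hp0 : p = 0
  · refine ⟨0, ?_⟩
    rw [← hp', hp0]; simp
  have hdeg : (p * X ^ N).natDegree = p.natDegree + N := by
    rw [Polynomial.natDegree_mul hp0 (pow_ne_zero _ X_ne_zero), natDegree_X_pow]
  rw [hpoly] at hdeg
  have hp_deg : p.natDegree = 0 := by omega
  obtain ⟨c, hc⟩ := Polynomial.natDegree_eq_zero.mp hp_deg
  refine ⟨c, ?_⟩
  rw [← hp', ← hc]; simp



/-- the minimal polynomial over an intermediate field, pushed to `F[X]`. -/
noncomputable def cp15_minpolyF (E : IntermediateField K F) (y : F) : F[X] :=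
  (minpoly E y).map (algebraMap E F)

theorem cp15_minpolyF_congr {E₁ E₂ : IntermediateField K F} (h : E₁ = E₂) (y : F) :
    cp15_minpolyF E₁ y = cp15_minpolyF E₂ y := by
  subst h; rfl

theorem cp15_minpolyF_coeff_mem (x : F) [FFData K F x] {y : F} (hy : y ∈ ringB K x) (i : ℕ) :
    (cp15_minpolyF K⟮x⟯ y).coeff i ∈ ringA K x := by
  have hint : IsIntegral (ringA K x) y := hy
  have h := minpoly.isIntegrallyClosed_eq_field_fractions' K⟮x⟯ hint
  unfold cp15_minpolyF
  rw [h, Polynomial.map_map, Polynomial.coeff_map]
  have : (algebraMap K⟮x⟯ F).comp (algebraMap (ringA K x) K⟮x⟯) = algebraMap (ringA K x) F := by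
    ext a; rfl
  rw [this]
  exact ((minpoly (ringA K x) y).coeff i).2



/-- **A function without poles is constant** (`K` algebraically closed, any characteristic, `F/K`
admitting a separable coordinate). -/
theorem cp15_const_of_forall_mem [IsAlgClosed K] {t : F} (ht : cp15_IsSepCoordinate K F t)
    {y : F} (hy : ∀ v : Place K F, y ∈ v.toValuationSubring) :
    ∃ c : K, y = algebraMap K F c := by
  have ht' := cp15_isSepCoordinate_inv ht
  haveI := cp15_ffData ht
  haveI := cp15_ffData ht'
  haveI := ht.sep
  haveI := ht'.sep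
  have hB : y ∈ ringB K t := (cp15_mem_ringB_iff t y).mpr fun v _ => hy v
  have hB' : y ∈ ringB K t⁻¹ := (cp15_mem_ringB_iff t⁻¹ y).mpr fun v _ => hy v
  set P := cp15_minpolyF K⟮t⟯ y with hP
  have hP' : P = cp15_minpolyF K⟮t⁻¹⟯ y := cp15_minpolyF_congr (fid_adjoin_inv t).symm y
  have hcoeff : ∀ i, P.coeff i ∈ Set.range (algebraMap K F) := by
    intro i
    have h1 := cp15_minpolyF_coeff_mem t hB i
    have h2 := cp15_minpolyF_coeff_mem t⁻¹ hB' i
    rw [← hP'] at h2
    obtain ⟨c, hc⟩ := cp15_const_of_mem_ringA_inv ht.coord.transcendental h1 h2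
    exact ⟨c, hc.symm⟩
  have hlift : P ∈ Polynomial.lifts (algebraMap K F) :=
    (Polynomial.lifts_iff_coeff_lifts P).mpr hcoeff
  obtain ⟨Q, hQ⟩ := (Polynomial.mem_lifts P).mp hlift
  have hint : IsIntegral K⟮t⟯ y := Algebra.IsIntegral.isIntegral y
  have hPne : P ≠ 0 := by
    rw [hP]; unfold cp15_minpolyF
    exact (Polynomial.map_ne_zero_iff (algebraMap K⟮t⟯ F).injective).mpr (minpoly.ne_zero hint)
  have hQne : Q ≠ 0 := by
    rintro rfl
    apply hPne
    rw [← hQ, Polynomial.map_zero]
  have hroot : Polynomial.aeval y Q = 0 := by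
    rw [Polynomial.aeval_def, ← Polynomial.eval_map, hQ, hP]
    unfold cp15_minpolyF
    rw [Polynomial.eval_map, ← Polynomial.aeval_def, minpoly.aeval]
  have halg : IsAlgebraic K y := ⟨Q, hQne, hroot⟩
  obtain ⟨c, hc⟩ := pc_mem_range_of_isAlgebraic halg
  exact ⟨c, hc.symm⟩

/-- **hconst**: a nonzero function without zeros and poles is constant. -/
theorem cp15_const_of_ord_eq_zero [IsAlgClosed K] {t : F} (ht : cp15_IsSepCoordinate K F t)
    {y : F} (hy : ∀ v : Place K F, v.ord y = 0) :
    ∃ c : K, y = algebraMap K F c :=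
  cp15_const_of_forall_mem ht fun v => fid_mem_of_ord_nonneg v (le_of_eq (hy v).symm)

/-- a function without poles which vanishes somewhere is zero. -/
theorem cp15_eq_zero_of_forall_mem_of_pos [IsAlgClosed K] {t : F} (ht : cp15_IsSepCoordinate K F t)
    {y : F} (hy : ∀ v : Place K F, y ∈ v.toValuationSubring) {v₀ : Place K F}
    (h0 : 0 < v₀.ord y) : y = 0 := by
  obtain ⟨c, rfl⟩ := cp15_const_of_forall_mem ht hy
  rw [pb_ord_algebraMap] at h0
  exact absurd h0 (lt_irrefl _)

/-- a nonzero function has finitely many zeros and poles (any characteristic, separable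
coordinate). -/
theorem cp15_finite_ord_ne_zero [IsAlgClosed K] {t : F} (ht : cp15_IsSepCoordinate K F t)
    {y : F} (hy : y ≠ 0) : {v : Place K F | v.ord y ≠ 0}.Finite := by
  classical
  haveI := cp15_ffData ht
  haveI := ht.sep
  haveI := cp15_isDedekindDomain_ringB (K := K) t
  obtain ⟨hfp, -⟩ := cp15_sum_ord_polePlaces ht
  obtain ⟨a, b, hb, rfl⟩ := IsFractionRing.div_surjective (A := ringB K t) y
  have hb0 : b ≠ 0 := nonZeroDivisors.ne_zero hb
  have ha0 : a ≠ 0 := by
    rintro rfl
    apply hy
    simp
  have haF : algebraMap (ringB K t) F a ≠ 0 := by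
    simpa using (IsFractionRing.injective (ringB K t) F).ne ha0
  have hbF : algebraMap (ringB K t) F b ≠ 0 := by
    simpa using (IsFractionRing.injective (ringB K t) F).ne hb0
  have hfa : {P : HeightOneSpectrum (ringB K t) | P.asIdeal ∣ Ideal.span {a}}.Finite :=
    Ideal.finite_factors (by rw [Ne, Ideal.zero_eq_bot, Ideal.span_singleton_eq_bot]; assumption)
  have hfb : {P : HeightOneSpectrum (ringB K t) | P.asIdeal ∣ Ideal.span {b}}.Finite :=
    Ideal.finite_factors (by rw [Ne, Ideal.zero_eq_bot, Ideal.span_singleton_eq_bot]; assumption)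
  refine (hfp.union ((hfa.union hfb).image (Place.ofHeightOneSpectrum (K := K) (F := F)))).subset ?_
  intro v hv
  simp only [Set.mem_ofPred_eq] at hv
  by_cases htv : t ∈ v.toValuationSubring
  · right
    obtain ⟨P, rfl⟩ := cp15_exists_prime_of_place t v htv
    refine ⟨P, ?_, rfl⟩
    by_contra hcon
    simp only [Set.mem_union, Set.mem_ofPred_eq, not_or] at hcon
    obtain ⟨hca, hcb⟩ := hcon
    rw [Ideal.dvd_span_singleton] at hca hcb
    have h1 := (fid_mem_asIdeal_iff (K := K) (F := F) P ha0).not.mp hca
    have h2 := (fid_mem_asIdeal_iff (K := K) (F := F) P hb0).not.mp hcb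
    have h1' : 0 ≤ (Place.ofHeightOneSpectrum (K := K) P).ord (algebraMap (ringB K t) F a) :=
      fid_ord_nonneg_of_mem _ (ringB_mem_place t _ htv a)
    have h2' : 0 ≤ (Place.ofHeightOneSpectrum (K := K) P).ord (algebraMap (ringB K t) F b) :=
      fid_ord_nonneg_of_mem _ (ringB_mem_place t _ htv b)
    apply hv
    rw [div_eq_mul_inv, Place.ord_mul _ haF (inv_ne_zero hbF), Place.ord_inv]
    omega
  · left
    rw [mem_polePlaces]
    have ht0 : t ≠ 0 := fun h => htv (h ▸ v.toValuationSubring.zero_mem)
    by_contra hcon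
    exact htv (fid_mem_of_ord_nonneg v (not_lt.mp hcon))

end Constants

end Fermat.Agent.S18x
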