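/-
S18x/NrmDict (helper34), row N8c of `s18_nrm_plan` = GE2 dictionary, part (i):
PLACE LANGUAGE versus INTEGRAL CLOSURE on the two charts of the `t`-line, for a function field
`F/K` with a separating coordinate `t` (any characteristic).

* `nrd_mem_iff`            : `f ∈ O_v ↔ 0 ≤ ord_v f` (no `f ≠ 0` needed);
* `nrd_regular_iff`        : `(∀ Q, 0 ≤ ord_Q t → 0 ≤ ord_Q y) ↔ IsIntegral K[t] y`;
* `nrd_regular_inv_iff`    : `(∀ Q, ord_Q t ≤ 0 → 0 ≤ ord_Q y) ↔ IsIntegral K[t⁻¹] y`;
* `nrd_isIntegral_adjoin_iff` : integrality over `K[t] = Algebra.adjoin K {t}` versus integrality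
  along `aeval t : K[X] → F`;
* `nrd_regular_of_isIntegral_of_le` : the easy direction over a bigger constant field / any
  subring: integral over a subring of `O_v` ⇒ in `O_v`.
-/
import Mathlib
import Fermat.Agent.S18x.CpPlaces
import Fermat.Agent.S18x.PlsTsFields

set_option autoImplicit false

namespace Fermat.Agent.S18x

open AlgebraicCurve IsDedekindDomain WithZero Polynomial IntermediateField
open Fermat.Agent.S24x
open scoped IntermediateField.algebraAdjoinAdjoin

variable {K F : Type*} [Field K] [Field F] [Algebra K F]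

/-- `f ∈ O_v ↔ 0 ≤ ord_v f`, also for `f = 0`. -/
theorem nrd_mem_iff (v : Place K F) (f : F) : f ∈ v.toValuationSubring ↔ 0 ≤ v.ord f := by
  rcases eq_or_ne f 0 with rfl | hf
  · simp [v.toValuationSubring.zero_mem]
  · exact pb_mem_iff v hf

/-- conversion between the two (identical) notions of separating coordinate. -/
theorem nrd_cp15_of_pls {t : F} (ht : pls_IsSepCoordinate K F t) : cp15_IsSepCoordinate K F t :=
  ⟨ht.coord, ht.sep⟩

theorem nrd_pls_of_cp15 {t : F} (ht : cp15_IsSepCoordinate K F t) : pls_IsSepCoordinate K F t :=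
  ⟨ht.coord, ht.sep⟩

/-- **Dictionary, finite chart**: `y` is regular at all places where `t` is regular iff `y` is
integral over `K[t]`. -/
theorem nrd_regular_iff {t : F} (ht : pls_IsSepCoordinate K F t) (y : F) :
    (∀ Q : Place K F, 0 ≤ Q.ord t → 0 ≤ Q.ord y) ↔ IsIntegral (Algebra.adjoin K {t}) y := by
  have : FFData K F t := cp15_ffData (nrd_cp15_of_pls ht)
  have := ht.sep
  have h := cp15_mem_ringB_iff (K := K) t y
  rw [show (y ∈ ringB K t) ↔ IsIntegral (Algebra.adjoin K {t}) y from Iff.rfl] at h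
  rw [h]
  constructor
  · intro hreg v hv
    exact (nrd_mem_iff v y).mpr (hreg v ((nrd_mem_iff v t).mp hv))
  · intro hreg Q hQ
    exact (nrd_mem_iff Q y).mp (hreg Q ((nrd_mem_iff Q t).mpr hQ))

/-- **Dictionary, chart at infinity**: `y` is regular at all places where `t⁻¹` is regular
(i.e. off the zeros of `t`) iff `y` is integral over `K[t⁻¹]`. -/
theorem nrd_regular_inv_iff {t : F} (ht : pls_IsSepCoordinate K F t) (y : F) :
    (∀ Q : Place K F, Q.ord t ≤ 0 → 0 ≤ Q.ord y) ↔ IsIntegral (Algebra.adjoin K {t⁻¹}) y := by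
  rw [← nrd_regular_iff (pls_isSepCoordinate_inv ht) y]
  constructor
  · intro h Q hQ
    exact h Q (by rw [Q.ord_inv] at hQ; omega)
  · intro h Q hQ
    exact h Q (by rw [Q.ord_inv]; omega)

/-- Valuation rings of places are integrally closed: an element integral over a subring of `O_v`
lies in `O_v`.  (The EASY direction of the dictionary, over any subring: e.g. `u` integral over
`A[j]` with `A ⊆ L` is regular wherever `j` is.) -/
theorem nrd_mem_of_isIntegral (v : Place K F) (R : Subring F)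
    (hR : ∀ x ∈ R, x ∈ v.toValuationSubring) {y : F} (hy : IsIntegral R y) :
    y ∈ v.toValuationSubring := by
  obtain ⟨p, hp, hpy⟩ := hy
  let φ : R →+* v.toValuationSubring :=
    Subring.inclusion (show R ≤ v.toValuationSubring.toSubring from hR)
  have hint : IsIntegral v.toValuationSubring y := by
    refine ⟨p.map φ, hp.map φ, ?_⟩
    rw [eval₂_map]
    exact hpy
  obtain ⟨a, ha⟩ := (IsIntegrallyClosed.isIntegral_iff (R := v.toValuationSubring) (K := F)).mp hint
  rw [← ha]
  exact a.2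

/-- the same in `ord` language. -/
theorem nrd_ord_nonneg_of_isIntegral (v : Place K F) (R : Subring F)
    (hR : ∀ x ∈ R, 0 ≤ v.ord x) {y : F} (hy : IsIntegral R y) : 0 ≤ v.ord y :=
  (nrd_mem_iff v y).mp
    (nrd_mem_of_isIntegral v R (fun x hx => (nrd_mem_iff v x).mpr (hR x hx)) hy)

/-- integrality over `K[t] = Algebra.adjoin K {t}` is integrality along `aeval t : K[X] → F`. -/
theorem nrd_isIntegral_adjoin_iff (t y : F) :
    IsIntegral (Algebra.adjoin K {t}) y ↔
      ((aeval t : K[X] →ₐ[K] F) : K[X] →+* F).IsIntegralElem y := by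
  constructor
  · rintro ⟨p, hp, hpy⟩
    -- lift the coefficients along the surjection `K[X] → K[t]`
    let ψ : K[X] →+* Algebra.adjoin K {t} :=
      ((aeval t : K[X] →ₐ[K] F).codRestrict (Algebra.adjoin K {t}) (fun q => by
        rw [Algebra.adjoin_singleton_eq_range_aeval]; exact ⟨q, rfl⟩) : K[X] →+* _)
    have hψ : Function.Surjective ψ := by
      rintro ⟨a, ha⟩
      rw [Algebra.adjoin_singleton_eq_range_aeval] at ha
      obtain ⟨q, hq⟩ := ha
      exact ⟨q, Subtype.ext hq⟩
    have hlifts : p ∈ Polynomial.lifts ψ := by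
      rw [Polynomial.lifts_iff_coeff_lifts]
      intro n
      exact Set.mem_range.mpr (hψ _)
    obtain ⟨q, hq, -, hqm⟩ := Polynomial.lifts_and_natDegree_eq_and_monic hlifts hp
    refine ⟨q, hqm, ?_⟩
    have hcomp : (algebraMap (Algebra.adjoin K {t}) F).comp ψ =
        ((aeval t : K[X] →ₐ[K] F) : K[X] →+* F) := by
      ext <;> simp [ψ]
    rw [← hcomp, ← Polynomial.eval₂_map, hq]
    exact hpy
  · rintro ⟨q, hqm, hq⟩
    let ψ : K[X] →+* Algebra.adjoin K {t} :=
      ((aeval t : K[X] →ₐ[K] F).codRestrict (Algebra.adjoin K {t}) (fun q => by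
        rw [Algebra.adjoin_singleton_eq_range_aeval]; exact ⟨q, rfl⟩) : K[X] →+* _)
    have hcomp : (algebraMap (Algebra.adjoin K {t}) F).comp ψ =
        ((aeval t : K[X] →ₐ[K] F) : K[X] →+* F) := by
      ext <;> simp [ψ]
    refine ⟨q.map ψ, hqm.map ψ, ?_⟩
    rw [Polynomial.eval₂_map, hcomp]
    exact hq

section Converters

variable {L k Fb : Type*} [Field L] [Field k] [Field Fb] [Algebra L F] [Algebra k Fb]

/-- **(N0) in place language from (N0) in ring language.**  If every `yb` integral over `k[jb]`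
lifts to some `u ∈ W` lying in a set `O` of functions that are regular off the poles of `j`
(e.g. `O` = integral closure of `A[j]`), then (N0) of `s18_plan` row GE2 holds. -/
theorem nrd_N0_of_ring {W : ValuationSubring F} (ρ : W →+* Fb) {j : F} {jb : Fb}
    (htb : pls_IsSepCoordinate k Fb jb) (O : Set F)
    (hO : ∀ u ∈ O, ∀ P : Place L F, 0 ≤ P.ord j → 0 ≤ P.ord u)
    (hlift : ∀ yb : Fb, IsIntegral (Algebra.adjoin k {jb}) yb → ∃ u : W, (u : F) ∈ O ∧ ρ u = yb) :
    ∀ yb : Fb, (∀ Q : Place k Fb, 0 ≤ Q.ord jb → 0 ≤ Q.ord yb) →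
      ∃ u : W, ρ u = yb ∧ ∀ P : Place L F, 0 ≤ P.ord j → 0 ≤ P.ord (u : F) := by
  intro yb hyb
  obtain ⟨u, huO, hu⟩ := hlift yb ((nrd_regular_iff htb yb).mp hyb)
  exact ⟨u, hu, hO _ huO⟩

/-- **(Ninf) in place language from (Ninf) in ring language** (chart `j⁻¹`). -/
theorem nrd_Ninf_of_ring {W : ValuationSubring F} (ρ : W →+* Fb) {j : F} {jb : Fb}
    (htb : pls_IsSepCoordinate k Fb jb) (O : Set F)
    (hO : ∀ u ∈ O, ∀ P : Place L F, P.ord j ≤ 0 → 0 ≤ P.ord u)
    (hlift : ∀ yb : Fb, IsIntegral (Algebra.adjoin k {jb⁻¹}) yb →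
      ∃ u : W, (u : F) ∈ O ∧ ρ u = yb) :
    ∀ yb : Fb, (∀ Q : Place k Fb, Q.ord jb ≤ 0 → 0 ≤ Q.ord yb) →
      ∃ u : W, ρ u = yb ∧ ∀ P : Place L F, P.ord j ≤ 0 → 0 ≤ P.ord (u : F) := by
  intro yb hyb
  obtain ⟨u, huO, hu⟩ := hlift yb ((nrd_regular_inv_iff htb yb).mp hyb)
  exact ⟨u, hu, hO _ huO⟩

/-- the integral closure (in `F`) of any subring all of whose elements are regular off the poles
of `j` consists of functions regular off the poles of `j`. -/
theorem nrd_regular_of_isIntegral_subring {j : F} (R : Subring F)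
    (hR : ∀ x ∈ R, ∀ P : Place L F, 0 ≤ P.ord j → 0 ≤ P.ord x) {u : F} (hu : IsIntegral R u) :
    ∀ P : Place L F, 0 ≤ P.ord j → 0 ≤ P.ord u := fun P hP =>
  nrd_ord_nonneg_of_isIntegral P R (fun x hx => hR x hx P hP) hu

/-- elements of the subring generated by constants and `j` are regular off the poles of `j`. -/
theorem nrd_closure_regular {j : F} (C : Set L) :
    ∀ x ∈ Subring.closure ((algebraMap L F) '' C ∪ {j}), ∀ P : Place L F, 0 ≤ P.ord j →
      0 ≤ P.ord x := by
  intro x hx P hP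
  have hle : Subring.closure ((algebraMap L F) '' C ∪ {j}) ≤ P.toValuationSubring.toSubring := by
    rw [Subring.closure_le]
    rintro y (⟨c, -, rfl⟩ | hy)
    · exact P.algebraMap_mem' c
    · rw [Set.mem_singleton_iff] at hy
      subst hy
      exact (nrd_mem_iff P y).mpr hP
  exact (nrd_mem_iff P x).mp (hle hx)

end Converters

end Fermat.Agent.S18x
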