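/-
S18 / block NRM / row N7 (helper35), part 10: BACK END of the wiring.

`L ⊇ A` (valuation subring), `F ⊆ L((q))` an intermediate field containing the series
`x = 1/j`-type element `xF` and `yF` (`= x^N j_N`).  For `G' ∈ A[x][Y]` with all conjugate values
divisible by `x^e1`, the element `uF := xF^(-e1) * G'(xF, yF)` of `F`
* has `q`-expansion with coefficients in `A`, explicitly `coeffMap A.subtype us`;
* lies in the valuation ring of every place of `F/L` at which `xF` is regular (CHAR-0 REGULARITY).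
-/
import Fermat.Agent.S18x.CspnEval
import Fermat.Agent.S18x.NrmDict

set_option autoImplicit false

namespace Fermat.Agent.S18x

open PowerSeries Finset ModularCurve AlgebraicCurve

section Val

variable {F : Type*} [Field F]

/-- valuation subrings are integrally closed, monic-equation form -/
theorem cspn_mem_of_monic (O : ValuationSubring F) (p : Polynomial F) (hp : p.Monic)
    (hc : ∀ i, p.coeff i ∈ O) (y : F) (hy : p.eval y = 0) : y ∈ O := by
  have hlift : p ∈ Polynomial.lifts (algebraMap O F) := by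
    rw [Polynomial.lifts_iff_coeff_lifts]
    intro i
    exact ⟨⟨p.coeff i, hc i⟩, rfl⟩
  obtain ⟨q, hq, -, hqm⟩ := Polynomial.lifts_and_degree_eq_and_monic hlift hp
  have hint : IsIntegral O y := ⟨q, hqm, by rw [← Polynomial.eval_map, hq, hy]⟩
  obtain ⟨a, ha⟩ := (IsIntegrallyClosed.isIntegral_iff (R := O) (K := F)).mp hint
  rw [← ha]
  exact a.2

variable {K : Type*} [Field K] [Algebra K F]

/-- In a DVR: if `x^c' * u^m` is integral for all `m` (`x ≠ 0` integral) then `u` is integral. -/
theorem cspn_ord_nonneg_of_pow_bound (P : Place K F) (x u : F) (hx0 : x ≠ 0)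
    (c' : ℕ) (h : ∀ m : ℕ, 0 ≤ P.ord (x ^ c' * u ^ m)) : 0 ≤ P.ord u := by
  rcases eq_or_ne u 0 with rfl | hu
  · simp
  by_contra hneg
  rw [not_le] at hneg
  have hform : ∀ m : ℕ, P.ord (x ^ c' * u ^ m) = (c' : ℤ) * P.ord x + (m : ℤ) * P.ord u := by
    intro m
    rw [Place.ord_mul P (pow_ne_zero _ hx0) (pow_ne_zero _ hu), ← zpow_natCast x c',
      ← zpow_natCast u m, Place.ord_zpow, Place.ord_zpow]
  set B : ℤ := (c' : ℤ) * P.ord x with hB
  have := h (B.toNat + 1)
  rw [hform] at this
  have h1 : B ≤ (B.toNat : ℤ) := Int.self_le_toNat B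
  push_cast at this
  nlinarith

end Val

section Back

variable {L : Type*} [Field L] (A : ValuationSubring L)
variable (F : IntermediateField L (LaurentSeries L))
variable {ι : Type*} [Fintype ι] [DecidableEq ι]

/-- the constants of `L((q))` through power series -/
theorem cspn_ofPS_comp_C :
    (HahnSeries.ofPowerSeries ℤ L).comp (PowerSeries.C : L →+* L⟦X⟧) =
      algebraMap L (LaurentSeries L) := by
  ext c : 1
  rw [RingHom.comp_apply, HahnSeries.ofPowerSeries_C, algebraMap_laurentSeries_eq_single]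
  rfl

/-- expansions of polynomial expressions in `F` -/
theorem cspn_coe_e2 (xF yF : F) (xs ys : L⟦X⟧)
    (hxF : (xF : LaurentSeries L) = HahnSeries.ofPowerSeries ℤ L xs)
    (hyF : (yF : LaurentSeries L) = HahnSeries.ofPowerSeries ℤ L ys)
    (H : Polynomial (Polynomial L)) :
    ((cspn_e2 (algebraMap L F) xF yF H : F) : LaurentSeries L) =
      HahnSeries.ofPowerSeries ℤ L (cspn_evq xs ys H) := by
  have h1 := cspn_e2_hom (algebraMap F (LaurentSeries L)) (algebraMap L F) xF yF H
  have h2 : (algebraMap F (LaurentSeries L)).comp (algebraMap L F) =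
      algebraMap L (LaurentSeries L) := by
    ext c : 1
    rfl
  rw [h2] at h1
  have h3 : ∀ z : F, algebraMap F (LaurentSeries L) z = (z : LaurentSeries L) := fun z => rfl
  rw [h3, h3, h3, hxF, hyF] at h1
  rw [h1, cspn_evq_eq_e2, cspn_e2_hom, cspn_ofPS_comp_C]

theorem cspn_back_regular (N : ℕ) (hN : N ≠ 0) (y : ι → (A : Type _)⟦X⟧)
    (hy : ∀ i i', i ≠ i' → cspn_IsMonUnit (y i - y i'))
    (x ε δ : (A : Type _)⟦X⟧) (hx : x = X * ε) (hεδ : δ * ε = 1)
    (f : Polynomial (Polynomial A)) (hfm : f.Monic)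
    (hf : f.map ((cspn_exp A N hN).comp (cspn_aev x)) =
      ∏ i, (Polynomial.X - Polynomial.C (y i)))
    (ys : (A : Type _)⟦X⟧) (i0 : ι) (hi0 : y i0 = cspn_exp A N hN ys)
    (G' : Polynomial (Polynomial A)) (e1 : ℕ)
    (hG' : ∀ i, (X : (A : Type _)⟦X⟧) ^ (N * e1) ∣ cspn_ev2 N hN x (y i) G')
    (xF yF : F)
    (hxF : (xF : LaurentSeries L) =
      HahnSeries.ofPowerSeries ℤ L (PowerSeries.map A.subtype x))
    (hyF : (yF : LaurentSeries L) =
      HahnSeries.ofPowerSeries ℤ L (PowerSeries.map A.subtype ys))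
    (P : Place L F) (hP : 0 ≤ P.ord xF) :
    0 ≤ P.ord (xF⁻¹ ^ e1 *
      cspn_e2 (algebraMap L F) xF yF (G'.map (Polynomial.mapRingHom A.subtype))) := by
  classical
  set g : A →+* L := A.subtype with hg
  set xL : L⟦X⟧ := PowerSeries.map g x with hxL
  set ysL : L⟦X⟧ := PowerSeries.map g ys with hysL
  set G'L : Polynomial (Polynomial L) := G'.map (Polynomial.mapRingHom g) with hG'L
  -- base change of the data to `L`
  have hyL : ∀ i i', i ≠ i' →
      cspn_IsMonUnit (PowerSeries.map g (y i) - PowerSeries.map g (y i')) := by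
    intro i i' h
    rw [← map_sub]
    exact (hy i i' h).map g
  have hxL' : xL = X * PowerSeries.map g ε := by rw [hxL, hx, map_mul, PowerSeries.map_X]
  have hεδL : PowerSeries.map g δ * PowerSeries.map g ε = 1 := by
    rw [← map_mul, hεδ, map_one]
  have hfL := cspn_map_prod_formula g N hN x y f hf
  have hi0L : PowerSeries.map g (y i0) = cspn_exp L N hN ysL := by
    rw [hi0, cspn_map_exp_apply]
  have hG'L' : ∀ i, (X : L⟦X⟧) ^ (N * e1) ∣
      cspn_ev2 N hN xL (PowerSeries.map g (y i)) G'L := by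
    intro i
    rw [hG'L, ← cspn_map_ev2]
    have := map_dvd (PowerSeries.map g) (hG' i)
    rwa [map_pow, PowerSeries.map_X] at this
  obtain ⟨c', hc'⟩ := cspn_pow_bound N hN (fun i => PowerSeries.map g (y i)) hyL xL
    (PowerSeries.map g ε) (PowerSeries.map g δ) hxL' hεδL (f.map (Polynomial.mapRingHom g))
    (hfm.map _) hfL ysL i0 hi0L G'L e1 hG'L'
  -- facts in `F`
  have hxL0 : xL ≠ 0 := by
    rw [hxL']
    refine mul_ne_zero X_ne_zero ?_
    intro h0
    rw [h0, mul_zero] at hεδL
    exact zero_ne_one hεδL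
  have hxF0 : xF ≠ 0 := by
    intro h0
    have : (xF : LaurentSeries L) = 0 := by rw [h0]; rfl
    rw [hxF] at this
    exact hxL0 (HahnSeries.ofPowerSeries_injective (by rw [this, map_zero]))
  set E : Polynomial (Polynomial L) → F := fun H => cspn_e2 (algebraMap L F) xF yF H with hE
  have hEcoe : ∀ H, ((E H : F) : LaurentSeries L) =
      HahnSeries.ofPowerSeries ℤ L (cspn_evq xL ysL H) := fun H =>
    cspn_coe_e2 F xF yF xL ysL hxF hyF H
  have hcoe_inj : Function.Injective (fun z : F => (z : LaurentSeries L)) :=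
    Subtype.val_injective
  have hkey : ∀ m : ℕ, ∃ R' : Polynomial (Polynomial L),
      xF ^ c' * (xF⁻¹ ^ e1 * E G'L) ^ m = E R' := by
    intro m
    obtain ⟨R', hR'⟩ := hc' m
    refine ⟨R', ?_⟩
    have h1 : xF ^ c' * (E G'L) ^ m = xF ^ (e1 * m) * E R' := by
      apply hcoe_inj
      show ((xF ^ c' * (E G'L) ^ m : F) : LaurentSeries L) =
        ((xF ^ (e1 * m) * E R' : F) : LaurentSeries L)
      push_cast
      rw [hEcoe, hEcoe, hxF]
      have h2 := congrArg (HahnSeries.ofPowerSeries ℤ L) hR'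
      simpa only [map_mul, map_pow] using h2
    rw [mul_pow, ← pow_mul, inv_pow, ← mul_assoc, mul_comm (xF ^ c'), mul_assoc, h1,
      ← mul_assoc, inv_mul_cancel₀ (pow_ne_zero _ hxF0), one_mul]
  -- the valuation ring
  set O : ValuationSubring F := P.toValuationSubring with hO
  have hxO : xF ∈ O := (nrd_mem_iff P xF).mpr hP
  have hconst : ∀ c : L, algebraMap L F c ∈ O := P.algebraMap_mem'
  have hpolyO : ∀ p : Polynomial L, Polynomial.eval₂ (algebraMap L F) xF p ∈ O := by
    intro p
    rw [Polynomial.eval₂_eq_sum_range]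
    exact sum_mem fun i _ => mul_mem (hconst _) (pow_mem hxO _)
  -- `yF` is integral
  have hyO : yF ∈ O := by
    set p : Polynomial F :=
      (f.map (Polynomial.mapRingHom g)).map (Polynomial.eval₂RingHom (algebraMap L F) xF) with hp
    refine cspn_mem_of_monic O p ((hfm.map _).map _) (fun i => ?_) yF ?_
    · rw [hp, Polynomial.coeff_map]
      exact hpolyO _
    · have h0 : E (f.map (Polynomial.mapRingHom g)) = 0 := by
        apply hcoe_inj
        show ((E (f.map (Polynomial.mapRingHom g)) : F) : LaurentSeries L) = ((0 : F) : LaurentSeries L)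
        rw [hEcoe]
        have hq : cspn_evq xL ysL (f.map (Polynomial.mapRingHom g)) = 0 := by
          apply cspn_expand_injective N hN
          rw [map_zero]
          have := cspn_exp_evq N hN xL ysL (f.map (Polynomial.mapRingHom g))
          rw [cspn_exp_apply] at this
          rw [this, ← hi0L, cspn_ev2, ← Polynomial.eval_map, hfL, Polynomial.eval_prod]
          exact Finset.prod_eq_zero (mem_univ i0) (by simp)
        rw [hq, map_zero]
        rfl
      rw [hp, Polynomial.eval_map]
      exact h0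
  have hEO : ∀ H, E H ∈ O := by
    intro H
    simp only [hE, cspn_e2]
    rw [Polynomial.eval₂_eq_sum_range]
    exact sum_mem fun i _ => mul_mem (hpolyO _) (pow_mem hyO _)
  -- conclusion
  apply cspn_ord_nonneg_of_pow_bound P xF _ hxF0 c'
  intro m
  obtain ⟨R', hR'⟩ := hkey m
  rw [hR']
  exact (nrd_mem_iff P _).mp (hEO R')

end Back

end Fermat.Agent.S18x

namespace Fermat.Agent.S18x

open PowerSeries Finset ModularCurve AlgebraicCurve

section BackSeries

variable {R S : Type*} [CommRing R] [CommRing S]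

/-- the Laurent series `1/x` for `x = q * ε`, `δ * ε = 1` -/
noncomputable def cspn_xinv (δ : R⟦X⟧) : LaurentSeries R :=
  HahnSeries.single (-1 : ℤ) (1 : R) * HahnSeries.ofPowerSeries ℤ R δ

theorem cspn_x_mul_xinv (x ε δ : R⟦X⟧) (hx : x = X * ε) (hεδ : δ * ε = 1) :
    HahnSeries.ofPowerSeries ℤ R x * cspn_xinv δ = 1 := by
  rw [cspn_xinv, hx, map_mul, HahnSeries.ofPowerSeries_X]
  calc HahnSeries.single (1 : ℤ) (1 : R) * HahnSeries.ofPowerSeries ℤ R ε *
        (HahnSeries.single (-1 : ℤ) (1 : R) * HahnSeries.ofPowerSeries ℤ R δ)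
      = (HahnSeries.single (1 : ℤ) (1 : R) * HahnSeries.single (-1 : ℤ) (1 : R)) *
        (HahnSeries.ofPowerSeries ℤ R δ * HahnSeries.ofPowerSeries ℤ R ε) := by ring
    _ = 1 := by
        rw [HahnSeries.single_mul_single, ← map_mul, hεδ, map_one]
        simp

theorem cspn_coeffMap_xinv (g : R →+* S) (δ : R⟦X⟧) :
    coeffMap g (cspn_xinv δ) = cspn_xinv (PowerSeries.map g δ) := by
  rw [cspn_xinv, cspn_xinv, map_mul, coeffMap_single, map_one, coeffMap_ofPowerSeries]

/-- the integral Laurent series `G'(x, ys) / x^e1` -/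
noncomputable def cspn_us (x δ ys : R⟦X⟧) (G' : Polynomial (Polynomial R)) (e1 : ℕ) :
    LaurentSeries R :=
  cspn_xinv δ ^ e1 * HahnSeries.ofPowerSeries ℤ R (cspn_evq x ys G')

theorem cspn_coeffMap_us (g : R →+* S) (x δ ys : R⟦X⟧) (G' : Polynomial (Polynomial R))
    (e1 : ℕ) :
    coeffMap g (cspn_us x δ ys G' e1) =
      cspn_us (PowerSeries.map g x) (PowerSeries.map g δ) (PowerSeries.map g ys)
        (G'.map (Polynomial.mapRingHom g)) e1 := by
  rw [cspn_us, cspn_us, map_mul, map_pow, cspn_coeffMap_xinv, coeffMap_ofPowerSeries, cspn_map_evq]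

end BackSeries

section BackCoe

variable {L : Type*} [Field L] (F : IntermediateField L (LaurentSeries L))

/-- the expansion of `xF⁻¹ ^ e1 * G'(xF, yF)` -/
theorem cspn_coe_uF (xs εs δs ys : L⟦X⟧) (hx : xs = X * εs) (hεδ : δs * εs = 1)
    (xF yF : F)
    (hxF : (xF : LaurentSeries L) = HahnSeries.ofPowerSeries ℤ L xs)
    (hyF : (yF : LaurentSeries L) = HahnSeries.ofPowerSeries ℤ L ys)
    (H : Polynomial (Polynomial L)) (e1 : ℕ) :
    ((xF⁻¹ ^ e1 * cspn_e2 (algebraMap L F) xF yF H : F) : LaurentSeries L) =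
      cspn_us xs δs ys H e1 := by
  have hinv : ((xF⁻¹ : F) : LaurentSeries L) = cspn_xinv δs := by
    have h1 := cspn_x_mul_xinv xs εs δs hx hεδ
    rw [← hxF] at h1
    have h2 : (xF : LaurentSeries L) ≠ 0 := by
      intro h0
      rw [h0, zero_mul] at h1
      exact zero_ne_one h1
    push_cast
    exact (eq_inv_of_mul_eq_one_right h1).symm
  push_cast
  rw [cspn_us, cspn_coe_e2 F xF yF xs ys hxF hyF H]
  congr 1
  rw [← hinv]
  push_cast
  rfl

end BackCoe

end Fermat.Agent.S18x
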