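/-
S18 / block NRM / row N7 (helper35), part 12: **OUT-C, onto form** (abstract assembly).

`L ⊇ A` valuation subring, `π : A → k` onto; `F ⊆ L((q))`, `Fb ⊆ k((q))` intermediate fields;
`W` a valuation subring of `F` and `ρ : W → Fb` satisfying the coefficient clause (`A`-integral
expansions lie in `W` and `ρ` reduces coefficientwise).  Core data over `A` (`x = 1/j`,
conjugates `y i` of `ys = x^N j_N`, (H2)), char-`ℓ` inputs (LI) and the numerator/denominator form.
Then: every `yb ∈ Fb` integral over `k[xb]` is, up to a factor `s(xb)`, `s(0) ≠ 0`, the reduction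
of some `u ∈ W` integral over `L[x]`.  This is the hypothesis `hCo` of helper34's `NrmInfGlue`.
-/
import Fermat.Agent.S18x.CspnBack
import Fermat.Agent.S18x.CspnFront

set_option autoImplicit false

namespace Fermat.Agent.S18x

open PowerSeries Finset ModularCurve AlgebraicCurve

section Transport

variable {k E : Type*} [Field k] [Field E] [Algebra k E]

/-- integrality over `k[xb]` inside an intermediate field, seen in the ambient field -/
theorem cspn_isIntegral_coe (Fb : IntermediateField k E) (xb yb : Fb)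
    (h : IsIntegral (Algebra.adjoin k {xb}) yb) :
    IsIntegral (Algebra.adjoin k {(xb : E)}) (yb : E) := by
  have hmem : ∀ c : Algebra.adjoin k {xb}, ((c : Fb) : E) ∈ Algebra.adjoin k {(xb : E)} := by
    intro c
    have h1 : ((c : Fb) : E) ∈ (Algebra.adjoin k {xb}).map Fb.val :=
      ⟨(c : Fb), c.2, rfl⟩
    rw [AlgHom.map_adjoin, Set.image_singleton] at h1
    exact h1
  let g : Algebra.adjoin k {xb} →+* Algebra.adjoin k {(xb : E)} :=
    ((algebraMap Fb E).comp (algebraMap (Algebra.adjoin k {xb}) Fb)).codRestrict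
      (Algebra.adjoin k {(xb : E)}) hmem
  exact IsIntegral.map_of_comp_eq g (algebraMap Fb E) (RingHom.ext fun c => rfl) h

end Transport

section OutC

variable {L k : Type*} [Field L] [Field k]
variable {ι : Type*} [Fintype ι] [DecidableEq ι]

theorem cspn_outC (A : ValuationSubring L) (π : A →+* k) (hπ : Function.Surjective π)
    (F : IntermediateField L (LaurentSeries L)) (Fb : IntermediateField k (LaurentSeries k))
    (W : ValuationSubring F) (ρ : W →+* Fb)
    (hcoef : ∀ (z : LaurentSeries A) (hz : coeffMap A.subtype z ∈ F),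
      ∃ hW : (⟨coeffMap A.subtype z, hz⟩ : F) ∈ W,
        ((ρ ⟨⟨coeffMap A.subtype z, hz⟩, hW⟩ : Fb) : LaurentSeries k) = coeffMap π z)
    (N : ℕ) (hN : N ≠ 0) (ζ : A) (hζ1 : ζ ^ N = 1) (hζ : ∀ m : ℕ, ¬ N ∣ m → ζ ^ m ≠ 1)
    (τ : ι ≃ ι) (y : ι → (A : Type _)⟦X⟧)
    (hyτ : ∀ i, y (τ i) = rescale ζ (y i))
    (hy : ∀ i i', i ≠ i' → cspn_IsMonUnit (y i - y i'))
    (x ε δ : (A : Type _)⟦X⟧) (hx : x = X * ε) (hεδ : δ * ε = 1)
    (f : Polynomial (Polynomial A)) (hfm : f.Monic)
    (hf : f.map ((cspn_exp A N hN).comp (cspn_aev x)) =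
      ∏ i, (Polynomial.X - Polynomial.C (y i)))
    (ys : (A : Type _)⟦X⟧) (i0 : ι) (hi0 : y i0 = cspn_exp A N hN ys)
    (hLI : ∀ H : Polynomial (Polynomial k), H.natDegree < Fintype.card ι →
      cspn_evq (PowerSeries.map π x) (PowerSeries.map π ys) H = 0 → H = 0)
    (hnd : ∀ yb : Fb, ∃ (H0 : Polynomial (Polynomial k)) (d : Polynomial k),
      Polynomial.aeval (HahnSeries.ofPowerSeries ℤ k (PowerSeries.map π x)) d ≠ 0 ∧
      Polynomial.aeval (HahnSeries.ofPowerSeries ℤ k (PowerSeries.map π x)) d *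
          (yb : LaurentSeries k) =
        cspn_e2 (algebraMap k (LaurentSeries k))
          (HahnSeries.ofPowerSeries ℤ k (PowerSeries.map π x))
          (HahnSeries.ofPowerSeries ℤ k (PowerSeries.map π ys)) H0)
    (J : W)
    (hxF : ((((J : F))⁻¹ : F) : LaurentSeries L) =
      HahnSeries.ofPowerSeries ℤ L (PowerSeries.map A.subtype x))
    (hxb : (((ρ J)⁻¹ : Fb) : LaurentSeries k) =
      HahnSeries.ofPowerSeries ℤ k (PowerSeries.map π x))
    (yF : F)
    (hyF : (yF : LaurentSeries L) =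
      HahnSeries.ofPowerSeries ℤ L (PowerSeries.map A.subtype ys))
    (hsep : pls_IsSepCoordinate L F ((J : F))⁻¹) :
    ∀ yb : Fb, IsIntegral (Algebra.adjoin k {(ρ J)⁻¹}) yb →
      ∃ (u : W) (s : Polynomial k), s.eval 0 ≠ 0 ∧
        ρ u = Polynomial.aeval ((ρ J)⁻¹) s * yb ∧
        IsIntegral (Algebra.adjoin L {((J : F))⁻¹}) (u : F) := by
  classical
  intro yb hyb
  set g : A →+* L := A.subtype with hg
  set xb : k⟦X⟧ := PowerSeries.map π x with hxbdef
  set ysb : k⟦X⟧ := PowerSeries.map π ys with hysb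
  set xF : F := ((J : F))⁻¹ with hxFdef
  -- integrality in the ambient Laurent series field
  have hintL : IsIntegral (Algebra.adjoin k {HahnSeries.ofPowerSeries ℤ k xb})
      (yb : LaurentSeries k) := by
    have := cspn_isIntegral_coe Fb ((ρ J)⁻¹) yb hyb
    rwa [hxb] at this
  -- the reduced core data
  have hxb' : xb = X * PowerSeries.map π ε := by rw [hxbdef, hx, map_mul, PowerSeries.map_X]
  have hfb := cspn_map_prod_formula π N hN x y f hf
  have hi0b : PowerSeries.map π (y i0) = cspn_exp k N hN ysb := by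
    rw [hi0, cspn_map_exp_apply]
  obtain ⟨gb, e, s1, hs1, hser, hreg⟩ := cspn_front N hN xb ysb (PowerSeries.map π ε) hxb'
    (fun i => PowerSeries.map π (y i)) i0 hi0b (f.map (Polynomial.mapRingHom π))
    (hfm.map _) hfb hLI (yb : LaurentSeries k) (hnd yb) hintL
  -- lifting
  obtain ⟨G', e1, hee1, hG'dvd, hG'red⟩ := cspn_main π hπ N hN ζ hζ1 hζ τ y hyτ hy x ε δ hx hεδ
    gb e hreg
  -- the element of `F`
  set uF : F := xF⁻¹ ^ e1 *
    cspn_e2 (algebraMap L F) xF yF (G'.map (Polynomial.mapRingHom g)) with huF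
  have hxL' : PowerSeries.map g x = X * PowerSeries.map g ε := by
    rw [hx, map_mul, PowerSeries.map_X]
  have hεδL : PowerSeries.map g δ * PowerSeries.map g ε = 1 := by
    rw [← map_mul, hεδ, map_one]
  have hcoe : (uF : LaurentSeries L) = coeffMap g (cspn_us x δ ys G' e1) := by
    rw [huF, cspn_coe_uF F (PowerSeries.map g x) (PowerSeries.map g ε) (PowerSeries.map g δ)
      (PowerSeries.map g ys) hxL' hεδL xF yF hxF hyF, cspn_coeffMap_us]
  have hzmem : coeffMap A.subtype (cspn_us x δ ys G' e1) ∈ F := by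
    rw [← hg, ← hcoe]
    exact uF.2
  obtain ⟨hW, hρ⟩ := hcoef (cspn_us x δ ys G' e1) hzmem
  have huFeq : (⟨coeffMap A.subtype (cspn_us x δ ys G' e1), hzmem⟩ : F) = uF :=
    Subtype.ext hcoe.symm
  refine ⟨⟨⟨coeffMap A.subtype (cspn_us x δ ys G' e1), hzmem⟩, hW⟩, s1, hs1, ?_, ?_⟩
  · -- the reduction
    apply Subtype.ext
    rw [hρ, cspn_coeffMap_us, hG'red, cspn_us, cspn_evq_eq_e2, cspn_e2_mul, cspn_e2_C_X_pow,
      ← cspn_evq_eq_e2, map_mul, ← hser]
    have hδεb : PowerSeries.map π δ * PowerSeries.map π ε = 1 := by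
      rw [← map_mul, hεδ, map_one]
    have hinv := cspn_x_mul_xinv xb (PowerSeries.map π ε) (PowerSeries.map π δ) hxb' hδεb
    have hcoeR : ((Polynomial.aeval ((ρ J)⁻¹) s1 * yb : Fb) : LaurentSeries k) =
        Polynomial.aeval (HahnSeries.ofPowerSeries ℤ k xb) s1 * (yb : LaurentSeries k) := by
      have h1 := Polynomial.aeval_algHom_apply Fb.val ((ρ J)⁻¹) s1
      rw [← hxb]
      push_cast
      congr 1
      exact h1.symm
    rw [hcoeR]
    have hpow : cspn_xinv (PowerSeries.map π δ) ^ e1 *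
        (HahnSeries.ofPowerSeries ℤ k (xb ^ (e1 - e)) * HahnSeries.ofPowerSeries ℤ k (xb ^ e)) = 1 := by
      rw [← map_mul, ← pow_add, Nat.sub_add_cancel hee1, map_pow, ← mul_pow, mul_comm, hinv,
        one_pow]
    calc cspn_xinv (PowerSeries.map π δ) ^ e1 *
          (HahnSeries.ofPowerSeries ℤ k (xb ^ (e1 - e)) *
            (HahnSeries.ofPowerSeries ℤ k (xb ^ e) *
              (Polynomial.aeval (HahnSeries.ofPowerSeries ℤ k xb) s1 * (yb : LaurentSeries k))))
        = (cspn_xinv (PowerSeries.map π δ) ^ e1 *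
          (HahnSeries.ofPowerSeries ℤ k (xb ^ (e1 - e)) * HahnSeries.ofPowerSeries ℤ k (xb ^ e))) *
            (Polynomial.aeval (HahnSeries.ofPowerSeries ℤ k xb) s1 * (yb : LaurentSeries k)) := by
          ring
      _ = _ := by rw [hpow, one_mul]
  · -- integrality in characteristic zero
    show IsIntegral (Algebra.adjoin L {xF})
      ((⟨coeffMap A.subtype (cspn_us x δ ys G' e1), hzmem⟩ : F))
    rw [huFeq]
    refine (nrd_regular_iff hsep uF).mp (fun P hP => ?_)
    exact cspn_back_regular A F N hN y hy x ε δ hx hεδ f hfm hf ys i0 hi0 G' e1 hG'dvd xF yF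
      hxF hyF P hP

end OutC

end Fermat.Agent.S18x
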