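/-
S18x/NsGE (helper4): GENUS-INEQUALITY GLUE for the torsion step, in helper80's abstract `ts_Hyp`
setting.  If every element of `L(r_* G)` on the reduced field lifts to an element of `L(G) ∩ W`
(this is what NORMALITY of the special fibre gives for `G = t (x)_∞`, `t` large), then
`dim_k L(r_* G) ≤ dim_L L(G)` (independent reductions have independent lifts: the EASY direction
of the defectless lemma, no orthonormal bases needed).  Together with the exact Riemann theorem
on `F` (`dim L(G) = deg G + 1 - g`) this yields the divisor `D₀ = r_* G` required by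
`ns_ts_injective` / `ns_exists_nonspecial`:  `dim L(D₀) + g ≤ deg D₀ + 1`.
-/
import Fermat.Agent.S18x.NsTransfer

set_option autoImplicit false

namespace Fermat.Agent.S18x

open AlgebraicCurve WithZero

section Lift

variable {L k F Fb : Type*} [Field L] [Field k] [Field F] [Field Fb] [Algebra L F] [Algebra k Fb]
variable {A : ValuationSubring L} {π : A →+* k} {W : ValuationSubring F} {ρ : W →+* Fb}
  {r : Place L F → Place k Fb}

/-- In a valuation ring, a finite family which is not identically zero can be scaled by one of
its members so that all members become integral. -/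
theorem ns_exists_scaling (A : ValuationSubring L) {m : ℕ} (c : Fin m → L) (hc : ∃ i, c i ≠ 0) :
    ∃ i₀, c i₀ ≠ 0 ∧ ∀ i, c i / c i₀ ∈ A := by
  obtain ⟨j, hj⟩ := hc
  obtain ⟨i₀, -, hi₀⟩ := Finset.exists_max_image Finset.univ (fun i => A.valuation (c i))
    ⟨j, Finset.mem_univ j⟩
  have hne : c i₀ ≠ 0 := by
    intro h0
    have h1 := hi₀ j (Finset.mem_univ j)
    rw [h0, map_zero] at h1
    exact hj ((map_eq_zero _).mp (le_antisymm h1 zero_le))
  refine ⟨i₀, hne, fun i => ?_⟩
  rw [← A.valuation_le_one_iff, map_div₀]
  exact div_le_one_of_le₀ (hi₀ i (Finset.mem_univ i)) zero_le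

/-- Elements of `W` with `k`-linearly independent reductions are `L`-linearly independent. -/
theorem ns_linearIndependent_lift (H : ts_Hyp A π W ρ r) {m : ℕ} (u : Fin m → W)
    (hu : LinearIndependent k (fun i => ρ (u i))) :
    LinearIndependent L (fun i => ((u i : W) : F)) := by
  rw [Fintype.linearIndependent_iff]
  intro c hc
  by_contra hne
  simp only [not_forall] at hne
  obtain ⟨i₀, hi₀, hA⟩ := ns_exists_scaling A c hne
  -- the scaled relation inside `W`
  let d : Fin m → W := fun i => ⟨algebraMap L F (c i / c i₀), H.algW (hA i)⟩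
  have hrel : ∑ i, d i * u i = 0 := by
    apply Subtype.ext
    have h1 : ((∑ i, d i * u i : W) : F) = ∑ i, algebraMap L F (c i / c i₀) * ((u i : W) : F) := by
      rw [← Subring.coe_subtype, map_sum]
      rfl
    rw [h1]
    have h2 : ∑ i, algebraMap L F (c i / c i₀) * ((u i : W) : F)
        = algebraMap L F (c i₀)⁻¹ * ∑ i, c i • ((u i : W) : F) := by
      rw [Finset.mul_sum]
      refine Finset.sum_congr rfl fun i _ => ?_
      rw [Algebra.smul_def, div_eq_mul_inv, map_mul]
      ring
    rw [h2, hc, mul_zero]
    rfl
  have hρ : ∑ i, π ⟨c i / c i₀, hA i⟩ • ρ (u i) = 0 := by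
    have := congrArg ρ hrel
    rw [map_sum, map_zero] at this
    rw [← this]
    refine Finset.sum_congr rfl fun i _ => ?_
    rw [map_mul, Algebra.smul_def]
    congr 1
    exact (H.rho_alg _ (hA i) _).symm
  have h0 := Fintype.linearIndependent_iff.mp hu _ hρ i₀
  have h1 : (⟨c i₀ / c i₀, hA i₀⟩ : A) = 1 := Subtype.ext (div_self hi₀)
  rw [h1, map_one] at h0
  exact one_ne_zero h0

/-- **Dimension bound from lifting.** -/
theorem ns_finrank_le_of_lift (H : ts_Hyp A π W ρ r) (G : Divisor L F) (Gb : Divisor k Fb)
    [Module.Finite L (riemannRochSpace G)]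
    (hlift : ∀ y ∈ riemannRochSpace Gb, ∃ u : W, (u : F) ∈ riemannRochSpace G ∧ ρ u = y) :
    (riemannRochSpace Gb).FG ∧
      Module.finrank k (riemannRochSpace Gb) ≤ Module.finrank L (riemannRochSpace G) := by
  classical
  have hrank : Module.rank k (riemannRochSpace Gb)
      ≤ (Module.finrank L (riemannRochSpace G) : ℕ) := by
    apply rank_le
    intro s hs
    -- enumerate `s`
    set m := s.card with hm
    let e : Fin m ≃ s := (Finset.equivFin s).symm
    have hs' : LinearIndependent k (fun i : Fin m => ((e i : riemannRochSpace Gb) : Fb)) := by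
      have h1 : LinearIndependent k (fun i : Fin m => ((e i : s) : riemannRochSpace Gb)) :=
        hs.comp e e.injective
      exact h1.map' (riemannRochSpace Gb).subtype (Submodule.ker_subtype _)
    choose u hu using fun i : Fin m => hlift ((e i : riemannRochSpace Gb) : Fb) (e i).1.2
    have hρu : (fun i => ρ (u i)) = fun i : Fin m => ((e i : riemannRochSpace Gb) : Fb) :=
      funext fun i => (hu i).2
    have hind : LinearIndependent L (fun i => ((u i : W) : F)) :=
      ns_linearIndependent_lift H u (by rw [hρu]; exact hs')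
    have hind' : LinearIndependent L
        (fun i : Fin m => (⟨((u i : W) : F), (hu i).1⟩ : riemannRochSpace G)) := by
      apply LinearIndependent.of_comp (riemannRochSpace G).subtype
      exact hind
    have := hind'.fintype_card_le_finrank
    rwa [Fintype.card_fin] at this
  have hfin : Module.Finite k (riemannRochSpace Gb) := by
    rw [← Module.rank_lt_aleph0_iff]
    exact lt_of_le_of_lt hrank (Cardinal.natCast_lt_aleph0)
  exact ⟨Module.Finite.iff_fg.mp hfin, Module.finrank_le_of_rank_le hrank⟩

/-- **The divisor `D₀` for the greedy step** from lifting + the exact Riemann theorem on `F`. -/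
theorem ns_D0_of_lift (H : ts_Hyp A π W ρ r)
    (hdegr : ∀ P : Place L F, (r P).deg = P.deg) (g : ℕ) (G : Divisor L F)
    [Module.Finite L (riemannRochSpace G)]
    (hexact : (Module.finrank L (riemannRochSpace G) : ℤ) + g = Divisor.degree G + 1)
    (hlift : ∀ y ∈ riemannRochSpace (Finsupp.mapDomain r G),
      ∃ u : W, (u : F) ∈ riemannRochSpace G ∧ ρ u = y) :
    (riemannRochSpace (Finsupp.mapDomain r G)).FG ∧
      (Module.finrank k (riemannRochSpace (Finsupp.mapDomain r G)) : ℤ) + g
        ≤ Divisor.degree (Finsupp.mapDomain r G) + 1 := by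
  obtain ⟨hfg, hle⟩ := ns_finrank_le_of_lift H G (Finsupp.mapDomain r G) hlift
  refine ⟨hfg, ?_⟩
  rw [ns_degree_mapDomain hdegr]
  have : (Module.finrank k (riemannRochSpace (Finsupp.mapDomain r G)) : ℤ)
      ≤ Module.finrank L (riemannRochSpace G) := by exact_mod_cast hle
  omega

end Lift

end Fermat.Agent.S18x
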