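/-
S18x/GeLift (helper4): step (e) of "normality of the special fibre ⇒ genus inequality", in
helper80's abstract `ts_Hyp` setting.  For `x ∈ W` put
* `ge_RegFin x f` : `f` is regular at every place where `x` is regular        (chart `R₀`),
* `ge_RegInf x f` : `f` is regular at every place where `x⁻¹` is regular      (chart `R_∞`),
* `ge_RegMid x f` : `f` is regular at every place where `x` is a unit         (overlap `U`).
INPUTS: normality on both charts (`hN0`, `hNinf`: every function on the reduced field which is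
regular on the chart lifts to an element of `W` regular on the chart) and the integral vanishing
of `H¹`: `U ∩ W = R₀ ∩ W + xⁿ (R_∞ ∩ W)` (`hU`).  OUTPUT: every element of `L(n (x̄)_∞)` lifts to an
element of `L(n (x)_∞) ∩ W`, which is the hypothesis `hlift` of `ns_D0_of_lift` (S18x/NsGE).
-/
import Fermat.Agent.S18x.NsGE

set_option autoImplicit false

namespace Fermat.Agent.S18x

open AlgebraicCurve WithZero

section Defs

variable {K F : Type*} [Field K] [Field F] [Algebra K F]

/-- regular wherever `x` is regular -/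
def ge_RegFin (K : Type*) {F : Type*} [Field K] [Field F] [Algebra K F] (x f : F) : Prop :=
  ∀ P : Place K F, P.adicValuation x ≤ 1 → P.adicValuation f ≤ 1

/-- regular wherever `x⁻¹` is regular -/
def ge_RegInf (K : Type*) {F : Type*} [Field K] [Field F] [Algebra K F] (x f : F) : Prop :=
  ∀ P : Place K F, 1 ≤ P.adicValuation x → P.adicValuation f ≤ 1

/-- regular wherever `x` is a unit -/
def ge_RegMid (K : Type*) {F : Type*} [Field K] [Field F] [Algebra K F] (x f : F) : Prop :=
  ∀ P : Place K F, P.adicValuation x = 1 → P.adicValuation f ≤ 1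

theorem ge_RegFin.mid {x f : F} (h : ge_RegFin K x f) : ge_RegMid K x f :=
  fun P hP => h P hP.le

theorem ge_RegInf.mid {x f : F} (h : ge_RegInf K x f) : ge_RegMid K x f :=
  fun P hP => h P hP.ge

theorem ge_RegFin.sub {x f g : F} (hf : ge_RegFin K x f) (hg : ge_RegFin K x g) :
    ge_RegFin K x (f - g) :=
  fun P hP => (Valuation.map_sub _ _ _).trans (max_le (hf P hP) (hg P hP))

theorem ge_RegInf.add {x f g : F} (hf : ge_RegInf K x f) (hg : ge_RegInf K x g) :
    ge_RegInf K x (f + g) :=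
  fun P hP => (Valuation.map_add _ _ _).trans (max_le (hf P hP) (hg P hP))

theorem ge_RegMid.sub {x f g : F} (hf : ge_RegMid K x f) (hg : ge_RegMid K x g) :
    ge_RegMid K x (f - g) :=
  fun P hP => (Valuation.map_sub _ _ _).trans (max_le (hf P hP) (hg P hP))

theorem ge_RegFin.const_mul {x f : F} (c : K) (hf : ge_RegFin K x f) :
    ge_RegFin K x (algebraMap K F c * f) := fun P hP => by
  rw [map_mul]
  exact mul_le_one' (P.adicValuation_algebraMap_le_one c) (hf P hP)

theorem ge_RegInf.const_mul {x f : F} (c : K) (hf : ge_RegInf K x f) :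
    ge_RegInf K x (algebraMap K F c * f) := fun P hP => by
  rw [map_mul]
  exact mul_le_one' (P.adicValuation_algebraMap_le_one c) (hf P hP)

theorem ge_RegMid.const_mul {x f : F} (c : K) (hf : ge_RegMid K x f) :
    ge_RegMid K x (algebraMap K F c * f) := fun P hP => by
  rw [map_mul]
  exact mul_le_one' (P.adicValuation_algebraMap_le_one c) (hf P hP)

theorem ge_RegMid.pow_mul {x f : F} (n : ℕ) (hf : ge_RegMid K x f) :
    ge_RegMid K x (x ^ n * f) := fun P hP => by
  rw [map_mul, map_pow, hP, one_pow, one_mul]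
  exact hf P hP

/-- `f` regular on the finite chart and `x⁻ⁿ f` regular on the chart at infinity: then
`f ∈ L(G)` for every divisor `G` with `G P = n · max (-ord_P x) 0`. -/
theorem ge_mem_rr {x f g : F} {n : ℕ} (hx : x ≠ 0) (hfin : ge_RegFin K x f)
    (hinf : ge_RegInf K x g) (hfg : f = x ^ n * g)
    {G : Divisor K F} (hG : ∀ P, G P = n * max (-(P.ord x)) 0) :
    f ∈ riemannRochSpace G := by
  intro P
  by_cases hP : P.adicValuation x ≤ 1
  · refine (hfin P hP).trans ?_
    rw [← WithZero.exp_zero, WithZero.exp_le_exp, hG P]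
    positivity
  · rw [not_le] at hP
    have hord : P.ord x < 0 := (P.not_adicValuation_le_one_iff).mp (not_le.mpr hP)
    have hg := hinf P hP.le
    rw [hfg, map_mul, map_pow, hG P, max_eq_left (by omega)]
    have hxv : P.adicValuation x = exp (-(P.ord x)) := P.adicValuation_eq_exp_neg_ord hx
    have : (P.adicValuation x) ^ n = exp ((n : ℤ) * -(P.ord x)) := by
      rw [hxv, ← WithZero.exp_nsmul, nsmul_eq_mul]
    rw [this]
    exact mul_le_of_le_one_right' hg

end Defs

section Lift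

variable {L k F Fb : Type*} [Field L] [Field k] [Field F] [Field Fb] [Algebra L F] [Algebra k Fb]
variable {A : ValuationSubring L} {π : A →+* k} {W : ValuationSubring F} {ρ : W →+* Fb}
  {r : Place L F → Place k Fb}

/-- **Step (e)**: lifting `L(n (x̄)_∞)` to `L(n (x)_∞) ∩ W`. -/
theorem ge_lift (H : ts_Hyp A π W ρ r) (x : W) (hρx : ρ x ≠ 0) (n : ℕ)
    (hN0 : ∀ y : Fb, ge_RegFin k (ρ x) y → ∃ u : W, ge_RegFin L (x : F) (u : F) ∧ ρ u = y)
    (hNinf : ∀ y : Fb, ge_RegInf k (ρ x) y → ∃ u : W, ge_RegInf L (x : F) (u : F) ∧ ρ u = y)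
    (hU : ∀ z : W, ge_RegMid L (x : F) (z : F) →
      ∃ z₀ z₁ : W, ge_RegFin L (x : F) (z₀ : F) ∧ ge_RegInf L (x : F) (z₁ : F) ∧
        z = z₀ + x ^ n * z₁)
    (G : Divisor L F) (hG : ∀ P, G P = n * max (-(P.ord (x : F))) 0)
    (Gb : Divisor k Fb) (hGb : ∀ Q, Gb Q = n * max (-(Q.ord (ρ x))) 0) :
    ∀ y ∈ riemannRochSpace Gb, ∃ u : W, (u : F) ∈ riemannRochSpace G ∧ ρ u = y := by
  intro y hy
  have hx0 : (x : F) ≠ 0 := ts_ne_zero_of_rho_ne_zero hρx
  -- `y` is regular on the finite chart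
  have hyfin : ge_RegFin k (ρ x) y := by
    intro Q hQ
    have h1 := hy Q
    have h0 : 0 ≤ Q.ord (ρ x) := ((Q.adicValuation_le_one_iff).mp hQ).resolve_left hρx
    rwa [hGb Q, max_eq_right (by omega), mul_zero, WithZero.exp_zero] at h1
  -- `x̄⁻ⁿ y` is regular on the chart at infinity
  have hyinf' : ge_RegInf k (ρ x) (((ρ x) ^ n)⁻¹ * y) := by
    intro Q hQ
    have h1 := hy Q
    have hord : Q.ord (ρ x) ≤ 0 := by
      by_contra hpos
      rw [not_le] at hpos
      have : Q.adicValuation (ρ x) < 1 := (ts_val_lt_one_iff Q).mpr (Or.inr (by omega))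
      exact absurd hQ (not_le.mpr this)
    rw [hGb Q, max_eq_left (by omega)] at h1
    have hxv : Q.adicValuation (ρ x) = exp (-(Q.ord (ρ x))) :=
      Q.adicValuation_eq_exp_neg_ord hρx
    rw [map_mul, map_inv₀, map_pow, hxv, ← WithZero.exp_nsmul, nsmul_eq_mul]
    rw [inv_mul_le_iff₀ (WithZero.exp_pos), mul_one]
    exact h1
  obtain ⟨u₀, hu₀, hρu₀⟩ := hN0 y hyfin
  obtain ⟨u₁, hu₁, hρu₁⟩ := hNinf _ hyinf'
  -- the difference
  set d : W := u₀ - x ^ n * u₁ with hd
  have hρd : ρ d = 0 := by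
    rw [hd, map_sub, map_mul, map_pow, hρu₀, hρu₁, ← mul_assoc,
      mul_inv_cancel₀ (pow_ne_zero _ hρx), one_mul, sub_self]
  by_cases hd0 : (d : F) = 0
  · refine ⟨u₀, ?_, hρu₀⟩
    have hfg : (u₀ : F) = (x : F) ^ n * (u₁ : F) := by
      have : ((u₀ - x ^ n * u₁ : W) : F) = 0 := hd0
      have h2 : ((u₀ - x ^ n * u₁ : W) : F) = (u₀ : F) - (x : F) ^ n * (u₁ : F) := rfl
      rw [h2, sub_eq_zero] at this
      exact this
    exact ge_mem_rr hx0 hu₀ hu₁ hfg hG
  · obtain ⟨c', z, hc'0, hzu, hzF⟩ := H.exists_unit (d : F) hd0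
    -- `c = c'⁻¹ ∈ A`, with `π c = 0`
    have hdz : (d : F) = algebraMap L F c'⁻¹ * (z : F) := by
      rw [hzF, ← mul_assoc, ← map_mul, inv_mul_cancel₀ hc'0, map_one, one_mul]
    have hcW : algebraMap L F c'⁻¹ ∈ W := by
      have h1 : algebraMap L F c'⁻¹ = (d : F) * (z : F)⁻¹ := by
        have hz0 : (z : F) ≠ 0 := by
          rw [hzF]; exact mul_ne_zero (by simpa using hc'0) hd0
        rw [hdz]; field_simp
      rw [h1]
      exact W.mul_mem _ _ d.2 (ts_inv_mem_of_isUnit z hzu)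
    have hcA : c'⁻¹ ∈ A := (H.mem_iff _).mp hcW
    have hπc : π ⟨c'⁻¹, hcA⟩ = 0 := by
      have hρz : ρ z ≠ 0 := H.rho_ne_zero_of_isUnit hzu
      have h1 : d = ⟨algebraMap L F c'⁻¹, hcW⟩ * z := Subtype.ext hdz
      have h2 := hρd
      rw [h1, map_mul, H.rho_alg c'⁻¹ hcA hcW] at h2
      have h3 := (mul_eq_zero.mp h2).resolve_right hρz
      exact (map_eq_zero_iff _ (algebraMap k Fb).injective).mp h3
    -- `z` is regular on the overlap
    have hzmid : ge_RegMid L (x : F) (z : F) := by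
      rw [hzF]
      apply ge_RegMid.const_mul
      have h2 : (d : F) = (u₀ : F) - (x : F) ^ n * (u₁ : F) := rfl
      rw [h2]
      exact ge_RegMid.sub hu₀.mid (ge_RegMid.pow_mul n hu₁.mid)
    obtain ⟨z₀, z₁, hz₀, hz₁, hzz⟩ := hU z hzmid
    let cW : W := ⟨algebraMap L F c'⁻¹, hcW⟩
    refine ⟨u₀ - cW * z₀, ?_, ?_⟩
    · have hfg : ((u₀ - cW * z₀ : W) : F)
          = (x : F) ^ n * ((u₁ : F) + algebraMap L F c'⁻¹ * (z₁ : F)) := by
        have h1 : ((u₀ - cW * z₀ : W) : F) = (u₀ : F) - algebraMap L F c'⁻¹ * (z₀ : F) := rfl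
        have h2 : (d : F) = (u₀ : F) - (x : F) ^ n * (u₁ : F) := rfl
        have h3 : (z : F) = (z₀ : F) + (x : F) ^ n * (z₁ : F) := by
          have := congrArg (Subtype.val) hzz
          exact this
        rw [h1]
        have h4 : (u₀ : F) = (x : F) ^ n * (u₁ : F) + algebraMap L F c'⁻¹ * (z : F) := by
          rw [← hdz, h2]; ring
        rw [h4, h3]; ring
      refine ge_mem_rr hx0 ?_ (hu₁.add (hz₁.const_mul c'⁻¹)) hfg hG
      have h1 : ((u₀ - cW * z₀ : W) : F) = (u₀ : F) - algebraMap L F c'⁻¹ * (z₀ : F) := rfl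
      rw [h1]
      exact hu₀.sub (hz₀.const_mul c'⁻¹)
    · rw [map_sub, map_mul, hρu₀]
      show y - ρ ⟨algebraMap L F c'⁻¹, hcW⟩ * ρ z₀ = y
      rw [H.rho_alg c'⁻¹ hcA hcW, hπc, map_zero, zero_mul, sub_zero]

end Lift

end Fermat.Agent.S18x
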