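/-
S18x/GeH1 (helper4): step (d) of "normality ⇒ genus inequality": INTEGRAL VANISHING OF `H¹` from
finite generation of the finite chart.  In helper80's `ts_Hyp` setting, `x ∈ W` a unit of `W`:
if every element of `W` regular on the chart `{x finite}` is an `A[x]`-combination of finitely
many such elements `y_i`, and `x^{-d} y_i` is regular on the chart `{1/x finite}`, then for every
`n ≥ d` every `z ∈ W` regular on the overlap `{x a unit}` decomposes as `z = z₀ + xⁿ z₁` with
`z₀` regular on the finite chart and `z₁` on the chart at infinity.  (No finite generation of the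
chart at infinity is needed.)  This is hypothesis `hU` of `ge_lift` (S18x/GeLift).
-/
import Fermat.Agent.S18x.GeLift

set_option autoImplicit false

namespace Fermat.Agent.S18x

open AlgebraicCurve WithZero

section Closure

variable {K F : Type*} [Field K] [Field F] [Algebra K F]

theorem ge_RegFin.zero (x : F) : ge_RegFin K x (0 : F) := fun P _ => by simp

theorem ge_RegInf.zero (x : F) : ge_RegInf K x (0 : F) := fun P _ => by simp

theorem ge_RegFin.add {x f g : F} (hf : ge_RegFin K x f) (hg : ge_RegFin K x g) :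
    ge_RegFin K x (f + g) :=
  fun P hP => (Valuation.map_add _ _ _).trans (max_le (hf P hP) (hg P hP))

theorem ge_RegFin.mul {x f g : F} (hf : ge_RegFin K x f) (hg : ge_RegFin K x g) :
    ge_RegFin K x (f * g) := fun P hP => by
  rw [map_mul]; exact mul_le_one' (hf P hP) (hg P hP)

theorem ge_RegInf.mul {x f g : F} (hf : ge_RegInf K x f) (hg : ge_RegInf K x g) :
    ge_RegInf K x (f * g) := fun P hP => by
  rw [map_mul]; exact mul_le_one' (hf P hP) (hg P hP)

theorem ge_RegFin.self_pow (x : F) (j : ℕ) : ge_RegFin K x (x ^ j) := fun P hP => by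
  rw [map_pow]; exact pow_le_one' hP j

theorem ge_RegInf.inv_pow (x : F) (j : ℕ) : ge_RegInf K x (x⁻¹ ^ j) := fun P hP => by
  rw [map_pow, map_inv₀]
  exact pow_le_one' (inv_le_one_of_one_le₀ hP) j

theorem ge_RegFin.const (x : F) (c : K) : ge_RegFin K x (algebraMap K F c) :=
  fun P _ => P.adicValuation_algebraMap_le_one c

theorem ge_RegInf.const (x : F) (c : K) : ge_RegInf K x (algebraMap K F c) :=
  fun P _ => P.adicValuation_algebraMap_le_one c

theorem ge_RegFin.sum {ι : Type*} (s : Finset ι) {x : F} {f : ι → F}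
    (h : ∀ i ∈ s, ge_RegFin K x (f i)) : ge_RegFin K x (∑ i ∈ s, f i) := by
  classical
  induction s using Finset.induction_on with
  | empty => rw [Finset.sum_empty]; exact ge_RegFin.zero x
  | insert a s ha ih =>
    rw [Finset.sum_insert ha]
    exact (h a (Finset.mem_insert_self a s)).add
      (ih fun i hi => h i (Finset.mem_insert_of_mem hi))

theorem ge_RegInf.sum {ι : Type*} (s : Finset ι) {x : F} {f : ι → F}
    (h : ∀ i ∈ s, ge_RegInf K x (f i)) : ge_RegInf K x (∑ i ∈ s, f i) := by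
  classical
  induction s using Finset.induction_on with
  | empty => rw [Finset.sum_empty]; exact ge_RegInf.zero x
  | insert a s ha ih =>
    rw [Finset.sum_insert ha]
    exact (h a (Finset.mem_insert_self a s)).add
      (ih fun i hi => h i (Finset.mem_insert_of_mem hi))

/-- A function regular on the overlap becomes regular on the finite chart after multiplication
by a power of `x`. -/
theorem ge_exists_pow_mul_regFin {x z : F} (hx : x ≠ 0)
    (hpd : ∃ D : Divisor K F, ∀ P : Place K F, D P = P.ord x)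
    (hz : ge_RegMid K x z) : ∃ m : ℕ, ge_RegFin K x (x ^ m * z) := by
  classical
  rcases eq_or_ne z 0 with rfl | hz0
  · exact ⟨0, by rw [mul_zero]; exact ge_RegFin.zero x⟩
  obtain ⟨D, hD⟩ := hpd
  refine ⟨∑ P ∈ D.support, (max (-(P.ord z)) 0).toNat, fun P hP => ?_⟩
  rcases lt_or_eq_of_le hP with hlt | heq
  · -- a zero of `x`
    have hordx : 1 ≤ P.ord x := ((ts_val_lt_one_iff P).mp hlt).resolve_left hx
    have hPmem : P ∈ D.support := by
      rw [Finsupp.mem_support_iff, hD P]; omega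
    have hm : (max (-(P.ord z)) 0).toNat ≤ ∑ P ∈ D.support, (max (-(P.ord z)) 0).toNat :=
      Finset.single_le_sum (f := fun P : Place K F => (max (-(P.ord z)) 0).toNat)
        (fun _ _ => Nat.zero_le _) hPmem
    rw [P.adicValuation_le_one_iff]
    right
    rw [P.ord_mul (pow_ne_zero _ hx) hz0, ts_ord_pow]
    set m := ∑ P ∈ D.support, (max (-(P.ord z)) 0).toNat with hmdef
    have h1 : (max (-(P.ord z)) 0) ≤ ((max (-(P.ord z)) 0).toNat : ℤ) := Int.self_le_toNat _
    have h2 : (((max (-(P.ord z)) 0).toNat : ℕ) : ℤ) ≤ (m : ℤ) := by exact_mod_cast hm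
    have h3 : -(P.ord z) ≤ max (-(P.ord z)) 0 := le_max_left _ _
    have h4 : (m : ℤ) ≤ (m : ℤ) * P.ord x := by
      have : (0 : ℤ) ≤ m := Int.natCast_nonneg m
      nlinarith
    omega
  · rw [map_mul, map_pow, heq, one_pow, one_mul]
    exact hz P heq

end Closure

section H1

variable {L k F Fb : Type*} [Field L] [Field k] [Field F] [Field Fb] [Algebra L F] [Algebra k Fb]
variable {A : ValuationSubring L} {π : A →+* k} {W : ValuationSubring F} {ρ : W →+* Fb}
  {r : Place L F → Place k Fb}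

/-- **Step (d)**: integral vanishing of `H¹` from finite generation of the finite chart. -/
theorem ge_hU_of_fg (H : ts_Hyp A π W ρ r) (x : W) (hρx : ρ x ≠ 0)
    {s : ℕ} (y : Fin s → W) (hy : ∀ i, ge_RegFin L (x : F) (y i : F))
    (hfg : ∀ w : W, ge_RegFin L (x : F) (w : F) →
      ∃ (N : ℕ) (c : Fin s → Fin N → L), (∀ i e, c i e ∈ A) ∧
        (w : F) = ∑ i, ∑ e : Fin N, algebraMap L F (c i e) * (x : F) ^ (e : ℕ) * (y i : F))
    (d : ℕ) (hd : ∀ i, ge_RegInf L (x : F) ((x : F)⁻¹ ^ d * (y i : F)))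
    (n : ℕ) (hn : d ≤ n) :
    ∀ z : W, ge_RegMid L (x : F) (z : F) →
      ∃ z₀ z₁ : W, ge_RegFin L (x : F) (z₀ : F) ∧ ge_RegInf L (x : F) (z₁ : F) ∧
        z = z₀ + x ^ n * z₁ := by
  classical
  intro z hz
  have hx0 : (x : F) ≠ 0 := ts_ne_zero_of_rho_ne_zero hρx
  have hxu : IsUnit x := by
    by_contra h
    exact hρx ((H.ker x).mpr h)
  have hxinv : (x : F)⁻¹ ∈ W := ts_inv_mem_of_isUnit x hxu
  obtain ⟨m, hm⟩ := ge_exists_pow_mul_regFin (K := L) hx0 (H.hpd (x : F) hx0) hz
  obtain ⟨N, c, hcA, hw⟩ := hfg (x ^ m * z) hm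
  -- the two parts, as elements of `F`
  set f₀ : F := ∑ i, ∑ e : Fin N,
    if m ≤ (e : ℕ) then algebraMap L F (c i e) * (x : F) ^ ((e : ℕ) - m) * (y i : F) else 0
    with hf₀
  set f₁ : F := ∑ i, ∑ e : Fin N,
    if m ≤ (e : ℕ) then 0
    else algebraMap L F (c i e) * (x : F)⁻¹ ^ (m - (e : ℕ) + (n - d)) * ((x : F)⁻¹ ^ d * (y i : F))
    with hf₁
  have hcW : ∀ i e, algebraMap L F (c i e) ∈ W := fun i e => H.algW (hcA i e)
  have hf₀W : f₀ ∈ W := by
    rw [hf₀]
    refine W.toSubring.sum_mem fun i _ => W.toSubring.sum_mem fun e _ => ?_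
    split_ifs
    · exact W.mul_mem _ _ (W.mul_mem _ _ (hcW i e) (W.pow_mem x.2 _)) (y i).2
    · exact W.zero_mem
  have hf₁W : f₁ ∈ W := by
    rw [hf₁]
    refine W.toSubring.sum_mem fun i _ => W.toSubring.sum_mem fun e _ => ?_
    split_ifs
    · exact W.zero_mem
    · exact W.mul_mem _ _ (W.mul_mem _ _ (hcW i e) (W.pow_mem hxinv _))
        (W.mul_mem _ _ (W.pow_mem hxinv _) (y i).2)
  have hf₀reg : ge_RegFin L (x : F) f₀ := by
    rw [hf₀]
    refine ge_RegFin.sum _ fun i _ => ge_RegFin.sum _ fun e _ => ?_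
    split_ifs
    · exact ((ge_RegFin.const _ _).mul (ge_RegFin.self_pow _ _)).mul (hy i)
    · exact ge_RegFin.zero _
  have hf₁reg : ge_RegInf L (x : F) f₁ := by
    rw [hf₁]
    refine ge_RegInf.sum _ fun i _ => ge_RegInf.sum _ fun e _ => ?_
    split_ifs
    · exact ge_RegInf.zero _
    · exact ((ge_RegInf.const _ _).mul (ge_RegInf.inv_pow _ _)).mul (hd i)
  refine ⟨⟨f₀, hf₀W⟩, ⟨f₁, hf₁W⟩, hf₀reg, hf₁reg, ?_⟩
  apply Subtype.ext
  show (z : F) = f₀ + (x : F) ^ n * f₁
  -- multiply by `x ^ m` and compare with `hw`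
  have hxm : (x : F) ^ m ≠ 0 := pow_ne_zero _ hx0
  apply mul_left_cancel₀ hxm
  have hw' : (x : F) ^ m * (z : F)
      = ∑ i, ∑ e : Fin N, algebraMap L F (c i e) * (x : F) ^ (e : ℕ) * (y i : F) := hw
  rw [hw', mul_add, hf₀, hf₁, ← mul_assoc, Finset.mul_sum, Finset.mul_sum, ← Finset.sum_add_distrib]
  refine Finset.sum_congr rfl fun i _ => ?_
  rw [Finset.mul_sum, Finset.mul_sum, ← Finset.sum_add_distrib]
  refine Finset.sum_congr rfl fun e _ => ?_
  by_cases hme : m ≤ (e : ℕ)
  · rw [if_pos hme, if_pos hme, mul_zero, add_zero]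
    have : (x : F) ^ (e : ℕ) = (x : F) ^ m * (x : F) ^ ((e : ℕ) - m) := by
      rw [← pow_add, Nat.add_sub_cancel' hme]
    rw [this]; ring
  · rw [if_neg hme, if_neg hme, mul_zero, zero_add]
    have hlt : (e : ℕ) < m := not_le.mp hme
    have key : (x : F) ^ m * (x : F) ^ n * ((x : F)⁻¹ ^ (m - (e : ℕ) + (n - d)) * (x : F)⁻¹ ^ d)
        = (x : F) ^ (e : ℕ) := by
      rw [← pow_add, ← pow_add, inv_pow]
      have hexp : m + n = (e : ℕ) + (m - (e : ℕ) + (n - d) + d) := by omega
      rw [hexp, pow_add, mul_assoc, mul_inv_cancel₀ (pow_ne_zero _ hx0), mul_one]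
    calc algebraMap L F (c i e) * (x : F) ^ (e : ℕ) * (y i : F)
        = algebraMap L F (c i e) * ((x : F) ^ m * (x : F) ^ n *
            ((x : F)⁻¹ ^ (m - (e : ℕ) + (n - d)) * (x : F)⁻¹ ^ d)) * (y i : F) := by rw [key]
      _ = _ := by ring

end H1

end Fermat.Agent.S18x
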