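/-
S18x/H1vBasic (helper77): block H1V (integral `H¹`-vanishing) of S18, part 1.
`h1v_Int L x y` : `y` is integral over `L[x]` (image of `L[X]` under `aeval x`), closure
properties, and the chart-change lemma `h1v_Int_scale`:
an element integral over `L[x]` becomes integral over `L[x⁻¹]` after division by a power of `x`.
Mathlib only.
-/
import Mathlib

set_option autoImplicit false

namespace Fermat.Agent.S18x

open Polynomial

/-- `y` is integral over `L[x]` -/
def h1v_Int (L : Type*) {K : Type*} [Field L] [Field K] [Algebra L K] (x y : K) : Prop :=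
  (Polynomial.aeval (R := L) x).toRingHom.IsIntegralElem y

section

variable {L K : Type*} [Field L] [Field K] [Algebra L K] {x y z : K}

theorem h1v_Int.add (hy : h1v_Int L x y) (hz : h1v_Int L x z) : h1v_Int L x (y + z) :=
  RingHom.IsIntegralElem.add _ hy hz

theorem h1v_Int.mul (hy : h1v_Int L x y) (hz : h1v_Int L x z) : h1v_Int L x (y * z) :=
  RingHom.IsIntegralElem.mul _ hy hz

theorem h1v_Int.neg (hy : h1v_Int L x y) : h1v_Int L x (-y) :=
  RingHom.IsIntegralElem.neg _ hy

theorem h1v_Int.sub (hy : h1v_Int L x y) (hz : h1v_Int L x z) : h1v_Int L x (y - z) :=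
  RingHom.IsIntegralElem.sub _ hy hz

theorem h1v_Int_aeval (x : K) (p : L[X]) : h1v_Int L x (aeval x p) :=
  (Polynomial.aeval (R := L) x).toRingHom.isIntegralElem_map

theorem h1v_Int_algebraMap (x : K) (c : L) : h1v_Int L x (algebraMap L K c) := by
  have := h1v_Int_aeval x (C c : L[X])
  simpa using this

theorem h1v_Int_zero (x : K) : h1v_Int L x (0 : K) := by
  simpa using h1v_Int_algebraMap (L := L) x 0

theorem h1v_Int_one (x : K) : h1v_Int L x (1 : K) := by
  simpa using h1v_Int_algebraMap (L := L) x 1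

theorem h1v_Int_self (x : K) : h1v_Int L x x := by
  simpa using h1v_Int_aeval (L := L) x (X : L[X])

theorem h1v_Int.pow (hy : h1v_Int L x y) (m : ℕ) : h1v_Int L x (y ^ m) := by
  induction m with
  | zero => simpa using h1v_Int_one (L := L) x
  | succ m ih => rw [pow_succ]; exact ih.mul hy

theorem h1v_Int_sum {ι : Type*} (s : Finset ι) (f : ι → K) (h : ∀ i ∈ s, h1v_Int L x (f i)) :
    h1v_Int L x (∑ i ∈ s, f i) := by
  classical
  induction s using Finset.induction_on with
  | empty => simpa using h1v_Int_zero (L := L) x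
  | insert a s ha ih =>
    rw [Finset.sum_insert ha]
    exact (h a (Finset.mem_insert_self a s)).add
      (ih fun i hi => h i (Finset.mem_insert_of_mem hi))

/-- reflecting a polynomial: `P(x) = x^N * (reflect N P)(x⁻¹)` -/
theorem h1v_aeval_reflect (hx : x ≠ 0) (N : ℕ) (P : L[X]) (hP : P.natDegree ≤ N) :
    aeval x⁻¹ (reflect N P) = x⁻¹ ^ N * aeval x P := by
  let _ : Invertible x := invertibleOfNonzero hx
  have h := eval₂_reflect_mul_pow (algebraMap L K) x N P hP
  rw [invOf_eq_inv] at h
  rw [aeval_def, aeval_def, ← h, inv_pow, mul_comm, mul_assoc, mul_inv_cancel₀ (pow_ne_zero N hx),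
    mul_one]

/-- **Chart change.** If `y` is integral over `L[x]` then `y / x^e` is integral over `L[x⁻¹]`
for all large `e`. -/
theorem h1v_Int_scale (hx : x ≠ 0) (hy : h1v_Int L x y) :
    ∃ d : ℕ, ∀ e : ℕ, d ≤ e → h1v_Int L x⁻¹ (y * x⁻¹ ^ e) := by
  classical
  obtain ⟨p, hpm, hp⟩ := hy
  set r := p.natDegree with hr
  set d := (Finset.range r).sup (fun i => (p.coeff i).natDegree) with hd
  have hdeg : ∀ i ∈ Finset.range r, (p.coeff i).natDegree ≤ d := fun i hi =>
    Finset.le_sup (f := fun i => (p.coeff i).natDegree) hi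
  -- it suffices to treat `e = d`
  suffices hmain : h1v_Int L x⁻¹ (y * x⁻¹ ^ d) by
    refine ⟨d, fun e hde => ?_⟩
    obtain ⟨k, rfl⟩ := Nat.exists_eq_add_of_le hde
    rw [pow_add, ← mul_assoc]
    exact hmain.mul ((h1v_Int_self (L := L) x⁻¹).pow k)
  -- the scaled polynomial
  set q : L[X][X] := X ^ r + ∑ i ∈ Finset.range r, C (reflect (d * (r - i)) (p.coeff i)) * X ^ i
    with hq
  have hqdeg : (∑ i ∈ Finset.range r, C (reflect (d * (r - i)) (p.coeff i)) * X ^ i :
      L[X][X]).degree < (r : WithBot ℕ) := by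
    refine (Polynomial.degree_sum_le _ _).trans_lt ?_
    refine (Finset.sup_lt_iff (WithBot.bot_lt_coe r)).2 ?_
    intro i hi
    refine (Polynomial.degree_C_mul_X_pow_le _ _).trans_lt ?_
    exact WithBot.coe_lt_coe.mpr (Finset.mem_range.mp hi)
  have hqm : q.Monic := Polynomial.monic_X_pow_add hqdeg
  refine ⟨q, hqm, ?_⟩
  -- evaluate
  have hp' : y ^ r + ∑ i ∈ Finset.range r, aeval x (p.coeff i) * y ^ i = 0 := by
    have h1 := hp
    rw [hpm.as_sum] at h1
    simpa [eval₂_add, eval₂_finsetSum, eval₂_mul, eval₂_pow] using h1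
  have hterm : ∀ i ∈ Finset.range r,
      aeval x⁻¹ (reflect (d * (r - i)) (p.coeff i)) * (y * x⁻¹ ^ d) ^ i
        = x⁻¹ ^ (d * r) * (aeval x (p.coeff i) * y ^ i) := by
    intro i hi
    have hir : i < r := Finset.mem_range.mp hi
    have hle : (p.coeff i).natDegree ≤ d * (r - i) := by
      refine (hdeg i hi).trans ?_
      exact Nat.le_mul_of_pos_right d (by omega)
    rw [h1v_aeval_reflect hx _ _ hle, mul_pow, ← pow_mul]
    have : d * r = d * (r - i) + d * i := by
      rw [← Nat.mul_add]; congr 1; omega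
    rw [this, pow_add]
    ring
  show eval₂ (Polynomial.aeval (R := L) x⁻¹).toRingHom (y * x⁻¹ ^ d) q = 0
  rw [hq, eval₂_add, eval₂_finsetSum, eval₂_pow, eval₂_X]
  have : ∀ i ∈ Finset.range r,
      eval₂ (Polynomial.aeval (R := L) x⁻¹).toRingHom (y * x⁻¹ ^ d)
        (C (reflect (d * (r - i)) (p.coeff i)) * X ^ i)
      = x⁻¹ ^ (d * r) * (aeval x (p.coeff i) * y ^ i) := by
    intro i hi
    rw [eval₂_mul, eval₂_C, eval₂_pow, eval₂_X]
    exact hterm i hi
  rw [Finset.sum_congr rfl this, ← Finset.mul_sum, mul_pow, ← pow_mul, mul_comm (y ^ r),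
    ← mul_add, hp', mul_zero]

end

end Fermat.Agent.S18x
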