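/-
S18x/GeBridge (helper4): BRIDGE between the place language (`ge_RegFin`, `ge_RegInf`, `ge_RegMid`,
S18x/GeLift) and helper77's integrality language (`h1v_Int L x y` : `y` integral over `L[x]`,
S18x/H1vBasic) for a function field `F/K` of characteristic zero with coordinate `x`
(S24x `FFData K F x`):
* `geb_regFin_of_int`  : integral over `K[x]`  ⇒ regular wherever `x` is regular   (no hypotheses);
* `geb_int_of_regFin`  : regular wherever `x` is regular ⇒ integral over `K[x]`;
* `geb_regInf_of_int`, `geb_int_of_regInf` : the same for the chart `x⁻¹`;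
* `geb_exists_pow_int_of_regMid` : regular on the overlap ⇒ `x^m z` integral over `K[x]`.
-/
import Fermat.Agent.S18x.GeH1
import Fermat.Agent.S18x.H1vBasic
import Fermat.Agent.S24x.CoveringRing

set_option autoImplicit false

namespace Fermat.Agent.S18x

open AlgebraicCurve Polynomial IsDedekindDomain Fermat.Agent.S24x

variable {K F : Type*} [Field K] [Field F] [Algebra K F]

/-- `h1v_Int` in terms of Mathlib's `IsIntegral` over `K[x] = Algebra.adjoin K {x}`. -/
theorem geb_isIntegral_of_int {x y : F} (h : h1v_Int K x y) : IsIntegral (ringA K x) y := by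
  obtain ⟨p, hpm, hp⟩ := h
  let φ : K[X] →+* ringA K x := (aeval (genA K x) : K[X] →ₐ[K] ringA K x).toRingHom
  have hcomp : (algebraMap (ringA K x) F).comp φ = (Polynomial.aeval (R := K) x).toRingHom := by
    apply RingHom.ext
    intro q
    show algebraMap (ringA K x) F (aeval (genA K x) q) = aeval x q
    rw [← aeval_algebraMap_apply]
    rfl
  refine ⟨p.map φ, hpm.map φ, ?_⟩
  rw [eval₂_map, hcomp]
  exact hp

theorem geb_int_of_isIntegral {x y : F} (h : IsIntegral (ringA K x) y) : h1v_Int K x y := by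
  have h1 := cr_isIntegralElem K x ⟨y, h⟩
  obtain ⟨Q, hQm, hQ⟩ := h1
  refine ⟨Q, hQm, ?_⟩
  have h2 := congrArg (algebraMap (ringB K x) F) hQ
  rw [Polynomial.hom_eval₂, map_zero] at h2
  have hcomp : (algebraMap (ringB K x) F).comp
      ((aeval (crGen K x) : K[X] →ₐ[K] ringB K x) : K[X] →+* ringB K x)
      = (Polynomial.aeval (R := K) x).toRingHom := by
    apply RingHom.ext
    intro q
    exact cr_aeval_crGen K x q
  rw [hcomp] at h2
  exact h2

/-- integral over `K[x]` ⇒ regular wherever `x` is regular. -/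
theorem geb_regFin_of_int {x y : F} (h : h1v_Int K x y) : ge_RegFin K x y := by
  intro P hP
  have hx : x ∈ P.toValuationSubring := ns_mem_of_val_le_one P hP
  exact P.adicValuation_le_one_of_mem
    (ringB_mem_place x P hx ⟨y, geb_isIntegral_of_int h⟩)

/-- regular wherever `x` is regular ⇒ integral over `K[x]` (characteristic zero). -/
theorem geb_int_of_regFin [CharZero K] (x : F) [FFData K F x] {y : F}
    (h : ge_RegFin K x y) : h1v_Int K x y := by
  apply geb_int_of_isIntegral
  have hmem : y ∈ (algebraMap (ringB K x) F).range := by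
    apply HeightOneSpectrum.mem_integers_of_valuation_le_one F y
    intro P
    have hx : x ∈ (placeOfPrime x P).toValuationSubring :=
      ringB_mem_placeOfPrime x P (crGen K x)
    have h1 : (placeOfPrime x P).adicValuation y ≤ 1 :=
      h _ ((placeOfPrime x P).adicValuation_le_one_of_mem hx)
    have h2 : y ∈ (placeOfPrime x P).toValuationSubring := ns_mem_of_val_le_one _ h1
    rw [placeOfPrime_toValuationSubring, Valuation.mem_valuationSubring_iff] at h2
    exact h2
  obtain ⟨b, rfl⟩ := hmem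
  exact b.2

theorem geb_regInf_iff_regFin_inv {x y : F} (hx : x ≠ 0) :
    ge_RegInf K x y ↔ ge_RegFin K x⁻¹ y := by
  have key : ∀ P : Place K F, P.adicValuation x⁻¹ ≤ 1 ↔ 1 ≤ P.adicValuation x := by
    intro P
    have hv : P.adicValuation x ≠ 0 := P.adicValuation_ne_zero hx
    rw [map_inv₀, inv_le_one₀ (zero_lt_iff.mpr hv)]
  constructor
  · intro h P hP
    exact h P ((key P).mp hP)
  · intro h P hP
    exact h P ((key P).mpr hP)

theorem geb_regInf_of_int {x y : F} (hx : x ≠ 0) (h : h1v_Int K x⁻¹ y) : ge_RegInf K x y :=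
  (geb_regInf_iff_regFin_inv hx).mpr (geb_regFin_of_int h)

theorem geb_int_of_regInf [CharZero K] (x : F) [FFData K F x⁻¹] (hx : x ≠ 0) {y : F}
    (h : ge_RegInf K x y) : h1v_Int K x⁻¹ y :=
  geb_int_of_regFin x⁻¹ ((geb_regInf_iff_regFin_inv hx).mp h)

/-- regular on the overlap ⇒ `x^m z` integral over `K[x]` for some `m`. -/
theorem geb_exists_pow_int_of_regMid [CharZero K] (x : F) [FFData K F x] (hx : x ≠ 0)
    (hpd : ∃ D : Divisor K F, ∀ P : Place K F, D P = P.ord x) {z : F}
    (h : ge_RegMid K x z) : ∃ m : ℕ, h1v_Int K x (x ^ m * z) := by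
  obtain ⟨m, hm⟩ := ge_exists_pow_mul_regFin hx hpd h
  exact ⟨m, geb_int_of_regFin x hm⟩

/-- integral over `K[x]` after multiplication by a power of `x` ⇒ regular on the overlap. -/
theorem geb_regMid_of_pow_int {x z : F} {m : ℕ} (h : h1v_Int K x (x ^ m * z)) :
    ge_RegMid K x z := by
  intro P hP
  have h1 := geb_regFin_of_int h P hP.le
  rwa [map_mul, map_pow, hP, one_pow, one_mul] at h1

/-- **Wiring**: helper77's decomposition statement (integrality language, fixed `n`) gives the
hypothesis `hU` of `ge_lift` (place language). -/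
theorem geb_hU_of_decomp [CharZero K] (W : ValuationSubring F) (x : W) [FFData K F (x : F)]
    (hx : (x : F) ≠ 0)
    (hpd : ∃ D : Divisor K F, ∀ P : Place K F, D P = P.ord (x : F)) (n : ℕ)
    (hdec : ∀ u : F, u ∈ W → (∃ m : ℕ, h1v_Int K (x : F) ((x : F) ^ m * u)) →
      ∃ a' b' : F, a' ∈ W ∧ h1v_Int K (x : F) a' ∧ b' ∈ W ∧ h1v_Int K (x : F)⁻¹ b' ∧
        u = a' + (x : F) ^ n * b') :
    ∀ z : W, ge_RegMid K (x : F) (z : F) →
      ∃ z₀ z₁ : W, ge_RegFin K (x : F) (z₀ : F) ∧ ge_RegInf K (x : F) (z₁ : F) ∧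
        z = z₀ + x ^ n * z₁ := by
  intro z hz
  obtain ⟨a', b', ha'W, ha', hb'W, hb', hzab⟩ :=
    hdec (z : F) z.2 (geb_exists_pow_int_of_regMid (x : F) hx hpd hz)
  refine ⟨⟨a', ha'W⟩, ⟨b', hb'W⟩, geb_regFin_of_int ha', geb_regInf_of_int hx hb', ?_⟩
  exact Subtype.ext hzab

end Fermat.Agent.S18x
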