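/-
S18x/GeDict (helper4): DICTIONARY + GLUE for block GE2 (two-chart normality at level `N` in PLACE
language from normality in INTEGRALITY language).  Prefix `ged_`.

* `ged_ord_nonneg_iff`, `ged_ord_nonpos_iff` : `Place.ord` versus `Place.adicValuation`;
* `ged_isIntegral_of_regFin` : for a SEPARATING coordinate `x` of `F/K` (any characteristic):
  `y` regular at every place where `x` is regular  ⟹  `y` integral over `K[x]`
  (separable twin of `geb_int_of_regFin`);
* `ged_isIntegral_of_ord`, `ged_isIntegral_inv_of_ord` : the same in `Place.ord` language, for the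
  two charts `x`, `x⁻¹`;
* `ged_ord_of_isIntegral`, `ged_ord_of_isIntegral_inv` : the easy converses (no hypotheses);
* `ged_N0`, `ged_Ninf` : **the glue**: normality on the charts `j`, `j⁻¹` in integrality language
  (every `ȳ` integral over `k[j̄]` has a lift `u ∈ W` integral over `L[j]`, same for `j⁻¹`)
  ⟹ hypotheses (N0), (Ninf) of block GE1/GE2 in place language.
-/
import Fermat.Agent.S18x.GeBridge
import Fermat.Agent.S18x.PlsFund

set_option autoImplicit false

namespace Fermat.Agent.S18x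

open AlgebraicCurve Polynomial IsDedekindDomain IntermediateField Fermat.Agent.S24x
open scoped IntermediateField.algebraAdjoinAdjoin

section Dict

variable {K F : Type*} [Field K] [Field F] [Algebra K F]

theorem ged_ord_nonneg_iff (P : Place K F) (f : F) : 0 ≤ P.ord f ↔ P.adicValuation f ≤ 1 := by
  rw [P.adicValuation_le_one_iff]
  constructor
  · exact fun h => Or.inr h
  · rintro (rfl | h)
    · rw [P.ord_zero]
    · exact h

theorem ged_ord_nonpos_iff (P : Place K F) {f : F} (hf : f ≠ 0) :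
    P.ord f ≤ 0 ↔ 1 ≤ P.adicValuation f := by
  rw [P.adicValuation_eq_exp_neg_ord hf, ← WithZero.exp_zero, WithZero.exp_le_exp]
  omega

theorem ged_regFin_iff {x y : F} :
    ge_RegFin K x y ↔ ∀ P : Place K F, 0 ≤ P.ord x → 0 ≤ P.ord y := by
  unfold ge_RegFin
  simp only [ged_ord_nonneg_iff]

theorem ged_regInf_iff {x y : F} (hx : x ≠ 0) :
    ge_RegInf K x y ↔ ∀ P : Place K F, P.ord x ≤ 0 → 0 ≤ P.ord y := by
  unfold ge_RegInf
  simp only [ged_ord_nonneg_iff, ged_ord_nonpos_iff _ hx]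

/-- **separable twin of `geb_int_of_regFin`**: regular wherever `x` is regular ⟹ integral over
`K[x]`, for a separating coordinate in any characteristic. -/
theorem ged_isIntegral_of_regFin (x : F) [FFData K F x] [Algebra.IsSeparable K⟮x⟯ F] {y : F}
    (h : ge_RegFin K x y) : IsIntegral (ringA K x) y := by
  have : IsDedekindDomain (ringB K x) := integralClosure.isDedekindDomain (ringA K x) K⟮x⟯ F
  have hmem : y ∈ (algebraMap (ringB K x) F).range := by
    apply HeightOneSpectrum.mem_integers_of_valuation_le_one F y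
    intro P
    have hx : x ∈ (Place.ofHeightOneSpectrum (K := K) (F := F) P).toValuationSubring := by
      rw [Place.ofHeightOneSpectrum_toValuationSubring, Valuation.mem_valuationSubring_iff]
      exact P.valuation_le_one (K := F) (crGen K x)
    have h1 : (Place.ofHeightOneSpectrum (K := K) (F := F) P).adicValuation y ≤ 1 :=
      h _ (Place.adicValuation_le_one_of_mem _ hx)
    have h2 : y ∈ (Place.ofHeightOneSpectrum (K := K) (F := F) P).toValuationSubring :=
      ns_mem_of_val_le_one _ h1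
    rw [Place.ofHeightOneSpectrum_toValuationSubring, Valuation.mem_valuationSubring_iff] at h2
    exact h2
  obtain ⟨b, rfl⟩ := hmem
  exact b.2

/-- chart `x`, `Place.ord` language, separating coordinate -/
theorem ged_isIntegral_of_ord {x : F} (hx : pls_IsSepCoordinate K F x) {y : F}
    (h : ∀ P : Place K F, 0 ≤ P.ord x → 0 ≤ P.ord y) :
    IsIntegral (Algebra.adjoin K {x}) y := by
  have : FFData K F x := ⟨hx.coord.transcendental, hx.coord.finite⟩
  have := hx.sep
  exact ged_isIntegral_of_regFin x (ged_regFin_iff.mpr h)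

/-- chart `x⁻¹`, `Place.ord` language, separating coordinate -/
theorem ged_isIntegral_inv_of_ord {x : F} (hx : pls_IsSepCoordinate K F x) {y : F}
    (h : ∀ P : Place K F, P.ord x ≤ 0 → 0 ≤ P.ord y) :
    IsIntegral (Algebra.adjoin K {x⁻¹}) y := by
  apply ged_isIntegral_of_ord (pls_isSepCoordinate_inv hx)
  intro P hP
  apply h P
  rw [P.ord_inv] at hP
  omega

/-- easy converse on the chart `x` (no hypotheses) -/
theorem ged_ord_of_isIntegral {x y : F} (h : IsIntegral (Algebra.adjoin K {x}) y)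
    (P : Place K F) (hP : 0 ≤ P.ord x) : 0 ≤ P.ord y :=
  ged_regFin_iff.mp (geb_regFin_of_int (geb_int_of_isIntegral h)) P hP

/-- easy converse on the chart `x⁻¹` (no hypotheses) -/
theorem ged_ord_of_isIntegral_inv {x y : F} (h : IsIntegral (Algebra.adjoin K {x⁻¹}) y)
    (P : Place K F) (hP : P.ord x ≤ 0) : 0 ≤ P.ord y := by
  apply ged_ord_of_isIntegral h P
  rw [P.ord_inv]
  omega

end Dict

section Glue

variable {L k F Fb : Type*} [Field L] [Field k] [Field F] [Field Fb] [Algebra L F] [Algebra k Fb]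

/-- **(N0) of GE2 from normality on the chart `j` in integrality language.** -/
theorem ged_N0 (W : ValuationSubring F) (ρ : W →+* Fb) (J : W)
    (hsep : pls_IsSepCoordinate k Fb (ρ J))
    (hInt0 : ∀ yb : Fb, IsIntegral (Algebra.adjoin k {ρ J}) yb →
      ∃ u : W, ρ u = yb ∧ IsIntegral (Algebra.adjoin L {(J : F)}) (u : F))
    (yb : Fb) (hyb : ∀ Q : Place k Fb, 0 ≤ Q.ord (ρ J) → 0 ≤ Q.ord yb) :
    ∃ u : W, ρ u = yb ∧ ∀ P : Place L F, 0 ≤ P.ord (J : F) → 0 ≤ P.ord (u : F) := by
  obtain ⟨u, hu, hint⟩ := hInt0 yb (ged_isIntegral_of_ord hsep hyb)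
  exact ⟨u, hu, fun P hP => ged_ord_of_isIntegral hint P hP⟩

/-- **(Ninf) of GE2 from normality on the chart `j⁻¹` in integrality language.** -/
theorem ged_Ninf (W : ValuationSubring F) (ρ : W →+* Fb) (J : W)
    (hsep : pls_IsSepCoordinate k Fb (ρ J))
    (hIntInf : ∀ yb : Fb, IsIntegral (Algebra.adjoin k {(ρ J)⁻¹}) yb →
      ∃ u : W, ρ u = yb ∧ IsIntegral (Algebra.adjoin L {((J : F))⁻¹}) (u : F))
    (yb : Fb) (hyb : ∀ Q : Place k Fb, Q.ord (ρ J) ≤ 0 → 0 ≤ Q.ord yb) :
    ∃ u : W, ρ u = yb ∧ ∀ P : Place L F, P.ord (J : F) ≤ 0 → 0 ≤ P.ord (u : F) := by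
  obtain ⟨u, hu, hint⟩ := hIntInf yb (ged_isIntegral_inv_of_ord hsep hyb)
  exact ⟨u, hu, fun P hP => ged_ord_of_isIntegral_inv hint P hP⟩

/-- variant of `ged_N0` with the integrality hypotheses in helper77's `h1v_Int` form -/
theorem ged_N0' (W : ValuationSubring F) (ρ : W →+* Fb) (J : W)
    (hsep : pls_IsSepCoordinate k Fb (ρ J))
    (hInt0 : ∀ yb : Fb, h1v_Int k (ρ J) yb → ∃ u : W, ρ u = yb ∧ h1v_Int L (J : F) (u : F))
    (yb : Fb) (hyb : ∀ Q : Place k Fb, 0 ≤ Q.ord (ρ J) → 0 ≤ Q.ord yb) :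
    ∃ u : W, ρ u = yb ∧ ∀ P : Place L F, 0 ≤ P.ord (J : F) → 0 ≤ P.ord (u : F) := by
  refine ged_N0 W ρ J hsep (fun yb' h' => ?_) yb hyb
  obtain ⟨u, hu, hint⟩ := hInt0 yb' (geb_int_of_isIntegral h')
  exact ⟨u, hu, geb_isIntegral_of_int hint⟩

/-- variant of `ged_Ninf` with the integrality hypotheses in helper77's `h1v_Int` form -/
theorem ged_Ninf' (W : ValuationSubring F) (ρ : W →+* Fb) (J : W)
    (hsep : pls_IsSepCoordinate k Fb (ρ J))
    (hIntInf : ∀ yb : Fb, h1v_Int k (ρ J)⁻¹ yb →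
      ∃ u : W, ρ u = yb ∧ h1v_Int L ((J : F))⁻¹ (u : F))
    (yb : Fb) (hyb : ∀ Q : Place k Fb, Q.ord (ρ J) ≤ 0 → 0 ≤ Q.ord yb) :
    ∃ u : W, ρ u = yb ∧ ∀ P : Place L F, P.ord (J : F) ≤ 0 → 0 ≤ P.ord (u : F) := by
  refine ged_Ninf W ρ J hsep (fun yb' h' => ?_) yb hyb
  obtain ⟨u, hu, hint⟩ := hIntInf yb' (geb_int_of_isIntegral h')
  exact ⟨u, hu, geb_isIntegral_of_int hint⟩

end Glue

end Fermat.Agent.S18x
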