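/-
S18x/GlueFinal (helper40): TOP-glue.  `s18a_result_of_inputs` (helper80, S18x/Assembly.lean) with
EVERY input discharged except the two open blocks:
* (I1)  the Gauss data `W, ρ, G : s18a_Gauss ..` with a coordinate `J : W`, `J = jBar N`,
        `ρ J = jqModC k`   (= the conclusion of `gi_exists_gauss`, helper19);
* (GE)  ONE divisor `D₀` on the reduced field with
        `dim L̄(D₀) + g(F_N) ≤ deg D₀ + 1`   (blocks GE1 + GE2).
Discharged here: `HF`, `hBF` (`rmn_hyp_FBar`, `rmn_bound_FBar`), `P₀` (a pole of `j`), `hD₀fin`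
(`rmn_fg_fb`), `hJnc` (`unr_fb_nonconst`), `DJ`, `DJb` (`hpd`), `hpol` (`glu_hpol_assembly`),
`Sbad`, `hunr` (`unr_fb`).
-/
import Mathlib
import Fermat.Agent.S18x.GlueHpol
import Fermat.Agent.S18x.RmnFbar
import Fermat.Agent.S18x.RmnOfRmt

set_option autoImplicit false
set_option synthInstance.maxHeartbeats 400000

namespace Fermat.Agent.S18x

open AlgebraicCurve ModularCurve
open Fermat.Agent.S24x

/-- **Conditional S18 from (I1) + (GE) only.** -/
theorem glu_result_of_gauss_ge (N : ℕ) [NeZero N] {ℓ : ℕ} [Fact ℓ.Prime] (hℓN : ¬ ℓ ∣ N)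
    (A : ValuationSubring (AlgebraicClosure ℚ)) (hA : A.LiesOverPrime ℓ)
    (h : ModularCurve.ReductionInputsModL A N)
    (W : ValuationSubring (modularFunctionFieldBar N))
    (ρ : W →+* modularFunctionFieldFullC (IsLocalRing.ResidueField A) N)
    (G : s18a_Gauss A (IsLocalRing.residue A) W ρ (placeReductionModL h))
    (J : W) (hJ : (J : modularFunctionFieldBar N) = jBar N)
    (hρJ : ((ρ J : modularFunctionFieldFullC (IsLocalRing.ResidueField A) N) :
      LaurentSeries (IsLocalRing.ResidueField A)) = jqModC (IsLocalRing.ResidueField A))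
    (D₀ : Divisor (IsLocalRing.ResidueField A)
      (modularFunctionFieldFullC (IsLocalRing.ResidueField A) N))
    (hD₀ : (Module.finrank (IsLocalRing.ResidueField A) (riemannRochSpace D₀) : ℤ) +
      rmn_genus (AlgebraicClosure ℚ) (modularFunctionFieldBar N) ≤ Divisor.degree D₀ + 1)
    (m : ℕ) (hm : ¬ ℓ ∣ m) (z : ModularCurve.JZero N) (hmz : m • z = 0)
    (hz : ModularCurve.reductionModL A N z = 0) : z = 0 := by
  have hk : IsAlgClosed (IsLocalRing.ResidueField A) := s18a_isAlgClosed_residue A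
  have hρJ' : ρ J = pls_jb (IsLocalRing.ResidueField A) N := Subtype.ext hρJ
  have HF := rmn_hyp_FBar N
  have hBF := rmn_bound_FBar N
  -- a place of `F_N`
  obtain ⟨P₀, -⟩ := pls_exists_pole (pls_isSepCoordinate_jBar N)
  -- the divisors of `J` and `ρ J`
  have hJ0 : (J : modularFunctionFieldBar N) ≠ 0 := by
    rw [hJ]
    intro h0
    exact (fbf_isCoordinate_jBar N).transcendental (h0 ▸ isAlgebraic_zero)
  obtain ⟨DJ, hDJ⟩ := HF.hpd (J : modularFunctionFieldBar N) hJ0
  have hρJ0 : ρ J ≠ 0 := by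
    rw [hρJ']
    intro h0
    exact (pls_transcendental_jb (IsLocalRing.ResidueField A) N) (h0 ▸ isAlgebraic_zero)
  obtain ⟨DJb, hDJb⟩ := pls_fb_hpd (IsLocalRing.ResidueField A) N (ρ J) hρJ0
  have hpol := glu_hpol_assembly N hℓN A hA W ρ J hJ hρJ DJ hDJ DJb hDJb
  obtain ⟨Sbad, hunr⟩ := unr_fb (IsLocalRing.ResidueField A) N
  refine s18a_result_of_inputs N A hA h W ρ G HF hBF P₀ D₀
    (rmn_fg_fb (IsLocalRing.ResidueField A) N D₀) hD₀ J ?_ DJ hDJ DJb hDJb hpol Sbad ?_
    m hm z hmz hz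
  · intro a
    rw [hρJ']
    exact unr_fb_nonconst (IsLocalRing.ResidueField A) N a
  · intro Q hQ
    rw [hρJ']
    exact hunr Q hQ

end Fermat.Agent.S18x
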