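/-
S18x/NlGen (helper80, block GE1, part 1): generation of the graded module `⊕_t L(t B)` in bounded
degree, for `B = (x)_∞` the polar divisor of a function `x`, from the exact Riemann theorem
(`rmn_finrank_nsmul`):  for `t ≥ t₁`,   `L((t+1) B) = L(t B) + x · L(t B)`.
Pure function-field statement (one field), any characteristic.  Prefix `nl_`.
-/
import Fermat.Agent.S18x.RmnCompare

set_option autoImplicit false

namespace Fermat.Agent.S18x

open AlgebraicCurve WithZero

section Gen

variable {K F : Type*} [Field K] [Field F] [Algebra K F]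

/-- `B` is the polar divisor of `x` -/
def nl_IsPolar (x : F) (B : Divisor K F) : Prop := ∀ P : Place K F, B P = max (-(P.ord x)) 0

/-- `Z` is the zero divisor of `x` -/
def nl_IsZeroDiv (x : F) (Z : Divisor K F) : Prop := ∀ P : Place K F, Z P = max (P.ord x) 0

theorem nl_exists_polar (x : F) (Dx : Divisor K F) (hDx : ∀ P, Dx P = P.ord x) :
    ∃ B : Divisor K F, nl_IsPolar x B := by
  refine ⟨Dx.mapRange (fun n => max (-n) 0) (by simp), fun P => ?_⟩
  rw [Finsupp.mapRange_apply, hDx]

theorem nl_exists_zeroDiv (x : F) (Dx : Divisor K F) (hDx : ∀ P, Dx P = P.ord x) :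
    ∃ Z : Divisor K F, nl_IsZeroDiv x Z := by
  refine ⟨Dx.mapRange (fun n => max n 0) (by simp), fun P => ?_⟩
  rw [Finsupp.mapRange_apply, hDx]

theorem nl_nsmul_apply (B : Divisor K F) (t : ℕ) (P : Place K F) : (t • B) P = t * B P := by
  rw [Finsupp.smul_apply, nsmul_eq_mul]

theorem nl_polar_nonneg {x : F} {B : Divisor K F} (hB : nl_IsPolar x B) (P : Place K F) :
    0 ≤ B P := by
  rw [hB P]; exact le_max_right _ _

theorem nl_L_mono_nsmul {x : F} {B : Divisor K F} (hB : nl_IsPolar x B) {t t' : ℕ} (h : t ≤ t') :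
    riemannRochSpace (t • B) ≤ riemannRochSpace (t' • B) := by
  intro y hy
  rw [mem_riemannRochSpace_iff] at hy ⊢
  intro P
  rcases hy P with h0 | h1
  · exact Or.inl h0
  · right
    rw [nl_nsmul_apply] at h1 ⊢
    have hB0 := nl_polar_nonneg hB P
    have : (t : ℤ) * B P ≤ t' * B P :=
      mul_le_mul_of_nonneg_right (by exact_mod_cast h) hB0
    omega

/-- multiplication by `x` raises the level by one -/
theorem nl_mul_mem {x : F} (hx0 : x ≠ 0) {B : Divisor K F} (hB : nl_IsPolar x B) (t : ℕ) {y : F}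
    (hy : y ∈ riemannRochSpace (t • B)) : x * y ∈ riemannRochSpace ((t + 1) • B) := by
  rw [mem_riemannRochSpace_iff] at hy ⊢
  intro P
  rcases hy P with h0 | h1
  · left; rw [h0, mul_zero]
  · by_cases hy0 : y = 0
    · left; rw [hy0, mul_zero]
    · right
      rw [P.ord_mul hx0 hy0, nl_nsmul_apply]
      rw [nl_nsmul_apply] at h1
      have hB1 : -(P.ord x) ≤ B P := by rw [hB P]; exact le_max_left _ _
      push_cast
      nlinarith

/-- if `y` and `x y` both have level `t + 1` then `y` has level `t` -/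
theorem nl_mem_pred {x : F} (hx0 : x ≠ 0) {B : Divisor K F} (hB : nl_IsPolar x B) (t : ℕ) {y : F}
    (hy : y ∈ riemannRochSpace ((t + 1) • B)) (hxy : x * y ∈ riemannRochSpace ((t + 1) • B)) :
    y ∈ riemannRochSpace (t • B) := by
  rw [mem_riemannRochSpace_iff] at hy hxy ⊢
  intro P
  by_cases hy0 : y = 0
  · exact Or.inl hy0
  right
  have h1 := (hy P).resolve_left hy0
  have h2 := (hxy P).resolve_left (mul_ne_zero hx0 hy0)
  rw [P.ord_mul hx0 hy0, nl_nsmul_apply] at h2
  rw [nl_nsmul_apply] at h1 ⊢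
  have hBP := hB P
  push_cast at h1 h2
  rcases le_total (-(P.ord x)) 0 with hle | hle
  · -- `B P = 0`
    have hB0 : B P = 0 := by rw [hBP]; exact max_eq_right hle
    rw [hB0] at h1 ⊢
    simp only [mul_zero, neg_zero] at h1 ⊢
    exact h1
  · have hB1 : B P = -(P.ord x) := by rw [hBP]; exact max_eq_left hle
    rw [hB1] at h2 ⊢
    nlinarith

/-- the multiplication-by-`x` map -/
noncomputable def nl_mulx (x : F) : F →ₗ[K] F := LinearMap.mulLeft K x

theorem nl_mulx_apply (x y : F) : nl_mulx (K := K) x y = x * y := rfl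

theorem nl_mulx_injective {x : F} (hx0 : x ≠ 0) : Function.Injective (nl_mulx (K := K) x) := by
  intro a b h
  simp only [nl_mulx_apply] at h
  exact mul_left_cancel₀ hx0 h

/-- **generation in bounded degree**: for `t` large, `L((t+1)B) = L(tB) + x L(tB)`. -/
theorem nl_gen (H : rmn_Hyp K F) (hBd : rmn_Bound K F) {x : F} (hx0 : x ≠ 0) {B : Divisor K F}
    (hB : nl_IsPolar x B) (hpos : 0 < Divisor.degree B) :
    ∃ t₁ : ℕ, ∀ t : ℕ, t₁ ≤ t →
      riemannRochSpace ((t + 1) • B) =
        riemannRochSpace (t • B) ⊔ (riemannRochSpace (t • B)).map (nl_mulx (K := K) x) := by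
  obtain ⟨c, hc⟩ := rmn_finrank_nsmul H hBd B hpos
  refine ⟨c + 1, fun t ht => ?_⟩
  obtain ⟨s, rfl⟩ : ∃ s, t = s + 1 := ⟨t - 1, by omega⟩
  have hs : c ≤ s := by omega
  set V := riemannRochSpace ((s + 1) • B) with hV
  set V' := riemannRochSpace (s • B) with hV'
  set V'' := riemannRochSpace ((s + 1 + 1) • B) with hV''
  have : Module.Finite K V := rmn_finite H _
  have : Module.Finite K V' := rmn_finite H _
  have : Module.Finite K V'' := rmn_finite H _
  set xV := V.map (nl_mulx (K := K) x) with hxV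
  have hle : V ⊔ xV ≤ V'' := by
    apply sup_le
    · exact nl_L_mono_nsmul hB (by omega)
    · rintro z ⟨y, hy, rfl⟩
      exact nl_mul_mem hx0 hB (s + 1) hy
  -- the intersection
  have hinf : V ⊓ xV = V'.map (nl_mulx (K := K) x) := by
    apply le_antisymm
    · rintro z ⟨hz1, y, hy, rfl⟩
      refine ⟨y, ?_, rfl⟩
      exact nl_mem_pred hx0 hB s hy hz1
    · rintro z ⟨y, hy, rfl⟩
      refine ⟨nl_mul_mem hx0 hB s hy, y, ?_, rfl⟩
      exact nl_L_mono_nsmul hB (by omega) hy
  have hfin_xV : Module.finrank K xV = Module.finrank K V :=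
    (Submodule.equivMapOfInjective _ (nl_mulx_injective hx0) V).finrank_eq.symm
  have hfin_xV' : Module.finrank K (V'.map (nl_mulx (K := K) x)) = Module.finrank K V' :=
    (Submodule.equivMapOfInjective _ (nl_mulx_injective hx0) V').finrank_eq.symm
  have : Module.Finite K xV := Module.Finite.map V _
  have hdim := Submodule.finrank_sup_add_finrank_inf_eq V xV
  rw [hinf, hfin_xV, hfin_xV'] at hdim
  have e1 := hc (s + 1) (by omega)
  have e0 := hc s hs
  have e2 := hc (s + 1 + 1) (by omega)
  rw [← hV] at e1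
  rw [← hV'] at e0
  rw [← hV''] at e2
  have hfin : Module.finrank K ↥(V ⊔ xV) = Module.finrank K V'' := by
    have hdim' : (Module.finrank K ↥(V ⊔ xV) : ℤ) + Module.finrank K V' =
        Module.finrank K V + Module.finrank K V := by exact_mod_cast hdim
    have : (Module.finrank K ↥(V ⊔ xV) : ℤ) = Module.finrank K V'' := by
      push_cast at e0 e1 e2
      linarith
    exact_mod_cast this
  exact (Submodule.eq_of_le_of_finrank_eq hle hfin).symm

end Gen

end Fermat.Agent.S18x
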