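/-
S18x/NlLift (helper80, block GE1, part 2): THE LAST MILE of the genus inequality.

Abstract `ts_Hyp` setting.  `x ∈ W` a coordinate, `B = (x)_∞` on `F`, `Bb = (ρ x)_∞` on `Fb`.
If the two affine charts of the `x`-line are NORMAL in the sense
  (N0)   every `yb ∈ Fb` regular off the poles of `ρ x` lifts to `u ∈ W` regular off the poles of `x`,
  (Ninf) every `yb ∈ Fb` regular off the zeros of `ρ x` lifts to `u ∈ W` regular off the zeros of `x`,
and the exact Riemann theorem holds on `Fb`, then for all large `T` every `yb ∈ L̄(T Bb)` lifts to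
an element of `W ∩ L(T B)` (`nl_lift`); consequently `dim L̄(T Bb) ≤ dim L(T B)` and
`D₀ := T Bb` satisfies the genus inequality `hD₀` required by `ns_ts_injective` (`nl_D0`).

No finite generation over the (non-noetherian) valuation ring, no discrete model, no cohomology:
the graded module `⊕ L̄(t Bb)` is generated in bounded degree (`nl_gen`), and only finitely many
generators have to be lifted.
-/
import Fermat.Agent.S18x.NlGen
import Fermat.Agent.S18x.NsGE

set_option autoImplicit false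

namespace Fermat.Agent.S18x

open AlgebraicCurve WithZero

section Family

variable {k V : Type*} [Field k] [AddCommGroup V] [Module k V]

/-- a finitely generated submodule contained elementwise in a monotone union of submodules is
contained in one member of the family -/
theorem nl_le_of_forall_mem (N : ℕ → Submodule k V) (hmono : ∀ a b, a ≤ b → N a ≤ N b)
    (S : Submodule k V) (hS : S.FG) (h : ∀ y ∈ S, ∃ m, y ∈ N m) : ∃ m, S ≤ N m := by
  classical
  obtain ⟨s, hs⟩ := hS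
  have hsS : ∀ y ∈ s, y ∈ S := fun y hy => hs ▸ Submodule.subset_span hy
  choose! m hm using h
  refine ⟨s.sup m, ?_⟩
  rw [← hs, Submodule.span_le]
  intro y hy
  exact hmono _ _ (Finset.le_sup hy) (hm y (hsS y hy))

end Family

section Poles

variable {K F : Type*} [Field K] [Field F] [Algebra K F]

/-- a function whose poles lie in the support of an effective divisor `B` belongs to some
`L(m B)` -/
theorem nl_exists_level (B : Divisor K F) (hB0 : ∀ P, 0 ≤ B P) (u : F)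
    (hu : ∀ P : Place K F, B P = 0 → 0 ≤ P.ord u) :
    ∃ m : ℕ, u ∈ riemannRochSpace (m • B) := by
  classical
  refine ⟨∑ P ∈ B.support, (-(P.ord u)).toNat, ?_⟩
  rw [mem_riemannRochSpace_iff]
  intro P
  right
  rw [nl_nsmul_apply]
  by_cases hP : P ∈ B.support
  · have h1 : (1 : ℤ) ≤ B P := by
      have := hB0 P
      have hne : B P ≠ 0 := Finsupp.mem_support_iff.mp hP
      omega
    have h2 : (-(P.ord u)).toNat ≤ ∑ P ∈ B.support, (-(P.ord u)).toNat :=
      Finset.single_le_sum (f := fun P => (-(P.ord u)).toNat) (fun _ _ => Nat.zero_le _) hP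
    have h3 : -(P.ord u) ≤ ((-(P.ord u)).toNat : ℤ) := Int.self_le_toNat _
    have h4 : ((-(P.ord u)).toNat : ℤ) ≤ ((∑ P ∈ B.support, (-(P.ord u)).toNat : ℕ) : ℤ) := by
      exact_mod_cast h2
    have h5 : ((∑ P ∈ B.support, (-(P.ord u)).toNat : ℕ) : ℤ) * 1 ≤
        ((∑ P ∈ B.support, (-(P.ord u)).toNat : ℕ) : ℤ) * B P :=
      mul_le_mul_of_nonneg_left h1 (by positivity)
    omega
  · have hBP : B P = 0 := Finsupp.notMem_support_iff.mp hP
    rw [hBP, mul_zero, neg_zero]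
    exact hu P hBP

end Poles

section Lift

variable {L k F Fb : Type*} [Field L] [Field k] [Field F] [Field Fb] [Algebra L F] [Algebra k Fb]
variable {A : ValuationSubring L} {π : A →+* k} {W : ValuationSubring F} {ρ : W →+* Fb}
  {r : Place L F → Place k Fb}

/-- the `k`-space of reductions of elements of `W ∩ L(t B)` -/
def nl_Lam (H : ts_Hyp A π W ρ r) (B : Divisor L F) (t : ℕ) : Submodule k Fb where
  carrier := {yb | ∃ u : W, (u : F) ∈ riemannRochSpace (t • B) ∧ ρ u = yb}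
  zero_mem' := ⟨0, by simp, map_zero ρ⟩
  add_mem' := by
    rintro a b ⟨u, hu, rfl⟩ ⟨v, hv, rfl⟩
    exact ⟨u + v, by
      have : ((u + v : W) : F) = (u : F) + (v : F) := rfl
      rw [this]; exact Submodule.add_mem _ hu hv, map_add ρ u v⟩
  smul_mem' := by
    rintro cb a ⟨u, hu, rfl⟩
    obtain ⟨⟨c, hc⟩, hcb⟩ := H.pi_surj cb
    have hcW : algebraMap L F c ∈ W := H.algW hc
    refine ⟨⟨algebraMap L F c, hcW⟩ * u, ?_, ?_⟩
    · have : ((⟨algebraMap L F c, hcW⟩ * u : W) : F) = c • (u : F) := by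
        rw [Algebra.smul_def]; rfl
      rw [this]
      exact Submodule.smul_mem _ c hu
    · rw [map_mul, H.rho_alg c hc hcW, hcb, Algebra.smul_def]

theorem nl_mem_Lam (H : ts_Hyp A π W ρ r) (B : Divisor L F) (t : ℕ) (yb : Fb) :
    yb ∈ nl_Lam H B t ↔ ∃ u : W, (u : F) ∈ riemannRochSpace (t • B) ∧ ρ u = yb := Iff.rfl

theorem nl_Lam_mono (H : ts_Hyp A π W ρ r) {x : F} {B : Divisor L F} (hB : nl_IsPolar x B)
    (a b : ℕ) (h : a ≤ b) : nl_Lam H B a ≤ nl_Lam H B b := by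
  rintro yb ⟨u, hu, rfl⟩
  exact ⟨u, nl_L_mono_nsmul hB h hu, rfl⟩

theorem nl_Lam_mul (H : ts_Hyp A π W ρ r) (x : W) (hx0 : (x : F) ≠ 0) {B : Divisor L F}
    (hB : nl_IsPolar (x : F) B) (t : ℕ) {yb : Fb} (hy : yb ∈ nl_Lam H B t) :
    ρ x * yb ∈ nl_Lam H B (t + 1) := by
  obtain ⟨u, hu, rfl⟩ := hy
  refine ⟨x * u, ?_, map_mul ρ x u⟩
  have : ((x * u : W) : F) = (x : F) * (u : F) := rfl
  rw [this]
  exact nl_mul_mem hx0 hB t hu

theorem nl_Lam_pow (H : ts_Hyp A π W ρ r) (x : W) (hx0 : (x : F) ≠ 0) {B : Divisor L F}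
    (hB : nl_IsPolar (x : F) B) (t : ℕ) (j : ℕ) {yb : Fb} (hy : yb ∈ nl_Lam H B t) :
    ρ x ^ j * yb ∈ nl_Lam H B (t + j) := by
  induction j with
  | zero => simpa using hy
  | succ j ih =>
    have := nl_Lam_mul H x hx0 hB (t + j) ih
    rw [← mul_assoc, ← pow_succ'] at this
    exact this

/-- iterating `nl_gen`: `L̄((t₁+s) Bb)` is spanned by the `xb^j L̄(t₁ Bb)`, `j ≤ s` -/
theorem nl_span_pow {K' F' : Type*} [Field K'] [Field F'] [Algebra K' F'] {xb : F'}
    {Bb : Divisor K' F'} (t₁ : ℕ)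
    (hgen : ∀ t : ℕ, t₁ ≤ t → riemannRochSpace ((t + 1) • Bb) =
      riemannRochSpace (t • Bb) ⊔ (riemannRochSpace (t • Bb)).map (nl_mulx (K := K') xb))
    (N : Submodule K' F') (s : ℕ)
    (hN : ∀ j : ℕ, j ≤ s → ∀ y ∈ riemannRochSpace (t₁ • Bb), xb ^ j * y ∈ N) :
    riemannRochSpace ((t₁ + s) • Bb) ≤ N := by
  induction s generalizing N with
  | zero =>
    intro y hy
    have := hN 0 le_rfl y (by simpa using hy)
    simpa using this
  | succ s ih =>
    have e : t₁ + (s + 1) = (t₁ + s) + 1 := by omega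
    rw [e, hgen (t₁ + s) (by omega)]
    apply sup_le
    · exact ih N fun j hj y hy => hN j (by omega) y hy
    · -- `xb • L((t₁+s)Bb) ≤ N`  iff  `L((t₁+s)Bb) ≤ comap`
      rw [Submodule.map_le_iff_le_comap]
      apply ih (N.comap (nl_mulx (K := K') xb))
      intro j hj y hy
      rw [Submodule.mem_comap, nl_mulx_apply, ← mul_assoc, ← pow_succ']
      exact hN (j + 1) (by omega) y hy

/-- **THE LAST MILE**: two-chart normality ⟹ lifting of `L̄(T Bb)` into `W ∩ L(T B)` for all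
large `T`. -/
theorem nl_lift (H : ts_Hyp A π W ρ r) (Hb : rmn_Hyp k Fb) (hBb : rmn_Bound k Fb)
    (x : W) (hxb : ρ x ≠ 0)
    (B : Divisor L F) (hB : nl_IsPolar (x : F) B)
    (Bb : Divisor k Fb) (hBbp : nl_IsPolar (ρ x) Bb) (hpos : 0 < Divisor.degree Bb)
    (hN0 : ∀ yb : Fb, (∀ Q : Place k Fb, 0 ≤ Q.ord (ρ x) → 0 ≤ Q.ord yb) →
      ∃ u : W, ρ u = yb ∧ ∀ P : Place L F, 0 ≤ P.ord (x : F) → 0 ≤ P.ord (u : F))
    (hNinf : ∀ yb : Fb, (∀ Q : Place k Fb, Q.ord (ρ x) ≤ 0 → 0 ≤ Q.ord yb) →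
      ∃ u : W, ρ u = yb ∧ ∀ P : Place L F, P.ord (x : F) ≤ 0 → 0 ≤ P.ord (u : F)) :
    ∃ T₀ : ℕ, ∀ T : ℕ, T₀ ≤ T → ∀ yb ∈ riemannRochSpace (T • Bb),
      ∃ u : W, (u : F) ∈ riemannRochSpace (T • B) ∧ ρ u = yb := by
  classical
  have hx0 : (x : F) ≠ 0 := ts_ne_zero_of_rho_ne_zero hxb
  obtain ⟨t₁, hgen⟩ := nl_gen Hb hBb hxb hBbp hpos
  have hB0 : ∀ P, 0 ≤ B P := nl_polar_nonneg hB
  -- zero divisor of `x`
  obtain ⟨Dx, hDx⟩ := H.hpd (x : F) hx0
  obtain ⟨Z, hZ⟩ := nl_exists_zeroDiv (x : F) Dx hDx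
  have hZ0 : ∀ P, 0 ≤ Z P := fun P => by rw [hZ P]; exact le_max_right _ _
  set V₁ := riemannRochSpace (t₁ • Bb) with hV₁
  have hV₁fg : V₁.FG := by
    have : Module.Finite k V₁ := rmn_finite Hb _
    exact Module.Finite.iff_fg.mp this
  -- (i) lifting through the chart `x ≠ ∞`
  have h1 : ∃ m, V₁ ≤ nl_Lam H B m := by
    apply nl_le_of_forall_mem (nl_Lam H B) (nl_Lam_mono H hB) V₁ hV₁fg
    intro yb hyb
    have hreg : ∀ Q : Place k Fb, 0 ≤ Q.ord (ρ x) → 0 ≤ Q.ord yb := by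
      intro Q hQ
      rcases (mem_riemannRochSpace_iff.mp hyb Q) with h0 | h0
      · rw [h0, Place.ord_zero]
      · rw [nl_nsmul_apply, hBbp Q, max_eq_right (by omega), mul_zero, neg_zero] at h0
        exact h0
    obtain ⟨u, hu, hureg⟩ := hN0 yb hreg
    obtain ⟨m, hm⟩ := nl_exists_level B hB0 (u : F) (fun P hP => hureg P (by
      have := hB P
      rw [hP] at this
      have h2 : -(P.ord (x : F)) ≤ max (-(P.ord (x : F))) 0 := le_max_left _ _
      omega))
    exact ⟨m, u, hm, hu⟩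
  -- (ii) lifting through the chart `x ≠ 0`
  let N' : ℕ → Submodule k Fb := fun m =>
    ⨅ s : ℕ, ⨅ _ : m ≤ s, (nl_Lam H B (t₁ + s)).comap (nl_mulx (K := k) (ρ x ^ s))
  have hN'mono : ∀ a b, a ≤ b → N' a ≤ N' b := by
    intro a b hab y hy
    simp only [N', Submodule.mem_iInf] at hy ⊢
    intro s hs
    exact hy s (le_trans hab hs)
  have h2 : ∃ m', V₁ ≤ N' m' := by
    apply nl_le_of_forall_mem N' hN'mono V₁ hV₁fg
    intro yb hyb
    -- `zb = yb / xb^t₁`
    set zb : Fb := yb * (ρ x ^ t₁)⁻¹ with hzb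
    have hreg : ∀ Q : Place k Fb, Q.ord (ρ x) ≤ 0 → 0 ≤ Q.ord zb := by
      intro Q hQ
      by_cases hy0 : yb = 0
      · rw [hzb, hy0, zero_mul, Place.ord_zero]
      have h0 := (mem_riemannRochSpace_iff.mp hyb Q).resolve_left hy0
      rw [nl_nsmul_apply, hBbp Q, max_eq_left (by omega)] at h0
      rw [hzb, Q.ord_mul hy0 (inv_ne_zero (pow_ne_zero _ hxb)), Place.ord_inv, ts_ord_pow]
      linarith
    obtain ⟨u', hu', hu'reg⟩ := hNinf zb hreg
    obtain ⟨m', hm'⟩ := nl_exists_level Z hZ0 (u' : F) (fun P hP => hu'reg P (by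
      have := hZ P
      rw [hP] at this
      have h2 : P.ord (x : F) ≤ max (P.ord (x : F)) 0 := le_max_left _ _
      omega))
    refine ⟨m', ?_⟩
    simp only [N', Submodule.mem_iInf, Submodule.mem_comap, nl_mulx_apply]
    intro s hs
    refine ⟨x ^ (t₁ + s) * u', ?_, ?_⟩
    · -- membership in `L((t₁+s) B)`
      have hcoe : ((x ^ (t₁ + s) * u' : W) : F) = (x : F) ^ (t₁ + s) * (u' : F) := rfl
      rw [hcoe, mem_riemannRochSpace_iff]
      intro P
      by_cases hu0 : (u' : F) = 0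
      · left; rw [hu0, mul_zero]
      right
      rw [P.ord_mul (pow_ne_zero _ hx0) hu0, ts_ord_pow, nl_nsmul_apply]
      have hm'P := (mem_riemannRochSpace_iff.mp hm' P).resolve_left hu0
      rw [nl_nsmul_apply, hZ P] at hm'P
      have hBP := hB P
      push_cast
      rcases le_total (P.ord (x : F)) 0 with hle | hle
      · -- pole or unit of `x`: `u'` regular
        have hureg := hu'reg P hle
        rw [hBP, max_eq_left (by omega)]
        nlinarith
      · -- zero of `x`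
        rw [max_eq_left hle] at hm'P
        rw [hBP, max_eq_right (by omega)]
        have hs' : (m' : ℤ) ≤ s := by exact_mod_cast hs
        nlinarith
    · rw [map_mul, map_pow, hu', hzb, pow_add]
      field_simp
  obtain ⟨m, hm⟩ := h1
  obtain ⟨m', hm'⟩ := h2
  -- base case `T₀ = t₁ + (m + m')`
  have hbase : riemannRochSpace ((t₁ + (m + m')) • Bb) ≤ nl_Lam H B (t₁ + (m + m')) := by
    apply nl_span_pow t₁ hgen _ (m + m')
    intro j hj y hy
    by_cases hjm : m' ≤ j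
    · have h3 := hm' hy
      simp only [N', Submodule.mem_iInf, Submodule.mem_comap, nl_mulx_apply] at h3
      exact nl_Lam_mono H hB _ _ (by omega) (h3 j hjm)
    · have h3 : y ∈ nl_Lam H B (t₁ + m) := nl_Lam_mono H hB _ _ (by omega) (hm hy)
      have h4 := nl_Lam_pow H x hx0 hB (t₁ + m) j h3
      exact nl_Lam_mono H hB _ _ (by omega) h4
  refine ⟨t₁ + (m + m'), fun T hT => ?_⟩
  -- induction on `T`
  obtain ⟨d, rfl⟩ : ∃ d, T = t₁ + (m + m') + d := ⟨T - (t₁ + (m + m')), by omega⟩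
  clear hT
  induction d with
  | zero => exact fun yb hyb => hbase hyb
  | succ d ih =>
    have e : t₁ + (m + m') + (d + 1) = (t₁ + (m + m') + d) + 1 := by omega
    rw [e, hgen _ (by omega)]
    intro yb hyb
    obtain ⟨a, ha, b, hb, rfl⟩ := Submodule.mem_sup.mp hyb
    obtain ⟨b', hb', rfl⟩ := hb
    have h5 : a ∈ nl_Lam H B (t₁ + (m + m') + d + 1) :=
      nl_Lam_mono H hB _ _ (by omega) (ih a ha)
    have h6 : ρ x * b' ∈ nl_Lam H B (t₁ + (m + m') + d + 1) :=
      nl_Lam_mul H x hx0 hB _ (ih b' hb')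
    exact (nl_Lam H B _).add_mem h5 h6

end Lift

end Fermat.Agent.S18x

namespace Fermat.Agent.S18x

open AlgebraicCurve WithZero

section D0

variable {L k F Fb : Type*} [Field L] [Field k] [Field F] [Field Fb] [Algebra L F] [Algebra k Fb]
variable {A : ValuationSubring L} {π : A →+* k} {W : ValuationSubring F} {ρ : W →+* Fb}
  {r : Place L F → Place k Fb}

/-- **Genus inequality from two-chart normality**: the divisor `D₀ = T • Bb` required by
`ns_ts_injective` / `s18a_result_of_inputs`. -/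
theorem nl_D0 (H : ts_Hyp A π W ρ r) (HF : rmn_Hyp L F) (hBF : rmn_Bound L F)
    (Hb : rmn_Hyp k Fb) (hBb : rmn_Bound k Fb)
    (x : W) (hxb : ρ x ≠ 0)
    (B : Divisor L F) (hB : nl_IsPolar (x : F) B) (hposB : 0 < Divisor.degree B)
    (Bb : Divisor k Fb) (hBbp : nl_IsPolar (ρ x) Bb) (hdeg : Divisor.degree B ≤ Divisor.degree Bb)
    (hN0 : ∀ yb : Fb, (∀ Q : Place k Fb, 0 ≤ Q.ord (ρ x) → 0 ≤ Q.ord yb) →
      ∃ u : W, ρ u = yb ∧ ∀ P : Place L F, 0 ≤ P.ord (x : F) → 0 ≤ P.ord (u : F))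
    (hNinf : ∀ yb : Fb, (∀ Q : Place k Fb, Q.ord (ρ x) ≤ 0 → 0 ≤ Q.ord yb) →
      ∃ u : W, ρ u = yb ∧ ∀ P : Place L F, P.ord (x : F) ≤ 0 → 0 ≤ P.ord (u : F)) :
    ∃ D₀ : Divisor k Fb, (riemannRochSpace D₀).FG ∧
      (Module.finrank k (riemannRochSpace D₀) : ℤ) + rmn_genus L F ≤ Divisor.degree D₀ + 1 := by
  have hposb : 0 < Divisor.degree Bb := lt_of_lt_of_le hposB hdeg
  obtain ⟨T₀, hT₀⟩ := nl_lift H Hb hBb x hxb B hB Bb hBbp hposb hN0 hNinf
  obtain ⟨c, hc⟩ := rmn_finrank_nsmul HF hBF B hposB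
  set T := max T₀ c with hT
  have : Module.Finite L (riemannRochSpace (T • B)) := rmn_finite HF _
  obtain ⟨hfg, hle⟩ := ns_finrank_le_of_lift H (T • B) (T • Bb)
    (fun y hy => hT₀ T (le_max_left _ _) y hy)
  refine ⟨T • Bb, hfg, ?_⟩
  have e := hc T (le_max_right _ _)
  have hle' : (Module.finrank k (riemannRochSpace (T • Bb)) : ℤ) ≤
      Module.finrank L (riemannRochSpace (T • B)) := by exact_mod_cast hle
  rw [rmn_degree_nsmul]
  have hT0 : (0 : ℤ) ≤ T := by positivity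
  have : (T : ℤ) * Divisor.degree B ≤ T * Divisor.degree Bb :=
    mul_le_mul_of_nonneg_left hdeg hT0
  omega

end D0

end Fermat.Agent.S18x
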