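/-
S18x/GlueNrm (helper40): TOP-glue.  The frozen S18 conclusion from
* (I1)  the Gauss data `W, ρ, G : s18a_Gauss ..`, `J : W`, `J = jBar N`, `ρ J = jqModC k`
        (conclusion of `gi_exists_gauss`, helper19), and
* (GE2) two-chart normality at level `N` in place language (`hN0`, `hNinf`; blocks NRM),
combining `nl_D0` (helper80, GE1) with `glu_result_of_gauss_ge` (S18x/GlueFinal).
Also `glu_degree_polar_eq_cdeg`: the polar divisor of a separating coordinate has degree
`[F : K(t)]`.
-/
import Mathlib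
import Fermat.Agent.S18x.GlueFinal
import Fermat.Agent.S18x.NlLift

set_option autoImplicit false
set_option synthInstance.maxHeartbeats 400000

namespace Fermat.Agent.S18x

open AlgebraicCurve ModularCurve
open Fermat.Agent.S24x

section Generic

variable {K F : Type*} [Field K] [Field F] [Algebra K F]

/-- the polar divisor of a separating coordinate `t` has degree `[F : K(t)]` -/
theorem glu_degree_polar_eq_cdeg [IsAlgClosed K] {t : F} (ht : pls_IsSepCoordinate K F t)
    (B : Divisor K F) (hB : nl_IsPolar t B) : Divisor.degree B = (cdeg K F t : ℤ) := by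
  classical
  obtain ⟨hfin, hsum⟩ := pls_sum_ord_polePlaces ht
  rw [rmn_degree_eq_sum_of_deg (pls_place_deg_eq_one ht) B, Finsupp.sum, ← hsum]
  have hsupp : B.support = hfin.toFinset := by
    ext v
    rw [Finsupp.mem_support_iff, hB v, Set.Finite.mem_toFinset, mem_polePlaces]
    constructor
    · intro h
      by_contra hcon
      exact h (max_eq_right (by omega))
    · intro h
      rw [max_eq_left (by omega)]
      omega
  rw [hsupp]
  refine Finset.sum_congr rfl fun v hv => ?_
  rw [Set.Finite.mem_toFinset, mem_polePlaces] at hv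
  rw [hB v, max_eq_left (by omega)]

end Generic

section Concrete

set_option maxHeartbeats 2000000 in
/-- **Conditional S18 from (I1) + two-chart normality (GE2) only.** -/
theorem glu_result_of_gauss_nrm (N : ℕ) [NeZero N] {ℓ : ℕ} [Fact ℓ.Prime] (hℓN : ¬ ℓ ∣ N)
    (A : ValuationSubring (AlgebraicClosure ℚ)) (hA : A.LiesOverPrime ℓ)
    (h : ModularCurve.ReductionInputsModL A N)
    (W : ValuationSubring (modularFunctionFieldBar N))
    (ρ : W →+* modularFunctionFieldFullC (IsLocalRing.ResidueField A) N)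
    (G : s18a_Gauss A (IsLocalRing.residue A) W ρ (placeReductionModL h))
    (J : W) (hJ : (J : modularFunctionFieldBar N) = jBar N)
    (hρJ : ((ρ J : modularFunctionFieldFullC (IsLocalRing.ResidueField A) N) :
      LaurentSeries (IsLocalRing.ResidueField A)) = jqModC (IsLocalRing.ResidueField A))
    (hN0 : ∀ yb : modularFunctionFieldFullC (IsLocalRing.ResidueField A) N,
      (∀ Q : Place (IsLocalRing.ResidueField A)
          (modularFunctionFieldFullC (IsLocalRing.ResidueField A) N),
        0 ≤ Q.ord (ρ J) → 0 ≤ Q.ord yb) →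
      ∃ u : W, ρ u = yb ∧ ∀ P : Place (AlgebraicClosure ℚ) (modularFunctionFieldBar N),
        0 ≤ P.ord (J : modularFunctionFieldBar N) → 0 ≤ P.ord (u : modularFunctionFieldBar N))
    (hNinf : ∀ yb : modularFunctionFieldFullC (IsLocalRing.ResidueField A) N,
      (∀ Q : Place (IsLocalRing.ResidueField A)
          (modularFunctionFieldFullC (IsLocalRing.ResidueField A) N),
        Q.ord (ρ J) ≤ 0 → 0 ≤ Q.ord yb) →
      ∃ u : W, ρ u = yb ∧ ∀ P : Place (AlgebraicClosure ℚ) (modularFunctionFieldBar N),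
        P.ord (J : modularFunctionFieldBar N) ≤ 0 → 0 ≤ P.ord (u : modularFunctionFieldBar N))
    (m : ℕ) (hm : ¬ ℓ ∣ m) (z : ModularCurve.JZero N) (hmz : m • z = 0)
    (hz : ModularCurve.reductionModL A N z = 0) : z = 0 := by
  have hk : IsAlgClosed (IsLocalRing.ResidueField A) := s18a_isAlgClosed_residue A
  have hch : CharP (IsLocalRing.ResidueField A) ℓ := glu_charP A (Fact.out : ℓ.Prime) hA
  have hρJ' : ρ J = pls_jb (IsLocalRing.ResidueField A) N := Subtype.ext hρJ
  have HF := rmn_hyp_FBar N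
  have hBF := rmn_bound_FBar N
  have Hb := rmn_hyp_fb (IsLocalRing.ResidueField A) N
  have hBb := rmn_bound_fb (IsLocalRing.ResidueField A) N
  have H : ts_Hyp A (IsLocalRing.residue A) W ρ (placeReductionModL h) := G.toHyp HF
  have hJ0 : (J : modularFunctionFieldBar N) ≠ 0 := by
    rw [hJ]
    intro h0
    exact (fbf_isCoordinate_jBar N).transcendental (h0 ▸ isAlgebraic_zero)
  have hρJ0 : ρ J ≠ 0 := by
    rw [hρJ']
    intro h0
    exact (pls_transcendental_jb (IsLocalRing.ResidueField A) N) (h0 ▸ isAlgebraic_zero)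
  obtain ⟨DJ, hDJ⟩ := HF.hpd (J : modularFunctionFieldBar N) hJ0
  obtain ⟨DJb, hDJb⟩ := Hb.hpd (ρ J) hρJ0
  obtain ⟨B, hB⟩ := nl_exists_polar (J : modularFunctionFieldBar N) DJ hDJ
  obtain ⟨Bb, hBbp⟩ := nl_exists_polar (ρ J) DJb hDJb
  have hB' : nl_IsPolar (jBar N) B := by rw [← hJ]; exact hB
  have hBbp' : nl_IsPolar (pls_jb (IsLocalRing.ResidueField A) N) Bb := by
    rw [← hρJ']; exact hBbp
  have hdB : Divisor.degree B = (dedekindPsi N : ℤ) := by
    rw [glu_degree_polar_eq_cdeg (pls_isSepCoordinate_jBar N) B hB',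
      (Fermat.Agent.S24.cInputs N).cdeg_jBar]
  have hdBb : Divisor.degree Bb =
      (cdeg (IsLocalRing.ResidueField A) (pls_Fb (IsLocalRing.ResidueField A) N)
        (pls_jb (IsLocalRing.ResidueField A) N) : ℤ) :=
    glu_degree_polar_eq_cdeg (pls_isSepCoordinate_jb_perfect (IsLocalRing.ResidueField A) N)
      Bb hBbp'
  have hψ : dedekindPsi N ≤ cdeg (IsLocalRing.ResidueField A)
      (pls_Fb (IsLocalRing.ResidueField A) N) (pls_jb (IsLocalRing.ResidueField A) N) :=
    glu_psi_le_cdeg ℓ (IsLocalRing.ResidueField A) N hℓN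
  have hψpos : 0 < dedekindPsi N := by
    have hfd := (fbf_isCoordinate_jBar N).finite
    have := (Fermat.Agent.S24.cInputs N).cdeg_jBar
    rw [← this]
    exact Module.finrank_pos
  have hposB : 0 < Divisor.degree B := by
    rw [hdB]; exact_mod_cast hψpos
  have hdeg : Divisor.degree B ≤ Divisor.degree Bb := by
    rw [hdB, hdBb]; exact_mod_cast hψ
  obtain ⟨D₀, -, hD₀⟩ := nl_D0 H HF hBF Hb hBb J hρJ0 B hB hposB Bb hBbp hdeg hN0 hNinf
  exact glu_result_of_gauss_ge N hℓN A hA h W ρ G J hJ hρJ D₀ hD₀ m hm z hmz hz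

end Concrete

end Fermat.Agent.S18x
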