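/-
S18x/GlueInt (helper40): TOP-glue.  The frozen S18 conclusion from
* (I1)  the Gauss data `W, ρ, G : s18a_Gauss ..`, `J : W`, `J = jBar N`, `ρ J = jqModC k`, and
* (NRM) normality of the two charts of the `j`-line at level `N` in INTEGRALITY language:
        `hInt0`  : every `ȳ` integral over `k[j̄]`   has a lift `u ∈ W` integral over `ℚ̄[j]`,
        `hIntInf`: every `ȳ` integral over `k[j̄⁻¹]` has a lift `u ∈ W` integral over `ℚ̄[j⁻¹]`,
via helper4's dictionary `ged_N0`, `ged_Ninf` and `glu_result_of_gauss_nrm` (S18x/GlueNrm).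
-/
import Mathlib
import Fermat.Agent.S18x.GlueNrm
import Fermat.Agent.S18x.GeDict

set_option autoImplicit false
set_option synthInstance.maxHeartbeats 400000

namespace Fermat.Agent.S18x

open AlgebraicCurve ModularCurve
open Fermat.Agent.S24x

set_option maxHeartbeats 2000000 in
/-- **Conditional S18 from (I1) + two-chart normality in integrality language only.** -/
theorem glu_result_of_gauss_int (N : ℕ) [NeZero N] {ℓ : ℕ} [Fact ℓ.Prime] (hℓN : ¬ ℓ ∣ N)
    (A : ValuationSubring (AlgebraicClosure ℚ)) (hA : A.LiesOverPrime ℓ)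
    (h : ModularCurve.ReductionInputsModL A N)
    (W : ValuationSubring (modularFunctionFieldBar N))
    (ρ : W →+* modularFunctionFieldFullC (IsLocalRing.ResidueField A) N)
    (G : s18a_Gauss A (IsLocalRing.residue A) W ρ (placeReductionModL h))
    (J : W) (hJ : (J : modularFunctionFieldBar N) = jBar N)
    (hρJ : ((ρ J : modularFunctionFieldFullC (IsLocalRing.ResidueField A) N) :
      LaurentSeries (IsLocalRing.ResidueField A)) = jqModC (IsLocalRing.ResidueField A))
    (hInt0 : ∀ yb : modularFunctionFieldFullC (IsLocalRing.ResidueField A) N,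
      IsIntegral (Algebra.adjoin (IsLocalRing.ResidueField A) {ρ J}) yb →
      ∃ u : W, ρ u = yb ∧
        IsIntegral (Algebra.adjoin (AlgebraicClosure ℚ) {(J : modularFunctionFieldBar N)})
          (u : modularFunctionFieldBar N))
    (hIntInf : ∀ yb : modularFunctionFieldFullC (IsLocalRing.ResidueField A) N,
      IsIntegral (Algebra.adjoin (IsLocalRing.ResidueField A) {(ρ J)⁻¹}) yb →
      ∃ u : W, ρ u = yb ∧
        IsIntegral (Algebra.adjoin (AlgebraicClosure ℚ) {((J : modularFunctionFieldBar N))⁻¹})
          (u : modularFunctionFieldBar N))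
    (m : ℕ) (hm : ¬ ℓ ∣ m) (z : ModularCurve.JZero N) (hmz : m • z = 0)
    (hz : ModularCurve.reductionModL A N z = 0) : z = 0 := by
  have hk : IsAlgClosed (IsLocalRing.ResidueField A) := s18a_isAlgClosed_residue A
  have hρJ' : ρ J = pls_jb (IsLocalRing.ResidueField A) N := Subtype.ext hρJ
  have hsep : pls_IsSepCoordinate (IsLocalRing.ResidueField A)
      (modularFunctionFieldFullC (IsLocalRing.ResidueField A) N) (ρ J) := by
    rw [hρJ']
    exact pls_isSepCoordinate_jb_perfect (IsLocalRing.ResidueField A) N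
  exact glu_result_of_gauss_nrm N hℓN A hA h W ρ G J hJ hρJ
    (fun yb hyb => ged_N0 W ρ J hsep hInt0 yb hyb)
    (fun yb hyb => ged_Ninf W ρ J hsep hIntInf yb hyb) m hm z hmz hz

end Fermat.Agent.S18x
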