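/-
S18x/NormDescentCore (helper45): the commutative-algebra endgame of the "norm descent" step
(helper57 Step 7 / helper77 (C4) / lead (O1)).  Mathlib only.

`ndc_surjective_of_uniformizers`: let `B` be a Dedekind domain which is a finite module over a subring
`R` (given as an injective `algebraMap R B`).  Assume that for every maximal ideal `𝔮` of `B`
* `R → B ⧸ 𝔮` is onto (trivial residue extension), and
* there is `t ∈ R` with `t ∈ 𝔮 \ 𝔮 ^ 2` (a uniformizer at `𝔮`) which lies in no other maximal ideal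
  `𝔮'` of `B` over `𝔮 ∩ R` (a unit at the other points of the fibre).
Then `R = B`.
-/
import Mathlib

set_option autoImplicit false

namespace Fermat.Agent.S18x

open Ideal

/-- Nakayama over all maximal ideals: a finite module `M` with `𝔫 M = M` for every maximal ideal `𝔫`
is trivial. -/
theorem ndc_subsingleton_of_forall_maximal {R M : Type*} [CommRing R] [AddCommGroup M] [Module R M]
    [Module.Finite R M]
    (h : ∀ 𝔫 : Ideal R, 𝔫.IsMaximal → (⊤ : Submodule R M) ≤ 𝔫 • (⊤ : Submodule R M)) :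
    Subsingleton M := by
  by_contra hne
  have hann : Module.annihilator R M ≠ ⊤ := by
    intro htop
    apply hne
    refine ⟨fun a b => ?_⟩
    have h1 : (1 : R) ∈ Module.annihilator R M := htop ▸ Submodule.mem_top
    rw [Module.mem_annihilator] at h1
    have ha := h1 a
    have hb := h1 b
    rw [one_smul] at ha hb
    rw [ha, hb]
  obtain ⟨𝔫, h𝔫, hle⟩ := Ideal.exists_le_maximal _ hann
  obtain ⟨r, hr1, hr⟩ := Submodule.exists_sub_one_mem_and_smul_eq_zero_of_fg_of_le_smul 𝔫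
    (⊤ : Submodule R M) Module.Finite.fg_top (h 𝔫 h𝔫)
  have hrann : r ∈ Module.annihilator R M := by
    rw [Module.mem_annihilator]
    exact fun m => hr m Submodule.mem_top
  have hr𝔫 : r ∈ 𝔫 := hle hrann
  have h1 : (1 : R) ∈ 𝔫 := by
    have := 𝔫.sub_mem hr𝔫 hr1
    simpa using this
  exact h𝔫.ne_top ((Ideal.eq_top_iff_one _).mpr h1)

/-- A submodule `N` of a finite module `M` with `N + 𝔫 M = M` for every maximal ideal `𝔫` is `⊤`. -/
theorem ndc_eq_top_of_forall_maximal {R M : Type*} [CommRing R] [AddCommGroup M] [Module R M]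
    [Module.Finite R M] (N : Submodule R M)
    (h : ∀ 𝔫 : Ideal R, 𝔫.IsMaximal → ∀ m : M, ∃ n ∈ N, m - n ∈ 𝔫 • (⊤ : Submodule R M)) :
    N = ⊤ := by
  have hsub : Subsingleton (M ⧸ N) := by
    apply ndc_subsingleton_of_forall_maximal (R := R)
    intro 𝔫 h𝔫 x _
    obtain ⟨m, rfl⟩ := Submodule.Quotient.mk_surjective N x
    obtain ⟨n, hn, hmn⟩ := h 𝔫 h𝔫 m
    have h1 : Submodule.Quotient.mk (p := N) m = Submodule.Quotient.mk (p := N) (m - n) := by
      rw [Submodule.Quotient.mk_sub, (Submodule.Quotient.mk_eq_zero N).mpr hn, sub_zero]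
    rw [h1]
    have h2 : N.mkQ (m - n) ∈ Submodule.map N.mkQ (𝔫 • (⊤ : Submodule R M)) :=
      Submodule.mem_map_of_mem hmn
    rw [Submodule.map_smul''] at h2
    exact Submodule.smul_mono le_rfl le_top h2
  rw [eq_top_iff]
  intro m _
  have : Submodule.Quotient.mk (p := N) m = 0 := Subsingleton.elim _ _
  exact (Submodule.Quotient.mk_eq_zero N).mp this

/-- In a Dedekind domain `B` finite over `R`: if `𝔮` is a maximal ideal of `B` over the maximal ideal
`𝔫` of `R` and `t ∈ 𝔫` is a uniformizer at `𝔮` lying in no other maximal ideal over `𝔫`, then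
`𝔫 B = 𝔮`. -/
theorem ndc_map_eq_of_uniformizer {R B : Type*} [CommRing R] [CommRing B] [IsDedekindDomain B]
    [Algebra R B] (𝔫 : Ideal R) [h𝔫 : 𝔫.IsMaximal] (𝔮 : Ideal B) [𝔮.IsMaximal]
    (hover : 𝔮.comap (algebraMap R B) = 𝔫) (t : R)
    (ht1 : algebraMap R B t ∈ 𝔮) (ht2 : algebraMap R B t ∉ 𝔮 ^ 2)
    (ht3 : ∀ 𝔮' : Ideal B, 𝔮'.IsMaximal → 𝔮'.comap (algebraMap R B) = 𝔫 → 𝔮' ≠ 𝔮 →
      algebraMap R B t ∉ 𝔮') :
    𝔫.map (algebraMap R B) = 𝔮 := by
  have ht𝔫 : t ∈ 𝔫 := by rw [← hover]; exact ht1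
  have hJle : 𝔫.map (algebraMap R B) ≤ 𝔮 := by
    rw [Ideal.map_le_iff_le_comap, hover]
  have htJ : algebraMap R B t ∈ 𝔫.map (algebraMap R B) := Ideal.mem_map_of_mem _ ht𝔫
  obtain ⟨J', hJ'⟩ := (Ideal.dvd_iff_le).mpr hJle
  by_cases htop : J' = ⊤
  · rw [hJ', htop, Ideal.mul_top]
  exfalso
  obtain ⟨𝔮', h𝔮', hle'⟩ := Ideal.exists_le_maximal J' htop
  have hJ𝔮' : 𝔫.map (algebraMap R B) ≤ 𝔮' := by
    rw [hJ']
    exact le_trans Ideal.mul_le_right hle'
  have hover' : 𝔮'.comap (algebraMap R B) = 𝔫 := by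
    have hle : 𝔫 ≤ 𝔮'.comap (algebraMap R B) := Ideal.map_le_iff_le_comap.mp hJ𝔮'
    have hne : 𝔮'.comap (algebraMap R B) ≠ ⊤ := by
      intro htop'
      have : (1 : R) ∈ 𝔮'.comap (algebraMap R B) := htop' ▸ Submodule.mem_top
      rw [Ideal.mem_comap, map_one] at this
      exact h𝔮'.ne_top ((Ideal.eq_top_iff_one _).mpr this)
    exact (h𝔫.eq_of_le hne hle).symm
  by_cases heq : 𝔮' = 𝔮
  · apply ht2
    have : 𝔫.map (algebraMap R B) ≤ 𝔮 ^ 2 := by
      rw [hJ', pow_two]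
      exact Ideal.mul_mono_right (heq ▸ hle')
    exact this htJ
  · exact ht3 𝔮' h𝔮' hover' heq (hJ𝔮' htJ)

/-- **Norm-descent endgame.**  `B` a Dedekind domain, finite over the subring `R`.  If for every maximal
ideal `𝔮` of `B` the residue extension is trivial and `R` contains a uniformizer at `𝔮` which is a unit
at the other points of the fibre of `𝔮 ∩ R`, then `R = B`. -/
theorem ndc_surjective_of_uniformizers {R B : Type*} [CommRing R] [CommRing B] [IsDedekindDomain B]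
    [Algebra R B] [Module.Finite R B] (hinj : Function.Injective (algebraMap R B))
    (h : ∀ 𝔮 : Ideal B, 𝔮.IsMaximal →
      (∀ b : B, ∃ r : R, b - algebraMap R B r ∈ 𝔮) ∧
      ∃ t : R, algebraMap R B t ∈ 𝔮 ∧ algebraMap R B t ∉ 𝔮 ^ 2 ∧
        ∀ 𝔮' : Ideal B, 𝔮'.IsMaximal →
          𝔮'.comap (algebraMap R B) = 𝔮.comap (algebraMap R B) → 𝔮' ≠ 𝔮 →
            algebraMap R B t ∉ 𝔮') :
    Function.Surjective (algebraMap R B) := by
  have hint : Algebra.IsIntegral R B := Algebra.IsIntegral.of_finite R B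
  have key : LinearMap.range (Algebra.linearMap R B) = ⊤ := by
    apply ndc_eq_top_of_forall_maximal
    intro 𝔫 h𝔫 b
    have hker : RingHom.ker (algebraMap R B) ≤ 𝔫 := by
      rw [(RingHom.injective_iff_ker_eq_bot _).mp hinj]
      exact bot_le
    obtain ⟨𝔮, h𝔮, hover⟩ := Ideal.exists_ideal_over_maximal_of_isIntegral 𝔫 hker
    obtain ⟨hres, t, ht1, ht2, ht3⟩ := h 𝔮 h𝔮
    have hmap : 𝔫.map (algebraMap R B) = 𝔮 :=
      ndc_map_eq_of_uniformizer 𝔫 𝔮 hover t ht1 ht2 (fun 𝔮' h𝔮' ho hne => ht3 𝔮' h𝔮' (ho.trans hover.symm) hne)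
    obtain ⟨r, hr⟩ := hres b
    refine ⟨algebraMap R B r, ⟨r, rfl⟩, ?_⟩
    rw [Ideal.smul_top_eq_map, Submodule.restrictScalars_mem, hmap]
    exact hr
  intro b
  have : b ∈ LinearMap.range (Algebra.linearMap R B) := key ▸ Submodule.mem_top
  obtain ⟨r, hr⟩ := this
  exact ⟨r, hr⟩

/-- Subalgebra form of `ndc_surjective_of_uniformizers`. -/
theorem ndc_subalgebra_eq_top_of_uniformizers {k B : Type*} [CommRing k] [CommRing B]
    [IsDedekindDomain B] [Algebra k B] (S : Subalgebra k B) [Module.Finite S B]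
    (h : ∀ 𝔮 : Ideal B, 𝔮.IsMaximal →
      (∀ b : B, ∃ r ∈ S, b - r ∈ 𝔮) ∧
      ∃ t ∈ S, t ∈ 𝔮 ∧ t ∉ 𝔮 ^ 2 ∧
        ∀ 𝔮' : Ideal B, 𝔮'.IsMaximal →
          (∀ s ∈ S, s ∈ 𝔮' ↔ s ∈ 𝔮) → 𝔮' ≠ 𝔮 → t ∉ 𝔮') :
    S = ⊤ := by
  have hsurj : Function.Surjective (algebraMap S B) := by
    apply ndc_surjective_of_uniformizers (R := S) (B := B) Subtype.val_injective
    intro 𝔮 h𝔮
    obtain ⟨hres, t, htS, ht1, ht2, ht3⟩ := h 𝔮 h𝔮
    refine ⟨fun b => ?_, ⟨t, htS⟩, ht1, ht2, fun 𝔮' h𝔮' hcomap hne => ?_⟩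
    · obtain ⟨r, hrS, hr⟩ := hres b
      exact ⟨⟨r, hrS⟩, hr⟩
    · refine ht3 𝔮' h𝔮' (fun s hs => ?_) hne
      have := congrArg (fun I : Ideal S => (⟨s, hs⟩ : S) ∈ I) hcomap
      simpa [Ideal.mem_comap] using this
  rw [eq_top_iff]
  intro b _
  obtain ⟨s, hs⟩ := hsurj b
  rw [← hs]
  exact s.2

end Fermat.Agent.S18x
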