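/-
S18x/NrmDictInf (helper34), row N8c of `s18_nrm_plan`, part (ii):
**(Ninf) from (N0) + OUT-C**, in the abstract `ts_Hyp` setting (place language, shapes of
`s18_plan` row GE2).

Idea: `B∞` = integral closure of `k[jb⁻¹]` in `Fb` (Dedekind), `S ⊆ B∞` the subalgebra of elements
that lift to `W ∩ {regular off the zeros of J}`.  Away from the cusps `S` contains `z · jb^{-m}`
for every `z` in the finite chart ring (lift by (N0), divide by `J^m`); at the cusps `S` contains
the OUT-C uniformizers.  Hence `S = B∞` by `ndc_subalgebra_eq_top_of_uniformizers` (helper45).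
-/
import Mathlib
import Fermat.Agent.S18x.NrmDict
import Fermat.Agent.S18x.TsBasic
import Fermat.Agent.S18x.NormDescentCore

set_option autoImplicit false

namespace Fermat.Agent.S18x

open AlgebraicCurve IsDedekindDomain WithZero Polynomial IntermediateField
open Fermat.Agent.S24x
open scoped IntermediateField.algebraAdjoinAdjoin

section Places

variable {K F : Type*} [Field K] [Field F] [Algebra K F]

/-- pole orders of a function are bounded (given that it has a divisor). -/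
theorem nrd_exists_pole_bound (hpd : ∀ x : F, x ≠ 0 → ∃ D : Divisor K F, ∀ P : Place K F, D P = P.ord x)
    (z : F) : ∃ m : ℕ, ∀ Q : Place K F, -(m : ℤ) ≤ Q.ord z := by
  classical
  rcases eq_or_ne z 0 with rfl | hz
  · exact ⟨0, fun Q => by simp⟩
  obtain ⟨D, hD⟩ := hpd z hz
  refine ⟨∑ P ∈ D.support, (D P).natAbs, fun Q => ?_⟩
  rw [← hD Q]
  by_cases hQ : Q ∈ D.support
  · have h1 : (D Q).natAbs ≤ ∑ P ∈ D.support, (D P).natAbs :=
      Finset.single_le_sum (f := fun P => (D P).natAbs) (fun _ _ => Nat.zero_le _) hQ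
    have h2 : -((D Q).natAbs : ℤ) ≤ D Q := by omega
    have h3 : ((D Q).natAbs : ℤ) ≤ ((∑ P ∈ D.support, (D P).natAbs : ℕ) : ℤ) := by
      exact_mod_cast h1
    omega
  · rw [Finsupp.notMem_support_iff.mp hQ]
    omega

theorem nrd_ord_pow (Q : Place K F) (f : F) (m : ℕ) : Q.ord (f ^ m) = m * Q.ord f := by
  rw [← zpow_natCast, Q.ord_zpow]

/-- order of a twist `z · j^{-m}`. -/
theorem nrd_ord_twist (Q : Place K F) {j z : F} (hj : j ≠ 0) (hz : z ≠ 0) (m : ℕ) :
    Q.ord (z * (j⁻¹) ^ m) = Q.ord z - m * Q.ord j := by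
  rw [Q.ord_mul hz (pow_ne_zero _ (inv_ne_zero hj)), nrd_ord_pow, Q.ord_inv]
  ring

/-- if `z` is regular off the poles of `j` with pole orders `≤ m`, then `z · j^{-m}` is regular
off the zeros of `j`. -/
theorem nrd_twist_regular {j z : F} (hj : j ≠ 0)
    (hz : ∀ Q : Place K F, 0 ≤ Q.ord j → 0 ≤ Q.ord z) (m : ℕ)
    (hm : ∀ Q : Place K F, -(m : ℤ) ≤ Q.ord z) :
    ∀ Q : Place K F, Q.ord j ≤ 0 → 0 ≤ Q.ord (z * (j⁻¹) ^ m) := by
  intro Q hQ
  rcases eq_or_ne z 0 with rfl | hz0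
  · simp
  rw [nrd_ord_twist Q hj hz0]
  rcases eq_or_lt_of_le hQ with h0 | hlt
  · rw [h0, mul_zero, sub_zero]
    exact hz Q (by rw [h0])
  · have h1 : (m : ℤ) * Q.ord j ≤ (m : ℤ) * (-1) :=
      mul_le_mul_of_nonneg_left (by omega) (by positivity)
    have := hm Q
    omega

section Primes

variable (x : F) [FFData K F x] [Algebra.IsSeparable K⟮x⟯ F]

omit [Algebra.IsSeparable K⟮x⟯ F] in
theorem nrd_ringA_not_isField : ¬ IsField (ringA K x) := by
  intro h
  have e := Polynomial.algEquivOfTranscendental K x (FFData.transc (K := K) (F := F) (x := x))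
  exact Polynomial.not_isField K (e.toMulEquiv.isField h)

omit [Algebra.IsSeparable K⟮x⟯ F] in
theorem nrd_ringB_not_isField : ¬ IsField (ringB K x) := by
  intro h
  apply nrd_ringA_not_isField (K := K) x
  have : Algebra.IsIntegral (ringA K x) (ringB K x) := integralClosure.AlgebraIsIntegral ..
  exact isField_of_isIntegral_of_isField (R := ringA K x) (S := ringB K x)
    (FaithfulSMul.algebraMap_injective _ _) h

/-- **maximal ideals of the chart ring are places**: for a maximal ideal `𝔮` of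
`B = integralClosure K[x]` there is a place `Q` with `x ∈ O_Q` such that membership in `𝔮` and
`𝔮²` is read off from `ord_Q`. -/
theorem nrd_exists_place_of_maximal (𝔮 : Ideal (ringB K x)) (h𝔮 : 𝔮.IsMaximal) :
    ∃ Q : Place K F, 0 ≤ Q.ord x ∧
      (∀ b : ringB K x, b ∈ 𝔮 ↔ (b = 0 ∨ 0 < Q.ord (b : F))) ∧
      (∀ b : ringB K x, b ∈ 𝔮 ^ 2 ↔ (b = 0 ∨ 2 ≤ Q.ord (b : F))) := by
  have := cp15_isDedekindDomain_ringB (K := K) x
  have h0 : 𝔮 ≠ ⊥ := Ring.ne_bot_of_isMaximal_of_not_isField h𝔮 (nrd_ringB_not_isField (K := K) x)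
  let w : HeightOneSpectrum (ringB K x) := ⟨𝔮, h𝔮.isPrime, h0⟩
  refine ⟨Place.ofHeightOneSpectrum (K := K) w, ?_, ?_, ?_⟩
  · rw [← nrd_mem_iff, Place.ofHeightOneSpectrum_toValuationSubring,
      Valuation.mem_valuationSubring_iff]
    exact w.valuation_le_one (⟨x, (ringB K x).algebraMap_mem (genA K x)⟩ : ringB K x)
  · intro b
    rcases eq_or_ne b 0 with rfl | hb
    · simp
    · rw [or_iff_right hb]
      exact fid_mem_asIdeal_iff (K := K) w hb
  · intro b
    rcases eq_or_ne b 0 with rfl | hb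
    · simp
    · rw [or_iff_right hb]
      have hbF : algebraMap (ringB K x) F b ≠ 0 := by
        simpa using (IsFractionRing.injective (ringB K x) F).ne hb
      have h1 := w.intValuation_le_pow_iff_mem b 2
      rw [show w.asIdeal = 𝔮 from rfl] at h1
      rw [← h1, ← HeightOneSpectrum.valuation_of_algebraMap (K := F),
        fid_valuation_eq (K := K) w hbF, exp_le_exp]
      show -(Place.ofHeightOneSpectrum (K := K) w).ord (b : F) ≤ -((2 : ℕ) : ℤ) ↔ _
      push_cast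
      omega

end Primes

end Places

section Abstract

variable {L k F Fb : Type*} [Field L] [Field k] [Field F] [Field Fb] [Algebra L F] [Algebra k Fb]
variable {A : ValuationSubring L} {π : A →+* k} {W : ValuationSubring F} {ρ : W →+* Fb}
  {r : Place L F → Place k Fb}

/-- `y : Fb` lifts to an element of `W` which is regular off the zeros of `J`. -/
def nrd_LiftInf (L : Type*) {F Fb : Type*} [Field L] [Field F] [Field Fb] [Algebra L F]
    {W : ValuationSubring F} (ρ : W →+* Fb) (J : F) (y : Fb) : Prop :=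
  ∃ u : W, (∀ P : Place L F, P.ord J ≤ 0 → (u : F) ∈ P.toValuationSubring) ∧ ρ u = y

theorem nrd_LiftInf.add {J : F} {y z : Fb} (hy : nrd_LiftInf L ρ J y) (hz : nrd_LiftInf L ρ J z) :
    nrd_LiftInf L ρ J (y + z) := by
  obtain ⟨u, hu, rfl⟩ := hy
  obtain ⟨v, hv, rfl⟩ := hz
  exact ⟨u + v, fun P hP => P.toValuationSubring.add_mem _ _ (hu P hP) (hv P hP), map_add ρ u v⟩

theorem nrd_LiftInf.mul {J : F} {y z : Fb} (hy : nrd_LiftInf L ρ J y) (hz : nrd_LiftInf L ρ J z) :
    nrd_LiftInf L ρ J (y * z) := by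
  obtain ⟨u, hu, rfl⟩ := hy
  obtain ⟨v, hv, rfl⟩ := hz
  exact ⟨u * v, fun P hP => P.toValuationSubring.mul_mem _ _ (hu P hP) (hv P hP), map_mul ρ u v⟩

theorem nrd_LiftInf.pow {J : F} {y : Fb} (hy : nrd_LiftInf L ρ J y) (m : ℕ) :
    nrd_LiftInf L ρ J (y ^ m) := by
  obtain ⟨u, hu, rfl⟩ := hy
  exact ⟨u ^ m, fun P hP => by
    rw [SubmonoidClass.coe_pow]; exact P.toValuationSubring.pow_mem (hu P hP) m, map_pow ρ u m⟩

theorem nrd_LiftInf_const (H : ts_Hyp A π W ρ r) (J : F) (c : k) :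
    nrd_LiftInf L ρ J (algebraMap k Fb c) := by
  obtain ⟨⟨a, ha⟩, hac⟩ := H.pi_surj c
  have haW : algebraMap L F a ∈ W := (H.mem_iff a).mpr ha
  refine ⟨⟨algebraMap L F a, haW⟩, fun P _ => P.algebraMap_mem' a, ?_⟩
  rw [H.rho_alg a ha haW, hac]

/-- `J` is a unit of `W` as soon as its reduction is nonzero. -/
theorem nrd_exists_inv (H : ts_Hyp A π W ρ r) (J : W) (hJ : ρ J ≠ 0) :
    ∃ Ji : W, (Ji : F) = (J : F)⁻¹ ∧ ρ Ji = (ρ J)⁻¹ ∧ (J : F) ≠ 0 := by
  have hunit : IsUnit J := by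
    by_contra h
    exact hJ ((H.ker J).mpr h)
  obtain ⟨v, hv⟩ := hunit
  have hmul : (((v⁻¹ : Wˣ) : W) : F) * (J : F) = 1 := by
    rw [← hv, ← MulMemClass.coe_mul, Units.inv_mul, OneMemClass.coe_one]
  refine ⟨((v⁻¹ : Wˣ) : W), eq_inv_of_mul_eq_one_left hmul, ?_, right_ne_zero_of_mul_eq_one hmul⟩
  apply eq_inv_of_mul_eq_one_left
  rw [← map_mul, ← hv, Units.inv_mul, map_one]

/-- the inverse of `J` lifts `(ρ J)⁻¹` and is regular off the zeros of `J`. -/
theorem nrd_LiftInf_inv (H : ts_Hyp A π W ρ r) (J : W) (hJ : ρ J ≠ 0) :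
    nrd_LiftInf L ρ (J : F) (ρ J)⁻¹ := by
  obtain ⟨Ji, hJi, hρ, -⟩ := nrd_exists_inv H J hJ
  refine ⟨Ji, fun P hP => ?_, hρ⟩
  rw [hJi, nrd_mem_iff, P.ord_inv]
  omega

/-- everything in `k[(ρ J)⁻¹]` lifts. -/
theorem nrd_LiftInf_adjoin (H : ts_Hyp A π W ρ r) (J : W) (hJ : ρ J ≠ 0) (a : Fb)
    (ha : a ∈ Algebra.adjoin k {(ρ J)⁻¹}) : nrd_LiftInf L ρ (J : F) a := by
  induction ha using Algebra.adjoin_induction with
  | mem x hx =>
    rw [Set.mem_singleton_iff] at hx
    subst hx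
    exact nrd_LiftInf_inv H J hJ
  | algebraMap c => exact nrd_LiftInf_const H _ c
  | add x y _ _ hx hy => exact hx.add hy
  | mul x y _ _ hx hy => exact hx.mul hy

/-- **(REG∞)**: if zeros of `J` reduce to zeros of `ρ J`, an element of `W` regular off the zeros
of `J` reduces to a function regular off the zeros of `ρ J`. -/
theorem nrd_reg_inf (H : ts_Hyp A π W ρ r) (J : W)
    (hzero : ∀ P : Place L F, 0 < P.ord (J : F) → 0 < (r P).ord (ρ J)) (u : W)
    (hureg : ∀ P : Place L F, P.ord (J : F) ≤ 0 → 0 ≤ P.ord (u : F)) :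
    ∀ Q : Place k Fb, Q.ord (ρ J) ≤ 0 → 0 ≤ Q.ord (ρ u) := by
  intro Q hQ
  have h1 := H.reg_of_disc u Q (fun P hP => (P.adicValuation_le_one_iff).mpr (Or.inr (hureg P (by
    by_contra hpos
    rw [not_le] at hpos
    have := hzero P hpos
    rw [hP] at this
    omega))))
  rcases (Q.adicValuation_le_one_iff).mp h1 with h | h
  · rw [h]; simp
  · exact h

/-- **(REG0)**: if poles of `J` reduce to poles of `ρ J`, an element of `W` regular off the poles
of `J` reduces to a function regular off the poles of `ρ J`. -/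
theorem nrd_reg_zero (H : ts_Hyp A π W ρ r) (J : W)
    (hpole : ∀ P : Place L F, P.ord (J : F) < 0 → (r P).ord (ρ J) < 0) (u : W)
    (hureg : ∀ P : Place L F, 0 ≤ P.ord (J : F) → 0 ≤ P.ord (u : F)) :
    ∀ Q : Place k Fb, 0 ≤ Q.ord (ρ J) → 0 ≤ Q.ord (ρ u) := by
  intro Q hQ
  have h1 := H.reg_of_disc u Q (fun P hP => (P.adicValuation_le_one_iff).mpr (Or.inr (hureg P (by
    by_contra hneg
    rw [not_le] at hneg
    have := hpole P hneg
    rw [hP] at this
    omega))))
  rcases (Q.adicValuation_le_one_iff).mp h1 with h | h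
  · rw [h]; simp
  · exact h

/-- **Lifting with a twist.**  Under (N0): if `z` is regular off the poles of `jb = ρ J`, then for
some `m` the twist `z · jb^{-m}` lifts to `W ∩ {regular off the zeros of J}` and is itself regular
off the zeros of `jb`. -/
theorem nrd_exists_twist (H : ts_Hyp A π W ρ r) (J : W) (hJ : ρ J ≠ 0)
    (hpdb : ∀ x : Fb, x ≠ 0 → ∃ D : Divisor k Fb, ∀ P : Place k Fb, D P = P.ord x)
    (hN0 : ∀ yb : Fb, (∀ Q : Place k Fb, 0 ≤ Q.ord (ρ J) → 0 ≤ Q.ord yb) →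
      ∃ u : W, ρ u = yb ∧ ∀ P : Place L F, 0 ≤ P.ord (J : F) → 0 ≤ P.ord (u : F))
    (z : Fb) (hz : ∀ Q : Place k Fb, 0 ≤ Q.ord (ρ J) → 0 ≤ Q.ord z) :
    ∃ m : ℕ, nrd_LiftInf L ρ (J : F) (z * ((ρ J)⁻¹) ^ m) ∧
      ∀ Q : Place k Fb, Q.ord (ρ J) ≤ 0 → 0 ≤ Q.ord (z * ((ρ J)⁻¹) ^ m) := by
  obtain ⟨u0, hu0, hreg0⟩ := hN0 z hz
  obtain ⟨m1, hm1⟩ := nrd_exists_pole_bound H.hpd (u0 : F)
  obtain ⟨m2, hm2⟩ := nrd_exists_pole_bound hpdb z
  obtain ⟨Ji, hJi, hρJi, hJF⟩ := nrd_exists_inv H J hJ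
  have hle1 : (m1 : ℤ) ≤ ((max m1 m2 : ℕ) : ℤ) := by exact_mod_cast le_max_left m1 m2
  have hle2 : (m2 : ℤ) ≤ ((max m1 m2 : ℕ) : ℤ) := by exact_mod_cast le_max_right m1 m2
  refine ⟨max m1 m2, ⟨u0 * Ji ^ (max m1 m2), fun P hP => ?_, ?_⟩, ?_⟩
  · have hcoe : ((u0 * Ji ^ (max m1 m2) : W) : F) = (u0 : F) * ((J : F)⁻¹) ^ (max m1 m2) := by
      rw [MulMemClass.coe_mul, SubmonoidClass.coe_pow, hJi]
    rw [hcoe, nrd_mem_iff]
    exact nrd_twist_regular hJF hreg0 _ (fun P' => by have := hm1 P'; omega) P hP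
  · rw [map_mul, map_pow, hu0, hρJi]
  · exact nrd_twist_regular hJ hz _ (fun Q' => by have := hm2 Q'; omega)

/-- the subalgebra of the chart ring at infinity `B∞ = integralClosure k[(ρ J)⁻¹]` consisting of
the elements that lift to `W ∩ {regular off the zeros of J}`. -/
def nrd_liftSubalgebra (H : ts_Hyp A π W ρ r) (J : W) (hJ : ρ J ≠ 0) :
    Subalgebra (ringA k (ρ J)⁻¹) (ringB k (ρ J)⁻¹) where
  carrier := {b | nrd_LiftInf L ρ (J : F) (b : Fb)}
  mul_mem' := fun {a b} ha hb => by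
    show nrd_LiftInf L ρ (J : F) ((a * b : ringB k (ρ J)⁻¹) : Fb)
    rw [MulMemClass.coe_mul]
    exact nrd_LiftInf.mul ha hb
  one_mem' := by
    show nrd_LiftInf L ρ (J : F) ((1 : ringB k (ρ J)⁻¹) : Fb)
    rw [OneMemClass.coe_one, ← map_one (algebraMap k Fb)]
    exact nrd_LiftInf_const H _ 1
  add_mem' := fun {a b} ha hb => by
    show nrd_LiftInf L ρ (J : F) ((a + b : ringB k (ρ J)⁻¹) : Fb)
    rw [AddMemClass.coe_add]
    exact nrd_LiftInf.add ha hb
  zero_mem' := by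
    show nrd_LiftInf L ρ (J : F) ((0 : ringB k (ρ J)⁻¹) : Fb)
    rw [ZeroMemClass.coe_zero, ← map_zero (algebraMap k Fb)]
    exact nrd_LiftInf_const H _ 0
  algebraMap_mem' := fun a => nrd_LiftInf_adjoin H J hJ (a : Fb) a.2

theorem nrd_mem_liftSubalgebra (H : ts_Hyp A π W ρ r) (J : W) (hJ : ρ J ≠ 0)
    (b : ringB k (ρ J)⁻¹) :
    b ∈ nrd_liftSubalgebra (L := L) H J hJ ↔ nrd_LiftInf L ρ (J : F) (b : Fb) := Iff.rfl

/-- two maximal ideals of the chart ring with the same place are equal. -/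
theorem nrd_maximal_eq_of_place {K F : Type*} [Field K] [Field F] [Algebra K F] (x : F)
    {𝔮 𝔮' : Ideal (ringB K x)} {Q : Place K F}
    (h : ∀ b : ringB K x, b ∈ 𝔮 ↔ (b = 0 ∨ 0 < Q.ord (b : F)))
    (h' : ∀ b : ringB K x, b ∈ 𝔮' ↔ (b = 0 ∨ 0 < Q.ord (b : F))) : 𝔮' = 𝔮 := by
  ext b
  rw [h, h']

set_option synthInstance.maxHeartbeats 400000 in
set_option maxHeartbeats 1000000 in
/-- **(Ninf) from (N0) + OUT-C** (abstract `ts_Hyp` form, shapes of `s18_plan` row GE2).

* `hzero` : zeros of `J` reduce to zeros of `ρ J` (from the degree equality, like `s18a_pole_of_pole`);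
* `hN0`   : (N0) = normality of the finite chart in place language;
* `hC`    : OUT-C = for every pole `Q` of `ρ J` some `u ∈ W`, regular off the zeros of `J`, reduces
  to a uniformizer at `Q` which is a unit at the other poles of `ρ J`. -/
theorem nrd_Ninf_of_N0_of_cusp [IsAlgClosed k] (H : ts_Hyp A π W ρ r) (J : W)
    (htb : pls_IsSepCoordinate k Fb (ρ J))
    (hzero : ∀ P : Place L F, 0 < P.ord (J : F) → 0 < (r P).ord (ρ J))
    (hN0 : ∀ yb : Fb, (∀ Q : Place k Fb, 0 ≤ Q.ord (ρ J) → 0 ≤ Q.ord yb) →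
      ∃ u : W, ρ u = yb ∧ ∀ P : Place L F, 0 ≤ P.ord (J : F) → 0 ≤ P.ord (u : F))
    (hC : ∀ Q : Place k Fb, Q.ord (ρ J) < 0 → ∃ u : W,
      (∀ P : Place L F, P.ord (J : F) ≤ 0 → 0 ≤ P.ord (u : F)) ∧ Q.ord (ρ u) = 1 ∧
        ∀ Q' : Place k Fb, Q'.ord (ρ J) < 0 → Q' ≠ Q → Q'.ord (ρ u) = 0) :
    ∀ yb : Fb, (∀ Q : Place k Fb, Q.ord (ρ J) ≤ 0 → 0 ≤ Q.ord yb) →
      ∃ u : W, ρ u = yb ∧ ∀ P : Place L F, P.ord (J : F) ≤ 0 → 0 ≤ P.ord (u : F) := by
  classical
  have hJ : ρ J ≠ 0 := by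
    intro h0
    exact htb.coord.transcendental (h0 ▸ isAlgebraic_zero)
  have htb' : pls_IsSepCoordinate k Fb (ρ J)⁻¹ := pls_isSepCoordinate_inv htb
  have hpdb := pls_hpd htb
  have : FFData k Fb (ρ J)⁻¹ := cp15_ffData (nrd_cp15_of_pls htb')
  have : Algebra.IsSeparable k⟮(ρ J)⁻¹⟯ Fb := htb'.sep
  have : FFData k Fb (ρ J) := cp15_ffData (nrd_cp15_of_pls htb)
  have : Algebra.IsSeparable k⟮ρ J⟯ Fb := htb.sep
  have : IsDedekindDomain (ringB k (ρ J)⁻¹) := cp15_isDedekindDomain_ringB (K := k) (ρ J)⁻¹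
  have : IsDedekindDomain (ringB k (ρ J)) := cp15_isDedekindDomain_ringB (K := k) (ρ J)
  have : Module.Finite (ringA k (ρ J)⁻¹) (ringB k (ρ J)⁻¹) := cp15_finite_ringB (K := k) (ρ J)⁻¹
  set S := nrd_liftSubalgebra (L := L) H J hJ with hSdef
  have : Module.Finite S (ringB k (ρ J)⁻¹) :=
    Module.Finite.of_restrictScalars_finite (ringA k (ρ J)⁻¹) S (ringB k (ρ J)⁻¹)
  -- the element `tb = (ρ J)⁻¹` of the chart ring
  set tbB : ringB k (ρ J)⁻¹ :=
    ⟨(ρ J)⁻¹, (ringB k (ρ J)⁻¹).algebraMap_mem (genA k (ρ J)⁻¹)⟩ with htbB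
  have htbS : tbB ∈ S := nrd_LiftInf_inv H J hJ
  have htbB0 : tbB ≠ 0 := by
    intro h
    have := congrArg Subtype.val h
    exact inv_ne_zero hJ this
  -- a general device: twisted lifts of elements of the finite chart ring
  have htwist : ∀ z : ringB k (ρ J), ∃ s : ringB k (ρ J)⁻¹, s ∈ S ∧
      ∀ Q : Place k Fb, Q.ord (ρ J) = 0 → Q.ord (s : Fb) = Q.ord (z : Fb) := by
    intro z
    have hz : ∀ Q : Place k Fb, 0 ≤ Q.ord (ρ J) → 0 ≤ Q.ord (z : Fb) :=
      (nrd_regular_iff htb (z : Fb)).mpr z.2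
    obtain ⟨m, hlift, hreg⟩ := nrd_exists_twist H J hJ hpdb hN0 (z : Fb) hz
    refine ⟨⟨(z : Fb) * ((ρ J)⁻¹) ^ m, (nrd_regular_inv_iff htb _).mp hreg⟩, hlift, fun Q hQ => ?_⟩
    rcases eq_or_ne (z : Fb) 0 with h0 | h0
    · simp [h0]
    · show Q.ord ((z : Fb) * ((ρ J)⁻¹) ^ m) = _
      rw [nrd_ord_twist Q hJ h0, hQ, mul_zero, sub_zero]
  have hS : S = ⊤ := by
    refine ndc_subalgebra_eq_top_of_uniformizers S (fun 𝔮 h𝔮 => ?_)
    obtain ⟨Q, hQt, hQ1, hQ2⟩ := nrd_exists_place_of_maximal (K := k) (ρ J)⁻¹ 𝔮 h𝔮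
    have hQj : Q.ord (ρ J) ≤ 0 := by
      rw [Q.ord_inv] at hQt
      omega
    have htmem : (ρ J)⁻¹ ∈ Q.toValuationSubring := (nrd_mem_iff Q _).mpr hQt
    refine ⟨fun b => ?_, ?_⟩
    · -- residues are constants
      have hb1 : Q.adicValuation (b : Fb) ≤ 1 :=
        Q.adicValuation_le_one_of_mem (ringB_mem_place (ρ J)⁻¹ Q htmem b)
      obtain ⟨c, hc⟩ := pls_eval htb Q (b : Fb) hb1
      set cB : ringB k (ρ J)⁻¹ :=
        algebraMap (ringA k (ρ J)⁻¹) (ringB k (ρ J)⁻¹) (algebraMap k (ringA k (ρ J)⁻¹) c) with hcB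
      have hcoe : ((b - cB : ringB k (ρ J)⁻¹) : Fb) = (b : Fb) - algebraMap k Fb c := rfl
      refine ⟨cB, S.algebraMap_mem _, ?_⟩
      rw [hQ1]
      by_cases h0 : b - cB = 0
      · exact Or.inl h0
      · right
        rw [hcoe]
        have hne : (b : Fb) - algebraMap k Fb c ≠ 0 := by
          intro h
          apply h0
          exact Subtype.ext (by rw [hcoe, h]; rfl)
        have := ((ts_val_lt_one_iff Q).mp hc).resolve_left hne
        omega
    · by_cases hcusp : Q.ord (ρ J) < 0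
      · -- a cusp: OUT-C
        obtain ⟨u, hureg, hu1, hu0⟩ := hC Q hcusp
        have hρu_reg := nrd_reg_inf H J hzero u hureg
        have hρu0 : ρ u ≠ 0 := by
          intro h
          rw [h, Place.ord_zero] at hu1
          omega
        set t : ringB k (ρ J)⁻¹ := ⟨ρ u, (nrd_regular_inv_iff htb (ρ u)).mp hρu_reg⟩ with ht
        have ht0 : t ≠ 0 := by
          intro h
          exact hρu0 (congrArg Subtype.val h)
        have htS : t ∈ S := ⟨u, fun P hP => (nrd_mem_iff P _).mpr (hureg P hP), rfl⟩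
        refine ⟨t, htS, (hQ1 t).mpr (Or.inr (by show 0 < Q.ord (ρ u); omega)), ?_, ?_⟩
        · intro h
          rcases (hQ2 t).mp h with h0 | h2
          · exact ht0 h0
          · have : (2 : ℤ) ≤ Q.ord (ρ u) := h2
            omega
        · intro 𝔮' h𝔮' hfib hne ht'
          obtain ⟨Q', hQ't, hQ'1, hQ'2⟩ := nrd_exists_place_of_maximal (K := k) (ρ J)⁻¹ 𝔮' h𝔮'
          have htb𝔮 : tbB ∈ 𝔮 := (hQ1 tbB).mpr (Or.inr (by
            show 0 < Q.ord (ρ J)⁻¹
            rw [Q.ord_inv]; omega))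
          have htb𝔮' : tbB ∈ 𝔮' := (hfib tbB htbS).mpr htb𝔮
          have hcusp' : Q'.ord (ρ J) < 0 := by
            rcases (hQ'1 tbB).mp htb𝔮' with h | h
            · exact absurd h htbB0
            · have h' : 0 < Q'.ord (ρ J)⁻¹ := h
              rw [Q'.ord_inv] at h'
              omega
          have hQne : Q' ≠ Q := by
            intro hQQ
            subst hQQ
            exact hne (nrd_maximal_eq_of_place (ρ J)⁻¹ hQ1 hQ'1)
          have h0' := hu0 Q' hcusp' hQne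
          rcases (hQ'1 t).mp ht' with h | h
          · exact ht0 h
          · have : 0 < Q'.ord (ρ u) := h
            omega
      · -- not a cusp: `ρ J` is a unit at `Q`
        have hQ0 : Q.ord (ρ J) = 0 := le_antisymm hQj (not_lt.mp hcusp)
        obtain ⟨w0, hw0⟩ := cp15_exists_prime_of_place (K := k) (ρ J) Q
          ((nrd_mem_iff Q _).mpr (by omega))
        obtain ⟨π0, hπ0⟩ := w0.intValuation_exists_uniformizer
        have hπ0ord : Q.ord (π0 : Fb) = 1 := by
          rw [← hw0, fid_ord_ofHeightOneSpectrum (K := k) w0]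
          rw [show ((π0 : Fb)) = algebraMap (ringB k (ρ J)) Fb π0 from rfl,
            HeightOneSpectrum.valuation_of_algebraMap, hπ0, log_exp]
          simp
        obtain ⟨t, htS, htord⟩ := htwist π0
        have ht1 : Q.ord (t : Fb) = 1 := by rw [htord Q hQ0, hπ0ord]
        have ht0 : t ≠ 0 := by
          intro h
          rw [h] at ht1
          simp at ht1
        refine ⟨t, htS, (hQ1 t).mpr (Or.inr (by omega)), ?_, ?_⟩
        · intro h
          rcases (hQ2 t).mp h with h0 | h2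
          · exact ht0 h0
          · omega
        · intro 𝔮' h𝔮' hfib hne _
          obtain ⟨Q', hQ't, hQ'1, hQ'2⟩ := nrd_exists_place_of_maximal (K := k) (ρ J)⁻¹ 𝔮' h𝔮'
          have hQ'j : Q'.ord (ρ J) ≤ 0 := by
            rw [Q'.ord_inv] at hQ't
            omega
          have hQne : Q' ≠ Q := by
            intro hQQ
            subst hQQ
            exact hne (nrd_maximal_eq_of_place (ρ J)⁻¹ hQ1 hQ'1)
          by_cases hc' : Q'.ord (ρ J) < 0
          · -- `tb` separates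
            have htb𝔮' : tbB ∈ 𝔮' := (hQ'1 tbB).mpr (Or.inr (by
              show 0 < Q'.ord (ρ J)⁻¹
              rw [Q'.ord_inv]; omega))
            have htb𝔮 : tbB ∈ 𝔮 := (hfib tbB htbS).mp htb𝔮'
            rcases (hQ1 tbB).mp htb𝔮 with h | h
            · exact htbB0 h
            · have h' : 0 < Q.ord (ρ J)⁻¹ := h
              rw [Q.ord_inv] at h'
              omega
          · have hQ'0 : Q'.ord (ρ J) = 0 := le_antisymm hQ'j (not_lt.mp hc')
            obtain ⟨w0', hw0'⟩ := cp15_exists_prime_of_place (K := k) (ρ J) Q'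
              ((nrd_mem_iff Q' _).mpr (by omega))
            have hwne : ¬ (w0.asIdeal ≤ w0'.asIdeal) := by
              intro hle
              have heq : w0.asIdeal = w0'.asIdeal :=
                w0.isMaximal.eq_of_le w0'.isPrime.ne_top hle
              have : w0 = w0' := HeightOneSpectrum.ext heq
              apply hQne
              rw [← hw0, ← hw0', this]
            obtain ⟨z', hz'1, hz'2⟩ := SetLike.not_le_iff_exists.mp hwne
            have hz'0 : z' ≠ 0 := by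
              intro h
              exact hz'2 (h ▸ w0'.asIdeal.zero_mem)
            have hz'Q : 0 < Q.ord (z' : Fb) := by
              have := (fid_mem_asIdeal_iff (K := k) (F := Fb) w0 hz'0).mp hz'1
              rw [hw0] at this
              exact this
            have hz'Q' : ¬ 0 < Q'.ord (z' : Fb) := by
              intro hpos
              apply hz'2
              apply (fid_mem_asIdeal_iff (K := k) (F := Fb) w0' hz'0).mpr
              rw [hw0']
              exact hpos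
            obtain ⟨s, hsS, hsord⟩ := htwist z'
            have hs𝔮 : s ∈ 𝔮 := (hQ1 s).mpr (Or.inr (by rw [hsord Q hQ0]; exact hz'Q))
            have hs𝔮' : s ∈ 𝔮' := (hfib s hsS).mpr hs𝔮
            rcases (hQ'1 s).mp hs𝔮' with h | h
            · rw [h] at hs𝔮
              have h1 := hsord Q hQ0
              rw [h] at h1
              simp at h1
              omega
            · rw [hsord Q' hQ'0] at h
              exact hz'Q' h
  intro yb hyb
  have hmem : yb ∈ ringB k (ρ J)⁻¹ := (nrd_regular_inv_iff htb yb).mp hyb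
  have hin : (⟨yb, hmem⟩ : ringB k (ρ J)⁻¹) ∈ S := by
    rw [hS]
    exact Algebra.mem_top
  obtain ⟨u, hu, hρ⟩ := hin
  exact ⟨u, hρ, fun P hP => (nrd_mem_iff P _).mp (hu P hP)⟩

end Abstract

end Fermat.Agent.S18x
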