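/-
S18x/NrmDictZero (helper34), row N8c of `s18_nrm_plan`, part (iii): the auxiliary input `hzero`
of `nrd_Ninf_of_N0_of_cusp` ("zeros of `J` reduce to zeros of `ρ J`") from the polar-degree
inequality `hpol` (DEG) + "principal divisors have degree zero, places have degree one"
on both sides -- the mirror image of helper80's `s18a_pole_of_pole`.
-/
import Mathlib
import Fermat.Agent.S18x.AsmPoles
import Fermat.Agent.S18x.NrmDictInf

set_option autoImplicit false

namespace Fermat.Agent.S18x

open AlgebraicCurve WithZero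

section Bookkeeping

/-- positive part minus negative part. -/
theorem nrd_sum_pos_sub_neg {α : Type*} (D : α →₀ ℤ) :
    ∑ a ∈ D.support, max (D a) 0 - ∑ a ∈ D.support, max (-(D a)) 0 = ∑ a ∈ D.support, D a := by
  rw [← Finset.sum_sub_distrib]
  refine Finset.sum_congr rfl fun a _ => ?_
  rcases le_total (D a) 0 with h | h
  · rw [max_eq_right h, max_eq_left (by omega)]; ring
  · rw [max_eq_left h, max_eq_right (by omega)]; ring

theorem nrd_degree_eq_sum {K F : Type*} [Field K] [Field F] [Algebra K F]
    (hdeg : ∀ P : Place K F, P.deg = 1) (D : Divisor K F) :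
    Divisor.degree D = ∑ P ∈ D.support, D P := by
  classical
  induction D using Finsupp.induction_linear with
  | zero => simp
  | add f g hf hg =>
    rw [map_add, hf, hg]
    have h1 : ∑ P ∈ (f + g).support, (f + g) P = ∑ P ∈ f.support ∪ g.support, (f + g) P := by
      apply Finset.sum_subset Finsupp.support_add
      intro P _ hP
      exact Finsupp.notMem_support_iff.mp hP
    rw [h1]
    simp only [Finsupp.add_apply, Finset.sum_add_distrib]
    congr 1
    · apply Finset.sum_subset Finset.subset_union_left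
      intro P _ hP
      exact Finsupp.notMem_support_iff.mp hP
    · apply Finset.sum_subset Finset.subset_union_right
      intro P _ hP
      exact Finsupp.notMem_support_iff.mp hP
  | single P n =>
    rw [Divisor.degree_single, hdeg P]
    by_cases hn : n = 0
    · subst hn; simp
    · rw [Finsupp.support_single _ hn]
      simp

end Bookkeeping

section Zeros

variable {L k F Fb : Type*} [Field L] [Field k] [Field F] [Field Fb] [Algebra L F] [Algebra k Fb]
variable {A : ValuationSubring L} {π : A →+* k} {W : ValuationSubring F} {ρ : W →+* Fb}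
  {r : Place L F → Place k Fb}

/-- **zeros reduce to zeros**: from the polar-degree inequality `hpol` and `deg div = 0`,
`deg P = 1` on both sides, every zero of `J` reduces to a zero of `ρ J`. -/
theorem nrd_zero_of_zero (H : ts_Hyp A π W ρ r) (J : W) (hJ : ρ J ≠ 0)
    (hdegF : ∀ P : Place L F, P.deg = 1) (hdegFb : ∀ Q : Place k Fb, Q.deg = 1)
    (DJ : Divisor L F) (hDJ : ∀ P, DJ P = P.ord (J : F)) (hDJ0 : Divisor.degree DJ = 0)
    (DJb : Divisor k Fb) (hDJb : ∀ Q, DJb Q = Q.ord (ρ J)) (hDJb0 : Divisor.degree DJb = 0)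
    (hpol : ∑ P ∈ DJ.support, max (-(DJ P)) 0 ≤ ∑ Q ∈ DJb.support, max (-(DJb Q)) 0) :
    ∀ P : Place L F, 0 < P.ord (J : F) → 0 < (r P).ord (ρ J) := by
  classical
  have heq : Finsupp.mapDomain r DJ = DJb := by
    ext Q
    rw [H.compat J hJ DJ hDJ Q, hDJb Q]
  have hs1 : ∑ P ∈ DJ.support, DJ P = 0 := by rw [← nrd_degree_eq_sum hdegF, hDJ0]
  have hs2 : ∑ Q ∈ DJb.support, DJb Q = 0 := by rw [← nrd_degree_eq_sum hdegFb, hDJb0]
  have h1 := nrd_sum_pos_sub_neg DJ
  have h2 := nrd_sum_pos_sub_neg DJb
  rw [hs1] at h1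
  rw [hs2] at h2
  have hpos : ∑ P ∈ DJ.support, max (DJ P) 0 ≤ ∑ Q ∈ DJb.support, max (DJb Q) 0 := by omega
  -- apply the bookkeeping lemma to `-DJ`
  have hneg : Finsupp.mapDomain r (-DJ) = -DJb := by
    rw [← heq]
    exact (Finsupp.mapDomain.addMonoidHom r).map_neg DJ
  intro P hP
  have hpol' : ∑ a ∈ (-DJ).support, max (-((-DJ) a)) 0 ≤
      ∑ b ∈ (Finsupp.mapDomain r (-DJ)).support, max (-(Finsupp.mapDomain r (-DJ) b)) 0 := by
    rw [hneg, Finsupp.support_neg, Finsupp.support_neg]
    simpa using hpos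
  have := s18a_neg_of_neg r (-DJ) hpol' P (by rw [Finsupp.neg_apply, hDJ P]; omega)
  rw [hneg, Finsupp.neg_apply, hDJb] at this
  omega

end Zeros

end Fermat.Agent.S18x
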