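/-
S18x/NrmDictGlue (helper34), row N8c of `s18_nrm_plan`, part (iv): the concrete wrapper.
**Conditional S18 from (I1) + (N0) + OUT-C**: helper40's `glu_result_of_gauss_nrm` with the input
`hNinf` (normality of the chart at infinity) REPLACED by the cusp input `hC` (for every cuspidal
place `Q` of the reduced field ONE element of `W`, regular off the zeros of `j`, reducing to a
uniformizer at `Q` and a unit at the other cusps).  `hzero` is discharged by `glu_hpol` (DEG).
-/
import Mathlib
import Fermat.Agent.S18x.GlueNrm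
import Fermat.Agent.S18x.NrmDictZero

set_option autoImplicit false
set_option synthInstance.maxHeartbeats 400000

namespace Fermat.Agent.S18x

open AlgebraicCurve ModularCurve
open Fermat.Agent.S24x

set_option maxHeartbeats 2000000 in
/-- **(Ninf) at level `N` from (N0) + OUT-C**, concrete types. -/
theorem nrd_Ninf_levelN (N : ℕ) [NeZero N] {ℓ : ℕ} [Fact ℓ.Prime] (hℓN : ¬ ℓ ∣ N)
    (A : ValuationSubring (AlgebraicClosure ℚ)) (hA : A.LiesOverPrime ℓ)
    (h : ModularCurve.ReductionInputsModL A N)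
    (W : ValuationSubring (modularFunctionFieldBar N))
    (ρ : W →+* modularFunctionFieldFullC (IsLocalRing.ResidueField A) N)
    (G : s18a_Gauss A (IsLocalRing.residue A) W ρ (placeReductionModL h))
    (J : W) (hJ : (J : modularFunctionFieldBar N) = jBar N)
    (hρJ : ((ρ J : modularFunctionFieldFullC (IsLocalRing.ResidueField A) N) :
      LaurentSeries (IsLocalRing.ResidueField A)) = jqModC (IsLocalRing.ResidueField A))
    (hN0 : ∀ yb : modularFunctionFieldFullC (IsLocalRing.ResidueField A) N,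
      (∀ Q : Place (IsLocalRing.ResidueField A)
          (modularFunctionFieldFullC (IsLocalRing.ResidueField A) N),
        0 ≤ Q.ord (ρ J) → 0 ≤ Q.ord yb) →
      ∃ u : W, ρ u = yb ∧ ∀ P : Place (AlgebraicClosure ℚ) (modularFunctionFieldBar N),
        0 ≤ P.ord (J : modularFunctionFieldBar N) → 0 ≤ P.ord (u : modularFunctionFieldBar N))
    (hC : ∀ Q : Place (IsLocalRing.ResidueField A)
        (modularFunctionFieldFullC (IsLocalRing.ResidueField A) N),
      Q.ord (ρ J) < 0 → ∃ u : W,
        (∀ P : Place (AlgebraicClosure ℚ) (modularFunctionFieldBar N),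
          P.ord (J : modularFunctionFieldBar N) ≤ 0 → 0 ≤ P.ord (u : modularFunctionFieldBar N)) ∧
        Q.ord (ρ u) = 1 ∧
        ∀ Q' : Place (IsLocalRing.ResidueField A)
            (modularFunctionFieldFullC (IsLocalRing.ResidueField A) N),
          Q'.ord (ρ J) < 0 → Q' ≠ Q → Q'.ord (ρ u) = 0) :
    ∀ yb : modularFunctionFieldFullC (IsLocalRing.ResidueField A) N,
      (∀ Q : Place (IsLocalRing.ResidueField A)
          (modularFunctionFieldFullC (IsLocalRing.ResidueField A) N),
        Q.ord (ρ J) ≤ 0 → 0 ≤ Q.ord yb) →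
      ∃ u : W, ρ u = yb ∧ ∀ P : Place (AlgebraicClosure ℚ) (modularFunctionFieldBar N),
        P.ord (J : modularFunctionFieldBar N) ≤ 0 → 0 ≤ P.ord (u : modularFunctionFieldBar N) := by
  have hk : IsAlgClosed (IsLocalRing.ResidueField A) := s18a_isAlgClosed_residue A
  have hρJ' : ρ J = pls_jb (IsLocalRing.ResidueField A) N := Subtype.ext hρJ
  have HF := rmn_hyp_FBar N
  have Hb := rmn_hyp_fb (IsLocalRing.ResidueField A) N
  have H : ts_Hyp A (IsLocalRing.residue A) W ρ (placeReductionModL h) := G.toHyp HF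
  have hJ0 : (J : modularFunctionFieldBar N) ≠ 0 := by
    rw [hJ]
    intro h0
    exact (fbf_isCoordinate_jBar N).transcendental (h0 ▸ isAlgebraic_zero)
  have hρJ0 : ρ J ≠ 0 := by
    rw [hρJ']
    intro h0
    exact (pls_transcendental_jb (IsLocalRing.ResidueField A) N) (h0 ▸ isAlgebraic_zero)
  obtain ⟨DJ, hDJ⟩ := HF.hpd (J : modularFunctionFieldBar N) hJ0
  obtain ⟨DJb, hDJb⟩ := Hb.hpd (ρ J) hρJ0
  have hpol := glu_hpol_assembly N hℓN A hA W ρ J hJ hρJ DJ hDJ DJb hDJb
  have hzero := nrd_zero_of_zero H J hρJ0 HF.hdeg Hb.hdeg DJ hDJ (HF.hprin0 _ DJ hJ0 hDJ)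
    DJb hDJb (Hb.hprin0 _ DJb hρJ0 hDJb) hpol
  have htb : pls_IsSepCoordinate (IsLocalRing.ResidueField A)
      (modularFunctionFieldFullC (IsLocalRing.ResidueField A) N) (ρ J) := by
    rw [hρJ']
    exact pls_isSepCoordinate_jb_perfect (IsLocalRing.ResidueField A) N
  exact nrd_Ninf_of_N0_of_cusp H J htb hzero hN0 hC

set_option maxHeartbeats 2000000 in
/-- **Conditional S18 from (I1) + (N0) + OUT-C only.** -/
theorem nrd_result_of_gauss_N0_cusp (N : ℕ) [NeZero N] {ℓ : ℕ} [Fact ℓ.Prime] (hℓN : ¬ ℓ ∣ N)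
    (A : ValuationSubring (AlgebraicClosure ℚ)) (hA : A.LiesOverPrime ℓ)
    (h : ModularCurve.ReductionInputsModL A N)
    (W : ValuationSubring (modularFunctionFieldBar N))
    (ρ : W →+* modularFunctionFieldFullC (IsLocalRing.ResidueField A) N)
    (G : s18a_Gauss A (IsLocalRing.residue A) W ρ (placeReductionModL h))
    (J : W) (hJ : (J : modularFunctionFieldBar N) = jBar N)
    (hρJ : ((ρ J : modularFunctionFieldFullC (IsLocalRing.ResidueField A) N) :
      LaurentSeries (IsLocalRing.ResidueField A)) = jqModC (IsLocalRing.ResidueField A))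
    (hN0 : ∀ yb : modularFunctionFieldFullC (IsLocalRing.ResidueField A) N,
      (∀ Q : Place (IsLocalRing.ResidueField A)
          (modularFunctionFieldFullC (IsLocalRing.ResidueField A) N),
        0 ≤ Q.ord (ρ J) → 0 ≤ Q.ord yb) →
      ∃ u : W, ρ u = yb ∧ ∀ P : Place (AlgebraicClosure ℚ) (modularFunctionFieldBar N),
        0 ≤ P.ord (J : modularFunctionFieldBar N) → 0 ≤ P.ord (u : modularFunctionFieldBar N))
    (hC : ∀ Q : Place (IsLocalRing.ResidueField A)
        (modularFunctionFieldFullC (IsLocalRing.ResidueField A) N),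
      Q.ord (ρ J) < 0 → ∃ u : W,
        (∀ P : Place (AlgebraicClosure ℚ) (modularFunctionFieldBar N),
          P.ord (J : modularFunctionFieldBar N) ≤ 0 → 0 ≤ P.ord (u : modularFunctionFieldBar N)) ∧
        Q.ord (ρ u) = 1 ∧
        ∀ Q' : Place (IsLocalRing.ResidueField A)
            (modularFunctionFieldFullC (IsLocalRing.ResidueField A) N),
          Q'.ord (ρ J) < 0 → Q' ≠ Q → Q'.ord (ρ u) = 0)
    (m : ℕ) (hm : ¬ ℓ ∣ m) (z : ModularCurve.JZero N) (hmz : m • z = 0)
    (hz : ModularCurve.reductionModL A N z = 0) : z = 0 :=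
  glu_result_of_gauss_nrm N hℓN A hA h W ρ G J hJ hρJ hN0
    (nrd_Ninf_levelN N hℓN A hA h W ρ G J hJ hρJ hN0 hC) m hm z hmz hz

end Fermat.Agent.S18x
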