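/-
S18x/NrmInfGlue (helper34), row N8c / `nig_` of `s18_nrm_plan`: the RING-LEVEL GLUE
**`hIntInf` from `hInt0` + OUT-C (localised-onto form of N7)**, output literally the `hIntInf`
input of helper40's `glu_result_of_gauss_int`.

* `nig_Ninf_core`  : place-form core: (N0) + [for every cusp a liftable uniformizer] + [liftable
  separators for pairs of cusps] ⟹ (Ninf)   (generalises `nrd_Ninf_of_N0_of_cusp`);
* `nig_ord_aeval_eq_zero` : `s(0) ≠ 0`, `0 < ord_Q x` ⟹ `ord_Q (s(x)) = 0`;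
* `nig_Ninf_of_onto` : (N0) + OUT-C-onto (place form) ⟹ (Ninf);
* `nig_hIntInf`    : `hInt0` + OUT-C-onto (ring form, helper35's shape) ⟹ `hIntInf`;
* `nig_result_of_gauss_int0_onto` : conditional S18 from (I1) + `hInt0` + OUT-C-onto.
-/
import Mathlib
import Fermat.Agent.S18x.NrmDictGlue
import Fermat.Agent.S18x.GlueInt

set_option autoImplicit false

namespace Fermat.Agent.S18x

open AlgebraicCurve IsDedekindDomain WithZero Polynomial IntermediateField
open Fermat.Agent.S24x
open scoped IntermediateField.algebraAdjoinAdjoin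

section Abstract

variable {L k F Fb : Type*} [Field L] [Field k] [Field F] [Field Fb] [Algebra L F] [Algebra k Fb]
variable {A : ValuationSubring L} {π : A →+* k} {W : ValuationSubring F} {ρ : W →+* Fb}
  {r : Place L F → Place k Fb}

set_option synthInstance.maxHeartbeats 400000 in
set_option maxHeartbeats 1000000 in
/-- **Core of the glue at infinity** (place form).  Besides (N0) one needs, for every pole `Q` of
`ρ J`, a liftable function of `B∞` with `ord_Q = 1` (`hU`), and for any two distinct poles a liftable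
function of `B∞` vanishing at the first and a unit at the second (`hSep`). -/
theorem nig_Ninf_core [IsAlgClosed k] (H : ts_Hyp A π W ρ r) (J : W)
    (htb : pls_IsSepCoordinate k Fb (ρ J))
    (hN0 : ∀ yb : Fb, (∀ Q : Place k Fb, 0 ≤ Q.ord (ρ J) → 0 ≤ Q.ord yb) →
      ∃ u : W, ρ u = yb ∧ ∀ P : Place L F, 0 ≤ P.ord (J : F) → 0 ≤ P.ord (u : F))
    (hU : ∀ Q : Place k Fb, Q.ord (ρ J) < 0 → ∃ t : Fb, nrd_LiftInf L ρ (J : F) t ∧
      (∀ Q' : Place k Fb, Q'.ord (ρ J) ≤ 0 → 0 ≤ Q'.ord t) ∧ Q.ord t = 1)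
    (hSep : ∀ Q Q' : Place k Fb, Q.ord (ρ J) < 0 → Q'.ord (ρ J) < 0 → Q' ≠ Q →
      ∃ s : Fb, nrd_LiftInf L ρ (J : F) s ∧
        (∀ Q'' : Place k Fb, Q''.ord (ρ J) ≤ 0 → 0 ≤ Q''.ord s) ∧ 0 < Q.ord s ∧ Q'.ord s = 0) :
    ∀ yb : Fb, (∀ Q : Place k Fb, Q.ord (ρ J) ≤ 0 → 0 ≤ Q.ord yb) →
      ∃ u : W, ρ u = yb ∧ ∀ P : Place L F, P.ord (J : F) ≤ 0 → 0 ≤ P.ord (u : F) := by
  classical
  have hJ : ρ J ≠ 0 := by
    intro h0
    exact htb.coord.transcendental (h0 ▸ isAlgebraic_zero)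
  have htb' : pls_IsSepCoordinate k Fb (ρ J)⁻¹ := pls_isSepCoordinate_inv htb
  have hpdb := pls_hpd htb
  have : FFData k Fb (ρ J)⁻¹ := cp15_ffData (nrd_cp15_of_pls htb')
  have : Algebra.IsSeparable k⟮(ρ J)⁻¹⟯ Fb := htb'.sep
  have : FFData k Fb (ρ J) := cp15_ffData (nrd_cp15_of_pls htb)
  have : Algebra.IsSeparable k⟮ρ J⟯ Fb := htb.sep
  have : IsDedekindDomain (ringB k (ρ J)⁻¹) := cp15_isDedekindDomain_ringB (K := k) (ρ J)⁻¹
  have : IsDedekindDomain (ringB k (ρ J)) := cp15_isDedekindDomain_ringB (K := k) (ρ J)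
  have : Module.Finite (ringA k (ρ J)⁻¹) (ringB k (ρ J)⁻¹) := cp15_finite_ringB (K := k) (ρ J)⁻¹
  set S := nrd_liftSubalgebra (L := L) H J hJ with hSdef
  have : Module.Finite S (ringB k (ρ J)⁻¹) :=
    Module.Finite.of_restrictScalars_finite (ringA k (ρ J)⁻¹) S (ringB k (ρ J)⁻¹)
  -- the element `tb = (ρ J)⁻¹` of the chart ring
  set tbB : ringB k (ρ J)⁻¹ :=
    ⟨(ρ J)⁻¹, (ringB k (ρ J)⁻¹).algebraMap_mem (genA k (ρ J)⁻¹)⟩ with htbB
  have htbS : tbB ∈ S := nrd_LiftInf_inv H J hJ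
  have htbB0 : tbB ≠ 0 := by
    intro h
    have := congrArg Subtype.val h
    exact inv_ne_zero hJ this
  -- a general device: twisted lifts of elements of the finite chart ring
  have htwist : ∀ z : ringB k (ρ J), ∃ s : ringB k (ρ J)⁻¹, s ∈ S ∧
      ∀ Q : Place k Fb, Q.ord (ρ J) = 0 → Q.ord (s : Fb) = Q.ord (z : Fb) := by
    intro z
    have hz : ∀ Q : Place k Fb, 0 ≤ Q.ord (ρ J) → 0 ≤ Q.ord (z : Fb) :=
      (nrd_regular_iff htb (z : Fb)).mpr z.2
    obtain ⟨m, hlift, hreg⟩ := nrd_exists_twist H J hJ hpdb hN0 (z : Fb) hz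
    refine ⟨⟨(z : Fb) * ((ρ J)⁻¹) ^ m, (nrd_regular_inv_iff htb _).mp hreg⟩, hlift, fun Q hQ => ?_⟩
    rcases eq_or_ne (z : Fb) 0 with h0 | h0
    · simp [h0]
    · show Q.ord ((z : Fb) * ((ρ J)⁻¹) ^ m) = _
      rw [nrd_ord_twist Q hJ h0, hQ, mul_zero, sub_zero]
  have hS : S = ⊤ := by
    refine ndc_subalgebra_eq_top_of_uniformizers S (fun 𝔮 h𝔮 => ?_)
    obtain ⟨Q, hQt, hQ1, hQ2⟩ := nrd_exists_place_of_maximal (K := k) (ρ J)⁻¹ 𝔮 h𝔮
    have hQj : Q.ord (ρ J) ≤ 0 := by
      rw [Q.ord_inv] at hQt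
      omega
    have htmem : (ρ J)⁻¹ ∈ Q.toValuationSubring := (nrd_mem_iff Q _).mpr hQt
    refine ⟨fun b => ?_, ?_⟩
    · -- residues are constants
      have hb1 : Q.adicValuation (b : Fb) ≤ 1 :=
        Q.adicValuation_le_one_of_mem (ringB_mem_place (ρ J)⁻¹ Q htmem b)
      obtain ⟨c, hc⟩ := pls_eval htb Q (b : Fb) hb1
      set cB : ringB k (ρ J)⁻¹ :=
        algebraMap (ringA k (ρ J)⁻¹) (ringB k (ρ J)⁻¹) (algebraMap k (ringA k (ρ J)⁻¹) c) with hcB
      have hcoe : ((b - cB : ringB k (ρ J)⁻¹) : Fb) = (b : Fb) - algebraMap k Fb c := rfl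
      refine ⟨cB, S.algebraMap_mem _, ?_⟩
      rw [hQ1]
      by_cases h0 : b - cB = 0
      · exact Or.inl h0
      · right
        rw [hcoe]
        have hne : (b : Fb) - algebraMap k Fb c ≠ 0 := by
          intro h
          apply h0
          exact Subtype.ext (by rw [hcoe, h]; rfl)
        have := ((ts_val_lt_one_iff Q).mp hc).resolve_left hne
        omega
    · by_cases hcusp : Q.ord (ρ J) < 0
      · -- a cusp: liftable uniformizer + separators
        obtain ⟨t₀, htlift, htreg, ht1⟩ := hU Q hcusp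
        have ht₀0 : t₀ ≠ 0 := by
          intro h
          rw [h, Place.ord_zero] at ht1
          omega
        set t : ringB k (ρ J)⁻¹ := ⟨t₀, (nrd_regular_inv_iff htb t₀).mp htreg⟩ with ht
        have ht0 : t ≠ 0 := by
          intro h
          exact ht₀0 (congrArg Subtype.val h)
        have htS : t ∈ S := htlift
        refine ⟨t, htS, (hQ1 t).mpr (Or.inr (by show 0 < Q.ord t₀; omega)), ?_, ?_⟩
        · intro h
          rcases (hQ2 t).mp h with h0 | h2
          · exact ht0 h0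
          · have : (2 : ℤ) ≤ Q.ord t₀ := h2
            omega
        · intro 𝔮' h𝔮' hfib hne _
          obtain ⟨Q', hQ't, hQ'1, hQ'2⟩ := nrd_exists_place_of_maximal (K := k) (ρ J)⁻¹ 𝔮' h𝔮'
          have htb𝔮 : tbB ∈ 𝔮 := (hQ1 tbB).mpr (Or.inr (by
            show 0 < Q.ord (ρ J)⁻¹
            rw [Q.ord_inv]; omega))
          have htb𝔮' : tbB ∈ 𝔮' := (hfib tbB htbS).mpr htb𝔮
          have hcusp' : Q'.ord (ρ J) < 0 := by
            rcases (hQ'1 tbB).mp htb𝔮' with h | h
            · exact absurd h htbB0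
            · have h' : 0 < Q'.ord (ρ J)⁻¹ := h
              rw [Q'.ord_inv] at h'
              omega
          have hQne : Q' ≠ Q := by
            intro hQQ
            subst hQQ
            exact hne (nrd_maximal_eq_of_place (ρ J)⁻¹ hQ1 hQ'1)
          obtain ⟨s₀, hslift, hsreg, hsQ, hsQ'⟩ := hSep Q Q' hcusp hcusp' hQne
          set s : ringB k (ρ J)⁻¹ := ⟨s₀, (nrd_regular_inv_iff htb s₀).mp hsreg⟩ with hs
          have hsS : s ∈ S := hslift
          have hs𝔮 : s ∈ 𝔮 := (hQ1 s).mpr (Or.inr hsQ)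
          have hs𝔮' : s ∈ 𝔮' := (hfib s hsS).mpr hs𝔮
          rcases (hQ'1 s).mp hs𝔮' with h | h
          · have h1 : s₀ = 0 := congrArg Subtype.val h
            rw [h1, Place.ord_zero] at hsQ
            omega
          · have : 0 < Q'.ord s₀ := h
            omega
      · -- not a cusp: `ρ J` is a unit at `Q`
        have hQ0 : Q.ord (ρ J) = 0 := le_antisymm hQj (not_lt.mp hcusp)
        obtain ⟨w0, hw0⟩ := cp15_exists_prime_of_place (K := k) (ρ J) Q
          ((nrd_mem_iff Q _).mpr (by omega))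
        obtain ⟨π0, hπ0⟩ := w0.intValuation_exists_uniformizer
        have hπ0ord : Q.ord (π0 : Fb) = 1 := by
          rw [← hw0, fid_ord_ofHeightOneSpectrum (K := k) w0]
          rw [show ((π0 : Fb)) = algebraMap (ringB k (ρ J)) Fb π0 from rfl,
            HeightOneSpectrum.valuation_of_algebraMap, hπ0, log_exp]
          simp
        obtain ⟨t, htS, htord⟩ := htwist π0
        have ht1 : Q.ord (t : Fb) = 1 := by rw [htord Q hQ0, hπ0ord]
        have ht0 : t ≠ 0 := by
          intro h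
          rw [h] at ht1
          simp at ht1
        refine ⟨t, htS, (hQ1 t).mpr (Or.inr (by omega)), ?_, ?_⟩
        · intro h
          rcases (hQ2 t).mp h with h0 | h2
          · exact ht0 h0
          · omega
        · intro 𝔮' h𝔮' hfib hne _
          obtain ⟨Q', hQ't, hQ'1, hQ'2⟩ := nrd_exists_place_of_maximal (K := k) (ρ J)⁻¹ 𝔮' h𝔮'
          have hQ'j : Q'.ord (ρ J) ≤ 0 := by
            rw [Q'.ord_inv] at hQ't
            omega
          have hQne : Q' ≠ Q := by
            intro hQQ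
            subst hQQ
            exact hne (nrd_maximal_eq_of_place (ρ J)⁻¹ hQ1 hQ'1)
          by_cases hc' : Q'.ord (ρ J) < 0
          · -- `tb` separates
            have htb𝔮' : tbB ∈ 𝔮' := (hQ'1 tbB).mpr (Or.inr (by
              show 0 < Q'.ord (ρ J)⁻¹
              rw [Q'.ord_inv]; omega))
            have htb𝔮 : tbB ∈ 𝔮 := (hfib tbB htbS).mp htb𝔮'
            rcases (hQ1 tbB).mp htb𝔮 with h | h
            · exact htbB0 h
            · have h' : 0 < Q.ord (ρ J)⁻¹ := h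
              rw [Q.ord_inv] at h'
              omega
          · have hQ'0 : Q'.ord (ρ J) = 0 := le_antisymm hQ'j (not_lt.mp hc')
            obtain ⟨w0', hw0'⟩ := cp15_exists_prime_of_place (K := k) (ρ J) Q'
              ((nrd_mem_iff Q' _).mpr (by omega))
            have hwne : ¬ (w0.asIdeal ≤ w0'.asIdeal) := by
              intro hle
              have heq : w0.asIdeal = w0'.asIdeal :=
                w0.isMaximal.eq_of_le w0'.isPrime.ne_top hle
              have : w0 = w0' := HeightOneSpectrum.ext heq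
              apply hQne
              rw [← hw0, ← hw0', this]
            obtain ⟨z', hz'1, hz'2⟩ := SetLike.not_le_iff_exists.mp hwne
            have hz'0 : z' ≠ 0 := by
              intro h
              exact hz'2 (h ▸ w0'.asIdeal.zero_mem)
            have hz'Q : 0 < Q.ord (z' : Fb) := by
              have := (fid_mem_asIdeal_iff (K := k) (F := Fb) w0 hz'0).mp hz'1
              rw [hw0] at this
              exact this
            have hz'Q' : ¬ 0 < Q'.ord (z' : Fb) := by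
              intro hpos
              apply hz'2
              apply (fid_mem_asIdeal_iff (K := k) (F := Fb) w0' hz'0).mpr
              rw [hw0']
              exact hpos
            obtain ⟨s, hsS, hsord⟩ := htwist z'
            have hs𝔮 : s ∈ 𝔮 := (hQ1 s).mpr (Or.inr (by rw [hsord Q hQ0]; exact hz'Q))
            have hs𝔮' : s ∈ 𝔮' := (hfib s hsS).mpr hs𝔮
            rcases (hQ'1 s).mp hs𝔮' with h | h
            · rw [h] at hs𝔮
              have h1 := hsord Q hQ0
              rw [h] at h1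
              simp at h1
              omega
            · rw [hsord Q' hQ'0] at h
              exact hz'Q' h
  intro yb hyb
  have hmem : yb ∈ ringB k (ρ J)⁻¹ := (nrd_regular_inv_iff htb yb).mp hyb
  have hin : (⟨yb, hmem⟩ : ringB k (ρ J)⁻¹) ∈ S := by
    rw [hS]
    exact Algebra.mem_top
  obtain ⟨u, hu, hρ⟩ := hin
  exact ⟨u, hρ, fun P hP => (nrd_mem_iff P _).mp (hu P hP)⟩


/-- `s(0) ≠ 0` and `0 < ord_Q x` imply `ord_Q (s(x)) = 0`. -/
theorem nig_ord_aeval_eq_zero {K E : Type*} [Field K] [Field E] [Algebra K E] (Q : Place K E)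
    {x : E} (hx : 0 < Q.ord x) (s : K[X]) (hs : s.eval 0 ≠ 0) : Q.ord (aeval x s) = 0 := by
  have hx0 : x ≠ 0 := by
    rintro rfl
    simp at hx
  have hsplit : aeval x s = algebraMap K E (s.eval 0) + x * aeval x s.divX := by
    conv_lhs => rw [← Polynomial.divX_mul_X_add s]
    rw [map_add, map_mul, aeval_X, aeval_C, Polynomial.coeff_zero_eq_eval_zero]
    ring
  have hxmem : x ∈ Q.toValuationSubring := (nrd_mem_iff Q x).mpr hx.le
  have hgmem : aeval x s.divX ∈ Q.toValuationSubring := by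
    have hle : Algebra.adjoin K {x} ≤ placeSubalgebra Q := ringA_le_place x Q hxmem
    have : aeval x s.divX ∈ Algebra.adjoin K {x} := by
      rw [Algebra.adjoin_singleton_eq_range_aeval]
      exact ⟨_, rfl⟩
    exact hle this
  have hc0 : algebraMap K E (s.eval 0) ≠ 0 := by simpa using hs
  have hvc : Q.adicValuation (algebraMap K E (s.eval 0)) = 1 := by
    rw [Q.adicValuation_eq_exp_neg_ord hc0, pb_ord_algebraMap]
    simp
  have hvx : Q.adicValuation (x * aeval x s.divX) < 1 := by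
    rw [map_mul]
    have h1 : Q.adicValuation x < 1 := by
      rw [Q.adicValuation_eq_exp_neg_ord hx0, ← exp_zero, exp_lt_exp]
      omega
    have h2 : Q.adicValuation (aeval x s.divX) ≤ 1 := Q.adicValuation_le_one_of_mem hgmem
    calc Q.adicValuation x * Q.adicValuation (aeval x s.divX)
        ≤ Q.adicValuation x * 1 := by gcongr
      _ < 1 := by rwa [mul_one]
  have hv : Q.adicValuation (aeval x s) = 1 := by
    rw [hsplit, Valuation.map_add_eq_of_lt_left _ (by rw [hvc]; exact hvx), hvc]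
  have hne : aeval x s ≠ 0 := by
    intro h
    rw [h, map_zero] at hv
    exact zero_ne_one hv
  rw [Q.adicValuation_eq_exp_neg_ord hne, ← exp_zero, exp_inj] at hv
  omega

set_option synthInstance.maxHeartbeats 400000 in
set_option maxHeartbeats 1000000 in
/-- **(N0) + OUT-C in localised-onto PLACE form ⟹ (Ninf).**  `hCo`: every `yb` regular off the
zeros of `ρ J` becomes liftable (to `W ∩ {regular off the zeros of J}`) after multiplication by some
`e ≠ 0` which is a unit at all poles of `ρ J`. -/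
theorem nig_Ninf_of_onto [IsAlgClosed k] (H : ts_Hyp A π W ρ r) (J : W)
    (htb : pls_IsSepCoordinate k Fb (ρ J))
    (hzero : ∀ P : Place L F, 0 < P.ord (J : F) → 0 < (r P).ord (ρ J))
    (hN0 : ∀ yb : Fb, (∀ Q : Place k Fb, 0 ≤ Q.ord (ρ J) → 0 ≤ Q.ord yb) →
      ∃ u : W, ρ u = yb ∧ ∀ P : Place L F, 0 ≤ P.ord (J : F) → 0 ≤ P.ord (u : F))
    (hCo : ∀ yb : Fb, (∀ Q : Place k Fb, Q.ord (ρ J) ≤ 0 → 0 ≤ Q.ord yb) →
      ∃ (u : W) (e : Fb), e ≠ 0 ∧ (∀ P : Place L F, P.ord (J : F) ≤ 0 → 0 ≤ P.ord (u : F)) ∧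
        ρ u = e * yb ∧ ∀ Q : Place k Fb, Q.ord (ρ J) < 0 → Q.ord e = 0) :
    ∀ yb : Fb, (∀ Q : Place k Fb, Q.ord (ρ J) ≤ 0 → 0 ≤ Q.ord yb) →
      ∃ u : W, ρ u = yb ∧ ∀ P : Place L F, P.ord (J : F) ≤ 0 → 0 ≤ P.ord (u : F) := by
  classical
  have htb' : pls_IsSepCoordinate k Fb (ρ J)⁻¹ := pls_isSepCoordinate_inv htb
  have : FFData k Fb (ρ J)⁻¹ := cp15_ffData (nrd_cp15_of_pls htb')
  have : Algebra.IsSeparable k⟮(ρ J)⁻¹⟯ Fb := htb'.sep
  have : IsDedekindDomain (ringB k (ρ J)⁻¹) := cp15_isDedekindDomain_ringB (K := k) (ρ J)⁻¹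
  have hprime : ∀ Q : Place k Fb, Q.ord (ρ J) < 0 →
      ∃ w : HeightOneSpectrum (ringB k (ρ J)⁻¹), Place.ofHeightOneSpectrum (K := k) w = Q :=
    fun Q hQ => cp15_exists_prime_of_place (K := k) (ρ J)⁻¹ Q
      ((nrd_mem_iff Q _).mpr (by rw [Q.ord_inv]; omega))
  refine nig_Ninf_core H J htb hN0 ?_ ?_
  · intro Q hQ
    obtain ⟨w, hw⟩ := hprime Q hQ
    obtain ⟨π0, hπ0⟩ := w.intValuation_exists_uniformizer
    have hπ0ord : Q.ord (π0 : Fb) = 1 := by
      rw [← hw, fid_ord_ofHeightOneSpectrum (K := k) w]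
      rw [show ((π0 : Fb)) = algebraMap (ringB k (ρ J)⁻¹) Fb π0 from rfl,
        HeightOneSpectrum.valuation_of_algebraMap, hπ0, log_exp]
      simp
    have hπ0ne : (π0 : Fb) ≠ 0 := by
      intro h
      rw [h, Place.ord_zero] at hπ0ord
      omega
    have hπreg : ∀ Q' : Place k Fb, Q'.ord (ρ J) ≤ 0 → 0 ≤ Q'.ord (π0 : Fb) :=
      (nrd_regular_inv_iff htb _).mpr π0.2
    obtain ⟨u, e, he0, hureg, hρu, heunit⟩ := hCo (π0 : Fb) hπreg
    refine ⟨ρ u, ⟨u, fun P hP => (nrd_mem_iff P _).mpr (hureg P hP), rfl⟩,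
      nrd_reg_inf H J hzero u hureg, ?_⟩
    rw [hρu, Q.ord_mul he0 hπ0ne, heunit Q hQ, hπ0ord]
    norm_num
  · intro Q Q' hQ hQ' hne
    obtain ⟨w, hw⟩ := hprime Q hQ
    obtain ⟨w', hw'⟩ := hprime Q' hQ'
    have hwne : ¬ (w.asIdeal ≤ w'.asIdeal) := by
      intro hle
      have heq : w.asIdeal = w'.asIdeal := w.isMaximal.eq_of_le w'.isPrime.ne_top hle
      have : w = w' := HeightOneSpectrum.ext heq
      apply hne
      rw [← hw, ← hw', this]
    obtain ⟨z, hz1, hz2⟩ := SetLike.not_le_iff_exists.mp hwne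
    have hz0 : z ≠ 0 := by
      intro h
      exact hz2 (h ▸ w'.asIdeal.zero_mem)
    have hzF0 : (z : Fb) ≠ 0 := by
      intro h
      exact hz0 (Subtype.ext h)
    have hzQ : 0 < Q.ord (z : Fb) := by
      have := (fid_mem_asIdeal_iff (K := k) (F := Fb) w hz0).mp hz1
      rw [hw] at this
      exact this
    have hzreg : ∀ Q'' : Place k Fb, Q''.ord (ρ J) ≤ 0 → 0 ≤ Q''.ord (z : Fb) :=
      (nrd_regular_inv_iff htb _).mpr z.2
    have hzQ' : Q'.ord (z : Fb) = 0 := by
      have h1 : ¬ 0 < Q'.ord (z : Fb) := by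
        intro hpos
        apply hz2
        apply (fid_mem_asIdeal_iff (K := k) (F := Fb) w' hz0).mpr
        rw [hw']
        exact hpos
      have h2 := hzreg Q' hQ'.le
      omega
    obtain ⟨u, e, he0, hureg, hρu, heunit⟩ := hCo (z : Fb) hzreg
    refine ⟨ρ u, ⟨u, fun P hP => (nrd_mem_iff P _).mpr (hureg P hP), rfl⟩,
      nrd_reg_inf H J hzero u hureg, ?_, ?_⟩
    · rw [hρu, Q.ord_mul he0 hzF0, heunit Q hQ]
      omega
    · rw [hρu, Q'.ord_mul he0 hzF0, heunit Q' hQ', hzQ']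
      norm_num

/-- **`hIntInf` from `hInt0` + OUT-C-onto** (ring form; output = literally the `hIntInf` input of
`glu_result_of_gauss_int`; `hCo` = helper35's localised-onto form of OUT-C). -/
theorem nig_hIntInf [IsAlgClosed k] (H : ts_Hyp A π W ρ r) (J : W)
    (ht : pls_IsSepCoordinate L F (J : F))
    (htb : pls_IsSepCoordinate k Fb (ρ J))
    (hzero : ∀ P : Place L F, 0 < P.ord (J : F) → 0 < (r P).ord (ρ J))
    (hInt0 : ∀ yb : Fb, IsIntegral (Algebra.adjoin k {ρ J}) yb →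
      ∃ u : W, ρ u = yb ∧ IsIntegral (Algebra.adjoin L {(J : F)}) (u : F))
    (hCo : ∀ yb : Fb, IsIntegral (Algebra.adjoin k {(ρ J)⁻¹}) yb →
      ∃ (u : W) (s : k[X]), s.eval 0 ≠ 0 ∧ ρ u = aeval (ρ J)⁻¹ s * yb ∧
        IsIntegral (Algebra.adjoin L {((J : F))⁻¹}) (u : F)) :
    ∀ yb : Fb, IsIntegral (Algebra.adjoin k {(ρ J)⁻¹}) yb →
      ∃ u : W, ρ u = yb ∧ IsIntegral (Algebra.adjoin L {((J : F))⁻¹}) (u : F) := by
  have htb' : pls_IsSepCoordinate k Fb (ρ J)⁻¹ := pls_isSepCoordinate_inv htb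
  have hNinf := nig_Ninf_of_onto H J htb hzero
    (fun yb hyb => by
      obtain ⟨u, hu, hint⟩ := hInt0 yb ((nrd_regular_iff htb yb).mp hyb)
      exact ⟨u, hu, (nrd_regular_iff ht (u : F)).mpr hint⟩)
    (fun yb hyb => by
      obtain ⟨u, s, hs0, hρu, hint⟩ := hCo yb ((nrd_regular_inv_iff htb yb).mp hyb)
      have hsne : s ≠ 0 := by
        rintro rfl
        simp at hs0
      have hene : aeval (ρ J)⁻¹ s ≠ 0 := fun h0 =>
        hsne ((transcendental_iff.mp htb'.coord.transcendental) s h0)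
      exact ⟨u, aeval (ρ J)⁻¹ s, hene, (nrd_regular_inv_iff ht (u : F)).mpr hint, hρu,
        fun Q hQ => nig_ord_aeval_eq_zero Q (by rw [Q.ord_inv]; omega) s hs0⟩)
  intro yb hyb
  obtain ⟨u, hu, hreg⟩ := hNinf yb ((nrd_regular_inv_iff htb yb).mpr hyb)
  exact ⟨u, hu, (nrd_regular_inv_iff ht (u : F)).mp hreg⟩

end Abstract

section Concrete

open ModularCurve

set_option synthInstance.maxHeartbeats 400000

set_option synthInstance.maxHeartbeats 400000 in
set_option maxHeartbeats 2000000 in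
/-- **`hIntInf` at level `N` from `hInt0` + OUT-C-onto**, concrete types, any `(W, ρ, J)`. -/
theorem nig_hIntInf_levelN (N : ℕ) [NeZero N] {ℓ : ℕ} [Fact ℓ.Prime] (hℓN : ¬ ℓ ∣ N)
    (A : ValuationSubring (AlgebraicClosure ℚ)) (hA : A.LiesOverPrime ℓ)
    (h : ModularCurve.ReductionInputsModL A N)
    (W : ValuationSubring (modularFunctionFieldBar N))
    (ρ : W →+* modularFunctionFieldFullC (IsLocalRing.ResidueField A) N)
    (G : s18a_Gauss A (IsLocalRing.residue A) W ρ (placeReductionModL h))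
    (J : W) (hJ : (J : modularFunctionFieldBar N) = jBar N)
    (hρJ : ((ρ J : modularFunctionFieldFullC (IsLocalRing.ResidueField A) N) :
      LaurentSeries (IsLocalRing.ResidueField A)) = jqModC (IsLocalRing.ResidueField A))
    (hInt0 : ∀ yb : modularFunctionFieldFullC (IsLocalRing.ResidueField A) N,
      IsIntegral (Algebra.adjoin (IsLocalRing.ResidueField A) {ρ J}) yb →
      ∃ u : W, ρ u = yb ∧
        IsIntegral (Algebra.adjoin (AlgebraicClosure ℚ) {(J : modularFunctionFieldBar N)})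
          (u : modularFunctionFieldBar N))
    (hCo : ∀ yb : modularFunctionFieldFullC (IsLocalRing.ResidueField A) N,
      IsIntegral (Algebra.adjoin (IsLocalRing.ResidueField A) {(ρ J)⁻¹}) yb →
      ∃ (u : W) (s : Polynomial (IsLocalRing.ResidueField A)), s.eval 0 ≠ 0 ∧
        ρ u = Polynomial.aeval (ρ J)⁻¹ s * yb ∧
        IsIntegral (Algebra.adjoin (AlgebraicClosure ℚ) {((J : modularFunctionFieldBar N))⁻¹})
          (u : modularFunctionFieldBar N)) :
    ∀ yb : modularFunctionFieldFullC (IsLocalRing.ResidueField A) N,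
      IsIntegral (Algebra.adjoin (IsLocalRing.ResidueField A) {(ρ J)⁻¹}) yb →
      ∃ u : W, ρ u = yb ∧
        IsIntegral (Algebra.adjoin (AlgebraicClosure ℚ) {((J : modularFunctionFieldBar N))⁻¹})
          (u : modularFunctionFieldBar N) := by
  have hk : IsAlgClosed (IsLocalRing.ResidueField A) := s18a_isAlgClosed_residue A
  have hρJ' : ρ J = pls_jb (IsLocalRing.ResidueField A) N := Subtype.ext hρJ
  have HF := rmn_hyp_FBar N
  have Hb := rmn_hyp_fb (IsLocalRing.ResidueField A) N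
  have H : ts_Hyp A (IsLocalRing.residue A) W ρ (placeReductionModL h) := G.toHyp HF
  have hJ0 : (J : modularFunctionFieldBar N) ≠ 0 := by
    rw [hJ]
    intro h0
    exact (fbf_isCoordinate_jBar N).transcendental (h0 ▸ isAlgebraic_zero)
  have hρJ0 : ρ J ≠ 0 := by
    rw [hρJ']
    intro h0
    exact (pls_transcendental_jb (IsLocalRing.ResidueField A) N) (h0 ▸ isAlgebraic_zero)
  obtain ⟨DJ, hDJ⟩ := HF.hpd (J : modularFunctionFieldBar N) hJ0
  obtain ⟨DJb, hDJb⟩ := Hb.hpd (ρ J) hρJ0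
  have hpol := glu_hpol_assembly N hℓN A hA W ρ J hJ hρJ DJ hDJ DJb hDJb
  have hzero := nrd_zero_of_zero H J hρJ0 HF.hdeg Hb.hdeg DJ hDJ (HF.hprin0 _ DJ hJ0 hDJ)
    DJb hDJb (Hb.hprin0 _ DJb hρJ0 hDJb) hpol
  have htb : pls_IsSepCoordinate (IsLocalRing.ResidueField A)
      (modularFunctionFieldFullC (IsLocalRing.ResidueField A) N) (ρ J) := by
    rw [hρJ']
    exact pls_isSepCoordinate_jb_perfect (IsLocalRing.ResidueField A) N
  have ht : pls_IsSepCoordinate (AlgebraicClosure ℚ) (modularFunctionFieldBar N)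
      (J : modularFunctionFieldBar N) := by
    rw [hJ]
    exact pls_isSepCoordinate_jBar N
  exact nig_hIntInf H J ht htb hzero hInt0 hCo

set_option maxHeartbeats 2000000 in
/-- **Conditional S18 from (I1) + `hInt0` + OUT-C-onto only.** -/
theorem nig_result_of_gauss_int0_onto (N : ℕ) [NeZero N] {ℓ : ℕ} [Fact ℓ.Prime] (hℓN : ¬ ℓ ∣ N)
    (A : ValuationSubring (AlgebraicClosure ℚ)) (hA : A.LiesOverPrime ℓ)
    (h : ModularCurve.ReductionInputsModL A N)
    (W : ValuationSubring (modularFunctionFieldBar N))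
    (ρ : W →+* modularFunctionFieldFullC (IsLocalRing.ResidueField A) N)
    (G : s18a_Gauss A (IsLocalRing.residue A) W ρ (placeReductionModL h))
    (J : W) (hJ : (J : modularFunctionFieldBar N) = jBar N)
    (hρJ : ((ρ J : modularFunctionFieldFullC (IsLocalRing.ResidueField A) N) :
      LaurentSeries (IsLocalRing.ResidueField A)) = jqModC (IsLocalRing.ResidueField A))
    (hInt0 : ∀ yb : modularFunctionFieldFullC (IsLocalRing.ResidueField A) N,
      IsIntegral (Algebra.adjoin (IsLocalRing.ResidueField A) {ρ J}) yb →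
      ∃ u : W, ρ u = yb ∧
        IsIntegral (Algebra.adjoin (AlgebraicClosure ℚ) {(J : modularFunctionFieldBar N)})
          (u : modularFunctionFieldBar N))
    (hCo : ∀ yb : modularFunctionFieldFullC (IsLocalRing.ResidueField A) N,
      IsIntegral (Algebra.adjoin (IsLocalRing.ResidueField A) {(ρ J)⁻¹}) yb →
      ∃ (u : W) (s : Polynomial (IsLocalRing.ResidueField A)), s.eval 0 ≠ 0 ∧
        ρ u = Polynomial.aeval (ρ J)⁻¹ s * yb ∧
        IsIntegral (Algebra.adjoin (AlgebraicClosure ℚ) {((J : modularFunctionFieldBar N))⁻¹})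
          (u : modularFunctionFieldBar N))
    (m : ℕ) (hm : ¬ ℓ ∣ m) (z : ModularCurve.JZero N) (hmz : m • z = 0)
    (hz : ModularCurve.reductionModL A N z = 0) : z = 0 :=
  glu_result_of_gauss_int N hℓN A hA h W ρ G J hJ hρJ hInt0
    (nig_hIntInf_levelN N hℓN A hA h W ρ G J hJ hρJ hInt0 hCo) m hm z hmz hz

end Concrete

end Fermat.Agent.S18x
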