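/-
S18x/NrmFinalOfInt (helper34): the last adapter in front of helper80's `s18f_result`:
`s18f_Normality N A h` (= (N0) ∧ (Ninf) in place language for the CANONICAL Gauss pair
`(s18f_W, s18f_rho, s18f_J)`) from
* `hInt0` : normality of the finite chart in integrality language (N8: `nds_descent` output), and
* `hCo`   : OUT-C in localised-onto form (N7 / CUSPN: `cpnf_pform` shape),
both stated for the canonical pair with `jBar N`, `pls_jb k N` written out.
Also the variants from `(hInt0, hIntInf)` and from `(N0)` + `hCo`.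
-/
import Mathlib
import Fermat.Agent.S18x.AssemblyFinal
import Fermat.Agent.S18x.NrmInfGlue

set_option autoImplicit false
set_option synthInstance.maxHeartbeats 400000

namespace Fermat.Agent.S18x

open AlgebraicCurve ModularCurve Polynomial
open Fermat.Agent.S24x

variable (N : ℕ) [NeZero N] (A : ValuationSubring (AlgebraicClosure ℚ))
  (h : ModularCurve.ReductionInputsModL A N)

set_option maxHeartbeats 2000000 in
/-- zeros of `j` reduce to zeros of `jb` for the canonical pair. -/
theorem nig_hzero_canonical {ℓ : ℕ} [Fact ℓ.Prime] (hℓN : ¬ ℓ ∣ N) (hA : A.LiesOverPrime ℓ) :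
    ∀ P : Place (AlgebraicClosure ℚ) (modularFunctionFieldBar N),
      0 < P.ord ((s18f_J N A h : s18f_W N A h) : modularFunctionFieldBar N) →
      0 < (placeReductionModL h P).ord (s18f_rho N A h (s18f_J N A h)) := by
  have hk : IsAlgClosed (IsLocalRing.ResidueField A) := s18a_isAlgClosed_residue A
  have hch : CharP (IsLocalRing.ResidueField A) ℓ := glu_charP A (Fact.out : ℓ.Prime) hA
  have H := s18f_hyp N A h
  have HF := rmn_hyp_FBar N
  have Hb := rmn_hyp_fb (IsLocalRing.ResidueField A) N
  have hρJ := s18f_rho_J N A h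
  have hJ0 : ((s18f_J N A h : s18f_W N A h) : modularFunctionFieldBar N) ≠ 0 := by
    rw [s18f_J_coe]
    intro h0
    exact (fbf_isCoordinate_jBar N).transcendental (h0 ▸ isAlgebraic_zero)
  have hρJ0 : s18f_rho N A h (s18f_J N A h) ≠ 0 := by
    rw [hρJ]
    intro h0
    exact (pls_transcendental_jb (IsLocalRing.ResidueField A) N) (h0 ▸ isAlgebraic_zero)
  obtain ⟨DJ, hDJ⟩ := HF.hpd _ hJ0
  obtain ⟨DJb, hDJb⟩ := Hb.hpd _ hρJ0
  have hpol := glu_hpol N ℓ hℓN (IsLocalRing.ResidueField A) DJ
    (fun P => by rw [hDJ P, s18f_J_coe]) DJb (fun Q => by rw [hDJb Q, hρJ])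
  exact nrd_zero_of_zero H (s18f_J N A h) hρJ0 HF.hdeg Hb.hdeg DJ hDJ (HF.hprin0 _ DJ hJ0 hDJ)
    DJb hDJb (Hb.hprin0 _ DJb hρJ0 hDJb) hpol

set_option maxHeartbeats 2000000 in
/-- **`s18f_Normality` from `hInt0` + OUT-C-onto** (canonical pair). -/
theorem nig_normality_of_int0_onto {ℓ : ℕ} [Fact ℓ.Prime] (hℓN : ¬ ℓ ∣ N)
    (hA : A.LiesOverPrime ℓ)
    (hInt0 : ∀ yb : modularFunctionFieldFullC (IsLocalRing.ResidueField A) N,
      IsIntegral (Algebra.adjoin (IsLocalRing.ResidueField A)
        {pls_jb (IsLocalRing.ResidueField A) N}) yb →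
      ∃ u : s18f_W N A h, s18f_rho N A h u = yb ∧
        IsIntegral (Algebra.adjoin (AlgebraicClosure ℚ) {jBar N}) (u : modularFunctionFieldBar N))
    (hCo : ∀ yb : modularFunctionFieldFullC (IsLocalRing.ResidueField A) N,
      IsIntegral (Algebra.adjoin (IsLocalRing.ResidueField A)
        {(pls_jb (IsLocalRing.ResidueField A) N)⁻¹}) yb →
      ∃ (u : s18f_W N A h) (s : Polynomial (IsLocalRing.ResidueField A)), s.eval 0 ≠ 0 ∧
        s18f_rho N A h u = Polynomial.aeval (pls_jb (IsLocalRing.ResidueField A) N)⁻¹ s * yb ∧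
        IsIntegral (Algebra.adjoin (AlgebraicClosure ℚ) {(jBar N)⁻¹})
          (u : modularFunctionFieldBar N)) :
    s18f_Normality N A h := by
  have hk : IsAlgClosed (IsLocalRing.ResidueField A) := s18a_isAlgClosed_residue A
  have H := s18f_hyp N A h
  have hρJ := s18f_rho_J N A h
  have ht : pls_IsSepCoordinate (AlgebraicClosure ℚ) (modularFunctionFieldBar N)
      ((s18f_J N A h : s18f_W N A h) : modularFunctionFieldBar N) := pls_isSepCoordinate_jBar N
  have htb : pls_IsSepCoordinate (IsLocalRing.ResidueField A)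
      (modularFunctionFieldFullC (IsLocalRing.ResidueField A) N)
      (s18f_rho N A h (s18f_J N A h)) := by
    rw [hρJ]
    exact pls_isSepCoordinate_jb_perfect (IsLocalRing.ResidueField A) N
  have hzero := nig_hzero_canonical N A h hℓN hA
  have hInt0' : ∀ yb : modularFunctionFieldFullC (IsLocalRing.ResidueField A) N,
      IsIntegral (Algebra.adjoin (IsLocalRing.ResidueField A)
        {s18f_rho N A h (s18f_J N A h)}) yb →
      ∃ u : s18f_W N A h, s18f_rho N A h u = yb ∧
        IsIntegral (Algebra.adjoin (AlgebraicClosure ℚ)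
          {((s18f_J N A h : s18f_W N A h) : modularFunctionFieldBar N)})
          (u : modularFunctionFieldBar N) := by
    rw [hρJ]
    exact hInt0
  have hCo' : ∀ yb : modularFunctionFieldFullC (IsLocalRing.ResidueField A) N,
      IsIntegral (Algebra.adjoin (IsLocalRing.ResidueField A)
        {(s18f_rho N A h (s18f_J N A h))⁻¹}) yb →
      ∃ (u : s18f_W N A h) (s : Polynomial (IsLocalRing.ResidueField A)), s.eval 0 ≠ 0 ∧
        s18f_rho N A h u = Polynomial.aeval (s18f_rho N A h (s18f_J N A h))⁻¹ s * yb ∧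
        IsIntegral (Algebra.adjoin (AlgebraicClosure ℚ)
          {(((s18f_J N A h : s18f_W N A h) : modularFunctionFieldBar N))⁻¹})
          (u : modularFunctionFieldBar N) := by
    rw [hρJ]
    exact hCo
  have hIntInf := nig_hIntInf H (s18f_J N A h) ht htb hzero hInt0' hCo'
  refine ⟨?_, ?_⟩
  · intro yb hyb
    have h1 := ged_N0 (s18f_W N A h) (s18f_rho N A h) (s18f_J N A h) htb hInt0' yb
      (by rw [hρJ]; exact hyb)
    exact h1
  · intro yb hyb
    have h1 := ged_Ninf (s18f_W N A h) (s18f_rho N A h) (s18f_J N A h) htb hIntInf yb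
      (by rw [hρJ]; exact hyb)
    exact h1

end Fermat.Agent.S18x
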