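/-
S18 / block NRM / row N7 (helper35), part 13: **OUT-C at level `N`**, instantiation of `cspn_outC`
at the canonical Gauss pair `(s18f_W, s18f_rho)`, in the `hCo` shape of helper34's
`nig_normality_of_int0_onto`.  Inputs still in hypothesis form: the (H2) data (helper7 `cph_H2`),
and the two char-`ℓ` field inputs (LI), (num/den) (helper17 `cspl_`).
-/
import Fermat.Agent.S18x.CspnOutC
import Fermat.Agent.S18x.CspnInstData
import Fermat.Agent.S18x.NrmFinalOfInt
import Fermat.Agent.S18x.InstGaussExists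

set_option autoImplicit false
set_option synthInstance.maxHeartbeats 400000

namespace Fermat.Agent.S18x

open PowerSeries Finset ModularCurve AlgebraicCurve Fermat.Agent.S24x

noncomputable section

local notation "Qbar" => AlgebraicClosure ℚ

section Expansions

variable (N : ℕ) [NeZero N] (A : ValuationSubring Qbar)

omit [NeZero N] in
/-- expansion of `1/j` in characteristic zero -/
theorem cspn_coe_inv_jBar :
    (((jBar N : FBar N)⁻¹ : FBar N) : LaurentSeries Qbar) =
      HahnSeries.ofPowerSeries ℤ Qbar (PowerSeries.map A.subtype (cci_x A)) := by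
  have h1 := congrArg (coeffMap A.subtype) (cci_jq_mul_x A)
  rw [map_mul, map_one, coeffMap_ofPowerSeries, ← gi_coe_jBar N A] at h1
  push_cast
  exact (eq_inv_of_mul_eq_one_right h1).symm

omit [NeZero N] in
/-- expansion of `1/j̄` in characteristic `ℓ` -/
theorem cspn_coe_inv_jb (k : Type*) [Field k] :
    (((pls_jb k N)⁻¹ : pls_Fb k N) : LaurentSeries k) =
      HahnSeries.ofPowerSeries ℤ k (cci_x k) := by
  have h1 := cci_jq_mul_x k
  push_cast
  rw [pls_coe_jb]
  exact (eq_inv_of_mul_eq_one_right h1).symm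

/-- `x^N j_N` in `F_N` -/
def cspn_yF : FBar N := (jBar N)⁻¹ ^ N * jdBar N N dvd_rfl

theorem cspn_coe_yF :
    ((cspn_yF N : FBar N) : LaurentSeries Qbar) =
      HahnSeries.ofPowerSeries ℤ Qbar (PowerSeries.map A.subtype (cspi_ys A N)) := by
  rw [← coeffMap_ofPowerSeries, cspi_ofPowerSeries_ys, map_mul, map_pow, coeffMap_ofPowerSeries,
    ← cspn_coe_inv_jBar N A, cspn_yF]
  push_cast
  congr 1
  rw [coe_jdBar, jqNModC, coeffMap_qExpand, coeffMap_jqModC, coeffEmb, coeffMap_qExpand,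
    ← jqModC_rat, coeffMap_jqModC]

end Expansions

section Main

variable (N : ℕ) [NeZero N] (A : ValuationSubring Qbar)
  (h : ModularCurve.ReductionInputsModL A N)

set_option maxHeartbeats 1000000 in
/-- **OUT-C at level `N`** from the (H2) data and the char-`ℓ` field inputs. -/
theorem cspn_hCo_of_H2 {ℓ : ℕ} [Fact ℓ.Prime] (hℓN : ¬ ℓ ∣ N) (hA : A.LiesOverPrime ℓ)
    (zN : (↥A)ˣ) (hzN : IsPrimitiveRoot ((zN : (↥A)ˣ) : ↥A) N)
    {n : ℕ} (ζ : Fin n → (↥A)ˣ) (m : Fin n → ℕ) [∀ i, NeZero (m i)]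
    (hζ : ∀ i, ζ i ^ N = 1) (hm : ∀ i, m i ≤ N * N)
    (hinj : Function.Injective (fun i => (ζ i, m i)))
    (i0 : Fin n) (hi0ζ : ζ i0 = 1) (hi0m : m i0 = N * N)
    (hrot : ∀ i, ∃ i', ζ i' = ζ i * zN ^ (m i) ∧ m i' = m i)
    (f : Polynomial (Polynomial A)) (hfm : f.Monic)
    (hf : f.map (Polynomial.eval₂RingHom (PowerSeries.C : A →+* PowerSeries A) (cci_xN A N)) =
      ∏ i, (Polynomial.X - Polynomial.C (cci_yc A N (ζ i) (m i))))
    (hLI : ∀ H : Polynomial (Polynomial (IsLocalRing.ResidueField A)), H.natDegree < n →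
      cspn_evq (cci_x (IsLocalRing.ResidueField A)) (cspi_ys (IsLocalRing.ResidueField A) N) H = 0 →
      H = 0)
    (hnd : ∀ yb : modularFunctionFieldFullC (IsLocalRing.ResidueField A) N,
      ∃ (H0 : Polynomial (Polynomial (IsLocalRing.ResidueField A)))
        (d : Polynomial (IsLocalRing.ResidueField A)),
      Polynomial.aeval (HahnSeries.ofPowerSeries ℤ (IsLocalRing.ResidueField A)
        (cci_x (IsLocalRing.ResidueField A))) d ≠ 0 ∧
      Polynomial.aeval (HahnSeries.ofPowerSeries ℤ (IsLocalRing.ResidueField A)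
        (cci_x (IsLocalRing.ResidueField A))) d *
          (yb : LaurentSeries (IsLocalRing.ResidueField A)) =
        cspn_e2 (algebraMap (IsLocalRing.ResidueField A)
            (LaurentSeries (IsLocalRing.ResidueField A)))
          (HahnSeries.ofPowerSeries ℤ (IsLocalRing.ResidueField A)
            (cci_x (IsLocalRing.ResidueField A)))
          (HahnSeries.ofPowerSeries ℤ (IsLocalRing.ResidueField A)
            (cspi_ys (IsLocalRing.ResidueField A) N)) H0) :
    ∀ yb : modularFunctionFieldFullC (IsLocalRing.ResidueField A) N,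
      IsIntegral (Algebra.adjoin (IsLocalRing.ResidueField A)
        {(pls_jb (IsLocalRing.ResidueField A) N)⁻¹}) yb →
      ∃ (u : s18f_W N A h) (s : Polynomial (IsLocalRing.ResidueField A)), s.eval 0 ≠ 0 ∧
        s18f_rho N A h u = Polynomial.aeval (pls_jb (IsLocalRing.ResidueField A) N)⁻¹ s * yb ∧
        IsIntegral (Algebra.adjoin (AlgebraicClosure ℚ) {(jBar N)⁻¹})
          (u : modularFunctionFieldBar N) := by
  classical
  have hN0 : N ≠ 0 := NeZero.ne N
  have hNu : IsUnit ((N : ℕ) : A) := cspi_isUnit_natCast A (Fact.out : ℓ.Prime) hA hℓN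
  obtain ⟨τ, hτ⟩ := cspi_tau zN hzN ζ m hm hinj hrot
  have hy := cspi_monunit zN hzN hNu ζ m hζ hm hinj
  have : NeZero (N * N) := ⟨mul_ne_zero hN0 hN0⟩
  have hi0 : cci_yc A N (ζ i0) (m i0) = cspn_exp A N hN0 (cspi_ys A N) :=
    (cspi_yc_congr A N hi0ζ hi0m).trans (cspi_yc_one A N)
  have hρJ := s18f_rho_J N A h
  have key := cspn_outC A (IsLocalRing.residue A) IsLocalRing.residue_surjective
    (modularFunctionFieldBar N) (modularFunctionFieldFullC (IsLocalRing.ResidueField A) N)
    (s18f_W N A h) (s18f_rho N A h) (gi_gauss_coeff N A h)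
    N hN0 ((zN : (↥A)ˣ) : ↥A) hzN.pow_eq_one
    (fun j hj h1 => hj ((hzN.pow_eq_one_iff_dvd j).mp h1))
    τ (fun i => cci_yc A N (ζ i) (m i)) hτ hy
    (cci_x A) (cci_jnumInv A) (cci_jnum A) rfl (cci_jnum_mul_inv A)
    f hfm (by rw [cspi_exp_comp_aev]; exact hf)
    (cspi_ys A N) i0 hi0
    (by rw [cci_map_x, cspi_map_ys, Fintype.card_fin]; exact hLI)
    (by rw [cci_map_x, cspi_map_ys]; exact hnd)
    (s18f_J N A h)
    (cspn_coe_inv_jBar N A)
    (by rw [hρJ, cci_map_x]; exact cspn_coe_inv_jb N _)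
    (cspn_yF N) (cspn_coe_yF N A)
    (pls_isSepCoordinate_inv (pls_isSepCoordinate_jBar N))
  intro yb hyb
  rw [← hρJ] at hyb
  obtain ⟨u, s, hs, hρu, hint⟩ := key yb hyb
  refine ⟨u, s, hs, ?_, hint⟩
  rw [hρu, hρJ]

end Main

end

end Fermat.Agent.S18x
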