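/-
S18 / block NRM / row N7 (helper35), part 14: **OUT-C at level `N`, UNCONDITIONAL**:
`cspn_hCo_levelN` = the hypothesis `hCo` of helper34's `nig_normality_of_int0_onto` for the
canonical Gauss pair `(s18f_W, s18f_rho)`.
Inputs: `cspn_hCo_of_H2` (helper35), `cph_H2_val` (helper7: (H2)), `cspd_le_psi` (helper89: char-0
degree), `cspl_hLI`, `cspl_hnd` (helper17: char-`ℓ` field inputs from PRIM (helper89) + DEG (helper94)),
`cspi_*` (helper83).
-/
import Fermat.Agent.S18x.CspnInst
import Fermat.Agent.S18x.CuspConjPhiVal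
import Fermat.Agent.S18x.CspnDegZero
import Fermat.Agent.S18x.CspnFieldInst

set_option autoImplicit false
set_option synthInstance.maxHeartbeats 400000

namespace Fermat.Agent.S18x

open PowerSeries Finset ModularCurve AlgebraicCurve Fermat.Agent.S24x

noncomputable section

variable (N : ℕ) [NeZero N] (A : ValuationSubring (AlgebraicClosure ℚ))
  (h : ModularCurve.ReductionInputsModL A N)

set_option maxHeartbeats 1000000 in
/-- **OUT-C at level `N`** (localised-onto form), unconditional. -/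
theorem cspn_hCo_levelN {ℓ : ℕ} [Fact ℓ.Prime] (hℓN : ¬ ℓ ∣ N) (hA : A.LiesOverPrime ℓ) :
    ∀ yb : modularFunctionFieldFullC (IsLocalRing.ResidueField A) N,
      IsIntegral (Algebra.adjoin (IsLocalRing.ResidueField A)
        {(pls_jb (IsLocalRing.ResidueField A) N)⁻¹}) yb →
      ∃ (u : s18f_W N A h) (s : Polynomial (IsLocalRing.ResidueField A)), s.eval 0 ≠ 0 ∧
        s18f_rho N A h u = Polynomial.aeval (pls_jb (IsLocalRing.ResidueField A) N)⁻¹ s * yb ∧
        IsIntegral (Algebra.adjoin (AlgebraicClosure ℚ) {(jBar N)⁻¹})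
          (u : modularFunctionFieldBar N) := by
  classical
  have hN0 : N ≠ 0 := NeZero.ne N
  have hch : CharP (IsLocalRing.ResidueField A) ℓ := glu_charP A (Fact.out : ℓ.Prime) hA
  obtain ⟨zN, hzN⟩ := cspi_exists_zN A N
  have hzL : IsPrimitiveRoot ((((zN : (↥A)ˣ) : ↥A) : AlgebraicClosure ℚ)) N :=
    hzN.map_of_injective (f := A.subtype) Subtype.val_injective
  obtain ⟨n, ζ, m, hne, f, G, hζ, hm, hinj, ⟨i0, hi0ζ, hi0m⟩, hrot, hfm, -, -, hnle, hf, -⟩ :=
    cph_H2_val A N ((zN : (↥A)ˣ) : ↥A) hzL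
  have hn : n ≤ dedekindPsi N := cspd_le_psi N hnle
  -- the reduced polynomial kills the base branch
  have : NeZero (N * N) := ⟨mul_ne_zero hN0 hN0⟩
  have hi0 : cci_yc A N (ζ i0) (m i0) = cspn_exp A N hN0 (cspi_ys A N) :=
    (cspi_yc_congr A N hi0ζ hi0m).trans (cspi_yc_one A N)
  have hf' : f.map ((cspn_exp A N hN0).comp (cspn_aev (cci_x A))) =
      ∏ i, (Polynomial.X - Polynomial.C (cci_yc A N (ζ i) (m i))) := by
    rw [cspi_exp_comp_aev]; exact hf
  have hfb := cspn_map_prod_formula (IsLocalRing.residue A) N hN0 (cci_x A)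
    (fun i => cci_yc A N (ζ i) (m i)) f hf'
  have hi0b : PowerSeries.map (IsLocalRing.residue A) (cci_yc A N (ζ i0) (m i0)) =
      cspn_exp (IsLocalRing.ResidueField A) N hN0
        (PowerSeries.map (IsLocalRing.residue A) (cspi_ys A N)) := by
    rw [hi0, cspn_map_exp_apply]
  have hf0 := cspn_front_evq_f N hN0 (PowerSeries.map (IsLocalRing.residue A) (cci_x A))
    (PowerSeries.map (IsLocalRing.residue A) (cspi_ys A N))
    (fun i => PowerSeries.map (IsLocalRing.residue A) (cci_yc A N (ζ i) (m i))) i0 hi0b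
    (f.map (Polynomial.mapRingHom (IsLocalRing.residue A))) hfb
  rw [cci_map_x, cspi_map_ys] at hf0
  exact cspn_hCo_of_H2 N A h hℓN hA zN hzN ζ m hζ (fun i => (hm i).2) hinj i0 hi0ζ hi0m
    (fun i => hrot zN (cspi_zN_pow zN hzN) i) f hfm hf
    (fun H hH h0 => cspl_hLI ℓ N hℓN (IsLocalRing.ResidueField A) n hn H hH h0)
    (fun yb => cspl_hnd ℓ N hℓN (IsLocalRing.ResidueField A)
      (f.map (Polynomial.mapRingHom (IsLocalRing.residue A))) (hfm.map _) hf0 yb)

end

end Fermat.Agent.S18x
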