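import Mathlib

/-!
# S18x / PUR-BASE: the instance package for the base ring of purity

`O` a PID, `l : O` a prime element with `O / l` a field, `c : O[X]` not divisible by `l`.
`B := Localization.Away c` (think `ℤ_(l)[h, 1/c(h)]`).  Then `B` is a Noetherian integrally closed
domain, the image of `l` is a prime element of `B`, and `B / l` is a PID.
-/

set_option autoImplicit false
set_option linter.style.haveILetI false
set_option linter.unusedSectionVars false

namespace Fermat.Agent.S18x

open Polynomial

section LocPID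

/-- a localisation of a principal ideal ring is a principal ideal ring. -/
theorem pur_base_isPrincipalIdealRing_of_isLocalization {A : Type*} [CommRing A]
    [IsPrincipalIdealRing A] (M : Submonoid A) (S : Type*) [CommRing S] [Algebra A S]
    [IsLocalization M S] : IsPrincipalIdealRing S := by
  refine ⟨fun J => ?_⟩
  have h1 := IsLocalization.map_under M S J
  obtain ⟨g, hg⟩ := (IsPrincipalIdealRing.principal (J.under A)).principal
  refine ⟨⟨algebraMap A S g, ?_⟩⟩
  rw [← h1, hg, Ideal.submodule_span_eq, Ideal.map_span, Set.image_singleton]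

end LocPID

section Base

variable {O : Type*} [CommRing O] [IsDomain O] [IsPrincipalIdealRing O]

/-- the base ring `O[X][1/c]`. -/
abbrev pur_Base (c : O[X]) : Type _ := Localization.Away c

theorem pur_base_isDomain {c : O[X]} (hc : c ≠ 0) : IsDomain (pur_Base c) :=
  IsLocalization.isDomain_localization (powers_le_nonZeroDivisors_of_noZeroDivisors hc)

instance pur_base_isNoetherianRing (c : O[X]) : IsNoetherianRing (pur_Base c) :=
  IsLocalization.isNoetherianRing (Submonoid.powers c) _ inferInstance

theorem pur_base_isIntegrallyClosed {c : O[X]} (hc : c ≠ 0) : IsIntegrallyClosed (pur_Base c) :=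
  isIntegrallyClosed_of_isLocalization (R := O[X]) (S := pur_Base c) (Submonoid.powers c)
    (powers_le_nonZeroDivisors_of_noZeroDivisors hc)

/-- the image of the prime `l` is prime in `B`. -/
theorem pur_base_prime {c : O[X]} {l : O} (hl : Prime l) (hlc : ¬ C l ∣ c) :
    Prime (algebraMap O[X] (pur_Base c) (C l)) := by
  have hc : c ≠ 0 := fun h => hlc (h ▸ dvd_zero _)
  haveI := pur_base_isDomain hc
  have hCl : Prime (C l) := Polynomial.prime_C_iff.mpr hl
  have hdisj : Disjoint (Submonoid.powers c : Set O[X]) (Ideal.span {C l} : Ideal O[X]) := by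
    rw [Set.disjoint_left]
    rintro _ ⟨k, rfl⟩ hk
    rw [SetLike.mem_coe, Ideal.mem_span_singleton] at hk
    exact hlc (hCl.dvd_of_dvd_pow hk)
  have hprime := IsLocalization.isPrime_of_isPrime_disjoint (Submonoid.powers c) (pur_Base c)
    (Ideal.span {C l}) ((Ideal.span_singleton_prime hCl.ne_zero).mpr hCl) hdisj
  rw [Ideal.map_span, Set.image_singleton] at hprime
  have hne : algebraMap O[X] (pur_Base c) (C l) ≠ 0 := by
    rw [Ne, IsLocalization.to_map_eq_zero_iff (pur_Base c)
      (powers_le_nonZeroDivisors_of_noZeroDivisors hc)]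
    exact hCl.ne_zero
  exact (Ideal.span_singleton_prime hne).mp hprime

/-- a ring hom out of `O[X]` is `eval₂` of its restriction to constants at the image of `X`. -/
theorem pur_base_hom_eq_eval₂ {Q : Type*} [CommRing Q] (φ : O[X] →+* Q) (g : O[X]) :
    φ g = g.eval₂ (φ.comp C) (φ X) := by
  conv_lhs => rw [← Polynomial.eval₂_C_X (p := g)]
  rw [Polynomial.hom_eval₂]

/-- `B / l` is a principal ideal ring. -/
theorem pur_base_quotient_isPrincipalIdealRing (c : O[X]) {l : O}
    [hmax : (Ideal.span {l}).IsMaximal] :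
    IsPrincipalIdealRing
      (pur_Base c ⧸ Ideal.span {algebraMap O[X] (pur_Base c) (C l)}) := by
  letI : Field (O ⧸ Ideal.span {l}) := Ideal.Quotient.field _
  set Q := pur_Base c ⧸ Ideal.span {algebraMap O[X] (pur_Base c) (C l)} with hQ
  -- the composite `O[X] → B → B / l`
  let φ₀ : O[X] →+* Q := (Ideal.Quotient.mk _).comp (algebraMap O[X] (pur_Base c))
  have hφ₀l : φ₀ (C l) = 0 := by
    simp only [φ₀, RingHom.comp_apply]
    exact Ideal.Quotient.eq_zero_iff_mem.mpr (Ideal.subset_span (Set.mem_singleton _))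
  let f₁ : (O ⧸ Ideal.span {l}) →+* Q :=
    Ideal.Quotient.lift (Ideal.span {l}) (φ₀.comp C) (by
      intro a ha
      obtain ⟨b, rfl⟩ := Ideal.mem_span_singleton'.mp ha
      rw [RingHom.comp_apply, map_mul, map_mul, hφ₀l, mul_zero])
  let ψ : (O ⧸ Ideal.span {l})[X] →+* Q := Polynomial.eval₂RingHom f₁ (φ₀ X)
  have hψ : ∀ g : O[X], ψ (g.map (Ideal.Quotient.mk (Ideal.span {l}))) = φ₀ g := by
    intro g
    rw [pur_base_hom_eq_eval₂ φ₀ g]
    simp only [ψ, Polynomial.coe_eval₂RingHom, Polynomial.eval₂_map]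
    congr 1
  set cb : (O ⧸ Ideal.span {l})[X] := c.map (Ideal.Quotient.mk (Ideal.span {l})) with hcb
  have hunit : IsUnit (ψ cb) := by
    rw [hcb, hψ]
    exact (IsLocalization.Away.algebraMap_isUnit c).map (Ideal.Quotient.mk _)
  let Φ : Localization.Away cb →+* Q := IsLocalization.Away.lift cb hunit
  have hΦ : ∀ g, Φ (algebraMap _ _ g) = ψ g := fun g => IsLocalization.Away.lift_eq cb hunit g
  have hsurj : Function.Surjective Φ := by
    intro q
    obtain ⟨b, rfl⟩ := Ideal.Quotient.mk_surjective q
    obtain ⟨⟨g, ⟨_, k, rfl⟩⟩, hgs⟩ := IsLocalization.surj (Submonoid.powers c) b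
    simp only at hgs
    -- `b * c^k = g`
    have hu : IsUnit (ψ (cb ^ k)) := by rw [map_pow]; exact hunit.pow k
    have hu' : IsUnit (algebraMap _ (Localization.Away cb) (cb ^ k)) := by
      rw [map_pow]; exact (IsLocalization.Away.algebraMap_isUnit cb).pow k
    obtain ⟨w, hw⟩ := hu'
    refine ⟨algebraMap _ _ (g.map (Ideal.Quotient.mk (Ideal.span {l}))) * ↑w⁻¹, ?_⟩
    have h1 : Φ (↑w⁻¹) * ψ (cb ^ k) = 1 := by
      rw [← hΦ, ← hw, ← map_mul, Units.inv_mul, map_one]
    have h2 : ψ (cb ^ k) = Ideal.Quotient.mk _ (algebraMap O[X] (pur_Base c) (c ^ k)) := by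
      rw [hcb, ← Polynomial.map_pow, hψ]; rfl
    have h3 : Ideal.Quotient.mk (Ideal.span {algebraMap O[X] (pur_Base c) (C l)}) b *
        ψ (cb ^ k) = φ₀ g := by
      rw [h2, ← map_mul, hgs]; rfl
    rw [map_mul, hΦ, hψ, ← h3, mul_right_comm, mul_assoc, h1, mul_one]
  haveI : IsPrincipalIdealRing (Localization.Away cb) :=
    pur_base_isPrincipalIdealRing_of_isLocalization (Submonoid.powers cb) _
  exact IsPrincipalIdealRing.of_surjective Φ hsurj

/-- evaluation `B = O[X][1/c] → L`, `X ↦ x`, for `x` in an `O`-field `L` with `c(x) ≠ 0`. -/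
noncomputable def pur_base_eval {L : Type*} [Field L] [Algebra O L] (c : O[X]) (x : L)
    (hx : Polynomial.aeval x c ≠ 0) : pur_Base c →+* L :=
  IsLocalization.Away.lift (S := pur_Base c) c (g := (Polynomial.aeval x).toRingHom)
    (isUnit_iff_ne_zero.mpr hx)

theorem pur_base_eval_algebraMap {L : Type*} [Field L] [Algebra O L] (c : O[X]) (x : L)
    (hx : Polynomial.aeval x c ≠ 0) (g : O[X]) :
    pur_base_eval c x hx (algebraMap O[X] (pur_Base c) g) = Polynomial.aeval x g :=
  IsLocalization.Away.lift_eq c _ g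

/-- the evaluation is injective when `x` is transcendental over `O`. -/
theorem pur_base_eval_injective {L : Type*} [Field L] [Algebra O L] (c : O[X]) (x : L)
    (hx : Polynomial.aeval x c ≠ 0) (htr : Transcendental O x) :
    Function.Injective (pur_base_eval c x hx) := by
  have hc : c ≠ 0 := fun h => hx (by rw [h, map_zero])
  rw [injective_iff_map_eq_zero]
  intro b hb
  obtain ⟨⟨g, ⟨_, k, rfl⟩⟩, hgs⟩ := IsLocalization.surj (Submonoid.powers c) b
  simp only at hgs
  have h1 : Polynomial.aeval x g = 0 := by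
    rw [← pur_base_eval_algebraMap c x hx, ← hgs, map_mul, hb, zero_mul]
  have h2 : g = 0 := by
    by_contra hg
    exact htr ⟨g, hg, h1⟩
  rw [h2, map_zero] at hgs
  have h3 : IsUnit (algebraMap O[X] (pur_Base c) (c ^ k)) := by
    rw [map_pow]; exact (IsLocalization.Away.algebraMap_isUnit c).pow k
  exact (h3.mul_left_eq_zero).mp hgs

end Base

end Fermat.Agent.S18x
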