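/-
S18x/HorizBase (helper81; row N5/G9, generic layer; prefix `hzf_`): the horizontal base ring
`Ah = k[t, 1/c(t)] ⊆ K` (`t` transcendental over the field `k`, `c ∈ k[X]`, `c ≠ 0`).

* `hzf_A t c : Subring K`;  `hzf_phi : k[X] →+* Ah` (evaluation at `t`);
* `hzf_isLocalization` : `Ah` is the localisation of `k[X]` at the powers of `c`;
  `hzf_isPrincipalIdealRing`;
* `hzf_exists_of_isMaximal` : a generator `g ≠ 0` of a maximal ideal of `Ah` is `u * p(t)`,
  `u` a unit, `p ∈ k[X]` irreducible and coprime to `c`;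
* `hzf_isLocalization_away` : for subrings `B ≤ A` of a field, `π ∈ B` a unit of `A` such that
  every element of `A` is `b / π ^ n`: `A = B[1/π]`.
-/
import Mathlib
import Fermat.Agent.S18x.PurBase

set_option autoImplicit false
set_option linter.style.haveILetI false

namespace Fermat.Agent.S18x

open Polynomial

noncomputable section

section Ring

variable {k K : Type*} [Field k] [Field K] [Algebra k K] (t : K) (c : k[X])

/-- `Ah = k[t, 1/c(t)]` as a subring of `K`. -/
def hzf_A : Subring K :=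
  Subring.closure (Set.range (algebraMap k K) ∪ {t, (aeval t c)⁻¹})

theorem hzf_algebraMap_mem (r : k) : algebraMap k K r ∈ hzf_A t c :=
  Subring.subset_closure (Or.inl ⟨r, rfl⟩)

theorem hzf_t_mem : t ∈ hzf_A t c :=
  Subring.subset_closure (Or.inr (Or.inl rfl))

theorem hzf_inv_mem : (aeval t c)⁻¹ ∈ hzf_A t c :=
  Subring.subset_closure (Or.inr (Or.inr rfl))

theorem hzf_aeval_mem (f : k[X]) : aeval t f ∈ hzf_A t c := by
  rw [aeval_eq_sum_range]
  refine Subring.sum_mem _ fun i _ => ?_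
  rw [Algebra.smul_def]
  exact Subring.mul_mem _ (hzf_algebraMap_mem t c _) (Subring.pow_mem _ (hzf_t_mem t c) i)

/-- evaluation at `t`, `k[X] → Ah`. -/
def hzf_phi : k[X] →+* ↥(hzf_A t c) :=
  ((aeval t : k[X] →ₐ[k] K) : k[X] →+* K).codRestrict (hzf_A t c) (hzf_aeval_mem t c)

theorem hzf_phi_coe (f : k[X]) : ((hzf_phi t c f : ↥(hzf_A t c)) : K) = aeval t f := rfl

variable {t}

theorem hzf_phi_injective (ht : Transcendental k t) : Function.Injective (hzf_phi t c) := by
  intro f g hfg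
  have h1 : aeval t f = aeval t g := by
    rw [← hzf_phi_coe t c f, ← hzf_phi_coe t c g, hfg]
  exact (transcendental_iff_injective.mp ht) h1

theorem hzf_aeval_c_ne_zero (ht : Transcendental k t) {c : k[X]} (hc : c ≠ 0) :
    aeval t c ≠ 0 := fun h => hc ((transcendental_iff.mp ht) c h)

/-- every element of `Ah` is `f(t) / c(t) ^ n`. -/
theorem hzf_exists_num (ht : Transcendental k t) {c : k[X]} (hc : c ≠ 0) (z : K)
    (hz : z ∈ hzf_A t c) : ∃ (f : k[X]) (n : ℕ), z * (aeval t c) ^ n = aeval t f := by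
  have hct := hzf_aeval_c_ne_zero ht hc
  unfold hzf_A at hz
  induction hz using Subring.closure_induction with
  | mem x hx =>
    rcases hx with ⟨r, rfl⟩ | rfl | rfl
    · exact ⟨C r, 0, by simp⟩
    · exact ⟨X, 0, by simp⟩
    · exact ⟨1, 1, by rw [pow_one, inv_mul_cancel₀ hct, map_one]⟩
  | zero => exact ⟨0, 0, by simp⟩
  | one => exact ⟨1, 0, by simp⟩
  | add x y _ _ hx hy =>
    obtain ⟨f, n, hf⟩ := hx
    obtain ⟨g, m, hg⟩ := hy
    refine ⟨f * c ^ m + g * c ^ n, n + m, ?_⟩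
    rw [map_add, map_mul, map_mul, map_pow, map_pow, ← hf, ← hg, pow_add]
    ring
  | neg x _ hx =>
    obtain ⟨f, n, hf⟩ := hx
    exact ⟨-f, n, by rw [map_neg, ← hf]; ring⟩
  | mul x y _ _ hx hy =>
    obtain ⟨f, n, hf⟩ := hx
    obtain ⟨g, m, hg⟩ := hy
    refine ⟨f * g, n + m, ?_⟩
    rw [map_mul, ← hf, ← hg, pow_add]
    ring

variable (t)

/-- the `k[X]`-algebra structure of `Ah` (NOT an instance). -/
@[reducible] def hzf_algebraPoly : Algebra k[X] ↥(hzf_A t c) := (hzf_phi t c).toAlgebra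

variable {t}

/-- `Ah = k[X][1/c]`. -/
theorem hzf_isLocalization (ht : Transcendental k t) {c : k[X]} (hc : c ≠ 0) :
    letI := hzf_algebraPoly t c
    IsLocalization (Submonoid.powers c) ↥(hzf_A t c) := by
  letI := hzf_algebraPoly t c
  have hct := hzf_aeval_c_ne_zero ht hc
  rw [isLocalization_iff]
  refine ⟨?_, ?_, ?_⟩
  · rintro ⟨_, n, rfl⟩
    show IsUnit (hzf_phi t c (c ^ n))
    rw [map_pow]
    refine IsUnit.pow n ?_
    refine IsUnit.of_mul_eq_one (⟨(aeval t c)⁻¹, hzf_inv_mem t c⟩ : ↥(hzf_A t c)) ?_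
    apply Subtype.ext
    show aeval t c * (aeval t c)⁻¹ = 1
    exact mul_inv_cancel₀ hct
  · rintro ⟨z, hz⟩
    obtain ⟨f, n, hf⟩ := hzf_exists_num ht hc z hz
    refine ⟨(f, ⟨c ^ n, n, rfl⟩), ?_⟩
    apply Subtype.ext
    show z * aeval t (c ^ n) = aeval t f
    rw [map_pow, hf]
  · intro x y hxy
    exact ⟨1, by rw [hzf_phi_injective c ht hxy]⟩

theorem hzf_isPrincipalIdealRing (ht : Transcendental k t) {c : k[X]} (hc : c ≠ 0) :
    IsPrincipalIdealRing ↥(hzf_A t c) := by
  letI := hzf_algebraPoly t c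
  haveI := hzf_isLocalization ht hc
  exact pur_base_isPrincipalIdealRing_of_isLocalization (Submonoid.powers c) ↥(hzf_A t c)

/-- **structure of the maximal ideals of `Ah`**. -/
theorem hzf_exists_of_isMaximal (ht : Transcendental k t) {c : k[X]} (hc : c ≠ 0)
    (g : ↥(hzf_A t c)) (hg : (Ideal.span {g}).IsMaximal) (hg0 : g ≠ 0) :
    ∃ u v : ↥(hzf_A t c), u * v = 1 ∧ ∃ p : k[X], Irreducible p ∧ IsCoprime p c ∧
      g = u * hzf_phi t c p := by
  letI := hzf_algebraPoly t c
  haveI := hzf_isLocalization ht hc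
  have hmap := IsLocalization.map_under (Submonoid.powers c) ↥(hzf_A t c) (Ideal.span {g})
  obtain ⟨p, hp⟩ := (IsPrincipalIdealRing.principal ((Ideal.span {g}).under k[X])).principal
  have hp' : (Ideal.span {g}).under k[X] = Ideal.span {p} := hp
  rw [hp', Ideal.map_span, Set.image_singleton] at hmap
  have hassoc : Associated (hzf_phi t c p) g := Ideal.span_singleton_eq_span_singleton.mp hmap
  obtain ⟨w, hw⟩ := hassoc
  have hp0 : p ≠ 0 := by
    rintro rfl
    rw [map_zero, zero_mul] at hw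
    exact hg0 hw.symm
  have hprime : (Ideal.span {p}).IsPrime := by
    rw [← hp']
    exact Ideal.IsPrime.under k[X] (Ideal.span {g})
  have hpirr : Irreducible p := ((Ideal.span_singleton_prime hp0).mp hprime).irreducible
  have hndvd : ¬ p ∣ c := by
    rintro ⟨r, hr⟩
    have hcu : IsUnit (hzf_phi t c c) :=
      IsLocalization.map_units (M := Submonoid.powers c) ↥(hzf_A t c)
        ⟨c, Submonoid.mem_powers c⟩
    have hcr : hzf_phi t c c = hzf_phi t c p * hzf_phi t c r :=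
      (congrArg (hzf_phi t c) hr).trans (map_mul _ _ _)
    rw [hcr] at hcu
    have hpu : IsUnit (hzf_phi t c p) := isUnit_of_mul_isUnit_left hcu
    have hgu : IsUnit g := by rw [← hw]; exact hpu.mul w.isUnit
    exact hg.ne_top (Ideal.span_singleton_eq_top.mpr hgu)
  refine ⟨w, ((w⁻¹ : (↥(hzf_A t c))ˣ) : ↥(hzf_A t c)), by simp, p, hpirr,
    (hpirr.coprime_iff_not_dvd).mpr hndvd, ?_⟩
  rw [← hw, mul_comm]

end Ring

section Away

variable {K : Type*} [Field K]

/-- for subrings `B ≤ A` of a field and `π ∈ B` invertible in `A` such that every element of `A`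
is `b / π ^ n` with `b ∈ B`:  `A = B[1/π]`. -/
theorem hzf_isLocalization_away (B A : Subring K) (hBA : B ≤ A) (π : B)
    (hπ : ((π : K))⁻¹ ∈ A) (hπ0 : (π : K) ≠ 0)
    (hsurj : ∀ z ∈ A, ∃ n : ℕ, z * (π : K) ^ n ∈ B) :
    letI : Algebra ↥B ↥A := (Subring.inclusion hBA).toAlgebra
    IsLocalization.Away π ↥A := by
  letI : Algebra ↥B ↥A := (Subring.inclusion hBA).toAlgebra
  show IsLocalization (Submonoid.powers π) ↥A
  rw [isLocalization_iff]
  refine ⟨?_, ?_, ?_⟩
  · rintro ⟨_, n, rfl⟩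
    show IsUnit (Subring.inclusion hBA (π ^ n))
    rw [map_pow]
    refine IsUnit.pow n ?_
    refine IsUnit.of_mul_eq_one (⟨(π : K)⁻¹, hπ⟩ : ↥A) ?_
    apply Subtype.ext
    show (π : K) * (π : K)⁻¹ = 1
    exact mul_inv_cancel₀ hπ0
  · rintro ⟨z, hz⟩
    obtain ⟨n, hn⟩ := hsurj z hz
    refine ⟨(⟨z * (π : K) ^ n, hn⟩, ⟨π ^ n, n, rfl⟩), ?_⟩
    apply Subtype.ext
    show z * ((π ^ n : ↥B) : K) = z * (π : K) ^ n
    rw [Subring.coe_pow]
  · intro x y hxy
    refine ⟨1, ?_⟩
    have : (x : K) = y := congrArg (fun w : ↥A => (w : K)) hxy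
    rw [Subtype.ext this]

end Away

end

end Fermat.Agent.S18x
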