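/-
S18x/ValExtend (helper81): extension of valuation subrings along a field extension
(sub-lemma (VE) of row N5).  Prefix `vex_`.  Mathlib only.

* `vex_exists_extension` : for fields `L → Lbar` and a valuation subring `V` of `L` there is a
  valuation subring `Vbar` of `Lbar` with `Vbar.comap (algebraMap L Lbar) = V`
  (Chevalley: dominate the image of `V`; valuation rings are maximal for domination).
* `vex_exists_extension_mem` : the same, elementwise: `algebraMap x ∈ Vbar ↔ x ∈ V`.
* `vex_exists_extension_hom` : the same for a ring hom, plus domination: for `x ∈ V`,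
  `(f x)⁻¹ ∈ Vbar → x⁻¹ ∈ V` (non-units of `V` stay non-units).
-/
import Mathlib

set_option autoImplicit false

namespace Fermat.Agent.S18x

variable {L Lbar : Type*} [Field L] [Field Lbar]

/-- **Extension of valuation rings** along an arbitrary ring homomorphism of fields. -/
theorem vex_exists_extension_hom (f : L →+* Lbar) (V : ValuationSubring L) :
    ∃ Vbar : ValuationSubring Lbar, Vbar.comap f = V ∧
      ∀ x : L, x ∈ V → f x ∈ Vbar ∧ ((f x)⁻¹ ∈ Vbar → x⁻¹ ∈ V) := by
  obtain ⟨B, hB⟩ := LocalSubring.exists_le_valuationSubring (V.toLocalSubring.map f)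
  obtain ⟨hle, hloc⟩ := LocalSubring.le_def.mp hB
  have hmem : ∀ x : L, x ∈ V → f x ∈ B := fun x hx =>
    hle (Subring.mem_map.mpr ⟨x, hx, rfl⟩)
  -- domination: if `x ∈ V` and `(f x)⁻¹ ∈ B` then `x⁻¹ ∈ V`
  have hdom : ∀ x : L, x ∈ V → (f x)⁻¹ ∈ B → x⁻¹ ∈ V := by
    intro x hx hinv
    rcases eq_or_ne x 0 with rfl | hx0
    · rw [inv_zero]; exact V.zero_mem
    have hfx0 : f x ≠ 0 := (map_ne_zero f).mpr hx0
    let a : (V.toLocalSubring.map f).toSubring := ⟨f x, Subring.mem_map.mpr ⟨x, hx, rfl⟩⟩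
    have hunitB : IsUnit (Subring.inclusion hle a) := by
      refine isUnit_iff_exists_inv.mpr ⟨⟨(f x)⁻¹, hinv⟩, ?_⟩
      apply Subtype.ext
      show f x * (f x)⁻¹ = 1
      exact mul_inv_cancel₀ hfx0
    have hunitA : IsUnit a := hloc.map_nonunit a hunitB
    obtain ⟨b, hb⟩ := isUnit_iff_exists_inv.mp hunitA
    obtain ⟨y, hy, hyb⟩ := Subring.mem_map.mp b.2
    have h1 : f x * f y = 1 := by
      have := congrArg Subtype.val hb
      simpa [a, hyb] using this
    have h2 : x * y = 1 := by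
      apply f.injective
      rw [map_mul, h1, map_one]
    have h3 : x⁻¹ = y := by
      rw [inv_eq_iff_eq_inv, eq_comm, inv_eq_of_mul_eq_one_left h2]
    rw [h3]; exact hy
  refine ⟨B, ?_, fun x hx => ⟨hmem x hx, hdom x hx⟩⟩
  ext z
  rw [ValuationSubring.mem_comap]
  constructor
  · intro hz
    by_contra hzV
    have hzi : z⁻¹ ∈ V := (V.mem_or_inv_mem z).resolve_left hzV
    have h1 : (f z⁻¹)⁻¹ ∈ B := by rw [map_inv₀, inv_inv]; exact hz
    have h2 := hdom z⁻¹ hzi h1
    rw [inv_inv] at h2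
    exact hzV h2
  · exact hmem z

/-- **(VE)** for an algebra `L → Lbar`. -/
theorem vex_exists_extension [Algebra L Lbar] (V : ValuationSubring L) :
    ∃ Vbar : ValuationSubring Lbar, Vbar.comap (algebraMap L Lbar) = V :=
  let ⟨Vbar, h, _⟩ := vex_exists_extension_hom (algebraMap L Lbar) V
  ⟨Vbar, h⟩

/-- Elementwise form of (VE). -/
theorem vex_exists_extension_mem [Algebra L Lbar] (V : ValuationSubring L) :
    ∃ Vbar : ValuationSubring Lbar, ∀ x : L, algebraMap L Lbar x ∈ Vbar ↔ x ∈ V := by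
  obtain ⟨Vbar, h⟩ := vex_exists_extension (Lbar := Lbar) V
  refine ⟨Vbar, fun x => ?_⟩
  rw [← h, ValuationSubring.mem_comap]

end Fermat.Agent.S18x
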