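/-
S18x/ValToPlace (helper81): every nontrivial valuation subring of a function field `F/K` that
contains `K` is (the valuation subring of) a `Place K F` (sub-lemma (VP) of row N5).
Prefix `vtp_`.

* `vtp_exists_heightOneSpectrum` : `R` Dedekind with `Frac R = F`, `V` a valuation subring of `F`
  with `R ⊆ V ≠ ⊤`  ⟹  `V` is the valuation subring of a height-one prime of `R`.
* `vtp_exists_place_of_dedekind` : the same as a `Place K F`.
* `vtp_exists_place` : `x` a coordinate of `F/K` (`S24x.IsCoordinate`), `F/K(x)` separable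
  (automatic in characteristic zero: `vtp_exists_place_charZero`), `V ⊇ K`, `V ≠ ⊤`
  ⟹  `∃ P : Place K F, P.toValuationSubring = V`.
-/
import Mathlib
import Fermat.Prelude.Def_AlgebraicCurve_DivisorClassGroup
import Fermat.Agent.S24x.PlaceDedekind
import Fermat.Agent.S24x.PlacePrime
import Fermat.Agent.S24x.PlaceLocal
import Fermat.Agent.S24x.AlgDefs
import Fermat.Agent.S24x.FundIdentity

set_option autoImplicit false

namespace Fermat.Agent.S18x

open AlgebraicCurve IsDedekindDomain IntermediateField Fermat.Agent.S24x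
open scoped IntermediateField.algebraAdjoinAdjoin

section Dedekind

variable {F : Type*} [Field F]
variable (R : Type*) [CommRing R] [IsDedekindDomain R] [Algebra R F] [IsFractionRing R F]

/-- A valuation subring `V ≠ ⊤` of `Frac R` containing the Dedekind domain `R` is the valuation
subring of a unique height-one prime of `R`. -/
theorem vtp_exists_heightOneSpectrum (V : ValuationSubring F)
    (h : ∀ r : R, algebraMap R F r ∈ V) (hV : V ≠ ⊤) :
    ∃ P : HeightOneSpectrum R, (P.valuation F).valuationSubring = V := by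
  classical
  let φ : R →+* V := (algebraMap R F).codRestrict V.toSubring h
  have hφ : ∀ r : R, ((φ r : V) : F) = algebraMap R F r := fun _ => rfl
  have hmem : ∀ s : R, s ∈ (IsLocalRing.maximalIdeal V).comap φ ↔
      algebraMap R F s ∈ V.nonunits := by
    intro s
    rw [Ideal.mem_comap, ← ValuationSubring.coe_mem_nonunits_iff, hφ]
  have hinv : ∀ s : R, s ∉ (IsLocalRing.maximalIdeal V).comap φ →
      algebraMap R F s ≠ 0 ∧ (algebraMap R F s)⁻¹ ∈ V := by
    intro s hs
    rw [hmem, ValuationSubring.mem_nonunits_iff_or, not_or, not_not] at hs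
    exact hs
  have hp_prime : ((IsLocalRing.maximalIdeal V).comap φ).IsPrime := Ideal.comap_isPrime φ _
  have hp_ne_bot : (IsLocalRing.maximalIdeal V).comap φ ≠ ⊥ := by
    intro hbot
    apply hV
    refine SetLike.ext fun x => ⟨fun _ => ValuationSubring.mem_top x, fun _ => ?_⟩
    obtain ⟨a, s, hs, rfl⟩ := IsFractionRing.div_surjective (A := R) x
    have hs0 : s ≠ 0 := nonZeroDivisors.ne_zero hs
    have hsp : s ∉ (IsLocalRing.maximalIdeal V).comap φ := by
      rw [hbot, Ideal.mem_bot]; exact hs0
    rw [div_eq_mul_inv]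
    exact mul_mem (h a) (hinv s hsp).2
  obtain ⟨P, hP⟩ : ∃ P : HeightOneSpectrum R,
      P.asIdeal = (IsLocalRing.maximalIdeal V).comap φ :=
    ⟨⟨_, hp_prime, hp_ne_bot⟩, rfl⟩
  refine ⟨P, ?_⟩
  have : IsPrincipalIdealRing ((P.valuation F).valuationSubring) :=
    Place.isPrincipalIdealRing_valuationSubring P
  refine ValuationSubring.eq_of_le_of_ne_top _ ?_ hV
  rw [← HeightOneSpectrum.valuationSubringAtPrime_eq_valuationSubring]
  rintro x ⟨a, s, hs, rfl⟩
  have hsp : s ∉ (IsLocalRing.maximalIdeal V).comap φ := by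
    rw [← hP]; exact hs
  exact mul_mem (h a) (hinv s hsp).2

variable {K : Type*} [Field K] [Algebra K F] [Algebra K R] [IsScalarTower K R F]

/-- `Place` form of `vtp_exists_heightOneSpectrum`. -/
theorem vtp_exists_place_of_dedekind (V : ValuationSubring F)
    (h : ∀ r : R, algebraMap R F r ∈ V) (hV : V ≠ ⊤) :
    ∃ P : Place K F, P.toValuationSubring = V := by
  obtain ⟨P, hP⟩ := vtp_exists_heightOneSpectrum R V h hV
  exact ⟨Place.ofHeightOneSpectrum (K := K) (F := F) P, hP⟩

end Dedekind

section Coordinate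

variable {K F : Type*} [Field K] [Field F] [Algebra K F]

/-- if `K ⊆ V` and `x ∈ V` then `K[x] ⊆ V` -/
theorem vtp_ringA_le (V : ValuationSubring F) (hK : ∀ a : K, algebraMap K F a ∈ V) {x : F}
    (hx : x ∈ V) : ∀ a ∈ ringA K x, a ∈ V := by
  intro a ha
  induction ha using Algebra.adjoin_induction with
  | mem y hy => rw [Set.mem_singleton_iff] at hy; rw [hy]; exact hx
  | algebraMap r => exact hK r
  | add y z _ _ hy hz => exact V.add_mem _ _ hy hz
  | mul y z _ _ hy hz => exact V.mul_mem _ _ hy hz

/-- if `K ⊆ V` and `x ∈ V` then the integral closure of `K[x]` is contained in `V` -/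
theorem vtp_ringB_mem (V : ValuationSubring F) (hK : ∀ a : K, algebraMap K F a ∈ V) {x : F}
    (hx : x ∈ V) (b : ringB K x) : (b : F) ∈ V := by
  have hA := vtp_ringA_le V hK hx
  let φ : ringA K x →+* V :=
    (algebraMap (ringA K x) F).codRestrict V.toSubring (fun a => hA a a.2)
  let _ : Algebra (ringA K x) V := φ.toAlgebra
  have : IsScalarTower (ringA K x) V F := IsScalarTower.of_algebraMap_eq (fun _ => rfl)
  have hint : IsIntegral (ringA K x) (b : F) := b.2
  have hint' : IsIntegral V (b : F) := hint.tower_top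
  obtain ⟨g, hg⟩ := (IsIntegrallyClosed.isIntegral_iff (R := V) (K := F)).mp hint'
  rw [← hg]
  exact g.2

/-- (VP), one chart: `x ∈ V`. -/
theorem vtp_exists_place_of_mem (x : F) [FFData K F x] [Algebra.IsSeparable K⟮x⟯ F]
    (V : ValuationSubring F) (hK : ∀ a : K, algebraMap K F a ∈ V) (hV : V ≠ ⊤) (hx : x ∈ V) :
    ∃ P : Place K F, P.toValuationSubring = V := by
  have : IsDedekindDomain (ringB K x) := integralClosure.isDedekindDomain (ringA K x) K⟮x⟯ F
  exact vtp_exists_place_of_dedekind (K := K) (ringB K x) V (fun b => vtp_ringB_mem V hK hx b) hV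

/-- **(VP)**: for a coordinate `x` of `F/K` with `F/K(x)` separable, every valuation subring
`V ≠ ⊤` of `F` containing `K` is the valuation subring of a place of `F/K`. -/
theorem vtp_exists_place {x : F} (hx : IsCoordinate K F x) [hsep : Algebra.IsSeparable K⟮x⟯ F]
    (V : ValuationSubring F) (hK : ∀ a : K, algebraMap K F a ∈ V) (hV : V ≠ ⊤) :
    ∃ P : Place K F, P.toValuationSubring = V := by
  rcases V.mem_or_inv_mem x with h | h
  · have : FFData K F x := ⟨hx.transcendental, hx.finite⟩
    exact vtp_exists_place_of_mem x V hK hV h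
  · have hx' : IsCoordinate K F x⁻¹ := fid_isCoordinate_inv hx
    have : FFData K F x⁻¹ := ⟨hx'.transcendental, hx'.finite⟩
    have : Algebra.IsSeparable K⟮x⁻¹⟯ F := by
      rw [fid_adjoin_inv]; exact hsep
    exact vtp_exists_place_of_mem x⁻¹ V hK hV h

/-- (VP) in characteristic zero (no separability hypothesis). -/
theorem vtp_exists_place_charZero [CharZero K] {x : F} (hx : IsCoordinate K F x)
    (V : ValuationSubring F) (hK : ∀ a : K, algebraMap K F a ∈ V) (hV : V ≠ ⊤) :
    ∃ P : Place K F, P.toValuationSubring = V := by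
  have := hx.finite
  have : CharZero K⟮x⟯ := charZero_of_injective_algebraMap (algebraMap K K⟮x⟯).injective
  have : Algebra.IsSeparable K⟮x⟯ F := Algebra.IsSeparable.of_integral K⟮x⟯ F
  exact vtp_exists_place hx V hK hV

/-- Consequence: with a separating coordinate, the valuation subrings `V ⊇ K`, `V ≠ ⊤` are in
bijection with the places (uniqueness half is `Place.ext`). -/
theorem vtp_existsUnique_place {x : F} (hx : IsCoordinate K F x) [Algebra.IsSeparable K⟮x⟯ F]
    (V : ValuationSubring F) (hK : ∀ a : K, algebraMap K F a ∈ V) (hV : V ≠ ⊤) :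
    ∃! P : Place K F, P.toValuationSubring = V := by
  obtain ⟨P, hP⟩ := vtp_exists_place hx V hK hV
  exact ⟨P, hP, fun Q hQ => Place.ext (hQ.trans hP.symm)⟩

end Coordinate

end Fermat.Agent.S18x
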