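/-
S18x/HorizWire (helper81; row N5, step (B) wiring): from the GEOMETRIC statement
"`g` has only simple zeros on the places of `Lbar/Kbar`" to the valuation-theoretic hypothesis
`hV` of `purx_dvd_of_dvd_pow_of_valuationSubring` (helper18) over the small field `L`.
Prefix `hzw_`.

Setting: `K0 → Kbar` an algebraic extension of fields, `L` a field over `K0`, `Lbar` a field
over `Kbar` and over `L` (compatible), with a separating coordinate for `Lbar/Kbar`; `Ah` a
commutative ring mapping to `L` whose image contains the image of `K0`.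

* `hzw_hV_of_ord_eq_one` : if every place `P` of `Lbar/Kbar` with `Ah ⊆ O_P` and `0 < ord_P g`
  has `ord_P g = 1`, then for every valuation subring `V ⊇ Ah` of `L` in which `g` is a non-unit,
  `g` generates the maximal ideal of `V`:  `y ∈ 𝔪_V → y / g ∈ V`.   (uses `vex_`, `vtp_`.)
* `hzw_ord_eq_one_of_separable` : `u * p(x)` (`p` separable over `K0`, `u` a unit at `P`) has at
  most a simple zero at `P` as soon as every `x - a`, `a` a root of `p` in `Kbar`, has.
* `hzw_hV_of_linear_factors` : the two combined, for `g = u * p(X)` with `u ∈ Ahˣ`.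
-/
import Mathlib
import Fermat.Agent.S18x.ValToPlace
import Fermat.Agent.S18x.ValExtend
import Fermat.Agent.S24x.PlaceBasic

set_option autoImplicit false

namespace Fermat.Agent.S18x

open AlgebraicCurve IntermediateField Fermat.Agent.S24x

section Core

variable {K0 Kbar Ah L Lbar : Type*} [Field K0] [Field Kbar] [Algebra K0 Kbar]
  [Algebra.IsAlgebraic K0 Kbar]
  [CommRing Ah] [Field L] [Algebra K0 L] [Algebra Ah L]
  [Field Lbar] [Algebra Kbar Lbar] [Algebra L Lbar] [Algebra K0 Lbar]
  [IsScalarTower K0 L Lbar] [IsScalarTower K0 Kbar Lbar]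

/-- constants of `Kbar` lie in every valuation subring of `Lbar` containing the image of `K0`. -/
theorem hzw_algebraMap_mem (Vbar : ValuationSubring Lbar)
    (h0 : ∀ c : K0, algebraMap K0 Lbar c ∈ Vbar) (c : Kbar) : algebraMap Kbar Lbar c ∈ Vbar := by
  have h1 : IsIntegral K0 c := (Algebra.IsAlgebraic.isAlgebraic c).isIntegral
  have h2 : IsIntegral K0 (algebraMap Kbar Lbar c) :=
    h1.map (IsScalarTower.toAlgHom K0 Kbar Lbar)
  obtain ⟨P, hPm, hP⟩ := h2
  have h3 : IsIntegral Vbar (algebraMap Kbar Lbar c) := by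
    refine ⟨P.map ((algebraMap K0 Lbar).codRestrict Vbar.toSubring h0), hPm.map _, ?_⟩
    rw [← hP, Polynomial.eval₂_map]
    rfl
  obtain ⟨z, hz⟩ := (IsIntegrallyClosed.isIntegral_iff (R := Vbar) (K := Lbar)).mp h3
  rw [← hz]
  exact z.2

/-- **(B) wiring.**  If `g` has only simple zeros on `Lbar/Kbar`, then in every valuation subring
`V ⊇ Ah` of `L` in which `g` is a non-unit, `g` generates the maximal ideal. -/
theorem hzw_hV_of_ord_eq_one
    (hK0 : ∀ c : K0, ∃ a : Ah, algebraMap Ah L a = algebraMap K0 L c)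
    {x : Lbar} (hx : IsCoordinate Kbar Lbar x) [Algebra.IsSeparable Kbar⟮x⟯ Lbar]
    (g : Ah)
    (hsimple : ∀ P : Place Kbar Lbar,
      (∀ a : Ah, algebraMap L Lbar (algebraMap Ah L a) ∈ P.toValuationSubring) →
      0 < P.ord (algebraMap L Lbar (algebraMap Ah L g)) →
        P.ord (algebraMap L Lbar (algebraMap Ah L g)) = 1) :
    ∀ V : ValuationSubring L, (∀ a : Ah, algebraMap Ah L a ∈ V) →
      (algebraMap Ah L g)⁻¹ ∉ V → ∀ y ∈ V, y ≠ 0 → y⁻¹ ∉ V →
        y * (algebraMap Ah L g)⁻¹ ∈ V := by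
  intro V hAV hginv y hyV hy0 hyinv
  set γ : L := algebraMap Ah L g with hγ
  obtain ⟨Vbar, hVbar⟩ := vex_exists_extension_mem (Lbar := Lbar) V
  have hγ0 : γ ≠ 0 := by
    intro h0
    apply hginv
    rw [h0, inv_zero]; exact V.zero_mem
  -- `K0 ⊆ Vbar`, hence `Kbar ⊆ Vbar`
  have h0 : ∀ c : K0, algebraMap K0 Lbar c ∈ Vbar := by
    intro c
    obtain ⟨a, ha⟩ := hK0 c
    rw [IsScalarTower.algebraMap_apply K0 L Lbar, ← ha, hVbar]
    exact hAV a
  have hKbar : ∀ c : Kbar, algebraMap Kbar Lbar c ∈ Vbar := hzw_algebraMap_mem Vbar h0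
  -- `Vbar ≠ ⊤`
  have hne : Vbar ≠ ⊤ := by
    intro htop
    apply hginv
    rw [← hVbar, htop]
    exact ValuationSubring.mem_top _
  obtain ⟨P, hP⟩ := vtp_exists_place hx Vbar hKbar hne
  have hmem : ∀ z : L, algebraMap L Lbar z ∈ P.toValuationSubring ↔ z ∈ V := by
    intro z; rw [hP, hVbar]
  have hinj : Function.Injective (algebraMap L Lbar) := (algebraMap L Lbar).injective
  have hγb0 : algebraMap L Lbar γ ≠ 0 := (map_ne_zero _).mpr hγ0
  have hyb0 : algebraMap L Lbar y ≠ 0 := (map_ne_zero _).mpr hy0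
  -- `0 < ord γ`, `0 < ord y`
  have hγpos : 0 < P.ord (algebraMap L Lbar γ) := by
    rw [pb_pos_iff P hγb0, ← map_inv₀, hmem]
    exact hginv
  have hypos : 0 < P.ord (algebraMap L Lbar y) := by
    rw [pb_pos_iff P hyb0, ← map_inv₀, hmem]
    exact hyinv
  have hγ1 : P.ord (algebraMap L Lbar γ) = 1 :=
    hsimple P (fun a => (hmem _).mpr (hAV a)) hγpos
  -- conclude
  rw [← hmem, map_mul, map_inv₀]
  have hne0 : algebraMap L Lbar y * (algebraMap L Lbar γ)⁻¹ ≠ 0 :=
    mul_ne_zero hyb0 (inv_ne_zero hγb0)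
  rw [pb_mem_iff P hne0, P.ord_mul hyb0 (inv_ne_zero hγb0), P.ord_inv, hγ1]
  omega

end Core

section Poly

variable {Kbar Lbar : Type*} [Field Kbar] [Field Lbar] [Algebra Kbar Lbar]

/-- `ord` of a product of nonzero elements -/
theorem hzw_ord_multiset_prod (P : Place Kbar Lbar) (S : Multiset Lbar) (h0 : ∀ z ∈ S, z ≠ 0) :
    P.ord S.prod = (S.map P.ord).sum := by
  induction S using Multiset.induction with
  | empty => simp
  | cons a S ih =>
    have ha : a ≠ 0 := h0 a (Multiset.mem_cons_self a S)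
    have hS : ∀ z ∈ S, z ≠ 0 := fun z hz => h0 z (Multiset.mem_cons_of_mem hz)
    have hprod : S.prod ≠ 0 := Multiset.prod_ne_zero (fun h => hS 0 h rfl)
    rw [Multiset.prod_cons, P.ord_mul ha hprod, ih hS, Multiset.map_cons, Multiset.sum_cons]

/-- if `x - a` vanishes at `P` then `x - b` is a unit at `P` for every constant `b ≠ a` -/
theorem hzw_ord_sub_eq_zero (P : Place Kbar Lbar) {x : Lbar} {a b : Kbar} (hab : a ≠ b)
    (ha : 0 < P.ord (x - algebraMap Kbar Lbar a)) : P.ord (x - algebraMap Kbar Lbar b) = 0 := by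
  have hc : algebraMap Kbar Lbar (a - b) ≠ 0 := by
    rw [Ne, map_eq_zero]; exact sub_ne_zero.mpr hab
  have hc0 : P.ord (algebraMap Kbar Lbar (a - b)) = 0 := pb_ord_algebraMap P _
  have hxb : x - algebraMap Kbar Lbar b ≠ 0 := by
    intro h0
    have hx : x - algebraMap Kbar Lbar a = algebraMap Kbar Lbar (b - a) := by
      rw [map_sub, ← sub_eq_zero.mp h0]
    rw [hx, pb_ord_algebraMap] at ha
    exact lt_irrefl _ ha
  -- lower bound
  have h1 : x - algebraMap Kbar Lbar b =
      (x - algebraMap Kbar Lbar a) + algebraMap Kbar Lbar (a - b) := by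
    rw [map_sub]; ring
  have h2 := pb_ord_add P (f := x - algebraMap Kbar Lbar a)
    (g := algebraMap Kbar Lbar (a - b)) (by rw [← h1]; exact hxb)
  rw [← h1, hc0] at h2
  -- upper bound
  have h3 : algebraMap Kbar Lbar (a - b) =
      (x - algebraMap Kbar Lbar b) + (-(x - algebraMap Kbar Lbar a)) := by
    rw [map_sub]; ring
  have h4 := pb_ord_add P (f := x - algebraMap Kbar Lbar b)
    (g := -(x - algebraMap Kbar Lbar a)) (by rw [← h3]; exact hc)
  have hneg : P.ord (-(x - algebraMap Kbar Lbar a)) = P.ord (x - algebraMap Kbar Lbar a) := by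
    simp only [Place.ord, Valuation.map_neg]
  rw [← h3, hc0, hneg] at h4
  have h5 : min (P.ord (x - algebraMap Kbar Lbar a)) 0 = 0 := min_eq_right ha.le
  rw [h5] at h2
  rcases le_total (P.ord (x - algebraMap Kbar Lbar b)) (P.ord (x - algebraMap Kbar Lbar a))
    with h | h
  · rw [min_eq_left h] at h4; omega
  · rw [min_eq_right h] at h4; omega

variable {K0 : Type*} [Field K0] [Algebra K0 Kbar] [Algebra K0 Lbar] [IsScalarTower K0 Kbar Lbar]
  [IsAlgClosed Kbar]

/-- **Simple zeros from simple zeros of the linear factors.**  `p` separable over `K0`, `u` a unit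
at `P`; if `x - a` has at most a simple zero at `P` for every root `a ∈ Kbar` of `p`, then
`u * p(x)` has at most a simple zero at `P`. -/
theorem hzw_ord_eq_one_of_separable (P : Place Kbar Lbar) {x : Lbar}
    (hxc : ∀ a : Kbar, x ≠ algebraMap Kbar Lbar a)
    (p : Polynomial K0) (hp : p.Separable) (u : Lbar) (hu0 : u ≠ 0) (hu : P.ord u = 0)
    (hA : ∀ a : Kbar, (p.map (algebraMap K0 Kbar)).IsRoot a →
      0 < P.ord (x - algebraMap Kbar Lbar a) → P.ord (x - algebraMap Kbar Lbar a) = 1)
    (hpos : 0 < P.ord (u * Polynomial.aeval x p)) : P.ord (u * Polynomial.aeval x p) = 1 := by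
  classical
  set pb : Polynomial Kbar := p.map (algebraMap K0 Kbar) with hpb
  have hpb0 : pb ≠ 0 := (Polynomial.map_ne_zero hp.ne_zero)
  have hsplit : pb.Splits := IsAlgClosed.splits pb
  have hnodup : pb.roots.Nodup := Polynomial.nodup_roots hp.map
  have haeval : Polynomial.aeval x p = Polynomial.aeval x pb := by
    rw [hpb, Polynomial.aeval_map_algebraMap]
  -- factorisation of `p(x)`
  have hfac : Polynomial.aeval x pb = algebraMap Kbar Lbar pb.leadingCoeff *
      (pb.roots.map (fun a => x - algebraMap Kbar Lbar a)).prod := by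
    conv_lhs => rw [hsplit.eq_prod_roots]
    rw [map_mul, Polynomial.aeval_C, map_multiset_prod, Multiset.map_map]
    congr 2
    refine Multiset.map_congr rfl fun a _ => ?_
    simp
  have hlc : algebraMap Kbar Lbar pb.leadingCoeff ≠ 0 := by
    rw [Ne, map_eq_zero]; exact Polynomial.leadingCoeff_ne_zero.mpr hpb0
  have hfactors : ∀ z ∈ pb.roots.map (fun a => x - algebraMap Kbar Lbar a), z ≠ 0 := by
    intro z hz
    obtain ⟨a, -, rfl⟩ := Multiset.mem_map.mp hz
    exact sub_ne_zero.mpr (hxc a)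
  have hprod0 : (pb.roots.map (fun a => x - algebraMap Kbar Lbar a)).prod ≠ 0 :=
    Multiset.prod_ne_zero (fun h => hfactors 0 h rfl)
  have hord : P.ord (u * Polynomial.aeval x p) =
      (pb.roots.map (fun a => P.ord (x - algebraMap Kbar Lbar a))).sum := by
    rw [haeval, hfac, P.ord_mul hu0 (mul_ne_zero hlc hprod0), hu, zero_add,
      P.ord_mul hlc hprod0, pb_ord_algebraMap, zero_add, hzw_ord_multiset_prod P _ hfactors,
      Multiset.map_map]
    rfl
  rw [hord] at hpos ⊢
  -- some root has positive order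
  obtain ⟨a, haroot, hapos⟩ : ∃ a ∈ pb.roots, 0 < P.ord (x - algebraMap Kbar Lbar a) := by
    by_contra hno
    push Not at hno
    have : (pb.roots.map (fun a => P.ord (x - algebraMap Kbar Lbar a))).sum ≤ 0 := by
      have h := Multiset.sum_le_card_nsmul
        (pb.roots.map (fun a => P.ord (x - algebraMap Kbar Lbar a))) 0 (by
          intro z hz
          obtain ⟨a, ha, rfl⟩ := Multiset.mem_map.mp hz
          exact hno a ha)
      simpa using h
    omega
  have ha1 : P.ord (x - algebraMap Kbar Lbar a) = 1 :=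
    hA a ((Polynomial.mem_roots hpb0).mp haroot) hapos
  rw [← Multiset.cons_erase haroot, Multiset.map_cons, Multiset.sum_cons, ha1]
  have hrest : ((pb.roots.erase a).map (fun b => P.ord (x - algebraMap Kbar Lbar b))).sum = 0 := by
    apply Multiset.sum_eq_zero
    intro z hz
    obtain ⟨b, hb, rfl⟩ := Multiset.mem_map.mp hz
    have hba : b ≠ a := ((Multiset.Nodup.mem_erase_iff hnodup).mp hb).1
    exact hzw_ord_sub_eq_zero P (Ne.symm hba) hapos
  rw [hrest, add_zero]

end Poly

section Combined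

variable {K0 Kbar Ah L Lbar : Type*} [Field K0] [Field Kbar] [Algebra K0 Kbar]
  [Algebra.IsAlgebraic K0 Kbar] [IsAlgClosed Kbar]
  [CommRing Ah] [Field L] [Algebra K0 L] [Algebra Ah L]
  [Field Lbar] [Algebra Kbar Lbar] [Algebra L Lbar] [Algebra K0 Lbar]
  [IsScalarTower K0 L Lbar] [IsScalarTower K0 Kbar Lbar]

/-- **(B) wiring, polynomial form.**  `X : Ah` a coordinate (its image `x` in `Lbar` is a
separating coordinate of `Lbar/Kbar`), `g = u * p(X)` in `L` with `u` a unit of `Ah` and
`p ∈ K0[T]` separable; if for every root `a ∈ Kbar` of `p` and every place `P` of `Lbar/Kbar`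
containing `Ah`, `x - a` has at most a simple zero at `P`, then `g` generates the maximal ideal of
every valuation subring `V ⊇ Ah` of `L` in which it is a non-unit (= hypothesis `hV` of
`purx_dvd_of_dvd_pow_of_valuationSubring`). -/
theorem hzw_hV_of_linear_factors
    (hK0 : ∀ c : K0, ∃ a : Ah, algebraMap Ah L a = algebraMap K0 L c)
    (X : Ah)
    (hx : IsCoordinate Kbar Lbar (algebraMap L Lbar (algebraMap Ah L X)))
    [Algebra.IsSeparable Kbar⟮algebraMap L Lbar (algebraMap Ah L X)⟯ Lbar]
    (g u v : Ah) (huv : u * v = 1) (p : Polynomial K0) (hp : p.Separable)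
    (hg : algebraMap Ah L g = algebraMap Ah L u * Polynomial.aeval (algebraMap Ah L X) p)
    (hA : ∀ P : Place Kbar Lbar,
      (∀ a : Ah, algebraMap L Lbar (algebraMap Ah L a) ∈ P.toValuationSubring) →
      ∀ a : Kbar, (p.map (algebraMap K0 Kbar)).IsRoot a →
        0 < P.ord (algebraMap L Lbar (algebraMap Ah L X) - algebraMap Kbar Lbar a) →
          P.ord (algebraMap L Lbar (algebraMap Ah L X) - algebraMap Kbar Lbar a) = 1) :
    ∀ V : ValuationSubring L, (∀ a : Ah, algebraMap Ah L a ∈ V) →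
      (algebraMap Ah L g)⁻¹ ∉ V → ∀ y ∈ V, y ≠ 0 → y⁻¹ ∉ V →
        y * (algebraMap Ah L g)⁻¹ ∈ V := by
  refine hzw_hV_of_ord_eq_one (K0 := K0) (Kbar := Kbar) hK0 hx g ?_
  intro P hAP hpos
  set x : Lbar := algebraMap L Lbar (algebraMap Ah L X) with hxdef
  set ub : Lbar := algebraMap L Lbar (algebraMap Ah L u) with hub
  set vb : Lbar := algebraMap L Lbar (algebraMap Ah L v) with hvb
  have huvb : ub * vb = 1 := by
    rw [hub, hvb, ← map_mul, ← map_mul, huv, map_one, map_one]
  have hub0 : ub ≠ 0 := left_ne_zero_of_mul_eq_one huvb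
  have hubinv : ub⁻¹ = vb := inv_eq_of_mul_eq_one_right huvb
  have hu0 : P.ord ub = 0 := by
    rw [pb_ord_eq_zero_iff P hub0, hubinv]
    exact ⟨hAP u, hAP v⟩
  have hgb : algebraMap L Lbar (algebraMap Ah L g) = ub * Polynomial.aeval x p := by
    rw [hg, map_mul, hub, hxdef, ← Polynomial.aeval_algebraMap_apply]
  have hxc : ∀ a : Kbar, x ≠ algebraMap Kbar Lbar a := by
    intro a h
    apply hx.transcendental
    rw [h]
    exact isAlgebraic_algebraMap a
  rw [hgb] at hpos ⊢
  exact hzw_ord_eq_one_of_separable P hxc p hp ub hub0 hu0 (hA P hAP) hpos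

end Combined

end Fermat.Agent.S18x
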