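import Mathlib

/-!
# S18x / PUR (N5 step (B), helper18): valuative criterion for reducedness of `Rh / g Rh`

Mathlib only.

* `purx_isIntegral_of_forall_valuationSubring`: an element of a field lying in every valuation
  subring containing the image of `A` is integral over `A`.
* `purx_dvd_of_dvd_pow_of_valuationSubring`: `Rh` the integral closure of `Ah` in `L`; if in every
  valuation subring `V ⊇ Ah` of `L` where `g` is a non-unit, `g` generates the maximal ideal, then
  `g ∣ x ^ m → g ∣ x` in `Rh` (the `hred` input of `purx_hH_fin_of_dvd_pow_pid`).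
-/

set_option autoImplicit false

namespace Fermat.Agent.S18x

section ValCrit

/-- an element of a field lying in every valuation subring that contains the image of `A` is
integral over `A`. -/
theorem purx_isIntegral_of_forall_valuationSubring {A L : Type*} [CommRing A] [Field L]
    [Algebra A L] (z : L)
    (h : ∀ V : ValuationSubring L, (∀ a : A, algebraMap A L a ∈ V) → z ∈ V) :
    IsIntegral A z := by
  by_contra hz
  set R : Subring L := (integralClosure A L).toSubring with hR
  have hzR : z ∉ R := fun hmem => hz hmem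
  have : IsIntegrallyClosedIn R L := inferInstanceAs (IsIntegrallyClosedIn (integralClosure A L) L)
  obtain ⟨V, hRV, hzV⟩ := Subring.exists_le_valuationSubring_of_isIntegrallyClosedIn hzR
  exact hzV (h V fun a => hRV (isIntegral_algebraMap (R := A) (A := L) (x := a)))


/-- **(B, abstract)** `Rh` the integral closure of `Ah` in the field `L`, `g : Ah` nonzero in `L`.
If in every valuation subring `V ⊇ Ah` of `L` where `g` is a non-unit, `g` generates the maximal
ideal (`y ∈ 𝔪_V → y / g ∈ V`), then `Rh / g Rh` is reduced, in divisibility form. -/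
theorem purx_dvd_of_dvd_pow_of_valuationSubring {Ah L Rh : Type*} [CommRing Ah] [Field L]
    [Algebra Ah L] [CommRing Rh] [Algebra Ah Rh] [Algebra Rh L] [IsScalarTower Ah Rh L]
    [IsIntegralClosure Rh Ah L] (g : Ah) (hg : algebraMap Ah L g ≠ 0)
    (hV : ∀ V : ValuationSubring L, (∀ a : Ah, algebraMap Ah L a ∈ V) →
      (algebraMap Ah L g)⁻¹ ∉ V → ∀ y ∈ V, y ≠ 0 → y⁻¹ ∉ V → y * (algebraMap Ah L g)⁻¹ ∈ V)
    (x : Rh) (m : ℕ) (h : algebraMap Ah Rh g ∣ x ^ m) : algebraMap Ah Rh g ∣ x := by
  obtain ⟨r, hr⟩ := h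
  set γ : L := algebraMap Ah L g with hγ
  set ξ : L := algebraMap Rh L x with hξ
  set ρ : L := algebraMap Rh L r with hρ
  have hrel : ξ ^ m = γ * ρ := by
    rw [hξ, hρ, hγ, ← map_pow, hr, map_mul, ← IsScalarTower.algebraMap_apply Ah Rh L]
  have hint : IsIntegral Ah (ξ * γ⁻¹) := by
    refine purx_isIntegral_of_forall_valuationSubring _ fun V hAV => ?_
    -- integral elements lie in `V`
    have hmemV : ∀ t : Rh, algebraMap Rh L t ∈ V := by
      intro t
      have h1 : IsIntegral Ah (algebraMap Rh L t) :=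
        (IsIntegralClosure.isIntegral Ah L t).map (IsScalarTower.toAlgHom Ah Rh L)
      have h2 : IsIntegral V.toSubring (algebraMap Rh L t) := by
        obtain ⟨P, hPm, hP⟩ := h1
        refine ⟨P.map ((algebraMap Ah L).codRestrict V.toSubring hAV), hPm.map _, ?_⟩
        rw [← hP, Polynomial.eval₂_map]
        rfl
      have h3 : IsIntegrallyClosedIn V L := inferInstance
      obtain ⟨w, hw⟩ := (IsIntegrallyClosedIn.isIntegral_iff (R := V) (A := L)).1 h2
      rw [← hw]
      exact w.2
    have hξV : ξ ∈ V := hmemV x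
    have hρV : ρ ∈ V := hmemV r
    by_cases hγV : γ⁻¹ ∈ V
    · exact V.mul_mem _ _ hξV hγV
    · by_cases hξ0 : ξ = 0
      · rw [hξ0, zero_mul]; exact V.zero_mem
      · refine hV V hAV hγV ξ hξV hξ0 fun hξinv => hγV ?_
        have : γ⁻¹ = ρ * (ξ⁻¹) ^ m := by
          have hξm : ξ ^ m ≠ 0 := pow_ne_zero m hξ0
          rw [inv_pow, eq_mul_inv_iff_mul_eq₀ hξm, hrel, ← mul_assoc, inv_mul_cancel₀ hg, one_mul]
        rw [this]
        exact V.mul_mem _ _ hρV (pow_mem hξinv m)
  obtain ⟨y, hy⟩ := (IsIntegralClosure.isIntegral_iff (A := Rh)).1 hint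
  refine ⟨y, ?_⟩
  apply IsIntegralClosure.algebraMap_injective Rh Ah L
  rw [map_mul, hy, ← IsScalarTower.algebraMap_apply Ah Rh L, ← hγ, ← hξ]
  field_simp

end ValCrit

end Fermat.Agent.S18x
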