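/-
S18x/HorizBase2 (helper81; row N5/G9, generic layer 2; prefix `hzf_`): reducedness of the closed
fibres of `Rh / Ah`, `Ah = k[t, 1/c(t)]` (`HorizBase`), `Rh` the integral closure of `Ah` in a
field `L ⊇ K ∋ t`, from the geometric input

  (A)  for every place `P` of `Lbar / Kbar` and every `a ∈ Kbar` with `c(a) ≠ 0`:
       `ord_P (t - a) > 0 → ord_P (t - a) = 1`

(`Kbar ⊇ k` algebraically closed and algebraic, `Lbar ⊇ L` a function field over `Kbar` with
coordinate `t`), via `hzw_hV_of_linear_factors` and `purx_dvd_of_dvd_pow_of_valuationSubring`.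

* `hzf_algebraL` : the `Ah`-algebra structure of `L` (reducible def, not an instance);
* `hzf_hV` : the valuation-subring statement for a generator `g ≠ 0` of a maximal ideal of `Ah`;
* `hzf_hred` : `g ∣ x ^ m → g ∣ x` in `Rh`, for every generator `g` of a maximal ideal of `Ah`
  (= hypothesis `hred` of `purx_hH_fin_of_dvd_pow_pid`).
-/
import Mathlib
import Fermat.Agent.S18x.HorizBase
import Fermat.Agent.S18x.HorizWire
import Fermat.Agent.S18x.PurxValCrit

set_option autoImplicit false
set_option linter.style.haveILetI false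

namespace Fermat.Agent.S18x

open Polynomial AlgebraicCurve IntermediateField Fermat.Agent.S24x

noncomputable section

variable {k K L Kbar Lbar : Type*} [Field k] [CharZero k] [Field K] [Algebra k K] (t : K)
  (c : k[X]) [Field L] [Algebra K L] [Algebra k L] [IsScalarTower k K L]
  [Field Kbar] [Algebra k Kbar] [Algebra.IsAlgebraic k Kbar] [IsAlgClosed Kbar]
  [Field Lbar] [Algebra Kbar Lbar] [Algebra L Lbar] [Algebra k Lbar] [IsScalarTower k L Lbar]
  [IsScalarTower k Kbar Lbar]

/-- the `Ah`-algebra structure of `L` (through `K`). -/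
@[reducible] def hzf_algebraL : Algebra ↥(hzf_A t c) L :=
  ((algebraMap K L).comp (hzf_A t c).subtype).toAlgebra

omit [CharZero k] [Algebra k L] [IsScalarTower k K L] in
theorem hzf_algebraMap_L_apply (a : ↥(hzf_A t c)) :
    letI := hzf_algebraL (L := L) t c
    algebraMap ↥(hzf_A t c) L a = algebraMap K L (a : K) := rfl

omit [CharZero k] [Algebra k L] [IsScalarTower k K L] in
theorem hzf_algebraMap_L_injective :
    letI := hzf_algebraL (L := L) t c
    Function.Injective (algebraMap ↥(hzf_A t c) L) := by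
  letI := hzf_algebraL (L := L) t c
  intro a b hab
  exact Subtype.ext ((algebraMap K L).injective hab)

omit [CharZero k] in
theorem hzf_algebraMap_L_phi (p : k[X]) :
    letI := hzf_algebraL (L := L) t c
    algebraMap ↥(hzf_A t c) L (hzf_phi t c p) =
      aeval (algebraMap ↥(hzf_A t c) L ⟨t, hzf_t_mem t c⟩) p := by
  letI := hzf_algebraL (L := L) t c
  rw [hzf_algebraMap_L_apply, hzf_algebraMap_L_apply, hzf_phi_coe]
  show algebraMap K L (aeval t p) = aeval (algebraMap K L t) p
  rw [aeval_algebraMap_apply]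

variable {t}

/-- **(B), final generic form**: under (A), a generator `g ≠ 0` of a maximal ideal of
`Ah = k[t, 1/c(t)]` generates the maximal ideal of every valuation subring `V ⊇ Ah` of `L` in which
it is a non-unit. -/
theorem hzf_hV (ht : Transcendental k t) {c : k[X]} (hc : c ≠ 0)
    (hx : IsCoordinate Kbar Lbar (algebraMap L Lbar (algebraMap K L t)))
    (hA : ∀ P : Place Kbar Lbar, ∀ a : Kbar, (c.map (algebraMap k Kbar)).eval a ≠ 0 →
      0 < P.ord (algebraMap L Lbar (algebraMap K L t) - algebraMap Kbar Lbar a) →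
        P.ord (algebraMap L Lbar (algebraMap K L t) - algebraMap Kbar Lbar a) = 1)
    (g : ↥(hzf_A t c)) (hg : (Ideal.span {g}).IsMaximal) (hg0 : g ≠ 0) :
    letI := hzf_algebraL (L := L) t c
    ∀ V : ValuationSubring L, (∀ a : ↥(hzf_A t c), algebraMap ↥(hzf_A t c) L a ∈ V) →
      (algebraMap ↥(hzf_A t c) L g)⁻¹ ∉ V → ∀ y ∈ V, y ≠ 0 → y⁻¹ ∉ V →
        y * (algebraMap ↥(hzf_A t c) L g)⁻¹ ∈ V := by
  letI := hzf_algebraL (L := L) t c
  obtain ⟨u, v, huv, p, hpirr, hpc, hgp⟩ := hzf_exists_of_isMaximal ht hc g hg hg0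
  have hx' : IsCoordinate Kbar Lbar (algebraMap L Lbar
      (algebraMap ↥(hzf_A t c) L (⟨t, hzf_t_mem t c⟩ : ↥(hzf_A t c)))) := hx
  have hfin := hx'.finite
  haveI : CharZero Kbar := charZero_of_injective_algebraMap (algebraMap k Kbar).injective
  haveI : CharZero Kbar⟮algebraMap L Lbar
      (algebraMap ↥(hzf_A t c) L (⟨t, hzf_t_mem t c⟩ : ↥(hzf_A t c)))⟯ :=
    charZero_of_injective_algebraMap (algebraMap Kbar _).injective
  haveI : Algebra.IsSeparable Kbar⟮algebraMap L Lbar
      (algebraMap ↥(hzf_A t c) L (⟨t, hzf_t_mem t c⟩ : ↥(hzf_A t c)))⟯ Lbar :=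
    Algebra.IsSeparable.of_integral _ _
  have hK0 : ∀ r : k, ∃ a : ↥(hzf_A t c), algebraMap ↥(hzf_A t c) L a = algebraMap k L r := by
    intro r
    refine ⟨⟨algebraMap k K r, hzf_algebraMap_mem t c r⟩, ?_⟩
    rw [hzf_algebraMap_L_apply]
    exact (IsScalarTower.algebraMap_apply k K L r).symm
  have hgL : algebraMap ↥(hzf_A t c) L g = algebraMap ↥(hzf_A t c) L u *
      aeval (algebraMap ↥(hzf_A t c) L (⟨t, hzf_t_mem t c⟩ : ↥(hzf_A t c))) p := by
    rw [hgp, map_mul, hzf_algebraMap_L_phi]
  refine hzw_hV_of_linear_factors (K0 := k) (Kbar := Kbar) (Lbar := Lbar) hK0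
    (⟨t, hzf_t_mem t c⟩ : ↥(hzf_A t c)) hx' g u v huv p hpirr.separable hgL ?_
  intro P _ a ha hpos
  refine hA P a ?_ hpos
  -- `c(a) ≠ 0` by coprimality
  obtain ⟨r, s, hrs⟩ := hpc
  intro hca
  have h1 := congrArg (fun f : k[X] => (f.map (algebraMap k Kbar)).eval a) hrs
  simp only [Polynomial.map_add, Polynomial.map_mul, Polynomial.eval_add, Polynomial.eval_mul,
    Polynomial.map_one, Polynomial.eval_one] at h1
  rw [hca, mul_zero, add_zero] at h1
  rw [Polynomial.IsRoot.def] at ha
  rw [ha, mul_zero] at h1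
  exact zero_ne_one h1

/-- **reduced closed fibres** (hypothesis `hred` of `purx_hH_fin_of_dvd_pow_pid`). -/
theorem hzf_hred (ht : Transcendental k t) {c : k[X]} (hc : c ≠ 0)
    (hx : IsCoordinate Kbar Lbar (algebraMap L Lbar (algebraMap K L t)))
    (hA : ∀ P : Place Kbar Lbar, ∀ a : Kbar, (c.map (algebraMap k Kbar)).eval a ≠ 0 →
      0 < P.ord (algebraMap L Lbar (algebraMap K L t) - algebraMap Kbar Lbar a) →
        P.ord (algebraMap L Lbar (algebraMap K L t) - algebraMap Kbar Lbar a) = 1)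
    {Rh : Type*} [CommRing Rh] [Algebra ↥(hzf_A t c) Rh] [Algebra Rh L]
    [letI := hzf_algebraL (L := L) t c; IsScalarTower ↥(hzf_A t c) Rh L]
    [letI := hzf_algebraL (L := L) t c; IsIntegralClosure Rh ↥(hzf_A t c) L]
    (g : ↥(hzf_A t c)) (hg : (Ideal.span {g}).IsMaximal) (x : Rh) (m : ℕ)
    (hdvd : algebraMap ↥(hzf_A t c) Rh g ∣ x ^ m) : algebraMap ↥(hzf_A t c) Rh g ∣ x := by
  letI := hzf_algebraL (L := L) t c
  by_cases hg0 : g = 0
  · -- `Ah` is a field and `g = 0`: `Rh` is a domain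
    subst hg0
    rw [map_zero] at hdvd ⊢
    have hinj : Function.Injective (algebraMap Rh L) :=
      IsIntegralClosure.algebraMap_injective Rh ↥(hzf_A t c) L
    have hxm : x ^ m = 0 := zero_dvd_iff.mp hdvd
    have hx0 : x = 0 := by
      apply hinj
      rw [map_zero]
      have hpow : (algebraMap Rh L x) ^ m = 0 := by rw [← map_pow, hxm, map_zero]
      by_cases hm : m = 0
      · subst hm
        rw [pow_zero] at hpow
        exact absurd hpow one_ne_zero
      · exact (pow_eq_zero_iff hm).mp hpow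
    rw [hx0]
  · have hgL : algebraMap ↥(hzf_A t c) L g ≠ 0 := by
      intro h0
      apply hg0
      apply hzf_algebraMap_L_injective (L := L) t c
      rw [h0, map_zero]
    exact purx_dvd_of_dvd_pow_of_valuationSubring g hgL
      (hzf_hV (L := L) (Kbar := Kbar) (Lbar := Lbar) ht hc hx hA g hg hg0) x m hdvd

end

end Fermat.Agent.S18x
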