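import Mathlib

/-!
# S18x / PUR-A (E2): a free algebra with unit discriminant over a normal domain is normal

`D` an integrally closed domain, `T` a domain which is a free `D`-algebra with a finite basis `τ`
whose trace-form discriminant is a unit of `D`.  Then `T` is integrally closed.
-/

set_option autoImplicit false
set_option linter.style.haveILetI false

namespace Fermat.Agent.S18x

open scoped nonZeroDivisors
open Matrix

section E2

variable {D T : Type*} [CommRing D] [IsDomain D] [IsIntegrallyClosed D]
  [CommRing T] [IsDomain T] [Algebra D T]
  {ι : Type*} [Fintype ι] [DecidableEq ι]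

/-- **(E2)** -/
theorem pur_isIntegrallyClosed_of_isUnit_discr (τ : Module.Basis ι D T)
    (hτ : IsUnit (Algebra.discr D τ)) : IsIntegrallyClosed T := by
  classical
  have : Module.Free D T := Module.Free.of_basis τ
  have : Module.Finite D T := Module.Finite.of_basis τ
  have : FaithfulSMul D T := inferInstance
  have : Algebra.IsIntegral D T := inferInstance
  -- fraction fields
  let E := FractionRing D
  let M := FractionRing T
  have : FaithfulSMul D M := by
    rw [faithfulSMul_iff_algebraMap_injective, IsScalarTower.algebraMap_eq D T M]
    exact (IsFractionRing.injective T M).comp (FaithfulSMul.algebraMap_injective D T)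
  let _ : Algebra E M := FractionRing.liftAlgebra D M
  have : IsScalarTower D E M := FractionRing.isScalarTower_liftAlgebra D M
  have : IsLocalization (Algebra.algebraMapSubmonoid T D⁰) M := inferInstance
  -- the `E`-basis of `M`
  let bE : Module.Basis ι E M := τ.localizationLocalization E D⁰ M
  have hbE : ∀ i, bE i = algebraMap T M (τ i) := fun i =>
    Module.Basis.localizationLocalization_apply ..
  have : FiniteDimensional E M := Module.Finite.of_basis bE
  -- the Gram matrix and its inverse over `D`, as plain functions
  obtain ⟨g, hg⟩ : ∃ g : ι → ι → D, ∀ i j, g i j = Algebra.trace D T (τ i * τ j) :=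
    ⟨fun i j => Algebra.trace D T (τ i * τ j), fun _ _ => rfl⟩
  obtain ⟨h, hgh⟩ : ∃ h : ι → ι → D, ∀ j k, ∑ i, g j i * h i k = if j = k then 1 else 0 := by
    have hdet : IsUnit (Algebra.traceMatrix D τ).det := by rwa [← Algebra.discr_def]
    refine ⟨fun i k => (Algebra.traceMatrix D τ)⁻¹ i k, fun j k => ?_⟩
    have := congrFun (congrFun (Matrix.mul_nonsing_inv (Algebra.traceMatrix D τ) hdet) j) k
    rw [Matrix.mul_apply, Matrix.one_apply] at this
    rw [← this]
    refine Finset.sum_congr rfl fun i _ => ?_
    rw [hg, Algebra.traceMatrix_apply, Algebra.traceForm_apply]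
  have hGE : ∀ i j, Algebra.trace E M (bE i * bE j) = algebraMap D E (g i j) := by
    intro i j
    rw [hbE, hbE, ← map_mul, Algebra.trace_localization D D⁰ (Rₘ := E) (Sₘ := M), hg]
  rw [isIntegrallyClosed_iff M]
  intro z hz
  have hzD : IsIntegral D z := isIntegral_trans z hz
  -- the traces `Tr(z * b_i)` lie in `D`
  have hc : ∀ i, ∃ c : D, algebraMap D E c = Algebra.trace E M (z * bE i) := by
    intro i
    have h1 : IsIntegral D (z * bE i) := by
      refine hzD.mul ?_
      rw [hbE]
      exact (Algebra.IsIntegral.isIntegral (R := D) (τ i)).map (IsScalarTower.toAlgHom D T M)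
    have h2 : IsIntegral D (Algebra.trace E M (z * bE i)) := Algebra.isIntegral_trace h1
    exact IsIntegrallyClosed.isIntegral_iff.mp h2
  choose c hc using hc
  -- coordinates of `z`
  set e : ι → E := fun j => bE.repr z j with he
  have hz_sum : z = ∑ j, e j • bE j := (bE.sum_repr z).symm
  have hGe : ∀ i, ∑ j, e j * algebraMap D E (g j i) = algebraMap D E (c i) := by
    intro i
    rw [hc i]
    conv_rhs => rw [hz_sum, Finset.sum_mul, map_sum]
    refine Finset.sum_congr rfl fun j _ => ?_
    rw [smul_mul_assoc, map_smul, smul_eq_mul, hGE]
  -- invert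
  have hx : ∀ k, e k = algebraMap D E (∑ i, c i * h i k) := by
    intro k
    have h1 : ∀ j, ∑ i, algebraMap D E (g j i) * algebraMap D E (h i k) =
        if j = k then 1 else 0 := by
      intro j
      have h2 : (if j = k then (1 : E) else 0) = algebraMap D E (if j = k then 1 else 0) := by
        split_ifs <;> simp
      rw [h2, ← hgh j k, map_sum]
      simp only [map_mul]
    calc e k = ∑ j, e j * (if j = k then 1 else 0) := by simp
      _ = ∑ j, e j * ∑ i, algebraMap D E (g j i) * algebraMap D E (h i k) := by
          refine Finset.sum_congr rfl fun j _ => ?_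
          rw [h1 j]
      _ = ∑ i, (∑ j, e j * algebraMap D E (g j i)) * algebraMap D E (h i k) := by
          have e1 : ∀ j, e j * ∑ i, algebraMap D E (g j i) * algebraMap D E (h i k) =
              ∑ i, e j * algebraMap D E (g j i) * algebraMap D E (h i k) := by
            intro j
            rw [Finset.mul_sum]
            refine Finset.sum_congr rfl fun i _ => ?_
            ring
          have e2 : ∀ i, (∑ j, e j * algebraMap D E (g j i)) * algebraMap D E (h i k) =
              ∑ j, e j * algebraMap D E (g j i) * algebraMap D E (h i k) := by
            intro i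
            rw [Finset.sum_mul]
          rw [Finset.sum_congr rfl fun j _ => e1 j, Finset.sum_congr rfl fun i _ => e2 i,
            Finset.sum_comm]
      _ = algebraMap D E (∑ i, c i * h i k) := by
          simp only [hGe, map_sum, map_mul]
  refine ⟨∑ k, (∑ i, c i * h i k) • τ k, ?_⟩
  rw [hz_sum, map_sum]
  refine Finset.sum_congr rfl fun k _ => ?_
  rw [hx k, hbE, Algebra.smul_def, map_mul, ← IsScalarTower.algebraMap_apply,
    IsScalarTower.algebraMap_apply D E M, Algebra.smul_def]

end E2

end Fermat.Agent.S18x
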