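import Mathlib

/-!
# S18x / PUR-A (A2): freeness from freeness modulo a regular element

`B` a Noetherian local ring, `p` in the maximal ideal, `M` a finite `B`-module on which `p` is a
non-zero-divisor.  If `M / pM` is free over `B / p` then `M` is free over `B`, and a lift of a
basis is a basis.  Special case: `B / p` a PID and `M / pM` torsion-free.
-/

set_option autoImplicit false

namespace Fermat.Agent.S18x

open Submodule

section A2

variable {B : Type*} [CommRing B] [IsLocalRing B] [IsNoetherianRing B]
variable {M : Type*} [AddCommGroup M] [Module B M] [Module.Finite B M]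

omit [IsLocalRing B] [IsNoetherianRing B] [Module.Finite B M] in
/-- membership in `(p) • ⊤`. -/
theorem pur_mem_span_smul_top {p : B} {m : M} :
    m ∈ (Ideal.span {p} • (⊤ : Submodule B M)) ↔ ∃ m', p • m' = m := by
  rw [Submodule.ideal_span_singleton_smul, Submodule.mem_smul_pointwise_iff_exists]
  simp

omit [IsNoetherianRing B] in
/-- lifting a spanning family modulo `p` (Nakayama). -/
theorem pur_span_eq_top_of_quotient {p : B} (hp : p ∈ IsLocalRing.maximalIdeal B)
    {ι : Type*} (e : ι → M)
    (hspan : ∀ m : M, ∃ n ∈ Submodule.span B (Set.range e), ∃ m', m = n + p • m') :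
    Submodule.span B (Set.range e) = ⊤ := by
  rw [eq_top_iff]
  refine Submodule.le_of_le_smul_of_le_jacobson_bot (I := Ideal.span {p})
    (Module.Finite.fg_top) ?_ ?_
  · rw [IsLocalRing.jacobson_eq_maximalIdeal ⊥ bot_ne_top, Ideal.span_singleton_le_iff_mem]
    exact hp
  · intro m _
    obtain ⟨n, hn, m', rfl⟩ := hspan m
    refine Submodule.add_mem_sup hn ?_
    rw [pur_mem_span_smul_top]
    exact ⟨m', rfl⟩

omit [Module.Finite B M] in
/-- linear independence lifts from `M / pM` when `p` is `M`-regular (Krull intersection). -/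
theorem pur_linearIndependent_of_quotient [IsDomain B] {p : B}
    (hp : p ∈ IsLocalRing.maximalIdeal B)
    (hreg : ∀ m : M, p • m = 0 → m = 0)
    {ι : Type*} [Fintype ι] (e : ι → M)
    (hind : ∀ g : ι → B, (∃ m', ∑ i, g i • e i = p • m') → ∀ i, p ∣ g i) :
    LinearIndependent B e := by
  rw [Fintype.linearIndependent_iff]
  intro g hg i
  -- all `g i` are divisible by `p ^ n` for all `n`
  have key : ∀ n : ℕ, ∀ g : ι → B, ∑ i, g i • e i = 0 → ∀ i, p ^ n ∣ g i := by
    intro n
    induction n with
    | zero => intro g _ i; simp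
    | succ n ih =>
      intro g hg i
      have h1 : ∀ i, p ∣ g i := hind g ⟨0, by rw [hg, smul_zero]⟩
      choose g' hg' using h1
      have h2 : ∑ i, g' i • e i = 0 := by
        apply hreg
        rw [Finset.smul_sum, ← hg]
        refine Finset.sum_congr rfl fun i _ => ?_
        rw [smul_smul, ← hg' i]
      have h3 := ih g' h2 i
      rw [hg' i, pow_succ']
      exact mul_dvd_mul_left p h3
  have hne : Ideal.span {p} ≠ ⊤ := by
    intro h
    have : p ∈ IsLocalRing.maximalIdeal B := hp
    rw [Ideal.span_singleton_eq_top] at h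
    exact (IsLocalRing.mem_maximalIdeal p).mp hp h
  have hbot := Ideal.iInf_pow_eq_bot_of_isLocalRing (Ideal.span {p}) hne
  have : g i ∈ (⨅ n : ℕ, Ideal.span {p} ^ n) := by
    rw [Ideal.mem_iInf]
    intro n
    rw [Ideal.span_singleton_pow, Ideal.mem_span_singleton]
    exact key n g hg i
  rw [hbot] at this
  simpa using this

/-- **(A2)**: `B` Noetherian local domain, `p` in the maximal ideal with `B / p` a PID,
`M` a finite `B`-module with `p` regular on `M` and `M / pM` torsion-free over `B / p`
(stated elementwise).  Then `M` has a finite basis. -/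
theorem pur_exists_basis_of_torsionFree_quotient [IsDomain B] {p : B}
    (hp : p ∈ IsLocalRing.maximalIdeal B)
    [IsDomain (B ⧸ Ideal.span {p})] [IsPrincipalIdealRing (B ⧸ Ideal.span {p})]
    (hreg : ∀ m : M, p • m = 0 → m = 0)
    (htf : ∀ t : B, ¬ p ∣ t → ∀ m : M, (∃ m', t • m = p • m') → ∃ m'', m = p • m'') :
    ∃ (r : ℕ) (_ : Module.Basis (Fin r) B M), True := by
  classical
  set I : Ideal B := Ideal.span {p} with hI
  -- the quotient module over the quotient ring
  have hfin : Module.Finite (B ⧸ I) (M ⧸ I • (⊤ : Submodule B M)) := by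
    have : Module.Finite B (M ⧸ I • (⊤ : Submodule B M)) := inferInstance
    exact Module.Finite.of_restrictScalars_finite B _ _
  have htfq : Module.IsTorsionFree (B ⧸ I) (M ⧸ I • (⊤ : Submodule B M)) := by
    rw [Module.isTorsionFree_iff_smul_eq_zero]
    intro r m hrm
    obtain ⟨t, rfl⟩ := Ideal.Quotient.mk_surjective r
    obtain ⟨m, rfl⟩ := Submodule.Quotient.mk_surjective _ m
    rw [Module.Quotient.mk_smul_mk, Submodule.Quotient.mk_eq_zero, pur_mem_span_smul_top] at hrm
    obtain ⟨m', hm'⟩ := hrm
    by_cases hpt : p ∣ t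
    · left
      rw [Ideal.Quotient.eq_zero_iff_mem, hI, Ideal.mem_span_singleton]
      exact hpt
    · right
      obtain ⟨m'', hm''⟩ := htf t hpt m ⟨m', hm'.symm⟩
      rw [Submodule.Quotient.mk_eq_zero, pur_mem_span_smul_top]
      exact ⟨m'', hm''.symm⟩
  obtain ⟨r, bq⟩ := Module.basisOfFiniteTypeTorsionFree' (R := B ⧸ I)
    (M := M ⧸ I • (⊤ : Submodule B M))
  -- lift the basis
  have hlift : ∀ i, ∃ x : M, Submodule.Quotient.mk (p := (I • ⊤ : Submodule B M)) x = bq i :=
    fun i => Submodule.Quotient.mk_surjective _ (bq i)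
  choose e he using hlift
  have hmk_sum : ∀ g : Fin r → B,
      Submodule.Quotient.mk (p := (I • ⊤ : Submodule B M)) (∑ i, g i • e i) =
        ∑ i, Ideal.Quotient.mk I (g i) • bq i := by
    intro g
    rw [← Submodule.mkQ_apply, map_sum]
    refine Finset.sum_congr rfl fun i _ => ?_
    rw [Submodule.mkQ_apply, ← he i, Module.Quotient.mk_smul_mk]
  have hspan : Submodule.span B (Set.range e) = ⊤ := by
    apply pur_span_eq_top_of_quotient hp
    intro m
    -- coefficients
    have hc : ∀ i, ∃ c : B, Ideal.Quotient.mk I c =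
        bq.repr (Submodule.Quotient.mk (p := (I • ⊤ : Submodule B M)) m) i :=
      fun i => Ideal.Quotient.mk_surjective _
    choose c hc using hc
    refine ⟨∑ i, c i • e i, ?_, ?_⟩
    · exact Submodule.sum_mem _ fun i _ =>
        Submodule.smul_mem _ _ (Submodule.subset_span ⟨i, rfl⟩)
    · have h0 : Submodule.Quotient.mk (p := (I • ⊤ : Submodule B M)) (m - ∑ i, c i • e i) = 0 := by
        rw [Submodule.Quotient.mk_sub, hmk_sum, sub_eq_zero]
        conv_lhs => rw [← bq.sum_repr (Submodule.Quotient.mk (p := (I • ⊤ : Submodule B M)) m)]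
        refine Finset.sum_congr rfl fun i _ => ?_
        rw [hc i]
      rw [Submodule.Quotient.mk_eq_zero, pur_mem_span_smul_top] at h0
      obtain ⟨m', hm'⟩ := h0
      exact ⟨m', by rw [hm']; abel⟩
  have hli : LinearIndependent B e := by
    apply pur_linearIndependent_of_quotient hp hreg
    intro g ⟨m', hm'⟩ i
    have h0 : Submodule.Quotient.mk (p := (I • ⊤ : Submodule B M)) (∑ i, g i • e i) = 0 := by
      rw [Submodule.Quotient.mk_eq_zero, pur_mem_span_smul_top]
      exact ⟨m', hm'.symm⟩
    rw [hmk_sum] at h0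
    have h1 := (Fintype.linearIndependent_iff.mp bq.linearIndependent) _ h0 i
    rw [Ideal.Quotient.eq_zero_iff_mem, hI, Ideal.mem_span_singleton] at h1
    exact h1
  exact ⟨r, Module.Basis.mk hli (by rw [hspan]), trivial⟩

end A2

end Fermat.Agent.S18x
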