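import Mathlib

/-!
# S18x / PUR-A (A1): integrality from two "coprime" multiples

`B` an integrally closed domain with fraction field `K`, `L/K` a field extension.
If `p` is a prime element of `B`, `t ∈ B` is not divisible by `p`, and both `p • y` and `t • y`
are integral over `B`, then `y` is integral over `B`.

Consequence (A1): for `R` the integral closure of `B` in `L`: `x ∈ R`, `t • x ∈ p R` implies
`x ∈ p R`, i.e. `R / p R` has no `t`-torsion.
-/

set_option autoImplicit false

namespace Fermat.Agent.S18x

open Polynomial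

section A1

variable {B K L : Type*} [CommRing B] [IsDomain B] [IsIntegrallyClosed B]
  [Field K] [Algebra B K] [IsFractionRing B K]
  [Field L] [Algebra K L] [Algebra B L] [IsScalarTower B K L]

omit [IsIntegrallyClosed B] in
/-- Arithmetic core: if `p^m c` and `t^m c` both lie in `B` (inside `K = Frac B`), `p` prime and
`p ∤ t`, then `c ∈ B`. -/
theorem pur_mem_of_pow_mul_mem {p t : B} (hp : Prime p) (ht : ¬ p ∣ t) (m : ℕ) (c : K)
    (hpc : ∃ a : B, algebraMap B K a = c * algebraMap B K p ^ m)
    (htc : ∃ b : B, algebraMap B K b = c * algebraMap B K t ^ m) :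
    ∃ a : B, algebraMap B K a = c := by
  obtain ⟨a, ha⟩ := hpc
  obtain ⟨b, hb⟩ := htc
  have h1 : t ^ m * a = p ^ m * b := by
    apply IsFractionRing.injective B K
    simp only [map_mul, map_pow, ha, hb]; ring
  have h2 : p ^ m ∣ t ^ m * a := ⟨b, h1⟩
  have h3 : p ^ m ∣ a :=
    hp.pow_dvd_of_dvd_mul_left m (fun h => ht (hp.dvd_of_dvd_pow h)) h2
  obtain ⟨a', rfl⟩ := h3
  refine ⟨a', ?_⟩
  have hp0 : algebraMap B K p ^ m ≠ 0 :=
    pow_ne_zero _ ((map_ne_zero_iff _ (IsFractionRing.injective B K)).mpr hp.ne_zero)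
  apply mul_right_cancel₀ hp0
  rw [← ha, map_mul, map_pow, mul_comm]

/-- the coefficients of `minpoly K y`, scaled by powers of `b`, lie in `B` when `b • y` is
integral over `B`. -/
theorem pur_coeff_scale_mem {b : B} (hb : b ≠ 0) (y : L) (hy : IsIntegral K y)
    (hby : IsIntegral B (b • y)) (i : ℕ) :
    ∃ a : B, algebraMap B K a =
      (minpoly K y).coeff i * algebraMap B K b ^ ((minpoly K y).natDegree - i) := by
  have hbK : algebraMap B K b ≠ 0 :=
    (map_ne_zero_iff _ (IsFractionRing.injective B K)).mpr hb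
  have e1 : b • y = (algebraMap B K b) • y := (algebraMap_smul K b y).symm
  have e2 : minpoly K (b • y) = (minpoly K y).scaleRoots (algebraMap B K b) := by
    rw [e1]
    exact IsIntegrallyClosed.minpoly_smul hbK hy
  have e3 : minpoly K (b • y) = (minpoly B (b • y)).map (algebraMap B K) :=
    minpoly.isIntegrallyClosed_eq_field_fractions' K hby
  refine ⟨(minpoly B (b • y)).coeff i, ?_⟩
  have := congrArg (fun f => f.coeff i) (e3.symm.trans e2)
  simpa [coeff_map, coeff_scaleRoots] using this

end A1

/-- **(A1), element form.** -/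
theorem pur_isIntegral_of_smul_isIntegral {B : Type*} (K : Type*) {L : Type*}
    [CommRing B] [IsDomain B] [IsIntegrallyClosed B]
    [Field K] [Algebra B K] [IsFractionRing B K]
    [Field L] [Algebra K L] [Algebra B L] [IsScalarTower B K L] {p t : B} (hp : Prime p) (ht : ¬ p ∣ t) (y : L)
    (hpy : IsIntegral B (p • y)) (hty : IsIntegral B (t • y)) : IsIntegral B y := by
  have hp0 : p ≠ 0 := hp.ne_zero
  have ht0 : t ≠ 0 := fun h => ht (h ▸ dvd_zero p)
  have hpK : algebraMap B K p ≠ 0 :=
    (map_ne_zero_iff _ (IsFractionRing.injective B K)).mpr hp0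
  -- `y` is algebraic over `K`
  have hyK : IsIntegral K y := by
    have h1 : IsIntegral K (p • y) := hpy.tower_top
    have h2 : y = (algebraMap B K p)⁻¹ • (p • y) := by
      rw [← algebraMap_smul K p y, smul_smul, inv_mul_cancel₀ hpK, one_smul]
    rw [h2]
    exact h1.smul _
  set f := minpoly K y with hf
  have hmonic : f.Monic := minpoly.monic hyK
  -- all coefficients of `f` lie in `B`
  have hcoeff : ∀ i, ∃ a : B, algebraMap B K a = f.coeff i := by
    intro i
    exact pur_mem_of_pow_mul_mem hp ht (f.natDegree - i) (f.coeff i)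
      (pur_coeff_scale_mem hp0 y hyK hpy i) (pur_coeff_scale_mem ht0 y hyK hty i)
  have hlifts : f ∈ Polynomial.lifts (algebraMap B K) := by
    rw [Polynomial.lifts_iff_coeff_lifts]
    intro i
    obtain ⟨a, ha⟩ := hcoeff i
    exact ⟨a, ha⟩
  obtain ⟨g, hg, -, hgm⟩ := Polynomial.lifts_and_natDegree_eq_and_monic hlifts hmonic
  refine ⟨g, hgm, ?_⟩
  have h0 : Polynomial.aeval y f = 0 := minpoly.aeval K y
  rw [← hg, Polynomial.aeval_map_algebraMap] at h0
  simpa [Polynomial.aeval_def] using h0

end Fermat.Agent.S18x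

namespace Fermat.Agent.S18x

section A1module

/-- `B → L` is injective. -/
theorem pur_algebraMap_ne_zero {B : Type*} (K : Type*) (L : Type*)
    [CommRing B] [IsDomain B] [Field K] [Algebra B K] [IsFractionRing B K]
    [Field L] [Algebra K L] [Algebra B L] [IsScalarTower B K L]
    {b : B} (hb : b ≠ 0) : algebraMap B L b ≠ 0 := by
  rw [IsScalarTower.algebraMap_apply B K L]
  exact (map_ne_zero_iff _ (algebraMap K L).injective).mpr
    ((map_ne_zero_iff _ (IsFractionRing.injective B K)).mpr hb)

/-- `p` is a non-zero-divisor on the integral closure. -/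
theorem pur_smul_eq_zero_imp {B : Type*} (K : Type*) (L : Type*) {R : Type*}
    [CommRing B] [IsDomain B] [Field K] [Algebra B K] [IsFractionRing B K]
    [Field L] [Algebra K L] [Algebra B L] [IsScalarTower B K L]
    [CommRing R] [Algebra B R] [Algebra R L] [IsScalarTower B R L] [IsIntegralClosure R B L]
    {p : B} (hp : p ≠ 0) (x : R) (h : p • x = 0) : x = 0 := by
  apply IsIntegralClosure.algebraMap_injective R B L
  have h1 : algebraMap R L (p • x) = 0 := by rw [h, map_zero]
  rw [Algebra.smul_def, map_mul, ← IsScalarTower.algebraMap_apply] at h1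
  rcases mul_eq_zero.mp h1 with h2 | h2
  · exact absurd h2 (pur_algebraMap_ne_zero K L hp)
  · rw [h2, map_zero]

/-- **(A1), module form**: the integral closure `R` of `B` in `L` satisfies:
`t • x ∈ p R`, `p` prime, `p ∤ t` imply `x ∈ p R`. -/
theorem pur_integralClosure_quotient_torsionFree {B : Type*} (K : Type*) (L : Type*) {R : Type*}
    [CommRing B] [IsDomain B] [IsIntegrallyClosed B]
    [Field K] [Algebra B K] [IsFractionRing B K]
    [Field L] [Algebra K L] [Algebra B L] [IsScalarTower B K L]
    [CommRing R] [Algebra B R] [Algebra R L] [IsScalarTower B R L] [IsIntegralClosure R B L]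
    {p t : B} (hp : Prime p) (ht : ¬ p ∣ t)
    (x : R) (h : ∃ x' : R, t • x = p • x') : ∃ x'' : R, x = p • x'' := by
  obtain ⟨x', hx'⟩ := h
  have hpL : algebraMap B L p ≠ 0 := pur_algebraMap_ne_zero K L hp.ne_zero
  set y : L := (algebraMap B L p)⁻¹ * algebraMap R L x with hy
  have h1 : p • y = algebraMap R L x := by
    rw [hy, Algebra.smul_def, mul_inv_cancel_left₀ hpL]
  have h2 : t • y = algebraMap R L x' := by
    have e1 : algebraMap R L (t • x) = algebraMap R L (p • x') := by rw [hx']
    rw [Algebra.smul_def, Algebra.smul_def, map_mul, map_mul,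
      ← IsScalarTower.algebraMap_apply, ← IsScalarTower.algebraMap_apply] at e1
    rw [hy, Algebra.smul_def, mul_left_comm, e1, inv_mul_cancel_left₀ hpL]
  have hy_int : IsIntegral B y := by
    apply pur_isIntegral_of_smul_isIntegral K hp ht y
    · rw [h1]; exact (IsIntegralClosure.isIntegral_iff (A := R)).mpr ⟨x, rfl⟩
    · rw [h2]; exact (IsIntegralClosure.isIntegral_iff (A := R)).mpr ⟨x', rfl⟩
  obtain ⟨x'', hx''⟩ := (IsIntegralClosure.isIntegral_iff (A := R)).mp hy_int
  refine ⟨x'', ?_⟩
  apply IsIntegralClosure.algebraMap_injective R B L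
  rw [Algebra.smul_def, map_mul, ← IsScalarTower.algebraMap_apply, hx'', ← h1, Algebra.smul_def]

end A1module

end Fermat.Agent.S18x
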