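import Mathlib
import Fermat.Agent.S18x.PurTorsion
import Fermat.Agent.S18x.PurFree

/-!
# S18x / PUR-A: global tools (no localisation)

* `pur_linearIndependent_of_quotient_dom`: lifting linear independence modulo a non-unit `p`
  over a Noetherian domain (Krull intersection).
* `pur_exists_nakayama`: if a family spans `M` modulo `p` then `a • M ⊆ span` for some
  `a ∈ 1 + (p)`.
-/

set_option autoImplicit false

namespace Fermat.Agent.S18x

open Submodule

section G

variable {B : Type*} [CommRing B] {M : Type*} [AddCommGroup M] [Module B M]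

/-- linear independence lifts from `M / pM` when `p` is `M`-regular (Krull intersection),
domain version. -/
theorem pur_linearIndependent_of_quotient_dom [IsDomain B] [IsNoetherianRing B] {p : B}
    (hp : ¬ IsUnit p) (hreg : ∀ m : M, p • m = 0 → m = 0)
    {ι : Type*} [Fintype ι] (e : ι → M)
    (hind : ∀ g : ι → B, (∃ m', ∑ i, g i • e i = p • m') → ∀ i, p ∣ g i) :
    LinearIndependent B e := by
  rw [Fintype.linearIndependent_iff]
  intro g hg i
  have key : ∀ n : ℕ, ∀ g : ι → B, ∑ i, g i • e i = 0 → ∀ i, p ^ n ∣ g i := by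
    intro n
    induction n with
    | zero => intro g _ i; simp
    | succ n ih =>
      intro g hg i
      have h1 : ∀ i, p ∣ g i := hind g ⟨0, by rw [hg, smul_zero]⟩
      choose g' hg' using h1
      have h2 : ∑ i, g' i • e i = 0 := by
        apply hreg
        rw [Finset.smul_sum, ← hg]
        refine Finset.sum_congr rfl fun i _ => ?_
        rw [smul_smul, ← hg' i]
      have h3 := ih g' h2 i
      rw [hg' i, pow_succ']
      exact mul_dvd_mul_left p h3
  have hne : Ideal.span {p} ≠ ⊤ := by
    rwa [Ne, Ideal.span_singleton_eq_top]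
  have hbot := Ideal.iInf_pow_eq_bot_of_isDomain (Ideal.span {p}) hne
  have : g i ∈ (⨅ n : ℕ, Ideal.span {p} ^ n) := by
    rw [Ideal.mem_iInf]
    intro n
    rw [Ideal.span_singleton_pow, Ideal.mem_span_singleton]
    exact key n g hg i
  rw [hbot] at this
  simpa using this

/-- Nakayama: a family spanning `M` modulo `p` spans `a • M` for some `a ≡ 1 mod p`. -/
theorem pur_exists_nakayama [Module.Finite B M] {p : B} {ι : Type*} (e : ι → M)
    (hspan : ∀ m : M, ∃ n ∈ Submodule.span B (Set.range e), ∃ m', m = n + p • m') :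
    ∃ a a' : B, a = 1 + p * a' ∧ ∀ m : M, a • m ∈ Submodule.span B (Set.range e) := by
  set N := Submodule.span B (Set.range e) with hN
  have hfg : (⊤ : Submodule B (M ⧸ N)).FG := Module.Finite.fg_top
  have hle : (⊤ : Submodule B (M ⧸ N)) ≤ Ideal.span {p} • ⊤ := by
    intro x _
    obtain ⟨m, rfl⟩ := Submodule.Quotient.mk_surjective N x
    obtain ⟨n, hn, m', rfl⟩ := hspan m
    rw [Submodule.Quotient.mk_add, (Submodule.Quotient.mk_eq_zero N).mpr hn, zero_add,
      Submodule.Quotient.mk_smul]
    exact Submodule.smul_mem_smul (Ideal.subset_span rfl) Submodule.mem_top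
  obtain ⟨r, hr1, hr2⟩ :=
    Submodule.exists_sub_one_mem_and_smul_eq_zero_of_fg_of_le_smul (Ideal.span {p}) ⊤ hfg hle
  obtain ⟨a', ha'⟩ := Ideal.mem_span_singleton'.mp hr1
  refine ⟨r, a', ?_, fun m => ?_⟩
  · rw [mul_comm, ha']; ring
  · have := hr2 (Submodule.Quotient.mk m) Submodule.mem_top
    rwa [← Submodule.Quotient.mk_smul, Submodule.Quotient.mk_eq_zero] at this

end G

end Fermat.Agent.S18x
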