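import Mathlib
import Fermat.Agent.S18x.PurTorsion
import Fermat.Agent.S18x.PurGlobal

/-!
# S18x / PUR-A: the quotient `R / pR` of the normalisation is free over the PID `B₀ / p`,
and a lifted basis spans `a • R` for some `a ∈ 1 + (p)`.
-/

set_option autoImplicit false
set_option linter.style.haveILetI false

namespace Fermat.Agent.S18x

section Lift

variable {B₀ : Type*} (K L : Type*) {R : Type*}
  [CommRing B₀] [IsDomain B₀] [IsNoetherianRing B₀] [IsIntegrallyClosed B₀]
  [Field K] [Algebra B₀ K] [IsFractionRing B₀ K]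
  [Field L] [Algebra K L] [Algebra B₀ L] [IsScalarTower B₀ K L]
  [FiniteDimensional K L] [Algebra.IsSeparable K L]
  [CommRing R] [Algebra B₀ R] [Algebra R L] [IsScalarTower B₀ R L] [IsIntegralClosure R B₀ L]

omit [IsDomain B₀] [IsNoetherianRing B₀] [IsIntegrallyClosed B₀] in
/-- membership in `p R`. -/
theorem pur_mem_map_span {p : B₀} {x : R} :
    x ∈ Ideal.map (algebraMap B₀ R) (Ideal.span {p}) ↔ ∃ x' : R, x = p • x' := by
  rw [Ideal.map_span, Set.image_singleton, Ideal.mem_span_singleton']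
  constructor
  · rintro ⟨x', rfl⟩
    exact ⟨x', by rw [Algebra.smul_def, mul_comm]⟩
  · rintro ⟨x', rfl⟩
    exact ⟨x', by rw [Algebra.smul_def, mul_comm]⟩

omit [IsDomain B₀] [IsNoetherianRing B₀] [IsIntegrallyClosed B₀] in
/-- scalar multiplication on the quotient. -/
theorem pur_mk_smul_mk {p : B₀} (b : B₀) (x : R) :
    (Ideal.Quotient.mk (Ideal.span {p}) b) •
      (Ideal.Quotient.mk (Ideal.map (algebraMap B₀ R) (Ideal.span {p})) x) =
    Ideal.Quotient.mk (Ideal.map (algebraMap B₀ R) (Ideal.span {p})) (b • x) := by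
  rw [Algebra.smul_def, Ideal.Quotient.algebraMap_quotient_map_quotient, ← map_mul,
    Algebra.smul_def]

include K L in
/-- `R / pR` is a finite free module over `B₀ / p`. -/
theorem pur_quotient_exists_basis {p : B₀} (hp : Prime p)
    [IsPrincipalIdealRing (B₀ ⧸ Ideal.span {p})] :
    haveI : (Ideal.span {p}).IsPrime := (Ideal.span_singleton_prime hp.ne_zero).mpr hp
    ∃ (n : ℕ) (_ : Module.Basis (Fin n) (B₀ ⧸ Ideal.span {p})
      (R ⧸ Ideal.map (algebraMap B₀ R) (Ideal.span {p}))), True := by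
  haveI : (Ideal.span {p}).IsPrime := (Ideal.span_singleton_prime hp.ne_zero).mpr hp
  haveI : Module.Finite B₀ R := IsIntegralClosure.finite B₀ K L R
  haveI : Module.Finite B₀ (R ⧸ Ideal.map (algebraMap B₀ R) (Ideal.span {p})) :=
    Module.Finite.of_surjective
      ((Ideal.Quotient.mkₐ B₀ (Ideal.map (algebraMap B₀ R) (Ideal.span {p}))).toLinearMap)
      (Ideal.Quotient.mkₐ_surjective B₀ _)
  haveI : Module.Finite (B₀ ⧸ Ideal.span {p})
      (R ⧸ Ideal.map (algebraMap B₀ R) (Ideal.span {p})) :=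
    Module.Finite.of_restrictScalars_finite B₀ _ _
  haveI : Module.IsTorsionFree (B₀ ⧸ Ideal.span {p})
      (R ⧸ Ideal.map (algebraMap B₀ R) (Ideal.span {p})) := by
    rw [Module.isTorsionFree_iff_smul_eq_zero]
    intro r m hrm
    obtain ⟨t, rfl⟩ := Ideal.Quotient.mk_surjective r
    obtain ⟨x, rfl⟩ := Ideal.Quotient.mk_surjective m
    rw [pur_mk_smul_mk, Ideal.Quotient.eq_zero_iff_mem, pur_mem_map_span] at hrm
    by_cases hpt : p ∣ t
    · left
      rw [Ideal.Quotient.eq_zero_iff_mem, Ideal.mem_span_singleton]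
      exact hpt
    · right
      obtain ⟨x'', hx''⟩ := pur_integralClosure_quotient_torsionFree K L hp hpt x hrm
      rw [Ideal.Quotient.eq_zero_iff_mem, pur_mem_map_span]
      exact ⟨x'', hx''⟩
  obtain ⟨n, τ⟩ := Module.basisOfFiniteTypeTorsionFree' (R := B₀ ⧸ Ideal.span {p})
    (M := R ⧸ Ideal.map (algebraMap B₀ R) (Ideal.span {p}))
  exact ⟨n, τ, trivial⟩

omit [IsDomain B₀] [IsNoetherianRing B₀] [IsIntegrallyClosed B₀] in
/-- `mk` of a `B₀`-linear combination. -/
theorem pur_mk_sum_smul {p : B₀} {n : ℕ} (g : Fin n → B₀) (t : Fin n → R) :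
    Ideal.Quotient.mk (Ideal.map (algebraMap B₀ R) (Ideal.span {p})) (∑ i, g i • t i) =
      ∑ i, (Ideal.Quotient.mk (Ideal.span {p}) (g i)) •
        (Ideal.Quotient.mk (Ideal.map (algebraMap B₀ R) (Ideal.span {p})) (t i)) := by
  rw [map_sum]
  refine Finset.sum_congr rfl fun i _ => ?_
  rw [pur_mk_smul_mk]

include K L in
/-- **lifted basis package**: a basis `τ` of `R / pR` over `B₀ / p`, lifts `t i` of `τ i`, and a
Nakayama element `a = 1 + p a'` with `a • R ⊆ ∑ B₀ t i`. -/
theorem pur_exists_lifted_basis {p : B₀} (hp : Prime p)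
    [IsPrincipalIdealRing (B₀ ⧸ Ideal.span {p})] :
    ∃ (n : ℕ) (τ : Module.Basis (Fin n) (B₀ ⧸ Ideal.span {p})
      (R ⧸ Ideal.map (algebraMap B₀ R) (Ideal.span {p}))) (t : Fin n → R) (a a' : B₀),
      (∀ i, Ideal.Quotient.mk (Ideal.map (algebraMap B₀ R) (Ideal.span {p})) (t i) = τ i) ∧
      a = 1 + p * a' ∧ ∀ x : R, a • x ∈ Submodule.span B₀ (Set.range t) := by
  obtain ⟨n, τ, -⟩ := pur_quotient_exists_basis K L (R := R) hp
  have hlift : ∀ i, ∃ x : R,
      Ideal.Quotient.mk (Ideal.map (algebraMap B₀ R) (Ideal.span {p})) x = τ i :=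
    fun i => Ideal.Quotient.mk_surjective (τ i)
  choose t ht using hlift
  haveI : Module.Finite B₀ R := IsIntegralClosure.finite B₀ K L R
  have hspan : ∀ x : R, ∃ y ∈ Submodule.span B₀ (Set.range t), ∃ x', x = y + p • x' := by
    intro x
    have hc : ∀ i, ∃ c : B₀, Ideal.Quotient.mk (Ideal.span {p}) c =
        τ.repr (Ideal.Quotient.mk (Ideal.map (algebraMap B₀ R) (Ideal.span {p})) x) i :=
      fun i => Ideal.Quotient.mk_surjective _
    choose c hc using hc
    refine ⟨∑ i, c i • t i, ?_, ?_⟩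
    · exact Submodule.sum_mem _ fun i _ =>
        Submodule.smul_mem _ _ (Submodule.subset_span ⟨i, rfl⟩)
    · have h0 : Ideal.Quotient.mk (Ideal.map (algebraMap B₀ R) (Ideal.span {p}))
          (x - ∑ i, c i • t i) = 0 := by
        rw [map_sub, pur_mk_sum_smul, sub_eq_zero]
        conv_lhs => rw [← τ.sum_repr
          (Ideal.Quotient.mk (Ideal.map (algebraMap B₀ R) (Ideal.span {p})) x)]
        refine Finset.sum_congr rfl fun i _ => ?_
        rw [hc i, ht i]
      rw [Ideal.Quotient.eq_zero_iff_mem, pur_mem_map_span] at h0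
      obtain ⟨x', hx'⟩ := h0
      exact ⟨x', by rw [← hx']; abel⟩
  obtain ⟨a, a', ha, hmem⟩ := pur_exists_nakayama (p := p) t hspan
  exact ⟨n, τ, t, a, a', ht, ha, hmem⟩

omit [IsDomain B₀] [IsNoetherianRing B₀] [IsIntegrallyClosed B₀] in
/-- independence modulo `p` of a lift of a basis of `R / pR`. -/
theorem pur_lift_indep_mod {p : B₀} {n : ℕ}
    (τ : Module.Basis (Fin n) (B₀ ⧸ Ideal.span {p})
      (R ⧸ Ideal.map (algebraMap B₀ R) (Ideal.span {p}))) (t : Fin n → R)
    (ht : ∀ i, Ideal.Quotient.mk (Ideal.map (algebraMap B₀ R) (Ideal.span {p})) (t i) = τ i)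
    (g : Fin n → B₀) (h : ∃ x' : R, ∑ i, g i • t i = p • x') : ∀ i, p ∣ g i := by
  intro i
  have h0 : Ideal.Quotient.mk (Ideal.map (algebraMap B₀ R) (Ideal.span {p}))
      (∑ i, g i • t i) = 0 := by
    rw [Ideal.Quotient.eq_zero_iff_mem, pur_mem_map_span]
    exact h
  rw [pur_mk_sum_smul] at h0
  simp only [ht] at h0
  have h1 := (Fintype.linearIndependent_iff.mp τ.linearIndependent) _ h0 i
  rwa [Ideal.Quotient.eq_zero_iff_mem, Ideal.mem_span_singleton] at h1

end Lift

end Fermat.Agent.S18x
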