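import Mathlib
import Fermat.Agent.S18x.PurTorsion
import Fermat.Agent.S18x.PurGlobal
import Fermat.Agent.S18x.PurLift

/-!
# S18x / PUR-A: the lifted basis is a `K`-basis of `L`; traces reduce modulo `p`.
-/

set_option autoImplicit false
set_option linter.style.haveILetI false
set_option linter.unusedSectionVars false

namespace Fermat.Agent.S18x

open scoped nonZeroDivisors

section Trace

variable {B₀ : Type*} (K L : Type*) {R : Type*}
  [CommRing B₀] [IsDomain B₀] [IsNoetherianRing B₀] [IsIntegrallyClosed B₀]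
  [Field K] [Algebra B₀ K] [IsFractionRing B₀ K]
  [Field L] [Algebra K L] [Algebra B₀ L] [IsScalarTower B₀ K L]
  [FiniteDimensional K L] [Algebra.IsSeparable K L]
  [CommRing R] [Algebra B₀ R] [Algebra R L] [IsScalarTower B₀ R L] [IsIntegralClosure R B₀ L]

include K in
omit [IsDomain B₀] [IsNoetherianRing B₀] [Algebra.IsSeparable K L] [Algebra B₀ R]
  [IsScalarTower B₀ R L] in
/-- traces of elements of `R` lie in `B₀`. -/
theorem pur_exists_trace (x : R) :
    ∃ c : B₀, algebraMap B₀ K c = Algebra.trace K L (algebraMap R L x) := by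
  have h1 : IsIntegral B₀ (algebraMap R L x) :=
    (IsIntegralClosure.isIntegral_iff (A := R)).mpr ⟨x, rfl⟩
  have h2 : IsIntegral B₀ (Algebra.trace K L (algebraMap R L x)) := Algebra.isIntegral_trace h1
  exact IsIntegrallyClosed.isIntegral_iff.mp h2

/-- the lifted family is a `K`-basis of `L`. -/
theorem pur_lift_exists_basisK {p : B₀} (hp : Prime p) {n : ℕ}
    (τ : Module.Basis (Fin n) (B₀ ⧸ Ideal.span {p})
      (R ⧸ Ideal.map (algebraMap B₀ R) (Ideal.span {p}))) (t : Fin n → R)
    (ht : ∀ i, Ideal.Quotient.mk (Ideal.map (algebraMap B₀ R) (Ideal.span {p})) (t i) = τ i)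
    (a a' : B₀) (ha : a = 1 + p * a')
    (hmem : ∀ x : R, a • x ∈ Submodule.span B₀ (Set.range t)) :
    ∃ bK : Module.Basis (Fin n) K L, ∀ i, bK i = algebraMap R L (t i) := by
  have ha0 : a ≠ 0 := by
    rintro rfl
    have : p ∣ 1 := ⟨-a', by linear_combination (-1 : B₀) * ha⟩
    exact hp.not_isUnit (isUnit_of_dvd_one this)
  have hreg : ∀ x : R, p • x = 0 → x = 0 := fun x hx =>
    pur_smul_eq_zero_imp K L hp.ne_zero x hx
  have hli0 : LinearIndependent B₀ t :=
    pur_linearIndependent_of_quotient_dom hp.not_isUnit hreg t (pur_lift_indep_mod τ t ht)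
  have hinj : Function.Injective (algebraMap R L) := IsIntegralClosure.algebraMap_injective R B₀ L
  have hli1 : LinearIndependent B₀ (fun i => algebraMap R L (t i)) := by
    have := hli0.map' ((IsScalarTower.toAlgHom B₀ R L).toLinearMap)
      (LinearMap.ker_eq_bot.mpr hinj)
    exact this
  have hli2 : LinearIndependent K (fun i => algebraMap R L (t i)) :=
    (LinearIndependent.iff_fractionRing B₀ K).mp hli1
  have hspan : ⊤ ≤ Submodule.span K (Set.range fun i => algebraMap R L (t i)) := by
    intro y _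
    obtain ⟨m, hm⟩ := IsIntegral.exists_multiple_integral_of_isLocalization B₀⁰ y
      (Algebra.IsIntegral.isIntegral (R := K) y)
    obtain ⟨x, hx⟩ := (IsIntegralClosure.isIntegral_iff (A := R)).mp hm
    have hm0 : (m : B₀) ≠ 0 := nonZeroDivisors.coe_ne_zero m
    have h1 := hmem x
    -- map the membership to `L`
    have h2 : algebraMap R L (a • x) ∈
        Submodule.span K (Set.range fun i => algebraMap R L (t i)) := by
      have h3 : algebraMap R L (a • x) ∈ Submodule.map
          ((IsScalarTower.toAlgHom B₀ R L).toLinearMap) (Submodule.span B₀ (Set.range t)) :=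
        ⟨a • x, h1, rfl⟩
      rw [Submodule.map_span] at h3
      have h4 : ((IsScalarTower.toAlgHom B₀ R L).toLinearMap) '' Set.range t =
          Set.range fun i => algebraMap R L (t i) := by
        ext z
        simp only [Set.mem_image, Set.mem_range]
        constructor
        · rintro ⟨_, ⟨i, rfl⟩, rfl⟩; exact ⟨i, rfl⟩
        · rintro ⟨i, rfl⟩; exact ⟨t i, ⟨i, rfl⟩, rfl⟩
      rw [h4] at h3
      exact Submodule.span_le_restrictScalars B₀ K _ h3
    have h5 : algebraMap R L (a • x) = (algebraMap B₀ K (a * m)) • y := by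
      rw [Algebra.smul_def, map_mul, ← IsScalarTower.algebraMap_apply, hx, Submonoid.smul_def,
        Algebra.smul_def, Algebra.smul_def, ← IsScalarTower.algebraMap_apply, map_mul, mul_assoc]
    have h6 : algebraMap B₀ K (a * m) ≠ 0 :=
      (map_ne_zero_iff _ (IsFractionRing.injective B₀ K)).mpr (mul_ne_zero ha0 hm0)
    rw [h5] at h2
    have := Submodule.smul_mem _ (algebraMap B₀ K (a * m))⁻¹ h2
    rwa [smul_smul, inv_mul_cancel₀ h6, one_smul] at this
  exact ⟨Module.Basis.mk hli2 hspan, fun i => Module.Basis.mk_apply hli2 hspan i⟩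

omit [IsDomain B₀] [IsNoetherianRing B₀] [IsIntegrallyClosed B₀] in
/-- `mk a = 1` for `a = 1 + p a'`. -/
theorem pur_mk_nakayama {p a a' : B₀} (ha : a = 1 + p * a') :
    Ideal.Quotient.mk (Ideal.span {p}) a = 1 := by
  rw [ha, map_add, map_one, map_mul,
    Ideal.Quotient.eq_zero_iff_mem.mpr (Ideal.subset_span (Set.mem_singleton p)), zero_mul,
    add_zero]

/-- **traces reduce modulo `p`**. -/
theorem pur_trace_mk {p : B₀} {n : ℕ}
    (τ : Module.Basis (Fin n) (B₀ ⧸ Ideal.span {p})
      (R ⧸ Ideal.map (algebraMap B₀ R) (Ideal.span {p}))) (t : Fin n → R)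
    (ht : ∀ i, Ideal.Quotient.mk (Ideal.map (algebraMap B₀ R) (Ideal.span {p})) (t i) = τ i)
    (a a' : B₀) (ha : a = 1 + p * a')
    (hmem : ∀ x : R, a • x ∈ Submodule.span B₀ (Set.range t))
    (bK : Module.Basis (Fin n) K L) (hbK : ∀ i, bK i = algebraMap R L (t i))
    (x : R) (c : B₀) (hc : algebraMap B₀ K c = Algebra.trace K L (algebraMap R L x)) :
    Algebra.trace (B₀ ⧸ Ideal.span {p}) (R ⧸ Ideal.map (algebraMap B₀ R) (Ideal.span {p}))
      (Ideal.Quotient.mk _ x) = Ideal.Quotient.mk (Ideal.span {p}) c := by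
  classical
  -- the coordinate matrix of multiplication by `a • x`
  have hN : ∀ j, ∃ N : Fin n → B₀, ∑ i, N i • t i = a • (x * t j) := fun j =>
    (Submodule.mem_span_range_iff_exists_fun B₀).mp (hmem (x * t j))
  choose N hN using hN
  -- `L`-side
  have hL : ∀ i j, Algebra.leftMulMatrix bK (algebraMap R L (a • x)) i j =
      algebraMap B₀ K (N j i) := by
    intro i j
    rw [Algebra.leftMulMatrix_eq_repr_mul]
    have h1 : algebraMap R L (a • x) * bK j = ∑ i, (algebraMap B₀ K (N j i)) • bK i := by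
      rw [hbK, ← map_mul, smul_mul_assoc, ← hN j, map_sum]
      refine Finset.sum_congr rfl fun i _ => ?_
      rw [hbK, Algebra.smul_def, map_mul, ← IsScalarTower.algebraMap_apply, Algebra.smul_def,
        ← IsScalarTower.algebraMap_apply]
    rw [h1, bK.repr_sum_self]
  have hac : a * c = ∑ i, N i i := by
    apply IsFractionRing.injective B₀ K
    have h2 : Algebra.trace K L (algebraMap R L (a • x)) = ∑ i, algebraMap B₀ K (N i i) := by
      rw [Algebra.trace_eq_matrix_trace bK, Matrix.trace]
      refine Finset.sum_congr rfl fun i _ => ?_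
      rw [Matrix.diag_apply, hL]
    have h3 : algebraMap R L (a • x) = (algebraMap B₀ K a) • algebraMap R L x := by
      rw [Algebra.smul_def, map_mul, ← IsScalarTower.algebraMap_apply, Algebra.smul_def,
        ← IsScalarTower.algebraMap_apply]
    rw [map_mul, map_sum, ← h2, h3, map_smul, smul_eq_mul, hc]
  -- `T`-side
  have hT : ∀ i j, Algebra.leftMulMatrix τ
      (Ideal.Quotient.mk (Ideal.map (algebraMap B₀ R) (Ideal.span {p})) x) i j =
      Ideal.Quotient.mk (Ideal.span {p}) (N j i) := by
    intro i j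
    rw [Algebra.leftMulMatrix_eq_repr_mul]
    have h1 : Ideal.Quotient.mk (Ideal.map (algebraMap B₀ R) (Ideal.span {p})) x * τ j =
        ∑ i, (Ideal.Quotient.mk (Ideal.span {p}) (N j i)) • τ i := by
      have h2 := congrArg (Ideal.Quotient.mk (Ideal.map (algebraMap B₀ R) (Ideal.span {p})))
        (hN j)
      rw [pur_mk_sum_smul, ← pur_mk_smul_mk, pur_mk_nakayama ha, one_smul, map_mul] at h2
      rw [← ht j, ← h2]
      refine Finset.sum_congr rfl fun i _ => ?_
      rw [ht i]
    rw [h1, τ.repr_sum_self]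
  rw [Algebra.trace_eq_matrix_trace τ, Matrix.trace]
  have h4 : ∀ i, (Algebra.leftMulMatrix τ
      (Ideal.Quotient.mk (Ideal.map (algebraMap B₀ R) (Ideal.span {p})) x)).diag i =
      Ideal.Quotient.mk (Ideal.span {p}) (N i i) := fun i => by rw [Matrix.diag_apply, hT]
  rw [Finset.sum_congr rfl fun i _ => h4 i, ← map_sum, ← hac, map_mul, pur_mk_nakayama ha,
    one_mul]

end Trace

end Fermat.Agent.S18x
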