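import Mathlib
import Fermat.Agent.S18x.PurTorsion
import Fermat.Agent.S18x.PurGlobal
import Fermat.Agent.S18x.PurLift
import Fermat.Agent.S18x.PurTrace
import Fermat.Agent.S18x.PurClosed

/-!
# S18x / PUR-A: GLOBAL PURITY (concrete form)

`B₀` a Noetherian integrally closed domain, `p` a prime element with `B₀ / p` a PID,
`K = Frac B₀`, `L / K` finite separable, `R` the integral closure of `B₀` in `L`.

Hypotheses on `K`-discriminants of families of elements of `R` (indexed by any finite type `ι`
with `card ι = [L : K]`):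
* `(V)`: some family has discriminant not divisible by `p`;
* `(H)`: for every prime `q` of `B₀` not containing `p`, some family has discriminant outside `q`.

Conclusions: `R / pR` is a free `B₀ / p`-module with a basis of unit discriminant
(`pur_quotient_exists_basis_isUnit_discr`), and if `pR` is prime then `R / pR` is integrally
closed (`pur_quotient_isIntegrallyClosed`).
-/

set_option autoImplicit false
set_option linter.style.haveILetI false
set_option linter.unusedSectionVars false

namespace Fermat.Agent.S18x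

open scoped nonZeroDivisors
open Matrix

section Main

variable {B₀ : Type*} (K L : Type*) {R : Type*}
  [CommRing B₀] [IsDomain B₀] [IsNoetherianRing B₀] [IsIntegrallyClosed B₀]
  [Field K] [Algebra B₀ K] [IsFractionRing B₀ K]
  [Field L] [Algebra K L] [Algebra B₀ L] [IsScalarTower B₀ K L]
  [FiniteDimensional K L] [Algebra.IsSeparable K L]
  [CommRing R] [Algebra B₀ R] [Algebra R L] [IsScalarTower B₀ R L] [IsIntegralClosure R B₀ L]

/-- comparison of discriminants: if `a • c i ∈ ∑ B₀ t j` for all `i` and `t` is a `K`-basis,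
then `discr(t)` divides `a ^ (2n) * discr(c)` in `B₀`. -/
theorem pur_discr_dvd {n : ℕ} (t : Fin n → R)
    (bK : Module.Basis (Fin n) K L) (hbK : ∀ i, bK i = algebraMap R L (t i))
    (a : B₀) (hmem : ∀ x : R, a • x ∈ Submodule.span B₀ (Set.range t))
    (dt : B₀) (hdt : algebraMap B₀ K dt = Algebra.discr K bK)
    (c : Fin n → R) (dc : B₀)
    (hdc : algebraMap B₀ K dc = Algebra.discr K (fun i => algebraMap R L (c i))) :
    dt ∣ a ^ (2 * n) * dc := by
  classical
  have hN : ∀ i, ∃ N : Fin n → B₀, ∑ j, N j • t j = a • c i := fun i =>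
    (Submodule.mem_span_range_iff_exists_fun B₀).mp (hmem (c i))
  choose N hN using hN
  set P : Matrix (Fin n) (Fin n) B₀ := Matrix.of fun i j => N i j with hP
  -- the family `a • c` in terms of `bK`
  have h1 : (fun i => algebraMap R L (a • c i)) =
      ((P.map (algebraMap B₀ K)).map (algebraMap K L)) *ᵥ (bK : Fin n → L) := by
    funext i
    simp only [Matrix.mulVec, dotProduct, Matrix.map_apply, hP, Matrix.of_apply]
    rw [← hN i, map_sum]
    refine Finset.sum_congr rfl fun j _ => ?_
    rw [hbK, Algebra.smul_def, map_mul, ← IsScalarTower.algebraMap_apply,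
      IsScalarTower.algebraMap_apply B₀ K L]
  -- the family `a • c` in terms of `c`
  have h2 : (fun i => algebraMap R L (a • c i)) =
      (((algebraMap B₀ K a) • (1 : Matrix (Fin n) (Fin n) K)).map (algebraMap K L)) *ᵥ
        (fun i => algebraMap R L (c i)) := by
    funext i
    simp only [Matrix.mulVec, dotProduct, Matrix.map_apply, Matrix.smul_apply, Matrix.one_apply,
      smul_eq_mul]
    rw [Finset.sum_eq_single i]
    · rw [if_pos rfl, mul_one, Algebra.smul_def, map_mul, ← IsScalarTower.algebraMap_apply,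
        IsScalarTower.algebraMap_apply B₀ K L]
    · intro j _ hji
      rw [if_neg (Ne.symm hji), mul_zero, map_zero, zero_mul]
    · intro h; exact absurd (Finset.mem_univ i) h
  have h3 := Algebra.discr_of_matrix_mulVec (A := K) (bK : Fin n → L) (P.map (algebraMap B₀ K))
  have h4 := Algebra.discr_of_matrix_mulVec (A := K) (fun i => algebraMap R L (c i))
    ((algebraMap B₀ K a) • (1 : Matrix (Fin n) (Fin n) K))
  rw [← h1] at h3
  rw [← h2, h3] at h4
  -- now everything in `B₀`
  have h5 : algebraMap B₀ K (P.det ^ 2 * dt) = algebraMap B₀ K (a ^ (2 * n) * dc) := by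
    rw [map_mul, map_mul, map_pow, map_pow, hdt, hdc, RingHom.map_det, RingHom.mapMatrix_apply,
      h4, Matrix.det_smul, Matrix.det_one, mul_one, Fintype.card_fin, ← pow_mul, mul_comm n 2]
  have h6 := IsFractionRing.injective B₀ K h5
  exact ⟨P.det ^ 2, by rw [← h6]; ring⟩

/-- **Krull step**: under `(V)` and `(H)` the discriminant of the lifted basis avoids every prime
containing `p`. -/
theorem pur_discr_notMem {p : B₀} (hp : Prime p) {n : ℕ} (t : Fin n → R)
    (bK : Module.Basis (Fin n) K L) (hbK : ∀ i, bK i = algebraMap R L (t i))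
    (a a' : B₀) (ha : a = 1 + p * a')
    (hmem : ∀ x : R, a • x ∈ Submodule.span B₀ (Set.range t))
    (dt : B₀) (hdt : algebraMap B₀ K dt = Algebra.discr K bK)
    (hV : ∃ c : Fin n → R, ∃ d : B₀,
      algebraMap B₀ K d = Algebra.discr K (fun i => algebraMap R L (c i)) ∧ ¬ p ∣ d)
    (hH : ∀ q : Ideal B₀, q.IsPrime → p ∉ q → ∃ c : Fin n → R, ∃ d : B₀,
      algebraMap B₀ K d = Algebra.discr K (fun i => algebraMap R L (c i)) ∧ d ∉ q)
    (m : Ideal B₀) (hm : m.IsPrime) (hpm : p ∈ m) : dt ∉ m := by
  intro hdm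
  have hp1 : ¬ p ∣ 1 := fun h => hp.not_isUnit (isUnit_of_dvd_one h)
  have hpa : ¬ p ∣ a := by
    intro h
    apply hp1
    have : (1 : B₀) = a - p * a' := by rw [ha]; ring
    rw [this]
    exact dvd_sub h (dvd_mul_right p a')
  have hle : Ideal.span {dt} ≤ m := (Ideal.span_singleton_le_iff_mem m).mpr hdm
  obtain ⟨q, hq, hqm⟩ := Ideal.exists_minimalPrimes_le hle
  have hqprime : q.IsPrime := hq.1.1
  have hdq : dt ∈ q := hq.1.2 (Ideal.subset_span rfl)
  by_cases hpq : p ∈ q
  · -- `q = (p)` by Krull
    have hle' : Ideal.span {p} ≤ q := (Ideal.span_singleton_le_iff_mem q).mpr hpq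
    have hpprime : (Ideal.span {p}).IsPrime :=
      (Ideal.span_singleton_prime hp.ne_zero).mpr hp
    have hheight : q.height ≤ 1 :=
      Ideal.height_le_one_of_isPrincipal_of_mem_minimalPrimes (Ideal.span {dt}) q hq
    have heq : Ideal.span {p} = q := by
      by_contra hneq
      have hlt : Ideal.span {p} < q := lt_of_le_of_ne hle' hneq
      have h1 := Ideal.height_add_one_le_of_lt_of_isPrime hlt
      have h2 : (Ideal.span {p}).height + 1 ≤ 1 := h1.trans hheight
      have h3 : (Ideal.span {p}).height = 0 := by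
        have := (ENat.add_one_le_iff (by
          intro htop; rw [htop] at h2; simp at h2)).mp h2
        simpa using this
      rw [Ideal.height_eq_zero_iff_eq_bot, Ideal.span_singleton_eq_bot] at h3
      exact hp.ne_zero h3
    have hpdt : p ∣ dt := by
      rw [← heq, Ideal.mem_span_singleton] at hdq
      exact hdq
    obtain ⟨c, d, hd, hpd⟩ := hV
    have h4 := pur_discr_dvd K L t bK hbK a hmem dt hdt c d hd
    have h5 : p ∣ a ^ (2 * n) * d := hpdt.trans h4
    rcases hp.dvd_or_dvd h5 with h6 | h6
    · exact hpa (hp.dvd_of_dvd_pow h6)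
    · exact hpd h6
  · obtain ⟨c, d, hd, hdq'⟩ := hH q hqprime hpq
    have h4 := pur_discr_dvd K L t bK hbK a hmem dt hdt c d hd
    have h5 : a ^ (2 * n) * d ∈ q := q.mem_of_dvd h4 hdq
    rcases hqprime.mem_or_mem h5 with h6 | h6
    · have h7 : a ∈ m := hqm (hqprime.mem_of_pow_mem _ h6)
      have h8 : (1 : B₀) ∈ m := by
        have : (1 : B₀) = a - p * a' := by rw [ha]; ring
        rw [this]
        exact m.sub_mem h7 (m.mul_mem_right a' hpm)
      exact hm.ne_top ((Ideal.eq_top_iff_one m).mpr h8)
    · exact hdq' h6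

/-- **GLOBAL PURITY, étale form**: `R / pR` has a basis over `B₀ / p` with unit discriminant. -/
theorem pur_quotient_exists_basis_isUnit_discr {p : B₀} (hp : Prime p)
    [IsPrincipalIdealRing (B₀ ⧸ Ideal.span {p})]
    (hV : ∃ c : Fin (Module.finrank K L) → R, ∃ d : B₀,
      algebraMap B₀ K d = Algebra.discr K (fun i => algebraMap R L (c i)) ∧ ¬ p ∣ d)
    (hH : ∀ q : Ideal B₀, q.IsPrime → p ∉ q → ∃ c : Fin (Module.finrank K L) → R, ∃ d : B₀,
      algebraMap B₀ K d = Algebra.discr K (fun i => algebraMap R L (c i)) ∧ d ∉ q) :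
    ∃ τ : Module.Basis (Fin (Module.finrank K L)) (B₀ ⧸ Ideal.span {p})
      (R ⧸ Ideal.map (algebraMap B₀ R) (Ideal.span {p})),
      IsUnit (Algebra.discr (B₀ ⧸ Ideal.span {p}) τ) := by
  classical
  obtain ⟨n, τ, t, a, a', ht, ha, hmem⟩ := pur_exists_lifted_basis K L (R := R) hp
  obtain ⟨bK, hbK⟩ := pur_lift_exists_basisK K L hp τ t ht a a' ha hmem
  have hn : Module.finrank K L = n := by
    rw [Module.finrank_eq_card_basis bK, Fintype.card_fin]
  subst hn
  -- the Gram matrix over `B₀`
  have hg : ∀ i j, ∃ g : B₀,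
      algebraMap B₀ K g = Algebra.trace K L (algebraMap R L (t i * t j)) :=
    fun i j => pur_exists_trace K L (t i * t j)
  choose g hg using hg
  set G : Matrix (Fin (Module.finrank K L)) (Fin (Module.finrank K L)) B₀ :=
    Matrix.of fun i j => g i j with hG
  have hdt : algebraMap B₀ K G.det = Algebra.discr K bK := by
    rw [Algebra.discr_def, RingHom.map_det]
    congr 1
    ext i j
    rw [RingHom.mapMatrix_apply, Matrix.map_apply, hG, Matrix.of_apply, hg,
      Algebra.traceMatrix_apply, Algebra.traceForm_apply, hbK, hbK, map_mul]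
  have hnotMem := pur_discr_notMem K L hp t bK hbK a a' ha hmem G.det hdt hV hH
  refine ⟨τ, ?_⟩
  -- the discriminant of `τ` is the reduction of `det G`
  have hdisc : Algebra.discr (B₀ ⧸ Ideal.span {p}) τ =
      Ideal.Quotient.mk (Ideal.span {p}) G.det := by
    rw [Algebra.discr_def, RingHom.map_det]
    congr 1
    ext i j
    rw [RingHom.mapMatrix_apply, Matrix.map_apply, hG, Matrix.of_apply,
      Algebra.traceMatrix_apply, Algebra.traceForm_apply, ← ht i, ← ht j, ← map_mul]
    exact pur_trace_mk K L τ t ht a a' ha hmem bK hbK (t i * t j) (g i j) (hg i j)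
  rw [hdisc]
  by_contra hunit
  obtain ⟨Mx, hMx, hmemM⟩ := exists_max_ideal_of_mem_nonunits hunit
  have hprime : (Ideal.comap (Ideal.Quotient.mk (Ideal.span {p})) Mx).IsPrime :=
    Ideal.comap_isPrime _ _
  refine hnotMem _ hprime ?_ ?_
  · rw [Ideal.mem_comap,
      Ideal.Quotient.eq_zero_iff_mem.mpr (Ideal.subset_span (Set.mem_singleton p))]
    exact Mx.zero_mem
  · rw [Ideal.mem_comap]
    exact hmemM

/-- **GLOBAL PURITY, normal form**: if moreover `pR` is a prime ideal, `R / pR` is integrally
closed. -/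
theorem pur_quotient_isIntegrallyClosed {p : B₀} (hp : Prime p)
    [IsPrincipalIdealRing (B₀ ⧸ Ideal.span {p})]
    (hV : ∃ c : Fin (Module.finrank K L) → R, ∃ d : B₀,
      algebraMap B₀ K d = Algebra.discr K (fun i => algebraMap R L (c i)) ∧ ¬ p ∣ d)
    (hH : ∀ q : Ideal B₀, q.IsPrime → p ∉ q → ∃ c : Fin (Module.finrank K L) → R, ∃ d : B₀,
      algebraMap B₀ K d = Algebra.discr K (fun i => algebraMap R L (c i)) ∧ d ∉ q)
    (hprime : (Ideal.map (algebraMap B₀ R) (Ideal.span {p})).IsPrime) :
    IsIntegrallyClosed (R ⧸ Ideal.map (algebraMap B₀ R) (Ideal.span {p})) := by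
  haveI : (Ideal.span {p}).IsPrime := (Ideal.span_singleton_prime hp.ne_zero).mpr hp
  obtain ⟨τ, hτ⟩ := pur_quotient_exists_basis_isUnit_discr K L (R := R) hp hV hH
  exact pur_isIntegrallyClosed_of_isUnit_discr τ hτ

end Main

end Fermat.Agent.S18x
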