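import Mathlib
import Fermat.Agent.S18x.PurMain

/-!
# S18x / PUR: elementwise form of global purity (the shape consumed by NRM_Y)

Setting of `PurMain`.  Let `M` be a field and `ρ : R →+* M` a ring hom with kernel `pR`
such that `M` is generated (as a field) by `ρ(R)`.  Under `(V)` and `(H)`, every element of `M`
which is integral over `ρ(B₀)` lies in `ρ(R)`:  **the reduction of the normalisation is the
normalisation of the reduction**.
-/

set_option autoImplicit false
set_option linter.style.haveILetI false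
set_option linter.unusedSectionVars false

namespace Fermat.Agent.S18x

open Polynomial

section Onto

variable {B₀ : Type*} (K L : Type*) {R : Type*}
  [CommRing B₀] [IsDomain B₀] [IsNoetherianRing B₀] [IsIntegrallyClosed B₀]
  [Field K] [Algebra B₀ K] [IsFractionRing B₀ K]
  [Field L] [Algebra K L] [Algebra B₀ L] [IsScalarTower B₀ K L]
  [FiniteDimensional K L] [Algebra.IsSeparable K L]
  [CommRing R] [Algebra B₀ R] [Algebra R L] [IsScalarTower B₀ R L] [IsIntegralClosure R B₀ L]

/-- **NRM, elementwise form.** -/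
theorem pur_exists_lift_of_isIntegral {p : B₀} (hp : Prime p)
    [IsPrincipalIdealRing (B₀ ⧸ Ideal.span {p})]
    (hV : ∃ c : Fin (Module.finrank K L) → R, ∃ d : B₀,
      algebraMap B₀ K d = Algebra.discr K (fun i => algebraMap R L (c i)) ∧ ¬ p ∣ d)
    (hH : ∀ q : Ideal B₀, q.IsPrime → p ∉ q → ∃ c : Fin (Module.finrank K L) → R, ∃ d : B₀,
      algebraMap B₀ K d = Algebra.discr K (fun i => algebraMap R L (c i)) ∧ d ∉ q)
    {M : Type*} [Field M] (ρ : R →+* M)
    (hker : ∀ x : R, ρ x = 0 ↔ ∃ x' : R, x = p • x')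
    (hfrac : ∀ z : M, ∃ x y : R, ρ y ≠ 0 ∧ z * ρ y = ρ x)
    (z : M) (f : B₀[X]) (hf : f.Monic)
    (hz : Polynomial.eval₂ (ρ.comp (algebraMap B₀ R)) z f = 0) :
    ∃ x : R, ρ x = z := by
  set P : Ideal R := Ideal.map (algebraMap B₀ R) (Ideal.span {p}) with hP
  have hkerP : RingHom.ker ρ = P := by
    ext x
    rw [RingHom.mem_ker, hker, hP, pur_mem_map_span]
  have hprime : P.IsPrime := by
    rw [← hkerP]
    exact RingHom.ker_isPrime ρ
  haveI := hprime
  haveI : IsIntegrallyClosed (R ⧸ P) :=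
    pur_quotient_isIntegrallyClosed K L hp hV hH hprime
  -- the induced injection `R / P → M`
  let ρb : R ⧸ P →+* M := Ideal.Quotient.lift P ρ (fun x hx => by
    rw [← hkerP] at hx; exact hx)
  have hρb : ∀ x, ρb (Ideal.Quotient.mk P x) = ρ x := fun x => Ideal.Quotient.lift_mk P ρ _
  have hinj : Function.Injective ρb := by
    rw [injective_iff_map_eq_zero]
    intro t ht
    obtain ⟨x, rfl⟩ := Ideal.Quotient.mk_surjective t
    rw [hρb] at ht
    rw [Ideal.Quotient.eq_zero_iff_mem, ← hkerP]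
    exact ht
  -- fraction field of `R / P` maps to `M`
  let FT := FractionRing (R ⧸ P)
  let ι : FT →+* M := IsFractionRing.lift hinj
  have hι : ∀ t : R ⧸ P, ι (algebraMap (R ⧸ P) FT t) = ρb t := fun t =>
    IsFractionRing.lift_algebraMap hinj t
  obtain ⟨x, y, hy, hxy⟩ := hfrac z
  have hy' : algebraMap (R ⧸ P) FT (Ideal.Quotient.mk P y) ≠ 0 := by
    intro h0
    apply hy
    rw [← hρb, ← hι, h0, map_zero]
  set z' : FT := algebraMap (R ⧸ P) FT (Ideal.Quotient.mk P x) /
    algebraMap (R ⧸ P) FT (Ideal.Quotient.mk P y) with hz'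
  have hιz' : ι z' = z := by
    rw [hz', map_div₀, hι, hι, hρb, hρb, ← hxy, mul_div_assoc, div_self hy, mul_one]
  -- `z'` is integral over `R / P`
  have hint : IsIntegral (R ⧸ P) z' := by
    refine ⟨f.map ((Ideal.Quotient.mk P).comp (algebraMap B₀ R)), hf.map _, ?_⟩
    apply ι.injective
    rw [map_zero, Polynomial.hom_eval₂, Polynomial.eval₂_map, hιz']
    have : (ι.comp (algebraMap (R ⧸ P) FT)).comp ((Ideal.Quotient.mk P).comp (algebraMap B₀ R)) =
        ρ.comp (algebraMap B₀ R) := by
      ext b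
      simp only [RingHom.comp_apply, hι, hρb]
    rw [this]
    exact hz
  obtain ⟨t, ht⟩ := IsIntegrallyClosed.isIntegral_iff.mp hint
  obtain ⟨x₀, rfl⟩ := Ideal.Quotient.mk_surjective t
  exact ⟨x₀, by rw [← hιz', ← ht, hι, hρb]⟩

end Onto

end Fermat.Agent.S18x
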