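/-
S18 project (own-risk scouting), PUR package (purity route for the supersingular places, ℓ = 2, 3).
helper28, prefix `purb_`.

`R⟦X⟧` is `(X)`-adically complete for every commutative ring `R`; hence Henselian at `(X)`
(Mathlib: `IsAdicComplete.henselianRing`).  Used to define the auxiliary coordinate of the
`λ`-line (`ℓ = 3`) resp. the Hesse line (`ℓ = 2`) by Hensel's lemma, so that the classical
modular identity holds by construction.
-/
import Mathlib

set_option autoImplicit false

namespace Fermat.Agent.S18x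

open PowerSeries

variable {R : Type*} [CommRing R]

theorem purb_span_X_pow_smul_top (n : ℕ) :
    ((Ideal.span {(X : R⟦X⟧)}) ^ n • (⊤ : Submodule R⟦X⟧ R⟦X⟧) : Submodule R⟦X⟧ R⟦X⟧)
      = Ideal.span {(X : R⟦X⟧) ^ n} := by
  rw [Ideal.span_singleton_pow, smul_eq_mul, Ideal.mul_top]

theorem purb_smodEq_iff (n : ℕ) (f g : R⟦X⟧) :
    f ≡ g [SMOD ((Ideal.span {(X : R⟦X⟧)}) ^ n • (⊤ : Submodule R⟦X⟧ R⟦X⟧))] ↔
      ∀ k < n, coeff k f = coeff k g := by
  rw [purb_span_X_pow_smul_top, SModEq.sub_mem, Ideal.mem_span_singleton, X_pow_dvd_iff]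
  constructor
  · intro h k hk
    have := h k hk
    rwa [map_sub, sub_eq_zero] at this
  · intro h k hk
    rw [map_sub, h k hk, sub_self]

instance purb_isHausdorff : IsHausdorff (Ideal.span {(X : R⟦X⟧)}) R⟦X⟧ where
  haus' f hf := by
    ext k
    have := (purb_smodEq_iff (k + 1) f 0).1 (hf (k + 1)) k (Nat.lt_succ_self k)
    simpa using this

instance purb_isPrecomplete : IsPrecomplete (Ideal.span {(X : R⟦X⟧)}) R⟦X⟧ where
  prec' f hf := by
    refine ⟨PowerSeries.mk fun k => coeff k (f (k + 1)), fun n => ?_⟩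
    rw [purb_smodEq_iff]
    intro k hk
    rw [coeff_mk]
    exact (purb_smodEq_iff (k + 1) _ _).1 (hf (Nat.succ_le_of_lt hk)) k (Nat.lt_succ_self k) |>.symm

instance purb_isAdicComplete : IsAdicComplete (Ideal.span {(X : R⟦X⟧)}) R⟦X⟧ where

/-- `R⟦X⟧` is Henselian at `(X)`. -/
theorem purb_henselian : HenselianRing R⟦X⟧ (Ideal.span {(X : R⟦X⟧)}) := inferInstance

/-- Hensel's lemma in `R⟦X⟧` in the form we use: a monic polynomial over `R⟦X⟧` whose constant-coefficient
reduction has a simple root `a₀ : R` has a root in `R⟦X⟧` with constant coefficient `a₀`. -/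
theorem purb_hensel (f : Polynomial R⟦X⟧) (hf : f.Monic) (a₀ : R)
    (h0 : constantCoeff (f.eval (C a₀)) = 0)
    (h1 : IsUnit (constantCoeff (f.derivative.eval (C a₀)))) :
    ∃ a : R⟦X⟧, f.IsRoot a ∧ constantCoeff a = a₀ := by
  haveI := purb_henselian (R := R)
  have hmem : ∀ g : R⟦X⟧, g ∈ Ideal.span {(X : R⟦X⟧)} ↔ constantCoeff g = 0 := by
    intro g
    rw [Ideal.mem_span_singleton, X_dvd_iff]
  obtain ⟨a, ha, haa⟩ := HenselianRing.is_henselian (I := Ideal.span {(X : R⟦X⟧)}) f hf (C a₀)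
    ((hmem _).2 h0) (by
      have hu : IsUnit (f.derivative.eval (C a₀)) := by
        rw [isUnit_iff_constantCoeff]; exact h1
      exact hu.map _)
  refine ⟨a, ha, ?_⟩
  have := (hmem _).1 haa
  rw [map_sub, constantCoeff_C, sub_eq_zero] at this
  exact this

end Fermat.Agent.S18x
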