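/-
S18 project (own-risk scouting), PUR package, helper28, prefix `purb_`.

The auxiliary coordinate of the `λ`-line for `ℓ = 3`, defined by Hensel's lemma so that the
classical identity `j = 256 (λ²-λ+1)³ / (λ²(λ-1)²)` holds BY CONSTRUCTION (idea: helper39).
With `X = 16 λ - 8` the identity reads `(X² + 192)³ = j · (X² - 64)²`; we use it for `j(q²)`:
`X = v / q` with `v ∈ 1 + q R⟦q⟧` the Hensel root of the monic sextic
`(v² + 192 q²)³ - J₂ (v² - 64 q²)²`, `J₂ = q² j(q²) ∈ 1 + q R⟦q⟧`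
(reduction mod `q`: `v⁴ (v² - 1)`, simple root `v = 1` as soon as `2` is a unit of `R`).
-/
import Mathlib
import Fermat.Prelude.Def_ModularCurve_X0ModL
import Fermat.Agent.S18x.PurAdic
import Fermat.Agent.S28x.PrimeCase

set_option autoImplicit false

noncomputable section

namespace Fermat.Agent.S18x

open ModularCurve

section Sextic

open Polynomial

variable {S : Type*} [CommRing S]

/-- the sextic `(T² + a)³ - J (T² - b)²`. -/
def purb_sextic (a b J : S) : S[X] := (X ^ 2 + C a) ^ 3 - C J * (X ^ 2 - C b) ^ 2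

theorem purb_sextic_monic [Nontrivial S] (a b J : S) : (purb_sextic a b J).Monic := by
  unfold purb_sextic
  have h1 : (X ^ 2 + C a : S[X]).Monic := monic_X_pow_add_C a (by norm_num)
  have h2 : ((X ^ 2 + C a : S[X]) ^ 3).Monic := h1.pow 3
  have hd1 : ((X ^ 2 + C a : S[X]) ^ 3).natDegree = 6 := by
    rw [h1.natDegree_pow, natDegree_X_pow_add_C]
  refine h2.sub_of_left ?_
  have hd2 : (C J * (X ^ 2 - C b) ^ 2 : S[X]).natDegree ≤ 4 := by
    refine (natDegree_C_mul_le _ _).trans ?_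
    refine natDegree_pow_le.trans ?_
    have : (X ^ 2 - C b : S[X]).natDegree ≤ 2 := by
      refine (natDegree_sub_le _ _).trans ?_
      simp
    omega
  rw [degree_eq_natDegree h2.ne_zero, hd1]
  exact lt_of_le_of_lt degree_le_natDegree (by exact_mod_cast Nat.lt_of_le_of_lt hd2 (by norm_num))

theorem purb_sextic_eval (a b J t : S) :
    (purb_sextic a b J).eval t = (t ^ 2 + a) ^ 3 - J * (t ^ 2 - b) ^ 2 := by
  simp [purb_sextic]

theorem purb_sextic_deriv_eval (a b J t : S) :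
    (purb_sextic a b J).derivative.eval t
      = 6 * t * (t ^ 2 + a) ^ 2 - 4 * t * J * (t ^ 2 - b) := by
  simp [purb_sextic, derivative_pow]
  ring

end Sextic

section Coordinate

variable (R : Type*) [CommRing R]

/-- `q·j(q)` over `R`. -/
def purb_J : PowerSeries R := jNum.map (Int.castRingHom R)

/-- `q²·j(q²)` over `R`. -/
def purb_J2 : PowerSeries R := PowerSeries.expand 2 two_ne_zero (purb_J R)

theorem purb_constantCoeff_J : PowerSeries.constantCoeff (purb_J R) = 1 := by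
  rw [purb_J, ← PowerSeries.coeff_zero_eq_constantCoeff, PowerSeries.coeff_map,
    PowerSeries.coeff_zero_eq_constantCoeff, constantCoeff_jNum]
  simp

theorem purb_constantCoeff_J2 : PowerSeries.constantCoeff (purb_J2 R) = 1 := by
  rw [purb_J2, PowerSeries.constantCoeff_expand, purb_constantCoeff_J]

/-- the Hensel sextic over `R⟦q⟧`. -/
def purb_f3 : Polynomial (PowerSeries R) :=
  purb_sextic ((192 : PowerSeries R) * PowerSeries.X ^ 2) ((64 : PowerSeries R) * PowerSeries.X ^ 2)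
    (purb_J2 R)

variable {R}

theorem purb_exists_v3 [Nontrivial R] (h2 : IsUnit (2 : R)) :
    ∃ v : PowerSeries R, (purb_f3 R).IsRoot v ∧ PowerSeries.constantCoeff v = 1 := by
  have hX : PowerSeries.constantCoeff (PowerSeries.X : PowerSeries R) = 0 :=
    PowerSeries.constantCoeff_X
  refine purb_hensel (purb_f3 R) (purb_sextic_monic _ _ _) 1 ?_ ?_
  · rw [purb_f3, purb_sextic_eval]
    simp only [map_sub, map_mul, map_pow, map_add, purb_constantCoeff_J2, hX, map_one]
    ring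
  · rw [purb_f3, purb_sextic_deriv_eval]
    simp only [map_sub, map_mul, map_pow, map_add, purb_constantCoeff_J2, hX, map_one]
    have h6 : PowerSeries.constantCoeff (6 : PowerSeries R) = 6 := map_ofNat _ 6
    have h4 : PowerSeries.constantCoeff (4 : PowerSeries R) = 4 := map_ofNat _ 4
    rw [h6, h4]
    have : (6 : R) * 1 * (1 ^ 2 + PowerSeries.constantCoeff (192 : PowerSeries R) * 0 ^ 2) ^ 2
        - 4 * 1 * 1 * (1 ^ 2 - PowerSeries.constantCoeff (64 : PowerSeries R) * 0 ^ 2) = 2 := by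
      ring
    rw [this]
    exact h2

/-- the Hensel root `v ∈ 1 + q R⟦q⟧`. -/
def purb_v3 [Nontrivial R] (h2 : IsUnit (2 : R)) : PowerSeries R := (purb_exists_v3 h2).choose

theorem purb_v3_isRoot [Nontrivial R] (h2 : IsUnit (2 : R)) : (purb_f3 R).IsRoot (purb_v3 h2) :=
  (purb_exists_v3 h2).choose_spec.1

theorem purb_constantCoeff_v3 [Nontrivial R] (h2 : IsUnit (2 : R)) :
    PowerSeries.constantCoeff (purb_v3 h2) = 1 :=
  (purb_exists_v3 h2).choose_spec.2

/-- the power series identity `(v² + 192 q²)³ = J₂ (v² - 64 q²)²`. -/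
theorem purb_v3_identity [Nontrivial R] (h2 : IsUnit (2 : R)) :
    ((purb_v3 h2) ^ 2 + 192 * PowerSeries.X ^ 2) ^ 3
      = purb_J2 R * ((purb_v3 h2) ^ 2 - 64 * PowerSeries.X ^ 2) ^ 2 := by
  have h := purb_v3_isRoot h2
  rw [Polynomial.IsRoot, purb_f3, purb_sextic_eval, sub_eq_zero] at h
  exact h

/-- **the coordinate** `X₃ = v / q = 16 λ(2τ)⁻¹-type Hauptmodul` of the `λ`-line, as a Laurent series. -/
def purb_X3 [Nontrivial R] (h2 : IsUnit (2 : R)) : LaurentSeries R :=
  HahnSeries.single (-1 : ℤ) 1 * HahnSeries.ofPowerSeries ℤ R (purb_v3 h2)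

/-- `j(q²)` over `R` is `q⁻² J₂`. -/
theorem purb_jq2_eq : qExpand R 2 (jqModC R)
    = HahnSeries.single (-2 : ℤ) 1 * HahnSeries.ofPowerSeries ℤ R (purb_J2 R) := by
  rw [jqModC, map_mul, qExpand_single, Fermat.Agent.S28x.pc_qExpand_ofPowerSeries]
  rfl

/-- **the defining identity**: `(X₃² + 192)³ = j(q²) (X₃² - 64)²`. -/
theorem purb_X3_identity [Nontrivial R] (h2 : IsUnit (2 : R)) :
    ((purb_X3 h2) ^ 2 + 192) ^ 3 = qExpand R 2 (jqModC R) * ((purb_X3 h2) ^ 2 - 64) ^ 2 := by
  have h := congrArg (HahnSeries.ofPowerSeries ℤ R) (purb_v3_identity h2)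
  simp only [map_pow, map_add, map_mul, map_sub, map_ofNat] at h
  have hX : HahnSeries.ofPowerSeries ℤ R (PowerSeries.X : PowerSeries R)
      = HahnSeries.single (1 : ℤ) 1 := by
    simp [HahnSeries.ofPowerSeries_X]
  rw [hX] at h
  have hs : HahnSeries.single (-1 : ℤ) (1 : R) * HahnSeries.single (1 : ℤ) 1 = 1 := by
    rw [HahnSeries.single_mul_single]; simp
  have hs2 : HahnSeries.single (-2 : ℤ) (1 : R) = HahnSeries.single (-1 : ℤ) 1 ^ 2 := by
    rw [HahnSeries.single_pow]; simp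
  set s : LaurentSeries R := HahnSeries.single (-1 : ℤ) 1 with hs_def
  set t : LaurentSeries R := HahnSeries.single (1 : ℤ) 1 with ht_def
  set V : LaurentSeries R := HahnSeries.ofPowerSeries ℤ R (purb_v3 h2) with hV
  set J : LaurentSeries R := HahnSeries.ofPowerSeries ℤ R (purb_J2 R) with hJ
  rw [purb_jq2_eq, purb_X3, hs2]
  have e1 : (s * V) ^ 2 + 192 = s ^ 2 * (V ^ 2 + 192 * t ^ 2) := by
    have : s ^ 2 * t ^ 2 = 1 := by rw [← mul_pow, hs, one_pow]
    calc (s * V) ^ 2 + 192 = s ^ 2 * V ^ 2 + 192 * (s ^ 2 * t ^ 2) := by rw [this]; ring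
      _ = _ := by ring
  have e2 : (s * V) ^ 2 - 64 = s ^ 2 * (V ^ 2 - 64 * t ^ 2) := by
    have : s ^ 2 * t ^ 2 = 1 := by rw [← mul_pow, hs, one_pow]
    calc (s * V) ^ 2 - 64 = s ^ 2 * V ^ 2 - 64 * (s ^ 2 * t ^ 2) := by rw [this]; ring
      _ = _ := by ring
  rw [e1, e2, mul_pow, h]
  ring

end Coordinate

end Fermat.Agent.S18x
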