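/-
S18 project, PUR package, helper28, prefix `purb_`.

Uniqueness of Hensel roots in `R⟦X⟧` and functoriality of the `ℓ = 3` coordinate `purb_X3`
under ring homomorphisms: `coeffMap φ (X₃ over R) = X₃ over R'`.
-/
import Mathlib
import Fermat.Agent.S18x.PurCoord

set_option autoImplicit false

noncomputable section

namespace Fermat.Agent.S18x

open ModularCurve

section Unique

variable {R : Type*} [CommRing R]

/-- Uniqueness of Hensel roots in `R⟦X⟧`: two roots with the same constant coefficient coincide as
soon as the derivative at one of them has invertible constant coefficient. -/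
theorem purb_hensel_unique (f : Polynomial (PowerSeries R)) (v w : PowerSeries R)
    (hv : f.IsRoot v) (hw : f.IsRoot w)
    (hc : PowerSeries.constantCoeff v = PowerSeries.constantCoeff w)
    (hu : IsUnit (PowerSeries.constantCoeff (f.derivative.eval v))) : v = w := by
  obtain ⟨k, hk⟩ := f.binomExpansion v (w - v)
  rw [add_sub_cancel, hw.eq_zero, hv.eq_zero, zero_add] at hk
  have hd : PowerSeries.constantCoeff (w - v) = 0 := by rw [map_sub, hc, sub_self]
  have hunit : IsUnit (f.derivative.eval v + k * (w - v)) := by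
    rw [PowerSeries.isUnit_iff_constantCoeff, map_add, map_mul, hd, mul_zero, add_zero]
    exact hu
  have h0 : (f.derivative.eval v + k * (w - v)) * (w - v) = 0 := by
    rw [hk]; ring
  have := (hunit.mul_right_eq_zero).1 h0
  exact (sub_eq_zero.1 this).symm

end Unique

section Functorial

variable {R R' : Type*} [CommRing R] [CommRing R'] (φ : R →+* R')

theorem purb_J_map : (purb_J R).map φ = purb_J R' := by
  rw [purb_J, purb_J, ← RingHom.comp_apply (PowerSeries.map φ), ← PowerSeries.map_comp,
    RingHom.ext_int (φ.comp (Int.castRingHom R)) (Int.castRingHom R')]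

theorem purb_J2_map : (purb_J2 R).map φ = purb_J2 R' := by
  rw [purb_J2, PowerSeries.map_expand, purb_J_map, purb_J2]

theorem purb_f3_map : (purb_f3 R).map (PowerSeries.map φ) = purb_f3 R' := by
  simp only [purb_f3, purb_sextic, Polynomial.map_sub, Polynomial.map_mul, Polynomial.map_pow,
    Polynomial.map_add, Polynomial.map_X, Polynomial.map_C, map_mul, map_pow, PowerSeries.map_X,
    map_ofNat, purb_J2_map, Polynomial.map_ofNat]

theorem purb_v3_map [Nontrivial R] [Nontrivial R'] (h2 : IsUnit (2 : R)) (h2' : IsUnit (2 : R')) :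
    (purb_v3 h2).map φ = purb_v3 h2' := by
  have hroot : (purb_f3 R').IsRoot ((purb_v3 h2).map φ) := by
    rw [← purb_f3_map φ, Polynomial.IsRoot, Polynomial.eval_map, Polynomial.eval₂_hom,
      (purb_v3_isRoot h2).eq_zero, map_zero]
  have hcc : PowerSeries.constantCoeff ((purb_v3 h2).map φ) = 1 := by
    rw [← PowerSeries.coeff_zero_eq_constantCoeff, PowerSeries.coeff_map,
      PowerSeries.coeff_zero_eq_constantCoeff, purb_constantCoeff_v3, map_one]
  refine (purb_hensel_unique (purb_f3 R') (purb_v3 h2') _ (purb_v3_isRoot h2') hroot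
    (by rw [purb_constantCoeff_v3, hcc]) ?_).symm
  rw [purb_f3, purb_sextic_deriv_eval]
  simp only [map_sub, map_mul, map_pow, map_add, purb_constantCoeff_J2, purb_constantCoeff_v3,
    PowerSeries.constantCoeff_X, map_ofNat]
  have : (6 : R') * 1 * (1 ^ 2 + 192 * 0 ^ 2) ^ 2 - 4 * 1 * 1 * (1 ^ 2 - 64 * 0 ^ 2) = 2 := by ring
  rw [this]
  exact h2'

/-- **functoriality of the coordinate**: `coeffMap φ X₃ = X₃`. -/
theorem purb_X3_map [Nontrivial R] [Nontrivial R'] (h2 : IsUnit (2 : R)) (h2' : IsUnit (2 : R')) :
    coeffMap φ (purb_X3 h2) = purb_X3 h2' := by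
  rw [purb_X3, map_mul, coeffMap_single, map_one, coeffMap_ofPowerSeries, purb_v3_map φ h2 h2',
    purb_X3]

end Functorial

end Fermat.Agent.S18x
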