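/-
S18 project, block NRM row N1 (helper28, prefix `purb_`): DEFINITIONS of the level-`Y` objects.

For a prime `ℓ`, a twist `e`, a coordinate `h : ℚ((q))` and a cusp polynomial `c : ℤ[X]`:

* `purb_KY h = ℚ(h)`                                  (function field of the base, genus `0`);
* `purb_FNe e N = F_N(q^e) = ℚ(j(q^{e d}) : d ∣ N)`     (copy of `F_N`, image of `q ↦ q^e`);
* `purb_LY e h N = F_N(q^e) · ℚ(h)`                    (the field `F_Y`);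
* `purb_B0 ℓ h c = ℤ_(ℓ)[h, 1/c(h)] ⊆ ℚ(h)`            (the regular two-dimensional base);
* `purb_RY ℓ e h c N` = integral closure of `B0` in `F_Y`;
* the characteristic-`ℓ` twins `purb_KYb`, `purb_FNeb`, `purb_LYb` inside `𝔽_ℓ((q))`, related to the
  characteristic-`0` objects by the Gauss ring `S28x.gaussRing ℓ` and `S28x.rho ℓ`.

Instances for `ℓ = 3`: `e = 2`, `h = purb_X3Q` (Hensel coordinate of the `λ`-line),
`c = X² - 64` (cusps `h = ±8, ∞`).  The `ℓ = 2` instance (`e = 3`, Hesse coordinate,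
`c = X³ - 27`) is in `PurCoordHesse.lean`.
-/
import Mathlib
import Fermat.Agent.S28x.Defs
import Fermat.Agent.S18x.PurCoordMap

set_option autoImplicit false

noncomputable section

namespace Fermat.Agent.S18x

open ModularCurve Fermat.Agent.S28x

/-! ### characteristic `0` -/

section CharZero

variable (ℓ e : ℕ) [NeZero e] (h : LaurentSeries ℚ) (c : Polynomial ℤ) (N : ℕ) [NeZero N]

/-- `K_Y = ℚ(h)`. -/
def purb_KY : IntermediateField ℚ (LaurentSeries ℚ) := IntermediateField.adjoin ℚ {h}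

/-- `F_N(q^e) = ℚ(j(q^{e d}) : d ∣ N)`, the image of `F_N` under `q ↦ q^e`. -/
def purb_FNe : IntermediateField ℚ (LaurentSeries ℚ) :=
  (modularFunctionFieldFull N).map (qExpandₐ e)

/-- `F_Y = F_N(q^e) · ℚ(h)`. -/
def purb_LY : IntermediateField ℚ (LaurentSeries ℚ) := purb_FNe e N ⊔ purb_KY h

theorem purb_KY_le_LY : purb_KY h ≤ purb_LY e h N := le_sup_right

theorem purb_FNe_le_LY : purb_FNe e N ≤ purb_LY e h N := le_sup_left

theorem purb_h_mem_KY : h ∈ purb_KY h := IntermediateField.mem_adjoin_simple_self ℚ h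

/-- the coordinate as an element of `K_Y`. -/
def purb_hK : ↥(purb_KY h) := ⟨h, purb_h_mem_KY h⟩

/-- `c(h) ∈ K_Y`. -/
def purb_cK : ↥(purb_KY h) := Polynomial.aeval (purb_hK h) c

/-- the inclusion `K_Y → F_Y` as a ring homomorphism. -/
def purb_inclKYLY : ↥(purb_KY h) →+* ↥(purb_LY e h N) :=
  Subring.inclusion
    (show (purb_KY h).toSubring ≤ (purb_LY e h N).toSubring from purb_KY_le_LY e h N)

instance purb_algebraKYLY : Algebra ↥(purb_KY h) ↥(purb_LY e h N) :=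
  (purb_inclKYLY e h N).toAlgebra

theorem purb_algebraMap_KY_LY_coe (x : ↥(purb_KY h)) :
    ((algebraMap ↥(purb_KY h) ↥(purb_LY e h N) x : ↥(purb_LY e h N)) : LaurentSeries ℚ) = x :=
  rfl

instance purb_isScalarTower_Q_KY_LY : IsScalarTower ℚ ↥(purb_KY h) ↥(purb_LY e h N) :=
  IsScalarTower.of_algebraMap_eq fun r => by
    apply Subtype.ext
    rw [purb_algebraMap_KY_LY_coe]
    simp

/-- `B₀ = ℤ_(ℓ)[h, 1/c(h)]`, as a subring of `K_Y = ℚ(h)`. -/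
def purb_B0 : Subring ↥(purb_KY h) :=
  Subring.closure (Set.range (fun z : ZL ℓ => algebraMap ℚ ↥(purb_KY h) (z : ℚ)) ∪
    {purb_hK h, (purb_cK h c)⁻¹})

theorem purb_hK_mem_B0 : purb_hK h ∈ purb_B0 ℓ h c :=
  Subring.subset_closure (Or.inr (Or.inl rfl))

theorem purb_cK_inv_mem_B0 : (purb_cK h c)⁻¹ ∈ purb_B0 ℓ h c :=
  Subring.subset_closure (Or.inr (Or.inr rfl))

theorem purb_ZL_mem_B0 (z : ZL ℓ) : algebraMap ℚ ↥(purb_KY h) (z : ℚ) ∈ purb_B0 ℓ h c :=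
  Subring.subset_closure (Or.inl ⟨z, rfl⟩)

instance purb_algebraB0LY : Algebra ↥(purb_B0 ℓ h c) ↥(purb_LY e h N) :=
  ((algebraMap ↥(purb_KY h) ↥(purb_LY e h N)).comp (purb_B0 ℓ h c).subtype).toAlgebra

instance purb_isScalarTower_B0_KY_LY :
    IsScalarTower ↥(purb_B0 ℓ h c) ↥(purb_KY h) ↥(purb_LY e h N) :=
  IsScalarTower.of_algebraMap_eq fun _ => rfl

/-- `R_Y`: the integral closure of `B₀` in `F_Y`. -/
def purb_RY : Subalgebra ↥(purb_B0 ℓ h c) ↥(purb_LY e h N) :=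
  integralClosure ↥(purb_B0 ℓ h c) ↥(purb_LY e h N)

end CharZero

/-! ### characteristic `ℓ` -/

section CharL

variable (ℓ e : ℕ) [Fact ℓ.Prime] [NeZero e] (hb : LaurentSeries (ZMod ℓ)) (N : ℕ) [NeZero N]

/-- `K̄_Y = 𝔽_ℓ(h̄)`. -/
def purb_KYb : IntermediateField (ZMod ℓ) (LaurentSeries (ZMod ℓ)) :=
  IntermediateField.adjoin (ZMod ℓ) {hb}

/-- `F̄_N(q^e)`, the image of `F̄_N = modularFunctionFieldFullC 𝔽_ℓ N` under `q ↦ q^e`. -/
def purb_FNeb : IntermediateField (ZMod ℓ) (LaurentSeries (ZMod ℓ)) :=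
  (modularFunctionFieldFullC (ZMod ℓ) N).map (qExpandAlgHomC (ZMod ℓ) e)

/-- `F̄_Y = F̄_N(q^e) · 𝔽_ℓ(h̄)`. -/
def purb_LYb : IntermediateField (ZMod ℓ) (LaurentSeries (ZMod ℓ)) :=
  purb_FNeb ℓ e N ⊔ purb_KYb ℓ hb

theorem purb_KYb_le_LYb : purb_KYb ℓ hb ≤ purb_LYb ℓ e hb N := le_sup_right

theorem purb_FNeb_le_LYb : purb_FNeb ℓ e N ≤ purb_LYb ℓ e hb N := le_sup_left

/-- the inclusion `K̄_Y → F̄_Y` as a ring homomorphism. -/
def purb_inclKYbLYb : ↥(purb_KYb ℓ hb) →+* ↥(purb_LYb ℓ e hb N) :=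
  Subring.inclusion
    (show (purb_KYb ℓ hb).toSubring ≤ (purb_LYb ℓ e hb N).toSubring from
      purb_KYb_le_LYb ℓ e hb N)

instance purb_algebraKYbLYb : Algebra ↥(purb_KYb ℓ hb) ↥(purb_LYb ℓ e hb N) :=
  (purb_inclKYbLYb ℓ e hb N).toAlgebra

theorem purb_algebraMap_KYb_LYb_coe (x : ↥(purb_KYb ℓ hb)) :
    ((algebraMap ↥(purb_KYb ℓ hb) ↥(purb_LYb ℓ e hb N) x : ↥(purb_LYb ℓ e hb N)) :
      LaurentSeries (ZMod ℓ)) = x :=
  rfl

end CharL

/-! ### the `ℓ = 3` instance -/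

section Three

instance purb_fact_three : Fact (Nat.Prime 3) := ⟨Nat.prime_three⟩

theorem purb_isUnit_two_rat : IsUnit (2 : ℚ) := isUnit_iff_ne_zero.2 (by norm_num)

theorem purb_isUnit_two_zmod3 : IsUnit (2 : ZMod 3) := by decide

theorem purb_isUnit_two_ZL3 : IsUnit (2 : ZL 3) := by
  have h2 : (2 : ℚ)⁻¹ ∈ GaloisRep.ratLocalizedAt 3 := by
    show ((2 : ℚ)⁻¹).den.Coprime 3
    norm_num
  refine ⟨⟨2, ⟨(2 : ℚ)⁻¹, h2⟩, ?_, ?_⟩, rfl⟩
  · apply Subtype.ext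
    show (2 : ℚ) * (2 : ℚ)⁻¹ = 1
    norm_num
  · apply Subtype.ext
    show (2 : ℚ)⁻¹ * (2 : ℚ) = 1
    norm_num

/-- the `λ`-line coordinate over `ℤ_(3)`. -/
def purb_X3Z : LaurentSeries (ZL 3) := purb_X3 purb_isUnit_two_ZL3

/-- the `λ`-line coordinate over `ℚ`. -/
def purb_X3Q : LaurentSeries ℚ := purb_X3 purb_isUnit_two_rat

/-- the `λ`-line coordinate over `𝔽₃`. -/
def purb_X3F : LaurentSeries (ZMod 3) := purb_X3 purb_isUnit_two_zmod3

theorem purb_toQ_X3Z : toQ 3 purb_X3Z = purb_X3Q :=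
  purb_X3_map (GaloisRep.ratLocalizedAt 3).subtype purb_isUnit_two_ZL3 purb_isUnit_two_rat

theorem purb_red_X3Z : red 3 purb_X3Z = purb_X3F :=
  purb_X3_map (resZL 3) purb_isUnit_two_ZL3 purb_isUnit_two_zmod3

theorem purb_X3Q_mem_gaussRing : purb_X3Q ∈ gaussRing 3 := by
  rw [← purb_toQ_X3Z]; exact toQ_mem_gaussRing 3 _

/-- the reduction of the coordinate is the coordinate over `𝔽₃`. -/
theorem purb_rho_X3Q : rho 3 ⟨purb_X3Q, purb_X3Q_mem_gaussRing⟩ = purb_X3F := by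
  have h := rho_toQ 3 purb_X3Z
  rw [purb_red_X3Z] at h
  rw [← h]
  congr 1
  exact Subtype.ext purb_toQ_X3Z.symm

/-- the cusp polynomial `X² - 64` of the `λ`-line in the coordinate `X = 16/λ - 8`. -/
def purb_c3 : Polynomial ℤ := Polynomial.X ^ 2 - 64

/-- `K_Y = ℚ(X₃)` for `ℓ = 3`. -/
abbrev purb_K3 : IntermediateField ℚ (LaurentSeries ℚ) := purb_KY purb_X3Q

/-- `F_N(q²)`. -/
abbrev purb_FN2 (N : ℕ) [NeZero N] : IntermediateField ℚ (LaurentSeries ℚ) := purb_FNe 2 N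

/-- `F_Y = F_N(q²)·ℚ(X₃)` for `ℓ = 3`. -/
abbrev purb_L3 (N : ℕ) [NeZero N] : IntermediateField ℚ (LaurentSeries ℚ) := purb_LY 2 purb_X3Q N

/-- `B₀ = ℤ_(3)[X₃, 1/(X₃²-64)]`. -/
abbrev purb_B3 : Subring ↥purb_K3 := purb_B0 3 purb_X3Q purb_c3

/-- `R_Y` for `ℓ = 3`. -/
abbrev purb_R3 (N : ℕ) [NeZero N] : Subalgebra ↥purb_B3 ↥(purb_L3 N) :=
  purb_RY 3 2 purb_X3Q purb_c3 N

/-- `K̄_Y = 𝔽₃(X̄₃)`. -/
abbrev purb_K3b : IntermediateField (ZMod 3) (LaurentSeries (ZMod 3)) := purb_KYb 3 purb_X3F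

/-- `F̄_Y` for `ℓ = 3`. -/
abbrev purb_L3b (N : ℕ) [NeZero N] : IntermediateField (ZMod 3) (LaurentSeries (ZMod 3)) :=
  purb_LYb 3 2 purb_X3F N

/-- the defining identities over `ℚ` and over `𝔽₃`. -/
theorem purb_X3Q_identity :
    (purb_X3Q ^ 2 + 192) ^ 3 = qExpand ℚ 2 jq * (purb_X3Q ^ 2 - 64) ^ 2 :=
  purb_X3_identity purb_isUnit_two_rat

theorem purb_X3F_identity :
    (purb_X3F ^ 2 + 192) ^ 3 = qExpand (ZMod 3) 2 (jqModC (ZMod 3)) * (purb_X3F ^ 2 - 64) ^ 2 :=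
  purb_X3_identity purb_isUnit_two_zmod3

end Three

end Fermat.Agent.S18x
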