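import Mathlib
import Fermat.Agent.S28x.GaussRing

/-!
# S18x / PUR instantiation (1): `ℤ_(ℓ)` is a PID with maximal ideal `(ℓ)`

`ZL ℓ = GaloisRep.ratLocalizedAt ℓ` (rationals with denominator prime to `ℓ`).
-/

set_option autoImplicit false

namespace Fermat.Agent.S18x

open Fermat.Agent.S28x

/-- the inverse of the denominator, as an element of `ℤ_(ℓ)`. -/
theorem puri_ZL_exists_num (ℓ : ℕ) (x : ZL ℓ) :
    ∃ u : ZL ℓ, x = ((x : ℚ).num : ZL ℓ) * u ∧ (((x : ℚ).den : ℕ) : ZL ℓ) * u = 1 := by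
  have hd0 : (x : ℚ).den ≠ 0 := (x : ℚ).den_ne_zero
  have hmem : (((x : ℚ).den : ℚ))⁻¹ ∈ GaloisRep.ratLocalizedAt ℓ := by
    show ((((x : ℚ).den : ℚ))⁻¹).den.Coprime ℓ
    rw [Rat.inv_natCast_den, if_neg hd0]
    exact x.2
  refine ⟨⟨_, hmem⟩, ?_, ?_⟩
  · apply Subtype.ext
    push_cast
    rw [← div_eq_mul_inv, Rat.num_div_den]
  · apply Subtype.ext
    push_cast
    exact mul_inv_cancel₀ (Nat.cast_ne_zero.mpr hd0)

/-- `ℤ_(ℓ)` is a principal ideal ring (any `ℓ`). -/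
instance puri_ZL_isPrincipalIdealRing (ℓ : ℕ) : IsPrincipalIdealRing (ZL ℓ) := by
  refine ⟨fun I => ?_⟩
  obtain ⟨n, hn⟩ :=
    (IsPrincipalIdealRing.principal (I.comap (Int.castRingHom (ZL ℓ)))).principal
  refine ⟨⟨(n : ZL ℓ), ?_⟩⟩
  have hnI : (n : ZL ℓ) ∈ I := by
    have : n ∈ I.comap (Int.castRingHom (ZL ℓ)) := by
      rw [hn]; exact Submodule.mem_span_singleton_self n
    simpa using this
  apply le_antisymm
  · intro x hx
    obtain ⟨a, d, u, hxu, hdu⟩ : ∃ (a : ℤ) (d : ℕ) (u : ZL ℓ),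
        x = (a : ZL ℓ) * u ∧ (d : ZL ℓ) * u = 1 := by
      obtain ⟨u, hxu, hdu⟩ := puri_ZL_exists_num ℓ x
      exact ⟨_, _, u, hxu, hdu⟩
    have hnum : (a : ZL ℓ) ∈ I := by
      have h1 : (a : ZL ℓ) = (d : ZL ℓ) * x := by
        rw [hxu, mul_left_comm, hdu, mul_one]
      rw [h1]
      exact I.mul_mem_left _ hx
    have h2 : a ∈ I.comap (Int.castRingHom (ZL ℓ)) := by
      simpa using hnum
    rw [hn] at h2
    obtain ⟨m, hm⟩ := Submodule.mem_span_singleton.mp h2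
    rw [Submodule.mem_span_singleton]
    refine ⟨(m : ZL ℓ) * u, ?_⟩
    rw [hxu, ← hm]
    simp only [smul_eq_mul]
    push_cast
    ring
  · rw [Submodule.span_le]
    intro y hy
    rw [Set.mem_singleton_iff] at hy
    rw [hy]
    exact hnI

variable (ℓ : ℕ) [Fact ℓ.Prime]

theorem puri_resZL_surjective : Function.Surjective (resZL ℓ) := by
  intro z
  have : NeZero ℓ := ⟨(Fact.out : ℓ.Prime).ne_zero⟩
  refine ⟨((z.val : ℕ) : ZL ℓ), ?_⟩
  rw [map_natCast, ZMod.natCast_zmod_val]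

theorem puri_ker_resZL : RingHom.ker (resZL ℓ) = Ideal.span {(ℓ : ZL ℓ)} := by
  ext x
  rw [RingHom.mem_ker, gr_resZL_eq_zero_iff, Ideal.mem_span_singleton]
  constructor
  · rintro ⟨b, rfl⟩; exact ⟨b, rfl⟩
  · rintro ⟨b, rfl⟩; exact ⟨b, rfl⟩

/-- `(ℓ)` is a maximal ideal of `ℤ_(ℓ)`. -/
instance puri_ZL_span_isMaximal : (Ideal.span {(ℓ : ZL ℓ)}).IsMaximal := by
  rw [← puri_ker_resZL]
  exact RingHom.ker_isMaximal_of_surjective _ (puri_resZL_surjective ℓ)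

theorem puri_ZL_natCast_ne_zero : (ℓ : ZL ℓ) ≠ 0 := by
  intro h0
  have := congrArg Subtype.val h0
  simp at this
  exact (Fact.out : ℓ.Prime).ne_zero this

/-- `ℓ` is a prime element of `ℤ_(ℓ)`. -/
theorem puri_ZL_prime : Prime (ℓ : ZL ℓ) := by
  rw [← Ideal.span_singleton_prime (puri_ZL_natCast_ne_zero ℓ)]
  exact (puri_ZL_span_isMaximal ℓ).isPrime

end Fermat.Agent.S18x
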