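import Mathlib
import Fermat.Agent.S18x.PuriZL
import Fermat.Agent.S18x.LevelYDefs
import Fermat.Agent.S18x.PurBase

/-!
# S18x / PUR instantiation (2): `purb_B0 ℓ h c ≃ pur_Base c`

For `h : ℚ((q))` transcendental over `ℚ` and `c : ℤ[X]` non-zero, the subring
`purb_B0 ℓ h c = ℤ_(ℓ)[h, 1/c(h)]` of `ℚ(h)` (helper28's `LevelYDefs`) is isomorphic to
`pur_Base c = ℤ_(ℓ)[X][1/c]` (`PurBase`).  Consequences: it is a Noetherian integrally closed
domain with fraction field `ℚ(h)`, `ℓ` is a prime element and the quotient by `ℓ` is a PID.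
-/

set_option autoImplicit false
set_option linter.style.haveILetI false
set_option linter.unusedSectionVars false

noncomputable section

namespace Fermat.Agent.S18x

open Polynomial Fermat.Agent.S28x

variable (ℓ : ℕ) (h : LaurentSeries ℚ) (c : Polynomial ℤ)

/-- the cusp polynomial with coefficients in `ℤ_(ℓ)`. -/
def puri_c : (ZL ℓ)[X] := c.map (Int.castRingHom (ZL ℓ))

theorem puri_c_ne_zero (hc : c ≠ 0) : puri_c ℓ c ≠ 0 := by
  rw [puri_c, Ne, Polynomial.map_eq_zero_iff]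
  · exact hc
  · intro a b hab
    have := congrArg (fun z : ZL ℓ => (z : ℚ)) hab
    simpa using this

theorem puri_aeval_c : aeval (purb_hK h) (puri_c ℓ c) = purb_cK h c := by
  rw [puri_c, purb_cK, ← algebraMap_int_eq, aeval_map_algebraMap]

/-- the coercion `ℚ(h) → ℚ((q))` commutes with polynomial evaluation. -/
theorem puri_coe_aeval (p : ℚ[X]) :
    ((aeval (purb_hK h) p : ↥(purb_KY h)) : LaurentSeries ℚ) = aeval h p := by
  rw [aeval_def, aeval_def]
  have h1 := Polynomial.hom_eval₂ p (algebraMap ℚ ↥(purb_KY h))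
    (algebraMap ↥(purb_KY h) (LaurentSeries ℚ)) (purb_hK h)
  have h2 : (algebraMap ↥(purb_KY h) (LaurentSeries ℚ)).comp (algebraMap ℚ ↥(purb_KY h)) =
      algebraMap ℚ (LaurentSeries ℚ) := RingHom.ext_rat _ _
  rw [h2] at h1
  exact h1

variable {h}

theorem puri_transcendental_hK (htr : Transcendental ℚ h) :
    Transcendental (ZL ℓ) (purb_hK h) := by
  have h1 : Transcendental ℚ (purb_hK h) := by
    rw [transcendental_iff] at htr ⊢
    intro p hp
    apply htr p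
    have := congrArg (fun z : ↥(purb_KY h) => (z : LaurentSeries ℚ)) hp
    simp only [ZeroMemClass.coe_zero] at this
    rw [← this]
    exact (puri_coe_aeval h p).symm
  refine Transcendental.restrictScalars (R := ZL ℓ) (S := ℚ) ?_ h1
  exact Subtype.val_injective

theorem puri_cK_ne_zero (htr : Transcendental ℚ h) (hc : c ≠ 0) : purb_cK h c ≠ 0 := by
  rw [← puri_aeval_c 0]
  intro h0
  exact puri_c_ne_zero 0 c hc ((transcendental_iff.mp (puri_transcendental_hK 0 htr)) _ h0)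

theorem puri_aeval_c_ne_zero (htr : Transcendental ℚ h) (hc : c ≠ 0) :
    aeval (purb_hK h) (puri_c ℓ c) ≠ 0 := by
  rw [puri_aeval_c]; exact puri_cK_ne_zero c htr hc

/-- the evaluation `ℤ_(ℓ)[X][1/c] → ℚ(h)`. -/
def puri_eval (htr : Transcendental ℚ h) (hc : c ≠ 0) : pur_Base (puri_c ℓ c) →+* ↥(purb_KY h) :=
  pur_base_eval (puri_c ℓ c) (purb_hK h) (puri_aeval_c_ne_zero ℓ c htr hc)

theorem puri_eval_algebraMap (htr : Transcendental ℚ h) (hc : c ≠ 0) (g : (ZL ℓ)[X]) :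
    puri_eval ℓ c htr hc (algebraMap (ZL ℓ)[X] (pur_Base (puri_c ℓ c)) g) =
      aeval (purb_hK h) g :=
  pur_base_eval_algebraMap _ _ _ g

theorem puri_eval_injective (htr : Transcendental ℚ h) (hc : c ≠ 0) :
    Function.Injective (puri_eval ℓ c htr hc) :=
  pur_base_eval_injective _ _ _ (puri_transcendental_hK ℓ htr)

variable (h)

/-- polynomials in `h` with `ℤ_(ℓ)`-coefficients lie in `B₀`. -/
theorem puri_aeval_mem_B0 (g : (ZL ℓ)[X]) : aeval (purb_hK h) g ∈ purb_B0 ℓ h c := by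
  rw [aeval_eq_sum_range]
  refine Subring.sum_mem _ fun i _ => ?_
  rw [Algebra.smul_def]
  refine Subring.mul_mem _ ?_ (Subring.pow_mem _ (purb_hK_mem_B0 ℓ h c) i)
  exact purb_ZL_mem_B0 ℓ h c (g.coeff i)

/-- polynomials in `h` with integer coefficients lie in `B₀`. -/
theorem puri_aeval_int_mem_B0 (g : ℤ[X]) : aeval (purb_hK h) g ∈ purb_B0 ℓ h c := by
  have := puri_aeval_mem_B0 ℓ h c (g.map (Int.castRingHom (ZL ℓ)))
  rwa [← algebraMap_int_eq, aeval_map_algebraMap] at this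

variable {h}

theorem puri_eval_mem_B0 (htr : Transcendental ℚ h) (hc : c ≠ 0)
    (b : pur_Base (puri_c ℓ c)) : puri_eval ℓ c htr hc b ∈ purb_B0 ℓ h c := by
  obtain ⟨⟨a, s⟩, rfl⟩ := IsLocalization.mk'_surjective (Submonoid.powers (puri_c ℓ c)) b
  obtain ⟨s, k, rfl⟩ := s
  have h1 := IsLocalization.mk'_spec (pur_Base (puri_c ℓ c)) a
    (⟨(fun x => puri_c ℓ c ^ x) k, k, rfl⟩ : Submonoid.powers (puri_c ℓ c))
  have h2 := congrArg (puri_eval ℓ c htr hc) h1
  rw [map_mul, puri_eval_algebraMap, puri_eval_algebraMap] at h2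
  simp only [map_pow] at h2
  rw [puri_aeval_c] at h2
  have hne : purb_cK h c ^ k ≠ 0 := pow_ne_zero _ (puri_cK_ne_zero c htr hc)
  have h3 : puri_eval ℓ c htr hc (IsLocalization.mk' (pur_Base (puri_c ℓ c)) a
      (⟨(fun x => puri_c ℓ c ^ x) k, k, rfl⟩ : Submonoid.powers (puri_c ℓ c))) =
      aeval (purb_hK h) a * ((purb_cK h c)⁻¹) ^ k := by
    rw [inv_pow, ← h2, mul_assoc, mul_inv_cancel₀ hne, mul_one]
  show puri_eval ℓ c htr hc (IsLocalization.mk' (pur_Base (puri_c ℓ c)) a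
      (⟨(fun x => puri_c ℓ c ^ x) k, k, rfl⟩ : Submonoid.powers (puri_c ℓ c))) ∈ _
  rw [h3]
  exact Subring.mul_mem _ (puri_aeval_mem_B0 ℓ h c a)
    (Subring.pow_mem _ (purb_cK_inv_mem_B0 ℓ h c) k)

theorem puri_B0_le_range (htr : Transcendental ℚ h) (hc : c ≠ 0) :
    purb_B0 ℓ h c ≤ (puri_eval ℓ c htr hc).range := by
  rw [purb_B0, Subring.closure_le]
  rintro x (⟨z, rfl⟩ | hx | hx)
  · refine ⟨algebraMap (ZL ℓ)[X] (pur_Base (puri_c ℓ c)) (C z), ?_⟩
    rw [puri_eval_algebraMap, aeval_C]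
    rfl
  · rw [Set.mem_singleton_iff.mp hx]
    refine ⟨algebraMap (ZL ℓ)[X] (pur_Base (puri_c ℓ c)) X, ?_⟩
    rw [puri_eval_algebraMap, aeval_X]
  · rw [Set.mem_singleton_iff.mp hx]
    refine ⟨IsLocalization.Away.invSelf (puri_c ℓ c), ?_⟩
    have h1 := IsLocalization.Away.mul_invSelf (S := pur_Base (puri_c ℓ c)) (puri_c ℓ c)
    have h2 := congrArg (puri_eval ℓ c htr hc) h1
    rw [map_mul, puri_eval_algebraMap, puri_aeval_c, map_one] at h2
    exact eq_inv_of_mul_eq_one_right h2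

/-- **the isomorphism** `ℤ_(ℓ)[X][1/c] ≃ ℤ_(ℓ)[h, 1/c(h)]`. -/
def puri_equiv (htr : Transcendental ℚ h) (hc : c ≠ 0) :
    pur_Base (puri_c ℓ c) ≃+* ↥(purb_B0 ℓ h c) :=
  RingEquiv.ofBijective
    ((puri_eval ℓ c htr hc).codRestrict (purb_B0 ℓ h c) (puri_eval_mem_B0 ℓ c htr hc))
    ⟨fun a b hab => puri_eval_injective ℓ c htr hc (congrArg Subtype.val hab),
      fun y => by
        obtain ⟨b, hb⟩ := puri_B0_le_range ℓ c htr hc y.2
        exact ⟨b, Subtype.ext hb⟩⟩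

theorem puri_equiv_coe (htr : Transcendental ℚ h) (hc : c ≠ 0) (b : pur_Base (puri_c ℓ c)) :
    ((puri_equiv ℓ c htr hc b : ↥(purb_B0 ℓ h c)) : ↥(purb_KY h)) = puri_eval ℓ c htr hc b :=
  rfl

end Fermat.Agent.S18x
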