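import Mathlib
import Fermat.Agent.S18x.PuriBase

/-!
# S18x / PUR instantiation (3): ring-theoretic properties of `purb_B0 ℓ h c`

Transported along `puri_equiv : pur_Base c ≃+* purb_B0 ℓ h c`:
Noetherian, integrally closed, `ℓ` prime, `B₀ / ℓ` a PID; and `Frac B₀ = ℚ(h)`.
-/

set_option autoImplicit false
set_option linter.style.haveILetI false
set_option linter.unusedSectionVars false

noncomputable section

namespace Fermat.Agent.S18x

open Polynomial Fermat.Agent.S28x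

section Frac

variable (ℓ : ℕ) (h : LaurentSeries ℚ) (c : Polynomial ℤ)

/-- clearing denominators of a rational polynomial evaluated at `h`. -/
theorem puri_exists_int_aeval (r : ℚ[X]) :
    ∃ (b : ℤ) (r' : ℤ[X]), b ≠ 0 ∧
      (b : ↥(purb_KY h)) * aeval (purb_hK h) r = aeval (purb_hK h) r' := by
  obtain ⟨b, hb, hr⟩ := IsLocalization.integerNormalization_spec (nonZeroDivisors ℤ) r
  refine ⟨b, IsLocalization.integerNormalization (nonZeroDivisors ℤ) r,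
    nonZeroDivisors.ne_zero hb, ?_⟩
  have h1 := congrArg (aeval (purb_hK h)) hr
  rw [aeval_map_algebraMap] at h1
  rw [h1, map_zsmul, zsmul_eq_mul]

/-- `ℚ(h)` is the fraction field of `B₀ = ℤ_(ℓ)[h, 1/c(h)]`. -/
theorem puri_B0_isFractionRing : IsFractionRing ↥(purb_B0 ℓ h c) ↥(purb_KY h) := by
  haveI : FaithfulSMul ↥(purb_B0 ℓ h c) ↥(purb_KY h) :=
    (faithfulSMul_iff_algebraMap_injective _ _).mpr Subtype.val_injective
  refine IsFractionRing.of_field _ _ fun z => ?_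
  obtain ⟨r, s, hz⟩ := (IntermediateField.mem_adjoin_simple_iff ℚ (z : LaurentSeries ℚ)).mp z.2
  have hz' : z = aeval (purb_hK h) r / aeval (purb_hK h) s := by
    apply Subtype.ext
    rw [hz]
    push_cast
    rw [puri_coe_aeval, puri_coe_aeval]
  obtain ⟨br, r', hbr, hr⟩ := puri_exists_int_aeval h r
  obtain ⟨bs, s', hbs, hs⟩ := puri_exists_int_aeval h s
  have hbrK : (br : ↥(purb_KY h)) ≠ 0 := Int.cast_ne_zero.mpr hbr
  have hbsK : (bs : ↥(purb_KY h)) ≠ 0 := Int.cast_ne_zero.mpr hbs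
  refine ⟨(bs : ↥(purb_B0 ℓ h c)) * ⟨_, puri_aeval_int_mem_B0 ℓ h c r'⟩,
    (br : ↥(purb_B0 ℓ h c)) * ⟨_, puri_aeval_int_mem_B0 ℓ h c s'⟩, ?_⟩
  have e1 : algebraMap ↥(purb_B0 ℓ h c) ↥(purb_KY h)
      ((bs : ↥(purb_B0 ℓ h c)) * ⟨_, puri_aeval_int_mem_B0 ℓ h c r'⟩) =
      (bs : ↥(purb_KY h)) * aeval (purb_hK h) r' := by
    rw [map_mul, map_intCast]; rfl
  have e2 : algebraMap ↥(purb_B0 ℓ h c) ↥(purb_KY h)
      ((br : ↥(purb_B0 ℓ h c)) * ⟨_, puri_aeval_int_mem_B0 ℓ h c s'⟩) =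
      (br : ↥(purb_KY h)) * aeval (purb_hK h) s' := by
    rw [map_mul, map_intCast]; rfl
  rw [e1, e2, hz', ← hr, ← hs]
  by_cases hs0 : aeval (purb_hK h) s = 0
  · rw [hs0]; simp
  · field_simp

end Frac

section Transport

variable (ℓ : ℕ) [Fact ℓ.Prime] {h : LaurentSeries ℚ} (c : Polynomial ℤ)
  (htr : Transcendental ℚ h) (hc : c ≠ 0)

theorem puri_not_C_dvd (hlc : ¬ C (ℓ : ℤ) ∣ c) : ¬ C (ℓ : ZL ℓ) ∣ puri_c ℓ c := by
  intro hdvd
  apply hlc
  rw [Polynomial.C_dvd_iff_dvd_coeff] at hdvd ⊢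
  intro n
  obtain ⟨b, hb⟩ := hdvd n
  rw [puri_c, Polynomial.coeff_map] at hb
  have h1 := congrArg (resZL ℓ) hb
  rw [map_mul, gr_resZL_natCast_self, zero_mul, eq_intCast, map_intCast] at h1
  exact (ZMod.intCast_zmod_eq_zero_iff_dvd _ _).mp h1

theorem puri_not_C_dvd_of_monic (hm : c.Monic) : ¬ C (ℓ : ℤ) ∣ c := by
  intro hdvd
  rw [Polynomial.C_dvd_iff_dvd_coeff] at hdvd
  have h1 := hdvd c.natDegree
  rw [Polynomial.coeff_natDegree, hm.leadingCoeff] at h1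
  have h2 := Int.eq_one_of_dvd_one (by positivity) h1
  have h3 : ℓ = 1 := by exact_mod_cast h2
  exact (Fact.out : ℓ.Prime).one_lt.ne' h3

include htr hc

theorem puri_B0_isNoetherianRing : IsNoetherianRing ↥(purb_B0 ℓ h c) :=
  isNoetherianRing_of_ringEquiv _ (puri_equiv ℓ c htr hc)

theorem puri_B0_isIntegrallyClosed : IsIntegrallyClosed ↥(purb_B0 ℓ h c) :=
  haveI := pur_base_isIntegrallyClosed (puri_c_ne_zero ℓ c hc)
  IsIntegrallyClosed.of_equiv (puri_equiv ℓ c htr hc)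

theorem puri_equiv_l :
    puri_equiv ℓ c htr hc (algebraMap (ZL ℓ)[X] (pur_Base (puri_c ℓ c)) (C (ℓ : ZL ℓ))) =
      (ℓ : ↥(purb_B0 ℓ h c)) := by
  apply Subtype.ext
  rw [puri_equiv_coe, puri_eval_algebraMap, aeval_C, map_natCast]
  simp

/-- `ℓ` is a prime element of `B₀`. -/
theorem puri_B0_prime (hlc : ¬ C (ℓ : ℤ) ∣ c) : Prime (ℓ : ↥(purb_B0 ℓ h c)) := by
  rw [← puri_equiv_l ℓ c htr hc]
  exact (MulEquiv.prime_iff (puri_equiv ℓ c htr hc)).mpr
    (pur_base_prime (puri_ZL_prime ℓ) (puri_not_C_dvd ℓ c hlc))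

/-- `B₀ / ℓ` is a principal ideal ring. -/
theorem puri_B0_quotient_isPrincipalIdealRing :
    IsPrincipalIdealRing (↥(purb_B0 ℓ h c) ⧸ Ideal.span {(ℓ : ↥(purb_B0 ℓ h c))}) := by
  haveI := pur_base_quotient_isPrincipalIdealRing (puri_c ℓ c) (l := (ℓ : ZL ℓ))
  have hJ : Ideal.span {(ℓ : ↥(purb_B0 ℓ h c))} =
      Ideal.map (↑(puri_equiv ℓ c htr hc) : pur_Base (puri_c ℓ c) →+* ↥(purb_B0 ℓ h c))
        (Ideal.span {algebraMap (ZL ℓ)[X] (pur_Base (puri_c ℓ c)) (C (ℓ : ZL ℓ))}) := by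
    rw [Ideal.map_span, Set.image_singleton]
    congr 2
    exact (puri_equiv_l ℓ c htr hc).symm
  exact IsPrincipalIdealRing.of_surjective
    (Ideal.quotientEquiv _ _ (puri_equiv ℓ c htr hc) hJ).toRingHom
    (Ideal.quotientEquiv _ _ (puri_equiv ℓ c htr hc) hJ).surjective

end Transport

end Fermat.Agent.S18x
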