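import Mathlib
import Fermat.Agent.S18x.PuriRing
import Fermat.Agent.S18x.PurOnto

/-!
# S18x / PUR instantiation (4): global purity for the level-`Y` objects of `LevelYDefs`

`K = purb_KY h = ℚ(h)`, `L = purb_LY e h N = F_N(q^e)·ℚ(h)`, `B₀ = purb_B0 ℓ h c = ℤ_(ℓ)[h, 1/c(h)]`,
`R = purb_RY ℓ e h c N` the integral closure of `B₀` in `L`.

To keep instance search fast for the consumers, the two quotient rings are packaged as opaque
type synonyms `puri_Bq = B₀ / ℓ` and `puri_Rq = R / ℓR` with explicit projection and lifting maps.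

Hypotheses left to the consumers: `h` transcendental over `ℚ`, `c ≠ 0`, `ℓ ∤ c`, `[L : K] < ∞`,
`(V)`, `(H)` and (for normality) `(hprime)`.
-/

set_option autoImplicit false
set_option linter.style.haveILetI false
set_option linter.unusedSectionVars false
set_option synthInstance.maxHeartbeats 400000
set_option maxHeartbeats 1000000

noncomputable section

namespace Fermat.Agent.S18x

open Polynomial Fermat.Agent.S28x

section Defs

variable (ℓ e : ℕ) [NeZero e] (h : LaurentSeries ℚ) (c : Polynomial ℤ) (N : ℕ) [NeZero N]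

instance puri_isIntegralClosure_RY :
    IsIntegralClosure ↥(purb_RY ℓ e h c N) ↥(purb_B0 ℓ h c) ↥(purb_LY e h N) :=
  integralClosure.isIntegralClosure _ _

/-- the ideal `ℓ B₀`. -/
def puri_IB : Ideal ↥(purb_B0 ℓ h c) := Ideal.span {(ℓ : ↥(purb_B0 ℓ h c))}

/-- the ideal `ℓ R`. -/
def puri_IR : Ideal ↥(purb_RY ℓ e h c N) :=
  Ideal.map (algebraMap ↥(purb_B0 ℓ h c) ↥(purb_RY ℓ e h c N)) (puri_IB ℓ h c)

/-- `B₀ / ℓ`. -/
def puri_Bq : Type := ↥(purb_B0 ℓ h c) ⧸ puri_IB ℓ h c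

/-- `R / ℓ R`. -/
def puri_Rq : Type := ↥(purb_RY ℓ e h c N) ⧸ puri_IR ℓ e h c N

instance puri_Bq_commRing : CommRing (puri_Bq ℓ h c) :=
  inferInstanceAs (CommRing (↥(purb_B0 ℓ h c) ⧸ puri_IB ℓ h c))

instance puri_Rq_commRing : CommRing (puri_Rq ℓ e h c N) :=
  inferInstanceAs (CommRing (↥(purb_RY ℓ e h c N) ⧸ puri_IR ℓ e h c N))

instance puri_Rq_algebra : Algebra (puri_Bq ℓ h c) (puri_Rq ℓ e h c N) :=
  inferInstanceAs (Algebra (↥(purb_B0 ℓ h c) ⧸ puri_IB ℓ h c)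
    (↥(purb_RY ℓ e h c N) ⧸
      Ideal.map (algebraMap ↥(purb_B0 ℓ h c) ↥(purb_RY ℓ e h c N)) (puri_IB ℓ h c)))

/-- the projection `B₀ → B₀ / ℓ`. -/
def puri_mkB : ↥(purb_B0 ℓ h c) →+* puri_Bq ℓ h c := Ideal.Quotient.mk (puri_IB ℓ h c)

/-- the projection `R → R / ℓ R`. -/
def puri_mkR : ↥(purb_RY ℓ e h c N) →+* puri_Rq ℓ e h c N :=
  Ideal.Quotient.mk (puri_IR ℓ e h c N)

theorem puri_mkB_surjective : Function.Surjective (puri_mkB ℓ h c) :=
  Ideal.Quotient.mk_surjective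

theorem puri_mkR_surjective : Function.Surjective (puri_mkR ℓ e h c N) :=
  Ideal.Quotient.mk_surjective

theorem puri_mkB_eq_zero_iff (b : ↥(purb_B0 ℓ h c)) :
    puri_mkB ℓ h c b = 0 ↔ ∃ b' : ↥(purb_B0 ℓ h c), b = (ℓ : ↥(purb_B0 ℓ h c)) * b' :=
  (Ideal.Quotient.eq_zero_iff_mem (I := puri_IB ℓ h c) (a := b)).trans
    Ideal.mem_span_singleton

theorem puri_mkR_eq_zero_iff (x : ↥(purb_RY ℓ e h c N)) :
    puri_mkR ℓ e h c N x = 0 ↔
      ∃ x' : ↥(purb_RY ℓ e h c N), x = (ℓ : ↥(purb_B0 ℓ h c)) • x' :=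
  (Ideal.Quotient.eq_zero_iff_mem (I := puri_IR ℓ e h c N) (a := x)).trans
    (pur_mem_map_span (p := (ℓ : ↥(purb_B0 ℓ h c))) (x := x))

theorem puri_algebraMap_mkB (b : ↥(purb_B0 ℓ h c)) :
    algebraMap (puri_Bq ℓ h c) (puri_Rq ℓ e h c N) (puri_mkB ℓ h c b) =
      puri_mkR ℓ e h c N (algebraMap ↥(purb_B0 ℓ h c) ↥(purb_RY ℓ e h c N) b) :=
  rfl

/-- lifting a ring hom killing `ℓ` to `B₀ / ℓ`. -/
def puri_liftB {S : Type*} [CommRing S] (g : ↥(purb_B0 ℓ h c) →+* S)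
    (hg : g (ℓ : ↥(purb_B0 ℓ h c)) = 0) : puri_Bq ℓ h c →+* S :=
  Ideal.Quotient.lift (puri_IB ℓ h c) g (fun b hb => by
    rw [puri_IB, Ideal.mem_span_singleton] at hb
    obtain ⟨b', rfl⟩ := hb
    rw [map_mul, hg, zero_mul])

theorem puri_liftB_mk {S : Type*} [CommRing S] (g : ↥(purb_B0 ℓ h c) →+* S)
    (hg : g (ℓ : ↥(purb_B0 ℓ h c)) = 0) (b : ↥(purb_B0 ℓ h c)) :
    puri_liftB ℓ h c g hg (puri_mkB ℓ h c b) = g b :=
  Ideal.Quotient.lift_mk _ _ _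

/-- lifting a ring hom killing `ℓ` to `R / ℓ R`. -/
def puri_liftR {S : Type*} [CommRing S] (g : ↥(purb_RY ℓ e h c N) →+* S)
    (hg : g (algebraMap ↥(purb_B0 ℓ h c) ↥(purb_RY ℓ e h c N) (ℓ : ↥(purb_B0 ℓ h c))) = 0) :
    puri_Rq ℓ e h c N →+* S :=
  Ideal.Quotient.lift (puri_IR ℓ e h c N) g (fun x hx => by
    rw [puri_IR, puri_IB, pur_mem_map_span] at hx
    obtain ⟨x', rfl⟩ := hx
    rw [Algebra.smul_def, map_mul, hg, zero_mul])

theorem puri_liftR_mk {S : Type*} [CommRing S] (g : ↥(purb_RY ℓ e h c N) →+* S)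
    (hg : g (algebraMap ↥(purb_B0 ℓ h c) ↥(purb_RY ℓ e h c N) (ℓ : ↥(purb_B0 ℓ h c))) = 0)
    (x : ↥(purb_RY ℓ e h c N)) :
    puri_liftR ℓ e h c N g hg (puri_mkR ℓ e h c N x) = g x :=
  Ideal.Quotient.lift_mk _ _ _

end Defs

section Main

variable (ℓ e : ℕ) [NeZero e] (h : LaurentSeries ℚ) (c : Polynomial ℤ) (N : ℕ) [NeZero N]

/-- hypothesis `(V)`: some family of `[L : K]` elements of `R` has a discriminant prime to `ℓ`. -/
def puri_HV : Prop :=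
  ∃ t : Fin (Module.finrank ↥(purb_KY h) ↥(purb_LY e h N)) → ↥(purb_RY ℓ e h c N),
    ∃ d : ↥(purb_B0 ℓ h c), algebraMap ↥(purb_B0 ℓ h c) ↥(purb_KY h) d =
      Algebra.discr ↥(purb_KY h)
        (fun i => algebraMap ↥(purb_RY ℓ e h c N) ↥(purb_LY e h N) (t i)) ∧
      ¬ (ℓ : ↥(purb_B0 ℓ h c)) ∣ d

/-- hypothesis `(H)`: at every prime `q` of `B₀` not containing `ℓ`, some family of `[L : K]`
elements of `R` has a discriminant outside `q`. -/
def puri_HH : Prop :=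
  ∀ q : Ideal ↥(purb_B0 ℓ h c), q.IsPrime → (ℓ : ↥(purb_B0 ℓ h c)) ∉ q →
    ∃ t : Fin (Module.finrank ↥(purb_KY h) ↥(purb_LY e h N)) → ↥(purb_RY ℓ e h c N),
      ∃ d : ↥(purb_B0 ℓ h c), algebraMap ↥(purb_B0 ℓ h c) ↥(purb_KY h) d =
        Algebra.discr ↥(purb_KY h)
          (fun i => algebraMap ↥(purb_RY ℓ e h c N) ↥(purb_LY e h N) (t i)) ∧ d ∉ q

variable [Fact ℓ.Prime] {h}
  (htr : Transcendental ℚ h) (hc : c ≠ 0) (hlc : ¬ C (ℓ : ℤ) ∣ c)
  [FiniteDimensional ↥(purb_KY h) ↥(purb_LY e h N)]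

include htr hc hlc

/-- **GLOBAL PURITY at level `Y`, étale form**: `R / ℓR` is free over `B₀ / ℓ` with a basis of
unit discriminant. -/
theorem puri_exists_basis_isUnit_discr (hV : puri_HV ℓ e h c N) (hH : puri_HH ℓ e h c N) :
    ∃ τ : Module.Basis (Fin (Module.finrank ↥(purb_KY h) ↥(purb_LY e h N)))
      (puri_Bq ℓ h c) (puri_Rq ℓ e h c N), IsUnit (Algebra.discr (puri_Bq ℓ h c) τ) := by
  haveI := puri_B0_isNoetherianRing ℓ c htr hc
  haveI := puri_B0_isIntegrallyClosed ℓ c htr hc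
  haveI := puri_B0_isFractionRing ℓ h c
  haveI := puri_B0_quotient_isPrincipalIdealRing ℓ c htr hc
  exact pur_quotient_exists_basis_isUnit_discr ↥(purb_KY h) ↥(purb_LY e h N)
    (puri_B0_prime ℓ c htr hc hlc) hV hH

/-- **GLOBAL PURITY at level `Y`, normal form**: if `ℓR` is prime, `R / ℓR` is an integrally
closed domain. -/
theorem puri_Rq_isIntegrallyClosed (hV : puri_HV ℓ e h c N) (hH : puri_HH ℓ e h c N)
    (hprime : (puri_IR ℓ e h c N).IsPrime) :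
    IsIntegrallyClosed (puri_Rq ℓ e h c N) := by
  haveI := puri_B0_isNoetherianRing ℓ c htr hc
  haveI := puri_B0_isIntegrallyClosed ℓ c htr hc
  haveI := puri_B0_isFractionRing ℓ h c
  haveI := puri_B0_quotient_isPrincipalIdealRing ℓ c htr hc
  exact pur_quotient_isIntegrallyClosed ↥(purb_KY h) ↥(purb_LY e h N)
    (puri_B0_prime ℓ c htr hc hlc) hV hH hprime

/-- **NRM at level `Y`, elementwise form**: for a ring hom `ρ : R → M` into a field with kernel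
`ℓR` whose image generates `M`, every `z : M` killed by a monic polynomial over `B₀`
(via `ρ`) is in the image of `ρ`. -/
theorem puri_exists_lift_of_isIntegral (hV : puri_HV ℓ e h c N) (hH : puri_HH ℓ e h c N)
    {M : Type*} [Field M] (ρ : ↥(purb_RY ℓ e h c N) →+* M)
    (hker : ∀ x : ↥(purb_RY ℓ e h c N), ρ x = 0 ↔
      ∃ x' : ↥(purb_RY ℓ e h c N), x = (ℓ : ↥(purb_B0 ℓ h c)) • x')
    (hfrac : ∀ z : M, ∃ x y : ↥(purb_RY ℓ e h c N), ρ y ≠ 0 ∧ z * ρ y = ρ x)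
    (z : M) (f : (↥(purb_B0 ℓ h c))[X]) (hf : f.Monic)
    (hz : Polynomial.eval₂ (ρ.comp (algebraMap ↥(purb_B0 ℓ h c) ↥(purb_RY ℓ e h c N))) z f = 0) :
    ∃ x : ↥(purb_RY ℓ e h c N), ρ x = z := by
  haveI := puri_B0_isNoetherianRing ℓ c htr hc
  haveI := puri_B0_isIntegrallyClosed ℓ c htr hc
  haveI := puri_B0_isFractionRing ℓ h c
  haveI := puri_B0_quotient_isPrincipalIdealRing ℓ c htr hc
  exact pur_exists_lift_of_isIntegral ↥(purb_KY h) ↥(purb_LY e h N)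
    (puri_B0_prime ℓ c htr hc hlc) hV hH ρ hker hfrac z f hf hz

end Main

end Fermat.Agent.S18x
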