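import Mathlib

/-!
# S18x / PUR-C (helper18): finite free algebras with unit discriminant

Mathlib-only commutative algebra, consumed after PUR-A (A3) `pur_isUnit_discr`.

* `purx_trace_map`, `purx_discr_map`, `purx_isUnit_discr_map` (C1): trace and discriminant commute
  with any base change `R → R'`, `S → S'` sending a basis to a basis.
* `purx_mem_span_of_isIntegral`, `purx_isIntegrallyClosed_of_isUnit_discr`,
  `purx_isIntegralClosure_of_isUnit_discr` (C2): over an integrally closed domain, a finite free
  algebra with unit discriminant which is a domain is integrally closed; embedded in a field of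
  the right degree it is the integral closure.
* `purx_quotientBasis`, `purx_isUnit_discr_quotient`, `purx_quotient_isIntegralClosure`: the
  reduction `S / I S` over `R / I`.
* `purx_isReduced_of_isUnit_discr`, `purx_isSeparable_of_discr_ne_zero` (C3).
-/

set_option autoImplicit false

namespace Fermat.Agent.S18x

open Matrix


open Matrix

section C1

variable {R R' S S' : Type*} [CommRing R] [CommRing R'] [CommRing S] [CommRing S']
variable [Algebra R S] [Algebra R' S']
variable {ι : Type*} [Fintype ι] [DecidableEq ι]

/-- coordinates are compatible with a semilinear ring map sending a basis to a basis. -/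
theorem purx_repr_map (f : R →+* R') (φ : S →+* S')
    (hφ : ∀ r, φ (algebraMap R S r) = algebraMap R' S' (f r))
    (b : Module.Basis ι R S) (b' : Module.Basis ι R' S') (hb : ∀ i, φ (b i) = b' i)
    (y : S) (i : ι) : b'.repr (φ y) i = f (b.repr y i) := by
  have h1 : φ y = ∑ j, f (b.repr y j) • b' j := by
    conv_lhs => rw [← b.sum_repr y]
    rw [map_sum]
    refine Finset.sum_congr rfl fun j _ => ?_
    rw [Algebra.smul_def, map_mul, hφ, hb, Algebra.smul_def]
  rw [h1, map_sum, Finsupp.coe_finsetSum, Finset.sum_apply]
  simp only [map_smul, Module.Basis.repr_self, Finsupp.smul_apply, Finsupp.single_apply,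
    smul_eq_mul, mul_ite, mul_one, mul_zero, Finset.sum_ite_eq', Finset.mem_univ, if_true]

/-- **(C1, trace)** the trace commutes with a base change that sends a basis to a basis. -/
theorem purx_trace_map (f : R →+* R') (φ : S →+* S')
    (hφ : ∀ r, φ (algebraMap R S r) = algebraMap R' S' (f r))
    (b : Module.Basis ι R S) (b' : Module.Basis ι R' S') (hb : ∀ i, φ (b i) = b' i)
    (x : S) : Algebra.trace R' S' (φ x) = f (Algebra.trace R S x) := by
  rw [Algebra.trace_eq_matrix_trace b, Algebra.trace_eq_matrix_trace b', Matrix.trace,
    Matrix.trace, map_sum]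
  refine Finset.sum_congr rfl fun i _ => ?_
  simp only [Matrix.diag_apply, Algebra.leftMulMatrix_eq_repr_mul]
  rw [← hb i, ← map_mul, purx_repr_map f φ hφ b b' hb]

/-- **(C1)** the discriminant commutes with a base change that sends a basis to a basis. -/
theorem purx_discr_map (f : R →+* R') (φ : S →+* S')
    (hφ : ∀ r, φ (algebraMap R S r) = algebraMap R' S' (f r))
    (b : Module.Basis ι R S) (b' : Module.Basis ι R' S') (hb : ∀ i, φ (b i) = b' i) :
    Algebra.discr R' b' = f (Algebra.discr R b) := by
  rw [Algebra.discr_def, Algebra.discr_def, RingHom.map_det]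
  congr 1
  ext i j
  simp only [Algebra.traceMatrix_apply, Algebra.traceForm_apply, RingHom.mapMatrix_apply,
    Matrix.map_apply]
  rw [← hb i, ← hb j, ← map_mul, purx_trace_map f φ hφ b b' hb]

/-- unit discriminants stay units under base change. -/
theorem purx_isUnit_discr_map (f : R →+* R') (φ : S →+* S')
    (hφ : ∀ r, φ (algebraMap R S r) = algebraMap R' S' (f r))
    (b : Module.Basis ι R S) (b' : Module.Basis ι R' S') (hb : ∀ i, φ (b i) = b' i)
    (hu : IsUnit (Algebra.discr R b)) : IsUnit (Algebra.discr R' b') := by
  rw [purx_discr_map f φ hφ b b' hb]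
  exact hu.map f

end C1




section C2

variable {ι : Type*} [Fintype ι] [DecidableEq ι]

/-- **(C2, field form)** `R` integrally closed with fraction field `K`, `L / K` a finite field
extension with a `K`-basis `b` of `R`-integral elements whose trace matrix comes from a matrix over
`R` with unit determinant.  Then every `R`-integral element of `L` is an `R`-combination of `b`. -/
theorem purx_mem_span_of_isIntegral {R K L : Type*} [CommRing R] [IsDomain R]
    [IsIntegrallyClosed R] [Field K] [Field L] [Algebra R K] [IsFractionRing R K] [Algebra K L]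
    [Algebra R L] [IsScalarTower R K L] (b : Module.Basis ι K L) (hb : ∀ i, IsIntegral R (b i))
    (M : Matrix ι ι R) (hM : M.map (algebraMap R K) = Algebra.traceMatrix K b)
    (hu : IsUnit M.det) {x : L} (hx : IsIntegral R x) :
    x ∈ Submodule.span R (Set.range b) := by
  have : FiniteDimensional K L := Module.Finite.of_basis b
  -- the traces `Tr (x * b i)` lie in `R`
  have htr : ∀ i, ∃ t : R, algebraMap R K t = Algebra.trace K L (x * b i) := fun i =>
    IsIntegrallyClosed.isIntegral_iff.1 (Algebra.isIntegral_trace (hx.mul (hb i)))
  choose t ht using htr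
  -- `M * c = t`
  have h1 : (Algebra.traceMatrix K b) *ᵥ (b.equivFun x) = fun i => Algebra.trace K L (x * b i) :=
    Algebra.traceMatrix_of_basis_mulVec b x
  -- invert `M` over `R`
  have hinv : M⁻¹ * M = 1 := Matrix.nonsing_inv_mul M hu
  have h2 : b.equivFun x = fun i => algebraMap R K ((M⁻¹ *ᵥ t) i) := by
    have h3 : (M⁻¹.map (algebraMap R K)) *ᵥ ((M.map (algebraMap R K)) *ᵥ (b.equivFun x)) =
        b.equivFun x := by
      rw [Matrix.mulVec_mulVec, ← Matrix.map_mul, hinv, Matrix.map_one _ (map_zero _) (map_one _),
        Matrix.one_mulVec]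
    rw [← h3, hM, h1]
    funext i
    simp only [Matrix.mulVec, dotProduct, Matrix.map_apply, map_sum, map_mul, ht]
  have h4 : x = ∑ i, ((M⁻¹ *ᵥ t) i) • b i := by
    conv_lhs => rw [← b.sum_equivFun x]
    refine Finset.sum_congr rfl fun i _ => ?_
    rw [h2, algebraMap_smul]
  rw [h4]
  exact Submodule.sum_mem _ fun i _ => Submodule.smul_mem _ _ (Submodule.subset_span ⟨i, rfl⟩)


attribute [local instance] FractionRing.liftAlgebra in
/-- **(C2)** a domain which is free of finite rank with unit discriminant over an integrally closed
domain is integrally closed. -/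
theorem purx_isIntegrallyClosed_of_isUnit_discr {R S : Type*} [CommRing R] [IsDomain R]
    [IsIntegrallyClosed R] [CommRing S] [IsDomain S] [Algebra R S] (b : Module.Basis ι R S)
    (hu : IsUnit (Algebra.discr R b)) : IsIntegrallyClosed S := by
  have hfree : Module.Free R S := Module.Free.of_basis b
  have hfin : Module.Finite R S := Module.Finite.of_basis b
  have hint : Algebra.IsIntegral R S := Algebra.IsIntegral.of_finite R S
  let K := FractionRing R
  let L := FractionRing S
  -- the basis of `L / K` induced by `b`
  let bL : Module.Basis ι K L := b.localizationLocalization K (nonZeroDivisors R) L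
  have hbL : ∀ i, bL i = algebraMap S L (b i) := fun i =>
    Module.Basis.localizationLocalization_apply K (nonZeroDivisors R) L b i
  have hbint : ∀ i, IsIntegral R (bL i) := fun i => by
    rw [hbL]
    exact (Algebra.IsIntegral.isIntegral (b i)).map (IsScalarTower.toAlgHom R S L)
  have hM : (Algebra.traceMatrix R b).map (algebraMap R K) = Algebra.traceMatrix K bL := by
    ext i j
    simp only [Matrix.map_apply, Algebra.traceMatrix_apply, Algebra.traceForm_apply]
    rw [hbL, hbL, ← map_mul (algebraMap S L),
      Algebra.trace_localization R (nonZeroDivisors R) (Rₘ := K) (Sₘ := L)]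
  refine (isIntegrallyClosed_iff L).2 fun {x} hx => ?_
  have hxR : IsIntegral R x := isIntegral_trans x hx
  have hmem := purx_mem_span_of_isIntegral bL hbint (Algebra.traceMatrix R b) hM hu hxR
  have hle : Submodule.span R (Set.range bL) ≤
      LinearMap.range (IsScalarTower.toAlgHom R S L).toLinearMap := by
    rw [Submodule.span_le]
    rintro _ ⟨i, rfl⟩
    exact ⟨b i, (hbL i).symm⟩
  obtain ⟨y, hy⟩ := hle hmem
  exact ⟨y, hy⟩

/-- **(C2, consumer form)** `R` integrally closed with fraction field `K`; `L / K` a finite field
extension; `S` an `R`-algebra with a finite `R`-basis `b` of unit discriminant, embedded in `L`,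
with `[L : K] = rank_R S`.  Then `S` is the integral closure of `R` in `L`. -/
theorem purx_isIntegralClosure_of_isUnit_discr {R K L S : Type*} [CommRing R] [IsDomain R]
    [IsIntegrallyClosed R] [Field K] [Field L] [Algebra R K] [IsFractionRing R K] [Algebra K L]
    [Algebra R L] [IsScalarTower R K L] [FiniteDimensional K L]
    [CommRing S] [Algebra R S] [Algebra S L] [IsScalarTower R S L]
    (hinj : Function.Injective (algebraMap S L))
    (b : Module.Basis ι R S) (hu : IsUnit (Algebra.discr R b))
    (hrank : Module.finrank K L = Fintype.card ι) :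
    IsIntegralClosure S R L := by
  have hfin : Module.Finite R S := Module.Finite.of_basis b
  have hint : Algebra.IsIntegral R S := Algebra.IsIntegral.of_finite R S
  -- the family `b` inside `L`
  set v : ι → L := fun i => algebraMap S L (b i) with hv
  have hliR : LinearIndependent R v := by
    have h1 : LinearIndependent R (b : ι → S) := b.linearIndependent
    have h2 := h1.map' (IsScalarTower.toAlgHom R S L).toLinearMap
      (LinearMap.ker_eq_bot.2 hinj)
    exact h2
  have hliK : LinearIndependent K v :=
    LinearIndependent.localization K (nonZeroDivisors R) hliR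
  let bL : Module.Basis ι K L := basisOfLinearIndependentOfCardEqFinrank' v hliK hrank.symm
  have hbL : ∀ i, bL i = algebraMap S L (b i) := fun i => by
    simp only [bL, coe_basisOfLinearIndependentOfCardEqFinrank', hv]
  have hbint : ∀ i, IsIntegral R (bL i) := fun i => by
    rw [hbL]
    exact (Algebra.IsIntegral.isIntegral (b i)).map (IsScalarTower.toAlgHom R S L)
  have hcompat : ∀ r, (algebraMap S L) (algebraMap R S r) = algebraMap K L (algebraMap R K r) :=
    fun r => by
      rw [← IsScalarTower.algebraMap_apply R S L, ← IsScalarTower.algebraMap_apply R K L]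
  have hM : (Algebra.traceMatrix R b).map (algebraMap R K) = Algebra.traceMatrix K bL := by
    ext i j
    simp only [Matrix.map_apply, Algebra.traceMatrix_apply, Algebra.traceForm_apply]
    rw [hbL, hbL, ← map_mul (algebraMap S L),
      purx_trace_map (algebraMap R K) (algebraMap S L) hcompat b bL (fun i => (hbL i).symm)]
  refine ⟨hinj, fun {x} => ⟨fun hx => ?_, ?_⟩⟩
  · have hmem := purx_mem_span_of_isIntegral bL hbint (Algebra.traceMatrix R b) hM hu hx
    have hle : Submodule.span R (Set.range bL) ≤
        LinearMap.range (IsScalarTower.toAlgHom R S L).toLinearMap := by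
      rw [Submodule.span_le]
      rintro _ ⟨i, rfl⟩
      exact ⟨b i, (hbL i).symm⟩
    obtain ⟨y, hy⟩ := hle hmem
    exact ⟨y, hy⟩
  · rintro ⟨y, rfl⟩
    exact (Algebra.IsIntegral.isIntegral y).map (IsScalarTower.toAlgHom R S L)

end C2




section Quot

variable {R S : Type*} [CommRing R] [CommRing S] [Algebra R S]
variable {ι : Type*}

/-- membership in `I S` is coordinatewise membership in `I`. -/
theorem purx_mem_map_iff_repr (I : Ideal R) (b : Module.Basis ι R S) (x : S) :
    x ∈ I.map (algebraMap R S) ↔ ∀ i, b.repr x i ∈ I := by
  have h0 : x ∈ I.map (algebraMap R S) ↔ x ∈ I • (⊤ : Submodule R S) := by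
    rw [Ideal.smul_top_eq_map]; rfl
  rw [h0, ← b.span_eq, Submodule.mem_ideal_smul_span_iff_exists_sum]
  constructor
  · rintro ⟨a, ha, rfl⟩ i
    have : b.repr (a.sum fun i c => c • b i) = a := by
      have h1 : (a.sum fun i c => c • b i) = Finsupp.linearCombination R b a := rfl
      rw [h1, b.repr_linearCombination]
    rw [this]
    exact ha i
  · intro h
    refine ⟨b.repr x, h, ?_⟩
    exact b.linearCombination_repr x

variable [Fintype ι] [DecidableEq ι]

/-- the induced basis of `S / I S` over `R / I`. -/
noncomputable def purx_quotientBasis (I : Ideal R) (b : Module.Basis ι R S) :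
    Module.Basis ι (R ⧸ I) (S ⧸ I.map (algebraMap R S)) :=
  Module.Basis.mk (v := fun i => Ideal.Quotient.mk (I.map (algebraMap R S)) (b i))
    (by
      rw [Fintype.linearIndependent_iff]
      intro g hg i
      have hsurj : ∀ j, ∃ c : R, Ideal.Quotient.mk I c = g j := fun j =>
        Ideal.Quotient.mk_surjective (g j)
      choose c hc using hsurj
      have h1 : (∑ j, g j • Ideal.Quotient.mk (I.map (algebraMap R S)) (b j)) =
          Ideal.Quotient.mk (I.map (algebraMap R S)) (∑ j, c j • b j) := by
        rw [map_sum]
        refine Finset.sum_congr rfl fun j _ => ?_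
        rw [← hc j, Ideal.Quotient.mk_smul_mk_quotient_map_quotient, Algebra.smul_def]
      rw [h1, Ideal.Quotient.eq_zero_iff_mem, purx_mem_map_iff_repr I b] at hg
      have h2 := hg i
      have h3 : b.repr (∑ j, c j • b j) i = c i := by
        simp [Finsupp.single_apply]
      rw [h3] at h2
      rw [← hc i]
      exact Ideal.Quotient.eq_zero_iff_mem.2 h2)
    (by
      rintro y -
      obtain ⟨x, rfl⟩ := Ideal.Quotient.mk_surjective y
      rw [← b.sum_repr x, map_sum]
      refine Submodule.sum_mem _ fun j _ => ?_
      rw [Algebra.smul_def, ← Ideal.Quotient.mk_smul_mk_quotient_map_quotient]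
      exact Submodule.smul_mem _ _ (Submodule.subset_span ⟨j, rfl⟩))

theorem purx_quotientBasis_apply (I : Ideal R) (b : Module.Basis ι R S) (i : ι) :
    purx_quotientBasis I b i = Ideal.Quotient.mk (I.map (algebraMap R S)) (b i) := by
  simp [purx_quotientBasis]

end Quot


section QuotCor

variable {R S : Type*} [CommRing R] [CommRing S] [Algebra R S]
variable {ι : Type*} [Fintype ι] [DecidableEq ι]

/-- the discriminant of the quotient basis is the image of the discriminant. -/
theorem purx_discr_quotientBasis (I : Ideal R) (b : Module.Basis ι R S) :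
    Algebra.discr (R ⧸ I) (purx_quotientBasis I b) = Ideal.Quotient.mk I (Algebra.discr R b) :=
  purx_discr_map (Ideal.Quotient.mk I) (Ideal.Quotient.mk (I.map (algebraMap R S)))
    (fun _ => rfl) b (purx_quotientBasis I b) (fun i => (purx_quotientBasis_apply I b i).symm)

/-- unit discriminant passes to the quotient `S / I S` over `R / I`. -/
theorem purx_isUnit_discr_quotient (I : Ideal R) (b : Module.Basis ι R S)
    (hu : IsUnit (Algebra.discr R b)) :
    IsUnit (Algebra.discr (R ⧸ I) (purx_quotientBasis I b)) := by
  rw [purx_discr_quotientBasis]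
  exact hu.map _

/-- **(consumer form for NRM_Y)** `S` free over `R` with unit discriminant, `I` an ideal of `R`
with `R / I` an integrally closed domain with fraction field `K`; `L / K` a finite field extension
of degree `rank_R S` into which `S / I S` embeds.  Then `S / I S` is the integral closure of
`R / I` in `L`. -/
theorem purx_quotient_isIntegralClosure (I : Ideal R) [IsDomain (R ⧸ I)]
    [IsIntegrallyClosed (R ⧸ I)] {K L : Type*} [Field K] [Field L] [Algebra (R ⧸ I) K]
    [IsFractionRing (R ⧸ I) K] [Algebra K L] [Algebra (R ⧸ I) L] [IsScalarTower (R ⧸ I) K L]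
    [FiniteDimensional K L] [Algebra (S ⧸ I.map (algebraMap R S)) L]
    [IsScalarTower (R ⧸ I) (S ⧸ I.map (algebraMap R S)) L]
    (hinj : Function.Injective (algebraMap (S ⧸ I.map (algebraMap R S)) L))
    (b : Module.Basis ι R S) (hu : IsUnit (Algebra.discr R b))
    (hrank : Module.finrank K L = Fintype.card ι) :
    IsIntegralClosure (S ⧸ I.map (algebraMap R S)) (R ⧸ I) L :=
  purx_isIntegralClosure_of_isUnit_discr hinj (purx_quotientBasis I b)
    (purx_isUnit_discr_quotient I b hu) hrank

end QuotCor



section C3

variable {ι : Type*} [Fintype ι] [DecidableEq ι]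

/-- an element orthogonal to a basis for the trace form vanishes when the discriminant is a unit -/
theorem purx_eq_zero_of_trace_mul_eq_zero {R S : Type*} [CommRing R] [CommRing S] [Algebra R S]
    (b : Module.Basis ι R S) (hu : IsUnit (Algebra.discr R b)) {x : S}
    (hx : ∀ i, Algebra.trace R S (x * b i) = 0) : x = 0 := by
  have h1 : (Algebra.traceMatrix R b) *ᵥ (b.equivFun x) = fun i => Algebra.trace R S (x * b i) :=
    Algebra.traceMatrix_of_basis_mulVec b x
  have h2 : (Algebra.traceMatrix R b) *ᵥ (b.equivFun x) = 0 := by
    rw [h1]; funext i; exact hx i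
  have hinv : (Algebra.traceMatrix R b)⁻¹ * (Algebra.traceMatrix R b) = 1 :=
    Matrix.nonsing_inv_mul _ hu
  have h3 : b.equivFun x = 0 := by
    have := congrArg (fun v => (Algebra.traceMatrix R b)⁻¹ *ᵥ v) h2
    simpa [Matrix.mulVec_mulVec, hinv] using this
  exact b.equivFun.map_eq_zero_iff.1 h3

/-- **(C3)** unit discriminant over a reduced base ring => reduced. -/
theorem purx_isReduced_of_isUnit_discr {R S : Type*} [CommRing R] [IsReduced R] [CommRing S]
    [Algebra R S] (b : Module.Basis ι R S) (hu : IsUnit (Algebra.discr R b)) : IsReduced S := by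
  refine ⟨fun x hx => ?_⟩
  refine purx_eq_zero_of_trace_mul_eq_zero b hu fun i => ?_
  have hnil : IsNilpotent (x * b i) := (Commute.all x (b i)).isNilpotent_mul_right hx
  exact (Algebra.isNilpotent_trace_of_isNilpotent hnil).eq_zero

/-- **(C3, fields)** a finite field extension with a basis of nonzero discriminant is separable -/
theorem purx_isSeparable_of_discr_ne_zero {K L : Type*} [Field K] [Field L] [Algebra K L]
    (b : Module.Basis ι K L) (hd : Algebra.discr K b ≠ 0) : Algebra.IsSeparable K L := by
  have : FiniteDimensional K L := Module.Finite.of_basis b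
  refine ((traceForm_nondegenerate_tfae K L).out 0 2).2 ?_
  refine LinearMap.BilinForm.nondegenerate_of_det_ne_zero (Algebra.traceForm K L) b ?_
  rwa [← Algebra.traceMatrix_of_basis, ← Algebra.discr_def]

end C3


end Fermat.Agent.S18x
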