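import Mathlib
import Fermat.Agent.S18x.PurxUnitDiscr

/-!
# S18x / PUR (A4, helper18): unramified in characteristic zero => discriminant is a unit

Mathlib + `PurxUnitDiscr` only.

* `purx_isNilpotent_of_trace_mul_eq_zero` (A4-core): over a field of characteristic zero, the
  radical of the trace form of a finite-dimensional commutative algebra consists of nilpotents.
* `purx_discr_ne_zero_of_isReduced`: hence a reduced algebra has nonzero discriminant.
* `purx_discr_not_mem_of_isReduced_quotient` (A4): `B` free over `A` with basis `b`, `I` maximal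
  with residue characteristic zero and `B / I B` reduced  =>  `discr A b ∉ I`.
* `purx_exists_family_of_fraction` (A4-glue): produces the shape of hypothesis `(hH)` of
  `pur_isUnit_discr` / PurMain from a family with denominators outside `q`.
-/

set_option autoImplicit false

namespace Fermat.Agent.S18x

open Polynomial

section A4core

/-- **(A4-core)** in characteristic zero, an element of a finite-dimensional commutative algebra
which is orthogonal to everything for the trace form is nilpotent. -/
theorem purx_isNilpotent_of_trace_mul_eq_zero {κ S : Type*} [Field κ] [CharZero κ] [CommRing S]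
    [Algebra κ S] [FiniteDimensional κ S] {x : S}
    (hx : ∀ y : S, Algebra.trace κ S (x * y) = 0) : IsNilpotent x := by
  -- an annihilating polynomial divisible by `X`
  have hint : IsIntegral κ x := IsIntegral.of_finite κ x
  set m : κ[X] := X * minpoly κ x with hm
  have hm0 : m ≠ 0 := mul_ne_zero X_ne_zero (minpoly.ne_zero hint)
  have hmx : aeval x m = 0 := by rw [hm, map_mul, minpoly.aeval, mul_zero]
  obtain ⟨g, hg, hXg⟩ := exists_eq_pow_rootMultiplicity_mul_and_not_dvd m hm0 0
  set a := m.rootMultiplicity 0 with ha
  have ha1 : 0 < a := by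
    rw [ha, rootMultiplicity_pos hm0, IsRoot.def, hm]
    simp
  rw [C_0, sub_zero] at hg hXg
  -- Bezout
  have hcop : IsCoprime (X ^ a : κ[X]) g := by
    have h1 : IsCoprime (X : κ[X]) g := (irreducible_X.coprime_iff_not_dvd).2 hXg
    exact h1.pow_left
  obtain ⟨u, v, huv⟩ := hcop
  set e : S := aeval x (u * X ^ a) with he
  set e' : S := aeval x (v * g) with he'
  have hsum : e + e' = 1 := by
    rw [he, he', ← map_add, huv, map_one]
  have hprod : e * e' = 0 := by
    rw [he, he', ← map_mul]
    have : u * X ^ a * (v * g) = u * v * m := by rw [hg]; ring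
    rw [this, map_mul, hmx, mul_zero]
  have hidem : e * e = e := by
    have : e * (e + e') = e := by rw [hsum, mul_one]
    rw [mul_add, hprod, add_zero] at this
    exact this
  -- `e = x * y`
  have hexy : e = x * aeval x (u * X ^ (a - 1)) := by
    rw [he]
    have : u * X ^ a = X * (u * X ^ (a - 1)) := by
      conv_lhs => rw [← Nat.sub_add_cancel ha1, pow_succ]
      ring
    rw [this, map_mul, aeval_X]
  have htr : Algebra.trace κ S e = 0 := by rw [hexy]; exact hx _
  -- the idempotent endomorphism `e * ·` has trace zero, hence vanishes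
  have hidemL : IsIdempotentElem (Algebra.lmul κ S e) := by
    change Algebra.lmul κ S e * Algebra.lmul κ S e = Algebra.lmul κ S e
    rw [← map_mul, hidem]
  have hL0 : Algebra.lmul κ S e = 0 := by
    apply (LinearMap.IsIdempotentElem.trace_eq_zero_iff hidemL).1
    rw [← Algebra.trace_apply]
    exact htr
  have he0 : e = 0 := by
    have := congrArg (fun f : S →ₗ[κ] S => f 1) hL0
    simpa using this
  -- so `e' = 1` and `x ^ a = 0`
  have he'1 : e' = 1 := by rw [← hsum, he0, zero_add]
  refine ⟨a, ?_⟩
  have h1 : x ^ a = aeval x (X ^ a * (v * g)) := by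
    rw [map_mul, ← he', he'1, mul_one, map_pow, aeval_X]
  have h2 : (X ^ a * (v * g) : κ[X]) = v * m := by rw [hg]; ring
  rw [h1, h2, map_mul, hmx, mul_zero]


variable {ι : Type*} [Fintype ι] [DecidableEq ι]

/-- in characteristic zero, the discriminant of a basis of a reduced finite-dimensional
commutative algebra is nonzero. -/
theorem purx_discr_ne_zero_of_isReduced {κ S : Type*} [Field κ] [CharZero κ] [CommRing S]
    [Algebra κ S] [IsReduced S] (b : Module.Basis ι κ S) : Algebra.discr κ b ≠ 0 := by
  have hfd : FiniteDimensional κ S := Module.Finite.of_basis b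
  intro hd
  rw [Algebra.discr_def] at hd
  obtain ⟨v, hv0, hv⟩ := Matrix.exists_mulVec_eq_zero_iff.2 hd
  set x : S := ∑ i, v i • b i with hxdef
  have hrepr : b.equivFun x = v := by
    rw [hxdef]
    exact b.equivFun_apply _ ▸ (by
      funext i
      simp [Finsupp.single_apply])
  have h1 : (Algebra.traceMatrix κ b).mulVec (b.equivFun x) =
      fun i => Algebra.trace κ S (x * b i) := Algebra.traceMatrix_of_basis_mulVec b x
  rw [hrepr, hv] at h1
  have hbi : ∀ i, Algebra.trace κ S (x * b i) = 0 := fun i => (congrFun h1 i).symm
  have hall : ∀ y : S, Algebra.trace κ S (x * y) = 0 := by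
    intro y
    rw [← b.sum_repr y, Finset.mul_sum, map_sum]
    refine Finset.sum_eq_zero fun i _ => ?_
    rw [mul_smul_comm, map_smul, hbi i, smul_zero]
  have hx0 : x = 0 := (purx_isNilpotent_of_trace_mul_eq_zero hall).eq_zero
  apply hv0
  rw [← hrepr, hx0, map_zero]

/-- **(A4)** `B` free over `A` with basis `b`, `I` a maximal ideal of `A` with residue field of
characteristic zero such that `B / I B` is reduced (i.e. `B` is unramified over `I`).  Then the
discriminant of `b` is not in `I`. -/
theorem purx_discr_not_mem_of_isReduced_quotient {A B : Type*} [CommRing A] [CommRing B]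
    [Algebra A B] (I : Ideal A) [hI : I.IsMaximal] [CharZero (A ⧸ I)] (b : Module.Basis ι A B)
    [IsReduced (B ⧸ I.map (algebraMap A B))] : Algebra.discr A b ∉ I := by
  let _ : Field (A ⧸ I) := Ideal.Quotient.field I
  intro hmem
  have h1 := purx_discr_quotientBasis I b
  rw [Ideal.Quotient.eq_zero_iff_mem.2 hmem] at h1
  exact purx_discr_ne_zero_of_isReduced (purx_quotientBasis I b) h1

end A4core

section A4glue

variable {ι : Type*} [Fintype ι] [DecidableEq ι]

/-- **(A4-glue)** from a family of `L` which is, up to denominators outside `q`, in the integral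
closure `R` and whose discriminant is a fraction of elements outside `q`, to the shape of the
hypothesis `(hH)` of purity: a family of `R` whose discriminant lies in `B0` but not in `q`. -/
theorem purx_exists_family_of_fraction {B0 K L R : Type*} [CommRing B0] [IsDomain B0]
    [IsIntegrallyClosed B0] [Field K] [Algebra B0 K] [IsFractionRing B0 K] [Field L] [Algebra K L]
    [Algebra B0 L] [IsScalarTower B0 K L] [FiniteDimensional K L] [CommRing R] [Algebra B0 R]
    [Algebra R L] [IsScalarTower B0 R L] [IsIntegralClosure R B0 L] (q : Ideal B0)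
    [hq : q.IsPrime]
    (c' : ι → L) (s : ι → B0) (hs : ∀ i, s i ∉ q)
    (hint : ∀ i, IsIntegral B0 (algebraMap B0 L (s i) * c' i))
    (a t : B0) (ha : a ∉ q)
    (hdisc : algebraMap B0 K t * Algebra.discr K c' = algebraMap B0 K a) :
    ∃ c : ι → R, ∃ d : B0,
      algebraMap B0 K d = Algebra.discr K (fun i => algebraMap R L (c i)) ∧ d ∉ q := by
  have hex : ∀ i, ∃ r : R, algebraMap R L r = algebraMap B0 L (s i) * c' i := fun i =>
    IsIntegralClosure.isIntegral_iff.1 (hint i)
  choose c hc using hex
  refine ⟨c, ?_⟩
  -- the new family is a diagonal transform of the old one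
  set D : Matrix ι ι K := Matrix.diagonal fun i => algebraMap B0 K (s i) with hD
  have hfam : (fun i => algebraMap R L (c i)) = (D.map (algebraMap K L)).mulVec c' := by
    funext i
    rw [hc i, hD, Matrix.mulVec, dotProduct, Finset.sum_eq_single i]
    · simp [IsScalarTower.algebraMap_apply B0 K L]
    · intro j _ hji
      simp [Matrix.diagonal_apply_ne _ hji.symm]
    · intro h; exact absurd (Finset.mem_univ i) h
  have hdis : Algebra.discr K (fun i => algebraMap R L (c i)) =
      (∏ i, algebraMap B0 K (s i)) ^ 2 * Algebra.discr K c' := by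
    rw [hfam, Algebra.discr_of_matrix_mulVec, hD, Matrix.det_diagonal]
  -- the discriminant is integral over `B0`, hence in `B0`
  have hint2 : IsIntegral B0 (Algebra.discr K (fun i => algebraMap R L (c i))) :=
    Algebra.discr_isIntegral K fun i =>
      (IsIntegralClosure.isIntegral B0 L (c i)).map (IsScalarTower.toAlgHom B0 R L)
  obtain ⟨d, hd⟩ := IsIntegrallyClosed.isIntegral_iff.1 hint2
  refine ⟨d, hd, fun hdq => ?_⟩
  -- `d * t = (∏ s i) ^ 2 * a`
  have hinj : Function.Injective (algebraMap B0 K) := IsFractionRing.injective B0 K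
  have heq : d * t = (∏ i, s i) ^ 2 * a := by
    apply hinj
    rw [map_mul, map_mul, map_pow, map_prod, hd, hdis, ← hdisc]
    ring
  have hmem : (∏ i, s i) ^ 2 * a ∈ q := heq ▸ q.mul_mem_right t hdq
  rcases hq.mem_or_mem hmem with h | h
  · have h2 : ∏ i, s i ∈ q := hq.mem_of_pow_mem 2 h
    obtain ⟨i, -, hi⟩ := (hq.prod_mem_iff).1 h2
    exact hs i hi
  · exact ha h

end A4glue

end Fermat.Agent.S18x
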