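import Mathlib
import Fermat.Agent.S18x.PurxA4

/-!
# S18x / PUR (A4 glue, helper18): from pointwise unramifiedness to hypothesis `(hH)` of purity

Mathlib + `PurxUnitDiscr` + `PurxA4` only.

* `purx_isReduced_quotient_of_unramified`: if `g` generates `M T_M` at every maximal ideal
  `M ∋ g` (elementwise form = output of `purh_unramified`), then `T / g T` is reduced.
* `purx_discr_not_mem_of_unramified`, `purx_isUnit_discr_of_unramified`: hence (residue
  characteristic zero) the discriminant of a basis is not in `(g)` / is a unit.
* `purx_exists_family_of_local_basis`: a basis of the integral closure of `(B0)_q` with unit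
  discriminant gives the `(hH)` shape at `q` (family of `R`, discriminant in `B0 \ q`).
* `purx_hH_at_of_unramified`: the two combined.
* `purx_hH_bot`: `(hH)` at the zero ideal from separability.
-/

set_option autoImplicit false

namespace Fermat.Agent.S18x

section Red

/-- **(L1 ⇒ reduced)** if at every maximal ideal `M` of `T` containing `g` the element `g`
generates `M T_M` (elementwise form of helper33's `purh_unramified`), then `T / g T` is reduced. -/
theorem purx_isReduced_quotient_of_unramified {T : Type*} [CommRing T] (g : T)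
    (h : ∀ M : Ideal T, M.IsMaximal → g ∈ M →
      ∀ x ∈ M, ∃ s : T, s ∉ M ∧ ∃ u : T, s * x = g * u) :
    IsReduced (T ⧸ Ideal.span {g}) := by
  refine ⟨fun y hy => ?_⟩
  obtain ⟨x, rfl⟩ := Ideal.Quotient.mk_surjective y
  obtain ⟨n, hn⟩ := hy
  rw [← map_pow, Ideal.Quotient.eq_zero_iff_mem] at hn
  rw [Ideal.Quotient.eq_zero_iff_mem]
  -- the colon ideal `(g : x)`
  set J : Ideal T := Submodule.comap (LinearMap.mulRight T x) (Ideal.span {g}) with hJ
  have hJmem : ∀ t : T, t ∈ J ↔ t * x ∈ Ideal.span {g} := by
    intro t
    rw [hJ, Submodule.mem_comap, LinearMap.mulRight_apply]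
  by_contra hx
  have hJne : J ≠ ⊤ := by
    intro htop
    have h1 : (1 : T) ∈ J := by rw [htop]; trivial
    rw [hJmem, one_mul] at h1
    exact hx h1
  obtain ⟨M, hMmax, hJM⟩ := Ideal.exists_le_maximal J hJne
  have hgM : g ∈ M := hJM ((hJmem g).2 (Ideal.mul_mem_right _ _ (Ideal.subset_span rfl)))
  have hxM : x ∈ M := by
    have h1 : x ^ n ∈ M := by
      have hle : Ideal.span {g} ≤ M := (Ideal.span_singleton_le_iff_mem M).2 hgM
      exact hle hn
    exact hMmax.isPrime.mem_of_pow_mem n h1
  obtain ⟨s, hsM, u, hsu⟩ := h M hMmax hgM x hxM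
  apply hsM
  apply hJM
  rw [hJmem, hsu]
  exact Ideal.mul_mem_right _ _ (Ideal.subset_span rfl)

end Red

section Local

variable {ι : Type*} [Fintype ι] [DecidableEq ι]

/-- **(A4, elementwise form)** `B` free over `A` with basis `b`; `g : A` generates a maximal ideal
with residue field of characteristic zero; at every maximal ideal `M` of `B` containing `g` the
element `g` generates `M B_M`.  Then `discr A b ∉ (g)`. -/
theorem purx_discr_not_mem_of_unramified {A B : Type*} [CommRing A] [CommRing B] [Algebra A B]
    (g : A) [hmax : (Ideal.span {g}).IsMaximal] [CharZero (A ⧸ Ideal.span {g})]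
    (b : Module.Basis ι A B)
    (h : ∀ M : Ideal B, M.IsMaximal → algebraMap A B g ∈ M →
      ∀ x ∈ M, ∃ s : B, s ∉ M ∧ ∃ u : B, s * x = algebraMap A B g * u) :
    Algebra.discr A b ∉ Ideal.span {g} := by
  have hmap : (Ideal.span {g}).map (algebraMap A B) = Ideal.span {algebraMap A B g} := by
    rw [Ideal.map_span, Set.image_singleton]
  have hred : IsReduced (B ⧸ (Ideal.span {g}).map (algebraMap A B)) := by
    rw [hmap]
    exact purx_isReduced_quotient_of_unramified _ h
  exact purx_discr_not_mem_of_isReduced_quotient (Ideal.span {g}) b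

/-- local version: the discriminant is a unit. -/
theorem purx_isUnit_discr_of_unramified {O T : Type*} [CommRing O] [IsLocalRing O] [CommRing T]
    [Algebra O T] (g : O) (hg : IsLocalRing.maximalIdeal O = Ideal.span {g})
    [CharZero (O ⧸ Ideal.span {g})] (b : Module.Basis ι O T)
    (h : ∀ M : Ideal T, M.IsMaximal → algebraMap O T g ∈ M →
      ∀ x ∈ M, ∃ s : T, s ∉ M ∧ ∃ u : T, s * x = algebraMap O T g * u) :
    IsUnit (Algebra.discr O b) := by
  have hmax : (Ideal.span {g}).IsMaximal := hg ▸ IsLocalRing.maximalIdeal.isMaximal O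
  have h1 := purx_discr_not_mem_of_unramified g b h
  rw [← hg] at h1
  by_contra hnu
  exact h1 ((IsLocalRing.mem_maximalIdeal _).2 hnu)

end Local

section Glue2

variable {ι : Type*} [Fintype ι] [DecidableEq ι]

/-- **(A4-glue, local basis form)** `B0` integrally closed with fraction field `K`, `L / K` finite,
`R` the integral closure of `B0` in `L`, `q` a prime of `B0`, `O = (B0)_q ⊆ K`, `T` the integral
closure of `O` in `L` with an `O`-basis `b` of unit discriminant.  Then hypothesis `(hH)` of purity
holds at `q`: some family of `R` has its discriminant in `B0 \ q`. -/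
theorem purx_exists_family_of_local_basis {B0 K L R O T : Type*} [CommRing B0] [IsDomain B0]
    [IsIntegrallyClosed B0] [Field K] [Algebra B0 K] [IsFractionRing B0 K] [Field L] [Algebra K L]
    [Algebra B0 L] [IsScalarTower B0 K L] [FiniteDimensional K L] [CommRing R] [Algebra B0 R]
    [Algebra R L] [IsScalarTower B0 R L] [IsIntegralClosure R B0 L] (q : Ideal B0)
    [hq : q.IsPrime]
    [CommRing O] [Algebra B0 O] [IsLocalization.AtPrime O q] [Algebra O K] [IsScalarTower B0 O K]
    [Algebra O L] [IsScalarTower O K L] [IsScalarTower B0 O L]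
    [CommRing T] [Algebra O T] [Algebra T L] [IsScalarTower O T L] [IsIntegralClosure T O L]
    (b : Module.Basis ι O T) (hu : IsUnit (Algebra.discr O b))
    (hrank : Module.finrank K L = Fintype.card ι) :
    ∃ c : ι → R, ∃ d : B0,
      algebraMap B0 K d = Algebra.discr K (fun i => algebraMap R L (c i)) ∧ d ∉ q := by
  have hdomO : IsDomain O :=
    IsLocalization.isDomain_of_le_nonZeroDivisors (R := B0) (M := q.primeCompl) O
      q.primeCompl_le_nonZeroDivisors
  have hfrO : IsFractionRing O K :=
    IsFractionRing.isFractionRing_of_isDomain_of_isLocalization q.primeCompl O K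
  -- the family `b` inside `L` is a `K`-basis
  have hinjT : Function.Injective (algebraMap T L) := IsIntegralClosure.algebraMap_injective T O L
  set v : ι → L := fun i => algebraMap T L (b i) with hv
  have hliO : LinearIndependent O v :=
    b.linearIndependent.map' (IsScalarTower.toAlgHom O T L).toLinearMap
      (LinearMap.ker_eq_bot.2 hinjT)
  have hliK : LinearIndependent K v :=
    LinearIndependent.localization K (nonZeroDivisors O) hliO
  let bL : Module.Basis ι K L := basisOfLinearIndependentOfCardEqFinrank' v hliK hrank.symm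
  have hbL : ∀ i, bL i = algebraMap T L (b i) := fun i => by
    simp only [bL, coe_basisOfLinearIndependentOfCardEqFinrank', hv]
  have hcompat : ∀ r, (algebraMap T L) (algebraMap O T r) = algebraMap K L (algebraMap O K r) :=
    fun r => by
      rw [← IsScalarTower.algebraMap_apply O T L, ← IsScalarTower.algebraMap_apply O K L]
  have hdiscr : Algebra.discr K v = algebraMap O K (Algebra.discr O b) := by
    have := purx_discr_map (algebraMap O K) (algebraMap T L) hcompat b bL
      (fun i => (hbL i).symm)
    rw [← this]
    congr 1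
    funext i
    exact (hbL i).symm
  -- write the unit discriminant as a fraction
  obtain ⟨a, t, hat⟩ := IsLocalization.exists_mk'_eq q.primeCompl (Algebra.discr O b)
  have hat' : Algebra.discr O b * algebraMap B0 O t = algebraMap B0 O a :=
    IsLocalization.mk'_spec' O a t ▸ by rw [hat, mul_comm]
  have haq : a ∉ q := by
    intro haq
    have h1 : IsUnit (algebraMap B0 O a) := by
      rw [← hat']
      exact hu.mul (IsLocalization.map_units O t)
    exact ((IsLocalization.AtPrime.isUnit_to_map_iff O q a).1 h1) haq
  -- denominators for the basis elements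
  have hintv : ∀ i, IsIntegral O (v i) := fun i =>
    (IsIntegralClosure.isIntegral O L (b i)).map (IsScalarTower.toAlgHom O T L)
  have hex : ∀ i, ∃ m : q.primeCompl, IsIntegral B0 (m • v i) := fun i =>
    IsIntegral.exists_multiple_integral_of_isLocalization q.primeCompl (v i) (hintv i)
  choose m hm using hex
  refine purx_exists_family_of_fraction q v (fun i => (m i : B0)) (fun i => (m i).2) ?_
    a (t : B0) haq ?_
  · intro i
    have := hm i
    rwa [Submonoid.smul_def, Algebra.smul_def] at this
  · rw [hdiscr, IsScalarTower.algebraMap_apply B0 O K, IsScalarTower.algebraMap_apply B0 O K a,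
      ← hat', map_mul, mul_comm]


/-- **(hH) at one horizontal prime, end to end**: `O = (B0)_q` has maximal ideal `(g)` with residue
characteristic zero, `T` (the integral closure of `O` in `L`) has an `O`-basis and is unramified
over `g` in the elementwise form of `purh_unramified`.  Then `(hH)` holds at `q`. -/
theorem purx_hH_at_of_unramified {B0 K L R O T : Type*} [CommRing B0] [IsDomain B0]
    [IsIntegrallyClosed B0] [Field K] [Algebra B0 K] [IsFractionRing B0 K] [Field L] [Algebra K L]
    [Algebra B0 L] [IsScalarTower B0 K L] [FiniteDimensional K L] [CommRing R] [Algebra B0 R]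
    [Algebra R L] [IsScalarTower B0 R L] [IsIntegralClosure R B0 L] (q : Ideal B0)
    [hq : q.IsPrime]
    [CommRing O] [Algebra B0 O] [IsLocalization.AtPrime O q] [Algebra O K] [IsScalarTower B0 O K]
    [Algebra O L] [IsScalarTower O K L] [IsScalarTower B0 O L]
    [CommRing T] [Algebra O T] [Algebra T L] [IsScalarTower O T L] [IsIntegralClosure T O L]
    (g : O) (hg : ∀ x : O, ¬ IsUnit x ↔ x ∈ Ideal.span {g}) [CharZero (O ⧸ Ideal.span {g})]
    (b : Module.Basis ι O T)
    (h : ∀ M : Ideal T, M.IsMaximal → algebraMap O T g ∈ M →
      ∀ x ∈ M, ∃ s : T, s ∉ M ∧ ∃ u : T, s * x = algebraMap O T g * u)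
    (hrank : Module.finrank K L = Fintype.card ι) :
    ∃ c : ι → R, ∃ d : B0,
      algebraMap B0 K d = Algebra.discr K (fun i => algebraMap R L (c i)) ∧ d ∉ q := by
  have hloc : IsLocalRing O := IsLocalization.AtPrime.isLocalRing O q
  have hmax : IsLocalRing.maximalIdeal O = Ideal.span {g} := by
    ext x
    rw [IsLocalRing.mem_maximalIdeal, mem_nonunits_iff, hg]
  exact purx_exists_family_of_local_basis q b
    (purx_isUnit_discr_of_unramified g hmax b h) hrank


/-- **(hH) at the zero ideal**: a separable extension has a family of integral elements with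
nonzero discriminant. -/
theorem purx_hH_bot {B0 K L R : Type*} [CommRing B0] [IsDomain B0]
    [IsIntegrallyClosed B0] [Field K] [Algebra B0 K] [IsFractionRing B0 K] [Field L] [Algebra K L]
    [Algebra B0 L] [IsScalarTower B0 K L] [FiniteDimensional K L] [Algebra.IsSeparable K L]
    [CommRing R] [Algebra B0 R] [Algebra R L] [IsScalarTower B0 R L] [IsIntegralClosure R B0 L]
    (hrank : Module.finrank K L = Fintype.card ι) :
    ∃ c : ι → R, ∃ d : B0,
      algebraMap B0 K d = Algebra.discr K (fun i => algebraMap R L (c i)) ∧ d ∉ (⊥ : Ideal B0) := by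
  have hprime : (⊥ : Ideal B0).IsPrime := Ideal.isPrime_bot
  let b0 : Module.Basis (Fin (Module.finrank K L)) K L := Module.finBasis K L
  let e : Fin (Module.finrank K L) ≃ ι :=
    Fintype.equivOfCardEq (by rw [Fintype.card_fin, hrank])
  let bL : Module.Basis ι K L := b0.reindex e
  have hne : Algebra.discr K bL ≠ 0 := Algebra.discr_not_zero_of_basis K bL
  -- the discriminant as a fraction
  obtain ⟨a, t, hat⟩ := IsLocalization.exists_mk'_eq (nonZeroDivisors B0) (Algebra.discr K bL)
  have hat' : Algebra.discr K bL * algebraMap B0 K t = algebraMap B0 K a :=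
    IsLocalization.mk'_spec' K a t ▸ by rw [hat, mul_comm]
  have ha0 : a ≠ 0 := by
    rintro rfl
    rw [map_zero] at hat'
    rcases mul_eq_zero.1 hat' with h | h
    · exact hne h
    · exact nonZeroDivisors.ne_zero t.2
        ((map_eq_zero_iff _ (IsFractionRing.injective B0 K)).1 h)
  -- integral multiples of the basis
  have halg : ∀ i, IsIntegral K (bL i) := fun i => IsIntegral.of_finite K (bL i)
  have hex : ∀ i, ∃ m : nonZeroDivisors B0, IsIntegral B0 (m • bL i) := fun i =>
    IsIntegral.exists_multiple_integral_of_isLocalization (nonZeroDivisors B0) (bL i) (halg i)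
  choose m hm using hex
  refine purx_exists_family_of_fraction (⊥ : Ideal B0) bL (fun i => (m i : B0))
    (fun i hi => nonZeroDivisors.ne_zero (m i).2 ((Ideal.mem_bot).1 hi)) ?_
    a (t : B0) (fun h => ha0 ((Ideal.mem_bot).1 h)) ?_
  · intro i
    have := hm i
    rwa [Submonoid.smul_def, Algebra.smul_def] at this
  · rw [← hat', mul_comm]

end Glue2

end Fermat.Agent.S18x
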