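import Mathlib
import Fermat.Agent.S18x.PurxHoriz

/-!
# S18x / PUR (A4 glue, part B, helper18): hypothesis `(hH)` of purity from reduced fibres

Mathlib + `PurxHoriz` only.

* `purx_exists_family_of_localization_basis`: as `purx_exists_family_of_local_basis`, for the
  localisation `O` of `B0` at any submonoid disjoint from `q` (e.g. `O = B0[1/p]`, `p ∉ q`).
* `purx_isUnit_discr_of_isReduced_fibres`: all closed fibres reduced + residue char 0 => the
  discriminant of a basis is a unit.
* `purx_hH_of_isReduced_fibres`, `purx_hH_fin_of_isReduced_fibres`: the full hypothesis `(hH)` of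
  `pur_quotient_isIntegrallyClosed` from `Ah = B0[1/p]`, `Rh` = integral closure of `Ah` in `L`
  with a basis, all closed fibres `Rh / I Rh` reduced (helper33's `lyh_isReduced`).
-/

set_option autoImplicit false

namespace Fermat.Agent.S18x

section Glue3

variable {ι : Type*} [Fintype ι] [DecidableEq ι]

/-- **(A4-glue, general localisation form)** like `purx_exists_family_of_local_basis`, but `O` is
the localisation of `B0` at ANY submonoid `S` disjoint from `q` (e.g. `S = powers p` with `p ∉ q`,
`O = B0[1/p]`). -/
theorem purx_exists_family_of_localization_basis {B0 K L R O T : Type*} [CommRing B0] [IsDomain B0]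
    [IsIntegrallyClosed B0] [Field K] [Algebra B0 K] [IsFractionRing B0 K] [Field L] [Algebra K L]
    [Algebra B0 L] [IsScalarTower B0 K L] [FiniteDimensional K L] [CommRing R] [Algebra B0 R]
    [Algebra R L] [IsScalarTower B0 R L] [IsIntegralClosure R B0 L] (q : Ideal B0)
    [hq : q.IsPrime] (S : Submonoid B0) (hS : ∀ s ∈ S, s ∉ q)
    [CommRing O] [Algebra B0 O] [IsLocalization S O] [Algebra O K] [IsScalarTower B0 O K]
    [Algebra O L] [IsScalarTower O K L] [IsScalarTower B0 O L]
    [CommRing T] [Algebra O T] [Algebra T L] [IsScalarTower O T L] [IsIntegralClosure T O L]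
    (b : Module.Basis ι O T) (hu : IsUnit (Algebra.discr O b))
    (hrank : Module.finrank K L = Fintype.card ι) :
    ∃ c : ι → R, ∃ d : B0,
      algebraMap B0 K d = Algebra.discr K (fun i => algebraMap R L (c i)) ∧ d ∉ q := by
  have hS0 : S ≤ nonZeroDivisors B0 := fun s hs =>
    mem_nonZeroDivisors_of_ne_zero fun h0 => hS s hs (h0 ▸ q.zero_mem)
  have hdomO : IsDomain O := IsLocalization.isDomain_of_le_nonZeroDivisors (R := B0) (M := S) O hS0
  have hinjBO : Function.Injective (algebraMap B0 O) := IsLocalization.injective O hS0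
  have hfrO : IsFractionRing O K :=
    IsFractionRing.isFractionRing_of_isDomain_of_isLocalization S O K
  -- the family `b` inside `L` is a `K`-basis
  have hinjT : Function.Injective (algebraMap T L) := IsIntegralClosure.algebraMap_injective T O L
  set v : ι → L := fun i => algebraMap T L (b i) with hv
  have hliO : LinearIndependent O v :=
    b.linearIndependent.map' (IsScalarTower.toAlgHom O T L).toLinearMap
      (LinearMap.ker_eq_bot.2 hinjT)
  have hliK : LinearIndependent K v :=
    LinearIndependent.localization K (nonZeroDivisors O) hliO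
  let bL : Module.Basis ι K L := basisOfLinearIndependentOfCardEqFinrank' v hliK hrank.symm
  have hbL : ∀ i, bL i = algebraMap T L (b i) := fun i => by
    simp only [bL, coe_basisOfLinearIndependentOfCardEqFinrank', hv]
  have hcompat : ∀ r, (algebraMap T L) (algebraMap O T r) = algebraMap K L (algebraMap O K r) :=
    fun r => by
      rw [← IsScalarTower.algebraMap_apply O T L, ← IsScalarTower.algebraMap_apply O K L]
  have hdiscr : Algebra.discr K v = algebraMap O K (Algebra.discr O b) := by
    have := purx_discr_map (algebraMap O K) (algebraMap T L) hcompat b bL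
      (fun i => (hbL i).symm)
    rw [← this]
    congr 1
    funext i
    exact (hbL i).symm
  -- write the unit discriminant and its inverse as fractions
  obtain ⟨w, hw⟩ := hu.exists_right_inv
  obtain ⟨a, t, hat⟩ := IsLocalization.exists_mk'_eq S (Algebra.discr O b)
  obtain ⟨a', t', hat'⟩ := IsLocalization.exists_mk'_eq S w
  have h1 : Algebra.discr O b * algebraMap B0 O t = algebraMap B0 O a :=
    IsLocalization.mk'_spec' O a t ▸ by rw [hat, mul_comm]
  have h2 : w * algebraMap B0 O t' = algebraMap B0 O a' :=
    IsLocalization.mk'_spec' O a' t' ▸ by rw [hat', mul_comm]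
  have haa : a * a' = (t : B0) * (t' : B0) := by
    apply hinjBO
    rw [map_mul, map_mul, ← h1, ← h2]
    calc Algebra.discr O b * algebraMap B0 O t * (w * algebraMap B0 O t')
        = (Algebra.discr O b * w) * (algebraMap B0 O t * algebraMap B0 O t') := by ring
      _ = algebraMap B0 O t * algebraMap B0 O t' := by rw [hw, one_mul]
  have haq : a ∉ q := by
    intro haq
    have : (t : B0) * (t' : B0) ∈ q := haa ▸ q.mul_mem_right a' haq
    rcases hq.mem_or_mem this with h | h
    · exact hS _ t.2 h
    · exact hS _ t'.2 h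
  -- denominators for the basis elements
  have hintv : ∀ i, IsIntegral O (v i) := fun i =>
    (IsIntegralClosure.isIntegral O L (b i)).map (IsScalarTower.toAlgHom O T L)
  have hex : ∀ i, ∃ m : S, IsIntegral B0 (m • v i) := fun i =>
    IsIntegral.exists_multiple_integral_of_isLocalization S (v i) (hintv i)
  choose m hm using hex
  refine purx_exists_family_of_fraction q v (fun i => (m i : B0)) (fun i => hS _ (m i).2) ?_
    a (t : B0) haq ?_
  · intro i
    have := hm i
    rwa [Submonoid.smul_def, Algebra.smul_def] at this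
  · rw [hdiscr, IsScalarTower.algebraMap_apply B0 O K, IsScalarTower.algebraMap_apply B0 O K a,
      ← h1, map_mul, mul_comm]


/-- a basis has unit discriminant as soon as all closed fibres are reduced with residue
characteristic zero. -/
theorem purx_isUnit_discr_of_isReduced_fibres {A B : Type*} [CommRing A] [CommRing B]
    [Algebra A B] (b : Module.Basis ι A B)
    (hchar : ∀ I : Ideal A, I.IsMaximal → CharZero (A ⧸ I))
    (hred : ∀ I : Ideal A, I.IsMaximal → IsReduced (B ⧸ I.map (algebraMap A B))) :
    IsUnit (Algebra.discr A b) := by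
  by_contra hnu
  have hne : Ideal.span {Algebra.discr A b} ≠ ⊤ := by
    rwa [Ne, Ideal.span_singleton_eq_top]
  obtain ⟨I, hImax, hle⟩ := Ideal.exists_le_maximal _ hne
  have h1 : CharZero (A ⧸ I) := hchar I hImax
  have h2 : IsReduced (B ⧸ I.map (algebraMap A B)) := hred I hImax
  exact purx_discr_not_mem_of_isReduced_quotient I b (hle (Ideal.subset_span rfl))

/-- **(hH) in full** (shape of helper33's `lyh_isReduced`): `Ah = B0[1/p]`, `Rh` the integral
closure of `Ah` in `L` with an `Ah`-basis, all closed fibres of `Rh / Ah` reduced, residue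
characteristic zero.  Then for every prime `q` of `B0` not containing `p` some family of `R` has
its discriminant in `B0 \ q`. -/
theorem purx_hH_of_isReduced_fibres {B0 K L R Ah Rh : Type*} [CommRing B0] [IsDomain B0]
    [IsIntegrallyClosed B0] [Field K] [Algebra B0 K] [IsFractionRing B0 K] [Field L] [Algebra K L]
    [Algebra B0 L] [IsScalarTower B0 K L] [FiniteDimensional K L] [CommRing R] [Algebra B0 R]
    [Algebra R L] [IsScalarTower B0 R L] [IsIntegralClosure R B0 L] (p : B0)
    [CommRing Ah] [Algebra B0 Ah] [IsLocalization.Away p Ah] [Algebra Ah K] [IsScalarTower B0 Ah K]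
    [Algebra Ah L] [IsScalarTower Ah K L] [IsScalarTower B0 Ah L]
    [CommRing Rh] [Algebra Ah Rh] [Algebra Rh L] [IsScalarTower Ah Rh L] [IsIntegralClosure Rh Ah L]
    (b : Module.Basis ι Ah Rh)
    (hchar : ∀ I : Ideal Ah, I.IsMaximal → CharZero (Ah ⧸ I))
    (hred : ∀ I : Ideal Ah, I.IsMaximal → IsReduced (Rh ⧸ I.map (algebraMap Ah Rh)))
    (hrank : Module.finrank K L = Fintype.card ι) :
    ∀ q : Ideal B0, q.IsPrime → p ∉ q → ∃ c : ι → R, ∃ d : B0,
      algebraMap B0 K d = Algebra.discr K (fun i => algebraMap R L (c i)) ∧ d ∉ q := by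
  intro q hq hpq
  have hu := purx_isUnit_discr_of_isReduced_fibres b hchar hred
  have hS : ∀ s ∈ Submonoid.powers p, s ∉ q := by
    rintro s ⟨k, rfl⟩ hmem
    exact hpq (hq.mem_of_pow_mem k hmem)
  exact purx_exists_family_of_localization_basis q (Submonoid.powers p) hS b hu hrank


omit [DecidableEq ι] in
/-- the same with the index type `Fin (finrank K L)` of `pur_quotient_isIntegrallyClosed`. -/
theorem purx_hH_fin_of_isReduced_fibres {B0 K L R Ah Rh : Type*} [CommRing B0] [IsDomain B0]
    [IsIntegrallyClosed B0] [Field K] [Algebra B0 K] [IsFractionRing B0 K] [Field L] [Algebra K L]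
    [Algebra B0 L] [IsScalarTower B0 K L] [FiniteDimensional K L] [CommRing R] [Algebra B0 R]
    [Algebra R L] [IsScalarTower B0 R L] [IsIntegralClosure R B0 L] (p : B0)
    [CommRing Ah] [Algebra B0 Ah] [IsLocalization.Away p Ah] [Algebra Ah K] [IsScalarTower B0 Ah K]
    [Algebra Ah L] [IsScalarTower Ah K L] [IsScalarTower B0 Ah L]
    [CommRing Rh] [Algebra Ah Rh] [Algebra Rh L] [IsScalarTower Ah Rh L] [IsIntegralClosure Rh Ah L]
    (b : Module.Basis ι Ah Rh)
    (hchar : ∀ I : Ideal Ah, I.IsMaximal → CharZero (Ah ⧸ I))
    (hred : ∀ I : Ideal Ah, I.IsMaximal → IsReduced (Rh ⧸ I.map (algebraMap Ah Rh)))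
    (hrank : Module.finrank K L = Fintype.card ι) :
    ∀ q : Ideal B0, q.IsPrime → p ∉ q → ∃ c : Fin (Module.finrank K L) → R, ∃ d : B0,
      algebraMap B0 K d = Algebra.discr K (fun i => algebraMap R L (c i)) ∧ d ∉ q := by
  let e : ι ≃ Fin (Module.finrank K L) :=
    Fintype.equivOfCardEq (by rw [Fintype.card_fin, hrank])
  exact purx_hH_of_isReduced_fibres p (b.reindex e) hchar hred (by rw [Fintype.card_fin])

end Glue3

end Fermat.Agent.S18x
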