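import Mathlib
import Fermat.Agent.S18x.PurxHorizB

/-!
# S18x / PUR (A4 glue, part C, helper18): `(hH)` over a PID base, no basis needed

Mathlib + `PurxHorizB` only.

* `purx_hH_fin_of_isReduced_fibres_pid`: `Ah = B0[1/p]` a PID, `Rh` the integral closure of `Ah`
  in `L / K` finite separable, all closed fibres reduced with residue characteristic zero
  => hypothesis `(hH)` of `pur_quotient_isIntegrallyClosed` (index type `Fin (finrank K L)`).
* `purx_hH_fin_of_dvd_pow_pid`: the same with reducedness in divisibility form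
  (`g ∣ x ^ m → g ∣ x` for every generator `g` of a maximal ideal).
* `purx_charZero_quotient_of_algebraRat`: the `hchar` input for `ℚ`-algebras.
-/

set_option autoImplicit false

namespace Fermat.Agent.S18x

section Glue4

/-- quotients of a `ℚ`-algebra by proper ideals have characteristic zero (the `hchar` input). -/
theorem purx_charZero_quotient_of_algebraRat {A : Type*} [CommRing A] [Algebra ℚ A]
    (I : Ideal A) (hI : I.IsMaximal) : CharZero (A ⧸ I) := by
  have : Nontrivial (A ⧸ I) := Ideal.Quotient.nontrivial_iff.2 hI.ne_top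
  exact algebraRat.charZero (A ⧸ I)

/-- **(hH) in full, PID form**: `Ah = B0[1/p]` a principal ideal domain (e.g. `ℚ[h, 1/c(h)]`),
`Rh` the integral closure of `Ah` in the finite separable extension `L / K`; all closed fibres of
`Rh / Ah` reduced and of residue characteristic zero.  Then hypothesis `(hH)` of
`pur_quotient_isIntegrallyClosed` holds (no basis has to be supplied). -/
theorem purx_hH_fin_of_isReduced_fibres_pid {B0 K L R Ah Rh : Type*} [CommRing B0] [IsDomain B0]
    [IsIntegrallyClosed B0] [Field K] [Algebra B0 K] [IsFractionRing B0 K] [Field L] [Algebra K L]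
    [Algebra B0 L] [IsScalarTower B0 K L] [FiniteDimensional K L] [Algebra.IsSeparable K L]
    [CommRing R] [Algebra B0 R]
    [Algebra R L] [IsScalarTower B0 R L] [IsIntegralClosure R B0 L] (p : B0)
    [CommRing Ah] [IsDomain Ah] [IsPrincipalIdealRing Ah]
    [Algebra B0 Ah] [IsLocalization.Away p Ah] [Algebra Ah K] [IsScalarTower B0 Ah K]
    [Algebra Ah L] [IsScalarTower Ah K L] [IsScalarTower B0 Ah L]
    [CommRing Rh] [Algebra Ah Rh] [Algebra Rh L] [IsScalarTower Ah Rh L] [IsIntegralClosure Rh Ah L]
    (hchar : ∀ I : Ideal Ah, I.IsMaximal → CharZero (Ah ⧸ I))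
    (hred : ∀ I : Ideal Ah, I.IsMaximal → IsReduced (Rh ⧸ I.map (algebraMap Ah Rh))) :
    ∀ q : Ideal B0, q.IsPrime → p ∉ q → ∃ c : Fin (Module.finrank K L) → R, ∃ d : B0,
      algebraMap B0 K d = Algebra.discr K (fun i => algebraMap R L (c i)) ∧ d ∉ q := by
  have hfr : IsFractionRing Ah K :=
    IsFractionRing.isFractionRing_of_isDomain_of_isLocalization (Submonoid.powers p) Ah K
  have htf : Module.IsTorsionFree Ah L := .trans_faithfulSMul Ah K L
  have hfree : Module.Free Ah Rh := IsIntegralClosure.module_free Ah K L Rh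
  have hfin : Module.Finite Ah Rh := IsIntegralClosure.finite Ah K L Rh
  have hrank : Module.finrank K L = Fintype.card (Module.Free.ChooseBasisIndex Ah Rh) := by
    rw [← IsIntegralClosure.rank Ah K L Rh, Module.finrank_eq_card_chooseBasisIndex]
  classical
  exact purx_hH_fin_of_isReduced_fibres p (Module.Free.chooseBasis Ah Rh) hchar hred hrank


/-- the same with reducedness of the fibres in elementwise (divisibility) form. -/
theorem purx_hH_fin_of_dvd_pow_pid {B0 K L R Ah Rh : Type*} [CommRing B0] [IsDomain B0]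
    [IsIntegrallyClosed B0] [Field K] [Algebra B0 K] [IsFractionRing B0 K] [Field L] [Algebra K L]
    [Algebra B0 L] [IsScalarTower B0 K L] [FiniteDimensional K L] [Algebra.IsSeparable K L]
    [CommRing R] [Algebra B0 R]
    [Algebra R L] [IsScalarTower B0 R L] [IsIntegralClosure R B0 L] (p : B0)
    [CommRing Ah] [IsDomain Ah] [IsPrincipalIdealRing Ah]
    [Algebra B0 Ah] [IsLocalization.Away p Ah] [Algebra Ah K] [IsScalarTower B0 Ah K]
    [Algebra Ah L] [IsScalarTower Ah K L] [IsScalarTower B0 Ah L]
    [CommRing Rh] [Algebra Ah Rh] [Algebra Rh L] [IsScalarTower Ah Rh L] [IsIntegralClosure Rh Ah L]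
    (hchar : ∀ I : Ideal Ah, I.IsMaximal → CharZero (Ah ⧸ I))
    (hred : ∀ g : Ah, (Ideal.span {g}).IsMaximal → ∀ (x : Rh) (m : ℕ),
      algebraMap Ah Rh g ∣ x ^ m → algebraMap Ah Rh g ∣ x) :
    ∀ q : Ideal B0, q.IsPrime → p ∉ q → ∃ c : Fin (Module.finrank K L) → R, ∃ d : B0,
      algebraMap B0 K d = Algebra.discr K (fun i => algebraMap R L (c i)) ∧ d ∉ q := by
  refine purx_hH_fin_of_isReduced_fibres_pid (Rh := Rh) p hchar fun I hI => ?_
  obtain ⟨g, hg⟩ := (IsPrincipalIdealRing.principal I).principal
  have hg' : I = Ideal.span {g} := hg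
  have hmap : I.map (algebraMap Ah Rh) = Ideal.span {algebraMap Ah Rh g} := by
    rw [hg', Ideal.map_span, Set.image_singleton]
  rw [hmap]
  refine ⟨fun y hy => ?_⟩
  obtain ⟨x, rfl⟩ := Ideal.Quotient.mk_surjective y
  obtain ⟨m, hm⟩ := hy
  rw [← map_pow, Ideal.Quotient.eq_zero_iff_mem, Ideal.mem_span_singleton] at hm
  rw [Ideal.Quotient.eq_zero_iff_mem, Ideal.mem_span_singleton]
  exact hred g (hg' ▸ hI) x m hm

end Glue4

end Fermat.Agent.S18x
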