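/-
S18x/HorizTwin40 (helper40; row N5/G9, INSURANCE TWIN of HorizFinal; prefix `hzt40_`):
hypothesis `(H) = puri_HH ℓ e h c N` (horizontal unramifiedness) for the level-`Y` objects of
`LevelYDefs`, from the geometric place-form input `(A)` over `Q̄`:

  (A)  for every place `P` of `Lbar / Q̄` and every `a ∈ Q̄` with `c(a) ≠ 0`:
       `ord_P (h - a) > 0 → ord_P (h - a) = 1`,

where `Lbar ⊇ purb_LY e h N` is a function field over `Q̄` with coordinate `h`.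
Wiring: `purx_hH_fin_of_dvd_pow_pid` (helper18) at
`(B0, K, L, R, Ah, Rh) = (purb_B0 ℓ h c, purb_KY h, purb_LY e h N, purb_RY ℓ e h c N,
hzf_A (purb_hK h) c_ℚ, integralClosure Ah L)` + `hzf_hred` (helper81).
-/
import Mathlib
import Fermat.Agent.S18x.HorizBase2
import Fermat.Agent.S18x.PurxHorizC
import Fermat.Agent.S18x.PurInst

set_option autoImplicit false
set_option linter.style.haveILetI false
set_option linter.unusedSectionVars false
set_option synthInstance.maxHeartbeats 400000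
set_option maxHeartbeats 1000000

namespace Fermat.Agent.S18x

open Polynomial AlgebraicCurve Fermat.Agent.S28x Fermat.Agent.S24x

noncomputable section

local notation "Qbar" => AlgebraicClosure ℚ

/-- clearing the `ℓ`-part of the denominator of a rational number. -/
theorem hzt40_exists_pow_mul_mem (ℓ : ℕ) (hℓ : ℓ.Prime) (r : ℚ) :
    ∃ n : ℕ, r * (ℓ : ℚ) ^ n ∈ GaloisRep.ratLocalizedAt ℓ := by
  obtain ⟨e, n', hn', hden⟩ := Nat.exists_eq_pow_mul_and_not_dvd r.den_ne_zero ℓ hℓ.ne_one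
  refine ⟨e, ?_⟩
  have hn'0 : n' ≠ 0 := by
    rintro rfl
    rw [mul_zero] at hden
    exact r.den_ne_zero hden
  have h1 : r * (ℓ : ℚ) ^ e = (r.num : ℚ) / (n' : ℚ) := by
    have hn'Q : (n' : ℚ) ≠ 0 := Nat.cast_ne_zero.mpr hn'0
    have h2 : (r.den : ℚ) = (ℓ : ℚ) ^ e * (n' : ℚ) := by exact_mod_cast hden
    rw [eq_div_iff hn'Q, mul_assoc, ← h2, Rat.mul_den_eq_num]
  show (r * (ℓ : ℚ) ^ e).den.Coprime ℓ
  rw [h1]
  have h4 : ((r.num : ℚ) / (n' : ℚ)).den ∣ n' := by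
    have := Rat.den_dvd r.num (n' : ℤ)
    rw [Rat.divInt_eq_div] at this
    exact_mod_cast this
  refine Nat.Coprime.coprime_dvd_left h4 ?_
  exact ((Nat.Prime.coprime_iff_not_dvd hℓ).mpr hn').symm

section Towers

variable {K L : Type*} [Field K] [Field L] [Algebra K L] (B A : Subring K) (hBA : B ≤ A)

theorem hzt40_tower_BAK :
    letI : Algebra ↥B ↥A := (Subring.inclusion hBA).toAlgebra
    IsScalarTower ↥B ↥A K := by
  letI : Algebra ↥B ↥A := (Subring.inclusion hBA).toAlgebra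
  exact IsScalarTower.of_algebraMap_eq fun _ => rfl

theorem hzt40_tower_AKL :
    letI : Algebra ↥A L := ((algebraMap K L).comp A.subtype).toAlgebra
    IsScalarTower ↥A K L := by
  letI : Algebra ↥A L := ((algebraMap K L).comp A.subtype).toAlgebra
  exact IsScalarTower.of_algebraMap_eq fun _ => rfl

theorem hzt40_tower_BAL :
    letI : Algebra ↥B ↥A := (Subring.inclusion hBA).toAlgebra
    letI : Algebra ↥A L := ((algebraMap K L).comp A.subtype).toAlgebra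
    letI : Algebra ↥B L := ((algebraMap K L).comp B.subtype).toAlgebra
    IsScalarTower ↥B ↥A L := by
  letI : Algebra ↥B ↥A := (Subring.inclusion hBA).toAlgebra
  letI : Algebra ↥A L := ((algebraMap K L).comp A.subtype).toAlgebra
  letI : Algebra ↥B L := ((algebraMap K L).comp B.subtype).toAlgebra
  exact IsScalarTower.of_algebraMap_eq fun _ => rfl

end Towers

section Generic

variable (ℓ e : ℕ) [Fact ℓ.Prime] [NeZero e] (h : LaurentSeries ℚ) (c : Polynomial ℤ)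
  (N : ℕ) [NeZero N]

/-- the cusp polynomial over `ℚ`. -/
def hzt40_cQ : ℚ[X] := c.map (Int.castRingHom ℚ)

theorem hzt40_cQ_ne_zero {c : Polynomial ℤ} (hc : c ≠ 0) : hzt40_cQ c ≠ 0 :=
  (Polynomial.map_ne_zero_iff (Int.cast_injective (α := ℚ))).mpr hc

theorem hzt40_aeval_cQ : aeval (purb_hK h) (hzt40_cQ c) = purb_cK h c := by
  rw [hzt40_cQ, purb_cK]
  exact aeval_map_algebraMap ℚ (purb_hK h) c

theorem hzt40_eval_cQ (a : Qbar) :
    ((hzt40_cQ c).map (algebraMap ℚ Qbar)).eval a = aeval a c := by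
  have h1 : (algebraMap ℚ Qbar).comp (Int.castRingHom ℚ) = algebraMap ℤ Qbar :=
    RingHom.ext_int _ _
  rw [hzt40_cQ, Polynomial.map_map, aeval_def, eval₂_eq_eval_map, h1]

theorem hzt40_transcendental_hK {h : LaurentSeries ℚ} (htr : Transcendental ℚ h) :
    Transcendental ℚ (purb_hK h) := by
  rw [transcendental_iff] at htr ⊢
  intro p hp
  apply htr p
  have := congrArg (fun z : ↥(purb_KY h) => (z : LaurentSeries ℚ)) hp
  simp only [ZeroMemClass.coe_zero] at this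
  rw [← this]
  exact (puri_coe_aeval h p).symm

/-- `B₀ = ℤ_(ℓ)[h, 1/c(h)] ≤ Ah = ℚ[h, 1/c(h)]`. -/
theorem hzt40_B0_le : purb_B0 ℓ h c ≤ hzf_A (purb_hK h) (hzt40_cQ c) := by
  rw [purb_B0, Subring.closure_le]
  rintro x (⟨z, rfl⟩ | rfl | rfl)
  · exact hzf_algebraMap_mem _ _ _
  · exact hzf_t_mem _ _
  · rw [← hzt40_aeval_cQ]
    exact hzf_inv_mem _ _

theorem hzt40_natCast_mem_B0 (n : ℕ) : (n : ↥(purb_KY h)) ∈ purb_B0 ℓ h c :=
  natCast_mem _ n

/-- every element of `Ah` times a power of `ℓ` lies in `B₀`. -/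
theorem hzt40_exists_pow (z : ↥(purb_KY h)) (hz : z ∈ hzf_A (purb_hK h) (hzt40_cQ c)) :
    ∃ n : ℕ, z * (ℓ : ↥(purb_KY h)) ^ n ∈ purb_B0 ℓ h c := by
  have hℓB : ∀ n : ℕ, (ℓ : ↥(purb_KY h)) ^ n ∈ purb_B0 ℓ h c := fun n =>
    Subring.pow_mem _ (hzt40_natCast_mem_B0 ℓ h c ℓ) n
  unfold hzf_A at hz
  induction hz using Subring.closure_induction with
  | mem x hx =>
    rcases hx with ⟨r, rfl⟩ | rfl | rfl
    · obtain ⟨n, hn⟩ := hzt40_exists_pow_mul_mem ℓ (Fact.out : ℓ.Prime) r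
      refine ⟨n, ?_⟩
      have h1 : algebraMap ℚ ↥(purb_KY h) r * (ℓ : ↥(purb_KY h)) ^ n =
          algebraMap ℚ ↥(purb_KY h) (((⟨r * (ℓ : ℚ) ^ n, hn⟩ : ZL ℓ) : ℚ)) := by
        rw [map_mul, map_pow, map_natCast]
      rw [h1]
      exact purb_ZL_mem_B0 ℓ h c _
    · exact ⟨0, by rw [pow_zero, mul_one]; exact purb_hK_mem_B0 ℓ h c⟩
    · refine ⟨0, ?_⟩
      rw [pow_zero, mul_one, hzt40_aeval_cQ]
      exact purb_cK_inv_mem_B0 ℓ h c
  | zero => exact ⟨0, by rw [zero_mul]; exact Subring.zero_mem _⟩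
  | one => exact ⟨0, by rw [pow_zero, mul_one]; exact Subring.one_mem _⟩
  | add x y _ _ hx hy =>
    obtain ⟨n, hn⟩ := hx
    obtain ⟨m, hm⟩ := hy
    refine ⟨n + m, ?_⟩
    have h1 : (x + y) * (ℓ : ↥(purb_KY h)) ^ (n + m) =
        x * (ℓ : ↥(purb_KY h)) ^ n * (ℓ : ↥(purb_KY h)) ^ m +
          y * (ℓ : ↥(purb_KY h)) ^ m * (ℓ : ↥(purb_KY h)) ^ n := by
      rw [pow_add]; ring
    rw [h1]
    exact Subring.add_mem _ (Subring.mul_mem _ hn (hℓB m)) (Subring.mul_mem _ hm (hℓB n))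
  | neg x _ hx =>
    obtain ⟨n, hn⟩ := hx
    exact ⟨n, by rw [neg_mul]; exact Subring.neg_mem _ hn⟩
  | mul x y _ _ hx hy =>
    obtain ⟨n, hn⟩ := hx
    obtain ⟨m, hm⟩ := hy
    refine ⟨n + m, ?_⟩
    have h1 : (x * y) * (ℓ : ↥(purb_KY h)) ^ (n + m) =
        (x * (ℓ : ↥(purb_KY h)) ^ n) * (y * (ℓ : ↥(purb_KY h)) ^ m) := by
      rw [pow_add]; ring
    rw [h1]
    exact Subring.mul_mem _ hn hm


/-- `Ah = B₀[1/ℓ]`. -/
theorem hzt40_isLocalization_away :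
    letI : Algebra ↥(purb_B0 ℓ h c) ↥(hzf_A (purb_hK h) (hzt40_cQ c)) :=
      (Subring.inclusion (hzt40_B0_le ℓ h c)).toAlgebra
    IsLocalization.Away (ℓ : ↥(purb_B0 ℓ h c)) ↥(hzf_A (purb_hK h) (hzt40_cQ c)) := by
  have hℓK : ((ℓ : ↥(purb_B0 ℓ h c)) : ↥(purb_KY h)) = (ℓ : ↥(purb_KY h)) :=
    SubringClass.coe_natCast _ ℓ
  have hℓ0 : (ℓ : ↥(purb_KY h)) ≠ 0 := Nat.cast_ne_zero.mpr (Fact.out : ℓ.Prime).ne_zero
  refine hzf_isLocalization_away (purb_B0 ℓ h c) (hzf_A (purb_hK h) (hzt40_cQ c))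
    (hzt40_B0_le ℓ h c) (ℓ : ↥(purb_B0 ℓ h c)) ?_ ?_ ?_
  · rw [hℓK]
    have h1 : ((ℓ : ↥(purb_KY h)))⁻¹ = algebraMap ℚ ↥(purb_KY h) ((ℓ : ℚ)⁻¹) := by
      rw [map_inv₀, map_natCast]
    rw [h1]
    exact hzf_algebraMap_mem _ _ _
  · rw [hℓK]; exact hℓ0
  · intro z hz
    rw [hℓK]
    exact hzt40_exists_pow ℓ h c z hz

/-- **`(H)` for the level-`Y` objects, generic form**: from the place-form input `(A)` on a
function field `Lbar ⊇ purb_LY e h N` over `Q̄` with coordinate `h`. -/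
theorem hzt40_HH_of_places {h : LaurentSeries ℚ} {c : Polynomial ℤ}
    (htr : Transcendental ℚ h) (hc : c ≠ 0)
    [FiniteDimensional ↥(purb_KY h) ↥(purb_LY e h N)]
    {Lbar : Type*} [Field Lbar] [Algebra Qbar Lbar] [Algebra ↥(purb_LY e h N) Lbar]
    (hx : IsCoordinate Qbar Lbar (algebraMap ↥(purb_LY e h N) Lbar
      (algebraMap ↥(purb_KY h) ↥(purb_LY e h N) (purb_hK h))))
    (hA : ∀ P : Place Qbar Lbar, ∀ a : Qbar, aeval a c ≠ 0 →
      0 < P.ord (algebraMap ↥(purb_LY e h N) Lbar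
        (algebraMap ↥(purb_KY h) ↥(purb_LY e h N) (purb_hK h)) - algebraMap Qbar Lbar a) →
      P.ord (algebraMap ↥(purb_LY e h N) Lbar
        (algebraMap ↥(purb_KY h) ↥(purb_LY e h N) (purb_hK h)) - algebraMap Qbar Lbar a) = 1) :
    puri_HH ℓ e h c N := by
  have ht : Transcendental ℚ (purb_hK h) := hzt40_transcendental_hK htr
  have hcQ : hzt40_cQ c ≠ 0 := hzt40_cQ_ne_zero hc
  haveI := puri_B0_isIntegrallyClosed ℓ c htr hc
  haveI := puri_B0_isFractionRing ℓ h c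
  haveI : Algebra.IsAlgebraic ℚ Qbar := AlgebraicClosure.isAlgebraic ℚ
  letI algQLbar : Algebra ℚ Lbar := ((algebraMap Qbar Lbar).comp (algebraMap ℚ Qbar)).toAlgebra
  haveI tQ1 : @IsScalarTower ℚ Qbar Lbar Algebra.toSMul Algebra.toSMul Algebra.toSMul :=
    IsScalarTower.of_algebraMap_eq fun r =>
      RingHom.congr_fun (RingHom.ext_rat (algebraMap ℚ Lbar)
        ((algebraMap Qbar Lbar).comp (algebraMap ℚ Qbar))) r
  haveI tQ2 : @IsScalarTower ℚ ↥(purb_LY e h N) Lbar Algebra.toSMul Algebra.toSMul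
      Algebra.toSMul :=
    IsScalarTower.of_algebraMap_eq fun r =>
      RingHom.congr_fun (RingHom.ext_rat (algebraMap ℚ Lbar)
        ((algebraMap ↥(purb_LY e h N) Lbar).comp (algebraMap ℚ ↥(purb_LY e h N)))) r
  haveI : CharZero ↥(purb_KY h) := charZero_of_injective_algebraMap (algebraMap ℚ _).injective
  haveI : Algebra.IsSeparable ↥(purb_KY h) ↥(purb_LY e h N) := Algebra.IsSeparable.of_integral _ _
  haveI : IsPrincipalIdealRing ↥(hzf_A (purb_hK h) (hzt40_cQ c)) := hzf_isPrincipalIdealRing ht hcQ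
  letI algBA : Algebra ↥(purb_B0 ℓ h c) ↥(hzf_A (purb_hK h) (hzt40_cQ c)) :=
    (Subring.inclusion (hzt40_B0_le ℓ h c)).toAlgebra
  haveI : IsLocalization.Away (ℓ : ↥(purb_B0 ℓ h c)) ↥(hzf_A (purb_hK h) (hzt40_cQ c)) :=
    hzt40_isLocalization_away ℓ h c
  haveI : IsScalarTower ↥(purb_B0 ℓ h c) ↥(hzf_A (purb_hK h) (hzt40_cQ c)) ↥(purb_KY h) :=
    hzt40_tower_BAK (purb_B0 ℓ h c) (hzf_A (purb_hK h) (hzt40_cQ c)) (hzt40_B0_le ℓ h c)
  letI algAL : Algebra ↥(hzf_A (purb_hK h) (hzt40_cQ c)) ↥(purb_LY e h N) :=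
    hzf_algebraL (L := ↥(purb_LY e h N)) (purb_hK h) (hzt40_cQ c)
  haveI : IsScalarTower ↥(hzf_A (purb_hK h) (hzt40_cQ c)) ↥(purb_KY h) ↥(purb_LY e h N) :=
    hzt40_tower_AKL (L := ↥(purb_LY e h N)) (hzf_A (purb_hK h) (hzt40_cQ c))
  haveI : IsScalarTower ↥(purb_B0 ℓ h c) ↥(hzf_A (purb_hK h) (hzt40_cQ c)) ↥(purb_LY e h N) :=
    hzt40_tower_BAL (L := ↥(purb_LY e h N)) (purb_B0 ℓ h c) (hzf_A (purb_hK h) (hzt40_cQ c))
      (hzt40_B0_le ℓ h c)
  letI algQA : Algebra ℚ ↥(hzf_A (purb_hK h) (hzt40_cQ c)) :=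
    ((algebraMap ℚ ↥(purb_KY h)).codRestrict (hzf_A (purb_hK h) (hzt40_cQ c))
      (hzf_algebraMap_mem (purb_hK h) (hzt40_cQ c))).toAlgebra
  have hA' : ∀ P : Place Qbar Lbar, ∀ a : Qbar,
      ((hzt40_cQ c).map (algebraMap ℚ Qbar)).eval a ≠ 0 →
      0 < P.ord (algebraMap ↥(purb_LY e h N) Lbar
        (algebraMap ↥(purb_KY h) ↥(purb_LY e h N) (purb_hK h)) - algebraMap Qbar Lbar a) →
      P.ord (algebraMap ↥(purb_LY e h N) Lbar
        (algebraMap ↥(purb_KY h) ↥(purb_LY e h N) (purb_hK h)) - algebraMap Qbar Lbar a) = 1 := by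
    intro P a ha
    rw [hzt40_eval_cQ] at ha
    exact hA P a ha
  exact purx_hH_fin_of_dvd_pow_pid (B0 := ↥(purb_B0 ℓ h c)) (K := ↥(purb_KY h))
    (L := ↥(purb_LY e h N)) (R := ↥(purb_RY ℓ e h c N))
    (Ah := ↥(hzf_A (purb_hK h) (hzt40_cQ c)))
    (Rh := ↥(integralClosure ↥(hzf_A (purb_hK h) (hzt40_cQ c)) ↥(purb_LY e h N)))
    (ℓ : ↥(purb_B0 ℓ h c))
    (fun I hI => purx_charZero_quotient_of_algebraRat I hI)
    (fun g hg x m hd => hzf_hred (L := ↥(purb_LY e h N)) (Kbar := Qbar) (Lbar := Lbar)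
      ht hcQ hx hA' g hg x m hd)

end Generic

end

end Fermat.Agent.S18x
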