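/-
S18x/HessePoly.lean (helper18, row N5t = l = 2 twin of N5): the Hesse polynomials.
 A = X^3 (X^3+216)^3, B = (X^3-27)^3 (j(q^3) = A(mu)/B(mu)), A = A0^3, A - 1728 B = A1^2 with
 A0 = X (X^3+216), A1 = X^6 - 540 X^3 - 5832 separable (explicit Bezout; 2, 3 invertible).
 lyh2_hfac0 / lyh2_hfac1 = the factorisation inputs of helper33's generic lyh_ord_eq_one_of_data.
Mathlib only.
-/
import Mathlib

set_option autoImplicit false

namespace Fermat.Agent.S18x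

open Polynomial

section Generic

variable {K : Type*} [Field K]

/-- a separable polynomial vanishing at `a` is `(X - a) * g` with `g(a) ≠ 0`. -/
theorem lyh2_exists_factor_of_separable {f : K[X]} (hf : f.Separable) {a : K}
    (ha : f.eval a = 0) : ∃ g : K[X], f = (X - C a) * g ∧ g.eval a ≠ 0 := by
  obtain ⟨g, hg⟩ := dvd_iff_isRoot.2 ha
  refine ⟨g, hg, fun hga => ?_⟩
  obtain ⟨g', hg'⟩ := dvd_iff_isRoot.2 hga
  have hsq : (X - C a) * (X - C a) ∣ f := ⟨g', by rw [hg, hg']; ring⟩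
  have hunit : IsUnit (X - C a : K[X]) := hf.squarefree _ hsq
  exact not_isUnit_X_sub_C a hunit

/-- hence `f ^ m = (X - a) ^ m * H` with `H(a) ≠ 0`. -/
theorem lyh2_exists_pow_factor_of_separable {f : K[X]} (hf : f.Separable) {a : K}
    (ha : f.eval a = 0) (m : ℕ) : ∃ H : K[X], f ^ m = (X - C a) ^ m * H ∧ H.eval a ≠ 0 := by
  obtain ⟨g, hg, hga⟩ := lyh2_exists_factor_of_separable hf ha
  refine ⟨g ^ m, by rw [hg, mul_pow], ?_⟩
  rw [eval_pow]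
  exact pow_ne_zero m hga

end Generic

section Hesse

variable (K : Type*) [Field K]

/-- `A₀ = X (X³ + 216)`. -/
noncomputable def lyh2_A0 : K[X] := X * (X ^ 3 + 216)

/-- `A₁ = X⁶ - 540 X³ - 5832`. -/
noncomputable def lyh2_A1 : K[X] := X ^ 6 - 540 * X ^ 3 - 5832

/-- `A = X³ (X³ + 216)³`, the numerator of the Hesse `j`-function. -/
noncomputable def lyh2_A : K[X] := X ^ 3 * (X ^ 3 + 216) ^ 3

/-- `B = (X³ - 27)³`, the denominator of the Hesse `j`-function. -/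
noncomputable def lyh2_B : K[X] := (X ^ 3 - 27) ^ 3

theorem lyh2_A_eq : lyh2_A K = lyh2_A0 K ^ 3 := by
  rw [lyh2_A, lyh2_A0]; ring

theorem lyh2_A_sub_eq : lyh2_A K - C 1728 * lyh2_B K = lyh2_A1 K ^ 2 := by
  rw [lyh2_A, lyh2_B, lyh2_A1]
  rw [C_ofNat]; ring

theorem lyh2_A0_separable (h2 : (2 : K) ≠ 0) (h3 : (3 : K) ≠ 0) : (lyh2_A0 K).Separable := by
  have hD : (34992 : K) ≠ 0 := by
    have : (34992 : K) = 2 ^ 4 * 3 ^ 7 := by norm_num
    rw [this]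
    exact mul_ne_zero (pow_ne_zero _ h2) (pow_ne_zero _ h3)
  have hder : derivative (lyh2_A0 K) = 4 * X ^ 3 + 216 := by
    rw [lyh2_A0]
    simp only [derivative_mul, derivative_X, derivative_add, derivative_X_pow,
      derivative_ofNat, one_mul, add_zero, Nat.cast_ofNat, C_ofNat]
    ring
  rw [separable_def, hder, lyh2_A0]
  refine ⟨C (34992 : K)⁻¹ * (-4 * X ^ 2), C (34992 : K)⁻¹ * (X ^ 3 + 162), ?_⟩
  have h1 : (-4 * X ^ 2 : K[X]) * (X * (X ^ 3 + 216)) + (X ^ 3 + 162) * (4 * X ^ 3 + 216) =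
      C (34992 : K) := by
    rw [C_ofNat]; ring
  calc C (34992 : K)⁻¹ * (-4 * X ^ 2) * (X * (X ^ 3 + 216)) +
        C (34992 : K)⁻¹ * (X ^ 3 + 162) * (4 * X ^ 3 + 216)
      = C (34992 : K)⁻¹ * ((-4 * X ^ 2 : K[X]) * (X * (X ^ 3 + 216)) +
          (X ^ 3 + 162) * (4 * X ^ 3 + 216)) := by ring
    _ = 1 := by rw [h1, ← C_mul, inv_mul_cancel₀ hD, C_1]


theorem lyh2_A1_separable (h2 : (2 : K) ≠ 0) (h3 : (3 : K) ≠ 0) : (lyh2_A1 K).Separable := by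
  have hD : (51018336 : K) ≠ 0 := by
    have : (51018336 : K) = 2 ^ 5 * 3 ^ 13 := by norm_num
    rw [this]
    exact mul_ne_zero (pow_ne_zero _ h2) (pow_ne_zero _ h3)
  have hder : derivative (lyh2_A1 K) = 6 * X ^ 5 - 1620 * X ^ 2 := by
    rw [lyh2_A1]
    simp only [derivative_mul, derivative_sub, derivative_X_pow,
      derivative_ofNat, zero_mul, zero_add, sub_zero, Nat.cast_ofNat, C_ofNat]
    ring
  rw [separable_def, hder, lyh2_A1]
  refine ⟨C (51018336 : K)⁻¹ * (30 * X ^ 3 - 8748), C (51018336 : K)⁻¹ * (-5 * X ^ 4 + 2808 * X), ?_⟩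
  have h1 : (30 * X ^ 3 - 8748 : K[X]) * (X ^ 6 - 540 * X ^ 3 - 5832) +
      (-5 * X ^ 4 + 2808 * X) * (6 * X ^ 5 - 1620 * X ^ 2) = C (51018336 : K) := by
    rw [C_ofNat]; ring
  calc C (51018336 : K)⁻¹ * (30 * X ^ 3 - 8748) * (X ^ 6 - 540 * X ^ 3 - 5832) +
        C (51018336 : K)⁻¹ * (-5 * X ^ 4 + 2808 * X) * (6 * X ^ 5 - 1620 * X ^ 2)
      = C (51018336 : K)⁻¹ * ((30 * X ^ 3 - 8748 : K[X]) * (X ^ 6 - 540 * X ^ 3 - 5832) +
          (-5 * X ^ 4 + 2808 * X) * (6 * X ^ 5 - 1620 * X ^ 2)) := by ring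
    _ = 1 := by rw [h1, ← C_mul, inv_mul_cancel₀ hD, C_1]

variable {K}

theorem lyh2_eval_A (a : K) : (lyh2_A K).eval a = a ^ 3 * (a ^ 3 + 216) ^ 3 := by
  simp [lyh2_A]

theorem lyh2_eval_B (a : K) : (lyh2_B K).eval a = (a ^ 3 - 27) ^ 3 := by
  simp [lyh2_B]

theorem lyh2_eval_A0 (a : K) : (lyh2_A0 K).eval a = a * (a ^ 3 + 216) := by
  simp [lyh2_A0]

theorem lyh2_eval_A1 (a : K) : (lyh2_A1 K).eval a = a ^ 6 - 540 * a ^ 3 - 5832 := by
  simp [lyh2_A1]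

/-- `A(a) = 0 → A₀(a) = 0`. -/
theorem lyh2_A0_eval_eq_zero {a : K} (h : (lyh2_A K).eval a = 0) : (lyh2_A0 K).eval a = 0 := by
  rw [lyh2_A_eq, eval_pow] at h
  exact pow_eq_zero_iff (by norm_num) |>.1 h

/-- `A(a) = 1728 B(a) → A₁(a) = 0`. -/
theorem lyh2_A1_eval_eq_zero {a : K} (h : (lyh2_A K).eval a = 1728 * (lyh2_B K).eval a) :
    (lyh2_A1 K).eval a = 0 := by
  have h1 := congrArg (eval a) (lyh2_A_sub_eq K)
  rw [eval_sub, eval_mul, eval_C, eval_pow, h, sub_self] at h1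
  exact pow_eq_zero_iff (by norm_num) |>.1 h1.symm

/-- `A₀` and `X³ - 27` have no common root (`3 ≠ 0`). -/
theorem lyh2_A0_eval_ne_zero_of_B (h3 : (3 : K) ≠ 0) {a : K} (ha : a ^ 3 = 27) :
    (lyh2_A0 K).eval a ≠ 0 := by
  rw [lyh2_eval_A0, ha]
  have h243 : (27 + 216 : K) = 3 ^ 5 := by norm_num
  rw [h243]
  refine mul_ne_zero (fun h0 => ?_) (pow_ne_zero _ h3)
  rw [h0] at ha
  have : (27 : K) = 3 ^ 3 := by norm_num
  rw [this] at ha
  exact pow_ne_zero 3 h3 (by rw [← ha]; ring)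


/-- **(hfac0 for the Hesse family)**, in the shape consumed by `lyh_ord_eq_one_of_data`. -/
theorem lyh2_hfac0 (h2 : (2 : K) ≠ 0) (h3 : (3 : K) ≠ 0) (a : K)
    (ha : (lyh2_A K).eval a = 0) :
    ∃ H : K[X], lyh2_A K = (X - C a) ^ 3 * H ∧ H.eval a ≠ 0 := by
  rw [lyh2_A_eq]
  exact lyh2_exists_pow_factor_of_separable (lyh2_A0_separable K h2 h3)
    (lyh2_A0_eval_eq_zero ha) 3

/-- **(hfac1 for the Hesse family)**. -/
theorem lyh2_hfac1 (h2 : (2 : K) ≠ 0) (h3 : (3 : K) ≠ 0) (a : K)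
    (ha : (lyh2_A K - C 1728 * lyh2_B K).eval a = 0) :
    ∃ H : K[X], lyh2_A K - C 1728 * lyh2_B K = (X - C a) ^ 2 * H ∧ H.eval a ≠ 0 := by
  have h1 : (lyh2_A1 K).eval a = 0 := by
    rw [lyh2_A_sub_eq, eval_pow] at ha
    exact pow_eq_zero_iff (by norm_num) |>.1 ha
  rw [lyh2_A_sub_eq]
  exact lyh2_exists_pow_factor_of_separable (lyh2_A1_separable K h2 h3) h1 2

end Hesse

end Fermat.Agent.S18x
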