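import Mathlib

/-!
# Degree of `K(x)` over `K(p(x)/q(x))` for a transcendental `x` (prefix `rfd_`)

Generic helper (Lüroth degree formula transported to any transcendental element of any field
extension): used for the auxiliary-level parameters of S18 (`λ`: degree 6, Hesse `μ`: degree 12).
-/

set_option autoImplicit false

open Polynomial IntermediateField

namespace Fermat.Agent.S18x

variable {K : Type*} [Field K]

theorem rfd_num_associated {p q : K[X]} (hq : q ≠ 0) (hpq : IsCoprime p q) :
    Associated (RatFunc.num (algebraMap K[X] (RatFunc K) p / algebraMap K[X] (RatFunc K) q)) p := by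
  set f := algebraMap K[X] (RatFunc K) p / algebraMap K[X] (RatFunc K) q with hf
  have hq' : algebraMap K[X] (RatFunc K) q ≠ 0 := by
    simpa using hq
  have hd' : algebraMap K[X] (RatFunc K) f.denom ≠ 0 := by
    simpa using f.denom_ne_zero
  have hcross : f.num * q = p * f.denom := by
    apply IsFractionRing.injective K[X] (RatFunc K)
    have h1 := RatFunc.num_div_denom f
    rw [map_mul, map_mul]
    have h2 : algebraMap K[X] (RatFunc K) f.num / algebraMap K[X] (RatFunc K) f.denom =
        algebraMap K[X] (RatFunc K) p / algebraMap K[X] (RatFunc K) q := h1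
    rw [div_eq_div_iff hd' hq'] at h2
    exact h2
  refine associated_of_dvd_dvd (RatFunc.num_div_dvd p hq) ?_
  exact hpq.dvd_of_dvd_mul_right ⟨f.denom, hcross⟩

theorem rfd_denom_associated {p q : K[X]} (hq : q ≠ 0) (hpq : IsCoprime p q) :
    Associated (RatFunc.denom (algebraMap K[X] (RatFunc K) p / algebraMap K[X] (RatFunc K) q)) q := by
  set f := algebraMap K[X] (RatFunc K) p / algebraMap K[X] (RatFunc K) q with hf
  have hq' : algebraMap K[X] (RatFunc K) q ≠ 0 := by
    simpa using hq
  have hd' : algebraMap K[X] (RatFunc K) f.denom ≠ 0 := by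
    simpa using f.denom_ne_zero
  have hcross : f.num * q = p * f.denom := by
    apply IsFractionRing.injective K[X] (RatFunc K)
    have h1 := RatFunc.num_div_denom f
    rw [map_mul, map_mul]
    have h2 : algebraMap K[X] (RatFunc K) f.num / algebraMap K[X] (RatFunc K) f.denom =
        algebraMap K[X] (RatFunc K) p / algebraMap K[X] (RatFunc K) q := h1
    rw [div_eq_div_iff hd' hq'] at h2
    exact h2
  refine associated_of_dvd_dvd (RatFunc.denom_div_dvd p q) ?_
  exact hpq.symm.dvd_of_dvd_mul_left ⟨f.num, by rw [← hcross, mul_comm]⟩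

/-- Lüroth degree formula in `RatFunc K` for an explicit coprime fraction. -/
theorem rfd_finrank_ratFunc {p q : K[X]} (hq : q ≠ 0) (hpq : IsCoprime p q) :
    Module.finrank K⟮(algebraMap K[X] (RatFunc K) p / algebraMap K[X] (RatFunc K) q)⟯ (RatFunc K) =
      max p.natDegree q.natDegree := by
  rw [RatFunc.finrank_eq_max_natDegree,
    Polynomial.natDegree_eq_of_degree_eq (degree_eq_degree_of_associated (rfd_num_associated hq hpq)),
    Polynomial.natDegree_eq_of_degree_eq (degree_eq_degree_of_associated (rfd_denom_associated hq hpq))]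

variable {E : Type*} [Field E] [Algebra K E]

/-- **Degree formula.** For `x` transcendental over `K` and coprime `p, q ∈ K[X]`, `q ≠ 0`:
`[K(x) : K(p(x)/q(x))] = max (deg p) (deg q)`. -/
theorem rfd_relfinrank {x : E} (hx : Transcendental K x) {p q : K[X]} (hq : q ≠ 0)
    (hpq : IsCoprime p q) :
    relfinrank K⟮aeval x p / aeval x q⟯ K⟮x⟯ = max p.natDegree q.natDegree := by
  let ι : RatFunc K →ₐ[K] E := (IntermediateField.val K⟮x⟯).comp
    (RatFunc.algEquivOfTranscendental x hx).toAlgHom
  have hιX : ι RatFunc.X = x := by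
    show ((RatFunc.algEquivOfTranscendental x hx) RatFunc.X : E) = x
    rw [RatFunc.algEquivOfTranscendental_X]
  have hιp : ∀ g : K[X], ι (algebraMap K[X] (RatFunc K) g) = aeval x g := by
    intro g
    rw [← RatFunc.aeval_X_left_eq_algebraMap, ← Polynomial.aeval_algHom_apply, hιX]
  have h1 : (K⟮(algebraMap K[X] (RatFunc K) p / algebraMap K[X] (RatFunc K) q)⟯).map ι =
      K⟮aeval x p / aeval x q⟯ := by
    rw [IntermediateField.adjoin_map, Set.image_singleton, map_div₀, hιp, hιp]
  have h2 : (⊤ : IntermediateField K (RatFunc K)).map ι = K⟮x⟯ := by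
    rw [← RatFunc.adjoin_X, IntermediateField.adjoin_map, Set.image_singleton, hιX]
  rw [← h1, ← h2, IntermediateField.relfinrank_map_map, IntermediateField.relfinrank_top_right,
    rfd_finrank_ratFunc hq hpq]

end Fermat.Agent.S18x
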