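import Mathlib
import Fermat.Agent.S18x.RatDeg

/-!
# The `λ`-line package for odd `ℓ` (S18 block NRM, row N2a; helper17; prefix `ls3_`)

`J(x) = (x²+192)³/(x²-64)²` over a field with `2 ≠ 0`: degree `6`, Galois with group `S₃` acting
by the Moebius maps `x ↦ -x`, `x ↦ b(x) = 8(x+24)/(x-8)`; the six roots of the sextic
`(T²+192)³ - J (T²-64)²` are `±x, ±b(x), ±b(-x)`; `J - 1728 = x²(x²-576)²/(x²-64)²`;
lattice/parity: every intermediate field `≠ F` contains `s(x) = x(x²-576)/(x²-64)`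
(`s² = J - 1728`, odd order at `x = ∞`) or one of the conjugates `x², b(x)², b(-x)²`
(`b(±x)² - 64` has odd order at `x = ∞`).
-/

set_option autoImplicit false

noncomputable section

namespace Fermat.Agent.S18x

open Polynomial IntermediateField

section Defs

variable {L : Type*} [Field L]

/-- the Moebius involution `x ↦ 8(x+24)/(x-8)`. -/
def ls3_b (x : L) : L := 8 * (x + 24) / (x - 8)

/-- `J(x) = (x²+192)³/(x²-64)²`. -/
def ls3_J (x : L) : L := (x ^ 2 + 192) ^ 3 / (x ^ 2 - 64) ^ 2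

/-- `s(x) = x(x²-576)/(x²-64)`; `s² = J - 1728`. -/
def ls3_s (x : L) : L := x * (x ^ 2 - 576) / (x ^ 2 - 64)

/-- the sextic `(T²+192)³ - J (T²-64)²` (`= purb_sextic 192 64 J` by `rfl`). -/
def ls3_sextic {S : Type*} [CommRing S] (J : S) : S[X] :=
  (X ^ 2 + C 192) ^ 3 - C J * (X ^ 2 - C 64) ^ 2

end Defs

section Identities

variable {L : Type*} [Field L]

theorem ls3_J_neg (x : L) : ls3_J (-x) = ls3_J x := by
  unfold ls3_J
  rw [neg_sq]

theorem ls3_s_neg (x : L) : ls3_s (-x) = -ls3_s x := by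
  unfold ls3_s
  rw [neg_sq]
  ring

theorem ls3_sq_sub_ne (x : L) (hx : x ≠ 8) (hx' : x ≠ -8) : x ^ 2 - 64 ≠ 0 := by
  have h1 : x - 8 ≠ 0 := sub_ne_zero.mpr hx
  have h2 : x + 8 ≠ 0 := by
    intro h
    exact hx' (eq_neg_of_add_eq_zero_left h)
  have : x ^ 2 - 64 = (x - 8) * (x + 8) := by ring
  rw [this]
  exact mul_ne_zero h1 h2

theorem ls3_b_sub (x : L) (hx : x ≠ 8) : ls3_b x - 8 = 256 / (x - 8) := by
  have h1 : x - 8 ≠ 0 := sub_ne_zero.mpr hx
  unfold ls3_b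
  field_simp
  ring

theorem ls3_b_add (x : L) (hx : x ≠ 8) : ls3_b x + 8 = 16 * (x + 8) / (x - 8) := by
  have h1 : x - 8 ≠ 0 := sub_ne_zero.mpr hx
  unfold ls3_b
  field_simp
  ring

theorem ls3_b_sq_add (x : L) (hx : x ≠ 8) :
    ls3_b x ^ 2 + 192 = 256 * (x ^ 2 + 192) / (x - 8) ^ 2 := by
  have h1 : x - 8 ≠ 0 := sub_ne_zero.mpr hx
  unfold ls3_b
  field_simp
  ring

theorem ls3_b_sq_sub (x : L) (hx : x ≠ 8) :
    ls3_b x ^ 2 - 64 = 4096 * (x + 8) / (x - 8) ^ 2 := by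
  have h1 : x - 8 ≠ 0 := sub_ne_zero.mpr hx
  unfold ls3_b
  field_simp
  ring

theorem ls3_two_pow_ne (h2 : (2 : L) ≠ 0) (n : ℕ) : ((2 : L) ^ n) ≠ 0 := pow_ne_zero n h2

theorem ls3_b_ne (h2 : (2 : L) ≠ 0) (x : L) (hx : x ≠ 8) : ls3_b x ≠ 8 := by
  have h1 : x - 8 ≠ 0 := sub_ne_zero.mpr hx
  intro h
  have h3 := ls3_b_sub x hx
  rw [h, sub_self] at h3
  have h256 : (256 : L) ≠ 0 := by
    have : (256 : L) = 2 ^ 8 := by norm_num
    rw [this]; exact pow_ne_zero _ h2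
  exact (div_ne_zero h256 h1) h3.symm

theorem ls3_b_ne' (h2 : (2 : L) ≠ 0) (x : L) (hx : x ≠ 8) (hx' : x ≠ -8) : ls3_b x ≠ -8 := by
  have h1 : x - 8 ≠ 0 := sub_ne_zero.mpr hx
  have h1' : x + 8 ≠ 0 := fun h => hx' (eq_neg_of_add_eq_zero_left h)
  intro h
  have h3 := ls3_b_add x hx
  rw [h, neg_add_cancel] at h3
  have h16 : (16 : L) ≠ 0 := by
    have : (16 : L) = 2 ^ 4 := by norm_num
    rw [this]; exact pow_ne_zero _ h2
  exact (div_ne_zero (mul_ne_zero h16 h1') h1) h3.symm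

theorem ls3_J_b (h2 : (2 : L) ≠ 0) (x : L) (hx : x ≠ 8) (hx' : x ≠ -8) :
    ls3_J (ls3_b x) = ls3_J x := by
  have h1 : x - 8 ≠ 0 := sub_ne_zero.mpr hx
  have h1' : x + 8 ≠ 0 := fun h => hx' (eq_neg_of_add_eq_zero_left h)
  have h3 : x ^ 2 - 64 ≠ 0 := ls3_sq_sub_ne x hx hx'
  have h4096 : (4096 : L) ≠ 0 := by
    have : (4096 : L) = 2 ^ 12 := by norm_num
    rw [this]; exact pow_ne_zero _ h2
  unfold ls3_J
  rw [ls3_b_sq_add x hx, ls3_b_sq_sub x hx]
  have e : x ^ 2 - 64 = (x - 8) * (x + 8) := by ring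
  rw [e]
  field_simp
  ring

theorem ls3_b_b (h2 : (2 : L) ≠ 0) (x : L) (hx : x ≠ 8) : ls3_b (ls3_b x) = x := by
  have h1 : x - 8 ≠ 0 := sub_ne_zero.mpr hx
  have h256 : (256 : L) ≠ 0 := by
    have : (256 : L) = 2 ^ 8 := by norm_num
    rw [this]; exact pow_ne_zero _ h2
  have hb : ls3_b (ls3_b x) = 8 * (ls3_b x + 24) / (ls3_b x - 8) := rfl
  rw [hb, ls3_b_sub x hx]
  unfold ls3_b
  field_simp
  ring

/-- `b(-b(x)) = -b(-x)`. -/
theorem ls3_b_neg_b (h2 : (2 : L) ≠ 0) (x : L) (hx : x ≠ 8) (hx' : x ≠ -8) :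
    ls3_b (-(ls3_b x)) = -(ls3_b (-x)) := by
  have h1 : x - 8 ≠ 0 := sub_ne_zero.mpr hx
  have h1' : x + 8 ≠ 0 := fun h => hx' (eq_neg_of_add_eq_zero_left h)
  have h16 : (16 : L) ≠ 0 := by
    have : (16 : L) = 2 ^ 4 := by norm_num
    rw [this]; exact pow_ne_zero _ h2
  have hb : ls3_b (-(ls3_b x)) = 8 * (-(ls3_b x) + 24) / (-(ls3_b x) - 8) := rfl
  have e1 : -(ls3_b x) - 8 = -(16 * (x + 8) / (x - 8)) := by
    rw [← ls3_b_add x hx]; ring
  have e2 : -(ls3_b x) + 24 = 16 * (x - 24) / (x - 8) := by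
    unfold ls3_b
    field_simp
    ring
  have h2' : -x - 8 ≠ 0 := by
    intro h
    apply h1'
    linear_combination -h
  rw [hb, e1, e2]
  unfold ls3_b
  field_simp
  ring

theorem ls3_s_sq (x : L) (hx : x ≠ 8) (hx' : x ≠ -8) : ls3_s x ^ 2 = ls3_J x - 1728 := by
  have h3 : x ^ 2 - 64 ≠ 0 := ls3_sq_sub_ne x hx hx'
  unfold ls3_s ls3_J
  field_simp
  ring

theorem ls3_b_neg_eq (x : L) : ls3_b (-x) = 8 * (x - 24) / (x + 8) := by
  unfold ls3_b
  have : (-x - 8) = -(x + 8) := by ring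
  rw [this, div_neg]
  rw [← neg_div]
  congr 1
  ring

theorem ls3_sym1 (x : L) (hx : x ≠ 8) (hx' : x ≠ -8) :
    x ^ 2 + ls3_b x ^ 2 + ls3_b (-x) ^ 2 = ls3_J x - 576 := by
  have h1 : x - 8 ≠ 0 := sub_ne_zero.mpr hx
  have h1' : x + 8 ≠ 0 := fun h => hx' (eq_neg_of_add_eq_zero_left h)
  rw [ls3_b_neg_eq]
  unfold ls3_b ls3_J
  have e : x ^ 2 - 64 = (x - 8) * (x + 8) := by ring
  rw [e]
  field_simp
  ring

theorem ls3_sym2 (x : L) (hx : x ≠ 8) (hx' : x ≠ -8) :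
    x ^ 2 * ls3_b x ^ 2 + x ^ 2 * ls3_b (-x) ^ 2 + ls3_b x ^ 2 * ls3_b (-x) ^ 2
      = 110592 + 128 * ls3_J x := by
  have h1 : x - 8 ≠ 0 := sub_ne_zero.mpr hx
  have h1' : x + 8 ≠ 0 := fun h => hx' (eq_neg_of_add_eq_zero_left h)
  rw [ls3_b_neg_eq]
  unfold ls3_b ls3_J
  have e : x ^ 2 - 64 = (x - 8) * (x + 8) := by ring
  rw [e]
  field_simp
  ring

theorem ls3_sym3 (x : L) (hx : x ≠ 8) (hx' : x ≠ -8) :
    x ^ 2 * ls3_b x ^ 2 * ls3_b (-x) ^ 2 = 4096 * ls3_J x - 7077888 := by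
  have h1 : x - 8 ≠ 0 := sub_ne_zero.mpr hx
  have h1' : x + 8 ≠ 0 := fun h => hx' (eq_neg_of_add_eq_zero_left h)
  rw [ls3_b_neg_eq]
  unfold ls3_b ls3_J
  have e : x ^ 2 - 64 = (x - 8) * (x + 8) := by ring
  rw [e]
  field_simp
  ring

/-- the three roots of the cubic resolvent `(Y+192)³ - J(Y-64)²` are `x², b(x)², b(-x)²`. -/
theorem ls3_cubic_factor (x : L) (hx : x ≠ 8) (hx' : x ≠ -8) :
    ((X + C 192) ^ 3 - C (ls3_J x) * (X - C 64) ^ 2 : L[X])
      = (X - C (x ^ 2)) * (X - C (ls3_b x ^ 2)) * (X - C (ls3_b (-x) ^ 2)) := by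
  have E1 := congrArg (C : L → L[X]) (ls3_sym1 x hx hx')
  have E2 := congrArg (C : L → L[X]) (ls3_sym2 x hx hx')
  have E3 := congrArg (C : L → L[X]) (ls3_sym3 x hx hx')
  simp only [map_add, map_sub, map_mul, map_ofNat] at E1 E2 E3
  simp only [map_ofNat]
  linear_combination (X ^ 2 : L[X]) * E1 - (X : L[X]) * E2 + E3

/-- the six roots of the sextic are `±x, ±b(x), ±b(-x)`. -/
theorem ls3_sextic_factor (x : L) (hx : x ≠ 8) (hx' : x ≠ -8) :
    ls3_sextic (ls3_J x)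
      = (X - C x) * (X + C x) * (X - C (ls3_b x)) * (X + C (ls3_b x))
          * (X - C (ls3_b (-x))) * (X + C (ls3_b (-x))) := by
  have h := congrArg (fun p : L[X] => p.comp (X ^ 2)) (ls3_cubic_factor x hx hx')
  simp only [sub_comp, mul_comp, pow_comp, add_comp, X_comp, C_comp] at h
  unfold ls3_sextic
  rw [h]
  simp only [map_pow]
  ring

/-- nondegeneracy: `2 ≠ 0` and `x` is not a branch point (`J ≠ ∞, 1728, 0`). -/
def ls3_Nondeg (x : L) : Prop :=
  (2 : L) ≠ 0 ∧ x ≠ 0 ∧ x ≠ 8 ∧ x ≠ -8 ∧ x ≠ 24 ∧ x ≠ -24 ∧ x ^ 2 + 192 ≠ 0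

theorem ls3_sq_sub_b_sq (x : L) (hx : x ≠ 8) :
    x ^ 2 - ls3_b x ^ 2 = (x - 24) * (x + 8) * (x ^ 2 + 192) / (x - 8) ^ 2 := by
  have h1 : x - 8 ≠ 0 := sub_ne_zero.mpr hx
  unfold ls3_b
  field_simp
  ring

theorem ls3_sq_sub_b_neg_sq (x : L) (hx' : x ≠ -8) :
    x ^ 2 - ls3_b (-x) ^ 2 = (x + 24) * (x - 8) * (x ^ 2 + 192) / (x + 8) ^ 2 := by
  have h1' : x + 8 ≠ 0 := fun h => hx' (eq_neg_of_add_eq_zero_left h)
  rw [ls3_b_neg_eq]
  field_simp
  ring

theorem ls3_b_sq_sub_b_neg_sq (x : L) (hx : x ≠ 8) (hx' : x ≠ -8) :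
    ls3_b x ^ 2 - ls3_b (-x) ^ 2
      = 8192 * x * (x ^ 2 + 192) / ((x - 8) ^ 2 * (x + 8) ^ 2) := by
  have h1 : x - 8 ≠ 0 := sub_ne_zero.mpr hx
  have h1' : x + 8 ≠ 0 := fun h => hx' (eq_neg_of_add_eq_zero_left h)
  rw [ls3_b_neg_eq]
  unfold ls3_b
  field_simp
  ring

theorem ls3_sextic_factor' (x : L) (hx : x ≠ 8) (hx' : x ≠ -8) :
    ls3_sextic (ls3_J x)
      = (X ^ 2 - C (x ^ 2)) * (X ^ 2 - C (ls3_b x ^ 2)) * (X ^ 2 - C (ls3_b (-x) ^ 2)) := by
  rw [ls3_sextic_factor x hx hx']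
  simp only [map_pow]
  ring

theorem ls3_isCoprime_sq_sub (a a' : L) (h : a ≠ a') :
    IsCoprime (X ^ 2 - C a : L[X]) (X ^ 2 - C a') := by
  have h' : a' - a ≠ 0 := sub_ne_zero.mpr (Ne.symm h)
  refine ⟨C (a' - a)⁻¹, -C (a' - a)⁻¹, ?_⟩
  have : (C (a' - a)⁻¹ : L[X]) * (C a' - C a) = 1 := by
    rw [← C_sub, ← C_mul, inv_mul_cancel₀ h', C_1]
  linear_combination this

theorem ls3_sextic_separable (x : L) (h : ls3_Nondeg x) :
    (ls3_sextic (ls3_J x)).Separable := by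
  obtain ⟨h2, h0, h8, h8', h24, h24', h192⟩ := h
  have h1 : x - 8 ≠ 0 := sub_ne_zero.mpr h8
  have h1' : x + 8 ≠ 0 := fun h => h8' (eq_neg_of_add_eq_zero_left h)
  have g24 : x - 24 ≠ 0 := sub_ne_zero.mpr h24
  have g24' : x + 24 ≠ 0 := fun h => h24' (eq_neg_of_add_eq_zero_left h)
  have h8ne : (8 : L) ≠ 0 := by
    have : (8 : L) = 2 ^ 3 := by norm_num
    rw [this]; exact pow_ne_zero _ h2
  have h8192 : (8192 : L) ≠ 0 := by
    have : (8192 : L) = 2 ^ 13 := by norm_num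
    rw [this]; exact pow_ne_zero _ h2
  have hb0 : ls3_b x ≠ 0 := by
    unfold ls3_b
    exact div_ne_zero (mul_ne_zero h8ne g24') h1
  have hb0' : ls3_b (-x) ≠ 0 := by
    rw [ls3_b_neg_eq]
    exact div_ne_zero (mul_ne_zero h8ne g24) h1'
  have d12 : x ^ 2 ≠ ls3_b x ^ 2 := by
    rw [Ne, ← sub_eq_zero, ls3_sq_sub_b_sq x h8]
    exact div_ne_zero (mul_ne_zero (mul_ne_zero g24 h1') h192) (pow_ne_zero _ h1)
  have d13 : x ^ 2 ≠ ls3_b (-x) ^ 2 := by
    rw [Ne, ← sub_eq_zero, ls3_sq_sub_b_neg_sq x h8']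
    exact div_ne_zero (mul_ne_zero (mul_ne_zero g24' h1) h192) (pow_ne_zero _ h1')
  have d23 : ls3_b x ^ 2 ≠ ls3_b (-x) ^ 2 := by
    rw [Ne, ← sub_eq_zero, ls3_b_sq_sub_b_neg_sq x h8 h8']
    exact div_ne_zero (mul_ne_zero (mul_ne_zero h8192 h0) h192)
      (mul_ne_zero (pow_ne_zero _ h1) (pow_ne_zero _ h1'))
  have hn2 : ((2 : ℕ) : L) ≠ 0 := by exact_mod_cast h2
  rw [ls3_sextic_factor' x h8 h8']
  have s1 := separable_X_pow_sub_C (n := 2) (x ^ 2) hn2 (pow_ne_zero _ h0)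
  have s2 := separable_X_pow_sub_C (n := 2) (ls3_b x ^ 2) hn2 (pow_ne_zero _ hb0)
  have s3 := separable_X_pow_sub_C (n := 2) (ls3_b (-x) ^ 2) hn2 (pow_ne_zero _ hb0')
  exact (s1.mul s2 (ls3_isCoprime_sq_sub _ _ d12)).mul s3
    ((ls3_isCoprime_sq_sub _ _ d13).mul_left (ls3_isCoprime_sq_sub _ _ d23))

theorem ls3_sextic_splits (x : L) (hx : x ≠ 8) (hx' : x ≠ -8) :
    (ls3_sextic (ls3_J x)).Splits := by
  rw [ls3_sextic_factor x hx hx']
  exact (((((Splits.X_sub_C _).mul (Splits.X_add_C _)).mul (Splits.X_sub_C _)).mul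
    (Splits.X_add_C _)).mul (Splits.X_sub_C _)).mul (Splits.X_add_C _)

theorem ls3_sextic_eval (J t : L) :
    (ls3_sextic J).eval t = (t ^ 2 + 192) ^ 3 - J * (t ^ 2 - 64) ^ 2 := by
  simp [ls3_sextic]

theorem ls3_sextic_eval_self (x : L) (hx : x ≠ 8) (hx' : x ≠ -8) :
    (ls3_sextic (ls3_J x)).eval x = 0 := by
  rw [ls3_sextic_factor x hx hx']
  simp

theorem ls3_sextic_map {S T : Type*} [CommRing S] [CommRing T] (φ : S →+* T) (J : S) :
    (ls3_sextic J).map φ = ls3_sextic (φ J) := by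
  simp [ls3_sextic, Polynomial.map_sub, Polynomial.map_mul, Polynomial.map_pow, Polynomial.map_add,
    map_ofNat]

theorem ls3_sextic_monic {S : Type*} [CommRing S] [Nontrivial S] (J : S) : (ls3_sextic J).Monic := by
  unfold ls3_sextic
  have h1 : (X ^ 2 + C 192 : S[X]).Monic := monic_X_pow_add_C _ (by norm_num)
  have h2 : ((X ^ 2 + C 192 : S[X]) ^ 3).Monic := h1.pow 3
  have hd1 : ((X ^ 2 + C 192 : S[X]) ^ 3).natDegree = 6 := by
    rw [h1.natDegree_pow, natDegree_X_pow_add_C]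
  refine h2.sub_of_left ?_
  have hd2 : (C J * (X ^ 2 - C 64) ^ 2 : S[X]).natDegree ≤ 4 := by
    refine (natDegree_C_mul_le _ _).trans ?_
    refine natDegree_pow_le.trans ?_
    have : (X ^ 2 - C 64 : S[X]).natDegree ≤ 2 := by
      refine (natDegree_sub_le _ _).trans ?_
      simp
    omega
  rw [degree_eq_natDegree h2.ne_zero, hd1]
  exact lt_of_le_of_lt degree_le_natDegree (by exact_mod_cast Nat.lt_of_le_of_lt hd2 (by norm_num))

theorem ls3_sextic_natDegree {S : Type*} [CommRing S] [Nontrivial S] (J : S) :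
    (ls3_sextic J).natDegree = 6 := by
  unfold ls3_sextic
  have h1 : (X ^ 2 + C 192 : S[X]).Monic := monic_X_pow_add_C _ (by norm_num)
  have h2 : ((X ^ 2 + C 192 : S[X]) ^ 3).Monic := h1.pow 3
  have hd1 : ((X ^ 2 + C 192 : S[X]) ^ 3).natDegree = 6 := by
    rw [h1.natDegree_pow, natDegree_X_pow_add_C]
  have hd2 : (C J * (X ^ 2 - C 64) ^ 2 : S[X]).natDegree ≤ 4 := by
    refine (natDegree_C_mul_le _ _).trans ?_
    refine natDegree_pow_le.trans ?_
    have : (X ^ 2 - C 64 : S[X]).natDegree ≤ 2 := by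
      refine (natDegree_sub_le _ _).trans ?_
      simp
    omega
  rw [natDegree_sub_eq_left_of_natDegree_lt (by omega), hd1]

/-- every root of the sextic is one of `±x, ±b(x), ±b(-x)`. -/
theorem ls3_root_cases (x t : L) (hx : x ≠ 8) (hx' : x ≠ -8)
    (ht : (ls3_sextic (ls3_J x)).eval t = 0) :
    t = x ∨ t = -x ∨ t = ls3_b x ∨ t = -ls3_b x ∨ t = ls3_b (-x) ∨ t = -ls3_b (-x) := by
  rw [ls3_sextic_factor x hx hx'] at ht
  simp only [eval_mul, eval_sub, eval_add, eval_X, eval_C, mul_eq_zero] at ht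
  rcases ht with ((((h | h) | h) | h) | h) | h
  · left; exact sub_eq_zero.mp h
  · right; left; exact eq_neg_of_add_eq_zero_left h
  · right; right; left; exact sub_eq_zero.mp h
  · right; right; right; left; exact eq_neg_of_add_eq_zero_left h
  · right; right; right; right; left; exact sub_eq_zero.mp h
  · right; right; right; right; right; exact eq_neg_of_add_eq_zero_left h


end Identities

section Galois

variable {F Ω : Type*} [Field F] [Field Ω] [Algebra F Ω]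

theorem ls3_b_mem (x : Ω) (E : IntermediateField F Ω) (hx : x ∈ E) : ls3_b x ∈ E := by
  unfold ls3_b
  have h8 : (8 : Ω) ∈ E := by
    have : (8 : Ω) = algebraMap F Ω 8 := by rw [map_ofNat]
    rw [this]; exact E.algebraMap_mem _
  have h24 : (24 : Ω) ∈ E := by
    have : (24 : Ω) = algebraMap F Ω 24 := by rw [map_ofNat]
    rw [this]; exact E.algebraMap_mem _
  exact div_mem (mul_mem h8 (add_mem hx h24)) (sub_mem hx h8)

/-- **Galois.** If `J(x) ∈ F` and `x` is not a branch point, then `F(x)/F` is Galois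
(splitting field of the separable sextic). No hypothesis on the degree. -/
theorem ls3_isGalois (x : Ω) (J₀ : F) (hJ : algebraMap F Ω J₀ = ls3_J x) (h : ls3_Nondeg x) :
    IsGalois F F⟮x⟯ := by
  have h8 := h.2.2.1
  have h8' := h.2.2.2.1
  have hmap : (ls3_sextic J₀).map (algebraMap F Ω) = ls3_sextic (ls3_J x) := by
    rw [ls3_sextic_map, hJ]
  have hsplit : ((ls3_sextic J₀).map (algebraMap F Ω)).Splits := by
    rw [hmap]; exact ls3_sextic_splits x h8 h8'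
  have hsep : (ls3_sextic J₀).Separable := by
    rw [← Polynomial.separable_map (algebraMap F Ω), hmap]
    exact ls3_sextic_separable x h
  have hne : ls3_sextic J₀ ≠ 0 := (ls3_sextic_monic J₀).ne_zero
  have hxmem : x ∈ F⟮x⟯ := mem_adjoin_simple_self F x
  have hroots : ∀ t ∈ (ls3_sextic J₀).rootSet Ω, t ∈ F⟮x⟯ := by
    intro t ht
    rw [mem_rootSet] at ht
    have ht' : (ls3_sextic (ls3_J x)).eval t = 0 := by
      rw [← hmap, eval_map_algebraMap]; exact ht.2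
    have hb := ls3_b_mem x F⟮x⟯ hxmem
    have hb' := ls3_b_mem (-x) F⟮x⟯ (neg_mem hxmem)
    rcases ls3_root_cases x t h8 h8' ht' with h | h | h | h | h | h <;> rw [h]
    · exact hxmem
    · exact neg_mem hxmem
    · exact hb
    · exact neg_mem hb
    · exact hb'
    · exact neg_mem hb'
  have hsf : (ls3_sextic J₀).IsSplittingField F F⟮x⟯ := by
    rw [IntermediateField.isSplittingField_iff]
    refine ⟨IntermediateField.splits_of_splits hsplit hroots, le_antisymm ?_ ?_⟩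
    · rw [adjoin_simple_le_iff]
      apply subset_adjoin
      rw [mem_rootSet]
      refine ⟨hne, ?_⟩
      rw [← eval_map_algebraMap, hmap]
      exact ls3_sextic_eval_self x h8 h8'
    · rw [adjoin_le_iff]
      exact hroots
  exact IsGalois.of_separable_splitting_field hsep

end Galois

section Degree

variable {k : Type*} [Field k]

/-- numerator and denominator of `J` are coprime (char ≠ 2). -/
theorem ls3_isCoprime_num_denom (h2 : (2 : k) ≠ 0) :
    IsCoprime ((X ^ 2 + C 192 : k[X]) ^ 3) ((X ^ 2 - C 64) ^ 2) := by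
  have h256 : (256 : k) ≠ 0 := by
    have : (256 : k) = 2 ^ 8 := by norm_num
    rw [this]; exact pow_ne_zero _ h2
  have c1 : IsCoprime (X ^ 2 + C 192 : k[X]) (X ^ 2 - C 64) := by
    refine ⟨C (256 : k)⁻¹, -C (256 : k)⁻¹, ?_⟩
    have : C (256 : k)⁻¹ * C (256 : k) = 1 := by rw [← C_mul, inv_mul_cancel₀ h256, C_1]
    have e : (C (256 : k) : k[X]) = C 192 + C 64 := by rw [← C_add]; norm_num
    rw [e] at this
    linear_combination this
  exact c1.pow

theorem ls3_natDegree_num : ((X ^ 2 + C 192 : k[X]) ^ 3).natDegree = 6 := by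
  have h1 : (X ^ 2 + C 192 : k[X]).Monic := monic_X_pow_add_C _ (by norm_num)
  rw [h1.natDegree_pow, natDegree_X_pow_add_C]

theorem ls3_natDegree_denom : ((X ^ 2 - C 64 : k[X]) ^ 2).natDegree = 4 := by
  have h1 : (X ^ 2 - C 64 : k[X]).Monic := monic_X_pow_sub_C _ (by norm_num)
  rw [h1.natDegree_pow, natDegree_X_pow_sub_C]

theorem ls3_denom_ne_zero : ((X ^ 2 - C 64 : k[X]) ^ 2) ≠ 0 :=
  ((monic_X_pow_sub_C (64 : k) (by norm_num : (2 : ℕ) ≠ 0)).pow 2).ne_zero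

variable {Ω : Type*} [Field Ω] [Algebra k Ω]

/-- `[k(x) : k(J(x))] = 6` for `x` transcendental over `k`, `2 ≠ 0`. -/
theorem ls3_relfinrank (h2 : (2 : k) ≠ 0) (x : Ω) (hx : Transcendental k x) :
    relfinrank k⟮ls3_J x⟯ k⟮x⟯ = 6 := by
  have := rfd_relfinrank hx (ls3_denom_ne_zero (k := k)) (ls3_isCoprime_num_denom h2)
  rw [ls3_natDegree_num, ls3_natDegree_denom] at this
  have e1 : aeval x ((X ^ 2 + C 192 : k[X]) ^ 3) = (x ^ 2 + 192) ^ 3 := by
    simp [map_ofNat]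
  have e2 : aeval x ((X ^ 2 - C 64 : k[X]) ^ 2) = (x ^ 2 - 64) ^ 2 := by
    simp [map_ofNat]
  rw [e1, e2] at this
  exact this

theorem ls3_J_mem (x : Ω) (E : IntermediateField k Ω) (hx : x ∈ E) : ls3_J x ∈ E := by
  unfold ls3_J
  have h192 : (192 : Ω) ∈ E := by
    have : (192 : Ω) = algebraMap k Ω 192 := by rw [map_ofNat]
    rw [this]; exact E.algebraMap_mem _
  have h64 : (64 : Ω) ∈ E := by
    have : (64 : Ω) = algebraMap k Ω 64 := by rw [map_ofNat]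
    rw [this]; exact E.algebraMap_mem _
  exact div_mem (pow_mem (add_mem (pow_mem hx 2) h192) 3) (pow_mem (sub_mem (pow_mem hx 2) h64) 2)

theorem ls3_adjoin_J_le (x : Ω) : k⟮ls3_J x⟯ ≤ k⟮x⟯ := by
  rw [adjoin_simple_le_iff]
  exact ls3_J_mem x _ (mem_adjoin_simple_self k x)

/-- `[k(J)(x) : k(J)] = 6`. -/
theorem ls3_finrank (h2 : (2 : k) ≠ 0) (x : Ω) (hx : Transcendental k x) :
    Module.finrank k⟮ls3_J x⟯ (k⟮ls3_J x⟯)⟮x⟯ = 6 := by
  have h := ls3_relfinrank h2 x hx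
  rw [relfinrank_eq_finrank_of_le (ls3_adjoin_J_le x),
    extendScalars_adjoin (ls3_adjoin_J_le x)] at h
  exact h

theorem ls3_nondeg_of_transcendental (h2 : (2 : k) ≠ 0) (x : Ω) (hx : Transcendental k x) :
    ls3_Nondeg x := by
  have key : ∀ p : k[X], p.Monic → aeval x p ≠ 0 := by
    intro p hp h0
    exact hx ⟨p, hp.ne_zero, h0⟩
  have h2' : (2 : Ω) ≠ 0 := by
    have : (2 : Ω) = algebraMap k Ω 2 := by rw [map_ofNat]
    rw [this]
    exact (_root_.map_ne_zero _).mpr h2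
  refine ⟨h2', ?_, ?_, ?_, ?_, ?_, ?_⟩
  · intro h
    apply key X monic_X
    simpa using h
  · intro h
    apply key (X - C 8) (monic_X_sub_C _)
    simp [map_ofNat, h]
  · intro h
    apply key (X + C 8) (monic_X_add_C _)
    simp [map_ofNat, h]
  · intro h
    apply key (X - C 24) (monic_X_sub_C _)
    simp [map_ofNat, h]
  · intro h
    apply key (X + C 24) (monic_X_add_C _)
    simp [map_ofNat, h]
  · intro h
    apply key (X ^ 2 + C 192) (monic_X_pow_add_C _ (by norm_num))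
    simpa [map_ofNat] using h

/-- `k(J)(x)/k(J)` is Galois for `x` transcendental over `k`, `2 ≠ 0`. -/
theorem ls3_isGalois_of_transcendental (h2 : (2 : k) ≠ 0) (x : Ω) (hx : Transcendental k x) :
    IsGalois k⟮ls3_J x⟯ (k⟮ls3_J x⟯)⟮x⟯ :=
  ls3_isGalois x ⟨ls3_J x, mem_adjoin_simple_self k _⟩ rfl (ls3_nondeg_of_transcendental h2 x hx)

end Degree

section Fibres

variable {k : Type*} [Field k]

/-- `J - 1728 = X²(X²-576)²/(X²-64)²`, polynomial form (any commutative ring). -/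
theorem ls3_num_sub_1728 {S : Type*} [CommRing S] :
    ((X ^ 2 + C 192 : S[X]) ^ 3 - C 1728 * (X ^ 2 - C 64) ^ 2) = X ^ 2 * (X ^ 2 - C 576) ^ 2 := by
  simp only [map_ofNat]
  ring

/-- fibre over `J = 0`: `X² + 192` is separable if `6 ≠ 0` (so `e = 3` everywhere over `0`). -/
theorem ls3_separable_fibre_zero (h6 : (6 : k) ≠ 0) : (X ^ 2 + C 192 : k[X]).Separable := by
  have h2 : (2 : k) ≠ 0 := fun h => h6 (by
    have : (6 : k) = 2 * 3 := by norm_num
    rw [this, h, zero_mul])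
  have h3 : (3 : k) ≠ 0 := fun h => h6 (by
    have : (6 : k) = 2 * 3 := by norm_num
    rw [this, h, mul_zero])
  have h192 : (192 : k) ≠ 0 := by
    have : (192 : k) = 2 ^ 6 * 3 := by norm_num
    rw [this]; exact mul_ne_zero (pow_ne_zero _ h2) h3
  have := separable_X_pow_sub_C (n := 2) (-(192 : k)) (by exact_mod_cast h2) (neg_ne_zero.mpr h192)
  simpa using this

/-- fibre over `J = 1728`: `X(X²-576)` is separable if `6 ≠ 0` (so `e = 2` everywhere). -/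
theorem ls3_separable_fibre_1728 (h6 : (6 : k) ≠ 0) : (X * (X ^ 2 - C 576) : k[X]).Separable := by
  have h2 : (2 : k) ≠ 0 := fun h => h6 (by
    have : (6 : k) = 2 * 3 := by norm_num
    rw [this, h, zero_mul])
  have h3 : (3 : k) ≠ 0 := fun h => h6 (by
    have : (6 : k) = 2 * 3 := by norm_num
    rw [this, h, mul_zero])
  have h576 : (576 : k) ≠ 0 := by
    have : (576 : k) = 2 ^ 6 * 3 ^ 2 := by norm_num
    rw [this]; exact mul_ne_zero (pow_ne_zero _ h2) (pow_ne_zero _ h3)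
  have s2 := separable_X_pow_sub_C (n := 2) (576 : k) (by exact_mod_cast h2) h576
  refine separable_X.mul s2 ?_
  refine ⟨C (576 : k)⁻¹ * X, -C (576 : k)⁻¹, ?_⟩
  have : C (576 : k)⁻¹ * C (576 : k) = 1 := by rw [← C_mul, inv_mul_cancel₀ h576, C_1]
  linear_combination this

/-- fibre over `J = ∞`: the finite part `X² - 64 = (X-8)(X+8)` is separable if `2 ≠ 0`
(so `e = 2` at `X = 8, -8`; at `X = ∞`: `deg num - deg denom = 6 - 4 = 2`). -/
theorem ls3_separable_fibre_infty (h2 : (2 : k) ≠ 0) : (X ^ 2 - C 64 : k[X]).Separable := by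
  have h64 : (64 : k) ≠ 0 := by
    have : (64 : k) = 2 ^ 6 := by norm_num
    rw [this]; exact pow_ne_zero _ h2
  exact separable_X_pow_sub_C (n := 2) (64 : k) (by exact_mod_cast h2) h64

end Fibres

section Valuation

variable {Ω Γ₀ : Type*} [Field Ω] [LinearOrderedCommGroupWithZero Γ₀] (v : Valuation Ω Γ₀)

theorem ls3_val_natCast_le_one (n : ℕ) : v (n : Ω) ≤ 1 := by
  induction n with
  | zero => simp
  | succ n ih =>
    rw [Nat.cast_succ]
    exact (v.map_add _ _).trans (max_le ih (by simp))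

theorem ls3_val_add_nat (x : Ω) (hx : 1 < v x) (n : ℕ) : v (x + n) = v x :=
  v.map_add_eq_of_lt_left (lt_of_le_of_lt (ls3_val_natCast_le_one v n) hx)

theorem ls3_val_sub_nat (x : Ω) (hx : 1 < v x) (n : ℕ) : v (x - n) = v x :=
  v.map_sub_eq_of_lt_left (lt_of_le_of_lt (ls3_val_natCast_le_one v n) hx)

theorem ls3_val_sq_sub_nat (x : Ω) (hx : 1 < v x) (n : ℕ) : v (x ^ 2 - n) = v x ^ 2 := by
  have h1 : 1 < v (x ^ 2) := by
    rw [map_pow]
    exact one_lt_pow₀ hx (by norm_num)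
  rw [v.map_sub_eq_of_lt_left (lt_of_le_of_lt (ls3_val_natCast_le_one v n) h1), map_pow]

/-- at a place where `x` has a pole (e.g. `ord_q`, `x = q⁻¹·unit`): `v(s) = v(x)` (odd order). -/
theorem ls3_val_s (x : Ω) (hx : 1 < v x) : v (ls3_s x) = v x := by
  have hx0 : v x ≠ 0 := (lt_trans zero_lt_one hx).ne'
  unfold ls3_s
  have e1 : v (x ^ 2 - 576) = v x ^ 2 := by exact_mod_cast ls3_val_sq_sub_nat v x hx 576
  have e2 : v (x ^ 2 - 64) = v x ^ 2 := by exact_mod_cast ls3_val_sq_sub_nat v x hx 64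
  rw [map_div₀, map_mul, e1, e2]
  field_simp

/-- `v(b(x)² - 64) = v(x)⁻¹` when `v 2 = 1` (odd order `+1`). -/
theorem ls3_val_b_sq_sub (x : Ω) (hx : 1 < v x) (h2 : v 2 = 1) :
    v (ls3_b x ^ 2 - 64) = (v x)⁻¹ := by
  have hx0 : v x ≠ 0 := (lt_trans zero_lt_one hx).ne'
  have hx8 : x ≠ 8 := by
    intro h
    have := ls3_val_natCast_le_one v 8
    rw [h] at hx
    exact absurd hx (not_lt.mpr (by exact_mod_cast this))
  have e1 : v (x + 8) = v x := by exact_mod_cast ls3_val_add_nat v x hx 8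
  have e2 : v (x - 8) = v x := by exact_mod_cast ls3_val_sub_nat v x hx 8
  have e3 : v (4096 : Ω) = 1 := by
    have : (4096 : Ω) = 2 ^ 12 := by norm_num
    rw [this, map_pow, h2, one_pow]
  rw [ls3_b_sq_sub x hx8, map_div₀, map_mul, map_pow, e1, e2, e3, one_mul]
  field_simp

theorem ls3_val_b_neg_sq_sub (x : Ω) (hx : 1 < v x) (h2 : v 2 = 1) :
    v (ls3_b (-x) ^ 2 - 64) = (v x)⁻¹ := by
  have h := ls3_val_b_sq_sub v (-x) (by rwa [Valuation.map_neg]) h2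
  rwa [Valuation.map_neg] at h

end Valuation

end Fermat.Agent.S18x
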