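import Mathlib
import Fermat.Agent.S18x.LamS3

/-!
# Fibres of `J = A/B`, `A = (X²+192)³`, `B = (X²-64)²` (helper17; prefix `ls3f_`)

For `a` with `B(a) ≠ 0` and `c = A(a)/B(a)`: `A - cB = (X-a)^m H` with `H(a) ≠ 0`, where
`m = 3` if `c = 0` (`a² = -192`), `m = 2` if `c = 1728` (`a = 0` or `a² = 576`), `m = 1` otherwise.
Needs `6 ≠ 0`. Input for the horizontal unramifiedness (H) of the S18 block NRM (row N5).
-/

set_option autoImplicit false

noncomputable section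

namespace Fermat.Agent.S18x

open Polynomial

section Fibre

variable {K : Type*} [Field K]

/-- numerator `A = (X²+192)³` of `J`. -/
def ls3f_A (K : Type*) [Field K] : K[X] := (X ^ 2 + C 192) ^ 3

/-- denominator `B = (X²-64)²` of `J`. -/
def ls3f_B (K : Type*) [Field K] : K[X] := (X ^ 2 - C 64) ^ 2

theorem ls3f_sextic_eq (c : K) : ls3_sextic c = ls3f_A K - C c * ls3f_B K := rfl

theorem ls3f_eval_A (a : K) : (ls3f_A K).eval a = (a ^ 2 + 192) ^ 3 := by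
  simp [ls3f_A]

theorem ls3f_eval_B (a : K) : (ls3f_B K).eval a = (a ^ 2 - 64) ^ 2 := by
  simp [ls3f_B]

theorem ls3f_aeval_A {L : Type*} [Field L] [Algebra K L] (h : L) :
    aeval h (ls3f_A K) = (h ^ 2 + 192) ^ 3 := by
  simp [ls3f_A, map_ofNat]

theorem ls3f_aeval_B {L : Type*} [Field L] [Algebra K L] (h : L) :
    aeval h (ls3f_B K) = (h ^ 2 - 64) ^ 2 := by
  simp [ls3f_B, map_ofNat]

theorem ls3f_two_ne (h6 : (6 : K) ≠ 0) : (2 : K) ≠ 0 := fun h => h6 (by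
  have : (6 : K) = 2 * 3 := by norm_num
  rw [this, h, zero_mul])

theorem ls3f_three_ne (h6 : (6 : K) ≠ 0) : (3 : K) ≠ 0 := fun h => h6 (by
  have : (6 : K) = 2 * 3 := by norm_num
  rw [this, h, mul_zero])

/-! ### fibre over `0` -/

/-- `c = 0 ↔ a² + 192 = 0`. -/
theorem ls3f_J_eq_zero_iff (a : K) (hB : a ^ 2 ≠ 64) : ls3_J a = 0 ↔ a ^ 2 + 192 = 0 := by
  have hB' : a ^ 2 - 64 ≠ 0 := sub_ne_zero.mpr hB
  unfold ls3_J
  rw [div_eq_zero_iff]
  constructor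
  · rintro (h | h)
    · exact pow_eq_zero_iff (by norm_num) |>.mp h
    · exact absurd (pow_eq_zero_iff (by norm_num) |>.mp h) hB'
  · intro h
    left
    rw [h]; ring

/-- over `0`: `A = (X-a)³ (X+a)³`. -/
theorem ls3f_zero (a : K) (ha : a ^ 2 + 192 = 0) :
    ls3f_A K = (X - C a) ^ 3 * (X + C a) ^ 3 := by
  have h192 : (192 : K) = -a ^ 2 := by linear_combination ha
  unfold ls3f_A
  rw [h192, ← mul_pow]
  congr 1
  simp only [map_neg, map_pow]
  ring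

theorem ls3f_zero_eval_ne (h6 : (6 : K) ≠ 0) (a : K) (ha : a ^ 2 + 192 = 0) :
    ((X + C a : K[X]) ^ 3).eval a ≠ 0 := by
  have h2 := ls3f_two_ne h6
  have h3 := ls3f_three_ne h6
  have h192 : (192 : K) ≠ 0 := by
    have : (192 : K) = 2 ^ 6 * 3 := by norm_num
    rw [this]; exact mul_ne_zero (pow_ne_zero _ h2) h3
  have ha0 : a ≠ 0 := by
    rintro rfl
    apply h192
    linear_combination ha
  simp only [eval_pow, eval_add, eval_X, eval_C]
  have : a + a = 2 * a := by ring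
  rw [this]
  exact pow_ne_zero _ (mul_ne_zero h2 ha0)

/-! ### fibre over `1728` -/

theorem ls3f_1728 : ls3f_A K - C 1728 * ls3f_B K = X ^ 2 * (X ^ 2 - C 576) ^ 2 := by
  unfold ls3f_A ls3f_B
  exact ls3_num_sub_1728

/-- `c = 1728 ↔ a = 0 ∨ a² = 576`. -/
theorem ls3f_J_eq_1728_iff (a : K) (hB : a ^ 2 ≠ 64) :
    ls3_J a = 1728 ↔ a = 0 ∨ a ^ 2 = 576 := by
  have hB' : a ^ 2 - 64 ≠ 0 := sub_ne_zero.mpr hB
  have key : ls3_J a - 1728 = a ^ 2 * (a ^ 2 - 576) ^ 2 / (a ^ 2 - 64) ^ 2 := by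
    unfold ls3_J
    field_simp
    ring
  rw [← sub_eq_zero, key, div_eq_zero_iff]
  constructor
  · rintro (h | h)
    · rcases mul_eq_zero.mp h with h | h
      · left; exact pow_eq_zero_iff (by norm_num) |>.mp h
      · right; exact sub_eq_zero.mp (pow_eq_zero_iff (by norm_num) |>.mp h)
    · exact absurd (pow_eq_zero_iff (by norm_num) |>.mp h) hB'
  · rintro (h | h)
    · left; rw [h]; ring
    · left; rw [h]; ring

/-- over `1728`, at `a = 0`. -/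
theorem ls3f_1728_zero :
    ls3f_A K - C 1728 * ls3f_B K = (X - C 0) ^ 2 * (X ^ 2 - C 576) ^ 2 := by
  rw [ls3f_1728, C_0, sub_zero]

theorem ls3f_1728_zero_eval_ne (h6 : (6 : K) ≠ 0) :
    ((X ^ 2 - C 576 : K[X]) ^ 2).eval 0 ≠ 0 := by
  have h2 := ls3f_two_ne h6
  have h3 := ls3f_three_ne h6
  have h576 : (576 : K) ≠ 0 := by
    have : (576 : K) = 2 ^ 6 * 3 ^ 2 := by norm_num
    rw [this]; exact mul_ne_zero (pow_ne_zero _ h2) (pow_ne_zero _ h3)
  simp only [eval_pow, eval_sub, eval_X, eval_C]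
  apply pow_ne_zero
  simpa using h576

/-- over `1728`, at `a = ±24` (stated as `a² = 576`). -/
theorem ls3f_1728_sq (a : K) (ha : a ^ 2 = 576) :
    ls3f_A K - C 1728 * ls3f_B K = (X - C a) ^ 2 * (X ^ 2 * (X + C a) ^ 2) := by
  rw [ls3f_1728, ← ha]
  simp only [map_pow]
  ring

theorem ls3f_1728_sq_eval_ne (h6 : (6 : K) ≠ 0) (a : K) (ha : a ^ 2 = 576) :
    ((X ^ 2 * (X + C a) ^ 2 : K[X])).eval a ≠ 0 := by
  have h2 := ls3f_two_ne h6
  have h3 := ls3f_three_ne h6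
  have h576 : (576 : K) ≠ 0 := by
    have : (576 : K) = 2 ^ 6 * 3 ^ 2 := by norm_num
    rw [this]; exact mul_ne_zero (pow_ne_zero _ h2) (pow_ne_zero _ h3)
  have ha0 : a ≠ 0 := by
    rintro rfl
    apply h576
    rw [← ha]; ring
  simp only [eval_mul, eval_pow, eval_add, eval_X, eval_C]
  have : a + a = 2 * a := by ring
  rw [this]
  exact mul_ne_zero (pow_ne_zero _ ha0) (pow_ne_zero _ (mul_ne_zero h2 ha0))

/-! ### generic fibre -/

theorem ls3f_deriv_eval (c t : K) :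
    (ls3f_A K - C c * ls3f_B K).derivative.eval t
      = 6 * t * (t ^ 2 + 192) ^ 2 - 4 * t * c * (t ^ 2 - 64) := by
  simp [ls3f_A, ls3f_B, derivative_pow]
  ring

/-- generic fibre: simple root. -/
theorem ls3f_generic (h6 : (6 : K) ≠ 0) (a : K) (hB : a ^ 2 ≠ 64)
    (hc0 : ls3_J a ≠ 0) (hc1728 : ls3_J a ≠ 1728) :
    ∃ H : K[X], ls3f_A K - C (ls3_J a) * ls3f_B K = (X - C a) * H ∧ H.eval a ≠ 0 := by
  have h2 := ls3f_two_ne h6
  have hB' : a ^ 2 - 64 ≠ 0 := sub_ne_zero.mpr hB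
  have hroot : (ls3f_A K - C (ls3_J a) * ls3f_B K).IsRoot a := by
    rw [IsRoot.def, eval_sub, eval_mul, eval_C, ls3f_eval_A, ls3f_eval_B]
    unfold ls3_J
    field_simp
    ring
  obtain ⟨H, hH⟩ := dvd_iff_isRoot.mpr hroot
  refine ⟨H, hH, ?_⟩
  have hd := ls3f_deriv_eval (ls3_J a) a
  rw [hH, derivative_mul, eval_add, eval_mul, eval_mul, derivative_sub, derivative_X, derivative_C,
    sub_zero, eval_one, one_mul, eval_sub, eval_X, eval_C, sub_self, zero_mul, add_zero] at hd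
  rw [hd]
  have h192 : a ^ 2 + 192 ≠ 0 := fun h => hc0 ((ls3f_J_eq_zero_iff a hB).mpr h)
  have ha0 : a ≠ 0 := fun h => hc1728 ((ls3f_J_eq_1728_iff a hB).mpr (Or.inl h))
  have h576 : a ^ 2 - 576 ≠ 0 := fun h =>
    hc1728 ((ls3f_J_eq_1728_iff a hB).mpr (Or.inr (sub_eq_zero.mp h)))
  have key : 6 * a * (a ^ 2 + 192) ^ 2 - 4 * a * ls3_J a * (a ^ 2 - 64)
      = 2 * a * (a ^ 2 + 192) ^ 2 * (a ^ 2 - 576) / (a ^ 2 - 64) := by
    unfold ls3_J
    field_simp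
    ring
  rw [key]
  exact div_ne_zero (mul_ne_zero (mul_ne_zero (mul_ne_zero h2 ha0) (pow_ne_zero _ h192)) h576) hB'

/-- **Summary.** For every `a` with `B(a) ≠ 0`, `c := J(a)`: `A - cB = (X-a)^m H`, `H(a) ≠ 0`,
with `m = 3` if `c = 0`, `m = 2` if `c = 1728`, `m = 1` otherwise. -/
theorem ls3f_fibre (h6 : (6 : K) ≠ 0) (a : K) (hB : a ^ 2 ≠ 64) :
    ∃ (m : ℕ) (H : K[X]), ls3f_A K - C (ls3_J a) * ls3f_B K = (X - C a) ^ m * H ∧ H.eval a ≠ 0 ∧
      (ls3_J a = 0 → m = 3) ∧ (ls3_J a = 1728 → m = 2) ∧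
      (ls3_J a ≠ 0 → ls3_J a ≠ 1728 → m = 1) := by
  have h1728 : (1728 : K) ≠ 0 := by
    have : (1728 : K) = 2 ^ 6 * 3 ^ 3 := by norm_num
    rw [this]
    exact mul_ne_zero (pow_ne_zero _ (ls3f_two_ne h6)) (pow_ne_zero _ (ls3f_three_ne h6))
  by_cases hc0 : ls3_J a = 0
  · have ha := (ls3f_J_eq_zero_iff a hB).mp hc0
    refine ⟨3, (X + C a) ^ 3, ?_, ls3f_zero_eval_ne h6 a ha, fun _ => rfl, ?_, fun h => absurd hc0 h⟩
    · rw [hc0, C_0, zero_mul, sub_zero]; exact ls3f_zero a ha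
    · intro h; rw [hc0] at h; exact absurd h.symm h1728
  · by_cases hc1 : ls3_J a = 1728
    · rcases (ls3f_J_eq_1728_iff a hB).mp hc1 with ha | ha
      · refine ⟨2, (X ^ 2 - C 576) ^ 2, ?_, ?_, fun h => absurd h hc0, fun _ => rfl,
          fun _ h => absurd hc1 h⟩
        · rw [hc1, ha]; exact ls3f_1728_zero
        · rw [ha]; exact ls3f_1728_zero_eval_ne h6
      · refine ⟨2, X ^ 2 * (X + C a) ^ 2, ?_, ls3f_1728_sq_eval_ne h6 a ha, fun h => absurd h hc0,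
          fun _ => rfl, fun _ h => absurd hc1 h⟩
        rw [hc1]; exact ls3f_1728_sq a ha
    · obtain ⟨H, hH, hHa⟩ := ls3f_generic h6 a hB hc0 hc1
      exact ⟨1, H, by rw [pow_one]; exact hH, hHa, fun h => absurd h hc0, fun h => absurd h hc1,
        fun _ _ => rfl⟩

end Fibre

end Fermat.Agent.S18x
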