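import Mathlib
import Fermat.Agent.S18x.LamS3Fibre

/-!
# `hfac0`, `hfac1` for the sextic (helper17; prefix `ls3f_`), in the shape consumed by
`lyh_ord_eq_one_of_data` (row N5 of the S18 block NRM).
-/

set_option autoImplicit false

noncomputable section

namespace Fermat.Agent.S18x

open Polynomial

variable {K : Type*} [Field K]

/-- fibre over `0`: every zero `a` of `A` is a triple zero. -/
theorem ls3f_hfac0 (h6 : (6 : K) ≠ 0) :
    ∀ a : K, (ls3f_A K).eval a = 0 → (ls3f_B K).eval a ≠ 0 →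
      ∃ H : K[X], ls3f_A K = (X - C a) ^ 3 * H ∧ H.eval a ≠ 0 := by
  intro a hA _
  rw [ls3f_eval_A] at hA
  have ha : a ^ 2 + 192 = 0 := pow_eq_zero_iff (by norm_num) |>.mp hA
  exact ⟨(X + C a) ^ 3, ls3f_zero a ha, ls3f_zero_eval_ne h6 a ha⟩

/-- fibre over `1728`: every zero `a` of `A - 1728 B` is a double zero. -/
theorem ls3f_hfac1 (h6 : (6 : K) ≠ 0) :
    ∀ a : K, (ls3f_A K - C 1728 * ls3f_B K).eval a = 0 → (ls3f_B K).eval a ≠ 0 →
      ∃ H : K[X], ls3f_A K - C 1728 * ls3f_B K = (X - C a) ^ 2 * H ∧ H.eval a ≠ 0 := by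
  intro a hA _
  rw [ls3f_1728] at hA
  simp only [eval_mul, eval_pow, eval_sub, eval_X, eval_C] at hA
  rcases mul_eq_zero.mp hA with h | h
  · have ha : a = 0 := pow_eq_zero_iff (by norm_num) |>.mp h
    refine ⟨(X ^ 2 - C 576) ^ 2, ?_, ?_⟩
    · rw [ha]; exact ls3f_1728_zero
    · rw [ha]; exact ls3f_1728_zero_eval_ne h6
  · have ha : a ^ 2 = 576 := sub_eq_zero.mp (pow_eq_zero_iff (by norm_num) |>.mp h)
    exact ⟨X ^ 2 * (X + C a) ^ 2, ls3f_1728_sq a ha, ls3f_1728_sq_eval_ne h6 a ha⟩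

/-- the identity `J · B(h) = A(h)` in `aeval` form, from `J · (h²-64)² = (h²+192)³`. -/
theorem ls3f_hid {E L : Type*} [Field E] [Field L] [Algebra K L] [Algebra E L] (J : E) (h : L)
    (hJ : algebraMap E L J * (h ^ 2 - 64) ^ 2 = (h ^ 2 + 192) ^ 3) :
    algebraMap E L J * aeval h (ls3f_B K) = aeval h (ls3f_A K) := by
  rw [ls3f_aeval_A, ls3f_aeval_B, hJ]

end Fermat.Agent.S18x
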