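import Mathlib
import Fermat.Agent.S24x.PlacePrime
import Fermat.Agent.S24x.PlaceBasic

/-!
# S18x / N5 (H), leaf G5 (helper33): the DENSE lemma

`K ⊆ E ⊆ L` fields, `L = E[h]`, `P` a place of `L/K` with restriction `v` to `E`, `O_v = K + π O_v`
with `ord_v π = 1`, and `π = G(h)/D(h)` a rational function of `h` regular at `h = a`.  If
`ord_P (h - a) > 0` then `ord_P (h - a) = 1`: an unramified place of `E` over the `π`-line stays
unramified over the `h`-line.  No towers, no degree inequality.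
-/

set_option autoImplicit false
set_option linter.unusedSectionVars false

namespace Fermat.Agent.S18x

open AlgebraicCurve Polynomial Fermat.Agent.S24x

section OrdAPI

variable {K F : Type*} [Field K] [Field F] [Algebra K F]

theorem lyh_ord_neg (v : Place K F) (f : F) : v.ord (-f) = v.ord f := by
  rcases eq_or_ne f 0 with rfl | hf
  · simp
  have h1 : v.ord ((-1 : F) * (-1 : F)) = v.ord (-1 : F) + v.ord (-1 : F) :=
    v.ord_mul (by simp) (by simp)
  have h2 : v.ord (-1 : F) = 0 := by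
    rw [neg_one_mul, neg_neg, v.ord_one] at h1
    omega
  have h3 : v.ord (-f) = v.ord ((-1 : F) * f) := by rw [neg_one_mul]
  rw [h3, v.ord_mul (by simp) hf, h2, zero_add]

theorem lyh_ord_pow (v : Place K F) (f : F) (k : ℕ) : v.ord (f ^ k) = k * v.ord f := by
  have := v.ord_zpow f (k : ℤ)
  rwa [zpow_natCast] at this

/-- strict ultrametric: a term of strictly larger order does not change the order. -/
theorem lyh_ord_add_eq_of_lt (v : Place K F) {f g : F} (hf : f ≠ 0)
    (hg : g = 0 ∨ v.ord f < v.ord g) : v.ord (f + g) = v.ord f := by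
  rcases hg with rfl | hlt
  · rw [add_zero]
  have hfg : f + g ≠ 0 := by
    intro h0
    have : g = -f := by linear_combination h0
    rw [this, lyh_ord_neg] at hlt
    exact lt_irrefl _ hlt
  have h1 := pb_ord_add v hfg
  have h2 : min (v.ord (f + g)) (v.ord (-g)) ≤ v.ord ((f + g) + (-g)) :=
    pb_ord_add v (by rw [add_neg_cancel_right]; exact hf)
  rw [add_neg_cancel_right, lyh_ord_neg] at h2
  rw [min_eq_left hlt.le] at h1
  rcases le_total (v.ord (f + g)) (v.ord g) with h | h
  · rw [min_eq_left h] at h2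
    omega
  · rw [min_eq_right h] at h2
    omega

end OrdAPI

section PolyValues

variable {K L : Type*} [Field K] [Field L] [Algebra K L]

/-- polynomials in an element of `O_P` lie in `O_P`. -/
theorem lyh_aeval_mem (P : Place K L) {h : L} (hh : h ∈ P.toValuationSubring) (R : K[X]) :
    aeval h R ∈ P.toValuationSubring := by
  have hle : Algebra.adjoin K {h} ≤ placeSubalgebra P :=
    Algebra.adjoin_le (by
      intro y hy
      rw [Set.mem_singleton_iff] at hy
      subst hy
      exact hh)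
  exact hle (aeval_mem_adjoin_singleton K h)

/-- `h - a ∈ m_P` implies `h ∈ O_P`. -/
theorem lyh_mem_of_pos (P : Place K L) {h : L} {a : K}
    (hpos : 0 < P.ord (h - algebraMap K L a)) : h ∈ P.toValuationSubring := by
  have ht0 : h - algebraMap K L a ≠ 0 := by
    intro h0
    rw [h0, P.ord_zero] at hpos
    exact lt_irrefl _ hpos
  have h1 : h - algebraMap K L a ∈ P.toValuationSubring := (pb_mem_iff P ht0).2 hpos.le
  have h2 := P.toValuationSubring.add_mem _ _ h1 (P.algebraMap_mem' a)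
  rwa [sub_add_cancel] at h2

/-- a polynomial not vanishing at `a` takes a unit value at `h` when `h ≡ a`. -/
theorem lyh_ord_aeval_eq_zero (P : Place K L) {h : L} {a : K}
    (hpos : 0 < P.ord (h - algebraMap K L a)) (R : K[X]) (hR : R.eval a ≠ 0) :
    aeval h R ≠ 0 ∧ P.ord (aeval h R) = 0 := by
  have ht0 : h - algebraMap K L a ≠ 0 := by
    intro h0
    rw [h0, P.ord_zero] at hpos
    exact lt_irrefl _ hpos
  have hh := lyh_mem_of_pos P hpos
  -- `R = C (R a) + (X - C a) Q`
  obtain ⟨Q, hQ⟩ : ∃ Q : K[X], R - C (R.eval a) = (X - C a) * Q := by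
    have : (X - C a) ∣ R - C (R.eval a) := by
      rw [dvd_iff_isRoot]
      simp
    exact this
  have hdec : aeval h R = algebraMap K L (R.eval a) + (h - algebraMap K L a) * aeval h Q := by
    have h1 : R = C (R.eval a) + (X - C a) * Q := by rw [← hQ]; ring
    conv_lhs => rw [h1]
    simp only [map_add, map_mul, map_sub, aeval_C, aeval_X]
  have hc0 : algebraMap K L (R.eval a) ≠ 0 := by
    simpa using hR
  have hc : P.ord (algebraMap K L (R.eval a)) = 0 := pb_ord_algebraMap P _
  have hkey : P.ord (aeval h R) = P.ord (algebraMap K L (R.eval a)) := by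
    rw [hdec]
    apply lyh_ord_add_eq_of_lt P hc0
    by_cases hQ0 : aeval h Q = 0
    · left; rw [hQ0, mul_zero]
    · right
      rw [hc, P.ord_mul ht0 hQ0]
      have := (pb_mem_iff P hQ0).1 (lyh_aeval_mem P hh Q)
      omega
  refine ⟨?_, by rw [hkey, hc]⟩
  intro h0
  -- then the constant would have positive order
  have h1 : algebraMap K L (R.eval a) = -((h - algebraMap K L a) * aeval h Q) := by
    rw [hdec] at h0
    linear_combination h0
  by_cases hQ0 : aeval h Q = 0
  · rw [hQ0, mul_zero, neg_zero] at h1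
    exact hc0 h1
  · have h2 : P.ord (algebraMap K L (R.eval a)) = P.ord (h - algebraMap K L a) + P.ord (aeval h Q) := by
      rw [h1, lyh_ord_neg, P.ord_mul ht0 hQ0]
    have := (pb_mem_iff P hQ0).1 (lyh_aeval_mem P hh Q)
    omega

/-- **Claim A**: the order of a polynomial in `h` is a multiple of `n = ord_P (h - a)`. -/
theorem lyh_dvd_ord_aeval (P : Place K L) {h : L} {a : K}
    (hpos : 0 < P.ord (h - algebraMap K L a)) (R : K[X]) (hR : aeval h R ≠ 0) :
    P.ord (h - algebraMap K L a) ∣ P.ord (aeval h R) := by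
  have ht0 : h - algebraMap K L a ≠ 0 := by
    intro h0
    rw [h0, P.ord_zero] at hpos
    exact lt_irrefl _ hpos
  have hR0 : R ≠ 0 := by
    rintro rfl
    exact hR (map_zero _)
  obtain ⟨R₁, hR₁, hndvd⟩ := exists_eq_pow_rootMultiplicity_mul_and_not_dvd R hR0 a
  have hev : R₁.eval a ≠ 0 := by
    intro h0
    exact hndvd (dvd_iff_isRoot.2 h0)
  obtain ⟨hne, hord⟩ := lyh_ord_aeval_eq_zero P hpos R₁ hev
  have hdec : aeval h R = (h - algebraMap K L a) ^ (R.rootMultiplicity a) * aeval h R₁ := by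
    conv_lhs => rw [hR₁]
    simp only [map_mul, map_pow, map_sub, aeval_X, aeval_C]
  rw [hdec, P.ord_mul (pow_ne_zero _ ht0) hne, hord, add_zero, lyh_ord_pow]
  exact Dvd.intro_left _ rfl

end PolyValues

section Dense

variable {K E L : Type*} [Field K] [Field E] [Field L] [Algebra K E] [Algebra K L] [Algebra E L]
  [IsScalarTower K E L]

/-- the ring hom `O_v →+* L`. -/
noncomputable def lyh_incl (v : Place K E) : v.toValuationSubring →+* L :=
  (algebraMap E L).comp v.toValuationSubring.subtype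

theorem lyh_incl_apply (v : Place K E) (x : v.toValuationSubring) :
    (lyh_incl v x : L) = algebraMap E L (x : E) := rfl

theorem lyh_incl_algebraMap (v : Place K E) (c : K) :
    (lyh_incl v (algebraMap K v.toValuationSubring c) : L) = algebraMap K L c := by
  rw [lyh_incl_apply, v.coe_algebraMap, ← IsScalarTower.algebraMap_apply]

/-- evaluation at `h`: `O_v[X] →+* L`. -/
noncomputable def lyh_phi (v : Place K E) (h : L) : (v.toValuationSubring)[X] →+* L :=
  eval₂RingHom (lyh_incl v) h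

theorem lyh_phi_C (v : Place K E) (h : L) (x : v.toValuationSubring) :
    lyh_phi v h (C x) = algebraMap E L (x : E) := by
  rw [lyh_phi, coe_eval₂RingHom, eval₂_C, lyh_incl_apply]

theorem lyh_phi_map (v : Place K E) (h : L) (Q : K[X]) :
    lyh_phi v h (Q.map (algebraMap K v.toValuationSubring)) = aeval h Q := by
  rw [lyh_phi, coe_eval₂RingHom, eval₂_map, aeval_def]
  congr 1
  ext c
  exact lyh_incl_algebraMap v c

/-- **coefficientwise approximation**: `O_v = K + π O_v`. -/
theorem lyh_exists_approx_coeff (v : Place K E)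
    (hres : ∀ x : E, x ∈ v.toValuationSubring →
      ∃ c : K, x = algebraMap K E c ∨ 0 < v.ord (x - algebraMap K E c))
    (π : v.toValuationSubring) (hπ : v.ord (π : E) = 1) (q : v.toValuationSubring) :
    ∃ c : K, ∃ y : v.toValuationSubring, q = algebraMap K v.toValuationSubring c + π * y := by
  have hπ0 : (π : E) ≠ 0 := by
    intro h0
    rw [h0, v.ord_zero] at hπ
    exact zero_ne_one hπ
  obtain ⟨c, hc⟩ := hres q q.2
  rcases hc with hc | hc
  · refine ⟨c, 0, ?_⟩
    apply Subtype.ext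
    rw [mul_zero, add_zero, v.coe_algebraMap]
    exact hc
  · have hd0 : (q : E) - algebraMap K E c ≠ 0 := by
      intro h0
      rw [h0, v.ord_zero] at hc
      exact lt_irrefl _ hc
    have hy0 : ((q : E) - algebraMap K E c) * (π : E)⁻¹ ≠ 0 := mul_ne_zero hd0 (inv_ne_zero hπ0)
    have hy : ((q : E) - algebraMap K E c) * (π : E)⁻¹ ∈ v.toValuationSubring := by
      rw [pb_mem_iff v hy0, v.ord_mul hd0 (inv_ne_zero hπ0), v.ord_inv, hπ]
      omega
    refine ⟨c, ⟨_, hy⟩, ?_⟩
    apply Subtype.ext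
    push_cast
    rw [v.coe_algebraMap]
    field_simp
    ring

/-- **polynomial approximation**: `O_v[X] = K[X] + π O_v[X]`. -/
theorem lyh_exists_approx_poly (v : Place K E)
    (hres : ∀ x : E, x ∈ v.toValuationSubring →
      ∃ c : K, x = algebraMap K E c ∨ 0 < v.ord (x - algebraMap K E c))
    (π : v.toValuationSubring) (hπ : v.ord (π : E) = 1) (Q : (v.toValuationSubring)[X]) :
    ∃ Q₀ : K[X], ∃ Q₁ : (v.toValuationSubring)[X],
      Q = Q₀.map (algebraMap K v.toValuationSubring) + C π * Q₁ := by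
  induction Q using Polynomial.induction_on' with
  | add p q hp hq =>
    obtain ⟨p₀, p₁, hp⟩ := hp
    obtain ⟨q₀, q₁, hq⟩ := hq
    refine ⟨p₀ + q₀, p₁ + q₁, ?_⟩
    rw [Polynomial.map_add, mul_add]
    conv_lhs => rw [hp, hq]
    ring
  | monomial n a =>
    obtain ⟨c, y, hcy⟩ := lyh_exists_approx_coeff v hres π hπ a
    refine ⟨monomial n c, monomial n y, ?_⟩
    rw [map_monomial, C_mul_monomial, ← map_add, hcy]

/-- **Claim B**: every element of `K[π, h]` becomes a polynomial in `h` after multiplication by a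
power of `D(h)`. -/
theorem lyh_exists_pow_mul_eq_aeval (h p : L) (G D : K[X]) (hp : p * aeval h D = aeval h G)
    (lam : L) (hlam : lam ∈ Algebra.adjoin K ({p, h} : Set L)) :
    ∃ k : ℕ, ∃ R : K[X], lam * (aeval h D) ^ k = aeval h R := by
  induction hlam using Algebra.adjoin_induction with
  | mem x hx =>
    rcases hx with rfl | hx
    · exact ⟨1, G, by rw [pow_one, hp]⟩
    · rw [Set.mem_singleton_iff] at hx
      subst hx
      exact ⟨0, X, by rw [pow_zero, mul_one, aeval_X]⟩
  | algebraMap c => exact ⟨0, C c, by rw [pow_zero, mul_one, aeval_C]⟩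
  | add x y _ _ hx hy =>
    obtain ⟨k₁, R₁, h₁⟩ := hx
    obtain ⟨k₂, R₂, h₂⟩ := hy
    refine ⟨k₁ + k₂, R₁ * D ^ k₂ + R₂ * D ^ k₁, ?_⟩
    simp only [map_add, map_mul, map_pow]
    rw [← h₁, ← h₂]
    ring
  | mul x y _ _ hx hy =>
    obtain ⟨k₁, R₁, h₁⟩ := hx
    obtain ⟨k₂, R₂, h₂⟩ := hy
    refine ⟨k₁ + k₂, R₁ * R₂, ?_⟩
    simp only [map_mul]
    rw [← h₁, ← h₂]
    ring

/-- **Claim B'**: every nonzero element of `K[π, h]` has order divisible by `ord_P (h - a)`. -/
theorem lyh_dvd_ord_of_mem_adjoin (P : Place K L) {h : L} {a : K}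
    (hpos : 0 < P.ord (h - algebraMap K L a)) (p : L) (G D : K[X]) (hD : D.eval a ≠ 0)
    (hp : p * aeval h D = aeval h G)
    (lam : L) (hlam : lam ∈ Algebra.adjoin K ({p, h} : Set L)) (h0 : lam ≠ 0) :
    P.ord (h - algebraMap K L a) ∣ P.ord lam := by
  obtain ⟨k, R, hR⟩ := lyh_exists_pow_mul_eq_aeval h p G D hp lam hlam
  obtain ⟨hDne, hDord⟩ := lyh_ord_aeval_eq_zero P hpos D hD
  have hR0 : aeval h R ≠ 0 := by
    rw [← hR]
    exact mul_ne_zero h0 (pow_ne_zero _ hDne)
  have h1 := lyh_dvd_ord_aeval P hpos R hR0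
  rw [← hR, P.ord_mul h0 (pow_ne_zero _ hDne), lyh_ord_pow, hDord, mul_zero, add_zero] at h1
  exact h1

/-- **Claim D**: `φ(O_v[X]) ⊆ O_P`. -/
theorem lyh_phi_mem (P : Place K L) (v : Place K E)
    (hPv : ∀ x : E, algebraMap E L x ∈ P.toValuationSubring ↔ x ∈ v.toValuationSubring)
    {h : L} (hh : h ∈ P.toValuationSubring) (Q : (v.toValuationSubring)[X]) :
    lyh_phi v h Q ∈ P.toValuationSubring := by
  induction Q using Polynomial.induction_on' with
  | add p q hp hq =>
    rw [map_add]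
    exact P.toValuationSubring.add_mem _ _ hp hq
  | monomial n a =>
    rw [← C_mul_X_pow_eq_monomial, map_mul, map_pow, lyh_phi_C]
    refine P.toValuationSubring.mul_mem _ _ ((hPv _).2 a.2) (P.toValuationSubring.pow_mem ?_ n)
    rw [lyh_phi, coe_eval₂RingHom, eval₂_X]
    exact hh

/-- **Claim C**: approximation of `φ Q` by elements of `K[π, h]` modulo `π^M`. -/
theorem lyh_exists_approx (v : Place K E)
    (hres : ∀ x : E, x ∈ v.toValuationSubring →
      ∃ c : K, x = algebraMap K E c ∨ 0 < v.ord (x - algebraMap K E c))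
    (π : v.toValuationSubring) (hπ : v.ord (π : E) = 1) (h : L) (M : ℕ)
    (Q : (v.toValuationSubring)[X]) :
    ∃ lam : L, lam ∈ Algebra.adjoin K ({algebraMap E L (π : E), h} : Set L) ∧
      ∃ Q' : (v.toValuationSubring)[X],
        lyh_phi v h Q = lam + algebraMap E L (π : E) ^ M * lyh_phi v h Q' := by
  induction M with
  | zero => exact ⟨0, Subalgebra.zero_mem _, Q, by rw [pow_zero, one_mul, zero_add]⟩
  | succ M ih =>
    obtain ⟨lam, hlam, Q', hQ'⟩ := ih
    obtain ⟨Q₀, Q₁, hdec⟩ := lyh_exists_approx_poly v hres π hπ Q'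
    have hπmem : algebraMap E L (π : E) ∈ Algebra.adjoin K ({algebraMap E L (π : E), h} : Set L) :=
      Algebra.subset_adjoin (Set.mem_insert _ _)
    have hhmem : h ∈ Algebra.adjoin K ({algebraMap E L (π : E), h} : Set L) :=
      Algebra.subset_adjoin (Set.mem_insert_of_mem _ rfl)
    have hQ₀ : aeval h Q₀ ∈ Algebra.adjoin K ({algebraMap E L (π : E), h} : Set L) := by
      have hle : Algebra.adjoin K {h} ≤ Algebra.adjoin K ({algebraMap E L (π : E), h} : Set L) :=
        Algebra.adjoin_mono (by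
          intro y hy
          exact Set.mem_insert_of_mem _ hy)
      exact hle (aeval_mem_adjoin_singleton K h)
    refine ⟨lam + algebraMap E L (π : E) ^ M * aeval h Q₀,
      Subalgebra.add_mem _ hlam (Subalgebra.mul_mem _ (Subalgebra.pow_mem _ hπmem M) hQ₀), Q₁, ?_⟩
    rw [hQ', hdec, map_add, map_mul, lyh_phi_map, lyh_phi_C]
    ring

/-- clearing denominators: `π^k e ∈ O_v` for `k` large. -/
theorem lyh_exists_pow_mul_mem (v : Place K E) (π : E) (hπ : v.ord π = 1) (e : E) :
    ∃ k : ℕ, π ^ k * e ∈ v.toValuationSubring := by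
  have hπ0 : π ≠ 0 := by
    intro h0
    rw [h0, v.ord_zero] at hπ
    exact zero_ne_one hπ
  rcases eq_or_ne e 0 with rfl | he
  · exact ⟨0, by rw [mul_zero]; exact v.toValuationSubring.zero_mem⟩
  refine ⟨(-(v.ord e)).toNat, ?_⟩
  rw [pb_mem_iff v (mul_ne_zero (pow_ne_zero _ hπ0) he), v.ord_mul (pow_ne_zero _ hπ0) he,
    lyh_ord_pow, hπ]
  have := Int.self_le_toNat (-(v.ord e))
  omega

/-- every element of `L = E[h]` is in `φ(O_v[X])` after multiplication by a power of `π`. -/
theorem lyh_exists_pow_mul_eq_phi (v : Place K E) (π : v.toValuationSubring)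
    (hπ : v.ord (π : E) = 1) (h : L) (Q₀ : E[X]) :
    ∃ k : ℕ, ∃ Q : (v.toValuationSubring)[X],
      algebraMap E L (π : E) ^ k * aeval h Q₀ = lyh_phi v h Q := by
  induction Q₀ using Polynomial.induction_on' with
  | add p q hp hq =>
    obtain ⟨k₁, Q₁, h₁⟩ := hp
    obtain ⟨k₂, Q₂, h₂⟩ := hq
    refine ⟨k₁ + k₂, C π ^ k₂ * Q₁ + C π ^ k₁ * Q₂, ?_⟩
    simp only [map_add, map_mul, map_pow, lyh_phi_C]
    rw [← h₁, ← h₂]
    ring
  | monomial n e =>
    obtain ⟨k, hk⟩ := lyh_exists_pow_mul_mem v (π : E) hπ e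
    refine ⟨k, monomial n ⟨_, hk⟩, ?_⟩
    rw [← C_mul_X_pow_eq_monomial, ← C_mul_X_pow_eq_monomial, map_mul, map_mul, map_pow, map_pow,
      lyh_phi_C, aeval_C, aeval_X]
    have hX : lyh_phi v h X = h := by rw [lyh_phi, coe_eval₂RingHom, eval₂_X]
    rw [hX]
    show algebraMap E L (π : E) ^ k * (algebraMap E L e * h ^ n) =
      algebraMap E L ((π : E) ^ k * e) * h ^ n
    rw [map_mul, map_pow]
    ring

/-- **(G5) the DENSE lemma.** -/
theorem lyh_ord_eq_one_of_unramified (P : Place K L) (v : Place K E)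
    (hPv : ∀ x : E, algebraMap E L x ∈ P.toValuationSubring ↔ x ∈ v.toValuationSubring)
    (hres : ∀ x : E, x ∈ v.toValuationSubring →
      ∃ c : K, x = algebraMap K E c ∨ 0 < v.ord (x - algebraMap K E c))
    (h : L) (hgen : ∀ f : L, ∃ Q : E[X], f = aeval h Q)
    (a : K) (hpos : 0 < P.ord (h - algebraMap K L a))
    (π : E) (hπ : v.ord π = 1) (G D : K[X]) (hD : D.eval a ≠ 0)
    (hπh : algebraMap E L π * aeval h D = aeval h G) :
    P.ord (h - algebraMap K L a) = 1 := by
  have hπ0 : π ≠ 0 := by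
    intro h0
    rw [h0, v.ord_zero] at hπ
    exact zero_ne_one hπ
  have hπmem : π ∈ v.toValuationSubring := by
    rw [pb_mem_iff v hπ0, hπ]
    exact zero_le_one
  have hιπ0 : algebraMap E L π ≠ 0 := by simpa using hπ0
  have hh := lyh_mem_of_pos P hpos
  -- `ι π ∈ m_P`
  have hιπpos : 0 < P.ord (algebraMap E L π) := by
    rw [pb_pos_iff P hιπ0, ← map_inv₀, hPv, ← pb_pos_iff v hπ0, hπ]
    exact zero_lt_one
  set π' : v.toValuationSubring := ⟨π, hπmem⟩ with hπ'
  have hπ'ord : v.ord ((π' : v.toValuationSubring) : E) = 1 := hπ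
  set n := P.ord (h - algebraMap K L a) with hn
  -- `n ∣ ord (ι π)`
  have hnπ : n ∣ P.ord (algebraMap E L π) :=
    lyh_dvd_ord_of_mem_adjoin P hpos (algebraMap E L π) G D hD hπh _
      (Algebra.subset_adjoin (Set.mem_insert _ _)) hιπ0
  -- key: `n ∣ ord f` for all `f ≠ 0`
  have hkey : ∀ f : L, f ≠ 0 → n ∣ P.ord f := by
    intro f hf
    obtain ⟨Q₀, hQ₀⟩ := hgen f
    obtain ⟨k, Q, hkQ⟩ := lyh_exists_pow_mul_eq_phi v π' hπ'ord h Q₀
    rw [← hQ₀] at hkQ
    have hθ0 : lyh_phi v h Q ≠ 0 := by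
      rw [← hkQ]
      exact mul_ne_zero (pow_ne_zero _ hιπ0) hf
    have hθmem := lyh_phi_mem P v hPv hh Q
    have hθord : 0 ≤ P.ord (lyh_phi v h Q) := (pb_mem_iff P hθ0).1 hθmem
    obtain ⟨M, hM⟩ : ∃ M : ℕ, P.ord (lyh_phi v h Q) < M :=
      ⟨(P.ord (lyh_phi v h Q) + 1).toNat, by
        have := Int.self_le_toNat (P.ord (lyh_phi v h Q) + 1)
        omega⟩
    obtain ⟨lam, hlam, Q', hQ'⟩ := lyh_exists_approx v hres π' hπ'ord h M Q
    -- the remainder has order `≥ M`
    have hrem : algebraMap E L π ^ M * lyh_phi v h Q' = 0 ∨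
        P.ord (lyh_phi v h Q) < P.ord (algebraMap E L π ^ M * lyh_phi v h Q') := by
      by_cases hQ'0 : lyh_phi v h Q' = 0
      · left; rw [hQ'0, mul_zero]
      · right
        rw [P.ord_mul (pow_ne_zero _ hιπ0) hQ'0, lyh_ord_pow]
        have h1 : 0 ≤ P.ord (lyh_phi v h Q') := (pb_mem_iff P hQ'0).1 (lyh_phi_mem P v hPv hh Q')
        have h2 : (M : ℤ) ≤ M * P.ord (algebraMap E L π) := by
          nlinarith [hιπpos]
        omega
    have hlam_eq : lam = lyh_phi v h Q + -(algebraMap E L π ^ M * lyh_phi v h Q') := by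
      rw [hQ']
      ring
    have hlamord : P.ord lam = P.ord (lyh_phi v h Q) := by
      rw [hlam_eq]
      apply lyh_ord_add_eq_of_lt P hθ0
      rcases hrem with h0 | hlt
      · left; rw [h0, neg_zero]
      · right; rwa [lyh_ord_neg]
    have hlam0 : lam ≠ 0 := by
      intro h0
      rw [h0] at hlam_eq
      rcases hrem with h0' | hlt
      · rw [h0', neg_zero, add_zero] at hlam_eq
        exact hθ0 hlam_eq.symm
      · have : lyh_phi v h Q = algebraMap E L π ^ M * lyh_phi v h Q' := by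
          linear_combination -hlam_eq
        rw [← this] at hlt
        exact lt_irrefl _ hlt
    have h1 : n ∣ P.ord lam :=
      lyh_dvd_ord_of_mem_adjoin P hpos (algebraMap E L π) G D hD hπh lam hlam hlam0
    rw [hlamord, ← hkQ, P.ord_mul (pow_ne_zero _ hιπ0) hf, lyh_ord_pow] at h1
    have h2 : n ∣ (k : ℤ) * P.ord (algebraMap E L π) := Dvd.dvd.mul_left hnπ _
    exact (Int.dvd_add_right h2).1 h1
  -- apply to a uniformizer
  obtain ⟨ϖ, hϖ, hϖord⟩ := pb_exists_uniformizer P
  have h1 := hkey (ϖ : L) (pb_irreducible_coe_ne_zero P hϖ)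
  rw [hϖord] at h1
  exact Int.eq_one_of_dvd_one hpos.le h1

end Dense

end Fermat.Agent.S18x
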