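/-
S18x/LyhPlace.lean (helper18, rows G1-G3 of docs S18_N5_spec_helper33): place/valuation toolkit,
statements verbatim from FILE 1 of the spec.
 * lyp_exists_restrict (G1), lyp_exists_ramification (G1'): restriction of a place to a subfield
   and the ramification index (G1' needs NO algebraicity hypothesis).
 * lyp_exists_place_of_valuationSubring (G2), lyp_exists_valuationSubring_comap (G3): thin adapters
   of helper81's vtp_exists_place_of_mem / vex_exists_extension_hom.
-/
import Mathlib
import Fermat.Agent.S24x.PlacePrime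
import Fermat.Agent.S24x.PlaceBasic
import Fermat.Agent.S18x.ValToPlace
import Fermat.Agent.S18x.ValExtend
import Fermat.Prelude.Def_AlgebraicCurve_DivisorPushPull

set_option autoImplicit false
set_option linter.unusedSectionVars false

namespace Fermat.Agent.S18x

open AlgebraicCurve Polynomial Fermat.Agent.S24x

section Generic

variable {K E L : Type*} [Field K] [Field E] [Field L] [Algebra K E] [Algebra K L] [Algebra E L]
  [IsScalarTower K E L]

/-- (G1) restriction of a place along an algebraic extension -/
theorem lyp_exists_restrict [Algebra.IsAlgebraic E L] (P : Place K L) :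
    ∃ v : Place K E, ∀ x : E, algebraMap E L x ∈ P.toValuationSubring ↔ x ∈ v.toValuationSubring := by
  have : Algebra.IsIntegral E L := Algebra.IsAlgebraic.isIntegral
  exact ⟨P.restrict E, fun x => Iff.rfl⟩

/-- (G1') ramification index -/
theorem lyp_exists_ramification (P : Place K L) (v : Place K E)
    (hPv : ∀ x : E, algebraMap E L x ∈ P.toValuationSubring ↔ x ∈ v.toValuationSubring) :
    ∃ e : ℤ, 0 < e ∧ ∀ x : E, P.ord (algebraMap E L x) = e * v.ord x := by
  obtain ⟨π, hπirr, hπord⟩ := pb_exists_uniformizer v
  have hπ0 : (π : E) ≠ 0 := pb_irreducible_coe_ne_zero v hπirr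
  have hinj : Function.Injective (algebraMap E L) := (algebraMap E L).injective
  have hne : ∀ {x : E}, x ≠ 0 → algebraMap E L x ≠ 0 := fun hx =>
    (map_ne_zero_iff _ hinj).2 hx
  -- units of `O_v` have `P.ord = 0`
  have hunit : ∀ u : E, u ≠ 0 → v.ord u = 0 → P.ord (algebraMap E L u) = 0 := by
    intro u hu0 hu
    rw [pb_ord_eq_zero_iff v hu0] at hu
    rw [pb_ord_eq_zero_iff P (hne hu0), ← map_inv₀]
    exact ⟨(hPv u).2 hu.1, (hPv u⁻¹).2 hu.2⟩
  refine ⟨P.ord (algebraMap E L π), ?_, ?_⟩
  · -- positivity
    rw [pb_pos_iff P (hne hπ0), ← map_inv₀, hPv]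
    have h1 : 0 < v.ord (π : E) := by rw [hπord]; exact one_pos
    exact (pb_pos_iff v hπ0).1 h1
  · intro x
    rcases eq_or_ne x 0 with rfl | hx
    · simp
    obtain ⟨u, hu⟩ := v.exists_unit_mul_zpow hx hπirr
    have hu0 : ((u : v.toValuationSubring) : E) ≠ 0 := by
      intro h0
      have h1 := u.mul_inv
      rw [Subtype.ext_iff] at h1
      push_cast at h1
      rw [h0, zero_mul] at h1
      exact zero_ne_one h1
    have hzp : ((π : E)) ^ (v.ord x) ≠ 0 := zpow_ne_zero _ hπ0
    have hordu : v.ord ((u : v.toValuationSubring) : E) = 0 := v.ord_coe_unit u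
    conv_lhs => rw [hu]
    rw [map_mul, map_zpow₀, P.ord_mul (hne hu0) (zpow_ne_zero _ (hne hπ0)),
      hunit _ hu0 hordu, P.ord_zpow, zero_add, mul_comm]

/-- (G2) a valuation subring containing `K` and the coordinate `x`, `≠ ⊤`, is a place. -/
theorem lyp_exists_place_of_valuationSubring {F : Type*} [Field F] [Algebra K F] [CharZero K]
    (x : F) [FFData K F x] (V : ValuationSubring F) (hK : ∀ c : K, algebraMap K F c ∈ V)
    (hx : x ∈ V) (hV : V ≠ ⊤) : ∃ v : Place K F, v.toValuationSubring = V := by
  have : Algebra.IsSeparable (IntermediateField.adjoin K {x}) F :=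
    Algebra.IsSeparable.of_integral _ F
  exact vtp_exists_place_of_mem x V hK hV hx

/-- (G3) extension of valuation subrings -/
theorem lyp_exists_valuationSubring_comap {F F' : Type*} [Field F] [Field F'] (ι : F →+* F')
    (V : ValuationSubring F) : ∃ W : ValuationSubring F', W.comap ι = V :=
  let ⟨W, hW, _⟩ := vex_exists_extension_hom ι V
  ⟨W, hW⟩

end Generic

end Fermat.Agent.S18x
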