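import Mathlib

/-!
# S18x / PUR-B2 (local lemma L1): a simple root gives an unramified point

`O` a ring, `π : O` with `O / π` a field (e.g. a DVR with uniformizer `π`), `T` a domain over `O`
with `π ≠ 0` in `T`, `z : T` a root of `P : O[X]` (NOT necessarily monic), `M` a prime of `T`
containing `π` with `P'(z) ∉ M`.  Then

* `purh_stepA`: every element of `O[z] ∩ M` is, up to a factor in `O[z] \ M`, divisible by `π`
  inside `O[z]`;
* `purh_unramified`: if moreover `T` is integral over `O` and every element of `T` is of the form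
  `Q(z) / π^k`, then `M T_M = π T_M`, in the elementwise form
  `∀ x ∈ M, ∃ s ∉ M, ∃ u, s * x = π * u`.

No completions, no Hensel, no Abhyankar.
-/

set_option autoImplicit false

namespace Fermat.Agent.S18x

open Polynomial

section L1

variable {O T : Type*} [CommRing O] [CommRing T] [IsDomain T] [Algebra O T]

/-- a polynomial all of whose coefficients are multiples of `π` is `C π * U`. -/
theorem purh_exists_C_mul_of_map_eq_zero (π : O) (F : O[X])
    (hF : F.map (Ideal.Quotient.mk (Ideal.span {π})) = 0) : ∃ U : O[X], F = C π * U := by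
  have hcoeff : ∀ n, ∃ u : O, F.coeff n = π * u := by
    intro n
    have h := congrArg (fun G => G.coeff n) hF
    simp only [coeff_map, coeff_zero] at h
    rw [Ideal.Quotient.eq_zero_iff_mem, Ideal.mem_span_singleton'] at h
    obtain ⟨a, ha⟩ := h
    exact ⟨a, by rw [← ha, mul_comm]⟩
  choose u hu using hcoeff
  refine ⟨∑ n ∈ F.support, monomial n (u n), ?_⟩
  ext n
  rw [coeff_C_mul, finsetSum_coeff]
  simp only [coeff_monomial]
  rw [Finset.sum_ite_eq']
  split_ifs with hn
  · exact hu n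
  · rw [mul_zero]
    exact notMem_support_iff.mp hn

variable (π : O) (hmax : (Ideal.span {π}).IsMaximal)
variable (z : T) (P : O[X]) (hP : aeval z P = 0)
variable (M : Ideal T) [hMp : M.IsPrime] (hπM : algebraMap O T π ∈ M)
variable (hM : aeval z (derivative P) ∉ M)

omit [IsDomain T] hMp in
include hmax hP hπM hM in
/-- **Step A**. -/
theorem purh_stepA (Q : O[X]) (hQ : aeval z Q ∈ M) :
    ∃ G U : O[X], aeval z G ∉ M ∧ aeval z Q * aeval z G = algebraMap O T π * aeval z U := by
  classical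
  let _ : Field (O ⧸ Ideal.span {π}) := Ideal.Quotient.field _
  set red : O[X] →+* (O ⧸ Ideal.span {π})[X] :=
    mapRingHom (Ideal.Quotient.mk (Ideal.span {π})) with hred
  -- the ring hom `O → T/M` kills `π`
  set f0 : O →+* T ⧸ M := (Ideal.Quotient.mk M).comp (algebraMap O T) with hf0
  have hf0π : ∀ a ∈ Ideal.span {π}, f0 a = 0 := by
    intro a ha
    rw [Ideal.mem_span_singleton'] at ha
    obtain ⟨b, rfl⟩ := ha
    rw [hf0, RingHom.comp_apply, map_mul, map_mul,
      (Ideal.Quotient.eq_zero_iff_mem).mpr hπM, mul_zero]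
  set f1 : (O ⧸ Ideal.span {π}) →+* T ⧸ M := Ideal.Quotient.lift (Ideal.span {π}) f0 hf0π with hf1
  set ψ : (O ⧸ Ideal.span {π})[X] →+* T ⧸ M := eval₂RingHom f1 (Ideal.Quotient.mk M z) with hψ
  have hψred : ∀ F : O[X], ψ (red F) = Ideal.Quotient.mk M (aeval z F) := by
    intro F
    rw [hψ, hred, coe_eval₂RingHom, coe_mapRingHom, eval₂_map]
    have : f1.comp (Ideal.Quotient.mk (Ideal.span {π})) = f0 := by
      ext a
      rw [RingHom.comp_apply, hf1, Ideal.Quotient.lift_mk]
    rw [this, hf0, aeval_def, hom_eval₂]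
  -- kernel of ψ is principal
  obtain ⟨h, hh⟩ := (IsPrincipalIdealRing.principal (RingHom.ker ψ)).principal
  have hmem : ∀ F : (O ⧸ Ideal.span {π})[X], ψ F = 0 ↔ h ∣ F := by
    intro F
    rw [← RingHom.mem_ker, hh]
    exact Ideal.mem_span_singleton
  have hPred : h ∣ red P := by
    rw [← hmem, hψred, hP, map_zero]
  obtain ⟨G0, hG0⟩ := hPred
  -- `ψ G0 ≠ 0`
  have hG0ne : ψ G0 ≠ 0 := by
    intro h0
    rw [hmem] at h0
    obtain ⟨G1, hG1⟩ := h0
    have hder : h ∣ derivative (red P) := by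
      rw [hG0, hG1]
      refine ⟨2 * derivative h * G1 + h * derivative G1, ?_⟩
      simp only [derivative_mul]
      ring
    rw [← hmem] at hder
    have : derivative (red P) = red (derivative P) := by
      rw [hred, coe_mapRingHom, derivative_map]
    rw [this, hψred, Ideal.Quotient.eq_zero_iff_mem] at hder
    exact hM hder
  -- the given Q
  have hQred : h ∣ red Q := by
    rw [← hmem, hψred, Ideal.Quotient.eq_zero_iff_mem]
    exact hQ
  obtain ⟨Q1, hQ1⟩ := hQred
  -- lifts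
  have hsurj : Function.Surjective red := by
    rw [hred, coe_mapRingHom]
    exact map_surjective _ Ideal.Quotient.mk_surjective
  obtain ⟨Gt, hGt⟩ := hsurj G0
  obtain ⟨Q1t, hQ1t⟩ := hsurj Q1
  have hzero : red (Q * Gt - Q1t * P) = 0 := by
    rw [map_sub, map_mul, map_mul, hGt, hQ1t, hQ1, hG0]
    ring
  obtain ⟨U, hU⟩ := purh_exists_C_mul_of_map_eq_zero π (Q * Gt - Q1t * P)
    (by simpa [hred] using hzero)
  refine ⟨Gt, U, ?_, ?_⟩
  · intro hmemM
    apply hG0ne
    rw [← hGt, hψred, Ideal.Quotient.eq_zero_iff_mem]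
    exact hmemM
  · have h1 := congrArg (aeval z) hU
    rw [map_sub, map_mul, map_mul, hP, mul_zero, sub_zero, map_mul, aeval_C] at h1
    exact h1

omit hMp in
include hmax hP hπM hM in
/-- Step B1: if `π y ∈ O[z]` then `s y ∈ O[z]` for some `s ∈ O[z] \ M`. -/
theorem purh_stepB1 (hπ0 : algebraMap O T π ≠ 0) (y : T)
    (hy : ∃ Q : O[X], algebraMap O T π * y = aeval z Q) :
    ∃ G U : O[X], aeval z G ∉ M ∧ aeval z G * y = aeval z U := by
  obtain ⟨Q, hQ⟩ := hy
  have hQM : aeval z Q ∈ M := by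
    rw [← hQ]
    exact M.mul_mem_right _ hπM
  obtain ⟨G, U, hG, hGU⟩ := purh_stepA π hmax z P hP M hπM hM Q hQM
  refine ⟨G, U, hG, ?_⟩
  apply mul_left_cancel₀ hπ0
  rw [← hGU, ← hQ]
  ring

include hmax hP hπM hM hMp in
/-- Step B2: if `π^k y ∈ O[z]` then `s y ∈ O[z]` for some `s ∈ O[z] \ M`. -/
theorem purh_stepB2 (hπ0 : algebraMap O T π ≠ 0) (k : ℕ) : ∀ y : T,
    (∃ Q : O[X], algebraMap O T π ^ k * y = aeval z Q) →
    ∃ G U : O[X], aeval z G ∉ M ∧ aeval z G * y = aeval z U := by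
  induction k with
  | zero =>
    intro y hy
    obtain ⟨Q, hQ⟩ := hy
    refine ⟨1, Q, ?_, ?_⟩
    · rw [map_one]
      exact fun h => hMp.ne_top ((Ideal.eq_top_iff_one M).mpr h)
    · rw [map_one, one_mul, ← hQ, pow_zero, one_mul]
  | succ k ih =>
    intro y hy
    obtain ⟨Q, hQ⟩ := hy
    obtain ⟨G1, U1, hG1, hGU1⟩ := purh_stepB1 π hmax z P hP M hπM hM hπ0
      (algebraMap O T π ^ k * y) ⟨Q, by rw [← hQ]; ring⟩
    obtain ⟨G2, U2, hG2, hGU2⟩ := ih (aeval z G1 * y) ⟨U1, by rw [← hGU1]; ring⟩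
    refine ⟨G2 * G1, U2, ?_, ?_⟩
    · rw [map_mul]
      intro h
      rcases hMp.mem_or_mem h with h | h
      · exact hG2 h
      · exact hG1 h
    · rw [map_mul, ← hGU2]
      ring

include hmax hP hπM hM hMp in
/-- **(L1)**: `M T_M = π T_M`, elementwise. -/
theorem purh_unramified (hπ0 : algebraMap O T π ≠ 0)
    (hgen : ∀ t : T, ∃ k : ℕ, ∃ Q : O[X], algebraMap O T π ^ k * t = aeval z Q) :
    ∀ x ∈ M, ∃ s : T, s ∉ M ∧ ∃ u : T, s * x = algebraMap O T π * u := by
  intro x hx
  obtain ⟨k, Q, hQ⟩ := hgen x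
  obtain ⟨G, U, hG, hGU⟩ := purh_stepB2 π hmax z P hP M hπM hM hπ0 k x ⟨Q, hQ⟩
  have hUM : aeval z U ∈ M := by
    rw [← hGU]
    exact M.mul_mem_left _ hx
  obtain ⟨G', U', hG', hGU'⟩ := purh_stepA π hmax z P hP M hπM hM U hUM
  refine ⟨aeval z G * aeval z G', ?_, aeval z U', ?_⟩
  · intro h
    rcases hMp.mem_or_mem h with h | h
    · exact hG h
    · exact hG' h
  · rw [← hGU', ← hGU]
    ring

end L1

end Fermat.Agent.S18x
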