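import Mathlib
import Fermat.Agent.S18x.PurhLocal
import Fermat.Agent.S18x.LyhDense
import Fermat.Agent.S18x.LyhPlace

/-!
# S18x / N5 (H), leaf G6 (helper33): the ramified case

`K ⊆ E ⊆ L = E[h]`, `P` a place of `L/K` over `v` (place of `E`), `ord_v π = m`, `m ≠ 0` in `K`,
and `π D(h) = (h - a)^m H(h)` with `H(a), D(a) ≠ 0` (the `h`-line is ramified of index `m` over the
`π`-line at `h = a`, exactly like `v`).  Then `ord_P (h - a) = 1` (Abhyankar, elementary form):
`z = (h - a)/ϖ` is a simple root mod `ϖ` of `Z^m H(a + ϖ Z) - w D(a + ϖ Z)`, so `ϖ` generates `m_P`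
by `purh_unramified`.
-/

set_option autoImplicit false
set_option linter.unusedSectionVars false

namespace Fermat.Agent.S18x

open AlgebraicCurve Polynomial Fermat.Agent.S24x

section Ram

variable {K E L : Type*} [Field K] [Field E] [Field L] [Algebra K E] [Algebra K L] [Algebra E L]
  [IsScalarTower K E L]

/-- the polynomial `Z^m H(a + ϖ Z) - w D(a + ϖ Z)` over `O_v`. -/
noncomputable def lyh_ramPoly (v : Place K E) (m : ℕ) (a : K) (ϖ w : v.toValuationSubring)
    (H D : K[X]) : (v.toValuationSubring)[X] :=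
  X ^ m * (H.map (algebraMap K v.toValuationSubring)).comp
      (C (algebraMap K v.toValuationSubring a) + C ϖ * X)
    - C w * (D.map (algebraMap K v.toValuationSubring)).comp
      (C (algebraMap K v.toValuationSubring a) + C ϖ * X)

theorem lyh_phi_X (v : Place K E) (z : L) : lyh_phi v z X = z := by
  rw [lyh_phi, coe_eval₂RingHom, eval₂_X]

theorem lyh_phi_lin (v : Place K E) (z : L) (a : K) (ϖ : v.toValuationSubring) :
    lyh_phi v z (C (algebraMap K v.toValuationSubring a) + C ϖ * X)
      = algebraMap K L a + algebraMap E L (ϖ : E) * z := by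
  rw [map_add, map_mul, lyh_phi_C, lyh_phi_C, lyh_phi_X, v.coe_algebraMap,
    ← IsScalarTower.algebraMap_apply]

theorem lyh_phi_comp_lin (v : Place K E) (z : L) (a : K) (ϖ : v.toValuationSubring) (Q : K[X]) :
    lyh_phi v z ((Q.map (algebraMap K v.toValuationSubring)).comp
      (C (algebraMap K v.toValuationSubring a) + C ϖ * X))
      = aeval (algebraMap K L a + algebraMap E L (ϖ : E) * z) Q := by
  have h1 : lyh_phi v z ((Q.map (algebraMap K v.toValuationSubring)).comp
      (C (algebraMap K v.toValuationSubring a) + C ϖ * X))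
      = lyh_phi v (lyh_phi v z (C (algebraMap K v.toValuationSubring a) + C ϖ * X))
          (Q.map (algebraMap K v.toValuationSubring)) := by
    simp only [lyh_phi, coe_eval₂RingHom]
    exact eval₂_comp _
  rw [h1, lyh_phi_lin, lyh_phi_map]

theorem lyh_phi_ramPoly (v : Place K E) (m : ℕ) (a : K) (ϖ w : v.toValuationSubring)
    (H D : K[X]) (z : L) :
    lyh_phi v z (lyh_ramPoly v m a ϖ w H D)
      = z ^ m * aeval (algebraMap K L a + algebraMap E L (ϖ : E) * z) H
        - algebraMap E L (w : E) * aeval (algebraMap K L a + algebraMap E L (ϖ : E) * z) D := by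
  rw [lyh_ramPoly, map_sub, map_mul, map_mul, map_pow, lyh_phi_X, lyh_phi_C, lyh_phi_comp_lin,
    lyh_phi_comp_lin]

/-- the derivative of `lyh_ramPoly` is `m Z^(m-1) H(a + ϖ Z)` modulo `ϖ`. -/
theorem lyh_derivative_ramPoly (v : Place K E) (m : ℕ) (a : K) (ϖ w : v.toValuationSubring)
    (H D : K[X]) :
    derivative (lyh_ramPoly v m a ϖ w H D)
      = C (m : v.toValuationSubring) * X ^ (m - 1) *
          (H.map (algebraMap K v.toValuationSubring)).comp
            (C (algebraMap K v.toValuationSubring a) + C ϖ * X)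
        + C ϖ * (X ^ m * ((derivative H).map (algebraMap K v.toValuationSubring)).comp
            (C (algebraMap K v.toValuationSubring a) + C ϖ * X)
          - C w * ((derivative D).map (algebraMap K v.toValuationSubring)).comp
            (C (algebraMap K v.toValuationSubring a) + C ϖ * X)) := by
  have hlin : derivative (C (algebraMap K v.toValuationSubring a) + C ϖ * X
      : (v.toValuationSubring)[X]) = C ϖ := by
    rw [derivative_add, derivative_C, derivative_C_mul, derivative_X, mul_one, zero_add]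
  rw [lyh_ramPoly, derivative_sub, derivative_mul, derivative_C_mul, derivative_X_pow,
    derivative_comp, derivative_comp, hlin, derivative_map, derivative_map]
  ring

/-- membership in the maximal ideal of `O_P` in terms of `ord`. -/
theorem lyh_mem_maximalIdeal_iff (P : Place K L) (y : P.toValuationSubring) (hy : (y : L) ≠ 0) :
    y ∈ IsLocalRing.maximalIdeal P.toValuationSubring ↔ 0 < P.ord (y : L) := by
  rw [IsLocalRing.mem_maximalIdeal, mem_nonunits_iff, pb_pos_iff P hy]
  constructor
  · intro hnu hinv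
    apply hnu
    refine isUnit_iff_exists_inv.mpr ⟨⟨_, hinv⟩, ?_⟩
    apply Subtype.ext
    push_cast
    exact mul_inv_cancel₀ hy
  · intro hinv hu
    apply hinv
    obtain ⟨u, hu⟩ := isUnit_iff_exists_inv.mp hu
    have h1 : (y : L) * (u : L) = 1 := by
      have := congrArg (Subtype.val) hu
      simpa using this
    have h2 : (y : L)⁻¹ = (u : L) := by
      rw [inv_eq_iff_eq_inv, ← mul_eq_one_iff_eq_inv₀ (by
        intro h0
        rw [h0, mul_zero] at h1
        exact zero_ne_one h1)]
      exact h1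
    rw [h2]
    exact u.2

/-- **(G6) the ramified case.** -/
theorem lyh_ord_eq_one_of_ramified [CharZero K] (P : Place K L) (v : Place K E)
    (hPv : ∀ x : E, algebraMap E L x ∈ P.toValuationSubring ↔ x ∈ v.toValuationSubring)
    (h : L) (hgen : ∀ f : L, ∃ Q : E[X], f = aeval h Q)
    (a : K) (hpos : 0 < P.ord (h - algebraMap K L a))
    (m : ℕ) (hm : m ≠ 0) (π : E) (hπ : v.ord π = m) (H D : K[X]) (hH : H.eval a ≠ 0)
    (hD : D.eval a ≠ 0)
    (hπh : algebraMap E L π * aeval h D = (h - algebraMap K L a) ^ m * aeval h H) :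
    P.ord (h - algebraMap K L a) = 1 := by
  classical
  have ht0 : h - algebraMap K L a ≠ 0 := by
    intro h0
    rw [h0, P.ord_zero] at hpos
    exact lt_irrefl _ hpos
  have hh := lyh_mem_of_pos P hpos
  obtain ⟨e, hepos, he⟩ := lyp_exists_ramification P v hPv
  obtain ⟨ϖ, hϖirr, hϖord⟩ := pb_exists_uniformizer v
  have hϖ0 : (ϖ : E) ≠ 0 := pb_irreducible_coe_ne_zero v hϖirr
  have hm' : (m : ℤ) ≠ 0 := by exact_mod_cast hm
  have hπ0 : π ≠ 0 := by
    intro h0
    rw [h0, v.ord_zero] at hπ
    exact hm' hπ.symm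
  -- `w := π / ϖ^m`, a unit of `O_v`
  have hwE0 : π * ((ϖ : E) ^ m)⁻¹ ≠ 0 := mul_ne_zero hπ0 (inv_ne_zero (pow_ne_zero _ hϖ0))
  have hword : v.ord (π * ((ϖ : E) ^ m)⁻¹) = 0 := by
    rw [v.ord_mul hπ0 (inv_ne_zero (pow_ne_zero _ hϖ0)), v.ord_inv, lyh_ord_pow, hπ, hϖord]
    ring
  have hwmem : π * ((ϖ : E) ^ m)⁻¹ ∈ v.toValuationSubring :=
    ((pb_ord_eq_zero_iff v hwE0).1 hword).1
  have hπw : π = (π * ((ϖ : E) ^ m)⁻¹) * (ϖ : E) ^ m := by
    field_simp
  -- orders at `P`
  obtain ⟨hDne, hDord⟩ := lyh_ord_aeval_eq_zero P hpos D hD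
  obtain ⟨hHne, hHord⟩ := lyh_ord_aeval_eq_zero P hpos H hH
  have hιπ0 : algebraMap E L π ≠ 0 := by simpa using hπ0
  have hιϖ0 : algebraMap E L (ϖ : E) ≠ 0 := by simpa using hϖ0
  have h1 : P.ord (algebraMap E L π) = m * P.ord (h - algebraMap K L a) := by
    have := congrArg P.ord hπh
    rw [P.ord_mul hιπ0 hDne, P.ord_mul (pow_ne_zero _ ht0) hHne, hDord, hHord, lyh_ord_pow] at this
    linarith
  have h2 : P.ord (algebraMap E L π) = e * m := by rw [he, hπ]
  have h3 : P.ord (algebraMap E L (ϖ : E)) = e := by rw [he, hϖord, mul_one]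
  have hne : P.ord (h - algebraMap K L a) = e := by
    have : (m : ℤ) * P.ord (h - algebraMap K L a) = m * e := by rw [← h1, h2]; ring
    exact mul_left_cancel₀ hm' this
  -- the element `z`
  have hz0 : (h - algebraMap K L a) * (algebraMap E L (ϖ : E))⁻¹ ≠ 0 :=
    mul_ne_zero ht0 (inv_ne_zero hιϖ0)
  have hzord : P.ord ((h - algebraMap K L a) * (algebraMap E L (ϖ : E))⁻¹) = 0 := by
    rw [P.ord_mul ht0 (inv_ne_zero hιϖ0), P.ord_inv, hne, h3]
    ring
  have hzmem : (h - algebraMap K L a) * (algebraMap E L (ϖ : E))⁻¹ ∈ P.toValuationSubring :=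
    ((pb_ord_eq_zero_iff P hz0).1 hzord).1
  obtain ⟨z, hz⟩ : ∃ z : L, z = (h - algebraMap K L a) * (algebraMap E L (ϖ : E))⁻¹ := ⟨_, rfl⟩
  rw [← hz] at hz0 hzord hzmem
  have hhz : algebraMap K L a + algebraMap E L (ϖ : E) * z = h := by
    rw [hz]
    field_simp
    ring
  set w : v.toValuationSubring := ⟨_, hwmem⟩ with hw
  -- `z` is a root
  have hroot : lyh_phi v z (lyh_ramPoly v m a ϖ w H D) = 0 := by
    rw [lyh_phi_ramPoly, hhz]
    have hmul : algebraMap E L (ϖ : E) ^ m *
        (z ^ m * aeval h H - algebraMap E L (π * ((ϖ : E) ^ m)⁻¹) * aeval h D) = 0 := by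
      have ht' : h - algebraMap K L a = algebraMap E L (ϖ : E) * z := by
        rw [hz]
        field_simp
      have hπ' : algebraMap E L π =
          algebraMap E L (π * ((ϖ : E) ^ m)⁻¹) * algebraMap E L (ϖ : E) ^ m := by
        rw [← map_pow, ← map_mul, ← hπw]
      rw [ht', hπ'] at hπh
      linear_combination -hπh
    exact (mul_eq_zero.1 hmul).resolve_left (pow_ne_zero _ hιϖ0)
  -- the algebra structure `O_v → O_P`
  let f : v.toValuationSubring →+* P.toValuationSubring :=
    (lyh_incl v).codRestrict P.toValuationSubring (fun x => (hPv _).2 x.2)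
  let _ : Algebra v.toValuationSubring P.toValuationSubring := f.toAlgebra
  have hfcoe : ∀ x : v.toValuationSubring,
      ((algebraMap v.toValuationSubring P.toValuationSubring x : P.toValuationSubring) : L)
        = algebraMap E L (x : E) := fun _ => rfl
  have hcoe : ∀ (y : P.toValuationSubring) (Q : (v.toValuationSubring)[X]),
      ((aeval y Q : P.toValuationSubring) : L) = lyh_phi v (y : L) Q := by
    intro y Q
    have := Polynomial.hom_eval₂ Q (algebraMap v.toValuationSubring P.toValuationSubring)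
      (P.toValuationSubring.subtype) y
    rw [aeval_def]
    exact this
  set zT : P.toValuationSubring := ⟨z, hzmem⟩ with hzT
  have hP0 : aeval zT (lyh_ramPoly v m a ϖ w H D) = 0 := by
    apply Subtype.ext
    rw [hcoe]
    exact hroot
  have hmax : (Ideal.span {ϖ}).IsMaximal := by
    rw [← hϖirr.maximalIdeal_eq]
    exact IsLocalRing.maximalIdeal.isMaximal _
  have hπM : algebraMap v.toValuationSubring P.toValuationSubring ϖ ∈
      IsLocalRing.maximalIdeal P.toValuationSubring := by
    rw [lyh_mem_maximalIdeal_iff P _ (by rw [hfcoe]; exact hιϖ0), hfcoe, h3]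
    exact hepos
  have hπ0' : algebraMap v.toValuationSubring P.toValuationSubring ϖ ≠ 0 := by
    intro h0
    have := congrArg (Subtype.val) h0
    rw [hfcoe] at this
    exact hιϖ0 this
  -- the derivative is a unit
  have hM : aeval zT (derivative (lyh_ramPoly v m a ϖ w H D)) ∉
      IsLocalRing.maximalIdeal P.toValuationSubring := by
    have hval : ((aeval zT (derivative (lyh_ramPoly v m a ϖ w H D)) : P.toValuationSubring) : L)
        = algebraMap K L (m : K) * z ^ (m - 1) * aeval h H
          + algebraMap E L (ϖ : E) * lyh_phi v z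
            (X ^ m * ((derivative H).map (algebraMap K v.toValuationSubring)).comp
                (C (algebraMap K v.toValuationSubring a) + C ϖ * X)
              - C w * ((derivative D).map (algebraMap K v.toValuationSubring)).comp
                (C (algebraMap K v.toValuationSubring a) + C ϖ * X)) := by
      have hzTcoe : (zT : L) = z := rfl
      have hmcast : algebraMap E L ((m : v.toValuationSubring) : E) = algebraMap K L (m : K) := by
        push_cast
        rfl
      rw [hcoe, hzTcoe, lyh_derivative_ramPoly, map_add, map_mul, map_mul, map_mul, map_pow,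
        lyh_phi_X, lyh_phi_C, lyh_phi_C, lyh_phi_comp_lin, hhz, hmcast]
    set r : L := lyh_phi v z
            (X ^ m * ((derivative H).map (algebraMap K v.toValuationSubring)).comp
                (C (algebraMap K v.toValuationSubring a) + C ϖ * X)
              - C w * ((derivative D).map (algebraMap K v.toValuationSubring)).comp
                (C (algebraMap K v.toValuationSubring a) + C ϖ * X)) with hr
    have hrmem : r ∈ P.toValuationSubring := lyh_phi_mem P v hPv hzmem _
    have hmK : algebraMap K L (m : K) ≠ 0 := by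
      have : (m : K) ≠ 0 := by exact_mod_cast hm
      exact (map_ne_zero (algebraMap K L)).2 this
    have hfirst0 : algebraMap K L (m : K) * z ^ (m - 1) * aeval h H ≠ 0 :=
      mul_ne_zero (mul_ne_zero hmK (pow_ne_zero _ hz0)) hHne
    have hfirst : P.ord (algebraMap K L (m : K) * z ^ (m - 1) * aeval h H) = 0 := by
      rw [P.ord_mul (mul_ne_zero hmK (pow_ne_zero _ hz0)) hHne,
        P.ord_mul hmK (pow_ne_zero _ hz0), pb_ord_algebraMap, lyh_ord_pow, hzord, hHord]
      ring
    have hsum : P.ord (algebraMap K L (m : K) * z ^ (m - 1) * aeval h H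
        + algebraMap E L (ϖ : E) * r) = 0 := by
      rw [lyh_ord_add_eq_of_lt P hfirst0, hfirst]
      by_cases hr0 : r = 0
      · left; rw [hr0, mul_zero]
      · right
        rw [hfirst, P.ord_mul hιϖ0 hr0, h3]
        have := (pb_mem_iff P hr0).1 hrmem
        omega
    intro hmem
    by_cases h0 : ((aeval zT (derivative (lyh_ramPoly v m a ϖ w H D)) : P.toValuationSubring) : L) = 0
    · rw [hval] at h0
      rw [h0, P.ord_zero] at hsum
      -- `ord 0 = 0` is consistent; derive a contradiction from `first = -ϖ r`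
      have hfr : algebraMap K L (m : K) * z ^ (m - 1) * aeval h H
          = -(algebraMap E L (ϖ : E) * r) := by linear_combination h0
      have hr0 : r ≠ 0 := by
        intro hr0
        rw [hr0, mul_zero, neg_zero] at hfr
        exact hfirst0 hfr
      have := congrArg P.ord hfr
      rw [hfirst, lyh_ord_neg, P.ord_mul hιϖ0 hr0, h3] at this
      have h4 := (pb_mem_iff P hr0).1 hrmem
      omega
    · rw [lyh_mem_maximalIdeal_iff P _ h0, hval, hsum] at hmem
      exact lt_irrefl _ hmem
  -- generation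
  have hgen' : ∀ t' : P.toValuationSubring, ∃ k : ℕ, ∃ Q : (v.toValuationSubring)[X],
      algebraMap v.toValuationSubring P.toValuationSubring ϖ ^ k * t' = aeval zT Q := by
    intro t'
    obtain ⟨Q₀, hQ₀⟩ := hgen (t' : L)
    have h5 : aeval h Q₀ = aeval z (Q₀.comp (C (algebraMap K E a) + C (ϖ : E) * X)) := by
      rw [aeval_comp]
      congr 1
      rw [map_add, map_mul, aeval_C, aeval_C, aeval_X, ← IsScalarTower.algebraMap_apply, hhz]
    obtain ⟨k, Q, hkQ⟩ := lyh_exists_pow_mul_eq_phi v ϖ hϖord z
      (Q₀.comp (C (algebraMap K E a) + C (ϖ : E) * X))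
    refine ⟨k, Q, ?_⟩
    apply Subtype.ext
    rw [hcoe]
    push_cast
    rw [hfcoe, hQ₀, h5]
    exact hkQ
  have hmain := purh_unramified ϖ hmax zT (lyh_ramPoly v m a ϖ w H D) hP0
    (IsLocalRing.maximalIdeal P.toValuationSubring) hπM hM hπ0' hgen'
  -- apply to a uniformizer of `P`
  obtain ⟨ϱ, hϱirr, hϱord⟩ := pb_exists_uniformizer P
  have hϱ0 : (ϱ : L) ≠ 0 := pb_irreducible_coe_ne_zero P hϱirr
  have hϱM : ϱ ∈ IsLocalRing.maximalIdeal P.toValuationSubring := by
    rw [lyh_mem_maximalIdeal_iff P _ hϱ0, hϱord]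
    exact zero_lt_one
  obtain ⟨s, hs, u, hsu⟩ := hmain ϱ hϱM
  have hs0 : (s : L) ≠ 0 := by
    intro h0
    apply hs
    have : s = 0 := Subtype.ext h0
    rw [this]
    exact Ideal.zero_mem _
  have hsord : P.ord (s : L) = 0 := by
    have h6 : ¬ 0 < P.ord (s : L) := fun hlt => hs ((lyh_mem_maximalIdeal_iff P s hs0).2 hlt)
    have h7 := (pb_mem_iff P hs0).1 s.2
    omega
  have hsuL : (s : L) * (ϱ : L) = algebraMap E L (ϖ : E) * (u : L) := by
    have := congrArg (Subtype.val) hsu
    push_cast at this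
    rw [hfcoe] at this
    exact this
  have hu0 : (u : L) ≠ 0 := by
    intro h0
    rw [h0, mul_zero] at hsuL
    exact (mul_ne_zero hs0 hϱ0) hsuL
  have huord : 0 ≤ P.ord (u : L) := (pb_mem_iff P hu0).1 u.2
  have := congrArg P.ord hsuL
  rw [P.ord_mul hs0 hϱ0, P.ord_mul hιϖ0 hu0, hsord, hϱord, h3] at this
  rw [hne]
  omega

end Ram

end Fermat.Agent.S18x
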