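import Mathlib
import Fermat.Agent.S18x.LyhDense
import Fermat.Agent.S18x.LyhRamified
import Fermat.Agent.S18x.LyhPlace

/-!
# S18x / N5 (H) (helper33): generic "Abhyankar" assembly

`K ⊆ E ⊆ L = E[h]`, `J ∈ E` with `J B(h) = A(h)` (`A, B ∈ K[X]`), the ramification of `E` over the
`J`-line is that of a modular curve (unramified off `0, 1728`, index `1` or `3` over `0`, `1` or `2`
over `1728`), and the `h`-line is ramified of index exactly `3` over `J = 0` and `2` over
`J = 1728` (`hfac0`, `hfac1`).  Then `h - a` is a local parameter at every place of `L` where it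
vanishes, for all `a` with `B(a) ≠ 0`: `L / K(h)` is unramified off the zeros of `B` (the cusps).
-/

set_option autoImplicit false
set_option linter.unusedSectionVars false

namespace Fermat.Agent.S18x

open AlgebraicCurve Polynomial Fermat.Agent.S24x

section Abh

variable {K E L : Type*} [Field K] [Field E] [Field L] [Algebra K E] [Algebra K L] [Algebra E L]
  [IsScalarTower K E L]

/-- positivity transfers from `P` to its restriction `v`. -/
theorem lyh_pos_restrict (P : Place K L) (v : Place K E)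
    (hPv : ∀ x : E, algebraMap E L x ∈ P.toValuationSubring ↔ x ∈ v.toValuationSubring)
    (x : E) (hx : x ≠ 0) : 0 < v.ord x ↔ 0 < P.ord (algebraMap E L x) := by
  have hιx : algebraMap E L x ≠ 0 := (map_ne_zero (algebraMap E L)).2 hx
  rw [pb_pos_iff v hx, pb_pos_iff P hιx, ← map_inv₀, hPv]

/-- **generic assembly.** -/
theorem lyh_ord_eq_one_of_data [CharZero K] [Algebra.IsAlgebraic E L]
    (hres : ∀ v : Place K E, ∀ x : E, x ∈ v.toValuationSubring →
      ∃ c : K, x = algebraMap K E c ∨ 0 < v.ord (x - algebraMap K E c))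
    (J : E) (hJc : ∀ c : K, J - algebraMap K E c ≠ 0)
    (hJgen : ∀ c : K, c ≠ 0 → c ≠ 1728 → ∀ v : Place K E,
      0 < v.ord (J - algebraMap K E c) → v.ord (J - algebraMap K E c) = 1)
    (hJ0 : ∀ v : Place K E, 0 < v.ord J → v.ord J = 1 ∨ v.ord J = 3)
    (hJ1728 : ∀ v : Place K E, 0 < v.ord (J - algebraMap K E 1728) →
      v.ord (J - algebraMap K E 1728) = 1 ∨ v.ord (J - algebraMap K E 1728) = 2)
    (h : L) (hgen : ∀ f : L, ∃ Q : E[X], f = aeval h Q)
    (A B : K[X]) (hid : algebraMap E L J * aeval h B = aeval h A)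
    (hfac0 : ∀ a : K, A.eval a = 0 → B.eval a ≠ 0 →
      ∃ H : K[X], A = (X - C a) ^ 3 * H ∧ H.eval a ≠ 0)
    (hfac1 : ∀ a : K, (A - C 1728 * B).eval a = 0 → B.eval a ≠ 0 →
      ∃ H : K[X], A - C 1728 * B = (X - C a) ^ 2 * H ∧ H.eval a ≠ 0)
    (P : Place K L) (a : K) (hBa : B.eval a ≠ 0)
    (hpos : 0 < P.ord (h - algebraMap K L a)) :
    P.ord (h - algebraMap K L a) = 1 := by
  have ht0 : h - algebraMap K L a ≠ 0 := by
    intro h0
    rw [h0, P.ord_zero] at hpos
    exact lt_irrefl _ hpos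
  have hh := lyh_mem_of_pos P hpos
  obtain ⟨v, hPv⟩ := lyp_exists_restrict (E := E) P
  -- the value `c = A(a)/B(a)` and `π = J - c`
  set c : K := A.eval a / B.eval a with hc
  have hcB : c * B.eval a = A.eval a := by
    rw [hc]
    field_simp
  have hπ0 : J - algebraMap K E c ≠ 0 := hJc c
  have hιπ0 : algebraMap E L (J - algebraMap K E c) ≠ 0 := (map_ne_zero (algebraMap E L)).2 hπ0
  -- `π B(h) = (A - c B)(h)`
  have hπh : algebraMap E L (J - algebraMap K E c) * aeval h B = aeval h (A - C c * B) := by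
    rw [map_sub, sub_mul, hid, map_sub, map_mul, aeval_C, ← IsScalarTower.algebraMap_apply]
  obtain ⟨hBne, hBord⟩ := lyh_ord_aeval_eq_zero P hpos B hBa
  -- `(A - cB)(a) = 0`
  have hGa : (A - C c * B).eval a = 0 := by
    rw [eval_sub, eval_mul, eval_C, hcB, sub_self]
  -- positivity of `ord_v π`
  have hG0 : aeval h (A - C c * B) ≠ 0 := by
    rw [← hπh]
    exact mul_ne_zero hιπ0 hBne
  have hvpos : 0 < v.ord (J - algebraMap K E c) := by
    rw [lyh_pos_restrict P v hPv _ hπ0]
    have h1 : P.ord (algebraMap E L (J - algebraMap K E c)) = P.ord (aeval h (A - C c * B)) := by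
      rw [← hπh, P.ord_mul hιπ0 hBne, hBord, add_zero]
    rw [h1]
    -- `(A - cB) = (X - a) G₁`
    obtain ⟨G₁, hG₁⟩ : (X - C a) ∣ (A - C c * B) := dvd_iff_isRoot.2 hGa
    have h2 : aeval h (A - C c * B) = (h - algebraMap K L a) * aeval h G₁ := by
      rw [hG₁, map_mul, map_sub, aeval_X, aeval_C]
    have hG₁0 : aeval h G₁ ≠ 0 := by
      intro h0
      rw [h2, h0, mul_zero] at hG0
      exact hG0 rfl
    rw [h2, P.ord_mul ht0 hG₁0]
    have := (pb_mem_iff P hG₁0).1 (lyh_aeval_mem P hh G₁)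
    omega
  by_cases hc0 : c = 0
  · -- over `J = 0`
    have hJv : J - algebraMap K E c = J := by rw [hc0, map_zero, sub_zero]
    rw [hJv] at hvpos hπh hπ0
    have hA0 : A.eval a = 0 := by rw [← hcB, hc0, zero_mul]
    rcases hJ0 v hvpos with h1 | h3
    · exact lyh_ord_eq_one_of_unramified P v hPv (hres v) h hgen a hpos J h1 _ B hBa hπh
    · obtain ⟨H, hH, hHa⟩ := hfac0 a hA0 hBa
      refine lyh_ord_eq_one_of_ramified P v hPv h hgen a hpos 3 (by norm_num) J
        (by rw [h3]; rfl) H B hHa hBa ?_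
      rw [hπh, hc0, map_zero, zero_mul, sub_zero, hH, map_mul, map_pow, map_sub, aeval_X, aeval_C]
  · by_cases hc1 : c = 1728
    · have hA1 : (A - C 1728 * B).eval a = 0 := by rw [← hc1]; exact hGa
      rw [hc1] at hvpos hπh
      rcases hJ1728 v hvpos with h1 | h2
      · exact lyh_ord_eq_one_of_unramified P v hPv (hres v) h hgen a hpos _ h1 _ B hBa hπh
      · obtain ⟨H, hH, hHa⟩ := hfac1 a hA1 hBa
        refine lyh_ord_eq_one_of_ramified P v hPv h hgen a hpos 2 (by norm_num) _
          (by rw [h2]; rfl) H B hHa hBa ?_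
        rw [hπh, hH, map_mul, map_pow, map_sub, aeval_X, aeval_C]
    · have h1 := hJgen c hc0 hc1 v hvpos
      exact lyh_ord_eq_one_of_unramified P v hPv (hres v) h hgen a hpos _ h1 _ B hBa hπh

end Abh

end Fermat.Agent.S18x
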