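/-
S18x/RamDataN (helper27): char-0 ramification data of `F_N = modularFunctionFieldBar N` over the
`j`-line, extracted from the S24 analytic inputs (`S24x.CInputs`): for every place `v` of `F_N`
lying over a finite value `c` of `j`, the ramification index `v.ord (j - c)` is
`1` for `c ≠ 0, 1728`, lies in `{1, 3}` for `c = 0` and in `{1, 2}` for `c = 1728`.
(Consumer: PUR-H, "no elliptic points at the auxiliary level".)
-/
import Fermat.Agent.S24x.LayerAFinal
import Fermat.Agent.S24x.CountsOfInputs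
import Fermat.Agent.S24x.Realize
import Fermat.Agent.S24x.VPt
import Fermat.Agent.S24x.JFiber
import Fermat.Agent.S24x.CgCusp
import Fermat.Agent.S24x.FBarFinite
import Fermat.Agent.S24x.CoveringFinal

set_option autoImplicit false

namespace Fermat.Agent.S18x

open Fermat.Agent.S24x AlgebraicCurve ModularCurve UpperHalfPlane

/-- all analytic inputs of the S24 counting step (same term as in `S24.lean`, fresh name) -/
noncomputable def rdn_cInputs (N : ℕ) [NeZero N] : CInputs N where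
  evF := evF N
  vPt := vPt N
  vCusp := cg_vCusp N
  jFun_I := jFun_I
  jFun_rho := jFun_rho
  holOrder_jHol_sub_generic := holOrder_jHol_sub_generic
  holOrder_jHol_sub_I := holOrder_jHol_sub_I
  holOrder_jHol_rho := holOrder_jHol_rho
  evF_algebraMap := evF_algebraMap N
  evF_jBar := evF_jBar N
  evF_smul_of_mem_Gamma0 := evF_smul_of_mem_Gamma0 N
  exists_ordAt_eq_mul_vPt_ord := fun τ ⟨_, hc⟩ => exists_ordAt_eq_mul_vPt_ord N τ hc
  vPt_mem_placesOver := fun τ _ hτ => vPt_mem_placesOver N τ hτ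
  vPt_smul_of_mem_Gamma0 := vPt_smul_of_mem_Gamma0 N
  vCusp_mul_of_mem_Gamma0 := cg_vCusp_mul_of_mem_Gamma0 N
  vCusp_mul_T := cg_vCusp_mul_T N
  vCusp_ord_le := cg_vCusp_ord_le N
  vCusp_mem_polePlaces := cg_vCusp_mem_polePlaces N
  covering_finite := covering_finite N
  covering_cusp := covering_cusp N
  dedekindPsi_le_cdeg := fbf_dedekindPsi_le_cdeg N
  sum_ord_placesOver := fun c => sum_ord_placesOver (fbf_isCoordinate_jBar N) c
  sum_ord_polePlaces := sum_ord_polePlaces (fbf_isCoordinate_jBar N)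

variable (N : ℕ) [NeZero N]

/-- key divisibility: if `j - c` has analytic order `n` at `τ₀` (with `j τ₀ = c`), then for every
place `v` over `c` there is `e > 0` with `e * v.ord (j - c) = n`. -/
theorem rdn_mul_ord_eq (c : Qbar) (τ₀ : ℍ) (hτ₀ : jFun τ₀ = iotaQ c) (n : ℕ)
    (hn : holOrder (cfJ (iotaQ c)) τ₀ = n)
    (v : Place Qbar (FBar N)) (hv : v ∈ placesOver Qbar (FBar N) (jBar N) c) :
    ∃ e : ℕ, 0 < e ∧ (e : ℤ) * v.ord (jBar N - algebraMap Qbar (FBar N) c) = n := by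
  have A := rdn_cInputs N
  obtain ⟨g, rfl⟩ := A.hcov hτ₀ v hv
  obtain ⟨e, he, hmul⟩ := A.hmul hτ₀ g
  refine ⟨e, he, ?_⟩
  rw [← hmul, A.hD τ₀ c n hn g]

/-- generic fibres are unramified: `ord_v (j - c) = 1` for `c ≠ 0, 1728`. -/
theorem rdn_ord_generic (c : Qbar) (h0 : c ≠ 0) (h1 : c ≠ 1728)
    (v : Place Qbar (FBar N)) (hv : 0 < v.ord (jBar N - algebraMap Qbar (FBar N) c)) :
    v.ord (jBar N - algebraMap Qbar (FBar N) c) = 1 := by
  have A := rdn_cInputs N
  obtain ⟨τ₀, hτ₀⟩ := jFun_surjective (iotaQ c)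
  have hc0 : jFun τ₀ ≠ 0 := by
    rw [hτ₀]; intro h; exact h0 (iotaQ_injective (by rw [h, map_zero]))
  have hc1 : jFun τ₀ ≠ 1728 := by
    rw [hτ₀]; intro h; exact h1 (iotaQ_injective (by rw [h, map_ofNat]))
  have hn : holOrder (cfJ (iotaQ c)) τ₀ = (1 : ℕ) := by
    have := A.holOrder_jHol_sub_generic τ₀ hc0 hc1
    rw [hτ₀] at this
    exact this
  obtain ⟨e, he, hmul⟩ := rdn_mul_ord_eq N c τ₀ hτ₀ 1 hn v (mem_placesOver.mpr hv)
  have h1' : (e : ℤ) * v.ord (jBar N - algebraMap Qbar (FBar N) c) = 1 := by exact_mod_cast hmul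
  have he' : (1 : ℤ) ≤ e := by exact_mod_cast he
  nlinarith

/-- over `j = 0`: `ord_v j ∈ {1, 3}`. -/
theorem rdn_ord_zero (v : Place Qbar (FBar N)) (hv : 0 < v.ord (jBar N)) :
    v.ord (jBar N) = 1 ∨ v.ord (jBar N) = 3 := by
  have A := rdn_cInputs N
  have hτ₀ : jFun rho = iotaQ 0 := by rw [A.jFun_rho, map_zero]
  have hn : holOrder (cfJ (iotaQ 0)) rho = (3 : ℕ) := by
    have := A.holOrder_jHol_rho
    have e : cfJ (iotaQ (0 : Qbar)) = jHol := by unfold cfJ; rw [map_zero, map_zero, sub_zero]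
    rw [e]
    exact this
  have hz : jBar N - algebraMap Qbar (FBar N) 0 = jBar N := by rw [map_zero, sub_zero]
  have hv' : v ∈ placesOver Qbar (FBar N) (jBar N) 0 := by
    rw [mem_placesOver, hz]; exact hv
  obtain ⟨e, he, hmul⟩ := rdn_mul_ord_eq N 0 rho hτ₀ 3 hn v hv'
  rw [hz] at hmul
  have h3 : (e : ℤ) * v.ord (jBar N) = 3 := by exact_mod_cast hmul
  have he' : (1 : ℤ) ≤ e := by exact_mod_cast he
  have hle : v.ord (jBar N) ≤ 3 := by nlinarith
  have hdvd : v.ord (jBar N) ∣ 3 := ⟨e, by rw [mul_comm]; exact h3.symm⟩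
  have hcases : v.ord (jBar N) = 1 ∨ v.ord (jBar N) = 2 ∨ v.ord (jBar N) = 3 := by omega
  rcases hcases with h | h | h
  · exact Or.inl h
  · exfalso; rw [h] at hdvd; omega
  · exact Or.inr h

/-- over `j = 1728`: `ord_v (j - 1728) ∈ {1, 2}`. -/
theorem rdn_ord_1728 (v : Place Qbar (FBar N))
    (hv : 0 < v.ord (jBar N - algebraMap Qbar (FBar N) 1728)) :
    v.ord (jBar N - algebraMap Qbar (FBar N) 1728) = 1 ∨
      v.ord (jBar N - algebraMap Qbar (FBar N) 1728) = 2 := by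
  have A := rdn_cInputs N
  have hτ₀ : jFun UpperHalfPlane.I = iotaQ 1728 := by rw [A.jFun_I, map_ofNat]
  have hn : holOrder (cfJ (iotaQ 1728)) UpperHalfPlane.I = (2 : ℕ) := by
    have := A.holOrder_jHol_sub_I
    have e : iotaQ (1728 : Qbar) = 1728 := map_ofNat iotaQ 1728
    rw [e]
    exact this
  obtain ⟨e, he, hmul⟩ := rdn_mul_ord_eq N 1728 UpperHalfPlane.I hτ₀ 2 hn v
    (mem_placesOver.mpr hv)
  have h2 : (e : ℤ) * v.ord (jBar N - algebraMap Qbar (FBar N) 1728) = 2 := by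
    exact_mod_cast hmul
  have he' : (1 : ℤ) ≤ e := by exact_mod_cast he
  have hle : v.ord (jBar N - algebraMap Qbar (FBar N) 1728) ≤ 2 := by nlinarith
  omega

end Fermat.Agent.S18x
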