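import Mathlib
import Fermat.Agent.S18x.LyhAbhyankar
import Fermat.Agent.S18x.LamS3Fibre2
import Fermat.Agent.S18x.RamDataN
import Fermat.Agent.S18x.PlsTsFields

/-!
# S18x / N5 (H) (helper33): char-0 unramifiedness of the level-`Y` field off the cusps

`lyh_ord_eq_one_levelN`: for ANY field `L` over `Q̄` which is an algebraic extension
`L = F̄_N[h]` of (a copy of) `F̄_N = Q̄(j(q^d) : d ∣ N)` with `j · (h² - 64)² = (h² + 192)³`
(the `λ`-line coordinate `h = X₃`), every place `P` of `L/Q̄` and every `a` with `a² ≠ 64`: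
`ord_P (h - a) > 0 → ord_P (h - a) = 1`.

Inputs: S24x ramification data of `F̄_N` over the `j`-line (`rdn_*`, helper27), residue fields
(`pls_eval_levelN`, helper34), fibres of the sextic (`ls3f_*`, helper17), and the generic lemma
`lyh_ord_eq_one_of_data` (DENSE + ramified case).  The instance package (`L`, the algebra structure
`q ↦ q²`, `hgen`, `hid`) is supplied by `LyhInst`/`LygInst`.
-/

set_option autoImplicit false

namespace Fermat.Agent.S18x

open AlgebraicCurve Polynomial Fermat.Agent.S24x ModularCurve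

local notation "Qbar" => AlgebraicClosure ℚ

section LevelN

variable (N : ℕ) [NeZero N]

/-- residue fields of `F̄_N` are `Q̄` (ord form of `pls_eval_levelN`). -/
theorem lyh_hres_levelN (v : Place Qbar (FBar N)) (x : FBar N) (hx : x ∈ v.toValuationSubring) :
    ∃ c : Qbar, x = algebraMap Qbar (FBar N) c ∨ 0 < v.ord (x - algebraMap Qbar (FBar N) c) := by
  have h1 : v.adicValuation x ≤ 1 := (Fermat.Agent.S24x.adicValuation_le_one_iff v x).mpr hx
  obtain ⟨c, hc⟩ := pls_eval_levelN N v x h1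
  refine ⟨c, ?_⟩
  by_cases h0 : x - algebraMap Qbar (FBar N) c = 0
  · left
    exact sub_eq_zero.1 h0
  · right
    rw [v.adicValuation_eq_exp_neg_ord h0, ← WithZero.exp_zero, WithZero.exp_lt_exp] at hc
    omega

/-- `j` is not constant. -/
theorem lyh_jBar_sub_ne_zero (c : Qbar) : jBar N - algebraMap Qbar (FBar N) c ≠ 0 := by
  intro h0
  have htr : Transcendental Qbar (jBar N) := (isCoordinate_jBar N).transcendental
  apply htr
  rw [sub_eq_zero.1 h0]
  exact isAlgebraic_algebraMap c

/-- **(H), place form, level `N`**, for any instance package `(L, h)`. -/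
theorem lyh_ord_eq_one_levelN {L : Type*} [Field L] [Algebra Qbar L] [Algebra (FBar N) L]
    [IsScalarTower Qbar (FBar N) L] [Algebra.IsAlgebraic (FBar N) L]
    (h : L) (hgen : ∀ f : L, ∃ Q : (FBar N)[X], f = aeval h Q)
    (hid : algebraMap (FBar N) L (jBar N) * (h ^ 2 - 64) ^ 2 = (h ^ 2 + 192) ^ 3)
    (P : Place Qbar L) (a : Qbar) (ha : a ^ 2 ≠ 64)
    (hpos : 0 < P.ord (h - algebraMap Qbar L a)) :
    P.ord (h - algebraMap Qbar L a) = 1 := by
  have h6 : (6 : Qbar) ≠ 0 := by norm_num
  refine lyh_ord_eq_one_of_data (K := Qbar) (E := FBar N) (L := L)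
    (lyh_hres_levelN N) (jBar N) (lyh_jBar_sub_ne_zero N)
    (fun c hc0 hc1 v hv => rdn_ord_generic N c hc0 hc1 v hv)
    (fun v hv => rdn_ord_zero N v hv)
    (fun v hv => ?_)
    h hgen (ls3f_A Qbar) (ls3f_B Qbar) (ls3f_hid (jBar N) h hid)
    (ls3f_hfac0 h6) (ls3f_hfac1 h6) P a ?_ hpos
  · exact rdn_ord_1728 N v hv
  · rw [ls3f_eval_B]
    exact pow_ne_zero 2 (sub_ne_zero.2 ha)

end LevelN

end Fermat.Agent.S18x
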