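import Fermat.Agent.S18x.PsHensel
import Fermat.Agent.S18x.RatDeg

/-!
# The Hesse parameter `μ` (auxiliary level for `ℓ = 2` in S18), pure algebra (prefix `muh_`)

Normalisation (doc `S18_l23_solution_helper57`): `j = μ³(μ³+216)³/(μ³-27)³`
(degree `12`, group `A₄`, cusps `μ = 3, 3ζ, 3ζ², ∞`, all of width `3`).

* `muh_sub_1728`, `muh_sigma_invariant`, `muh_zeta_invariant`: polynomial identities;
* `muh_existsUnique_root`: for `3` invertible in `R` and `G ∈ R⟦X⟧`, `G(0) = 1`, there is a unique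
  `u ∈ R⟦X⟧`, `u(0) = 1`, with `u³(u³+216X³)³ = G (u³-27X³)³` (Hensel in `R⟦X⟧`);
* `muh_mu_equation`: then `μ = X⁻¹ u ∈ R((X))` satisfies `μ³(μ³+216)³ = (X⁻³G)(μ³-27)³`;
* `muh_isCoprime`, `muh_relfinrank`: over a field with `3 ≠ 0`, numerator and denominator are
  coprime and `[K(μ) : K(j)] = 12` for transcendental `μ`;
* `muh_transcendental`: `μ` is transcendental as soon as `j` is.
-/

set_option autoImplicit false

open Polynomial IntermediateField

namespace Fermat.Agent.S18x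

/-! ## Polynomial identities -/

section Identities

variable {S : Type*} [CommRing S]

/-- `j - 1728` is a square: `μ³(μ³+216)³ - 1728(μ³-27)³ = (μ⁶ - 540μ³ - 5832)²`. -/
theorem muh_sub_1728 (x : S) :
    x ^ 3 * (x ^ 3 + 216) ^ 3 - 1728 * (x ^ 3 - 27) ^ 3 = (x ^ 6 - 540 * x ^ 3 - 5832) ^ 2 := by
  ring

/-- Invariance of `j` under `μ ↦ 3(μ+6)/(μ-3)` (homogeneous form, `a = 3(x+6)`, `b = x-3`). -/
theorem muh_sigma_invariant (x : S) :
    (3 * (x + 6)) ^ 3 * ((3 * (x + 6)) ^ 3 + 216 * (x - 3) ^ 3) ^ 3 * (x ^ 3 - 27) ^ 3 =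
      x ^ 3 * (x ^ 3 + 216) ^ 3 * ((x - 3) ^ 3 * ((3 * (x + 6)) ^ 3 - 27 * (x - 3) ^ 3) ^ 3) := by
  ring

/-- Invariance of `j` under `μ ↦ ζ μ`, `ζ³ = 1`. -/
theorem muh_zeta_invariant (x ζ : S) (hζ : ζ ^ 3 = 1) :
    (ζ * x) ^ 3 * ((ζ * x) ^ 3 + 216) ^ 3 * (x ^ 3 - 27) ^ 3 =
      x ^ 3 * (x ^ 3 + 216) ^ 3 * ((ζ * x) ^ 3 - 27) ^ 3 := by
  have : (ζ * x) ^ 3 = x ^ 3 := by rw [mul_pow, hζ, one_mul]
  rw [this]

/-- Passing from `u` (a series `≡ 1`) to `μ = s·u`, `s = X⁻¹`: pure ring identity. -/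
theorem muh_scale_identity (s x u G : S) (hsx : s * x = 1)
    (h : u ^ 3 * (u ^ 3 + 216 * x ^ 3) ^ 3 = G * (u ^ 3 - 27 * x ^ 3) ^ 3) :
    (s * u) ^ 3 * ((s * u) ^ 3 + 216) ^ 3 = (s ^ 3 * G) * ((s * u) ^ 3 - 27) ^ 3 := by
  have e1 : (s * u) ^ 3 + 216 = s ^ 3 * (u ^ 3 + 216 * x ^ 3) := by
    linear_combination (-(216 * ((s * x) ^ 2 + s * x + 1))) * hsx
  have e2 : (s * u) ^ 3 - 27 = s ^ 3 * (u ^ 3 - 27 * x ^ 3) := by
    linear_combination ((27 * ((s * x) ^ 2 + s * x + 1))) * hsx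
  rw [e1, e2]
  linear_combination s ^ 12 * h

end Identities

/-! ## The Hensel root in `R⟦X⟧` -/

section Hensel

variable {R : Type*} [CommRing R]

/-- The Hesse polynomial in `T` over `R⟦X⟧`: `T³(T³+216X³)³ − G·(T³−27X³)³`. -/
noncomputable def muh_poly (G : PowerSeries R) : (PowerSeries R)[X] :=
  X ^ 3 * (X ^ 3 + C (216 * PowerSeries.X ^ 3)) ^ 3 - C G * (X ^ 3 - C (27 * PowerSeries.X ^ 3)) ^ 3

theorem muh_poly_eval (G a : PowerSeries R) :
    (muh_poly G).eval a =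
      a ^ 3 * (a ^ 3 + 216 * PowerSeries.X ^ 3) ^ 3 - G * (a ^ 3 - 27 * PowerSeries.X ^ 3) ^ 3 := by
  simp [muh_poly]

theorem muh_poly_monic [Nontrivial R] (G : PowerSeries R) : (muh_poly G).Monic := by
  unfold muh_poly
  monicity!

theorem muh_poly_derivative_eval (G a : PowerSeries R) :
    (muh_poly G).derivative.eval a =
      3 * a ^ 2 * (a ^ 3 + 216 * PowerSeries.X ^ 3) ^ 3
        + a ^ 3 * (3 * (a ^ 3 + 216 * PowerSeries.X ^ 3) ^ 2 * (3 * a ^ 2))
        - G * (3 * (a ^ 3 - 27 * PowerSeries.X ^ 3) ^ 2 * (3 * a ^ 2)) := by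
  simp [muh_poly, derivative_mul, derivative_pow]

/-- **Hensel root of the Hesse equation.**  If `3` is invertible in `R` and `G ∈ R⟦X⟧` has constant
coefficient `1`, there is a unique `u ∈ R⟦X⟧` with constant coefficient `1` and
`u³(u³+216X³)³ = G·(u³−27X³)³`.  (Then `μ = X⁻¹u` solves `μ³(μ³+216)³ = (X⁻³G)(μ³−27)³`.) -/
theorem muh_existsUnique_root (h3 : IsUnit (3 : R)) (G : PowerSeries R)
    (hG : PowerSeries.constantCoeff G = 1) :
    ∃! u : PowerSeries R, PowerSeries.constantCoeff u = 1 ∧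
      u ^ 3 * (u ^ 3 + 216 * PowerSeries.X ^ 3) ^ 3 = G * (u ^ 3 - 27 * PowerSeries.X ^ 3) ^ 3 := by
  nontriviality R
  have h0 : PowerSeries.constantCoeff ((muh_poly G).eval 1) = 0 := by
    rw [muh_poly_eval]
    simp [hG]
  have h1 : IsUnit (PowerSeries.constantCoeff ((muh_poly G).derivative.eval 1)) := by
    rw [muh_poly_derivative_eval]
    have : PowerSeries.constantCoeff
        (3 * (1 : PowerSeries R) ^ 2 * (1 ^ 3 + 216 * PowerSeries.X ^ 3) ^ 3
        + 1 ^ 3 * (3 * (1 ^ 3 + 216 * PowerSeries.X ^ 3) ^ 2 * (3 * 1 ^ 2))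
        - G * (3 * (1 ^ 3 - 27 * PowerSeries.X ^ 3) ^ 2 * (3 * 1 ^ 2))) = (3 : R) := by
      simp only [map_sub, map_add, map_mul, map_pow, map_one, map_ofNat,
        PowerSeries.constantCoeff_X, hG]
      ring
    rw [this]
    exact h3
  obtain ⟨u, ⟨hu, hu0⟩, huniq⟩ := psh_existsUnique_root (muh_poly G) (muh_poly_monic G) 1 h0 h1
  refine ⟨u, ⟨?_, ?_⟩, ?_⟩
  · rw [map_sub, map_one, sub_eq_zero] at hu0
    exact hu0
  · have := hu.eq_zero
    rw [muh_poly_eval, sub_eq_zero] at this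
    exact this
  · rintro v ⟨hv0, hv⟩
    apply huniq
    refine ⟨?_, ?_⟩
    · rw [IsRoot.def, muh_poly_eval, sub_eq_zero]
      exact hv
    · rw [map_sub, map_one, hv0, sub_self]

/-- The Hensel root is compatible with coefficient maps (by uniqueness). -/
theorem muh_root_map {R' : Type*} [CommRing R'] (f : R →+* R') (u G : PowerSeries R)
    (h : u ^ 3 * (u ^ 3 + 216 * PowerSeries.X ^ 3) ^ 3 = G * (u ^ 3 - 27 * PowerSeries.X ^ 3) ^ 3) :
    (u.map f) ^ 3 * ((u.map f) ^ 3 + 216 * PowerSeries.X ^ 3) ^ 3 =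
      (G.map f) * ((u.map f) ^ 3 - 27 * PowerSeries.X ^ 3) ^ 3 := by
  have h' := congrArg (PowerSeries.map f) h
  simpa only [map_mul, map_pow, map_add, map_sub, map_ofNat, PowerSeries.map_X] using h'

/-- The Hesse parameter `μ = X⁻¹·u` as a Laurent series. -/
noncomputable def muh_mu (u : PowerSeries R) : LaurentSeries R :=
  HahnSeries.single (-1 : ℤ) (1 : R) * HahnSeries.ofPowerSeries ℤ R u

theorem muh_mu_equation (u G : PowerSeries R)
    (h : u ^ 3 * (u ^ 3 + 216 * PowerSeries.X ^ 3) ^ 3 = G * (u ^ 3 - 27 * PowerSeries.X ^ 3) ^ 3) :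
    muh_mu u ^ 3 * (muh_mu u ^ 3 + 216) ^ 3 =
      (HahnSeries.single (-3 : ℤ) (1 : R) * HahnSeries.ofPowerSeries ℤ R G) *
        (muh_mu u ^ 3 - 27) ^ 3 := by
  have hsx : HahnSeries.single (-1 : ℤ) (1 : R) *
      HahnSeries.ofPowerSeries ℤ R (PowerSeries.X : PowerSeries R) = 1 := by
    rw [HahnSeries.ofPowerSeries_X, HahnSeries.single_mul_single]
    simp
  have h' := congrArg (HahnSeries.ofPowerSeries ℤ R) h
  simp only [map_mul, map_pow, map_add, map_sub, map_ofNat] at h'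
  have h3 : HahnSeries.single (-3 : ℤ) (1 : R) = HahnSeries.single (-1 : ℤ) (1 : R) ^ 3 := by
    rw [HahnSeries.single_pow]
    simp
  rw [h3]
  exact muh_scale_identity _ _ _ _ hsx h'

end Hensel

/-! ## Degree `12` -/

section Degree

variable {K : Type*} [Field K]

/-- numerator of the Hesse `j`-function `μ³(μ³+216)³` -/
noncomputable def muh_num (K : Type*) [Field K] : K[X] := X ^ 3 * (X ^ 3 + C 216) ^ 3

/-- denominator of the Hesse `j`-function `(μ³-27)³` -/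
noncomputable def muh_den (K : Type*) [Field K] : K[X] := (X ^ 3 - C 27) ^ 3

theorem muh_natDegree_num : (muh_num K).natDegree = 12 := by
  unfold muh_num
  compute_degree!

theorem muh_natDegree_den : (muh_den K).natDegree = 9 := by
  unfold muh_den
  compute_degree!

theorem muh_den_ne_zero : muh_den K ≠ 0 := by
  intro h
  have := muh_natDegree_den (K := K)
  rw [h] at this
  simp at this

theorem muh_aeval_num {E : Type*} [Field E] [Algebra K E] (μ : E) :
    aeval μ (muh_num K) = μ ^ 3 * (μ ^ 3 + 216) ^ 3 := by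
  simp [muh_num, map_ofNat]

theorem muh_aeval_den {E : Type*} [Field E] [Algebra K E] (μ : E) :
    aeval μ (muh_den K) = (μ ^ 3 - 27) ^ 3 := by
  simp [muh_den, map_ofNat]

theorem muh_isCoprime (h3 : (3 : K) ≠ 0) : IsCoprime (muh_num K) (muh_den K) := by
  have h27 : (27 : K) ≠ 0 := by
    have : (27 : K) = 3 ^ 3 := by norm_num
    rw [this]; exact pow_ne_zero _ h3
  have h243 : (243 : K) ≠ 0 := by
    have : (243 : K) = 3 ^ 5 := by norm_num
    rw [this]; exact pow_ne_zero _ h3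
  have c1 : IsCoprime (X ^ 3 : K[X]) (X ^ 3 - C 27) := by
    refine ⟨C (27 : K)⁻¹, - C (27 : K)⁻¹, ?_⟩
    have : C (27 : K)⁻¹ * C (27 : K) = 1 := by rw [← C_mul, inv_mul_cancel₀ h27, C_1]
    linear_combination this
  have c2 : IsCoprime (X ^ 3 + C 216 : K[X]) (X ^ 3 - C 27) := by
    refine ⟨C (243 : K)⁻¹, - C (243 : K)⁻¹, ?_⟩
    have : C (243 : K)⁻¹ * C (243 : K) = 1 := by rw [← C_mul, inv_mul_cancel₀ h243, C_1]
    have e : (C (243 : K) : K[X]) = C 216 + C 27 := by rw [← C_add]; norm_num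
    rw [e] at this
    linear_combination this
  unfold muh_num muh_den
  exact (c1.mul_left (c2.pow_left)).pow_right

/-- `[K(μ) : K(j)] = 12` for the Hesse `j`-function, `μ` transcendental, `3 ≠ 0` in `K`. -/
theorem muh_relfinrank {E : Type*} [Field E] [Algebra K E] (h3 : (3 : K) ≠ 0) {μ : E}
    (hμ : Transcendental K μ) :
    relfinrank K⟮μ ^ 3 * (μ ^ 3 + 216) ^ 3 / (μ ^ 3 - 27) ^ 3⟯ K⟮μ⟯ = 12 := by
  have := rfd_relfinrank hμ (muh_den_ne_zero (K := K)) (muh_isCoprime h3)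
  rw [muh_natDegree_num, muh_natDegree_den, muh_aeval_num, muh_aeval_den] at this
  exact this

/-- The denominator does not vanish at a solution of the Hesse equation (`3 ≠ 0`). -/
theorem muh_den_eval_ne_zero {E : Type*} [Field E] [Algebra K E] (h3 : (3 : K) ≠ 0) {μ J : E}
    (h : μ ^ 3 * (μ ^ 3 + 216) ^ 3 = J * (μ ^ 3 - 27) ^ 3) : (μ ^ 3 - 27) ^ 3 ≠ 0 := by
  intro h0
  obtain ⟨a, b, hab⟩ := muh_isCoprime h3
  have := congrArg (aeval μ) hab
  rw [map_add, map_mul, map_mul, muh_aeval_num, muh_aeval_den, h, h0, mul_zero, mul_zero,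
    mul_zero, add_zero, map_one] at this
  exact zero_ne_one this

/-- If `j` is transcendental, so is any `μ` with `μ³(μ³+216)³ = j (μ³-27)³`. -/
theorem muh_transcendental {E : Type*} [Field E] [Algebra K E] (h3 : (3 : K) ≠ 0) {μ J : E}
    (hJ : Transcendental K J)
    (h : μ ^ 3 * (μ ^ 3 + 216) ^ 3 = J * (μ ^ 3 - 27) ^ 3) : Transcendental K μ := by
  intro hμ
  apply hJ
  have hne := muh_den_eval_ne_zero h3 h
  have hJ' : J = μ ^ 3 * (μ ^ 3 + 216) ^ 3 / (μ ^ 3 - 27) ^ 3 := by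
    rw [h, mul_div_assoc, div_self hne, mul_one]
  have hmem : J ∈ K⟮μ⟯ := by
    rw [hJ']
    have hμmem : μ ∈ K⟮μ⟯ := mem_adjoin_simple_self K μ
    have h216 : (216 : E) ∈ K⟮μ⟯ := by
      have : (216 : E) = algebraMap K E 216 := by rw [map_ofNat]
      rw [this]; exact K⟮μ⟯.algebraMap_mem _
    have h27 : (27 : E) ∈ K⟮μ⟯ := by
      have : (27 : E) = algebraMap K E 27 := by rw [map_ofNat]
      rw [this]; exact K⟮μ⟯.algebraMap_mem _
    exact div_mem (mul_mem (pow_mem hμmem 3) (pow_mem (add_mem (pow_mem hμmem 3) h216) 3))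
      (pow_mem (sub_mem (pow_mem hμmem 3) h27) 3)
  have halg : Algebra.IsAlgebraic K K⟮μ⟯ := isAlgebraic_adjoin_simple hμ.isIntegral
  have := halg.isAlgebraic ⟨J, hmem⟩
  exact (isAlgebraic_algebraMap_iff (algebraMap K⟮μ⟯ E).injective (a := ⟨J, hmem⟩)).mpr this

end Degree

end Fermat.Agent.S18x
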