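/-
S18 project, NRM block, row N1b (helper86, prefix `hsc_`): the Hesse coordinate for `ℓ = 2`.

Over ANY commutative ring `R`:
* `hsc_sigma R ∈ 1 + X R⟦X⟧`, the unique Hensel root of the quartic
  `T (T + 216 X)³ - J (T - 27 X)³`, `J = X·j(X) = purb_J R` (reduction mod `X`: `T³ (T - 1)`,
  derivative `1` at `T = 1`: always a unit);
* `hsc_stilde R = X⁻¹ σ`, so that `s̃ (s̃ + 216)³ = j(Q) (s̃ - 27)³` holds BY CONSTRUCTION.

If `3` is a unit of `R`:
* `hsc_nu h3 ∈ 1 + X R⟦X⟧`, the unique cube root of `σ`;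
* `hsc_u h3 = ν(X³)`: this is the (unique) Hensel root of helper63's degree-`12` Hesse equation
  `u³ (u³ + 216 X³)³ = G (u³ - 27 X³)³` for `G = hsc_J3 R = X³ j(X³)`; PARITY: `u ∈ R⟦X³⟧`;
* `hsc_mu h3 = X⁻¹ u = muh_mu u`: `μ³ = s̃(q³)`, `μ³ (μ³ + 216)³ = j(q³) (μ³ - 27)³`,
  and `μ ∈ q⁻¹ R((q³))` (coefficient form of the twist law `μ(ζ q) = ζ⁻¹ μ(q)`, `ζ³ = 1`).

Everything is functorial in `R` (`coeffMap`), by uniqueness of Hensel roots.
-/
import Mathlib
import Fermat.Prelude.Def_ModularCurve_X0ModL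
import Fermat.Agent.S18x.PurCoordMap
import Fermat.Agent.S18x.MuHesse
import Fermat.Agent.S28x.PrimeCase

set_option autoImplicit false

noncomputable section

namespace Fermat.Agent.S18x

open ModularCurve

/-! ## The quartic -/

section Quartic

open Polynomial

variable {S : Type*} [CommRing S]

/-- the quartic `T (T + a)³ - J (T - b)³`. -/
def hsc_quartic (a b J : S) : S[X] := X * (X + C a) ^ 3 - C J * (X - C b) ^ 3

theorem hsc_quartic_monic [Nontrivial S] (a b J : S) : (hsc_quartic a b J).Monic := by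
  unfold hsc_quartic
  monicity!

theorem hsc_quartic_eval (a b J t : S) :
    (hsc_quartic a b J).eval t = t * (t + a) ^ 3 - J * (t - b) ^ 3 := by
  simp [hsc_quartic]

theorem hsc_quartic_deriv_eval (a b J t : S) :
    (hsc_quartic a b J).derivative.eval t
      = (t + a) ^ 3 + t * (3 * (t + a) ^ 2) - J * (3 * (t - b) ^ 2) := by
  simp [hsc_quartic, derivative_mul, derivative_pow]

/-- the cubic `T³ - s`. -/
def hsc_cubic (s : S) : S[X] := X ^ 3 - C s

theorem hsc_cubic_monic [Nontrivial S] (s : S) : (hsc_cubic s).Monic := by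
  unfold hsc_cubic
  monicity!

theorem hsc_cubic_eval (s t : S) : (hsc_cubic s).eval t = t ^ 3 - s := by
  simp [hsc_cubic]

theorem hsc_cubic_deriv_eval (s t : S) : (hsc_cubic s).derivative.eval t = 3 * t ^ 2 := by
  simp [hsc_cubic, derivative_pow]

/-- Passing from `σ` (a series `≡ 1`) to `s̃ = s·σ`, `s = X⁻¹`: pure ring identity. -/
theorem hsc_scale_identity (s x σ J : S) (hsx : s * x = 1)
    (h : σ * (σ + 216 * x) ^ 3 = J * (σ - 27 * x) ^ 3) :
    (s * σ) * ((s * σ) + 216) ^ 3 = (s * J) * ((s * σ) - 27) ^ 3 := by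
  have e1 : s * σ + 216 = s * (σ + 216 * x) := by
    linear_combination (-216 : S) * hsx
  have e2 : s * σ - 27 = s * (σ - 27 * x) := by
    linear_combination (27 : S) * hsx
  rw [e1, e2]
  linear_combination s ^ 4 * h

end Quartic

/-! ## The Hensel root `σ` over an arbitrary ring -/

section Sigma

variable (R : Type*) [CommRing R]

/-- **Hensel root of the quartic**, over ANY commutative ring: there is a unique `σ ∈ R⟦X⟧` with
constant coefficient `1` and `σ (σ + 216 X)³ = J (σ - 27 X)³`, `J = X·j(X)`. -/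
theorem hsc_existsUnique_sigma :
    ∃! σ : PowerSeries R, PowerSeries.constantCoeff σ = 1 ∧
      σ * (σ + 216 * PowerSeries.X) ^ 3 = purb_J R * (σ - 27 * PowerSeries.X) ^ 3 := by
  nontriviality R
  set f : Polynomial (PowerSeries R) :=
    hsc_quartic ((216 : PowerSeries R) * PowerSeries.X) ((27 : PowerSeries R) * PowerSeries.X)
      (purb_J R) with hf
  have h0 : PowerSeries.constantCoeff (f.eval 1) = 0 := by
    rw [hf, hsc_quartic_eval]
    simp [purb_constantCoeff_J]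
  have h1 : IsUnit (PowerSeries.constantCoeff (f.derivative.eval 1)) := by
    rw [hf, hsc_quartic_deriv_eval]
    have : PowerSeries.constantCoeff
        (((1 : PowerSeries R) + 216 * PowerSeries.X) ^ 3
          + 1 * (3 * ((1 : PowerSeries R) + 216 * PowerSeries.X) ^ 2)
          - purb_J R * (3 * ((1 : PowerSeries R) - 27 * PowerSeries.X) ^ 2)) = (1 : R) := by
      simp only [map_sub, map_add, map_mul, map_pow, map_one, map_ofNat,
        PowerSeries.constantCoeff_X, purb_constantCoeff_J]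
      ring
    rw [this]
    exact isUnit_one
  obtain ⟨σ, ⟨hσ, hσ0⟩, huniq⟩ :=
    psh_existsUnique_root f (hsc_quartic_monic _ _ _) 1 h0 h1
  refine ⟨σ, ⟨?_, ?_⟩, ?_⟩
  · rw [map_sub, map_one, sub_eq_zero] at hσ0
    exact hσ0
  · have := hσ.eq_zero
    rw [hf, hsc_quartic_eval, sub_eq_zero] at this
    exact this
  · rintro v ⟨hv0, hv⟩
    apply huniq
    refine ⟨?_, ?_⟩
    · rw [Polynomial.IsRoot.def, hf, hsc_quartic_eval, sub_eq_zero]
      exact hv
    · rw [map_sub, map_one, hv0, sub_self]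

/-- the Hensel root `σ ∈ 1 + X R⟦X⟧`. -/
def hsc_sigma : PowerSeries R := (hsc_existsUnique_sigma R).exists.choose

theorem hsc_constantCoeff_sigma : PowerSeries.constantCoeff (hsc_sigma R) = 1 :=
  (hsc_existsUnique_sigma R).exists.choose_spec.1

/-- the power series identity `σ (σ + 216 X)³ = J (σ - 27 X)³`. -/
theorem hsc_sigma_identity :
    hsc_sigma R * (hsc_sigma R + 216 * PowerSeries.X) ^ 3
      = purb_J R * (hsc_sigma R - 27 * PowerSeries.X) ^ 3 :=
  (hsc_existsUnique_sigma R).exists.choose_spec.2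

variable {R}

theorem hsc_sigma_unique (v : PowerSeries R) (hv0 : PowerSeries.constantCoeff v = 1)
    (hv : v * (v + 216 * PowerSeries.X) ^ 3 = purb_J R * (v - 27 * PowerSeries.X) ^ 3) :
    v = hsc_sigma R :=
  (hsc_existsUnique_sigma R).unique ⟨hv0, hv⟩
    ⟨hsc_constantCoeff_sigma R, hsc_sigma_identity R⟩

/-- functoriality of `σ`. -/
theorem hsc_sigma_map {R' : Type*} [CommRing R'] (φ : R →+* R') :
    (hsc_sigma R).map φ = hsc_sigma R' := by
  refine hsc_sigma_unique _ ?_ ?_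
  · rw [← PowerSeries.coeff_zero_eq_constantCoeff, PowerSeries.coeff_map,
      PowerSeries.coeff_zero_eq_constantCoeff, hsc_constantCoeff_sigma, map_one]
  · have h' := congrArg (PowerSeries.map φ) (hsc_sigma_identity R)
    simpa only [map_mul, map_pow, map_add, map_sub, map_ofNat, PowerSeries.map_X,
      purb_J_map] using h'

variable (R)

/-- **the coordinate** `s̃ = X⁻¹ σ` of the `X₀(3)`-type Hauptmodul line, as a Laurent series. -/
def hsc_stilde : LaurentSeries R :=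
  HahnSeries.single (-1 : ℤ) 1 * HahnSeries.ofPowerSeries ℤ R (hsc_sigma R)

theorem hsc_jqModC_eq : jqModC R
    = HahnSeries.single (-1 : ℤ) 1 * HahnSeries.ofPowerSeries ℤ R (purb_J R) := rfl

/-- **the defining identity**: `s̃ (s̃ + 216)³ = j(Q) (s̃ - 27)³`. -/
theorem hsc_stilde_identity :
    hsc_stilde R * (hsc_stilde R + 216) ^ 3 = jqModC R * (hsc_stilde R - 27) ^ 3 := by
  have hsx : HahnSeries.single (-1 : ℤ) (1 : R) *
      HahnSeries.ofPowerSeries ℤ R (PowerSeries.X : PowerSeries R) = 1 := by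
    rw [HahnSeries.ofPowerSeries_X, HahnSeries.single_mul_single]
    simp
  have h' := congrArg (HahnSeries.ofPowerSeries ℤ R) (hsc_sigma_identity R)
  simp only [map_mul, map_pow, map_add, map_sub, map_ofNat] at h'
  rw [hsc_jqModC_eq, hsc_stilde]
  exact hsc_scale_identity _ _ _ _ hsx h'

variable {R}

/-- functoriality of `s̃`. -/
theorem hsc_stilde_map {R' : Type*} [CommRing R'] (φ : R →+* R') :
    coeffMap φ (hsc_stilde R) = hsc_stilde R' := by
  rw [hsc_stilde, map_mul, coeffMap_single, map_one, coeffMap_ofPowerSeries, hsc_sigma_map φ,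
    hsc_stilde]

end Sigma

/-! ## The cube root `ν` of `σ` (`3` invertible) -/

section Nu

variable {R : Type*} [CommRing R]

/-- If `3` is a unit of `R`, `σ` has a unique cube root `ν ∈ 1 + X R⟦X⟧`. -/
theorem hsc_existsUnique_nu (h3 : IsUnit (3 : R)) :
    ∃! ν : PowerSeries R, PowerSeries.constantCoeff ν = 1 ∧ ν ^ 3 = hsc_sigma R := by
  nontriviality R
  set f : Polynomial (PowerSeries R) := hsc_cubic (hsc_sigma R) with hf
  have h0 : PowerSeries.constantCoeff (f.eval 1) = 0 := by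
    rw [hf, hsc_cubic_eval]
    simp [hsc_constantCoeff_sigma]
  have h1 : IsUnit (PowerSeries.constantCoeff (f.derivative.eval 1)) := by
    rw [hf, hsc_cubic_deriv_eval]
    have : PowerSeries.constantCoeff (3 * (1 : PowerSeries R) ^ 2) = (3 : R) := by
      simp only [map_mul, map_pow, map_one, map_ofNat]
      ring
    rw [this]
    exact h3
  obtain ⟨ν, ⟨hν, hν0⟩, huniq⟩ := psh_existsUnique_root f (hsc_cubic_monic _) 1 h0 h1
  refine ⟨ν, ⟨?_, ?_⟩, ?_⟩
  · rw [map_sub, map_one, sub_eq_zero] at hν0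
    exact hν0
  · have := hν.eq_zero
    rw [hf, hsc_cubic_eval, sub_eq_zero] at this
    exact this
  · rintro v ⟨hv0, hv⟩
    apply huniq
    refine ⟨?_, ?_⟩
    · rw [Polynomial.IsRoot.def, hf, hsc_cubic_eval, sub_eq_zero]
      exact hv
    · rw [map_sub, map_one, hv0, sub_self]

/-- the cube root `ν ∈ 1 + X R⟦X⟧` of `σ`. -/
def hsc_nu (h3 : IsUnit (3 : R)) : PowerSeries R := (hsc_existsUnique_nu h3).exists.choose

theorem hsc_constantCoeff_nu (h3 : IsUnit (3 : R)) :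
    PowerSeries.constantCoeff (hsc_nu h3) = 1 :=
  (hsc_existsUnique_nu h3).exists.choose_spec.1

theorem hsc_nu_cube (h3 : IsUnit (3 : R)) : hsc_nu h3 ^ 3 = hsc_sigma R :=
  (hsc_existsUnique_nu h3).exists.choose_spec.2

theorem hsc_nu_unique (h3 : IsUnit (3 : R)) (v : PowerSeries R)
    (hv0 : PowerSeries.constantCoeff v = 1) (hv : v ^ 3 = hsc_sigma R) : v = hsc_nu h3 :=
  (hsc_existsUnique_nu h3).unique ⟨hv0, hv⟩ ⟨hsc_constantCoeff_nu h3, hsc_nu_cube h3⟩

/-- functoriality of `ν`. -/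
theorem hsc_nu_map {R' : Type*} [CommRing R'] (φ : R →+* R') (h3 : IsUnit (3 : R))
    (h3' : IsUnit (3 : R')) : (hsc_nu h3).map φ = hsc_nu h3' := by
  refine hsc_nu_unique h3' _ ?_ ?_
  · rw [← PowerSeries.coeff_zero_eq_constantCoeff, PowerSeries.coeff_map,
      PowerSeries.coeff_zero_eq_constantCoeff, hsc_constantCoeff_nu, map_one]
  · rw [← map_pow, hsc_nu_cube, hsc_sigma_map]

end Nu

/-! ## The Hesse root `u = ν(X³)` and its parity -/

section U

variable (R : Type*) [CommRing R]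

/-- `X³·j(X³)` over `R`. -/
def hsc_J3 : PowerSeries R := PowerSeries.expand 3 three_ne_zero (purb_J R)

theorem hsc_constantCoeff_J3 : PowerSeries.constantCoeff (hsc_J3 R) = 1 := by
  rw [hsc_J3, PowerSeries.constantCoeff_expand, purb_constantCoeff_J]

variable {R}

theorem hsc_J3_map {R' : Type*} [CommRing R'] (φ : R →+* R') :
    (hsc_J3 R).map φ = hsc_J3 R' := by
  rw [hsc_J3, PowerSeries.map_expand, purb_J_map, hsc_J3]

/-- the Hesse root `u = ν(X³) ∈ 1 + X³ R⟦X³⟧`. -/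
def hsc_u (h3 : IsUnit (3 : R)) : PowerSeries R :=
  PowerSeries.expand 3 three_ne_zero (hsc_nu h3)

theorem hsc_constantCoeff_u (h3 : IsUnit (3 : R)) :
    PowerSeries.constantCoeff (hsc_u h3) = 1 := by
  rw [hsc_u, PowerSeries.constantCoeff_expand, hsc_constantCoeff_nu]

/-- `u³ = σ(X³)`. -/
theorem hsc_u_cube (h3 : IsUnit (3 : R)) :
    hsc_u h3 ^ 3 = PowerSeries.expand 3 three_ne_zero (hsc_sigma R) := by
  rw [hsc_u, ← map_pow, hsc_nu_cube]

/-- **the Hesse equation** for `u`, in EXACTLY the hypothesis shape of `muh_mu_equation` /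
`muh_existsUnique_root` (with `G = hsc_J3 R`). -/
theorem hsc_u_identity (h3 : IsUnit (3 : R)) :
    hsc_u h3 ^ 3 * (hsc_u h3 ^ 3 + 216 * PowerSeries.X ^ 3) ^ 3
      = hsc_J3 R * (hsc_u h3 ^ 3 - 27 * PowerSeries.X ^ 3) ^ 3 := by
  have h' := congrArg (PowerSeries.expand 3 three_ne_zero) (hsc_sigma_identity R)
  simp only [map_mul, map_pow, map_add, map_sub, map_ofNat, PowerSeries.expand_X] at h'
  rw [hsc_u_cube, hsc_J3]
  exact h'

/-- uniqueness: `hsc_u` is THE Hensel root of helper63's Hesse equation for `G = hsc_J3 R`. -/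
theorem hsc_u_unique (h3 : IsUnit (3 : R)) (v : PowerSeries R)
    (hv0 : PowerSeries.constantCoeff v = 1)
    (hv : v ^ 3 * (v ^ 3 + 216 * PowerSeries.X ^ 3) ^ 3
      = hsc_J3 R * (v ^ 3 - 27 * PowerSeries.X ^ 3) ^ 3) : v = hsc_u h3 :=
  (muh_existsUnique_root h3 (hsc_J3 R) (hsc_constantCoeff_J3 R)).unique ⟨hv0, hv⟩
    ⟨hsc_constantCoeff_u h3, hsc_u_identity h3⟩

/-- functoriality of `u`. -/
theorem hsc_u_map {R' : Type*} [CommRing R'] (φ : R →+* R') (h3 : IsUnit (3 : R))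
    (h3' : IsUnit (3 : R')) : (hsc_u h3).map φ = hsc_u h3' := by
  rw [hsc_u, PowerSeries.map_expand, hsc_nu_map φ h3 h3', hsc_u]

/-- PARITY (coefficient form): `u ∈ R⟦X³⟧`. -/
theorem hsc_coeff_u_of_not_dvd (h3 : IsUnit (3 : R)) {n : ℕ} (hn : ¬ 3 ∣ n) :
    PowerSeries.coeff n (hsc_u h3) = 0 := by
  rw [hsc_u, PowerSeries.coeff_expand_of_not_dvd _ _ _ hn]

/-- PARITY (twist form): `u(ζ X) = u(X)` for `ζ³ = 1`. -/
theorem hsc_u_rescale (h3 : IsUnit (3 : R)) (ζ : R) (hζ : ζ ^ 3 = 1) :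
    PowerSeries.rescale ζ (hsc_u h3) = hsc_u h3 := by
  ext n
  rw [PowerSeries.coeff_rescale]
  by_cases hn : 3 ∣ n
  · obtain ⟨m, rfl⟩ := hn
    rw [pow_mul, hζ, one_pow, one_mul]
  · rw [hsc_coeff_u_of_not_dvd h3 hn, mul_zero]

end U

/-! ## The Hesse parameter `μ = X⁻¹ u` -/

section Mu

variable {R : Type*} [CommRing R]

/-- **the Hesse parameter** `μ = X⁻¹ u ∈ q⁻¹ (1 + q³ R⟦q³⟧)`. -/
def hsc_mu (h3 : IsUnit (3 : R)) : LaurentSeries R := muh_mu (hsc_u h3)

theorem hsc_mu_eq (h3 : IsUnit (3 : R)) : hsc_mu h3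
    = HahnSeries.single (-1 : ℤ) 1 * HahnSeries.ofPowerSeries ℤ R (hsc_u h3) := rfl

/-- `μ³ = s̃(q³)`. -/
theorem hsc_mu_cube (h3 : IsUnit (3 : R)) : hsc_mu h3 ^ 3 = qExpand R 3 (hsc_stilde R) := by
  have e1 : (HahnSeries.ofPowerSeries ℤ R (hsc_u h3)) ^ 3
      = HahnSeries.ofPowerSeries ℤ R (PowerSeries.expand 3 three_ne_zero (hsc_sigma R)) := by
    rw [← map_pow, hsc_u_cube]
  have e2 : (HahnSeries.single (-1 : ℤ) (1 : R)) ^ 3 = HahnSeries.single (-3 : ℤ) 1 := by
    rw [HahnSeries.single_pow]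
    simp
  have e3 : ((3 : ℕ) : ℤ) * (-1) = -3 := by norm_num
  rw [hsc_mu_eq, mul_pow, e1, e2, hsc_stilde, map_mul, qExpand_single,
    Fermat.Agent.S28x.pc_qExpand_ofPowerSeries, e3]

/-- **the Hesse identity**: `μ³ (μ³ + 216)³ = j(q³) (μ³ - 27)³`. -/
theorem hsc_mu_identity (h3 : IsUnit (3 : R)) :
    hsc_mu h3 ^ 3 * (hsc_mu h3 ^ 3 + 216) ^ 3
      = qExpand R 3 (jqModC R) * (hsc_mu h3 ^ 3 - 27) ^ 3 := by
  have h := congrArg (qExpand R 3) (hsc_stilde_identity R)
  simp only [map_mul, map_pow, map_add, map_sub, map_ofNat] at h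
  rw [hsc_mu_cube]
  exact h

/-- functoriality of `μ`. -/
theorem hsc_mu_map {R' : Type*} [CommRing R'] (φ : R →+* R') (h3 : IsUnit (3 : R))
    (h3' : IsUnit (3 : R')) : coeffMap φ (hsc_mu h3) = hsc_mu h3' := by
  rw [hsc_mu_eq, map_mul, coeffMap_single, map_one, coeffMap_ofPowerSeries, hsc_u_map φ h3 h3',
    hsc_mu_eq]

/-- coefficients of `μ`: `μ_n = u_{n+1}`. -/
theorem hsc_mu_coeff (h3 : IsUnit (3 : R)) (n : ℤ) :
    (hsc_mu h3).coeff n = (HahnSeries.ofPowerSeries ℤ R (hsc_u h3)).coeff (n + 1) := by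
  rw [hsc_mu_eq]
  have : n = (n + 1) + (-1 : ℤ) := by ring
  conv_lhs => rw [this]
  rw [HahnSeries.coeff_single_mul_add, one_mul]

/-- PARITY for `μ` (coefficient form of the twist law `μ(ζ q) = ζ⁻¹ μ(q)`, `ζ³ = 1`):
`μ ∈ q⁻¹ R((q³))`. -/
theorem hsc_mu_coeff_of_not (h3 : IsUnit (3 : R)) {n : ℤ} (hn : ¬ (3 : ℤ) ∣ n + 1) :
    (hsc_mu h3).coeff n = 0 := by
  rw [hsc_mu_coeff]
  rcases le_or_gt 0 (n + 1) with h | h
  · obtain ⟨m, hm⟩ := Int.eq_ofNat_of_zero_le h
    rw [hm, HahnSeries.ofPowerSeries_apply_coeff]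
    refine hsc_coeff_u_of_not_dvd h3 ?_
    intro hdvd
    exact hn (by rw [hm]; exact_mod_cast hdvd)
  · exact ofPowerSeries_coeff_of_neg _ h

/-- leading coefficient of `μ`: `μ = q⁻¹ + …`. -/
theorem hsc_mu_coeff_neg_one (h3 : IsUnit (3 : R)) : (hsc_mu h3).coeff (-1) = 1 := by
  rw [hsc_mu_coeff]
  have : ((-1 : ℤ) + 1) = ((0 : ℕ) : ℤ) := by norm_num
  rw [this, HahnSeries.ofPowerSeries_apply_coeff, PowerSeries.coeff_zero_eq_constantCoeff_apply,
    hsc_constantCoeff_u]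

theorem hsc_mu_coeff_of_lt (h3 : IsUnit (3 : R)) {n : ℤ} (hn : n < -1) :
    (hsc_mu h3).coeff n = 0 := by
  rw [hsc_mu_coeff]
  exact ofPowerSeries_coeff_of_neg _ (by omega)

end Mu

end Fermat.Agent.S18x
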