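/-
S18 project, NRM block, rows N5 / N5t (helper18, prefix `lyga_`): ABSTRACT field theory behind the
level-`Y` instantiation (generic twin of helper72's `LyhInst.lean`).

Setting: fields `K ⊆ E ⊆ L` (`E → L` ANY `K`-algebra structure, e.g. the twist `q ↦ q^e`), an
element `h : L` with `L = K(E, h)`, and an identity `J · B(h) = A(h)` with `J ∈ E`, `A, B ∈ K[X]`.

* `lyga_gen` : `h` algebraic over `E` ⟹ every `f : L` is `aeval h Q`, `Q ∈ E[X]`;
* `lyga_isAlgebraic_h` : `deg B < deg A` ⟹ `h` algebraic over `E`;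
* `lyga_aeval_ne_zero`, `lyga_J_mem`, `lyga_transcendental_h` : `A`, `B` coprime, `J`
  transcendental over `K` ⟹ `B(h) ≠ 0`, `J ∈ K(h)`, `h` transcendental over `K`;
* `lyga_finiteDimensional`, `lyga_isCoordinate` : `J` a coordinate of `E/K` ⟹ `h` a coordinate
  of `L/K`; `lyga_isAlgebraic` : `L/E` algebraic.
-/
import Mathlib
import Fermat.Agent.S24x.AlgDefs

set_option autoImplicit false
set_option linter.style.haveILetI false
set_option linter.unusedSectionVars false

namespace Fermat.Agent.S18x

open IntermediateField Polynomial Fermat.Agent.S24x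

section Abstract

variable {K E L : Type*} [Field K] [Field E] [Field L] [Algebra K E] [Algebra K L] [Algebra E L]
  [IsScalarTower K E L]

/-- `L = K(E, h)` and `h` algebraic over `E` ⟹ `L = E[h]`. -/
theorem lyga_gen (h : L)
    (htop : IntermediateField.adjoin K (Set.range (algebraMap E L) ∪ {h}) = ⊤)
    (halg : IsAlgebraic E h) : ∀ f : L, ∃ Q : E[X], f = aeval h Q := by
  intro f
  have hle : IntermediateField.adjoin K (Set.range (algebraMap E L) ∪ {h}) ≤
      (E⟮h⟯).restrictScalars K := by
    rw [IntermediateField.adjoin_le_iff]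
    rintro x (⟨y, rfl⟩ | hx)
    · exact (E⟮h⟯).algebraMap_mem y
    · have hx' : x = h := hx
      subst hx'
      exact IntermediateField.mem_adjoin_simple_self E x
  have h1 : f ∈ (E⟮h⟯).restrictScalars K := hle (by rw [htop]; exact IntermediateField.mem_top)
  have h2 : f ∈ E⟮h⟯.toSubalgebra := h1
  rw [IntermediateField.adjoin_simple_toSubalgebra_of_isAlgebraic halg,
    Algebra.adjoin_singleton_eq_range_aeval] at h2
  obtain ⟨Q, hQ⟩ := h2
  exact ⟨Q, hQ.symm⟩

/-- `h` is algebraic over `E` as soon as `J B(h) = A(h)` with `deg B < deg A`. -/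
theorem lyga_isAlgebraic_h (J : E) (h : L) (A B : K[X])
    (hid : algebraMap E L J * aeval h B = aeval h A)
    (hdeg : B.natDegree < A.natDegree) : IsAlgebraic E h := by
  refine ⟨C J * B.map (algebraMap K E) - A.map (algebraMap K E), ?_, ?_⟩
  · intro h0
    have h1 := congrArg (fun p => p.coeff A.natDegree) h0
    simp only [coeff_sub, coeff_C_mul, coeff_map, coeff_zero] at h1
    rw [coeff_eq_zero_of_natDegree_lt hdeg, map_zero, mul_zero, zero_sub, neg_eq_zero,
      map_eq_zero] at h1
    have hA0 : A ≠ 0 := by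
      intro hA
      rw [hA, natDegree_zero] at hdeg
      exact Nat.not_lt_zero _ hdeg
    exact hA0 (leadingCoeff_eq_zero.mp h1)
  · rw [map_sub, map_mul, aeval_C, aeval_map_algebraMap, aeval_map_algebraMap, hid, sub_self]

/-- `B(h) ≠ 0` if `A`, `B` are coprime. -/
theorem lyga_aeval_ne_zero (J : E) (h : L) (A B : K[X])
    (hid : algebraMap E L J * aeval h B = aeval h A)
    (hcop : IsCoprime A B) : aeval h B ≠ 0 := by
  intro hB
  have hA : aeval h A = 0 := by rw [← hid, hB, mul_zero]
  obtain ⟨u, v, huv⟩ := hcop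
  have h1 := congrArg (aeval h) huv
  rw [map_add, map_mul, map_mul, hA, hB, mul_zero, mul_zero, add_zero, map_one] at h1
  exact zero_ne_one h1

theorem lyga_aeval_mem (h : L) (P : K[X]) : aeval h P ∈ K⟮h⟯ := by
  have : aeval h P ∈ Algebra.adjoin K {h} := by
    rw [Algebra.adjoin_singleton_eq_range_aeval]
    exact ⟨P, rfl⟩
  exact IntermediateField.algebra_adjoin_le_adjoin K _ this

/-- `J ∈ K(h)`. -/
theorem lyga_J_mem (J : E) (h : L) (A B : K[X])
    (hid : algebraMap E L J * aeval h B = aeval h A)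
    (hcop : IsCoprime A B) : algebraMap E L J ∈ K⟮h⟯ := by
  have hB := lyga_aeval_ne_zero J h A B hid hcop
  have h1 : algebraMap E L J = aeval h A * (aeval h B)⁻¹ := by
    rw [← hid, mul_assoc, mul_inv_cancel₀ hB, mul_one]
  rw [h1]
  exact mul_mem (lyga_aeval_mem h A) (inv_mem (lyga_aeval_mem h B))

/-- `h` is transcendental over `K`. -/
theorem lyga_transcendental_h (J : E) (hJ : Transcendental K J) (h : L) (A B : K[X])
    (hid : algebraMap E L J * aeval h B = aeval h A)
    (hcop : IsCoprime A B) : Transcendental K h := by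
  intro halg
  apply hJ
  haveI : Algebra.IsAlgebraic K K⟮h⟯ :=
    IntermediateField.isAlgebraic_adjoin_simple halg.isIntegral
  have h1 : IsAlgebraic K (⟨algebraMap E L J, lyga_J_mem J h A B hid hcop⟩ : K⟮h⟯) :=
    Algebra.IsAlgebraic.isAlgebraic _
  have h2 : IsAlgebraic K (algebraMap E L J) := h1.algHom (K⟮h⟯.val)
  exact (isAlgebraic_algHom_iff (IsScalarTower.toAlgHom K E L)
    (algebraMap E L).injective).mp h2

end Abstract

section Finite

variable {K E L : Type*} [Field K] [Field E] [Field L] [Algebra K E] [Algebra K L] [Algebra E L]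
  [IsScalarTower K E L]

/-- `L = K(E, h)` is finite over `K(h)` as soon as `E` is finite over `K(J)` and `J ∈ K(h)`. -/
theorem lyga_finiteDimensional_of_mem (J : E) [FiniteDimensional K⟮J⟯ E] (h : L)
    (htop : IntermediateField.adjoin K (Set.range (algebraMap E L) ∪ {h}) = ⊤)
    (hJm : algebraMap E L J ∈ K⟮h⟯) : FiniteDimensional K⟮h⟯ L := by
  classical
  -- the image of `K(J)` lies in `K(h)`
  have hle : K⟮J⟯ ≤ (K⟮h⟯).comap (IsScalarTower.toAlgHom K E L) := by
    rw [IntermediateField.adjoin_simple_le_iff]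
    exact hJm
  have hsub : ∀ c : K⟮J⟯, ((algebraMap E L).comp (algebraMap K⟮J⟯ E)) c ∈ K⟮h⟯ := by
    intro c
    exact hle c.2
  let φ : K⟮J⟯ →+* K⟮h⟯ := ((algebraMap E L).comp (algebraMap K⟮J⟯ E)).codRestrict K⟮h⟯ hsub
  have hφ : (algebraMap K⟮h⟯ L).comp φ = (algebraMap E L).comp (algebraMap K⟮J⟯ E) := rfl
  -- finite generating set of `E / K(J)`
  obtain ⟨S, hS⟩ := IntermediateField.fg_of_noetherian (⊤ : IntermediateField K⟮J⟯ E)
  set T : Set L := algebraMap E L '' (S : Set E) with hT
  haveI : Finite T := Set.Finite.image _ S.finite_toSet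
  have hint : ∀ x ∈ T, IsIntegral K⟮h⟯ x := by
    rintro _ ⟨s, -, rfl⟩
    have hs : IsIntegral K⟮J⟯ s := Algebra.IsIntegral.isIntegral s
    exact IsIntegral.map_of_comp_eq φ (algebraMap E L) hφ hs
  haveI hfin : FiniteDimensional K⟮h⟯ (IntermediateField.adjoin K⟮h⟯ T) :=
    IntermediateField.finiteDimensional_adjoin hint
  -- `adjoin K(h) T = ⊤`
  have hEtop : IntermediateField.adjoin K ({J} ∪ (S : Set E)) = ⊤ := by
    rw [← IntermediateField.adjoin_adjoin_left, hS, IntermediateField.restrictScalars_top]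
  have hC : ∀ y : E, algebraMap E L y ∈ IntermediateField.adjoin K⟮h⟯ T := by
    intro y
    have hle2 : IntermediateField.adjoin K ({J} ∪ (S : Set E)) ≤
        ((IntermediateField.adjoin K⟮h⟯ T).restrictScalars K).comap
          (IsScalarTower.toAlgHom K E L) := by
      rw [IntermediateField.adjoin_le_iff]
      rintro x (hx | hx)
      · have hx' : x = J := hx
        subst hx'
        show algebraMap E L x ∈ IntermediateField.adjoin K⟮h⟯ T
        exact (IntermediateField.adjoin K⟮h⟯ T).algebraMap_mem ⟨_, hJm⟩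
      · show algebraMap E L x ∈ IntermediateField.adjoin K⟮h⟯ T
        exact IntermediateField.subset_adjoin _ _ ⟨x, hx, rfl⟩
    have : y ∈ IntermediateField.adjoin K ({J} ∪ (S : Set E)) := by
      rw [hEtop]; exact IntermediateField.mem_top
    exact hle2 this
  have hM : IntermediateField.adjoin K⟮h⟯ T = ⊤ := by
    rw [eq_top_iff]
    intro f _
    have hle3 : IntermediateField.adjoin K (Set.range (algebraMap E L) ∪ {h}) ≤
        (IntermediateField.adjoin K⟮h⟯ T).restrictScalars K := by
      rw [IntermediateField.adjoin_le_iff]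
      rintro x (⟨y, rfl⟩ | hx)
      · exact hC y
      · have hx' : x = h := hx
        subst hx'
        exact (IntermediateField.adjoin K⟮x⟯ T).algebraMap_mem
          ⟨x, IntermediateField.mem_adjoin_simple_self K x⟩
    exact hle3 (by rw [htop]; exact IntermediateField.mem_top)
  rw [hM] at hfin
  exact LinearEquiv.finiteDimensional
    (IntermediateField.topEquiv (F := K⟮h⟯) (E := L)).toLinearEquiv

/-- `h` is a coordinate of `L/K` as soon as `J` is one of `E/K`. -/
theorem lyga_isCoordinate (J : E) (hJ : IsCoordinate K E J) (h : L)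
    (htop : IntermediateField.adjoin K (Set.range (algebraMap E L) ∪ {h}) = ⊤)
    (A B : K[X]) (hid : algebraMap E L J * aeval h B = aeval h A)
    (hcop : IsCoprime A B) : IsCoordinate K L h := by
  haveI := hJ.finite
  exact ⟨lyga_transcendental_h J hJ.transcendental h A B hid hcop,
    lyga_finiteDimensional_of_mem J h htop (lyga_J_mem J h A B hid hcop)⟩

/-- `L / E` is algebraic. -/
theorem lyga_isAlgebraic (J : E) (h : L)
    (htop : IntermediateField.adjoin K (Set.range (algebraMap E L) ∪ {h}) = ⊤)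
    (A B : K[X]) (hid : algebraMap E L J * aeval h B = aeval h A)
    (hdeg : B.natDegree < A.natDegree) : Algebra.IsAlgebraic E L := by
  have halg := lyga_isAlgebraic_h J h A B hid hdeg
  haveI : Algebra.IsAlgebraic E E⟮h⟯ :=
    IntermediateField.isAlgebraic_adjoin_simple halg.isIntegral
  refine ⟨fun f => ?_⟩
  obtain ⟨Q, rfl⟩ := lyga_gen h htop halg f
  have h1 : aeval h Q ∈ E⟮h⟯ := by
    have : aeval h Q ∈ Algebra.adjoin E {h} := by
      rw [Algebra.adjoin_singleton_eq_range_aeval]
      exact ⟨Q, rfl⟩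
    exact IntermediateField.algebra_adjoin_le_adjoin E _ this
  have h2 : IsAlgebraic E (⟨aeval h Q, h1⟩ : E⟮h⟯) := Algebra.IsAlgebraic.isAlgebraic _
  exact h2.algHom (E⟮h⟯.val)

end Finite

end Fermat.Agent.S18x
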