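/-
S18 project, NRM block, rows N5 / N5t (helper18, prefix `lyg_`): GENERIC level-`Y` field over an
arbitrary constant field `k`, generic twin of helper72's `LyhInst.lean`.

For a field `k`, a subfield `F ⊆ k((q))` (over `k`), a twist `e ≥ 1` and a coordinate
`h ∈ k((q))`:

* `lyg_L k F e h = k(F(q^e), h) ⊆ k((q))`, with its element `lyg_h`;
* `lyg_twist : F →ₐ[k] lyg_L`, `f ↦ f(q^e)`; `lyg_algebra` (a `def`, NOT an instance),
  `lyg_isScalarTower`;
* `lyg_gen` : if `h` is algebraic over `F(q^e)` then `lyg_L = F(q^e)[h]`;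
* `lyg_isAlgebraic_of_identity`, `lyg_isCoordinate` : from an identity
  `J(q^e) · B(h) = A(h)` with `A, B ∈ k[X]`, `B.natDegree < A.natDegree`, `J` a coordinate of `F`.
-/
import Mathlib
import Fermat.Prelude.Def_ModularCurve_X0ModL
import Fermat.Agent.S24x.AlgDefs
import Fermat.Agent.S18x.LygAbs

set_option autoImplicit false
set_option linter.style.haveILetI false
set_option warn.classDefReducibility false

noncomputable section

namespace Fermat.Agent.S18x

open ModularCurve IntermediateField Polynomial Fermat.Agent.S24x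

section Defs

variable (k : Type*) [Field k] (F : IntermediateField k (LaurentSeries k)) (e : ℕ) [NeZero e]
  (h : LaurentSeries k)

/-- the level-`Y` field `k(F(q^e), h) ⊆ k((q))`. -/
def lyg_L : IntermediateField k (LaurentSeries k) :=
  IntermediateField.adjoin k
    ((fun x => qExpand k e x) '' (F : Set (LaurentSeries k)) ∪ {h})

theorem lyg_h_mem : h ∈ lyg_L k F e h :=
  IntermediateField.subset_adjoin _ _ (Or.inr rfl)

/-- the coordinate `h` as an element of `lyg_L`. -/
def lyg_h : lyg_L k F e h := ⟨h, lyg_h_mem k F e h⟩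

theorem lyg_coe_h : ((lyg_h k F e h : lyg_L k F e h) : LaurentSeries k) = h := rfl

theorem lyg_twist_mem (x : F) : qExpand k e (x : LaurentSeries k) ∈ lyg_L k F e h :=
  IntermediateField.subset_adjoin _ _ (Or.inl ⟨x, x.2, rfl⟩)

/-- the twist `q ↦ q^e` as a `k`-algebra hom `F → lyg_L`. -/
def lyg_twist : F →ₐ[k] lyg_L k F e h :=
  ((qExpandAlgHomC k e).comp F.val).codRestrict (lyg_L k F e h).toSubalgebra
    (fun x => lyg_twist_mem k F e h x)

theorem lyg_coe_twist (x : F) :
    ((lyg_twist k F e h x : lyg_L k F e h) : LaurentSeries k) =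
      qExpand k e (x : LaurentSeries k) := rfl

theorem lyg_twist_injective : Function.Injective (lyg_twist k F e h) :=
  (lyg_twist k F e h).toRingHom.injective

/-- the `F`-algebra structure on `lyg_L` given by the twist (NOT an instance; use `letI`). -/
def lyg_algebra : Algebra F (lyg_L k F e h) := (lyg_twist k F e h).toRingHom.toAlgebra

theorem lyg_algebraMap_apply (x : F) :
    letI := lyg_algebra k F e h
    algebraMap F (lyg_L k F e h) x = lyg_twist k F e h x := rfl

theorem lyg_isScalarTower :
    letI := lyg_algebra k F e h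
    IsScalarTower k F (lyg_L k F e h) := by
  letI := lyg_algebra k F e h
  refine IsScalarTower.of_algebraMap_eq fun r => ?_
  rw [lyg_algebraMap_apply]
  exact ((lyg_twist k F e h).commutes r).symm

/-- `lyg_L = k(F(q^e), h)`, in the form consumed by `lyga_*`. -/
theorem lyg_adjoin_eq_top :
    letI := lyg_algebra k F e h
    IntermediateField.adjoin k
      (Set.range (algebraMap F (lyg_L k F e h)) ∪ {lyg_h k F e h}) = ⊤ := by
  letI := lyg_algebra k F e h
  haveI := lyg_isScalarTower k F e h
  set M : IntermediateField k (lyg_L k F e h) := IntermediateField.adjoin k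
      (Set.range (algebraMap F (lyg_L k F e h)) ∪ {lyg_h k F e h}) with hM
  have hmem : ∀ (x : LaurentSeries k), x ∈ lyg_L k F e h →
      ∃ z : lyg_L k F e h, z ∈ M ∧ (z : LaurentSeries k) = x := by
    intro x hx
    induction hx using IntermediateField.adjoin_induction with
    | mem x hx =>
      rcases hx with ⟨y, hy, rfl⟩ | hx
      · exact ⟨algebraMap F (lyg_L k F e h) ⟨y, hy⟩,
          IntermediateField.subset_adjoin _ _ (Or.inl ⟨⟨y, hy⟩, rfl⟩), rfl⟩
      · have hx' : x = h := hx
        subst hx'
        exact ⟨lyg_h k F e x, IntermediateField.subset_adjoin _ _ (Or.inr rfl), rfl⟩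
    | algebraMap r =>
      exact ⟨algebraMap k (lyg_L k F e h) r, M.algebraMap_mem r, rfl⟩
    | add x y hx hy ihx ihy =>
      obtain ⟨zx, hzx, rfl⟩ := ihx
      obtain ⟨zy, hzy, rfl⟩ := ihy
      exact ⟨zx + zy, add_mem hzx hzy, by push_cast; rfl⟩
    | inv x hx ihx =>
      obtain ⟨zx, hzx, rfl⟩ := ihx
      exact ⟨zx⁻¹, inv_mem hzx, by push_cast; rfl⟩
    | mul x y hx hy ihx ihy =>
      obtain ⟨zx, hzx, rfl⟩ := ihx
      obtain ⟨zy, hzy, rfl⟩ := ihy
      exact ⟨zx * zy, mul_mem hzx hzy, by push_cast; rfl⟩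
  rw [eq_top_iff]
  intro f _
  obtain ⟨z, hz, hzf⟩ := hmem f.1 f.2
  have : z = f := Subtype.ext hzf
  rw [← this]; exact hz

end Defs

section Identity

variable {k : Type*} [Field k] {F : IntermediateField k (LaurentSeries k)} {e : ℕ} [NeZero e]
  {h : LaurentSeries k}

/-- the identity `J(q^e) B(h) = A(h)` inside `lyg_L` from the identity in `k((q))`. -/
theorem lyg_identity (J : F) (A B : k[X])
    (hid : qExpand k e (J : LaurentSeries k) * aeval h B = aeval h A) :
    letI := lyg_algebra k F e h
    algebraMap F (lyg_L k F e h) J * aeval (lyg_h k F e h) B = aeval (lyg_h k F e h) A := by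
  letI := lyg_algebra k F e h
  apply Subtype.ext
  have hA : ∀ P : k[X], ((aeval (lyg_h k F e h) P : lyg_L k F e h) : LaurentSeries k)
      = aeval h P := by
    intro P
    have := (aeval_algebraMap_apply (LaurentSeries k) (lyg_h k F e h) P).symm
    exact this
  rw [MulMemClass.coe_mul, hA, hA, ← hid]
  rfl

variable (J : F) (A B : k[X])
  (hid : qExpand k e (J : LaurentSeries k) * aeval h B = aeval h A)

include hid in
/-- `lyg_L = F(q^e)[h]`. -/
theorem lyg_gen (hdeg : B.natDegree < A.natDegree) :
    letI := lyg_algebra k F e h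
    ∀ f : lyg_L k F e h, ∃ Q : F[X], f = aeval (lyg_h k F e h) Q := by
  letI := lyg_algebra k F e h
  haveI := lyg_isScalarTower k F e h
  exact lyga_gen (lyg_h k F e h) (lyg_adjoin_eq_top k F e h)
    (lyga_isAlgebraic_h J (lyg_h k F e h) A B (lyg_identity J A B hid) hdeg)

include hid in
/-- `lyg_L / F(q^e)` is algebraic. -/
theorem lyg_isAlgebraic (hdeg : B.natDegree < A.natDegree) :
    letI := lyg_algebra k F e h
    Algebra.IsAlgebraic F (lyg_L k F e h) := by
  letI := lyg_algebra k F e h
  haveI := lyg_isScalarTower k F e h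
  exact lyga_isAlgebraic J (lyg_h k F e h) (lyg_adjoin_eq_top k F e h) A B
    (lyg_identity J A B hid) hdeg

include hid in
/-- `h` is a coordinate of `lyg_L / k`. -/
theorem lyg_isCoordinate (hJ : IsCoordinate k F J) (hcop : IsCoprime A B) :
    IsCoordinate k (lyg_L k F e h) (lyg_h k F e h) := by
  letI := lyg_algebra k F e h
  haveI := lyg_isScalarTower k F e h
  exact lyga_isCoordinate J hJ (lyg_h k F e h) (lyg_adjoin_eq_top k F e h) A B
    (lyg_identity J A B hid) hcop

end Identity

end Fermat.Agent.S18x
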