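/-
S18 project, NRM block, rows N5 / N5t (helper18, prefix `lygr_`): the generic level-`Y` field
`lyg_L` (LygInst.lean) versus helper28's `purb_LY` (LevelYDefs.lean), and compatibility with
coefficientwise extension of scalars `coeffEmb`.

* `lygr_L_eq_sup` : `lyg_L k F e h = F.map (q ↦ q^e) ⊔ k(h)`;
* `lygr_L_eq_purb_LY` : over `ℚ`, `lyg_L ℚ (modularFunctionFieldFull N) e h = purb_LY e h N`;
* `lygr_coeffEmb_mem` : `coeffEmb L` maps `lyg_L ℚ F₀ e h₀` into
  `lyg_L L (laurentBaseChange L F₀) e (coeffEmb L h₀)`;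
* `lygr_coeffEmb_mem_purb_LY` : the same for `purb_LY e h₀ N` and `modularFunctionFieldBar N`.
-/
import Mathlib
import Fermat.Prelude.Thm_ModularCurve_coeffMap_qExpand
import Fermat.Agent.S18x.LygInst
import Fermat.Agent.S18x.LevelYDefs

set_option autoImplicit false
set_option linter.unusedSectionVars false

namespace Fermat.Agent.S18x

open ModularCurve IntermediateField Polynomial Fermat.Agent.S24x

section Sup

variable (k : Type*) [Field k] (F : IntermediateField k (LaurentSeries k)) (e : ℕ) [NeZero e]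
  (h : LaurentSeries k)

theorem lygr_L_eq_sup :
    lyg_L k F e h = F.map (qExpandAlgHomC k e) ⊔ k⟮h⟯ := by
  have h1 : F.map (qExpandAlgHomC k e) =
      IntermediateField.adjoin k ((fun x => qExpand k e x) '' (F : Set (LaurentSeries k))) := by
    conv_lhs => rw [← IntermediateField.adjoin_self k F]
    rw [IntermediateField.adjoin_map]
    rfl
  rw [lyg_L, IntermediateField.adjoin_union, h1]

end Sup

section Rat

variable (e : ℕ) [NeZero e] (h : LaurentSeries ℚ) (N : ℕ) [NeZero N]

theorem lygr_L_eq_purb_LY :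
    lyg_L ℚ (modularFunctionFieldFull N) e h = purb_LY e h N := by
  rw [lygr_L_eq_sup]
  rfl

end Rat

section CoeffEmb

variable (L : Type*) [Field L] [Algebra ℚ L]

theorem lygr_coeffEmb_algebraMap (r : ℚ) :
    coeffEmb L (algebraMap ℚ (LaurentSeries ℚ) r) =
      algebraMap L (LaurentSeries L) (algebraMap ℚ L r) := by
  rw [algebraMap_laurentSeries_eq_single, algebraMap_laurentSeries_eq_single]
  ext n
  rw [coeffEmb_coeff]
  by_cases hn : n = 0
  · subst hn; simp
  · simp [HahnSeries.coeff_single_of_ne hn]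

theorem lygr_coeffEmb_qExpand (e : ℕ) [NeZero e] (x : LaurentSeries ℚ) :
    coeffEmb L (qExpand ℚ e x) = qExpand L e (coeffEmb L x) :=
  ModularCurve.coeffMap_qExpand (algebraMap ℚ L) e x

theorem lygr_coeffEmb_mem (F₀ : IntermediateField ℚ (LaurentSeries ℚ)) (e : ℕ) [NeZero e]
    (h₀ : LaurentSeries ℚ) {x : LaurentSeries ℚ} (hx : x ∈ lyg_L ℚ F₀ e h₀) :
    coeffEmb L x ∈ lyg_L L (laurentBaseChange L F₀) e (coeffEmb L h₀) := by
  induction hx using IntermediateField.adjoin_induction with
  | mem x hx =>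
    rcases hx with ⟨y, hy, rfl⟩ | hx
    · show coeffEmb L (qExpand ℚ e y) ∈ _
      rw [lygr_coeffEmb_qExpand]
      exact lyg_twist_mem L (laurentBaseChange L F₀) e (coeffEmb L h₀)
        ⟨coeffEmb L y, coeffEmb_mem_laurentBaseChange L hy⟩
    · have hx' : x = h₀ := hx
      subst hx'
      exact lyg_h_mem L (laurentBaseChange L F₀) e (coeffEmb L x)
  | algebraMap r =>
    rw [lygr_coeffEmb_algebraMap]
    exact IntermediateField.algebraMap_mem _ _
  | add x y hx hy ihx ihy => rw [map_add]; exact add_mem ihx ihy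
  | inv x hx ihx => rw [map_inv₀]; exact inv_mem ihx
  | mul x y hx hy ihx ihy => rw [map_mul]; exact mul_mem ihx ihy

theorem lygr_coeffEmb_mem_purb_LY (e : ℕ) [NeZero e] (h₀ : LaurentSeries ℚ) (N : ℕ) [NeZero N]
    {x : LaurentSeries ℚ} (hx : x ∈ purb_LY e h₀ N) :
    coeffEmb L x ∈ lyg_L L (laurentBaseChange L (modularFunctionFieldFull N)) e
      (coeffEmb L h₀) := by
  rw [← lygr_L_eq_purb_LY] at hx
  exact lygr_coeffEmb_mem L _ e h₀ hx

end CoeffEmb

end Fermat.Agent.S18x
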