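/-
S18 project, NRM block, row N5t (helper18, prefix `lyi2_`): the `ℓ = 2` twin of helper72's
`LyhInst.lean`: the level-`Y` function field over `Q̄` for the HESSE coordinate `μ`
(`hsc_mu`, HesseCoord.lean), twist `q ↦ q³`:

  `lyi2_LBar N = Q̄(F̄_N(q³), μ) ⊆ Q̄((q))`,   `j(q³) (μ³ - 27)³ = μ³ (μ³ + 216)³`.

Everything is an instance of the generic files `LygAbs/LygInst/LygRat` at
`(k, F, e, h) = (Q̄, modularFunctionFieldBar N, 3, μ)` with `A = lyh2_A`, `B = lyh2_B`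
(HessePoly.lean).

* `lyi2_identity` : `J(q³) · B(μ) = A(μ)` (shape `hid` of `lyh_ord_eq_one_of_data`);
* `lyi2_gen`, `lyi2_isAlgebraic`, `lyi2_isCoordinate`;
* `lyi2_coeffEmb_mu`, `lyi2_coeffEmb_mem` : compatibility with `purb_LY 3 μ_ℚ N`.
-/
import Mathlib
import Fermat.Agent.S24x.FBarFinite
import Fermat.Agent.S18x.HesseCoord
import Fermat.Agent.S18x.HessePoly
import Fermat.Agent.S18x.LygRat

set_option autoImplicit false
set_option linter.style.haveILetI false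
set_option warn.classDefReducibility false

noncomputable section

namespace Fermat.Agent.S18x

open ModularCurve IntermediateField Polynomial Fermat.Agent.S24x

local notation "Qbar" => AlgebraicClosure ℚ

/-! ### Hesse polynomials: coprimality and degrees -/

section Poly

variable (K : Type*) [Field K]

theorem lyi2_isCoprime_A_B (h3 : (3 : K) ≠ 0) : IsCoprime (lyh2_A K) (lyh2_B K) := by
  have h27 : (27 : K) ≠ 0 := by
    have : (27 : K) = 3 ^ 3 := by norm_num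
    rw [this]; exact pow_ne_zero _ h3
  have h243 : (243 : K) ≠ 0 := by
    have : (243 : K) = 3 ^ 5 := by norm_num
    rw [this]; exact pow_ne_zero _ h3
  have c1 : IsCoprime (X ^ 3 : K[X]) (X ^ 3 - 27) := by
    refine ⟨C (27 : K)⁻¹, -C (27 : K)⁻¹, ?_⟩
    have : (C (27 : K)⁻¹ : K[X]) * 27 = 1 := by
      rw [← C_ofNat, ← C_mul, inv_mul_cancel₀ h27, C_1]
    linear_combination this
  have c2 : IsCoprime (X ^ 3 + 216 : K[X]) (X ^ 3 - 27) := by
    refine ⟨C (243 : K)⁻¹, -C (243 : K)⁻¹, ?_⟩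
    have : (C (243 : K)⁻¹ : K[X]) * 243 = 1 := by
      rw [← C_ofNat, ← C_mul, inv_mul_cancel₀ h243, C_1]
    linear_combination this
  rw [lyh2_A, lyh2_B]
  exact (c1.mul_left c2.pow_left).pow_right

theorem lyi2_natDegree_A : (lyh2_A K).natDegree = 12 := by
  have h1 : (X ^ 3 + 216 : K[X]).natDegree = 3 := by
    rw [← C_ofNat]; exact natDegree_X_pow_add_C
  have h1' : (X ^ 3 + 216 : K[X]) ≠ 0 := by
    intro h; rw [h, natDegree_zero] at h1; omega
  rw [lyh2_A, natDegree_mul (pow_ne_zero _ X_ne_zero) (pow_ne_zero _ h1'), natDegree_pow,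
    natDegree_pow, natDegree_X, h1]

theorem lyi2_natDegree_B : (lyh2_B K).natDegree = 9 := by
  have h1 : (X ^ 3 - 27 : K[X]).natDegree = 3 := by
    rw [← C_ofNat]; exact natDegree_X_pow_sub_C
  rw [lyh2_B, natDegree_pow, h1]

theorem lyi2_natDegree_B_lt : (lyh2_B K).natDegree < (lyh2_A K).natDegree := by
  rw [lyi2_natDegree_A, lyi2_natDegree_B]; norm_num

theorem lyi2_aeval_A {S : Type*} [CommRing S] [Algebra K S] (x : S) :
    aeval x (lyh2_A K) = x ^ 3 * (x ^ 3 + 216) ^ 3 := by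
  simp only [lyh2_A, map_mul, map_pow, map_add, aeval_X, map_ofNat]

theorem lyi2_aeval_B {S : Type*} [CommRing S] [Algebra K S] (x : S) :
    aeval x (lyh2_B K) = (x ^ 3 - 27) ^ 3 := by
  simp only [lyh2_B, map_pow, map_sub, aeval_X, map_ofNat]

end Poly

/-! ### the Hesse coordinate over a characteristic-zero field -/

theorem lyi2_isUnit_three (k : Type*) [Field k] [CharZero k] : IsUnit (3 : k) :=
  isUnit_iff_ne_zero.mpr three_ne_zero

/-- the Hesse coordinate `μ` over a char-0 field. -/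
def lyi2_mus (k : Type*) [Field k] [CharZero k] : LaurentSeries k :=
  hsc_mu (lyi2_isUnit_three k)

/-- `coeffEmb` maps `μ` over `ℚ` to `μ` over `L`. -/
theorem lyi2_coeffEmb_mus (L : Type*) [Field L] [CharZero L] :
    coeffEmb L (lyi2_mus ℚ) = lyi2_mus L :=
  hsc_mu_map (algebraMap ℚ L) (lyi2_isUnit_three ℚ) (lyi2_isUnit_three L)

/-- the Hesse identity in polynomial form, over any char-0 field. -/
theorem lyi2_identity_series (k : Type*) [Field k] [CharZero k] :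
    qExpand k 3 (jqModC k) * aeval (lyi2_mus k) (lyh2_B k) = aeval (lyi2_mus k) (lyh2_A k) := by
  rw [lyi2_aeval_A, lyi2_aeval_B]
  exact (hsc_mu_identity (lyi2_isUnit_three k)).symm

/-! ### the level-`Y` field over `Q̄` -/

/-- level-`Y` function field over `Q̄` for the Hesse coordinate: `Q̄(F̄_N(q³), μ)`. -/
def lyi2_LBar (N : ℕ) : IntermediateField Qbar (LaurentSeries Qbar) :=
  lyg_L Qbar (modularFunctionFieldBar N) 3 (lyi2_mus Qbar)

/-- `μ` as an element of `lyi2_LBar N`. -/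
def lyi2_mu (N : ℕ) : lyi2_LBar N := lyg_h Qbar (modularFunctionFieldBar N) 3 (lyi2_mus Qbar)

theorem lyi2_coe_mu (N : ℕ) : ((lyi2_mu N : lyi2_LBar N) : LaurentSeries Qbar) = lyi2_mus Qbar :=
  rfl

/-- the twist `q ↦ q³` as a `Q̄`-algebra hom `F̄_N → lyi2_LBar N`. -/
def lyi2_twist (N : ℕ) : FBar N →ₐ[Qbar] lyi2_LBar N :=
  lyg_twist Qbar (modularFunctionFieldBar N) 3 (lyi2_mus Qbar)

theorem lyi2_coe_twist (N : ℕ) (x : FBar N) :
    ((lyi2_twist N x : lyi2_LBar N) : LaurentSeries Qbar) =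
      qExpand Qbar 3 (x : LaurentSeries Qbar) := rfl

theorem lyi2_twist_injective (N : ℕ) : Function.Injective (lyi2_twist N) :=
  (lyi2_twist N).toRingHom.injective

/-- the `F̄_N`-algebra structure on `lyi2_LBar N` (NOT an instance; use `letI`). -/
def lyi2_algebra (N : ℕ) : Algebra (FBar N) (lyi2_LBar N) :=
  lyg_algebra Qbar (modularFunctionFieldBar N) 3 (lyi2_mus Qbar)

theorem lyi2_algebraMap_apply (N : ℕ) (x : FBar N) :
    letI := lyi2_algebra N
    algebraMap (FBar N) (lyi2_LBar N) x = lyi2_twist N x := rfl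

theorem lyi2_isScalarTower (N : ℕ) :
    letI := lyi2_algebra N
    IsScalarTower Qbar (FBar N) (lyi2_LBar N) :=
  lyg_isScalarTower Qbar (modularFunctionFieldBar N) 3 (lyi2_mus Qbar)

theorem lyi2_coeffEmb_jq : coeffEmb Qbar jq = jqModC Qbar := by
  rw [← jqModC_rat, coeffEmb, coeffMap_jqModC]

/-- the Hesse identity in `Q̄((q))`, with `J = jBar N`. -/
theorem lyi2_identity_jBar (N : ℕ) :
    qExpand Qbar 3 ((jBar N : FBar N) : LaurentSeries Qbar) *
        aeval (lyi2_mus Qbar) (lyh2_B Qbar) = aeval (lyi2_mus Qbar) (lyh2_A Qbar) := by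
  rw [coe_jBar, lyi2_coeffEmb_jq]
  exact lyi2_identity_series Qbar

/-- `j(q³) · B(μ) = A(μ)` in `lyi2_LBar N` (shape `hid` of `lyh_ord_eq_one_of_data`). -/
theorem lyi2_identity (N : ℕ) :
    letI := lyi2_algebra N
    algebraMap (FBar N) (lyi2_LBar N) (jBar N) * aeval (lyi2_mu N) (lyh2_B Qbar) =
      aeval (lyi2_mu N) (lyh2_A Qbar) :=
  lyg_identity (jBar N) (lyh2_A Qbar) (lyh2_B Qbar) (lyi2_identity_jBar N)

/-- `j(q³) (μ³ - 27)³ = μ³ (μ³ + 216)³` in `lyi2_LBar N`. -/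
theorem lyi2_identity' (N : ℕ) :
    lyi2_twist N (jBar N) * ((lyi2_mu N) ^ 3 - 27) ^ 3 =
      (lyi2_mu N) ^ 3 * ((lyi2_mu N) ^ 3 + 216) ^ 3 := by
  have h := lyi2_identity N
  rw [lyi2_aeval_A, lyi2_aeval_B] at h
  exact h

/-- `lyi2_LBar N = F̄_N(q³)[μ]`. -/
theorem lyi2_gen (N : ℕ) :
    letI := lyi2_algebra N
    ∀ f : lyi2_LBar N, ∃ Q : (FBar N)[X], f = aeval (lyi2_mu N) Q :=
  lyg_gen (jBar N) (lyh2_A Qbar) (lyh2_B Qbar) (lyi2_identity_jBar N) (lyi2_natDegree_B_lt Qbar)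

theorem lyi2_isAlgebraic (N : ℕ) :
    letI := lyi2_algebra N
    Algebra.IsAlgebraic (FBar N) (lyi2_LBar N) :=
  lyg_isAlgebraic (jBar N) (lyh2_A Qbar) (lyh2_B Qbar) (lyi2_identity_jBar N)
    (lyi2_natDegree_B_lt Qbar)

/-- `μ` is a coordinate of `lyi2_LBar N / Q̄`. -/
theorem lyi2_isCoordinate (N : ℕ) [NeZero N] : IsCoordinate Qbar (lyi2_LBar N) (lyi2_mu N) :=
  lyg_isCoordinate (jBar N) (lyh2_A Qbar) (lyh2_B Qbar) (lyi2_identity_jBar N)
    (fbf_isCoordinate_jBar N) (lyi2_isCoprime_A_B Qbar three_ne_zero)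

/-! ### compatibility with the rational level-`Y` field -/

theorem lyi2_coeffEmb_mu : coeffEmb Qbar (lyi2_mus ℚ) = lyi2_mus Qbar :=
  lyi2_coeffEmb_mus Qbar

/-- `coeffEmb` maps `F_Y = purb_LY 3 μ N` (over `ℚ`) into `lyi2_LBar N`. -/
theorem lyi2_coeffEmb_mem (N : ℕ) [NeZero N] (x : LaurentSeries ℚ)
    (hx : x ∈ purb_LY 3 (lyi2_mus ℚ) N) : coeffEmb Qbar x ∈ lyi2_LBar N := by
  have h := lygr_coeffEmb_mem_purb_LY Qbar 3 (lyi2_mus ℚ) N hx
  rw [lyi2_coeffEmb_mu] at h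
  exact h

end Fermat.Agent.S18x
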