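import Mathlib
import Fermat.Agent.S18x.LevelYHoriz
import Fermat.Agent.S18x.HessePoly
import Fermat.Agent.S18x.LyhInst2

/-!
# S18x / N5t (H) for `ℓ = 2` (helper18): char-0 unramifiedness of the Hesse level-`Y` field off the
cusps

`lyh2_ord_eq_one_levelN`: for ANY field `L` over `Q̄` which is an algebraic extension
`L = F̄_N[h]` of (a copy of) `F̄_N` with `j · (h³ - 27)³ = h³ (h³ + 216)³` (Hesse coordinate
`h = μ`), every place `P` of `L/Q̄` and every `a` with `a³ ≠ 27`:
`ord_P (h - a) > 0 → ord_P (h - a) = 1`.   (Twin of helper33's `lyh_ord_eq_one_levelN`.)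

`lyh2_ord_eq_one_levelY`: the same for the concrete package `lyi2_LBar N`, `lyi2_mu N`
(twist `q ↦ q³`) of `LyhInst2.lean`.
-/

set_option autoImplicit false
set_option linter.style.haveILetI false

namespace Fermat.Agent.S18x

open AlgebraicCurve Polynomial Fermat.Agent.S24x ModularCurve

local notation "Qbar" => AlgebraicClosure ℚ

section LevelN

variable (N : ℕ) [NeZero N]

/-- **(H), place form, level `N`, Hesse coordinate**, for any instance package `(L, h)`. -/
theorem lyh2_ord_eq_one_levelN {L : Type*} [Field L] [Algebra Qbar L] [Algebra (FBar N) L]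
    [IsScalarTower Qbar (FBar N) L] [Algebra.IsAlgebraic (FBar N) L]
    (h : L) (hgen : ∀ f : L, ∃ Q : (FBar N)[X], f = aeval h Q)
    (hid : algebraMap (FBar N) L (jBar N) * aeval h (lyh2_B Qbar) = aeval h (lyh2_A Qbar))
    (P : Place Qbar L) (a : Qbar) (ha : a ^ 3 ≠ 27)
    (hpos : 0 < P.ord (h - algebraMap Qbar L a)) :
    P.ord (h - algebraMap Qbar L a) = 1 := by
  have h2 : (2 : Qbar) ≠ 0 := by norm_num
  have h3 : (3 : Qbar) ≠ 0 := by norm_num
  refine lyh_ord_eq_one_of_data (K := Qbar) (E := FBar N) (L := L)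
    (lyh_hres_levelN N) (jBar N) (lyh_jBar_sub_ne_zero N)
    (fun c hc0 hc1 v hv => rdn_ord_generic N c hc0 hc1 v hv)
    (fun v hv => rdn_ord_zero N v hv)
    (fun v hv => ?_)
    h hgen (lyh2_A Qbar) (lyh2_B Qbar) hid
    (fun a ha _ => lyh2_hfac0 h2 h3 a ha) (fun a ha _ => lyh2_hfac1 h2 h3 a ha) P a ?_ hpos
  · exact rdn_ord_1728 N v hv
  · rw [lyh2_eval_B]
    exact pow_ne_zero 3 (sub_ne_zero.2 ha)

/-- the same with the identity in expanded form. -/
theorem lyh2_ord_eq_one_levelN' {L : Type*} [Field L] [Algebra Qbar L] [Algebra (FBar N) L]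
    [IsScalarTower Qbar (FBar N) L] [Algebra.IsAlgebraic (FBar N) L]
    (h : L) (hgen : ∀ f : L, ∃ Q : (FBar N)[X], f = aeval h Q)
    (hid : algebraMap (FBar N) L (jBar N) * (h ^ 3 - 27) ^ 3 = h ^ 3 * (h ^ 3 + 216) ^ 3)
    (P : Place Qbar L) (a : Qbar) (ha : a ^ 3 ≠ 27)
    (hpos : 0 < P.ord (h - algebraMap Qbar L a)) :
    P.ord (h - algebraMap Qbar L a) = 1 := by
  refine lyh2_ord_eq_one_levelN N h hgen ?_ P a ha hpos
  rw [lyi2_aeval_A, lyi2_aeval_B]
  exact hid

/-- **(H), place form, for the concrete Hesse level-`Y` field** `lyi2_LBar N = Q̄(F̄_N(q³), μ)`. -/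
theorem lyh2_ord_eq_one_levelY (P : Place Qbar (lyi2_LBar N)) (a : Qbar) (ha : a ^ 3 ≠ 27)
    (hpos : 0 < P.ord (lyi2_mu N - algebraMap Qbar (lyi2_LBar N) a)) :
    P.ord (lyi2_mu N - algebraMap Qbar (lyi2_LBar N) a) = 1 := by
  letI := lyi2_algebra N
  haveI := lyi2_isScalarTower N
  haveI := lyi2_isAlgebraic N
  exact lyh2_ord_eq_one_levelN N (lyi2_mu N) (lyi2_gen N) (lyi2_identity N) P a ha hpos

end LevelN

end Fermat.Agent.S18x
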