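/-
S18x/LyhInst (helper72; row G7 of N5 (H), spec `S18_N5_spec_helper33` FILE 2; prefix `lyi_`).

Instantiation data for the horizontal-unramifiedness argument: the level-`Y` function field
`L̄_Y = F̄_N(q²)(X₃) ⊆ Q̄((q))`, the twist `q ↦ q²` as a `Q̄`-algebra hom `F̄_N → L̄_Y`, the identity
`j(q²) (X₃² - 64)² = (X₃² + 192)³`, `L̄_Y = F̄_N^(2)[X₃]` (finite, algebraic over `F̄_N`).
`N` is generic (design B instantiates at `2N`).  Second part (`X₃` is a coordinate of `L̄_Y / Q̄`,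
compatibility with the rational level-`Y` field): `S18x/LyhInstCoord.lean`.
-/
import Mathlib
import Fermat.Agent.S24x.PlacePrime
import Fermat.Agent.S24x.PlaceBasic
import Fermat.Agent.S24x.AlgDefs
import Fermat.Agent.S24x.FBarFinite
import Fermat.Agent.S18x.PurCoordMap

set_option autoImplicit false

namespace Fermat.Agent.S18x

open AlgebraicCurve Polynomial Fermat.Agent.S24x ModularCurve

local notation "Qbar" => AlgebraicClosure ℚ

theorem lyi_isUnit_two (k : Type*) [Field k] [CharZero k] : IsUnit (2 : k) :=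
  isUnit_iff_ne_zero.mpr two_ne_zero

/-- the coordinate `X₃` over a char-0 field. -/
noncomputable def lyi_X3s (k : Type*) [Field k] [CharZero k] : LaurentSeries k :=
  purb_X3 (lyi_isUnit_two k)

/-- level-`Y` function field over `Q̄`. -/
noncomputable def lyi_LBar (N : ℕ) : IntermediateField Qbar (LaurentSeries Qbar) :=
  IntermediateField.adjoin Qbar
    ((fun x => qExpand Qbar 2 x) '' (modularFunctionFieldBar N : Set (LaurentSeries Qbar)) ∪
      {lyi_X3s Qbar})

theorem lyi_X3s_mem (N : ℕ) : lyi_X3s Qbar ∈ lyi_LBar N :=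
  IntermediateField.subset_adjoin _ _ (Or.inr rfl)

noncomputable def lyi_X3 (N : ℕ) : lyi_LBar N := ⟨lyi_X3s Qbar, lyi_X3s_mem N⟩

theorem lyi_coe_X3 (N : ℕ) : ((lyi_X3 N : lyi_LBar N) : LaurentSeries Qbar) = lyi_X3s Qbar := rfl

theorem lyi_twist_mem (N : ℕ) (x : FBar N) : qExpand Qbar 2 (x : LaurentSeries Qbar) ∈ lyi_LBar N :=
  IntermediateField.subset_adjoin _ _ (Or.inl ⟨x, x.2, rfl⟩)

/-- `qExpand` fixes constants (in `algebraMap` form). -/
theorem lyi_qExpand_algebraMap (k : Type*) [Field k] (n : ℕ) [NeZero n] (c : k) :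
    qExpand k n (algebraMap k (LaurentSeries k) c) = algebraMap k (LaurentSeries k) c := by
  have h : algebraMap k (LaurentSeries k) c = HahnSeries.C c := by
    rw [algebraMap_laurentSeries_eq_single]; rfl
  rw [h, qExpand_C]

/-- the twist `q ↦ q²` as a `Q̄`-algebra hom `F̄_N → L̄_Y`. -/
noncomputable def lyi_twist (N : ℕ) : FBar N →ₐ[Qbar] lyi_LBar N where
  toFun x := ⟨qExpand Qbar 2 (x : LaurentSeries Qbar), lyi_twist_mem N x⟩
  map_one' := Subtype.ext (by simp)
  map_mul' x y := Subtype.ext (by simp)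
  map_zero' := Subtype.ext (by simp)
  map_add' x y := Subtype.ext (by simp)
  commutes' c := Subtype.ext (by
    show qExpand Qbar 2 (algebraMap Qbar (LaurentSeries Qbar) c) =
      algebraMap Qbar (LaurentSeries Qbar) c
    exact lyi_qExpand_algebraMap Qbar 2 c)

theorem lyi_coe_twist (N : ℕ) (x : FBar N) :
    ((lyi_twist N x : lyi_LBar N) : LaurentSeries Qbar) = qExpand Qbar 2 (x : LaurentSeries Qbar) :=
  rfl

theorem lyi_twist_injective (N : ℕ) : Function.Injective (lyi_twist N) :=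
  (lyi_twist N).toRingHom.injective

/-- the `F̄_N`-algebra structure on `L̄_Y` (NOT an instance; use `letI`). -/
@[reducible] noncomputable def lyi_algebra (N : ℕ) : Algebra (FBar N) (lyi_LBar N) :=
  (lyi_twist N).toRingHom.toAlgebra

theorem lyi_algebraMap_apply (N : ℕ) (x : FBar N) :
    letI := lyi_algebra N
    algebraMap (FBar N) (lyi_LBar N) x = lyi_twist N x := rfl

theorem lyi_isScalarTower (N : ℕ) :
    letI := lyi_algebra N
    IsScalarTower Qbar (FBar N) (lyi_LBar N) := by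
  letI := lyi_algebra N
  exact IsScalarTower.of_algebraMap_eq fun c => ((lyi_twist N).commutes c).symm

/-- `j` over `Q̄` as a Laurent series is `jqModC Q̄`. -/
theorem lyi_coeffEmb_jq : coeffEmb Qbar jq = jqModC Qbar := by
  rw [← jqModC_rat, coeffEmb, coeffMap_jqModC]

theorem lyi_coe_twist_jBar (N : ℕ) :
    ((lyi_twist N (jBar N) : lyi_LBar N) : LaurentSeries Qbar) = qExpand Qbar 2 (jqModC Qbar) := by
  rw [lyi_coe_twist, coe_jBar, lyi_coeffEmb_jq]

/-- `j(q²) (X₃² - 64)² = (X₃² + 192)³` in `L̄_Y`. -/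
theorem lyi_identity (N : ℕ) [NeZero N] :
    lyi_twist N (jBar N) * ((lyi_X3 N) ^ 2 - 64) ^ 2 = ((lyi_X3 N) ^ 2 + 192) ^ 3 := by
  apply Subtype.ext
  have h := purb_X3_identity (lyi_isUnit_two Qbar)
  push_cast
  rw [lyi_coe_twist_jBar, lyi_coe_X3, lyi_X3s]
  exact h.symm


/-! ### `L̄_Y = F̄_N^(2)[X₃]` -/

/-- the sextic of `X₃` over `F̄_N` (via the twist). -/
noncomputable def lyi_sextic (N : ℕ) : (FBar N)[X] := purb_sextic (192 : FBar N) 64 (jBar N)

theorem lyi_sextic_monic (N : ℕ) : (lyi_sextic N).Monic := purb_sextic_monic _ _ _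

/-- evaluation of the sextic under a ring hom. -/
theorem lyi_eval₂_sextic {S T : Type*} [CommRing S] [CommRing T] (f : S →+* T) (x : T)
    (a b J : S) :
    (purb_sextic a b J).eval₂ f x = (x ^ 2 + f a) ^ 3 - f J * (x ^ 2 - f b) ^ 2 := by
  simp only [purb_sextic, eval₂_sub, eval₂_mul, eval₂_pow, eval₂_add, eval₂_X, eval₂_C]

theorem lyi_aeval_sextic (N : ℕ) [NeZero N] :
    letI := lyi_algebra N
    aeval (lyi_X3 N) (lyi_sextic N) = 0 := by
  letI := lyi_algebra N
  have h := lyi_identity N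
  rw [aeval_def, lyi_sextic, lyi_eval₂_sextic]
  have e1 : algebraMap (FBar N) (lyi_LBar N) (192 : FBar N) = 192 := map_ofNat _ 192
  have e2 : algebraMap (FBar N) (lyi_LBar N) (64 : FBar N) = 64 := map_ofNat _ 64
  rw [e1, e2, lyi_algebraMap_apply, h, sub_self]

theorem lyi_isIntegral_X3 (N : ℕ) [NeZero N] :
    letI := lyi_algebra N
    IsIntegral (FBar N) (lyi_X3 N) := by
  letI := lyi_algebra N
  exact ⟨lyi_sextic N, lyi_sextic_monic N, lyi_aeval_sextic N⟩

/-- `qExpand Q̄ 2` as a `Q̄`-algebra endomorphism of `Q̄((q))`. -/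
noncomputable def lyi_qExpandAlg : LaurentSeries Qbar →ₐ[Qbar] LaurentSeries Qbar where
  __ := qExpand Qbar 2
  commutes' c := lyi_qExpand_algebraMap Qbar 2 c

theorem lyi_qExpandAlg_apply (x : LaurentSeries Qbar) : lyi_qExpandAlg x = qExpand Qbar 2 x := rfl

/-- the twisted copy `F̄_N(q²)` of `F̄_N` inside `Q̄((q))`. -/
noncomputable def lyi_E2 (N : ℕ) : IntermediateField Qbar (LaurentSeries Qbar) :=
  (modularFunctionFieldBar N).map lyi_qExpandAlg

theorem lyi_twist_mem_E2 (N : ℕ) (x : FBar N) : qExpand Qbar 2 (x : LaurentSeries Qbar) ∈ lyi_E2 N :=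
  ⟨x, x.2, rfl⟩

/-- the twist as a (surjective) ring hom onto `F̄_N(q²)`. -/
noncomputable def lyi_toE2 (N : ℕ) : FBar N →+* lyi_E2 N where
  toFun x := ⟨qExpand Qbar 2 (x : LaurentSeries Qbar), lyi_twist_mem_E2 N x⟩
  map_one' := Subtype.ext (by simp)
  map_mul' x y := Subtype.ext (by simp)
  map_zero' := Subtype.ext (by simp)
  map_add' x y := Subtype.ext (by simp)

theorem lyi_toE2_surjective (N : ℕ) : Function.Surjective (lyi_toE2 N) := by
  rintro ⟨y, x, hx, rfl⟩
  exact ⟨⟨x, hx⟩, rfl⟩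

/-- the two ways from `F̄_N` to `Q̄((q))` agree. -/
theorem lyi_comp_toE2 (N : ℕ) :
    (algebraMap (lyi_E2 N) (LaurentSeries Qbar)).comp (lyi_toE2 N) =
      (lyi_LBar N).val.toRingHom.comp (lyi_twist N).toRingHom := rfl

theorem lyi_isIntegral_X3s (N : ℕ) [NeZero N] : IsIntegral (lyi_E2 N) (lyi_X3s Qbar) := by
  refine ⟨(lyi_sextic N).map (lyi_toE2 N), (lyi_sextic_monic N).map _, ?_⟩
  rw [eval₂_map, lyi_comp_toE2]
  have h := lyi_aeval_sextic N
  rw [@aeval_def _ _ _ _ (lyi_algebra N)] at h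
  have h0 : (lyi_sextic N).eval₂ (lyi_twist N).toRingHom (lyi_X3 N) = 0 := h
  have h3 := hom_eval₂ (lyi_sextic N) (lyi_twist N).toRingHom (lyi_LBar N).val.toRingHom (lyi_X3 N)
  rw [h0, map_zero] at h3
  exact h3.symm

theorem lyi_LBar_le (N : ℕ) [NeZero N] :
    lyi_LBar N ≤ (IntermediateField.adjoin (lyi_E2 N) {lyi_X3s Qbar}).restrictScalars Qbar := by
  rw [lyi_LBar, IntermediateField.adjoin_le_iff]
  rintro x (⟨z, hz, rfl⟩ | hx)
  · exact IntermediateField.algebraMap_mem _ (⟨qExpand Qbar 2 z, lyi_twist_mem_E2 N ⟨z, hz⟩⟩ : lyi_E2 N)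
  · rw [Set.mem_singleton_iff] at hx
    rw [hx]
    exact IntermediateField.mem_adjoin_simple_self (lyi_E2 N) (lyi_X3s Qbar)

/-- `L̄_Y = F̄_N^(2)[X₃]`, in ring hom (`eval₂`) form. -/
theorem lyi_gen_eval₂ (N : ℕ) [NeZero N] (f : lyi_LBar N) :
    ∃ Q : (FBar N)[X], f = Q.eval₂ (lyi_twist N).toRingHom (lyi_X3 N) := by
  have h1 : (f : LaurentSeries Qbar) ∈
      (IntermediateField.adjoin (lyi_E2 N) {lyi_X3s Qbar}).toSubalgebra := lyi_LBar_le N f.2
  rw [IntermediateField.adjoin_simple_toSubalgebra_of_isAlgebraic (lyi_isIntegral_X3s N).isAlgebraic,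
    Algebra.adjoin_singleton_eq_range_aeval] at h1
  obtain ⟨Q', hQ'⟩ := h1
  obtain ⟨Q, rfl⟩ := Polynomial.map_surjective (lyi_toE2 N) (lyi_toE2_surjective N) Q'
  refine ⟨Q, Subtype.ext ?_⟩
  have h2 : (aeval (lyi_X3s Qbar)) (Q.map (lyi_toE2 N)) = (f : LaurentSeries Qbar) := hQ'
  rw [aeval_def, eval₂_map, lyi_comp_toE2] at h2
  rw [← h2]
  exact (hom_eval₂ Q (lyi_twist N).toRingHom (lyi_LBar N).val.toRingHom (lyi_X3 N)).symm

/-- `L̄_Y = F̄_N^(2)[X₃]`. -/
theorem lyi_gen (N : ℕ) [NeZero N] :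
    letI := lyi_algebra N
    ∀ f : lyi_LBar N, ∃ Q : (FBar N)[X], f = aeval (lyi_X3 N) Q := by
  letI := lyi_algebra N
  intro f
  obtain ⟨Q, hQ⟩ := lyi_gen_eval₂ N f
  exact ⟨Q, by rw [aeval_def]; exact hQ⟩

set_option synthInstance.maxHeartbeats 400000 in
theorem lyi_adjoin_X3_eq_top (N : ℕ) [NeZero N] :
    letI := lyi_algebra N
    Algebra.adjoin (FBar N) {lyi_X3 N} = ⊤ := by
  letI := lyi_algebra N
  rw [eq_top_iff]
  rintro f -
  obtain ⟨Q, rfl⟩ := lyi_gen N f
  exact aeval_mem_adjoin_singleton _ _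

set_option synthInstance.maxHeartbeats 400000 in
theorem lyi_finiteDimensional (N : ℕ) [NeZero N] :
    letI := lyi_algebra N
    FiniteDimensional (FBar N) (lyi_LBar N) := by
  letI := lyi_algebra N
  have h := (lyi_isIntegral_X3 N).fg_adjoin_singleton
  rw [lyi_adjoin_X3_eq_top N] at h
  exact Module.finite_def.mpr h

set_option synthInstance.maxHeartbeats 400000 in
theorem lyi_isAlgebraic (N : ℕ) [NeZero N] :
    letI := lyi_algebra N
    Algebra.IsAlgebraic (FBar N) (lyi_LBar N) := by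
  letI := lyi_algebra N
  haveI := lyi_finiteDimensional N
  exact Algebra.IsAlgebraic.of_finite (FBar N) (lyi_LBar N)

end Fermat.Agent.S18x
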