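import Mathlib
import Fermat.Agent.S18x.LevelYHoriz
import Fermat.Agent.S18x.LyhInst

/-!
# S18x / N5 (H) (helper33): the concrete place-form statement at level `Y`

`lyh_ord_eq_one_levelY`: `L̄_Y = lyi_LBar N = Q̄(j(q^{2d}) : d ∣ N)(X₃) ⊆ Q̄((q))` (helper72's `LyhInst`);
for every place `P` of `L̄_Y / Q̄` and `a² ≠ 64`: `ord_P (X₃ - a) > 0 → ord_P (X₃ - a) = 1`.
-/

set_option autoImplicit false

namespace Fermat.Agent.S18x

open AlgebraicCurve Polynomial Fermat.Agent.S24x ModularCurve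

local notation "Qbar" => AlgebraicClosure ℚ

set_option synthInstance.maxHeartbeats 400000 in
/-- **(H), place form, at the level-`Y` field `lyi_LBar N`.** -/
theorem lyh_ord_eq_one_levelY (N : ℕ) [NeZero N] (P : Place Qbar (lyi_LBar N)) (a : Qbar)
    (ha : a ^ 2 ≠ 64)
    (hpos : 0 < P.ord (lyi_X3 N - algebraMap Qbar (lyi_LBar N) a)) :
    P.ord (lyi_X3 N - algebraMap Qbar (lyi_LBar N) a) = 1 := by
  let _ := lyi_algebra N
  have := lyi_isScalarTower N
  have := lyi_isAlgebraic N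
  exact lyh_ord_eq_one_levelN N (lyi_X3 N) (lyi_gen N) (lyi_identity N) P a ha hpos

end Fermat.Agent.S18x
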