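/-
S18x/LyhInstCoord (helper72; row G7 of N5 (H), part 2; prefix `lyi_`).

`X₃` is a coordinate of the level-`Y` function field `L̄_Y = F̄_N(q²)(X₃)` over `Q̄`
(transcendental, and `L̄_Y` is finite over `Q̄(X₃)`), and compatibility of `L̄_Y` with helper28's
rational level-`Y` field `purb_LY 2 purb_X3Q N` under `coeffEmb`.
-/
import Mathlib
import Fermat.Agent.S18x.LyhInst
import Fermat.Agent.S18x.LevelYDefs

set_option autoImplicit false

namespace Fermat.Agent.S18x

open AlgebraicCurve Polynomial Fermat.Agent.S24x ModularCurve IntermediateField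

local notation "Qbar" => AlgebraicClosure ℚ

/-! ### transcendence of `X₃` -/

instance lyi_charZero (N : ℕ) : CharZero (lyi_LBar N) :=
  charZero_of_injective_algebraMap (algebraMap Qbar (lyi_LBar N)).injective

theorem lyi_X3_sq_sub_ne_zero (N : ℕ) [NeZero N] : (lyi_X3 N) ^ 2 - 64 ≠ 0 := by
  intro h0
  have hid := lyi_identity N
  rw [h0, zero_pow two_ne_zero, mul_zero] at hid
  have h1 : (lyi_X3 N) ^ 2 + 192 = 0 := (pow_eq_zero_iff three_ne_zero).1 hid.symm
  have h2 : (256 : lyi_LBar N) = 0 := by linear_combination h1 - h0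
  norm_num at h2

theorem lyi_twist_jBar_eq (N : ℕ) [NeZero N] :
    lyi_twist N (jBar N) = ((lyi_X3 N) ^ 2 + 192) ^ 3 / ((lyi_X3 N) ^ 2 - 64) ^ 2 := by
  rw [eq_div_iff (pow_ne_zero 2 (lyi_X3_sq_sub_ne_zero N))]
  exact lyi_identity N

/-- `j(q²)` lies in any intermediate field containing `X₃`. -/
theorem lyi_twist_jBar_mem (N : ℕ) [NeZero N] (M : IntermediateField Qbar (lyi_LBar N))
    (hx : lyi_X3 N ∈ M) : lyi_twist N (jBar N) ∈ M := by
  rw [lyi_twist_jBar_eq]
  exact div_mem (pow_mem (add_mem (pow_mem hx 2) (ofNat_mem M 192)) 3)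
    (pow_mem (sub_mem (pow_mem hx 2) (ofNat_mem M 64)) 2)

theorem lyi_transcendental_twist_jBar (N : ℕ) : Transcendental Qbar (lyi_twist N (jBar N)) :=
  fun h => fbf_transcendental_jBar N
    ((isAlgebraic_algHom_iff (lyi_twist N) (lyi_twist_injective N)).1 h)

/-- `X₃` is transcendental over `Q̄`. -/
theorem lyi_transcendental_X3 (N : ℕ) [NeZero N] : Transcendental Qbar (lyi_X3 N) := by
  intro halg
  have hx : lyi_X3 N ∈ algebraicClosure Qbar (lyi_LBar N) := mem_algebraicClosure_iff.2 halg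
  exact lyi_transcendental_twist_jBar N
    (mem_algebraicClosure_iff.1 (lyi_twist_jBar_mem N _ hx))

/-! ### finiteness over `Q̄(X₃)` -/

theorem lyi_twist_mem_adjoin_X3 (N : ℕ) [NeZero N] (r : Qbar⟮jBar N⟯) :
    lyi_twist N (r : FBar N) ∈ Qbar⟮lyi_X3 N⟯ := by
  have h1 : (Qbar⟮jBar N⟯).map (lyi_twist N) ≤ Qbar⟮lyi_X3 N⟯ := by
    rw [adjoin_map, Set.image_singleton, adjoin_simple_le_iff]
    exact lyi_twist_jBar_mem N _ (mem_adjoin_simple_self Qbar (lyi_X3 N))
  exact h1 ((IntermediateField.mem_map _).2 ⟨r, r.2, rfl⟩)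

/-- the twist, from `Q̄(j)` to `Q̄(X₃)`. -/
noncomputable def lyi_twistBase (N : ℕ) [NeZero N] : Qbar⟮jBar N⟯ →+* Qbar⟮lyi_X3 N⟯ :=
  RingHom.codRestrict ((lyi_twist N).toRingHom.comp (algebraMap Qbar⟮jBar N⟯ (FBar N)))
    Qbar⟮lyi_X3 N⟯ (lyi_twist_mem_adjoin_X3 N)

theorem lyi_twistBase_comp (N : ℕ) [NeZero N] :
    (algebraMap Qbar⟮lyi_X3 N⟯ (lyi_LBar N)).comp (lyi_twistBase N) =
      (lyi_twist N).toRingHom.comp (algebraMap Qbar⟮jBar N⟯ (FBar N)) := rfl

/-- the twisted generators `j(q^{2d})` are integral over `Q̄(X₃)`. -/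
theorem lyi_isIntegral_twist_gen (N : ℕ) [NeZero N] (x : FBar N) (hx : x ∈ fbfGens N) :
    IsIntegral Qbar⟮lyi_X3 N⟯ (lyi_twist N x) := by
  obtain ⟨d, hne, hd, rfl⟩ := hx
  exact IsIntegral.map_of_comp_eq (lyi_twistBase N) (lyi_twist N).toRingHom (lyi_twistBase_comp N)
    (@fbf_isIntegral_jdBar N d hne hd)

/-- every twisted element lies in the field generated by the twisted generators. -/
theorem lyi_twist_mem_adjoin_gens (N : ℕ) (c : FBar N) :
    lyi_twist N c ∈ IntermediateField.adjoin Qbar (⇑(lyi_twist N) '' fbfGens N) := by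
  rw [← adjoin_map]
  refine (IntermediateField.mem_map _).2 ⟨c, ?_, rfl⟩
  rw [fbf_adjoin_gens_eq_top]
  exact IntermediateField.mem_top

theorem lyi_adjoin_gens_eq_top (N : ℕ) [NeZero N] :
    IntermediateField.adjoin Qbar ({lyi_X3 N} ∪ ⇑(lyi_twist N) '' fbfGens N) = ⊤ := by
  rw [eq_top_iff]
  rintro f -
  obtain ⟨Q, rfl⟩ := lyi_gen_eval₂ N f
  rw [eval₂_eq_sum_range]
  refine sum_mem fun i _ => mul_mem ?_ (pow_mem ?_ i)
  · exact adjoin.mono Qbar _ _ Set.subset_union_right (lyi_twist_mem_adjoin_gens N _)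
  · exact subset_adjoin Qbar _ (Or.inl rfl)

set_option synthInstance.maxHeartbeats 400000 in
set_option maxHeartbeats 1000000 in
/-- `L̄_Y` is finite over `Q̄(X₃)`. -/
theorem lyi_finiteDimensional_X3 (N : ℕ) [NeZero N] :
    FiniteDimensional Qbar⟮lyi_X3 N⟯ (lyi_LBar N) := by
  have hfin : Finite (⇑(lyi_twist N) '' fbfGens N) := ((fbf_finite_gens N).image _).to_subtype
  have h1 : FiniteDimensional Qbar⟮lyi_X3 N⟯
      (IntermediateField.adjoin Qbar⟮lyi_X3 N⟯ (⇑(lyi_twist N) '' fbfGens N)) :=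
    IntermediateField.finiteDimensional_adjoin (by
      rintro _ ⟨x, hx, rfl⟩
      exact lyi_isIntegral_twist_gen N x hx)
  have h2 : IntermediateField.adjoin Qbar⟮lyi_X3 N⟯ (⇑(lyi_twist N) '' fbfGens N) = ⊤ := by
    rw [← IntermediateField.restrictScalars_eq_top_iff (K := Qbar), adjoin_adjoin_left]
    exact lyi_adjoin_gens_eq_top N
  rw [h2] at h1
  exact LinearEquiv.finiteDimensional
    (IntermediateField.topEquiv (F := Qbar⟮lyi_X3 N⟯) (E := lyi_LBar N)).toLinearEquiv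

/-- **`X₃` is a coordinate of `L̄_Y / Q̄`.** -/
theorem lyi_isCoordinate (N : ℕ) [NeZero N] : IsCoordinate Qbar (lyi_LBar N) (lyi_X3 N) :=
  ⟨lyi_transcendental_X3 N, lyi_finiteDimensional_X3 N⟩

/-- `X₃` satisfies the standing hypotheses `FFData`. -/
theorem lyi_ffData (N : ℕ) [NeZero N] : FFData Qbar (lyi_LBar N) (lyi_X3 N) :=
  ⟨lyi_transcendental_X3 N, lyi_finiteDimensional_X3 N⟩

/-! ### compatibility with the rational level-`Y` field -/

theorem lyi_coeffEmb_X3 : coeffEmb Qbar purb_X3Q = lyi_X3s Qbar := by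
  rw [purb_X3Q, lyi_X3s, coeffEmb]
  exact purb_X3_map (algebraMap ℚ Qbar) _ _

/-- the subfield of `ℚ((q))` of the series whose base change lies in `L̄_Y`. -/
noncomputable def lyi_comapField (N : ℕ) : IntermediateField ℚ (LaurentSeries ℚ) :=
  Subfield.toIntermediateField ((lyi_LBar N).toSubfield.comap (coeffEmb Qbar)) (by
    intro r
    show coeffEmb Qbar (algebraMap ℚ (LaurentSeries ℚ) r) ∈ lyi_LBar N
    rw [fbf_coeffEmb_algebraMap]
    exact IntermediateField.algebraMap_mem _ _)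

theorem lyi_mem_comapField (N : ℕ) (x : LaurentSeries ℚ) :
    x ∈ lyi_comapField N ↔ coeffEmb Qbar x ∈ lyi_LBar N := Iff.rfl

/-- compatibility with the rational level-`Y` field of `S18x/LevelYDefs.lean`. -/
theorem lyi_coeffEmb_mem (N : ℕ) [NeZero N] (x : LaurentSeries ℚ)
    (hx : x ∈ purb_LY 2 purb_X3Q N) : coeffEmb Qbar x ∈ lyi_LBar N := by
  rw [← lyi_mem_comapField]
  refine (?_ : purb_LY 2 purb_X3Q N ≤ lyi_comapField N) hx
  rw [purb_LY]
  refine sup_le ?_ ?_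
  · rintro _ ⟨y, hy, rfl⟩
    rw [lyi_mem_comapField]
    have h1 : coeffEmb Qbar (qExpand ℚ 2 y) = qExpand Qbar 2 (coeffEmb Qbar y) := by
      rw [coeffEmb]; exact coeffMap_qExpand _ 2 y
    show coeffEmb Qbar (qExpand ℚ 2 y) ∈ lyi_LBar N
    rw [h1]
    exact lyi_twist_mem N ⟨coeffEmb Qbar y, coeffEmb_mem_laurentBaseChange Qbar hy⟩
  · rw [purb_KY, adjoin_simple_le_iff, lyi_mem_comapField, lyi_coeffEmb_X3]
    exact lyi_X3s_mem N

end Fermat.Agent.S18x
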