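/-
S18 project, block NRM row N1c (helper86, prefix `lyn_`): INSTANCES of the level-`Y` objects of
`S18x/LevelYDefs.lean` for EVERY prime `ℓ`.

(A) `ℓ` odd: the `λ`-line coordinate `X₃` (`purb_X3`) over `ℤ_(ℓ)`, `ℚ` (`purb_X3Q`, independent of
    `ℓ`) and `𝔽_ℓ`; compatibility with `toQ`, `red`, the Gauss ring and `rho`; the defining
    identities; the abbreviations at `(ℓ, e = 2, h = purb_X3Q, c = X² - 64)`.
(B) `ℓ = 2`: the Hesse coordinate `μ` (`hsc_mu`) over `ℤ_(2)`, `ℚ`, `𝔽₂`; same package at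
    `(ℓ = 2, e = 3, h = μ, c = X³ - 27)`.
(C) transcendence of the coordinates over the constants (a Laurent series `X⁻¹ w`, `w(0) = 1`,
    is transcendental over the coefficient field).
-/
import Mathlib
import Fermat.Agent.S18x.LevelYDefs
import Fermat.Agent.S18x.HesseCoord

set_option autoImplicit false

noncomputable section

namespace Fermat.Agent.S18x

open ModularCurve Fermat.Agent.S28x

/-! ### (C) transcendence of `X⁻¹ w` -/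

section Transc

variable {K : Type*} [CommRing K]

theorem lyn_pow_eq (w : PowerSeries K) (n : ℕ) :
    (HahnSeries.single (-1 : ℤ) (1 : K) * HahnSeries.ofPowerSeries ℤ K w) ^ n
      = HahnSeries.single (-(n : ℤ)) 1 * HahnSeries.ofPowerSeries ℤ K (w ^ n) := by
  rw [mul_pow, HahnSeries.single_pow, one_pow, map_pow]
  congr 2
  simp

theorem lyn_coeff_pow_of_lt (w : PowerSeries K) {n : ℕ} {m : ℤ} (hm : m < -(n : ℤ)) :
    ((HahnSeries.single (-1 : ℤ) (1 : K) * HahnSeries.ofPowerSeries ℤ K w) ^ n).coeff m = 0 := by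
  rw [lyn_pow_eq]
  have h : m = (m + n) + (-(n : ℤ)) := by ring
  rw [h, HahnSeries.coeff_single_mul_add, one_mul, ofPowerSeries_coeff_of_neg _ (by omega)]

theorem lyn_coeff_pow_self (w : PowerSeries K) (hw : PowerSeries.constantCoeff w = 1) (n : ℕ) :
    ((HahnSeries.single (-1 : ℤ) (1 : K) * HahnSeries.ofPowerSeries ℤ K w) ^ n).coeff
      (-(n : ℤ)) = 1 := by
  rw [lyn_pow_eq]
  have h := HahnSeries.coeff_single_mul_add (r := (1 : K))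
    (x := HahnSeries.ofPowerSeries ℤ K (w ^ n)) (a := ((0 : ℕ) : ℤ)) (b := -(n : ℤ))
  have hc : PowerSeries.constantCoeff (w ^ n) = 1 := by rw [map_pow, hw, one_pow]
  rw [HahnSeries.ofPowerSeries_apply_coeff, PowerSeries.coeff_zero_eq_constantCoeff, hc, one_mul,
    Nat.cast_zero, zero_add] at h
  exact h

end Transc

section TranscField

variable {K : Type*} [Field K]

/-- the coefficient of `q^{-deg f}` in `f(X⁻¹ w)` is the leading coefficient of `f`. -/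
theorem lyn_coeff_aeval (w : PowerSeries K) (hw : PowerSeries.constantCoeff w = 1)
    (f : Polynomial K) :
    (Polynomial.aeval (HahnSeries.single (-1 : ℤ) (1 : K) * HahnSeries.ofPowerSeries ℤ K w)
      f).coeff (-(f.natDegree : ℤ)) = f.leadingCoeff := by
  rw [Polynomial.aeval_def, Polynomial.eval₂_eq_sum_range, HahnSeries.coeff_sum,
    Finset.sum_range_succ]
  have h0 : ∀ i ∈ Finset.range f.natDegree,
      (algebraMap K (LaurentSeries K) (f.coeff i) *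
        (HahnSeries.single (-1 : ℤ) (1 : K) * HahnSeries.ofPowerSeries ℤ K w) ^ i).coeff
        (-(f.natDegree : ℤ)) = 0 := by
    intro i hi
    rw [algebraMap_laurentSeries_eq_single, HahnSeries.coeff_single_zero_mul,
      lyn_coeff_pow_of_lt w (by have := Finset.mem_range.mp hi; omega), mul_zero]
  rw [Finset.sum_eq_zero h0, zero_add, algebraMap_laurentSeries_eq_single,
    HahnSeries.coeff_single_zero_mul, lyn_coeff_pow_self w hw, mul_one]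
  rfl

/-- **a Laurent series `X⁻¹ w`, `w(0) = 1`, is transcendental over the coefficient field.** -/
theorem lyn_transcendental (w : PowerSeries K) (hw : PowerSeries.constantCoeff w = 1) :
    Transcendental K
      (HahnSeries.single (-1 : ℤ) (1 : K) * HahnSeries.ofPowerSeries ℤ K w) := by
  intro halg
  obtain ⟨f, hf0, hf⟩ := halg
  have h := lyn_coeff_aeval w hw f
  rw [hf, HahnSeries.coeff_zero] at h
  exact hf0 (Polynomial.leadingCoeff_eq_zero.mp h.symm)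

theorem lyn_transcendental_X3 (h2 : IsUnit (2 : K)) : Transcendental K (purb_X3 h2) :=
  lyn_transcendental (purb_v3 h2) (purb_constantCoeff_v3 h2)

theorem lyn_transcendental_mu (h3 : IsUnit (3 : K)) : Transcendental K (hsc_mu h3) :=
  lyn_transcendental (hsc_u h3) (hsc_constantCoeff_u h3)

end TranscField

/-! ### units of `ℤ_(ℓ)` and `𝔽_ℓ` -/

section Units

variable (ℓ : ℕ) [Fact ℓ.Prime]

/-- a natural number prime to `ℓ` is a unit of `ℤ_(ℓ)`. -/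
theorem lyn_isUnit_natCast_ZL (m : ℕ) (hm : Nat.Coprime m ℓ) : IsUnit ((m : ℕ) : ZL ℓ) := by
  have hm0 : m ≠ 0 := by
    rintro rfl
    rw [Nat.coprime_zero_left] at hm
    exact (Fact.out : ℓ.Prime).one_lt.ne' hm
  have hmQ : (m : ℚ) ≠ 0 := by exact_mod_cast hm0
  have hinv : ((m : ℚ))⁻¹ ∈ GaloisRep.ratLocalizedAt ℓ := by
    show (((m : ℚ))⁻¹).den.Coprime ℓ
    have : (((m : ℚ))⁻¹).den = m := by
      rw [Rat.inv_natCast_den, if_neg hm0]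
    rw [this]
    exact hm
  refine ⟨⟨(m : ZL ℓ), ⟨((m : ℚ))⁻¹, hinv⟩, ?_, ?_⟩, rfl⟩
  · apply Subtype.ext
    show ((m : ZL ℓ) : ℚ) * ((m : ℚ))⁻¹ = 1
    rw [show ((m : ZL ℓ) : ℚ) = (m : ℚ) by simp, mul_inv_cancel₀ hmQ]
  · apply Subtype.ext
    show ((m : ℚ))⁻¹ * ((m : ZL ℓ) : ℚ) = 1
    rw [show ((m : ZL ℓ) : ℚ) = (m : ℚ) by simp, inv_mul_cancel₀ hmQ]

theorem lyn_isUnit_natCast_zmod (m : ℕ) (hm : Nat.Coprime m ℓ) : IsUnit ((m : ℕ) : ZMod ℓ) :=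
  (ZMod.isUnit_iff_coprime m ℓ).mpr hm

theorem lyn_coprime_two (hl : ℓ ≠ 2) : Nat.Coprime 2 ℓ :=
  (Nat.coprime_primes Nat.prime_two (Fact.out : ℓ.Prime)).mpr hl.symm

theorem lyn_coprime_three (hl : ℓ ≠ 3) : Nat.Coprime 3 ℓ :=
  (Nat.coprime_primes Nat.prime_three (Fact.out : ℓ.Prime)).mpr hl.symm

theorem lyn_isUnit_two_ZL (hl : ℓ ≠ 2) : IsUnit (2 : ZL ℓ) := by
  have h := lyn_isUnit_natCast_ZL ℓ 2 (lyn_coprime_two ℓ hl)
  rwa [Nat.cast_ofNat] at h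

theorem lyn_isUnit_two_zmod (hl : ℓ ≠ 2) : IsUnit (2 : ZMod ℓ) := by
  have h := lyn_isUnit_natCast_zmod ℓ 2 (lyn_coprime_two ℓ hl)
  rwa [Nat.cast_ofNat] at h

theorem lyn_isUnit_three_ZL (hl : ℓ ≠ 3) : IsUnit (3 : ZL ℓ) := by
  have h := lyn_isUnit_natCast_ZL ℓ 3 (lyn_coprime_three ℓ hl)
  rwa [Nat.cast_ofNat] at h

theorem lyn_isUnit_three_zmod (hl : ℓ ≠ 3) : IsUnit (3 : ZMod ℓ) := by
  have h := lyn_isUnit_natCast_zmod ℓ 3 (lyn_coprime_three ℓ hl)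
  rwa [Nat.cast_ofNat] at h

theorem lyn_isUnit_three_rat : IsUnit (3 : ℚ) := isUnit_iff_ne_zero.2 (by norm_num)

end Units

/-! ### (A) `ℓ` odd: the coordinate `X₃` -/

section Odd

variable (ℓ : ℕ) [Fact ℓ.Prime] (hl : ℓ ≠ 2)

/-- the `λ`-line coordinate over `ℤ_(ℓ)`, `ℓ` odd. -/
def lyn_X3Z : LaurentSeries (ZL ℓ) := purb_X3 (lyn_isUnit_two_ZL ℓ hl)

/-- the `λ`-line coordinate over `𝔽_ℓ`, `ℓ` odd. -/
def lyn_X3F : LaurentSeries (ZMod ℓ) := purb_X3 (lyn_isUnit_two_zmod ℓ hl)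

theorem lyn_toQ_X3Z : toQ ℓ (lyn_X3Z ℓ hl) = purb_X3Q :=
  purb_X3_map (GaloisRep.ratLocalizedAt ℓ).subtype (lyn_isUnit_two_ZL ℓ hl) purb_isUnit_two_rat

theorem lyn_red_X3Z : red ℓ (lyn_X3Z ℓ hl) = lyn_X3F ℓ hl :=
  purb_X3_map (resZL ℓ) (lyn_isUnit_two_ZL ℓ hl) (lyn_isUnit_two_zmod ℓ hl)

include hl in
theorem lyn_X3Q_mem_gaussRing : purb_X3Q ∈ gaussRing ℓ := by
  rw [← lyn_toQ_X3Z ℓ hl]; exact toQ_mem_gaussRing ℓ _

/-- the reduction of the coordinate is the coordinate over `𝔽_ℓ`. -/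
theorem lyn_rho_X3Q : rho ℓ ⟨purb_X3Q, lyn_X3Q_mem_gaussRing ℓ hl⟩ = lyn_X3F ℓ hl := by
  have h := rho_toQ ℓ (lyn_X3Z ℓ hl)
  rw [lyn_red_X3Z] at h
  rw [← h]
  congr 1
  exact Subtype.ext (lyn_toQ_X3Z ℓ hl).symm

/-- the defining identity over `ℤ_(ℓ)`. -/
theorem lyn_X3Z_identity :
    (lyn_X3Z ℓ hl ^ 2 + 192) ^ 3
      = qExpand (ZL ℓ) 2 (jqModC (ZL ℓ)) * (lyn_X3Z ℓ hl ^ 2 - 64) ^ 2 :=
  purb_X3_identity (lyn_isUnit_two_ZL ℓ hl)

/-- the defining identity over `𝔽_ℓ`. -/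
theorem lyn_X3F_identity :
    (lyn_X3F ℓ hl ^ 2 + 192) ^ 3
      = qExpand (ZMod ℓ) 2 (jqModC (ZMod ℓ)) * (lyn_X3F ℓ hl ^ 2 - 64) ^ 2 :=
  purb_X3_identity (lyn_isUnit_two_zmod ℓ hl)

theorem lyn_transcendental_X3Q : Transcendental ℚ purb_X3Q :=
  lyn_transcendental_X3 purb_isUnit_two_rat

theorem lyn_transcendental_X3F : Transcendental (ZMod ℓ) (lyn_X3F ℓ hl) :=
  lyn_transcendental_X3 (lyn_isUnit_two_zmod ℓ hl)

/-- `K_Y = ℚ(X₃)` (independent of `ℓ`). -/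
abbrev lyn_KY : IntermediateField ℚ (LaurentSeries ℚ) := purb_KY purb_X3Q

/-- `F_Y = F_N(q²)·ℚ(X₃)`. -/
abbrev lyn_LY (N : ℕ) [NeZero N] : IntermediateField ℚ (LaurentSeries ℚ) := purb_LY 2 purb_X3Q N

/-- `B₀ = ℤ_(ℓ)[X₃, 1/(X₃²-64)]`. -/
abbrev lyn_B0 : Subring ↥lyn_KY := purb_B0 ℓ purb_X3Q purb_c3

/-- `R_Y`: the integral closure of `B₀` in `F_Y`. -/
abbrev lyn_RY (N : ℕ) [NeZero N] : Subalgebra ↥(lyn_B0 ℓ) ↥(lyn_LY N) :=
  purb_RY ℓ 2 purb_X3Q purb_c3 N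

/-- `K̄_Y = 𝔽_ℓ(X̄₃)`. -/
abbrev lyn_KYb : IntermediateField (ZMod ℓ) (LaurentSeries (ZMod ℓ)) :=
  purb_KYb ℓ (lyn_X3F ℓ hl)

/-- `F̄_Y = F̄_N(q²)·𝔽_ℓ(X̄₃)`. -/
abbrev lyn_LYb (N : ℕ) [NeZero N] : IntermediateField (ZMod ℓ) (LaurentSeries (ZMod ℓ)) :=
  purb_LYb ℓ 2 (lyn_X3F ℓ hl) N

end Odd

/-! ### (B) `ℓ = 2`: the Hesse coordinate `μ` -/

section Two

theorem lyn_isUnit_three_ZL2 : IsUnit (3 : ZL 2) := lyn_isUnit_three_ZL 2 (by norm_num)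

theorem lyn_isUnit_three_zmod2 : IsUnit (3 : ZMod 2) := lyn_isUnit_three_zmod 2 (by norm_num)

/-- the Hesse coordinate over `ℤ_(2)`. -/
def lyn_muZ : LaurentSeries (ZL 2) := hsc_mu lyn_isUnit_three_ZL2

/-- the Hesse coordinate over `ℚ`. -/
def lyn_muQ : LaurentSeries ℚ := hsc_mu lyn_isUnit_three_rat

/-- the Hesse coordinate over `𝔽₂`. -/
def lyn_muF : LaurentSeries (ZMod 2) := hsc_mu lyn_isUnit_three_zmod2

theorem lyn_toQ_muZ : toQ 2 lyn_muZ = lyn_muQ :=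
  hsc_mu_map (GaloisRep.ratLocalizedAt 2).subtype lyn_isUnit_three_ZL2 lyn_isUnit_three_rat

theorem lyn_red_muZ : red 2 lyn_muZ = lyn_muF :=
  hsc_mu_map (resZL 2) lyn_isUnit_three_ZL2 lyn_isUnit_three_zmod2

theorem lyn_muQ_mem_gaussRing : lyn_muQ ∈ gaussRing 2 := by
  rw [← lyn_toQ_muZ]; exact toQ_mem_gaussRing 2 _

/-- the reduction of the Hesse coordinate is the Hesse coordinate over `𝔽₂`. -/
theorem lyn_rho_muQ : rho 2 ⟨lyn_muQ, lyn_muQ_mem_gaussRing⟩ = lyn_muF := by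
  have h := rho_toQ 2 lyn_muZ
  rw [lyn_red_muZ] at h
  rw [← h]
  congr 1
  exact Subtype.ext lyn_toQ_muZ.symm

/-- the cusp polynomial `X³ - 27` of the Hesse pencil. -/
def lyn_c2 : Polynomial ℤ := Polynomial.X ^ 3 - 27

/-- the defining identities over `ℚ`, `ℤ_(2)` and `𝔽₂`. -/
theorem lyn_muQ_identity :
    lyn_muQ ^ 3 * (lyn_muQ ^ 3 + 216) ^ 3 = qExpand ℚ 3 jq * (lyn_muQ ^ 3 - 27) ^ 3 :=
  hsc_mu_identity lyn_isUnit_three_rat

theorem lyn_muZ_identity :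
    lyn_muZ ^ 3 * (lyn_muZ ^ 3 + 216) ^ 3
      = qExpand (ZL 2) 3 (jqModC (ZL 2)) * (lyn_muZ ^ 3 - 27) ^ 3 :=
  hsc_mu_identity lyn_isUnit_three_ZL2

theorem lyn_muF_identity :
    lyn_muF ^ 3 * (lyn_muF ^ 3 + 216) ^ 3
      = qExpand (ZMod 2) 3 (jqModC (ZMod 2)) * (lyn_muF ^ 3 - 27) ^ 3 :=
  hsc_mu_identity lyn_isUnit_three_zmod2

theorem lyn_transcendental_muQ : Transcendental ℚ lyn_muQ :=
  lyn_transcendental_mu lyn_isUnit_three_rat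

theorem lyn_transcendental_muF : Transcendental (ZMod 2) lyn_muF :=
  lyn_transcendental_mu lyn_isUnit_three_zmod2

/-- `K_Y = ℚ(μ)` for `ℓ = 2`. -/
abbrev lyn_K2 : IntermediateField ℚ (LaurentSeries ℚ) := purb_KY lyn_muQ

/-- `F_N(q³)`. -/
abbrev lyn_FN3 (N : ℕ) [NeZero N] : IntermediateField ℚ (LaurentSeries ℚ) := purb_FNe 3 N

/-- `F_Y = F_N(q³)·ℚ(μ)` for `ℓ = 2`. -/
abbrev lyn_L2 (N : ℕ) [NeZero N] : IntermediateField ℚ (LaurentSeries ℚ) := purb_LY 3 lyn_muQ N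

/-- `B₀ = ℤ_(2)[μ, 1/(μ³-27)]`. -/
abbrev lyn_B2 : Subring ↥lyn_K2 := purb_B0 2 lyn_muQ lyn_c2

/-- `R_Y` for `ℓ = 2`. -/
abbrev lyn_R2 (N : ℕ) [NeZero N] : Subalgebra ↥lyn_B2 ↥(lyn_L2 N) :=
  purb_RY 2 3 lyn_muQ lyn_c2 N

/-- `K̄_Y = 𝔽₂(μ̄)`. -/
abbrev lyn_K2b : IntermediateField (ZMod 2) (LaurentSeries (ZMod 2)) := purb_KYb 2 lyn_muF

/-- `F̄_Y` for `ℓ = 2`. -/
abbrev lyn_L2b (N : ℕ) [NeZero N] : IntermediateField (ZMod 2) (LaurentSeries (ZMod 2)) :=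
  purb_LYb 2 3 lyn_muF N

end Two

end Fermat.Agent.S18x
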