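/-
S18 project, block NRM row N6 (helper94, prefix `nryb_`): BRIDGE between the Gauss ring of
`ℤ_(ℓ) ⊂ ℚ` (`S28x.gaussRing ℓ`, `S28x.rho ℓ`) and the Gauss ring `ga_W A π` of a valuation
subring `A` of a field `L ⊇ ℚ` lying over `ℓ` (`S18x/GaussA`, helper19):

* `nryb_algebraMap_mem`  : `ℤ_(ℓ) ⊆ A`;
* `nryb_iota`            : the ring homomorphism `ℤ_(ℓ) → A`;
* `nryb_pi_iota`         : `π ∘ ι = (𝔽_ℓ → k) ∘ (reduction mod ℓ)` for every `π : A →+* k`
                           (`k` an `𝔽_ℓ`-algebra);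
* `nryb_mem_W`, `nryb_rho` : `x ∈ gaussRing ℓ ⇒ coeffEmb L x ∈ ga_W A π` and
                           `ga_rho A π (coeffEmb L x) = coeffMap (𝔽_ℓ → k) (rho ℓ x)`.
-/
import Mathlib
import Fermat.Agent.S28x.Defs
import Fermat.Agent.S18x.GaussA

set_option autoImplicit false

namespace Fermat.Agent.S18x

open ModularCurve HahnSeries Fermat.Agent.S28x

noncomputable section

variable {L : Type*} [Field L] [Algebra ℚ L] (A : ValuationSubring L)
variable (ℓ : ℕ) [Fact ℓ.Prime]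

/-- a natural number prime to `ℓ` is invertible in `A`. -/
theorem nryb_natCast_inv_mem (hA : A.LiesOverPrime ℓ) {d : ℕ} (hd : d.Coprime ℓ) :
    ((d : L))⁻¹ ∈ A := by
  by_contra hinv
  -- then `d` is a non-unit of `A`
  have hdA : (d : L) ∈ A := natCast_mem A d
  have hd0 : (d : L) ≠ 0 := by
    intro h0
    apply hinv
    rw [h0, inv_zero]
    exact A.zero_mem
  have hdnon : (d : L) ∈ A.nonunits := by
    rw [ValuationSubring.mem_nonunits_iff_exists_mem_maximalIdeal]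
    refine ⟨hdA, ?_⟩
    rw [IsLocalRing.mem_maximalIdeal, mem_nonunits_iff]
    intro hu
    apply hinv
    obtain ⟨u, hu⟩ := hu
    have h1 : ((u⁻¹ : (A)ˣ) : A) * (⟨(d : L), hdA⟩ : A) = 1 := by
      rw [← hu]; simp
    have h2 : (((u⁻¹ : (A)ˣ) : A) : L) * (d : L) = 1 := by
      have := congrArg (Subtype.val) h1
      simpa using this
    have h3 : ((d : L))⁻¹ = (((u⁻¹ : (A)ˣ) : A) : L) := by
      rw [eq_comm, ← mul_eq_one_iff_eq_inv₀ hd0]
      exact h2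
    rw [h3]
    exact (((u⁻¹ : (A)ˣ) : A)).2
  -- Bezout
  have hcop : IsCoprime (d : ℤ) (ℓ : ℤ) := Nat.isCoprime_iff_coprime.mpr hd
  obtain ⟨a, b, hab⟩ := hcop
  have h1 : ((a : L) * (d : L) + (b : L) * (ℓ : L)) = 1 := by
    have := congrArg (fun z : ℤ => (z : L)) hab
    simpa using this
  have hmem : (1 : L) ∈ A.nonunits := by
    rw [← h1]
    have hA' : (ℓ : L) ∈ A.nonunits := hA
    rw [ValuationSubring.mem_nonunits_iff_exists_mem_maximalIdeal] at hdnon hA' ⊢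
    obtain ⟨h1d, h2d⟩ := hdnon
    obtain ⟨h1l, h2l⟩ := hA'
    have haA : (a : L) ∈ A := intCast_mem A a
    have hbA : (b : L) ∈ A := intCast_mem A b
    refine ⟨A.add_mem _ _ (A.mul_mem _ _ haA h1d) (A.mul_mem _ _ hbA h1l), ?_⟩
    have := (IsLocalRing.maximalIdeal A).add_mem
      ((IsLocalRing.maximalIdeal A).mul_mem_left ⟨(a : L), haA⟩ h2d)
      ((IsLocalRing.maximalIdeal A).mul_mem_left ⟨(b : L), hbA⟩ h2l)
    exact this
  rw [ValuationSubring.mem_nonunits_iff, map_one] at hmem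
  exact lt_irrefl _ hmem

/-- `ℤ_(ℓ) ⊆ A`. -/
theorem nryb_algebraMap_mem (hA : A.LiesOverPrime ℓ) (z : ZL ℓ) :
    algebraMap ℚ L (z : ℚ) ∈ A := by
  have hz : ((z : ℚ)).den.Coprime ℓ := z.2
  have h1 : algebraMap ℚ L (z : ℚ) = ((z : ℚ).num : L) * (((z : ℚ).den : L))⁻¹ := by
    conv_lhs => rw [← Rat.num_div_den (z : ℚ)]
    rw [map_div₀, div_eq_mul_inv]
    simp
  rw [h1]
  exact A.mul_mem _ _ (intCast_mem A _) (nryb_natCast_inv_mem A ℓ hA hz)

/-- the inclusion `ℤ_(ℓ) → A`. -/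
def nryb_iota (hA : A.LiesOverPrime ℓ) : ZL ℓ →+* A :=
  ((algebraMap ℚ L).comp (GaloisRep.ratLocalizedAt ℓ).subtype).codRestrict A.toSubring
    (nryb_algebraMap_mem A ℓ hA)

theorem nryb_iota_coe (hA : A.LiesOverPrime ℓ) (z : ZL ℓ) :
    ((nryb_iota A ℓ hA z : A) : L) = algebraMap ℚ L (z : ℚ) := rfl

variable {k : Type*} [Field k] [Algebra (ZMod ℓ) k] (π : A →+* k)

/-- two ring homomorphisms from `ℤ_(ℓ)` to a field of characteristic `ℓ` agree. -/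
theorem nryb_hom_ext (g₁ g₂ : ZL ℓ →+* k) : g₁ = g₂ := by
  have : CharP k ℓ := by
    have := (algebraMap (ZMod ℓ) k).injective
    exact charP_of_injective_algebraMap this ℓ
  ext z
  have hz : ((z : ℚ)).den.Coprime ℓ := z.2
  set d : ZL ℓ := ((z : ℚ).den : ZL ℓ) with hd
  set n : ZL ℓ := ((z : ℚ).num : ZL ℓ) with hn
  have hdz : d * z = n := by
    apply Subtype.ext
    show ((d : ZL ℓ) : ℚ) * (z : ℚ) = ((n : ZL ℓ) : ℚ)
    have h1 : ((d : ZL ℓ) : ℚ) = ((z : ℚ).den : ℚ) := by simp [hd]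
    have h2 : ((n : ZL ℓ) : ℚ) = ((z : ℚ).num : ℚ) := by simp [hn]
    rw [h1, h2, mul_comm]
    exact Rat.mul_den_eq_num (z : ℚ)
  have hd1 : g₁ d = g₂ d := by simp [hd]
  have hn1 : g₁ n = g₂ n := by simp [hn]
  have hd0 : g₂ d ≠ 0 := by
    have : g₂ d = (((z : ℚ).den : ℕ) : k) := by simp [hd]
    rw [this, Ne, CharP.cast_eq_zero_iff k ℓ]
    intro hdvd
    exact (Fact.out : ℓ.Prime).one_lt.ne' (Nat.Coprime.eq_one_of_dvd hz.symm hdvd)
  have e1 : g₁ d * g₁ z = g₁ n := by rw [← map_mul, hdz]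
  have e2 : g₂ d * g₂ z = g₂ n := by rw [← map_mul, hdz]
  rw [hd1, hn1, ← e2] at e1
  exact mul_left_cancel₀ hd0 e1

/-- `π ∘ ι = (𝔽_ℓ → k) ∘ (mod ℓ)`. -/
theorem nryb_pi_iota (hA : A.LiesOverPrime ℓ) :
    π.comp (nryb_iota A ℓ hA) = (algebraMap (ZMod ℓ) k).comp (resZL ℓ) :=
  nryb_hom_ext ℓ _ _

/-- coefficientwise `ℤ_(ℓ)((q)) → A((q))`. -/
def nryb_lift (hA : A.LiesOverPrime ℓ) : LaurentSeries (ZL ℓ) →+* LaurentSeries A :=
  coeffMap (nryb_iota A ℓ hA)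

theorem nryb_iota_lift (hA : A.LiesOverPrime ℓ) (u : LaurentSeries (ZL ℓ)) :
    ga_iota A (nryb_lift A ℓ hA u) = coeffEmb L (toQ ℓ u) := by
  ext n
  rfl

theorem nryb_red_lift (hA : A.LiesOverPrime ℓ) (u : LaurentSeries (ZL ℓ)) :
    ga_red A π (nryb_lift A ℓ hA u) = coeffMap (algebraMap (ZMod ℓ) k) (red ℓ u) := by
  rw [ga_red, nryb_lift, red, coeffMap_coeffMap, coeffMap_coeffMap]
  exact coeffMap_congr (nryb_pi_iota A ℓ π hA) u

theorem nryb_coeffMap_ne_zero {F : Type*} [Field F] (f : F →+* k) {x : LaurentSeries F}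
    (hx : x ≠ 0) : coeffMap f x ≠ 0 := by
  intro h
  apply hx
  ext n
  have := congrArg (fun z : LaurentSeries k => z.coeff n) h
  simp only [coeffMap_coeff, HahnSeries.coeff_zero] at this
  rw [HahnSeries.coeff_zero]
  exact (map_eq_zero f).mp this

/-- the Gauss ring of `ℤ_(ℓ)` maps into the Gauss ring of `A`. -/
theorem nryb_mem_W (hA : A.LiesOverPrime ℓ) {x : LaurentSeries ℚ} (hx : x ∈ gaussRing ℓ) :
    coeffEmb L x ∈ ga_W A π := by
  obtain ⟨u, v, hu, h⟩ := hx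
  refine ⟨nryb_lift A ℓ hA v, nryb_lift A ℓ hA u, ?_, ?_⟩
  · rw [nryb_red_lift]
    exact nryb_coeffMap_ne_zero _ hu
  · rw [nryb_iota_lift, nryb_iota_lift, ← map_mul, mul_comm, h]

/-- compatibility of the residue maps. -/
theorem nryb_rho (hA : A.LiesOverPrime ℓ) {x : LaurentSeries ℚ} (hx : x ∈ gaussRing ℓ) :
    ga_rho A π ⟨coeffEmb L x, nryb_mem_W A ℓ π hA hx⟩ =
      coeffMap (algebraMap (ZMod ℓ) k) (rho ℓ ⟨x, hx⟩) := by
  have hx' := hx
  obtain ⟨u, v, hu, h⟩ := hx'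
  have h1 : (coeffEmb L x) * ga_iota A (nryb_lift A ℓ hA u) = ga_iota A (nryb_lift A ℓ hA v) := by
    rw [nryb_iota_lift, nryb_iota_lift, ← map_mul, mul_comm, h]
  have h2 : ga_red A π (nryb_lift A ℓ hA u) ≠ 0 := by
    rw [nryb_red_lift]
    exact nryb_coeffMap_ne_zero _ hu
  have e1 := ga_rho_eq A π ⟨coeffEmb L x, nryb_mem_W A ℓ π hA hx⟩ h2 h1
  have e2 := rho_eq ℓ ⟨x, hx⟩ hu h
  rw [e1, e2, nryb_red_lift, nryb_red_lift, map_div₀]

end

end Fermat.Agent.S18x
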