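/-
S18 project, block NRM row N6 (helper94, prefix `nry_`): concrete objects for `NRM_Y` over
`(ℚ̄, A, k)`.

* `nry_cval c x = c(x)` for `c : ℤ[X]` in any commutative ring (`eval₂ (Int.castRingHom _)`),
  functorial (`nry_cval_map`);
* `nry_rhoR incl hW : R →+* 𝔽_ℓ((q))` the reduction of a ring `R` mapping into the Gauss ring,
  `nry_phi0 : R ⧸ p R →+* 𝔽_ℓ((q))` the induced map (injective if `ker = p R`);
* the `k`-side base `D' = pur_Base c_k = k[X][1/c]` acting on `k((q))` through evaluation at the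
  reduced coordinate: range lemmas `nry_eval_*`;
* `nry_closure_range`: the image of `ℤ_(ℓ)[h, 1/c(h)]` in `k((q))` lies in the range of `D'`.
-/
import Fermat.Agent.S18x.NrmYBridge
import Fermat.Agent.S18x.PurBase
import Fermat.Agent.S28x.ChartQEPCore

set_option autoImplicit false
set_option linter.unusedSectionVars false

namespace Fermat.Agent.S18x

open ModularCurve HahnSeries Fermat.Agent.S28x Polynomial

noncomputable section

/-! ### evaluation of integer polynomials -/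

/-- `c(x)` for an integer polynomial `c`. -/
def nry_cval {R : Type*} [CommRing R] (c : ℤ[X]) (x : R) : R := c.eval₂ (Int.castRingHom R) x

theorem nry_cval_map {R S : Type*} [CommRing R] [CommRing S] (f : R →+* S) (c : ℤ[X]) (x : R) :
    f (nry_cval c x) = nry_cval c (f x) := by
  unfold nry_cval
  rw [Polynomial.hom_eval₂]
  congr 1
  exact RingHom.ext_int _ _

theorem nry_cval_eq_aeval {R : Type*} [CommRing R] (c : ℤ[X]) (x : R) :
    nry_cval c x = Polynomial.aeval x c := by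
  unfold nry_cval
  rw [Polynomial.aeval_def]
  congr 1

theorem nry_aeval_map_int {k Ω : Type*} [Field k] [CommRing Ω] [Algebra k Ω] (c : ℤ[X]) (x : Ω) :
    Polynomial.aeval x (c.map (Int.castRingHom k)) = nry_cval c x := by
  unfold nry_cval
  rw [Polynomial.aeval_def, Polynomial.eval₂_map]
  congr 1
  exact RingHom.ext_int _ _

/-! ### the reduction on `R` -/

section Red

variable {ℓ : ℕ} [Fact ℓ.Prime]
variable {B₀ R : Type*} [CommRing B₀] [CommRing R] [Algebra B₀ R] (p : B₀)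
variable (incl : R →+* LaurentSeries ℚ) (hW : ∀ t, incl t ∈ gaussRing ℓ)

/-- the reduction `R → 𝔽_ℓ((q))`. -/
def nry_rhoR : R →+* LaurentSeries (ZMod ℓ) :=
  (rho ℓ).comp (incl.codRestrict (gaussRing ℓ) hW)

theorem nry_rhoR_apply (t : R) : nry_rhoR incl hW t = rho ℓ ⟨incl t, hW t⟩ := rfl

/-- `ρ` does not depend on the membership proof. -/
theorem nry_rho_congr {x y : LaurentSeries ℚ} (h : x = y) (hx : x ∈ gaussRing ℓ)
    (hy : y ∈ gaussRing ℓ) : rho ℓ ⟨x, hx⟩ = rho ℓ ⟨y, hy⟩ := by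
  subst h; rfl

variable (hp : nry_rhoR incl hW (algebraMap B₀ R p) = 0)

/-- the induced map on `R / p R`. -/
def nry_phi0 : (R ⧸ Ideal.map (algebraMap B₀ R) (Ideal.span {p})) →+* LaurentSeries (ZMod ℓ) :=
  Ideal.Quotient.lift _ (nry_rhoR incl hW) (by
    intro a ha
    have hle : Ideal.map (algebraMap B₀ R) (Ideal.span {p}) ≤ RingHom.ker (nry_rhoR incl hW) := by
      rw [Ideal.map_le_iff_le_comap, Ideal.span_le]
      intro y hy
      rw [Set.mem_singleton_iff] at hy
      subst hy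
      exact hp
    exact hle ha)

theorem nry_phi0_mk (t : R) :
    nry_phi0 p incl hW hp (Ideal.Quotient.mk _ t) = nry_rhoR incl hW t := rfl

theorem nry_phi0_injective
    (hker : ∀ t, nry_rhoR incl hW t = 0 → t ∈ Ideal.map (algebraMap B₀ R) (Ideal.span {p})) :
    Function.Injective (nry_phi0 p incl hW hp) := by
  rw [injective_iff_map_eq_zero]
  intro a ha
  obtain ⟨t, rfl⟩ := Ideal.Quotient.mk_surjective a
  rw [nry_phi0_mk] at ha
  exact Ideal.Quotient.eq_zero_iff_mem.mpr (hker t ha)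

theorem nry_phi0_algebraMap (b : B₀) :
    nry_phi0 p incl hW hp (algebraMap (B₀ ⧸ Ideal.span {p}) _ (Ideal.Quotient.mk _ b)) =
      nry_rhoR incl hW (algebraMap B₀ R b) := rfl

end Red

/-! ### the `k`-side base ring -/

section Base

variable {k : Type*} [Field k] (ck : k[X]) (hk : LaurentSeries k)
  (hck : Polynomial.aeval hk ck ≠ 0)

theorem nry_algebraMap_eq_C (a : k) : algebraMap k (LaurentSeries k) a = HahnSeries.C a := by
  rw [algebraMap_laurentSeries_eq_single, HahnSeries.C_apply]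

theorem nry_eval_C (a : k) :
    pur_base_eval ck hk hck (algebraMap k[X] (pur_Base ck) (Polynomial.C a)) = HahnSeries.C a := by
  rw [pur_base_eval_algebraMap, Polynomial.aeval_C, nry_algebraMap_eq_C]

theorem nry_eval_X :
    pur_base_eval ck hk hck (algebraMap k[X] (pur_Base ck) Polynomial.X) = hk := by
  rw [pur_base_eval_algebraMap, Polynomial.aeval_X]

theorem nry_eval_invSelf :
    pur_base_eval ck hk hck (IsLocalization.Away.invSelf (S := pur_Base ck) ck) =
      (Polynomial.aeval hk ck)⁻¹ := by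
  have h1 : pur_base_eval ck hk hck (algebraMap k[X] (pur_Base ck) ck) *
      pur_base_eval ck hk hck (IsLocalization.Away.invSelf (S := pur_Base ck) ck) = 1 := by
    rw [← map_mul, IsLocalization.Away.mul_invSelf, map_one]
  rw [pur_base_eval_algebraMap] at h1
  exact eq_inv_of_mul_eq_one_right h1

/-- every value of the evaluation is `P(h) / c(h)^m`. -/
theorem nry_eval_eq_div (d : pur_Base ck) :
    ∃ (P : k[X]) (m : ℕ),
      pur_base_eval ck hk hck d = Polynomial.aeval hk P * ((Polynomial.aeval hk ck)⁻¹) ^ m := by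
  obtain ⟨⟨P, ⟨_, m, rfl⟩⟩, hPs⟩ := IsLocalization.surj (Submonoid.powers ck) d
  refine ⟨P, m, ?_⟩
  have h1 := congrArg (pur_base_eval ck hk hck) hPs
  rw [map_mul, pur_base_eval_algebraMap, pur_base_eval_algebraMap, map_pow] at h1
  rw [← h1, inv_pow, mul_assoc, mul_inv_cancel₀ (pow_ne_zero _ hck), mul_one]

/-- the values of the evaluation lie in `k(h)`. -/
theorem nry_eval_mem_adjoin (d : pur_Base ck) :
    pur_base_eval ck hk hck d ∈ IntermediateField.adjoin k {hk} := by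
  obtain ⟨P, m, h⟩ := nry_eval_eq_div ck hk hck d
  rw [h]
  have hmem : ∀ Q : k[X], Polynomial.aeval hk Q ∈ IntermediateField.adjoin k {hk} := fun Q =>
    IntermediateField.algebra_adjoin_le_adjoin k _ (Polynomial.aeval_mem_adjoin_singleton k hk)
  exact mul_mem (hmem P) (pow_mem (inv_mem (hmem ck)) m)

end Base

/-! ### the image of `ℤ_(ℓ)[h, 1/c(h)]` -/

section Closure

variable {ℓ : ℕ} [Fact ℓ.Prime] {k : Type*} [Field k] [Algebra (ZMod ℓ) k]
variable (hZ : LaurentSeries (ZL ℓ)) (c : ℤ[X])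

theorem nry_toQ_C (z : ZL ℓ) : toQ ℓ (HahnSeries.C z) = HahnSeries.C (z : ℚ) := by
  rw [toQ, HahnSeries.C_apply, HahnSeries.C_apply, coeffMap_single]
  rfl

theorem nry_red_C (z : ZL ℓ) : red ℓ (HahnSeries.C z) = HahnSeries.C (resZL ℓ z) := by
  rw [red, HahnSeries.C_apply, HahnSeries.C_apply, coeffMap_single]

theorem nry_cval_mem_gaussRing : nry_cval c (toQ ℓ hZ) ∈ gaussRing ℓ := by
  rw [← nry_cval_map]
  exact toQ_mem_gaussRing ℓ _

theorem nry_rho_cval :
    rho ℓ ⟨nry_cval c (toQ ℓ hZ), nry_cval_mem_gaussRing hZ c⟩ = nry_cval c (red ℓ hZ) := by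
  rw [nry_rho_congr (nry_cval_map (toQ ℓ) c hZ).symm (nry_cval_mem_gaussRing hZ c)
    (toQ_mem_gaussRing ℓ _), rho_toQ, nry_cval_map]

theorem nry_cval_inv_mem_gaussRing (hc : nry_cval c (red ℓ hZ) ≠ 0) :
    (nry_cval c (toQ ℓ hZ))⁻¹ ∈ gaussRing ℓ :=
  ch_inv_mem_gaussRing ℓ (nry_cval_mem_gaussRing hZ c) (by rw [nry_rho_cval]; exact hc)

theorem nry_rho_cval_inv (hc : nry_cval c (red ℓ hZ) ≠ 0) :
    rho ℓ ⟨(nry_cval c (toQ ℓ hZ))⁻¹, nry_cval_inv_mem_gaussRing hZ c hc⟩ =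
      (nry_cval c (red ℓ hZ))⁻¹ := by
  have hx0 : nry_cval c (toQ ℓ hZ) ≠ 0 := by
    intro h0
    apply hc
    have h1 := nry_rho_cval (ℓ := ℓ) hZ c
    rw [← h1, nry_rho_congr h0 (nry_cval_mem_gaussRing hZ c) (gaussRing ℓ).zero_mem]
    exact map_zero (rho ℓ)
  have h1 : rho ℓ ⟨(nry_cval c (toQ ℓ hZ))⁻¹, nry_cval_inv_mem_gaussRing hZ c hc⟩ *
      rho ℓ ⟨nry_cval c (toQ ℓ hZ), nry_cval_mem_gaussRing hZ c⟩ = 1 := by
    rw [← map_mul]
    have : (⟨(nry_cval c (toQ ℓ hZ))⁻¹, nry_cval_inv_mem_gaussRing hZ c hc⟩ *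
        ⟨nry_cval c (toQ ℓ hZ), nry_cval_mem_gaussRing hZ c⟩ : gaussRing ℓ) = 1 := by
      apply Subtype.ext
      show (nry_cval c (toQ ℓ hZ))⁻¹ * nry_cval c (toQ ℓ hZ) = 1
      exact inv_mul_cancel₀ hx0
    rw [this, map_one]
  rw [nry_rho_cval] at h1
  exact eq_inv_of_mul_eq_one_left h1

/-- the generators of `ℤ_(ℓ)[h, 1/c(h)]` inside `ℚ((q))`. -/
def nry_gens : Set (LaurentSeries ℚ) :=
  Set.range (fun z : ZL ℓ => (HahnSeries.C (z : ℚ) : LaurentSeries ℚ)) ∪
    {toQ ℓ hZ, (nry_cval c (toQ ℓ hZ))⁻¹}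

/-- the elements of `ℤ_(ℓ)[h, 1/c(h)]` lie in the Gauss ring and reduce into the range of
`k[X][1/c] → k((q))`. -/
theorem nry_closure_range (hc : nry_cval c (red ℓ hZ) ≠ 0)
    (hck : Polynomial.aeval (coeffMap (algebraMap (ZMod ℓ) k) (red ℓ hZ))
      (c.map (Int.castRingHom k)) ≠ 0)
    {y : LaurentSeries ℚ} (hy : y ∈ Subring.closure (nry_gens hZ c)) :
    ∃ hyW : y ∈ gaussRing ℓ, coeffMap (algebraMap (ZMod ℓ) k) (rho ℓ ⟨y, hyW⟩) ∈
      (pur_base_eval (c.map (Int.castRingHom k))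
        (coeffMap (algebraMap (ZMod ℓ) k) (red ℓ hZ)) hck).range := by
  set ψ := coeffMap (algebraMap (ZMod ℓ) k) with hψ
  set ev := pur_base_eval (c.map (Int.castRingHom k)) (ψ (red ℓ hZ)) hck with hev
  -- the subring of good elements
  set S₂ : Subring (LaurentSeries ℚ) :=
    Subring.map (gaussRing ℓ).subtype (Subring.comap (ψ.comp (rho ℓ)) ev.range) with hS₂
  have hmemS₂ : ∀ {y : LaurentSeries ℚ} (hyW : y ∈ gaussRing ℓ),
      ψ (rho ℓ ⟨y, hyW⟩) ∈ ev.range → y ∈ S₂ := by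
    intro y hyW h
    exact ⟨⟨y, hyW⟩, h, rfl⟩
  have hle : Subring.closure (nry_gens hZ c) ≤ S₂ := by
    rw [Subring.closure_le]
    rintro y (⟨z, rfl⟩ | hy)
    · -- constants
      have h1 : (HahnSeries.C (z : ℚ) : LaurentSeries ℚ) = toQ ℓ (HahnSeries.C z) :=
        (nry_toQ_C z).symm
      have hW1 : (HahnSeries.C (z : ℚ) : LaurentSeries ℚ) ∈ gaussRing ℓ := by
        rw [h1]; exact toQ_mem_gaussRing ℓ _
      refine hmemS₂ hW1 ?_
      rw [nry_rho_congr h1 hW1 (toQ_mem_gaussRing ℓ _), rho_toQ, nry_red_C]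
      refine ⟨algebraMap k[X] _ (Polynomial.C (algebraMap (ZMod ℓ) k (resZL ℓ z))), ?_⟩
      rw [hev, nry_eval_C, hψ, HahnSeries.C_apply, HahnSeries.C_apply, coeffMap_single]
    · rcases hy with rfl | hy
      · -- the coordinate
        refine hmemS₂ (toQ_mem_gaussRing ℓ hZ) ?_
        rw [rho_toQ]
        exact ⟨algebraMap k[X] _ Polynomial.X, by rw [hev, nry_eval_X]⟩
      · rw [Set.mem_singleton_iff] at hy
        subst hy
        refine hmemS₂ (nry_cval_inv_mem_gaussRing hZ c hc) ?_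
        rw [nry_rho_cval_inv hZ c hc, map_inv₀, nry_cval_map]
        refine ⟨IsLocalization.Away.invSelf (S := pur_Base (c.map (Int.castRingHom k)))
          (c.map (Int.castRingHom k)), ?_⟩
        rw [hev, nry_eval_invSelf, nry_aeval_map_int]
  obtain ⟨⟨y', hy'W⟩, hy'1, hy'2⟩ := hle hy
  have hyy : y' = y := hy'2
  subst hyy
  exact ⟨hy'W, hy'1⟩

end Closure

end

end Fermat.Agent.S18x
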