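/-
S18 project, block NRM (helper86, prefix `nycf_`): the elementary coordinate-specific inputs of
`puri_exists_basis_isUnit_discr` / `nry_main` for the two level-`Y` instances

* `ℓ` odd: `(e, h, c) = (2, X₃, X² - 64)`   (`purb_X3Q`, `lyn_X3Z`, `lyn_X3F`, `purb_c3`);
* `ℓ = 2`: `(e, h, c) = (3, μ, X³ - 27)`    (`lyn_muQ`, `lyn_muZ`, `lyn_muF`, `lyn_c2`).

Contents: `c ≠ 0`, `c` monic, `¬ C ℓ ∣ c`, the value `c(x)` in `nry_cval` / `aeval` / `eval₂` form,
`c(h̄) ≠ 0` in characteristic `ℓ`, `c(h) ≠ 0` in characteristic `0`, and the defining identities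
`j(q^e) · c(h)^m = A(h)` in `nry_cval` and `aeval` form.
-/
import Mathlib
import Fermat.Agent.S18x.LevelYInst
import Fermat.Agent.S18x.NrmYDefs

set_option autoImplicit false

namespace Fermat.Agent.S18x

open Polynomial ModularCurve Fermat.Agent.S28x

noncomputable section

/-! ### generic facts -/

/-- a monic integer polynomial is not divisible by the constant `ℓ`. -/
theorem nycf_not_dvd_of_monic (ℓ : ℕ) [Fact ℓ.Prime] {c : ℤ[X]} (hc : c.Monic) :
    ¬ C (ℓ : ℤ) ∣ c := by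
  rintro ⟨d, hd⟩
  have h1 : c.leadingCoeff = (ℓ : ℤ) * d.leadingCoeff := by
    rw [hd, leadingCoeff_mul, leadingCoeff_C]
  rw [hc.leadingCoeff] at h1
  have h2 : ((ℓ : ℤ)) ∣ 1 := ⟨_, h1⟩
  have h3 : (ℓ : ℤ) = 1 ∨ (ℓ : ℤ) = -1 := Int.isUnit_iff.mp (isUnit_of_dvd_one h2)
  have hl := (Fact.out : ℓ.Prime).two_le
  omega

/-- `nry_cval` is `aeval`. -/
theorem nycf_cval_eq_aeval {R : Type*} [CommRing R] (c : ℤ[X]) (x : R) :
    nry_cval c x = Polynomial.aeval x c := by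
  unfold nry_cval
  rw [Polynomial.aeval_def, algebraMap_int_eq]

/-- the value of a nonzero integer polynomial at a transcendental element is nonzero. -/
theorem nycf_cval_ne_zero_of_transcendental {K A : Type*} [Field K] [CommRing A] [Algebra K A]
    (c : ℤ[X]) (hc : c.map (Int.castRingHom K) ≠ 0) {x : A} (hx : Transcendental K x) :
    nry_cval c x ≠ 0 := by
  intro h0
  apply hx
  refine ⟨c.map (Int.castRingHom K), hc, ?_⟩
  rw [Polynomial.aeval_def, Polynomial.eval₂_map]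
  unfold nry_cval at h0
  rw [← h0]
  congr 1
  exact Subsingleton.elim _ _

/-- a monic integer polynomial stays nonzero over any nontrivial ring. -/
theorem nycf_map_ne_zero_of_monic {K : Type*} [CommRing K] [Nontrivial K] {c : ℤ[X]}
    (hc : c.Monic) : c.map (Int.castRingHom K) ≠ 0 :=
  (hc.map (Int.castRingHom K)).ne_zero

/-! ### the polynomial `X² - 64` (`ℓ` odd) -/

theorem nycf_c3_monic : purb_c3.Monic := by
  unfold purb_c3
  have h : (X ^ 2 - 64 : ℤ[X]) = X ^ 2 - C 64 := by simp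
  rw [h]
  exact monic_X_pow_sub_C 64 (by norm_num)

theorem nycf_c3_ne_zero : purb_c3 ≠ 0 := nycf_c3_monic.ne_zero

theorem nycf_c3_not_dvd (ℓ : ℕ) [Fact ℓ.Prime] : ¬ C (ℓ : ℤ) ∣ purb_c3 :=
  nycf_not_dvd_of_monic ℓ nycf_c3_monic

theorem nycf_cval_c3 {R : Type*} [CommRing R] (x : R) : nry_cval purb_c3 x = x ^ 2 - 64 := by
  unfold nry_cval purb_c3
  simp

theorem nycf_aeval_c3 {R : Type*} [CommRing R] (x : R) :
    Polynomial.aeval x purb_c3 = x ^ 2 - 64 := by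
  rw [← nycf_cval_eq_aeval, nycf_cval_c3]

/-- the numerator polynomial `(X² + 192)³` of `j(q²)` on the `λ`-line. -/
def nycf_A3 : ℤ[X] := (X ^ 2 + 192) ^ 3

theorem nycf_cval_A3 {R : Type*} [CommRing R] (x : R) :
    nry_cval nycf_A3 x = (x ^ 2 + 192) ^ 3 := by
  unfold nry_cval nycf_A3
  simp [Polynomial.eval₂_pow]

theorem nycf_aeval_A3 {R : Type*} [CommRing R] (x : R) :
    Polynomial.aeval x nycf_A3 = (x ^ 2 + 192) ^ 3 := by
  rw [← nycf_cval_eq_aeval, nycf_cval_A3]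

/-! ### the polynomial `X³ - 27` (`ℓ = 2`) -/

theorem nycf_c2_monic : lyn_c2.Monic := by
  unfold lyn_c2
  have h : (X ^ 3 - 27 : ℤ[X]) = X ^ 3 - C 27 := by simp
  rw [h]
  exact monic_X_pow_sub_C 27 (by norm_num)

theorem nycf_c2_ne_zero : lyn_c2 ≠ 0 := nycf_c2_monic.ne_zero

theorem nycf_c2_not_dvd (ℓ : ℕ) [Fact ℓ.Prime] : ¬ C (ℓ : ℤ) ∣ lyn_c2 :=
  nycf_not_dvd_of_monic ℓ nycf_c2_monic

theorem nycf_cval_c2 {R : Type*} [CommRing R] (x : R) : nry_cval lyn_c2 x = x ^ 3 - 27 := by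
  unfold nry_cval lyn_c2
  simp

theorem nycf_aeval_c2 {R : Type*} [CommRing R] (x : R) :
    Polynomial.aeval x lyn_c2 = x ^ 3 - 27 := by
  rw [← nycf_cval_eq_aeval, nycf_cval_c2]

/-- the numerator polynomial `X³ (X³ + 216)³` of `j(q³)` on the Hesse line. -/
def nycf_A2 : ℤ[X] := X ^ 3 * (X ^ 3 + 216) ^ 3

theorem nycf_cval_A2 {R : Type*} [CommRing R] (x : R) :
    nry_cval nycf_A2 x = x ^ 3 * (x ^ 3 + 216) ^ 3 := by
  unfold nry_cval nycf_A2
  simp [Polynomial.eval₂_pow]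

theorem nycf_aeval_A2 {R : Type*} [CommRing R] (x : R) :
    Polynomial.aeval x nycf_A2 = x ^ 3 * (x ^ 3 + 216) ^ 3 := by
  rw [← nycf_cval_eq_aeval, nycf_cval_A2]

/-! ### `ℓ` odd: the instance facts -/

section Odd

variable (ℓ : ℕ) [Fact ℓ.Prime] (hl : ℓ ≠ 2)

/-- `c(X̄₃) ≠ 0` in characteristic `ℓ`. -/
theorem nycf_cval_X3F_ne_zero : nry_cval purb_c3 (lyn_X3F ℓ hl) ≠ 0 :=
  nycf_cval_ne_zero_of_transcendental (K := ZMod ℓ) purb_c3
    (nycf_map_ne_zero_of_monic nycf_c3_monic) (lyn_transcendental_X3F ℓ hl)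

/-- the same with the coordinate written as `red ℓ (lyn_X3Z ℓ hl)` (the `hc` of `nry_main`). -/
theorem nycf_cval_red_X3Z_ne_zero : nry_cval purb_c3 (red ℓ (lyn_X3Z ℓ hl)) ≠ 0 := by
  rw [lyn_red_X3Z]
  exact nycf_cval_X3F_ne_zero ℓ hl

/-- the `htr` of `nry_main`. -/
theorem nycf_transcendental_red_X3Z : Transcendental (ZMod ℓ) (red ℓ (lyn_X3Z ℓ hl)) := by
  rw [lyn_red_X3Z]
  exact lyn_transcendental_X3F ℓ hl

/-- `c(X₃) ≠ 0` in characteristic `0`. -/
theorem nycf_cval_X3Q_ne_zero : nry_cval purb_c3 purb_X3Q ≠ 0 :=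
  nycf_cval_ne_zero_of_transcendental (K := ℚ) purb_c3
    (nycf_map_ne_zero_of_monic nycf_c3_monic) lyn_transcendental_X3Q

/-- the defining identity over `ℚ`, `nry_cval` form: `j(q²) c(X₃)² = A(X₃)`. -/
theorem nycf_X3Q_hid :
    qExpand ℚ 2 jq * nry_cval purb_c3 purb_X3Q ^ 2 = nry_cval nycf_A3 purb_X3Q := by
  rw [nycf_cval_c3, nycf_cval_A3]
  exact (purb_X3_identity purb_isUnit_two_rat).symm

/-- the defining identity over `ℚ`, `aeval` form. -/
theorem nycf_X3Q_hid_aeval :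
    qExpand ℚ 2 jq * Polynomial.aeval purb_X3Q purb_c3 ^ 2 =
      Polynomial.aeval purb_X3Q nycf_A3 := by
  simp only [purb_c3, nycf_A3, map_sub, map_add, map_pow, Polynomial.aeval_X, map_ofNat]
  exact (purb_X3_identity purb_isUnit_two_rat).symm

/-- the defining identity over `𝔽_ℓ`, `nry_cval` form. -/
theorem nycf_X3F_hid :
    qExpand (ZMod ℓ) 2 (jqModC (ZMod ℓ)) * nry_cval purb_c3 (lyn_X3F ℓ hl) ^ 2 =
      nry_cval nycf_A3 (lyn_X3F ℓ hl) := by
  rw [nycf_cval_c3, nycf_cval_A3]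
  exact (lyn_X3F_identity ℓ hl).symm

end Odd

/-! ### `ℓ = 2`: the instance facts -/

section Two

/-- `c(μ̄) ≠ 0` in characteristic `2`. -/
theorem nycf_cval_muF_ne_zero : nry_cval lyn_c2 lyn_muF ≠ 0 :=
  nycf_cval_ne_zero_of_transcendental (K := ZMod 2) lyn_c2
    (nycf_map_ne_zero_of_monic nycf_c2_monic) lyn_transcendental_muF

/-- the same with the coordinate written as `red 2 lyn_muZ` (the `hc` of `nry_main`). -/
theorem nycf_cval_red_muZ_ne_zero : nry_cval lyn_c2 (red 2 lyn_muZ) ≠ 0 := by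
  rw [lyn_red_muZ]
  exact nycf_cval_muF_ne_zero

/-- the `htr` of `nry_main`. -/
theorem nycf_transcendental_red_muZ : Transcendental (ZMod 2) (red 2 lyn_muZ) := by
  rw [lyn_red_muZ]
  exact lyn_transcendental_muF

/-- `c(μ) ≠ 0` in characteristic `0`. -/
theorem nycf_cval_muQ_ne_zero : nry_cval lyn_c2 lyn_muQ ≠ 0 :=
  nycf_cval_ne_zero_of_transcendental (K := ℚ) lyn_c2
    (nycf_map_ne_zero_of_monic nycf_c2_monic) lyn_transcendental_muQ

/-- the defining identity over `ℚ`, `nry_cval` form: `j(q³) c(μ)³ = A(μ)`. -/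
theorem nycf_muQ_hid :
    qExpand ℚ 3 jq * nry_cval lyn_c2 lyn_muQ ^ 3 = nry_cval nycf_A2 lyn_muQ := by
  rw [nycf_cval_c2, nycf_cval_A2]
  exact lyn_muQ_identity.symm

/-- the defining identity over `ℚ`, `aeval` form. -/
theorem nycf_muQ_hid_aeval :
    qExpand ℚ 3 jq * Polynomial.aeval lyn_muQ lyn_c2 ^ 3 = Polynomial.aeval lyn_muQ nycf_A2 := by
  simp only [lyn_c2, nycf_A2, map_sub, map_add, map_mul, map_pow, Polynomial.aeval_X, map_ofNat]
  exact lyn_muQ_identity.symm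

/-- the defining identity over `𝔽₂`, `nry_cval` form. -/
theorem nycf_muF_hid :
    qExpand (ZMod 2) 3 (jqModC (ZMod 2)) * nry_cval lyn_c2 lyn_muF ^ 3 =
      nry_cval nycf_A2 lyn_muF := by
  rw [nycf_cval_c2, nycf_cval_A2]
  exact lyn_muF_identity.symm

end Two

end

end Fermat.Agent.S18x
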