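/-
S18x/ModIdTwo (helper11, row B1.0 of the PUR/NRM_Y block): the classical level-2 modular identity
`E₄³ Δ Δ(q²) = (Δ + 256 Δ(q²))³`, i.e. `j · x = (1 + 256 x)³` for `x = Δ(q²)/Δ(q)`, as an
identity of formal `q`-series.  Proof: the difference is a modular form of weight 36 on `Γ₀(2)`
whose first ten `q`-coefficients vanish (`ModIdTwoArith`), hence it is zero by the Sturm bound.
-/
import Mathlib
import Fermat.Prelude.Thm_ModularForm_sturm_bound_Gamma0
import Fermat.Agent.S18x.ModIdTwoArith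
import Fermat.Agent.S23x.LevelRaise
import Fermat.Agent.S24x.E4QExp
import Fermat.Agent.S07x.Index
import Fermat.Prelude.Def_ModularCurve_ModularUnit

set_option autoImplicit false

noncomputable section

namespace Fermat.Agent.S18x

open UpperHalfPlane ModularForm EisensteinSeries CongruenceSubgroup
open Fermat.Agent.S23x
open scoped MatrixGroups Manifold

/-! ### `q`-expansions of nice functions form a ring -/

theorem mid2_qe_mul {f g : ℍ → ℂ} (hf : IsNice f) (hg : IsNice g) :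
    qExpansion 1 (f * g) = qExpansion 1 f * qExpansion 1 g :=
  qExpansion_mul hf.analyticAt_cuspFunction hg.analyticAt_cuspFunction

theorem mid2_qe_add {f g : ℍ → ℂ} (hf : IsNice f) (hg : IsNice g) :
    qExpansion 1 (f + g) = qExpansion 1 f + qExpansion 1 g :=
  qExpansion_add hf.analyticAt_cuspFunction hg.analyticAt_cuspFunction

theorem mid2_qe_smul {f : ℍ → ℂ} (hf : IsNice f) (c : ℂ) :
    qExpansion 1 (c • f) = c • qExpansion 1 f :=
  qExpansion_smul hf.analyticAt_cuspFunction c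

theorem mid2_qe_pow {f : ℍ → ℂ} (hf : IsNice f) (n : ℕ) :
    qExpansion 1 (f ^ n) = qExpansion 1 f ^ n := by
  induction n with
  | zero => rw [pow_zero, pow_zero, qExpansion_one]
  | succ n ih =>
    rw [pow_succ, pow_succ, mid2_qe_mul (hf.pow n) hf, ih]

/-! ### the weight-36 form on `Γ₀(2)` -/

/-- `E₄` as a raw function -/
def mid2_fE : ℍ → ℂ := ⇑E₄

/-- `Δ` as a raw function -/
def mid2_fD : ℍ → ℂ := ModularForm.discriminant

/-- `z ↦ Δ(2z)` -/
def mid2_fD2 : ℍ → ℂ := fun z => ModularForm.discriminant (mulN 2 z)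

/-- `E₄³ Δ Δ₂ - (Δ + 256 Δ₂)³` -/
def mid2_Phi : ℍ → ℂ :=
  mid2_fE ^ 3 * mid2_fD * mid2_fD2 + (-1 : ℂ) • (mid2_fD + (256 : ℂ) • mid2_fD2) ^ 3

theorem mid2_isMF_fE : IsMF 2 4 mid2_fE := m08_isMF1_E4.isMF 2

theorem mid2_isMF_fD : IsMF 2 12 mid2_fD := m08_isMF1_discriminant.isMF 2

theorem mid2_isMF_fD2 : IsMF 2 12 mid2_fD2 := isMF_comp_mulN 2 m08_isMF1_discriminant

theorem mid2_isMF_Phi : IsMF 2 36 mid2_Phi :=
  ((((mid2_isMF_fE.pow 3).mul mid2_isMF_fD).mul mid2_isMF_fD2).cast (by norm_num)).add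
    ((((mid2_isMF_fD.add (mid2_isMF_fD2.smul 256)).pow 3).smul (-1)).cast (by norm_num))

/-- the coefficient embedding `ℤ → ℂ` -/
abbrev mid2_iota : ℤ →+* ℂ := Int.castRingHom ℂ

theorem mid2_qe_fE : qExpansion 1 mid2_fE = ModularCurve.eisenstein4.map mid2_iota :=
  Fermat.Agent.S24x.qExpansion_E4

theorem mid2_qe_fD : qExpansion 1 mid2_fD = mid2_D.map mid2_iota := by
  rw [mid2_fD, Fermat.Agent.S24x.qExpansion_discriminant, mid2_D, map_mul, PowerSeries.map_X]

theorem mid2_qe_fD2 : qExpansion 1 mid2_fD2 = mid2_D2.map mid2_iota := by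
  ext n
  unfold mid2_fD2
  rw [qExpansion_comp_mulN_coeff 2 m08_isMF1_discriminant n, PowerSeries.coeff_map,
    mid2_D2, PowerSeries.coeff_expand]
  have h := mid2_qe_fD
  rw [mid2_fD] at h
  split_ifs with hn
  · rw [h, PowerSeries.coeff_map]
  · rw [map_zero]

theorem mid2_qe_Phi :
    qExpansion 1 mid2_Phi =
      (ModularCurve.eisenstein4 ^ 3 * mid2_D * mid2_D2 - (mid2_D + 256 * mid2_D2) ^ 3).map
        mid2_iota := by
  have nE := mid2_isMF_fE.isNice
  have nD := mid2_isMF_fD.isNice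
  have nD2 := mid2_isMF_fD2.isNice
  rw [mid2_Phi, mid2_qe_add (((nE.pow 3).mul nD).mul nD2) (((nD.add (nD2.smul 256)).pow 3).smul (-1)),
    mid2_qe_mul ((nE.pow 3).mul nD) nD2, mid2_qe_mul (nE.pow 3) nD, mid2_qe_pow nE,
    mid2_qe_smul ((nD.add (nD2.smul 256)).pow 3), mid2_qe_pow (nD.add (nD2.smul 256)),
    mid2_qe_add nD (nD2.smul 256), mid2_qe_smul nD2, mid2_qe_fE, mid2_qe_fD, mid2_qe_fD2]
  simp only [map_sub, map_mul, map_pow, map_add, map_ofNat, PowerSeries.smul_eq_C_mul, map_neg,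
    map_one]
  ring

/-- **Sturm**: the weight-36 form vanishes identically. -/
theorem mid2_Phi_eq_zero : mid2_Phi = 0 := by
  obtain ⟨F, hF⟩ := mid2_isMF_Phi
  have hidx : (Gamma0 2).index ≤ 3 := Fermat.Agent.S07x.index_Gamma0_two_le
  have hF0 : F = 0 := by
    apply ModularForm.sturm_bound_Gamma0 2 F
    intro n hn
    have hn9 : n ≤ 9 := by
      have h1 : ((36 : ℤ) * ((Gamma0 2).index : ℤ)).toNat = 36 * (Gamma0 2).index := by
        rw [show ((36 : ℤ) * ((Gamma0 2).index : ℤ)) = ((36 * (Gamma0 2).index : ℕ) : ℤ) by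
          push_cast; ring, Int.toNat_natCast]
      rw [h1] at hn
      omega
    rw [hF, mid2_qe_Phi, PowerSeries.coeff_map, mid2_trunc_zero n hn9, map_zero]
  rw [← hF, hF0]
  rfl

/-- **The level-2 modular identity over `ℤ⟦X⟧`**:
`E₄³ · D · D₂ = (D + 256 D₂)³` with `D = X · etaProd^24`, `D₂ = D(X²)`. -/
theorem mid2_int :
    ModularCurve.eisenstein4 ^ 3 * mid2_D * mid2_D2 = (mid2_D + 256 * mid2_D2) ^ 3 := by
  have h := mid2_qe_Phi
  rw [mid2_Phi_eq_zero, qExpansion_zero] at h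
  have h2 : (ModularCurve.eisenstein4 ^ 3 * mid2_D * mid2_D2 - (mid2_D + 256 * mid2_D2) ^ 3).map
      mid2_iota = (0 : PowerSeries ℤ).map mid2_iota := by rw [← h, map_zero]
  exact sub_eq_zero.mp (PowerSeries.map_injective _ Int.cast_injective h2)

/-! ### transfer to the Prelude's Laurent series over `ℚ` -/

open ModularCurve

/-- `ℤ⟦X⟧ → ℚ((X))` -/
def mid2_L : PowerSeries ℤ →+* LaurentSeries ℚ :=
  (HahnSeries.ofPowerSeries ℤ ℚ).comp (PowerSeries.map (Int.castRingHom ℚ))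

theorem mid2_L_apply (f : PowerSeries ℤ) :
    mid2_L f = HahnSeries.ofPowerSeries ℤ ℚ (f.map (Int.castRingHom ℚ)) := rfl

theorem mid2_qExpand_ofPowerSeries {R : Type*} [CommRing R] (p : ℕ) [NeZero p]
    (P : PowerSeries R) :
    qExpand R p (HahnSeries.ofPowerSeries ℤ R P) =
      HahnSeries.ofPowerSeries ℤ R (PowerSeries.expand p (NeZero.ne p) P) := by
  ext k
  by_cases hk : (p : ℤ) ∣ k
  · obtain ⟨m, rfl⟩ := hk
    rw [qExpand_coeff_mul]
    rcases le_or_gt 0 m with hm | hm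
    · lift m to ℕ using hm
      rw [HahnSeries.ofPowerSeries_apply_coeff,
        show (p : ℤ) * (m : ℤ) = ((p * m : ℕ) : ℤ) by push_cast; ring,
        HahnSeries.ofPowerSeries_apply_coeff, PowerSeries.coeff_expand_mul]
    · rw [ofPowerSeries_coeff_of_neg _ hm, ofPowerSeries_coeff_of_neg]
      exact mul_neg_of_pos_of_neg (by exact_mod_cast Nat.pos_of_ne_zero (NeZero.ne p)) hm
  · rw [qExpand_coeff_of_not_dvd p _ hk]
    rcases le_or_gt 0 k with hk0 | hk0
    · lift k to ℕ using hk0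
      rw [HahnSeries.ofPowerSeries_apply_coeff, PowerSeries.coeff_expand_of_not_dvd]
      intro h
      exact hk (by exact_mod_cast h)
    · rw [ofPowerSeries_coeff_of_neg _ hk0]

theorem mid2_L_D : mid2_L mid2_D = deltaSeries := by
  rw [mid2_L_apply, mid2_D, map_mul, PowerSeries.map_X, map_mul, HahnSeries.ofPowerSeries_X,
    deltaSeries, dedekindEtaUnitQ, dedekindEtaUnit]

theorem mid2_L_D2 : mid2_L mid2_D2 = deltaSeriesN 2 := by
  rw [deltaSeriesN, ← mid2_L_D, mid2_L_apply, mid2_L_apply, mid2_qExpand_ofPowerSeries, mid2_D2,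
    PowerSeries.map_expand]

theorem mid2_jq_mul_deltaSeries : jq * deltaSeries = mid2_L (eisenstein4 ^ 3) := by
  have h1 : HahnSeries.single (-1 : ℤ) (1 : ℚ) * HahnSeries.single (1 : ℤ) (1 : ℚ) = 1 := by
    rw [HahnSeries.single_mul_single]
    simp
  have h2 : jNumQ * dedekindEtaUnitQ = (eisenstein4 ^ 3).map (Int.castRingHom ℚ) := by
    rw [jNumQ, dedekindEtaUnitQ, ← map_mul, jNum, mul_assoc, mul_comm dedekindEtaUnitInv,
      dedekindEtaUnit_mul_inv, mul_one]
  calc jq * deltaSeries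
      = (HahnSeries.single (-1 : ℤ) (1 : ℚ) * HahnSeries.single (1 : ℤ) (1 : ℚ)) *
          (HahnSeries.ofPowerSeries ℤ ℚ jNumQ * HahnSeries.ofPowerSeries ℤ ℚ dedekindEtaUnitQ) := by
        rw [jq, deltaSeries]; ring
    _ = mid2_L (eisenstein4 ^ 3) := by rw [h1, one_mul, ← map_mul, h2, mid2_L_apply]

/-- **The level-2 modular identity** in the Prelude's notation:
`j · x = (1 + 256 x)³` for `x = Δ(q²)/Δ(q)`. -/
theorem mid2_main :
    jq * (deltaSeriesN 2 / deltaSeries) = (1 + 256 * (deltaSeriesN 2 / deltaSeries)) ^ 3 := by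
  have h := congrArg mid2_L mid2_int
  simp only [map_mul, map_pow, map_add, map_ofNat, mid2_L_D, mid2_L_D2] at h
  rw [← map_pow, ← mid2_jq_mul_deltaSeries] at h
  have hδ : deltaSeries ≠ 0 := deltaSeries_ne_zero
  field_simp
  linear_combination h

/-- Corollary: `u = 64 + Δ(q)/Δ(q²)` is a root of the cubic `(U + 192)³ = j (U - 64)²`. -/
theorem mid2_cubic :
    (64 + deltaSeries / deltaSeriesN 2 + 192) ^ 3 =
      jq * (64 + deltaSeries / deltaSeriesN 2 - 64) ^ 2 := by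
  have h := mid2_main
  have hδ : deltaSeries ≠ 0 := deltaSeries_ne_zero
  have hδ2 : deltaSeriesN 2 ≠ 0 := deltaSeriesN_ne_zero 2
  field_simp at h ⊢
  linear_combination (-1 : LaurentSeries ℚ) * h

end Fermat.Agent.S18x
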