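/-
S18x/ModIdThree (helper11, row N10 = (I3)): the classical level-3 modular identity
`j t³ = (t + 27)(t + 243)³` for `t = (η(q)/η(q³))^12`, in denominator-free form over `ℤ⟦X⟧`
(`mid3_int`), over an arbitrary commutative ring (`mid3_main`), together with the "y-quartic"
for `y = Δ/Δ₃` (`mid3_sq`) and its linear form (`mid3_lin`).
Proof: the y-quartic is a modular form identity of weight 48 on `Γ₀(3)` (Sturm bound 16,
truncated arithmetic in `ModIdThreeArith`); the square root is extracted formally in the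
integral domain `ℤ⟦X⟧` (sign fixed by the constant coefficient).
-/
import Mathlib
import Fermat.Agent.S18x.ModIdThreeArith
import Fermat.Agent.S18x.ModIdTwo
import Fermat.Agent.S24x.CombIndex
import Fermat.Prelude.Def_ModularCurve_JqCoeff

set_option autoImplicit false

noncomputable section

namespace Fermat.Agent.S18x

open UpperHalfPlane ModularForm EisensteinSeries CongruenceSubgroup
open Fermat.Agent.S23x
open scoped MatrixGroups Manifold

/-! ### the weight-48 form on `Γ₀(3)` -/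

/-- `z ↦ Δ(3z)` -/
def mid3_fD3 : ℍ → ℂ := fun z => ModularForm.discriminant (mulN 3 z)

/-- `E₄³ - 756 Δ - 19131876 Δ₃` -/
def mid3_fW : ℍ → ℂ :=
  mid2_fE ^ 3 + ((-756 : ℂ) • mid2_fD + (-19131876 : ℂ) • mid3_fD3)

/-- `Δ² + 196830 Δ Δ₃ + 3^18 Δ₃²` -/
def mid3_fV : ℍ → ℂ :=
  mid2_fD ^ 2 + ((196830 : ℂ) • (mid2_fD * mid3_fD3) + ((3 : ℂ) ^ 18) • mid3_fD3 ^ 2)

/-- `Δ Δ₃ W² - V²` -/
def mid3_Chi : ℍ → ℂ := mid2_fD * mid3_fD3 * mid3_fW ^ 2 + (-1 : ℂ) • mid3_fV ^ 2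

theorem mid3_isMF_fE : IsMF 3 4 mid2_fE := m08_isMF1_E4.isMF 3

theorem mid3_isMF_fD : IsMF 3 12 mid2_fD := m08_isMF1_discriminant.isMF 3

theorem mid3_isMF_fD3 : IsMF 3 12 mid3_fD3 := isMF_comp_mulN 3 m08_isMF1_discriminant

theorem mid3_isMF_fW : IsMF 3 12 mid3_fW :=
  ((mid3_isMF_fE.pow 3).cast (by norm_num)).add
    ((mid3_isMF_fD.smul _).add (mid3_isMF_fD3.smul _))

theorem mid3_isMF_fV : IsMF 3 24 mid3_fV :=
  ((mid3_isMF_fD.pow 2).cast (by norm_num)).add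
    ((((mid3_isMF_fD.mul mid3_isMF_fD3).smul _).cast (by norm_num)).add
      (((mid3_isMF_fD3.pow 2).smul _).cast (by norm_num)))

theorem mid3_isMF_Chi : IsMF 3 48 mid3_Chi :=
  (((mid3_isMF_fD.mul mid3_isMF_fD3).mul (mid3_isMF_fW.pow 2)).cast (by norm_num)).add
    (((mid3_isMF_fV.pow 2).smul (-1)).cast (by norm_num))

theorem mid3_qe_fD3 : qExpansion 1 mid3_fD3 = mid3_D3.map mid2_iota := by
  ext n
  unfold mid3_fD3
  rw [qExpansion_comp_mulN_coeff 3 m08_isMF1_discriminant n, PowerSeries.coeff_map,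
    mid3_D3, PowerSeries.coeff_expand]
  have h := mid2_qe_fD
  rw [mid2_fD] at h
  split_ifs with hn
  · rw [h, PowerSeries.coeff_map]
  · rw [map_zero]

theorem mid3_qe_fW :
    qExpansion 1 mid3_fW =
      (ModularCurve.eisenstein4 ^ 3 - 756 * mid2_D - 19131876 * mid3_D3).map mid2_iota := by
  have nE := mid3_isMF_fE.isNice
  have nD := mid3_isMF_fD.isNice
  have nD3 := mid3_isMF_fD3.isNice
  rw [mid3_fW, mid2_qe_add (nE.pow 3) ((nD.smul _).add (nD3.smul _)), mid2_qe_pow nE,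
    mid2_qe_add (nD.smul _) (nD3.smul _), mid2_qe_smul nD, mid2_qe_smul nD3, mid2_qe_fE,
    mid2_qe_fD, mid3_qe_fD3]
  simp only [map_sub, map_mul, map_pow, map_ofNat, PowerSeries.smul_eq_C_mul, map_neg]
  ring

theorem mid3_qe_fV :
    qExpansion 1 mid3_fV =
      (mid2_D ^ 2 + 196830 * mid2_D * mid3_D3 + 3 ^ 18 * mid3_D3 ^ 2).map mid2_iota := by
  have nD := mid3_isMF_fD.isNice
  have nD3 := mid3_isMF_fD3.isNice
  rw [mid3_fV, mid2_qe_add (nD.pow 2) (((nD.mul nD3).smul _).add ((nD3.pow 2).smul _)),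
    mid2_qe_pow nD, mid2_qe_add ((nD.mul nD3).smul _) ((nD3.pow 2).smul _),
    mid2_qe_smul (nD.mul nD3), mid2_qe_mul nD nD3, mid2_qe_smul (nD3.pow 2), mid2_qe_pow nD3,
    mid2_qe_fD, mid3_qe_fD3]
  simp only [map_add, map_mul, map_pow, map_ofNat, PowerSeries.smul_eq_C_mul]
  ring

theorem mid3_qe_Chi :
    qExpansion 1 mid3_Chi =
      (mid2_D * mid3_D3 *
          (ModularCurve.eisenstein4 ^ 3 - 756 * mid2_D - 19131876 * mid3_D3) ^ 2 -
        (mid2_D ^ 2 + 196830 * mid2_D * mid3_D3 + 3 ^ 18 * mid3_D3 ^ 2) ^ 2).map mid2_iota := by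
  have nD := mid3_isMF_fD.isNice
  have nD3 := mid3_isMF_fD3.isNice
  have nW := mid3_isMF_fW.isNice
  have nV := mid3_isMF_fV.isNice
  rw [mid3_Chi, mid2_qe_add ((nD.mul nD3).mul (nW.pow 2)) ((nV.pow 2).smul (-1)),
    mid2_qe_mul (nD.mul nD3) (nW.pow 2), mid2_qe_mul nD nD3, mid2_qe_pow nW,
    mid2_qe_smul (nV.pow 2), mid2_qe_pow nV, mid2_qe_fD, mid3_qe_fD3, mid3_qe_fW, mid3_qe_fV]
  simp only [map_sub, map_mul, map_pow, PowerSeries.smul_eq_C_mul, map_neg, map_one]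
  ring

theorem mid3_index : (Gamma0 3).index = 4 := by
  rw [Fermat.Agent.S24x.index_Gamma0 3, ModularCurve.dedekindPsi,
    Nat.Prime.divisors Nat.prime_three, Finset.sum_filter, Finset.sum_pair (by norm_num),
    if_pos squarefree_one, if_pos Nat.prime_three.squarefree]

/-- **Sturm**: the weight-48 form vanishes identically. -/
theorem mid3_Chi_eq_zero : mid3_Chi = 0 := by
  obtain ⟨F, hF⟩ := mid3_isMF_Chi
  have hF0 : F = 0 := by
    apply ModularForm.sturm_bound_Gamma0 3 F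
    intro n hn
    have hn16 : n ≤ 16 := by
      rw [mid3_index] at hn
      norm_num at hn
      exact hn
    rw [hF, mid3_qe_Chi, PowerSeries.coeff_map, mid3_trunc_zero n hn16, map_zero]
  rw [← hF, hF0]
  rfl

/-- **The y-quartic over `ℤ⟦X⟧`** (`y = Δ/Δ₃`, cleared of denominators). -/
theorem mid3_sq :
    mid2_D * mid3_D3 * (ModularCurve.eisenstein4 ^ 3 - 756 * mid2_D - 19131876 * mid3_D3) ^ 2 =
      (mid2_D ^ 2 + 196830 * mid2_D * mid3_D3 + 3 ^ 18 * mid3_D3 ^ 2) ^ 2 := by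
  have h := mid3_qe_Chi
  rw [mid3_Chi_eq_zero, qExpansion_zero] at h
  have h2 : (mid2_D * mid3_D3 *
          (ModularCurve.eisenstein4 ^ 3 - 756 * mid2_D - 19131876 * mid3_D3) ^ 2 -
        (mid2_D ^ 2 + 196830 * mid2_D * mid3_D3 + 3 ^ 18 * mid3_D3 ^ 2) ^ 2).map mid2_iota =
      (0 : PowerSeries ℤ).map mid2_iota := by rw [← h, map_zero]
  exact sub_eq_zero.mp (PowerSeries.map_injective _ Int.cast_injective h2)

/-! ### formal square root in `ℤ⟦X⟧` -/

open ModularCurve PowerSeries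

/-- `P = etaProd^12` (so `D = X P²`) -/
def mid3_P : PowerSeries ℤ := etaProd ^ 12

/-- `P₃ = P(X³)` (so `D₃ = X³ P₃²`) -/
def mid3_P3 : PowerSeries ℤ := expand 3 three_ne_zero mid3_P

theorem mid3_D_eq : mid2_D = X * mid3_P ^ 2 := by
  rw [mid2_D, mid3_P, ← pow_mul]

theorem mid3_D3_eq : mid3_D3 = X ^ 3 * mid3_P3 ^ 2 := by
  rw [mid3_D3, mid3_P3, mid3_D_eq, map_mul, expand_X, map_pow]

theorem mid3_constantCoeff_P : constantCoeff mid3_P = 1 := by
  rw [mid3_P, map_pow, constantCoeff_etaProd, one_pow]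

theorem mid3_constantCoeff_P3 : constantCoeff mid3_P3 = 1 := by
  rw [mid3_P3, constantCoeff_expand, mid3_constantCoeff_P]

/-- **linear form of the y-quartic**: `t ((j - 756) s - c) = s² + 196830 s + 3^18`, cleared of
denominators. -/
theorem mid3_lin :
    X ^ 2 * mid3_P * mid3_P3 * (eisenstein4 ^ 3 - 756 * mid2_D - 19131876 * mid3_D3) =
      mid2_D ^ 2 + 196830 * mid2_D * mid3_D3 + 3 ^ 18 * mid3_D3 ^ 2 := by
  set F : PowerSeries ℤ :=
    mid3_P * mid3_P3 * (eisenstein4 ^ 3 - 756 * mid2_D - 19131876 * mid3_D3) with hF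
  set G : PowerSeries ℤ :=
    mid3_P ^ 4 + 196830 * X ^ 2 * mid3_P ^ 2 * mid3_P3 ^ 2 + 3 ^ 18 * X ^ 4 * mid3_P3 ^ 4 with hG
  have hA : X ^ 2 * mid3_P * mid3_P3 * (eisenstein4 ^ 3 - 756 * mid2_D - 19131876 * mid3_D3) =
      X ^ 2 * F := by rw [hF]; ring
  have hB : mid2_D ^ 2 + 196830 * mid2_D * mid3_D3 + 3 ^ 18 * mid3_D3 ^ 2 = X ^ 2 * G := by
    rw [hG, mid3_D_eq, mid3_D3_eq]; ring
  rw [hA, hB]
  have hsq : (X ^ 2 * F) ^ 2 = (X ^ 2 * G) ^ 2 := by
    rw [← hB, ← mid3_sq, hF, mid3_D_eq, mid3_D3_eq]; ring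
  have hFG : F ^ 2 = G ^ 2 := by
    have hX : (X : PowerSeries ℤ) ^ 4 ≠ 0 := pow_ne_zero _ X_ne_zero
    apply mul_left_cancel₀ hX
    linear_combination hsq
  have hcF : constantCoeff F = 1 := by
    rw [hF, mid3_D_eq, mid3_D3_eq]
    simp [mid3_constantCoeff_P, mid3_constantCoeff_P3]
  have hcG : constantCoeff G = 1 := by
    rw [hG]
    simp [mid3_constantCoeff_P]
  rcases sq_eq_sq_iff_eq_or_eq_neg.mp hFG with h | h
  · rw [h]
  · exfalso
    have := congrArg constantCoeff h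
    rw [map_neg, hcF, hcG] at this
    norm_num at this

/-- **The level-3 modular identity over `ℤ⟦X⟧`**: `j t³ = (t + 27)(t + 243)³` for
`t = P/(X P₃)`, cleared of denominators. -/
theorem mid3_int :
    eisenstein4 ^ 3 * mid3_P * mid3_P3 =
      (mid3_P + 27 * X * mid3_P3) * (mid3_P + 243 * X * mid3_P3) ^ 3 := by
  have h := mid3_lin
  rw [mid3_D_eq, mid3_D3_eq] at h
  have hX : (X : PowerSeries ℤ) ^ 2 ≠ 0 := pow_ne_zero _ X_ne_zero
  apply mul_left_cancel₀ hX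
  linear_combination h

/-! ### Laurent series forms -/

/-- `w = P / P₃ ∈ 1 + X ℤ⟦X⟧`; the Hauptmodul is `t = w / X`. -/
def mid3_w : PowerSeries ℤ := mid3_P * invOfUnit mid3_P3 1

theorem mid3_P3_mul_inv : mid3_P3 * invOfUnit mid3_P3 1 = 1 :=
  mul_invOfUnit _ _ (by rw [mid3_constantCoeff_P3]; rfl)

theorem mid3_constantCoeff_w : constantCoeff mid3_w = 1 := by
  have h := congrArg (constantCoeff (R := ℤ)) mid3_P3_mul_inv
  rw [map_mul, mid3_constantCoeff_P3, one_mul, map_one] at h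
  rw [mid3_w, map_mul, mid3_constantCoeff_P, h, one_mul]

theorem mid3_w_mul_P3 : mid3_w * mid3_P3 = mid3_P := by
  rw [mid3_w, mul_assoc, mul_comm (invOfUnit mid3_P3 1), mid3_P3_mul_inv, mul_one]

/-- power series form of `j t³ = (t+27)(t+243)³`: `jNum w³ = (w + 27X)(w + 243X)³`. -/
theorem mid3_jNum_w :
    jNum * mid3_w ^ 3 = (mid3_w + 27 * X) * (mid3_w + 243 * X) ^ 3 := by
  have hP3 : mid3_P3 ^ 4 ≠ 0 := by
    apply pow_ne_zero
    intro h0
    have := mid3_constantCoeff_P3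
    rw [h0, map_zero] at this
    exact zero_ne_one this
  apply mul_left_cancel₀ hP3
  have h1 : jNum * mid3_P ^ 2 = eisenstein4 ^ 3 := by
    have h := dedekindEtaUnit_mul_inv
    rw [dedekindEtaUnit] at h
    rw [jNum, mid3_P, ← pow_mul, mul_assoc, mul_comm dedekindEtaUnitInv, h, mul_one]
  have h2 := mid3_int
  have h3 := mid3_w_mul_P3
  calc mid3_P3 ^ 4 * (jNum * mid3_w ^ 3)
      = jNum * (mid3_w * mid3_P3) ^ 3 * mid3_P3 := by ring
    _ = jNum * mid3_P ^ 2 * mid3_P * mid3_P3 := by rw [h3]; ring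
    _ = (mid3_P + 27 * X * mid3_P3) * (mid3_P + 243 * X * mid3_P3) ^ 3 := by rw [h1, h2]
    _ = (mid3_w * mid3_P3 + 27 * X * mid3_P3) * (mid3_w * mid3_P3 + 243 * X * mid3_P3) ^ 3 := by
        rw [h3]
    _ = mid3_P3 ^ 4 * ((mid3_w + 27 * X) * (mid3_w + 243 * X) ^ 3) := by ring

/-- the level-3 Hauptmodul `t = q⁻¹ ∏ ((1-qⁿ)/(1-q³ⁿ))^12` over an arbitrary ring -/
def mid3_t (R : Type*) [CommRing R] : LaurentSeries R :=
  HahnSeries.single (-1 : ℤ) 1 * HahnSeries.ofPowerSeries ℤ R (mid3_w.map (Int.castRingHom R))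

/-- **The level-3 modular identity over any commutative ring**: `j t³ = (t+27)(t+243)³`. -/
theorem mid3_main (R : Type*) [CommRing R] :
    jqModC R * mid3_t R ^ 3 = (mid3_t R + 27) * (mid3_t R + 243) ^ 3 := by
  set xi : LaurentSeries R := HahnSeries.single (-1 : ℤ) 1 with hxi
  set x : LaurentSeries R := HahnSeries.single (1 : ℤ) 1 with hx
  have hxx : xi * x = 1 := by
    rw [hxi, hx, HahnSeries.single_mul_single]
    simp
  set W : LaurentSeries R := HahnSeries.ofPowerSeries ℤ R (mid3_w.map (Int.castRingHom R)) with hW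
  set JN : LaurentSeries R := HahnSeries.ofPowerSeries ℤ R (jNum.map (Int.castRingHom R)) with hJN
  have hmain : JN * W ^ 3 = (W + 27 * x) * (W + 243 * x) ^ 3 := by
    have h := congrArg (fun f => HahnSeries.ofPowerSeries ℤ R (f.map (Int.castRingHom R)))
      mid3_jNum_w
    simp only [map_mul, map_pow, map_add, map_ofNat, PowerSeries.map_X,
      HahnSeries.ofPowerSeries_X] at h
    exact h
  have ht : mid3_t R = xi * W := rfl
  have hj : jqModC R = xi * JN := rfl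
  have h27 : mid3_t R + 27 = xi * (W + 27 * x) := by
    rw [ht, mul_add, ← mul_assoc, mul_comm xi 27, mul_assoc, hxx, mul_one]
  have h243 : mid3_t R + 243 = xi * (W + 243 * x) := by
    rw [ht, mul_add, ← mul_assoc, mul_comm xi 243, mul_assoc, hxx, mul_one]
  rw [h27, h243, ht, hj]
  linear_combination (xi ^ 4) * hmain

theorem mid3_L_expand (p : ℕ) [NeZero p] (f : PowerSeries ℤ) :
    mid2_L (PowerSeries.expand p (NeZero.ne p) f) = qExpand ℚ p (mid2_L f) := by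
  rw [mid2_L_apply, mid2_L_apply, mid2_qExpand_ofPowerSeries, PowerSeries.map_expand]

theorem mid3_L_D3 : mid2_L mid3_D3 = deltaSeriesN 3 := by
  rw [deltaSeriesN, ← mid2_L_D, mid3_D3]
  exact mid3_L_expand 3 mid2_D

theorem mid3_t_eq : mid3_t ℚ = HahnSeries.single (-1 : ℤ) 1 * mid2_L mid3_w := rfl

theorem mid3_L_X : mid2_L X = HahnSeries.single (1 : ℤ) (1 : ℚ) := by
  rw [mid2_L_apply, PowerSeries.map_X, HahnSeries.ofPowerSeries_X]

/-- `t² = Δ(q)/Δ(q³)`. -/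
theorem mid3_t_sq : mid3_t ℚ ^ 2 = deltaSeries / deltaSeriesN 3 := by
  have hδ3 : deltaSeriesN 3 ≠ 0 := deltaSeriesN_ne_zero 3
  rw [eq_div_iff hδ3, ← mid3_L_D3, ← mid2_L_D, mid3_t_eq]
  have hxx : HahnSeries.single (-1 : ℤ) (1 : ℚ) * HahnSeries.single (1 : ℤ) (1 : ℚ) = 1 := by
    rw [HahnSeries.single_mul_single]
    simp
  have h : mid3_w ^ 2 * mid3_D3 = X ^ 2 * mid2_D := by
    rw [mid3_D3_eq, mid3_D_eq, ← mid3_w_mul_P3]; ring
  have h' := congrArg mid2_L h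
  rw [map_mul, map_mul, map_pow, map_pow, mid3_L_X] at h'
  calc (HahnSeries.single (-1 : ℤ) (1 : ℚ) * mid2_L mid3_w) ^ 2 * mid2_L mid3_D3
      = HahnSeries.single (-1 : ℤ) (1 : ℚ) ^ 2 * (mid2_L mid3_w ^ 2 * mid2_L mid3_D3) := by ring
    _ = (HahnSeries.single (-1 : ℤ) (1 : ℚ) * HahnSeries.single (1 : ℤ) (1 : ℚ)) ^ 2 *
          mid2_L mid2_D := by rw [h']; ring
    _ = mid2_L mid2_D := by rw [hxx, one_pow, one_mul]

/-- `t ((j - 756) s - 19131876) = s² + 196830 s + 3^18` for `s = Δ(q)/Δ(q³)`: so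
`t ∈ ℚ(j, s)`. -/
theorem mid3_t_lin :
    mid3_t ℚ * ((jq - 756) * (deltaSeries / deltaSeriesN 3) - 19131876) =
      (deltaSeries / deltaSeriesN 3) ^ 2 + 196830 * (deltaSeries / deltaSeriesN 3) + 3 ^ 18 := by
  have hδ3 : deltaSeriesN 3 ≠ 0 := deltaSeriesN_ne_zero 3
  have hxx : HahnSeries.single (-1 : ℤ) (1 : ℚ) * HahnSeries.single (1 : ℤ) (1 : ℚ) = 1 := by
    rw [HahnSeries.single_mul_single]
    simp
  have e : ∀ Wp : PowerSeries ℤ,
      mid3_w * Wp * mid3_D3 = X * (X ^ 2 * mid3_P * mid3_P3 * Wp) := by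
    intro Wp
    rw [mid3_D3_eq, ← mid3_w_mul_P3]
    ring
  have h : mid3_w * (eisenstein4 ^ 3 - 756 * mid2_D - 19131876 * mid3_D3) * mid3_D3 =
      X * (mid2_D ^ 2 + 196830 * mid2_D * mid3_D3 + 3 ^ 18 * mid3_D3 ^ 2) := by
    rw [e, mid3_lin]
  have hE : mid2_L eisenstein4 ^ 3 = jq * deltaSeries := by
    rw [← map_pow, mid2_jq_mul_deltaSeries]
  have h' := congrArg mid2_L h
  simp only [map_mul, map_sub, map_add, map_pow, map_ofNat, mid3_L_X, mid2_L_D, mid3_L_D3] at h'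
  rw [hE] at h'
  rw [mid3_t_eq]
  field_simp
  have key : HahnSeries.single (-1 : ℤ) (1 : ℚ) *
      (mid2_L mid3_w * (jq * deltaSeries - 756 * deltaSeries - 19131876 * deltaSeriesN 3) *
        deltaSeriesN 3) =
      deltaSeries ^ 2 + 196830 * deltaSeries * deltaSeriesN 3 + 3 ^ 18 * deltaSeriesN 3 ^ 2 := by
    rw [h', ← mul_assoc, hxx, one_mul]
  linear_combination key

end Fermat.Agent.S18x
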