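/-
S18x/ModIdThreeDual (helper11, row N10 addendum): the DUAL (Fricke side) level-3 modular identity
`j(q³) t = (t + 27)(t + 3)³` for `t = (η(q)/η(q³))^12`, in denominator-free form over `ℤ⟦X⟧`
(`mid3_int_dual`) and over an arbitrary commutative ring (`mid3_main_dual`).
Same method as `ModIdThree`: Sturm bound on `Γ₀(3)` in weight 48 + truncated arithmetic mod `X^17`
+ formal square root in `ℤ⟦X⟧`.
-/
import Mathlib
import Fermat.Agent.S18x.ModIdThree

set_option autoImplicit false
set_option maxRecDepth 4000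

noncomputable section

namespace Fermat.Agent.S18x

open PowerSeries

/-- `E₄(X³)` -/
def mid3_E3 : PowerSeries ℤ := expand 3 three_ne_zero ModularCurve.eisenstein4

theorem mid3_q_E3 : mid3_q mid3_E3 = mid3_q (mid2_poly [1, 0, 0, 240, 0, 0, 2160, 0, 0, 6720, 0, 0, 17520, 0, 0, 30240, 0]) := by
  apply mid3_q_poly_of_coeff
  intro m hm
  rw [mid3_E3, coeff_expand, ModularCurve.eisenstein4, coeff_mk]
  interval_cases m <;> decide

theorem mid3_final_id_dual :
    mid2_poly [0, 1, -24, 252, -1472, 4830, -6048, -16744, 84480, -113643, -115920, 534612, -370944, -577738, 401856, 1217160, 987136] *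
        mid2_poly [0, 0, 0, 1, 0, 0, -24, 0, 0, 252, 0, 0, -1472, 0, 0, 4830, 0] *
        (mid2_poly [1, 0, 0, 240, 0, 0, 2160, 0, 0, 6720, 0, 0, 17520, 0, 0, 30240, 0] ^ 3 -
          36 * mid2_poly [0, 1, -24, 252, -1472, 4830, -6048, -16744, 84480, -113643, -115920, 534612, -370944, -577738, 401856, 1217160, 987136] -
          756 * mid2_poly [0, 0, 0, 1, 0, 0, -24, 0, 0, 252, 0, 0, -1472, 0, 0, 4830, 0]) ^ 2 -
      (mid2_poly [0, 1, -24, 252, -1472, 4830, -6048, -16744, 84480, -113643, -115920, 534612, -370944, -577738, 401856, 1217160, 987136] ^ 2 +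
        270 * mid2_poly [0, 1, -24, 252, -1472, 4830, -6048, -16744, 84480, -113643, -115920, 534612, -370944, -577738, 401856, 1217160, 987136] *
          mid2_poly [0, 0, 0, 1, 0, 0, -24, 0, 0, 252, 0, 0, -1472, 0, 0, 4830, 0] +
        729 * mid2_poly [0, 0, 0, 1, 0, 0, -24, 0, 0, 252, 0, 0, -1472, 0, 0, 4830, 0] ^ 2) ^ 2 =
      mid2_poly [] + X ^ 17 *
        mid2_poly [0, 0, 6048, -21298410, 1029635064, -30266885996, 530756911200, -6576273907848, 65600802692416, -572938487002632, 4448732171787936, -29351821329379000, 153586966007691456, -576825896995388532, 1208071346369089248, 1694591384305893024, -24576690553214941584, 110722599733636866320, -228982985947700668416, 34168077209369756223, 2366517103063083437632, -7750606194409457559024, 14429690776242982694304, 16019216666128826821528, -104656417908653174138304, 316175402114516109921480, -319138252517875946546240, -177760633113955341086232, 3384440003738343147993216, -11283800540878494226004368, 20383729382699233517589504, 14882417669891375528904936,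 -191421751895048973198952960, 476799804640028481989768352, -163225804322242013689900800, -2341775796172017541823624240, 6815740863570913129366540800, -4512361254153332348767650912, -23114361768703638741989323264, 74646024703601908687790290464, -60110273004740745606765711360, -193973809088295738916087770816, 673454951003309471839262312448, -579443389210979691122766204432, -1423934874586635083781104058368, 5143303723348999199736522080256, -4413736986713704275976075714560, -9215634212086343990582724591616, 33720808231913559832766254694400, -27725217276864228407500227379200, -52652326922898737001759516672000, 192001341369013707645290373120000, -147234498092231469252650997350400, -265984427387588590738727578828800, 958355170355577069625583267020800, -671158107999449591413186304409600, -1189997844044577200704725590016000, 4225868791920893526782098223923200, -2650572606425868573296261382144000, -4724091215665038875023658680320000, 16563170379489360523568565092352000, -9102503055329135667826681872384000, -16665659502680342032707214540800000,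 57957215595719639892837490556928000, -27121451294715312726863298625536000, -52248032001888049932551513505792000, 181554070430115632546926419640320000, -69401970366214569662335797559296000, -145295936553604108862966916317184000, 509732383561503916707890473992192000, -148695375627559481973566200086528000, -356722051088765070655503724707840000, 1281952326606163877649834747887616000, -250027207257507538664624074260480000, -766075722701217240580674866380800000, 2881226854310110528275687313244160000, -260859726453880080378891966873600000, -1415018946213568826872015985049600000, 5761391673121328193978230636544000000, 139458476610407393966576841523200000, -2175322825599224498295605821440000000, 10177367296045189551331915019059200000, 1552866259362107902989266268979200000, -2578037009655176020901255498956800000, 15715487014019544554449562448691200000, 4704627383107270446266317799424000000, -1784221569251990367578123717836800000, 20884796116917792693581613367296000000, 9860756574859340008860451602432000000, 1026033355686125923500596133888000000,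 23329846348689923872871650689024000000, 15941649400955959539878376505344000000, 5751930792824387737778191859712000000, 21116305102120249154457984565248000000, 20145163784655107858800608018432000000, 10533234411486782028878821982208000000, 14531461549558552840869198692352000000, 19336187438698310323239678640128000000, 12350745957282505877168672735232000000, 6681794696163077577094062931968000000, 12887323185075157405428728463360000000, 9429105993083111008625919787008000000, 1484254276021945038941957652480000000, 4495577855258775839103044812800000000, 3645984703513693307953615994880000000] := by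
  simp only [mid2_poly, List.length_cons, List.length_nil, Finset.sum_range_succ,
    Finset.sum_range_zero]
  simp
  ring

theorem mid3_q_T_dual :
    mid3_q (mid2_D * mid3_D3 * (mid3_E3 ^ 3 - 36 * mid2_D - 756 * mid3_D3) ^ 2 -
      (mid2_D ^ 2 + 270 * mid2_D * mid3_D3 + 729 * mid3_D3 ^ 2) ^ 2) = 0 := by
  have h := mid3_q_of_eq _ _ _ mid3_final_id_dual
  have h0 : mid2_poly [] = 0 := by simp [mid2_poly]
  rw [h0, map_zero] at h
  rw [← h]
  simp only [map_sub, map_mul, map_pow, map_add, mid3_q_E3, mid3_q_D, mid3_q_D3]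

theorem mid3_trunc_zero_dual (n : ℕ) (hn : n ≤ 16) :
    coeff n (mid2_D * mid3_D3 * (mid3_E3 ^ 3 - 36 * mid2_D - 756 * mid3_D3) ^ 2 -
      (mid2_D ^ 2 + 270 * mid2_D * mid3_D3 + 729 * mid3_D3 ^ 2) ^ 2) = 0 := by
  have h := mid3_q_T_dual
  rw [← map_zero mid3_q, mid3_q_eq_iff, sub_zero, X_pow_dvd_iff] at h
  exact h n (by omega)

end Fermat.Agent.S18x

namespace Fermat.Agent.S18x

open UpperHalfPlane ModularForm EisensteinSeries CongruenceSubgroup
open Fermat.Agent.S23x
open scoped MatrixGroups Manifold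

/-- `z ↦ E₄(3z)` -/
def mid3_fE3 : ℍ → ℂ := fun z => E₄ (mulN 3 z)

/-- `E₄(3z)³ - 36 Δ - 756 Δ₃` -/
def mid3_fWd : ℍ → ℂ :=
  mid3_fE3 ^ 3 + ((-36 : ℂ) • mid2_fD + (-756 : ℂ) • mid3_fD3)

/-- `Δ² + 270 Δ Δ₃ + 729 Δ₃²` -/
def mid3_fVd : ℍ → ℂ :=
  mid2_fD ^ 2 + ((270 : ℂ) • (mid2_fD * mid3_fD3) + (729 : ℂ) • mid3_fD3 ^ 2)

/-- `Δ Δ₃ W² - V²` (dual) -/
def mid3_Chid : ℍ → ℂ := mid2_fD * mid3_fD3 * mid3_fWd ^ 2 + (-1 : ℂ) • mid3_fVd ^ 2

theorem mid3_isMF_fE3 : IsMF 3 4 mid3_fE3 := isMF_comp_mulN 3 m08_isMF1_E4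

theorem mid3_isMF_fWd : IsMF 3 12 mid3_fWd :=
  ((mid3_isMF_fE3.pow 3).cast (by norm_num)).add
    ((mid3_isMF_fD.smul _).add (mid3_isMF_fD3.smul _))

theorem mid3_isMF_fVd : IsMF 3 24 mid3_fVd :=
  ((mid3_isMF_fD.pow 2).cast (by norm_num)).add
    ((((mid3_isMF_fD.mul mid3_isMF_fD3).smul _).cast (by norm_num)).add
      (((mid3_isMF_fD3.pow 2).smul _).cast (by norm_num)))

theorem mid3_isMF_Chid : IsMF 3 48 mid3_Chid :=
  (((mid3_isMF_fD.mul mid3_isMF_fD3).mul (mid3_isMF_fWd.pow 2)).cast (by norm_num)).add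
    (((mid3_isMF_fVd.pow 2).smul (-1)).cast (by norm_num))

theorem mid3_qe_fE3 : qExpansion 1 mid3_fE3 = mid3_E3.map mid2_iota := by
  ext n
  unfold mid3_fE3
  rw [qExpansion_comp_mulN_coeff 3 m08_isMF1_E4 n, PowerSeries.coeff_map,
    mid3_E3, PowerSeries.coeff_expand]
  have h := mid2_qe_fE
  rw [mid2_fE] at h
  split_ifs with hn
  · rw [h, PowerSeries.coeff_map]
  · rw [map_zero]

theorem mid3_qe_fWd :
    qExpansion 1 mid3_fWd = (mid3_E3 ^ 3 - 36 * mid2_D - 756 * mid3_D3).map mid2_iota := by
  have nE := mid3_isMF_fE3.isNice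
  have nD := mid3_isMF_fD.isNice
  have nD3 := mid3_isMF_fD3.isNice
  rw [mid3_fWd, mid2_qe_add (nE.pow 3) ((nD.smul _).add (nD3.smul _)), mid2_qe_pow nE,
    mid2_qe_add (nD.smul _) (nD3.smul _), mid2_qe_smul nD, mid2_qe_smul nD3, mid3_qe_fE3,
    mid2_qe_fD, mid3_qe_fD3]
  simp only [map_sub, map_mul, map_pow, map_ofNat, PowerSeries.smul_eq_C_mul, map_neg]
  ring

theorem mid3_qe_fVd :
    qExpansion 1 mid3_fVd =
      (mid2_D ^ 2 + 270 * mid2_D * mid3_D3 + 729 * mid3_D3 ^ 2).map mid2_iota := by
  have nD := mid3_isMF_fD.isNice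
  have nD3 := mid3_isMF_fD3.isNice
  rw [mid3_fVd, mid2_qe_add (nD.pow 2) (((nD.mul nD3).smul _).add ((nD3.pow 2).smul _)),
    mid2_qe_pow nD, mid2_qe_add ((nD.mul nD3).smul _) ((nD3.pow 2).smul _),
    mid2_qe_smul (nD.mul nD3), mid2_qe_mul nD nD3, mid2_qe_smul (nD3.pow 2), mid2_qe_pow nD3,
    mid2_qe_fD, mid3_qe_fD3]
  simp only [map_add, map_mul, map_pow, map_ofNat, PowerSeries.smul_eq_C_mul]
  ring

theorem mid3_qe_Chid :
    qExpansion 1 mid3_Chid =
      (mid2_D * mid3_D3 * (mid3_E3 ^ 3 - 36 * mid2_D - 756 * mid3_D3) ^ 2 -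
        (mid2_D ^ 2 + 270 * mid2_D * mid3_D3 + 729 * mid3_D3 ^ 2) ^ 2).map mid2_iota := by
  have nD := mid3_isMF_fD.isNice
  have nD3 := mid3_isMF_fD3.isNice
  have nW := mid3_isMF_fWd.isNice
  have nV := mid3_isMF_fVd.isNice
  rw [mid3_Chid, mid2_qe_add ((nD.mul nD3).mul (nW.pow 2)) ((nV.pow 2).smul (-1)),
    mid2_qe_mul (nD.mul nD3) (nW.pow 2), mid2_qe_mul nD nD3, mid2_qe_pow nW,
    mid2_qe_smul (nV.pow 2), mid2_qe_pow nV, mid2_qe_fD, mid3_qe_fD3, mid3_qe_fWd, mid3_qe_fVd]
  simp only [map_sub, map_mul, map_pow, PowerSeries.smul_eq_C_mul, map_neg, map_one]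
  ring

theorem mid3_Chid_eq_zero : mid3_Chid = 0 := by
  obtain ⟨F, hF⟩ := mid3_isMF_Chid
  have hF0 : F = 0 := by
    apply ModularForm.sturm_bound_Gamma0 3 F
    intro n hn
    have hn16 : n ≤ 16 := by
      rw [mid3_index] at hn
      norm_num at hn
      exact hn
    rw [hF, mid3_qe_Chid, PowerSeries.coeff_map, mid3_trunc_zero_dual n hn16, map_zero]
  rw [← hF, hF0]
  rfl

/-- **The dual y-quartic over `ℤ⟦X⟧`**. -/
theorem mid3_sq_dual :
    mid2_D * mid3_D3 * (mid3_E3 ^ 3 - 36 * mid2_D - 756 * mid3_D3) ^ 2 =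
      (mid2_D ^ 2 + 270 * mid2_D * mid3_D3 + 729 * mid3_D3 ^ 2) ^ 2 := by
  have h := mid3_qe_Chid
  rw [mid3_Chid_eq_zero, qExpansion_zero] at h
  have h2 : (mid2_D * mid3_D3 * (mid3_E3 ^ 3 - 36 * mid2_D - 756 * mid3_D3) ^ 2 -
        (mid2_D ^ 2 + 270 * mid2_D * mid3_D3 + 729 * mid3_D3 ^ 2) ^ 2).map mid2_iota =
      (0 : PowerSeries ℤ).map mid2_iota := by rw [← h, map_zero]
  exact sub_eq_zero.mp (PowerSeries.map_injective _ Int.cast_injective h2)

open ModularCurve PowerSeries

theorem mid3_constantCoeff_E3 : constantCoeff mid3_E3 = 1 := by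
  rw [mid3_E3, constantCoeff_expand, constantCoeff_eisenstein4]

/-- linear form of the dual y-quartic: `t (j₃ - 36 s - 756) = s² + 270 s + 729`, cleared of
denominators. -/
theorem mid3_lin_dual :
    X ^ 2 * mid3_P * mid3_P3 * (mid3_E3 ^ 3 - 36 * mid2_D - 756 * mid3_D3) =
      mid2_D ^ 2 + 270 * mid2_D * mid3_D3 + 729 * mid3_D3 ^ 2 := by
  set F : PowerSeries ℤ :=
    mid3_P * mid3_P3 * (mid3_E3 ^ 3 - 36 * mid2_D - 756 * mid3_D3) with hF
  set G : PowerSeries ℤ :=
    mid3_P ^ 4 + 270 * X ^ 2 * mid3_P ^ 2 * mid3_P3 ^ 2 + 729 * X ^ 4 * mid3_P3 ^ 4 with hG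
  have hA : X ^ 2 * mid3_P * mid3_P3 * (mid3_E3 ^ 3 - 36 * mid2_D - 756 * mid3_D3) =
      X ^ 2 * F := by rw [hF]; ring
  have hB : mid2_D ^ 2 + 270 * mid2_D * mid3_D3 + 729 * mid3_D3 ^ 2 = X ^ 2 * G := by
    rw [hG, mid3_D_eq, mid3_D3_eq]; ring
  rw [hA, hB]
  have hsq : (X ^ 2 * F) ^ 2 = (X ^ 2 * G) ^ 2 := by
    rw [← hB, ← mid3_sq_dual, hF, mid3_D_eq, mid3_D3_eq]; ring
  have hFG : F ^ 2 = G ^ 2 := by
    have hX : (X : PowerSeries ℤ) ^ 4 ≠ 0 := pow_ne_zero _ X_ne_zero
    apply mul_left_cancel₀ hX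
    linear_combination hsq
  have hcF : constantCoeff F = 1 := by
    rw [hF, mid3_D_eq, mid3_D3_eq]
    simp [mid3_constantCoeff_P, mid3_constantCoeff_P3, mid3_constantCoeff_E3]
  have hcG : constantCoeff G = 1 := by
    rw [hG]
    simp [mid3_constantCoeff_P]
  rcases sq_eq_sq_iff_eq_or_eq_neg.mp hFG with h | h
  · rw [h]
  · exfalso
    have := congrArg constantCoeff h
    rw [map_neg, hcF, hcG] at this
    norm_num at this

/-- **The dual level-3 modular identity over `ℤ⟦X⟧`**: `j(q³) t = (t + 27)(t + 3)³` for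
`t = P/(X P₃)`, cleared of denominators. -/
theorem mid3_int_dual :
    mid3_E3 ^ 3 * mid3_P * mid3_P3 =
      (mid3_P + 27 * X * mid3_P3) * (mid3_P + 3 * X * mid3_P3) ^ 3 := by
  have h := mid3_lin_dual
  rw [mid3_D_eq, mid3_D3_eq] at h
  have hX : (X : PowerSeries ℤ) ^ 2 ≠ 0 := pow_ne_zero _ X_ne_zero
  apply mul_left_cancel₀ hX
  linear_combination h

/-- power series form: `jNum(X³) w = (w + 27X)(w + 3X)³`. -/
theorem mid3_jNum_w_dual :
    expand 3 three_ne_zero jNum * mid3_w = (mid3_w + 27 * X) * (mid3_w + 3 * X) ^ 3 := by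
  have hP3 : mid3_P3 ^ 4 ≠ 0 := by
    apply pow_ne_zero
    intro h0
    have := mid3_constantCoeff_P3
    rw [h0, map_zero] at this
    exact zero_ne_one this
  apply mul_left_cancel₀ hP3
  have h1 : expand 3 three_ne_zero jNum * mid3_P3 ^ 2 = mid3_E3 ^ 3 := by
    have h := dedekindEtaUnit_mul_inv
    rw [dedekindEtaUnit] at h
    have h1' : jNum * mid3_P ^ 2 = eisenstein4 ^ 3 := by
      rw [jNum, mid3_P, ← pow_mul, mul_assoc, mul_comm dedekindEtaUnitInv, h, mul_one]
    have := congrArg (expand 3 three_ne_zero) h1'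
    rwa [map_mul, map_pow, map_pow] at this
  have h2 := mid3_int_dual
  have h3 := mid3_w_mul_P3
  calc mid3_P3 ^ 4 * (expand 3 three_ne_zero jNum * mid3_w)
      = expand 3 three_ne_zero jNum * mid3_P3 ^ 2 * (mid3_w * mid3_P3) * mid3_P3 := by ring
    _ = mid3_E3 ^ 3 * mid3_P * mid3_P3 := by rw [h1, h3]
    _ = (mid3_P + 27 * X * mid3_P3) * (mid3_P + 3 * X * mid3_P3) ^ 3 := h2
    _ = (mid3_w * mid3_P3 + 27 * X * mid3_P3) * (mid3_w * mid3_P3 + 3 * X * mid3_P3) ^ 3 := by
        rw [h3]
    _ = mid3_P3 ^ 4 * ((mid3_w + 27 * X) * (mid3_w + 3 * X) ^ 3) := by ring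

/-- **The dual level-3 modular identity over any commutative ring**:
`j(q³) t = (t+27)(t+3)³`. -/
theorem mid3_main_dual (R : Type*) [CommRing R] :
    qExpand R 3 (jqModC R) * mid3_t R = (mid3_t R + 27) * (mid3_t R + 3) ^ 3 := by
  set xi : LaurentSeries R := HahnSeries.single (-1 : ℤ) 1 with hxi
  set x : LaurentSeries R := HahnSeries.single (1 : ℤ) 1 with hx
  have hxx : xi * x = 1 := by
    rw [hxi, hx, HahnSeries.single_mul_single]
    simp
  set W : LaurentSeries R := HahnSeries.ofPowerSeries ℤ R (mid3_w.map (Int.castRingHom R)) with hW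
  set JN3 : LaurentSeries R :=
    HahnSeries.ofPowerSeries ℤ R ((expand 3 three_ne_zero jNum).map (Int.castRingHom R)) with hJN
  have hmain : JN3 * W = (W + 27 * x) * (W + 3 * x) ^ 3 := by
    have h := congrArg (fun f => HahnSeries.ofPowerSeries ℤ R (f.map (Int.castRingHom R)))
      mid3_jNum_w_dual
    simp only [map_mul, map_pow, map_add, map_ofNat, PowerSeries.map_X,
      HahnSeries.ofPowerSeries_X] at h
    exact h
  have ht : mid3_t R = xi * W := rfl
  have hj : qExpand R 3 (jqModC R) = xi ^ 3 * JN3 := by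
    rw [jqModC, map_mul, qExpand_single, mid2_qExpand_ofPowerSeries, hJN, PowerSeries.map_expand,
      hxi, HahnSeries.single_pow]
    simp
  have h27 : mid3_t R + 27 = xi * (W + 27 * x) := by
    rw [ht, mul_add, ← mul_assoc, mul_comm xi 27, mul_assoc, hxx, mul_one]
  have h3 : mid3_t R + 3 = xi * (W + 3 * x) := by
    rw [ht, mul_add, ← mul_assoc, mul_comm xi 3, mul_assoc, hxx, mul_one]
  rw [h27, h3, ht, hj]
  linear_combination (xi ^ 4) * hmain

end Fermat.Agent.S18x
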