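/-
S18 project, row B1.0 (helper30): the level-two identity `j · x = (1 + 256 x)³`,
`x = Δ(q²)/Δ(q)`, as an identity of formal Laurent series over an ARBITRARY commutative ring `R`
(Prelude `jqModC R`, S28x `ud_gd R 2`), e.g. `R = ZMod l` or a field of characteristic `l`.
Deduced from helper11's integral identity `mid2_int` (`S18x/ModIdTwo.lean`) by base change
`ℤ⟦X⟧ → R((X))`.  All names are prefixed `mi2_`.
-/
import Mathlib
import Fermat.Agent.S18x.ModIdTwo
import Fermat.Agent.S28x.UnitsDefs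
import Fermat.Prelude.Def_ModularCurve_JqCoeff

set_option autoImplicit false

noncomputable section

namespace Fermat.Agent.S18x

open ModularCurve Fermat.Agent.S28x

section General

variable (R : Type*) [CommRing R]

/-- the ring homomorphism `ℤ⟦X⟧ → R((X))`. -/
def mi2_iota : PowerSeries ℤ →+* LaurentSeries R :=
  (HahnSeries.ofPowerSeries ℤ R).comp (PowerSeries.map (Int.castRingHom R))

theorem mi2_iota_apply (f : PowerSeries ℤ) :
    mi2_iota R f = HahnSeries.ofPowerSeries ℤ R (f.map (Int.castRingHom R)) := rfl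

theorem mi2_iota_X : mi2_iota R PowerSeries.X = HahnSeries.single (1 : ℤ) (1 : R) := by
  rw [mi2_iota_apply, PowerSeries.map_X, HahnSeries.ofPowerSeries_X]

/-- `ι (f(X^d)) = (ι f)(X^d)`. -/
theorem mi2_iota_expand (d : ℕ) [NeZero d] (f : PowerSeries ℤ) :
    mi2_iota R (PowerSeries.expand d (NeZero.ne d) f) = qExpand R d (mi2_iota R f) := by
  have hd : (0 : ℤ) < d := by exact_mod_cast NeZero.pos d
  ext k
  rw [mi2_iota_apply, mi2_iota_apply]
  by_cases hk : (d : ℤ) ∣ k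
  · obtain ⟨m, rfl⟩ := hk
    rw [qExpand_coeff_mul]
    rcases lt_or_ge m 0 with hm | hm
    · rw [ofPowerSeries_coeff_of_neg _ hm, ofPowerSeries_coeff_of_neg _ (mul_neg_of_pos_of_neg hd hm)]
    · obtain ⟨n, rfl⟩ := Int.eq_ofNat_of_zero_le hm
      have h1 : (d : ℤ) * (n : ℤ) = ((d * n : ℕ) : ℤ) := by push_cast; ring
      rw [h1, HahnSeries.ofPowerSeries_apply_coeff, HahnSeries.ofPowerSeries_apply_coeff,
        PowerSeries.coeff_map, PowerSeries.coeff_map, PowerSeries.coeff_expand_mul]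
  · rw [qExpand_coeff_of_not_dvd d _ hk]
    rcases lt_or_ge k 0 with hk0 | hk0
    · rw [ofPowerSeries_coeff_of_neg _ hk0]
    · obtain ⟨n, rfl⟩ := Int.eq_ofNat_of_zero_le hk0
      have hn : ¬ d ∣ n := fun h => hk (by exact_mod_cast h)
      rw [HahnSeries.ofPowerSeries_apply_coeff, PowerSeries.coeff_map,
        PowerSeries.coeff_expand_of_not_dvd d (NeZero.ne d) _ hn, map_zero]

theorem mi2_single_mul_single :
    HahnSeries.single (-1 : ℤ) (1 : R) * HahnSeries.single (1 : ℤ) (1 : R) = 1 := by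
  rw [HahnSeries.single_mul_single]
  simp

/-- `j · Δ = E₄³` formally over `R`. -/
theorem mi2_jq_mul_D : jqModC R * mi2_iota R mid2_D = mi2_iota R eisenstein4 ^ 3 := by
  have h1 : mi2_iota R dedekindEtaUnitInv * mi2_iota R dedekindEtaUnit = 1 := by
    rw [← map_mul, mul_comm, dedekindEtaUnit_mul_inv, map_one]
  have h2 : jqModC R = HahnSeries.single (-1 : ℤ) (1 : R) *
      (mi2_iota R eisenstein4 ^ 3 * mi2_iota R dedekindEtaUnitInv) := by
    rw [jqModC, jNum, ← map_pow, ← map_mul, mi2_iota_apply]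
  rw [h2, mid2_D, map_mul, mi2_iota_X]
  calc HahnSeries.single (-1 : ℤ) (1 : R) *
        (mi2_iota R eisenstein4 ^ 3 * mi2_iota R dedekindEtaUnitInv) *
        (HahnSeries.single (1 : ℤ) (1 : R) * mi2_iota R dedekindEtaUnit)
      = (HahnSeries.single (-1 : ℤ) (1 : R) * HahnSeries.single (1 : ℤ) (1 : R)) *
        (mi2_iota R dedekindEtaUnitInv * mi2_iota R dedekindEtaUnit) *
          mi2_iota R eisenstein4 ^ 3 := by ring
    _ = mi2_iota R eisenstein4 ^ 3 := by rw [mi2_single_mul_single, h1, one_mul, one_mul]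

/-- `(1/Δ) · Δ = 1` formally over `R`. -/
theorem mi2_DeltaInv_mul_D : ud_DeltaInv R 1 * mi2_iota R mid2_D = 1 := by
  have h1 : mi2_iota R dedekindEtaUnitInv * mi2_iota R dedekindEtaUnit = 1 := by
    rw [← map_mul, mul_comm, dedekindEtaUnit_mul_inv, map_one]
  have h2 : ud_DeltaInv R 1 = HahnSeries.single (-1 : ℤ) (1 : R) * mi2_iota R dedekindEtaUnitInv := by
    rw [ud_DeltaInv, qExpand_one_apply, ud_etaInv, mi2_iota_apply]
    simp
  rw [h2, mid2_D, map_mul, mi2_iota_X]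
  calc HahnSeries.single (-1 : ℤ) (1 : R) * mi2_iota R dedekindEtaUnitInv *
        (HahnSeries.single (1 : ℤ) (1 : R) * mi2_iota R dedekindEtaUnit)
      = (HahnSeries.single (-1 : ℤ) (1 : R) * HahnSeries.single (1 : ℤ) (1 : R)) *
        (mi2_iota R dedekindEtaUnitInv * mi2_iota R dedekindEtaUnit) := by ring
    _ = 1 := by rw [mi2_single_mul_single, h1, one_mul]

/-- `Δ(q²)` formally over `R`, in the notation of `S28x`. -/
theorem mi2_DeltaTw_two : ud_DeltaTw R 1 2 = mi2_iota R mid2_D2 := by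
  have h : mid2_D2 = PowerSeries.expand 2 (NeZero.ne 2) mid2_D := rfl
  rw [h, mi2_iota_expand, mid2_D, map_mul, map_mul, mi2_iota_X, qExpand_single, ud_DeltaTw,
    PowerSeries.rescale_one, RingHom.id_apply, ud_eta, dedekindEtaUnit, mi2_iota_apply]
  simp

/-- the unit `Δ(q²)/Δ(q)` over `R`. -/
theorem mi2_gd_two : ud_gd R 2 = mi2_iota R mid2_D2 * ud_DeltaInv R 1 := by
  rw [ud_gd, ud_G1, dif_neg (by norm_num : (2 : ℕ) ≠ 0), map_one, one_mul, mi2_DeltaTw_two]

theorem mi2_gd_two_mul_D : ud_gd R 2 * mi2_iota R mid2_D = mi2_iota R mid2_D2 := by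
  rw [mi2_gd_two, mul_assoc, mi2_DeltaInv_mul_D, mul_one]

/-- **the level-two identity `j · x = (1 + 256 x)³`, `x = Δ(q²)/Δ(q)`, over any commutative
ring.** -/
theorem mi2_identity_ring :
    jqModC R * ud_gd R 2 = (1 + 256 * ud_gd R 2) ^ 3 := by
  set D := mi2_iota R mid2_D with hD
  set x := ud_gd R 2 with hx
  have hint : mi2_iota R eisenstein4 ^ 3 * D * mi2_iota R mid2_D2 =
      (D + 256 * mi2_iota R mid2_D2) ^ 3 := by
    have h := congrArg (mi2_iota R) mid2_int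
    simpa only [map_mul, map_pow, map_add, map_ofNat] using h
  have hxD : x * D = mi2_iota R mid2_D2 := mi2_gd_two_mul_D R
  have hjD : jqModC R * D = mi2_iota R eisenstein4 ^ 3 := mi2_jq_mul_D R
  -- both sides agree after multiplication by the unit `D³`
  have key : (jqModC R * x) * D ^ 3 = ((1 + 256 * x) ^ 3) * D ^ 3 := by
    calc (jqModC R * x) * D ^ 3 = (jqModC R * D) * D * (x * D) := by ring
      _ = (D + 256 * (x * D)) ^ 3 := by rw [hjD, hxD, hint]
      _ = ((1 + 256 * x) ^ 3) * D ^ 3 := by ring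
  have hunit : D ^ 3 * ud_DeltaInv R 1 ^ 3 = 1 := by
    rw [← mul_pow, mul_comm, mi2_DeltaInv_mul_D, one_pow]
  calc jqModC R * x = (jqModC R * x) * D ^ 3 * ud_DeltaInv R 1 ^ 3 := by
        rw [mul_assoc, hunit, mul_one]
    _ = ((1 + 256 * x) ^ 3) * D ^ 3 * ud_DeltaInv R 1 ^ 3 := by rw [key]
    _ = (1 + 256 * x) ^ 3 := by rw [mul_assoc, hunit, mul_one]

/-! ## the reciprocal unit `Δ(q)/Δ(q²)` and the cubic `(U + 256)³ = j U²` -/

/-- `Δ(q)/Δ(q²)` formally over `R`. -/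
def mi2_y : LaurentSeries R := mi2_iota R mid2_D * ud_DeltaInv R 2

theorem mi2_DeltaInv_two : ud_DeltaInv R 2 = qExpand R 2 (ud_DeltaInv R 1) := by
  rw [ud_DeltaInv, ud_DeltaInv, qExpand_one_apply, map_mul, qExpand_single]
  simp

theorem mi2_DeltaInv_two_mul_D2 : ud_DeltaInv R 2 * mi2_iota R mid2_D2 = 1 := by
  have h : mid2_D2 = PowerSeries.expand 2 (NeZero.ne 2) mid2_D := rfl
  rw [h, mi2_iota_expand, mi2_DeltaInv_two, ← map_mul, mi2_DeltaInv_mul_D, map_one]

/-- `x · y = 1` for `x = Δ(q²)/Δ(q)`, `y = Δ(q)/Δ(q²)`. -/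
theorem mi2_gd_two_mul_y : ud_gd R 2 * mi2_y R = 1 := by
  rw [mi2_gd_two, mi2_y]
  calc mi2_iota R mid2_D2 * ud_DeltaInv R 1 * (mi2_iota R mid2_D * ud_DeltaInv R 2)
      = (ud_DeltaInv R 1 * mi2_iota R mid2_D) * (ud_DeltaInv R 2 * mi2_iota R mid2_D2) := by ring
    _ = 1 := by rw [mi2_DeltaInv_mul_D, mi2_DeltaInv_two_mul_D2, one_mul]

/-- **cubic form over any commutative ring**: `y = Δ(q)/Δ(q²)` satisfies `(y + 256)³ = j y²`;
equivalently `u = 64 + y` satisfies `(u + 192)³ = j (u - 64)²`. -/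
theorem mi2_cubic_ring : (mi2_y R + 256) ^ 3 = jqModC R * mi2_y R ^ 2 := by
  have h := mi2_identity_ring R
  have hxy := mi2_gd_two_mul_y R
  calc (mi2_y R + 256) ^ 3
      = (mi2_y R + 256 * (ud_gd R 2 * mi2_y R)) ^ 3 := by rw [hxy, mul_one]
    _ = (1 + 256 * ud_gd R 2) ^ 3 * mi2_y R ^ 3 := by ring
    _ = jqModC R * ud_gd R 2 * mi2_y R ^ 3 := by rw [h]
    _ = jqModC R * (ud_gd R 2 * mi2_y R) * mi2_y R ^ 2 := by ring
    _ = jqModC R * mi2_y R ^ 2 := by rw [hxy, mul_one]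

theorem mi2_cubic_ring_u :
    ((64 + mi2_y R) + 192) ^ 3 = jqModC R * ((64 + mi2_y R) - 64) ^ 2 := by
  have h := mi2_cubic_ring R
  calc ((64 + mi2_y R) + 192) ^ 3 = (mi2_y R + 256) ^ 3 := by ring
    _ = jqModC R * mi2_y R ^ 2 := h
    _ = jqModC R * ((64 + mi2_y R) - 64) ^ 2 := by ring

end General

end Fermat.Agent.S18x
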