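/-
S18 project, NRM block, row N11 (helper15), prefix `nnc15_`.

ABSTRACT field theory for the NON-COPRIME auxiliary level (`ℓ` odd and `2 ∣ N`; `ℓ = 2` and `3 ∣ N`).

Setting: fields `K ⊆ Ω`, an intermediate field `M` (in the application `M = K((qⁿ)) ⊆ K((q)) = Ω`),
an element `x : Ω` (the coordinate `X₃`, resp. the Hesse parameter `μ`) with `xⁿ ∈ M` and
`[M(x) : M] = n` (for `n = 2`: `x ∉ M`).  Then for EVERY intermediate field `E ≤ M`
  * `E ⊓ K(x) ≤ K(xⁿ)`                                  (`nnc15_abs_inf_le`),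
and if moreover `xⁿ ∈ E`
  * `E ⊓ K(x) = K(xⁿ)`                                  (`nnc15_abs_inf_eq`),
  * `[E·K(x) : E] = n`                                   (`nnc15_abs_relfinrank_sup`),
  * `[E·K(x) : K(x)] = [E : K(xⁿ)]`                     (`nnc15_abs_relfinrank_over_simple`).
Mathlib only.
-/
import Mathlib

set_option autoImplicit false

noncomputable section

namespace Fermat.Agent.S18x

open IntermediateField Polynomial

variable {K Ω : Type*} [Field K] [Field Ω] [Algebra K Ω]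

/-- `[A·K(x) : A] = [A(x) : A]`. -/
theorem nnc15_relfinrank_sup_simple (A : IntermediateField K Ω) (x : Ω) :
    relfinrank A (A ⊔ K⟮x⟯) = Module.finrank A A⟮x⟯ := by
  have h : A ≤ A ⊔ K⟮x⟯ := le_sup_left
  rw [relfinrank_eq_finrank_of_le h]
  have : extendScalars h = A⟮x⟯ := restrictScalars_injective K (by
    rw [extendScalars_restrictScalars, restrictScalars_adjoin_eq_sup])
  rw [this]

/-- `[A·K(x) : A] = deg minpoly_A(x)`. -/
theorem nnc15_relfinrank_sup_eq_natDegree (A : IntermediateField K Ω) (x : Ω)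
    (hx : IsIntegral A x) : relfinrank A (A ⊔ K⟮x⟯) = (minpoly A x).natDegree := by
  rw [nnc15_relfinrank_sup_simple, adjoin.finrank hx]

/-- if `xⁿ ∈ A` (`0 < n`) then `x` is integral over `A`. -/
theorem nnc15_isIntegral_of_pow_mem (A : IntermediateField K Ω) (x : Ω) {n : ℕ} (hn : 0 < n)
    (hxn : x ^ n ∈ A) : IsIntegral A x := by
  refine ⟨X ^ n - C (⟨x ^ n, hxn⟩ : A), monic_X_pow_sub_C _ hn.ne', ?_⟩
  rw [← aeval_def]
  simp only [map_sub, map_pow, aeval_X, aeval_C]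
  exact sub_self _

/-- if `xⁿ ∈ A` (`0 < n`) then `deg minpoly_A(x) ≤ n`. -/
theorem nnc15_natDegree_minpoly_le (A : IntermediateField K Ω) (x : Ω) {n : ℕ} (hn : 0 < n)
    (hxn : x ^ n ∈ A) : (minpoly A x).natDegree ≤ n := by
  have hp : aeval x (X ^ n - C (⟨x ^ n, hxn⟩ : A) : A[X]) = 0 := by
    simp only [map_sub, map_pow, aeval_X, aeval_C]
    exact sub_self _
  have hm : (X ^ n - C (⟨x ^ n, hxn⟩ : A) : A[X]).Monic := monic_X_pow_sub_C _ hn.ne'
  have := natDegree_le_of_dvd (minpoly.dvd A x hp) hm.ne_zero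
  rwa [natDegree_X_pow_sub_C] at this

/-- monotonicity of the degree of the minimal polynomial in the base field. -/
theorem nnc15_natDegree_minpoly_mono {A M : IntermediateField K Ω} (h : A ≤ M) (x : Ω)
    (hx : IsIntegral A x) : (minpoly M x).natDegree ≤ (minpoly A x).natDegree := by
  set φ : A →+* M := (IntermediateField.inclusion h).toRingHom with hφ
  have hcomp : (algebraMap M Ω).comp φ = algebraMap A Ω := by
    ext a; rfl
  have hmonic : ((minpoly A x).map φ).Monic := (minpoly.monic hx).map φ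
  have hroot : aeval x ((minpoly A x).map φ) = 0 := by
    rw [aeval_def, eval₂_map, hcomp, ← aeval_def, minpoly.aeval]
  have := natDegree_le_of_dvd (minpoly.dvd M x hroot) hmonic.ne_zero
  rwa [(minpoly.monic hx).natDegree_map] at this

section Main

variable (M : IntermediateField K Ω) (x : Ω) {n : ℕ} (hn : 0 < n)
  (hdeg : (minpoly M x).natDegree = n)

include hn hdeg

/-- for `E ≤ M` containing `xⁿ`: `deg minpoly_E(x) = n`. -/
theorem nnc15_abs_natDegree_minpoly (E : IntermediateField K Ω) (hE : E ≤ M)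
    (hxE : x ^ n ∈ E) : (minpoly E x).natDegree = n := by
  have hint := nnc15_isIntegral_of_pow_mem E x hn hxE
  refine le_antisymm (nnc15_natDegree_minpoly_le E x hn hxE) ?_
  rw [← hdeg]
  exact nnc15_natDegree_minpoly_mono hE x hint

/-- for `E ≤ M` containing `xⁿ`: `[E·K(x) : E] = n`. -/
theorem nnc15_abs_relfinrank_sup (E : IntermediateField K Ω) (hE : E ≤ M)
    (hxE : x ^ n ∈ E) : relfinrank E (E ⊔ K⟮x⟯) = n := by
  rw [nnc15_relfinrank_sup_eq_natDegree E x (nnc15_isIntegral_of_pow_mem E x hn hxE)]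
  exact nnc15_abs_natDegree_minpoly M x hn hdeg E hE hxE

omit hn hdeg in
theorem nnc15_pow_mem_adjoin_simple (n : ℕ) : x ^ n ∈ K⟮x⟯ :=
  pow_mem (mem_adjoin_simple_self K x) n

omit hn hdeg in
theorem nnc15_adjoin_pow_le (n : ℕ) : K⟮x ^ n⟯ ≤ K⟮x⟯ := by
  rw [adjoin_simple_le_iff]
  exact nnc15_pow_mem_adjoin_simple x n

/-- `[K(x) : E] = n` for `K(xⁿ) ≤ E ≤ M ⊓ K(x)`. -/
theorem nnc15_abs_relfinrank_simple (E : IntermediateField K Ω) (hE : E ≤ M)
    (hxE : x ^ n ∈ E) (hEx : E ≤ K⟮x⟯) : relfinrank E K⟮x⟯ = n := by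
  have := nnc15_abs_relfinrank_sup M x hn hdeg E hE hxE
  rwa [sup_eq_right.2 hEx] at this

/-- **parity**: `K(x) ⊓ M = K(xⁿ)`. -/
theorem nnc15_abs_simple_inf (hxM : x ^ n ∈ M) : K⟮x⟯ ⊓ M = K⟮x ^ n⟯ := by
  have hC_le_M : K⟮x ^ n⟯ ≤ M := by
    rw [adjoin_simple_le_iff]; exact hxM
  have hC_le_S : K⟮x ^ n⟯ ≤ K⟮x⟯ := nnc15_adjoin_pow_le x n
  have hC_le_D : K⟮x ^ n⟯ ≤ K⟮x⟯ ⊓ M := le_inf hC_le_S hC_le_M
  refine le_antisymm ?_ hC_le_D
  have h1 : relfinrank K⟮x ^ n⟯ K⟮x⟯ = n :=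
    nnc15_abs_relfinrank_simple M x hn hdeg _ hC_le_M (mem_adjoin_simple_self K _) hC_le_S
  have h2 : relfinrank (K⟮x⟯ ⊓ M) K⟮x⟯ = n :=
    nnc15_abs_relfinrank_simple M x hn hdeg _ inf_le_right
      ⟨nnc15_pow_mem_adjoin_simple x n, hxM⟩ inf_le_left
  have h3 := relfinrank_mul_relfinrank hC_le_D (inf_le_left : K⟮x⟯ ⊓ M ≤ K⟮x⟯)
  rw [h1, h2] at h3
  have h4 : relfinrank K⟮x ^ n⟯ (K⟮x⟯ ⊓ M) = 1 := by
    have : relfinrank K⟮x ^ n⟯ (K⟮x⟯ ⊓ M) * n = 1 * n := by rw [h3, one_mul]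
    exact Nat.eq_of_mul_eq_mul_right hn this
  exact relfinrank_eq_one_iff.1 h4

/-- for EVERY `E ≤ M`: `E ⊓ K(x) ≤ K(xⁿ)`. -/
theorem nnc15_abs_inf_le (hxM : x ^ n ∈ M) (E : IntermediateField K Ω) (hE : E ≤ M) :
    E ⊓ K⟮x⟯ ≤ K⟮x ^ n⟯ := by
  rw [← nnc15_abs_simple_inf M x hn hdeg hxM, inf_comm]
  exact inf_le_inf_left _ hE

/-- for `E ≤ M` containing `xⁿ`: `E ⊓ K(x) = K(xⁿ)`. -/
theorem nnc15_abs_inf_eq (E : IntermediateField K Ω) (hE : E ≤ M) (hxE : x ^ n ∈ E) :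
    E ⊓ K⟮x⟯ = K⟮x ^ n⟯ := by
  refine le_antisymm (nnc15_abs_inf_le M x hn hdeg (hE hxE) E hE) (le_inf ?_ ?_)
  · rw [adjoin_simple_le_iff]; exact hxE
  · exact nnc15_adjoin_pow_le x n

/-- for `E ≤ M` containing `xⁿ`: `[E·K(x) : K(x)] = [E : K(xⁿ)]`. -/
theorem nnc15_abs_relfinrank_over_simple (E : IntermediateField K Ω) (hE : E ≤ M)
    (hxE : x ^ n ∈ E) :
    relfinrank K⟮x⟯ (E ⊔ K⟮x⟯) = relfinrank K⟮x ^ n⟯ E := by
  have hC_le_E : K⟮x ^ n⟯ ≤ E := by
    rw [adjoin_simple_le_iff]; exact hxE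
  have hC_le_S : K⟮x ^ n⟯ ≤ K⟮x⟯ := nnc15_adjoin_pow_le x n
  have h1 : relfinrank K⟮x ^ n⟯ K⟮x⟯ = n :=
    nnc15_abs_relfinrank_simple M x hn hdeg _ (hC_le_E.trans hE) (mem_adjoin_simple_self K _)
      hC_le_S
  have h2 : relfinrank E (E ⊔ K⟮x⟯) = n := nnc15_abs_relfinrank_sup M x hn hdeg E hE hxE
  have h3 := relfinrank_mul_relfinrank hC_le_E (le_sup_left : E ≤ E ⊔ K⟮x⟯)
  have h4 := relfinrank_mul_relfinrank hC_le_S (le_sup_right : K⟮x⟯ ≤ E ⊔ K⟮x⟯)
  rw [h2] at h3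
  rw [h1, ← h3] at h4
  have : relfinrank K⟮x⟯ (E ⊔ K⟮x⟯) * n = relfinrank K⟮x ^ n⟯ E * n := by
    rw [← h4, mul_comm]
  exact Nat.eq_of_mul_eq_mul_right hn this

end Main

section Criteria

variable (M : IntermediateField K Ω) (x : Ω)

/-- `n = 2`: `x² ∈ M`, `x ∉ M` ⟹ `deg minpoly_M(x) = 2`. -/
theorem nnc15_natDegree_minpoly_two (hx2 : x ^ 2 ∈ M) (hx : x ∉ M) :
    (minpoly M x).natDegree = 2 := by
  have hint := nnc15_isIntegral_of_pow_mem M x (by norm_num : 0 < 2) hx2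
  have hle := nnc15_natDegree_minpoly_le M x (by norm_num : 0 < 2) hx2
  have hpos := minpoly.natDegree_pos hint
  have hne : (minpoly M x).natDegree ≠ 1 := by
    intro h1
    have hdeg : (minpoly M x).degree = 1 := by
      rw [degree_eq_natDegree (minpoly.ne_zero hint), h1]; rfl
    obtain ⟨y, hy⟩ := minpoly.mem_range_of_degree_eq_one M x hdeg
    exact hx (by rw [← hy]; exact y.2)
  omega

/-- general `n`: if `Tⁿ - xⁿ` is irreducible over `M` then `deg minpoly_M(x) = n`. -/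
theorem nnc15_natDegree_minpoly_of_irreducible {n : ℕ} (hn : 0 < n) (hxn : x ^ n ∈ M)
    (hirr : Irreducible (X ^ n - C (⟨x ^ n, hxn⟩ : M) : M[X])) :
    (minpoly M x).natDegree = n := by
  have hp : aeval x (X ^ n - C (⟨x ^ n, hxn⟩ : M) : M[X]) = 0 := by
    simp only [map_sub, map_pow, aeval_X, aeval_C]
    exact sub_self _
  rw [← minpoly.eq_of_irreducible_of_monic hirr hp (monic_X_pow_sub_C _ hn.ne'),
    natDegree_X_pow_sub_C]

/-- `n = 3`: `x³ ∈ M` and `T³ - x³` has no root in `M` ⟹ `deg minpoly_M(x) = 3`. -/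
theorem nnc15_natDegree_minpoly_three (hx3 : x ^ 3 ∈ M)
    (hroot : ∀ y : M, (y : Ω) ^ 3 ≠ x ^ 3) : (minpoly M x).natDegree = 3 := by
  refine nnc15_natDegree_minpoly_of_irreducible M x (by norm_num) hx3 ?_
  have hm : (X ^ 3 - C (⟨x ^ 3, hx3⟩ : M) : M[X]).Monic := monic_X_pow_sub_C _ (by norm_num)
  have hd : (X ^ 3 - C (⟨x ^ 3, hx3⟩ : M) : M[X]).natDegree = 3 := natDegree_X_pow_sub_C
  rw [hm.irreducible_iff_roots_eq_zero_of_degree_le_three (by omega) (by omega)]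
  rw [Multiset.eq_zero_iff_forall_notMem]
  intro y hy
  rw [mem_roots hm.ne_zero, IsRoot, eval_sub, eval_pow, eval_X, eval_C, sub_eq_zero] at hy
  exact hroot y (by
    have := congrArg (fun z : M => (z : Ω)) hy
    simpa using this)

end Criteria

end Fermat.Agent.S18x
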