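/-
S18 project, NRM block, row N12deg (helper68), prefix `bsd_`.

THE DEGREE HYPOTHESES OF THE BRIDGING LEMMA (`bsly_`, helper69):
for `p ∈ {2, 3}`, `p ∣ M`, and `K = ℚ` or `K = 𝔽_ℓ` (`ℓ ∤ p M`)

  `[F_{pM} : F_M(q^p)] ≤ p`,      `F_M(q^p) :=` image of `F_M` under `q ↦ q^p`,

in exactly the shapes of helper28's `purb_FNe` / `purb_FNeb` (`S18x/LevelYDefs.lean`).

This is NOT immediate from the degree theorem `[F_N : K(j)] = ψ(N)`: one needs the degree of
`F_{pM}` over the TWISTED base `K(j(q^p))`.  We get `[F_{pM} : K(j(q^p))] ≤ ψ(pM)` from the tower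
through `F_p = K(j, j(q^p))` and `[F_p : K(j(q^p))] ≤ p + 1`, which follows from the DUAL modular
identities `j(q²) t = (t+16)³`, `j(q³) t = (t+27)(t+3)³` (helper11) because `F_p ⊆ K(t)`.
Then `[F_{pM} : F_M(q^p)] ≤ ψ(pM)/ψ(M) = p`.
-/
import Mathlib
import Fermat.Agent.S24x.CombIndex
import Fermat.Agent.S28x.DegAll
import Fermat.Agent.S28x.QepOfDeg
import Fermat.Agent.S28x.DegreeUpper
import Fermat.Agent.S18x.NrmNonCoprimeAbs
import Fermat.Agent.S18x.ModIdTwoDual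
import Fermat.Agent.S18x.ModIdTwoRing
import Fermat.Agent.S18x.ModIdThreeDual
import Fermat.Agent.S18x.LevelYDefs

set_option autoImplicit false

noncomputable section

namespace Fermat.Agent.S18x

open IntermediateField Polynomial ModularCurve Fermat.Agent.S28x

/-! ## abstract field theory -/

section Abstract

variable {K Ω : Type*} [Field K] [Field Ω] [Algebra K Ω]

/-- if `t` is a root of a monic `P ∈ A[X]` then `[A·K(t) : A] ≤ deg P`. -/
theorem bsd_relfinrank_sup_le (A : IntermediateField K Ω) (t : Ω) (P : A[X]) (hP : P.Monic)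
    (hroot : aeval t P = 0) : relfinrank A (A ⊔ K⟮t⟯) ≤ P.natDegree := by
  have hint : IsIntegral A t := ⟨P, hP, by rwa [← aeval_def]⟩
  rw [nnc15_relfinrank_sup_eq_natDegree A t hint]
  exact natDegree_le_of_dvd (minpoly.dvd A t hroot) hP.ne_zero

theorem bsd_relfinrank_sup_pos (A : IntermediateField K Ω) (t : Ω) (hint : IsIntegral A t) :
    0 < relfinrank A (A ⊔ K⟮t⟯) := by
  rw [nnc15_relfinrank_sup_eq_natDegree A t hint]
  exact minpoly.natDegree_pos hint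

/-- an intermediate field `A ≤ F ≤ A·K(t)`, `t` a root of a monic `P ∈ A[X]`, has
`[F : A] ≤ deg P`. -/
theorem bsd_relfinrank_le_of_root (A F : IntermediateField K Ω) (t : Ω) (P : A[X]) (hP : P.Monic)
    (hroot : aeval t P = 0) (hAF : A ≤ F) (hF : F ≤ A ⊔ K⟮t⟯) :
    relfinrank A F ≤ P.natDegree := by
  have hint : IsIntegral A t := ⟨P, hP, by rwa [← aeval_def]⟩
  have hmul := relfinrank_mul_relfinrank hAF hF
  have hpos := bsd_relfinrank_sup_pos A t hint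
  have hle := bsd_relfinrank_sup_le A t P hP hroot
  have h2 : relfinrank F (A ⊔ K⟮t⟯) ≠ 0 := by
    intro h0
    rw [h0, mul_zero] at hmul
    omega
  calc relfinrank A F ≤ relfinrank A F * relfinrank F (A ⊔ K⟮t⟯) :=
        Nat.le_mul_of_pos_right _ (Nat.pos_of_ne_zero h2)
    _ = relfinrank A (A ⊔ K⟮t⟯) := hmul
    _ ≤ P.natDegree := hle

/-- **degree bookkeeping**: `J, A ⊆ Fp ⊆ C`, `A ⊆ B ⊆ C`; `[C:J] ≤ p ψM`, `ψp ≤ [Fp:J]`,
`[Fp:A] ≤ ψp`, `ψM ≤ [B:A]` ⟹ `[C:B] ≤ p`. -/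
theorem bsd_relfinrank_le_abs (J A Fp B C : IntermediateField K Ω) {p ψp ψM : ℕ}
    (hJFp : J ≤ Fp) (hFpC : Fp ≤ C) (hAFp : A ≤ Fp) (hAB : A ≤ B) (hBC : B ≤ C)
    (hM : 0 < ψM)
    (hU : relfinrank J C ≤ p * ψM) (hLp : ψp ≤ relfinrank J Fp)
    (hT : relfinrank A Fp ≤ ψp) (hLB : ψM ≤ relfinrank A B) :
    relfinrank B C ≤ p := by
  have h1 := relfinrank_mul_relfinrank hJFp hFpC
  have h2 := relfinrank_mul_relfinrank hAFp hFpC
  have h3 := relfinrank_mul_relfinrank hAB hBC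
  have hAC : relfinrank A C ≤ p * ψM := by
    calc relfinrank A C = relfinrank A Fp * relfinrank Fp C := h2.symm
      _ ≤ ψp * relfinrank Fp C := Nat.mul_le_mul_right _ hT
      _ ≤ relfinrank J Fp * relfinrank Fp C := Nat.mul_le_mul_right _ hLp
      _ = relfinrank J C := h1
      _ ≤ p * ψM := hU
  have h4 : ψM * relfinrank B C ≤ ψM * p := by
    calc ψM * relfinrank B C ≤ relfinrank A B * relfinrank B C := Nat.mul_le_mul_right _ hLB
      _ = relfinrank A C := h3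
      _ ≤ p * ψM := hAC
      _ = ψM * p := mul_comm _ _
  exact Nat.le_of_mul_le_mul_left h4 hM

end Abstract

/-! ## the generic level statement -/

section Level

variable (K : Type*) [Field K]

/-- transport of degrees along `q ↦ q^e`: `[F_M(q^e) : K(j(q^e))] = [F_M : K(j)]`. -/
theorem bsd_relfinrank_map (e M : ℕ) [NeZero e] [NeZero M] :
    relfinrank K⟮qExpand K e (jqModC K)⟯
        ((modularFunctionFieldFullC K M).map (qExpandAlgHomC K e))
      = relfinrank K⟮jqModC K⟯ (modularFunctionFieldFullC K M) := by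
  have h1 : (K⟮jqModC K⟯).map (qExpandAlgHomC K e) = K⟮qExpand K e (jqModC K)⟯ := by
    rw [IntermediateField.adjoin_map, Set.image_singleton, qExpandAlgHomC_apply]
  rw [← h1, IntermediateField.relfinrank_map_map]

/-- `F_M(q^p) ⊆ F_L` when `p M ∣ L`. -/
theorem bsd_map_le (p M L : ℕ) [NeZero p] [NeZero M] [NeZero L] (hML : p * M ∣ L) :
    (modularFunctionFieldFullC K M).map (qExpandAlgHomC K p) ≤ modularFunctionFieldFullC K L := by
  rw [modularFunctionFieldFullC, adjoin_map, adjoin_le_iff]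
  rintro x ⟨y, ⟨d, hne, hdvd, rfl⟩, rfl⟩
  have := hne
  have : NeZero (p * d) := ⟨Nat.mul_ne_zero (NeZero.ne p) (NeZero.ne d)⟩
  show qExpandAlgHomC K p (qExpand K d (jqModC K)) ∈ _
  rw [qExpandAlgHomC_apply, qExpand_qExpand]
  exact jqModCd_mem_full K L ((mul_dvd_mul_left p hdvd).trans hML)

/-- **the generic statement**: `[F_L : F_M(q^p)] ≤ p` from the degree facts at levels `L`, `p`, `M`
and the twisted bound `[F_p : K(j(q^p))] ≤ ψ(p)`. -/
theorem bsd_relfinrank_map_le (p M L : ℕ) [NeZero p] [NeZero M] [NeZero L] (hML : p * M ∣ L)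
    (hψ : dedekindPsi L = p * dedekindPsi M) (hψM : 0 < dedekindPsi M)
    (hU : relfinrank K⟮jqModC K⟯ (modularFunctionFieldFullC K L) ≤ dedekindPsi L)
    (hLp : dedekindPsi p ≤ relfinrank K⟮jqModC K⟯ (modularFunctionFieldFullC K p))
    (hLM : dedekindPsi M ≤ relfinrank K⟮jqModC K⟯ (modularFunctionFieldFullC K M))
    (hT : relfinrank K⟮qExpand K p (jqModC K)⟯ (modularFunctionFieldFullC K p) ≤ dedekindPsi p) :
    relfinrank ((modularFunctionFieldFullC K M).map (qExpandAlgHomC K p))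
      (modularFunctionFieldFullC K L) ≤ p := by
  have hpL : p ∣ L := (dvd_mul_right p M).trans hML
  refine bsd_relfinrank_le_abs (K⟮jqModC K⟯) (K⟮qExpand K p (jqModC K)⟯)
    (modularFunctionFieldFullC K p) _ (modularFunctionFieldFullC K L)
    (ψp := dedekindPsi p) (ψM := dedekindPsi M) ?_ ?_ ?_ ?_ ?_ hψM ?_ hLp hT ?_
  · rw [adjoin_simple_le_iff]; exact jqModC_mem_full K p
  · exact full_degeneracyC_le K hpL
  · rw [adjoin_simple_le_iff]; exact jqModCd_mem_full K p dvd_rfl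
  · rw [adjoin_simple_le_iff]; exact ⟨jqModC K, jqModC_mem_full K M, rfl⟩
  · exact bsd_map_le K p M L hML
  · rw [← hψ]; exact hU
  · rw [bsd_relfinrank_map]; exact hLM

end Level

/-! ## the dual level-two identity over any ring, and `[F_2 : K(j(q²))] ≤ 3` -/

section Two

/-- **dual (I1) over any commutative ring**: `j(q²) y = (y + 16)³`, `y = Δ(q)/Δ(q²)`. -/
theorem bsd_dual_two (R : Type*) [CommRing R] :
    qExpand R 2 (jqModC R) * mi2_y R = (mi2_y R + 16) ^ 3 := by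
  set D := mi2_iota R mid2_D with hD
  set D2 := mi2_iota R mid2_D2 with hD2
  set u := ud_DeltaInv R 2 with hu
  set E := mi2_iota R mid2_E2 with hE
  have hint : E ^ 3 * D * D2 = (D + 16 * D2) ^ 3 := by
    have h := congrArg (mi2_iota R) mid2_int_dual
    simpa only [map_mul, map_pow, map_add, map_ofNat] using h
  have huD2 : u * D2 = 1 := mi2_DeltaInv_two_mul_D2 R
  have hJ : qExpand R 2 (jqModC R) * D2 = E ^ 3 := by
    have h := congrArg (qExpand R 2) (mi2_jq_mul_D R)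
    rw [map_mul, map_pow, ← mi2_iota_expand, ← mi2_iota_expand] at h
    exact h
  have hy : mi2_y R = D * u := rfl
  rw [hy]
  calc qExpand R 2 (jqModC R) * (D * u)
      = (qExpand R 2 (jqModC R) * D2) * D * D2 * u ^ 3 * (u * D2) ^ 0 := by
        rw [pow_zero, mul_one]
        calc qExpand R 2 (jqModC R) * (D * u)
            = qExpand R 2 (jqModC R) * D * u * (u * D2) ^ 2 := by rw [huD2]; ring
          _ = (qExpand R 2 (jqModC R) * D2) * D * D2 * u ^ 3 := by ring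
    _ = (D + 16 * D2) ^ 3 * u ^ 3 := by rw [hJ, hint]; ring
    _ = (D * u + 16 * (u * D2)) ^ 3 := by ring
    _ = (D * u + 16) ^ 3 := by rw [huD2, mul_one]

variable (K : Type*) [Field K]

theorem bsd_y_ne_zero : mi2_y K ≠ 0 := by
  intro h
  have := mi2_gd_two_mul_y K
  rw [h, mul_zero] at this
  exact zero_ne_one this

/-- `j ∈ K(y)`. -/
theorem bsd_j_mem_two : jqModC K ∈ K⟮mi2_y K⟯ := by
  have hy := bsd_y_ne_zero K
  have h : jqModC K = (mi2_y K + 256) ^ 3 / mi2_y K ^ 2 := by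
    rw [eq_div_iff (pow_ne_zero 2 hy)]
    exact (mi2_cubic_ring K).symm
  rw [h]
  have ht : mi2_y K ∈ K⟮mi2_y K⟯ := mem_adjoin_simple_self K _
  exact div_mem (pow_mem (add_mem ht (ofNat_mem _ 256)) 3) (pow_mem ht 2)

/-- **`[F_2 : K(j(q²))] ≤ 3`** over any field. -/
theorem bsd_twisted_two :
    relfinrank K⟮qExpand K 2 (jqModC K)⟯ (modularFunctionFieldFullC K 2) ≤ 3 := by
  set A := K⟮qExpand K 2 (jqModC K)⟯ with hA
  have hJA : qExpand K 2 (jqModC K) ∈ A := mem_adjoin_simple_self K _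
  set P : A[X] := (X + C 16) ^ 3 - C (⟨_, hJA⟩ : A) * X with hP
  have hdeg1 : ((X + C 16 : A[X]) ^ 3).natDegree = 3 := by
    rw [natDegree_pow, natDegree_X_add_C]
  have hmon1 : ((X + C 16 : A[X]) ^ 3).Monic := (monic_X_add_C _).pow 3
  have hdeg2 : (C (⟨_, hJA⟩ : A) * X : A[X]).natDegree < ((X + C 16 : A[X]) ^ 3).natDegree := by
    rw [hdeg1]
    exact lt_of_le_of_lt (natDegree_C_mul_le _ _) (by rw [natDegree_X]; norm_num)
  have hPmonic : P.Monic := by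
    rw [hP]
    refine hmon1.sub_of_left ?_
    exact degree_lt_degree hdeg2
  have hPdeg : P.natDegree = 3 := by
    rw [hP, natDegree_sub_eq_left_of_natDegree_lt hdeg2, hdeg1]
  have hroot : aeval (mi2_y K) P = 0 := by
    rw [hP]
    simp only [map_sub, map_mul, map_pow, map_add, aeval_X, aeval_C]
    have h16 : algebraMap A (LaurentSeries K) 16 = 16 := map_ofNat _ 16
    rw [h16]
    show (mi2_y K + 16) ^ 3 - qExpand K 2 (jqModC K) * mi2_y K = 0
    rw [bsd_dual_two K, sub_self]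
  have hle := bsd_relfinrank_le_of_root A (modularFunctionFieldFullC K 2) (mi2_y K) P hPmonic hroot
    (by rw [hA, adjoin_simple_le_iff]; exact jqModCd_mem_full K 2 dvd_rfl)
    (by
      rw [modularFunctionFieldFullC, adjoin_le_iff]
      rintro x ⟨d, hne, hd, rfl⟩
      have hd' := (Nat.dvd_prime Nat.prime_two).mp hd
      rcases hd' with rfl | rfl
      · rw [qExpand_one_apply]
        exact (le_sup_right : K⟮mi2_y K⟯ ≤ A ⊔ K⟮mi2_y K⟯) (bsd_j_mem_two K)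
      · exact (le_sup_left : A ≤ A ⊔ K⟮mi2_y K⟯) hJA)
  rwa [hPdeg] at hle

end Two

/-! ## `[F_3 : K(j(q³))] ≤ 4` -/

section Three

variable (K : Type*) [Field K]

theorem bsd_t_ne_zero : mid3_t K ≠ 0 := by
  rw [mid3_t]
  refine mul_ne_zero ?_ ?_
  · intro h
    have := congrArg (fun f : LaurentSeries K => f.coeff (-1)) h
    simp at this
  · intro h
    have h0 : (HahnSeries.ofPowerSeries ℤ K) (PowerSeries.map (Int.castRingHom K) mid3_w)
        = (HahnSeries.ofPowerSeries ℤ K) 0 := by rw [h, map_zero]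
    have h1 := HahnSeries.ofPowerSeries_injective h0
    have h2 := congrArg PowerSeries.constantCoeff h1
    rw [← PowerSeries.coeff_zero_eq_constantCoeff_apply, PowerSeries.coeff_map,
      PowerSeries.coeff_zero_eq_constantCoeff_apply, mid3_constantCoeff_w] at h2
    simp at h2

/-- `j ∈ K(t)`. -/
theorem bsd_j_mem_three : jqModC K ∈ K⟮mid3_t K⟯ := by
  have ht0 := bsd_t_ne_zero K
  have h : jqModC K = (mid3_t K + 27) * (mid3_t K + 243) ^ 3 / mid3_t K ^ 3 := by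
    rw [eq_div_iff (pow_ne_zero 3 ht0)]
    exact mid3_main K
  rw [h]
  have ht : mid3_t K ∈ K⟮mid3_t K⟯ := mem_adjoin_simple_self K _
  exact div_mem (mul_mem (add_mem ht (ofNat_mem _ 27)) (pow_mem (add_mem ht (ofNat_mem _ 243)) 3))
    (pow_mem ht 3)

/-- **`[F_3 : K(j(q³))] ≤ 4`** over any field. -/
theorem bsd_twisted_three :
    relfinrank K⟮qExpand K 3 (jqModC K)⟯ (modularFunctionFieldFullC K 3) ≤ 4 := by
  set A := K⟮qExpand K 3 (jqModC K)⟯ with hA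
  have hJA : qExpand K 3 (jqModC K) ∈ A := mem_adjoin_simple_self K _
  set P : A[X] := (X + C 27) * (X + C 3) ^ 3 - C (⟨_, hJA⟩ : A) * X with hP
  have hmon1 : ((X + C 27 : A[X]) * (X + C 3) ^ 3).Monic :=
    (monic_X_add_C _).mul ((monic_X_add_C _).pow 3)
  have hdeg1 : ((X + C 27 : A[X]) * (X + C 3) ^ 3).natDegree = 4 := by
    rw [(monic_X_add_C _).natDegree_mul ((monic_X_add_C _).pow 3), natDegree_pow,
      natDegree_X_add_C, natDegree_X_add_C]
  have hdeg2 : (C (⟨_, hJA⟩ : A) * X : A[X]).natDegree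
      < ((X + C 27 : A[X]) * (X + C 3) ^ 3).natDegree := by
    rw [hdeg1]
    exact lt_of_le_of_lt (natDegree_C_mul_le _ _) (by rw [natDegree_X]; norm_num)
  have hPmonic : P.Monic := by
    rw [hP]
    refine hmon1.sub_of_left ?_
    exact degree_lt_degree hdeg2
  have hPdeg : P.natDegree = 4 := by
    rw [hP, natDegree_sub_eq_left_of_natDegree_lt hdeg2, hdeg1]
  have hroot : aeval (mid3_t K) P = 0 := by
    rw [hP]
    simp only [map_sub, map_mul, map_pow, map_add, aeval_X, aeval_C]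
    have h27 : algebraMap A (LaurentSeries K) 27 = 27 := map_ofNat _ 27
    have h3 : algebraMap A (LaurentSeries K) 3 = 3 := map_ofNat _ 3
    rw [h27, h3]
    show (mid3_t K + 27) * (mid3_t K + 3) ^ 3 - qExpand K 3 (jqModC K) * mid3_t K = 0
    rw [mid3_main_dual K, sub_self]
  have hle := bsd_relfinrank_le_of_root A (modularFunctionFieldFullC K 3) (mid3_t K) P hPmonic hroot
    (by rw [hA, adjoin_simple_le_iff]; exact jqModCd_mem_full K 3 dvd_rfl)
    (by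
      rw [modularFunctionFieldFullC, adjoin_le_iff]
      rintro x ⟨d, hne, hd, rfl⟩
      have hd' := (Nat.dvd_prime Nat.prime_three).mp hd
      rcases hd' with rfl | rfl
      · rw [qExpand_one_apply]
        exact (le_sup_right : K⟮mid3_t K⟯ ≤ A ⊔ K⟮mid3_t K⟯) (bsd_j_mem_three K)
      · exact (le_sup_left : A ≤ A ⊔ K⟮mid3_t K⟯) hJA)
  rwa [hPdeg] at hle

end Three

/-! ## the degree facts over `ℚ` and over `𝔽_ℓ` -/

section DegFacts

theorem bsd_psi_prime {p : ℕ} (hp : p.Prime) : dedekindPsi p = p + 1 := by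
  have h := S24x.dedekindPsi_mul_prime_of_not_dvd 1 p hp one_pos
    (fun h => hp.one_lt.ne' (Nat.dvd_one.mp h))
  rwa [one_mul, dedekindPsi_one, mul_one] at h

theorem bsd_psi_mul {p M : ℕ} (hp : p.Prime) (hM : 0 < M) (h : p ∣ M) {L : ℕ} (hL : L = p * M) :
    dedekindPsi L = p * dedekindPsi M := by
  rw [hL, mul_comm p M]
  exact S24x.dedekindPsi_mul_prime_of_dvd M p hp hM h

/-- `[F_N : ℚ(j)] ≤ ψ(N)`. -/
theorem bsd_upper_Q (N : ℕ) [NeZero N] :
    relfinrank ℚ⟮jqModC ℚ⟯ (modularFunctionFieldFullC ℚ N) ≤ dedekindPsi N :=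
  relfinrank_full_le N

/-- `ψ(N) ≤ [F_N : ℚ(j)]` (reduce modulo a prime `ℓ ∤ N` and use Igusa's `deg_all`). -/
theorem bsd_lower_Q (N : ℕ) [NeZero N] :
    dedekindPsi N ≤ relfinrank ℚ⟮jqModC ℚ⟯ (modularFunctionFieldFullC ℚ N) := by
  obtain ⟨ℓ, hℓ, hprime⟩ := Nat.exists_infinite_primes (N + 1)
  have : Fact ℓ.Prime := ⟨hprime⟩
  have hℓN : ¬ ℓ ∣ N := fun h => by
    have := Nat.le_of_dvd (NeZero.pos N) h
    omega
  have h1 : dedekindPsi N ≤ relfinrank (Kj ℓ) (Ft ℓ N) := deg_all ℓ N hℓN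
  exact h1.trans (qd_relfinrank_Ft_le_full (qd_input ℓ N))

theorem bsd_upper_F (ℓ : ℕ) [Fact ℓ.Prime] (N : ℕ) [NeZero N] :
    relfinrank (ZMod ℓ)⟮jqModC (ZMod ℓ)⟯ (modularFunctionFieldFullC (ZMod ℓ) N) ≤ dedekindPsi N :=
  relfinrank_Ft_le ℓ N

theorem bsd_lower_F (ℓ : ℕ) [Fact ℓ.Prime] (N : ℕ) [NeZero N] (hℓN : ¬ ℓ ∣ N) :
    dedekindPsi N ≤ relfinrank (ZMod ℓ)⟮jqModC (ZMod ℓ)⟯ (modularFunctionFieldFullC (ZMod ℓ) N) :=
  deg_all ℓ N hℓN

end DegFacts

/-! ## the four instances, in helper28's `purb_` shapes -/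

section Instances

theorem bsd_FNe_eq (e N : ℕ) [NeZero e] [NeZero N] :
    purb_FNe e N = (modularFunctionFieldFullC ℚ N).map (qExpandAlgHomC ℚ e) := rfl

theorem bsd_FNe_le (e N L : ℕ) [NeZero e] [NeZero N] [NeZero L] (h : e * N ∣ L) :
    purb_FNe e N ≤ modularFunctionFieldFull L :=
  bsd_map_le ℚ e N L h

theorem bsd_FNeb_le (ℓ : ℕ) [Fact ℓ.Prime] (e N L : ℕ) [NeZero e] [NeZero N] [NeZero L]
    (h : e * N ∣ L) : purb_FNeb ℓ e N ≤ modularFunctionFieldFullC (ZMod ℓ) L :=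
  bsd_map_le (ZMod ℓ) e N L h

/-- **`[F_{4N} : F_{2N}(q²)] ≤ 2` over `ℚ`.** -/
theorem bsd_relfinrank_Q_two (N : ℕ) [NeZero N] :
    relfinrank (purb_FNe 2 (2 * N)) (modularFunctionFieldFull (4 * N)) ≤ 2 := by
  have hL : 4 * N = 2 * (2 * N) := by ring
  have hpos : 0 < 2 * N := NeZero.pos _
  refine bsd_relfinrank_map_le ℚ 2 (2 * N) (4 * N) (dvd_of_eq hL.symm)
    (bsd_psi_mul Nat.prime_two hpos (dvd_mul_right 2 N) hL)
    (sa_dedekindPsi_pos _ hpos.ne') (bsd_upper_Q _) (bsd_lower_Q 2) (bsd_lower_Q _) ?_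
  rw [bsd_psi_prime Nat.prime_two]
  exact bsd_twisted_two ℚ

/-- **`[F_{9N} : F_{3N}(q³)] ≤ 3` over `ℚ`.** -/
theorem bsd_relfinrank_Q_three (N : ℕ) [NeZero N] :
    relfinrank (purb_FNe 3 (3 * N)) (modularFunctionFieldFull (9 * N)) ≤ 3 := by
  have hL : 9 * N = 3 * (3 * N) := by ring
  have hpos : 0 < 3 * N := NeZero.pos _
  refine bsd_relfinrank_map_le ℚ 3 (3 * N) (9 * N) (dvd_of_eq hL.symm)
    (bsd_psi_mul Nat.prime_three hpos (dvd_mul_right 3 N) hL)
    (sa_dedekindPsi_pos _ hpos.ne') (bsd_upper_Q _) (bsd_lower_Q 3) (bsd_lower_Q _) ?_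
  rw [bsd_psi_prime Nat.prime_three]
  exact bsd_twisted_three ℚ

/-- **`[F̄_{4N} : F̄_{2N}(q²)] ≤ 2` over `𝔽_ℓ`, `ℓ ∤ 2N`.** -/
theorem bsd_relfinrank_F_two (ℓ : ℕ) [Fact ℓ.Prime] (hℓ2 : ℓ ≠ 2) (N : ℕ) [NeZero N]
    (hℓN : ¬ ℓ ∣ N) :
    relfinrank (purb_FNeb ℓ 2 (2 * N)) (modularFunctionFieldFullC (ZMod ℓ) (4 * N)) ≤ 2 := by
  have hℓ : ℓ.Prime := Fact.out
  have hL : 4 * N = 2 * (2 * N) := by ring
  have hpos : 0 < 2 * N := NeZero.pos _
  have h2 : ¬ ℓ ∣ 2 := fun h => hℓ2 ((Nat.prime_dvd_prime_iff_eq hℓ Nat.prime_two).mp h)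
  have h2N : ¬ ℓ ∣ 2 * N := fun h => (hℓ.dvd_mul.mp h).elim h2 hℓN
  refine bsd_relfinrank_map_le (ZMod ℓ) 2 (2 * N) (4 * N) (dvd_of_eq hL.symm)
    (bsd_psi_mul Nat.prime_two hpos (dvd_mul_right 2 N) hL)
    (sa_dedekindPsi_pos _ hpos.ne') (bsd_upper_F ℓ _) (bsd_lower_F ℓ 2 h2)
    (bsd_lower_F ℓ _ h2N) ?_
  rw [bsd_psi_prime Nat.prime_two]
  exact bsd_twisted_two (ZMod ℓ)

/-- **`[F̄_{9N} : F̄_{3N}(q³)] ≤ 3` over `𝔽_ℓ`, `ℓ ∤ 3N`** (used for `ℓ = 2`). -/
theorem bsd_relfinrank_F_three (ℓ : ℕ) [Fact ℓ.Prime] (hℓ3 : ℓ ≠ 3) (N : ℕ) [NeZero N]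
    (hℓN : ¬ ℓ ∣ N) :
    relfinrank (purb_FNeb ℓ 3 (3 * N)) (modularFunctionFieldFullC (ZMod ℓ) (9 * N)) ≤ 3 := by
  have hℓ : ℓ.Prime := Fact.out
  have hL : 9 * N = 3 * (3 * N) := by ring
  have hpos : 0 < 3 * N := NeZero.pos _
  have h3 : ¬ ℓ ∣ 3 := fun h => hℓ3 ((Nat.prime_dvd_prime_iff_eq hℓ Nat.prime_three).mp h)
  have h3N : ¬ ℓ ∣ 3 * N := fun h => (hℓ.dvd_mul.mp h).elim h3 hℓN
  refine bsd_relfinrank_map_le (ZMod ℓ) 3 (3 * N) (9 * N) (dvd_of_eq hL.symm)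
    (bsd_psi_mul Nat.prime_three hpos (dvd_mul_right 3 N) hL)
    (sa_dedekindPsi_pos _ hpos.ne') (bsd_upper_F ℓ _) (bsd_lower_F ℓ 3 h3)
    (bsd_lower_F ℓ _ h3N) ?_
  rw [bsd_psi_prime Nat.prime_three]
  exact bsd_twisted_three (ZMod ℓ)

end Instances

end Fermat.Agent.S18x
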