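/-
S18 project, NRM block, row N10 corollaries, Hensel side (helper86, prefix `mid3c_`).

The level-three identity (I3) `j t³ = (t + 27) (t + 243)³` for a Laurent series `t = X⁻¹ w`,
`w ∈ 1 + X R⟦X⟧`, identifies the Hesse Hensel coordinate of `S18x/HesseCoord.lean`:

  `hsc_sigma R = w + 27 X`,  `hsc_stilde R = t + 27`,  `hsc_mu h3 ^ 3 = (t + 27)(q³)`.

Everything here takes (I3) as a HYPOTHESIS on an arbitrary `w` (any commutative ring `R`), so that
it applies verbatim to helper11's `mid3_main` (`w := mid3_w.map (Int.castRingHom R)`).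
Consequences: `t` is uniquely determined by (I3) and the normalisation, and is functorial in `R`.
-/
import Mathlib
import Fermat.Agent.S18x.HesseCoord

set_option autoImplicit false

noncomputable section

namespace Fermat.Agent.S18x

open ModularCurve

section General

variable {R : Type*} [CommRing R]

/-- the Laurent series `X⁻¹ w`. -/
def mid3c_t (w : PowerSeries R) : LaurentSeries R :=
  HahnSeries.single (-1 : ℤ) 1 * HahnSeries.ofPowerSeries ℤ R w

theorem mid3c_single_mul_X :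
    HahnSeries.single (-1 : ℤ) (1 : R) *
      HahnSeries.ofPowerSeries ℤ R (PowerSeries.X : PowerSeries R) = 1 := by
  rw [HahnSeries.ofPowerSeries_X, HahnSeries.single_mul_single]
  simp

/-- (I3) for `t = X⁻¹ w`, cleared of denominators: a power series identity. -/
theorem mid3c_series_identity (w : PowerSeries R)
    (hI3 : jqModC R * mid3c_t w ^ 3 = (mid3c_t w + 27) * (mid3c_t w + 243) ^ 3) :
    purb_J R * w ^ 3 = (w + 27 * PowerSeries.X) * (w + 243 * PowerSeries.X) ^ 3 := by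
  apply HahnSeries.ofPowerSeries_injective (Γ := ℤ)
  simp only [map_mul, map_pow, map_add, map_ofNat]
  set s : LaurentSeries R := HahnSeries.single (-1 : ℤ) 1 with hs
  set x : LaurentSeries R := HahnSeries.ofPowerSeries ℤ R (PowerSeries.X : PowerSeries R) with hx
  set W : LaurentSeries R := HahnSeries.ofPowerSeries ℤ R w with hW
  set J : LaurentSeries R := HahnSeries.ofPowerSeries ℤ R (purb_J R) with hJ
  have hsx : s * x = 1 := mid3c_single_mul_X
  have h : s * J * (s * W) ^ 3 = (s * W + 27) * (s * W + 243) ^ 3 := by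
    have := hI3
    rwa [hsc_jqModC_eq, mid3c_t] at this
  calc J * W ^ 3 = (s * x) ^ 4 * (J * W ^ 3) := by rw [hsx, one_pow, one_mul]
    _ = x ^ 4 * (s * J * (s * W) ^ 3) := by ring
    _ = x ^ 4 * ((s * W + 27) * (s * W + 243) ^ 3) := by rw [h]
    _ = ((s * x) * W + 27 * x) * ((s * x) * W + 243 * x) ^ 3 := by ring
    _ = (W + 27 * x) * (W + 243 * x) ^ 3 := by rw [hsx, one_mul]

/-- **(I3) identifies the Hensel root**: `σ = w + 27 X`. -/
theorem mid3c_sigma_eq (w : PowerSeries R) (hw0 : PowerSeries.constantCoeff w = 1)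
    (hI3 : jqModC R * mid3c_t w ^ 3 = (mid3c_t w + 27) * (mid3c_t w + 243) ^ 3) :
    hsc_sigma R = w + 27 * PowerSeries.X := by
  symm
  refine hsc_sigma_unique _ ?_ ?_
  · simp [hw0]
  · have h := mid3c_series_identity w hI3
    calc (w + 27 * PowerSeries.X) * (w + 27 * PowerSeries.X + 216 * PowerSeries.X) ^ 3
        = (w + 27 * PowerSeries.X) * (w + 243 * PowerSeries.X) ^ 3 := by ring
      _ = purb_J R * w ^ 3 := h.symm
      _ = purb_J R * (w + 27 * PowerSeries.X - 27 * PowerSeries.X) ^ 3 := by ring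

/-- **(I3) identifies the Hesse coordinate**: `s̃ = t + 27`. -/
theorem mid3c_stilde_eq (w : PowerSeries R) (hw0 : PowerSeries.constantCoeff w = 1)
    (hI3 : jqModC R * mid3c_t w ^ 3 = (mid3c_t w + 27) * (mid3c_t w + 243) ^ 3) :
    hsc_stilde R = mid3c_t w + 27 := by
  rw [hsc_stilde, mid3c_sigma_eq w hw0 hI3, mid3c_t, map_add, map_mul, map_ofNat, mul_add]
  congr 1
  calc HahnSeries.single (-1 : ℤ) (1 : R) *
        (27 * HahnSeries.ofPowerSeries ℤ R (PowerSeries.X : PowerSeries R))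
      = 27 * (HahnSeries.single (-1 : ℤ) (1 : R) *
        HahnSeries.ofPowerSeries ℤ R (PowerSeries.X : PowerSeries R)) := by ring
    _ = 27 := by rw [mid3c_single_mul_X, mul_one]

/-- `t = s̃ - 27`: the solution of (I3) is unique. -/
theorem mid3c_t_eq (w : PowerSeries R) (hw0 : PowerSeries.constantCoeff w = 1)
    (hI3 : jqModC R * mid3c_t w ^ 3 = (mid3c_t w + 27) * (mid3c_t w + 243) ^ 3) :
    mid3c_t w = hsc_stilde R - 27 := by
  rw [mid3c_stilde_eq w hw0 hI3, add_sub_cancel_right]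

/-- **`μ³ = (t + 27)(q³)`** for the Hesse coordinate `μ` (`3` a unit). -/
theorem mid3c_mu_cube (h3 : IsUnit (3 : R)) (w : PowerSeries R)
    (hw0 : PowerSeries.constantCoeff w = 1)
    (hI3 : jqModC R * mid3c_t w ^ 3 = (mid3c_t w + 27) * (mid3c_t w + 243) ^ 3) :
    hsc_mu h3 ^ 3 = qExpand R 3 (mid3c_t w + 27) := by
  rw [hsc_mu_cube, mid3c_stilde_eq w hw0 hI3]

/-- `μ³ = t(q³) + 27`. -/
theorem mid3c_mu_cube' (h3 : IsUnit (3 : R)) (w : PowerSeries R)
    (hw0 : PowerSeries.constantCoeff w = 1)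
    (hI3 : jqModC R * mid3c_t w ^ 3 = (mid3c_t w + 27) * (mid3c_t w + 243) ^ 3) :
    hsc_mu h3 ^ 3 = qExpand R 3 (mid3c_t w) + 27 := by
  rw [mid3c_mu_cube h3 w hw0 hI3, map_add, map_ofNat]

/-- functoriality of `X⁻¹ w`. -/
theorem mid3c_t_map {R' : Type*} [CommRing R'] (φ : R →+* R') (w : PowerSeries R) :
    coeffMap φ (mid3c_t w) = mid3c_t (w.map φ) := by
  rw [mid3c_t, map_mul, coeffMap_single, map_one, coeffMap_ofPowerSeries, mid3c_t]

end General

section Field

variable (K : Type*) [Field K]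

/-- if `t ∈ F₃` then `s̃ ∈ F₃`. -/
theorem mid3c_stilde_mem (w : PowerSeries K) (hw0 : PowerSeries.constantCoeff w = 1)
    (hI3 : jqModC K * mid3c_t w ^ 3 = (mid3c_t w + 27) * (mid3c_t w + 243) ^ 3)
    (ht : mid3c_t w ∈ modularFunctionFieldFullC K 3) :
    hsc_stilde K ∈ modularFunctionFieldFullC K 3 := by
  rw [mid3c_stilde_eq w hw0 hI3]
  exact add_mem ht (ofNat_mem _ 27)

/-- if `t ∈ F₃` then `s̃(q³) ∈ F₉`. -/
theorem mid3c_stilde3_mem (w : PowerSeries K) (hw0 : PowerSeries.constantCoeff w = 1)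
    (hI3 : jqModC K * mid3c_t w ^ 3 = (mid3c_t w + 27) * (mid3c_t w + 243) ^ 3)
    (ht : mid3c_t w ∈ modularFunctionFieldFullC K 3) :
    qExpand K 3 (hsc_stilde K) ∈ modularFunctionFieldFullC K 9 := by
  have h1 : qExpandAlgHomC K 3 (hsc_stilde K)
      ∈ (modularFunctionFieldFullC K 3).map (qExpandAlgHomC K 3) :=
    ⟨_, mid3c_stilde_mem K w hw0 hI3 ht, rfl⟩
  have h2 := full_degeneracyC_map_le K 3 3 h1
  simpa using h2

/-- if `t ∈ F₃` then `μ³ ∈ F₉`. -/
theorem mid3c_mu_cube_mem (h3 : IsUnit (3 : K)) (w : PowerSeries K)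
    (hw0 : PowerSeries.constantCoeff w = 1)
    (hI3 : jqModC K * mid3c_t w ^ 3 = (mid3c_t w + 27) * (mid3c_t w + 243) ^ 3)
    (ht : mid3c_t w ∈ modularFunctionFieldFullC K 3) :
    hsc_mu h3 ^ 3 ∈ modularFunctionFieldFullC K 9 := by
  rw [hsc_mu_cube]
  exact mid3c_stilde3_mem K w hw0 hI3 ht

end Field

end Fermat.Agent.S18x
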