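import Mathlib

/-!
# Linear disjointness without Galois groups (prefix `ldj_`)

Generic field theory for Step 2 of the S18 auxiliary level (docs `S18_l23_solution_helper57`,
plan `S18_NRM_block_plan_helper57`, rows N2a/N2b/N4).

* `ldj_irreducible_map_of_conj` (conjugation argument): `Q` irreducible over `k0`;
  `F ≤ P1 ≤ Ω` with `Ω` algebraically closed; over `P1`, `Q = (T - s)·C` with `C` irreducible;
  a root `s₁` of `C` lies outside a field `PN` which contains all `k0`-conjugates of `F`.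
  Then `Q` stays irreducible over `F`.
* `ldj_irreducible_X_pow_sub_C`: Kummer step: `T^p - s` is irreducible over any subfield of a
  field in which `s` is not a `p`-th power.
-/

set_option autoImplicit false

open Polynomial IntermediateField

namespace Fermat.Agent.S18x

section ConjugationArgument

variable {k0 Ω : Type*} [Field k0] [Field Ω] [Algebra k0 Ω]

theorem ldj_aeval_of_fact {Q : k0[X]} {P1 : IntermediateField k0 Ω} {s : Ω} (hs1 : s ∈ P1)
    {C : P1[X]} (hfact : Q.map (algebraMap k0 P1) = (X - Polynomial.C ⟨s, hs1⟩) * C) :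
    aeval s Q = 0 := by
  rw [← aeval_map_algebraMap P1, hfact, map_mul, map_sub, aeval_X, aeval_C]
  have : algebraMap P1 Ω ⟨s, hs1⟩ = s := rfl
  rw [this, sub_self, zero_mul]

theorem ldj_aeval_of_fact_right {Q : k0[X]} {P1 : IntermediateField k0 Ω} {s : Ω} (hs1 : s ∈ P1)
    {C : P1[X]} (hfact : Q.map (algebraMap k0 P1) = (X - Polynomial.C ⟨s, hs1⟩) * C)
    {s1 : Ω} (hs1root : aeval s1 C = 0) :
    aeval s1 Q = 0 := by
  rw [← aeval_map_algebraMap P1, hfact, map_mul, hs1root, mul_zero]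

/-- **Conjugation argument.** -/
theorem ldj_irreducible_map_of_conj [IsAlgClosed Ω] {Q : k0[X]} (hQ : Irreducible Q)
    {F P1 PN : IntermediateField k0 Ω} (hF1 : F ≤ P1) [Algebra.IsAlgebraic k0 F]
    (hconj : ∀ τ : F →ₐ[k0] Ω, τ.fieldRange ≤ PN)
    {s : Ω} (hs1 : s ∈ P1)
    {C : P1[X]} (hC : Irreducible C)
    (hfact : Q.map (algebraMap k0 P1) = (X - Polynomial.C ⟨s, hs1⟩) * C)
    {s1 : Ω} (hs1root : aeval s1 C = 0) (hs1N : s1 ∉ PN) :
    Irreducible (Q.map (algebraMap k0 F)) := by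
  have hQs : aeval s Q = 0 := ldj_aeval_of_fact hs1 hfact
  have hQs1 : aeval s1 Q = 0 := ldj_aeval_of_fact_right hs1 hfact hs1root
  set QF : F[X] := Q.map (algebraMap k0 F) with hQF
  have hQF0 : QF ≠ 0 := (Polynomial.map_ne_zero_iff (algebraMap k0 F).injective).mpr hQ.ne_zero
  have hQFs : aeval s QF = 0 := by rw [hQF, aeval_map_algebraMap]; exact hQs
  have hint : IsIntegral F s := IsAlgebraic.isIntegral ⟨QF, hQF0, hQFs⟩
  set m := minpoly F s with hm
  have hm_dvd : m ∣ QF := minpoly.dvd F s hQFs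
  -- pass to `P1`
  let ι : F →+* P1 := (IntermediateField.inclusion hF1).toRingHom
  have hι : ι.comp (algebraMap k0 F) = algebraMap k0 P1 :=
    (IntermediateField.inclusion hF1).comp_algebraMap
  have hιΩ : (algebraMap P1 Ω).comp ι = algebraMap F Ω := by
    ext x; rfl
  have hQFι : QF.map ι = (X - Polynomial.C ⟨s, hs1⟩) * C := by
    rw [hQF, Polynomial.map_map, hι, hfact]
  have hmP_dvd : m.map ι ∣ (X - Polynomial.C ⟨s, hs1⟩) * C := by
    rw [← hQFι]; exact Polynomial.map_dvd ι hm_dvd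
  have hroot : (m.map ι).IsRoot ⟨s, hs1⟩ := by
    rw [IsRoot.def]
    apply (algebraMap P1 Ω).injective
    rw [map_zero, ← coe_aeval_eq_eval, ← aeval_algebraMap_apply]
    have : algebraMap P1 Ω ⟨s, hs1⟩ = s := rfl
    rw [this, aeval_def, eval₂_map, hιΩ, ← aeval_def]
    exact minpoly.aeval F s
  obtain ⟨m', hm'⟩ := dvd_iff_isRoot.mpr hroot
  have hXne : (X - Polynomial.C (⟨s, hs1⟩ : P1)) ≠ 0 := X_sub_C_ne_zero _
  have hm'_dvd : m' ∣ C := by
    rw [hm'] at hmP_dvd
    exact (mul_dvd_mul_iff_left hXne).mp hmP_dvd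
  have hm'0 : m' ≠ 0 := by
    rintro rfl
    rw [mul_zero] at hm'
    exact (Polynomial.map_ne_zero_iff ι.injective).mpr (minpoly.ne_zero hint) hm'
  have hdegm : m.natDegree = 1 + m'.natDegree := by
    rw [← Polynomial.natDegree_map ι, hm', natDegree_mul hXne hm'0, natDegree_X_sub_C]
  rcases (hC.dvd_iff).mp hm'_dvd with hu | hassoc
  · -- `s ∈ F`: contradiction with the conjugation hypothesis
    exfalso
    have hd1 : m.natDegree = 1 := by
      rw [hdegm, natDegree_eq_zero_of_isUnit hu]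
    obtain ⟨s', hs'⟩ := minpoly.natDegree_eq_one_iff.mp hd1
    have hs'Q : aeval s' Q = 0 := by
      apply (algebraMap F Ω).injective
      rw [map_zero, ← aeval_algebraMap_apply, hs']
      exact hQs
    have hmin : Q * Polynomial.C Q.leadingCoeff⁻¹ = minpoly k0 s' :=
      minpoly.eq_of_irreducible hQ hs'Q
    have hs1min : aeval s1 (minpoly k0 s') = 0 := by
      rw [← hmin, map_mul, hQs1, zero_mul]
    obtain ⟨φ, hφ⟩ := IntermediateField.exists_algHom_of_splits_of_aeval (F := k0) (E := F) (K := Ω)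
      (fun x => ⟨Algebra.IsIntegral.isIntegral x, IsAlgClosed.splits _⟩) hs1min
    exact hs1N (hconj φ ⟨s', hφ⟩)
  · -- full degree
    have hdeg : QF.natDegree ≤ m.natDegree := by
      have h1 : QF.natDegree = (QF.map ι).natDegree := (Polynomial.natDegree_map ι).symm
      rw [h1, hQFι, natDegree_mul hXne hC.ne_zero, natDegree_X_sub_C, hdegm,
        Polynomial.natDegree_eq_of_degree_eq (degree_eq_degree_of_associated hassoc)]
    exact (associated_of_dvd_of_natDegree_le hm_dvd hQF0 hdeg).irreducible (minpoly.irreducible hint)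

end ConjugationArgument

section Kummer

variable {P : Type*} [Field P]

/-- **Kummer step.** If `s` is not a `p`-th power in `P`, then `T^p - s` is irreducible over every
subfield `E` of `P` containing `s`. -/
theorem ldj_irreducible_X_pow_sub_C {E : Type*} [Field E] [Algebra E P] {p : ℕ} (hp : p.Prime)
    (s : E) (hs : ∀ b : P, b ^ p ≠ algebraMap E P s) :
    Irreducible (X ^ p - Polynomial.C s : E[X]) := by
  refine X_pow_sub_C_irreducible_of_prime hp fun b hb => hs (algebraMap E P b) ?_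
  rw [← map_pow, hb]

end Kummer

section Tower

variable {k0 Ω : Type*} [Field k0] [Field Ω] [Algebra k0 Ω]

/-- **Degree of the two-step tower** `F ⊂ F(s) ⊂ F(μ)`, `μ^p = s`: if `Q` (a polynomial over `k0`
with root `s`) is irreducible over `F`, `F ≤ P1`, and `s` is not a `p`-th power in `P1 ∋ s`, then
`[F(μ) : F] = p · deg Q`. -/
theorem ldj_finrank_adjoin (F P1 : IntermediateField k0 Ω) (hF1 : F ≤ P1) {Q : k0[X]}
    (hQF : Irreducible (Q.map (algebraMap k0 F))) {s μ : Ω} (hsQ : aeval s Q = 0) (hs1 : s ∈ P1)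
    {p : ℕ} (hp : p.Prime) (hμ : μ ^ p = s) (hpow : ∀ b ∈ P1, b ^ p ≠ s) :
    Module.finrank F F⟮μ⟯ = p * Q.natDegree := by
  set QF : F[X] := Q.map (algebraMap k0 F) with hQFdef
  have hQFs : aeval s QF = 0 := by rw [hQFdef, aeval_map_algebraMap]; exact hsQ
  have hints : IsIntegral F s := IsAlgebraic.isIntegral ⟨QF, hQF.ne_zero, hQFs⟩
  -- first step
  have h1 : Module.finrank F F⟮s⟯ = Q.natDegree := by
    rw [IntermediateField.adjoin.finrank hints, ← minpoly.eq_of_irreducible hQF hQFs,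
      natDegree_mul_C (inv_ne_zero (leadingCoeff_ne_zero.mpr hQF.ne_zero)), hQFdef,
      Polynomial.natDegree_map]
  -- second step
  have hle : F⟮s⟯ ≤ IntermediateField.extendScalars hF1 :=
    adjoin_simple_le_iff.mpr hs1
  have hirr : Irreducible (X ^ p - Polynomial.C (AdjoinSimple.gen F s) : (F⟮s⟯)[X]) := by
    refine X_pow_sub_C_irreducible_of_prime hp fun b hb => hpow (b : Ω) (hle b.2) ?_
    have := congrArg (fun t : F⟮s⟯ => (t : Ω)) hb
    simpa using this
  have hroot : aeval μ (X ^ p - Polynomial.C (AdjoinSimple.gen F s) : (F⟮s⟯)[X]) = 0 := by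
    rw [map_sub, map_pow, aeval_X, aeval_C, hμ]
    exact sub_self _
  have hintμ : IsIntegral F⟮s⟯ μ :=
    IsAlgebraic.isIntegral ⟨_, hirr.ne_zero, hroot⟩
  have h2 : Module.finrank F⟮s⟯ F⟮s⟯⟮μ⟯ = p := by
    rw [IntermediateField.adjoin.finrank hintμ,
      ← minpoly.eq_of_irreducible_of_monic hirr hroot (monic_X_pow_sub_C _ hp.ne_zero),
      natDegree_X_pow_sub_C]
  -- glue
  have h3 : Module.finrank F (F⟮s⟯⟮μ⟯) = Q.natDegree * p := by
    rw [← Module.finrank_mul_finrank F F⟮s⟯ F⟮s⟯⟮μ⟯, h1, h2]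
  have h4 : (F⟮s⟯⟮μ⟯).restrictScalars F = F⟮μ⟯ := by
    rw [adjoin_simple_adjoin_simple]
    apply le_antisymm
    · rw [adjoin_le_iff]
      rintro x (rfl | rfl)
      · rw [← hμ]; exact pow_mem (mem_adjoin_simple_self F _) p
      · exact mem_adjoin_simple_self F _
    · exact adjoin.mono F _ _ (by simp)
  have h5 : Module.finrank F ((F⟮s⟯⟮μ⟯).restrictScalars F) = Module.finrank F (F⟮s⟯⟮μ⟯) := rfl
  rw [← h4, h5, h3, mul_comm]

end Tower

end Fermat.Agent.S18x
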