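import Fermat.Agent.S18x.RatDeg

/-!
# More on `K(s) / K(p(s)/q(s))` (prefix `rfd_`, continuation of `RatDeg.lean`)

* `rfd_aeval_den_ne_zero`, `rfd_transcendental`: if `p(s) = J q(s)` with `p, q` coprime and `J`
  transcendental, then `q(s) ≠ 0` and `s` is transcendental;
* `rfd_irreducible_sub`: for `s` transcendental, `p` monic, `deg q < deg p`, `p, q` coprime, the
  polynomial `p(T) - J q(T)` is irreducible over `K(J)`, `J = p(s)/q(s)`.
-/

set_option autoImplicit false

open Polynomial IntermediateField

namespace Fermat.Agent.S18x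

section Generic


variable {K E : Type*} [Field K] [Field E] [Algebra K E]

/-- If `p(s) = J·q(s)` with `p, q` coprime and `J` transcendental over `K`, then `q(s) ≠ 0`. -/
theorem rfd_aeval_den_ne_zero {p q : K[X]} (hpq : IsCoprime p q) {s J : E}
    (h : aeval s p = J * aeval s q) : aeval s q ≠ 0 := by
  intro h0
  obtain ⟨a, b, hab⟩ := hpq
  have := congrArg (aeval s) hab
  rw [map_add, map_mul, map_mul, h, h0, mul_zero, mul_zero, mul_zero, add_zero, map_one] at this
  exact zero_ne_one this

/-- If `p(s) = J·q(s)` with `p, q` coprime and `J` transcendental over `K`, then `s` is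
transcendental over `K`. -/
theorem rfd_transcendental {p q : K[X]} (hpq : IsCoprime p q) {s J : E}
    (hJ : Transcendental K J) (h : aeval s p = J * aeval s q) : Transcendental K s := by
  intro hs
  apply hJ
  have hne := rfd_aeval_den_ne_zero hpq h
  have hJ' : J = aeval s p / aeval s q := by
    rw [h, mul_div_assoc, div_self hne, mul_one]
  have hpoly : ∀ g : K[X], aeval s g ∈ K⟮s⟯ := fun g =>
    IntermediateField.algebra_adjoin_le_adjoin K {s} (Polynomial.aeval_mem_adjoin_singleton K s)
  have hmem : J ∈ K⟮s⟯ := by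
    rw [hJ']
    exact div_mem (hpoly p) (hpoly q)
  have halg : Algebra.IsAlgebraic K K⟮s⟯ := isAlgebraic_adjoin_simple hs.isIntegral
  have := halg.isAlgebraic ⟨J, hmem⟩
  exact (isAlgebraic_algebraMap_iff (algebraMap K⟮s⟯ E).injective (a := ⟨J, hmem⟩)).mpr this





/-- **Minimal polynomial of `s` over `K(J)`, `J = p(s)/q(s)`.**  For `s` transcendental over `K`,
`p` monic, `deg q < deg p`, `p, q` coprime, the polynomial `p(T) - J q(T)` is irreducible over
`K(J)`. -/
theorem rfd_irreducible_sub {s : E} (hs : Transcendental K s) {p q : K[X]} (hp : p.Monic)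
    (hq : q ≠ 0) (hdeg : q.natDegree < p.natDegree) (hpq : IsCoprime p q) :
    Irreducible (p.map (algebraMap K K⟮aeval s p / aeval s q⟯) -
      Polynomial.C (AdjoinSimple.gen K (aeval s p / aeval s q)) *
        q.map (algebraMap K K⟮aeval s p / aeval s q⟯)) := by
  set J : E := aeval s p / aeval s q with hJ
  set P : (K⟮J⟯)[X] := p.map (algebraMap K K⟮J⟯) -
      Polynomial.C (AdjoinSimple.gen K J) * q.map (algebraMap K K⟮J⟯) with hP
  have hqs : aeval s q ≠ 0 := fun h0 => hq ((transcendental_iff.mp hs) q h0)
  -- `P` is monic of degree `deg p`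
  have hdegCq : (Polynomial.C (AdjoinSimple.gen K J) * q.map (algebraMap K K⟮J⟯)).degree <
      (p.map (algebraMap K K⟮J⟯)).degree := by
    have h1 : (Polynomial.C (AdjoinSimple.gen K J) * q.map (algebraMap K K⟮J⟯)).degree ≤
        (q.map (algebraMap K K⟮J⟯)).degree := by
      refine (degree_mul_le _ _).trans ?_
      calc (Polynomial.C (AdjoinSimple.gen K J)).degree + (q.map (algebraMap K K⟮J⟯)).degree
          ≤ 0 + (q.map (algebraMap K K⟮J⟯)).degree := by gcongr; exact degree_C_le
        _ = (q.map (algebraMap K K⟮J⟯)).degree := zero_add _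
    refine lt_of_le_of_lt h1 ?_
    rw [degree_map, degree_map]
    exact degree_lt_degree hdeg
  have hPmonic : P.Monic := (hp.map _).sub_of_left hdegCq
  have hPdeg : P.natDegree = p.natDegree := by
    have : P.degree = (p.map (algebraMap K K⟮J⟯)).degree := degree_sub_eq_left_of_degree_lt hdegCq
    rw [degree_map] at this
    exact natDegree_eq_of_degree_eq this
  have hPs : aeval s P = 0 := by
    rw [hP, map_sub, map_mul, aeval_map_algebraMap, aeval_map_algebraMap, aeval_C]
    have : algebraMap K⟮J⟯ E (AdjoinSimple.gen K J) = J := rfl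
    rw [this, hJ, div_mul_cancel₀ _ hqs, sub_self]
  have hints : IsIntegral K⟮J⟯ s := ⟨P, hPmonic, hPs⟩
  -- degree of `s` over `K(J)`
  have hJs : K⟮J⟯ ≤ K⟮s⟯ := by
    rw [adjoin_simple_le_iff, hJ]
    have hpoly : ∀ g : K[X], aeval s g ∈ K⟮s⟯ := fun g =>
      IntermediateField.algebra_adjoin_le_adjoin K {s} (Polynomial.aeval_mem_adjoin_singleton K s)
    exact div_mem (hpoly p) (hpoly q)
  have hext : IntermediateField.extendScalars hJs = K⟮J⟯⟮s⟯ := by
    apply IntermediateField.restrictScalars_injective K
    rw [IntermediateField.extendScalars_restrictScalars, adjoin_simple_adjoin_simple]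
    apply le_antisymm
    · exact adjoin.mono K _ _ (by simp)
    · rw [adjoin_le_iff]
      rintro x (rfl | rfl)
      · exact hJs (mem_adjoin_simple_self K _)
      · exact mem_adjoin_simple_self K _
  have hfin : Module.finrank K⟮J⟯ K⟮J⟯⟮s⟯ = p.natDegree := by
    rw [← hext, ← IntermediateField.relfinrank_eq_finrank_of_le hJs, rfd_relfinrank hs hq hpq,
      max_eq_left hdeg.le]
  have hmin : (minpoly K⟮J⟯ s).natDegree = p.natDegree := by
    rw [← IntermediateField.adjoin.finrank hints, hfin]
  have hdvd : minpoly K⟮J⟯ s ∣ P := minpoly.dvd _ _ hPs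
  have : P = minpoly K⟮J⟯ s :=
    eq_of_monic_of_dvd_of_natDegree_le (minpoly.monic hints) hPmonic hdvd (by rw [hPdeg, hmin])
  rw [this]
  exact minpoly.irreducible hints

end Generic

end Fermat.Agent.S18x
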