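import Fermat.Agent.S18x.MuHesse
import Fermat.Agent.S18x.RatDeg2
import Fermat.Agent.S18x.LinDisj

/-!
# Hesse parameter, part 2: `[F(μ) : F] = 12` without Galois theory (prefix `muh_`)

With `s = μ³`: `J = s(s+216)³/(s-27)³` (quartic step) and `μ = s^(1/3)` (Kummer step).

* `muh_quartic J = T(T+216)³ - J(T-27)³`; `muh_quartic_irreducible`: irreducible over `K(J)` for
  `J` transcendental over `K`, `3 ≠ 0`;
* `muh_finrank_adjoin` (abstract form, to be instantiated with Laurent fields by row N4):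
  `k0 ⊆ F ⊆ P1 ⊆ PN`, `P1 ⊆ P3` inside an algebraically closed `Ω`, `[P3 : P1] = 3`, all
  `k0`-conjugates of `F` inside `PN`; `μ³ ∈ P1` not a cube in `P1`; a second root `s₁ ∈ P3 \ PN` of
  the quartic. Then `[F(μ) : F] = 12`.
-/

set_option autoImplicit false

open Polynomial IntermediateField

namespace Fermat.Agent.S18x

section Abstract

/-- The quartic `T(T+216)³ - J(T-27)³` satisfied by `s = μ³`. -/
noncomputable def muh_quartic {k0 : Type*} [Field k0] (J : k0) : k0[X] :=
  X * (X + C 216) ^ 3 - C J * (X - C 27) ^ 3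

theorem muh_quartic_natDegree {k0 : Type*} [Field k0] (J : k0) : (muh_quartic J).natDegree = 4 := by
  unfold muh_quartic
  compute_degree!

theorem muh_quartic_aeval {k0 Ω : Type*} [Field k0] [Field Ω] [Algebra k0 Ω] (J : k0) (x : Ω) :
    aeval x (muh_quartic J) = x * (x + 216) ^ 3 - algebraMap k0 Ω J * (x - 27) ^ 3 := by
  simp [muh_quartic, map_ofNat]

variable {k0 Ω : Type*} [Field k0] [Field Ω] [Algebra k0 Ω]

/-- **Hesse step, abstract form**: `[F(μ) : F] = 12`. -/
theorem muh_finrank_adjoin [IsAlgClosed Ω] (J : k0) (hQ : Irreducible (muh_quartic J))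
    {F P1 P3 PN : IntermediateField k0 Ω} (hF1 : F ≤ P1) (h1N : P1 ≤ PN) (h13 : P1 ≤ P3)
    [Algebra.IsAlgebraic k0 F]
    (hconj : ∀ τ : F →ₐ[k0] Ω, τ.fieldRange ≤ PN)
    (h3 : relfinrank P1 P3 = 3)
    {μ s1 : Ω} (hμ : μ ^ 3 * (μ ^ 3 + 216) ^ 3 = algebraMap k0 Ω J * (μ ^ 3 - 27) ^ 3)
    (hs : μ ^ 3 ∈ P1) (hcube : ∀ b ∈ P1, b ^ 3 ≠ μ ^ 3)
    (hs1 : s1 * (s1 + 216) ^ 3 = algebraMap k0 Ω J * (s1 - 27) ^ 3)
    (hs13 : s1 ∈ P3) (hs1N : s1 ∉ PN) :
    Module.finrank F F⟮μ⟯ = 12 := by
  set s : Ω := μ ^ 3 with hsdef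
  have hQs : aeval s (muh_quartic J) = 0 := by
    rw [muh_quartic_aeval, sub_eq_zero]; exact hμ
  have hQs1 : aeval s1 (muh_quartic J) = 0 := by
    rw [muh_quartic_aeval, sub_eq_zero]; exact hs1
  -- factorisation over `P1`
  set QP : P1[X] := (muh_quartic J).map (algebraMap k0 P1) with hQP
  have hQPdeg : QP.natDegree = 4 := by rw [hQP, natDegree_map, muh_quartic_natDegree]
  have hroot : QP.IsRoot ⟨s, hs⟩ := by
    rw [IsRoot.def]
    apply (algebraMap P1 Ω).injective
    rw [map_zero, ← coe_aeval_eq_eval, ← aeval_algebraMap_apply]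
    have : algebraMap P1 Ω ⟨s, hs⟩ = s := rfl
    rw [this, hQP, aeval_map_algebraMap]
    exact hQs
  set C : P1[X] := QP /ₘ (X - Polynomial.C ⟨s, hs⟩) with hC
  have hfact : QP = (X - Polynomial.C ⟨s, hs⟩) * C := (mul_divByMonic_eq_iff_isRoot.mpr hroot).symm
  have hCdeg : C.natDegree = 3 := by
    rw [hC, natDegree_divByMonic _ (monic_X_sub_C _), hQPdeg, natDegree_X_sub_C]
  have hC0 : C ≠ 0 := by
    intro h0; rw [h0] at hCdeg; simp at hCdeg
  have hs1ne : s1 ≠ s := fun h => hs1N (h1N (h ▸ hs))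
  have hCs1 : aeval s1 C = 0 := by
    have h := hQs1
    rw [← aeval_map_algebraMap P1, ← hQP, hfact, map_mul, map_sub, aeval_X, aeval_C] at h
    have : algebraMap P1 Ω ⟨s, hs⟩ = s := rfl
    rw [this] at h
    exact (mul_eq_zero.mp h).resolve_left (sub_ne_zero.mpr hs1ne)
  -- `C` is irreducible over `P1`
  have hint1 : IsIntegral P1 s1 := IsAlgebraic.isIntegral ⟨C, hC0, hCs1⟩
  have hle : P1⟮s1⟯ ≤ IntermediateField.extendScalars h13 := adjoin_simple_le_iff.mpr hs13
  have hfin3 : Module.finrank P1 (IntermediateField.extendScalars h13) = 3 := by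
    rw [← IntermediateField.relfinrank_eq_finrank_of_le h13, h3]
  have hdvd3 : Module.finrank P1 P1⟮s1⟯ ∣ 3 := by
    rw [← hfin3]; exact IntermediateField.finrank_dvd_of_le_right hle
  have hmin3 : (minpoly P1 s1).natDegree = 3 := by
    rw [← IntermediateField.adjoin.finrank hint1]
    rcases (Nat.dvd_prime Nat.prime_three).mp hdvd3 with h1 | h3'
    · exfalso
      rw [IntermediateField.finrank_adjoin_simple_eq_one_iff] at h1
      obtain ⟨y, hy⟩ := h1
      apply hs1N
      apply h1N
      rw [← hy]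
      exact y.2
    · exact h3'
  have hCirr : Irreducible C :=
    (associated_of_dvd_of_natDegree_le (minpoly.dvd P1 s1 hCs1) hC0
      (by rw [hCdeg, hmin3])).irreducible (minpoly.irreducible hint1)
  -- conjugation argument + Kummer step
  have hQF : Irreducible ((muh_quartic J).map (algebraMap k0 F)) :=
    ldj_irreducible_map_of_conj hQ hF1 hconj hs hCirr hfact hCs1 hs1N
  have := ldj_finrank_adjoin F P1 hF1 hQF hQs hs Nat.prime_three hsdef.symm hcube
  rw [this, muh_quartic_natDegree]

end Abstract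

section Quartic

variable {K : Type*} [Field K]

/-- numerator `s(s+216)³` of the quartic Hesse function (`s = μ³`) -/
noncomputable def muh_num4 (K : Type*) [Field K] : K[X] := X * (X + C 216) ^ 3

/-- denominator `(s-27)³` -/
noncomputable def muh_den4 (K : Type*) [Field K] : K[X] := (X - C 27) ^ 3

theorem muh_num4_monic : (muh_num4 K).Monic := by
  unfold muh_num4
  monicity!

theorem muh_natDegree_num4 : (muh_num4 K).natDegree = 4 := by
  unfold muh_num4
  compute_degree!

theorem muh_natDegree_den4 : (muh_den4 K).natDegree = 3 := by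
  unfold muh_den4
  compute_degree!

theorem muh_den4_ne_zero : muh_den4 K ≠ 0 := by
  intro h
  have := muh_natDegree_den4 (K := K)
  rw [h] at this
  simp at this

theorem muh_isCoprime4 (h3 : (3 : K) ≠ 0) : IsCoprime (muh_num4 K) (muh_den4 K) := by
  have h27 : (27 : K) ≠ 0 := by
    have : (27 : K) = 3 ^ 3 := by norm_num
    rw [this]; exact pow_ne_zero _ h3
  have h243 : (243 : K) ≠ 0 := by
    have : (243 : K) = 3 ^ 5 := by norm_num
    rw [this]; exact pow_ne_zero _ h3
  have c1 : IsCoprime (X : K[X]) (X - C 27) := by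
    refine ⟨C (27 : K)⁻¹, - C (27 : K)⁻¹, ?_⟩
    have : C (27 : K)⁻¹ * C (27 : K) = 1 := by rw [← C_mul, inv_mul_cancel₀ h27, C_1]
    linear_combination this
  have c2 : IsCoprime (X + C 216 : K[X]) (X - C 27) := by
    refine ⟨C (243 : K)⁻¹, - C (243 : K)⁻¹, ?_⟩
    have : C (243 : K)⁻¹ * C (243 : K) = 1 := by rw [← C_mul, inv_mul_cancel₀ h243, C_1]
    have e : (C (243 : K) : K[X]) = C 216 + C 27 := by rw [← C_add]; norm_num
    rw [e] at this
    linear_combination this
  unfold muh_num4 muh_den4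
  exact (c1.mul_left (c2.pow_left)).pow_right

theorem muh_aeval_num4 {E : Type*} [Field E] [Algebra K E] (s : E) :
    aeval s (muh_num4 K) = s * (s + 216) ^ 3 := by
  simp [muh_num4, map_ofNat]

theorem muh_aeval_den4 {E : Type*} [Field E] [Algebra K E] (s : E) :
    aeval s (muh_den4 K) = (s - 27) ^ 3 := by
  simp [muh_den4, map_ofNat]

/-- **The quartic is irreducible over `K(J)`** (`J` transcendental over `K`, `3 ≠ 0`), as soon as it
has a root `s` in some extension. -/
theorem muh_quartic_irreducible {E : Type*} [Field E] [Algebra K E] (h3 : (3 : K) ≠ 0) {s J : E}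
    (hJ : Transcendental K J) (h : s * (s + 216) ^ 3 = J * (s - 27) ^ 3) :
    Irreducible (muh_quartic (AdjoinSimple.gen K J)) := by
  have h' : aeval s (muh_num4 K) = J * aeval s (muh_den4 K) := by
    rw [muh_aeval_num4, muh_aeval_den4]; exact h
  have hs : Transcendental K s := rfd_transcendental (muh_isCoprime4 h3) hJ h'
  have hne := rfd_aeval_den_ne_zero (muh_isCoprime4 h3) h'
  obtain rfl : J = aeval s (muh_num4 K) / aeval s (muh_den4 K) := by
    rw [h', mul_div_assoc, div_self hne, mul_one]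
  have := rfd_irreducible_sub hs (muh_num4_monic (K := K)) muh_den4_ne_zero
    (by rw [muh_natDegree_num4, muh_natDegree_den4]; norm_num) (muh_isCoprime4 h3)
  have hEq : ∀ {k1 : Type _} [Field k1] [Algebra K k1] (J1 : k1),
      (muh_num4 K).map (algebraMap K k1) - Polynomial.C J1 * (muh_den4 K).map (algebraMap K k1) =
        muh_quartic J1 := by
    intro k1 _ _ J1
    simp only [muh_num4, muh_den4, muh_quartic, Polynomial.map_mul, Polynomial.map_pow,
      Polynomial.map_add, Polynomial.map_sub, Polynomial.map_X, map_ofNat, Polynomial.map_ofNat]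
  rw [hEq] at this
  exact this

end Quartic

end Fermat.Agent.S18x
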