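import Fermat.Agent.S18x.MuHesse3

/-!
# Hesse parameter, part 4 (`muh_`): the `σ`-root and uniqueness of the ramified root

* `muh_sigma_root`: if `μ³(μ³+216)³ = J(μ³-27)³` in a field (`3 ≠ 0`, `μ ≠ 3`), then
  `r = 3(μ+6)/(μ-3)` satisfies `r³(r³+216)³ = J(r³-27)³`, i.e. `s* = r³` is a second root of the
  quartic `T(T+216)³ - J(T-27)³`, lying in `K(μ)`;
* `muh_w_unique`: uniqueness of `w ∈ K⟦X⟧`, `w(0) = 729`, with `(27+Xw)(243+Xw)³ = G w³`;
* `muh_ramified_root_unique`: hence a root of the quartic in `K((X))` of the form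
  `27 + X w`, `w(0) = 729`, is unique.
-/

set_option autoImplicit false

open Polynomial

namespace Fermat.Agent.S18x

section SigmaRoot

variable {E : Type*} [Field E]

/-- the `σ`-conjugate `3(μ+6)/(μ-3)` solves the Hesse equation again -/
theorem muh_sigma_root {μ J : E} (h : μ ^ 3 * (μ ^ 3 + 216) ^ 3 = J * (μ ^ 3 - 27) ^ 3)
    (hden : μ ^ 3 - 27 ≠ 0) :
    (3 * (μ + 6) / (μ - 3)) ^ 3 * ((3 * (μ + 6) / (μ - 3)) ^ 3 + 216) ^ 3 =
      J * ((3 * (μ + 6) / (μ - 3)) ^ 3 - 27) ^ 3 := by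
  have hb : μ - 3 ≠ 0 := by
    intro h0
    apply hden
    have : μ = 3 := sub_eq_zero.mp h0
    rw [this]; norm_num
  set a := 3 * (μ + 6) with ha
  set b := μ - 3 with hbdef
  have key : (μ ^ 3 - 27) ^ 3 *
      (a ^ 3 * (a ^ 3 + 216 * b ^ 3) ^ 3 - J * (b ^ 3 * (a ^ 3 - 27 * b ^ 3) ^ 3)) = 0 := by
    have hs := muh_sigma_invariant μ
    rw [← ha, ← hbdef] at hs
    linear_combination hs + (b ^ 3 * (a ^ 3 - 27 * b ^ 3) ^ 3) * h
  have key' : a ^ 3 * (a ^ 3 + 216 * b ^ 3) ^ 3 = J * (b ^ 3 * (a ^ 3 - 27 * b ^ 3) ^ 3) := by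
    have := (mul_eq_zero.mp key).resolve_left (pow_ne_zero 3 hden)
    exact sub_eq_zero.mp this
  have e1 : (a / b) ^ 3 + 216 = (a ^ 3 + 216 * b ^ 3) / b ^ 3 := by
    field_simp
  have e2 : (a / b) ^ 3 - 27 = (a ^ 3 - 27 * b ^ 3) / b ^ 3 := by
    field_simp
  rw [e1, e2, div_pow, div_pow, div_pow]
  have hb3 : b ^ 3 ≠ 0 := pow_ne_zero 3 hb
  field_simp
  linear_combination key'

end SigmaRoot

section Unique

variable {K : Type*} [Field K]

theorem muh_zpoly_root_of_w (h3 : (3 : K) ≠ 0) (G w : PowerSeries K)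
    (hw0 : PowerSeries.constantCoeff w = 729)
    (hw : (27 + PowerSeries.X * w) * (243 + PowerSeries.X * w) ^ 3 = G * w ^ 3) :
    (muh_zpoly G).IsRoot w⁻¹ ∧ PowerSeries.constantCoeff w⁻¹ = (729 : K)⁻¹ := by
  have h27 : (27 : K) ≠ 0 := by
    have : (27 : K) = 3 ^ 3 := by norm_num
    rw [this]; exact pow_ne_zero _ h3
  have h243 : (243 : K) ≠ 0 := by
    have : (243 : K) = 3 ^ 5 := by norm_num
    rw [this]; exact pow_ne_zero _ h3
  have h729 : (729 : K) ≠ 0 := by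
    have : (729 : K) = 3 ^ 6 := by norm_num
    rw [this]; exact pow_ne_zero _ h3
  have hwne : PowerSeries.constantCoeff w ≠ 0 := by rw [hw0]; exact h729
  refine ⟨?_, by rw [PowerSeries.constantCoeff_inv, hw0]⟩
  rw [IsRoot.def, muh_zpoly_eval, sub_eq_zero]
  set z := w⁻¹ with hz
  have hzw : z * w = 1 := PowerSeries.inv_mul_cancel w hwne
  set A : PowerSeries K := PowerSeries.C (27 : K)⁻¹ with hAdef
  set B : PowerSeries K := PowerSeries.C (243 : K)⁻¹ with hBdef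
  have hA : 27 * A = 1 := by
    have : (27 : PowerSeries K) = PowerSeries.C (27 : K) := by rw [map_ofNat]
    rw [this, hAdef, ← map_mul, mul_inv_cancel₀ h27, map_one]
  have hB : 243 * B = 1 := by
    have : (243 : PowerSeries K) = PowerSeries.C (243 : K) := by rw [map_ofNat]
    rw [this, hBdef, ← map_mul, mul_inv_cancel₀ h243, map_one]
  have hE : PowerSeries.C ((27 : K)⁻¹ * ((243 : K)⁻¹) ^ 3) = A * B ^ 3 := by
    rw [hAdef, hBdef, map_mul, map_pow]
  rw [hE]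
  have e1 : z + A * PowerSeries.X = A * z * (27 + PowerSeries.X * w) := by
    linear_combination (-z) * hA - A * PowerSeries.X * hzw
  have e2 : z + B * PowerSeries.X = B * z * (243 + PowerSeries.X * w) := by
    linear_combination (-z) * hB - B * PowerSeries.X * hzw
  rw [e1, e2]
  linear_combination (A * B ^ 3 * z ^ 4) * hw +
    (A * B ^ 3 * G * z) * ((z * w) ^ 2 + z * w + 1) * hzw

/-- uniqueness of `w` -/
theorem muh_w_unique (h3 : (3 : K) ≠ 0) (G : PowerSeries K)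
    (hG : PowerSeries.constantCoeff G = 1) (w₁ w₂ : PowerSeries K)
    (h₁0 : PowerSeries.constantCoeff w₁ = 729) (h₂0 : PowerSeries.constantCoeff w₂ = 729)
    (h₁ : (27 + PowerSeries.X * w₁) * (243 + PowerSeries.X * w₁) ^ 3 = G * w₁ ^ 3)
    (h₂ : (27 + PowerSeries.X * w₂) * (243 + PowerSeries.X * w₂) ^ 3 = G * w₂ ^ 3) :
    w₁ = w₂ := by
  have h729 : (729 : K) ≠ 0 := by
    have : (729 : K) = 3 ^ 6 := by norm_num
    rw [this]; exact pow_ne_zero _ h3
  obtain ⟨hr₁, hc₁⟩ := muh_zpoly_root_of_w h3 G w₁ h₁0 h₁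
  obtain ⟨hr₂, hc₂⟩ := muh_zpoly_root_of_w h3 G w₂ h₂0 h₂
  have hcube : ((729 : K)⁻¹) ^ 3 = (27 : K)⁻¹ * ((243 : K)⁻¹) ^ 3 := by
    rw [inv_pow, inv_pow, ← mul_inv]
    congr 1
    norm_num
  have hunit : IsUnit (PowerSeries.constantCoeff ((muh_zpoly G).derivative.eval w₁⁻¹)) := by
    rw [muh_zpoly_derivative_eval]
    simp only [map_sub, map_add, map_mul, map_pow, PowerSeries.constantCoeff_C,
      PowerSeries.constantCoeff_X, mul_zero, add_zero, hG, mul_one, map_ofNat, hc₁]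
    rw [← hcube]
    have : ((729 : K)⁻¹) ^ 3 + (729 : K)⁻¹ * (3 * ((729 : K)⁻¹) ^ 2) - ((729 : K)⁻¹) ^ 3 =
        3 * ((729 : K)⁻¹) ^ 3 := by ring
    rw [this]
    exact (mul_ne_zero h3 (pow_ne_zero _ (inv_ne_zero h729))).isUnit
  have hz : w₁⁻¹ = w₂⁻¹ :=
    psh_root_unique (muh_zpoly G) _ _ hr₁ hr₂ (by rw [map_sub, hc₁, hc₂, sub_self]) hunit
  have hw₁ : w₁⁻¹ * w₁ = 1 := PowerSeries.inv_mul_cancel w₁ (by rw [h₁0]; exact h729)
  have hw₂ : w₂⁻¹ * w₂ = 1 := PowerSeries.inv_mul_cancel w₂ (by rw [h₂0]; exact h729)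
  calc w₁ = w₁ * (w₂⁻¹ * w₂) := by rw [hw₂, mul_one]
    _ = (w₁⁻¹ * w₁) * w₂ := by rw [← hz]; ring
    _ = w₂ := by rw [hw₁, one_mul]

/-- **Uniqueness of the ramified root**: two roots of the quartic in `K((X))` of the form
`27 + X w`, `w(0) = 729`, coincide. -/
theorem muh_ramified_root_unique (h3 : (3 : K) ≠ 0) (G : PowerSeries K)
    (hG : PowerSeries.constantCoeff G = 1) (w₁ w₂ : PowerSeries K)
    (h₁0 : PowerSeries.constantCoeff w₁ = 729) (h₂0 : PowerSeries.constantCoeff w₂ = 729)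
    (h₁ : HahnSeries.ofPowerSeries ℤ K (27 + PowerSeries.X * w₁) *
        (HahnSeries.ofPowerSeries ℤ K (27 + PowerSeries.X * w₁) + 216) ^ 3 =
      (HahnSeries.single (-3 : ℤ) (1 : K) * HahnSeries.ofPowerSeries ℤ K G) *
        (HahnSeries.ofPowerSeries ℤ K (27 + PowerSeries.X * w₁) - 27) ^ 3)
    (h₂ : HahnSeries.ofPowerSeries ℤ K (27 + PowerSeries.X * w₂) *
        (HahnSeries.ofPowerSeries ℤ K (27 + PowerSeries.X * w₂) + 216) ^ 3 =
      (HahnSeries.single (-3 : ℤ) (1 : K) * HahnSeries.ofPowerSeries ℤ K G) *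
        (HahnSeries.ofPowerSeries ℤ K (27 + PowerSeries.X * w₂) - 27) ^ 3) :
    w₁ = w₂ := by
  have hsx : HahnSeries.single (-1 : ℤ) (1 : K) *
      HahnSeries.ofPowerSeries ℤ K (PowerSeries.X : PowerSeries K) = 1 := by
    rw [HahnSeries.ofPowerSeries_X, HahnSeries.single_mul_single]
    simp
  have h3' : HahnSeries.single (-3 : ℤ) (1 : K) = HahnSeries.single (-1 : ℤ) (1 : K) ^ 3 := by
    rw [HahnSeries.single_pow]
    simp
  have conv : ∀ w : PowerSeries K,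
      HahnSeries.ofPowerSeries ℤ K (27 + PowerSeries.X * w) *
        (HahnSeries.ofPowerSeries ℤ K (27 + PowerSeries.X * w) + 216) ^ 3 =
      (HahnSeries.single (-3 : ℤ) (1 : K) * HahnSeries.ofPowerSeries ℤ K G) *
        (HahnSeries.ofPowerSeries ℤ K (27 + PowerSeries.X * w) - 27) ^ 3 →
      (27 + PowerSeries.X * w) * (243 + PowerSeries.X * w) ^ 3 = G * w ^ 3 := by
    intro w hw
    apply HahnSeries.ofPowerSeries_injective (Γ := ℤ) (R := K)
    simp only [map_mul, map_pow, map_add, map_ofNat] at hw ⊢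
    rw [h3'] at hw
    set s := HahnSeries.single (-1 : ℤ) (1 : K)
    set x := HahnSeries.ofPowerSeries ℤ K (PowerSeries.X : PowerSeries K)
    set W := HahnSeries.ofPowerSeries ℤ K w
    set Gh := HahnSeries.ofPowerSeries ℤ K G
    linear_combination hw + (Gh * W ^ 3 * ((s * x) ^ 2 + s * x + 1)) * hsx
  exact muh_w_unique h3 G hG w₁ w₂ h₁0 h₂0 (conv w₁ h₁) (conv w₂ h₂)

end Unique

end Fermat.Agent.S18x
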