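/-
S18 project, NRM block, rows N2b / N12-twin (helper63, prefix `bsn_`): the base identification
`F₉ = K(μ)` for the `ℓ = 2` branch, WITHOUT Galois theory.

`K` a field with `3 ≠ 0`, `μ = hsc_mu h3` the Hesse parameter (helper86 `S18x/HesseCoord.lean`),
`s̃ = hsc_stilde K` the level-3 coordinate, `j = jqModC K`.

* `bsn_stilde_eq : s̃ = t + 27` (helper11's (I3) `mid3_main`), `bsn_dual : j(q³)(s̃-27) = s̃(s̃-24)³`
  (helper11's dual (I3) `mid3_main_dual`), valid over any commutative ring.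
* The Laurent series `s' = 27 + 729/(s̃-27)` and `s* = (3(μ+6)/(μ-3))³` are both roots of the
  level-3 quartic `y (y+216)³ = j(q³)(y-27)³` of the ramified shape `27 + X·w`, `w(0) = 729`
  (`bsn_s'_root` from the dual identity, `bsn_sstar_root` from the Hesse involution
  `muh_sigma_root`); by `muh_ramified_root_unique` they coincide: `bsn_key`.
* Hence `bsn_stilde_ratfunc : s̃ = (μ+6)³/(μ²+3μ+9)`, and
  `bsn_stilde_mem`, `bsn_jq_mem`, `bsn_j3_mem`, `bsn_j9_mem` (`j(q⁹)(μ³-27) = μ³(μ³-24)³`),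
  `bsn_F9_le : F₉ ≤ K(μ)`.
* Degrees: `bsn_relfinrank_stilde_mu = 3`, `bsn_relfinrank_jq_stilde = 4`,
  `bsn_relfinrank_jq_mu : [K(μ) : K(j)] = 12`, and
  `bsn_F9_eq : 12 ≤ [F₉ : K(j)] → F₉ = K(μ)`.
-/
import Fermat.Agent.S18x.MuHesse4
import Fermat.Agent.S18x.MuHesse2
import Fermat.Agent.S18x.RatDeg
import Fermat.Agent.S18x.HesseCoord
import Fermat.Agent.S18x.ModId3Cor
import Fermat.Agent.S18x.ModIdThreeDual
import Fermat.Agent.S28x.StepACore

set_option autoImplicit false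

open Polynomial IntermediateField ModularCurve

namespace Fermat.Agent.S18x

noncomputable section

/-! ### abstract field lemmas -/

section Abstract

variable {E : Type*} [Field E]

/-- if `(s'-27)(s-27) = 729` and `J (s-27) = s (s-24)³` then `s'` is a root of the Hesse quartic
over `J`. -/
theorem bsn_root_abs (s' s J : E) (h729 : (729 : E) ≠ 0)
    (hrel : (s' - 27) * (s - 27) = 729) (hdual : J * (s - 27) = s * (s - 24) ^ 3) :
    s' * (s' + 216) ^ 3 = J * (s' - 27) ^ 3 := by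
  have hs : s - 27 ≠ 0 := by
    intro h0
    rw [h0, mul_zero] at hrel
    exact h729 hrel.symm
  have hs' : s' = 729 / (s - 27) + 27 := by
    field_simp
    linear_combination hrel
  have hJ : J = s * (s - 24) ^ 3 / (s - 27) := by
    rw [eq_div_iff hs]; exact hdual
  rw [hs', hJ]
  field_simp
  ring

end Abstract

/-! ### the dual identity for `s̃` -/

section Dual

variable (R : Type*) [CommRing R]

/-- `s̃ = t + 27`, unconditionally (helper11's (I3) `mid3_main` + helper86's `mid3c_stilde_eq`). -/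
theorem bsn_stilde_eq : hsc_stilde R = mid3_t R + 27 := by
  have hw0 : PowerSeries.constantCoeff (mid3_w.map (Int.castRingHom R)) = 1 := by
    rw [← PowerSeries.coeff_zero_eq_constantCoeff, PowerSeries.coeff_map,
      PowerSeries.coeff_zero_eq_constantCoeff, mid3_constantCoeff_w, map_one]
  exact mid3c_stilde_eq (mid3_w.map (Int.castRingHom R)) hw0 (mid3_main R)

/-- **the dual identity in the Hesse coordinate**: `j(q³) (s̃ - 27) = s̃ (s̃ - 24)³`. -/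
theorem bsn_dual : qExpand R 3 (jqModC R) * (hsc_stilde R - 27) =
    hsc_stilde R * (hsc_stilde R - 24) ^ 3 := by
  have h := mid3_main_dual R
  rw [bsn_stilde_eq]
  linear_combination h

end Dual

variable {K : Type*} [Field K]

/-- `j(q³) = X⁻³ · (X³ j(X³))` -/
theorem bsn_J_eq : qExpand K 3 (jqModC K) =
    HahnSeries.single (-3 : ℤ) (1 : K) * HahnSeries.ofPowerSeries ℤ K (hsc_J3 K) := by
  have e3 : ((3 : ℕ) : ℤ) * (-1) = -3 := by norm_num
  rw [hsc_jqModC_eq, map_mul, qExpand_single, Fermat.Agent.S28x.pc_qExpand_ofPowerSeries, e3]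
  rfl

/-! ### The root `s' = 27 + 729/(s̃ - 27)` coming from the dual identity -/

/-- `w' = 729/(σ - 27X)` -/
def bsn_w' (K : Type*) [Field K] : PowerSeries K :=
  729 * (hsc_sigma K - 27 * PowerSeries.X)⁻¹

theorem bsn_constantCoeff_sub : PowerSeries.constantCoeff
    (hsc_sigma K - 27 * PowerSeries.X) = 1 := by
  simp [hsc_constantCoeff_sigma]

theorem bsn_constantCoeff_w' : PowerSeries.constantCoeff (bsn_w' K) = 729 := by
  rw [bsn_w', map_mul, map_ofNat, PowerSeries.constantCoeff_inv,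
    bsn_constantCoeff_sub, inv_one, mul_one]

theorem bsn_single_mul_X : HahnSeries.single (-1 : ℤ) (1 : K) *
    HahnSeries.ofPowerSeries ℤ K (PowerSeries.X : PowerSeries K) = 1 := by
  rw [HahnSeries.ofPowerSeries_X, HahnSeries.single_mul_single]
  simp

/-- `(s' - 27)(s̃ - 27) = 729` -/
theorem bsn_rel :
    (HahnSeries.ofPowerSeries ℤ K (27 + PowerSeries.X * bsn_w' K) - 27) * (hsc_stilde K - 27) =
      729 := by
  have hsx := bsn_single_mul_X (K := K)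
  have hinv : (hsc_sigma K - 27 * PowerSeries.X) *
      (hsc_sigma K - 27 * PowerSeries.X)⁻¹ = 1 :=
    PowerSeries.mul_inv_cancel _ (by rw [bsn_constantCoeff_sub]; exact one_ne_zero)
  have h' := congrArg (HahnSeries.ofPowerSeries ℤ K) hinv
  simp only [map_mul, map_sub, map_one, map_ofNat] at h'
  rw [hsc_stilde, bsn_w']
  simp only [map_mul, map_add, map_ofNat]
  set s := HahnSeries.single (-1 : ℤ) (1 : K)
  set x := HahnSeries.ofPowerSeries ℤ K (PowerSeries.X : PowerSeries K)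
  set S := HahnSeries.ofPowerSeries ℤ K (hsc_sigma K)
  set I := HahnSeries.ofPowerSeries ℤ K
    ((hsc_sigma K - 27 * PowerSeries.X)⁻¹)
  linear_combination (729 * s * x) * h' + (729 + 729 * 27 * x * I) * hsx

theorem bsn_ofNat_ne_zero (h3 : (3 : K) ≠ 0) : (729 : LaurentSeries K) ≠ 0 := by
  have h729 : (729 : K) ≠ 0 := by
    have : (729 : K) = 3 ^ 6 := by norm_num
    rw [this]; exact pow_ne_zero _ h3
  have : (729 : LaurentSeries K) = HahnSeries.C (729 : K) := by rw [map_ofNat]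
  rw [this]
  exact fun h => h729 (HahnSeries.C_injective (by rw [h, map_zero]))

/-- the dual identity makes `s' = 27 + X w'` a root of the quartic over `j(q³)` -/
theorem bsn_s'_root (h3 : (3 : K) ≠ 0) :
    HahnSeries.ofPowerSeries ℤ K (27 + PowerSeries.X * bsn_w' K) *
        (HahnSeries.ofPowerSeries ℤ K (27 + PowerSeries.X * bsn_w' K) + 216) ^ 3 =
      qExpand K 3 (jqModC K) *
        (HahnSeries.ofPowerSeries ℤ K (27 + PowerSeries.X * bsn_w' K) - 27) ^ 3 :=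
  bsn_root_abs _ _ _ (bsn_ofNat_ne_zero h3) bsn_rel (bsn_dual K)

/-! ### The root `s* = (3(μ+6)/(μ-3))³` coming from the Hesse involution -/

/-- `v = 1/(u - 3X)` -/
def bsn_v (h3 : IsUnit (3 : K)) : PowerSeries K := (hsc_u h3 - 3 * PowerSeries.X)⁻¹

theorem bsn_constantCoeff_u_sub (h3 : IsUnit (3 : K)) :
    PowerSeries.constantCoeff (hsc_u h3 - 3 * PowerSeries.X) = 1 := by
  simp [hsc_constantCoeff_u]

theorem bsn_constantCoeff_v (h3 : IsUnit (3 : K)) :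
    PowerSeries.constantCoeff (bsn_v h3) = 1 := by
  rw [bsn_v, PowerSeries.constantCoeff_inv, bsn_constantCoeff_u_sub, inv_one]

/-- `w* = 729 v + 6561 X v² + 19683 X² v³`, so that `27 + X w* = (3 + 27 X v)³`. -/
def bsn_wstar (h3 : IsUnit (3 : K)) : PowerSeries K :=
  729 * bsn_v h3 + 6561 * PowerSeries.X * bsn_v h3 ^ 2 + 19683 * PowerSeries.X ^ 2 * bsn_v h3 ^ 3

theorem bsn_constantCoeff_wstar (h3 : IsUnit (3 : K)) :
    PowerSeries.constantCoeff (bsn_wstar h3) = 729 := by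
  rw [bsn_wstar]
  simp only [map_add, map_mul, map_pow, map_ofNat, PowerSeries.constantCoeff_X,
    bsn_constantCoeff_v]
  ring

/-- `(μ - 3) · (X v) = 1` -/
theorem bsn_mu_sub_mul (h3 : IsUnit (3 : K)) :
    (hsc_mu h3 - 3) * (HahnSeries.ofPowerSeries ℤ K (PowerSeries.X * bsn_v h3)) = 1 := by
  have hsx := bsn_single_mul_X (K := K)
  have hinv : (hsc_u h3 - 3 * PowerSeries.X) * (hsc_u h3 - 3 * PowerSeries.X)⁻¹ = 1 :=
    PowerSeries.mul_inv_cancel _ (by rw [bsn_constantCoeff_u_sub]; exact one_ne_zero)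
  have h' := congrArg (HahnSeries.ofPowerSeries ℤ K) hinv
  simp only [map_mul, map_sub, map_one, map_ofNat] at h'
  rw [hsc_mu_eq, bsn_v]
  simp only [map_mul]
  set s := HahnSeries.single (-1 : ℤ) (1 : K)
  set x := HahnSeries.ofPowerSeries ℤ K (PowerSeries.X : PowerSeries K)
  set U := HahnSeries.ofPowerSeries ℤ K (hsc_u h3)
  set V := HahnSeries.ofPowerSeries ℤ K ((hsc_u h3 - 3 * PowerSeries.X)⁻¹)
  linear_combination (s * x) * h' + (1 + 3 * x * V) * hsx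

theorem bsn_mu_sub_ne_zero (h3 : IsUnit (3 : K)) : hsc_mu h3 - 3 ≠ 0 := by
  intro h0
  have := bsn_mu_sub_mul h3
  rw [h0, zero_mul] at this
  exact zero_ne_one this

/-- `3(μ+6)/(μ-3) = 3 + 27 X v` -/
theorem bsn_invol_eq (h3 : IsUnit (3 : K)) :
    3 * (hsc_mu h3 + 6) / (hsc_mu h3 - 3) =
      HahnSeries.ofPowerSeries ℤ K (3 + 27 * (PowerSeries.X * bsn_v h3)) := by
  rw [div_eq_iff (bsn_mu_sub_ne_zero h3)]
  have h := bsn_mu_sub_mul h3
  simp only [map_add, map_mul, map_ofNat] at h ⊢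
  linear_combination (-27 : LaurentSeries K) * h

/-- `s* := 27 + X w* = (3(μ+6)/(μ-3))³` -/
theorem bsn_sstar_eq (h3 : IsUnit (3 : K)) :
    HahnSeries.ofPowerSeries ℤ K (27 + PowerSeries.X * bsn_wstar h3) =
      (3 * (hsc_mu h3 + 6) / (hsc_mu h3 - 3)) ^ 3 := by
  rw [bsn_invol_eq, ← map_pow]
  congr 1
  rw [bsn_wstar]
  ring

theorem bsn_mu_cube_sub_ne_zero (h3 : IsUnit (3 : K)) : hsc_mu h3 ^ 3 - 27 ≠ 0 := by
  have h := muh_den_eval_ne_zero (K := K) h3.ne_zero (hsc_mu_identity h3)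
  exact fun h0 => h (by rw [h0]; ring)

/-- `s*` is a root of the quartic over `j(q³)` -/
theorem bsn_sstar_root (h3 : IsUnit (3 : K)) :
    HahnSeries.ofPowerSeries ℤ K (27 + PowerSeries.X * bsn_wstar h3) *
        (HahnSeries.ofPowerSeries ℤ K (27 + PowerSeries.X * bsn_wstar h3) + 216) ^ 3 =
      qExpand K 3 (jqModC K) *
        (HahnSeries.ofPowerSeries ℤ K (27 + PowerSeries.X * bsn_wstar h3) - 27) ^ 3 := by
  rw [bsn_sstar_eq]
  exact muh_sigma_root (hsc_mu_identity h3) (bsn_mu_cube_sub_ne_zero h3)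

/-- **the two ramified roots coincide**: `w' = w*`. -/
theorem bsn_w'_eq (h3 : IsUnit (3 : K)) : bsn_w' K = bsn_wstar h3 := by
  refine muh_ramified_root_unique h3.ne_zero (hsc_J3 K) (hsc_constantCoeff_J3 K) _ _
    bsn_constantCoeff_w' (bsn_constantCoeff_wstar h3) ?_ ?_
  · rw [← bsn_J_eq]; exact bsn_s'_root h3.ne_zero
  · rw [← bsn_J_eq]; exact bsn_sstar_root h3

/-- **`(s̃ - 27) · ((3(μ+6)/(μ-3))³ - 27) = 729`** -/
theorem bsn_key (h3 : IsUnit (3 : K)) :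
    ((3 * (hsc_mu h3 + 6) / (hsc_mu h3 - 3)) ^ 3 - 27) * (hsc_stilde K - 27) = 729 := by
  rw [← bsn_sstar_eq, ← bsn_w'_eq]
  exact bsn_rel

/-! ### membership in `K(μ)` -/

theorem bsn_ofNat_mem (F : IntermediateField K (LaurentSeries K)) (n : ℕ) [n.AtLeastTwo] :
    (OfNat.ofNat n : LaurentSeries K) ∈ F := by
  have : (OfNat.ofNat n : LaurentSeries K) = algebraMap K (LaurentSeries K) (OfNat.ofNat n) := by
    rw [map_ofNat]
  rw [this]
  exact F.algebraMap_mem _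

theorem bsn_stilde_sub_ne_zero (h3 : IsUnit (3 : K)) : hsc_stilde K - 27 ≠ 0 := by
  intro h0
  have h := bsn_key h3
  rw [h0, mul_zero] at h
  exact bsn_ofNat_ne_zero h3.ne_zero h.symm

/-- **`s̃ ∈ K(μ)`** -/
theorem bsn_stilde_mem (h3 : IsUnit (3 : K)) : hsc_stilde K ∈ K⟮hsc_mu h3⟯ := by
  have hμ : hsc_mu h3 ∈ K⟮hsc_mu h3⟯ := mem_adjoin_simple_self K _
  set A : LaurentSeries K := (3 * (hsc_mu h3 + 6) / (hsc_mu h3 - 3)) ^ 3 with hA
  have hAm : A ∈ K⟮hsc_mu h3⟯ :=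
    pow_mem (div_mem (mul_mem (bsn_ofNat_mem _ 3) (add_mem hμ (bsn_ofNat_mem _ 6)))
      (sub_mem hμ (bsn_ofNat_mem _ 3))) 3
  have hkey : (A - 27) * (hsc_stilde K - 27) = 729 := bsn_key h3
  have hne : A - 27 ≠ 0 := by
    intro h0
    rw [h0, zero_mul] at hkey
    exact bsn_ofNat_ne_zero h3.ne_zero hkey.symm
  have h1 : hsc_stilde K - 27 = 729 / (A - 27) := by
    rw [eq_div_iff hne]
    linear_combination hkey
  have h2 : hsc_stilde K - 27 ∈ K⟮hsc_mu h3⟯ := by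
    rw [h1]
    exact div_mem (bsn_ofNat_mem _ 729) (sub_mem hAm (bsn_ofNat_mem _ 27))
  have h3' := add_mem h2 (bsn_ofNat_mem K⟮hsc_mu h3⟯ 27)
  rwa [sub_add_cancel] at h3'

/-- **`j(q) ∈ K(μ)`** -/
theorem bsn_jq_mem (h3 : IsUnit (3 : K)) : jqModC K ∈ K⟮hsc_mu h3⟯ := by
  have hs := bsn_stilde_mem h3
  have hne : (hsc_stilde K - 27) ^ 3 ≠ 0 := pow_ne_zero _ (bsn_stilde_sub_ne_zero h3)
  have h1 : jqModC K = hsc_stilde K * (hsc_stilde K + 216) ^ 3 / (hsc_stilde K - 27) ^ 3 := by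
    rw [eq_div_iff hne]
    exact (hsc_stilde_identity K).symm
  rw [h1]
  exact div_mem (mul_mem hs (pow_mem (add_mem hs (bsn_ofNat_mem _ 216)) 3))
    (pow_mem (sub_mem hs (bsn_ofNat_mem _ 27)) 3)

/-- **`j(q³) ∈ K(μ)`** -/
theorem bsn_j3_mem (h3 : IsUnit (3 : K)) : qExpand K 3 (jqModC K) ∈ K⟮hsc_mu h3⟯ := by
  have hμ : hsc_mu h3 ^ 3 ∈ K⟮hsc_mu h3⟯ := pow_mem (mem_adjoin_simple_self K _) 3
  have hne : (hsc_mu h3 ^ 3 - 27) ^ 3 ≠ 0 := pow_ne_zero _ (bsn_mu_cube_sub_ne_zero h3)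
  have h1 : qExpand K 3 (jqModC K) =
      hsc_mu h3 ^ 3 * (hsc_mu h3 ^ 3 + 216) ^ 3 / (hsc_mu h3 ^ 3 - 27) ^ 3 := by
    rw [eq_div_iff hne]
    exact (hsc_mu_identity h3).symm
  rw [h1]
  exact div_mem (mul_mem hμ (pow_mem (add_mem hμ (bsn_ofNat_mem _ 216)) 3))
    (pow_mem (sub_mem hμ (bsn_ofNat_mem _ 27)) 3)

/-- `j(q⁹) (μ³ - 27) = μ³ (μ³ - 24)³` -/
theorem bsn_j9_identity (h3 : IsUnit (3 : K)) :
    qExpand K 9 (jqModC K) * (hsc_mu h3 ^ 3 - 27) = hsc_mu h3 ^ 3 * (hsc_mu h3 ^ 3 - 24) ^ 3 := by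
  have h := congrArg (qExpand K 3) (bsn_dual K)
  simp only [map_mul, map_pow, map_sub, map_ofNat] at h
  rw [qExpand_qExpand, ← hsc_mu_cube h3] at h
  exact h

/-- **`j(q⁹) ∈ K(μ)`** -/
theorem bsn_j9_mem (h3 : IsUnit (3 : K)) : qExpand K 9 (jqModC K) ∈ K⟮hsc_mu h3⟯ := by
  have hμ : hsc_mu h3 ^ 3 ∈ K⟮hsc_mu h3⟯ := pow_mem (mem_adjoin_simple_self K _) 3
  have hne := bsn_mu_cube_sub_ne_zero h3
  have h1 : qExpand K 9 (jqModC K) =
      hsc_mu h3 ^ 3 * (hsc_mu h3 ^ 3 - 24) ^ 3 / (hsc_mu h3 ^ 3 - 27) := by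
    rw [eq_div_iff hne]
    exact bsn_j9_identity h3
  rw [h1]
  exact div_mem (mul_mem hμ (pow_mem (sub_mem hμ (bsn_ofNat_mem _ 24)) 3))
    (sub_mem hμ (bsn_ofNat_mem _ 27))

/-- **`F₉ ≤ K(μ)`** -/
theorem bsn_F9_le (h3 : IsUnit (3 : K)) : modularFunctionFieldFullC K 9 ≤ K⟮hsc_mu h3⟯ := by
  rw [modularFunctionFieldFullC, adjoin_le_iff]
  rintro x ⟨d, hne, hdvd, rfl⟩
  have hd : d ∈ Nat.divisors 9 := Nat.mem_divisors.2 ⟨hdvd, by norm_num⟩
  have h9 : Nat.divisors 9 = {1, 3, 9} := by decide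
  rw [h9] at hd
  simp only [Finset.mem_insert, Finset.mem_singleton] at hd
  rcases hd with rfl | rfl | rfl
  · rw [SetLike.mem_coe, qExpand_one_apply]
    exact bsn_jq_mem h3
  · exact bsn_j3_mem h3
  · exact bsn_j9_mem h3

/-! ### `s̃` as a rational function of `μ`, degrees -/

/-- abstract: `((3(μ+6)/(μ-3))³ - 27)(s - 27) = 729 ⟹ s = (μ+6)³/(μ²+3μ+9)` -/
theorem bsn_ratfunc_abs {E : Type*} [Field E] (μ s : E) (h729 : (729 : E) ≠ 0)
    (hμ : μ ^ 3 - 27 ≠ 0)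
    (hkey : ((3 * (μ + 6) / (μ - 3)) ^ 3 - 27) * (s - 27) = 729) :
    s = (μ + 6) ^ 3 / (μ ^ 2 + 3 * μ + 9) := by
  have h1 : μ - 3 ≠ 0 := fun h0 => hμ (by
    have : μ ^ 3 - 27 = (μ - 3) * (μ ^ 2 + 3 * μ + 9) := by ring
    rw [this, h0, zero_mul])
  have h2 : μ ^ 2 + 3 * μ + 9 ≠ 0 := fun h0 => hμ (by
    have : μ ^ 3 - 27 = (μ - 3) * (μ ^ 2 + 3 * μ + 9) := by ring
    rw [this, h0, mul_zero])
  rw [eq_div_iff h2]
  set r := 3 * (μ + 6) / (μ - 3) with hr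
  have hr' : r * (μ - 3) = 3 * (μ + 6) := div_mul_cancel₀ _ h1
  apply mul_left_cancel₀ h729
  linear_combination (μ - 3) ^ 3 * hkey - (s - 27) * ((r * (μ - 3)) ^ 2 +
    (r * (μ - 3)) * (3 * (μ + 6)) + (3 * (μ + 6)) ^ 2) * hr'

/-- **`s̃ = (μ+6)³/(μ²+3μ+9)`** -/
theorem bsn_stilde_ratfunc (h3 : IsUnit (3 : K)) :
    hsc_stilde K = (hsc_mu h3 + 6) ^ 3 / (hsc_mu h3 ^ 2 + 3 * hsc_mu h3 + 9) :=
  bsn_ratfunc_abs _ _ (bsn_ofNat_ne_zero h3.ne_zero) (bsn_mu_cube_sub_ne_zero h3) (bsn_key h3)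

theorem bsn_transcendental_j3 (K : Type*) [Field K] :
    Transcendental K (qExpand K 3 (jqModC K)) := by
  intro hal
  apply Fermat.Agent.S28x.sa_transcendental_jqModC K
  have h := (isAlgebraic_algHom_iff (qExpandAlgHomC K 3) (qExpand_injective 3)).1
    (by rwa [qExpandAlgHomC_apply])
  exact h

theorem bsn_transcendental_mu (h3 : IsUnit (3 : K)) : Transcendental K (hsc_mu h3) :=
  muh_transcendental h3.ne_zero (bsn_transcendental_j3 K) (hsc_mu_identity h3)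

theorem bsn_transcendental_stilde (h3 : IsUnit (3 : K)) : Transcendental K (hsc_stilde K) := by
  intro hal
  apply Fermat.Agent.S28x.sa_transcendental_jqModC K
  have hne : (hsc_stilde K - 27) ^ 3 ≠ 0 := pow_ne_zero _ (bsn_stilde_sub_ne_zero h3)
  have h1 : jqModC K = hsc_stilde K * (hsc_stilde K + 216) ^ 3 / (hsc_stilde K - 27) ^ 3 := by
    rw [eq_div_iff hne]
    exact (hsc_stilde_identity K).symm
  have halg : Algebra.IsAlgebraic K K⟮hsc_stilde K⟯ :=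
    IntermediateField.isAlgebraic_adjoin_simple hal.isIntegral
  have hmem : jqModC K ∈ K⟮hsc_stilde K⟯ := by
    have hs : hsc_stilde K ∈ K⟮hsc_stilde K⟯ := mem_adjoin_simple_self K _
    rw [h1]
    exact div_mem (mul_mem hs (pow_mem (add_mem hs (bsn_ofNat_mem _ 216)) 3))
      (pow_mem (sub_mem hs (bsn_ofNat_mem _ 27)) 3)
  have := halg.isAlgebraic (⟨jqModC K, hmem⟩ : K⟮hsc_stilde K⟯)
  exact (isAlgebraic_algHom_iff (IntermediateField.val K⟮hsc_stilde K⟯)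
    Subtype.val_injective).2 this

/-- numerator `(X+6)³` -/
def bsn_num3 (K : Type*) [Field K] : K[X] := (X + C 6) ^ 3

/-- denominator `X² + 3X + 9` -/
def bsn_den3 (K : Type*) [Field K] : K[X] := X ^ 2 + C 3 * X + C 9

theorem bsn_natDegree_num3 : (bsn_num3 K).natDegree = 3 := by
  unfold bsn_num3
  compute_degree!

theorem bsn_natDegree_den3 : (bsn_den3 K).natDegree = 2 := by
  unfold bsn_den3
  compute_degree!

theorem bsn_den3_ne_zero : bsn_den3 K ≠ 0 := by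
  intro h
  have := bsn_natDegree_den3 (K := K)
  rw [h] at this
  simp at this

theorem bsn_isCoprime3 (h3 : (3 : K) ≠ 0) : IsCoprime (bsn_num3 K) (bsn_den3 K) := by
  have h27 : (27 : K) ≠ 0 := by
    have : (27 : K) = 3 ^ 3 := by norm_num
    rw [this]; exact pow_ne_zero _ h3
  unfold bsn_num3 bsn_den3
  apply IsCoprime.pow_left
  refine ⟨-C (27 : K)⁻¹ * (X - C 3), C (27 : K)⁻¹, ?_⟩
  have hC : C (27 : K)⁻¹ * C (27 : K) = 1 := by
    rw [← C_mul, inv_mul_cancel₀ h27, C_1]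
  have e6 : (C (6 : K) : K[X]) = 6 := map_ofNat C 6
  have e3 : (C (3 : K) : K[X]) = 3 := map_ofNat C 3
  have e9 : (C (9 : K) : K[X]) = 9 := map_ofNat C 9
  have e27 : (C (27 : K) : K[X]) = 27 := map_ofNat C 27
  rw [e27] at hC
  rw [e6, e3, e9]
  linear_combination hC

/-- **`[K(μ) : K(s̃)] = 3`** -/
theorem bsn_relfinrank_stilde_mu (h3 : IsUnit (3 : K)) :
    relfinrank K⟮hsc_stilde K⟯ K⟮hsc_mu h3⟯ = 3 := by
  have h := rfd_relfinrank (bsn_transcendental_mu h3) bsn_den3_ne_zero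
    (bsn_isCoprime3 h3.ne_zero)
  rw [bsn_natDegree_num3, bsn_natDegree_den3] at h
  have e : aeval (hsc_mu h3) (bsn_num3 K) / aeval (hsc_mu h3) (bsn_den3 K) = hsc_stilde K := by
    rw [bsn_stilde_ratfunc h3]
    simp [bsn_num3, bsn_den3, map_ofNat]
  rw [e] at h
  exact h

/-- **`[K(s̃) : K(j)] = 4`** -/
theorem bsn_relfinrank_jq_stilde (h3 : IsUnit (3 : K)) :
    relfinrank K⟮jqModC K⟯ K⟮hsc_stilde K⟯ = 4 := by
  have h := rfd_relfinrank (bsn_transcendental_stilde h3) muh_den4_ne_zero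
    (muh_isCoprime4 h3.ne_zero)
  rw [muh_natDegree_num4, muh_natDegree_den4, muh_aeval_num4, muh_aeval_den4] at h
  have hne : (hsc_stilde K - 27) ^ 3 ≠ 0 := pow_ne_zero _ (bsn_stilde_sub_ne_zero h3)
  have h1 : hsc_stilde K * (hsc_stilde K + 216) ^ 3 / (hsc_stilde K - 27) ^ 3 = jqModC K := by
    rw [div_eq_iff hne]
    exact hsc_stilde_identity K
  rw [h1] at h
  exact h

theorem bsn_Kjq_le_Kstilde (h3 : IsUnit (3 : K)) : K⟮jqModC K⟯ ≤ K⟮hsc_stilde K⟯ := by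
  rw [adjoin_simple_le_iff]
  have hs : hsc_stilde K ∈ K⟮hsc_stilde K⟯ := mem_adjoin_simple_self K _
  have hne : (hsc_stilde K - 27) ^ 3 ≠ 0 := pow_ne_zero _ (bsn_stilde_sub_ne_zero h3)
  have h1 : jqModC K = hsc_stilde K * (hsc_stilde K + 216) ^ 3 / (hsc_stilde K - 27) ^ 3 := by
    rw [eq_div_iff hne]
    exact (hsc_stilde_identity K).symm
  rw [h1]
  exact div_mem (mul_mem hs (pow_mem (add_mem hs (bsn_ofNat_mem _ 216)) 3))
    (pow_mem (sub_mem hs (bsn_ofNat_mem _ 27)) 3)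

theorem bsn_Kstilde_le_Kmu (h3 : IsUnit (3 : K)) : K⟮hsc_stilde K⟯ ≤ K⟮hsc_mu h3⟯ := by
  rw [adjoin_simple_le_iff]
  exact bsn_stilde_mem h3

/-- **`[K(μ) : K(j)] = 12`** -/
theorem bsn_relfinrank_jq_mu (h3 : IsUnit (3 : K)) :
    relfinrank K⟮jqModC K⟯ K⟮hsc_mu h3⟯ = 12 := by
  rw [← relfinrank_mul_relfinrank (bsn_Kjq_le_Kstilde h3) (bsn_Kstilde_le_Kmu h3),
    bsn_relfinrank_jq_stilde h3, bsn_relfinrank_stilde_mu h3]

/-- **`F₉ = K(μ)`** as soon as `[F₉ : K(j)] ≥ 12 = ψ(9)`. -/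
theorem bsn_F9_eq (h3 : IsUnit (3 : K))
    (hdeg : 12 ≤ relfinrank K⟮jqModC K⟯ (modularFunctionFieldFullC K 9)) :
    modularFunctionFieldFullC K 9 = K⟮hsc_mu h3⟯ := by
  have hle := bsn_F9_le h3
  have hj : K⟮jqModC K⟯ ≤ modularFunctionFieldFullC K 9 := by
    rw [adjoin_simple_le_iff]
    exact jqModC_mem_full K 9
  have hmul := relfinrank_mul_relfinrank hj hle
  rw [bsn_relfinrank_jq_mu] at hmul
  have h1 : relfinrank (modularFunctionFieldFullC K 9) K⟮hsc_mu h3⟯ = 1 := by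
    rcases Nat.eq_zero_or_pos (relfinrank (modularFunctionFieldFullC K 9) K⟮hsc_mu h3⟯) with h0 | hp
    · rw [h0, mul_zero] at hmul
      exact absurd hmul (by norm_num)
    · nlinarith
  exact le_antisymm hle (relfinrank_eq_one_iff.1 h1)

end

end Fermat.Agent.S18x
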