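/-
S18 project, NRM block, row N8d-deg (helper68), prefix `lvu_`.

UPPER BOUND FOR THE DEGREE OVER AN ARBITRARY COEFFICIENT FIELD, by base change:
for fields `F ⊆ k`,

  `[k(j(q^d) : d ∣ N) : k(j)] ≤ [F(j(q^d) : d ∣ N) : F(j)]`      (`lvu_relfinrank_fullC_le`).

With `F = 𝔽_ℓ` and S28x `relfinrank_Ft_le` this gives `[F̄_N(k) : k(j)] ≤ ψ(N)` for every field `k`
of characteristic `ℓ` (no hypothesis `ℓ ∤ N`), and with helper94's `lv_deg_le` (lower bound,
`ℓ ∤ N`) the equality `[F̄_N(k) : k(j)] = ψ(N)`, the `cdeg` form, and the tower form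
`ψ(N) · [F̄_M(k) : F̄_N(k)] = ψ(M)` for `N ∣ M`, `ℓ ∤ M`  (the characteristic-`ℓ` half of
`finrank_eq` in the `nd_RedPair` between two levels).
-/
import Mathlib
import Fermat.Agent.S18x.LvDegK
import Fermat.Agent.S18x.GlueDegK
import Fermat.Agent.S28x.QepOfDeg

set_option autoImplicit false
set_option linter.style.haveILetI false

noncomputable section

namespace Fermat.Agent.S18x

open ModularCurve HahnSeries IntermediateField Fermat.Agent.S28x

/-! ## abstract: `[A·B : A] ≤ [B : C]` -/

section Abstract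

variable {F Ω : Type*} [Field F] [Field Ω] [Algebra F Ω]

/-- `[A·B : A] ≤ [B : C]` (and `A·B / A` is finite) for `C ≤ A`, `C ≤ B`, `B/C` finite. -/
theorem lvu_relfinrank_sup_le (A B C : IntermediateField F Ω) (hCA : C ≤ A) (hCB : C ≤ B)
    [hfin : FiniteDimensional C (extendScalars hCB)] :
    relfinrank A (A ⊔ B) ≤ relfinrank C B ∧ 0 < relfinrank A (A ⊔ B) := by
  letI : Algebra C A := (inclusion hCA).toRingHom.toAlgebra
  haveI : IsScalarTower C A Ω := IsScalarTower.of_algebraMap_eq (fun x => rfl)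
  have h1 := adjoin_rank_le_of_isAlgebraic_right (F := C) (K := Ω) A (extendScalars hCB)
  have h2 : extendScalars (le_sup_left : A ≤ A ⊔ B)
      = adjoin A ((extendScalars hCB : IntermediateField C Ω) : Set Ω) := by
    apply restrictScalars_injective F
    rw [extendScalars_restrictScalars, restrictScalars_adjoin_eq_sup]
    congr 1
    exact (adjoin_self F B).symm
  rw [relfinrank_eq_finrank_of_le hCB, relfinrank_eq_finrank_of_le (le_sup_left : A ≤ A ⊔ B), h2]
  have hlt : Module.rank C (extendScalars hCB) < Cardinal.aleph0 := Module.rank_lt_aleph0 _ _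
  have hfinA : Module.Finite A (adjoin A ((extendScalars hCB : IntermediateField C Ω) : Set Ω)) :=
    Module.rank_lt_aleph0_iff.mp (h1.trans_lt hlt)
  exact ⟨Cardinal.toNat_le_toNat h1 hlt, Module.finrank_pos⟩

/-- for `C ≤ A ≤ T ≤ A·B`, `C ≤ B`, `B/C` finite: `[T : A] ≤ [B : C]`. -/
theorem lvu_relfinrank_le_of_le_sup (A B C T : IntermediateField F Ω) (hCA : C ≤ A) (hCB : C ≤ B)
    [hfin : FiniteDimensional C (extendScalars hCB)] (hAT : A ≤ T) (hT : T ≤ A ⊔ B) :
    relfinrank A T ≤ relfinrank C B := by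
  obtain ⟨hle, hpos⟩ := lvu_relfinrank_sup_le A B C hCA hCB
  have hmul := relfinrank_mul_relfinrank hAT hT
  have h2 : relfinrank T (A ⊔ B) ≠ 0 := by
    intro h0
    rw [h0, mul_zero] at hmul
    omega
  calc relfinrank A T ≤ relfinrank A T * relfinrank T (A ⊔ B) :=
        Nat.le_mul_of_pos_right _ (Nat.pos_of_ne_zero h2)
    _ = relfinrank A (A ⊔ B) := hmul
    _ ≤ relfinrank C B := hle

end Abstract

/-! ## base change `F((q)) → k((q))` -/

section BaseChange

variable (F k : Type*) [Field F] [Field k] [Algebra F k]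

theorem lvu_algebraMap_apply (c : F) :
    algebraMap F (LaurentSeries k) c = algebraMap k (LaurentSeries k) (algebraMap F k c) := by
  rw [HahnSeries.algebraMap_apply', HahnSeries.algebraMap_apply', PowerSeries.algebraMap_apply,
    PowerSeries.algebraMap_apply, Algebra.algebraMap_self, RingHom.id_apply]

/-- coefficientwise base change as an `F`-algebra homomorphism `F((q)) → k((q))`. -/
def lvu_phi : LaurentSeries F →ₐ[F] LaurentSeries k where
  __ := coeffMap (algebraMap F k)
  commutes' c := by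
    show coeffMap (algebraMap F k) (algebraMap F (LaurentSeries F) c)
      = algebraMap F (LaurentSeries k) c
    rw [lv_coeffMap_algebraMap]
    exact (lvu_algebraMap_apply F k c).symm

@[simp]
theorem lvu_phi_apply (x : LaurentSeries F) : lvu_phi F k x = coeffMap (algebraMap F k) x := rfl

variable (N : ℕ) [NeZero N]

/-- **base change does not increase the degree**:
`[k(j(q^d) : d ∣ N) : k(j)] ≤ [F(j(q^d) : d ∣ N) : F(j)]`. -/
theorem lvu_relfinrank_fullC_le :
    relfinrank (adjoin k {jqModC k}) (modularFunctionFieldFullC k N)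
      ≤ relfinrank (adjoin F {jqModC F}) (modularFunctionFieldFullC F N) := by
  have hKjE : adjoin F {jqModC F} ≤ modularFunctionFieldFullC F N :=
    adjoin_le_iff.mpr (Set.singleton_subset_iff.mpr (jqModC_mem_full F N))
  have hkjT : adjoin k {jqModC k} ≤ modularFunctionFieldFullC k N :=
    adjoin_le_iff.mpr (Set.singleton_subset_iff.mpr (jqModC_mem_full k N))
  -- `F`-intermediate fields of `k((q))`
  let A : IntermediateField F (LaurentSeries k) :=
    Subfield.toIntermediateField (adjoin k {jqModC k}).toSubfield (fun c => by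
      show algebraMap F (LaurentSeries k) c ∈ adjoin k {jqModC k}
      rw [lvu_algebraMap_apply]
      exact (adjoin k {jqModC k}).algebraMap_mem _)
  let T : IntermediateField F (LaurentSeries k) :=
    Subfield.toIntermediateField (modularFunctionFieldFullC k N).toSubfield (fun c => by
      show algebraMap F (LaurentSeries k) c ∈ modularFunctionFieldFullC k N
      rw [lvu_algebraMap_apply]
      exact (modularFunctionFieldFullC k N).algebraMap_mem _)
  let B : IntermediateField F (LaurentSeries k) := (modularFunctionFieldFullC F N).map (lvu_phi F k)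
  let C : IntermediateField F (LaurentSeries k) := (adjoin F {jqModC F}).map (lvu_phi F k)
  have hCB : C ≤ B := IntermediateField.map_mono _ hKjE
  have hCA : C ≤ A := by
    show (adjoin F {jqModC F}).map (lvu_phi F k) ≤ A
    rw [adjoin_map, Set.image_singleton, lvu_phi_apply, coeffMap_jqModC, adjoin_le_iff,
      Set.singleton_subset_iff]
    exact mem_adjoin_simple_self k (jqModC k)
  have hrank : relfinrank C B
      = relfinrank (adjoin F {jqModC F}) (modularFunctionFieldFullC F N) :=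
    relfinrank_map_map _ _ (lvu_phi F k)
  have hpos : 0 < relfinrank C B := by
    rw [hrank]
    exact mpcf_relfinrank_fullC_pos F N _ (subset_adjoin _ _ rfl) hKjE
  have hfin : FiniteDimensional C (extendScalars hCB) := by
    rw [relfinrank_eq_finrank_of_le hCB] at hpos
    exact FiniteDimensional.of_finrank_pos hpos
  have hAT : A ≤ T := fun x hx => hkjT hx
  have hT : T ≤ A ⊔ B := by
    intro x hx
    have hx' : x ∈ modularFunctionFieldFullC k N := hx
    clear hx
    unfold modularFunctionFieldFullC at hx'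
    induction hx' using IntermediateField.adjoin_induction with
    | mem y hy =>
      obtain ⟨d, hne, hd, rfl⟩ := hy
      have := hne
      refine (le_sup_right : B ≤ A ⊔ B) ?_
      refine ⟨qExpand F d (jqModC F), jqModCd_mem_full F N hd, ?_⟩
      show lvu_phi F k (qExpand F d (jqModC F)) = _
      rw [lvu_phi_apply, coeffMap_qExpand, coeffMap_jqModC]
    | algebraMap r =>
      exact (le_sup_left : A ≤ A ⊔ B) ((adjoin k {jqModC k}).algebraMap_mem r)
    | add y z _ _ hy hz => exact add_mem hy hz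
    | inv y _ hy => exact inv_mem hy
    | mul y z _ _ hy hz => exact mul_mem hy hz
  have hmain := lvu_relfinrank_le_of_le_sup A B C T hCA hCB hAT hT
  rw [hrank] at hmain
  exact hmain

end BaseChange

/-! ## consequences in characteristic `ℓ` -/

section CharL

/-- `finrank K(x̄) E = relfinrank K(x) E` for `x ∈ E`, `x̄ = ⟨x, _⟩ : E`. -/
theorem lvu_finrank_adjoin_subtype {K Ω : Type*} [Field K] [Field Ω] [Algebra K Ω]
    (E : IntermediateField K Ω) (x : Ω) (hx : x ∈ E) :
    Module.finrank K⟮(⟨x, hx⟩ : E)⟯ E = relfinrank K⟮x⟯ E := by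
  have h1 : (K⟮(⟨x, hx⟩ : E)⟯).map E.val = K⟮x⟯ := by
    rw [adjoin_map, Set.image_singleton]
    rfl
  have h2 : (K⟮x⟯).comap E.val = K⟮(⟨x, hx⟩ : E)⟯ := by
    rw [← h1, comap_map]
  have h3 := IntermediateField.finrank_comap (A := K⟮x⟯) E.val
  rw [h2, fieldRange_val] at h3
  exact h3

variable (ℓ N : ℕ) [Fact ℓ.Prime] [NeZero N] (k : Type*) [Field k]

/-- **upper bound over any field `k` of characteristic `ℓ`** (no hypothesis `ℓ ∤ N`):
`[k(j(q^d) : d ∣ N) : k(j)] ≤ ψ(N)`. -/
theorem lvu_relfinrank_le [Algebra (ZMod ℓ) k] :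
    relfinrank (adjoin k {jqModC k}) (modularFunctionFieldFullC k N) ≤ dedekindPsi N :=
  (lvu_relfinrank_fullC_le (ZMod ℓ) k N).trans (relfinrank_Ft_le ℓ N)

/-- **`[F̄_N(k) : k(j)] = ψ(N)`** for every field `k` of characteristic `ℓ ∤ N`. -/
theorem lvu_relfinrank_eq [Algebra (ZMod ℓ) k] (hℓN : ¬ ℓ ∣ N) :
    relfinrank (adjoin k {jqModC k}) (modularFunctionFieldFullC k N) = dedekindPsi N :=
  le_antisymm (lvu_relfinrank_le ℓ N k) (lv_deg_le ℓ N hℓN k)

/-- `cdeg` form of the upper bound. -/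
theorem lvu_cdeg_le [CharP k ℓ] :
    S24x.cdeg k (pls_Fb k N) (pls_jb k N) ≤ dedekindPsi N := by
  letI : Algebra (ZMod ℓ) k := ZMod.algebra k ℓ
  have h := lvu_relfinrank_le ℓ N k
  rw [← lvu_finrank_adjoin_subtype (modularFunctionFieldFullC k N) (jqModC k)
    (jqModC_mem_full k N)] at h
  exact h

/-- **`cdeg k F̄_N(k) j̄ = ψ(N)`** for `ℓ ∤ N` (twin of `glu_psi_le_cdeg`). -/
theorem lvu_cdeg_eq [CharP k ℓ] (hℓN : ¬ ℓ ∣ N) :
    S24x.cdeg k (pls_Fb k N) (pls_jb k N) = dedekindPsi N :=
  le_antisymm (lvu_cdeg_le ℓ N k) (glu_psi_le_cdeg ℓ k N hℓN)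

/-- **tower form**: `ψ(N) · [F̄_M(k) : F̄_N(k)] = ψ(M)` for `N ∣ M`, `ℓ ∤ M`. -/
theorem lvu_tower [Algebra (ZMod ℓ) k] (M : ℕ) [NeZero M] (hNM : N ∣ M) (hℓM : ¬ ℓ ∣ M) :
    dedekindPsi N * relfinrank (modularFunctionFieldFullC k N) (modularFunctionFieldFullC k M)
      = dedekindPsi M := by
  have hℓN : ¬ ℓ ∣ N := fun h => hℓM (h.trans hNM)
  have h1 : adjoin k {jqModC k} ≤ modularFunctionFieldFullC k N :=
    adjoin_le_iff.mpr (Set.singleton_subset_iff.mpr (jqModC_mem_full k N))
  have h := relfinrank_mul_relfinrank h1 (full_degeneracyC_le k hNM)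
  rwa [lvu_relfinrank_eq ℓ N k hℓN, lvu_relfinrank_eq ℓ M k hℓM] at h

/-- the relative degree between two levels does not depend on the field of characteristic `ℓ`:
`[F̄_M(k) : F̄_N(k)] = [F̃_M : F̃_N]` (`N ∣ M`, `ℓ ∤ M`). -/
theorem lvu_tower_eq [Algebra (ZMod ℓ) k] (M : ℕ) [NeZero M] (hNM : N ∣ M) (hℓM : ¬ ℓ ∣ M) :
    relfinrank (modularFunctionFieldFullC k N) (modularFunctionFieldFullC k M)
      = relfinrank (Ft ℓ N) (Ft ℓ M) := by
  have h1 := lvu_tower ℓ N k M hNM hℓM
  have h2 := lvu_tower ℓ N (ZMod ℓ) M hNM hℓM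
  have hpos : 0 < dedekindPsi N := sa_dedekindPsi_pos N (NeZero.ne N)
  exact Nat.eq_of_mul_eq_mul_left hpos (h1.trans h2.symm)

end CharL

/-! ## characteristic `0` over `ℚ̄`, and the comparison of the two characteristics -/

section CharZero

open Fermat.Agent.S24x

variable (N : ℕ) [NeZero N]

/-- `[F_N(ℚ̄) : ℚ̄(j)] = ψ(N)` in `relfinrank` form (S24). -/
theorem lvu_relfinrank_bar :
    relfinrank (AlgebraicClosure ℚ)⟮coeffEmb (AlgebraicClosure ℚ) jq⟯ (modularFunctionFieldBar N)
      = dedekindPsi N := by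
  have h := lvu_finrank_adjoin_subtype (modularFunctionFieldBar N)
    ((jBar N : FBar N) : LaurentSeries (AlgebraicClosure ℚ)) (jBar N).2
  rw [← coe_jBar N, ← h]
  exact (Fermat.Agent.S24.cInputs N).cdeg_jBar

theorem lvu_bar_mono (M : ℕ) [NeZero M] (hNM : N ∣ M) :
    modularFunctionFieldBar N ≤ modularFunctionFieldBar M :=
  IntermediateField.adjoin.mono _ _ _ (Set.image_mono (full_degeneracy_le hNM))

/-- **tower form over `ℚ̄`**: `ψ(N) · [F_M(ℚ̄) : F_N(ℚ̄)] = ψ(M)` for `N ∣ M`. -/
theorem lvu_tower_bar (M : ℕ) [NeZero M] (hNM : N ∣ M) :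
    dedekindPsi N * relfinrank (modularFunctionFieldBar N) (modularFunctionFieldBar M)
      = dedekindPsi M := by
  have h1 : (AlgebraicClosure ℚ)⟮coeffEmb (AlgebraicClosure ℚ) jq⟯ ≤ modularFunctionFieldBar N := by
    rw [adjoin_simple_le_iff, ← coe_jBar N]
    exact (jBar N).2
  have h := relfinrank_mul_relfinrank h1 (lvu_bar_mono N M hNM)
  rwa [lvu_relfinrank_bar N, lvu_relfinrank_bar M] at h

/-- **`finrank_eq` between two levels**: for `N ∣ M`, `ℓ ∤ M` and every field `k` of
characteristic `ℓ`:  `[F_M(ℚ̄) : F_N(ℚ̄)] = [F̄_M(k) : F̄_N(k)]`. -/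
theorem lvu_relfinrank_levels_eq (ℓ : ℕ) [Fact ℓ.Prime] (k : Type*) [Field k] [Algebra (ZMod ℓ) k]
    (M : ℕ) [NeZero M] (hNM : N ∣ M) (hℓM : ¬ ℓ ∣ M) :
    relfinrank (modularFunctionFieldBar N) (modularFunctionFieldBar M)
      = relfinrank (modularFunctionFieldFullC k N) (modularFunctionFieldFullC k M) := by
  have h1 := lvu_tower_bar N M hNM
  have h2 := lvu_tower ℓ N k M hNM hℓM
  have hpos : 0 < dedekindPsi N := sa_dedekindPsi_pos N (NeZero.ne N)
  exact Nat.eq_of_mul_eq_mul_left hpos (h1.trans h2.symm)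

/-- for `A ≤ B` and the `inclusion` algebra structure: `finrank A B = relfinrank A B`. -/
theorem lvu_finrank_inclusion {K Ω : Type*} [Field K] [Field Ω] [Algebra K Ω]
    (A B : IntermediateField K Ω) (h : A ≤ B) :
    @Module.finrank A B _ _ (inclusion h).toRingHom.toAlgebra.toModule = relfinrank A B := by
  rw [relfinrank_eq_finrank_of_le h]
  letI : Algebra A B := (inclusion h).toRingHom.toAlgebra
  let e : B ≃ₗ[A] (extendScalars h) :=
    { toFun := fun x => ⟨x.1, x.2⟩
      invFun := fun x => ⟨x.1, x.2⟩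
      map_add' := fun _ _ => rfl
      map_smul' := fun _ _ => rfl
      left_inv := fun _ => rfl
      right_inv := fun _ => rfl }
  exact e.finrank_eq

end CharZero

end Fermat.Agent.S18x
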