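/-
S18 project, NRM block, row N11 (helper15), prefix `nnc15_`.

NON-COPRIME auxiliary level, `ℓ` odd and `2 ∣ N` (any field `K` in which `2` is a unit, so `K = ℚ`
and `K = 𝔽_ℓ`, `k` are literally the same theorems).

* `nnc15_even K = K((q²))`, the field range of `qExpand K 2`; `E = F_N(q²) ≤ nnc15_even K`.
* `nnc15_u R = q⁻¹ w`, `w` the Hensel root (constant coefficient `1`) of
  `(w + 192 q)³ = (q j)(w - 64 q)²`: the Hauptmodul `64 + Δ(q)/Δ(q²)` of `Γ₀(2)`,
  characterised by `nnc15_u_unique`; `(u + 192)³ = j (u - 64)²`; `coeffMap φ u = u`.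
* `purb_X3 h2 ^ 2 = qExpand 2 u` (`nnc15_X3_sq`), `X₃ ∉ K((q²))` (odd order).
* PARITY: `K(X₃) ⊓ K((q²)) = K(X₃²)`; for every `E ≤ K((q²))`: `E ⊓ K(X₃) ≤ K(X₃²)`, and if
  `X₃² ∈ E`: equality, `[E·K(X₃) : E] = 2`, `[E·K(X₃) : K(X₃)] = [E : K(X₃²)]`.
* LEVEL `N` EVEN with (I1) `u ∈ F₂`: `X₃² ∈ E = F_N(q²)`, hence all of the above, and
  `[Y : K(X₃)] · 3 = [E : K(j(q²))]`.
-/
import Mathlib
import Fermat.Prelude.Def_ModularCurve_X0ModL
import Fermat.Agent.S28x.GaussV
import Fermat.Agent.S18x.PurCoord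
import Fermat.Agent.S18x.PurCoordMap
import Fermat.Agent.S18x.RatDeg
import Fermat.Agent.S18x.NrmNonCoprimeAbs

set_option autoImplicit false

noncomputable section

namespace Fermat.Agent.S18x

open ModularCurve

section Cubic

open Polynomial

variable {S : Type*} [CommRing S]

/-- the cubic `(T + a)³ - J (T - b)²`. -/
def nnc15_cubic (a b J : S) : S[X] := (X + C a) ^ 3 - C J * (X - C b) ^ 2

theorem nnc15_cubic_monic [Nontrivial S] (a b J : S) : (nnc15_cubic a b J).Monic := by
  unfold nnc15_cubic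
  have h1 : (X + C a : S[X]).Monic := monic_X_add_C a
  have h2 : ((X + C a : S[X]) ^ 3).Monic := h1.pow 3
  have hd1 : ((X + C a : S[X]) ^ 3).natDegree = 3 := by
    rw [h1.natDegree_pow, natDegree_X_add_C]
  refine h2.sub_of_left ?_
  have hd2 : (C J * (X - C b) ^ 2 : S[X]).natDegree ≤ 2 := by
    refine (natDegree_C_mul_le _ _).trans ?_
    refine natDegree_pow_le.trans ?_
    have : (X - C b : S[X]).natDegree ≤ 1 := natDegree_X_sub_C_le b
    omega
  rw [degree_eq_natDegree h2.ne_zero, hd1]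
  exact lt_of_le_of_lt degree_le_natDegree (by exact_mod_cast Nat.lt_of_le_of_lt hd2 (by norm_num))

theorem nnc15_cubic_eval (a b J t : S) :
    (nnc15_cubic a b J).eval t = (t + a) ^ 3 - J * (t - b) ^ 2 := by
  simp [nnc15_cubic]

theorem nnc15_cubic_deriv_eval (a b J t : S) :
    (nnc15_cubic a b J).derivative.eval t = 3 * (t + a) ^ 2 - 2 * J * (t - b) := by
  simp [nnc15_cubic, derivative_pow]
  ring

theorem nnc15_cubic_map {S' : Type*} [CommRing S'] (φ : S →+* S') (a b J : S) :
    (nnc15_cubic a b J).map φ = nnc15_cubic (φ a) (φ b) (φ J) := by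
  simp only [nnc15_cubic, Polynomial.map_sub, Polynomial.map_mul, Polynomial.map_pow,
    Polynomial.map_add, Polynomial.map_X, Polynomial.map_C]

end Cubic

section HenselCubic

variable {R : Type*} [CommRing R]

/-- existence of the Hensel root with constant coefficient `1`. -/
theorem nnc15_cubic_exists_root [Nontrivial R] (a b J : PowerSeries R)
    (ha : PowerSeries.constantCoeff a = 0) (hb : PowerSeries.constantCoeff b = 0)
    (hJ : PowerSeries.constantCoeff J = 1) :
    ∃ w : PowerSeries R, (nnc15_cubic a b J).IsRoot w ∧ PowerSeries.constantCoeff w = 1 := by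
  refine purb_hensel (nnc15_cubic a b J) (nnc15_cubic_monic _ _ _) 1 ?_ ?_
  · rw [nnc15_cubic_eval]
    simp only [map_sub, map_mul, map_pow, map_add, ha, hb, hJ, map_one]
    ring
  · rw [nnc15_cubic_deriv_eval]
    simp only [map_sub, map_mul, map_pow, map_add, ha, hb, hJ, map_one, map_ofNat]
    have : (3 : R) * (1 + 0) ^ 2 - 2 * 1 * (1 - 0) = 1 := by ring
    rw [this]
    exact isUnit_one

/-- uniqueness of the root with constant coefficient `1`. -/
theorem nnc15_cubic_root_unique (a b J : PowerSeries R)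
    (ha : PowerSeries.constantCoeff a = 0) (hb : PowerSeries.constantCoeff b = 0)
    (hJ : PowerSeries.constantCoeff J = 1) (v w : PowerSeries R)
    (hv : (nnc15_cubic a b J).IsRoot v) (hw : (nnc15_cubic a b J).IsRoot w)
    (hcv : PowerSeries.constantCoeff v = 1) (hcw : PowerSeries.constantCoeff w = 1) : v = w := by
  refine purb_hensel_unique _ v w hv hw (by rw [hcv, hcw]) ?_
  rw [nnc15_cubic_deriv_eval]
  simp only [map_sub, map_mul, map_pow, map_add, ha, hb, hJ, hcv, map_ofNat]
  have : (3 : R) * (1 + 0) ^ 2 - 2 * 1 * (1 - 0) = 1 := by ring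
  rw [this]
  exact isUnit_one

end HenselCubic

section Root

variable (R : Type*) [CommRing R]

/-- the level-one Hensel cubic `(T + 192 q)³ - (q j)(T - 64 q)²` over `R⟦q⟧`. -/
def nnc15_g : Polynomial (PowerSeries R) :=
  nnc15_cubic ((192 : PowerSeries R) * PowerSeries.X) ((64 : PowerSeries R) * PowerSeries.X)
    (purb_J R)

/-- its `q ↦ q²` twin `(T + 192 q²)³ - (q² j(q²))(T - 64 q²)²`. -/
def nnc15_g2 : Polynomial (PowerSeries R) :=
  nnc15_cubic ((192 : PowerSeries R) * PowerSeries.X ^ 2) ((64 : PowerSeries R) * PowerSeries.X ^ 2)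
    (purb_J2 R)

theorem nnc15_g_map_expand :
    (nnc15_g R).map ((PowerSeries.expand 2 two_ne_zero : PowerSeries R →ₐ[R] PowerSeries R) :
      PowerSeries R →+* PowerSeries R) = nnc15_g2 R := by
  rw [nnc15_g, nnc15_cubic_map, nnc15_g2]
  simp only [RingHom.coe_coe, map_mul, map_ofNat, PowerSeries.expand_X, purb_J2]

theorem nnc15_cc_a : PowerSeries.constantCoeff ((192 : PowerSeries R) * PowerSeries.X) = 0 := by
  rw [map_mul, PowerSeries.constantCoeff_X, mul_zero]

theorem nnc15_cc_b : PowerSeries.constantCoeff ((64 : PowerSeries R) * PowerSeries.X) = 0 := by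
  rw [map_mul, PowerSeries.constantCoeff_X, mul_zero]

theorem nnc15_cc_a2 :
    PowerSeries.constantCoeff ((192 : PowerSeries R) * PowerSeries.X ^ 2) = 0 := by
  rw [map_mul, map_pow, PowerSeries.constantCoeff_X]; ring

theorem nnc15_cc_b2 :
    PowerSeries.constantCoeff ((64 : PowerSeries R) * PowerSeries.X ^ 2) = 0 := by
  rw [map_mul, map_pow, PowerSeries.constantCoeff_X]; ring

theorem nnc15_exists_w [Nontrivial R] :
    ∃ w : PowerSeries R, (nnc15_g R).IsRoot w ∧ PowerSeries.constantCoeff w = 1 :=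
  nnc15_cubic_exists_root _ _ _ (nnc15_cc_a R) (nnc15_cc_b R) (purb_constantCoeff_J R)

/-- the Hensel root `w = q u ∈ 1 + q R⟦q⟧`. -/
def nnc15_w [Nontrivial R] : PowerSeries R := (nnc15_exists_w R).choose

theorem nnc15_w_isRoot [Nontrivial R] : (nnc15_g R).IsRoot (nnc15_w R) :=
  (nnc15_exists_w R).choose_spec.1

theorem nnc15_constantCoeff_w [Nontrivial R] : PowerSeries.constantCoeff (nnc15_w R) = 1 :=
  (nnc15_exists_w R).choose_spec.2

theorem nnc15_w_identity [Nontrivial R] :
    (nnc15_w R + 192 * PowerSeries.X) ^ 3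
      = purb_J R * (nnc15_w R - 64 * PowerSeries.X) ^ 2 := by
  have h := nnc15_w_isRoot R
  rw [Polynomial.IsRoot, nnc15_g, nnc15_cubic_eval, sub_eq_zero] at h
  exact h

/-- uniqueness: a power series with constant coefficient `1` satisfying the cubic identity is `w`. -/
theorem nnc15_w_unique [Nontrivial R] (w : PowerSeries R) (hw : PowerSeries.constantCoeff w = 1)
    (hid : (w + 192 * PowerSeries.X) ^ 3 = purb_J R * (w - 64 * PowerSeries.X) ^ 2) :
    w = nnc15_w R := by
  refine nnc15_cubic_root_unique _ _ _ (nnc15_cc_a R) (nnc15_cc_b R) (purb_constantCoeff_J R)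
    w (nnc15_w R) ?_ (nnc15_w_isRoot R) hw (nnc15_constantCoeff_w R)
  rw [Polynomial.IsRoot, nnc15_cubic_eval, sub_eq_zero]
  exact hid

/-- **the Hauptmodul** `u = q⁻¹ w` (`= 64 + Δ(q)/Δ(q²)`) as a Laurent series. -/
def nnc15_u [Nontrivial R] : LaurentSeries R :=
  HahnSeries.single (-1 : ℤ) 1 * HahnSeries.ofPowerSeries ℤ R (nnc15_w R)

variable {R}

/-- `v₃² = w(q²)`. -/
theorem nnc15_v3_sq [Nontrivial R] (h2 : IsUnit (2 : R)) :
    purb_v3 h2 ^ 2 = PowerSeries.expand 2 two_ne_zero (nnc15_w R) := by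
  refine nnc15_cubic_root_unique _ _ _ (nnc15_cc_a2 R) (nnc15_cc_b2 R) (purb_constantCoeff_J2 R)
    _ _ ?_ ?_ ?_ ?_
  · rw [Polynomial.IsRoot, nnc15_cubic_eval, sub_eq_zero]
    exact purb_v3_identity h2
  · have := nnc15_g_map_expand R
    rw [nnc15_g2] at this
    rw [← this, Polynomial.IsRoot, Polynomial.eval_map]
    show Polynomial.eval₂
      ((PowerSeries.expand 2 two_ne_zero : PowerSeries R →ₐ[R] PowerSeries R) :
        PowerSeries R →+* PowerSeries R)
      (((PowerSeries.expand 2 two_ne_zero : PowerSeries R →ₐ[R] PowerSeries R) :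
        PowerSeries R →+* PowerSeries R) (nnc15_w R)) (nnc15_g R) = 0
    rw [Polynomial.eval₂_hom, (nnc15_w_isRoot R).eq_zero, map_zero]
  · rw [map_pow, purb_constantCoeff_v3, one_pow]
  · rw [PowerSeries.constantCoeff_expand, nnc15_constantCoeff_w]

end Root

end Fermat.Agent.S18x
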