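/-
S18 project, NRM block, row N11 (helper15), prefix `nnc15_`.  Main statements (see `NrmNonCoprime`).
-/
import Mathlib
import Fermat.Agent.S18x.NrmNonCoprime

set_option autoImplicit false

noncomputable section

namespace Fermat.Agent.S18x

open ModularCurve IntermediateField

section LaurentU

variable (R : Type*) [CommRing R] [Nontrivial R]

theorem nnc15_single_mul_single :
    HahnSeries.single (-1 : ℤ) (1 : R) * HahnSeries.single (1 : ℤ) 1 = 1 := by
  rw [HahnSeries.single_mul_single]; simp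

theorem nnc15_ofPowerSeries_X :
    HahnSeries.ofPowerSeries ℤ R (PowerSeries.X : PowerSeries R) = HahnSeries.single (1 : ℤ) 1 := by
  simp [HahnSeries.ofPowerSeries_X]

/-- **the defining identity** `(u + 192)³ = j (u - 64)²`. -/
theorem nnc15_u_identity :
    (nnc15_u R + 192) ^ 3 = jqModC R * (nnc15_u R - 64) ^ 2 := by
  have h := congrArg (HahnSeries.ofPowerSeries ℤ R) (nnc15_w_identity R)
  simp only [map_pow, map_add, map_mul, map_sub, map_ofNat] at h
  rw [nnc15_ofPowerSeries_X] at h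
  have hs := nnc15_single_mul_single R
  have hj : jqModC R = HahnSeries.single (-1 : ℤ) 1 * HahnSeries.ofPowerSeries ℤ R (purb_J R) := rfl
  rw [hj, nnc15_u]
  set s : LaurentSeries R := HahnSeries.single (-1 : ℤ) 1 with hs_def
  set t : LaurentSeries R := HahnSeries.single (1 : ℤ) 1 with ht_def
  set W : LaurentSeries R := HahnSeries.ofPowerSeries ℤ R (nnc15_w R) with hW
  set J : LaurentSeries R := HahnSeries.ofPowerSeries ℤ R (purb_J R) with hJ
  have e1 : s * W + 192 = s * (W + 192 * t) := by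
    calc s * W + 192 = s * W + 192 * (s * t) := by rw [hs, mul_one]
      _ = _ := by ring
  have e2 : s * W - 64 = s * (W - 64 * t) := by
    calc s * W - 64 = s * W - 64 * (s * t) := by rw [hs, mul_one]
      _ = _ := by ring
  rw [e1, e2, mul_pow, h]
  ring

/-- **characterisation** of `u`: the unique `q⁻¹(1 + …)` with `(u + 192)³ = j (u - 64)²`. -/
theorem nnc15_u_unique (u : LaurentSeries R) (w : PowerSeries R)
    (hw : PowerSeries.constantCoeff w = 1)
    (hu : u = HahnSeries.single (-1 : ℤ) 1 * HahnSeries.ofPowerSeries ℤ R w)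
    (hid : (u + 192) ^ 3 = jqModC R * (u - 64) ^ 2) : u = nnc15_u R := by
  have hs := nnc15_single_mul_single R
  have hj : jqModC R = HahnSeries.single (-1 : ℤ) 1 * HahnSeries.ofPowerSeries ℤ R (purb_J R) := rfl
  have key : w = nnc15_w R := by
    refine nnc15_w_unique R w hw ?_
    apply HahnSeries.ofPowerSeries_injective (Γ := ℤ)
    simp only [map_pow, map_add, map_mul, map_sub, map_ofNat]
    rw [nnc15_ofPowerSeries_X]
    rw [hu, hj] at hid
    set s : LaurentSeries R := HahnSeries.single (-1 : ℤ) 1 with hs_def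
    set t : LaurentSeries R := HahnSeries.single (1 : ℤ) 1 with ht_def
    set W : LaurentSeries R := HahnSeries.ofPowerSeries ℤ R w with hW
    set J : LaurentSeries R := HahnSeries.ofPowerSeries ℤ R (purb_J R) with hJ
    have hts : t * s = 1 := by rw [mul_comm]; exact hs
    have e1 : W + 192 * t = t * (s * W + 192) := by
      calc W + 192 * t = (t * s) * W + 192 * t := by rw [hts, one_mul]
        _ = _ := by ring
    have e2 : W - 64 * t = t * (s * W - 64) := by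
      calc W - 64 * t = (t * s) * W - 64 * t := by rw [hts, one_mul]
        _ = _ := by ring
    rw [e1, e2, mul_pow, hid]
    calc t ^ 3 * (s * J * (s * W - 64) ^ 2)
        = (t * s) * J * (t * (s * W - 64)) ^ 2 := by ring
      _ = J * (t * (s * W - 64)) ^ 2 := by rw [hts, one_mul]
  rw [hu, key, nnc15_u]

/-- `X₃² = u(q²)`. -/
theorem nnc15_X3_sq (h2 : IsUnit (2 : R)) :
    purb_X3 h2 ^ 2 = qExpand R 2 (nnc15_u R) := by
  have h1 : (HahnSeries.ofPowerSeries ℤ R (purb_v3 h2)) ^ 2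
      = HahnSeries.ofPowerSeries ℤ R (PowerSeries.expand 2 two_ne_zero (nnc15_w R)) := by
    rw [← nnc15_v3_sq h2, map_pow]
  have h3 : (HahnSeries.single (-1 : ℤ) (1 : R)) ^ 2 = HahnSeries.single (-2 : ℤ) 1 := by
    rw [HahnSeries.single_pow]; simp
  rw [purb_X3, nnc15_u, mul_pow, h1, h3, map_mul, qExpand_single,
    Fermat.Agent.S28x.pc_qExpand_ofPowerSeries]
  norm_num

variable {R} in
/-- functoriality: `coeffMap φ u = u`. -/
theorem nnc15_u_map {R' : Type*} [CommRing R'] [Nontrivial R'] (φ : R →+* R') :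
    coeffMap φ (nnc15_u R) = nnc15_u R' := by
  refine nnc15_u_unique R' _ ((nnc15_w R).map φ) ?_ ?_ ?_
  · rw [← PowerSeries.coeff_zero_eq_constantCoeff, PowerSeries.coeff_map,
      PowerSeries.coeff_zero_eq_constantCoeff, nnc15_constantCoeff_w, map_one]
  · rw [nnc15_u, map_mul, coeffMap_single, map_one, coeffMap_ofPowerSeries]
  · have h := congrArg (coeffMap φ) (nnc15_u_identity R)
    simp only [map_pow, map_add, map_mul, map_sub, map_ofNat, coeffMap_jqModC] at h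
    exact h

theorem nnc15_coeff_u_neg_one : (nnc15_u R).coeff (-1) = 1 := by
  have h := HahnSeries.coeff_single_mul_add (r := (1 : R))
    (x := HahnSeries.ofPowerSeries ℤ R (nnc15_w R)) (a := (0 : ℤ)) (b := (-1 : ℤ))
  rw [zero_add, one_mul] at h
  rw [nnc15_u, h]
  have := HahnSeries.ofPowerSeries_apply_coeff (Γ := ℤ) (nnc15_w R) 0
  rw [Nat.cast_zero] at this
  rw [this, PowerSeries.coeff_zero_eq_constantCoeff, nnc15_constantCoeff_w]

theorem nnc15_coeff_X3_neg_one (h2 : IsUnit (2 : R)) : (purb_X3 h2).coeff (-1) = 1 := by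
  have h := HahnSeries.coeff_single_mul_add (r := (1 : R))
    (x := HahnSeries.ofPowerSeries ℤ R (purb_v3 h2)) (a := (0 : ℤ)) (b := (-1 : ℤ))
  rw [zero_add, one_mul] at h
  rw [purb_X3, h]
  have := HahnSeries.ofPowerSeries_apply_coeff (Γ := ℤ) (purb_v3 h2) 0
  rw [Nat.cast_zero] at this
  rw [this, PowerSeries.coeff_zero_eq_constantCoeff, purb_constantCoeff_v3]

end LaurentU

section Parity

variable (K : Type*) [Field K]

/-- the field `K((q²))` of even Laurent series. -/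
def nnc15_even : IntermediateField K (LaurentSeries K) := (qExpandAlgHomC K 2).fieldRange

variable {K}

theorem nnc15_mem_even_iff (y : LaurentSeries K) :
    y ∈ nnc15_even K ↔ ∃ f : LaurentSeries K, qExpand K 2 f = y := by
  rw [nnc15_even, AlgHom.mem_fieldRange]
  rfl

theorem nnc15_qExpand_mem_even (f : LaurentSeries K) : qExpand K 2 f ∈ nnc15_even K :=
  (nnc15_mem_even_iff _).2 ⟨f, rfl⟩

theorem nnc15_map_le_even (F : IntermediateField K (LaurentSeries K)) :
    F.map (qExpandAlgHomC K 2) ≤ nnc15_even K := by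
  rintro y ⟨f, -, rfl⟩
  exact nnc15_qExpand_mem_even f

theorem nnc15_coeff_eq_zero_of_mem_even {y : LaurentSeries K} (hy : y ∈ nnc15_even K) {k : ℤ}
    (hk : ¬ (2 : ℤ) ∣ k) : y.coeff k = 0 := by
  obtain ⟨f, rfl⟩ := (nnc15_mem_even_iff y).1 hy
  exact qExpand_coeff_of_not_dvd 2 f (by exact_mod_cast hk)

variable (h2 : IsUnit (2 : K))

/-- `X₃ ∉ K((q²))`: its `q⁻¹`-coefficient is `1`. -/
theorem nnc15_X3_not_mem_even : purb_X3 h2 ∉ nnc15_even K := by
  intro h
  have h0 := nnc15_coeff_eq_zero_of_mem_even h (k := -1) (by norm_num)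
  rw [nnc15_coeff_X3_neg_one K h2] at h0
  exact one_ne_zero h0

theorem nnc15_X3_sq_mem_even : purb_X3 h2 ^ 2 ∈ nnc15_even K := by
  rw [nnc15_X3_sq K h2]
  exact nnc15_qExpand_mem_even _

theorem nnc15_natDegree_minpoly_X3 : (minpoly (nnc15_even K) (purb_X3 h2)).natDegree = 2 :=
  nnc15_natDegree_minpoly_two _ _ (nnc15_X3_sq_mem_even h2) (nnc15_X3_not_mem_even h2)

/-- **PARITY**: `K(X₃) ⊓ K((q²)) = K(X₃²)`. -/
theorem nnc15_adjoin_inf_even : K⟮purb_X3 h2⟯ ⊓ nnc15_even K = K⟮purb_X3 h2 ^ 2⟯ :=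
  nnc15_abs_simple_inf _ _ (by norm_num) (nnc15_natDegree_minpoly_X3 h2)
    (nnc15_X3_sq_mem_even h2)

variable (E : IntermediateField K (LaurentSeries K))

/-- for EVERY `E ≤ K((q²))` (every level `N`): `E ⊓ K(X₃) ≤ K(X₃²)`. -/
theorem nnc15_inf_le (hE : E ≤ nnc15_even K) : E ⊓ K⟮purb_X3 h2⟯ ≤ K⟮purb_X3 h2 ^ 2⟯ :=
  nnc15_abs_inf_le _ _ (by norm_num) (nnc15_natDegree_minpoly_X3 h2)
    (nnc15_X3_sq_mem_even h2) E hE

theorem nnc15_X3_not_mem (hE : E ≤ nnc15_even K) : purb_X3 h2 ∉ E :=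
  fun h => nnc15_X3_not_mem_even h2 (hE h)

/-- `E ≤ K((q²))`, `X₃² ∈ E` ⟹ `E ⊓ K(X₃) = K(X₃²)`. -/
theorem nnc15_inf_eq (hE : E ≤ nnc15_even K) (hu : purb_X3 h2 ^ 2 ∈ E) :
    E ⊓ K⟮purb_X3 h2⟯ = K⟮purb_X3 h2 ^ 2⟯ :=
  nnc15_abs_inf_eq _ _ (by norm_num) (nnc15_natDegree_minpoly_X3 h2) E hE hu

/-- `E ≤ K((q²))`, `X₃² ∈ E` ⟹ `[E·K(X₃) : E] = 2`. -/
theorem nnc15_relfinrank_sup (hE : E ≤ nnc15_even K) (hu : purb_X3 h2 ^ 2 ∈ E) :
    relfinrank E (E ⊔ K⟮purb_X3 h2⟯) = 2 :=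
  nnc15_abs_relfinrank_sup _ _ (by norm_num) (nnc15_natDegree_minpoly_X3 h2) E hE hu

/-- `E ≤ K((q²))`, `X₃² ∈ E` ⟹ the minimal polynomial of `X₃` over `E` has degree `2`. -/
theorem nnc15_natDegree_minpoly_E (hE : E ≤ nnc15_even K) (hu : purb_X3 h2 ^ 2 ∈ E) :
    (minpoly E (purb_X3 h2)).natDegree = 2 :=
  nnc15_abs_natDegree_minpoly _ _ (by norm_num) (nnc15_natDegree_minpoly_X3 h2) E hE hu

/-- `[K(X₃) : K(X₃²)] = 2`. -/
theorem nnc15_relfinrank_sq_X3 : relfinrank K⟮purb_X3 h2 ^ 2⟯ K⟮purb_X3 h2⟯ = 2 :=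
  nnc15_abs_relfinrank_simple _ _ (by norm_num) (nnc15_natDegree_minpoly_X3 h2) _
    (by rw [adjoin_simple_le_iff]; exact nnc15_X3_sq_mem_even h2)
    (mem_adjoin_simple_self K _) (nnc15_adjoin_pow_le _ 2)

/-- `E ≤ K((q²))`, `X₃² ∈ E` ⟹ `[E·K(X₃) : K(X₃)] = [E : K(X₃²)]`. -/
theorem nnc15_relfinrank_X3 (hE : E ≤ nnc15_even K) (hu : purb_X3 h2 ^ 2 ∈ E) :
    relfinrank K⟮purb_X3 h2⟯ (E ⊔ K⟮purb_X3 h2⟯) = relfinrank K⟮purb_X3 h2 ^ 2⟯ E :=
  nnc15_abs_relfinrank_over_simple _ _ (by norm_num) (nnc15_natDegree_minpoly_X3 h2) E hE hu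

end Parity

end Fermat.Agent.S18x
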