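/-
S18 project, NRM block, row N11 (helper15), prefix `nnc15_`.  LEVEL-`N` statements, `N` EVEN,
`K` any field with `2` a unit (`K = ℚ`, `K = 𝔽_ℓ`, `k`), under the single modular input
  (I1)  `nnc15_u K ∈ modularFunctionFieldFullC K 2`     [`u = 64 + Δ(q)/Δ(q²) ∈ F₂`, row N9]:
with `E = F_N(q²) = nnc15_E K N`, `S = K(X₃)`, `Y = E ⊔ S`:
  `E ⊓ S = K(X₃²)`, `[Y : E] = 2`, `[Y : S] = [E : K(X₃²)]`, `[Y : S] · 3 = [E : K(j(q²))]`.
Also (no modular input): `[K(X₃²) : K(j(q²))] = 3`, `[K(X₃) : K(j(q²))] = 6`.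
-/
import Mathlib
import Fermat.Agent.S18x.NrmNonCoprimeMain

set_option autoImplicit false

noncomputable section

namespace Fermat.Agent.S18x

open ModularCurve IntermediateField Polynomial

section Cubic

variable {K : Type*} [Field K] (h2 : IsUnit (2 : K))

theorem nnc15_transcendental_j2 (K : Type*) [Field K] :
    Transcendental K (qExpand K 2 (jqModC K)) := by
  rw [transcendental_iff]
  intro p hp
  by_contra hp0
  have h := Polynomial.aeval_algHom_apply (qExpandAlgHomC K 2) (jqModC K) p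
  rw [qExpandAlgHomC_apply, hp] at h
  have h0 : qExpand K 2 (aeval (jqModC K) p) = qExpand K 2 0 := by
    rw [map_zero]; exact h.symm
  exact Fermat.Agent.S28x.gv_aeval_jqModC_ne_zero K hp0 (qExpand_injective 2 h0)

theorem nnc15_ofNat_mem (F : IntermediateField K (LaurentSeries K)) (n : ℕ) [n.AtLeastTwo] :
    (OfNat.ofNat n : LaurentSeries K) ∈ F := by
  have : (OfNat.ofNat n : LaurentSeries K) = algebraMap K (LaurentSeries K) (OfNat.ofNat n) := by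
    rw [map_ofNat]
  rw [this]
  exact F.algebraMap_mem _

theorem nnc15_X3_sq_sub_ne_zero : purb_X3 h2 ^ 2 - 64 ≠ 0 := by
  intro h
  have h8 : purb_X3 h2 ^ 2 = 8 ^ 2 := by
    rw [sub_eq_zero] at h; rw [h]; norm_num
  have hmem : purb_X3 h2 ∈ nnc15_even K := by
    rcases sq_eq_sq_iff_eq_or_eq_neg.1 h8 with h | h
    · rw [h]; exact nnc15_ofNat_mem _ 8
    · rw [h]; exact neg_mem (nnc15_ofNat_mem _ 8)
  exact nnc15_X3_not_mem_even h2 hmem

/-- `j(q²) = (X₃² + 192)³ / (X₃² - 64)²`. -/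
theorem nnc15_j2_eq :
    qExpand K 2 (jqModC K) = (purb_X3 h2 ^ 2 + 192) ^ 3 / (purb_X3 h2 ^ 2 - 64) ^ 2 := by
  rw [eq_div_iff (pow_ne_zero 2 (nnc15_X3_sq_sub_ne_zero h2))]
  exact (purb_X3_identity h2).symm

theorem nnc15_j2_mem_adjoin_sq :
    qExpand K 2 (jqModC K) ∈ K⟮purb_X3 h2 ^ 2⟯ := by
  rw [nnc15_j2_eq h2]
  have hU : purb_X3 h2 ^ 2 ∈ K⟮purb_X3 h2 ^ 2⟯ := mem_adjoin_simple_self K _
  exact div_mem (pow_mem (add_mem hU (nnc15_ofNat_mem _ 192)) 3)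
    (pow_mem (sub_mem hU (nnc15_ofNat_mem _ 64)) 2)

theorem nnc15_adjoin_j2_le : K⟮qExpand K 2 (jqModC K)⟯ ≤ K⟮purb_X3 h2 ^ 2⟯ := by
  rw [adjoin_simple_le_iff]
  exact nnc15_j2_mem_adjoin_sq h2

/-- `X₃²` is transcendental over `K`. -/
theorem nnc15_transcendental_X3_sq : Transcendental K (purb_X3 h2 ^ 2) := by
  intro hU
  apply nnc15_transcendental_j2 K
  have halg : Algebra.IsAlgebraic K K⟮purb_X3 h2 ^ 2⟯ := isAlgebraic_adjoin_simple hU.isIntegral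
  have := halg.isAlgebraic ⟨_, nnc15_j2_mem_adjoin_sq h2⟩
  exact (isAlgebraic_algebraMap_iff
    (algebraMap K⟮purb_X3 h2 ^ 2⟯ (LaurentSeries K)).injective
    (a := ⟨_, nnc15_j2_mem_adjoin_sq h2⟩)).mpr this

/-- numerator `(T + 192)³` -/
def nnc15_num (K : Type*) [Field K] : K[X] := (X + C 192) ^ 3

/-- denominator `(T - 64)²` -/
def nnc15_den (K : Type*) [Field K] : K[X] := (X - C 64) ^ 2

theorem nnc15_natDegree_num : (nnc15_num K).natDegree = 3 := by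
  unfold nnc15_num
  compute_degree!

theorem nnc15_natDegree_den : (nnc15_den K).natDegree = 2 := by
  unfold nnc15_den
  compute_degree!

theorem nnc15_den_ne_zero : nnc15_den K ≠ 0 := by
  intro h
  have := nnc15_natDegree_den (K := K)
  rw [h] at this
  simp at this

theorem nnc15_aeval_num {E : Type*} [Field E] [Algebra K E] (x : E) :
    aeval x (nnc15_num K) = (x + 192) ^ 3 := by
  simp [nnc15_num, map_ofNat]

theorem nnc15_aeval_den {E : Type*} [Field E] [Algebra K E] (x : E) :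
    aeval x (nnc15_den K) = (x - 64) ^ 2 := by
  simp [nnc15_den, map_ofNat]

include h2 in
theorem nnc15_isCoprime_num_den : IsCoprime (nnc15_num K) (nnc15_den K) := by
  have h256 : (256 : K) ≠ 0 := by
    have : (256 : K) = 2 ^ 8 := by norm_num
    rw [this]; exact pow_ne_zero _ h2.ne_zero
  have c1 : IsCoprime (X + C 192 : K[X]) (X - C 64) := by
    refine ⟨C (256 : K)⁻¹, - C (256 : K)⁻¹, ?_⟩
    have : C (256 : K)⁻¹ * C (256 : K) = 1 := by rw [← C_mul, inv_mul_cancel₀ h256, C_1]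
    have e : (C (256 : K) : K[X]) = C 192 + C 64 := by rw [← C_add]; norm_num
    rw [e] at this
    linear_combination this
  unfold nnc15_num nnc15_den
  exact c1.pow

/-- `[K(X₃²) : K(j(q²))] = 3`. -/
theorem nnc15_relfinrank_j2_sq :
    relfinrank K⟮qExpand K 2 (jqModC K)⟯ K⟮purb_X3 h2 ^ 2⟯ = 3 := by
  have := rfd_relfinrank (nnc15_transcendental_X3_sq h2) (nnc15_den_ne_zero (K := K))
    (nnc15_isCoprime_num_den h2)
  rw [nnc15_natDegree_num, nnc15_natDegree_den, nnc15_aeval_num, nnc15_aeval_den,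
    ← nnc15_j2_eq h2] at this
  exact this

/-- `[K(X₃) : K(j(q²))] = 6`. -/
theorem nnc15_relfinrank_j2_X3 :
    relfinrank K⟮qExpand K 2 (jqModC K)⟯ K⟮purb_X3 h2⟯ = 6 := by
  have h := relfinrank_mul_relfinrank (nnc15_adjoin_j2_le h2) (nnc15_adjoin_pow_le (K := K)
    (purb_X3 h2) 2)
  rw [nnc15_relfinrank_j2_sq h2, nnc15_relfinrank_sq_X3 h2] at h
  exact h.symm

end Cubic

section LevelN

variable (K : Type*) [Field K] (N : ℕ) [NeZero N]

/-- `E = F_N(q²)`: the image of the level-`N` modular function field under `q ↦ q²`. -/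
def nnc15_E : IntermediateField K (LaurentSeries K) :=
  (modularFunctionFieldFullC K N).map (qExpandAlgHomC K 2)

theorem nnc15_E_le_even : nnc15_E K N ≤ nnc15_even K := nnc15_map_le_even _

theorem nnc15_qExpand_mem_E {f : LaurentSeries K} (hf : f ∈ modularFunctionFieldFullC K N) :
    qExpand K 2 f ∈ nnc15_E K N :=
  ⟨f, hf, rfl⟩

theorem nnc15_j2_mem_E : qExpand K 2 (jqModC K) ∈ nnc15_E K N :=
  nnc15_qExpand_mem_E K N (jqModC_mem_full K N)

theorem nnc15_adjoin_j2_le_E : K⟮qExpand K 2 (jqModC K)⟯ ≤ nnc15_E K N := by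
  rw [adjoin_simple_le_iff]
  exact nnc15_j2_mem_E K N

variable {K} (h2 : IsUnit (2 : K))

/-- `N` even + (I1) ⟹ `X₃² = u(q²) ∈ E`. -/
theorem nnc15_X3_sq_mem (hN : 2 ∣ N) (hI1 : nnc15_u K ∈ modularFunctionFieldFullC K 2) :
    purb_X3 h2 ^ 2 ∈ nnc15_E K N := by
  rw [nnc15_X3_sq K h2]
  exact nnc15_qExpand_mem_E K N (full_degeneracyC_le K hN hI1)

/-- EVERY level `N`: `E ⊓ K(X₃) ≤ K(X₃²)`. -/
theorem nnc15_levelN_inf_le : nnc15_E K N ⊓ K⟮purb_X3 h2⟯ ≤ K⟮purb_X3 h2 ^ 2⟯ :=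
  nnc15_inf_le h2 _ (nnc15_E_le_even K N)

/-- EVERY level `N`: `X₃ ∉ E`. -/
theorem nnc15_levelN_X3_not_mem : purb_X3 h2 ∉ nnc15_E K N :=
  nnc15_X3_not_mem h2 _ (nnc15_E_le_even K N)

/-- `N` even + (I1): `E ⊓ K(X₃) = K(X₃²)`. -/
theorem nnc15_levelN_inf (hN : 2 ∣ N) (hI1 : nnc15_u K ∈ modularFunctionFieldFullC K 2) :
    nnc15_E K N ⊓ K⟮purb_X3 h2⟯ = K⟮purb_X3 h2 ^ 2⟯ :=
  nnc15_inf_eq h2 _ (nnc15_E_le_even K N) (nnc15_X3_sq_mem N h2 hN hI1)

/-- `N` even + (I1): `[Y : E] = 2`. -/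
theorem nnc15_levelN_relfinrank (hN : 2 ∣ N) (hI1 : nnc15_u K ∈ modularFunctionFieldFullC K 2) :
    relfinrank (nnc15_E K N) (nnc15_E K N ⊔ K⟮purb_X3 h2⟯) = 2 :=
  nnc15_relfinrank_sup h2 _ (nnc15_E_le_even K N) (nnc15_X3_sq_mem N h2 hN hI1)

/-- `N` even + (I1): `[Y : K(X₃)] = [E : K(X₃²)]`. -/
theorem nnc15_levelN_relfinrank_X3 (hN : 2 ∣ N)
    (hI1 : nnc15_u K ∈ modularFunctionFieldFullC K 2) :
    relfinrank K⟮purb_X3 h2⟯ (nnc15_E K N ⊔ K⟮purb_X3 h2⟯)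
      = relfinrank K⟮purb_X3 h2 ^ 2⟯ (nnc15_E K N) :=
  nnc15_relfinrank_X3 h2 _ (nnc15_E_le_even K N) (nnc15_X3_sq_mem N h2 hN hI1)

/-- `N` even + (I1): `[Y : K(X₃)] · 3 = [E : K(j(q²))]`; with DEG at level `N`
(`[E : K(j(q²))] = [F_N : K(j)] = ψ(N)` in char `0` and char `ℓ`) the degree `[Y : K(X₃)] = ψ(N)/3`
is the same in both characteristics. -/
theorem nnc15_levelN_degree (hN : 2 ∣ N) (hI1 : nnc15_u K ∈ modularFunctionFieldFullC K 2) :
    relfinrank K⟮purb_X3 h2⟯ (nnc15_E K N ⊔ K⟮purb_X3 h2⟯) * 3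
      = relfinrank K⟮qExpand K 2 (jqModC K)⟯ (nnc15_E K N) := by
  have hC_le_E : K⟮purb_X3 h2 ^ 2⟯ ≤ nnc15_E K N := by
    rw [adjoin_simple_le_iff]; exact nnc15_X3_sq_mem N h2 hN hI1
  have h := relfinrank_mul_relfinrank (nnc15_adjoin_j2_le h2) hC_le_E
  rw [nnc15_relfinrank_j2_sq h2] at h
  rw [nnc15_levelN_relfinrank_X3 N h2 hN hI1, ← h, mul_comm]

/-- transport of degrees along `q ↦ q²`: `[E : K(j(q²))] = [F_N : K(j)]`. -/
theorem nnc15_relfinrank_E :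
    relfinrank K⟮qExpand K 2 (jqModC K)⟯ (nnc15_E K N)
      = relfinrank K⟮jqModC K⟯ (modularFunctionFieldFullC K N) := by
  have h1 : (K⟮jqModC K⟯).map (qExpandAlgHomC K 2) = K⟮qExpand K 2 (jqModC K)⟯ := by
    rw [IntermediateField.adjoin_map, Set.image_singleton, qExpandAlgHomC_apply]
  rw [← h1, nnc15_E, IntermediateField.relfinrank_map_map]

end LevelN

end Fermat.Agent.S18x
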