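/-
S18 project, NRM block, row N1f (helper68), prefix `purf_`.

`FiniteDimensional K_Y F_Y` for helper28's level-`Y` objects (`S18x/LevelYDefs.lean`), the open
hypothesis of helper39's `PurInst`:  generic in `(e, h, N)` with the single hypothesis
`j(q^e) ∈ ℚ(h)`:

  `[K_Y · F_N(q^e) : K_Y] ≤ [F_N(q^e) : ℚ(j(q^e))] = [F_N : ℚ(j)] < ∞`.

Instances: `h = X₃` (`e = 2`, any field with `2` a unit) and the Hesse parameter `h = μ`
(`e = 3`, any field with `3` a unit); characteristic-`ℓ` twins for `purb_KYb`, `purb_LYb`.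
-/
import Mathlib
import Fermat.Agent.S18x.LvDegUpper
import Fermat.Agent.S18x.BaseIdentDeg
import Fermat.Agent.S18x.LevelYDefs
import Fermat.Agent.S18x.NrmNonCoprimeLevel
import Fermat.Agent.S18x.BaseIdentNine

set_option autoImplicit false
set_option linter.style.haveILetI false

noncomputable section

namespace Fermat.Agent.S18x

open ModularCurve IntermediateField Fermat.Agent.S28x

/-! ## generic -/

section Generic

/-- transfer of finiteness from `extendScalars` to the subtype with an "inclusion" algebra. -/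
theorem purf_finite_of_extendScalars {K Ω : Type*} [Field K] [Field Ω] [Algebra K Ω]
    (A B : IntermediateField K Ω) (hAB : A ≤ B) [Algebra A B]
    (hcoe : ∀ a : A, ((algebraMap A B a : B) : Ω) = a)
    [FiniteDimensional A (extendScalars hAB)] : FiniteDimensional A B := by
  let f : (extendScalars hAB) ≃ₗ[A] B :=
    { toFun := fun x => ⟨x.1, x.2⟩
      invFun := fun x => ⟨x.1, x.2⟩
      map_add' := fun _ _ => rfl
      map_smul' := fun a x => by
        apply Subtype.ext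
        show (a : Ω) * (x : Ω) = ((a • (⟨x.1, x.2⟩ : B) : B) : Ω)
        rw [Algebra.smul_def, MulMemClass.coe_mul, hcoe]
      left_inv := fun _ => rfl
      right_inv := fun _ => rfl }
  exact Module.Finite.equiv f

/-- `L = B·A` is finite over `A` when `B` is finite over a common subfield `C ≤ A ⊓ B`. -/
theorem purf_finiteDimensional_of_sup {K Ω : Type*} [Field K] [Field Ω] [Algebra K Ω]
    (A B L C : IntermediateField K Ω) (hL : L = B ⊔ A) (hCA : C ≤ A) (hCB : C ≤ B)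
    (hpos : 0 < relfinrank C B) [Algebra A L]
    (hcoe : ∀ a : A, ((algebraMap A L a : L) : Ω) = a) : FiniteDimensional A L := by
  subst hL
  have hfin : FiniteDimensional C (extendScalars hCB) := by
    rw [relfinrank_eq_finrank_of_le hCB] at hpos
    exact FiniteDimensional.of_finrank_pos hpos
  obtain ⟨-, hp⟩ := lvu_relfinrank_sup_le A B C hCA hCB
  rw [sup_comm, relfinrank_eq_finrank_of_le (le_sup_right : A ≤ B ⊔ A)] at hp
  haveI : FiniteDimensional A (extendScalars (le_sup_right : A ≤ B ⊔ A)) :=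
    FiniteDimensional.of_finrank_pos hp
  exact purf_finite_of_extendScalars A (B ⊔ A) le_sup_right hcoe

/-- positivity of `[F_N(q^e) : K(j(q^e))]`. -/
theorem purf_relfinrank_map_pos (K : Type*) [Field K] (e N : ℕ) [NeZero e] [NeZero N] :
    0 < relfinrank K⟮qExpand K e (jqModC K)⟯
      ((modularFunctionFieldFullC K N).map (qExpandAlgHomC K e)) := by
  rw [bsd_relfinrank_map]
  exact mpcf_relfinrank_fullC_pos K N _ (mem_adjoin_simple_self K _)
    (adjoin_le_iff.mpr (Set.singleton_subset_iff.mpr (jqModC_mem_full K N)))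

theorem purf_adjoin_le_map (K : Type*) [Field K] (e N : ℕ) [NeZero e] [NeZero N] :
    K⟮qExpand K e (jqModC K)⟯ ≤ (modularFunctionFieldFullC K N).map (qExpandAlgHomC K e) := by
  rw [adjoin_simple_le_iff]
  exact ⟨jqModC K, jqModC_mem_full K N, rfl⟩

end Generic

/-! ## characteristic `0`: helper28's `purb_KY`, `purb_LY` -/

section CharZero

variable (e : ℕ) [NeZero e] (h : LaurentSeries ℚ) (N : ℕ) [NeZero N]

/-- **`F_Y` is finite over `K_Y`** when `j(q^e) ∈ ℚ(h)`. -/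
theorem purf_finiteDimensional (hJ : qExpand ℚ e jq ∈ purb_KY h) :
    FiniteDimensional ↥(purb_KY h) ↥(purb_LY e h N) :=
  purf_finiteDimensional_of_sup (purb_KY h) (purb_FNe e N) (purb_LY e h N)
    ℚ⟮qExpand ℚ e (jqModC ℚ)⟯ rfl
    (by rw [adjoin_simple_le_iff]; exact hJ)
    (purf_adjoin_le_map ℚ e N) (purf_relfinrank_map_pos ℚ e N)
    (fun a => purb_algebraMap_KY_LY_coe e h N a)

/-- separability is automatic in characteristic `0`. -/
theorem purf_isSeparable (hJ : qExpand ℚ e jq ∈ purb_KY h) :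
    Algebra.IsSeparable ↥(purb_KY h) ↥(purb_LY e h N) := by
  haveI := purf_finiteDimensional e h N hJ
  infer_instance

end CharZero

/-! ## characteristic `ℓ`: `purb_KYb`, `purb_LYb` -/

section CharL

variable (ℓ e : ℕ) [Fact ℓ.Prime] [NeZero e] (hb : LaurentSeries (ZMod ℓ)) (N : ℕ) [NeZero N]

/-- **`F̄_Y` is finite over `K̄_Y`** when `j̄(q^e) ∈ 𝔽_ℓ(h̄)`. -/
theorem purf_finiteDimensional_b
    (hJ : qExpand (ZMod ℓ) e (jqModC (ZMod ℓ)) ∈ purb_KYb ℓ hb) :
    FiniteDimensional ↥(purb_KYb ℓ hb) ↥(purb_LYb ℓ e hb N) :=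
  purf_finiteDimensional_of_sup (purb_KYb ℓ hb) (purb_FNeb ℓ e N) (purb_LYb ℓ e hb N)
    (ZMod ℓ)⟮qExpand (ZMod ℓ) e (jqModC (ZMod ℓ))⟯ rfl
    (by rw [adjoin_simple_le_iff]; exact hJ)
    (purf_adjoin_le_map (ZMod ℓ) e N) (purf_relfinrank_map_pos (ZMod ℓ) e N)
    (fun a => purb_algebraMap_KYb_LYb_coe ℓ e hb N a)

end CharL

/-! ## the instances `h = X₃` (`e = 2`) and `h = μ` (`e = 3`) -/

section Instances

variable (N : ℕ) [NeZero N]

/-- `j(q²) ∈ K(X₃)` over any field with `2` a unit. -/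
theorem purf_j2_mem {K : Type*} [Field K] (h2 : IsUnit (2 : K)) :
    qExpand K 2 (jqModC K) ∈ K⟮purb_X3 h2⟯ :=
  (nnc15_adjoin_pow_le (purb_X3 h2) 2) (nnc15_j2_mem_adjoin_sq h2)

/-- `ℓ` odd, characteristic `0`: `F_Y = F_N(q²)·ℚ(X₃)` is finite over `ℚ(X₃)`. -/
theorem purf_finiteDimensional_X3Q :
    FiniteDimensional ↥(purb_KY purb_X3Q) ↥(purb_LY 2 purb_X3Q N) :=
  purf_finiteDimensional 2 purb_X3Q N (purf_j2_mem purb_isUnit_two_rat)

theorem purf_isSeparable_X3Q :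
    Algebra.IsSeparable ↥(purb_KY purb_X3Q) ↥(purb_LY 2 purb_X3Q N) :=
  purf_isSeparable 2 purb_X3Q N (purf_j2_mem purb_isUnit_two_rat)

/-- `ℓ` odd, characteristic `ℓ`. -/
theorem purf_finiteDimensional_X3F (ℓ : ℕ) [Fact ℓ.Prime] (h2 : IsUnit (2 : ZMod ℓ)) :
    FiniteDimensional ↥(purb_KYb ℓ (purb_X3 h2)) ↥(purb_LYb ℓ 2 (purb_X3 h2) N) :=
  purf_finiteDimensional_b ℓ 2 (purb_X3 h2) N (purf_j2_mem h2)

/-- `ℓ = 2`, characteristic `0`: `F_Y = F_N(q³)·ℚ(μ)` is finite over `ℚ(μ)`. -/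
theorem purf_finiteDimensional_muQ (h3 : IsUnit (3 : ℚ)) :
    FiniteDimensional ↥(purb_KY (hsc_mu h3)) ↥(purb_LY 3 (hsc_mu h3) N) :=
  purf_finiteDimensional 3 (hsc_mu h3) N (bsn_j3_mem h3)

theorem purf_isSeparable_muQ (h3 : IsUnit (3 : ℚ)) :
    Algebra.IsSeparable ↥(purb_KY (hsc_mu h3)) ↥(purb_LY 3 (hsc_mu h3) N) :=
  purf_isSeparable 3 (hsc_mu h3) N (bsn_j3_mem h3)

/-- `ℓ = 2` (any `ℓ ≠ 3`), characteristic `ℓ`. -/
theorem purf_finiteDimensional_muF (ℓ : ℕ) [Fact ℓ.Prime] (h3 : IsUnit (3 : ZMod ℓ)) :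
    FiniteDimensional ↥(purb_KYb ℓ (hsc_mu h3)) ↥(purb_LYb ℓ 3 (hsc_mu h3) N) :=
  purf_finiteDimensional_b ℓ 3 (hsc_mu h3) N (bsn_j3_mem h3)

end Instances

end Fermat.Agent.S18x
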