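/-
S18x/HorizTwin40Inst (helper40; row N5/G9, INSURANCE TWIN of HorizFinal; prefix `hzt40_`):
the two closed instances of `(H) = puri_HH`:

* `hzt40_HH_X3 ℓ N : puri_HH ℓ 2 purb_X3Q purb_c3 N`   (`λ`-line coordinate `X₃`, any prime `ℓ`, any `N`);
* `hzt40_HH_mu ℓ N : puri_HH ℓ 3 lyn_muQ lyn_c2 N`      (Hesse coordinate `μ`, any prime `ℓ`, any `N`),

from `hzt40_HH_of_places` (S18x/HorizTwin40.lean), helper33/helper72's `lyh_ord_eq_one_levelY`,
`lyi_isCoordinate`, `lyi_coeffEmb_mem` and helper18's `lyh2_ord_eq_one_levelY`, `lyi2_isCoordinate`,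
`lyi2_coeffEmb_mem`.
-/
import Mathlib
import Fermat.Agent.S18x.HorizTwin40
import Fermat.Agent.S18x.LevelYHorizInst
import Fermat.Agent.S18x.LyhInstCoord
import Fermat.Agent.S18x.LevelYHoriz2
import Fermat.Agent.S18x.PuriFinite
import Fermat.Agent.S18x.NrmYCoordFacts

set_option autoImplicit false
set_option linter.style.haveILetI false
set_option linter.unusedSectionVars false
set_option synthInstance.maxHeartbeats 400000
set_option maxHeartbeats 1000000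

namespace Fermat.Agent.S18x

open Polynomial AlgebraicCurve ModularCurve Fermat.Agent.S28x Fermat.Agent.S24x

noncomputable section

local notation "Qbar" => AlgebraicClosure ℚ

section Bridge

variable (LY : IntermediateField ℚ (LaurentSeries ℚ))
  (Lb : IntermediateField Qbar (LaurentSeries Qbar))
  (hmem : ∀ x ∈ LY, coeffEmb Qbar x ∈ Lb)

/-- `coeffEmb` as a ring hom `F_Y → L̄_Y`. -/
def hzt40_emb : ↥LY →+* ↥Lb :=
  RingHom.codRestrict ((coeffEmb Qbar).comp (algebraMap ↥LY (LaurentSeries ℚ))) Lb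
    (fun x => hmem x x.2)

theorem hzt40_emb_coe (x : ↥LY) :
    ((hzt40_emb LY Lb hmem x : ↥Lb) : LaurentSeries Qbar) = coeffEmb Qbar (x : LaurentSeries ℚ) :=
  rfl

end Bridge

section X3

variable (ℓ : ℕ) [Fact ℓ.Prime] (N : ℕ) [NeZero N]

theorem hzt40_emb_X3 :
    hzt40_emb (purb_LY 2 purb_X3Q N) (lyi_LBar N) (lyi_coeffEmb_mem N)
      (algebraMap ↥(purb_KY purb_X3Q) ↥(purb_LY 2 purb_X3Q N) (purb_hK purb_X3Q)) = lyi_X3 N := by
  apply Subtype.ext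
  rw [hzt40_emb_coe, purb_algebraMap_KY_LY_coe, lyi_coe_X3]
  exact lyi_coeffEmb_X3

theorem hzt40_aeval_c3 (a : Qbar) : aeval a purb_c3 = a ^ 2 - 64 := by
  rw [purb_c3, map_sub, map_pow, aeval_X]
  congr 1
  exact map_ofNat (aeval a) 64

/-- **`(H)` for the `λ`-line coordinate `X₃`** (`ℓ` odd instance of design B, at `N = 2N₀`). -/
theorem hzt40_HH_X3 : puri_HH ℓ 2 purb_X3Q purb_c3 N := by
  haveI : FiniteDimensional ↥(purb_KY purb_X3Q) ↥(purb_LY 2 purb_X3Q N) :=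
    purf_finiteDimensional_X3Q N
  letI algL : Algebra ↥(purb_LY 2 purb_X3Q N) ↥(lyi_LBar N) :=
    (hzt40_emb (purb_LY 2 purb_X3Q N) (lyi_LBar N) (lyi_coeffEmb_mem N)).toAlgebra
  have hX : algebraMap ↥(purb_LY 2 purb_X3Q N) ↥(lyi_LBar N)
      (algebraMap ↥(purb_KY purb_X3Q) ↥(purb_LY 2 purb_X3Q N) (purb_hK purb_X3Q)) = lyi_X3 N :=
    hzt40_emb_X3 N
  refine hzt40_HH_of_places ℓ 2 N lyn_transcendental_X3Q nycf_c3_ne_zero
    (Lbar := ↥(lyi_LBar N)) ?_ ?_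
  · rw [hX]
    exact lyi_isCoordinate N
  · intro P a ha
    rw [hX]
    rw [hzt40_aeval_c3] at ha
    exact lyh_ord_eq_one_levelY N P a (fun h0 => ha (by rw [h0, sub_self]))

end X3

section Mu

variable (ℓ : ℕ) [Fact ℓ.Prime] (N : ℕ) [NeZero N]

theorem hzt40_lyn_muQ_eq : lyn_muQ = lyi2_mus ℚ := rfl

theorem hzt40_coeffEmb_mem_mu (x : LaurentSeries ℚ) (hx : x ∈ purb_LY 3 lyn_muQ N) :
    coeffEmb Qbar x ∈ lyi2_LBar N :=
  lyi2_coeffEmb_mem N x hx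

theorem hzt40_emb_mu :
    hzt40_emb (purb_LY 3 lyn_muQ N) (lyi2_LBar N) (hzt40_coeffEmb_mem_mu N)
      (algebraMap ↥(purb_KY lyn_muQ) ↥(purb_LY 3 lyn_muQ N) (purb_hK lyn_muQ)) = lyi2_mu N := by
  apply Subtype.ext
  rw [hzt40_emb_coe, purb_algebraMap_KY_LY_coe, lyi2_coe_mu]
  exact lyi2_coeffEmb_mu

theorem hzt40_aeval_c2 (a : Qbar) : aeval a lyn_c2 = a ^ 3 - 27 := by
  rw [lyn_c2, map_sub, map_pow, aeval_X]
  congr 1
  exact map_ofNat (aeval a) 27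

/-- **`(H)` for the Hesse coordinate `μ`** (`ℓ = 2` instance of design B, at `N = 3N₀`). -/
theorem hzt40_HH_mu : puri_HH ℓ 3 lyn_muQ lyn_c2 N := by
  haveI : FiniteDimensional ↥(purb_KY lyn_muQ) ↥(purb_LY 3 lyn_muQ N) :=
    purf_finiteDimensional_muQ N lyn_isUnit_three_rat
  letI algL : Algebra ↥(purb_LY 3 lyn_muQ N) ↥(lyi2_LBar N) :=
    (hzt40_emb (purb_LY 3 lyn_muQ N) (lyi2_LBar N) (hzt40_coeffEmb_mem_mu N)).toAlgebra
  have hX : algebraMap ↥(purb_LY 3 lyn_muQ N) ↥(lyi2_LBar N)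
      (algebraMap ↥(purb_KY lyn_muQ) ↥(purb_LY 3 lyn_muQ N) (purb_hK lyn_muQ)) = lyi2_mu N :=
    hzt40_emb_mu N
  refine hzt40_HH_of_places ℓ 3 N lyn_transcendental_muQ nycf_c2_ne_zero
    (Lbar := ↥(lyi2_LBar N)) ?_ ?_
  · rw [hX]
    exact lyi2_isCoordinate N
  · intro P a ha
    rw [hX]
    rw [hzt40_aeval_c2] at ha
    exact lyh2_ord_eq_one_levelY N P a (fun h0 => ha (by rw [h0, sub_self]))

end Mu

end

end Fermat.Agent.S18x
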