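/-
S18x/ChartEq (helper42, row N6c of s18_nrm_plan; prefix `cheq_`): CHART EQUALITIES in integrality
language, Mathlib only.

* generic tools: monotonicity and transitivity of integrality for subalgebras `S ≤ T` of an
  `R0`-algebra `F`; transport of `IsIntegral (adjoin R0 s) y` along an injective algebra hom;
* LEGENDRE chart (level 2, `2` invertible): `h, v, J` with `v (h² - 64) = 1`,
  `(h² + 192)³ = J (h² - 64)²`: `h`, `v` integral over `R0[J]`, `J ∈ R0[h, v]`, hence
  `IsIntegral R0[h, v] y ↔ IsIntegral R0[J] y`;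
* HESSE chart (level 3, `3` invertible): `μ, w, J` with `w (μ³ - 27) = 1`,
  `μ³ (μ³ + 216)³ = J (μ³ - 27)³`: same statements;
* abstract MODULAR-EQUATION chart: `a, b` each integral over the other one
  ⇒ `IsIntegral R0[a] y ↔ IsIntegral R0[b] y`.
The concrete instances `j(q)` vs `j(q^p)` are in `S18x/ChartEqJ.lean`.
-/
import Mathlib

set_option autoImplicit false
set_option linter.style.haveILetI false

namespace Fermat.Agent.S18x

open Polynomial

section Generic

variable {R0 F : Type*} [CommRing R0] [CommRing F] [Algebra R0 F]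

/-- integrality over a subalgebra implies integrality over any bigger subalgebra. -/
theorem cheq_isIntegral_mono {S T : Subalgebra R0 F} (hST : S ≤ T) {y : F}
    (hy : IsIntegral S y) : IsIntegral T y := by
  letI : Algebra S T := (Subalgebra.inclusion hST).toRingHom.toAlgebra
  haveI : IsScalarTower S T F := IsScalarTower.of_algebraMap_eq fun _ => rfl
  exact hy.tower_top

/-- if all elements of a generating set of `T` are integral over `S`, every element of `T` is. -/
theorem cheq_isIntegral_of_mem_adjoin {S : Subalgebra R0 F} {s : Set F}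
    (hs : ∀ x ∈ s, IsIntegral S x) {t : F} (ht : t ∈ Algebra.adjoin R0 s) : IsIntegral S t := by
  have hle : Algebra.adjoin R0 s ≤ (integralClosure S F).restrictScalars R0 :=
    Algebra.adjoin_le fun x hx => hs x hx
  exact hle ht

/-- transitivity: `S ≤ T`, the generators of `T` integral over `S`, `y` integral over `T`
⇒ `y` integral over `S`. -/
theorem cheq_isIntegral_trans {S : Subalgebra R0 F} {s : Set F}
    (hST : S ≤ Algebra.adjoin R0 s) (hs : ∀ x ∈ s, IsIntegral S x) {y : F}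
    (hy : IsIntegral (Algebra.adjoin R0 s) y) : IsIntegral S y := by
  letI : Algebra S (Algebra.adjoin R0 s) := (Subalgebra.inclusion hST).toRingHom.toAlgebra
  haveI : IsScalarTower S (Algebra.adjoin R0 s) F := IsScalarTower.of_algebraMap_eq fun _ => rfl
  haveI : Algebra.IsIntegral S (Algebra.adjoin R0 s) := by
    refine ⟨fun t => ?_⟩
    have h1 : IsIntegral S ((algebraMap (Algebra.adjoin R0 s) F) t) :=
      cheq_isIntegral_of_mem_adjoin hs t.2
    exact (isIntegral_algebraMap_iff (Subtype.val_injective)).1 h1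
  exact isIntegral_trans y hy

/-- two charts `S = R0[J]` and `T = R0[s]` with `J ∈ T` and the generators `s` integral over `S`
define the same integral elements. -/
theorem cheq_isIntegral_iff_of_charts {J : F} {s : Set F}
    (hJ : J ∈ Algebra.adjoin R0 s) (hs : ∀ x ∈ s, IsIntegral (Algebra.adjoin R0 {J}) x) (y : F) :
    IsIntegral (Algebra.adjoin R0 s) y ↔ IsIntegral (Algebra.adjoin R0 {J}) y := by
  have hST : Algebra.adjoin R0 {J} ≤ Algebra.adjoin R0 s :=
    Algebra.adjoin_le (Set.singleton_subset_iff.2 hJ)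
  exact ⟨fun hy => cheq_isIntegral_trans hST hs hy, fun hy => cheq_isIntegral_mono hST hy⟩

end Generic

section Transport

variable {R0 F F' : Type*} [CommRing R0] [CommRing F] [CommRing F'] [Algebra R0 F] [Algebra R0 F']

/-- transport of integrality over `R0[s]` along an algebra hom. -/
theorem cheq_isIntegral_map (φ : F →ₐ[R0] F') {s : Set F} {y : F}
    (hy : IsIntegral (Algebra.adjoin R0 s) y) : IsIntegral (Algebra.adjoin R0 (φ '' s)) (φ y) := by
  obtain ⟨p, hp, hpy⟩ := hy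
  have hmap : (Algebra.adjoin R0 s).map φ = Algebra.adjoin R0 (φ '' s) := AlgHom.map_adjoin φ s
  -- the restriction of φ to the subalgebras
  let ψ : Algebra.adjoin R0 s →+* Algebra.adjoin R0 (φ '' s) :=
    { toFun := fun x => ⟨φ x, by rw [← hmap]; exact ⟨x, x.2, rfl⟩⟩
      map_one' := Subtype.ext (map_one φ)
      map_mul' := fun a b => Subtype.ext (map_mul φ (a : F) (b : F))
      map_zero' := Subtype.ext (map_zero φ)
      map_add' := fun a b => Subtype.ext (map_add φ (a : F) (b : F)) }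
  refine ⟨p.map ψ, hp.map ψ, ?_⟩
  rw [eval₂_map]
  have hcomp : (algebraMap (Algebra.adjoin R0 (φ '' s)) F').comp ψ
      = (φ : F →+* F').comp (algebraMap (Algebra.adjoin R0 s) F) := by
    ext x; rfl
  rw [hcomp]
  have := hom_eval₂ p (algebraMap (Algebra.adjoin R0 s) F) (φ : F →+* F') y
  rw [hpy, map_zero] at this
  exact this.symm

/-- ... and back, if the hom is injective. -/
theorem cheq_isIntegral_of_map (φ : F →ₐ[R0] F') (hφ : Function.Injective φ) {s : Set F} {y : F}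
    (hy : IsIntegral (Algebra.adjoin R0 (φ '' s)) (φ y)) : IsIntegral (Algebra.adjoin R0 s) y := by
  obtain ⟨p, hp, hpy⟩ := hy
  have hmap : (Algebra.adjoin R0 s).map φ = Algebra.adjoin R0 (φ '' s) := AlgHom.map_adjoin φ s
  -- choose preimages of the coefficients
  have hpre : ∀ c : Algebra.adjoin R0 (φ '' s), ∃ x : Algebra.adjoin R0 s, φ x = c := by
    intro c
    have hc : (c : F') ∈ (Algebra.adjoin R0 s).map φ := by rw [hmap]; exact c.2
    obtain ⟨x, hx, hxc⟩ := hc
    exact ⟨⟨x, hx⟩, hxc⟩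
  choose g hg using hpre
  -- the polynomial with the lifted coefficients, degree by degree
  set n := p.natDegree with hn
  set P : (Algebra.adjoin R0 s)[X] :=
    X ^ n + ∑ i ∈ Finset.range n, C (g (p.coeff i)) * X ^ i with hP
  have hdeg : (∑ i ∈ Finset.range n, C (g (p.coeff i)) * (X : (Algebra.adjoin R0 s)[X]) ^ i).degree
      < (n : WithBot ℕ) := by
    refine lt_of_le_of_lt (degree_sum_le _ _) ?_
    rw [Finset.sup_lt_iff (WithBot.bot_lt_coe _)]
    intro i hi
    exact lt_of_le_of_lt (degree_C_mul_X_pow_le _ _) (by exact_mod_cast Finset.mem_range.1 hi)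
  have hPm : P.Monic := monic_X_pow_add hdeg
  refine ⟨P, hPm, ?_⟩
  apply hφ
  rw [map_zero]
  -- φ (P(y)) = p(φ y)
  have h1 : φ (eval₂ (algebraMap (Algebra.adjoin R0 s) F) y P)
      = (φ y) ^ n + ∑ i ∈ Finset.range n, (p.coeff i : F') * (φ y) ^ i := by
    rw [hP, eval₂_add, eval₂_X_pow, eval₂_finsetSum, map_add, map_pow, map_sum]
    congr 1
    refine Finset.sum_congr rfl fun i _ => ?_
    rw [eval₂_mul, eval₂_C, eval₂_X_pow, map_mul, map_pow]
    congr 1
    exact hg (p.coeff i)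
  have h2 : eval₂ (algebraMap (Algebra.adjoin R0 (φ '' s)) F') (φ y) p
      = (φ y) ^ n + ∑ i ∈ Finset.range n, (p.coeff i : F') * (φ y) ^ i := by
    rw [eval₂_eq_sum_range, ← hn, Finset.sum_range_succ, add_comm]
    congr 1
    rw [show p.coeff n = 1 from hp.coeff_natDegree, map_one, one_mul]
  rw [h1, ← h2, hpy]

theorem cheq_isIntegral_map_iff (φ : F →ₐ[R0] F') (hφ : Function.Injective φ) {s : Set F} {y : F} :
    IsIntegral (Algebra.adjoin R0 (φ '' s)) (φ y) ↔ IsIntegral (Algebra.adjoin R0 s) y :=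
  ⟨cheq_isIntegral_of_map φ hφ, cheq_isIntegral_map φ⟩

end Transport


/-! ## the Legendre chart (level 2) -/

section Legendre

variable {R0 F : Type*} [CommRing R0] [CommRing F] [Algebra R0 F]

/-- `J = (h² + 192)³ v²`. -/
theorem cheq_J_eq {h v J : F} (hv : v * (h ^ 2 - 64) = 1)
    (hJ : (h ^ 2 + 192) ^ 3 = J * (h ^ 2 - 64) ^ 2) : J = (h ^ 2 + 192) ^ 3 * v ^ 2 := by
  calc J = J * (v * (h ^ 2 - 64)) ^ 2 := by rw [hv, one_pow, mul_one]
    _ = (J * (h ^ 2 - 64) ^ 2) * v ^ 2 := by ring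
    _ = (h ^ 2 + 192) ^ 3 * v ^ 2 := by rw [hJ]

/-- (3) `J ∈ R0[h, v]`. -/
theorem cheq_J_mem {h v J : F} (hv : v * (h ^ 2 - 64) = 1)
    (hJ : (h ^ 2 + 192) ^ 3 = J * (h ^ 2 - 64) ^ 2) : J ∈ Algebra.adjoin R0 {h, v} := by
  rw [cheq_J_eq hv hJ]
  have hh : h ∈ Algebra.adjoin R0 ({h, v} : Set F) := Algebra.subset_adjoin (by simp)
  have hvm : v ∈ Algebra.adjoin R0 ({h, v} : Set F) := Algebra.subset_adjoin (by simp)
  have h192 : (192 : F) ∈ Algebra.adjoin R0 ({h, v} : Set F) := by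
    have : (192 : F) = algebraMap R0 F 192 := (map_ofNat (algebraMap R0 F) 192).symm
    rw [this]; exact Subalgebra.algebraMap_mem _ _
  exact Subalgebra.mul_mem _
    (Subalgebra.pow_mem _ (Subalgebra.add_mem _ (Subalgebra.pow_mem _ hh 2) h192) 3)
    (Subalgebra.pow_mem _ hvm 2)

/-- (1) `h` is integral over `R0[J]`: root of the monic sextic `(X²+192)³ - J (X²-64)²`. -/
theorem cheq_isIntegral_h [Nontrivial F] {h J : F}
    (hJ : (h ^ 2 + 192) ^ 3 = J * (h ^ 2 - 64) ^ 2) : IsIntegral (Algebra.adjoin R0 {J}) h := by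
  haveI : Nontrivial (Algebra.adjoin R0 ({J} : Set F)) := inferInstance
  set S := Algebra.adjoin R0 ({J} : Set F) with hS
  set Jm : S := ⟨J, Algebra.subset_adjoin (Set.mem_singleton J)⟩ with hJm
  set p : S[X] := (X ^ 2 + C 192) ^ 3 - C Jm * (X ^ 2 - C 64) ^ 2 with hp
  have hdeg : (C Jm * (X ^ 2 - C 64) ^ 2 : S[X]).degree < (((X : S[X]) ^ 2 + C 192) ^ 3).degree := by
    have h1 : ((X : S[X]) ^ 2 + C 192).Monic := monic_X_pow_add_C _ (by norm_num)
    have h2 : ((X : S[X]) ^ 2 - C 64).Monic := monic_X_pow_sub_C _ (by norm_num)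
    have d1 : (((X : S[X]) ^ 2 + C 192) ^ 3).degree = ((6 : ℕ) : WithBot ℕ) := by
      rw [degree_eq_natDegree (h1.pow 3).ne_zero, h1.natDegree_pow,
        natDegree_X_pow_add_C]
    have d2 : ((C Jm * (X ^ 2 - C 64) ^ 2 : S[X])).degree ≤ ((4 : ℕ) : WithBot ℕ) := by
      refine degree_le_of_natDegree_le ((natDegree_C_mul_le _ _).trans ?_)
      rw [h2.natDegree_pow, natDegree_X_pow_sub_C]
    rw [d1]
    exact lt_of_le_of_lt d2 (by exact_mod_cast (by norm_num : (4 : ℕ) < 6))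
  have hmonic : p.Monic := by
    rw [hp]
    exact Monic.sub_of_left ((monic_X_pow_add_C _ (by norm_num)).pow 3) hdeg
  refine ⟨p, hmonic, ?_⟩
  have hJm' : (algebraMap S F) Jm = J := rfl
  simp only [hp, eval₂_sub, eval₂_mul, eval₂_pow, eval₂_add, eval₂_X, eval₂_C, map_ofNat, eval₂_ofNat]
  rw [hJ]
  exact sub_eq_zero.2 (by rw [show (algebraMap (Algebra.adjoin R0 ({J} : Set F)) F) Jm = J from rfl])

/-- (2) `v = (h² - 64)⁻¹` is integral over `R0[J]` (`2` invertible): `u = 256 v` is a root of the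
monic cubic `(X+1)³ - (J/256) X`. -/
theorem cheq_isIntegral_v [Nontrivial F] (h2 : IsUnit (2 : R0)) {h v J : F}
    (hv : v * (h ^ 2 - 64) = 1) (hJ : (h ^ 2 + 192) ^ 3 = J * (h ^ 2 - 64) ^ 2) :
    IsIntegral (Algebra.adjoin R0 {J}) v := by
  obtain ⟨t, ht⟩ := h2.exists_right_inv   -- 2 * t = 1
  set S := Algebra.adjoin R0 ({J} : Set F) with hS
  set Jm : S := ⟨J, Algebra.subset_adjoin (Set.mem_singleton J)⟩ with hJm
  -- c = 1/256 in F, coming from R0
  set c : F := algebraMap R0 F (t ^ 8) with hc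
  have hc256 : (256 : F) * c = 1 := by
    have : (256 : R0) * t ^ 8 = 1 := by
      have : (256 : R0) * t ^ 8 = (2 * t) ^ 8 := by ring
      rw [this, ht, one_pow]
    have h' := congrArg (algebraMap R0 F) this
    rw [map_mul, map_ofNat, map_one] at h'
    exact h'
  -- the key relation  J v = (256 v + 1)^3
  have hkey : J * v = (256 * v + 1) ^ 3 := by
    have e1 : h ^ 2 * v = 64 * v + 1 := by linear_combination hv
    have e2 : (h ^ 2 + 192) * v = 256 * v + 1 := by linear_combination e1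
    calc J * v = (J * (h ^ 2 - 64) ^ 2) * v ^ 2 * v := by
            have : J * v = J * (v * (h ^ 2 - 64)) ^ 2 * v := by rw [hv, one_pow, mul_one]
            rw [this]; ring
      _ = (h ^ 2 + 192) ^ 3 * v ^ 3 := by rw [← hJ]; ring
      _ = ((h ^ 2 + 192) * v) ^ 3 := by ring
      _ = (256 * v + 1) ^ 3 := by rw [e2]
  -- u = 256 v is integral over S
  have hu : IsIntegral S (256 * v) := by
    set cm : S := algebraMap R0 S (t ^ 8) with hcm
    set p : S[X] := (X + C 1) ^ 3 - C (cm * Jm) * X with hp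
    have hdeg : (C (cm * Jm) * X : S[X]).degree < (((X : S[X]) + C 1) ^ 3).degree := by
      have h1 : ((X : S[X]) + C 1).Monic := monic_X_add_C 1
      have d1 : (((X : S[X]) + C 1) ^ 3).degree = ((3 : ℕ) : WithBot ℕ) := by
        rw [degree_eq_natDegree (h1.pow 3).ne_zero, h1.natDegree_pow, natDegree_X_add_C]
      have d2 : ((C (cm * Jm) * X : S[X])).degree ≤ ((1 : ℕ) : WithBot ℕ) := by
        refine degree_le_of_natDegree_le ((natDegree_C_mul_le _ _).trans ?_)
        rw [natDegree_X]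
      rw [d1]
      exact lt_of_le_of_lt d2 (by exact_mod_cast (by norm_num : (1 : ℕ) < 3))
    have hmonic : p.Monic := by
      rw [hp]; exact Monic.sub_of_left ((monic_X_add_C 1).pow 3) hdeg
    refine ⟨p, hmonic, ?_⟩
    have hcm' : (algebraMap S F) cm = c := by
      rw [hcm, hc, ← IsScalarTower.algebraMap_apply]
    have hJm' : (algebraMap S F) Jm = J := rfl
    simp only [hp, eval₂_sub, eval₂_mul, eval₂_pow, eval₂_add, eval₂_X, eval₂_C, map_one, map_mul,
      eval₂_one, hcm', hJm']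
    have : c * J * (256 * v) = (256 * c) * (J * v) := by ring
    rw [this, hc256, one_mul, hkey, sub_self]
  -- v = c * (256 v)
  have hvc : v = c * (256 * v) := by
    calc v = (256 * c) * v := by rw [hc256, one_mul]
      _ = c * (256 * v) := by ring
  rw [hvc]
  have hcint : IsIntegral S c := by
    have : c = algebraMap S F (algebraMap R0 S (t ^ 8)) := by
      rw [hc, ← IsScalarTower.algebraMap_apply]
    rw [this]; exact isIntegral_algebraMap
  exact hcint.mul hu

/-- (4) the two charts `R0[h, v]` and `R0[J]` have the same integral elements. -/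
theorem cheq_isIntegral_iff [Nontrivial F] (h2 : IsUnit (2 : R0)) {h v J : F}
    (hv : v * (h ^ 2 - 64) = 1) (hJ : (h ^ 2 + 192) ^ 3 = J * (h ^ 2 - 64) ^ 2) (y : F) :
    IsIntegral (Algebra.adjoin R0 {h, v}) y ↔ IsIntegral (Algebra.adjoin R0 {J}) y := by
  refine cheq_isIntegral_iff_of_charts (cheq_J_mem hv hJ) ?_ y
  intro x hx
  rcases hx with rfl | hx
  · exact cheq_isIntegral_h hJ
  · rw [Set.mem_singleton_iff] at hx
    rw [hx]; exact cheq_isIntegral_v h2 hv hJ

end Legendre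

section LegendreField

variable {R0 F : Type*} [CommRing R0] [Field F] [Algebra R0 F]

/-- field form of (1)-(4): `h² ≠ 64`, `J := (h²+192)³/(h²-64)²`, `v := (h²-64)⁻¹`. -/
theorem cheq_field_isIntegral_h {h : F} (hh : h ^ 2 ≠ 64) :
    IsIntegral (Algebra.adjoin R0 {(h ^ 2 + 192) ^ 3 / (h ^ 2 - 64) ^ 2}) h := by
  have hne : h ^ 2 - 64 ≠ 0 := sub_ne_zero.2 hh
  exact cheq_isIntegral_h (by field_simp)

theorem cheq_field_isIntegral_inv (h2 : IsUnit (2 : R0)) {h : F} (hh : h ^ 2 ≠ 64) :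
    IsIntegral (Algebra.adjoin R0 {(h ^ 2 + 192) ^ 3 / (h ^ 2 - 64) ^ 2}) (h ^ 2 - 64)⁻¹ := by
  have hne : h ^ 2 - 64 ≠ 0 := sub_ne_zero.2 hh
  exact cheq_isIntegral_v h2 (inv_mul_cancel₀ hne) (by field_simp)

theorem cheq_field_J_mem {h : F} (hh : h ^ 2 ≠ 64) :
    (h ^ 2 + 192) ^ 3 / (h ^ 2 - 64) ^ 2 ∈ Algebra.adjoin R0 {h, (h ^ 2 - 64)⁻¹} := by
  have hne : h ^ 2 - 64 ≠ 0 := sub_ne_zero.2 hh
  exact cheq_J_mem (inv_mul_cancel₀ hne) (by field_simp)

theorem cheq_field_isIntegral_iff (h2 : IsUnit (2 : R0)) {h : F} (hh : h ^ 2 ≠ 64) (y : F) :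
    IsIntegral (Algebra.adjoin R0 {h, (h ^ 2 - 64)⁻¹}) y ↔
      IsIntegral (Algebra.adjoin R0 {(h ^ 2 + 192) ^ 3 / (h ^ 2 - 64) ^ 2}) y := by
  have hne : h ^ 2 - 64 ≠ 0 := sub_ne_zero.2 hh
  exact cheq_isIntegral_iff h2 (inv_mul_cancel₀ hne) (by field_simp) y

end LegendreField


/-! ## the Hesse chart (level 3) -/

section Hesse

variable {R0 F : Type*} [CommRing R0] [CommRing F] [Algebra R0 F]

/-- `J = μ³ (μ³ + 216)³ w³`. -/
theorem cheq3_J_eq {μ w J : F} (hw : w * (μ ^ 3 - 27) = 1)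
    (hJ : μ ^ 3 * (μ ^ 3 + 216) ^ 3 = J * (μ ^ 3 - 27) ^ 3) :
    J = μ ^ 3 * (μ ^ 3 + 216) ^ 3 * w ^ 3 := by
  calc J = J * (w * (μ ^ 3 - 27)) ^ 3 := by rw [hw, one_pow, mul_one]
    _ = (J * (μ ^ 3 - 27) ^ 3) * w ^ 3 := by ring
    _ = μ ^ 3 * (μ ^ 3 + 216) ^ 3 * w ^ 3 := by rw [hJ]

/-- `J ∈ R0[μ, w]`. -/
theorem cheq3_J_mem {μ w J : F} (hw : w * (μ ^ 3 - 27) = 1)
    (hJ : μ ^ 3 * (μ ^ 3 + 216) ^ 3 = J * (μ ^ 3 - 27) ^ 3) : J ∈ Algebra.adjoin R0 {μ, w} := by
  rw [cheq3_J_eq hw hJ]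
  have hm : μ ∈ Algebra.adjoin R0 ({μ, w} : Set F) := Algebra.subset_adjoin (by simp)
  have hwm : w ∈ Algebra.adjoin R0 ({μ, w} : Set F) := Algebra.subset_adjoin (by simp)
  have h216 : (216 : F) ∈ Algebra.adjoin R0 ({μ, w} : Set F) := by
    have : (216 : F) = algebraMap R0 F 216 := (map_ofNat (algebraMap R0 F) 216).symm
    rw [this]; exact Subalgebra.algebraMap_mem _ _
  exact Subalgebra.mul_mem _ (Subalgebra.mul_mem _ (Subalgebra.pow_mem _ hm 3)
    (Subalgebra.pow_mem _ (Subalgebra.add_mem _ (Subalgebra.pow_mem _ hm 3) h216) 3))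
    (Subalgebra.pow_mem _ hwm 3)

/-- `μ` is integral over `R0[J]`: root of the monic `X³ (X³+216)³ - J (X³-27)³` (degree 12). -/
theorem cheq3_isIntegral_mu [Nontrivial F] {μ J : F}
    (hJ : μ ^ 3 * (μ ^ 3 + 216) ^ 3 = J * (μ ^ 3 - 27) ^ 3) :
    IsIntegral (Algebra.adjoin R0 {J}) μ := by
  haveI : Nontrivial (Algebra.adjoin R0 ({J} : Set F)) := inferInstance
  set S := Algebra.adjoin R0 ({J} : Set F) with hS
  set Jm : S := ⟨J, Algebra.subset_adjoin (Set.mem_singleton J)⟩ with hJm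
  set p : S[X] := X ^ 3 * (X ^ 3 + C 216) ^ 3 - C Jm * (X ^ 3 - C 27) ^ 3 with hp
  have h0 : ((X : S[X]) ^ 3).Monic := monic_X_pow 3
  have h1 : ((X : S[X]) ^ 3 + C 216).Monic := monic_X_pow_add_C _ (by norm_num)
  have h2 : ((X : S[X]) ^ 3 - C 27).Monic := monic_X_pow_sub_C _ (by norm_num)
  have hlead : ((X : S[X]) ^ 3 * (X ^ 3 + C 216) ^ 3).Monic := h0.mul (h1.pow 3)
  have hdeg : (C Jm * (X ^ 3 - C 27) ^ 3 : S[X]).degree
      < ((X : S[X]) ^ 3 * (X ^ 3 + C 216) ^ 3).degree := by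
    have d1 : ((X : S[X]) ^ 3 * (X ^ 3 + C 216) ^ 3).natDegree = 12 := by
      rw [h0.natDegree_mul (h1.pow 3), natDegree_X_pow, h1.natDegree_pow, natDegree_X_pow_add_C]
    have d2 : ((C Jm * (X ^ 3 - C 27) ^ 3 : S[X])).natDegree ≤ 9 := by
      refine (natDegree_C_mul_le _ _).trans ?_
      rw [h2.natDegree_pow, natDegree_X_pow_sub_C]
    refine degree_lt_degree ?_
    rw [d1]; exact lt_of_le_of_lt d2 (by norm_num)
  have hmonic : p.Monic := by rw [hp]; exact Monic.sub_of_left hlead hdeg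
  refine ⟨p, hmonic, ?_⟩
  simp only [hp, eval₂_sub, eval₂_mul, eval₂_pow, eval₂_add, eval₂_X, eval₂_C, map_ofNat,
    eval₂_ofNat]
  rw [hJ]
  exact sub_eq_zero.2 (by rw [show (algebraMap (Algebra.adjoin R0 ({J} : Set F)) F) Jm = J from rfl])

/-- `w = (μ³ - 27)⁻¹` is integral over `R0[J]` (`3` invertible): `u = 243 w` is a root of the
monic quartic `(X+9)(X+1)³ - (J/27) X`. -/
theorem cheq3_isIntegral_w [Nontrivial F] (h3 : IsUnit (3 : R0)) {μ w J : F}
    (hw : w * (μ ^ 3 - 27) = 1) (hJ : μ ^ 3 * (μ ^ 3 + 216) ^ 3 = J * (μ ^ 3 - 27) ^ 3) :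
    IsIntegral (Algebra.adjoin R0 {J}) w := by
  obtain ⟨t, ht⟩ := h3.exists_right_inv   -- 3 * t = 1
  haveI : Nontrivial (Algebra.adjoin R0 ({J} : Set F)) := inferInstance
  set S := Algebra.adjoin R0 ({J} : Set F) with hS
  set Jm : S := ⟨J, Algebra.subset_adjoin (Set.mem_singleton J)⟩ with hJm
  set c27 : F := algebraMap R0 F (t ^ 3) with hc27
  set c243 : F := algebraMap R0 F (t ^ 5) with hc243
  have h27 : (27 : F) * c27 = 1 := by
    have : (27 : R0) * t ^ 3 = 1 := by
      have : (27 : R0) * t ^ 3 = (3 * t) ^ 3 := by ring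
      rw [this, ht, one_pow]
    have h' := congrArg (algebraMap R0 F) this
    rw [map_mul, map_ofNat, map_one] at h'
    exact h'
  have h243 : (243 : F) * c243 = 1 := by
    have : (243 : R0) * t ^ 5 = 1 := by
      have : (243 : R0) * t ^ 5 = (3 * t) ^ 5 := by ring
      rw [this, ht, one_pow]
    have h' := congrArg (algebraMap R0 F) this
    rw [map_mul, map_ofNat, map_one] at h'
    exact h'
  -- the key relation  J w = (27 w + 1) (243 w + 1)^3
  have hkey : J * w = (27 * w + 1) * (243 * w + 1) ^ 3 := by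
    have e1 : μ ^ 3 * w = 27 * w + 1 := by linear_combination hw
    have e2 : (μ ^ 3 + 216) * w = 243 * w + 1 := by linear_combination e1
    calc J * w = (J * (μ ^ 3 - 27) ^ 3) * w ^ 3 * w := by
            have : J * w = J * (w * (μ ^ 3 - 27)) ^ 3 * w := by rw [hw, one_pow, mul_one]
            rw [this]; ring
      _ = (μ ^ 3 * w) * ((μ ^ 3 + 216) * w) ^ 3 := by rw [← hJ]; ring
      _ = (27 * w + 1) * (243 * w + 1) ^ 3 := by rw [e1, e2]
  -- u = 243 w is integral over S
  have hu : IsIntegral S (243 * w) := by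
    set cm : S := algebraMap R0 S (t ^ 3) with hcm
    set p : S[X] := (X + C 9) * (X + C 1) ^ 3 - C (cm * Jm) * X with hp
    have h1 : ((X : S[X]) + C 9).Monic := monic_X_add_C 9
    have h2 : ((X : S[X]) + C 1).Monic := monic_X_add_C 1
    have hlead : (((X : S[X]) + C 9) * (X + C 1) ^ 3).Monic := h1.mul (h2.pow 3)
    have hdeg : (C (cm * Jm) * X : S[X]).degree < (((X : S[X]) + C 9) * (X + C 1) ^ 3).degree := by
      have d1 : (((X : S[X]) + C 9) * (X + C 1) ^ 3).natDegree = 4 := by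
        rw [h1.natDegree_mul (h2.pow 3), natDegree_X_add_C, h2.natDegree_pow, natDegree_X_add_C]
      have d2 : ((C (cm * Jm) * X : S[X])).natDegree ≤ 1 := by
        refine (natDegree_C_mul_le _ _).trans ?_
        rw [natDegree_X]
      refine degree_lt_degree ?_
      rw [d1]; exact lt_of_le_of_lt d2 (by norm_num)
    have hmonic : p.Monic := by rw [hp]; exact Monic.sub_of_left hlead hdeg
    refine ⟨p, hmonic, ?_⟩
    have hcm' : (algebraMap S F) cm = c27 := by
      rw [hcm, hc27, ← IsScalarTower.algebraMap_apply]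
    have hJm' : (algebraMap S F) Jm = J := rfl
    simp only [hp, eval₂_sub, eval₂_mul, eval₂_pow, eval₂_add, eval₂_X, eval₂_C, map_one, map_mul,
      eval₂_one, map_ofNat, eval₂_ofNat, hcm', hJm']
    -- (243 w + 9)(243 w + 1)^3 = 9 (27 w + 1)(243 w+1)^3 = 9 J w ; c27 * J * 243 w = 9 J w
    have e9 : (243 : F) * w + 9 = 9 * (27 * w + 1) := by ring
    have : c27 * J * (243 * w) = (27 * c27) * (9 * (J * w)) := by ring
    rw [this, h27, one_mul, hkey, e9]
    ring
  have hwc : w = c243 * (243 * w) := by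
    calc w = (243 * c243) * w := by rw [h243, one_mul]
      _ = c243 * (243 * w) := by ring
  rw [hwc]
  have hcint : IsIntegral S c243 := by
    have : c243 = algebraMap S F (algebraMap R0 S (t ^ 5)) := by
      rw [hc243, ← IsScalarTower.algebraMap_apply]
    rw [this]; exact isIntegral_algebraMap
  exact hcint.mul hu

/-- the two charts `R0[μ, w]` and `R0[J]` have the same integral elements. -/
theorem cheq3_isIntegral_iff [Nontrivial F] (h3 : IsUnit (3 : R0)) {μ w J : F}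
    (hw : w * (μ ^ 3 - 27) = 1) (hJ : μ ^ 3 * (μ ^ 3 + 216) ^ 3 = J * (μ ^ 3 - 27) ^ 3) (y : F) :
    IsIntegral (Algebra.adjoin R0 {μ, w}) y ↔ IsIntegral (Algebra.adjoin R0 {J}) y := by
  refine cheq_isIntegral_iff_of_charts (cheq3_J_mem hw hJ) ?_ y
  intro x hx
  rcases hx with rfl | hx
  · exact cheq3_isIntegral_mu hJ
  · rw [Set.mem_singleton_iff] at hx
    rw [hx]; exact cheq3_isIntegral_w h3 hw hJ

end Hesse

section HesseField

variable {R0 F : Type*} [CommRing R0] [Field F] [Algebra R0 F]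

theorem cheq3_field_isIntegral_mu {μ : F} (hμ : μ ^ 3 ≠ 27) :
    IsIntegral (Algebra.adjoin R0 {μ ^ 3 * (μ ^ 3 + 216) ^ 3 / (μ ^ 3 - 27) ^ 3}) μ := by
  have hne : μ ^ 3 - 27 ≠ 0 := sub_ne_zero.2 hμ
  exact cheq3_isIntegral_mu (by field_simp)

theorem cheq3_field_isIntegral_inv (h3 : IsUnit (3 : R0)) {μ : F} (hμ : μ ^ 3 ≠ 27) :
    IsIntegral (Algebra.adjoin R0 {μ ^ 3 * (μ ^ 3 + 216) ^ 3 / (μ ^ 3 - 27) ^ 3})
      (μ ^ 3 - 27)⁻¹ := by
  have hne : μ ^ 3 - 27 ≠ 0 := sub_ne_zero.2 hμ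
  exact cheq3_isIntegral_w h3 (inv_mul_cancel₀ hne) (by field_simp)

theorem cheq3_field_J_mem {μ : F} (hμ : μ ^ 3 ≠ 27) :
    μ ^ 3 * (μ ^ 3 + 216) ^ 3 / (μ ^ 3 - 27) ^ 3 ∈ Algebra.adjoin R0 {μ, (μ ^ 3 - 27)⁻¹} := by
  have hne : μ ^ 3 - 27 ≠ 0 := sub_ne_zero.2 hμ
  exact cheq3_J_mem (inv_mul_cancel₀ hne) (by field_simp)

theorem cheq3_field_isIntegral_iff (h3 : IsUnit (3 : R0)) {μ : F} (hμ : μ ^ 3 ≠ 27) (y : F) :
    IsIntegral (Algebra.adjoin R0 {μ, (μ ^ 3 - 27)⁻¹}) y ↔
      IsIntegral (Algebra.adjoin R0 {μ ^ 3 * (μ ^ 3 + 216) ^ 3 / (μ ^ 3 - 27) ^ 3}) y := by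
  have hne : μ ^ 3 - 27 ≠ 0 := sub_ne_zero.2 hμ
  exact cheq3_isIntegral_iff h3 (inv_mul_cancel₀ hne) (by field_simp) y

end HesseField

/-! ## the abstract modular-equation chart -/

section ModEq

variable {R0 F : Type*} [CommRing R0] [CommRing F] [Algebra R0 F]

/-- a monic two-variable relation `Φ(a; b) = 0` makes `b` integral over `R0[a]`. -/
theorem cheq_isIntegral_of_monic_relation [Nontrivial F] {a b : F} (Φ : R0[X][X]) (hΦ : Φ.Monic)
    (h : Φ.eval₂ (Polynomial.aeval (R := R0) a).toRingHom b = 0) :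
    IsIntegral (Algebra.adjoin R0 {a}) b := by
  set S := Algebra.adjoin R0 ({a} : Set F) with hS
  let θ : R0[X] →+* S :=
    ((Polynomial.aeval (R := R0) a).codRestrict S
      (fun p => Polynomial.aeval_mem_adjoin_singleton R0 a)).toRingHom
  refine ⟨Φ.map θ, hΦ.map θ, ?_⟩
  rw [eval₂_map]
  have hcomp : (algebraMap S F).comp θ = (Polynomial.aeval (R := R0) a).toRingHom := by
    ext x <;> rfl
  rw [hcomp, h]

/-- if `a`, `b` are integral over each other's chart, the charts `R0[a]`, `R0[b]` have the same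
integral elements. -/
theorem cheq_isIntegral_iff_of_mutual {a b : F}
    (hab : IsIntegral (Algebra.adjoin R0 {a}) b) (hba : IsIntegral (Algebra.adjoin R0 {b}) a)
    (y : F) : IsIntegral (Algebra.adjoin R0 {b}) y ↔ IsIntegral (Algebra.adjoin R0 {a}) y := by
  have hself : ∀ c : F, IsIntegral (Algebra.adjoin R0 {c}) c := fun c => by
    have : c = algebraMap (Algebra.adjoin R0 ({c} : Set F)) F
        ⟨c, Algebra.subset_adjoin (Set.mem_singleton c)⟩ := rfl
    rw [this]; exact isIntegral_algebraMap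
  have hle_a : Algebra.adjoin R0 ({a} : Set F) ≤ Algebra.adjoin R0 ({a, b} : Set F) :=
    Algebra.adjoin_mono (by intro x hx; rw [Set.mem_singleton_iff] at hx; simp [hx])
  have hle_b : Algebra.adjoin R0 ({b} : Set F) ≤ Algebra.adjoin R0 ({a, b} : Set F) :=
    Algebra.adjoin_mono (by intro x hx; rw [Set.mem_singleton_iff] at hx; simp [hx])
  constructor
  · intro hy
    refine cheq_isIntegral_trans hle_a ?_ (cheq_isIntegral_mono hle_b hy)
    intro x hx
    rcases hx with rfl | hx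
    · exact hself _
    · rw [Set.mem_singleton_iff] at hx; rw [hx]; exact hab
  · intro hy
    refine cheq_isIntegral_trans hle_b ?_ (cheq_isIntegral_mono hle_a hy)
    intro x hx
    rcases hx with rfl | hx
    · exact hba
    · rw [Set.mem_singleton_iff] at hx; rw [hx]; exact hself _

/-- modular-equation form: one monic `Φ` with `Φ(a; b) = 0` and `Φ(b; a) = 0`. -/
theorem cheq_isIntegral_iff_of_modEq [Nontrivial F] {a b : F} (Φ : R0[X][X]) (hΦ : Φ.Monic)
    (h1 : Φ.eval₂ (Polynomial.aeval (R := R0) a).toRingHom b = 0)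
    (h2 : Φ.eval₂ (Polynomial.aeval (R := R0) b).toRingHom a = 0) (y : F) :
    IsIntegral (Algebra.adjoin R0 {b}) y ↔ IsIntegral (Algebra.adjoin R0 {a}) y :=
  cheq_isIntegral_iff_of_mutual (cheq_isIntegral_of_monic_relation Φ hΦ h1)
    (cheq_isIntegral_of_monic_relation Φ hΦ h2) y

end ModEq

end Fermat.Agent.S18x
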