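/-
S18x/ChartEqJ (helper42, row N6c; prefix `cheqj_`): the charts `R[j(q)]` and `R[j(q^p)]`
(`p` prime) of a ring of Laurent series have the same integral elements: modular polynomial `Φ_p`
(monic in both variables, S28x `mpcf_exists_modPoly_ring`) + `S18x/ChartEq`.
Versions: in `LaurentSeries R`, and inside any intermediate field `E` of `K((q))/K`.
-/
import Fermat.Agent.S18x.ChartEq
import Fermat.Agent.S28x.ModPolyConsFinal

set_option autoImplicit false
set_option linter.style.haveILetI false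

namespace Fermat.Agent.S18x

open Polynomial ModularCurve

/-- `j(q^p)` is integral over `R[j(q)]`. -/
theorem cheqj_isIntegral_jqp (R : Type*) [CommRing R] [Nontrivial R] (p : ℕ) [hp : Fact p.Prime] :
    haveI : NeZero p := ⟨hp.out.ne_zero⟩
    IsIntegral (Algebra.adjoin R {jqModC R}) (qExpand R p (jqModC R)) := by
  haveI : NeZero p := ⟨hp.out.ne_zero⟩
  obtain ⟨Φ, hΦ, -, h1, -⟩ := Fermat.Agent.S28x.mpcf_exists_modPoly_ring R p
  exact cheq_isIntegral_of_monic_relation Φ hΦ h1

/-- `j(q)` is integral over `R[j(q^p)]`. -/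
theorem cheqj_isIntegral_jq (R : Type*) [CommRing R] [Nontrivial R] (p : ℕ) [hp : Fact p.Prime] :
    haveI : NeZero p := ⟨hp.out.ne_zero⟩
    IsIntegral (Algebra.adjoin R {qExpand R p (jqModC R)}) (jqModC R) := by
  haveI : NeZero p := ⟨hp.out.ne_zero⟩
  obtain ⟨Φ, hΦ, -, -, h2⟩ := Fermat.Agent.S28x.mpcf_exists_modPoly_ring R p
  exact cheq_isIntegral_of_monic_relation Φ hΦ h2

/-- (5) the charts `R[j(q^p)]` and `R[j(q)]` have the same integral elements in `R((q))`. -/
theorem cheqj_isIntegral_iff (R : Type*) [CommRing R] [Nontrivial R] (p : ℕ) [hp : Fact p.Prime]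
    (y : LaurentSeries R) :
    haveI : NeZero p := ⟨hp.out.ne_zero⟩
    IsIntegral (Algebra.adjoin R {qExpand R p (jqModC R)}) y ↔
      IsIntegral (Algebra.adjoin R {jqModC R}) y := by
  haveI : NeZero p := ⟨hp.out.ne_zero⟩
  exact cheq_isIntegral_iff_of_mutual (cheqj_isIntegral_jqp R p) (cheqj_isIntegral_jq R p) y

/-- (5), inside an intermediate field `E` of `K((q))/K` containing `j(q)` and `j(q^p)`. -/
theorem cheqj_isIntegral_iff_intermediateField (K : Type*) [Field K] (p : ℕ) [hp : Fact p.Prime]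
    (E : IntermediateField K (LaurentSeries K))
    (hj : jqModC K ∈ E)
    (hjp : haveI : NeZero p := ⟨hp.out.ne_zero⟩; qExpand K p (jqModC K) ∈ E) (y : E) :
    haveI : NeZero p := ⟨hp.out.ne_zero⟩
    IsIntegral (Algebra.adjoin K {(⟨qExpand K p (jqModC K), hjp⟩ : E)}) y ↔
      IsIntegral (Algebra.adjoin K {(⟨jqModC K, hj⟩ : E)}) y := by
  haveI : NeZero p := ⟨hp.out.ne_zero⟩
  have hinj : Function.Injective (E.val : E →ₐ[K] LaurentSeries K) := Subtype.val_injective
  have e1 := cheq_isIntegral_map_iff (R0 := K) E.val hinj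
    (s := {(⟨qExpand K p (jqModC K), hjp⟩ : E)}) (y := y)
  have e2 := cheq_isIntegral_map_iff (R0 := K) E.val hinj
    (s := {(⟨jqModC K, hj⟩ : E)}) (y := y)
  rw [Set.image_singleton] at e1 e2
  rw [← e1, ← e2]
  exact cheqj_isIntegral_iff K p (E.val y)

end Fermat.Agent.S18x
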