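import Mathlib
import Fermat.Agent.S18x.PuriRing

/-!
# S18x / PUR instantiation (5): `B₀ = ℤ_(ℓ)[h, 1/c(h)]` inside the Gauss ring

For `h ∈ gaussRing ℓ` with reduction `h̄ = ρ h`, and `c : ℤ[X]` with `c(h̄) ≠ 0`:
* `puri_B0_mem_gaussRing`: `B₀ ⊆ gaussRing ℓ`;
* `puri_rho_evW`: `ρ(a(h)) = ā(h̄)` for `a ∈ ℤ_(ℓ)[X]`;
* `puri_B0_dvd_of_rho_eq_zero`: if `h̄` is transcendental over `𝔽_ℓ`, an element of `B₀` with zero
  reduction is divisible by `ℓ` in `B₀`.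
-/

set_option autoImplicit false
set_option linter.style.haveILetI false
set_option linter.unusedSectionVars false

noncomputable section

namespace Fermat.Agent.S18x

open Polynomial Fermat.Agent.S28x ModularCurve

variable (ℓ : ℕ) [Fact ℓ.Prime]

/-- an element of the Gauss ring with non-zero reduction is a unit. -/
theorem puri_inv_mem_gaussRing {x : LaurentSeries ℚ} (hx : x ∈ gaussRing ℓ)
    (hρ : rho ℓ ⟨x, hx⟩ ≠ 0) : x⁻¹ ∈ gaussRing ℓ := by
  obtain ⟨u, v, hu, huv⟩ := mem_gaussRing_iff.mp hx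
  rw [rho_eq ℓ ⟨x, hx⟩ hu huv] at hρ
  have hv : red ℓ v ≠ 0 := fun h => hρ (by rw [h, zero_div])
  have hx0 : x ≠ 0 := by
    rintro rfl
    rw [mul_zero] at huv
    have : v = 0 := toQ_injective ℓ (by rw [← huv, map_zero])
    exact hv (by rw [this, map_zero])
  refine ⟨v, u, hv, ?_⟩
  rw [← huv, mul_assoc, mul_inv_cancel₀ hx0, mul_one]

/-- constants `ℤ_(ℓ) → W`. -/
def puri_cstW : ZL ℓ →+* gaussRing ℓ :=
  ((toQ ℓ).comp HahnSeries.C).codRestrict (gaussRing ℓ) (fun _ => toQ_mem_gaussRing ℓ _)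

theorem puri_rho_cstW (z : ZL ℓ) : rho ℓ (puri_cstW ℓ z) = HahnSeries.C (resZL ℓ z) := by
  have h1 : puri_cstW ℓ z = ⟨toQ ℓ (HahnSeries.C z), toQ_mem_gaussRing ℓ _⟩ := rfl
  rw [h1, rho_toQ, red, HahnSeries.C_apply, coeffMap_single, HahnSeries.C_apply]

variable {ℓ} {h : LaurentSeries ℚ} (hh : h ∈ gaussRing ℓ)

/-- evaluation `ℤ_(ℓ)[X] → W`, `X ↦ h`. -/
def puri_evW : (ZL ℓ)[X] →+* gaussRing ℓ := Polynomial.eval₂RingHom (puri_cstW ℓ) ⟨h, hh⟩

theorem puri_evW_C (z : ZL ℓ) : puri_evW hh (C z) = puri_cstW ℓ z := by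
  simp [puri_evW]

theorem puri_evW_X : puri_evW hh X = ⟨h, hh⟩ := by
  simp [puri_evW]

/-- `ρ(a(h)) = ā(h̄)`. -/
theorem puri_rho_evW (a : (ZL ℓ)[X]) :
    rho ℓ (puri_evW hh a) =
      Polynomial.eval₂ (HahnSeries.C.comp (resZL ℓ)) (rho ℓ ⟨h, hh⟩) a := by
  have key : (rho ℓ).comp (puri_evW hh) =
      Polynomial.eval₂RingHom (HahnSeries.C.comp (resZL ℓ)) (rho ℓ ⟨h, hh⟩) := by
    apply Polynomial.ringHom_ext
    · intro z
      rw [RingHom.comp_apply, puri_evW_C, puri_rho_cstW]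
      simp
    · rw [RingHom.comp_apply, puri_evW_X]
      simp
  exact congrArg (fun f => f a) key

/-- the coercion of `a(h) ∈ ℚ(h)` to Laurent series is `puri_evW a`. -/
theorem puri_coe_aeval_ZL (a : (ZL ℓ)[X]) :
    ((aeval (purb_hK h) a : ↥(purb_KY h)) : LaurentSeries ℚ) =
      ((puri_evW hh a : gaussRing ℓ) : LaurentSeries ℚ) := by
  have key : (algebraMap ↥(purb_KY h) (LaurentSeries ℚ)).comp
      ((aeval (purb_hK h) : (ZL ℓ)[X] →ₐ[ZL ℓ] ↥(purb_KY h)) : (ZL ℓ)[X] →+* ↥(purb_KY h)) =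
      (gaussRing ℓ).subtype.comp (puri_evW hh) := by
    apply Polynomial.ringHom_ext
    · intro z
      simp only [RingHom.comp_apply, RingHom.coe_coe, aeval_C, puri_evW_C]
      show ((algebraMap (ZL ℓ) ↥(purb_KY h) z : ↥(purb_KY h)) : LaurentSeries ℚ) =
        toQ ℓ (HahnSeries.C z)
      rw [toQ, HahnSeries.C_apply, coeffMap_single, ← HahnSeries.C_apply]
      have h2 : (algebraMap ↥(purb_KY h) (LaurentSeries ℚ)).comp (algebraMap ℚ ↥(purb_KY h)) =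
          HahnSeries.C := RingHom.ext_rat _ _
      exact congrArg (fun f => f (z : ℚ)) h2
    · simp only [RingHom.comp_apply, RingHom.coe_coe, aeval_X, puri_evW_X]
      rfl
  exact congrArg (fun f => f a) key

variable (c : Polynomial ℤ)

/-- `c(h)` as an element of the Gauss ring. -/
def puri_cW : gaussRing ℓ := Polynomial.eval₂ (Int.castRingHom (gaussRing ℓ)) ⟨h, hh⟩ c

theorem puri_coe_cW :
    ((puri_cW hh c : gaussRing ℓ) : LaurentSeries ℚ) =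
      Polynomial.eval₂ (Int.castRingHom (LaurentSeries ℚ)) h c := by
  have h1 := Polynomial.hom_eval₂ c (Int.castRingHom (gaussRing ℓ)) (gaussRing ℓ).subtype
    (⟨h, hh⟩ : gaussRing ℓ)
  have h2 : (gaussRing ℓ).subtype.comp (Int.castRingHom (gaussRing ℓ)) =
      Int.castRingHom (LaurentSeries ℚ) := RingHom.ext_int _ _
  rw [h2] at h1
  exact h1

theorem puri_coe_cK :
    ((purb_cK h c : ↥(purb_KY h)) : LaurentSeries ℚ) =
      Polynomial.eval₂ (Int.castRingHom (LaurentSeries ℚ)) h c := by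
  rw [purb_cK, aeval_def]
  have h1 := Polynomial.hom_eval₂ c (algebraMap ℤ ↥(purb_KY h))
    (algebraMap ↥(purb_KY h) (LaurentSeries ℚ)) (purb_hK h)
  have h2 : (algebraMap ↥(purb_KY h) (LaurentSeries ℚ)).comp (algebraMap ℤ ↥(purb_KY h)) =
      Int.castRingHom (LaurentSeries ℚ) := RingHom.ext_int _ _
  rw [h2] at h1
  exact h1

theorem puri_rho_cW :
    rho ℓ (puri_cW hh c) =
      Polynomial.eval₂ (Int.castRingHom (LaurentSeries (ZMod ℓ))) (rho ℓ ⟨h, hh⟩) c := by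
  have h1 := Polynomial.hom_eval₂ c (Int.castRingHom (gaussRing ℓ)) (rho ℓ)
    (⟨h, hh⟩ : gaussRing ℓ)
  have h2 : (rho ℓ).comp (Int.castRingHom (gaussRing ℓ)) =
      Int.castRingHom (LaurentSeries (ZMod ℓ)) := RingHom.ext_int _ _
  rw [h2] at h1
  exact h1

/-- transcendence of `h̄` in `eval₂` form, from the `Transcendental` class (any algebra
instance). -/
theorem puri_htrb_of_transcendental [Algebra (ZMod ℓ) (LaurentSeries (ZMod ℓ))]
    {hb : LaurentSeries (ZMod ℓ)} (ht : Transcendental (ZMod ℓ) hb) :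
    ∀ p : (ZMod ℓ)[X],
      Polynomial.eval₂ (HahnSeries.C : ZMod ℓ →+* LaurentSeries (ZMod ℓ)) hb p = 0 → p = 0 := by
  intro p hp
  apply transcendental_iff.mp ht p
  rw [aeval_def]
  have : algebraMap (ZMod ℓ) (LaurentSeries (ZMod ℓ)) = HahnSeries.C := RingHom.ext_zmod _ _
  rw [this]
  exact hp

/-- `c(h̄) ≠ 0` from the transcendence of `h̄` and `ℓ ∤ c`. -/
theorem puri_hcb_of_htrb {hb : LaurentSeries (ZMod ℓ)}
    (htrb : ∀ p : (ZMod ℓ)[X],
      Polynomial.eval₂ (HahnSeries.C : ZMod ℓ →+* LaurentSeries (ZMod ℓ)) hb p = 0 → p = 0)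
    (hlc : ¬ C (ℓ : ℤ) ∣ c) :
    Polynomial.eval₂ (Int.castRingHom (LaurentSeries (ZMod ℓ))) hb c ≠ 0 := by
  intro h0
  apply hlc
  have h1 : Int.castRingHom (LaurentSeries (ZMod ℓ)) =
      (HahnSeries.C : ZMod ℓ →+* LaurentSeries (ZMod ℓ)).comp (Int.castRingHom (ZMod ℓ)) :=
    RingHom.ext_int _ _
  rw [h1, ← Polynomial.eval₂_map] at h0
  have h2 := htrb _ h0
  rw [Polynomial.C_dvd_iff_dvd_coeff]
  intro n
  have h3 := congrArg (fun p => p.coeff n) h2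
  simp only [coeff_map, coeff_zero, eq_intCast] at h3
  exact (ZMod.intCast_zmod_eq_zero_iff_dvd _ _).mp h3

variable (hcb : Polynomial.eval₂ (Int.castRingHom (LaurentSeries (ZMod ℓ))) (rho ℓ ⟨h, hh⟩) c ≠ 0)

include hcb

theorem puri_cK_inv_mem_gaussRing :
    (((purb_cK h c)⁻¹ : ↥(purb_KY h)) : LaurentSeries ℚ) ∈ gaussRing ℓ := by
  push_cast
  rw [puri_coe_cK c, ← puri_coe_cW hh c]
  refine puri_inv_mem_gaussRing ℓ (puri_cW hh c).2 ?_
  rw [Subtype.coe_eta, puri_rho_cW]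
  exact hcb

/-- **(F1)** `B₀ ⊆ gaussRing ℓ`. -/
theorem puri_B0_mem_gaussRing (b : ↥(purb_B0 ℓ h c)) :
    ((b : ↥(purb_KY h)) : LaurentSeries ℚ) ∈ gaussRing ℓ := by
  have hle : purb_B0 ℓ h c ≤
      (gaussRing ℓ).comap (algebraMap ↥(purb_KY h) (LaurentSeries ℚ)) := by
    rw [purb_B0, Subring.closure_le]
    rintro x (⟨z, rfl⟩ | hx | hx)
    · show ((algebraMap ℚ ↥(purb_KY h) (z : ℚ) : ↥(purb_KY h)) : LaurentSeries ℚ) ∈ gaussRing ℓ
      have h2 : (algebraMap ↥(purb_KY h) (LaurentSeries ℚ)).comp (algebraMap ℚ ↥(purb_KY h)) =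
          HahnSeries.C := RingHom.ext_rat _ _
      have h3 : ((algebraMap ℚ ↥(purb_KY h) (z : ℚ) : ↥(purb_KY h)) : LaurentSeries ℚ) =
          toQ ℓ (HahnSeries.C z) := by
        rw [toQ, HahnSeries.C_apply, coeffMap_single, ← HahnSeries.C_apply]
        exact congrArg (fun f => f (z : ℚ)) h2
      rw [h3]
      exact toQ_mem_gaussRing ℓ _
    · rw [Set.mem_singleton_iff.mp hx]
      exact hh
    · rw [Set.mem_singleton_iff.mp hx]
      exact puri_cK_inv_mem_gaussRing hh c hcb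
  exact hle b.2

variable (htr : Transcendental ℚ h) (hc : c ≠ 0)
  (htrb : ∀ p : (ZMod ℓ)[X],
    Polynomial.eval₂ (HahnSeries.C : ZMod ℓ →+* LaurentSeries (ZMod ℓ)) (rho ℓ ⟨h, hh⟩) p = 0 →
      p = 0)

include htr hc htrb

/-- **(F3)** an element of `B₀` with zero reduction is divisible by `ℓ` in `B₀`. -/
theorem puri_B0_dvd_of_rho_eq_zero (b : ↥(purb_B0 ℓ h c))
    (hb0 : rho ℓ ⟨((b : ↥(purb_KY h)) : LaurentSeries ℚ),
      puri_B0_mem_gaussRing hh c hcb b⟩ = 0) :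
    (ℓ : ↥(purb_B0 ℓ h c)) ∣ b := by
  obtain ⟨β, hbβ⟩ : ∃ β, b = puri_equiv ℓ c htr hc β :=
    ⟨(puri_equiv ℓ c htr hc).symm b, by simp⟩
  obtain ⟨⟨a, s⟩, has⟩ := IsLocalization.surj (Submonoid.powers (puri_c ℓ c)) β
  obtain ⟨s, k, rfl⟩ := s
  have has' : β * algebraMap (ZL ℓ)[X] (pur_Base (puri_c ℓ c)) (puri_c ℓ c ^ k) =
      algebraMap (ZL ℓ)[X] (pur_Base (puri_c ℓ c)) a := has
  have h1 := congrArg (puri_eval ℓ c htr hc) has'
  rw [map_mul, puri_eval_algebraMap, puri_eval_algebraMap, map_pow, puri_aeval_c] at h1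
  have h2 : (⟨((b : ↥(purb_KY h)) : LaurentSeries ℚ), puri_B0_mem_gaussRing hh c hcb b⟩ :
      gaussRing ℓ) * puri_cW hh c ^ k = puri_evW hh a := by
    apply Subtype.ext
    push_cast
    rw [puri_coe_cW, ← puri_coe_cK, ← puri_coe_aeval_ZL hh a, ← h1, hbβ, puri_equiv_coe]
    push_cast
    rfl
  have h3 := congrArg (rho ℓ) h2
  rw [map_mul, hb0, zero_mul, puri_rho_evW] at h3
  have h4 : a.map (resZL ℓ) = 0 := htrb _ (by rw [Polynomial.eval₂_map]; exact h3.symm)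
  have h5 : C (ℓ : ZL ℓ) ∣ a := by
    rw [Polynomial.C_dvd_iff_dvd_coeff]
    intro n
    have h6 := congrArg (fun p => p.coeff n) h4
    simp only [coeff_map, coeff_zero] at h6
    obtain ⟨b', hb'⟩ := (gr_resZL_eq_zero_iff ℓ _).mp h6
    exact ⟨b', hb'⟩
  obtain ⟨a', rfl⟩ := h5
  have hunit : IsUnit (algebraMap (ZL ℓ)[X] (pur_Base (puri_c ℓ c)) (puri_c ℓ c ^ k)) :=
    IsLocalization.map_units (pur_Base (puri_c ℓ c))
      (⟨puri_c ℓ c ^ k, k, rfl⟩ : Submonoid.powers (puri_c ℓ c))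
  obtain ⟨u, hu⟩ := hunit
  have h6 : β = algebraMap (ZL ℓ)[X] (pur_Base (puri_c ℓ c)) (C (ℓ : ZL ℓ)) *
      (algebraMap (ZL ℓ)[X] (pur_Base (puri_c ℓ c)) a' * ↑u⁻¹) := by
    rw [← mul_assoc, ← map_mul, ← has', ← hu, mul_assoc, Units.mul_inv, mul_one]
  rw [hbβ, h6, map_mul, puri_equiv_l]
  exact Dvd.intro _ rfl

end Fermat.Agent.S18x
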