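/-
S18x/NrmChartGen (helper10, block NRM, rows NOdd/NTwo; prefix `nrmc_`): GENERIC chart facts for the
consumer subring `S` of `nry_main` / `nryg_main` (helper94); coordinate-free (no `X₃`, no `μ`).

* base change: `y` integral over `ℚ[s]` in `ℚ((q))` ⇒ `coeffEmb L y` integral over
  `L[coeffEmb L '' s]` in `L((q))` (`nrmc_isIntegral_coeffEmb`);
* descent to the subtype `FBar M`: `y ∈ F_M(ℚ)` integral over `ℚ[j]` ⇒ `coeffEmb ℚ̄ y`, as an
  element of `FBar M`, is integral over `ℚ̄[jBar M]` (`nrmc_isIntegral_FBar`);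
* `B₀ = ℤ_(ℓ)[h, 1/c(h)] ⊆ ℚ[h, 1/c(h)]` (`nrmc_B0_mem_adjoin`), hence every element of
  `R_Y = purb_RY` is integral over `ℚ[h, 1/c(h)]` (`nrmc_RY_isIntegral`), generic in `(ℓ,e,h,c,N)`;
  `h`, `1/c(h)` and `R_Y` lie in `purb_LY` (`nrmc_h_mem_LY`, `nrmc_cinv_mem_LY`).
`c(h)` is written `nry_cval c h` (helper94, `S18x/NrmYDefs.lean`).
-/
import Fermat.Agent.S18x.ChartEq
import Fermat.Agent.S18x.NrmYDefs
import Fermat.Agent.S18x.PuriGauss
import Fermat.Agent.S24x.AlgDefs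

set_option autoImplicit false
set_option linter.style.haveILetI false
set_option linter.unusedSectionVars false

namespace Fermat.Agent.S18x

open ModularCurve HahnSeries Polynomial Fermat.Agent.S24x Fermat.Agent.S28x

noncomputable section

/-! ### base change of integrality along `coeffEmb` -/

section BaseChange

variable (L : Type*) [Field L] [Algebra ℚ L]

theorem nrmc_coeffEmb_algebraMap (r : ℚ) :
    coeffEmb L (algebraMap ℚ (LaurentSeries ℚ) r) =
      algebraMap L (LaurentSeries L) (algebraMap ℚ L r) := by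
  rw [algebraMap_laurentSeries_eq_single, algebraMap_laurentSeries_eq_single, coeffEmb,
    coeffMap_single]

theorem nrmc_coeffEmb_mem_adjoin {s : Set (LaurentSeries ℚ)} {x : LaurentSeries ℚ}
    (hx : x ∈ Algebra.adjoin ℚ s) : coeffEmb L x ∈ Algebra.adjoin L (coeffEmb L '' s) := by
  induction hx using Algebra.adjoin_induction with
  | mem x hx => exact Algebra.subset_adjoin ⟨x, hx, rfl⟩
  | algebraMap r =>
    rw [nrmc_coeffEmb_algebraMap]
    exact Subalgebra.algebraMap_mem _ _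
  | add x y _ _ hx hy => rw [map_add]; exact Subalgebra.add_mem _ hx hy
  | mul x y _ _ hx hy => rw [map_mul]; exact Subalgebra.mul_mem _ hx hy

/-- `coeffEmb` restricted to `ℚ[s] → L[coeffEmb '' s]`. -/
def nrmc_coeffEmbRestrict (s : Set (LaurentSeries ℚ)) :
    Algebra.adjoin ℚ s →+* Algebra.adjoin L (coeffEmb L '' s) where
  toFun x := ⟨coeffEmb L x, nrmc_coeffEmb_mem_adjoin L x.2⟩
  map_one' := Subtype.ext (map_one (coeffEmb L))
  map_mul' a b := Subtype.ext (map_mul (coeffEmb L) (a : LaurentSeries ℚ) b)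
  map_zero' := Subtype.ext (map_zero (coeffEmb L))
  map_add' a b := Subtype.ext (map_add (coeffEmb L) (a : LaurentSeries ℚ) b)

/-- integrality over `ℚ[s]` base-changes to integrality over `L[coeffEmb '' s]`. -/
theorem nrmc_isIntegral_coeffEmb {s : Set (LaurentSeries ℚ)} {y : LaurentSeries ℚ}
    (hy : IsIntegral (Algebra.adjoin ℚ s) y) :
    IsIntegral (Algebra.adjoin L (coeffEmb L '' s)) (coeffEmb L y) :=
  IsIntegral.map_of_comp_eq (nrmc_coeffEmbRestrict L s) (coeffEmb L) (by ext x; rfl) hy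

/-- the case of the chart `ℚ[j]`. -/
theorem nrmc_isIntegral_coeffEmb_jq {y : LaurentSeries ℚ}
    (hy : IsIntegral (Algebra.adjoin ℚ ({jq} : Set (LaurentSeries ℚ))) y) :
    IsIntegral (Algebra.adjoin L ({jqModC L} : Set (LaurentSeries L))) (coeffEmb L y) := by
  have h1 := nrmc_isIntegral_coeffEmb L hy
  rw [Set.image_singleton] at h1
  have h2 : coeffEmb L jq = jqModC L := by
    rw [coeffEmb, ← jqModC_rat, coeffMap_jqModC]
  rwa [h2] at h1

end BaseChange

/-! ### descent to the subtype `FBar M` -/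

section FBarDescent

variable (M : ℕ) [NeZero M]

theorem nrmc_coe_jBar :
    ((jBar M : FBar M) : LaurentSeries (AlgebraicClosure ℚ)) = jqModC (AlgebraicClosure ℚ) := by
  rw [coe_jBar, coeffEmb, ← jqModC_rat, coeffMap_jqModC]

/-- an element `z` of `FBar M` whose series is integral over `ℚ̄[j]` (in `ℚ̄((q))`) is integral over
`ℚ̄[jBar M]` (in `FBar M`). -/
theorem nrmc_isIntegral_FBar_of_series {z : LaurentSeries (AlgebraicClosure ℚ)}
    (hz : z ∈ modularFunctionFieldBar M)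
    (hint : IsIntegral (Algebra.adjoin (AlgebraicClosure ℚ)
      ({jqModC (AlgebraicClosure ℚ)} : Set (LaurentSeries (AlgebraicClosure ℚ)))) z) :
    IsIntegral (Algebra.adjoin (AlgebraicClosure ℚ) ({jBar M} : Set (FBar M)))
      (⟨z, hz⟩ : FBar M) := by
  refine cheq_isIntegral_of_map (R0 := AlgebraicClosure ℚ) (modularFunctionFieldBar M).val
    Subtype.val_injective ?_
  rw [Set.image_singleton]
  show IsIntegral (Algebra.adjoin (AlgebraicClosure ℚ)
    ({((jBar M : FBar M) : LaurentSeries (AlgebraicClosure ℚ))} :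
      Set (LaurentSeries (AlgebraicClosure ℚ)))) z
  rw [nrmc_coe_jBar]
  exact hint

/-- an element of `F_M(ℚ)` integral over `ℚ[j]` gives an element of `FBar M` integral over
`ℚ̄[jBar M]`. -/
theorem nrmc_isIntegral_FBar {y : LaurentSeries ℚ} (hy : y ∈ modularFunctionFieldFull M)
    (hint : IsIntegral (Algebra.adjoin ℚ ({jq} : Set (LaurentSeries ℚ))) y) :
    IsIntegral (Algebra.adjoin (AlgebraicClosure ℚ) ({jBar M} : Set (FBar M)))
      (⟨coeffEmb (AlgebraicClosure ℚ) y,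
        coeffEmb_mem_laurentBaseChange (AlgebraicClosure ℚ) hy⟩ : FBar M) :=
  nrmc_isIntegral_FBar_of_series M _ (nrmc_isIntegral_coeffEmb_jq (AlgebraicClosure ℚ) hint)

end FBarDescent

/-! ### `B₀` and `R_Y` versus the chart `ℚ[h, 1/c(h)]` -/

section Chart

variable (ℓ e : ℕ) [NeZero e] (h : LaurentSeries ℚ) (c : Polynomial ℤ) (N : ℕ) [NeZero N]

theorem nrmc_coe_cK : ((purb_cK h c : ↥(purb_KY h)) : LaurentSeries ℚ) = nry_cval c h := by
  rw [nry_cval, ← puri_coe_cK]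

theorem nrmc_coe_cK_inv :
    (((purb_cK h c)⁻¹ : ↥(purb_KY h)) : LaurentSeries ℚ) = (nry_cval c h)⁻¹ := by
  rw [← nrmc_coe_cK]
  rfl

/-- the coercion `K_Y → ℚ((q))` as a ring hom. -/
def nrmc_valKY : ↥(purb_KY h) →+* LaurentSeries ℚ where
  toFun x := x
  map_one' := rfl
  map_mul' _ _ := rfl
  map_zero' := rfl
  map_add' _ _ := rfl

/-- the coercion `F_Y → ℚ((q))` as a ring hom. -/
def nrmc_valLY : ↥(purb_LY e h N) →+* LaurentSeries ℚ where
  toFun x := x
  map_one' := rfl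
  map_mul' _ _ := rfl
  map_zero' := rfl
  map_add' _ _ := rfl

theorem nrmc_B0_mem_adjoin (b : ↥(purb_B0 ℓ h c)) :
    ((b : ↥(purb_KY h)) : LaurentSeries ℚ) ∈
      Algebra.adjoin ℚ ({h, (nry_cval c h)⁻¹} : Set (LaurentSeries ℚ)) := by
  have hle : purb_B0 ℓ h c ≤
      Subring.comap (nrmc_valKY h)
        (Algebra.adjoin ℚ ({h, (nry_cval c h)⁻¹} : Set (LaurentSeries ℚ))).toSubring := by
    rw [purb_B0, Subring.closure_le]
    rintro x (⟨z, rfl⟩ | rfl | hx)
    · show ((algebraMap ℚ ↥(purb_KY h) (z : ℚ) : ↥(purb_KY h)) : LaurentSeries ℚ) ∈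
        Algebra.adjoin ℚ ({h, (nry_cval c h)⁻¹} : Set (LaurentSeries ℚ))
      have h1 : ((algebraMap ℚ ↥(purb_KY h) (z : ℚ) : ↥(purb_KY h)) : LaurentSeries ℚ) =
          algebraMap ℚ (LaurentSeries ℚ) (z : ℚ) :=
        DFunLike.congr_fun (RingHom.ext_rat ((nrmc_valKY h).comp (algebraMap ℚ ↥(purb_KY h)))
          (algebraMap ℚ (LaurentSeries ℚ))) (z : ℚ)
      rw [h1]
      exact Subalgebra.algebraMap_mem
        (Algebra.adjoin ℚ ({h, (nry_cval c h)⁻¹} : Set (LaurentSeries ℚ))) (z : ℚ)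
    · show h ∈ Algebra.adjoin ℚ ({h, (nry_cval c h)⁻¹} : Set (LaurentSeries ℚ))
      exact Algebra.subset_adjoin (by simp)
    · rw [Set.mem_singleton_iff] at hx
      subst hx
      show (((purb_cK h c)⁻¹ : ↥(purb_KY h)) : LaurentSeries ℚ) ∈
        Algebra.adjoin ℚ ({h, (nry_cval c h)⁻¹} : Set (LaurentSeries ℚ))
      rw [nrmc_coe_cK_inv]
      exact Algebra.subset_adjoin (by simp)
  exact hle b.2

/-- the ring hom `B₀ → ℚ[h, 1/c(h)]`. -/
def nrmc_B0ToAdjoin :
    ↥(purb_B0 ℓ h c) →+* Algebra.adjoin ℚ ({h, (nry_cval c h)⁻¹} : Set (LaurentSeries ℚ)) where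
  toFun b := ⟨((b : ↥(purb_KY h)) : LaurentSeries ℚ), nrmc_B0_mem_adjoin ℓ h c b⟩
  map_one' := rfl
  map_mul' _ _ := rfl
  map_zero' := rfl
  map_add' _ _ := rfl

/-- every element of `R_Y` is integral over `ℚ[h, 1/c(h)]` (in `ℚ((q))`). -/
theorem nrmc_RY_isIntegral (t : ↥(purb_RY ℓ e h c N)) :
    IsIntegral (Algebra.adjoin ℚ ({h, (nry_cval c h)⁻¹} : Set (LaurentSeries ℚ)))
      (((t : ↥(purb_LY e h N)) : LaurentSeries ℚ)) := by
  have ht : IsIntegral ↥(purb_B0 ℓ h c) (t : ↥(purb_LY e h N)) := t.2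
  exact IsIntegral.map_of_comp_eq (nrmc_B0ToAdjoin ℓ h c) (nrmc_valLY e h N)
    (by ext b; rfl) ht

theorem nrmc_h_mem_LY : h ∈ purb_LY e h N := purb_KY_le_LY e h N (purb_h_mem_KY h)

theorem nrmc_cinv_mem_LY : (nry_cval c h)⁻¹ ∈ purb_LY e h N := by
  rw [← nrmc_coe_cK_inv]
  exact purb_KY_le_LY e h N ((purb_cK h c)⁻¹ : ↥(purb_KY h)).2

/-- the chart generators are integral over the chart. -/
theorem nrmc_h_isIntegral :
    IsIntegral (Algebra.adjoin ℚ ({h, (nry_cval c h)⁻¹} : Set (LaurentSeries ℚ))) h :=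
  isIntegral_algebraMap (R := Algebra.adjoin ℚ ({h, (nry_cval c h)⁻¹} : Set (LaurentSeries ℚ)))
    (x := ⟨h, Algebra.subset_adjoin (by simp)⟩)

theorem nrmc_cinv_isIntegral :
    IsIntegral (Algebra.adjoin ℚ ({h, (nry_cval c h)⁻¹} : Set (LaurentSeries ℚ)))
      (nry_cval c h)⁻¹ :=
  isIntegral_algebraMap (R := Algebra.adjoin ℚ ({h, (nry_cval c h)⁻¹} : Set (LaurentSeries ℚ)))
    (x := ⟨(nry_cval c h)⁻¹, Algebra.subset_adjoin (by simp)⟩)

end Chart

end

end Fermat.Agent.S18x
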