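/-
S18x/NrmOddChart (helper10, block NRM, row NOdd; prefix `nrmo_`): the LEGENDRE chart at the
`λ`-line coordinate `X₃` (`ℓ` odd): integrality over `ℚ[X₃, 1/(X₃²-64)]` implies integrality over
`ℚ[j]` (helper42's `cheq_` / `cheqj_` + `purb_X3Q_identity`), and the consequences for the consumer
subring `S = FBar M ∩ (integral over ℚ̄[j])` of `nryg_main`: `X₃`, `1/(X₃²-64)` and all of
`R_Y = purb_RY ℓ 2 X₃ (X²-64) N₀`, base-changed to `ℚ̄`, are integral over `ℚ̄[jBar M]` as soon as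
`purb_LY 2 X₃ N₀ = F_M`.
-/
import Fermat.Agent.S18x.NrmChartGen
import Fermat.Agent.S18x.ChartEqJ
import Fermat.Agent.S18x.LevelYInst

set_option autoImplicit false
set_option linter.style.haveILetI false
set_option linter.unusedSectionVars false

namespace Fermat.Agent.S18x

open ModularCurve HahnSeries Polynomial Fermat.Agent.S24x Fermat.Agent.S28x

noncomputable section

theorem nrmo_cval_X3 : nry_cval purb_c3 purb_X3Q = purb_X3Q ^ 2 - 64 := by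
  rw [nry_cval, purb_c3]
  simp [eval₂_sub, eval₂_pow, eval₂_X]

theorem nrmo_X3_sq_sub_ne_zero : purb_X3Q ^ 2 - 64 ≠ 0 := by
  intro h0
  apply lyn_transcendental_X3Q
  refine ⟨X ^ 2 - Polynomial.C 64, ?_, ?_⟩
  · intro h1
    have h2 := congrArg (fun p : ℚ[X] => p.coeff 2) h1
    simp [coeff_X_pow, Polynomial.coeff_C] at h2
  · simp only [map_sub, map_pow, aeval_X, Polynomial.aeval_C]
    rw [← h0]
    congr 1
    exact (map_ofNat (algebraMap ℚ (LaurentSeries ℚ)) 64)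

/-- the Legendre chart: integrality over `ℚ[X₃, 1/(X₃²-64)]` implies integrality over `ℚ[j]`. -/
theorem nrmo_chart_X3 {y : LaurentSeries ℚ}
    (hy : IsIntegral (Algebra.adjoin ℚ ({purb_X3Q, (nry_cval purb_c3 purb_X3Q)⁻¹} :
      Set (LaurentSeries ℚ))) y) :
    IsIntegral (Algebra.adjoin ℚ ({jq} : Set (LaurentSeries ℚ))) y := by
  rw [nrmo_cval_X3] at hy
  have h1 := (cheq_isIntegral_iff (R0 := ℚ) purb_isUnit_two_rat
    (inv_mul_cancel₀ nrmo_X3_sq_sub_ne_zero) purb_X3Q_identity y).1 hy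
  haveI : Fact (Nat.Prime 2) := ⟨Nat.prime_two⟩
  exact (cheqj_isIntegral_iff ℚ 2 y).1 h1

section Consumer

variable (ℓ : ℕ) (N₀ : ℕ) [NeZero N₀] (M : ℕ) [NeZero M]
  (hLY : purb_LY 2 purb_X3Q N₀ = modularFunctionFieldFull M)

include hLY

/-- `X₃ ∈ F_M`. -/
theorem nrmo_X3_mem : purb_X3Q ∈ modularFunctionFieldFull M := by
  rw [← hLY]; exact nrmc_h_mem_LY 2 purb_X3Q N₀

theorem nrmo_cinv_mem : (nry_cval purb_c3 purb_X3Q)⁻¹ ∈ modularFunctionFieldFull M := by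
  rw [← hLY]; exact nrmc_cinv_mem_LY 2 purb_X3Q purb_c3 N₀

theorem nrmo_RY_mem (t : ↥(purb_RY ℓ 2 purb_X3Q purb_c3 N₀)) :
    ((t : ↥(purb_LY 2 purb_X3Q N₀)) : LaurentSeries ℚ) ∈ modularFunctionFieldFull M := by
  rw [← hLY]; exact (t : ↥(purb_LY 2 purb_X3Q N₀)).2

/-- `X₃` over `ℚ̄` is integral over `ℚ̄[jBar M]`. -/
theorem nrmo_X3_isIntegral_FBar :
    IsIntegral (Algebra.adjoin (AlgebraicClosure ℚ) ({jBar M} : Set (FBar M)))
      (⟨coeffEmb (AlgebraicClosure ℚ) purb_X3Q,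
        coeffEmb_mem_laurentBaseChange (AlgebraicClosure ℚ) (nrmo_X3_mem N₀ M hLY)⟩ : FBar M) :=
  nrmc_isIntegral_FBar M (nrmo_X3_mem N₀ M hLY)
    (nrmo_chart_X3 (nrmc_h_isIntegral purb_X3Q purb_c3))

/-- `1/(X₃²-64)` over `ℚ̄` is integral over `ℚ̄[jBar M]`. -/
theorem nrmo_cinv_isIntegral_FBar :
    IsIntegral (Algebra.adjoin (AlgebraicClosure ℚ) ({jBar M} : Set (FBar M)))
      (⟨coeffEmb (AlgebraicClosure ℚ) (nry_cval purb_c3 purb_X3Q)⁻¹,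
        coeffEmb_mem_laurentBaseChange (AlgebraicClosure ℚ) (nrmo_cinv_mem N₀ M hLY)⟩ : FBar M) :=
  nrmc_isIntegral_FBar M (nrmo_cinv_mem N₀ M hLY)
    (nrmo_chart_X3 (nrmc_cinv_isIntegral purb_X3Q purb_c3))

/-- every element of `R_Y`, over `ℚ̄`, is integral over `ℚ̄[jBar M]`. -/
theorem nrmo_RY_isIntegral_FBar (t : ↥(purb_RY ℓ 2 purb_X3Q purb_c3 N₀)) :
    IsIntegral (Algebra.adjoin (AlgebraicClosure ℚ) ({jBar M} : Set (FBar M)))
      (⟨coeffEmb (AlgebraicClosure ℚ) ((t : ↥(purb_LY 2 purb_X3Q N₀)) : LaurentSeries ℚ),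
        coeffEmb_mem_laurentBaseChange (AlgebraicClosure ℚ) (nrmo_RY_mem ℓ N₀ M hLY t)⟩ : FBar M) :=
  nrmc_isIntegral_FBar M (nrmo_RY_mem ℓ N₀ M hLY t)
    (nrmo_chart_X3 (nrmc_RY_isIntegral ℓ 2 purb_X3Q purb_c3 N₀ t))

end Consumer

end

end Fermat.Agent.S18x
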