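/-
S18 project, row N8d(1) (helper97, prefix `gnf_`): the hypothesis-free NORMAL FORM for the Gauss
valuation ring at an arbitrary level `M`.

For ANY field `L` of characteristic zero, ANY valuation subring `A` of `L`, ANY ring map
`π : A →+* k` to a field and ANY level `M`:

  every `x ≠ 0` of `gi_F L M = laurentBaseChange L (modularFunctionFieldFull M) ⊂ L((q))` is
  `c · u` with `c ∈ Lˣ`, `u ∈ ga_W A π`, `ga_rho u ≠ 0`.

Proof (helper57's Noetherian shortcut, done over `ℤ`): `x = P / Q` with `P, Q` in the `L`-algebra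
`gnf_P` generated by the series with integer coefficients; the coefficients of such a `P` lie in a
finitely generated `ℤ`-submodule of `L`; `ℤ` is Noetherian, so the `ℤ`-span of the coefficients is
generated by finitely many of them, and as `ℤ ⊆ A` one of these finitely many has maximal valuation
among ALL coefficients.  Dividing by it gives a series with coefficients in `A`, one of them `1`.
-/
import Mathlib
import Fermat.Agent.S18x.InstGaussW

set_option autoImplicit false

namespace Fermat.Agent.S18x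

open ModularCurve HahnSeries

noncomputable section

section Core

variable {L : Type*} [Field L]

/-- the `L`-subalgebra of `L((q))` generated by the series with integer coefficients -/
def gnf_P (L : Type*) [Field L] : Subalgebra L (LaurentSeries L) :=
  Algebra.adjoin L (Set.range (coeffMap (Int.castRingHom L)))

theorem gnf_int_mem_P (m : LaurentSeries ℤ) : coeffMap (Int.castRingHom L) m ∈ gnf_P L :=
  Algebra.subset_adjoin ⟨m, rfl⟩

/-- the coefficients of an element of `gnf_P` lie in a finitely generated `ℤ`-submodule of `L` -/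
theorem gnf_coeff_fg {P : LaurentSeries L} (hP : P ∈ gnf_P L) :
    ∃ N0 : Submodule ℤ L, N0.FG ∧ ∀ n, P.coeff n ∈ N0 := by
  unfold gnf_P at hP
  induction hP using Algebra.adjoin_induction with
  | mem x hx =>
    obtain ⟨m, rfl⟩ := hx
    refine ⟨Submodule.span ℤ {1}, Submodule.fg_span_singleton 1, fun n => ?_⟩
    rw [coeffMap_coeff]
    have : (Int.castRingHom L) (m.coeff n) = (m.coeff n) • (1 : L) := by
      rw [zsmul_eq_mul, mul_one]; rfl
    rw [this]
    exact Submodule.smul_mem _ _ (Submodule.mem_span_singleton_self 1)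
  | algebraMap c =>
    refine ⟨Submodule.span ℤ {c}, Submodule.fg_span_singleton c, fun n => ?_⟩
    rw [algebraMap_laurentSeries_eq_single]
    by_cases hn : n = 0
    · subst hn
      rw [coeff_single_same]
      exact Submodule.mem_span_singleton_self c
    · rw [coeff_single_of_ne hn]
      exact zero_mem _
  | add x y _ _ hx hy =>
    obtain ⟨N1, h1, h1'⟩ := hx
    obtain ⟨N2, h2, h2'⟩ := hy
    exact ⟨N1 ⊔ N2, h1.sup h2, fun n => by
      rw [coeff_add]
      exact add_mem (Submodule.mem_sup_left (h1' n)) (Submodule.mem_sup_right (h2' n))⟩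
  | mul x y _ _ hx hy =>
    obtain ⟨N1, h1, h1'⟩ := hx
    obtain ⟨N2, h2, h2'⟩ := hy
    refine ⟨N1 * N2, h1.mul h2, fun n => ?_⟩
    rw [HahnSeries.coeff_mul]
    exact sum_mem fun ij _ => Submodule.mul_mem_mul (h1' _) (h2' _)

variable (A : ValuationSubring L)

/-- **key lemma**: among the coefficients of a non-zero `P ∈ gnf_P` one has maximal valuation. -/
theorem gnf_exists_max {P : LaurentSeries L} (hP : P ∈ gnf_P L) (hP0 : P ≠ 0) :
    ∃ n₀, P.coeff n₀ ≠ 0 ∧ ∀ n, A.valuation (P.coeff n) ≤ A.valuation (P.coeff n₀) := by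
  classical
  obtain ⟨N0, hfg, hN0⟩ := gnf_coeff_fg hP
  have hT : (Submodule.span ℤ (Set.range P.coeff)).FG :=
    hfg.of_le (Submodule.span_le.mpr (by rintro _ ⟨n, rfl⟩; exact hN0 n))
  obtain ⟨s', hs's, hss'⟩ := (Submodule.fg_span_iff_fg_span_finset_subset _).mp hT
  obtain ⟨n1, hn1⟩ : ∃ n, P.coeff n ≠ 0 := by
    by_contra h
    push Not at h
    exact hP0 (HahnSeries.ext (funext h))
  have hne : s'.Nonempty := by
    by_contra h
    rw [Finset.not_nonempty_iff_eq_empty] at h
    have h2 : P.coeff n1 ∈ Submodule.span ℤ (Set.range P.coeff) :=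
      Submodule.subset_span ⟨n1, rfl⟩
    rw [hss', h] at h2
    simp at h2
    exact hn1 h2
  obtain ⟨x₀, hx₀, hmax⟩ := Finset.exists_max_image s' (fun x => A.valuation x) hne
  obtain ⟨n₀, rfl⟩ := hs's hx₀
  have hall : ∀ y ∈ Submodule.span ℤ (↑s' : Set L),
      A.valuation y ≤ A.valuation (P.coeff n₀) := by
    intro y hy
    induction hy using Submodule.span_induction with
    | mem y hy => exact hmax y hy
    | zero => rw [map_zero]; exact zero_le
    | add y z _ _ hy hz => exact (A.valuation.map_add y z).trans (max_le hy hz)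
    | smul z y _ hy =>
      rw [zsmul_eq_mul, map_mul]
      have hz : A.valuation ((z : ℤ) : L) ≤ 1 :=
        (A.valuation_le_one_iff _).mpr (intCast_mem A z)
      exact (mul_le_of_le_one_left' hz).trans hy
  have hcoef : ∀ n, A.valuation (P.coeff n) ≤ A.valuation (P.coeff n₀) := fun n =>
    hall _ (by rw [← hss']; exact Submodule.subset_span ⟨n, rfl⟩)
  refine ⟨n₀, ?_, hcoef⟩
  intro h0
  have h2 := hcoef n1
  rw [h0, map_zero] at h2
  exact hn1 ((map_eq_zero _).mp (le_zero_iff.mp h2))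

/-- a Laurent series all of whose coefficients lie in `A` comes from `A((q))` -/
theorem gnf_mem_range_iota {x : LaurentSeries L} (h : ∀ n, x.coeff n ∈ A) :
    ∃ a : LaurentSeries A, ga_iota A a = x := by
  have hsupp : Function.support (fun n => (⟨x.coeff n, h n⟩ : A)) = x.support := by
    ext n
    simp only [Function.mem_support, ne_eq, HahnSeries.mem_support]
    constructor
    · intro h1 h2
      exact h1 (Subtype.ext h2)
    · intro h1 h2
      exact h1 (congrArg Subtype.val h2)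
  refine ⟨⟨fun n => ⟨x.coeff n, h n⟩, ?_⟩, ?_⟩
  · rw [hsupp]; exact x.isPWO_support
  · ext n; rfl

variable {k : Type*} [Field k] (π : A →+* k)

/-- **Gauss normalisation** of a non-zero element of `gnf_P`. -/
theorem gnf_normalise {P : LaurentSeries L} (hP : P ∈ gnf_P L) (hP0 : P ≠ 0) :
    ∃ c : L, c ≠ 0 ∧ ∃ a : LaurentSeries A, ga_red A π a ≠ 0 ∧
      P = HahnSeries.C c * ga_iota A a := by
  obtain ⟨n₀, hn₀, hmax⟩ := gnf_exists_max A hP hP0
  obtain ⟨c, hc⟩ : ∃ c, c = P.coeff n₀ := ⟨_, rfl⟩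
  rw [← hc] at hn₀ hmax
  have hcoef : ∀ n, (HahnSeries.C c⁻¹ * P).coeff n = c⁻¹ * P.coeff n := by
    intro n
    rw [HahnSeries.C_mul_eq_smul, HahnSeries.coeff_smul, smul_eq_mul]
  have hv0 : A.valuation c ≠ 0 := (Valuation.ne_zero_iff _).mpr hn₀
  have hmem : ∀ n, (HahnSeries.C c⁻¹ * P).coeff n ∈ A := by
    intro n
    rw [hcoef, ← A.valuation_le_one_iff, map_mul, map_inv₀]
    exact (inv_mul_le_one₀ (zero_lt_iff.mpr hv0)).mpr (hmax n)
  obtain ⟨a, ha⟩ := gnf_mem_range_iota A hmem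
  refine ⟨c, hn₀, a, ?_, ?_⟩
  · intro h0
    have h1 := congrArg (fun y : LaurentSeries k => y.coeff n₀) h0
    simp only [ga_red_coeff, HahnSeries.coeff_zero] at h1
    have h2 : a.coeff n₀ = 1 := Subtype.ext (by
      rw [← ga_iota_coeff, ha, hcoef, ← hc]
      exact inv_mul_cancel₀ hn₀)
    rw [h2, map_one] at h1
    exact one_ne_zero h1
  · rw [ha, ← mul_assoc, ← map_mul, mul_inv_cancel₀ hn₀, map_one, one_mul]

end Core

section Quot

variable (L : Type*) [Field L]

/-- quotients `P / Q` with `P, Q ∈ gnf_P`, as a subfield of `L((q))` -/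
def gnf_T : Subfield (LaurentSeries L) where
  carrier := {x | ∃ P ∈ gnf_P L, ∃ Q ∈ gnf_P L, Q ≠ 0 ∧ x * Q = P}
  mul_mem' := by
    rintro x y ⟨P, hP, Q, hQ, hQ0, h⟩ ⟨P', hP', Q', hQ', hQ0', h'⟩
    exact ⟨P * P', mul_mem hP hP', Q * Q', mul_mem hQ hQ', mul_ne_zero hQ0 hQ0', by
      rw [← h, ← h']; ring⟩
  one_mem' := ⟨1, one_mem _, 1, one_mem _, one_ne_zero, one_mul 1⟩
  add_mem' := by
    rintro x y ⟨P, hP, Q, hQ, hQ0, h⟩ ⟨P', hP', Q', hQ', hQ0', h'⟩
    exact ⟨P * Q' + P' * Q, add_mem (mul_mem hP hQ') (mul_mem hP' hQ), Q * Q', mul_mem hQ hQ',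
      mul_ne_zero hQ0 hQ0', by rw [← h, ← h']; ring⟩
  zero_mem' := ⟨0, zero_mem _, 1, one_mem _, one_ne_zero, zero_mul 1⟩
  neg_mem' := by
    rintro x ⟨P, hP, Q, hQ, hQ0, h⟩
    exact ⟨-P, neg_mem hP, Q, hQ, hQ0, by rw [← h]; ring⟩
  inv_mem' := by
    rintro x ⟨P, hP, Q, hQ, hQ0, h⟩
    by_cases hx : x = 0
    · subst hx
      rw [inv_zero]
      exact ⟨0, zero_mem _, 1, one_mem _, one_ne_zero, zero_mul 1⟩
    · have hP0 : P ≠ 0 := by rw [← h]; exact mul_ne_zero hx hQ0
      exact ⟨Q, hQ, P, hP, hP0, by rw [← h]; field_simp⟩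

theorem gnf_mem_T_iff {x : LaurentSeries L} :
    x ∈ gnf_T L ↔ ∃ P ∈ gnf_P L, ∃ Q ∈ gnf_P L, Q ≠ 0 ∧ x * Q = P := Iff.rfl

variable {L} in
theorem gnf_P_le_T {P : LaurentSeries L} (hP : P ∈ gnf_P L) : P ∈ gnf_T L :=
  ⟨P, hP, 1, one_mem _, one_ne_zero, mul_one P⟩

variable [Algebra ℚ L]

/-- base change of a field generated over `ℚ` by integral series lands in `gnf_T` (1) -/
theorem gnf_coeffEmb_mem_T {S₀ : Set (LaurentSeries ℚ)}
    (hS₀ : ∀ s ∈ S₀, ∃ m : LaurentSeries ℤ, s = coeffMap (Int.castRingHom ℚ) m)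
    {y : LaurentSeries ℚ} (hy : y ∈ IntermediateField.adjoin ℚ S₀) :
    coeffEmb L y ∈ gnf_T L := by
  induction hy using IntermediateField.adjoin_induction with
  | mem s hs =>
    obtain ⟨m, rfl⟩ := hS₀ s hs
    rw [coeffEmb, coeffMap_coeffMap]
    have h1 : (algebraMap ℚ L).comp (Int.castRingHom ℚ) = Int.castRingHom L :=
      RingHom.ext_int _ _
    rw [coeffMap_congr h1]
    exact gnf_P_le_T (gnf_int_mem_P m)
  | algebraMap a =>
    rw [algebraMap_laurentSeries_eq_single, coeffEmb, coeffMap_single,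
      ← algebraMap_laurentSeries_eq_single]
    exact gnf_P_le_T (Subalgebra.algebraMap_mem _ _)
  | add x y _ _ hx hy => rw [map_add]; exact add_mem hx hy
  | inv x _ hx => rw [map_inv₀]; exact inv_mem hx
  | mul x y _ _ hx hy => rw [map_mul]; exact mul_mem hx hy

/-- base change of a field generated over `ℚ` by integral series lands in `gnf_T` (2) -/
theorem gnf_baseChange_le_T {S₀ : Set (LaurentSeries ℚ)}
    (hS₀ : ∀ s ∈ S₀, ∃ m : LaurentSeries ℤ, s = coeffMap (Int.castRingHom ℚ) m)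
    {x : LaurentSeries L} (hx : x ∈ laurentBaseChange L (IntermediateField.adjoin ℚ S₀)) :
    x ∈ gnf_T L := by
  unfold laurentBaseChange at hx
  induction hx using IntermediateField.adjoin_induction with
  | mem s hs =>
    obtain ⟨y, hy, rfl⟩ := hs
    exact gnf_coeffEmb_mem_T L hS₀ hy
  | algebraMap a => exact gnf_P_le_T (Subalgebra.algebraMap_mem _ _)
  | add x y _ _ hx hy => exact add_mem hx hy
  | inv x _ hx => exact inv_mem hx
  | mul x y _ _ hx hy => exact mul_mem hx hy

end Quot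

section NormalForm

variable {L : Type*} [Field L] [Algebra ℚ L] (A : ValuationSubring L)
variable {k : Type*} [Field k] (π : A →+* k)

omit [Algebra ℚ L] in
/-- normal form for an element of `gnf_T`, inside `L((q))` -/
theorem gnf_normal_form_T {x : LaurentSeries L} (hx : x ∈ gnf_T L) (hx0 : x ≠ 0) :
    ∃ c : L, c ≠ 0 ∧ ∃ hW : HahnSeries.C c * x ∈ ga_W A π,
      ga_rho A π ⟨HahnSeries.C c * x, hW⟩ ≠ 0 := by
  obtain ⟨P, hP, Q, hQ, hQ0, h⟩ := hx
  have hP0 : P ≠ 0 := by rw [← h]; exact mul_ne_zero hx0 hQ0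
  obtain ⟨cP, hcP, aP, haP, hPe⟩ := gnf_normalise A π hP hP0
  obtain ⟨cQ, hcQ, aQ, haQ, hQe⟩ := gnf_normalise A π hQ hQ0
  have hrel : HahnSeries.C (cQ / cP) * x * ga_iota A aQ = ga_iota A aP := by
    have hCP : (HahnSeries.C cP : LaurentSeries L) ≠ 0 := by
      rw [Ne, map_eq_zero]; exact hcP
    apply mul_left_cancel₀ hCP
    rw [← hPe, ← h, hQe, div_eq_mul_inv, map_mul]
    have h3 : (HahnSeries.C cP : LaurentSeries L) * HahnSeries.C cP⁻¹ = 1 := by
      rw [← map_mul, mul_inv_cancel₀ hcP, map_one]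
    calc HahnSeries.C cP * (HahnSeries.C cQ * HahnSeries.C cP⁻¹ * x * ga_iota A aQ)
        = (HahnSeries.C cP * HahnSeries.C cP⁻¹) * (x * (HahnSeries.C cQ * ga_iota A aQ)) := by
          ring
      _ = x * (HahnSeries.C cQ * ga_iota A aQ) := by rw [h3, one_mul]
  have hW : HahnSeries.C (cQ / cP) * x ∈ ga_W A π := ⟨aP, aQ, haQ, hrel⟩
  refine ⟨cQ / cP, div_ne_zero hcQ hcP, hW, ?_⟩
  rw [ga_rho_eq A π ⟨_, hW⟩ haQ hrel]
  exact div_ne_zero haP haQ

/-- **h-free normal form** for the base change of any field generated over `ℚ` by series with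
integer coefficients. -/
theorem gnf_normal_form_gen {S₀ : Set (LaurentSeries ℚ)}
    (hS₀ : ∀ s ∈ S₀, ∃ m : LaurentSeries ℤ, s = coeffMap (Int.castRingHom ℚ) m)
    (x : laurentBaseChange L (IntermediateField.adjoin ℚ S₀)) (hx : x ≠ 0) :
    ∃ c : L, c ≠ 0 ∧ ∃ u : laurentBaseChange L (IntermediateField.adjoin ℚ S₀),
      ∃ hW : (u : LaurentSeries L) ∈ ga_W A π, ga_rho A π ⟨u, hW⟩ ≠ 0 ∧
        x = algebraMap L (laurentBaseChange L (IntermediateField.adjoin ℚ S₀)) c * u := by
  have hx0 : (x : LaurentSeries L) ≠ 0 := fun h => hx (Subtype.ext h)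
  obtain ⟨c, hc, hW, hρ⟩ := gnf_normal_form_T A π (gnf_baseChange_le_T L hS₀ x.2) hx0
  have hcoe : ((algebraMap L (laurentBaseChange L (IntermediateField.adjoin ℚ S₀)) c * x :
      laurentBaseChange L (IntermediateField.adjoin ℚ S₀)) : LaurentSeries L) =
      HahnSeries.C c * (x : LaurentSeries L) := by
    show algebraMap L (LaurentSeries L) c * (x : LaurentSeries L) = _
    rw [algebraMap_laurentSeries_eq_single, HahnSeries.C_apply]
  refine ⟨c⁻¹, inv_ne_zero hc,
    algebraMap L (laurentBaseChange L (IntermediateField.adjoin ℚ S₀)) c * x, ?_, ?_, ?_⟩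
  · rw [hcoe]; exact hW
  · rw [ga_rho_congr A π hcoe _ hW]; exact hρ
  · rw [← mul_assoc, ← map_mul, inv_mul_cancel₀ hc, map_one, one_mul]

/-- the generators `j(q^d)` have integer coefficients -/
theorem gnf_divisorExpansions_int (M : ℕ) :
    ∀ s ∈ divisorExpansions M, ∃ m : LaurentSeries ℤ, s = coeffMap (Int.castRingHom ℚ) m := by
  rintro s ⟨d, hd, -, rfl⟩
  have := hd
  exact ⟨qExpand ℤ d (jqModC ℤ), by rw [coeffMap_qExpand, coeffMap_jqModC, jqModC_rat]⟩

/-- **N8d(1): the h-free normal form at an arbitrary level `M`** (no hypothesis on `A`, `π`, `M`):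
every non-zero `x` of `gi_F L M` is a constant times an element of the Gauss ring `ga_W A π` with
non-zero residue. -/
theorem gnf_normal_form (M : ℕ) [NeZero M] :
    ∀ x : gi_F L M, x ≠ 0 → ∃ c : L, c ≠ 0 ∧ ∃ u : gi_F L M,
      ∃ hW : (u : LaurentSeries L) ∈ ga_W A π, ga_rho A π ⟨u, hW⟩ ≠ 0 ∧
        x = algebraMap L (gi_F L M) c * u :=
  fun x hx => gnf_normal_form_gen A π (gnf_divisorExpansions_int M) x hx

/-- companion: the inverse of the unit part lies in the Gauss ring too -/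
theorem gnf_normal_form' (M : ℕ) [NeZero M] :
    ∀ x : gi_F L M, x ≠ 0 → ∃ c : L, c ≠ 0 ∧ ∃ u : gi_F L M,
      ∃ hW : (u : LaurentSeries L) ∈ ga_W A π, ga_rho A π ⟨u, hW⟩ ≠ 0 ∧
        ((u⁻¹ : gi_F L M) : LaurentSeries L) ∈ ga_W A π ∧
        x = algebraMap L (gi_F L M) c * u := by
  intro x hx
  obtain ⟨c, hc, u, hW, hρ, hxu⟩ := gnf_normal_form A π M x hx
  exact ⟨c, hc, u, hW, hρ, ga_inv_mem A π hW hρ, hxu⟩

end NormalForm

end

end Fermat.Agent.S18x
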