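/-
S18 project, row N8d (G2), file 1 (helper87, prefix `gwm_`): the `h`-FREE Gauss valuation subring of
`F_M = laurentBaseChange L (modularFunctionFieldFull M)` at an ARBITRARY level `M`
(no `ReductionInputsModL` hypothesis), on top of the normal-form statement `gwm_NF A π M`
(row N8d (G1), helper97: every non-zero `x : F_M` is `c * u`, `c ∈ Lˣ`, `u` in the Gauss ring `ga_W A π`
with non-zero residue).

* `gwm_W hnf : ValuationSubring (gi_F L M)`, carrier `{x | ↑x ∈ ga_W A π}` (the SAME carrier as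
  helper19's `gi_W`, so `W_M ∩ F_N = W_N` is definitional);
* `gwm_rho0 hnf : gwm_W hnf →+* k((q))`, `gwm_ker0` (`ρ x = 0 ↔ x` non-unit), `gwm_rho0_iota`
  (`ρ (ι a) = coeffMap π a` for `a ∈ A((q))`), `gwm_mem_iff`, `gwm_rho0_alg` (constants);
* `gwm_range hnf hπs : IntermediateField k k((q))` (the image of `ρ`), `gwm_Fb_le_range` (ONTO part:
  the image contains `gi_Fb k M = modularFunctionFieldFullC k M`).
The INTO part (`gwm_range ≤ gi_Fb k M`, a degree count) is in `S18x/GaussWM2.lean`.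
-/
import Mathlib
import Fermat.Agent.S18x.InstGaussHyp

set_option autoImplicit false

namespace Fermat.Agent.S18x

open ModularCurve HahnSeries AlgebraicCurve

noncomputable section

section Defs

variable {L : Type*} [Field L] [Algebra ℚ L] (A : ValuationSubring L)
variable {k : Type*} [Field k] (π : A →+* k) (M : ℕ)

/-- NORMAL FORM at level `M` (row N8d (G1)): every non-zero element of `F_M` is a constant times an
element of the Gauss ring with non-zero residue. -/
def gwm_NF : Prop :=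
  ∀ x : gi_F L M, x ≠ 0 → ∃ c : L, c ≠ 0 ∧ ∃ u : gi_F L M,
    ∃ hW : (u : LaurentSeries L) ∈ ga_W A π, ga_rho A π ⟨u, hW⟩ ≠ 0 ∧
      x = algebraMap L (gi_F L M) c * u

end Defs

variable {L : Type*} [Field L] [Algebra ℚ L] {A : ValuationSubring L}
variable {k : Type*} [Field k] {π : A →+* k} {M : ℕ}

/-- the Gauss valuation ring of `F_M` -/
def gwm_W (hnf : gwm_NF A π M) : ValuationSubring (gi_F L M) where
  carrier := {x | (x : LaurentSeries L) ∈ ga_W A π}
  zero_mem' := (ga_W A π).zero_mem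
  one_mem' := (ga_W A π).one_mem
  add_mem' := fun hx hy => (ga_W A π).add_mem hx hy
  mul_mem' := fun hx hy => (ga_W A π).mul_mem hx hy
  neg_mem' := fun hx => (ga_W A π).neg_mem hx
  mem_or_inv_mem' := by
    intro x
    rcases eq_or_ne x 0 with rfl | hx
    · exact Or.inl (ga_W A π).zero_mem
    obtain ⟨c, hc, u, hWu, hρu, rfl⟩ := hnf x hx
    have hWui : ((u⁻¹ : gi_F L M) : LaurentSeries L) ∈ ga_W A π := ga_inv_mem A π hWu hρu
    rcases A.mem_or_inv_mem c with hcA | hcA
    · left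
      show ((algebraMap L (gi_F L M) c * u : gi_F L M) : LaurentSeries L) ∈ ga_W A π
      have : ((algebraMap L (gi_F L M) c * u : gi_F L M) : LaurentSeries L) =
          HahnSeries.C c * (u : LaurentSeries L) := by
        rw [← gi_coe_algebraMap (N := M) c]; rfl
      rw [this]
      exact (ga_W A π).mul_mem (ga_C_mem_W A π ⟨c, hcA⟩) hWu
    · right
      show (((algebraMap L (gi_F L M) c * u)⁻¹ : gi_F L M) : LaurentSeries L) ∈ ga_W A π
      have : (((algebraMap L (gi_F L M) c * u)⁻¹ : gi_F L M) : LaurentSeries L) =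
          HahnSeries.C c⁻¹ * ((u⁻¹ : gi_F L M) : LaurentSeries L) := by
        rw [mul_inv, ← map_inv₀, ← gi_coe_algebraMap (N := M) c⁻¹]; rfl
      rw [this]
      exact (ga_W A π).mul_mem (ga_C_mem_W A π ⟨c⁻¹, hcA⟩) hWui

theorem gwm_mem_W_iff (hnf : gwm_NF A π M) (x : gi_F L M) :
    x ∈ gwm_W hnf ↔ (x : LaurentSeries L) ∈ ga_W A π := Iff.rfl

/-- inclusion `gwm_W → ga_W` -/
def gwm_incl (hnf : gwm_NF A π M) : gwm_W hnf →+* ga_W A π where
  toFun x := ⟨((x : gi_F L M) : LaurentSeries L), x.2⟩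
  map_one' := rfl
  map_mul' _ _ := rfl
  map_zero' := rfl
  map_add' _ _ := rfl

/-- the residue map `W_M → k((q))` (its image is `gi_Fb k M`, see `GaussWM2.lean`) -/
def gwm_rho0 (hnf : gwm_NF A π M) : gwm_W hnf →+* LaurentSeries k :=
  (ga_rho A π).comp (gwm_incl hnf)

theorem gwm_rho0_apply (hnf : gwm_NF A π M) (x : gwm_W hnf) :
    gwm_rho0 hnf x = ga_rho A π ⟨((x : gi_F L M) : LaurentSeries L), x.2⟩ := rfl

/-- the kernel of `ρ` consists of the non-units -/
theorem gwm_ker0 (hnf : gwm_NF A π M) (x : gwm_W hnf) : gwm_rho0 hnf x = 0 ↔ ¬ IsUnit x := by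
  constructor
  · intro h0 hu
    have := hu.map (gwm_rho0 hnf)
    rw [h0] at this
    exact not_isUnit_zero this
  · intro hnu
    by_contra hne
    apply hnu
    have hinv : (((x : gi_F L M)⁻¹ : gi_F L M) : LaurentSeries L) ∈ ga_W A π :=
      ga_inv_mem A π x.2 hne
    have hx0 : (x : gi_F L M) ≠ 0 := by
      intro h
      apply hne
      have : x = 0 := Subtype.ext h
      rw [this, map_zero]
    refine IsUnit.of_mul_eq_one (⟨(x : gi_F L M)⁻¹, hinv⟩ : gwm_W hnf) ?_
    apply Subtype.ext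
    show (x : gi_F L M) * (x : gi_F L M)⁻¹ = 1
    exact mul_inv_cancel₀ hx0

/-- constants: `c ∈ W_M ↔ c ∈ A` -/
theorem gwm_mem_iff (hnf : gwm_NF A π M) (hπu : ∀ a : A, π a ≠ 0 → IsUnit a) (c : L) :
    algebraMap L (gi_F L M) c ∈ gwm_W hnf ↔ c ∈ A := by
  rw [gwm_mem_W_iff, gi_coe_algebraMap]
  exact ⟨ga_mem_of_C_mem A π hπu, fun hc => ga_C_mem_W A π ⟨c, hc⟩⟩

theorem gwm_alg_mem (hnf : gwm_NF A π M) (c : A) : algebraMap L (gi_F L M) (c : L) ∈ gwm_W hnf := by
  rw [gwm_mem_W_iff, gi_coe_algebraMap]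
  exact ga_C_mem_W A π c

/-- `ρ` on constants -/
theorem gwm_rho0_alg (hnf : gwm_NF A π M) (c : A) :
    gwm_rho0 hnf ⟨algebraMap L (gi_F L M) (c : L), gwm_alg_mem hnf c⟩ =
      algebraMap k (LaurentSeries k) (π c) := by
  rw [gwm_rho0_apply, algebraMap_laurentSeries_eq_single, ← HahnSeries.C_apply,
    ← ga_rho_C A π c]
  exact ga_rho_congr A π (gi_coe_algebraMap (N := M) (c : L)) _ _

/-- `ρ` of an element with an honest `A`-integral expansion is the coefficientwise reduction -/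
theorem gwm_rho0_iota (hnf : gwm_NF A π M) (a : LaurentSeries A)
    (hF : coeffMap A.subtype a ∈ gi_F L M) :
    gwm_rho0 hnf ⟨⟨coeffMap A.subtype a, hF⟩, ga_iota_mem_W A π a⟩ = coeffMap π a :=
  ga_rho_iota A π a

/-- variant of `gwm_rho0_iota` with an arbitrary membership proof -/
theorem gwm_rho0_of_eq_iota (hnf : gwm_NF A π M) (x : gwm_W hnf) (a : LaurentSeries A)
    (hx : ((x : gi_F L M) : LaurentSeries L) = coeffMap A.subtype a) :
    gwm_rho0 hnf x = coeffMap π a := by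
  have h := ga_rho_iota A π a
  rw [gwm_rho0_apply]
  exact (ga_rho_congr A π hx x.2 (ga_iota_mem_W A π a)).trans h

/-- the image of `ρ`, as an intermediate field of `k((q))/k` -/
def gwm_range (hnf : gwm_NF A π M) (hπs : Function.Surjective π) :
    IntermediateField k (LaurentSeries k) where
  carrier := {y | ∃ u : gwm_W hnf, gwm_rho0 hnf u = y}
  mul_mem' := by
    rintro _ _ ⟨u, rfl⟩ ⟨v, rfl⟩
    exact ⟨u * v, map_mul _ _ _⟩
  add_mem' := by
    rintro _ _ ⟨u, rfl⟩ ⟨v, rfl⟩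
    exact ⟨u + v, map_add _ _ _⟩
  algebraMap_mem' := by
    intro a
    obtain ⟨c, rfl⟩ := hπs a
    exact ⟨⟨algebraMap L (gi_F L M) (c : L), gwm_alg_mem hnf c⟩, gwm_rho0_alg hnf c⟩
  inv_mem' := by
    rintro _ ⟨u, rfl⟩
    by_cases h0 : gwm_rho0 hnf u = 0
    · refine ⟨0, ?_⟩
      rw [map_zero, h0, inv_zero]
    · have hu : IsUnit u := by
        by_contra hnu
        exact h0 ((gwm_ker0 hnf u).mpr hnu)
      obtain ⟨v, hv⟩ := hu.exists_right_inv
      refine ⟨v, ?_⟩
      have h1 : gwm_rho0 hnf u * gwm_rho0 hnf v = 1 := by rw [← map_mul, hv, map_one]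
      exact eq_inv_of_mul_eq_one_right h1

theorem gwm_mem_range (hnf : gwm_NF A π M) (hπs : Function.Surjective π) {y : LaurentSeries k} :
    y ∈ gwm_range hnf hπs ↔ ∃ u : gwm_W hnf, gwm_rho0 hnf u = y := Iff.rfl

/-- ONTO part: the image of `ρ` contains `k(j̃(q^d) : d ∣ M)` -/
theorem gwm_Fb_le_range (hnf : gwm_NF A π M) (hπs : Function.Surjective π) :
    gi_Fb k M ≤ gwm_range hnf hπs := by
  show modularFunctionFieldFullC k M ≤ gwm_range hnf hπs
  rw [modularFunctionFieldFullC, IntermediateField.adjoin_le_iff]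
  rintro x ⟨d, hne, hdvd, rfl⟩
  have := hne
  have hF : qExpand L d (jqModC L) ∈ gi_F L M := gi_jqd_mem_F hdvd
  have hW : (qExpand L d (jqModC L) : LaurentSeries L) ∈ ga_W A π := by
    rw [← gi_jqd_eq (A := A) d]
    exact ga_iota_mem_W A π _
  refine ⟨⟨⟨qExpand L d (jqModC L), hF⟩, hW⟩, ?_⟩
  rw [gwm_rho0_apply]
  have h3 : (⟨qExpand L d (jqModC L), hW⟩ : ga_W A π) =
      ⟨ga_iota A (qExpand A d (jqModC A)), ga_iota_mem_W A π _⟩ :=
    Subtype.ext (gi_jqd_eq (A := A) d).symm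
  show ga_rho A π ⟨qExpand L d (jqModC L), hW⟩ = _
  rw [h3, ga_rho_iota]
  show coeffMap π (qExpand A d (jqModC A)) = _
  rw [coeffMap_qExpand, coeffMap_jqModC]

end

end Fermat.Agent.S18x
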