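/-
S18x/GaussWMInto (helper81; row N8d-G2 "INTO"): the fundamental inequality for the Gauss valuation
ring `ga_W A π ⊂ L((q))` of a valuation subring `A ⊂ L` (residue map `π : A → k`) relative to the
base fields `L(j) ⊂ L((q))`, `k(j̄) ⊂ k((q))`, and its consequence `ρ(W ∩ F) ⊆ Fb` by the degree
argument.  Prefix `gwmi_`.  Everything is stated on the landed `GaussA` objects `ga_W`, `ga_rho`.

* `gwmi_exists_primitive` : `P ∈ L[X]`, `P ≠ 0` is `c • P₀`, `P₀ ∈ A[X]` with `P̄₀ ≠ 0`;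
* `gwmi_base_nf` : normal form at level one: `0 ≠ x ∈ L(j)` is `c * v`, `v ∈ L(j) ∩ W`,
  `0 ≠ ρ v ∈ k(j̄)`;
* `gwmi_rho_mem_base` : `ρ (W ∩ L(j)) ⊆ k(j̄)`;
* `gwmi_linearIndependent_lift` : elements of `W` whose residues are `k(j̄)`-linearly independent
  are `L(j)`-linearly independent;
* `gwmi_rho_mem_of_degree` : (`F ⊂ L((q))`, `Fb ⊂ k((q))` intermediate fields, `j̄ ∈ Fb`,
  `Fb ⊆ ρ (W ∩ F)`, `[F : L(j)] ≤ d ≤ [Fb : k(j̄)]` in family form)  `ρ (W ∩ F) ⊆ Fb`.
-/
import Mathlib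
import Fermat.Agent.S18x.GaussA
import Fermat.Agent.S28x.StepACore

set_option autoImplicit false

namespace Fermat.Agent.S18x

open ModularCurve HahnSeries Polynomial IntermediateField Fermat.Agent.S28x

noncomputable section

variable {L : Type*} [Field L] (A : ValuationSubring L) {k : Type*} [Field k] (π : A →+* k)

/-! ### generalities on `ga_W`, `ga_rho` -/

theorem gwmi_rho_zero (hW : (0 : LaurentSeries L) ∈ ga_W A π) : ga_rho A π ⟨0, hW⟩ = 0 := by
  have : (⟨0, hW⟩ : ga_W A π) = 0 := rfl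
  rw [this, map_zero]

theorem gwmi_rho_mul {x y : LaurentSeries L} (hx : x ∈ ga_W A π) (hy : y ∈ ga_W A π)
    (hxy : x * y ∈ ga_W A π) :
    ga_rho A π ⟨x * y, hxy⟩ = ga_rho A π ⟨x, hx⟩ * ga_rho A π ⟨y, hy⟩ := by
  rw [← map_mul]
  rfl

theorem gwmi_iota_C (a : A) : ga_iota A (HahnSeries.C a) = HahnSeries.C (a : L) := by
  rw [ga_iota, HahnSeries.C_apply, HahnSeries.C_apply, coeffMap_single]
  rfl

theorem gwmi_red_C (a : A) : ga_red A π (HahnSeries.C a) = HahnSeries.C (π a) := by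
  rw [ga_red, HahnSeries.C_apply, HahnSeries.C_apply, coeffMap_single]

/-- evaluation of an integral polynomial at `j`, in `A((q))`. -/
def gwmi_ev (P : A[X]) : LaurentSeries A := P.eval₂ HahnSeries.C (jqModC A)

theorem gwmi_iota_ev (P : A[X]) :
    ga_iota A (gwmi_ev A P) = aeval (jqModC L) (P.map A.subtype) := by
  rw [gwmi_ev, Polynomial.hom_eval₂, aeval_def, Polynomial.eval₂_map]
  have h1 : (ga_iota A).comp HahnSeries.C = (algebraMap L (LaurentSeries L)).comp A.subtype := by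
    ext a : 1
    rw [RingHom.comp_apply, RingHom.comp_apply, gwmi_iota_C, algebraMap_laurentSeries_eq_single,
      HahnSeries.C_apply]
    rfl
  have h2 : ga_iota A (jqModC A) = jqModC L := coeffMap_jqModC A.subtype
  rw [h1, h2]

theorem gwmi_red_ev (P : A[X]) :
    ga_red A π (gwmi_ev A P) = aeval (jqModC k) (P.map π) := by
  rw [gwmi_ev, Polynomial.hom_eval₂, aeval_def, Polynomial.eval₂_map]
  have h1 : (ga_red A π).comp HahnSeries.C = (algebraMap k (LaurentSeries k)).comp π := by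
    ext a : 1
    rw [RingHom.comp_apply, RingHom.comp_apply, gwmi_red_C, algebraMap_laurentSeries_eq_single,
      HahnSeries.C_apply]
  have h2 : ga_red A π (jqModC A) = jqModC k := coeffMap_jqModC π
  rw [h1, h2]

theorem gwmi_red_ev_ne_zero {P : A[X]} (hP : P.map π ≠ 0) : ga_red A π (gwmi_ev A P) ≠ 0 := by
  rw [gwmi_red_ev]
  intro h
  exact hP ((transcendental_iff.mp (sa_transcendental_jqModC k)) _ h)

/-! ### primitive normalisation of polynomials -/

theorem gwmi_exists_primitive (P : L[X]) (hP : P ≠ 0) :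
    ∃ c : L, c ≠ 0 ∧ ∃ P₀ : A[X], P = Polynomial.C c * P₀.map A.subtype ∧ P₀.map π ≠ 0 := by
  classical
  have hne : P.support.Nonempty := Polynomial.nonempty_support_iff.mpr hP
  obtain ⟨i0, hi0s, hi0⟩ := Finset.exists_max_image P.support
    (fun i => A.valuation (P.coeff i)) hne
  set c : L := P.coeff i0 with hc
  have hc0 : c ≠ 0 := Polynomial.mem_support_iff.mp hi0s
  have hv0 : A.valuation c ≠ 0 := (Valuation.ne_zero_iff _).mpr hc0
  set Q : L[X] := Polynomial.C c⁻¹ * P with hQ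
  have hQc : ∀ i, Q.coeff i = c⁻¹ * P.coeff i := fun i => by rw [hQ, Polynomial.coeff_C_mul]
  have hQA : ∀ i, Q.coeff i ∈ A := by
    intro i
    rw [hQc]
    by_cases hi : i ∈ P.support
    · rw [← ValuationSubring.valuation_le_one_iff, map_mul, map_inv₀]
      rw [inv_mul_le_iff₀ (zero_lt_iff.mpr hv0), mul_one]
      exact hi0 i hi
    · rw [Polynomial.notMem_support_iff.mp hi, mul_zero]
      exact A.zero_mem
  have hsub : (↑Q.coeffs : Set L) ⊆ A.toSubring := by
    intro y hy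
    obtain ⟨n, -, rfl⟩ := Polynomial.mem_coeffs_iff.mp hy
    exact hQA n
  refine ⟨c, hc0, Q.toSubring A.toSubring hsub, ?_, ?_⟩
  · have : (Q.toSubring A.toSubring hsub).map A.subtype = Q := Polynomial.map_toSubring Q _ hsub
    rw [this, hQ, ← mul_assoc, ← Polynomial.C_mul, mul_inv_cancel₀ hc0, Polynomial.C_1, one_mul]
  · intro h0
    have h1 := congrArg (fun R : k[X] => R.coeff i0) h0
    simp only [Polynomial.coeff_map, Polynomial.coeff_zero] at h1
    have h2 : (Q.toSubring A.toSubring hsub).coeff i0 = (1 : A) := by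
      apply Subtype.ext
      rw [Polynomial.coeff_toSubring', hQc, hc]
      exact inv_mul_cancel₀ hc0
    rw [h2, map_one] at h1
    exact one_ne_zero h1

/-! ### level one: normal form and `ρ (W ∩ L(j)) ⊆ k(j̄)` -/

omit A in
theorem gwmi_algebraMap_eq_C (c : L) : algebraMap L (LaurentSeries L) c = HahnSeries.C c := by
  rw [algebraMap_laurentSeries_eq_single, HahnSeries.C_apply]

theorem gwmi_C_mem_adjoin (c : k) : HahnSeries.C c ∈ adjoin k {jqModC k} := by
  rw [← gwmi_algebraMap_eq_C]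
  exact (adjoin k {jqModC k}).algebraMap_mem c

/-- **normal form at level one**: a non-zero element of `L(j)` is a constant times an element of
`L(j) ∩ W` with non-zero residue in `k(j̄)`. -/
theorem gwmi_base_nf (x : LaurentSeries L) (hx : x ∈ adjoin L {jqModC L}) (hx0 : x ≠ 0) :
    ∃ c : L, c ≠ 0 ∧ ∃ v : LaurentSeries L, v ∈ adjoin L {jqModC L} ∧ ∃ hv : v ∈ ga_W A π,
      ga_rho A π ⟨v, hv⟩ ≠ 0 ∧ ga_rho A π ⟨v, hv⟩ ∈ adjoin k {jqModC k} ∧
        x = HahnSeries.C c * v := by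
  obtain ⟨r, s, rfl⟩ := (mem_adjoin_simple_iff L x).mp hx
  have hr0 : r ≠ 0 := by
    rintro rfl
    rw [map_zero, zero_div] at hx0
    exact hx0 rfl
  have hs0 : s ≠ 0 := by
    rintro rfl
    rw [map_zero, div_zero] at hx0
    exact hx0 rfl
  obtain ⟨cr, hcr, R₀, hR, hRπ⟩ := gwmi_exists_primitive A π r hr0
  obtain ⟨cs, hcs, S₀, hS, hSπ⟩ := gwmi_exists_primitive A π s hs0
  have hredR := gwmi_red_ev_ne_zero A π hRπ
  have hredS := gwmi_red_ev_ne_zero A π hSπ
  have hιS : ga_iota A (gwmi_ev A S₀) ≠ 0 := by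
    intro h0
    have : gwmi_ev A S₀ = 0 := ga_iota_injective A (by rw [h0, map_zero])
    exact hredS (by rw [this, map_zero])
  set v : LaurentSeries L := ga_iota A (gwmi_ev A R₀) / ga_iota A (gwmi_ev A S₀) with hvdef
  have hvmul : v * ga_iota A (gwmi_ev A S₀) = ga_iota A (gwmi_ev A R₀) := div_mul_cancel₀ _ hιS
  have hv : v ∈ ga_W A π := ⟨gwmi_ev A R₀, gwmi_ev A S₀, hredS, hvmul⟩
  have hρ : ga_rho A π ⟨v, hv⟩ = ga_red A π (gwmi_ev A R₀) / ga_red A π (gwmi_ev A S₀) :=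
    ga_rho_eq A π ⟨v, hv⟩ hredS hvmul
  refine ⟨cr / cs, div_ne_zero hcr hcs, v, ?_, hv, ?_, ?_, ?_⟩
  · rw [hvdef, gwmi_iota_ev, gwmi_iota_ev]
    exact (mem_adjoin_simple_iff L _).mpr ⟨_, _, rfl⟩
  · rw [hρ]
    exact div_ne_zero hredR hredS
  · rw [hρ, gwmi_red_ev, gwmi_red_ev]
    exact (mem_adjoin_simple_iff k _).mpr ⟨_, _, rfl⟩
  · rw [hvdef, gwmi_iota_ev, gwmi_iota_ev]
    conv_lhs => rw [hR, hS]
    rw [map_mul, map_mul, Polynomial.aeval_C, Polynomial.aeval_C, gwmi_algebraMap_eq_C,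
      gwmi_algebraMap_eq_C, map_div₀]
    have h1 : (HahnSeries.C cs : LaurentSeries L) ≠ 0 := by
      rw [Ne, map_eq_zero]; exact hcs
    have h2 : aeval (jqModC L) (S₀.map A.subtype) ≠ 0 := by
      rw [← gwmi_iota_ev]; exact hιS
    field_simp

/-- scaling by a constant of `A`. -/
theorem gwmi_C_mul_mem {a : L} (ha : a ∈ A) {v : LaurentSeries L} (hv : v ∈ ga_W A π) :
    HahnSeries.C a * v ∈ ga_W A π :=
  (ga_W A π).mul_mem (ga_C_mem_W A π ⟨a, ha⟩) hv

theorem gwmi_rho_C_mul {a : L} (ha : a ∈ A) {v : LaurentSeries L} (hv : v ∈ ga_W A π) :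
    ga_rho A π ⟨HahnSeries.C a * v, gwmi_C_mul_mem A π ha hv⟩ =
      HahnSeries.C (π ⟨a, ha⟩) * ga_rho A π ⟨v, hv⟩ := by
  rw [gwmi_rho_mul A π (ga_C_mem_W A π ⟨a, ha⟩) hv, ga_rho_C]

/-- a non-unit of `A` is killed by `π`. -/
theorem gwmi_pi_eq_zero (hπu : ∀ a : A, π a ≠ 0 → IsUnit a) {c : L} (hc : c ∉ A) :
    ∃ h : c⁻¹ ∈ A, π ⟨c⁻¹, h⟩ = 0 := by
  have hinv : c⁻¹ ∈ A := (A.mem_or_inv_mem c).resolve_left hc
  refine ⟨hinv, ?_⟩
  by_contra hne
  obtain ⟨u, hu⟩ := hπu _ hne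
  apply hc
  have hc0 : c ≠ 0 := fun h => hc (h ▸ A.zero_mem)
  have h1 : ((u⁻¹ : Aˣ) : A) * u = 1 := by simp
  have h2 : (((u⁻¹ : Aˣ) : A) : L) * c⁻¹ = 1 := by
    have := congrArg (Subtype.val) h1
    rw [hu] at this
    simpa using this
  have h3 : c = (((u⁻¹ : Aˣ) : A) : L) := by
    field_simp at h2
    exact h2.symm
  rw [h3]
  exact (((u⁻¹ : Aˣ) : A)).2

/-- **level-one INTO**: the residue of an element of `W ∩ L(j)` lies in `k(j̄)`. -/
theorem gwmi_rho_mem_base (hπu : ∀ a : A, π a ≠ 0 → IsUnit a) (x : LaurentSeries L)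
    (hx : x ∈ adjoin L {jqModC L}) (hW : x ∈ ga_W A π) :
    ga_rho A π ⟨x, hW⟩ ∈ adjoin k {jqModC k} := by
  by_cases hx0 : x = 0
  · subst hx0
    rw [gwmi_rho_zero]
    exact zero_mem _
  obtain ⟨c, hc0, v, -, hv, hρv, hρvmem, rfl⟩ := gwmi_base_nf A π x hx hx0
  by_cases hcA : c ∈ A
  · rw [ga_rho_congr A π rfl hW (gwmi_C_mul_mem A π hcA hv), gwmi_rho_C_mul A π hcA hv]
    exact mul_mem (gwmi_C_mem_adjoin _) hρvmem
  · exfalso
    obtain ⟨hinv, hπ0⟩ := gwmi_pi_eq_zero A π hπu hcA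
    have hveq : v = HahnSeries.C c⁻¹ * (HahnSeries.C c * v) := by
      rw [← mul_assoc, ← map_mul, inv_mul_cancel₀ hc0, map_one, one_mul]
    apply hρv
    rw [ga_rho_congr A π hveq hv (gwmi_C_mul_mem A π hinv hW), gwmi_rho_C_mul A π hinv hW, hπ0,
      map_zero, zero_mul]

/-! ### the fundamental inequality -/

/-- total form of `gwmi_base_nf` (allowing `x = 0`, with `c = 0`). -/
theorem gwmi_base_nf' (x : LaurentSeries L) (hx : x ∈ adjoin L {jqModC L}) :
    ∃ c : L, ∃ v : LaurentSeries L, ∃ hv : v ∈ ga_W A π,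
      ga_rho A π ⟨v, hv⟩ ≠ 0 ∧ ga_rho A π ⟨v, hv⟩ ∈ adjoin k {jqModC k} ∧
        x = HahnSeries.C c * v := by
  by_cases hx0 : x = 0
  · refine ⟨0, 1, (ga_W A π).one_mem, ?_, ?_, ?_⟩
    · have : (⟨1, (ga_W A π).one_mem⟩ : ga_W A π) = 1 := rfl
      rw [this, map_one]
      exact one_ne_zero
    · have : (⟨1, (ga_W A π).one_mem⟩ : ga_W A π) = 1 := rfl
      rw [this, map_one]
      exact one_mem _
    · rw [hx0, map_zero, zero_mul]
  · obtain ⟨c, -, v, -, hv, h1, h2, h3⟩ := gwmi_base_nf A π x hx hx0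
    exact ⟨c, v, hv, h1, h2, h3⟩

/-- **fundamental inequality**: elements of the Gauss ring whose residues are linearly independent
over `k(j̄)` are linearly independent over `L(j)`. -/
theorem gwmi_linearIndependent_lift {ι : Type*} [Fintype ι] (u : ι → LaurentSeries L)
    (hu : ∀ i, u i ∈ ga_W A π)
    (hli : LinearIndependent ↥(adjoin k {jqModC k}) (fun i => ga_rho A π ⟨u i, hu i⟩)) :
    LinearIndependent ↥(adjoin L {jqModC L}) u := by
  classical
  rw [Fintype.linearIndependent_iff]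
  intro g hg
  by_contra hcon
  push Not at hcon
  obtain ⟨i1, hi1⟩ := hcon
  choose c v hvW hρne hρmem hgv using
    fun i => gwmi_base_nf' A π ((g i : ↥(adjoin L {jqModC L})) : LaurentSeries L) (g i).2
  obtain ⟨i0, -, hi0⟩ := Finset.exists_max_image Finset.univ (fun i => A.valuation (c i))
    ⟨i1, Finset.mem_univ _⟩
  have hci1 : c i1 ≠ 0 := by
    intro h0
    apply hi1
    apply Subtype.ext
    rw [hgv i1, h0, map_zero, zero_mul]
    rfl
  have hc0 : c i0 ≠ 0 := by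
    intro h0
    have h1 := hi0 i1 (Finset.mem_univ _)
    rw [h0, map_zero] at h1
    exact hci1 ((Valuation.zero_iff _).mp (le_antisymm h1 zero_le))
  have hv0 : A.valuation (c i0) ≠ 0 := (Valuation.ne_zero_iff _).mpr hc0
  have hcA : ∀ i, c i / c i0 ∈ A := by
    intro i
    rw [← ValuationSubring.valuation_le_one_iff, map_div₀]
    exact (div_le_one₀ (zero_lt_iff.mpr hv0)).mpr (hi0 i (Finset.mem_univ _))
  -- the relation inside `W`
  let bW : ι → ga_W A π := fun i => ⟨HahnSeries.C (c i / c i0) * v i,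
    gwmi_C_mul_mem A π (hcA i) (hvW i)⟩
  let uW : ι → ga_W A π := fun i => ⟨u i, hu i⟩
  have hrel : ∑ i, bW i * uW i = 0 := by
    apply Subtype.ext
    rw [AddSubmonoidClass.coe_finsetSum]
    have h1 : ∀ i, ((bW i * uW i : ga_W A π) : LaurentSeries L) =
        HahnSeries.C (c i0)⁻¹ * (g i • u i) := by
      intro i
      show HahnSeries.C (c i / c i0) * v i * u i = HahnSeries.C (c i0)⁻¹ * (g i • u i)
      rw [Algebra.smul_def]
      have : algebraMap (↥(adjoin L {jqModC L})) (LaurentSeries L) (g i) =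
          HahnSeries.C (c i) * v i := hgv i
      rw [this, div_eq_mul_inv, map_mul]
      ring
    rw [Finset.sum_congr rfl (fun i _ => h1 i), ← Finset.mul_sum, hg, mul_zero]
    rfl
  have hrel2 := congrArg (ga_rho A π) hrel
  rw [map_zero, map_sum] at hrel2
  -- coefficients in `k(j̄)`
  let a : ι → ↥(adjoin k {jqModC k}) := fun i =>
    ⟨HahnSeries.C (π ⟨c i / c i0, hcA i⟩) * ga_rho A π ⟨v i, hvW i⟩,
      mul_mem (gwmi_C_mem_adjoin _) (hρmem i)⟩
  have hrel3 : ∑ i, a i • ga_rho A π ⟨u i, hu i⟩ = 0 := by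
    rw [← hrel2]
    refine Finset.sum_congr rfl fun i _ => ?_
    rw [map_mul, Algebra.smul_def]
    congr 1
    exact (gwmi_rho_C_mul A π (hcA i) (hvW i)).symm
  have ha0 := (Fintype.linearIndependent_iff.mp hli) a hrel3 i0
  apply hρne i0
  have h1 : ((a i0 : ↥(adjoin k {jqModC k})) : LaurentSeries k) = 0 := by rw [ha0]; rfl
  have h2 : (⟨c i0 / c i0, hcA i0⟩ : A) = 1 := by
    apply Subtype.ext
    exact div_self hc0
  simpa [a, h2] using h1

/-! ### the degree argument -/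

/-- an intermediate field `Fb ∋ j̄` of `k((q))`, as a `k(j̄)`-subspace. -/
def gwmi_sub (Fb : IntermediateField k (LaurentSeries k)) (hjb : jqModC k ∈ Fb) :
    Submodule ↥(adjoin k {jqModC k}) (LaurentSeries k) where
  carrier := Fb
  add_mem' := fun ha hb => Fb.add_mem ha hb
  zero_mem' := Fb.zero_mem
  smul_mem' := by
    intro c z hz
    have hle : adjoin k {jqModC k} ≤ Fb :=
      adjoin_le_iff.mpr (Set.singleton_subset_iff.mpr hjb)
    show c • z ∈ Fb
    rw [Algebra.smul_def]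
    exact Fb.mul_mem (hle c.2) hz

/-- **INTO by the degree argument**: if `Fb ⊆ ρ (W ∩ F)`, every `d + 1` elements of `F` are
`L(j)`-dependent and `Fb` contains `d` elements independent over `k(j̄)`, then
`ρ (W ∩ F) ⊆ Fb`. -/
theorem gwmi_rho_mem_of_degree (F : IntermediateField L (LaurentSeries L))
    (Fb : IntermediateField k (LaurentSeries k)) (hjb : jqModC k ∈ Fb) (d : ℕ)
    (hdeg0 : ∀ w : Fin (d + 1) → LaurentSeries L, (∀ i, w i ∈ F) →
      ¬ LinearIndependent ↥(adjoin L {jqModC L}) w)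
    (hdegl : ∃ e : Fin d → LaurentSeries k, (∀ i, e i ∈ Fb) ∧
      LinearIndependent ↥(adjoin k {jqModC k}) e)
    (honto : ∀ y ∈ Fb, ∃ u ∈ F, ∃ hW : u ∈ ga_W A π, ga_rho A π ⟨u, hW⟩ = y)
    (x : LaurentSeries L) (hxF : x ∈ F) (hW : x ∈ ga_W A π) : ga_rho A π ⟨x, hW⟩ ∈ Fb := by
  by_contra hy
  obtain ⟨e, heFb, heli⟩ := hdegl
  choose u huF huW hρu using fun i => honto (e i) (heFb i)
  let w : Fin (d + 1) → LaurentSeries L := Fin.cons x u
  have hwW : ∀ i, w i ∈ ga_W A π := by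
    intro i
    refine Fin.cases ?_ (fun j => ?_) i
    · exact hW
    · exact huW j
  have hwF : ∀ i, w i ∈ F := by
    intro i
    refine Fin.cases ?_ (fun j => ?_) i
    · exact hxF
    · exact huF j
  apply hdeg0 w hwF
  apply gwmi_linearIndependent_lift A π w hwW
  have hres : (fun i => ga_rho A π ⟨w i, hwW i⟩) =
      (Fin.cons (ga_rho A π ⟨x, hW⟩) e : Fin (d + 1) → LaurentSeries k) := by
    funext i
    refine Fin.cases ?_ (fun j => ?_) i
    · rfl
    · exact hρu j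
  rw [hres, linearIndependent_finCons]
  refine ⟨heli, fun hmem => hy ?_⟩
  have hle : Submodule.span ↥(adjoin k {jqModC k}) (Set.range e) ≤ gwmi_sub Fb hjb := by
    rw [Submodule.span_le]
    rintro _ ⟨i, rfl⟩
    exact heFb i
  exact hle hmem

end

end Fermat.Agent.S18x
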