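/-
S18x/GaussWMInto2 (helper81; row N8d-G2 "INTO", part 2): instantiation of `GaussWMInto` at the
modular function fields of level `M`.  Prefix `gwmi_`.

* `gwmi_onto` : (any `L ⊇ ℚ`, `π` surjective) every element of `k(j̃(q^d) : d ∣ M)` is the residue
  of an element of `F_M(L) ∩ W`;
* `gwmi_card_le_Qbar` : a `Q̄(j)`-independent family in `F_M(Q̄)` has at most `ψ(M)` elements
  (S24 degree, via S28x `du78_`);
* `gwmi_exists_family` : `ψ(M)` elements of `F̃_M(k)` independent over `k(j̃)` (`char k = ℓ ∤ M`);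
* `gwmi_rho_mem_levelM` : **INTO** : `ρ (W ∩ F_M(Q̄)) ⊆ F̃_M(k)`;
* `gwmi_card_le_residue`, `gwmi_relfinrank_fullC` : `[F̃_M(k) : k(j̃)] = ψ(M)` exactly.
-/
import Mathlib
import Fermat.Agent.S18x.GaussWMInto
import Fermat.Agent.S18x.LvDegK
import Fermat.Agent.S28x.DegreeUpper78

set_option autoImplicit false
set_option linter.style.haveILetI false

namespace Fermat.Agent.S18x

open ModularCurve HahnSeries Polynomial IntermediateField Fermat.Agent.S28x Fermat.Agent.S24x

noncomputable section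

local notation "Qbar" => AlgebraicClosure ℚ

section Onto

variable {L : Type*} [Field L] [Algebra ℚ L] (A : ValuationSubring L) {k : Type*} [Field k]
  (π : A →+* k)

/-- the generators `j(q^d)` of `F_M(L)` have integral expansions. -/
theorem gwmi_gen_eq (d : ℕ) [NeZero d] :
    coeffEmb L (qExpand ℚ d jq) = ga_iota A (qExpand A d (jqModC A)) := by
  rw [ga_iota, coeffMap_qExpand, coeffMap_jqModC, coeffEmb, ← jqModC_rat, coeffMap_qExpand,
    coeffMap_jqModC]

omit [Algebra ℚ L] in
theorem gwmi_rho_add {x y : LaurentSeries L} (hx : x ∈ ga_W A π) (hy : y ∈ ga_W A π)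
    (hxy : x + y ∈ ga_W A π) :
    ga_rho A π ⟨x + y, hxy⟩ = ga_rho A π ⟨x, hx⟩ + ga_rho A π ⟨y, hy⟩ := by
  rw [← map_add]
  rfl

/-- **raw ONTO**: every element of `F̃_M(k)` is the residue of an element of `F_M(L) ∩ W`. -/
theorem gwmi_onto (hπs : Function.Surjective π) (M : ℕ) [NeZero M] (y : LaurentSeries k)
    (hy : y ∈ modularFunctionFieldFullC k M) :
    ∃ u ∈ laurentBaseChange L (modularFunctionFieldFull M), ∃ hW : u ∈ ga_W A π,
      ga_rho A π ⟨u, hW⟩ = y := by
  unfold modularFunctionFieldFullC at hy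
  induction hy using IntermediateField.adjoin_induction with
  | mem x hx =>
    obtain ⟨d, hd0, hd, rfl⟩ := hx
    have := hd0
    refine ⟨coeffEmb L (qExpand ℚ d jq),
      coeffEmb_mem_laurentBaseChange L (jqd_mem_full M hd), ?_, ?_⟩
    · rw [gwmi_gen_eq A d]
      exact ga_iota_mem_W A π _
    · rw [ga_rho_congr A π (gwmi_gen_eq A d) _ (ga_iota_mem_W A π _), ga_rho_iota, ga_red,
        coeffMap_qExpand, coeffMap_jqModC]
  | algebraMap c =>
    obtain ⟨a, rfl⟩ := hπs c
    refine ⟨HahnSeries.C (a : L), ?_, ga_C_mem_W A π a, ?_⟩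
    · rw [← gwmi_algebraMap_eq_C]
      exact (laurentBaseChange L (modularFunctionFieldFull M)).algebraMap_mem (a : L)
    · rw [ga_rho_C, ← gwmi_algebraMap_eq_C]
  | add x y hx hy ihx ihy =>
    obtain ⟨u, huF, huW, rfl⟩ := ihx
    obtain ⟨v, hvF, hvW, rfl⟩ := ihy
    exact ⟨u + v, add_mem huF hvF, (ga_W A π).add_mem huW hvW,
      gwmi_rho_add A π huW hvW _⟩
  | inv x hx ih =>
    obtain ⟨u, huF, huW, rfl⟩ := ih
    by_cases h0 : ga_rho A π ⟨u, huW⟩ = 0
    · exact ⟨0, zero_mem _, (ga_W A π).zero_mem, by rw [h0, inv_zero, gwmi_rho_zero]⟩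
    · exact ⟨u⁻¹, inv_mem huF, ga_inv_mem A π huW h0, ga_rho_inv A π huW h0⟩
  | mul x y hx hy ihx ihy =>
    obtain ⟨u, huF, huW, rfl⟩ := ihx
    obtain ⟨v, hvF, hvW, rfl⟩ := ihy
    exact ⟨u * v, mul_mem huF hvF, (ga_W A π).mul_mem huW hvW,
      gwmi_rho_mul A π huW hvW _⟩

end Onto

section Degree

/-- a `Q̄(j)`-independent family in `F_M(Q̄)` has at most `ψ(M)` elements. -/
theorem gwmi_card_le_Qbar (M : ℕ) [NeZero M] {n : ℕ} (w : Fin n → LaurentSeries Qbar)
    (hw : ∀ i, w i ∈ modularFunctionFieldBar M)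
    (hli : LinearIndependent ↥(adjoin Qbar {jqModC Qbar}) w) : n ≤ dedekindPsi M := by
  have h1 := du78_li_pow_mul_of_li_adjoin (K := Qbar) (jqModC Qbar)
    (sa_transcendental_jqModC Qbar) w hli
  let X : Fin n → FBar M := fun i => ⟨w i, hw i⟩
  have hj : ((jBar M : FBar M) : LaurentSeries Qbar) = jqModC Qbar := by
    rw [coe_jBar, coeffEmb, ← jqModC_rat, coeffMap_jqModC]
  have h3 : LinearIndependent Qbar (fun p : Fin n × ℕ => (jBar M) ^ p.2 * X p.1) := by
    have e : (fun p : Fin n × ℕ => (jqModC Qbar) ^ p.2 * w p.1) =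
        (⇑((modularFunctionFieldBar M).val.toLinearMap) ∘
          fun p : Fin n × ℕ => (jBar M) ^ p.2 * X p.1) := by
      funext p
      simp only [Function.comp_apply, AlgHom.toLinearMap_apply, map_mul, map_pow,
        IntermediateField.coe_val]
      rw [hj]
    rw [e] at h1
    exact @LinearIndependent.of_comp _ _ _ _ _ _ _ _ _ Algebra.toModule
      ((modularFunctionFieldBar M).val.toLinearMap) h1
  have h4 : LinearIndependent Qbar⟮jBar M⟯ X := du78_li_adjoin_of_li_pow_mul (jBar M) X h3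
  haveI := fbf_finiteDimensional_jBar M
  have h5 := h4.fintype_card_le_finrank
  rw [Fintype.card_fin] at h5
  have h6 : Module.finrank Qbar⟮jBar M⟯ (FBar M) = dedekindPsi M := du78_cdeg_jBar M
  rw [h6] at h5
  exact h5

/-- `ψ(M)` elements of `F̃_M(k)`, independent over `k(j̃)`. -/
theorem gwmi_exists_family (ℓ M : ℕ) [Fact ℓ.Prime] [NeZero M] (hℓM : ¬ ℓ ∣ M)
    (k : Type*) [Field k] [Algebra (ZMod ℓ) k] :
    ∃ e : Fin (dedekindPsi M) → LaurentSeries k, (∀ i, e i ∈ modularFunctionFieldFullC k M) ∧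
      LinearIndependent ↥(adjoin k {jqModC k}) e := by
  obtain ⟨e, hmem, hli⟩ := lv_exists_family ℓ M hℓM
  exact ⟨fun i => coeffMap (algebraMap (ZMod ℓ) k) (e i),
    fun i => lv_coeffMap_mem_fullC M (hmem i), lv_li_transfer ℓ k e hli⟩

end Degree

section Main

variable (ℓ M : ℕ) [Fact ℓ.Prime] [NeZero M] (hℓM : ¬ ℓ ∣ M)
  (A : ValuationSubring Qbar) {k : Type*} [Field k] [Algebra (ZMod ℓ) k] (π : A →+* k)

include hℓM in
/-- **INTO at level `M`**: the residue of an element of `F_M(Q̄)` lying in the Gauss ring of `A`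
lies in `F̃_M(k) = k(j̃(q^d) : d ∣ M)`. -/
theorem gwmi_rho_mem_levelM (hπs : Function.Surjective π) (x : LaurentSeries Qbar)
    (hx : x ∈ modularFunctionFieldBar M) (hW : x ∈ ga_W A π) :
    ga_rho A π ⟨x, hW⟩ ∈ modularFunctionFieldFullC k M := by
  refine gwmi_rho_mem_of_degree A π (modularFunctionFieldBar M) (modularFunctionFieldFullC k M)
    (jqModC_mem_full k M) (dedekindPsi M) ?_ (gwmi_exists_family ℓ M hℓM k)
    (fun y hy => gwmi_onto A π hπs M y hy) x hx hW
  intro w hw hli
  have := gwmi_card_le_Qbar M w hw hli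
  omega

/-- a `k(j̃)`-independent family in `F̃_M(k)` has at most `ψ(M)` elements (`k` a residue field of
a valuation subring of `Q̄`). -/
theorem gwmi_card_le_residue (hπs : Function.Surjective π) {n : ℕ} (e : Fin n → LaurentSeries k)
    (he : ∀ i, e i ∈ modularFunctionFieldFullC k M)
    (hli : LinearIndependent ↥(adjoin k {jqModC k}) e) : n ≤ dedekindPsi M := by
  choose u huF huW hρu using fun i => gwmi_onto A π hπs M (e i) (he i)
  have hres : (fun i => ga_rho A π ⟨u i, huW i⟩) = e := funext hρu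
  have h1 := gwmi_linearIndependent_lift A π u huW (by rw [hres]; exact hli)
  exact gwmi_card_le_Qbar M u huF h1

include hℓM in
/-- **exact degree in characteristic `ℓ`**: `[F̃_M(k) : k(j̃)] = ψ(M)`. -/
theorem gwmi_relfinrank_fullC (hπs : Function.Surjective π) :
    IntermediateField.relfinrank (adjoin k {jqModC k}) (modularFunctionFieldFullC k M) =
      dedekindPsi M := by
  refine le_antisymm ?_ (lv_deg_le ℓ M hℓM k)
  have hlek : adjoin k {jqModC k} ≤ modularFunctionFieldFullC k M :=
    adjoin_le_iff.mpr (Set.singleton_subset_iff.mpr (jqModC_mem_full k M))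
  rw [IntermediateField.relfinrank_eq_finrank_of_le hlek]
  apply Module.finrank_le_of_rank_le
  classical
  refine rank_le fun s hs => ?_
  have h1 : LinearIndependent ↥(adjoin k {jqModC k})
      (fun i : Fin s.card => ((s.equivFin.symm i : s) : IntermediateField.extendScalars hlek)) :=
    hs.comp _ s.equivFin.symm.injective
  have h2 : LinearIndependent ↥(adjoin k {jqModC k})
      (fun i : Fin s.card => (((s.equivFin.symm i : s) : IntermediateField.extendScalars hlek) :
        LaurentSeries k)) :=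
    h1.map' ((IntermediateField.extendScalars hlek).val.toLinearMap)
      (LinearMap.ker_eq_bot.mpr (IntermediateField.extendScalars hlek).val.injective)
  exact gwmi_card_le_residue M A π hπs _
    (fun i => (IntermediateField.mem_extendScalars hlek).mp
      ((s.equivFin.symm i : s) : IntermediateField.extendScalars hlek).2) h2

end Main

end

end Fermat.Agent.S18x
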