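/-
S18x/GaussWMInto3 (helper81; row N8d-G2 "INTO", adapter to helper87's `GaussWM.lean`):
for `L = Q̄`, `ℓ ∤ M`, `π` surjective: the image `gwm_range hnf hπs` of the residue map of the
Gauss valuation subring `gwm_W hnf` of `F_M(Q̄)` is exactly `gi_Fb k M = k(j̃(q^d) : d ∣ M)`.
Prefix `gwmi_`.
-/
import Mathlib
import Fermat.Agent.S18x.GaussWM
import Fermat.Agent.S18x.GaussWMInto2

set_option autoImplicit false

namespace Fermat.Agent.S18x

open ModularCurve HahnSeries IntermediateField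

noncomputable section

local notation "Qbar" => AlgebraicClosure ℚ

variable (ℓ : ℕ) {M : ℕ} [Fact ℓ.Prime] [NeZero M] (hℓM : ¬ ℓ ∣ M)
  {A : ValuationSubring Qbar} {k : Type*} [Field k] [Algebra (ZMod ℓ) k] {π : A →+* k}

include hℓM in
/-- INTO in `gwm_` language: `ρ x ∈ gi_Fb k M` for every `x : gwm_W hnf`. -/
theorem gwmi_rho0_mem (hnf : gwm_NF A π M) (hπs : Function.Surjective π) (x : gwm_W hnf) :
    gwm_rho0 hnf x ∈ gi_Fb k M := by
  rw [gwm_rho0_apply]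
  exact gwmi_rho_mem_levelM ℓ M hℓM A π hπs _ (x : gi_F Qbar M).2 x.2

include hℓM in
/-- INTO: the image of `ρ` is contained in `gi_Fb k M`. -/
theorem gwmi_range_le (hnf : gwm_NF A π M) (hπs : Function.Surjective π) :
    gwm_range hnf hπs ≤ gi_Fb k M := by
  rintro y ⟨u, rfl⟩
  exact gwmi_rho0_mem ℓ hℓM hnf hπs u

include hℓM in
/-- the image of `ρ` is `gi_Fb k M`. -/
theorem gwmi_range_eq (hnf : gwm_NF A π M) (hπs : Function.Surjective π) :
    gwm_range hnf hπs = gi_Fb k M :=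
  le_antisymm (gwmi_range_le ℓ hℓM hnf hπs) (gwm_Fb_le_range hnf hπs)

/-- the residue map `W_M → F̃_M(k)`. -/
def gwmi_rho (hnf : gwm_NF A π M) (hπs : Function.Surjective π) : gwm_W hnf →+* gi_Fb k M :=
  (gwm_rho0 hnf).codRestrict (gi_Fb k M).toSubring (gwmi_rho0_mem ℓ hℓM hnf hπs)

theorem gwmi_rho_coe (hnf : gwm_NF A π M) (hπs : Function.Surjective π) (x : gwm_W hnf) :
    ((gwmi_rho ℓ hℓM hnf hπs x : gi_Fb k M) : LaurentSeries k) = gwm_rho0 hnf x := rfl

theorem gwmi_rho_surjective (hnf : gwm_NF A π M) (hπs : Function.Surjective π) :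
    Function.Surjective (gwmi_rho ℓ hℓM hnf hπs) := by
  rintro ⟨y, hy⟩
  obtain ⟨u, hu⟩ := gwm_Fb_le_range hnf hπs hy
  exact ⟨u, Subtype.ext hu⟩

theorem gwmi_rho_eq_zero_iff (hnf : gwm_NF A π M) (hπs : Function.Surjective π) (x : gwm_W hnf) :
    gwmi_rho ℓ hℓM hnf hπs x = 0 ↔ ¬ IsUnit x := by
  rw [← gwm_ker0 hnf x, ← gwmi_rho_coe ℓ hℓM hnf hπs x]
  constructor
  · intro h; rw [h]; rfl
  · intro h; exact Subtype.ext h

end

end Fermat.Agent.S18x
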