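/-
S18 project, row I1 of `s18_plan` (helper19, prefix `gi_`): the Gauss datum of the frozen S18.

`gi_exists_gauss` (exact plan shape): from the hypothesis `h : ReductionInputsModL A N` alone
(+ the landed place theory `rmn_hyp_FBar N` of `FBar N`) there are a valuation ring `W` of
`FBar N` and a ring map `ρ : W →+* modularFunctionFieldFullC k N` (`k` the residue field of `A`)
with `s18a_Gauss A (residue A) W ρ (placeReductionModL h)`, and `J : W` with `J = jBar N`,
`ρ J = jqModC k`.

`gi_exists_gauss_coeff` adds the property asked for by the reviewers (helper38): every element of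
`FBar N` with `A`-integral `q`-expansion `y` lies in `W`, and `ρ` of it is the coefficientwise
reduction of `y`.
-/
import Mathlib
import Fermat.Agent.S18x.InstGaussFinal
import Fermat.Agent.S18x.Assembly
import Fermat.Agent.S18x.RmnOfRmt

set_option autoImplicit false

namespace Fermat.Agent.S18x

open ModularCurve HahnSeries AlgebraicCurve Fermat.Agent.S24x

noncomputable section

set_option synthInstance.maxHeartbeats 400000

variable (N : ℕ) [NeZero N] (A : ValuationSubring (AlgebraicClosure ℚ))

/-- the inputs of `InstGaussW`, unconditionally in the setting of the frozen S18 -/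
theorem gi_inputs_S18 (h : ReductionInputsModL A N) :
    gi_Inputs (N := N) (IsLocalRing.residue A) (placeReductionModL h) :=
  gi_Inputs_modL A N h (rmn_hyp_FBar N).hpd (fun x hx hord =>
    (rmn_hyp_FBar N).hconst x hx (fun Q => by rw [hord Q]))

/-- the Gauss datum -/
theorem gi_gauss_S18 (h : ReductionInputsModL A N) :
    s18a_Gauss A (IsLocalRing.residue A) (gi_W (gi_inputs_S18 N A h))
      (gi_rho (gi_inputs_S18 N A h)) (placeReductionModL h) where
  mem_iff := gi_mem_iff _
  rho_alg := gi_rho_alg _
  pi_surj := IsLocalRing.residue_surjective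
  ker := gi_ker _
  norm := gi_norm _
  compat := gi_compat _
  rho_surj := fun y _ => gi_rho_surj _ y
  hdegr := (isPlaceReductionModL_placeReductionModL h).1

/-- **gauss_coeff**: an element of `FBar N` with `A`-integral `q`-expansion `y` lies in `W`, and
`ρ` of it is the coefficientwise reduction of `y`. -/
theorem gi_gauss_coeff (h : ReductionInputsModL A N) (y : LaurentSeries A)
    (hy : coeffMap A.subtype y ∈ modularFunctionFieldBar N) :
    ∃ hW : (⟨coeffMap A.subtype y, hy⟩ : modularFunctionFieldBar N) ∈ gi_W (gi_inputs_S18 N A h),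
      ((gi_rho (gi_inputs_S18 N A h) ⟨⟨coeffMap A.subtype y, hy⟩, hW⟩ :
        modularFunctionFieldFullC (IsLocalRing.ResidueField A) N) :
          LaurentSeries (IsLocalRing.ResidueField A)) = coeffMap (IsLocalRing.residue A) y := by
  have hW : (⟨coeffMap A.subtype y, hy⟩ : modularFunctionFieldBar N) ∈
      gi_W (gi_inputs_S18 N A h) := ga_iota_mem_W A (IsLocalRing.residue A) y
  refine ⟨hW, ?_⟩
  rw [gi_rho_coe]
  exact ga_rho_iota A (IsLocalRing.residue A) y

omit [NeZero N] in
theorem gi_coe_jBar :
    ((jBar N : FBar N) : LaurentSeries (AlgebraicClosure ℚ)) =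
      coeffMap A.subtype (jqModC A) := by
  rw [coe_jBar, coeffEmb, ← jqModC_rat, coeffMap_jqModC, coeffMap_jqModC]

/-- **row I1 of `s18_plan`**, with the extra coefficient property. -/
theorem gi_exists_gauss_coeff (h : ReductionInputsModL A N) :
    ∃ (W : ValuationSubring (FBar N))
      (ρ : W →+* modularFunctionFieldFullC (IsLocalRing.ResidueField A) N),
      s18a_Gauss A (IsLocalRing.residue A) W ρ (placeReductionModL h) ∧
      (∃ J : W, (J : FBar N) = jBar N ∧
        ((ρ J : modularFunctionFieldFullC (IsLocalRing.ResidueField A) N) :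
          LaurentSeries (IsLocalRing.ResidueField A)) = jqModC (IsLocalRing.ResidueField A)) ∧
      ∀ (y : LaurentSeries A) (hy : coeffMap A.subtype y ∈ modularFunctionFieldBar N),
        ∃ hW : (⟨coeffMap A.subtype y, hy⟩ : FBar N) ∈ W,
          ((ρ ⟨⟨coeffMap A.subtype y, hy⟩, hW⟩ :
            modularFunctionFieldFullC (IsLocalRing.ResidueField A) N) :
              LaurentSeries (IsLocalRing.ResidueField A)) = coeffMap (IsLocalRing.residue A) y := by
  refine ⟨gi_W (gi_inputs_S18 N A h), gi_rho (gi_inputs_S18 N A h), gi_gauss_S18 N A h, ?_,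
    gi_gauss_coeff N A h⟩
  have hy : coeffMap A.subtype (jqModC A) ∈ modularFunctionFieldBar N := by
    rw [← gi_coe_jBar N A]; exact (jBar N).2
  obtain ⟨hW, hρ⟩ := gi_gauss_coeff N A h (jqModC A) hy
  refine ⟨⟨⟨coeffMap A.subtype (jqModC A), hy⟩, hW⟩, ?_, ?_⟩
  · exact Subtype.ext (gi_coe_jBar N A).symm
  · rw [hρ, coeffMap_jqModC]

/-- **row I1 of `s18_plan`**, exact shape. -/
theorem gi_exists_gauss (h : ReductionInputsModL A N) :
    ∃ (W : ValuationSubring (FBar N))
      (ρ : W →+* modularFunctionFieldFullC (IsLocalRing.ResidueField A) N),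
      s18a_Gauss A (IsLocalRing.residue A) W ρ (placeReductionModL h) ∧
      ∃ J : W, (J : FBar N) = jBar N ∧
        ((ρ J : modularFunctionFieldFullC (IsLocalRing.ResidueField A) N) :
          LaurentSeries (IsLocalRing.ResidueField A)) = jqModC (IsLocalRing.ResidueField A) := by
  obtain ⟨W, ρ, hG, hJ, -⟩ := gi_exists_gauss_coeff N A h
  exact ⟨W, ρ, hG, hJ⟩

end

end Fermat.Agent.S18x
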