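/-
S18 project, row I1 addendum (helper19, prefix `gi_`): NAMED exports for the canonical Gauss pair
`(W, ρ) = (gi_W (gi_inputs_S18 N A h), gi_rho (gi_inputs_S18 N A h))` of the frozen S18
(answers Q1 of the NRM dry run):

* `gi_J N A h : W`, `gi_J_coe : (gi_J N A h : FBar N) = jBar N`, `gi_rho_J : ρ (gi_J ..) = jqModC k`;
* `gi_mem_W_of_iota`, `gi_rho_of_iota` : an element of `FBar N` whose `q`-expansion is `ι a`,
  `a : A((q))`, lies in `W` and `ρ` of it is the coefficientwise reduction `coeffMap π a`;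
* `gi_jd`, `gi_jd_coe`, `gi_rho_jd` : the same for `j(q^d)`, `d ∣ N`.
-/
import Mathlib
import Fermat.Agent.S18x.InstGaussExists

set_option autoImplicit false

namespace Fermat.Agent.S18x

open ModularCurve HahnSeries AlgebraicCurve Fermat.Agent.S24x

noncomputable section

set_option synthInstance.maxHeartbeats 400000

variable (N : ℕ) [NeZero N] (A : ValuationSubring (AlgebraicClosure ℚ))
  (h : ReductionInputsModL A N)

/-- an element of `FBar N` with `A`-integral expansion lies in the canonical `W` -/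
theorem gi_mem_W_of_iota {x : FBar N} {a : LaurentSeries A}
    (hx : (x : LaurentSeries (AlgebraicClosure ℚ)) = coeffMap A.subtype a) :
    x ∈ gi_W (gi_inputs_S18 N A h) := by
  rw [gi_mem_W_iff, hx]
  exact ga_iota_mem_W A (IsLocalRing.residue A) a

/-- `ρ` of an element with `A`-integral expansion `ι a` is the coefficientwise reduction of `a` -/
theorem gi_rho_of_iota {x : FBar N} {a : LaurentSeries A}
    (hx : (x : LaurentSeries (AlgebraicClosure ℚ)) = coeffMap A.subtype a)
    (hW : x ∈ gi_W (gi_inputs_S18 N A h)) :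
    ((gi_rho (gi_inputs_S18 N A h) ⟨x, hW⟩ :
      modularFunctionFieldFullC (IsLocalRing.ResidueField A) N) :
        LaurentSeries (IsLocalRing.ResidueField A)) = coeffMap (IsLocalRing.residue A) a := by
  rw [gi_rho_coe]
  have h3 : gi_incl (gi_inputs_S18 N A h) ⟨x, hW⟩ =
      ⟨ga_iota A a, ga_iota_mem_W A (IsLocalRing.residue A) a⟩ := Subtype.ext hx
  rw [h3, ga_rho_iota]
  rfl

/-- `j(q^d)`, `d ∣ N`, has the integral expansion `qExpand A d (jqModC A)` -/
theorem gi_coe_jdBar (d : ℕ) [NeZero d] (hd : d ∣ N) :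
    ((jdBar N d hd : FBar N) : LaurentSeries (AlgebraicClosure ℚ)) =
      coeffMap A.subtype (qExpand A d (jqModC A)) := by
  rw [coe_jdBar, coeffEmb, ← jqModC_rat, coeffMap_qExpand, coeffMap_jqModC, coeffMap_qExpand,
    coeffMap_jqModC]

/-- `j(q^d)` as an element of the canonical `W` -/
def gi_jd (d : ℕ) [NeZero d] (hd : d ∣ N) : gi_W (gi_inputs_S18 N A h) :=
  ⟨jdBar N d hd, gi_mem_W_of_iota N A h (gi_coe_jdBar N A d hd)⟩

theorem gi_jd_coe (d : ℕ) [NeZero d] (hd : d ∣ N) :
    ((gi_jd N A h d hd : gi_W (gi_inputs_S18 N A h)) : FBar N) = jdBar N d hd := rfl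

theorem gi_rho_jd (d : ℕ) [NeZero d] (hd : d ∣ N) :
    ((gi_rho (gi_inputs_S18 N A h) (gi_jd N A h d hd) :
      modularFunctionFieldFullC (IsLocalRing.ResidueField A) N) :
        LaurentSeries (IsLocalRing.ResidueField A)) =
      qExpand (IsLocalRing.ResidueField A) d (jqModC (IsLocalRing.ResidueField A)) := by
  rw [gi_jd, gi_rho_of_iota N A h (gi_coe_jdBar N A d hd), coeffMap_qExpand, coeffMap_jqModC]

/-- `j` as an element of the canonical `W` -/
def gi_J : gi_W (gi_inputs_S18 N A h) :=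
  ⟨jBar N, gi_mem_W_of_iota N A h (gi_coe_jBar N A)⟩

theorem gi_J_coe : ((gi_J N A h : gi_W (gi_inputs_S18 N A h)) : FBar N) = jBar N := rfl

theorem gi_rho_J :
    ((gi_rho (gi_inputs_S18 N A h) (gi_J N A h) :
      modularFunctionFieldFullC (IsLocalRing.ResidueField A) N) :
        LaurentSeries (IsLocalRing.ResidueField A)) = jqModC (IsLocalRing.ResidueField A) := by
  rw [gi_J, gi_rho_of_iota N A h (gi_coe_jBar N A), coeffMap_jqModC]

end

end Fermat.Agent.S18x
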