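/-
S18x/NrnCore.lean (helper8, row N8 of s18_nrm_plan): NRM at the auxiliary level ==> NRM at level N,
in the function-field language of the PL block (coordinates, `ringA`/`ringB` of S24x/PlacePrime,
places), obtained by instantiating the abstract `nd_descent` (S18x/NdDescent).

Ring form of normality on the finite chart of a coordinate `x ∈ W`:
  `nrn_NRM L k ρ x` :  every `y ∈ Fb` integral over `k[ρ x]` is `ρ u` for some `u ∈ W` integral over
  `L[x]`.
-/
import Mathlib
import Fermat.Agent.S18x.NdDescent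
import Fermat.Agent.S18x.CpPlaces

set_option autoImplicit false

namespace Fermat.Agent.S18x

open AlgebraicCurve IntermediateField Polynomial
open Fermat.Agent.S24x

section Plumbing

/-- Integrality of an element is inherited along a surjection of base rings. -/
theorem nrn_isIntegralElem_comp_of_surjective {R S T : Type*} [CommRing R] [CommRing S] [Ring T]
    (f : R →+* S) (hf : Function.Surjective f) (g : S →+* T) {x : T} (hx : g.IsIntegralElem x) :
    (g.comp f).IsIntegralElem x := by
  obtain ⟨p, hp, hpx⟩ := hx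
  obtain ⟨q, hq, -, hqm⟩ := Polynomial.lifts_and_natDegree_eq_and_monic
    ((Polynomial.mem_lifts p).mpr (Polynomial.map_surjective f hf p)) hp
  refine ⟨q, hqm, ?_⟩
  rw [← hq, Polynomial.eval₂_map] at hpx
  exact hpx

variable {K F F' : Type*} [Field K] [Field F] [Field F'] [Algebra K F] [Algebra K F']
  [Algebra F F'] [IsScalarTower K F F']

/-- Integrality over `K[x] ⊆ F` (acting on `F'` through `F`) is integrality along
`K[X] → F', X ↦ x`. -/
theorem nrn_isIntegral_adjoin_iff_aeval (x : F) (z : F') :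
    IsIntegral (Algebra.adjoin K {x}) z ↔
      ((Polynomial.aeval (algebraMap F F' x) : K[X] →ₐ[K] F') : K[X] →+* F').IsIntegralElem z := by
  let S := Algebra.adjoin K {x}
  let gx : S := ⟨x, Algebra.self_mem_adjoin_singleton K x⟩
  let a : K[X] →+* S := (Polynomial.aeval gx : K[X] →ₐ[K] S)
  have ha : Function.Surjective a := by
    rintro ⟨s, hs⟩
    have hs' : s ∈ Algebra.adjoin K {x} := hs
    rw [Algebra.adjoin_singleton_eq_range_aeval] at hs'
    obtain ⟨p, rfl⟩ := hs'
    refine ⟨p, Subtype.ext ?_⟩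
    change ((Polynomial.aeval gx p : S) : F) = _
    rw [← Subalgebra.coe_val, ← Polynomial.aeval_algHom_apply]
    rfl
  have hcomp : (algebraMap S F').comp a
      = ((Polynomial.aeval (algebraMap F F' x) : K[X] →ₐ[K] F') : K[X] →+* F') := by
    apply Polynomial.ringHom_ext
    · intro c
      simp only [RingHom.coe_comp, Function.comp_apply, a, RingHom.coe_coe, Polynomial.aeval_C]
      rw [IsScalarTower.algebraMap_apply K F F']
      rfl
    · simp only [RingHom.coe_comp, Function.comp_apply, a, RingHom.coe_coe, Polynomial.aeval_X]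
      rfl
  constructor
  · intro h
    rw [← hcomp]
    exact nrn_isIntegralElem_comp_of_surjective a ha _ h
  · intro h
    rw [← hcomp] at h
    exact RingHom.IsIntegralElem.of_comp h

/-- Integrality over `K[x]` (through `F`) is the same as integrality over `K[x']`, `x'` the image of
`x` in `F'`. -/
theorem nrn_isIntegral_adjoin_iff (x : F) (z : F') :
    IsIntegral (Algebra.adjoin K {x}) z ↔ IsIntegral (Algebra.adjoin K {algebraMap F F' x}) z := by
  rw [nrn_isIntegral_adjoin_iff_aeval,
    nrn_isIntegral_adjoin_iff_aeval (K := K) (F := F') (F' := F') (algebraMap F F' x) z]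
  rfl

/-- Residue fields of a finite type algebra over an algebraically closed field are the constants. -/
theorem nrn_exists_const_sub_mem {k R : Type*} [Field k] [IsAlgClosed k] [CommRing R]
    [Algebra k R] [Algebra.FiniteType k R] (𝔮 : Ideal R) (h𝔮 : 𝔮.IsMaximal) (s : R) :
    ∃ a : k, s - algebraMap k R a ∈ 𝔮 := by
  let _ : Field (R ⧸ 𝔮) := Ideal.Quotient.field 𝔮
  have hft : Algebra.FiniteType k (R ⧸ 𝔮) :=
    Algebra.FiniteType.of_surjective (Ideal.Quotient.mkₐ k 𝔮) (Ideal.Quotient.mkₐ_surjective k 𝔮)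
  have hfin : Module.Finite k (R ⧸ 𝔮) := finite_of_finite_type_of_isJacobsonRing k (R ⧸ 𝔮)
  have hint : Algebra.IsIntegral k (R ⧸ 𝔮) := Algebra.IsIntegral.of_finite k (R ⧸ 𝔮)
  obtain ⟨a, ha⟩ := (IsAlgClosed.algebraMap_bijective_of_isIntegral (k := k) (K := R ⧸ 𝔮)).2
    (Ideal.Quotient.mk 𝔮 s)
  refine ⟨a, ?_⟩
  rw [← Ideal.Quotient.eq, ← ha]
  rfl

end Plumbing

section Main

variable {L k F F' Fb Fb' : Type*} [Field L] [Field k] [Field F] [Field F'] [Field Fb] [Field Fb']
  [Algebra L F] [Algebra L F'] [Algebra F F'] [IsScalarTower L F F']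
  [Algebra k Fb] [Algebra k Fb'] [Algebra Fb Fb'] [IsScalarTower k Fb Fb']
  {A : ValuationSubring L} {π : A →+* k} {W : ValuationSubring F} {W' : ValuationSubring F'}
  {ρ : W →+* Fb} {ρ' : W' →+* Fb'}

/-- NORMALITY of the reduction on the finite chart of the coordinate `x ∈ W` (ring form). -/
def nrn_NRM (L k : Type*) {F Fb : Type*} [Field L] [Field k] [Field F] [Field Fb] [Algebra L F]
    [Algebra k Fb] {W : ValuationSubring F} (ρ : W →+* Fb) (x : W) : Prop :=
  ∀ y : Fb, IsIntegral (Algebra.adjoin k {ρ x}) y →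
    ∃ u : W, IsIntegral (Algebra.adjoin L {(x : F)}) (u : F) ∧ ρ u = y

/-- Elements of `k[ρ x]` lift to polynomials in `x` with coefficients in `A`. -/
theorem nrn_lift_adjoin (hmem : ∀ c : L, algebraMap L F c ∈ W ↔ c ∈ A)
    (hρalg : ∀ (c : L) (hc : c ∈ A) (hW : algebraMap L F c ∈ W),
      ρ ⟨algebraMap L F c, hW⟩ = algebraMap k Fb (π ⟨c, hc⟩))
    (hπ : Function.Surjective π) (x : W) (c : Fb) (hc : c ∈ Algebra.adjoin k {ρ x}) :
    ∃ y : W, (y : F) ∈ Algebra.adjoin L {(x : F)} ∧ ρ y = c := by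
  rw [Algebra.adjoin_singleton_eq_range_aeval] at hc
  obtain ⟨pb, rfl⟩ := hc
  obtain ⟨p, rfl⟩ := Polynomial.map_surjective π hπ pb
  let ιA : A →+* W :=
    { toFun := fun c => ⟨algebraMap L F c, (hmem c).mpr c.2⟩
      map_one' := Subtype.ext (by simp)
      map_mul' := fun a b => Subtype.ext (by simp)
      map_zero' := Subtype.ext (by simp)
      map_add' := fun a b => Subtype.ext (by simp) }
  refine ⟨p.eval₂ ιA x, ?_, ?_⟩
  · have h1 : ((p.eval₂ ιA x : W) : F) = (p.map A.subtype).eval₂ (algebraMap L F) (x : F) := by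
      rw [Polynomial.eval₂_map]
      exact Polynomial.hom_eval₂ p ιA W.subtype x
    rw [h1, ← Polynomial.aeval_def]
    exact Polynomial.aeval_mem_adjoin_singleton L (x : F)
  · rw [Polynomial.hom_eval₂]
    change _ = Polynomial.aeval (ρ x) (Polynomial.map π p)
    rw [Polynomial.aeval_def, Polynomial.eval₂_map]
    congr 1
    ext c
    exact hρalg c c.2 _

/-- Auxiliary form of `nrn_descent` with abstract models `k0 → D → E` of
`k[x̄] ⊆ (integral closure in Fb) ⊆ (integral closure in Fb')`. -/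
theorem nrn_descent_aux [IsAlgClosed k] (H : nd_RedPair W W' ρ ρ')
    (hmem : ∀ c : L, algebraMap L F c ∈ W ↔ c ∈ A)
    (hρalg : ∀ (c : L) (hc : c ∈ A) (hW : algebraMap L F c ∈ W),
      ρ ⟨algebraMap L F c, hW⟩ = algebraMap k Fb (π ⟨c, hc⟩))
    (hπ : Function.Surjective π)
    (x : W) (x' : W') (hx' : (x' : F') = algebraMap F F' (x : F))
    {k0 D E : Type*} [CommRing k0] [CommRing D] [IsDedekindDomain D] [Algebra k0 D]
    [Module.Finite k0 D] [CommRing E] [IsDedekindDomain E] [Algebra D E] [Module.Finite D E]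
    [Module.IsTorsionFree D E] [Algebra D Fb] [IsFractionRing D Fb] [Algebra E Fb']
    [IsFractionRing E Fb'] [Algebra D Fb'] [IsScalarTower D Fb Fb'] [IsScalarTower D E Fb']
    [IsGalois Fb Fb']
    [Algebra k k0] [Algebra k D] [Algebra k E] [IsScalarTower k k0 D] [IsScalarTower k D E]
    [Algebra.FiniteType k D] [Algebra.FiniteType k E]
    (hDnf : ¬ IsField D)
    (hk0 : ∀ c : k0, algebraMap D Fb (algebraMap k0 D c) ∈ Algebra.adjoin k {ρ x})
    (hDsurj : ∀ y : Fb, IsIntegral (Algebra.adjoin k {ρ x}) y → ∃ d : D, algebraMap D Fb d = y)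
    (hEint : ∀ e : E, IsIntegral (Algebra.adjoin k {ρ x}) (algebraMap E Fb' e))
    (hY : nrn_NRM L k ρ' x') : nrn_NRM L k ρ x := by
  classical
  have hρx' : ρ' x' = algebraMap Fb Fb' (ρ x) := by
    have h1 : x' = ⟨algebraMap F F' (x : F), (H.mem_iff _).mpr x.2⟩ := Subtype.ext hx'
    rw [h1]
    exact H.compat _ x.2 _
  -- the subrings of integral elements in characteristic zero
  let O : Subring F := (integralClosure (Algebra.adjoin L {(x : F)}) F).toSubring
  let O' : Subring F' := (integralClosure (Algebra.adjoin L {(x : F)}) F').toSubring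
  have hOnorm : ∀ z ∈ O', Algebra.norm F z ∈ O := by
    intro z hz
    have hz' : IsIntegral (Algebra.adjoin L {(x : F)}) z := hz
    exact Algebra.isIntegral_norm F hz'
  have hk0' : ∀ c : k0, ∃ y : W, (y : F) ∈ O ∧ ρ y = algebraMap D Fb (algebraMap k0 D c) := by
    intro c
    obtain ⟨y, hy, hρy⟩ := nrn_lift_adjoin hmem hρalg hπ x _ (hk0 c)
    refine ⟨y, ?_, hρy⟩
    have : IsIntegral (Algebra.adjoin L {(x : F)}) (y : F) := by
      have h1 : (y : F) = algebraMap (Algebra.adjoin L {(x : F)}) F ⟨(y : F), hy⟩ := rfl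
      rw [h1]
      exact isIntegral_algebraMap
    exact this
  have hresD : ∀ 𝔮 : Ideal D, 𝔮.IsMaximal → ∀ s : D, ∃ c : k0, s - algebraMap k0 D c ∈ 𝔮 := by
    intro 𝔮 h𝔮 s
    obtain ⟨a, ha⟩ := nrn_exists_const_sub_mem (k := k) 𝔮 h𝔮 s
    refine ⟨algebraMap k k0 a, ?_⟩
    rwa [← IsScalarTower.algebraMap_apply k k0 D]
  have hresE : ∀ P : Ideal E, P.IsMaximal → ∀ z : E, ∃ d : D, z - algebraMap D E d ∈ P := by
    intro P hP z
    obtain ⟨a, ha⟩ := nrn_exists_const_sub_mem (k := k) P hP z
    refine ⟨algebraMap k D a, ?_⟩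
    rwa [← IsScalarTower.algebraMap_apply k D E]
  have hYE : ∀ e : E, ∃ z : W', (z : F') ∈ O' ∧ ρ' z = algebraMap E Fb' e := by
    intro e
    have h3 : IsIntegral (Algebra.adjoin k {ρ' x'}) (algebraMap E Fb' e) := by
      rw [hρx']
      exact (nrn_isIntegral_adjoin_iff (K := k) (ρ x) (algebraMap E Fb' e)).mp (hEint e)
    obtain ⟨u', hu', hρu'⟩ := hY _ h3
    refine ⟨u', ?_, hρu'⟩
    rw [hx'] at hu'
    exact (nrn_isIntegral_adjoin_iff (K := L) (x : F) (u' : F')).mpr hu'
  have key := nd_descent (k0 := k0) (D := D) (E := E) H O O' hOnorm hDnf hk0' hresD hresE hYE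
  intro y hy
  obtain ⟨d, rfl⟩ := hDsurj y hy
  obtain ⟨u, hu, hρu⟩ := key d
  exact ⟨u, hu, hρu⟩

set_option synthInstance.maxHeartbeats 400000 in
set_option maxHeartbeats 1000000 in
open scoped IntermediateField.algebraAdjoinAdjoin in
/-- **NORM DESCENT OF NORMALITY, function-field form.**  `F' / F` finite with reduction data
`nd_RedPair` (`[Fb':Fb] = [F':F]`), `Fb' / Fb` Galois, `ρ x` a separable coordinate of `Fb / k`,
`k` algebraically closed, constants reduce through `π : A → k`.  Then normality of the reduction on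
the finite chart of `x` at the upper level implies normality at the lower level. -/
theorem nrn_descent [IsAlgClosed k] (H : nd_RedPair W W' ρ ρ')
    (hmem : ∀ c : L, algebraMap L F c ∈ W ↔ c ∈ A)
    (hρalg : ∀ (c : L) (hc : c ∈ A) (hW : algebraMap L F c ∈ W),
      ρ ⟨algebraMap L F c, hW⟩ = algebraMap k Fb (π ⟨c, hc⟩))
    (hπ : Function.Surjective π)
    (x : W) (x' : W') (hx' : (x' : F') = algebraMap F F' (x : F))
    [FFData k Fb (ρ x)] [Algebra.IsSeparable k⟮ρ x⟯ Fb] [IsGalois Fb Fb']
    (hY : nrn_NRM L k ρ' x') : nrn_NRM L k ρ x := by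
  classical
  have hpos : 0 < Module.finrank Fb Fb' := by
    have := H.finite
    rw [H.finrank_eq]
    exact Module.finrank_pos
  have hfin' : FiniteDimensional Fb Fb' := Module.finite_of_finrank_pos hpos
  let k0 := ringA k (ρ x)
  let D := ringB k (ρ x)
  have hDed : IsDedekindDomain D := cp15_isDedekindDomain_ringB (K := k) (ρ x)
  have hfinD : Module.Finite k0 D := cp15_finite_ringB (K := k) (ρ x)
  let E := integralClosure D Fb'
  have hEded : IsDedekindDomain E := integralClosure.isDedekindDomain D Fb Fb'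
  have hEfrac : IsFractionRing E Fb' := integralClosure.isFractionRing_of_finite_extension Fb Fb'
  have hEfin : Module.Finite D E := IsIntegralClosure.finite D Fb Fb' E
  have htf1 : Module.IsTorsionFree D Fb' := .trans_faithfulSMul D Fb Fb'
  have htf2 : Module.IsTorsionFree D E := inferInstance
  have htr : Transcendental k (ρ x) := FFData.transc
  let e0 : k[X] ≃ₐ[k] k0 := Polynomial.algEquivOfTranscendental k (ρ x) htr
  have hk0nf : ¬ IsField k0 := fun h => Polynomial.not_isField k (e0.toMulEquiv.isField h)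
  have hDnf : ¬ IsField D := by
    intro h
    apply hk0nf
    have hint : Algebra.IsIntegral k0 D := inferInstance
    exact isField_of_isIntegral_of_isField (FaithfulSMul.algebraMap_injective k0 D) h
  have hftk0 : Algebra.FiniteType k k0 :=
    Algebra.FiniteType.equiv (inferInstance : Algebra.FiniteType k k[X]) e0
  have hftD : Algebra.FiniteType k D :=
    Algebra.FiniteType.trans hftk0 (inferInstance : Algebra.FiniteType k0 D)
  have hftE : Algebra.FiniteType k E :=
    Algebra.FiniteType.trans hftD (inferInstance : Algebra.FiniteType D E)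
  refine nrn_descent_aux (k0 := k0) (D := D) (E := E) H hmem hρalg hπ x x' hx' hDnf ?_ ?_ ?_ hY
  · intro c
    exact c.2
  · intro y hy
    exact ⟨⟨y, hy⟩, rfl⟩
  · intro e
    have h1 : IsIntegral D (e : Fb') := e.2
    exact isIntegral_trans (R := k0) (e : Fb') h1

end Main

section Places

variable {K F : Type*} [Field K] [Field F] [Algebra K F]

/-- `v(f) ≤ 1` iff `f` lies in the valuation ring of the place. -/
theorem nrn_adicValuation_le_one_iff (v : Place K F) (f : F) :
    v.adicValuation f ≤ 1 ↔ f ∈ v.toValuationSubring := by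
  constructor
  · intro h
    obtain ⟨a, ha⟩ := IsDiscreteValuationRing.exists_lift_of_le_one (A := v.toValuationSubring)
      (K := F) h
    rw [← ha]
    exact a.2
  · intro h
    have h1 := (v.adicValuation_coe ⟨f, h⟩).trans_le
      (v.heightOneSpectrum.intValuation_le_one ⟨f, h⟩)
    simpa using h1

open scoped IntermediateField.algebraAdjoinAdjoin in
/-- Integral over `K[x]`  ⟺  regular wherever `x` is regular (separable coordinate). -/
theorem nrn_isIntegral_iff_regular {x : F} (hx : cp15_IsSepCoordinate K F x) (y : F) :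
    IsIntegral (Algebra.adjoin K {x}) y ↔
      ∀ P : Place K F, P.adicValuation x ≤ 1 → P.adicValuation y ≤ 1 := by
  have : FFData K F x := cp15_ffData hx
  have : Algebra.IsSeparable K⟮x⟯ F := hx.sep
  have h := cp15_mem_ringB_iff (K := K) x y
  simp only [nrn_adicValuation_le_one_iff]
  exact h

end Places

section MainPlaces

variable {L k F F' Fb Fb' : Type*} [Field L] [Field k] [Field F] [Field F'] [Field Fb] [Field Fb']
  [Algebra L F] [Algebra L F'] [Algebra F F'] [IsScalarTower L F F']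
  [Algebra k Fb] [Algebra k Fb'] [Algebra Fb Fb'] [IsScalarTower k Fb Fb']
  {A : ValuationSubring L} {π : A →+* k} {W : ValuationSubring F} {W' : ValuationSubring F'}
  {ρ : W →+* Fb} {ρ' : W' →+* Fb'}

/-- Place form of `nrn_NRM` (this is hypothesis `hN0` of `ge_lift`, S18x/GeLift). -/
theorem nrn_NRM_iff_places {x : W} (hxF : cp15_IsSepCoordinate L F (x : F))
    (hxb : cp15_IsSepCoordinate k Fb (ρ x)) :
    nrn_NRM L k ρ x ↔
      ∀ y : Fb, (∀ Q : Place k Fb, Q.adicValuation (ρ x) ≤ 1 → Q.adicValuation y ≤ 1) →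
        ∃ u : W, (∀ P : Place L F, P.adicValuation (x : F) ≤ 1 → P.adicValuation (u : F) ≤ 1) ∧
          ρ u = y := by
  unfold nrn_NRM
  simp only [nrn_isIntegral_iff_regular hxF, nrn_isIntegral_iff_regular hxb]

/-- **NORM DESCENT OF NORMALITY, place form**: from `hN0` at the upper level to `hN0` at the lower
level. -/
theorem nrn_descent_places [IsAlgClosed k] (H : nd_RedPair W W' ρ ρ')
    (hmem : ∀ c : L, algebraMap L F c ∈ W ↔ c ∈ A)
    (hρalg : ∀ (c : L) (hc : c ∈ A) (hW : algebraMap L F c ∈ W),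
      ρ ⟨algebraMap L F c, hW⟩ = algebraMap k Fb (π ⟨c, hc⟩))
    (hπ : Function.Surjective π)
    (x : W) (x' : W') (hx' : (x' : F') = algebraMap F F' (x : F))
    (hxF : cp15_IsSepCoordinate L F (x : F)) (hxF' : cp15_IsSepCoordinate L F' (x' : F'))
    (hxb : cp15_IsSepCoordinate k Fb (ρ x)) (hxb' : cp15_IsSepCoordinate k Fb' (ρ' x'))
    [IsGalois Fb Fb']
    (hY : ∀ y : Fb', (∀ Q : Place k Fb', Q.adicValuation (ρ' x') ≤ 1 → Q.adicValuation y ≤ 1) →
        ∃ u : W', (∀ P : Place L F', P.adicValuation (x' : F') ≤ 1 → P.adicValuation (u : F') ≤ 1) ∧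
          ρ' u = y) :
    ∀ y : Fb, (∀ Q : Place k Fb, Q.adicValuation (ρ x) ≤ 1 → Q.adicValuation y ≤ 1) →
        ∃ u : W, (∀ P : Place L F, P.adicValuation (x : F) ≤ 1 → P.adicValuation (u : F) ≤ 1) ∧
          ρ u = y := by
  have : FFData k Fb (ρ x) := cp15_ffData hxb
  have : Algebra.IsSeparable k⟮ρ x⟯ Fb := hxb.sep
  rw [← nrn_NRM_iff_places hxF hxb]
  exact nrn_descent H hmem hρalg hπ x x' hx' ((nrn_NRM_iff_places hxF' hxb').mpr hY)

end MainPlaces

section Transfer

variable {K F F2 : Type*} [Field K] [Field F] [Field F2] [Algebra K F] [Algebra K F2]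

/-- Integrality over `K[x]` is transported by an algebra homomorphism. -/
theorem nrn_isIntegral_adjoin_map (e : F →ₐ[K] F2) (x z : F)
    (h : IsIntegral (Algebra.adjoin K {x}) z) : IsIntegral (Algebra.adjoin K {e x}) (e z) := by
  let _ : Algebra F F2 := e.toRingHom.toAlgebra
  have : IsScalarTower K F F2 := IsScalarTower.of_algebraMap_eq (fun c => (e.commutes c).symm)
  have h1 : IsIntegral (Algebra.adjoin K {x}) (algebraMap F F2 z) := by
    obtain ⟨p, hp, hpz⟩ := h
    refine ⟨p, hp, ?_⟩
    have : (algebraMap (Algebra.adjoin K {x}) F2) =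
        (algebraMap F F2).comp (algebraMap (Algebra.adjoin K {x}) F) := rfl
    rw [this, ← Polynomial.hom_eval₂, hpz, map_zero]
  exact (nrn_isIntegral_adjoin_iff (K := K) x (algebraMap F F2 z)).mp h1

variable {L k Fb Fb2 : Type*} [Field L] [Field k] [Field Fb] [Field Fb2]
  [Algebra k Fb] [Algebra k Fb2]

/-- Transfer of `nrn_NRM` along isomorphisms of the characteristic-zero field and of the residue
field compatible with the valuation subrings and the reduction maps (e.g. `q ↦ q²`). -/
theorem nrn_NRM_transfer {F F2 : Type*} [Field F] [Field F2] [Algebra L F] [Algebra L F2]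
    {W : ValuationSubring F} {W2 : ValuationSubring F2} {ρ : W →+* Fb} {ρ2 : W2 →+* Fb2}
    (eF : F ≃ₐ[L] F2) (eb : Fb ≃ₐ[k] Fb2)
    (hW : ∀ u : F, u ∈ W ↔ eF u ∈ W2)
    (hρ : ∀ u : W, eb (ρ u) = ρ2 ⟨eF u, (hW u).mp u.2⟩)
    (x : W) (x2 : W2) (hx : eF (x : F) = (x2 : F2))
    (h2 : nrn_NRM L k ρ2 x2) : nrn_NRM L k ρ x := by
  intro y hy
  have hx2 : ρ2 x2 = eb (ρ x) := by
    rw [hρ x]
    congr 1
    exact Subtype.ext hx.symm
  have hy2 : IsIntegral (Algebra.adjoin k {ρ2 x2}) (eb y) := by
    rw [hx2]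
    exact nrn_isIntegral_adjoin_map (eb : Fb →ₐ[k] Fb2) (ρ x) y hy
  obtain ⟨u2, hu2, hρu2⟩ := h2 (eb y) hy2
  have hu2W : eF.symm (u2 : F2) ∈ W := by
    rw [hW, AlgEquiv.apply_symm_apply]
    exact u2.2
  refine ⟨⟨eF.symm (u2 : F2), hu2W⟩, ?_, ?_⟩
  · have h3 := nrn_isIntegral_adjoin_map (eF.symm : F2 →ₐ[L] F) (x2 : F2) (u2 : F2) hu2
    have h4 : (eF.symm : F2 →ₐ[L] F) (x2 : F2) = (x : F) := by
      rw [← hx]
      exact eF.symm_apply_apply _
    rw [h4] at h3
    exact h3
  · apply eb.injective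
    rw [hρ, ← hρu2]
    congr 1
    exact Subtype.ext (eF.apply_symm_apply _)

end Transfer

end Fermat.Agent.S18x
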