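/-
S18x/NrmTopDefs (helper40, block NRM wiring (T) = TOP-GENERIC, part 0): CANONICAL NAMES for the
`h`-free Gauss data at an ARBITRARY auxiliary level `M` (`ℓ ∤ M`) over `(ℚ̄, A, k)`,
`k = IsLocalRing.ResidueField A`, so that all wiring files (`NrmTop`, `NrmFinalOdd`, `NrmFinalTwo`,
`NrmY`) target ONE literal shape.

* `nrmt_nf M A`          : the normal form `gwm_NF A (residue A) M`  (helper97 `gnf_normal_form`);
* `nrmt_W M A`           : the Gauss valuation subring of `FBar M`   (helper87 `gwm_W`);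
* `nrmt_rho ℓ M hℓM A hA` : `nrmt_W M A →+* modularFunctionFieldFullC k M` (helper81 `gwmi_rho`; no
                            `Algebra (ZMod ℓ) k` instance argument: it is built from `hA`);
* `nrmt_J M A`           : `j = jBar M` as an element of `nrmt_W M A`; `nrmt_J_coe`, `nrmt_rho_J`;
* `nrmt_HY ℓ M hℓM A hA`  : **the hypothesis `hY`** = `nrn_NRM ℚ̄ k (nrmt_rho ..) (nrmt_J ..)`
                            (normality of the finite chart of the `j`-line at level `M`);
* `nrmt_mem_of_iota`, `nrmt_rho_of_iota` : elements with `A`-integral `q`-expansion lie in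
  `nrmt_W M A`, and `ρ` is the coefficientwise reduction.
-/
import Mathlib
import Fermat.Agent.S18x.GaussWMInto3
import Fermat.Agent.S18x.GaussNF
import Fermat.Agent.S18x.GlueChar
import Fermat.Agent.S18x.NrnCore
import Fermat.Agent.S18x.InstGaussJ
import Fermat.Agent.S18x.PlsFbar

set_option autoImplicit false
set_option synthInstance.maxHeartbeats 400000
set_option linter.style.haveILetI false

namespace Fermat.Agent.S18x

open ModularCurve HahnSeries AlgebraicCurve Fermat.Agent.S24x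

noncomputable section

variable (M : ℕ) [NeZero M] (A : ValuationSubring (AlgebraicClosure ℚ))

/-- the `h`-free normal form at level `M` for the residue map of `A`. -/
theorem nrmt_nf : gwm_NF A (IsLocalRing.residue A) M :=
  gnf_normal_form A (IsLocalRing.residue A) M

/-- the canonical Gauss valuation subring of `F_M(ℚ̄)`. -/
def nrmt_W : ValuationSubring (FBar M) := gwm_W (nrmt_nf M A)

theorem nrmt_mem_W_iff (x : FBar M) :
    x ∈ nrmt_W M A ↔
      (x : LaurentSeries (AlgebraicClosure ℚ)) ∈ ga_W A (IsLocalRing.residue A) := Iff.rfl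

section Rho

variable (ℓ : ℕ) [Fact ℓ.Prime] (hℓM : ¬ ℓ ∣ M) (hA : A.LiesOverPrime ℓ)

/-- the canonical residue map `W_M → F̄_M(k)`. -/
def nrmt_rho : nrmt_W M A →+* modularFunctionFieldFullC (IsLocalRing.ResidueField A) M :=
  haveI : CharP (IsLocalRing.ResidueField A) ℓ := glu_charP A (Fact.out : ℓ.Prime) hA
  letI : Algebra (ZMod ℓ) (IsLocalRing.ResidueField A) := ZMod.algebra _ ℓ
  gwmi_rho ℓ hℓM (nrmt_nf M A) IsLocalRing.residue_surjective

theorem nrmt_rho_coe (x : nrmt_W M A) :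
    ((nrmt_rho M A ℓ hℓM hA x : modularFunctionFieldFullC (IsLocalRing.ResidueField A) M) :
      LaurentSeries (IsLocalRing.ResidueField A)) = gwm_rho0 (nrmt_nf M A) x := rfl

theorem nrmt_rho_surjective : Function.Surjective (nrmt_rho M A ℓ hℓM hA) := by
  haveI : CharP (IsLocalRing.ResidueField A) ℓ := glu_charP A (Fact.out : ℓ.Prime) hA
  letI : Algebra (ZMod ℓ) (IsLocalRing.ResidueField A) := ZMod.algebra _ ℓ
  exact gwmi_rho_surjective ℓ hℓM (nrmt_nf M A) IsLocalRing.residue_surjective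

theorem nrmt_rho_eq_zero_iff (x : nrmt_W M A) : nrmt_rho M A ℓ hℓM hA x = 0 ↔ ¬ IsUnit x := by
  haveI : CharP (IsLocalRing.ResidueField A) ℓ := glu_charP A (Fact.out : ℓ.Prime) hA
  letI : Algebra (ZMod ℓ) (IsLocalRing.ResidueField A) := ZMod.algebra _ ℓ
  exact gwmi_rho_eq_zero_iff ℓ hℓM (nrmt_nf M A) IsLocalRing.residue_surjective x

end Rho

/-- an element of `FBar M` with `A`-integral expansion lies in `nrmt_W M A`. -/
theorem nrmt_mem_of_iota {x : FBar M} {a : LaurentSeries A}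
    (hx : (x : LaurentSeries (AlgebraicClosure ℚ)) = coeffMap A.subtype a) :
    x ∈ nrmt_W M A := by
  rw [nrmt_mem_W_iff, hx]
  exact ga_iota_mem_W A (IsLocalRing.residue A) a

/-- `ρ` of an element with `A`-integral expansion `ι a` is the coefficientwise reduction. -/
theorem nrmt_rho_of_iota (ℓ : ℕ) [Fact ℓ.Prime] (hℓM : ¬ ℓ ∣ M) (hA : A.LiesOverPrime ℓ)
    {x : FBar M} {a : LaurentSeries A}
    (hx : (x : LaurentSeries (AlgebraicClosure ℚ)) = coeffMap A.subtype a)
    (hW : x ∈ nrmt_W M A) :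
    ((nrmt_rho M A ℓ hℓM hA ⟨x, hW⟩ :
      modularFunctionFieldFullC (IsLocalRing.ResidueField A) M) :
        LaurentSeries (IsLocalRing.ResidueField A)) = coeffMap (IsLocalRing.residue A) a := by
  rw [nrmt_rho_coe]
  exact gwm_rho0_of_eq_iota (nrmt_nf M A) ⟨x, hW⟩ a hx

/-- `j` as an element of the canonical `W_M`. -/
def nrmt_J : nrmt_W M A := ⟨jBar M, nrmt_mem_of_iota M A (gi_coe_jBar M A)⟩

theorem nrmt_J_coe : ((nrmt_J M A : nrmt_W M A) : FBar M) = jBar M := rfl

theorem nrmt_rho_J_coe (ℓ : ℕ) [Fact ℓ.Prime] (hℓM : ¬ ℓ ∣ M) (hA : A.LiesOverPrime ℓ) :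
    ((nrmt_rho M A ℓ hℓM hA (nrmt_J M A) :
      modularFunctionFieldFullC (IsLocalRing.ResidueField A) M) :
        LaurentSeries (IsLocalRing.ResidueField A)) = jqModC (IsLocalRing.ResidueField A) := by
  rw [nrmt_J, nrmt_rho_of_iota M A ℓ hℓM hA (gi_coe_jBar M A), coeffMap_jqModC]

theorem nrmt_rho_J (ℓ : ℕ) [Fact ℓ.Prime] (hℓM : ¬ ℓ ∣ M) (hA : A.LiesOverPrime ℓ) :
    nrmt_rho M A ℓ hℓM hA (nrmt_J M A) = pls_jb (IsLocalRing.ResidueField A) M :=
  Subtype.ext (nrmt_rho_J_coe M A ℓ hℓM hA)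

/-- **THE HYPOTHESIS `hY`**: normality of the finite chart of the `j`-line at the auxiliary
level `M` (ring form `nrn_NRM`, helper8):
`∀ y : F̄_M, IsIntegral k[j̄] y → ∃ u : W_M, IsIntegral ℚ̄[j] u ∧ ρ_M u = y`. -/
def nrmt_HY (ℓ : ℕ) [Fact ℓ.Prime] (hℓM : ¬ ℓ ∣ M) (hA : A.LiesOverPrime ℓ) : Prop :=
  nrn_NRM (AlgebraicClosure ℚ) (IsLocalRing.ResidueField A) (nrmt_rho M A ℓ hℓM hA) (nrmt_J M A)

theorem nrmt_HY_iff (ℓ : ℕ) [Fact ℓ.Prime] (hℓM : ¬ ℓ ∣ M) (hA : A.LiesOverPrime ℓ) :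
    nrmt_HY M A ℓ hℓM hA ↔
      ∀ y : modularFunctionFieldFullC (IsLocalRing.ResidueField A) M,
        IsIntegral (Algebra.adjoin (IsLocalRing.ResidueField A)
          {pls_jb (IsLocalRing.ResidueField A) M}) y →
        ∃ u : nrmt_W M A,
          IsIntegral (Algebra.adjoin (AlgebraicClosure ℚ) {jBar M}) (u : FBar M) ∧
            nrmt_rho M A ℓ hℓM hA u = y := by
  unfold nrmt_HY nrn_NRM
  rw [nrmt_rho_J, nrmt_J_coe]

end

end Fermat.Agent.S18x
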