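/-
S18 project, block NRM row N6 (helper94, prefix `nryp_`): the coercion
`R_Y = purb_RY ℓ e h c N → F_Y = purb_LY e h N → ℚ((q))` as a ring homomorphism (`incl` of
`nry_main` / `nryg_main`), and its compatibility with the coercions of `B₀ = purb_B0 ℓ h c`.
-/
import Fermat.Agent.S18x.LevelYDefs

set_option autoImplicit false

namespace Fermat.Agent.S18x

open ModularCurve Fermat.Agent.S28x

noncomputable section

variable (ℓ e : ℕ) [NeZero e] (h : LaurentSeries ℚ) (c : Polynomial ℤ) (N : ℕ) [NeZero N]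

/-- `R_Y → ℚ((q))`. -/
def nryp_incl : ↥(purb_RY ℓ e h c N) →+* LaurentSeries ℚ where
  toFun t := ((t : ↥(purb_LY e h N)) : LaurentSeries ℚ)
  map_one' := by
    show (((1 : ↥(purb_RY ℓ e h c N)) : ↥(purb_LY e h N)) : LaurentSeries ℚ) = 1
    rw [OneMemClass.coe_one, OneMemClass.coe_one]
  map_mul' a b := by
    show (((a * b : ↥(purb_RY ℓ e h c N)) : ↥(purb_LY e h N)) : LaurentSeries ℚ) = _
    rw [MulMemClass.coe_mul, MulMemClass.coe_mul]
  map_zero' := by
    show (((0 : ↥(purb_RY ℓ e h c N)) : ↥(purb_LY e h N)) : LaurentSeries ℚ) = 0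
    rw [ZeroMemClass.coe_zero, ZeroMemClass.coe_zero]
  map_add' a b := by
    show (((a + b : ↥(purb_RY ℓ e h c N)) : ↥(purb_LY e h N)) : LaurentSeries ℚ) = _
    rw [AddMemClass.coe_add, AddMemClass.coe_add]

theorem nryp_incl_apply (t : ↥(purb_RY ℓ e h c N)) :
    nryp_incl ℓ e h c N t = ((t : ↥(purb_LY e h N)) : LaurentSeries ℚ) := rfl

/-- on `B₀` the map is the coercion `B₀ → K_Y → ℚ((q))`. -/
theorem nryp_incl_algebraMap (b : ↥(purb_B0 ℓ h c)) :
    nryp_incl ℓ e h c N (algebraMap ↥(purb_B0 ℓ h c) ↥(purb_RY ℓ e h c N) b) =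
      ((b : ↥(purb_KY h)) : LaurentSeries ℚ) := by
  rw [nryp_incl_apply]
  rfl

theorem nryp_incl_injective : Function.Injective (nryp_incl ℓ e h c N) := by
  intro a b hab
  apply Subtype.ext
  apply Subtype.ext
  exact hab

/-- an element of `F_Y` integral over `B₀` is in the image of `R_Y`. -/
theorem nryp_exists_of_isIntegral {y : LaurentSeries ℚ} (hy : y ∈ purb_LY e h N)
    (hint : IsIntegral ↥(purb_B0 ℓ h c) (⟨y, hy⟩ : ↥(purb_LY e h N))) :
    ∃ t : ↥(purb_RY ℓ e h c N), nryp_incl ℓ e h c N t = y :=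
  ⟨⟨⟨y, hy⟩, hint⟩, rfl⟩

end

end Fermat.Agent.S18x
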