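/-
S18 project, block NRM row N6 (W2, helper19, prefix `nryv_`): the CONCRETE inputs of helper94's
`nry_main` / `nryg_main` for

  `B₀ := purb_B0 ℓ h c`, `R := purb_RY ℓ e h c N`, `incl := nryp_incl ℓ e h c N`,

where the coordinate `h : ℚ((q))` is `toQ ℓ hZ` for an `ℓ`-integral series `hZ` (hypothesis
`hh : toQ ℓ hZ = h`, e.g. `lyn_toQ_X3Z`, `lyn_toQ_muZ`).

* `nryv_LY_le_fracField` : `F_Y ⊆` quotients of `ℓ`-integral series;
* `nryv_hW`     : `R_Y ⊆ gaussRing ℓ`                              (input `hW`);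
* `nryv_hB0le`, `nryv_hconst`, `nryv_hcoord`                        (inputs `hB₀le`, `hconst`, `hcoord`);
* `nryv_hp`     : the reduction kills `ℓ`                           (input `hp`);
* `nryv_hje`    : `j(q^e) = P(h) / c(h)^m ∈ B₀`                     (input `hje`), with the instances
  `nryv_hje_X3` (`ℓ` odd, `e = 2`) and `nryv_hje_mu` (`ℓ = 2`, `e = 3`).
-/
import Fermat.Agent.S18x.NrmYIncl
import Fermat.Agent.S18x.NrmYDefs
import Fermat.Agent.S18x.PuriGauss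
import Fermat.Agent.S18x.LevelYInst
import Fermat.Agent.S28x.GaussRing

set_option autoImplicit false
set_option linter.unusedSectionVars false

namespace Fermat.Agent.S18x

open ModularCurve HahnSeries Fermat.Agent.S28x Polynomial

noncomputable section

section Generic

variable (ℓ e : ℕ) [Fact ℓ.Prime] [NeZero e] (hZ : LaurentSeries (ZL ℓ)) (c : ℤ[X])
  (N : ℕ) [NeZero N] {h : LaurentSeries ℚ} (hh : toQ ℓ hZ = h)

/-! ### `F_Y` consists of quotients of `ℓ`-integral series -/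

include hh in
theorem nryv_KY_le_fracField : purb_KY h ≤ gr_fracField ℓ := by
  subst hh
  rw [purb_KY, IntermediateField.adjoin_le_iff]
  intro x hx
  rw [Set.mem_singleton_iff] at hx
  subst hx
  exact ⟨1, hZ, one_ne_zero, by rw [map_one, one_mul]⟩

theorem nryv_FNe_le_fracField : purb_FNe e N ≤ gr_fracField ℓ := by
  rintro x ⟨z, hz, rfl⟩
  obtain ⟨u, v, hu, huv⟩ := exists_frac_of_mem_full ℓ N hz
  refine ⟨qExpand (ZL ℓ) e u, qExpand (ZL ℓ) e v, ?_, ?_⟩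
  · intro h0
    exact hu (qExpand_injective e (by rw [h0, map_zero]))
  · show toQ ℓ (qExpand (ZL ℓ) e u) * qExpand ℚ e z = toQ ℓ (qExpand (ZL ℓ) e v)
    rw [gr_toQ_qExpand, gr_toQ_qExpand, ← map_mul, huv]

include hh in
theorem nryv_LY_le_fracField : purb_LY e h N ≤ gr_fracField ℓ :=
  sup_le (nryv_FNe_le_fracField ℓ e N) (nryv_KY_le_fracField ℓ hZ hh)

/-! ### `B₀ ⊆ W` and `R_Y ⊆ W` -/

/-- the hypothesis `hcb` of `PuriGauss` from `hc` of `nry_main`. -/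
theorem nryv_hcb (hc : nry_cval c (red ℓ hZ) ≠ 0) :
    Polynomial.eval₂ (Int.castRingHom (LaurentSeries (ZMod ℓ)))
      (rho ℓ ⟨toQ ℓ hZ, toQ_mem_gaussRing ℓ hZ⟩) c ≠ 0 := by
  rw [rho_toQ]
  exact hc

include hh in
theorem nryv_B0_mem_gaussRing (hc : nry_cval c (red ℓ hZ) ≠ 0) (b : ↥(purb_B0 ℓ h c)) :
    ((b : ↥(purb_KY h)) : LaurentSeries ℚ) ∈ gaussRing ℓ := by
  subst hh
  exact puri_B0_mem_gaussRing (toQ_mem_gaussRing ℓ hZ) c (nryv_hcb ℓ hZ c hc) b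

/-- `B₀ → W`. -/
def nryv_B0toW (hc : nry_cval c (red ℓ hZ) ≠ 0) : ↥(purb_B0 ℓ h c) →+* gaussRing ℓ where
  toFun b := ⟨((b : ↥(purb_KY h)) : LaurentSeries ℚ), nryv_B0_mem_gaussRing ℓ hZ c hh hc b⟩
  map_one' := by
    apply Subtype.ext
    show (((1 : ↥(purb_B0 ℓ h c)) : ↥(purb_KY h)) : LaurentSeries ℚ) = 1
    rw [OneMemClass.coe_one, OneMemClass.coe_one]
  map_mul' a b := by
    apply Subtype.ext
    show (((a * b : ↥(purb_B0 ℓ h c)) : ↥(purb_KY h)) : LaurentSeries ℚ) = _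
    rw [MulMemClass.coe_mul, MulMemClass.coe_mul]
    rfl
  map_zero' := by
    apply Subtype.ext
    show (((0 : ↥(purb_B0 ℓ h c)) : ↥(purb_KY h)) : LaurentSeries ℚ) = 0
    rw [ZeroMemClass.coe_zero, ZeroMemClass.coe_zero]
  map_add' a b := by
    apply Subtype.ext
    show (((a + b : ↥(purb_B0 ℓ h c)) : ↥(purb_KY h)) : LaurentSeries ℚ) = _
    rw [AddMemClass.coe_add, AddMemClass.coe_add]
    rfl

include hh in
/-- **input `hW`**: `R_Y` lies in the Gauss ring. -/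
theorem nryv_hW (hc : nry_cval c (red ℓ hZ) ≠ 0) (t : ↥(purb_RY ℓ e h c N)) :
    nryp_incl ℓ e h c N t ∈ gaussRing ℓ := by
  have hfrac : ∃ u v : LaurentSeries (ZL ℓ), u ≠ 0 ∧
      toQ ℓ u * nryp_incl ℓ e h c N t = toQ ℓ v :=
    nryv_LY_le_fracField ℓ e hZ N hh (t : ↥(purb_LY e h N)).2
  refine mem_gaussRing_of_isIntegral ℓ hfrac ?_
  have hint : IsIntegral ↥(purb_B0 ℓ h c) (t : ↥(purb_LY e h N)) := t.2
  exact IsIntegral.map_of_comp_eq (nryv_B0toW ℓ hZ c hh hc)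
    (algebraMap ↥(purb_LY e h N) (LaurentSeries ℚ)) (RingHom.ext fun b => rfl) hint

/-! ### the image of `B₀` -/

theorem nryv_coe_algebraMap_rat (h : LaurentSeries ℚ) (r : ℚ) :
    ((algebraMap ℚ ↥(purb_KY h) r : ↥(purb_KY h)) : LaurentSeries ℚ) = HahnSeries.C r := by
  have h2 : (algebraMap ↥(purb_KY h) (LaurentSeries ℚ)).comp
      (algebraMap ℚ ↥(purb_KY h)) = HahnSeries.C := RingHom.ext_rat _ _
  exact congrArg (fun f => f r) h2

theorem nryv_coe_cK (h : LaurentSeries ℚ) :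
    ((purb_cK h c : ↥(purb_KY h)) : LaurentSeries ℚ) = nry_cval c h :=
  puri_coe_cK c

include hh in
/-- **input `hB₀le`**. -/
theorem nryv_hB0le (b : ↥(purb_B0 ℓ h c)) :
    nryp_incl ℓ e h c N (algebraMap ↥(purb_B0 ℓ h c) ↥(purb_RY ℓ e h c N) b) ∈
      Subring.closure (nry_gens hZ c) := by
  subst hh
  rw [nryp_incl_algebraMap]
  have hle : purb_B0 ℓ (toQ ℓ hZ) c ≤
      (Subring.closure (nry_gens hZ c)).comap
        (algebraMap ↥(purb_KY (toQ ℓ hZ)) (LaurentSeries ℚ)) := by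
    rw [purb_B0, Subring.closure_le]
    rintro x (⟨z, rfl⟩ | hx | hx)
    · show ((algebraMap ℚ ↥(purb_KY (toQ ℓ hZ)) (z : ℚ) : ↥(purb_KY (toQ ℓ hZ))) :
        LaurentSeries ℚ) ∈ Subring.closure (nry_gens hZ c)
      rw [nryv_coe_algebraMap_rat]
      exact Subring.subset_closure (Or.inl ⟨z, rfl⟩)
    · rw [Set.mem_singleton_iff.mp hx]
      exact Subring.subset_closure (Or.inr (Or.inl rfl))
    · rw [Set.mem_singleton_iff.mp hx]
      show (((purb_cK (toQ ℓ hZ) c)⁻¹ : ↥(purb_KY (toQ ℓ hZ))) : LaurentSeries ℚ) ∈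
        Subring.closure (nry_gens hZ c)
      push_cast
      rw [nryv_coe_cK]
      exact Subring.subset_closure (Or.inr (Or.inr rfl))
  exact hle b.2

/-- **input `hconst`**. -/
theorem nryv_hconst (h : LaurentSeries ℚ) (z : ZL ℓ) : ∃ b : ↥(purb_B0 ℓ h c),
    nryp_incl ℓ e h c N (algebraMap ↥(purb_B0 ℓ h c) ↥(purb_RY ℓ e h c N) b) =
      HahnSeries.C (z : ℚ) := by
  refine ⟨⟨algebraMap ℚ ↥(purb_KY h) (z : ℚ), purb_ZL_mem_B0 ℓ h c z⟩, ?_⟩
  rw [nryp_incl_algebraMap]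
  exact nryv_coe_algebraMap_rat h (z : ℚ)

include hh in
/-- **input `hcoord`**. -/
theorem nryv_hcoord : ∃ b : ↥(purb_B0 ℓ h c),
    nryp_incl ℓ e h c N (algebraMap ↥(purb_B0 ℓ h c) ↥(purb_RY ℓ e h c N) b) = toQ ℓ hZ := by
  subst hh
  refine ⟨⟨purb_hK (toQ ℓ hZ), purb_hK_mem_B0 ℓ (toQ ℓ hZ) c⟩, ?_⟩
  rw [nryp_incl_algebraMap]
  rfl

/-- **input `hp`**: the reduction kills `ℓ`. -/
theorem nryv_hp (h : LaurentSeries ℚ) (hW : ∀ t, nryp_incl ℓ e h c N t ∈ gaussRing ℓ) :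
    nry_rhoR (nryp_incl ℓ e h c N) hW
      (algebraMap ↥(purb_B0 ℓ h c) ↥(purb_RY ℓ e h c N) ((ℓ : ℕ) : ↥(purb_B0 ℓ h c))) = 0 := by
  rw [map_natCast, map_natCast]
  have h0 := gr_rho_natCast_self ℓ
  rwa [map_natCast] at h0

/-- **input `hje`** (generic): `j(q^e) = P(h) · (1/c(h))^m` lies in `B₀`. -/
theorem nryv_hje (h : LaurentSeries ℚ) (P : ℤ[X]) (m : ℕ)
    (hid : qExpand ℚ e jq = nry_cval P h * ((nry_cval c h)⁻¹) ^ m) :
    ∃ b : ↥(purb_B0 ℓ h c),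
      nryp_incl ℓ e h c N (algebraMap ↥(purb_B0 ℓ h c) ↥(purb_RY ℓ e h c N) b) =
        qExpand ℚ e jq := by
  refine ⟨⟨Polynomial.aeval (purb_hK h) P * ((purb_cK h c)⁻¹) ^ m,
    Subring.mul_mem _ (puri_aeval_int_mem_B0 ℓ h c P)
      (Subring.pow_mem _ (purb_cK_inv_mem_B0 ℓ h c) m)⟩, ?_⟩
  rw [nryp_incl_algebraMap, hid]
  push_cast
  rw [nryv_coe_cK]
  congr 1
  exact puri_coe_cK P

end Generic

/-! ### the two instances of `hje` -/

section Instances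

theorem nryv_cval_c3 {R : Type*} [CommRing R] (x : R) : nry_cval purb_c3 x = x ^ 2 - 64 := by
  simp [nry_cval, purb_c3]

theorem nryv_cval_c2 {R : Type*} [CommRing R] (x : R) : nry_cval lyn_c2 x = x ^ 3 - 27 := by
  simp [nry_cval, lyn_c2]

/-- `ℓ` odd: `j(q²) = (X₃² + 192)³ / (X₃² - 64)² ∈ B₀`. -/
theorem nryv_hje_X3 (ℓ : ℕ) [Fact ℓ.Prime] (N : ℕ) [NeZero N] :
    ∃ b : ↥(purb_B0 ℓ purb_X3Q purb_c3),
      nryp_incl ℓ 2 purb_X3Q purb_c3 N
        (algebraMap ↥(purb_B0 ℓ purb_X3Q purb_c3) ↥(purb_RY ℓ 2 purb_X3Q purb_c3 N) b) =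
          qExpand ℚ 2 jq := by
  refine nryv_hje ℓ 2 purb_c3 N purb_X3Q ((X ^ 2 + 192) ^ 3) 2 ?_
  have : CharZero (LaurentSeries ℚ) :=
    charZero_of_injective_algebraMap (algebraMap ℚ (LaurentSeries ℚ)).injective
  have hP : nry_cval ((X ^ 2 + 192) ^ 3 : ℤ[X]) purb_X3Q = (purb_X3Q ^ 2 + 192) ^ 3 := by
    simp [nry_cval, Polynomial.eval₂_pow, Polynomial.eval₂_add, Polynomial.eval₂_X,
      Polynomial.eval₂_ofNat]
  rw [hP, nryv_cval_c3]
  have hid := purb_X3Q_identity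
  have hne : purb_X3Q ^ 2 - 64 ≠ 0 := by
    intro h0
    rw [h0] at hid
    have h1 : purb_X3Q ^ 2 = 64 := sub_eq_zero.mp h0
    rw [h1] at hid
    norm_num at hid
  rw [hid, inv_pow, mul_assoc, mul_inv_cancel₀ (pow_ne_zero 2 hne), mul_one]

/-- `ℓ = 2`: `j(q³) = μ³ (μ³ + 216)³ / (μ³ - 27)³ ∈ B₀`. -/
theorem nryv_hje_mu (N : ℕ) [NeZero N] :
    ∃ b : ↥(purb_B0 2 lyn_muQ lyn_c2),
      nryp_incl 2 3 lyn_muQ lyn_c2 N
        (algebraMap ↥(purb_B0 2 lyn_muQ lyn_c2) ↥(purb_RY 2 3 lyn_muQ lyn_c2 N) b) =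
          qExpand ℚ 3 jq := by
  have : Fact (Nat.Prime 2) := ⟨Nat.prime_two⟩
  have : CharZero (LaurentSeries ℚ) :=
    charZero_of_injective_algebraMap (algebraMap ℚ (LaurentSeries ℚ)).injective
  refine nryv_hje 2 3 lyn_c2 N lyn_muQ (X ^ 3 * (X ^ 3 + 216) ^ 3) 3 ?_
  have hP : nry_cval (X ^ 3 * (X ^ 3 + 216) ^ 3 : ℤ[X]) lyn_muQ =
      lyn_muQ ^ 3 * (lyn_muQ ^ 3 + 216) ^ 3 := by
    simp only [nry_cval, Polynomial.eval₂_mul, Polynomial.eval₂_pow, Polynomial.eval₂_add,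
      Polynomial.eval₂_X, Polynomial.eval₂_ofNat]
  rw [hP, nryv_cval_c2]
  have hid := lyn_muQ_identity
  have hne : lyn_muQ ^ 3 - 27 ≠ 0 := by
    intro h0
    rw [h0] at hid
    have h1 : lyn_muQ ^ 3 = 27 := sub_eq_zero.mp h0
    rw [h1] at hid
    norm_num at hid
  rw [hid, inv_pow, mul_assoc, mul_inv_cancel₀ (pow_ne_zero 3 hne), mul_one]

end Instances

end

end Fermat.Agent.S18x
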