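/-
S18 project, block NRM, row N6 input (c) (helper22, prefix `nryj_`; leaf of helper94's `nry_main`).

* `nryj_isIntegral_of_relation` : a two-variable monic relation `P(y, z) = 0` over `ℤ_(ℓ)((q))`
  transports to an integrality statement `IsIntegral A w` as soon as `toQ y` comes from `A` and
  `toQ z = incl w`.
* `nryj_jd_mem_RY` : **`j(q^d) ∈ R_Y` for every `d ∣ M`**, where `F_Y = purb_LY e h N'` has been
  identified with `F_M = modularFunctionFieldFull M` and `j(q^e)` lies in the base ring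
  `B₀ = ℤ_(ℓ)[h, 1/c(h)]`: `j(q)` is integral over `ℤ_(ℓ)[j(q^e)]` (`Φ_e`, monic in both variables)
  and `j(q^d)` is integral over `ℤ_(ℓ)[j(q)]`.
* `nryj_hje_X3` / `nryj_hje_mu` : the hypothesis `hje` for the two coordinates of the project:
  `(e, h, c) = (2, purb_X3Q, X² - 64)` and `(3, lyn_muQ, X³ - 27)`, for every `ℓ`.
-/
import Fermat.Agent.S18x.LevelYInst
import Fermat.Agent.S28x.ModPolyConsFinal

set_option autoImplicit false

noncomputable section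

namespace Fermat.Agent.S18x

open ModularCurve Fermat.Agent.S28x Polynomial

section General

variable (ℓ : ℕ)

theorem nryj_toQ_C (z : ZL ℓ) : toQ ℓ (HahnSeries.C z) = HahnSeries.C (z : ℚ) := by
  rw [HahnSeries.C_apply, HahnSeries.C_apply]
  exact coeffMap_single _ 0 z

theorem nryj_toQ_jq : toQ ℓ (jqModC (ZL ℓ)) = jq := by
  show coeffMap _ (jqModC (ZL ℓ)) = jq
  rw [coeffMap_jqModC, jqModC_rat]

theorem nryj_toQ_jqd (d : ℕ) [NeZero d] :
    toQ ℓ (qExpand (ZL ℓ) d (jqModC (ZL ℓ))) = qExpand ℚ d jq := by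
  show coeffMap _ (qExpand (ZL ℓ) d (jqModC (ZL ℓ))) = qExpand ℚ d jq
  rw [coeffMap_qExpand, coeffMap_jqModC, jqModC_rat]

/-- transport of a two-variable monic relation over `ℤ_(ℓ)((q))` to an integrality statement. -/
theorem nryj_isIntegral_of_relation {A L : Type*} [CommRing A] [CommRing L] [Algebra A L]
    (incl : L →+* LaurentSeries ℚ) (hincl : Function.Injective incl)
    (κ : ZL ℓ →+* A)
    (hκ : ∀ z : ZL ℓ, incl (algebraMap A L (κ z)) = HahnSeries.C (z : ℚ))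
    (y z : LaurentSeries (ZL ℓ)) (P : Polynomial (Polynomial (ZL ℓ))) (hP : P.Monic)
    (hPz : P.eval₂ (Polynomial.aeval (R := ZL ℓ) y).toRingHom z = 0)
    (a : A) (ha : incl (algebraMap A L a) = toQ ℓ y) (w : L) (hw : incl w = toQ ℓ z) :
    IsIntegral A w := by
  let ψ : Polynomial (ZL ℓ) →+* A := Polynomial.eval₂RingHom κ a
  have hcomp : incl.comp ((algebraMap A L).comp ψ)
      = (toQ ℓ).comp (Polynomial.aeval (R := ZL ℓ) y).toRingHom := by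
    refine Polynomial.ringHom_ext (fun r => ?_) ?_
    · have h1 : ψ (Polynomial.C r) = κ r := by
        simp [ψ]
      have h2 : (Polynomial.aeval (R := ZL ℓ) y).toRingHom (Polynomial.C r) = HahnSeries.C r := by
        show Polynomial.aeval y (Polynomial.C r) = HahnSeries.C r
        have h3 : algebraMap (ZL ℓ) (PowerSeries (ZL ℓ)) r = PowerSeries.C r := by
          simp
        rw [Polynomial.aeval_C, HahnSeries.algebraMap_apply', h3, HahnSeries.ofPowerSeries_C]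
      rw [RingHom.comp_apply, RingHom.comp_apply, RingHom.comp_apply, h1, h2, hκ, nryj_toQ_C]
    · have h1 : ψ Polynomial.X = a := by
        simp [ψ]
      have h2 : (Polynomial.aeval (R := ZL ℓ) y).toRingHom Polynomial.X = y := by
        show Polynomial.aeval y Polynomial.X = y
        rw [Polynomial.aeval_X]
      rw [RingHom.comp_apply, RingHom.comp_apply, RingHom.comp_apply, h1, h2, ha]
  refine ⟨P.map ψ, hP.map ψ, ?_⟩
  apply hincl
  rw [map_zero, Polynomial.eval₂_map, Polynomial.hom_eval₂, hw, hcomp, ← Polynomial.hom_eval₂,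
    hPz, map_zero]

end General

section Main

variable (ℓ : ℕ) (e : ℕ) [NeZero e] (h : LaurentSeries ℚ) (c : Polynomial ℤ) (N' : ℕ) [NeZero N']

/-- the structure map `ℤ_(ℓ) → B₀`. -/
def nryj_kappa : ZL ℓ →+* ↥(purb_B0 ℓ h c) :=
  RingHom.codRestrict
    ((algebraMap ℚ ↥(purb_KY h)).comp (GaloisRep.ratLocalizedAt ℓ).subtype) (purb_B0 ℓ h c)
    (fun z => purb_ZL_mem_B0 ℓ h c z)

theorem nryj_kappa_coe (z : ZL ℓ) :
    (((algebraMap ↥(purb_B0 ℓ h c) ↥(purb_LY e h N') (nryj_kappa ℓ h c z) : ↥(purb_LY e h N')) :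
      LaurentSeries ℚ)) = HahnSeries.C (z : ℚ) := by
  have h1 : (((algebraMap ↥(purb_B0 ℓ h c) ↥(purb_LY e h N') (nryj_kappa ℓ h c z) :
      ↥(purb_LY e h N')) : LaurentSeries ℚ))
        = ((algebraMap ℚ ↥(purb_KY h) (z : ℚ) : ↥(purb_KY h)) : LaurentSeries ℚ) := rfl
  rw [h1, HahnSeries.C_eq_algebraMap]
  simp only [eq_ratCast, SubfieldClass.coe_ratCast]

theorem nryj_algebraMap_B0_LY_coe (b : ↥(purb_B0 ℓ h c)) :
    (((algebraMap ↥(purb_B0 ℓ h c) ↥(purb_LY e h N') b : ↥(purb_LY e h N')) :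
      LaurentSeries ℚ)) = ((b : ↥(purb_KY h)) : LaurentSeries ℚ) := rfl

/-- **`j(q^d) ∈ R_Y`** for all `d ∣ M` (input (c) `hjR` of `nry_main`). -/
theorem nryj_jd_mem_RY [Fact e.Prime] (M : ℕ) [NeZero M]
    (hLY : purb_LY e h N' = modularFunctionFieldFull M)
    (hje : ∃ b : ↥(purb_B0 ℓ h c), ((b : ↥(purb_KY h)) : LaurentSeries ℚ) = qExpand ℚ e jq)
    (d : ℕ) [NeZero d] (hd : d ∣ M) :
    ∃ t : ↥(purb_RY ℓ e h c N'),
      (((t : ↥(purb_LY e h N')) : LaurentSeries ℚ)) = qExpand ℚ d jq := by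
  obtain ⟨be, hbe⟩ := hje
  have hjqmem : jq ∈ purb_LY e h N' := by
    rw [hLY]
    have := jqd_mem_full M (one_dvd M)
    rwa [qExpand_one_apply] at this
  have hxmem : qExpand ℚ d jq ∈ purb_LY e h N' := by
    rw [hLY]
    exact jqd_mem_full M hd
  have hinj : Function.Injective ((purb_LY e h N').val : ↥(purb_LY e h N') →+* LaurentSeries ℚ) :=
    Subtype.val_injective
  -- step 1 : `j(q)` is integral over `B₀`
  obtain ⟨Φ, hΦ, -, -, h2⟩ := mpcf_exists_modPoly_ring (ZL ℓ) e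
  have hint1 : IsIntegral ↥(purb_B0 ℓ h c) (⟨jq, hjqmem⟩ : ↥(purb_LY e h N')) :=
    nryj_isIntegral_of_relation ℓ ((purb_LY e h N').val : ↥(purb_LY e h N') →+* LaurentSeries ℚ)
      hinj (nryj_kappa ℓ h c) (nryj_kappa_coe ℓ e h c N')
      (qExpand (ZL ℓ) e (jqModC (ZL ℓ))) (jqModC (ZL ℓ)) Φ hΦ h2 be
      ((nryj_algebraMap_B0_LY_coe ℓ e h c N' be).trans (hbe.trans (nryj_toQ_jqd ℓ e).symm))
      ⟨jq, hjqmem⟩ (nryj_toQ_jq ℓ).symm
  -- step 2 : `j(q^d)` is integral over `R_Y`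
  obtain ⟨P, hP, hPz⟩ := mpcf_exists_monic_jqd (ZL ℓ) d
  have hint2 : IsIntegral ↥(purb_RY ℓ e h c N') (⟨qExpand ℚ d jq, hxmem⟩ : ↥(purb_LY e h N')) :=
    nryj_isIntegral_of_relation ℓ ((purb_LY e h N').val : ↥(purb_LY e h N') →+* LaurentSeries ℚ)
      hinj ((algebraMap ↥(purb_B0 ℓ h c) ↥(purb_RY ℓ e h c N')).comp (nryj_kappa ℓ h c))
      (fun z => nryj_kappa_coe ℓ e h c N' z)
      (jqModC (ZL ℓ)) (qExpand (ZL ℓ) d (jqModC (ZL ℓ))) P hP hPz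
      (⟨⟨jq, hjqmem⟩, hint1⟩ : ↥(purb_RY ℓ e h c N')) (nryj_toQ_jq ℓ).symm
      ⟨qExpand ℚ d jq, hxmem⟩ (nryj_toQ_jqd ℓ d).symm
  have hmem : (⟨qExpand ℚ d jq, hxmem⟩ : ↥(purb_LY e h N')) ∈
      integralClosure ↥(purb_RY ℓ e h c N') ↥(purb_LY e h N') := hint2
  rw [show purb_RY ℓ e h c N' = integralClosure ↥(purb_B0 ℓ h c) ↥(purb_LY e h N') from rfl,
    integralClosure_idem, Algebra.mem_bot] at hmem
  obtain ⟨t, ht⟩ := hmem
  exact ⟨t, congrArg Subtype.val ht⟩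

end Main

/-! ### the hypothesis `hje` for the two coordinates -/

section Instances

variable (ℓ : ℕ)

theorem nryj_cK_c3 (h : LaurentSeries ℚ) : purb_cK h purb_c3 = purb_hK h ^ 2 - 64 := by
  simp [purb_cK, purb_c3, map_ofNat]

theorem nryj_cK_c2 (h : LaurentSeries ℚ) : purb_cK h lyn_c2 = purb_hK h ^ 3 - 27 := by
  simp [purb_cK, lyn_c2, map_ofNat]

/-- `j(q²) = (h² + 192)³ / (h² - 64)² ∈ B₀` for every coordinate `h` satisfying the level-`2`
identity. -/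
theorem nryj_hje_of_identity_two (h : LaurentSeries ℚ)
    (hid : (h ^ 2 + 192) ^ 3 = qExpand ℚ 2 jq * (h ^ 2 - 64) ^ 2) :
    ∃ b : ↥(purb_B0 ℓ h purb_c3), ((b : ↥(purb_KY h)) : LaurentSeries ℚ) = qExpand ℚ 2 jq := by
  have hne : h ^ 2 - 64 ≠ 0 := by
    intro h0
    rw [h0] at hid
    have h64 : h ^ 2 = 64 := sub_eq_zero.1 h0
    rw [h64] at hid
    have : CharZero (LaurentSeries ℚ) := algebraRat.charZero _
    norm_num at hid
  have hmem : (purb_hK h ^ 2 + 192) ^ 3 * ((purb_cK h purb_c3)⁻¹) ^ 2 ∈ purb_B0 ℓ h purb_c3 :=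
    Subring.mul_mem _
      (Subring.pow_mem _ (Subring.add_mem _ (Subring.pow_mem _ (purb_hK_mem_B0 ℓ h purb_c3) 2)
        (ofNat_mem _ 192)) 3)
      (Subring.pow_mem _ (purb_cK_inv_mem_B0 ℓ h purb_c3) 2)
  refine ⟨⟨_, hmem⟩, ?_⟩
  have hcoe : (((purb_hK h ^ 2 + 192) ^ 3 * ((purb_cK h purb_c3)⁻¹) ^ 2 : ↥(purb_KY h)) :
      LaurentSeries ℚ) = (h ^ 2 + 192) ^ 3 * ((h ^ 2 - 64)⁻¹) ^ 2 := by
    rw [nryj_cK_c3]
    simp [purb_hK]
    rfl
  show (((purb_hK h ^ 2 + 192) ^ 3 * ((purb_cK h purb_c3)⁻¹) ^ 2 : ↥(purb_KY h)) :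
      LaurentSeries ℚ) = qExpand ℚ 2 jq
  rw [hcoe, hid]
  field_simp

/-- `j(q³) = μ³ (μ³ + 216)³ / (μ³ - 27)³ ∈ B₀` for every coordinate `μ` satisfying the Hesse
identity. -/
theorem nryj_hje_of_identity_three (h : LaurentSeries ℚ)
    (hid : h ^ 3 * (h ^ 3 + 216) ^ 3 = qExpand ℚ 3 jq * (h ^ 3 - 27) ^ 3) :
    ∃ b : ↥(purb_B0 ℓ h lyn_c2), ((b : ↥(purb_KY h)) : LaurentSeries ℚ) = qExpand ℚ 3 jq := by
  have hne : h ^ 3 - 27 ≠ 0 := by
    intro h0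
    rw [h0] at hid
    have h27 : h ^ 3 = 27 := sub_eq_zero.1 h0
    rw [h27] at hid
    have : CharZero (LaurentSeries ℚ) := algebraRat.charZero _
    norm_num at hid
  have hmem : purb_hK h ^ 3 * (purb_hK h ^ 3 + 216) ^ 3 * ((purb_cK h lyn_c2)⁻¹) ^ 3
      ∈ purb_B0 ℓ h lyn_c2 :=
    Subring.mul_mem _
      (Subring.mul_mem _ (Subring.pow_mem _ (purb_hK_mem_B0 ℓ h lyn_c2) 3)
        (Subring.pow_mem _ (Subring.add_mem _ (Subring.pow_mem _ (purb_hK_mem_B0 ℓ h lyn_c2) 3)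
          (ofNat_mem _ 216)) 3))
      (Subring.pow_mem _ (purb_cK_inv_mem_B0 ℓ h lyn_c2) 3)
  refine ⟨⟨_, hmem⟩, ?_⟩
  have hcoe : ((purb_hK h ^ 3 * (purb_hK h ^ 3 + 216) ^ 3 * ((purb_cK h lyn_c2)⁻¹) ^ 3 :
      ↥(purb_KY h)) : LaurentSeries ℚ) = h ^ 3 * (h ^ 3 + 216) ^ 3 * ((h ^ 3 - 27)⁻¹) ^ 3 := by
    rw [nryj_cK_c2]
    simp [purb_hK]
    rfl
  show ((purb_hK h ^ 3 * (purb_hK h ^ 3 + 216) ^ 3 * ((purb_cK h lyn_c2)⁻¹) ^ 3 :
      ↥(purb_KY h)) : LaurentSeries ℚ) = qExpand ℚ 3 jq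
  rw [hcoe, hid]
  field_simp

/-- `hje` for `(e, h, c) = (2, X₃, X² - 64)` (the `λ`-line coordinate; `ℓ` odd in the project). -/
theorem nryj_hje_X3 :
    ∃ b : ↥(purb_B0 ℓ purb_X3Q purb_c3),
      ((b : ↥(purb_KY purb_X3Q)) : LaurentSeries ℚ) = qExpand ℚ 2 jq :=
  nryj_hje_of_identity_two ℓ purb_X3Q purb_X3Q_identity

/-- `hje` for `(e, h, c) = (3, μ, X³ - 27)` (the Hesse coordinate; `ℓ = 2` in the project). -/
theorem nryj_hje_mu :
    ∃ b : ↥(purb_B0 ℓ lyn_muQ lyn_c2),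
      ((b : ↥(purb_KY lyn_muQ)) : LaurentSeries ℚ) = qExpand ℚ 3 jq :=
  nryj_hje_of_identity_three ℓ lyn_muQ lyn_muQ_identity

end Instances

end Fermat.Agent.S18x
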