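/-
S18x/BcDiscr (helper21): abstract BASE CHANGE of "finite free with unit discriminant" into a field,
for row N6 (NRM_Y over `(ℚ̄, A, k)`) of the S18 plan.

Setting: `T` free over `D` with basis `τ` and unit discriminant; ring maps `f : D →+* D'` and
`φ : T →+* L'` compatible with the algebra structures, where `D'` is an integrally closed domain
with fraction field `K'` and `L' / K'` is a finite field extension of degree `card ι` in which the
images `φ (τ i)` stay `D'`-linearly independent.  Then

* `bcd_basis`: `φ ∘ τ` is a `K'`-basis of `L'`;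
* `bcd_discr`: its discriminant is the image of `disc τ`;
* `bcd_exists_coeff_of_isIntegral`: every element of `L'` integral over `D'` is a
  `D'`-combination of the `φ (τ i)`  (so the `D'`-span of `φ ∘ τ` is the integral closure);
* `bcd_isIntegral_sum`: conversely such combinations are integral over `D'`.
-/
import Fermat.Agent.S18x.PurxUnitDiscr

set_option autoImplicit false
set_option linter.unusedSectionVars false

namespace Fermat.Agent.S18x

open Module

section BaseChange

variable {D T D' K' L' ι : Type*} [Fintype ι] [DecidableEq ι]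
variable [CommRing D] [CommRing T] [Algebra D T]
variable [CommRing D'] [IsDomain D'] [Field K'] [Algebra D' K'] [IsFractionRing D' K']
variable [Field L'] [Algebra K' L'] [Algebra D' L'] [IsScalarTower D' K' L']

/-- Each `φ (τ i)` is integral over `D'`. -/
theorem bcd_isIntegral_phi (f : D →+* D') (φ : T →+* L')
    (hφ : ∀ d, φ (algebraMap D T d) = algebraMap D' L' (f d))
    (τ : Basis ι D T) (y : T) : IsIntegral D' (φ y) := by
  have hfin : Module.Finite D T := Module.Finite.of_basis τ
  have hint : IsIntegral D y := Algebra.IsIntegral.isIntegral y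
  obtain ⟨p, hpm, hp⟩ := hint
  refine ⟨p.map f, hpm.map f, ?_⟩
  have h1 : (Polynomial.eval₂ (algebraMap D' L') (φ y) (p.map f))
      = φ (Polynomial.eval₂ (algebraMap D T) y p) := by
    rw [Polynomial.eval₂_map, Polynomial.hom_eval₂]
    congr 1
    ext d
    simp [hφ]
  rw [h1, hp, map_zero]

/-- `φ ∘ τ` is linearly independent over the fraction field. -/
theorem bcd_linearIndependent (φ : T →+* L') (τ : Basis ι D T)
    (hli : LinearIndependent D' (fun i => φ (τ i))) :
    LinearIndependent K' (fun i => φ (τ i)) :=
  (LinearIndependent.iff_fractionRing D' K').mp hli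

/-- The `K'`-basis `φ ∘ τ` of `L'`. -/
noncomputable def bcd_basis [FiniteDimensional K' L'] (φ : T →+* L') (τ : Basis ι D T)
    (hli : LinearIndependent D' (fun i => φ (τ i)))
    (hrank : finrank K' L' = Fintype.card ι) : Basis ι K' L' :=
  Basis.mk (bcd_linearIndependent (K' := K') φ τ hli)
    (le_of_eq ((bcd_linearIndependent (K' := K') φ τ hli).span_eq_top_of_card_eq_finrank'
      hrank.symm).symm)

@[simp] theorem bcd_basis_apply [FiniteDimensional K' L'] (φ : T →+* L') (τ : Basis ι D T)
    (hli : LinearIndependent D' (fun i => φ (τ i)))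
    (hrank : finrank K' L' = Fintype.card ι) (i : ι) :
    bcd_basis φ τ hli hrank i = φ (τ i) := by
  simp [bcd_basis]

/-- Traces commute with the base change. -/
theorem bcd_trace [FiniteDimensional K' L'] (f : D →+* D') (φ : T →+* L')
    (hφ : ∀ d, φ (algebraMap D T d) = algebraMap D' L' (f d))
    (τ : Basis ι D T) (hli : LinearIndependent D' (fun i => φ (τ i)))
    (hrank : finrank K' L' = Fintype.card ι) (y : T) :
    Algebra.trace K' L' (φ y) = algebraMap D' K' (f (Algebra.trace D T y)) := by
  have h := purx_trace_map ((algebraMap D' K').comp f) φ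
    (fun d => by rw [hφ, IsScalarTower.algebraMap_apply D' K' L']; rfl)
    τ (bcd_basis φ τ hli hrank) (fun i => (bcd_basis_apply φ τ hli hrank i).symm) y
  simpa using h

/-- The discriminant of `φ ∘ τ` is the image of the discriminant of `τ`. -/
theorem bcd_discr [FiniteDimensional K' L'] (f : D →+* D') (φ : T →+* L')
    (hφ : ∀ d, φ (algebraMap D T d) = algebraMap D' L' (f d))
    (τ : Basis ι D T) (hli : LinearIndependent D' (fun i => φ (τ i)))
    (hrank : finrank K' L' = Fintype.card ι) :
    Algebra.discr K' (bcd_basis φ τ hli hrank) = algebraMap D' K' (f (Algebra.discr D τ)) := by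
  have h := purx_discr_map ((algebraMap D' K').comp f) φ
    (fun d => by rw [hφ, IsScalarTower.algebraMap_apply D' K' L']; rfl)
    τ (bcd_basis φ τ hli hrank) (fun i => (bcd_basis_apply φ τ hli hrank i).symm)
  simpa using h

/-- **Base change of the integral closure.**  Every element of `L'` integral over `D'` is a
`D'`-combination of the `φ (τ i)`. -/
theorem bcd_exists_coeff_of_isIntegral [IsIntegrallyClosed D'] [FiniteDimensional K' L']
    (f : D →+* D') (φ : T →+* L')
    (hφ : ∀ d, φ (algebraMap D T d) = algebraMap D' L' (f d))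
    (τ : Basis ι D T) (hu : IsUnit (Algebra.discr D τ))
    (hli : LinearIndependent D' (fun i => φ (τ i)))
    (hrank : finrank K' L' = Fintype.card ι)
    {x : L'} (hx : IsIntegral D' x) : ∃ c : ι → D', x = ∑ i, c i • φ (τ i) := by
  set b := bcd_basis φ τ hli hrank with hb
  have hbint : ∀ i, IsIntegral D' (b i) := fun i => by
    rw [hb, bcd_basis_apply]
    exact bcd_isIntegral_phi f φ hφ τ (τ i)
  set M : Matrix ι ι D' := (Algebra.traceMatrix D τ).map f with hM
  have hMK : M.map (algebraMap D' K') = Algebra.traceMatrix K' b := by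
    ext i j
    rw [Matrix.map_apply, hM, Matrix.map_apply, Algebra.traceMatrix_apply,
      Algebra.traceMatrix_apply, Algebra.traceForm_apply, Algebra.traceForm_apply, hb,
      bcd_basis_apply, bcd_basis_apply, ← map_mul φ, bcd_trace f φ hφ τ hli hrank]
  have hdet : IsUnit M.det := by
    have : M.det = f (Algebra.discr D τ) := by
      rw [hM, Algebra.discr_def, RingHom.map_det]
      rfl
    rw [this]
    exact hu.map f
  have hmem := purx_mem_span_of_isIntegral b hbint M hMK hdet hx
  obtain ⟨c, hc⟩ := (Submodule.mem_span_range_iff_exists_fun D').mp hmem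
  refine ⟨c, ?_⟩
  rw [← hc]
  refine Finset.sum_congr rfl fun i _ => ?_
  rw [hb, bcd_basis_apply]

/-- Conversely, `D'`-combinations of the `φ (τ i)` are integral over `D'`. -/
theorem bcd_isIntegral_sum (f : D →+* D') (φ : T →+* L')
    (hφ : ∀ d, φ (algebraMap D T d) = algebraMap D' L' (f d))
    (τ : Basis ι D T) (c : ι → D') : IsIntegral D' (∑ i, c i • φ (τ i)) := by
  refine IsIntegral.sum _ fun i _ => ?_
  rw [Algebra.smul_def]
  exact IsIntegral.mul isIntegral_algebraMap (bcd_isIntegral_phi f φ hφ τ (τ i))

end BaseChange

end Fermat.Agent.S18x
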