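/-
S18x/BcDiscrAmb (helper21): AMBIENT-FIELD form of `BcDiscr` (shape requested by helper94 for row
N6): no `finrank` hypothesis; `φ : T →+* Ω` lands in an arbitrary field `Ω ⊇ K'`.

Setting: `T` free over `D` with basis `τ`, unit discriminant; `f : D →+* D'`, `φ : T →+* Ω`
compatible; `D'` integrally closed domain with fraction field `K' ⊆ Ω`; the `φ (τ i)` are
`D'`-linearly independent in `Ω`.  Then

* `bcd_spanField`: the `K'`-span of the `φ (τ i)` is (the carrier of) an intermediate field
  `M'` of `Ω / K'` (`bcd_mem_spanField`), containing `φ t` for all `t` (`bcd_phi_mem_spanField`);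
* `bcd_amb_exists_coeff_of_isIntegral`: every `x` in that span integral over `D'` is a
  `D'`-combination of the `φ (τ i)`;
* `bcd_amb_isIntegral_sum`, `bcd_amb_isIntegral_phi`: converse.
-/
import Fermat.Agent.S18x.BcDiscr

set_option autoImplicit false
set_option linter.unusedSectionVars false

namespace Fermat.Agent.S18x

open Module

section Ambient

variable {D T D' K' Ω ι : Type*} [Fintype ι] [DecidableEq ι]
variable [CommRing D] [CommRing T] [Algebra D T]
variable [CommRing D'] [IsDomain D'] [Field K'] [Algebra D' K'] [IsFractionRing D' K']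
variable [Field Ω] [Algebra K' Ω] [Algebra D' Ω] [IsScalarTower D' K' Ω]

/-- `φ y` lies in the `D'`-span (hence the `K'`-span) of the `φ (τ i)`. -/
theorem bcd_phi_eq_sum (f : D →+* D') (φ : T →+* Ω)
    (hφ : ∀ d, φ (algebraMap D T d) = algebraMap D' Ω (f d)) (τ : Basis ι D T) (y : T) :
    φ y = ∑ i, f (τ.repr y i) • φ (τ i) := by
  conv_lhs => rw [← τ.sum_repr y]
  rw [map_sum]
  refine Finset.sum_congr rfl fun i _ => ?_
  rw [Algebra.smul_def, map_mul, hφ, Algebra.smul_def]

theorem bcd_phi_mem_span (f : D →+* D') (φ : T →+* Ω)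
    (hφ : ∀ d, φ (algebraMap D T d) = algebraMap D' Ω (f d)) (τ : Basis ι D T) (y : T) :
    φ y ∈ Submodule.span K' (Set.range fun i => φ (τ i)) := by
  rw [bcd_phi_eq_sum f φ hφ τ y]
  refine Submodule.sum_mem _ fun i _ => ?_
  rw [← algebraMap_smul K' (f (τ.repr y i)) (φ (τ i))]
  exact Submodule.smul_mem _ _ (Submodule.subset_span ⟨i, rfl⟩)

theorem bcd_span_mul_mem (f : D →+* D') (φ : T →+* Ω)
    (hφ : ∀ d, φ (algebraMap D T d) = algebraMap D' Ω (f d)) (τ : Basis ι D T) {x y : Ω}
    (hx : x ∈ Submodule.span K' (Set.range fun i => φ (τ i)))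
    (hy : y ∈ Submodule.span K' (Set.range fun i => φ (τ i))) :
    x * y ∈ Submodule.span K' (Set.range fun i => φ (τ i)) := by
  induction hx using Submodule.span_induction with
  | mem x hx =>
    obtain ⟨i, rfl⟩ := hx
    induction hy using Submodule.span_induction with
    | mem y hy =>
      obtain ⟨j, rfl⟩ := hy
      show φ (τ i) * φ (τ j) ∈ _
      rw [← map_mul φ]
      exact bcd_phi_mem_span f φ hφ τ _
    | zero => rw [mul_zero]; exact Submodule.zero_mem _
    | add y z _ _ hy hz => rw [mul_add]; exact Submodule.add_mem _ hy hz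
    | smul a y _ hy => rw [mul_smul_comm]; exact Submodule.smul_mem _ _ hy
  | zero => rw [zero_mul]; exact Submodule.zero_mem _
  | add x z _ _ hx hz => rw [add_mul]; exact Submodule.add_mem _ hx hz
  | smul a x _ hx => rw [smul_mul_assoc]; exact Submodule.smul_mem _ _ hx

/-- The `K'`-span of `φ ∘ τ` as a subalgebra of `Ω`. -/
def bcd_spanAlg (f : D →+* D') (φ : T →+* Ω)
    (hφ : ∀ d, φ (algebraMap D T d) = algebraMap D' Ω (f d)) (τ : Basis ι D T) :
    Subalgebra K' Ω :=
  (Submodule.span K' (Set.range fun i => φ (τ i))).toSubalgebra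
    (by rw [← map_one φ]; exact bcd_phi_mem_span f φ hφ τ 1)
    (fun _ _ hx hy => bcd_span_mul_mem f φ hφ τ hx hy)

theorem bcd_mem_spanAlg (f : D →+* D') (φ : T →+* Ω)
    (hφ : ∀ d, φ (algebraMap D T d) = algebraMap D' Ω (f d)) (τ : Basis ι D T) (x : Ω) :
    x ∈ bcd_spanAlg (K' := K') f φ hφ τ ↔ x ∈ Submodule.span K' (Set.range fun i => φ (τ i)) :=
  Iff.rfl

instance bcd_spanAlg_finite (f : D →+* D') (φ : T →+* Ω)
    (hφ : ∀ d, φ (algebraMap D T d) = algebraMap D' Ω (f d)) (τ : Basis ι D T) :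
    FiniteDimensional K' (bcd_spanAlg (K' := K') f φ hφ τ) :=
  FiniteDimensional.span_of_finite K' (Set.finite_range _)

/-- The `K'`-span of `φ ∘ τ` as an intermediate field of `Ω / K'`. -/
def bcd_spanField (f : D →+* D') (φ : T →+* Ω)
    (hφ : ∀ d, φ (algebraMap D T d) = algebraMap D' Ω (f d)) (τ : Basis ι D T) :
    IntermediateField K' Ω :=
  (bcd_spanAlg (K' := K') f φ hφ τ).toIntermediateField (fun x hx => by
    have halg : IsAlgebraic K' (⟨x, hx⟩ : bcd_spanAlg (K' := K') f φ hφ τ) :=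
      Algebra.IsAlgebraic.isAlgebraic _
    have halg' : IsAlgebraic K' x := by
      have := halg.algHom (bcd_spanAlg (K' := K') f φ hφ τ).val
      simpa using this
    exact (bcd_spanAlg (K' := K') f φ hφ τ).inv_mem_of_algebraic (x := ⟨x, hx⟩) halg')

theorem bcd_mem_spanField (f : D →+* D') (φ : T →+* Ω)
    (hφ : ∀ d, φ (algebraMap D T d) = algebraMap D' Ω (f d)) (τ : Basis ι D T) (x : Ω) :
    x ∈ bcd_spanField (K' := K') f φ hφ τ ↔
      x ∈ Submodule.span K' (Set.range fun i => φ (τ i)) :=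
  Iff.rfl

theorem bcd_phi_mem_spanField (f : D →+* D') (φ : T →+* Ω)
    (hφ : ∀ d, φ (algebraMap D T d) = algebraMap D' Ω (f d)) (τ : Basis ι D T) (y : T) :
    φ y ∈ bcd_spanField (K' := K') f φ hφ τ :=
  bcd_phi_mem_span f φ hφ τ y

instance bcd_spanField_finite (f : D →+* D') (φ : T →+* Ω)
    (hφ : ∀ d, φ (algebraMap D T d) = algebraMap D' Ω (f d)) (τ : Basis ι D T) :
    FiniteDimensional K' (bcd_spanField (K' := K') f φ hφ τ) :=
  bcd_spanAlg_finite (K' := K') f φ hφ τ

/-- **Base change of the integral closure, ambient form.**  Every element of the `K'`-span of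
`φ ∘ τ` which is integral over `D'` is a `D'`-combination of the `φ (τ i)`. -/
theorem bcd_amb_exists_coeff_of_isIntegral [IsIntegrallyClosed D']
    (f : D →+* D') (φ : T →+* Ω)
    (hφ : ∀ d, φ (algebraMap D T d) = algebraMap D' Ω (f d))
    (τ : Basis ι D T) (hu : IsUnit (Algebra.discr D τ))
    (hli : LinearIndependent D' (fun i => φ (τ i)))
    {x : Ω} (hxs : x ∈ Submodule.span K' (Set.range fun i => φ (τ i)))
    (hx : IsIntegral D' x) : ∃ c : ι → D', x = ∑ i, c i • φ (τ i) := by
  set M' := bcd_spanField (K' := K') f φ hφ τ with hM'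
  -- the corestriction of `φ`
  set φ' : T →+* M' := φ.codRestrict M' (fun y => bcd_phi_mem_spanField f φ hφ τ y) with hφ'
  have hφ'coe : ∀ y, ((φ' y : M') : Ω) = φ y := fun y => rfl
  have hφ'alg : ∀ d, φ' (algebraMap D T d) = algebraMap D' M' (f d) := fun d => by
    apply Subtype.ext
    rw [hφ'coe, hφ]
    rfl
  have htower : IsScalarTower D' M' Ω := IsScalarTower.of_algebraMap_eq (fun _ => rfl)
  have hli' : LinearIndependent D' (fun i => φ' (τ i)) := by
    refine LinearIndependent.of_comp ((IsScalarTower.toAlgHom D' M' Ω).toLinearMap) ?_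
    exact hli
  have hliK : LinearIndependent K' (fun i => φ' (τ i)) :=
    bcd_linearIndependent (K' := K') φ' τ hli'
  have hspan : ⊤ ≤ Submodule.span K' (Set.range fun i => φ' (τ i)) := by
    rintro ⟨y, hy⟩ -
    obtain ⟨c, hc⟩ := (Submodule.mem_span_range_iff_exists_fun K').mp
      ((bcd_mem_spanField f φ hφ τ y).mp hy)
    rw [Submodule.mem_span_range_iff_exists_fun]
    refine ⟨c, Subtype.ext ?_⟩
    show ((∑ i, c i • φ' (τ i) : M') : Ω) = y
    rw [← hc]
    simp only [IntermediateField.coe_sum, IntermediateField.coe_smul, hφ'coe]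
  have hrank : finrank K' M' = Fintype.card ι :=
    finrank_eq_card_basis (Basis.mk hliK hspan)
  have hxM : IsIntegral D' (⟨x, (bcd_mem_spanField f φ hφ τ x).mpr hxs⟩ : M') := by
    rw [← isIntegral_algebraMap_iff (B := Ω) (algebraMap M' Ω).injective]
    exact hx
  obtain ⟨c, hc⟩ := bcd_exists_coeff_of_isIntegral f φ' hφ'alg τ hu hli' hrank hxM
  refine ⟨c, ?_⟩
  have := congrArg (Subtype.val) hc
  simp only [IntermediateField.coe_sum] at this
  rw [this]
  refine Finset.sum_congr rfl fun i _ => ?_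
  rw [Algebra.smul_def, Algebra.smul_def]
  rfl

theorem bcd_amb_isIntegral_phi (f : D →+* D') (φ : T →+* Ω)
    (hφ : ∀ d, φ (algebraMap D T d) = algebraMap D' Ω (f d))
    (τ : Basis ι D T) (y : T) : IsIntegral D' (φ y) := by
  have hfin : Module.Finite D T := Module.Finite.of_basis τ
  have hint : IsIntegral D y := Algebra.IsIntegral.isIntegral y
  obtain ⟨p, hpm, hp⟩ := hint
  refine ⟨p.map f, hpm.map f, ?_⟩
  have h1 : (Polynomial.eval₂ (algebraMap D' Ω) (φ y) (p.map f))
      = φ (Polynomial.eval₂ (algebraMap D T) y p) := by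
    rw [Polynomial.eval₂_map, Polynomial.hom_eval₂]
    congr 1
    ext d
    simp [hφ]
  rw [h1, hp, map_zero]

theorem bcd_amb_isIntegral_sum (f : D →+* D') (φ : T →+* Ω)
    (hφ : ∀ d, φ (algebraMap D T d) = algebraMap D' Ω (f d))
    (τ : Basis ι D T) (c : ι → D') : IsIntegral D' (∑ i, c i • φ (τ i)) := by
  refine IsIntegral.sum _ fun i _ => ?_
  rw [Algebra.smul_def]
  exact IsIntegral.mul isIntegral_algebraMap (bcd_amb_isIntegral_phi f φ hφ τ (τ i))

end Ambient

end Fermat.Agent.S18x
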