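/-
S18 project, block NRM row N6 (helper94, prefix `nrya_`): ABSTRACT core of `NRM_Y` over `(ℚ̄, A, k)`.

`T` free over `D` with basis `τ` and unit discriminant (output of PUR: `D = B₀ / ℓ`,
`T = R_Y / ℓ R_Y`), `φ : T →+* Ω` a ring homomorphism into a field (`Ω = k((q))`), `D'` an
integrally closed domain with an injective algebra map into `Ω` (`D' = k[h̃, 1/c(h̃)]`) such that
`φ (D) ⊆ D'` and the `φ (τ i)` are `D'`-linearly independent.  Then every element of the subfield of
`Ω` generated by `D'` and `φ (T)` which is integral over `D'` is a `D'`-combination of the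
`φ (τ i)` (`nrya_exists_coeff`).  No fraction field, no `finrank`, no `f : D →+* D'` in the
statement (built from helper21's `S18x/BcDiscrAmb`).
-/
import Fermat.Agent.S18x.BcDiscrAmb

set_option autoImplicit false

namespace Fermat.Agent.S18x

open Module

noncomputable section

section LiftHom

variable {D D' Ω : Type*} [CommRing D] [CommRing D'] [CommRing Ω] [Algebra D' Ω]

/-- a ring homomorphism `g : D →+* Ω` with values in the range of the injective map
`D' → Ω` factors through `D'`. -/
theorem nrya_rangeRestrict_bijective (hinj : Function.Injective (algebraMap D' Ω)) :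
    Function.Bijective (algebraMap D' Ω).rangeRestrict :=
  ⟨fun _ _ h => hinj (congrArg Subtype.val h), (algebraMap D' Ω).rangeRestrict_surjective⟩

def nrya_liftHom (hinj : Function.Injective (algebraMap D' Ω)) (g : D →+* Ω)
    (H : ∀ d, g d ∈ (algebraMap D' Ω).range) : D →+* D' :=
  ((RingEquiv.ofBijective (algebraMap D' Ω).rangeRestrict
      (nrya_rangeRestrict_bijective hinj)).symm : _ →+* D').comp
    (g.codRestrict (algebraMap D' Ω).range H)

theorem nrya_liftHom_spec (hinj : Function.Injective (algebraMap D' Ω)) (g : D →+* Ω)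
    (H : ∀ d, g d ∈ (algebraMap D' Ω).range) (d : D) :
    algebraMap D' Ω (nrya_liftHom hinj g H d) = g d := by
  set e := RingEquiv.ofBijective (algebraMap D' Ω).rangeRestrict
      (nrya_rangeRestrict_bijective hinj) with he
  have h1 : nrya_liftHom hinj g H d = e.symm (g.codRestrict (algebraMap D' Ω).range H d) := rfl
  have h2 : e (nrya_liftHom hinj g H d) = g.codRestrict (algebraMap D' Ω).range H d := by
    rw [h1, RingEquiv.apply_symm_apply]
  have h3 := congrArg Subtype.val h2
  exact h3

end LiftHom

section Core

variable {D T D' Ω ι : Type*} [Fintype ι] [DecidableEq ι]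
variable [CommRing D] [CommRing T] [Algebra D T]
variable [CommRing D'] [IsDomain D'] [IsIntegrallyClosed D']
variable [Field Ω] [Algebra D' Ω]

/-- **Abstract `NRM_Y` base change.** -/
theorem nrya_exists_coeff (hinj : Function.Injective (algebraMap D' Ω)) (φ : T →+* Ω)
    (H1 : ∀ d : D, φ (algebraMap D T d) ∈ (algebraMap D' Ω).range)
    (τ : Basis ι D T) (hu : IsUnit (Algebra.discr D τ))
    (hli : LinearIndependent D' (fun i => φ (τ i)))
    {x : Ω} (hxs : x ∈ Subfield.closure
      ((Set.range (algebraMap D' Ω)) ∪ Set.range φ))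
    (hx : IsIntegral D' x) :
    ∃ c : ι → D', x = ∑ i, algebraMap D' Ω (c i) * φ (τ i) := by
  classical
  -- the fraction field of `D'` inside `Ω`
  let algK : Algebra (FractionRing D') Ω :=
    (IsFractionRing.lift (K := FractionRing D') (g := algebraMap D' Ω) hinj).toAlgebra
  have tower : IsScalarTower D' (FractionRing D') Ω :=
    IsScalarTower.of_algebraMap_eq fun d => by
      show algebraMap D' Ω d = IsFractionRing.lift hinj (algebraMap D' (FractionRing D') d)
      rw [IsFractionRing.lift_algebraMap]
  set f : D →+* D' := nrya_liftHom hinj (φ.comp (algebraMap D T)) H1 with hf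
  have hφ : ∀ d, φ (algebraMap D T d) = algebraMap D' Ω (f d) := fun d =>
    (nrya_liftHom_spec hinj (φ.comp (algebraMap D T)) H1 d).symm
  -- the subfield generated lies in the span field
  have hle : Subfield.closure ((Set.range (algebraMap D' Ω)) ∪ Set.range φ) ≤
      (bcd_spanField (K' := FractionRing D') f φ hφ τ).toSubfield := by
    rw [Subfield.closure_le]
    rintro y (⟨d, rfl⟩ | ⟨t, rfl⟩)
    · show algebraMap D' Ω d ∈ bcd_spanField (K' := FractionRing D') f φ hφ τ
      rw [IsScalarTower.algebraMap_apply D' (FractionRing D') Ω]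
      exact (bcd_spanField (K' := FractionRing D') f φ hφ τ).algebraMap_mem _
    · exact bcd_phi_mem_spanField f φ hφ τ t
  have hxs' : x ∈ Submodule.span (FractionRing D') (Set.range fun i => φ (τ i)) :=
    (bcd_mem_spanField f φ hφ τ x).mp (hle hxs)
  obtain ⟨c, hc⟩ := bcd_amb_exists_coeff_of_isIntegral (K' := FractionRing D') f φ hφ τ hu hli
    hxs' hx
  refine ⟨c, ?_⟩
  rw [hc]
  refine Finset.sum_congr rfl fun i _ => ?_
  rw [Algebra.smul_def]

end Core

end

end Fermat.Agent.S18x
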