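/-
S18 project, block NRM row N6 (helper94, prefix `nryi_`): integrality transfer for `NRM_Y`.

* `nryi_isIntegral_of_adjoin`: `x` integral over `k[j]`, `j` integral over `D'`, `k ⊆ D'`
  ⇒ `x` integral over `D'` (no algebra structure of `D'` over `k` needed);
* `nryi_isIntegral_jq`: `j̃` is integral over any ring `D' → k((q))` containing the constants and
  `j̃(q^e)`, `e` prime (modular polynomial `Φ_e`).
-/
import Fermat.Agent.S28x.ModPolyConsFinal

set_option autoImplicit false

namespace Fermat.Agent.S18x

open ModularCurve HahnSeries Fermat.Agent.S28x Polynomial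

noncomputable section

theorem nryi_isIntegral_of_adjoin {k D' Ω : Type*} [Field k] [CommRing D'] [CommRing Ω]
    [Algebra k Ω] [Algebra D' Ω]
    (hk : ∀ a : k, algebraMap k Ω a ∈ (algebraMap D' Ω).range) {j x : Ω} (hj : IsIntegral D' j)
    (hx : IsIntegral (Algebra.adjoin k {j}) x) : IsIntegral D' x := by
  have hmem : ∀ s ∈ Algebra.adjoin k {j}, IsIntegral D' s := by
    intro s hs
    induction hs using Algebra.adjoin_induction with
    | mem y hy =>
      rw [Set.mem_singleton_iff] at hy
      subst hy
      exact hj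
    | algebraMap a =>
      obtain ⟨d, hd⟩ := hk a
      rw [← hd]
      exact isIntegral_algebraMap
    | add y z _ _ hy hz => exact hy.add hz
    | mul y z _ _ hy hz => exact hy.mul hz
  let g : Algebra.adjoin k {j} →+* integralClosure D' Ω :=
    { toFun := fun s => ⟨s.1, hmem s.1 s.2⟩
      map_one' := rfl
      map_mul' := fun _ _ => rfl
      map_zero' := rfl
      map_add' := fun _ _ => rfl }
  obtain ⟨P, hPm, hP⟩ := hx
  have hIC : IsIntegral (integralClosure D' Ω) x := by
    refine ⟨P.map g, hPm.map g, ?_⟩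
    rw [Polynomial.eval₂_map]
    have h1 : (algebraMap (integralClosure D' Ω) Ω).comp g =
        algebraMap (Algebra.adjoin k {j}) Ω := by
      ext s
      rfl
    rw [h1]
    exact hP
  exact isIntegral_trans x hIC

theorem nryi_isIntegral_jq {k D' : Type*} [Field k] [CommRing D'] [Algebra D' (LaurentSeries k)]
    (g₀ : k[X] →+* D')
    (hC : ∀ a : k, algebraMap D' (LaurentSeries k) (g₀ (Polynomial.C a)) =
      algebraMap k (LaurentSeries k) a)
    (e : ℕ) [Fact e.Prime] [NeZero e] (be : D')
    (hbe : algebraMap D' (LaurentSeries k) be = qExpand k e (jqModC k)) :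
    IsIntegral D' (jqModC k) := by
  obtain ⟨Φ, hΦm, -, -, hΦ⟩ := mpcf_exists_modPoly_ring k e
  let g₁ : k[X] →+* D' := Polynomial.eval₂RingHom (g₀.comp Polynomial.C) be
  refine ⟨Φ.map g₁, hΦm.map g₁, ?_⟩
  rw [Polynomial.eval₂_map]
  have h1 : (algebraMap D' (LaurentSeries k)).comp g₁ =
      (Polynomial.aeval (qExpand k e (jqModC k))).toRingHom := by
    apply Polynomial.ringHom_ext
    · intro a
      simp [g₁, hC]
    · simp [g₁, hbe]
  rw [h1]
  exact hΦ

end

end Fermat.Agent.S18x
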