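/-
S18 project, block NRM row N6 (helper94, prefix `nryl_`): the LINEAR INDEPENDENCE input `hli` of
`nrya_exists_coeff` (S18x/NrmYAbs).

`T` free over `D` with basis `τ`, `φ₀ : T →+* F((q))` injective, `t : F((q))` transcendental over `F`
with `F[t] ⊆ φ₀ (D)`.  Then for every field extension `k / F` and every ring `D'` acting on `k((q))`
through an injective map with values in `k(t̃)` (`t̃` the coefficientwise image of `t`), the family
`coeffMap (φ₀ (τ i))` is `D'`-linearly independent in `k((q))` (`nryl_li`).
-/
import Fermat.Agent.S18x.LvTransfer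

set_option autoImplicit false

namespace Fermat.Agent.S18x

open ModularCurve HahnSeries Module

noncomputable section

section A

variable {F D T Ω₀ ι : Type*} [Field F] [CommRing D] [CommRing T] [Algebra D T] [Field Ω₀]
  [Algebra F Ω₀]

/-- independence over a subalgebra contained in the image of `D`. -/
theorem nryl_li_subalgebra (φ₀ : T →+* Ω₀) (hinj : Function.Injective φ₀) (τ : Basis ι D T)
    (S : Subalgebra F Ω₀) (hS : ∀ s ∈ S, ∃ d : D, φ₀ (algebraMap D T d) = s) :
    LinearIndependent S (fun i => φ₀ (τ i)) := by
  classical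
  rw [linearIndependent_iff']
  intro s g hg i hi
  have hch : ∀ j, ∃ d : D, φ₀ (algebraMap D T d) = (g j : Ω₀) := fun j => hS _ (g j).2
  choose d hd using hch
  have h1 : φ₀ (∑ j ∈ s, d j • τ j) = 0 := by
    rw [map_sum, ← hg]
    refine Finset.sum_congr rfl fun j _ => ?_
    rw [Algebra.smul_def, map_mul, hd]
    rfl
  have h2 : ∑ j ∈ s, d j • τ j = 0 := hinj (by rw [h1, map_zero])
  have h3 := linearIndependent_iff'.mp τ.linearIndependent s d h2 i hi
  apply Subtype.ext
  rw [← hd i, h3, map_zero, map_zero]
  rfl

open scoped IntermediateField.algebraAdjoinAdjoin in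
/-- from `F[t]`-independence to `F(t)`-independence. -/
theorem nryl_li_adjoin (t : Ω₀) {e : ι → Ω₀}
    (he : LinearIndependent (Algebra.adjoin F {t}) e) :
    LinearIndependent (IntermediateField.adjoin F {t}) e :=
  (LinearIndependent.iff_fractionRing (Algebra.adjoin F {t}) (IntermediateField.adjoin F {t})).mp
    he

end A

section D

variable {k D' Ω ι : Type*} [Field k] [CommRing D'] [Field Ω] [Algebra k Ω] [Algebra D' Ω]

/-- restriction of scalars from an intermediate field to a ring mapping injectively into it. -/
theorem nryl_li_restrict (K₁ : IntermediateField k Ω)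
    (hinj : Function.Injective (algebraMap D' Ω))
    (hrange : ∀ d : D', algebraMap D' Ω d ∈ K₁) {e : ι → Ω}
    (he : LinearIndependent K₁ e) : LinearIndependent D' e := by
  classical
  rw [linearIndependent_iff'] at he ⊢
  intro s g hg i hi
  have h1 : ∑ j ∈ s, (⟨algebraMap D' Ω (g j), hrange (g j)⟩ : K₁) • e j = 0 := by
    rw [← hg]
    refine Finset.sum_congr rfl fun j _ => ?_
    rw [Algebra.smul_def, Algebra.smul_def]
    rfl
  have h2 := he s (fun j => ⟨algebraMap D' Ω (g j), hrange (g j)⟩) h1 i hi
  have h3 : algebraMap D' Ω (g i) = 0 := congrArg Subtype.val h2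
  exact hinj (by rw [h3, map_zero])

end D

section Main

variable {F : Type*} [Field F] {k : Type*} [Field k] [Algebra F k]
variable {D T D' ι : Type*} [CommRing D] [CommRing T] [Algebra D T] [CommRing D']
  [Algebra D' (LaurentSeries k)]

/-- **the `hli` input.** -/
theorem nryl_li (φ₀ : T →+* LaurentSeries F) (hinj₀ : Function.Injective φ₀) (τ : Basis ι D T)
    {t : LaurentSeries F} (ht : Transcendental F t)
    (hS : ∀ P : Polynomial F, ∃ d : D, φ₀ (algebraMap D T d) = Polynomial.aeval t P)
    (hinj : Function.Injective (algebraMap D' (LaurentSeries k)))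
    (hrange : ∀ d : D', algebraMap D' (LaurentSeries k) d ∈
      IntermediateField.adjoin k {coeffMap (algebraMap F k) t}) :
    LinearIndependent D' (fun i => coeffMap (algebraMap F k) (φ₀ (τ i))) := by
  have h1 : LinearIndependent (Algebra.adjoin F {t}) (fun i => φ₀ (τ i)) := by
    refine nryl_li_subalgebra φ₀ hinj₀ τ (Algebra.adjoin F {t}) ?_
    intro s hs
    rw [Algebra.adjoin_singleton_eq_range_aeval] at hs
    obtain ⟨P, rfl⟩ := hs
    exact hS P
  have h2 := nryl_li_adjoin t h1
  have h3 := lv_li_transfer_gen (k := k) ht _ h2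
  exact nryl_li_restrict _ hinj hrange h3

end Main

end

end Fermat.Agent.S18x
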