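/-
S18 project, block NRM row N6 (helper94, prefix `nryt_`): LIFTING of the coefficients.

For `d' ∈ D' = k[X][1/c]`, its value `P(h̃)/c(h̃)^m ∈ k((q))` is the reduction of an element
`P̂(h)/c(h)^m` of the Gauss ring `ga_W A π` of `L((q))` with `P̂ ∈ A[X]`, which lies in every subring
`S` of `L((q))` containing the constants of `A`, the coordinate `h` and `1/c(h)` (`nryt_lift_coeff`).
-/
import Fermat.Agent.S18x.NrmYDefs

set_option autoImplicit false
set_option linter.unusedSectionVars false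

namespace Fermat.Agent.S18x

open ModularCurve HahnSeries Fermat.Agent.S28x Polynomial

noncomputable section

variable {ℓ : ℕ} [Fact ℓ.Prime]
variable {L : Type*} [Field L] [Algebra ℚ L] (A : ValuationSubring L)
variable {k : Type*} [Field k] [Algebra (ZMod ℓ) k] (π : A →+* k)

theorem nryt_red_C (a : A) : ga_red A π (HahnSeries.C a) = HahnSeries.C (π a) := by
  rw [ga_red, HahnSeries.C_apply, HahnSeries.C_apply, coeffMap_single]

theorem nryt_iota_C (a : A) : ga_iota A (HahnSeries.C a) = HahnSeries.C (a : L) := by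
  rw [ga_iota, HahnSeries.C_apply, HahnSeries.C_apply, coeffMap_single]
  rfl

theorem nryt_eval₂_mem {R Ω : Type*} [CommRing R] [CommRing Ω] (S : Subring Ω) (f : R →+* Ω)
    (hf : ∀ a, f a ∈ S) {x : Ω} (hx : x ∈ S) (P : R[X]) : P.eval₂ f x ∈ S := by
  rw [Polynomial.eval₂_eq_sum, Polynomial.sum]
  exact Subring.sum_mem _ fun n _ => S.mul_mem (hf _) (S.pow_mem hx n)

/-- **lifting of a coefficient.** -/
theorem nryt_lift_coeff (hA : A.LiesOverPrime ℓ) (hπ : Function.Surjective π)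
    (hZ : LaurentSeries (ZL ℓ)) (c : ℤ[X])
    (hck : Polynomial.aeval (coeffMap (algebraMap (ZMod ℓ) k) (red ℓ hZ))
      (c.map (Int.castRingHom k)) ≠ 0)
    (S : Subring (LaurentSeries L)) (hSA : ∀ a : A, HahnSeries.C (a : L) ∈ S)
    (hSh : coeffEmb L (toQ ℓ hZ) ∈ S) (hSc : (nry_cval c (coeffEmb L (toQ ℓ hZ)))⁻¹ ∈ S)
    (d : pur_Base (c.map (Int.castRingHom k))) :
    ∃ u : LaurentSeries L, u ∈ S ∧ ∃ hu : u ∈ ga_W A π,
      ga_rho A π ⟨u, hu⟩ = pur_base_eval (c.map (Int.castRingHom k))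
        (coeffMap (algebraMap (ZMod ℓ) k) (red ℓ hZ)) hck d := by
  obtain ⟨P, m, hPm⟩ := nry_eval_eq_div _ _ hck d
  generalize hhk : coeffMap (algebraMap (ZMod ℓ) k) (red ℓ hZ) = hk at hck hPm ⊢
  obtain ⟨Ph, hPh⟩ := Polynomial.map_surjective π hπ P
  set hAs : LaurentSeries A := nryb_lift A ℓ hA hZ with hhAs
  have hred_h : ga_red A π hAs = hk := by rw [← hhk]; exact nryb_red_lift A ℓ π hA hZ
  have hiota_h : ga_iota A hAs = coeffEmb L (toQ ℓ hZ) := nryb_iota_lift A ℓ hA hZ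
  -- the numerator
  set a : LaurentSeries A := Ph.eval₂ HahnSeries.C hAs with ha
  have hred_a : ga_red A π a = Polynomial.aeval hk P := by
    rw [ha, Polynomial.hom_eval₂, hred_h]
    have h1 : (ga_red A π).comp (HahnSeries.C : A →+* LaurentSeries A) =
        (HahnSeries.C : k →+* LaurentSeries k).comp π := by
      ext x : 1
      exact nryt_red_C A π x
    rw [h1, ← Polynomial.eval₂_map, hPh, Polynomial.aeval_def]
    congr 1
    ext x : 1
    exact (nry_algebraMap_eq_C x).symm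
  have hiota_a : ga_iota A a ∈ S := by
    rw [ha, Polynomial.hom_eval₂, hiota_h]
    refine nryt_eval₂_mem S _ ?_ hSh Ph
    intro x
    show ga_iota A (HahnSeries.C x) ∈ S
    rw [nryt_iota_C]
    exact hSA x
  -- the denominator
  set cA : LaurentSeries A := nry_cval c hAs with hcA
  have hred_c : ga_red A π cA = nry_cval c hk := by
    rw [hcA, nry_cval_map, hred_h]
  have hiota_c : ga_iota A cA = nry_cval c (coeffEmb L (toQ ℓ hZ)) := by
    rw [hcA, nry_cval_map, hiota_h]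
  have hck' : nry_cval c hk ≠ 0 := by
    rw [← nry_aeval_map_int (k := k)]
    exact hck
  have hcW : ga_iota A cA ∈ ga_W A π := ga_iota_mem_W A π cA
  have hρc : ga_rho A π ⟨ga_iota A cA, hcW⟩ = nry_cval c hk := by
    rw [ga_rho_iota, hred_c]
  have hρc0 : ga_rho A π ⟨ga_iota A cA, hcW⟩ ≠ 0 := by
    rw [hρc]; exact hck'
  have hciW : (ga_iota A cA)⁻¹ ∈ ga_W A π := ga_inv_mem A π hcW hρc0
  have hρci : ga_rho A π ⟨(ga_iota A cA)⁻¹, hciW⟩ = (nry_cval c hk)⁻¹ := by
    rw [ga_rho_inv A π hcW hρc0, hρc]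
  -- assemble
  set uW : ga_W A π := ⟨ga_iota A a, ga_iota_mem_W A π a⟩ * ⟨(ga_iota A cA)⁻¹, hciW⟩ ^ m with huW
  refine ⟨(uW : LaurentSeries L), ?_, uW.2, ?_⟩
  · show ga_iota A a * ((ga_iota A cA)⁻¹) ^ m ∈ S
    refine S.mul_mem hiota_a (S.pow_mem ?_ m)
    rw [hiota_c]
    exact hSc
  · have h1 : (⟨(uW : LaurentSeries L), uW.2⟩ : ga_W A π) = uW := rfl
    rw [h1, huW, map_mul, map_pow, ga_rho_iota, hred_a, hρci, hPm, nry_aeval_map_int]

end

end Fermat.Agent.S18x
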