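/-
S18 project, block NRM row N6 (helper94, prefix `nry_`): **`NRM_Y` over `(ℚ̄, A, k)`**.

INPUT (over `(ℚ, ℤ_(ℓ), 𝔽_ℓ)`, abstract in `(B₀, R, p)`; instance: `B₀ = purb_B0 ℓ h c`,
`R = purb_RY ℓ e h c N`, `p = ℓ`, `incl` = the coercion `R → ℚ((q))`):
* `hW`     : `R` lies in the Gauss ring `S28x.gaussRing ℓ`;
* `hker`   : the kernel of the reduction on `R` is `p R`                      (row N4, `(hprime)`);
* `τ, hu`  : a basis of `R / p R` over `B₀ / p` with UNIT discriminant        (PUR: `puri_main`);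
* `hB₀le`, `hconst`, `hcoord` : the image of `B₀` in `ℚ((q))` is `ℤ_(ℓ)[h, 1/c(h)]`, `h = toQ hZ`;
* `htr`, `hc` : the reduced coordinate `h̃` is transcendental over `𝔽_ℓ`, `c(h̃) ≠ 0`;
* `hjR`    : `j(q^d) ∈ R` for `d ∣ M`;   `hje` : `j(q^e) ∈ B₀` (`e` prime).

OUTPUT: for every subring `S ⊆ L((q))` containing the constants of `A`, the coordinate, `1/c(h)` and
the image of `R`: every `x ∈ F̄_M = modularFunctionFieldFullC k M` integral over `k[j̃]` is the
residue (`ga_rho A π`) of an element `z ∈ S ∩ ga_W A π`.   This is the `hY` input of `nds_descent`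
(take `S := O' ⊓ F'`).
-/
import Fermat.Agent.S18x.NrmYAbs
import Fermat.Agent.S18x.NrmYLi
import Fermat.Agent.S18x.NrmYInt
import Fermat.Agent.S18x.NrmYLiftC
import Fermat.Agent.S28x.GaussRing
import Fermat.Prelude.Thm_ModularCurve_coeffMap_qExpand

set_option autoImplicit false
set_option linter.unusedSectionVars false

namespace Fermat.Agent.S18x

open ModularCurve HahnSeries Fermat.Agent.S28x Polynomial Module

noncomputable section

variable {ℓ : ℕ} [Fact ℓ.Prime]
variable {L : Type*} [Field L] [Algebra ℚ L] (A : ValuationSubring L)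
variable {k : Type*} [Field k] [Algebra (ZMod ℓ) k] (π : A →+* k)
variable {B₀ R : Type*} [CommRing B₀] [CommRing R] [Algebra B₀ R] (p : B₀)
variable (incl : R →+* LaurentSeries ℚ) (hW : ∀ t, incl t ∈ gaussRing ℓ)

/-- the reduction of `j(q^d)`, base changed to `k`. -/
theorem nry_psi_rho_jqd (d : ℕ) [NeZero d] (hm : qExpand ℚ d jq ∈ gaussRing ℓ) :
    coeffMap (algebraMap (ZMod ℓ) k) (rho ℓ ⟨qExpand ℚ d jq, hm⟩) = qExpand k d (jqModC k) := by
  rw [nry_rho_congr rfl hm (jqd_mem_gaussRing ℓ d), rho_jqd, coeffMap_qExpand, coeffMap_jqModC]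

/-- polynomials in the reduced coordinate come from `B₀` (the `hS` input of `nryl_li`). -/
theorem nry_hS (hZ : LaurentSeries (ZL ℓ))
    (hconst : ∀ z : ZL ℓ, ∃ b : B₀, incl (algebraMap B₀ R b) = HahnSeries.C (z : ℚ))
    (hcoord : ∃ b : B₀, incl (algebraMap B₀ R b) = toQ ℓ hZ)
    (P : Polynomial (ZMod ℓ)) :
    ∃ b : B₀, nry_rhoR incl hW (algebraMap B₀ R b) = Polynomial.aeval (red ℓ hZ) P := by
  induction P using Polynomial.induction_on with
  | C a =>
    obtain ⟨z, rfl⟩ : ∃ z : ZL ℓ, resZL ℓ z = a := by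
      obtain ⟨n, rfl⟩ := ZMod.intCast_surjective a
      exact ⟨(n : ZL ℓ), by simp⟩
    obtain ⟨b, hb⟩ := hconst z
    refine ⟨b, ?_⟩
    rw [nry_rhoR_apply, Polynomial.aeval_C, nry_algebraMap_eq_C]
    have h1 : incl (algebraMap B₀ R b) = toQ ℓ (HahnSeries.C z) := by rw [hb, nry_toQ_C]
    rw [nry_rho_congr h1 (hW _) (toQ_mem_gaussRing ℓ _), rho_toQ, nry_red_C]
  | add P Q hP hQ =>
    obtain ⟨b₁, h₁⟩ := hP
    obtain ⟨b₂, h₂⟩ := hQ
    exact ⟨b₁ + b₂, by rw [map_add, map_add, h₁, h₂, map_add]⟩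
  | monomial n a hP =>
    obtain ⟨b₁, h₁⟩ := hP
    obtain ⟨bh, hbh⟩ := hcoord
    refine ⟨b₁ * bh, ?_⟩
    have h2 : nry_rhoR incl hW (algebraMap B₀ R bh) = red ℓ hZ := by
      rw [nry_rhoR_apply, nry_rho_congr hbh (hW _) (toQ_mem_gaussRing ℓ _), rho_toQ]
    have h3 : Polynomial.aeval (red ℓ hZ) (Polynomial.C a * X ^ (n + 1)) =
        Polynomial.aeval (red ℓ hZ) (Polynomial.C a * X ^ n) * red ℓ hZ := by
      rw [pow_succ, ← mul_assoc, map_mul, Polynomial.aeval_X]
    rw [h3, map_mul, map_mul, h₁, h2]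

/-- **`NRM_Y` over `(ℚ̄, A, k)`.** -/
theorem nry_main (hA : A.LiesOverPrime ℓ) (hπ : Function.Surjective π)
    (hp : nry_rhoR incl hW (algebraMap B₀ R p) = 0)
    (hker : ∀ t, nry_rhoR incl hW t = 0 → t ∈ Ideal.map (algebraMap B₀ R) (Ideal.span {p}))
    {ι : Type*} [Fintype ι] [DecidableEq ι]
    (τ : Basis ι (B₀ ⧸ Ideal.span {p}) (R ⧸ Ideal.map (algebraMap B₀ R) (Ideal.span {p})))
    (hu : IsUnit (Algebra.discr (B₀ ⧸ Ideal.span {p}) τ))
    (hZ : LaurentSeries (ZL ℓ)) (c : ℤ[X])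
    (htr : Transcendental (ZMod ℓ) (red ℓ hZ)) (hc : nry_cval c (red ℓ hZ) ≠ 0)
    (hB₀le : ∀ b : B₀, incl (algebraMap B₀ R b) ∈ Subring.closure (nry_gens hZ c))
    (hconst : ∀ z : ZL ℓ, ∃ b : B₀, incl (algebraMap B₀ R b) = HahnSeries.C (z : ℚ))
    (hcoord : ∃ b : B₀, incl (algebraMap B₀ R b) = toQ ℓ hZ)
    (M e : ℕ) [NeZero M] [NeZero e] [Fact e.Prime]
    (hjR : ∀ d : ℕ, [NeZero d] → d ∣ M → ∃ t : R, incl t = qExpand ℚ d jq)
    (hje : ∃ b : B₀, incl (algebraMap B₀ R b) = qExpand ℚ e jq)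
    (S : Subring (LaurentSeries L)) (hSA : ∀ a : A, HahnSeries.C (a : L) ∈ S)
    (hSh : coeffEmb L (toQ ℓ hZ) ∈ S) (hSc : (nry_cval c (coeffEmb L (toQ ℓ hZ)))⁻¹ ∈ S)
    (hSR : ∀ t : R, coeffEmb L (incl t) ∈ S)
    {x : LaurentSeries k} (hxF : x ∈ modularFunctionFieldFullC k M)
    (hxint : IsIntegral (Algebra.adjoin k {jqModC k}) x) :
    ∃ z : LaurentSeries L, z ∈ S ∧ ∃ hz : z ∈ ga_W A π, ga_rho A π ⟨z, hz⟩ = x := by
  classical
  -- notation
  have hck : Polynomial.aeval (coeffMap (algebraMap (ZMod ℓ) k) (red ℓ hZ))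
      (c.map (Int.castRingHom k)) ≠ 0 := by
    rw [nry_aeval_map_int, ← nry_cval_map]
    exact nryb_coeffMap_ne_zero _ hc
  have hck0 : c.map (Int.castRingHom k) ≠ 0 := by
    intro h0
    apply hck
    rw [h0, map_zero]
  have htrk : Transcendental k (coeffMap (algebraMap (ZMod ℓ) k) (red ℓ hZ)) :=
    lv_transcendental_coeffMap htr
  let ev := pur_base_eval (c.map (Int.castRingHom k))
    (coeffMap (algebraMap (ZMod ℓ) k) (red ℓ hZ)) hck
  let algD' : Algebra (pur_Base (c.map (Int.castRingHom k))) (LaurentSeries k) := ev.toAlgebra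
  have halg : ∀ d, algebraMap (pur_Base (c.map (Int.castRingHom k))) (LaurentSeries k) d = ev d :=
    fun _ => rfl
  have hinjD' : Function.Injective
      (algebraMap (pur_Base (c.map (Int.castRingHom k))) (LaurentSeries k)) :=
    pur_base_eval_injective _ _ hck htrk
  have hdom : IsDomain (pur_Base (c.map (Int.castRingHom k))) := pur_base_isDomain hck0
  have hic : IsIntegrallyClosed (pur_Base (c.map (Int.castRingHom k))) :=
    pur_base_isIntegrallyClosed hck0
  -- the maps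
  let φ₀ := nry_phi0 p incl hW hp
  have hinj₀ : Function.Injective φ₀ := nry_phi0_injective p incl hW hp hker
  let φ : (R ⧸ Ideal.map (algebraMap B₀ R) (Ideal.span {p})) →+* LaurentSeries k :=
    (coeffMap (algebraMap (ZMod ℓ) k)).comp φ₀
  have hφmk : ∀ t : R, φ (Ideal.Quotient.mk _ t) =
      coeffMap (algebraMap (ZMod ℓ) k) (rho ℓ ⟨incl t, hW t⟩) := fun _ => rfl
  -- images of `B₀`
  have hB₀range : ∀ b : B₀, coeffMap (algebraMap (ZMod ℓ) k) (rho ℓ ⟨incl (algebraMap B₀ R b), hW _⟩)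
      ∈ ev.range := by
    intro b
    obtain ⟨hyW, hy⟩ := nry_closure_range (k := k) hZ c hc hck (hB₀le b)
    exact hy
  -- (H1)
  have H1 : ∀ d : B₀ ⧸ Ideal.span {p}, φ (algebraMap _ _ d) ∈
      (algebraMap (pur_Base (c.map (Int.castRingHom k))) (LaurentSeries k)).range := by
    intro d
    obtain ⟨b, rfl⟩ := Ideal.Quotient.mk_surjective d
    exact hB₀range b
  -- (hli)
  have hli : LinearIndependent (pur_Base (c.map (Int.castRingHom k))) (fun i => φ (τ i)) := by
    refine nryl_li (k := k) φ₀ hinj₀ τ htr ?_ hinjD' ?_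
    · intro P
      obtain ⟨b, hb⟩ := nry_hS incl hW hZ hconst hcoord P
      exact ⟨Ideal.Quotient.mk _ b, hb⟩
    · intro d
      exact nry_eval_mem_adjoin _ _ hck d
  -- constants
  have hconstk : ∀ a : k, algebraMap k (LaurentSeries k) a ∈
      (algebraMap (pur_Base (c.map (Int.castRingHom k))) (LaurentSeries k)).range := by
    intro a
    refine ⟨algebraMap k[X] _ (Polynomial.C a), ?_⟩
    rw [halg, nry_eval_C, nry_algebraMap_eq_C]
  -- `x` lies in the generated subfield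
  have hxs : x ∈ Subfield.closure
      ((Set.range (algebraMap (pur_Base (c.map (Int.castRingHom k))) (LaurentSeries k))) ∪
        Set.range φ) := by
    have hle : (modularFunctionFieldFullC k M).toSubfield ≤ Subfield.closure
        ((Set.range (algebraMap (pur_Base (c.map (Int.castRingHom k))) (LaurentSeries k))) ∪
          Set.range φ) := by
      show Subfield.closure (Set.range (algebraMap k (LaurentSeries k)) ∪
        divisorExpansionsC k M) ≤ _
      rw [Subfield.closure_le]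
      rintro y (⟨a, rfl⟩ | ⟨d, hd0, hdM, rfl⟩)
      · exact Subfield.subset_closure (Or.inl (hconstk a))
      · obtain ⟨t, ht⟩ := hjR d hdM
        refine Subfield.subset_closure (Or.inr ⟨Ideal.Quotient.mk _ t, ?_⟩)
        rw [hφmk]
        have hm : qExpand ℚ d jq ∈ gaussRing ℓ := jqd_mem_gaussRing ℓ d
        rw [nry_rho_congr ht (hW t) hm, nry_psi_rho_jqd]
    exact hle hxF
  -- integrality over `D'`
  have hjint : IsIntegral (pur_Base (c.map (Int.castRingHom k))) (jqModC k) := by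
    obtain ⟨b, hb⟩ := hje
    obtain ⟨be, hbe⟩ := hB₀range b
    refine nryi_isIntegral_jq (algebraMap k[X] (pur_Base (c.map (Int.castRingHom k)))) ?_ e be ?_
    · intro a
      rw [halg, nry_eval_C, nry_algebraMap_eq_C]
    · rw [halg, hbe]
      have hm : qExpand ℚ e jq ∈ gaussRing ℓ := jqd_mem_gaussRing ℓ e
      rw [nry_rho_congr hb (hW _) hm, nry_psi_rho_jqd]
  have hxD' : IsIntegral (pur_Base (c.map (Int.castRingHom k))) x :=
    nryi_isIntegral_of_adjoin hconstk hjint hxint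
  -- the coefficients
  obtain ⟨cf, hcf⟩ := nrya_exists_coeff hinjD' φ H1 τ hu hli hxs hxD'
  -- lifting
  have hlift : ∀ i, ∃ u : LaurentSeries L, u ∈ S ∧ ∃ hu : u ∈ ga_W A π,
      ga_rho A π ⟨u, hu⟩ = ev (cf i) := fun i =>
    nryt_lift_coeff A π hA hπ hZ c hck S hSA hSh hSc (cf i)
  choose u huS huW hρu using hlift
  have hτ : ∀ i, ∃ t : R, Ideal.Quotient.mk _ t = τ i := fun i =>
    Ideal.Quotient.mk_surjective (τ i)
  choose t ht using hτ
  set zW : ga_W A π :=
    ∑ i, (⟨u i, huW i⟩ : ga_W A π) *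
      ⟨coeffEmb L (incl (t i)), nryb_mem_W A ℓ π hA (hW (t i))⟩ with hzW
  refine ⟨(zW : LaurentSeries L), ?_, zW.2, ?_⟩
  · have h1 : (zW : LaurentSeries L) = ∑ i, u i * coeffEmb L (incl (t i)) := by
      rw [hzW]
      exact map_sum (ga_W A π).subtype _ _
    rw [h1]
    exact Subring.sum_mem _ fun i _ => S.mul_mem (huS i) (hSR (t i))
  · have h1 : (⟨(zW : LaurentSeries L), zW.2⟩ : ga_W A π) = zW := rfl
    rw [h1, hzW, map_sum, hcf]
    refine Finset.sum_congr rfl fun i _ => ?_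
    rw [map_mul, hρu, nryb_rho A ℓ π hA (hW (t i)), halg, ← ht i, hφmk]

end

end Fermat.Agent.S18x
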