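/-
S18 project, block NRM row N6 (helper94, prefix `nryg_`): `nry_main` (S18x/NrmY.lean) with the literal
quotients `B₀ ⧸ (p)`, `R ⧸ p R` replaced by ABSTRACT models `D`, `T` (ring maps `mkB : B₀ →+* D`,
`mkR : R →+* T` onto, compatible with the algebra maps, and an injective `φ₀ : T →+* 𝔽_ℓ((q))`
with `φ₀ ∘ mkR = ` reduction).  This is the form that applies to helper39's opaque synonyms
`puri_Bq`, `puri_Rq` (`S18x/PurInst.lean`): `mkB = puri_mkB`, `mkR = puri_mkR`,
`φ₀ = puri_liftR (nry_rhoR incl hW) _`.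
-/
import Fermat.Agent.S18x.NrmY

set_option autoImplicit false
set_option linter.unusedSectionVars false

namespace Fermat.Agent.S18x

open ModularCurve HahnSeries Fermat.Agent.S28x Polynomial Module

noncomputable section

variable {ℓ : ℕ} [Fact ℓ.Prime]
variable {L : Type*} [Field L] [Algebra ℚ L] (A : ValuationSubring L)
variable {k : Type*} [Field k] [Algebra (ZMod ℓ) k] (π : A →+* k)
variable {B₀ R : Type*} [CommRing B₀] [CommRing R] [Algebra B₀ R]
variable (incl : R →+* LaurentSeries ℚ) (hW : ∀ t, incl t ∈ gaussRing ℓ)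
variable {D T : Type*} [CommRing D] [CommRing T] [Algebra D T]

/-- **`NRM_Y` over `(ℚ̄, A, k)`, abstract quotients.** -/
theorem nryg_main (hA : A.LiesOverPrime ℓ) (hπ : Function.Surjective π)
    (mkB : B₀ →+* D) (hmkB : Function.Surjective mkB) (mkR : R →+* T)
    (hmkR : Function.Surjective mkR)
    (hmk : ∀ b, algebraMap D T (mkB b) = mkR (algebraMap B₀ R b))
    (φ₀ : T →+* LaurentSeries (ZMod ℓ)) (hφ₀ : ∀ t, φ₀ (mkR t) = nry_rhoR incl hW t)
    (hinj₀ : Function.Injective φ₀)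
    {ι : Type*} [Fintype ι] [DecidableEq ι]
    (τ : Basis ι D T) (hu : IsUnit (Algebra.discr D τ))
    (hZ : LaurentSeries (ZL ℓ)) (c : ℤ[X])
    (htr : Transcendental (ZMod ℓ) (red ℓ hZ)) (hc : nry_cval c (red ℓ hZ) ≠ 0)
    (hB₀le : ∀ b : B₀, incl (algebraMap B₀ R b) ∈ Subring.closure (nry_gens hZ c))
    (hconst : ∀ z : ZL ℓ, ∃ b : B₀, incl (algebraMap B₀ R b) = HahnSeries.C (z : ℚ))
    (hcoord : ∃ b : B₀, incl (algebraMap B₀ R b) = toQ ℓ hZ)
    (M e : ℕ) [NeZero M] [NeZero e] [Fact e.Prime]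
    (hjR : ∀ d : ℕ, [NeZero d] → d ∣ M → ∃ t : R, incl t = qExpand ℚ d jq)
    (hje : ∃ b : B₀, incl (algebraMap B₀ R b) = qExpand ℚ e jq)
    (S : Subring (LaurentSeries L)) (hSA : ∀ a : A, HahnSeries.C (a : L) ∈ S)
    (hSh : coeffEmb L (toQ ℓ hZ) ∈ S) (hSc : (nry_cval c (coeffEmb L (toQ ℓ hZ)))⁻¹ ∈ S)
    (hSR : ∀ t : R, coeffEmb L (incl t) ∈ S)
    {x : LaurentSeries k} (hxF : x ∈ modularFunctionFieldFullC k M)
    (hxint : IsIntegral (Algebra.adjoin k {jqModC k}) x) :
    ∃ z : LaurentSeries L, z ∈ S ∧ ∃ hz : z ∈ ga_W A π, ga_rho A π ⟨z, hz⟩ = x := by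
  classical
  -- notation
  have hck : Polynomial.aeval (coeffMap (algebraMap (ZMod ℓ) k) (red ℓ hZ))
      (c.map (Int.castRingHom k)) ≠ 0 := by
    rw [nry_aeval_map_int, ← nry_cval_map]
    exact nryb_coeffMap_ne_zero _ hc
  have hck0 : c.map (Int.castRingHom k) ≠ 0 := by
    intro h0
    apply hck
    rw [h0, map_zero]
  have htrk : Transcendental k (coeffMap (algebraMap (ZMod ℓ) k) (red ℓ hZ)) :=
    lv_transcendental_coeffMap htr
  let ev := pur_base_eval (c.map (Int.castRingHom k))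
    (coeffMap (algebraMap (ZMod ℓ) k) (red ℓ hZ)) hck
  let algD' : Algebra (pur_Base (c.map (Int.castRingHom k))) (LaurentSeries k) := ev.toAlgebra
  have halg : ∀ d, algebraMap (pur_Base (c.map (Int.castRingHom k))) (LaurentSeries k) d = ev d :=
    fun _ => rfl
  have hinjD' : Function.Injective
      (algebraMap (pur_Base (c.map (Int.castRingHom k))) (LaurentSeries k)) :=
    pur_base_eval_injective _ _ hck htrk
  have hdom : IsDomain (pur_Base (c.map (Int.castRingHom k))) := pur_base_isDomain hck0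
  have hic : IsIntegrallyClosed (pur_Base (c.map (Int.castRingHom k))) :=
    pur_base_isIntegrallyClosed hck0
  -- the maps
  let φ : T →+* LaurentSeries k := (coeffMap (algebraMap (ZMod ℓ) k)).comp φ₀
  have hφmk : ∀ t : R, φ (mkR t) =
      coeffMap (algebraMap (ZMod ℓ) k) (rho ℓ ⟨incl t, hW t⟩) := fun t => by
    show coeffMap (algebraMap (ZMod ℓ) k) (φ₀ (mkR t)) = _
    rw [hφ₀]
    rfl
  -- images of `B₀`
  have hB₀range : ∀ b : B₀, coeffMap (algebraMap (ZMod ℓ) k) (rho ℓ ⟨incl (algebraMap B₀ R b), hW _⟩)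
      ∈ ev.range := by
    intro b
    obtain ⟨hyW, hy⟩ := nry_closure_range (k := k) hZ c hc hck (hB₀le b)
    exact hy
  -- (H1)
  have H1 : ∀ d : D, φ (algebraMap D T d) ∈
      (algebraMap (pur_Base (c.map (Int.castRingHom k))) (LaurentSeries k)).range := by
    intro d
    obtain ⟨b, rfl⟩ := hmkB d
    rw [hmk, hφmk]
    exact hB₀range b
  -- (hli)
  have hli : LinearIndependent (pur_Base (c.map (Int.castRingHom k))) (fun i => φ (τ i)) := by
    refine nryl_li (k := k) φ₀ hinj₀ τ htr ?_ hinjD' ?_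
    · intro P
      obtain ⟨b, hb⟩ := nry_hS incl hW hZ hconst hcoord P
      exact ⟨mkB b, by rw [hmk, hφ₀, hb]⟩
    · intro d
      exact nry_eval_mem_adjoin _ _ hck d
  -- constants
  have hconstk : ∀ a : k, algebraMap k (LaurentSeries k) a ∈
      (algebraMap (pur_Base (c.map (Int.castRingHom k))) (LaurentSeries k)).range := by
    intro a
    refine ⟨algebraMap k[X] _ (Polynomial.C a), ?_⟩
    rw [halg, nry_eval_C, nry_algebraMap_eq_C]
  -- `x` lies in the generated subfield
  have hxs : x ∈ Subfield.closure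
      ((Set.range (algebraMap (pur_Base (c.map (Int.castRingHom k))) (LaurentSeries k))) ∪
        Set.range φ) := by
    have hle : (modularFunctionFieldFullC k M).toSubfield ≤ Subfield.closure
        ((Set.range (algebraMap (pur_Base (c.map (Int.castRingHom k))) (LaurentSeries k))) ∪
          Set.range φ) := by
      show Subfield.closure (Set.range (algebraMap k (LaurentSeries k)) ∪
        divisorExpansionsC k M) ≤ _
      rw [Subfield.closure_le]
      rintro y (⟨a, rfl⟩ | ⟨d, hd0, hdM, rfl⟩)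
      · exact Subfield.subset_closure (Or.inl (hconstk a))
      · obtain ⟨t, ht⟩ := hjR d hdM
        refine Subfield.subset_closure (Or.inr ⟨mkR t, ?_⟩)
        rw [hφmk]
        have hm : qExpand ℚ d jq ∈ gaussRing ℓ := jqd_mem_gaussRing ℓ d
        rw [nry_rho_congr ht (hW t) hm, nry_psi_rho_jqd]
    exact hle hxF
  -- integrality over `D'`
  have hjint : IsIntegral (pur_Base (c.map (Int.castRingHom k))) (jqModC k) := by
    obtain ⟨b, hb⟩ := hje
    obtain ⟨be, hbe⟩ := hB₀range b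
    refine nryi_isIntegral_jq (algebraMap k[X] (pur_Base (c.map (Int.castRingHom k)))) ?_ e be ?_
    · intro a
      rw [halg, nry_eval_C, nry_algebraMap_eq_C]
    · rw [halg, hbe]
      have hm : qExpand ℚ e jq ∈ gaussRing ℓ := jqd_mem_gaussRing ℓ e
      rw [nry_rho_congr hb (hW _) hm, nry_psi_rho_jqd]
  have hxD' : IsIntegral (pur_Base (c.map (Int.castRingHom k))) x :=
    nryi_isIntegral_of_adjoin hconstk hjint hxint
  -- the coefficients
  obtain ⟨cf, hcf⟩ := nrya_exists_coeff hinjD' φ H1 τ hu hli hxs hxD'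
  -- lifting
  have hlift : ∀ i, ∃ u : LaurentSeries L, u ∈ S ∧ ∃ hu : u ∈ ga_W A π,
      ga_rho A π ⟨u, hu⟩ = ev (cf i) := fun i =>
    nryt_lift_coeff A π hA hπ hZ c hck S hSA hSh hSc (cf i)
  choose u huS huW hρu using hlift
  have hτ : ∀ i, ∃ t : R, mkR t = τ i := fun i => hmkR (τ i)
  choose t ht using hτ
  set zW : ga_W A π :=
    ∑ i, (⟨u i, huW i⟩ : ga_W A π) *
      ⟨coeffEmb L (incl (t i)), nryb_mem_W A ℓ π hA (hW (t i))⟩ with hzW
  refine ⟨(zW : LaurentSeries L), ?_, zW.2, ?_⟩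
  · have h1 : (zW : LaurentSeries L) = ∑ i, u i * coeffEmb L (incl (t i)) := by
      rw [hzW]
      exact map_sum (ga_W A π).subtype _ _
    rw [h1]
    exact Subring.sum_mem _ fun i _ => S.mul_mem (huS i) (hSR (t i))
  · have h1 : (⟨(zW : LaurentSeries L), zW.2⟩ : ga_W A π) = zW := rfl
    rw [h1, hzW, map_sum, hcf]
    refine Finset.sum_congr rfl fun i _ => ?_
    rw [map_mul, hρu, nryb_rho A ℓ π hA (hW (t i)), halg, ← ht i, hφmk]

end

end Fermat.Agent.S18x
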