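/-
S18 project, block NRM row N6 (helper94, prefix `nryp_`): `nryg_main` INSTANTIATED on helper28's
level-`Y` objects (`B₀ = purb_B0 ℓ h c`, `R = purb_RY ℓ e h c N`) and helper39's PUR instance
(`puri_Bq`, `puri_Rq`, `puri_exists_basis_isUnit_discr`).

`nryp_main`: from `(hV) = puri_HV`, `(hH) = puri_HH`, `hW` (`R_Y ⊆ gaussRing ℓ`) and `hker`
(kernel of the reduction on `R_Y` is `ℓ R_Y`) + the coordinate data, every `x ∈ F̄_M` integral
over `k[j̃]` is the residue of an element of `S ∩ ga_W A π`.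
-/
import Fermat.Agent.S18x.NrmYGen
import Fermat.Agent.S18x.NrmYIncl
import Fermat.Agent.S18x.PurInst

set_option autoImplicit false
set_option linter.unusedSectionVars false
set_option synthInstance.maxHeartbeats 400000

namespace Fermat.Agent.S18x

open ModularCurve HahnSeries Fermat.Agent.S28x Polynomial Module

noncomputable section

variable (ℓ e : ℕ) [NeZero e] [Fact ℓ.Prime] (h : LaurentSeries ℚ) (c : ℤ[X]) (N : ℕ) [NeZero N]
variable (hW : ∀ t, nryp_incl ℓ e h c N t ∈ gaussRing ℓ)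

/-- the reduction kills `ℓ`. -/
theorem nryp_rhoR_l :
    nry_rhoR (nryp_incl ℓ e h c N) hW
      (algebraMap ↥(purb_B0 ℓ h c) ↥(purb_RY ℓ e h c N) (ℓ : ↥(purb_B0 ℓ h c))) = 0 := by
  rw [map_natCast, map_natCast, ← map_natCast (algebraMap (ZMod ℓ) (LaurentSeries (ZMod ℓ))),
    ZMod.natCast_self, map_zero]

/-- the reduction on `R_Y / ℓ R_Y` (helper39's opaque quotient). -/
def nryp_phi0 : puri_Rq ℓ e h c N →+* LaurentSeries (ZMod ℓ) :=
  puri_liftR ℓ e h c N (nry_rhoR (nryp_incl ℓ e h c N) hW) (nryp_rhoR_l ℓ e h c N hW)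

theorem nryp_phi0_mk (t : ↥(purb_RY ℓ e h c N)) :
    nryp_phi0 ℓ e h c N hW (puri_mkR ℓ e h c N t) = nry_rhoR (nryp_incl ℓ e h c N) hW t :=
  puri_liftR_mk ℓ e h c N _ _ t

theorem nryp_phi0_injective
    (hker : ∀ t : ↥(purb_RY ℓ e h c N), nry_rhoR (nryp_incl ℓ e h c N) hW t = 0 →
      ∃ t' : ↥(purb_RY ℓ e h c N), t = (ℓ : ↥(purb_B0 ℓ h c)) • t') :
    Function.Injective (nryp_phi0 ℓ e h c N hW) := by
  rw [injective_iff_map_eq_zero]
  intro a ha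
  obtain ⟨t, rfl⟩ := puri_mkR_surjective ℓ e h c N a
  rw [nryp_phi0_mk] at ha
  exact (puri_mkR_eq_zero_iff ℓ e h c N t).mpr (hker t ha)

variable {L : Type*} [Field L] [Algebra ℚ L] (A : ValuationSubring L)
variable {k : Type*} [Field k] [Algebra (ZMod ℓ) k] (π : A →+* k)

/-- **`NRM_Y` over `(ℚ̄, A, k)` on the level-`Y` objects.** -/
theorem nryp_main (hA : A.LiesOverPrime ℓ) (hπ : Function.Surjective π)
    (htrQ : Transcendental ℚ h) (hc0 : c ≠ 0) (hlc : ¬ Polynomial.C (ℓ : ℤ) ∣ c)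
    [FiniteDimensional ↥(purb_KY h) ↥(purb_LY e h N)]
    (hV : puri_HV ℓ e h c N) (hH : puri_HH ℓ e h c N)
    (hker : ∀ t : ↥(purb_RY ℓ e h c N), nry_rhoR (nryp_incl ℓ e h c N) hW t = 0 →
      ∃ t' : ↥(purb_RY ℓ e h c N), t = (ℓ : ↥(purb_B0 ℓ h c)) • t')
    (hZ : LaurentSeries (ZL ℓ))
    (htr : Transcendental (ZMod ℓ) (red ℓ hZ)) (hc : nry_cval c (red ℓ hZ) ≠ 0)
    (hB₀le : ∀ b : ↥(purb_B0 ℓ h c), ((b : ↥(purb_KY h)) : LaurentSeries ℚ) ∈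
      Subring.closure (nry_gens hZ c))
    (hconst : ∀ z : ZL ℓ, ∃ b : ↥(purb_B0 ℓ h c),
      ((b : ↥(purb_KY h)) : LaurentSeries ℚ) = HahnSeries.C (z : ℚ))
    (hcoord : ∃ b : ↥(purb_B0 ℓ h c), ((b : ↥(purb_KY h)) : LaurentSeries ℚ) = toQ ℓ hZ)
    (M e' : ℕ) [NeZero M] [NeZero e'] [Fact e'.Prime]
    (hjR : ∀ d : ℕ, [NeZero d] → d ∣ M →
      ∃ t : ↥(purb_RY ℓ e h c N), nryp_incl ℓ e h c N t = qExpand ℚ d jq)
    (hje : ∃ b : ↥(purb_B0 ℓ h c), ((b : ↥(purb_KY h)) : LaurentSeries ℚ) = qExpand ℚ e' jq)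
    (S : Subring (LaurentSeries L)) (hSA : ∀ a : A, HahnSeries.C (a : L) ∈ S)
    (hSh : coeffEmb L (toQ ℓ hZ) ∈ S) (hSc : (nry_cval c (coeffEmb L (toQ ℓ hZ)))⁻¹ ∈ S)
    (hSR : ∀ t : ↥(purb_RY ℓ e h c N), coeffEmb L (nryp_incl ℓ e h c N t) ∈ S)
    {x : LaurentSeries k} (hxF : x ∈ modularFunctionFieldFullC k M)
    (hxint : IsIntegral (Algebra.adjoin k {jqModC k}) x) :
    ∃ z : LaurentSeries L, z ∈ S ∧ ∃ hz : z ∈ ga_W A π, ga_rho A π ⟨z, hz⟩ = x := by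
  obtain ⟨τ, hu⟩ := puri_exists_basis_isUnit_discr ℓ e c N htrQ hc0 hlc hV hH
  exact nryg_main A π (nryp_incl ℓ e h c N) hW hA hπ (puri_mkB ℓ h c) (puri_mkB_surjective ℓ h c)
    (puri_mkR ℓ e h c N) (puri_mkR_surjective ℓ e h c N) (puri_algebraMap_mkB ℓ e h c N)
    (nryp_phi0 ℓ e h c N hW) (nryp_phi0_mk ℓ e h c N hW)
    (nryp_phi0_injective ℓ e h c N hW hker) τ hu hZ c htr hc
    (fun b => by rw [nryp_incl_algebraMap]; exact hB₀le b)
    (fun z => by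
      obtain ⟨b, hb⟩ := hconst z
      exact ⟨b, by rw [nryp_incl_algebraMap]; exact hb⟩)
    (by
      obtain ⟨b, hb⟩ := hcoord
      exact ⟨b, by rw [nryp_incl_algebraMap]; exact hb⟩)
    M e' hjR
    (by
      obtain ⟨b, hb⟩ := hje
      exact ⟨b, by rw [nryp_incl_algebraMap]; exact hb⟩)
    S hSA hSh hSc hSR hxF hxint

end

end Fermat.Agent.S18x
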