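/-
S18 project, block NRM row N6 (helper19, prefix `nryw_`): FINAL WRAPPER around helper94's
`nry_main` (S18x/NrmY.lean).

`nry_main` produces, for every subring `S ⊆ L((q))` containing the constants of `A`, the coordinate,
`1/c(h)` and the image of `R`, lifts `z ∈ S ∩ ga_W A π` of the elements of `F̄_M` integral over
`k[j̃]`.  Here:

* `nryw_S F x : Subring (L((q)))` : the elements of the intermediate field `F ⊆ L((q))` which are
  integral over `L[x]` (`nryw_mem_S`, `nryw_C_mem_S`, `nryw_mem_S_of_isIntegral`);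
* `nryw_isIntegral_coe` : integrality over `k[y]` inside an intermediate field `Fb ⊆ k((q))` gives
  integrality over `k[↑y]` inside `k((q))`;
* `nryw_NRM` : for ANY valuation subring `W'` of `F` with carrier `{z | ↑z ∈ ga_W A π}` and ANY
  `ρ' : W' →+* Fb` computed by `ga_rho`, the lifting property with `S = nryw_S F x'` is
  `nrn_NRM L k ρ' x'` (the `hY` input of `nrns_descent`, helper8).
-/
import Mathlib
import Fermat.Agent.S18x.GaussA
import Fermat.Agent.S18x.NrnCore

set_option autoImplicit false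

namespace Fermat.Agent.S18x

open ModularCurve HahnSeries

noncomputable section

section S

variable {L : Type*} [Field L] (F : IntermediateField L (LaurentSeries L)) (x : F)

/-- the elements of `F ⊆ L((q))` integral over `L[x]`, as a subring of `L((q))`. -/
def nryw_S : Subring (LaurentSeries L) :=
  ((integralClosure (Algebra.adjoin L {x}) F).toSubring).map F.val.toRingHom

theorem nryw_mem_S {z : LaurentSeries L} :
    z ∈ nryw_S F x ↔ ∃ z' : F, IsIntegral (Algebra.adjoin L {x}) z' ∧ (z' : LaurentSeries L) = z := by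
  unfold nryw_S
  rw [Subring.mem_map]
  constructor
  · rintro ⟨z', hz', rfl⟩
    exact ⟨z', hz', rfl⟩
  · rintro ⟨z', hz', rfl⟩
    exact ⟨z', hz', rfl⟩

theorem nryw_mem_S_of_isIntegral {z' : F} (hz' : IsIntegral (Algebra.adjoin L {x}) z') :
    (z' : LaurentSeries L) ∈ nryw_S F x :=
  (nryw_mem_S F x).mpr ⟨z', hz', rfl⟩

/-- constants lie in `S`. -/
theorem nryw_C_mem_S (a : L) : HahnSeries.C a ∈ nryw_S F x := by
  refine (nryw_mem_S F x).mpr ⟨algebraMap L F a, ?_, ?_⟩
  · rw [IsScalarTower.algebraMap_apply L (Algebra.adjoin L {x}) F]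
    exact isIntegral_algebraMap
  · show algebraMap L (LaurentSeries L) a = HahnSeries.C a
    rw [algebraMap_laurentSeries_eq_single, HahnSeries.C_apply]

/-- the coordinate lies in `S`. -/
theorem nryw_self_mem_S : (x : LaurentSeries L) ∈ nryw_S F x := by
  refine nryw_mem_S_of_isIntegral F x ?_
  have : x = algebraMap (Algebra.adjoin L {x}) F ⟨x, Algebra.self_mem_adjoin_singleton L x⟩ := rfl
  rw [this]
  exact isIntegral_algebraMap

end S

section Coe

variable {k : Type*} [Field k] (Fb : IntermediateField k (LaurentSeries k))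

/-- integrality over `k[jb]` inside `Fb` gives integrality over `k[↑jb]` inside `k((q))`. -/
theorem nryw_isIntegral_coe (jb y : Fb) (hy : IsIntegral (Algebra.adjoin k {jb}) y) :
    IsIntegral (Algebra.adjoin k {(jb : LaurentSeries k)}) (y : LaurentSeries k) := by
  have h1 : IsIntegral (Algebra.adjoin k {jb}) (algebraMap Fb (LaurentSeries k) y) :=
    IsIntegral.algebraMap (R := Algebra.adjoin k {jb}) (A := Fb) (B := LaurentSeries k) hy
  exact (nrn_isIntegral_adjoin_iff (K := k) (F := Fb) (F' := LaurentSeries k) jb _).mp h1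

end Coe

section Main

variable {L : Type*} [Field L] (A : ValuationSubring L) {k : Type*} [Field k] (π : A →+* k)
variable (F : IntermediateField L (LaurentSeries L)) (Fb : IntermediateField k (LaurentSeries k))

/-- **N6, `ga_`-form**: from the lifting property of `nry_main` (with `S = nryw_S F x`) to lifts in
`F` which are integral over `L[x]`. -/
theorem nryw_core (x : F) (jb : Fb)
    (hmain : ∀ y : LaurentSeries k, y ∈ Fb →
      IsIntegral (Algebra.adjoin k {(jb : LaurentSeries k)}) y →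
        ∃ z : LaurentSeries L, z ∈ nryw_S F x ∧ ∃ hz : z ∈ ga_W A π, ga_rho A π ⟨z, hz⟩ = y)
    (yb : Fb) (hyb : IsIntegral (Algebra.adjoin k {jb}) yb) :
    ∃ z : F, ∃ hz : (z : LaurentSeries L) ∈ ga_W A π,
      IsIntegral (Algebra.adjoin L {x}) z ∧ ga_rho A π ⟨z, hz⟩ = (yb : LaurentSeries k) := by
  obtain ⟨z, hzS, hz, hρ⟩ := hmain yb yb.2 (nryw_isIntegral_coe Fb jb yb hyb)
  obtain ⟨z', hz'int, rfl⟩ := (nryw_mem_S F x).mp hzS
  exact ⟨z', hz, hz'int, hρ⟩

/-- **N6, `nrn_NRM`-form**: for any valuation subring `W'` of `F` with carrier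
`{z | ↑z ∈ ga_W A π}` and any `ρ' : W' →+* Fb` computed by `ga_rho`. -/
theorem nryw_NRM (W' : ValuationSubring F) (ρ' : W' →+* Fb)
    (hcar : ∀ z : F, (z : LaurentSeries L) ∈ ga_W A π → z ∈ W')
    (hρ' : ∀ (z : F) (hz : z ∈ W') (hz' : (z : LaurentSeries L) ∈ ga_W A π),
      ((ρ' ⟨z, hz⟩ : Fb) : LaurentSeries k) = ga_rho A π ⟨z, hz'⟩)
    (x' : W')
    (hmain : ∀ y : LaurentSeries k, y ∈ Fb →
      IsIntegral (Algebra.adjoin k {((ρ' x' : Fb) : LaurentSeries k)}) y →
        ∃ z : LaurentSeries L, z ∈ nryw_S F (x' : F) ∧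
          ∃ hz : z ∈ ga_W A π, ga_rho A π ⟨z, hz⟩ = y) :
    nrn_NRM L k ρ' x' := by
  intro yb hyb
  obtain ⟨z, hz, hzint, hρ⟩ := nryw_core A π F Fb (x' : F) (ρ' x') hmain yb hyb
  refine ⟨⟨z, hcar z hz⟩, hzint, ?_⟩
  apply Subtype.ext
  rw [hρ' z (hcar z hz) hz, hρ]

end Main

end

end Fermat.Agent.S18x
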