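/-
S18x/NrmFinalOdd (helper10, block NRM, row NOdd; prefix `nrmo_`): **`hY` at the auxiliary level
`M = 4N` for `ℓ` odd**, i.e. `nrmt_HY (4N) A ℓ _ hA` (helper40's literal target,
`S18x/NrmTopDefs.lean`): normality of the finite chart of the `j`-line at level `4N` over
`(ℚ̄, A, k)`.

Wiring: helper94's `nryp_main` (= `nryg_main` on helper28's level-`Y` objects + helper39's PUR
instance) at `(e, h, c, N₀, M) = (2, X₃, X² - 64, 2N, 4N)`, with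
* `hW`, `hB₀le`, `hconst`, `hcoord` : helper19 `nryv_*` (`S18x/NrmYInst19.lean`);
* `hjR`, `hje`                      : helper22 `nryj_*` (`S18x/NrmYJd.lean`);
* `htr`, `hc`, `hc0`, `hlc`         : helper86 `nycf_*` (`S18x/NrmYCoordFacts.lean`);
* `F_Y = F_{4N}`                    : helper69 `bsf4_LY_eq`; finiteness: helper68 `purf_*`;
* consumer subring `S = nryw_S`, final shape `nryw_NRM` : helper19 (`S18x/NrmYWrap.lean`);
* chart facts `hSh`, `hSc`, `hSR`   : `S18x/NrmOddChart.lean`.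
Remaining inputs (hypotheses of `nrmo_HY_of`): `(V) = puri_HV`, `(H) = puri_HH` and `hker`
(kernel of the reduction on `R_Y` is `ℓ R_Y`), all at `(ℓ, 2, X₃, X² - 64, 2N)`.
-/
import Fermat.Agent.S18x.NrmYPuri
import Fermat.Agent.S18x.NrmYInst19
import Fermat.Agent.S18x.NrmYJd
import Fermat.Agent.S18x.NrmYWrap
import Fermat.Agent.S18x.NrmYCoordFacts
import Fermat.Agent.S18x.NrmOddChart
import Fermat.Agent.S18x.NrmTopDefs
import Fermat.Agent.S18x.BaseIdentF4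
import Fermat.Agent.S18x.PuriFinite

set_option autoImplicit false
set_option linter.style.haveILetI false
set_option linter.unusedSectionVars false
set_option synthInstance.maxHeartbeats 400000

namespace Fermat.Agent.S18x

open ModularCurve HahnSeries Polynomial Fermat.Agent.S24x Fermat.Agent.S28x

noncomputable section

variable (ℓ : ℕ) [Fact ℓ.Prime] (hl : ℓ ≠ 2) (N : ℕ) [NeZero N]

include hl

/-- `hW` at the `λ`-line coordinate: `R_Y` lies in the Gauss ring. -/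
theorem nrmo_hW (t : ↥(purb_RY ℓ 2 purb_X3Q purb_c3 (2 * N))) :
    nryp_incl ℓ 2 purb_X3Q purb_c3 (2 * N) t ∈ gaussRing ℓ :=
  nryv_hW ℓ 2 (lyn_X3Z ℓ hl) purb_c3 (2 * N) (lyn_toQ_X3Z ℓ hl)
    (nycf_cval_red_X3Z_ne_zero ℓ hl) t

/-- the literal `hker` hypothesis: the kernel of the reduction on `R_Y` is `ℓ R_Y`. -/
def nrmo_HKer : Prop :=
  ∀ t : ↥(purb_RY ℓ 2 purb_X3Q purb_c3 (2 * N)),
    nry_rhoR (nryp_incl ℓ 2 purb_X3Q purb_c3 (2 * N)) (nrmo_hW ℓ hl N) t = 0 →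
      ∃ t' : ↥(purb_RY ℓ 2 purb_X3Q purb_c3 (2 * N)),
        t = (ℓ : ↥(purb_B0 ℓ purb_X3Q purb_c3)) • t'

omit [Fact ℓ.Prime] hl in
theorem nrmo_coeffEmb_cinv (L : Type*) [Field L] [Algebra ℚ L] :
    (nry_cval purb_c3 (coeffEmb L purb_X3Q))⁻¹ =
      coeffEmb L (nry_cval purb_c3 purb_X3Q)⁻¹ := by
  rw [map_inv₀, nry_cval_map]

/-- **`hY` at level `4N`, `ℓ` odd**, from `(V)`, `(H)` and `hker` at level `Y`. -/
theorem nrmo_HY_of (A : ValuationSubring (AlgebraicClosure ℚ)) (hA : A.LiesOverPrime ℓ)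
    (hℓM : ¬ ℓ ∣ 4 * N)
    (hV : puri_HV ℓ 2 purb_X3Q purb_c3 (2 * N)) (hH : puri_HH ℓ 2 purb_X3Q purb_c3 (2 * N))
    (hker : nrmo_HKer ℓ hl N) :
    nrmt_HY (4 * N) A ℓ hℓM hA := by
  haveI : CharP (IsLocalRing.ResidueField A) ℓ := glu_charP A (Fact.out : ℓ.Prime) hA
  letI : Algebra (ZMod ℓ) (IsLocalRing.ResidueField A) := ZMod.algebra _ ℓ
  have hLY : purb_LY 2 purb_X3Q (2 * N) = modularFunctionFieldFull (4 * N) := bsf4_LY_eq N
  haveI : FiniteDimensional ↥(purb_KY purb_X3Q) ↥(purb_LY 2 purb_X3Q (2 * N)) :=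
    purf_finiteDimensional_X3Q (2 * N)
  haveI : Fact (Nat.Prime 2) := ⟨Nat.prime_two⟩
  refine nryw_NRM A (IsLocalRing.residue A) (modularFunctionFieldBar (4 * N))
    (modularFunctionFieldFullC (IsLocalRing.ResidueField A) (4 * N))
    (nrmt_W (4 * N) A) (nrmt_rho (4 * N) A ℓ hℓM hA) (fun z hz => hz)
    (fun z hz hz' => rfl) (nrmt_J (4 * N) A) ?_
  intro y hyF hyint
  rw [nrmt_rho_J_coe] at hyint
  refine nryp_main ℓ 2 purb_X3Q purb_c3 (2 * N) (nrmo_hW ℓ hl N) A (IsLocalRing.residue A) hA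
    IsLocalRing.residue_surjective lyn_transcendental_X3Q nycf_c3_ne_zero (nycf_c3_not_dvd ℓ)
    hV hH hker (lyn_X3Z ℓ hl) (nycf_transcendental_red_X3Z ℓ hl)
    (nycf_cval_red_X3Z_ne_zero ℓ hl) ?_ ?_ ?_ (4 * N) 2 ?_ (nryj_hje_X3 ℓ)
    (nryw_S (modularFunctionFieldBar (4 * N)) (nrmt_J (4 * N) A : FBar (4 * N)))
    (fun a => nryw_C_mem_S _ _ (a : AlgebraicClosure ℚ)) ?_ ?_ ?_ hyF hyint
  · -- hB₀le
    intro b
    rw [← nryp_incl_algebraMap ℓ 2 purb_X3Q purb_c3 (2 * N) b]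
    exact nryv_hB0le ℓ 2 (lyn_X3Z ℓ hl) purb_c3 (2 * N) (lyn_toQ_X3Z ℓ hl) b
  · -- hconst
    intro z
    obtain ⟨b, hb⟩ := nryv_hconst ℓ 2 purb_c3 (2 * N) purb_X3Q z
    exact ⟨b, by rw [← nryp_incl_algebraMap ℓ 2 purb_X3Q purb_c3 (2 * N) b]; exact hb⟩
  · -- hcoord
    obtain ⟨b, hb⟩ := nryv_hcoord ℓ 2 (lyn_X3Z ℓ hl) purb_c3 (2 * N) (lyn_toQ_X3Z ℓ hl)
    exact ⟨b, by rw [← nryp_incl_algebraMap ℓ 2 purb_X3Q purb_c3 (2 * N) b]; exact hb⟩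
  · -- hjR
    intro d _ hd
    exact nryj_jd_mem_RY ℓ 2 purb_X3Q purb_c3 (2 * N) (4 * N) hLY (nryj_hje_X3 ℓ) d hd
  · -- hSh
    rw [lyn_toQ_X3Z]
    exact nryw_mem_S_of_isIntegral _ _ (nrmo_X3_isIntegral_FBar (2 * N) (4 * N) hLY)
  · -- hSc
    rw [lyn_toQ_X3Z, nrmo_coeffEmb_cinv]
    exact nryw_mem_S_of_isIntegral _ _ (nrmo_cinv_isIntegral_FBar (2 * N) (4 * N) hLY)
  · -- hSR
    intro t
    exact nryw_mem_S_of_isIntegral _ _ (nrmo_RY_isIntegral_FBar ℓ (2 * N) (4 * N) hLY t)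

end

end Fermat.Agent.S18x
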