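/-
S18x/DflBasic (helper21): abstract "defectless" module, part 1.

Setting (same shape as helper80's `ts_Hyp`): a valuation ring `A` of the constant field `L`
with residue map `π : A →+* k`, a valuation ring `W` of `F ⊇ L` with residue map
`ρ : W →+* Fb`.  For an `L`-subspace `V` of `F` we define its reduction
`dfl_red V := ρ (V ∩ W)`, a `k`-subspace of `Fb`.

Main results of this file:
* `dfl_exists_unit`: if the reductions of `x j ∈ W` are `k`-linearly independent, every nonzero
  `L`-combination `∑ c j • x j` equals `c s • u` with `u` a unit of `W` and all `c j / c s ∈ A`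
  (the family `x` is *orthonormal*).
* `dfl_phi_injective`, `dfl_coeff_mem_of_mem`: consequences.
* `dfl_finrank_red_le`: `finrank k (dfl_red V) ≤ finrank L V`.
-/
import Mathlib

set_option autoImplicit false

namespace Fermat.Agent.S18x

open Module

section Setup

variable {L k F Fb : Type*} [Field L] [Field k] [Field F] [Field Fb] [Algebra L F] [Algebra k Fb]

/-- Abstract reduction data: valuation rings `A ⊆ L`, `W ⊆ F` with `W ∩ L = A`, residue maps
`π`, `ρ` compatible on constants, `π` onto, and `ρ x = 0` exactly for non-units. -/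
structure dfl_Hyp (A : ValuationSubring L) (π : A →+* k) (W : ValuationSubring F)
    (ρ : W →+* Fb) : Prop where
  mem_iff : ∀ c : L, algebraMap L F c ∈ W ↔ c ∈ A
  rho_alg : ∀ (c : L) (hc : c ∈ A) (hW : algebraMap L F c ∈ W),
    ρ ⟨algebraMap L F c, hW⟩ = algebraMap k Fb (π ⟨c, hc⟩)
  pi_surj : Function.Surjective π
  ker : ∀ x : W, ρ x = 0 ↔ ¬ IsUnit x

variable {A : ValuationSubring L} {π : A →+* k} {W : ValuationSubring F} {ρ : W →+* Fb}

/-- Total version of the residue map on constants. -/
noncomputable def dfl_res (A : ValuationSubring L) (π : A →+* k) (c : L) : k :=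
  open Classical in if h : c ∈ A then π ⟨c, h⟩ else 0

theorem dfl_res_of_mem {c : L} (hc : c ∈ A) : dfl_res A π c = π ⟨c, hc⟩ := by
  rw [dfl_res, dif_pos hc]

@[simp] theorem dfl_res_zero : dfl_res A π 0 = 0 := by
  rw [dfl_res_of_mem A.zero_mem]; exact map_zero π

@[simp] theorem dfl_res_one : dfl_res A π 1 = 1 := by
  rw [dfl_res_of_mem A.one_mem]; exact map_one π

/-- Total version of the inclusion of constants into `W`. -/
noncomputable def dfl_cW (W : ValuationSubring F) (c : L) : W :=
  open Classical in if h : algebraMap L F c ∈ W then ⟨algebraMap L F c, h⟩ else 0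

theorem dfl_cW_coe (H : dfl_Hyp A π W ρ) {c : L} (hc : c ∈ A) :
    ((dfl_cW W c : W) : F) = algebraMap L F c := by
  rw [dfl_cW, dif_pos ((H.mem_iff c).mpr hc)]

theorem dfl_rho_cW (H : dfl_Hyp A π W ρ) {c : L} (hc : c ∈ A) :
    ρ (dfl_cW W c) = algebraMap k Fb (dfl_res A π c) := by
  rw [dfl_cW, dif_pos ((H.mem_iff c).mpr hc), dfl_res_of_mem hc]
  exact H.rho_alg c hc _

theorem dfl_pi_eq_zero_iff (H : dfl_Hyp A π W ρ) (a : A) : π a = 0 ↔ ¬ IsUnit a := by
  have hW : algebraMap L F (a : L) ∈ W := (H.mem_iff _).mpr a.2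
  have h1 : ρ ⟨algebraMap L F (a : L), hW⟩ = algebraMap k Fb (π a) := H.rho_alg _ a.2 hW
  constructor
  · intro h0 hu
    obtain ⟨b, hab⟩ := hu.exists_right_inv
    have : π a * π b = 1 := by rw [← map_mul, hab, map_one]
    rw [h0, zero_mul] at this
    exact zero_ne_one this
  · intro hnu
    by_contra hne
    apply hnu
    have hρ : ρ ⟨algebraMap L F (a : L), hW⟩ ≠ 0 := by
      rw [h1]; simpa using hne
    have hu : IsUnit (⟨algebraMap L F (a : L), hW⟩ : W) := by
      by_contra hnu'
      exact hρ ((H.ker _).mpr hnu')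
    obtain ⟨b, hab⟩ := hu.exists_right_inv
    have ha0 : (a : L) ≠ 0 := by
      intro h
      have h2 := congrArg (Subtype.val) hab
      simp only [MulMemClass.coe_mul, OneMemClass.coe_one, h, map_zero, zero_mul] at h2
      exact zero_ne_one h2
    have hb : (b : F) = algebraMap L F ((a : L)⁻¹) := by
      have h2 := congrArg (Subtype.val) hab
      simp only [MulMemClass.coe_mul, OneMemClass.coe_one] at h2
      rw [map_inv₀]
      exact eq_inv_of_mul_eq_one_right h2
    have hinv : (a : L)⁻¹ ∈ A := (H.mem_iff _).mp (hb ▸ b.2)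
    exact isUnit_iff_exists_inv.mpr ⟨⟨(a : L)⁻¹, hinv⟩, Subtype.ext (by
      simp only [MulMemClass.coe_mul, OneMemClass.coe_one]
      exact mul_inv_cancel₀ ha0)⟩

/-- Among finitely many constants, not all zero, one has maximal valuation. -/
theorem dfl_exists_max (A : ValuationSubring L) {J : Type*} (c : J →₀ L) (hc : c ≠ 0) :
    ∃ s, c s ≠ 0 ∧ ∀ j, c j / c s ∈ A := by
  have hne : c.support.Nonempty := Finsupp.support_nonempty_iff.mpr hc
  obtain ⟨s, hs, hmax⟩ := Finset.exists_max_image c.support (fun j => A.valuation (c j)) hne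
  have hs0 : c s ≠ 0 := Finsupp.mem_support_iff.mp hs
  refine ⟨s, hs0, fun j => ?_⟩
  by_cases hj : j ∈ c.support
  · rw [← A.valuation_le_one_iff, map_div₀]
    have hv : A.valuation (c s) ≠ 0 := (Valuation.ne_zero_iff _).mpr hs0
    rw [div_le_iff₀ (zero_lt_iff.mpr hv), one_mul]
    exact hmax j hj
  · rw [Finsupp.notMem_support_iff.mp hj, zero_div]
    exact A.zero_mem

/-- Reduction of a finitely supported coefficient vector. -/
noncomputable def dfl_resF (A : ValuationSubring L) (π : A →+* k) {J : Type*} (c : J →₀ L) :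
    J →₀ k :=
  Finsupp.mapRange (dfl_res A π) dfl_res_zero c

@[simp] theorem dfl_resF_apply {J : Type*} (c : J →₀ L) (j : J) :
    dfl_resF A π c j = dfl_res A π (c j) := by
  rw [dfl_resF, Finsupp.mapRange_apply]

variable (L) in
/-- The `L`-linear combination map attached to a family in `W`. -/
noncomputable def dfl_phi (W : ValuationSubring F) {J : Type*} (x : J → W) : (J →₀ L) →ₗ[L] F :=
  Finsupp.linearCombination L (fun j => ((x j : W) : F))

/-- The combination with coefficients in `A`, as an element of `W`. -/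
noncomputable def dfl_sumW (W : ValuationSubring F) {J : Type*} (x : J → W) (c : J →₀ L) : W :=
  c.sum (fun j a => dfl_cW W a * x j)

theorem dfl_sumW_coe (H : dfl_Hyp A π W ρ) {J : Type*} (x : J → W) (c : J →₀ L)
    (hc : ∀ j, c j ∈ A) : ((dfl_sumW W x c : W) : F) = dfl_phi L W x c := by
  rw [dfl_sumW, dfl_phi, Finsupp.linearCombination_apply, Finsupp.sum, Finsupp.sum]
  rw [show ((∑ j ∈ c.support, dfl_cW W (c j) * x j : W) : F)
      = W.subtype (∑ j ∈ c.support, dfl_cW W (c j) * x j) from rfl, map_sum]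
  refine Finset.sum_congr rfl fun j _ => ?_
  rw [map_mul]
  show ((dfl_cW W (c j) : W) : F) * ((x j : W) : F) = _
  rw [dfl_cW_coe H (hc j), Algebra.smul_def]

theorem dfl_rho_sumW (H : dfl_Hyp A π W ρ) {J : Type*} (x : J → W) (c : J →₀ L)
    (hc : ∀ j, c j ∈ A) :
    ρ (dfl_sumW W x c) = Finsupp.linearCombination k (fun j => ρ (x j)) (dfl_resF A π c) := by
  rw [dfl_sumW, Finsupp.linearCombination_apply, dfl_resF,
    Finsupp.sum_mapRange_index (h := fun j a => a • ρ (x j)) (fun j => zero_smul k _),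
    Finsupp.sum, Finsupp.sum, map_sum]
  refine Finset.sum_congr rfl fun j _ => ?_
  rw [map_mul, dfl_rho_cW H (hc j), Algebra.smul_def]

/-- **Orthonormality.** If the reductions of the `x j` are `k`-independent, a nonzero combination
`∑ c j • x j` is `c s • u` with `u` a unit of `W`, where `c s` has maximal valuation. -/
theorem dfl_exists_unit (H : dfl_Hyp A π W ρ) {J : Type*} (x : J → W)
    (hx : LinearIndependent k (fun j => ρ (x j))) (c : J →₀ L) (hc : c ≠ 0) :
    ∃ s, c s ≠ 0 ∧ (∀ j, c j / c s ∈ A) ∧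
      ∃ u : W, IsUnit u ∧ dfl_phi L W x c = c s • ((u : W) : F) := by
  obtain ⟨s, hs0, hmax⟩ := dfl_exists_max A c hc
  refine ⟨s, hs0, hmax, ?_⟩
  set w : J →₀ L := (c s)⁻¹ • c with hw
  have hwA : ∀ j, w j ∈ A := fun j => by
    rw [hw, Finsupp.smul_apply, smul_eq_mul, mul_comm, ← div_eq_mul_inv]
    exact hmax j
  have hws : w s = 1 := by
    rw [hw, Finsupp.smul_apply, smul_eq_mul, inv_mul_cancel₀ hs0]
  refine ⟨dfl_sumW W x w, ?_, ?_⟩
  · by_contra hnu
    have h0 := (H.ker _).mpr hnu
    rw [dfl_rho_sumW H x w hwA] at h0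
    have hker := (linearIndependent_iff_ker.mp hx)
    have hmem : dfl_resF A π w ∈ LinearMap.ker (Finsupp.linearCombination k fun j => ρ (x j)) :=
      LinearMap.mem_ker.mpr h0
    rw [hker, Submodule.mem_bot] at hmem
    have := congrArg (fun f => f s) hmem
    simp only [dfl_resF_apply, hws, dfl_res_one, Finsupp.zero_apply] at this
    exact one_ne_zero this
  · rw [dfl_sumW_coe H x w hwA, hw, map_smul, smul_smul, mul_inv_cancel₀ hs0, one_smul]

theorem dfl_phi_injective (H : dfl_Hyp A π W ρ) {J : Type*} (x : J → W)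
    (hx : LinearIndependent k (fun j => ρ (x j))) : Function.Injective (dfl_phi L W x) := by
  rw [← LinearMap.ker_eq_bot, LinearMap.ker_eq_bot']
  intro c hc0
  by_contra hc
  obtain ⟨s, hs0, -, u, hu, hφ⟩ := dfl_exists_unit H x hx c hc
  rw [hc0] at hφ
  have hu0 : ((u : W) : F) ≠ 0 := by
    intro h
    have : u = 0 := Subtype.ext h
    rw [this] at hu
    exact not_isUnit_zero hu
  rw [Algebra.smul_def] at hφ
  rcases mul_eq_zero.mp hφ.symm with h | h
  · exact hs0 ((map_eq_zero (algebraMap L F)).mp h)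
  · exact hu0 h

/-- If an `L`-combination of an orthonormal family lies in `W`, all coefficients are in `A`. -/
theorem dfl_coeff_mem_of_mem (H : dfl_Hyp A π W ρ) {J : Type*} (x : J → W)
    (hx : LinearIndependent k (fun j => ρ (x j))) (c : J →₀ L)
    (hW : dfl_phi L W x c ∈ W) : ∀ j, c j ∈ A := by
  intro j
  by_cases hc : c = 0
  · rw [hc, Finsupp.zero_apply]; exact A.zero_mem
  obtain ⟨s, hs0, hmax, u, hu, hφ⟩ := dfl_exists_unit H x hx c hc
  have hsA : c s ∈ A := by
    rw [← H.mem_iff]
    obtain ⟨v, hv⟩ := hu.exists_right_inv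
    have h1 : ((u : W) : F) * ((v : W) : F) = 1 := by
      have := congrArg Subtype.val hv
      simpa only [MulMemClass.coe_mul, OneMemClass.coe_one] using this
    have : algebraMap L F (c s) = dfl_phi L W x c * ((v : W) : F) := by
      rw [hφ, Algebra.smul_def, mul_assoc, h1, mul_one]
    rw [this]
    exact W.mul_mem _ _ hW v.2
  have : c j = c j / c s * c s := by field_simp
  rw [this]
  exact A.mul_mem _ _ (hmax j) hsA

/-- Conversely, combinations with coefficients in `A` lie in `W`. -/
theorem dfl_phi_mem (H : dfl_Hyp A π W ρ) {J : Type*} (x : J → W) (c : J →₀ L)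
    (hc : ∀ j, c j ∈ A) : dfl_phi L W x c ∈ W := by
  rw [← dfl_sumW_coe H x c hc]
  exact (dfl_sumW W x c).2

/-- Reduction of an `L`-subspace `V` of `F`: the `k`-subspace `ρ (V ∩ W)` of `Fb`. -/
def dfl_red (H : dfl_Hyp A π W ρ) (V : Submodule L F) : Submodule k Fb where
  carrier := {y | ∃ x : W, ((x : W) : F) ∈ V ∧ ρ x = y}
  zero_mem' := ⟨0, by simp, map_zero ρ⟩
  add_mem' := by
    rintro _ _ ⟨x, hx, rfl⟩ ⟨y, hy, rfl⟩
    exact ⟨x + y, by simpa using V.add_mem hx hy, map_add ρ x y⟩
  smul_mem' := by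
    rintro a _ ⟨x, hx, rfl⟩
    obtain ⟨c, rfl⟩ := H.pi_surj a
    refine ⟨dfl_cW W (c : L) * x, ?_, ?_⟩
    · rw [MulMemClass.coe_mul, dfl_cW_coe H c.2, ← Algebra.smul_def]
      exact V.smul_mem _ hx
    · rw [map_mul, dfl_rho_cW H c.2, dfl_res_of_mem c.2, Algebra.smul_def]

theorem dfl_mem_red (H : dfl_Hyp A π W ρ) {V : Submodule L F} {y : Fb} :
    y ∈ dfl_red H V ↔ ∃ x : W, ((x : W) : F) ∈ V ∧ ρ x = y := Iff.rfl

theorem dfl_rho_mem_red (H : dfl_Hyp A π W ρ) {V : Submodule L F} (x : W)
    (hx : ((x : W) : F) ∈ V) : ρ x ∈ dfl_red H V := ⟨x, hx, rfl⟩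

theorem dfl_red_mono (H : dfl_Hyp A π W ρ) {V V' : Submodule L F} (h : V ≤ V') :
    dfl_red H V ≤ dfl_red H V' := by
  rintro _ ⟨x, hx, rfl⟩
  exact ⟨x, h hx, rfl⟩

/-- A family of elements of `V ∩ W` with `k`-independent reductions is `L`-independent. -/
theorem dfl_linearIndependent_of_red (H : dfl_Hyp A π W ρ) {J : Type*} (x : J → W)
    (hx : LinearIndependent k (fun j => ρ (x j))) :
    LinearIndependent L (fun j => ((x j : W) : F)) := by
  rw [linearIndependent_iff_ker, LinearMap.ker_eq_bot]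
  exact dfl_phi_injective H x hx

theorem dfl_card_le_finrank (H : dfl_Hyp A π W ρ) (V : Submodule L F) [FiniteDimensional L V]
    {J : Type*} [Fintype J] (x : J → W) (hxV : ∀ j, ((x j : W) : F) ∈ V)
    (hx : LinearIndependent k (fun j => ρ (x j))) : Fintype.card J ≤ finrank L V := by
  have h1 := dfl_linearIndependent_of_red H x hx
  have h2 : LinearIndependent L (fun j => (⟨((x j : W) : F), hxV j⟩ : V)) :=
    LinearIndependent.of_comp V.subtype h1
  exact h2.fintype_card_le_finrank

theorem dfl_rank_red_le (H : dfl_Hyp A π W ρ) (V : Submodule L F) [FiniteDimensional L V] :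
    Module.rank k (dfl_red H V) ≤ (finrank L V : Cardinal) := by
  refine rank_le fun s hs => ?_
  have hch : ∀ i : s, ∃ x : W, ((x : W) : F) ∈ V ∧ ρ x = ((i : dfl_red H V) : Fb) :=
    fun i => (i : dfl_red H V).2
  choose x hxV hxρ using hch
  have hind : LinearIndependent k (fun i : s => ρ (x i)) := by
    have : (fun i : s => ρ (x i)) = (dfl_red H V).subtype ∘ (fun i : s => (i : dfl_red H V)) := by
      funext i; exact hxρ i
    rw [this]
    exact hs.map' _ (Submodule.ker_subtype _)
  have := dfl_card_le_finrank H V x hxV hind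
  rwa [Fintype.card_coe] at this

instance dfl_red_finite (H : dfl_Hyp A π W ρ) (V : Submodule L F) [FiniteDimensional L V] :
    FiniteDimensional k (dfl_red H V) := by
  rw [FiniteDimensional, ← Module.rank_lt_aleph0_iff]
  exact lt_of_le_of_lt (dfl_rank_red_le H V) (Cardinal.natCast_lt_aleph0)

theorem dfl_finrank_red_le (H : dfl_Hyp A π W ρ) (V : Submodule L F) [FiniteDimensional L V] :
    finrank k (dfl_red H V) ≤ finrank L V := by
  have h := dfl_rank_red_le H V
  rw [← finrank_eq_rank] at h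
  exact_mod_cast h

end Setup

end Fermat.Agent.S18x
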