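/-
S18x/NdNorm.lean (helper8): "the norm commutes with reduction" (Step 2/7 of doc
S18_l23_solution_helper57).  Mathlib only.

* `nd_norm_map`: `V' / V` free with basis `b`, `κ' / κ` free with basis `b'`, ring maps `ρ : V → κ`,
  `ρ' : V' → κ'` compatible with the algebra maps and with `ρ' (b i) = b' i`; then
  `ρ (Algebra.norm V z) = Algebra.norm κ (ρ' z)`.
* `nd_RedPair`: a finite field extension `F' / F` with valuation subrings `W' ∩ F = W`, residue maps
  `ρ : W → Fb`, `ρ' : W' → Fb'` (kernels = non-units, `ρ'` onto) and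
  `[Fb' : Fb] = [F' : F]` ("unique extension, `e = 1`, `f = n`").
* `nd_RedPair.norm_reduction`: for `z ∈ W'`, `Norm_{F'/F} z ∈ W` and
  `ρ (Norm_{F'/F} z) = Norm_{Fb'/Fb} (ρ' z)`.
-/
import Mathlib

set_option autoImplicit false

namespace Fermat.Agent.S18x

open Module

section NormMap

variable {V V' κ κ' ι : Type*} [CommRing V] [CommRing V'] [Algebra V V'] [CommRing κ] [CommRing κ']
  [Algebra κ κ'] [Fintype ι] [DecidableEq ι]

/-- The norm commutes with a compatible pair of ring maps carrying a basis to a basis. -/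
theorem nd_norm_map (ρ : V →+* κ) (ρ' : V' →+* κ')
    (hcomp : ∀ v : V, ρ' (algebraMap V V' v) = algebraMap κ κ' (ρ v))
    (b : Basis ι V V') (b' : Basis ι κ κ') (hb : ∀ i, ρ' (b i) = b' i) (z : V') :
    ρ (Algebra.norm V z) = Algebra.norm κ (ρ' z) := by
  rw [Algebra.norm_eq_matrix_det b, Algebra.norm_eq_matrix_det b', RingHom.map_det]
  congr 1
  ext i j
  rw [RingHom.mapMatrix_apply, Matrix.map_apply, Algebra.leftMulMatrix_eq_repr_mul,
    Algebra.leftMulMatrix_eq_repr_mul]
  have h1 : z * b j = ∑ l, (b.repr (z * b j) l) • b l := (b.sum_repr (z * b j)).symm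
  have h2 : ρ' z * b' j = ∑ l, ρ (b.repr (z * b j) l) • b' l := by
    rw [← hb j, ← map_mul, h1, map_sum]
    refine Finset.sum_congr rfl fun l _ => ?_
    rw [Algebra.smul_def, map_mul, hcomp, hb, ← Algebra.smul_def]
    congr 2
    rw [← h1]
  rw [h2, map_sum]
  simp only [map_smul, Basis.repr_self, Finsupp.coe_finsetSum, Finsupp.coe_smul, Finset.sum_apply,
    Pi.smul_apply, Finsupp.single_apply, smul_eq_mul, mul_ite, mul_one, mul_zero,
    Finset.sum_ite_eq', Finset.mem_univ, if_true]

end NormMap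

section RedPair

variable {F F' Fb Fb' : Type*} [Field F] [Field F'] [Field Fb] [Field Fb'] [Algebra F F']
  [Algebra Fb Fb']

/-- Reduction data for a finite extension `F' / F`: valuation subrings `W' ∩ F = W`, residue maps with
kernel the non-units, `ρ'` onto, and residue degree equal to the degree. -/
structure nd_RedPair (W : ValuationSubring F) (W' : ValuationSubring F') (ρ : W →+* Fb)
    (ρ' : W' →+* Fb') : Prop where
  mem_iff : ∀ x : F, algebraMap F F' x ∈ W' ↔ x ∈ W
  compat : ∀ (x : F) (hx : x ∈ W) (hx' : algebraMap F F' x ∈ W'),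
    ρ' ⟨algebraMap F F' x, hx'⟩ = algebraMap Fb Fb' (ρ ⟨x, hx⟩)
  ker' : ∀ x : W', ρ' x = 0 ↔ ¬ IsUnit x
  surj' : Function.Surjective ρ'
  finite : FiniteDimensional F F'
  finrank_eq : finrank Fb Fb' = finrank F F'

variable {W : ValuationSubring F} {W' : ValuationSubring F'} {ρ : W →+* Fb} {ρ' : W' →+* Fb'}

namespace nd_RedPair

/-- A nonunit of `W`, viewed in `W'`, reduces to `0`. -/
theorem rho'_eq_zero_of_inv_not_mem (H : nd_RedPair W W' ρ ρ') {c : F} (hc : c ∉ W)
    (x : W') (hx : algebraMap F F' c⁻¹ * (x : F') ∈ W') :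
    ρ' ⟨algebraMap F F' c⁻¹ * (x : F'), hx⟩ = 0 := by
  rw [H.ker']
  intro hu
  -- then `c⁻¹` would be a unit of `W'`, so `c ∈ W' ∩ F = W`
  have hc0 : c ≠ 0 := by
    rintro rfl
    exact hc W.zero_mem
  have hcinv : c⁻¹ ∈ W := (W.mem_or_inv_mem c).resolve_left hc
  have hcinv' : algebraMap F F' c⁻¹ ∈ W' := (H.mem_iff _).mpr hcinv
  obtain ⟨⟨u, v, huv, hvu⟩, hu'⟩ := hu
  have hu'' : (u : F') = algebraMap F F' c⁻¹ * (x : F') := by
    have := congrArg Subtype.val hu'
    simpa using this
  have h1 : (u : F') * (v : F') = 1 := by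
    have := congrArg Subtype.val huv
    simpa using this
  apply hc
  rw [← H.mem_iff]
  have : algebraMap F F' c = (x : F') * (v : F') := by
    have hcc : algebraMap F F' c * algebraMap F F' c⁻¹ = 1 := by
      rw [← map_mul, mul_inv_cancel₀ hc0, map_one]
    calc algebraMap F F' c = algebraMap F F' c * ((u : F') * (v : F')) := by rw [h1, mul_one]
      _ = (algebraMap F F' c * algebraMap F F' c⁻¹) * ((x : F') * (v : F')) := by
          rw [hu'']; ring
      _ = (x : F') * (v : F') := by rw [hcc, one_mul]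
  rw [this]
  exact W'.mul_mem _ _ x.2 v.2

/-- KEY: if the reductions of `b i ∈ W'` are linearly independent over `Fb`, then an `F`-linear
combination of the `b i` lying in `W'` has all its coefficients in `W`. -/
theorem coeff_mem (H : nd_RedPair W W' ρ ρ') {ι : Type*} [Fintype ι] (b : ι → W')
    (hb : LinearIndependent Fb (fun i => ρ' (b i))) (c : ι → F)
    (hx : ∑ i, c i • ((b i : W') : F') ∈ W') : ∀ i, c i ∈ W := by
  classical
  by_contra hcon
  obtain ⟨i1, hi1⟩ := not_forall.mp hcon
  obtain ⟨i0, -, hi0⟩ := Finset.exists_max_image Finset.univ (fun i => W.valuation (c i))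
    ⟨i1, Finset.mem_univ _⟩
  have hc0W : c i0 ∉ W := by
    intro h
    apply hi1
    rw [← ValuationSubring.valuation_le_one_iff] at h ⊢
    exact (hi0 i1 (Finset.mem_univ _)).trans h
  have hc0 : c i0 ≠ 0 := fun h => hc0W (h ▸ W.zero_mem)
  have hv0 : W.valuation (c i0) ≠ 0 := (Valuation.ne_zero_iff _).mpr hc0
  have hc' : ∀ i, c i / c i0 ∈ W := by
    intro i
    rw [← ValuationSubring.valuation_le_one_iff, map_div₀]
    exact (div_le_one₀ (zero_lt_iff.mpr hv0)).mpr (hi0 i (Finset.mem_univ _))
  let c' : ι → W' := fun i => ⟨algebraMap F F' (c i / c i0), (H.mem_iff _).mpr (hc' i)⟩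
  let y : W' := ∑ i, c' i * b i
  have hy : (y : F') = algebraMap F F' (c i0)⁻¹ * ∑ i, c i • ((b i : W') : F') := by
    simp only [y, c', AddSubmonoidClass.coe_finsetSum, MulMemClass.coe_mul, Finset.mul_sum,
      Algebra.smul_def]
    refine Finset.sum_congr rfl fun i _ => ?_
    rw [div_eq_mul_inv, map_mul]
    ring
  have hy0 : ρ' y = 0 := by
    have h1 := H.rho'_eq_zero_of_inv_not_mem hc0W ⟨_, hx⟩ (by rw [← hy]; exact y.2)
    rw [← h1]
    congr 1
    exact Subtype.ext hy
  have hy1 : ρ' y = ∑ i, ρ ⟨c i / c i0, hc' i⟩ • ρ' (b i) := by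
    simp only [y, map_sum, map_mul]
    refine Finset.sum_congr rfl fun i _ => ?_
    rw [Algebra.smul_def, ← H.compat]
  rw [hy0] at hy1
  have h2 := (Fintype.linearIndependent_iff.mp hb) _ hy1.symm i0
  have h1 : (⟨c i0 / c i0, hc' i0⟩ : W) = 1 := Subtype.ext (div_self hc0)
  rw [h1, map_one] at h2
  exact one_ne_zero h2

/-- Lifts of a linearly independent family of the residue field are linearly independent. -/
theorem linearIndependent_lift (H : nd_RedPair W W' ρ ρ') {ι : Type*} [Fintype ι] (b : ι → W')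
    (hb : LinearIndependent Fb (fun i => ρ' (b i))) :
    LinearIndependent F (fun i => ((b i : W') : F')) := by
  classical
  rw [Fintype.linearIndependent_iff]
  intro c hc i1
  by_contra hi1
  -- for every scalar `t`, the combination `∑ (t * c i) b i = 0` lies in `W'`
  have hall : ∀ t : F, ∀ i, t * c i ∈ W := by
    intro t
    refine H.coeff_mem b hb (fun i => t * c i) ?_
    have : ∑ i, (t * c i) • ((b i : W') : F') = t • ∑ i, c i • ((b i : W') : F') := by
      rw [Finset.smul_sum]
      exact Finset.sum_congr rfl fun i _ => mul_smul _ _ _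
    rw [this, hc, smul_zero]
    exact W'.zero_mem
  -- so `W = ⊤`; then every element of `F` is a unit of `W'` or zero, and we reduce directly
  have htop : ∀ x : F, x ∈ W := by
    intro x
    have := hall (x * (c i1)⁻¹) i1
    rwa [mul_assoc, inv_mul_cancel₀ hi1, mul_one] at this
  -- reduce the relation `∑ (c i / c i1) b i = 0`
  let c' : ι → W' := fun i => ⟨algebraMap F F' (c i / c i1), (H.mem_iff _).mpr (htop _)⟩
  have hy : (∑ i, c' i * b i : W') = 0 := by
    apply Subtype.ext
    simp only [c', AddSubmonoidClass.coe_finsetSum, MulMemClass.coe_mul, ZeroMemClass.coe_zero]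
    have : ∑ i, algebraMap F F' (c i / c i1) * ((b i : W') : F')
        = algebraMap F F' (c i1)⁻¹ * ∑ i, c i • ((b i : W') : F') := by
      rw [Finset.mul_sum]
      refine Finset.sum_congr rfl fun i _ => ?_
      rw [div_eq_mul_inv, map_mul, Algebra.smul_def]
      ring
    rw [this, hc, mul_zero]
  have hy1 : ρ' (∑ i, c' i * b i) = ∑ i, ρ ⟨c i / c i1, htop _⟩ • ρ' (b i) := by
    simp only [map_sum, map_mul]
    refine Finset.sum_congr rfl fun i _ => ?_
    rw [Algebra.smul_def, ← H.compat]
  rw [hy, map_zero] at hy1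
  have h2 := (Fintype.linearIndependent_iff.mp hb) _ hy1.symm i1
  have h1 : (⟨c i1 / c i1, htop _⟩ : W) = 1 := Subtype.ext (div_self hi1)
  rw [h1, map_one] at h2
  exact one_ne_zero h2

/-- NORM COMMUTES WITH REDUCTION. -/
theorem norm_reduction (H : nd_RedPair W W' ρ ρ') (z : W') :
    ∃ hN : Algebra.norm F (z : F') ∈ W, ρ ⟨_, hN⟩ = Algebra.norm Fb (ρ' z) := by
  classical
  have hfin := H.finite
  have hpos : 0 < finrank Fb Fb' := by rw [H.finrank_eq]; exact finrank_pos
  have hfin' : FiniteDimensional Fb Fb' := Module.finite_of_finrank_pos hpos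
  let b' : Basis (Fin (finrank Fb Fb')) Fb Fb' := Module.finBasis Fb Fb'
  choose b hb using fun i => H.surj' (b' i)
  have hli' : LinearIndependent Fb (fun i => ρ' (b i)) := by
    simp_rw [hb]
    exact b'.linearIndependent
  have hli := H.linearIndependent_lift b hli'
  have hne : Nonempty (Fin (finrank Fb Fb')) := ⟨⟨0, hpos⟩⟩
  let B : Basis (Fin (finrank Fb Fb')) F F' :=
    basisOfLinearIndependentOfCardEqFinrank hli (by rw [Fintype.card_fin, H.finrank_eq])
  have hB : ∀ i, B i = ((b i : W') : F') := fun i => by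
    simp [B]
  -- the matrix of multiplication by `z` has entries in `W`
  have hM : ∀ i j, Algebra.leftMulMatrix B (z : F') i j ∈ W := by
    intro i j
    refine H.coeff_mem b hli' (fun i => Algebra.leftMulMatrix B (z : F') i j) ?_ i
    have : ∑ i, Algebra.leftMulMatrix B (z : F') i j • ((b i : W') : F') = (z : F') * (b j : F') := by
      simp_rw [Algebra.leftMulMatrix_eq_repr_mul, ← hB]
      exact B.sum_repr _
    rw [this]
    exact W'.mul_mem _ _ z.2 (b j).2
  let MW : Matrix (Fin (finrank Fb Fb')) (Fin (finrank Fb Fb')) W :=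
    fun i j => ⟨Algebra.leftMulMatrix B (z : F') i j, hM i j⟩
  have hMW : Algebra.leftMulMatrix B (z : F') = MW.map W.subtype := by
    ext i j
    rfl
  have hdet : Algebra.norm F (z : F') = W.subtype (MW.det) := by
    rw [Algebra.norm_eq_matrix_det B, hMW, ← RingHom.mapMatrix_apply, ← RingHom.map_det]
  refine ⟨hdet ▸ (MW.det).2, ?_⟩
  have h1 : (⟨Algebra.norm F (z : F'), hdet ▸ (MW.det).2⟩ : W) = MW.det := Subtype.ext hdet
  rw [h1, Algebra.norm_eq_matrix_det b', RingHom.map_det]
  congr 1
  ext i j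
  rw [RingHom.mapMatrix_apply, Matrix.map_apply, Algebra.leftMulMatrix_eq_repr_mul]
  -- `ρ' z * b' j = ∑ ρ (MW i j) • b' i`
  have h2 : z * b j = ∑ l, (⟨algebraMap F F' (MW l j : F), (H.mem_iff _).mpr (MW l j).2⟩ : W') * b l := by
    apply Subtype.ext
    simp only [MulMemClass.coe_mul, AddSubmonoidClass.coe_finsetSum]
    have : (z : F') * (b j : F') = ∑ l, Algebra.leftMulMatrix B (z : F') l j • ((b l : W') : F') := by
      simp_rw [Algebra.leftMulMatrix_eq_repr_mul, ← hB]
      exact (B.sum_repr _).symm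
    rw [this]
    refine Finset.sum_congr rfl fun l _ => ?_
    rw [Algebra.smul_def]
  have h3 : ρ' z * b' j = ∑ l, ρ (MW l j) • b' l := by
    rw [← hb j, ← map_mul, h2, map_sum]
    refine Finset.sum_congr rfl fun l _ => ?_
    rw [map_mul, H.compat _ (MW l j).2, hb, Algebra.smul_def]
  rw [h3, map_sum]
  simp only [map_smul, Basis.repr_self, Finsupp.coe_finsetSum, Finsupp.coe_smul, Finset.sum_apply,
    Pi.smul_apply, Finsupp.single_apply, smul_eq_mul, mul_ite, mul_one, mul_zero,
    Finset.sum_ite_eq', Finset.mem_univ, if_true]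

end nd_RedPair

end RedPair

end Fermat.Agent.S18x
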