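/-
S18x/LydGauss.lean (helper29, NRM block row N4, generic Gauss-ring construction).

For a field `F` with a ring hom `ι : F →+* ℚ((q))` whose image consists of quotients of
`ℓ`-integral series (`S28x.gr_fracField ℓ`):

* `lyd_gW ℓ ι hι : ValuationSubring F`  (preimage of the Gauss ring `S28x.gaussRing ℓ`);
* `lyd_gRho ℓ ι hι : lyd_gW ℓ ι hι →+* 𝔽_ℓ((q))` (the reduction `S28x.rho ℓ ∘ ι`);
* `lyd_gRes ℓ ι hι : IntermediateField 𝔽_ℓ 𝔽_ℓ((q))` (its image, a field) and the corestriction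
  `lyd_gRhoRes`;
* for `F → F'` compatible with the embeddings: the residue fields are nested
  (`lyd_gRes_le`), and all fields of helper8's `nd_RedPair` except `finite` / `finrank_eq`, as well as
  helper21's `dfl_Hyp`, hold (`lyd_g_redPair`, `lyd_g_dflHyp`).
-/
import Mathlib
import Fermat.Agent.S28x.GaussRing
import Fermat.Agent.S18x.NdNorm
import Fermat.Agent.S18x.DflBasic

set_option autoImplicit false

namespace Fermat.Agent.S18x

open Fermat.Agent.S28x ModularCurve Module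

noncomputable section

variable (ℓ : ℕ) [Fact ℓ.Prime]

/-- An element of the Gauss ring with nonzero reduction is a unit of the Gauss ring. -/
theorem lyd_inv_mem_gaussRing (x : gaussRing ℓ) (hρ : rho ℓ x ≠ 0) :
    (x : LaurentSeries ℚ)⁻¹ ∈ gaussRing ℓ := by
  obtain ⟨u, v, hu, huv⟩ := x.2
  rw [rho_eq ℓ x hu huv] at hρ
  have hv : red ℓ v ≠ 0 := fun h => hρ (by rw [h, zero_div])
  have hx0 : (x : LaurentSeries ℚ) ≠ 0 := by
    intro h0
    rw [h0, mul_zero] at huv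
    have : v = 0 := toQ_injective ℓ (by rw [← huv, map_zero])
    exact hv (by rw [this, map_zero])
  refine ⟨v, u, hv, ?_⟩
  rw [← huv]
  field_simp

section One

variable {F : Type*} [Field F] (ι : F →+* LaurentSeries ℚ) (hι : ∀ x, ι x ∈ gr_fracField ℓ)

/-- The Gauss valuation subring of `F`. -/
def lyd_gW : ValuationSubring F where
  toSubring := (gaussRing ℓ).comap ι
  mem_or_inv_mem' := by
    intro x
    by_cases hx : x = 0
    · left
      rw [hx]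
      exact Subring.zero_mem _
    have hιx : ι x ≠ 0 := fun h => hx (ι.injective (by rw [h, map_zero]))
    obtain ⟨m, y, hy, hy', -, hxy⟩ := exists_zpow_mul_unit ℓ hιx (hι x)
    have hℓW : (ℓ : LaurentSeries ℚ) ∈ gaussRing ℓ := gr_natCast_mem_gaussRing ℓ ℓ
    rcases le_or_gt 0 m with hm | hm
    · left
      obtain ⟨n, rfl⟩ := Int.eq_ofNat_of_zero_le hm
      show ι x ∈ gaussRing ℓ
      rw [hxy, zpow_natCast]
      exact (gaussRing ℓ).mul_mem ((gaussRing ℓ).pow_mem hℓW n) hy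
    · right
      obtain ⟨n, hn⟩ := Int.eq_ofNat_of_zero_le (by omega : 0 ≤ -m)
      show ι x⁻¹ ∈ gaussRing ℓ
      rw [map_inv₀, hxy, mul_inv, ← zpow_neg, hn, zpow_natCast]
      exact (gaussRing ℓ).mul_mem ((gaussRing ℓ).pow_mem hℓW n) hy'

theorem lyd_mem_gW {x : F} : x ∈ lyd_gW ℓ ι hι ↔ ι x ∈ gaussRing ℓ := Iff.rfl

/-- `W → gaussRing`. -/
def lyd_gIncl : lyd_gW ℓ ι hι →+* gaussRing ℓ where
  toFun x := ⟨ι (x : F), x.2⟩
  map_one' := Subtype.ext (map_one ι)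
  map_mul' x y := Subtype.ext (map_mul ι (x : F) (y : F))
  map_zero' := Subtype.ext (map_zero ι)
  map_add' x y := Subtype.ext (map_add ι (x : F) (y : F))

/-- The reduction map on the Gauss valuation subring. -/
def lyd_gRho : lyd_gW ℓ ι hι →+* LaurentSeries (ZMod ℓ) := (rho ℓ).comp (lyd_gIncl ℓ ι hι)

theorem lyd_gRho_apply (x : lyd_gW ℓ ι hι) : lyd_gRho ℓ ι hι x = rho ℓ ⟨ι x, x.2⟩ := rfl

/-- elements with nonzero reduction are invertible in `W` -/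
theorem lyd_inv_mem_gW (x : lyd_gW ℓ ι hι) (hx : lyd_gRho ℓ ι hι x ≠ 0) :
    (x : F)⁻¹ ∈ lyd_gW ℓ ι hι := by
  show ι (x : F)⁻¹ ∈ gaussRing ℓ
  rw [map_inv₀]
  exact lyd_inv_mem_gaussRing ℓ ⟨ι x, x.2⟩ hx

/-- `ker ρ` = non-units. -/
theorem lyd_gRho_eq_zero_iff (x : lyd_gW ℓ ι hι) : lyd_gRho ℓ ι hι x = 0 ↔ ¬ IsUnit x := by
  constructor
  · intro h0 hu
    obtain ⟨y, hxy⟩ := hu.exists_right_inv
    have : lyd_gRho ℓ ι hι x * lyd_gRho ℓ ι hι y = 1 := by rw [← map_mul, hxy, map_one]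
    rw [h0, zero_mul] at this
    exact zero_ne_one this
  · intro hnu
    by_contra hne
    apply hnu
    have hx0 : (x : F) ≠ 0 := by
      intro h
      apply hne
      have : x = 0 := Subtype.ext h
      rw [this, map_zero]
    exact isUnit_iff_exists_inv.mpr ⟨⟨(x : F)⁻¹, lyd_inv_mem_gW ℓ ι hι x hne⟩,
      Subtype.ext (mul_inv_cancel₀ hx0)⟩

/-- The residue field of the Gauss valuation on `F`, as a subfield of `𝔽_ℓ((q))`. -/
def lyd_gRes : IntermediateField (ZMod ℓ) (LaurentSeries (ZMod ℓ)) where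
  toSubalgebra :=
    { (lyd_gRho ℓ ι hι).range with
      algebraMap_mem' := by
        intro c
        refine ⟨(c.val : lyd_gW ℓ ι hι), ?_⟩
        rw [map_natCast]
        have h1 : ((c.val : ℕ) : ZMod ℓ) = c := ZMod.natCast_zmod_val c
        conv_rhs => rw [← h1]
        rw [map_natCast] }
  inv_mem' := by
    rintro _ ⟨x, rfl⟩
    by_cases h : lyd_gRho ℓ ι hι x = 0
    · rw [h, inv_zero]
      exact ⟨0, map_zero _⟩
    · refine ⟨⟨(x : F)⁻¹, lyd_inv_mem_gW ℓ ι hι x h⟩, ?_⟩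
      have hx0 : (x : F) ≠ 0 := by
        intro h0
        apply h
        have : x = 0 := Subtype.ext h0
        rw [this, map_zero]
      have h1 : lyd_gRho ℓ ι hι ⟨(x : F)⁻¹, lyd_inv_mem_gW ℓ ι hι x h⟩ * lyd_gRho ℓ ι hι x = 1 := by
        rw [← map_mul]
        have : (⟨(x : F)⁻¹, lyd_inv_mem_gW ℓ ι hι x h⟩ : lyd_gW ℓ ι hι) * x = 1 :=
          Subtype.ext (inv_mul_cancel₀ hx0)
        rw [this, map_one]
      exact eq_inv_of_mul_eq_one_left h1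

theorem lyd_mem_gRes {c : LaurentSeries (ZMod ℓ)} :
    c ∈ lyd_gRes ℓ ι hι ↔ ∃ x : lyd_gW ℓ ι hι, lyd_gRho ℓ ι hι x = c := Iff.rfl

/-- The reduction map, corestricted to the residue field. -/
def lyd_gRhoRes : lyd_gW ℓ ι hι →+* lyd_gRes ℓ ι hι :=
  (lyd_gRho ℓ ι hι).codRestrict (lyd_gRes ℓ ι hι) fun x => ⟨x, rfl⟩

theorem lyd_gRhoRes_coe (x : lyd_gW ℓ ι hι) :
    ((lyd_gRhoRes ℓ ι hι x : lyd_gRes ℓ ι hι) : LaurentSeries (ZMod ℓ)) = rho ℓ ⟨ι x, x.2⟩ := rfl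

theorem lyd_gRhoRes_surjective : Function.Surjective (lyd_gRhoRes ℓ ι hι) := by
  rintro ⟨c, x, rfl⟩
  exact ⟨x, rfl⟩

theorem lyd_gRhoRes_eq_zero_iff (x : lyd_gW ℓ ι hι) :
    lyd_gRhoRes ℓ ι hι x = 0 ↔ ¬ IsUnit x := by
  rw [← lyd_gRho_eq_zero_iff]
  constructor
  · intro h
    have := congrArg Subtype.val h
    exact this
  · intro h
    exact Subtype.ext h

end One

section Pair

variable {F F' : Type*} [Field F] [Field F'] [Algebra F F']
  (ι : F →+* LaurentSeries ℚ) (hι : ∀ x, ι x ∈ gr_fracField ℓ)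
  (ι' : F' →+* LaurentSeries ℚ) (hι' : ∀ x, ι' x ∈ gr_fracField ℓ)
  (hc : ∀ x : F, ι' (algebraMap F F' x) = ι x)

include hc in
/-- The residue fields are nested. -/
theorem lyd_gRes_le : lyd_gRes ℓ ι hι ≤ lyd_gRes ℓ ι' hι' := by
  rintro _ ⟨x, rfl⟩
  have hx : algebraMap F F' (x : F) ∈ lyd_gW ℓ ι' hι' := by
    show ι' (algebraMap F F' (x : F)) ∈ gaussRing ℓ
    rw [hc]
    exact x.2
  refine ⟨⟨algebraMap F F' (x : F), hx⟩, ?_⟩
  rw [lyd_gRho_apply, lyd_gRho_apply]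
  congr 1
  exact Subtype.ext (hc _)

/-- The algebra structure of the residue field extension. -/
@[reducible] def lyd_gAlgebra : Algebra (lyd_gRes ℓ ι hι) (lyd_gRes ℓ ι' hι') :=
  (IntermediateField.inclusion (lyd_gRes_le ℓ ι hι ι' hι' hc)).toRingHom.toAlgebra

theorem lyd_gAlgebra_coe (x : lyd_gRes ℓ ι hι) :
    ((@algebraMap _ _ _ _ (lyd_gAlgebra ℓ ι hι ι' hι' hc) x : lyd_gRes ℓ ι' hι') :
      LaurentSeries (ZMod ℓ)) = (x : LaurentSeries (ZMod ℓ)) := rfl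

include hc in
theorem lyd_g_mem_iff (x : F) : algebraMap F F' x ∈ lyd_gW ℓ ι' hι' ↔ x ∈ lyd_gW ℓ ι hι := by
  show ι' (algebraMap F F' x) ∈ gaussRing ℓ ↔ ι x ∈ gaussRing ℓ
  rw [hc]

theorem lyd_g_compat (x : F) (hx : x ∈ lyd_gW ℓ ι hι) (hx' : algebraMap F F' x ∈ lyd_gW ℓ ι' hι') :
    lyd_gRhoRes ℓ ι' hι' ⟨algebraMap F F' x, hx'⟩
      = @algebraMap _ _ _ _ (lyd_gAlgebra ℓ ι hι ι' hι' hc) (lyd_gRhoRes ℓ ι hι ⟨x, hx⟩) := by
  apply Subtype.ext
  rw [lyd_gAlgebra_coe, lyd_gRhoRes_coe, lyd_gRhoRes_coe]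
  congr 1
  exact Subtype.ext (hc _)

/-- helper8's `nd_RedPair` for the Gauss valuation subrings, given the degree equality. -/
theorem lyd_g_redPair (hfin : FiniteDimensional F F')
    (hdeg : @finrank (lyd_gRes ℓ ι hι) (lyd_gRes ℓ ι' hι') _ _
      (lyd_gAlgebra ℓ ι hι ι' hι' hc).toModule = finrank F F') :
    @nd_RedPair F F' (lyd_gRes ℓ ι hι) (lyd_gRes ℓ ι' hι') _ _ _ _ _
      (lyd_gAlgebra ℓ ι hι ι' hι' hc) (lyd_gW ℓ ι hι) (lyd_gW ℓ ι' hι')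
      (lyd_gRhoRes ℓ ι hι) (lyd_gRhoRes ℓ ι' hι') :=
  letI := lyd_gAlgebra ℓ ι hι ι' hι' hc
  { mem_iff := lyd_g_mem_iff ℓ ι hι ι' hι' hc
    compat := lyd_g_compat ℓ ι hι ι' hι' hc
    ker' := lyd_gRhoRes_eq_zero_iff ℓ ι' hι'
    surj' := lyd_gRhoRes_surjective ℓ ι' hι'
    finite := hfin
    finrank_eq := hdeg }

/-- helper21's `dfl_Hyp` for the Gauss valuation subrings (no degree hypothesis). -/
theorem lyd_g_dflHyp :
    @dfl_Hyp F (lyd_gRes ℓ ι hι) F' (lyd_gRes ℓ ι' hι') _ _ _ _ _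
      (lyd_gAlgebra ℓ ι hι ι' hι' hc) (lyd_gW ℓ ι hι) (lyd_gRhoRes ℓ ι hι) (lyd_gW ℓ ι' hι')
      (lyd_gRhoRes ℓ ι' hι') :=
  letI := lyd_gAlgebra ℓ ι hι ι' hι' hc
  { mem_iff := lyd_g_mem_iff ℓ ι hι ι' hι' hc
    rho_alg := fun c hc' hW => lyd_g_compat ℓ ι hι ι' hι' hc c hc' hW
    pi_surj := lyd_gRhoRes_surjective ℓ ι hι
    ker := lyd_gRhoRes_eq_zero_iff ℓ ι' hι' }

end Pair

end

end Fermat.Agent.S18x
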