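/-
S18x/LydDeg.lean (helper29, NRM block row N4): degree bookkeeping for Gauss residue fields.

* `lyd_dfl_finite_and_le`: fundamental inequality `[Fb : k] ≤ [F : L]` from helper21's `dfl_Hyp`
  when the residue map is onto;
* `lyd_finrank_inclusion`: `finrank A B` for nested intermediate fields (inclusion algebra)
  is `relfinrank A B`;
* `lyd_g_finrank_le`: `[Res F' : Res F] ≤ [F' : F]` for the Gauss residue fields of `LydGauss`;
* `lyd_g_finrank_eq_of_tower`: for a tower `K0 → K → L` with `[L : K0] ≤ [Res L : Res K0]`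
  both steps have residue degree = degree (so `lyd_g_redPair` applies to `(K, L)` and `(K0, K)`).
-/
import Mathlib
import Fermat.Agent.S18x.LydGauss

set_option autoImplicit false
set_option linter.style.haveILetI false

namespace Fermat.Agent.S18x

open Fermat.Agent.S28x ModularCurve Module IntermediateField

noncomputable section

section Dfl

variable {L k F Fb : Type*} [Field L] [Field k] [Field F] [Field Fb] [Algebra L F] [Algebra k Fb]
  {A : ValuationSubring L} {π : A →+* k} {W : ValuationSubring F} {ρ : W →+* Fb}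

/-- Fundamental inequality for an onto residue map. -/
theorem lyd_dfl_finite_and_le (H : dfl_Hyp A π W ρ) (hsurj : Function.Surjective ρ)
    [FiniteDimensional L F] : FiniteDimensional k Fb ∧ finrank k Fb ≤ finrank L F := by
  have htop : dfl_red H (⊤ : Submodule L F) = ⊤ := by
    rw [eq_top_iff]
    intro y _
    obtain ⟨x, rfl⟩ := hsurj y
    exact ⟨x, Submodule.mem_top, rfl⟩
  have h1 := dfl_finrank_red_le H (⊤ : Submodule L F)
  have h2 : FiniteDimensional k (dfl_red H (⊤ : Submodule L F)) := inferInstance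
  rw [htop] at h1 h2
  rw [finrank_top, finrank_top] at h1
  refine ⟨?_, h1⟩
  rw [FiniteDimensional, Module.finite_def]
  exact (Module.Finite.iff_fg (N := (⊤ : Submodule k Fb))).mp h2

end Dfl

section Incl

variable {K E : Type*} [Field K] [Field E] [Algebra K E]

/-- `finrank` for nested intermediate fields with the inclusion algebra is `relfinrank`. -/
theorem lyd_finrank_inclusion (A B : IntermediateField K E) (h : A ≤ B) :
    @finrank A B _ _ (IntermediateField.inclusion h).toRingHom.toAlgebra.toModule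
      = relfinrank A B := by
  rw [relfinrank_eq_finrank_of_le h]
  let _ : Algebra A B := (IntermediateField.inclusion h).toRingHom.toAlgebra
  let e : B ≃ₗ[A] (extendScalars h) :=
    { toFun := fun x => ⟨x.1, x.2⟩
      invFun := fun x => ⟨x.1, x.2⟩
      map_add' := fun _ _ => rfl
      map_smul' := fun a x => by
        apply Subtype.ext
        rw [Algebra.smul_def, RingHom.id_apply, Algebra.smul_def]
        rfl
      left_inv := fun _ => rfl
      right_inv := fun _ => rfl }
  exact e.finrank_eq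

/-- For nested intermediate fields `A ≤ B` and ANY algebra structure of `B` over `A` whose
structure map is the inclusion on underlying elements: `B ≃ extendScalars h` over `A`. -/
def lyd_extendEquiv (A B : IntermediateField K E) (h : A ≤ B) [Algebra A B]
    (hcoe : ∀ a : A, ((algebraMap A B a : B) : E) = (a : E)) : B ≃ₗ[A] (extendScalars h) where
  toFun x := ⟨x.1, x.2⟩
  invFun x := ⟨x.1, x.2⟩
  map_add' _ _ := rfl
  map_smul' a x := by
    apply Subtype.ext
    rw [Algebra.smul_def, RingHom.id_apply, Algebra.smul_def]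
    show ((algebraMap A B a * x : B) : E) = (a : E) * (x : E)
    rw [MulMemClass.coe_mul, hcoe]
  left_inv _ := rfl
  right_inv _ := rfl

theorem lyd_finrank_of_coe (A B : IntermediateField K E) (h : A ≤ B) [Algebra A B]
    (hcoe : ∀ a : A, ((algebraMap A B a : B) : E) = (a : E)) :
    finrank A B = relfinrank A B := by
  rw [relfinrank_eq_finrank_of_le h]
  exact (lyd_extendEquiv A B h hcoe).finrank_eq

theorem lyd_finite_of_coe (A B : IntermediateField K E) (h : A ≤ B) [Algebra A B]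
    (hcoe : ∀ a : A, ((algebraMap A B a : B) : E) = (a : E))
    [FiniteDimensional A (extendScalars h)] : FiniteDimensional A B :=
  Module.Finite.equiv (lyd_extendEquiv A B h hcoe).symm

end Incl

section GaussDeg

variable (ℓ : ℕ) [Fact ℓ.Prime]

section Two

variable {F F' : Type*} [Field F] [Field F'] [Algebra F F']
  (ι : F →+* LaurentSeries ℚ) (hι : ∀ x, ι x ∈ gr_fracField ℓ)
  (ι' : F' →+* LaurentSeries ℚ) (hι' : ∀ x, ι' x ∈ gr_fracField ℓ)
  (hc : ∀ x : F, ι' (algebraMap F F' x) = ι x)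

include hc in
/-- Fundamental inequality for the Gauss residue fields. -/
theorem lyd_g_relfinrank_le [FiniteDimensional F F'] :
    relfinrank (lyd_gRes ℓ ι hι) (lyd_gRes ℓ ι' hι') ≤ finrank F F' ∧
      relfinrank (lyd_gRes ℓ ι hι) (lyd_gRes ℓ ι' hι') ≠ 0 := by
  letI := lyd_gAlgebra ℓ ι hι ι' hι' hc
  obtain ⟨hfin, hle⟩ := lyd_dfl_finite_and_le (lyd_g_dflHyp ℓ ι hι ι' hι' hc)
    (lyd_gRhoRes_surjective ℓ ι' hι')
  have h1 := lyd_finrank_inclusion (lyd_gRes ℓ ι hι) (lyd_gRes ℓ ι' hι')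
    (lyd_gRes_le ℓ ι hι ι' hι' hc)
  have h2 : finrank (lyd_gRes ℓ ι hι) (lyd_gRes ℓ ι' hι')
      = relfinrank (lyd_gRes ℓ ι hι) (lyd_gRes ℓ ι' hι') := h1
  rw [← h2]
  exact ⟨hle, (finrank_pos (R := lyd_gRes ℓ ι hι) (M := lyd_gRes ℓ ι' hι')).ne'⟩

end Two

section Three

variable {K0 K L : Type*} [Field K0] [Field K] [Field L] [Algebra K0 K] [Algebra K L]
  [Algebra K0 L] [IsScalarTower K0 K L]
  (ι0 : K0 →+* LaurentSeries ℚ) (hι0 : ∀ x, ι0 x ∈ gr_fracField ℓ)
  (ι1 : K →+* LaurentSeries ℚ) (hι1 : ∀ x, ι1 x ∈ gr_fracField ℓ)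
  (ι2 : L →+* LaurentSeries ℚ) (hι2 : ∀ x, ι2 x ∈ gr_fracField ℓ)
  (h01 : ∀ x : K0, ι1 (algebraMap K0 K x) = ι0 x)
  (h12 : ∀ x : K, ι2 (algebraMap K L x) = ι1 x)

include h01 h12 in
/-- In a tower `K0 → K → L`, if the total residue degree is at least the total degree, then every
step has residue degree equal to its degree. -/
theorem lyd_g_relfinrank_eq_of_tower [FiniteDimensional K0 K] [FiniteDimensional K L]
    (hDEG : finrank K0 L ≤ relfinrank (lyd_gRes ℓ ι0 hι0) (lyd_gRes ℓ ι2 hι2)) :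
    relfinrank (lyd_gRes ℓ ι1 hι1) (lyd_gRes ℓ ι2 hι2) = finrank K L ∧
      relfinrank (lyd_gRes ℓ ι0 hι0) (lyd_gRes ℓ ι1 hι1) = finrank K0 K := by
  obtain ⟨ha, ha0⟩ := lyd_g_relfinrank_le ℓ ι0 hι0 ι1 hι1 h01
  obtain ⟨hb, hb0⟩ := lyd_g_relfinrank_le ℓ ι1 hι1 ι2 hι2 h12
  have hmul := relfinrank_mul_relfinrank (lyd_gRes_le ℓ ι0 hι0 ι1 hι1 h01)
    (lyd_gRes_le ℓ ι1 hι1 ι2 hι2 h12)
  have htower : finrank K0 K * finrank K L = finrank K0 L := finrank_mul_finrank K0 K L
  set a := relfinrank (lyd_gRes ℓ ι0 hι0) (lyd_gRes ℓ ι1 hι1)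
  set b := relfinrank (lyd_gRes ℓ ι1 hι1) (lyd_gRes ℓ ι2 hι2)
  set c := finrank K0 K
  set d := finrank K L
  have hcd : c * d ≤ a * b := by rw [htower, hmul]; exact hDEG
  have hc0 : 0 < c := finrank_pos
  have hd0 : 0 < d := finrank_pos
  have ha0' : 0 < a := Nat.pos_of_ne_zero ha0
  have hb0' : 0 < b := Nat.pos_of_ne_zero hb0
  constructor
  · by_contra hne
    have hlt : b < d := lt_of_le_of_ne hb hne
    have : a * b < c * d := calc
      a * b ≤ c * b := Nat.mul_le_mul_right b ha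
      _ < c * d := Nat.mul_lt_mul_of_pos_left hlt hc0
    omega
  · by_contra hne
    have hlt : a < c := lt_of_le_of_ne ha hne
    have : a * b < c * d := calc
      a * b < c * b := Nat.mul_lt_mul_of_pos_right hlt hb0'
      _ ≤ c * d := Nat.mul_le_mul_left c hb
    omega

include h01 h12 in
/-- `nd_RedPair` for the upper step of a tower with enough total residue degree. -/
theorem lyd_g_redPair_of_tower [FiniteDimensional K0 K] [FiniteDimensional K L]
    (hDEG : finrank K0 L ≤ relfinrank (lyd_gRes ℓ ι0 hι0) (lyd_gRes ℓ ι2 hι2)) :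
    @nd_RedPair K L (lyd_gRes ℓ ι1 hι1) (lyd_gRes ℓ ι2 hι2) _ _ _ _ _
      (lyd_gAlgebra ℓ ι1 hι1 ι2 hι2 h12) (lyd_gW ℓ ι1 hι1) (lyd_gW ℓ ι2 hι2)
      (lyd_gRhoRes ℓ ι1 hι1) (lyd_gRhoRes ℓ ι2 hι2) := by
  refine lyd_g_redPair ℓ ι1 hι1 ι2 hι2 h12 inferInstance ?_
  have h1 := lyd_finrank_inclusion (lyd_gRes ℓ ι1 hι1) (lyd_gRes ℓ ι2 hι2)
    (lyd_gRes_le ℓ ι1 hι1 ι2 hι2 h12)
  exact h1.trans (lyd_g_relfinrank_eq_of_tower ℓ ι0 hι0 ι1 hι1 ι2 hι2 h01 h12 hDEG).1

end Three

end GaussDeg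

end

end Fermat.Agent.S18x
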