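/-
S18x/LydFull.lean (helper29, NRM block row N4): the Gauss `nd_RedPair` for `(K, F_M)`, `ℓ ∤ M`,
`K` ANY field between `ℚ(j)` and `F_M = ℚ(j(q^d) : d ∣ M)` (design B: `M = 4N`, `K = ℚ(X3)`;
`M = 9N`, `K = ℚ(μ)`), from S28x `deg_all` at the single level `M`:

  `[F_M : ℚ(j)] ≤ ψ(M) ≤ [F̃_M : 𝔽_ℓ(j̃)] ≤ [Res F_M : Res ℚ(j)]`

and the fundamental inequality on both steps of the tower `ℚ(j) → K → F_M`.
-/
import Mathlib
import Fermat.Agent.S18x.LydDeg
import Fermat.Agent.S28x.DegAll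
import Fermat.Agent.S28x.QepOfDeg
import Fermat.Agent.S28x.GaussV
import Fermat.Agent.S28x.DegreeUpper
import Fermat.Agent.S28x.RedBasis

set_option autoImplicit false
set_option linter.style.haveILetI false
set_option linter.unusedSectionVars false

namespace Fermat.Agent.S18x

open Fermat.Agent.S28x ModularCurve Module IntermediateField

noncomputable section

local notation "𝕃" => LaurentSeries ℚ

/-- The embedding of an intermediate field of `ℚ((q))`, as a ring hom. -/
def lyd_val (E : IntermediateField ℚ 𝕃) : E →+* 𝕃 where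
  toFun x := x.1
  map_one' := rfl
  map_mul' _ _ := rfl
  map_zero' := rfl
  map_add' _ _ := rfl

@[simp] theorem lyd_val_apply (E : IntermediateField ℚ 𝕃) (x : E) : lyd_val E x = (x : 𝕃) := rfl

variable (ℓ M : ℕ) [Fact ℓ.Prime] [NeZero M]

theorem lyd_full_mem_frac (x : modularFunctionFieldFull M) :
    lyd_val (modularFunctionFieldFull M) x ∈ gr_fracField ℓ :=
  exists_frac_of_mem_full ℓ M x.2

theorem lyd_Qj_mem_frac (x : Qj) : lyd_val Qj x ∈ gr_fracField ℓ :=
  exists_frac_of_mem_full ℓ 1 (rb_Qj_le 1 x.2)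

/-- The Gauss residue field of `ℚ(j)` is `𝔽_ℓ(j̃)`. -/
theorem lyd_gRes_Qj : lyd_gRes ℓ (lyd_val Qj) (lyd_Qj_mem_frac ℓ) = Kj ℓ := by
  ext c
  constructor
  · rintro ⟨x, rfl⟩
    have hy : ((x : Qj) : 𝕃) ∈ gaussV ℓ := ⟨x.2, (x : Qj).2⟩
    exact gv_rho_mem_Kj ℓ hy
  · intro hc
    obtain ⟨y, hy, rfl⟩ := gv_exists_gaussV_rho_eq ℓ hc
    exact ⟨⟨⟨y, hy.2⟩, hy.1⟩, rfl⟩

/-- The Gauss residue field of `F_M` contains `F̃_M`. -/
theorem lyd_Ft_le_gRes_full :
    Ft ℓ M ≤ lyd_gRes ℓ (lyd_val (modularFunctionFieldFull M)) (lyd_full_mem_frac ℓ M) := by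
  intro c hc
  obtain ⟨x, hx, rfl⟩ := exists_AV_rho_eq ℓ M hc
  exact ⟨⟨⟨x, AV_le_full ℓ M hx⟩, AV_le_gaussRing ℓ M hx⟩, rfl⟩

/-- The DEG input of `lyd_g_relfinrank_eq_of_tower` at level `M`, `ℓ ∤ M`. -/
theorem lyd_full_hDEG (hℓM : ¬ ℓ ∣ M)
    (hpos : relfinrank (lyd_gRes ℓ (lyd_val Qj) (lyd_Qj_mem_frac ℓ))
      (lyd_gRes ℓ (lyd_val (modularFunctionFieldFull M)) (lyd_full_mem_frac ℓ M)) ≠ 0) :
    relfinrank Qj (modularFunctionFieldFull M) ≤
      relfinrank (lyd_gRes ℓ (lyd_val Qj) (lyd_Qj_mem_frac ℓ))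
        (lyd_gRes ℓ (lyd_val (modularFunctionFieldFull M)) (lyd_full_mem_frac ℓ M)) := by
  rw [lyd_gRes_Qj] at hpos ⊢
  have h1 : relfinrank Qj (modularFunctionFieldFull M) ≤ dedekindPsi M := relfinrank_full_le M
  have h2 : dedekindPsi M ≤ relfinrank (Kj ℓ) (Ft ℓ M) := deg_all ℓ M hℓM
  have hKF : Kj ℓ ≤ Ft ℓ M := qd_Kj_le_Ft ℓ M
  have h3 := relfinrank_mul_relfinrank hKF (lyd_Ft_le_gRes_full ℓ M)
  rw [← h3] at hpos ⊢
  have h4 : relfinrank (Ft ℓ M)
      (lyd_gRes ℓ (lyd_val (modularFunctionFieldFull M)) (lyd_full_mem_frac ℓ M)) ≠ 0 :=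
    fun h => hpos (by rw [h, mul_zero])
  calc relfinrank Qj (modularFunctionFieldFull M) ≤ relfinrank (Kj ℓ) (Ft ℓ M) := h1.trans h2
    _ ≤ _ := Nat.le_mul_of_pos_right _ (Nat.pos_of_ne_zero h4)

/-- The inclusion `ℚ(j) → F_M`. -/
def lyd_inclQj : Qj →+* modularFunctionFieldFull M :=
  (lyd_val Qj).codRestrict (modularFunctionFieldFull M) (fun x => rb_Qj_le M x.2)
theorem lyd_inclQj_coe (x : Qj) : ((lyd_inclQj M x : modularFunctionFieldFull M) : 𝕃) = x := by
  rw [lyd_inclQj, RingHom.codRestrict_apply, lyd_val_apply]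

section Mid

variable {K : Type*} [Field K] [Algebra K (modularFunctionFieldFull M)]

/-- If `j` lies in the image of `K → F_M` then so does all of `ℚ(j)`. -/
theorem lyd_inclQj_mem_range
    (hj : ∃ k : K, ((algebraMap K (modularFunctionFieldFull M) k : modularFunctionFieldFull M) : 𝕃)
      = jq) (x : Qj) :
    lyd_inclQj M x ∈ (algebraMap K (modularFunctionFieldFull M)).range := by
  obtain ⟨k0, hk0⟩ := hj
  -- the image of the range in `𝕃`, as an intermediate field
  let T : Subfield 𝕃 :=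
    ((algebraMap K (modularFunctionFieldFull M)).fieldRange).map (lyd_val (modularFunctionFieldFull M))
  let T' : IntermediateField ℚ 𝕃 := T.toIntermediateField (fun q => by
    rw [eq_ratCast (algebraMap ℚ 𝕃) q]
    exact SubfieldClass.ratCast_mem T q)
  have hle : Qj ≤ T' := by
    rw [IntermediateField.adjoin_le_iff, Set.singleton_subset_iff]
    have h1 : jq ∈ T := by
      rw [Subfield.mem_map]
      exact ⟨algebraMap K (modularFunctionFieldFull M) k0, ⟨k0, rfl⟩, by rw [lyd_val_apply, hk0]⟩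
    exact h1
  have h2 : (x : 𝕃) ∈ T := hle x.2
  rw [Subfield.mem_map] at h2
  obtain ⟨y, hyS, hy⟩ := h2
  rw [RingHom.mem_fieldRange] at hyS
  obtain ⟨k, hk⟩ := hyS
  refine ⟨k, ?_⟩
  rw [hk]
  apply Subtype.ext
  rw [lyd_inclQj_coe, ← hy, lyd_val_apply]

variable (K) in
/-- The induced map `ℚ(j) → K`. -/
def lyd_QjToMid
    (hj : ∃ k : K, ((algebraMap K (modularFunctionFieldFull M) k : modularFunctionFieldFull M) : 𝕃)
      = jq) : Qj →+* K :=
  (RingEquiv.ofBijective (algebraMap K (modularFunctionFieldFull M)).rangeRestrict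
    ⟨(algebraMap K (modularFunctionFieldFull M)).rangeRestrict.injective,
      (algebraMap K (modularFunctionFieldFull M)).rangeRestrict_surjective⟩).symm.toRingHom.comp
    ((lyd_inclQj M).codRestrict (algebraMap K (modularFunctionFieldFull M)).range
      (lyd_inclQj_mem_range M hj))

theorem lyd_QjToMid_spec
    (hj : ∃ k : K, ((algebraMap K (modularFunctionFieldFull M) k : modularFunctionFieldFull M) : 𝕃)
      = jq) (x : Qj) :
    algebraMap K (modularFunctionFieldFull M) (lyd_QjToMid M K hj x) = lyd_inclQj M x := by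
  have h1 : (algebraMap K (modularFunctionFieldFull M)).rangeRestrict (lyd_QjToMid M K hj x)
      = (lyd_inclQj M).codRestrict (algebraMap K (modularFunctionFieldFull M)).range
        (lyd_inclQj_mem_range M hj) x := by
    rw [lyd_QjToMid, RingHom.comp_apply]
    exact (RingEquiv.ofBijective (algebraMap K (modularFunctionFieldFull M)).rangeRestrict
      ⟨(algebraMap K (modularFunctionFieldFull M)).rangeRestrict.injective,
        (algebraMap K (modularFunctionFieldFull M)).rangeRestrict_surjective⟩).apply_symm_apply _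
  have h2 := congrArg Subtype.val h1
  rw [RingHom.coe_rangeRestrict, RingHom.codRestrict_apply] at h2
  exact h2


variable (K) in
/-- The embedding of the middle field `K` into `ℚ((q))`. -/
def lyd_midVal : K →+* 𝕃 :=
  (lyd_val (modularFunctionFieldFull M)).comp (algebraMap K (modularFunctionFieldFull M))

theorem lyd_midVal_apply (k : K) :
    lyd_midVal M K k = ((algebraMap K (modularFunctionFieldFull M) k : modularFunctionFieldFull M) : 𝕃) := by
  rw [lyd_midVal, RingHom.comp_apply, lyd_val_apply]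

theorem lyd_midVal_mem_frac (ℓ : ℕ) [Fact ℓ.Prime] (k : K) : lyd_midVal M K k ∈ gr_fracField ℓ := by
  rw [lyd_midVal, RingHom.comp_apply]
  exact lyd_full_mem_frac ℓ M _

theorem lyd_midVal_compat (k : K) :
    lyd_val (modularFunctionFieldFull M) (algebraMap K (modularFunctionFieldFull M) k)
      = lyd_midVal M K k := by
  rw [lyd_midVal, RingHom.comp_apply]

/-- **The Gauss `nd_RedPair` for `(K, F_M)`**, `ℓ ∤ M`, `K` any field with `ℚ(j) ⊆ K ⊆ F_M`. -/
theorem lyd_full_redPair (ℓ : ℕ) [Fact ℓ.Prime] (hℓM : ¬ ℓ ∣ M)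
    [FiniteDimensional K (modularFunctionFieldFull M)]
    (hj : ∃ k : K, ((algebraMap K (modularFunctionFieldFull M) k : modularFunctionFieldFull M) : 𝕃)
      = jq) :
    @nd_RedPair K (modularFunctionFieldFull M)
      (lyd_gRes ℓ (lyd_midVal M K) (lyd_midVal_mem_frac M ℓ))
      (lyd_gRes ℓ (lyd_val (modularFunctionFieldFull M)) (lyd_full_mem_frac ℓ M)) _ _ _ _ _
      (lyd_gAlgebra ℓ (lyd_midVal M K) (lyd_midVal_mem_frac M ℓ)
        (lyd_val (modularFunctionFieldFull M)) (lyd_full_mem_frac ℓ M) (lyd_midVal_compat M))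
      (lyd_gW ℓ (lyd_midVal M K) (lyd_midVal_mem_frac M ℓ))
      (lyd_gW ℓ (lyd_val (modularFunctionFieldFull M)) (lyd_full_mem_frac ℓ M))
      (lyd_gRhoRes ℓ (lyd_midVal M K) (lyd_midVal_mem_frac M ℓ))
      (lyd_gRhoRes ℓ (lyd_val (modularFunctionFieldFull M)) (lyd_full_mem_frac ℓ M)) := by
  letI algK0K : Algebra Qj K := (lyd_QjToMid M K hj).toAlgebra
  letI algK0L : Algebra Qj (modularFunctionFieldFull M) := (lyd_inclQj M).toAlgebra
  haveI : IsScalarTower Qj K (modularFunctionFieldFull M) :=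
    IsScalarTower.of_algebraMap_eq (fun x => (lyd_QjToMid_spec M hj x).symm)
  have hcoe : ∀ a : Qj, ((algebraMap Qj (modularFunctionFieldFull M) a :
      modularFunctionFieldFull M) : 𝕃) = (a : 𝕃) := fun a => lyd_inclQj_coe M a
  haveI := finiteDimensional_full M
  haveI hfin0L : FiniteDimensional Qj (modularFunctionFieldFull M) :=
    lyd_finite_of_coe Qj (modularFunctionFieldFull M) (rb_Qj_le M) hcoe
  haveI : FiniteDimensional Qj K := FiniteDimensional.left Qj K (modularFunctionFieldFull M)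
  have h01 : ∀ x : Qj, lyd_midVal M K (algebraMap Qj K x) = lyd_val Qj x := by
    intro x
    rw [lyd_midVal_apply]
    have : algebraMap K (modularFunctionFieldFull M) (algebraMap Qj K x) = lyd_inclQj M x :=
      lyd_QjToMid_spec M hj x
    rw [this, lyd_inclQj_coe, lyd_val_apply]
  have h02 : ∀ x : Qj, lyd_val (modularFunctionFieldFull M)
      (algebraMap Qj (modularFunctionFieldFull M) x) = lyd_val Qj x := by
    intro x
    rw [lyd_val_apply, lyd_val_apply]
    exact hcoe x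
  have hpos := (lyd_g_relfinrank_le ℓ (lyd_val Qj) (lyd_Qj_mem_frac ℓ)
    (lyd_val (modularFunctionFieldFull M)) (lyd_full_mem_frac ℓ M) h02).2
  have hDEG : finrank Qj (modularFunctionFieldFull M) ≤
      relfinrank (lyd_gRes ℓ (lyd_val Qj) (lyd_Qj_mem_frac ℓ))
        (lyd_gRes ℓ (lyd_val (modularFunctionFieldFull M)) (lyd_full_mem_frac ℓ M)) := by
    rw [lyd_finrank_of_coe Qj (modularFunctionFieldFull M) (rb_Qj_le M) hcoe]
    exact lyd_full_hDEG ℓ M hℓM hpos
  exact lyd_g_redPair_of_tower ℓ (lyd_val Qj) (lyd_Qj_mem_frac ℓ) (lyd_midVal M K)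
    (lyd_midVal_mem_frac M ℓ) (lyd_val (modularFunctionFieldFull M)) (lyd_full_mem_frac ℓ M)
    h01 (lyd_midVal_compat M) hDEG

end Mid

end

end Fermat.Agent.S18x
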