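/-
S18x/LydInst.lean (helper29, NRM block row N4): the Gauss `nd_RedPair` on helper28's level-`Y`
objects `(purb_KY h, purb_LY e h N')`, GENERIC in `(ℓ, e, h, N', M)`:

  hypotheses  `hLY : purb_LY e h N' = modularFunctionFieldFull M`, `¬ ℓ ∣ M`, `jq ∈ purb_KY h`,
              `FiniteDimensional (purb_KY h) (purb_LY e h N')`.

* `lyd_full_redPair_gen`: `lyd_full_redPair` for an arbitrary compatible embedding of the middle
  field;
* `lyd_redPair_of_eq`: transport along `E = modularFunctionFieldFull M` for intermediate fields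
  `E0, E` of `ℚ((q))` and any algebra structure `E0 → E` compatible with the coercions;
* `lyd_levelY_redPair`: the instance for `purb_KY h`, `purb_LY e h N'` (helper28's
  `purb_algebraKYLY`);
* `lyd_g_hker`: an element of the Gauss valuation ring with zero reduction is `ℓ` times an element
  of the Gauss valuation ring (generic).
-/
import Mathlib
import Fermat.Agent.S18x.LydFull
import Fermat.Agent.S18x.LevelYDefs

set_option autoImplicit false
set_option linter.style.haveILetI false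
set_option linter.unusedSectionVars false

namespace Fermat.Agent.S18x

open Fermat.Agent.S28x ModularCurve Module IntermediateField

noncomputable section

local notation "𝕃" => LaurentSeries ℚ

/-! ### generic `hker` -/

section Hker

variable (ℓ : ℕ) [Fact ℓ.Prime] {F' : Type*} [Field F'] (ι' : F' →+* 𝕃)
  (hι' : ∀ x, ι' x ∈ gr_fracField ℓ)

/-- An element of the Gauss valuation ring with zero reduction is `ℓ` times an element of the
Gauss valuation ring. -/
theorem lyd_g_hker (x : lyd_gW ℓ ι' hι') (hx : lyd_gRhoRes ℓ ι' hι' x = 0) :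
    ∃ y : lyd_gW ℓ ι' hι', (x : F') = (ℓ : F') * (y : F') := by
  have h1 : rho ℓ ⟨ι' x, x.2⟩ = 0 := by
    rw [← lyd_gRhoRes_coe, hx]
    rfl
  obtain ⟨y', hy'⟩ := (rho_eq_zero_iff ℓ _).mp h1
  have h2 : ι' (x : F') = (ℓ : 𝕃) * (y' : 𝕃) := by
    have := congrArg Subtype.val hy'
    simpa using this
  have hℓ0 : (ℓ : 𝕃) ≠ 0 := gr_natCast_ne_zero ℓ
  have hℓF : (ℓ : F') ≠ 0 := by
    intro h0
    apply hℓ0
    rw [← map_natCast ι', h0, map_zero]
  have h3 : ι' ((x : F') / (ℓ : F')) = (y' : 𝕃) := by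
    rw [map_div₀, map_natCast, h2, mul_div_assoc, mul_comm, div_mul_cancel₀ _ hℓ0]
  refine ⟨⟨(x : F') / (ℓ : F'), ?_⟩, ?_⟩
  · show ι' ((x : F') / (ℓ : F')) ∈ gaussRing ℓ
    rw [h3]
    exact y'.2
  · show (x : F') = (ℓ : F') * ((x : F') / (ℓ : F'))
    rw [mul_div_cancel₀ _ hℓF]

end Hker

/-! ### the pair `(K, F_M)` with an arbitrary compatible embedding of `K` -/

section Gen

variable (M : ℕ) [NeZero M] {K : Type*} [Field K] [Algebra K (modularFunctionFieldFull M)]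

/-- `lyd_full_redPair` with an arbitrary embedding `ι1` of the middle field compatible with
`K → F_M`. -/
theorem lyd_full_redPair_gen (ℓ : ℕ) [Fact ℓ.Prime] (hℓM : ¬ ℓ ∣ M)
    [FiniteDimensional K (modularFunctionFieldFull M)]
    (hj : ∃ k : K, ((algebraMap K (modularFunctionFieldFull M) k : modularFunctionFieldFull M) : 𝕃)
      = jq)
    (ι1 : K →+* 𝕃) (hι1 : ∀ x, ι1 x ∈ gr_fracField ℓ)
    (hc1 : ∀ k : K, lyd_val (modularFunctionFieldFull M)
      (algebraMap K (modularFunctionFieldFull M) k) = ι1 k) :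
    @nd_RedPair K (modularFunctionFieldFull M) (lyd_gRes ℓ ι1 hι1)
      (lyd_gRes ℓ (lyd_val (modularFunctionFieldFull M)) (lyd_full_mem_frac ℓ M)) _ _ _ _ _
      (lyd_gAlgebra ℓ ι1 hι1 (lyd_val (modularFunctionFieldFull M)) (lyd_full_mem_frac ℓ M) hc1)
      (lyd_gW ℓ ι1 hι1)
      (lyd_gW ℓ (lyd_val (modularFunctionFieldFull M)) (lyd_full_mem_frac ℓ M))
      (lyd_gRhoRes ℓ ι1 hι1)
      (lyd_gRhoRes ℓ (lyd_val (modularFunctionFieldFull M)) (lyd_full_mem_frac ℓ M)) := by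
  have hι : ι1 = lyd_midVal M K := RingHom.ext fun k => by
    rw [← hc1, lyd_midVal_apply, lyd_val_apply]
  subst hι
  exact lyd_full_redPair M ℓ hℓM hj

end Gen

/-! ### transport along `E = F_M` -/

section Transport

variable (M : ℕ) [NeZero M] (ℓ : ℕ) [Fact ℓ.Prime]

theorem lyd_mem_frac_of_eq {E : IntermediateField ℚ 𝕃} (hE : E = modularFunctionFieldFull M)
    (x : E) : lyd_val E x ∈ gr_fracField ℓ := by
  subst hE
  exact lyd_full_mem_frac ℓ M x

theorem lyd_mem_frac_of_le {E0 E : IntermediateField ℚ 𝕃} (hE : E = modularFunctionFieldFull M)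
    (hle : E0 ≤ E) (x : E0) : lyd_val E0 x ∈ gr_fracField ℓ := by
  have := lyd_mem_frac_of_eq M ℓ hE ⟨(x : 𝕃), hle x.2⟩
  rwa [lyd_val_apply] at this ⊢

/-- The Gauss `nd_RedPair` for intermediate fields `E0 → E = F_M` of `ℚ((q))`. -/
theorem lyd_redPair_of_eq (hℓM : ¬ ℓ ∣ M) (E0 E : IntermediateField ℚ 𝕃)
    (hE : E = modularFunctionFieldFull M) [Algebra E0 E] [FiniteDimensional E0 E]
    (hj : jq ∈ E0)
    (h0 : ∀ x, lyd_val E0 x ∈ gr_fracField ℓ) (h1 : ∀ x, lyd_val E x ∈ gr_fracField ℓ)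
    (hc : ∀ x : E0, lyd_val E (algebraMap E0 E x) = lyd_val E0 x) :
    @nd_RedPair E0 E (lyd_gRes ℓ (lyd_val E0) h0) (lyd_gRes ℓ (lyd_val E) h1) _ _ _ _ _
      (lyd_gAlgebra ℓ (lyd_val E0) h0 (lyd_val E) h1 hc)
      (lyd_gW ℓ (lyd_val E0) h0) (lyd_gW ℓ (lyd_val E) h1)
      (lyd_gRhoRes ℓ (lyd_val E0) h0) (lyd_gRhoRes ℓ (lyd_val E) h1) := by
  subst hE
  refine lyd_full_redPair_gen M ℓ hℓM ⟨⟨jq, hj⟩, ?_⟩ (lyd_val E0) h0 hc
  have := hc ⟨jq, hj⟩
  rwa [lyd_val_apply, lyd_val_apply] at this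

end Transport

/-! ### helper28's level-`Y` objects -/

section LevelY

variable (ℓ e : ℕ) [Fact ℓ.Prime] [NeZero e] (h : 𝕃) (N' M : ℕ) [NeZero N'] [NeZero M]

theorem lyd_levelY_compat (x : ↥(purb_KY h)) :
    lyd_val (purb_LY e h N') (algebraMap ↥(purb_KY h) ↥(purb_LY e h N') x)
      = lyd_val (purb_KY h) x := by
  rw [lyd_val_apply, lyd_val_apply, purb_algebraMap_KY_LY_coe]

theorem lyd_levelY_mem_frac (hLY : purb_LY e h N' = modularFunctionFieldFull M)
    (x : ↥(purb_LY e h N')) : lyd_val (purb_LY e h N') x ∈ gr_fracField ℓ :=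
  lyd_mem_frac_of_eq M ℓ hLY x

theorem lyd_levelY_mem_frac_base (hLY : purb_LY e h N' = modularFunctionFieldFull M)
    (x : ↥(purb_KY h)) : lyd_val (purb_KY h) x ∈ gr_fracField ℓ :=
  lyd_mem_frac_of_le M ℓ hLY (purb_KY_le_LY e h N') x

/-- **The Gauss `nd_RedPair` at level `Y`**, generic in `(ℓ, e, h, N', M)`. -/
theorem lyd_levelY_redPair (hLY : purb_LY e h N' = modularFunctionFieldFull M) (hℓM : ¬ ℓ ∣ M)
    (hj : jq ∈ purb_KY h) [FiniteDimensional ↥(purb_KY h) ↥(purb_LY e h N')] :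
    @nd_RedPair ↥(purb_KY h) ↥(purb_LY e h N')
      (lyd_gRes ℓ (lyd_val (purb_KY h)) (lyd_levelY_mem_frac_base ℓ e h N' M hLY))
      (lyd_gRes ℓ (lyd_val (purb_LY e h N')) (lyd_levelY_mem_frac ℓ e h N' M hLY)) _ _ _ _ _
      (lyd_gAlgebra ℓ (lyd_val (purb_KY h)) (lyd_levelY_mem_frac_base ℓ e h N' M hLY)
        (lyd_val (purb_LY e h N')) (lyd_levelY_mem_frac ℓ e h N' M hLY)
        (lyd_levelY_compat e h N'))
      (lyd_gW ℓ (lyd_val (purb_KY h)) (lyd_levelY_mem_frac_base ℓ e h N' M hLY))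
      (lyd_gW ℓ (lyd_val (purb_LY e h N')) (lyd_levelY_mem_frac ℓ e h N' M hLY))
      (lyd_gRhoRes ℓ (lyd_val (purb_KY h)) (lyd_levelY_mem_frac_base ℓ e h N' M hLY))
      (lyd_gRhoRes ℓ (lyd_val (purb_LY e h N')) (lyd_levelY_mem_frac ℓ e h N' M hLY)) :=
  lyd_redPair_of_eq M ℓ hℓM (purb_KY h) (purb_LY e h N') hLY hj _ _ (lyd_levelY_compat e h N')

end LevelY

end

end Fermat.Agent.S18x
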