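/-
S18x/LydRed.lean (helper29, NRM block row N4, abstract part).

In the `nd_RedPair` setting of `S18x/NdNorm.lean` (finite extension `F'/F`, valuation subrings
`W' ∩ F = W`, residue maps `ρ, ρ'`, residue degree `[Fb':Fb] = [F':F]`):

* `lyd_exists_family`, `lyd_exists_bases`: a family of `W'` lifting a basis of `Fb'/Fb` is a basis
  of `F'/F`;
* `lyd_repr_mem`, `lyd_repr_red`: coordinates of elements of `W'` in such a basis lie in `W` and
  reduce to the coordinates of the reduction;
* `lyd_trace_reduction`: the trace commutes with reduction;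
* `lyd_discr_reduction`: the discriminant of any family of `W'` lies in `W` and reduces to the
  discriminant of the reduced family;
* `lyd_minpoly_coeff_mem`: the minimal polynomial over `F` of an element of `W'` has coefficients
  in `W` (i.e. `W'` is the integral closure of `W`).
-/
import Mathlib
import Fermat.Agent.S18x.NdNorm

set_option autoImplicit false

namespace Fermat.Agent.S18x

open Module Polynomial

section Red

variable {F F' Fb Fb' : Type*} [Field F] [Field F'] [Field Fb] [Field Fb'] [Algebra F F']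
  [Algebra Fb Fb']
variable {W : ValuationSubring F} {W' : ValuationSubring F'} {ρ : W →+* Fb} {ρ' : W' →+* Fb'}

/-- The residue extension is finite. -/
theorem lyd_finite_red (H : nd_RedPair W W' ρ ρ') : FiniteDimensional Fb Fb' := by
  have := H.finite
  have hpos : 0 < finrank Fb Fb' := by rw [H.finrank_eq]; exact finrank_pos
  exact Module.finite_of_finrank_pos hpos

/-- A family of `W'` lifting a basis of the residue extension. -/
theorem lyd_exists_family (H : nd_RedPair W W' ρ ρ') {ι : Type*} [Fintype ι]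
    (hcard : Fintype.card ι = finrank F F') :
    ∃ b : ι → W', LinearIndependent Fb (fun i => ρ' (b i)) := by
  have := lyd_finite_red H
  have hc : Fintype.card ι = finrank Fb Fb' := hcard.trans H.finrank_eq.symm
  let e : ι ≃ Fin (finrank Fb Fb') := Fintype.equivFinOfCardEq hc
  let b' : Basis ι Fb Fb' := (Module.finBasis Fb Fb').reindex e.symm
  choose b hb using fun i => H.surj' (b' i)
  refine ⟨b, ?_⟩
  simp_rw [hb]
  exact b'.linearIndependent

variable {ι : Type*} [Fintype ι]

/-- A family of `W'` with independent reductions and the right cardinality gives bases upstairs and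
downstairs. -/
theorem lyd_exists_bases (H : nd_RedPair W W' ρ ρ') (b : ι → W')
    (hb : LinearIndependent Fb (fun i => ρ' (b i))) (hcard : Fintype.card ι = finrank F F') :
    ∃ (B : Basis ι F F') (B' : Basis ι Fb Fb'),
      (∀ i, B i = ((b i : W') : F')) ∧ (∀ i, B' i = ρ' (b i)) := by
  have := H.finite
  have hpos : 0 < Fintype.card ι := by rw [hcard]; exact finrank_pos
  have : Nonempty ι := Fintype.card_pos_iff.mp hpos
  refine ⟨basisOfLinearIndependentOfCardEqFinrank (H.linearIndependent_lift b hb) hcard,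
    basisOfLinearIndependentOfCardEqFinrank hb (hcard.trans H.finrank_eq.symm), ?_, ?_⟩
  · intro i; simp
  · intro i; simp

/-- Coordinates of elements of `W'` lie in `W`. -/
theorem lyd_repr_mem (H : nd_RedPair W W' ρ ρ') (b : ι → W')
    (hb : LinearIndependent Fb (fun i => ρ' (b i))) (B : Basis ι F F')
    (hB : ∀ i, B i = ((b i : W') : F')) (z : W') (i : ι) : B.repr (z : F') i ∈ W := by
  refine H.coeff_mem b hb (fun i => B.repr (z : F') i) ?_ i
  have : ∑ i, B.repr (z : F') i • ((b i : W') : F') = z := by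
    simp_rw [← hB]
    exact B.sum_repr _
  rw [this]
  exact z.2

/-- Coordinates reduce to coordinates. -/
theorem lyd_repr_red (H : nd_RedPair W W' ρ ρ') (b : ι → W')
    (hb : LinearIndependent Fb (fun i => ρ' (b i))) (B : Basis ι F F')
    (hB : ∀ i, B i = ((b i : W') : F')) (B' : Basis ι Fb Fb') (hB' : ∀ i, B' i = ρ' (b i))
    (z : W') (i : ι) :
    ρ ⟨B.repr (z : F') i, lyd_repr_mem H b hb B hB z i⟩ = B'.repr (ρ' z) i := by
  classical
  have hmem := lyd_repr_mem H b hb B hB z
  have h1 : z = ∑ l, (⟨algebraMap F F' (B.repr (z : F') l), (H.mem_iff _).mpr (hmem l)⟩ : W') * b l := by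
    apply Subtype.ext
    simp only [MulMemClass.coe_mul, AddSubmonoidClass.coe_finsetSum]
    conv_lhs => rw [← B.sum_repr (z : F')]
    refine Finset.sum_congr rfl fun l _ => ?_
    rw [Algebra.smul_def, hB]
  have h2 : ρ' z = ∑ l, ρ ⟨B.repr (z : F') l, hmem l⟩ • B' l := by
    conv_lhs => rw [h1]
    rw [map_sum]
    refine Finset.sum_congr rfl fun l _ => ?_
    rw [map_mul, H.compat _ (hmem l), hB', Algebra.smul_def]
  rw [h2, B'.repr_sum_self]

/-- Entries of the multiplication matrix of an element of `W'` lie in `W`. -/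
theorem lyd_leftMulMatrix_mem [DecidableEq ι] (H : nd_RedPair W W' ρ ρ') (b : ι → W')
    (hb : LinearIndependent Fb (fun i => ρ' (b i))) (B : Basis ι F F')
    (hB : ∀ i, B i = ((b i : W') : F')) (z : W') (i j : ι) :
    Algebra.leftMulMatrix B (z : F') i j ∈ W := by
  rw [Algebra.leftMulMatrix_eq_repr_mul, hB]
  exact lyd_repr_mem H b hb B hB (z * b j) i

/-- The multiplication matrix reduces to the multiplication matrix. -/
theorem lyd_leftMulMatrix_red [DecidableEq ι] (H : nd_RedPair W W' ρ ρ') (b : ι → W')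
    (hb : LinearIndependent Fb (fun i => ρ' (b i))) (B : Basis ι F F')
    (hB : ∀ i, B i = ((b i : W') : F')) (B' : Basis ι Fb Fb') (hB' : ∀ i, B' i = ρ' (b i))
    (z : W') (i j : ι) :
    ρ ⟨Algebra.leftMulMatrix B (z : F') i j, lyd_leftMulMatrix_mem H b hb B hB z i j⟩
      = Algebra.leftMulMatrix B' (ρ' z) i j := by
  have h := lyd_repr_red H b hb B hB B' hB' (z * b j) i
  have e1 : Algebra.leftMulMatrix B' (ρ' z) i j = B'.repr (ρ' (z * b j)) i := by
    rw [Algebra.leftMulMatrix_eq_repr_mul, hB', map_mul ρ']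
  rw [e1, ← h]
  congr 1
  apply Subtype.ext
  show Algebra.leftMulMatrix B (z : F') i j = B.repr ((z * b j : W') : F') i
  rw [Algebra.leftMulMatrix_eq_repr_mul, hB]
  rfl

/-- TRACE COMMUTES WITH REDUCTION. -/
theorem lyd_trace_reduction (H : nd_RedPair W W' ρ ρ') (z : W') :
    ∃ hT : Algebra.trace F F' (z : F') ∈ W, ρ ⟨_, hT⟩ = Algebra.trace Fb Fb' (ρ' z) := by
  classical
  obtain ⟨b, hb⟩ := lyd_exists_family H (ι := Fin (finrank F F')) (by simp)
  obtain ⟨B, B', hB, hB'⟩ := lyd_exists_bases H b hb (by simp)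
  let T : W := ∑ i, ⟨Algebra.leftMulMatrix B (z : F') i i, lyd_leftMulMatrix_mem H b hb B hB z i i⟩
  have hT : Algebra.trace F F' (z : F') = (T : F) := by
    rw [Algebra.trace_eq_matrix_trace B, Matrix.trace]
    simp only [T, AddSubmonoidClass.coe_finsetSum, Matrix.diag_apply]
  refine ⟨hT ▸ T.2, ?_⟩
  have h1 : (⟨Algebra.trace F F' (z : F'), hT ▸ T.2⟩ : W) = T := Subtype.ext hT
  rw [h1, Algebra.trace_eq_matrix_trace B', Matrix.trace]
  simp only [T, map_sum, Matrix.diag_apply]
  exact Finset.sum_congr rfl fun i _ => lyd_leftMulMatrix_red H b hb B hB B' hB' z i i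

/-- DISCRIMINANTS COMMUTE WITH REDUCTION. -/
theorem lyd_discr_reduction (H : nd_RedPair W W' ρ ρ') {κ : Type*} [Fintype κ] [DecidableEq κ]
    (c : κ → W') :
    ∃ hd : Algebra.discr F (fun i => ((c i : W') : F')) ∈ W,
      ρ ⟨_, hd⟩ = Algebra.discr Fb (fun i => ρ' (c i)) := by
  classical
  choose hT hT' using fun z : W' => lyd_trace_reduction H z
  let MW : Matrix κ κ W := fun i j => ⟨Algebra.trace F F' ((c i * c j : W') : F'), hT (c i * c j)⟩
  have hM : Algebra.traceMatrix F (fun i => ((c i : W') : F')) = MW.map W.subtype := by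
    ext i j
    simp [MW, Algebra.traceMatrix_apply, Algebra.traceForm_apply]
  have hdet : Algebra.discr F (fun i => ((c i : W') : F')) = W.subtype MW.det := by
    rw [Algebra.discr_def, hM, ← RingHom.mapMatrix_apply, ← RingHom.map_det]
  refine ⟨hdet ▸ (MW.det).2, ?_⟩
  have h1 : (⟨Algebra.discr F (fun i => ((c i : W') : F')), hdet ▸ (MW.det).2⟩ : W) = MW.det :=
    Subtype.ext hdet
  rw [h1, Algebra.discr_def, RingHom.map_det]
  congr 1
  ext i j
  rw [RingHom.mapMatrix_apply, Matrix.map_apply, Algebra.traceMatrix_apply,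
    Algebra.traceForm_apply, ← map_mul]
  exact hT' (c i * c j)

/-- The minimal polynomial over `F` of an element of `W'` has coefficients in `W`:
`W'` is integral over `W`. -/
theorem lyd_minpoly_coeff_mem (H : nd_RedPair W W' ρ ρ') (z : W') (k : ℕ) :
    (minpoly F (z : F')).coeff k ∈ W := by
  classical
  have hfin := H.finite
  obtain ⟨b, hb⟩ := lyd_exists_family H (ι := Fin (finrank F F')) (by simp)
  obtain ⟨B, B', hB, hB'⟩ := lyd_exists_bases H b hb (by simp)
  let MW : Matrix (Fin (finrank F F')) (Fin (finrank F F')) W :=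
    fun i j => ⟨Algebra.leftMulMatrix B (z : F') i j, lyd_leftMulMatrix_mem H b hb B hB z i j⟩
  have hMW : Algebra.leftMulMatrix B (z : F') = MW.map (algebraMap W F) := by
    ext i j
    rfl
  have hχ : (MW.charpoly).map (algebraMap W F) = (Algebra.leftMulMatrix B (z : F')).charpoly := by
    rw [hMW, Matrix.charpoly_map]
  have hroot : aeval (z : F') ((MW.charpoly).map (algebraMap W F)) = 0 := by
    apply Algebra.leftMulMatrix_injective B
    rw [← Polynomial.aeval_algHom_apply, hχ, Matrix.aeval_self_charpoly, map_zero]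
  have hdvd : minpoly F (z : F') ∣ (MW.charpoly).map (algebraMap W F) := minpoly.dvd _ _ hroot
  obtain ⟨g', hg'⟩ := IsIntegrallyClosed.eq_map_mul_C_of_dvd F (Matrix.charpoly_monic MW) hdvd
  have hmonic : (minpoly F (z : F')).Monic := minpoly.monic (Algebra.IsIntegral.isIntegral _)
  rw [hmonic.leadingCoeff, map_one, mul_one] at hg'
  rw [← hg', coeff_map]
  exact (g'.coeff k).2

end Red

end Fermat.Agent.S18x
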