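/-
S18x/LydBase.lean (helper29, NRM block row N4, abstract part 2).

The two vertical PUR hypotheses `(V)` and `(hprime)` in the shape consumed by helper39's
`pur_quotient_isIntegrallyClosed`, from an `nd_RedPair` for `F'/F` (`F = Frac B0`, `F' = L`):

* `lyd_hV`: `n = [F':F]` elements of `R` (integral closure of `B0` in `F'`) whose discriminant is
  the image of some `d : B0` not divisible by `p`;
* `lyd_fact0`: `x ∈ R` with zero reduction is divisible by `p` in `R` ("FACT 0");
* `lyd_hprime`: `p R` is a prime ideal.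
-/
import Mathlib
import Fermat.Agent.S18x.LydRed

set_option autoImplicit false

namespace Fermat.Agent.S18x

open Module Polynomial

section Base

variable {F F' Fb Fb' : Type*} [Field F] [Field F'] [Field Fb] [Field Fb'] [Algebra F F']
  [Algebra Fb Fb']
variable {W : ValuationSubring F} {W' : ValuationSubring F'} {ρ : W →+* Fb} {ρ' : W' →+* Fb'}
variable {B0 R : Type*} [CommRing B0] [Algebra B0 F] [CommRing R] [Algebra B0 R] [Algebra R F']
  [Algebra B0 F'] [IsScalarTower B0 F F'] [IsScalarTower B0 R F']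

/-- Elements of `F'` integral over `B0 ⊆ W` lie in `W'`. -/
theorem lyd_mem_of_isIntegral (H : nd_RedPair W W' ρ ρ')
    (hB0 : ∀ b : B0, algebraMap B0 F b ∈ W) {x : F'} (hx : IsIntegral B0 x) : x ∈ W' := by
  have hB0' : ∀ b : B0, algebraMap B0 F' b ∈ W' := fun b => by
    rw [IsScalarTower.algebraMap_apply B0 F F']
    exact (H.mem_iff _).mpr (hB0 b)
  let φ : B0 →+* W' := (algebraMap B0 F').codRestrict W'.toSubring hB0'
  obtain ⟨Q, hQm, hQ⟩ := hx
  have hint : IsIntegral W' x := by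
    refine ⟨Q.map φ, hQm.map φ, ?_⟩
    rw [eval₂_map]
    exact hQ
  obtain ⟨y, hy⟩ := IsIntegrallyClosed.isIntegral_iff.mp hint
  rw [← hy]
  exact y.2

/-- **(V)** in the shape of `pur_quotient_isIntegrallyClosed`. -/
theorem lyd_hV [IsDomain B0] [IsIntegrallyClosed B0] [IsFractionRing B0 F]
    [IsIntegralClosure R B0 F'] (H : nd_RedPair W W' ρ ρ') [Algebra.IsSeparable Fb Fb']
    (hB0 : ∀ b : B0, algebraMap B0 F b ∈ W) (p : B0)
    (hp : ρ ⟨algebraMap B0 F p, hB0 p⟩ = 0)
    (hRW : ∀ r : R, algebraMap R F' r ∈ W')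
    (hspan : Submodule.span Fb (Set.range fun r : R => ρ' ⟨algebraMap R F' r, hRW r⟩) = ⊤)
    {ι : Type*} [Fintype ι] [DecidableEq ι] (hcard : Fintype.card ι = finrank F F') :
    ∃ c : ι → R, ∃ d : B0,
      algebraMap B0 F d = Algebra.discr F (fun i => algebraMap R F' (c i)) ∧ ¬ p ∣ d := by
  classical
  have hfin := H.finite
  have hfin' := lyd_finite_red H
  set f : R → Fb' := fun r : R => ρ' ⟨algebraMap R F' r, hRW r⟩ with hf
  obtain ⟨s, hs_sub, hs_span, hs_li⟩ := exists_linearIndependent Fb (Set.range f)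
  have hs_top : ⊤ ≤ Submodule.span Fb (Set.range ((↑) : s → Fb')) := by
    rw [Subtype.range_coe, hs_span, hspan]
  let Bs : Basis s Fb Fb' := Basis.mk hs_li hs_top
  let _ : Fintype s := FiniteDimensional.fintypeBasisIndex Bs
  have hcs : Fintype.card ι = Fintype.card s := by
    rw [hcard, ← H.finrank_eq, Module.finrank_eq_card_basis Bs]
  let e : ι ≃ s := Fintype.equivOfCardEq hcs
  have hmem : ∀ i : ι, ∃ r : R, f r = (e i : Fb') := fun i => hs_sub (e i).2
  choose c hc using hmem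
  let c' : ι → W' := fun i => ⟨algebraMap R F' (c i), hRW (c i)⟩
  have hli : LinearIndependent Fb (fun i => ρ' (c' i)) := by
    have h1 : (fun i => ρ' (c' i)) = ((↑) : s → Fb') ∘ e := by
      funext i
      exact hc i
    rw [h1]
    exact hs_li.comp e e.injective
  obtain ⟨B, B', hB, hB'⟩ := lyd_exists_bases H c' hli hcard
  obtain ⟨hd, hρd⟩ := lyd_discr_reduction H c'
  have hne : Algebra.discr Fb (fun i => ρ' (c' i)) ≠ 0 := by
    have h1 : (fun i => ρ' (c' i)) = B' := by
      funext i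
      exact (hB' i).symm
    rw [h1]
    exact Algebra.discr_not_zero_of_basis Fb B'
  have hint : IsIntegral B0 (Algebra.discr F (fun i => algebraMap R F' (c i))) :=
    Algebra.discr_isIntegral F fun i => (IsIntegralClosure.isIntegral B0 F' (c i)).algebraMap
  obtain ⟨d, hdd⟩ := IsIntegrallyClosed.isIntegral_iff.mp hint
  refine ⟨c, d, hdd, ?_⟩
  rintro ⟨e', rfl⟩
  apply hne
  rw [← hρd]
  have h2 : (⟨Algebra.discr F (fun i => ((c' i : W') : F')), hd⟩ : W)
      = ⟨algebraMap B0 F p, hB0 p⟩ * ⟨algebraMap B0 F e', hB0 e'⟩ := by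
    apply Subtype.ext
    show Algebra.discr F (fun i => algebraMap R F' (c i)) = _
    rw [← hdd, map_mul]
    rfl
  rw [h2, map_mul, hp, zero_mul]

/-- Saturation of `B0` in `W`: if `a ∈ W` and `a * p ^ k ∈ B0` then `a ∈ B0`. -/
theorem lyd_sat [IsDomain B0] [IsFractionRing B0 F]
    (hB0 : ∀ b : B0, algebraMap B0 F b ∈ W) {p : B0} (hp0 : p ≠ 0)
    (hp : ρ ⟨algebraMap B0 F p, hB0 p⟩ = 0)
    (hdvd : ∀ b : B0, ρ ⟨algebraMap B0 F b, hB0 b⟩ = 0 → p ∣ b) :
    ∀ (k : ℕ) (a : F), a ∈ W → ∀ b : B0, a * algebraMap B0 F p ^ k = algebraMap B0 F b →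
      ∃ b' : B0, algebraMap B0 F b' = a := by
  have hinj : Function.Injective (algebraMap B0 F) := IsFractionRing.injective B0 F
  have hP0 : algebraMap B0 F p ≠ 0 := fun h => hp0 (hinj (by rw [h, map_zero]))
  intro k
  induction k with
  | zero =>
    intro a _ b hab
    exact ⟨b, by rw [← hab, pow_zero, mul_one]⟩
  | succ k ih =>
    intro a ha b hab
    have h0 : ρ ⟨algebraMap B0 F b, hB0 b⟩ = 0 := by
      have h1 : (⟨algebraMap B0 F b, hB0 b⟩ : W)
          = ⟨a, ha⟩ * ⟨algebraMap B0 F p, hB0 p⟩ ^ (k + 1) := by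
        apply Subtype.ext
        show algebraMap B0 F b = a * algebraMap B0 F p ^ (k + 1)
        rw [← hab]
      rw [h1, map_mul, map_pow, hp, zero_pow (Nat.succ_ne_zero k), mul_zero]
    obtain ⟨b1, rfl⟩ := hdvd b h0
    refine ih a ha b1 ?_
    apply mul_right_cancel₀ hP0
    rw [mul_assoc, ← pow_succ, hab, map_mul, mul_comm]

/-- **FACT 0**: an element of `R` with zero reduction is divisible by `p` in `R`. -/
theorem lyd_fact0 [IsDomain B0] [IsIntegrallyClosed B0] [IsFractionRing B0 F]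
    [IsIntegralClosure R B0 F'] (H : nd_RedPair W W' ρ ρ')
    (hB0 : ∀ b : B0, algebraMap B0 F b ∈ W) {p : B0} (hp0 : p ≠ 0)
    (hp : ρ ⟨algebraMap B0 F p, hB0 p⟩ = 0)
    (hdvd : ∀ b : B0, ρ ⟨algebraMap B0 F b, hB0 b⟩ = 0 → p ∣ b)
    (hker : ∀ x : W', ρ' x = 0 → ∃ y : W', (x : F') = algebraMap B0 F' p * (y : F'))
    (hRW : ∀ r : R, algebraMap R F' r ∈ W') (x : R)
    (hx : ρ' ⟨algebraMap R F' x, hRW x⟩ = 0) : ∃ y : R, x = algebraMap B0 R p * y := by
  classical
  have hfin := H.finite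
  have hinj : Function.Injective (algebraMap B0 F) := IsFractionRing.injective B0 F
  have hP0 : algebraMap B0 F p ≠ 0 := fun h => hp0 (hinj (by rw [h, map_zero]))
  obtain ⟨y, hy⟩ := hker _ hx
  have hy' : algebraMap R F' x = algebraMap B0 F p • (y : F') := by
    rw [Algebra.smul_def, ← IsScalarTower.algebraMap_apply]
    exact hy
  have hXint : IsIntegral B0 (algebraMap R F' x) := (IsIntegralClosure.isIntegral B0 F' x).algebraMap
  have hyint : IsIntegral F (y : F') := Algebra.IsIntegral.isIntegral _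
  have h1 : minpoly F (algebraMap R F' x) = (minpoly F (y : F')).scaleRoots (algebraMap B0 F p) := by
    rw [hy']
    exact IsIntegrallyClosed.minpoly_smul hP0 hyint
  have h2 : minpoly F (algebraMap R F' x) = (minpoly B0 (algebraMap R F' x)).map (algebraMap B0 F) :=
    minpoly.isIntegrallyClosed_eq_field_fractions' F hXint
  -- all coefficients of `minpoly F y` lie in `B0`
  have hcoeff : ∀ k, (minpoly F (y : F')).coeff k ∈ Set.range (algebraMap B0 F) := by
    intro k
    have h3 : (minpoly F (y : F')).coeff k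
        * algebraMap B0 F p ^ ((minpoly F (y : F')).natDegree - k)
        = algebraMap B0 F ((minpoly B0 (algebraMap R F' x)).coeff k) := by
      rw [← coeff_scaleRoots, ← h1, h2, coeff_map]
    exact lyd_sat hB0 hp0 hp hdvd _ _ (lyd_minpoly_coeff_mem H y k) _ h3
  have hlift : minpoly F (y : F') ∈ Polynomial.lifts (algebraMap B0 F) :=
    (Polynomial.lifts_iff_coeff_lifts _).mpr hcoeff
  obtain ⟨Q, hQ, -, hQm⟩ := Polynomial.lifts_and_degree_eq_and_monic hlift (minpoly.monic hyint)
  have hyB0 : IsIntegral B0 (y : F') := by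
    refine ⟨Q, hQm, ?_⟩
    have : eval₂ (algebraMap B0 F') (y : F') Q
        = eval₂ (algebraMap F F') (y : F') (Q.map (algebraMap B0 F)) := by
      rw [eval₂_map, ← IsScalarTower.algebraMap_eq]
    rw [this, hQ]
    exact minpoly.aeval F (y : F')
  obtain ⟨r, hr⟩ := (IsIntegralClosure.isIntegral_iff (A := R)).mp hyB0
  refine ⟨r, IsIntegralClosure.algebraMap_injective R B0 F' ?_⟩
  rw [map_mul, hr, ← IsScalarTower.algebraMap_apply]
  exact hy

/-- **(hprime)** in the shape of `pur_quotient_isIntegrallyClosed`. -/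
theorem lyd_hprime [IsDomain B0] [IsIntegrallyClosed B0] [IsFractionRing B0 F]
    [IsIntegralClosure R B0 F'] (H : nd_RedPair W W' ρ ρ')
    (hB0 : ∀ b : B0, algebraMap B0 F b ∈ W) {p : B0} (hp0 : p ≠ 0)
    (hp : ρ ⟨algebraMap B0 F p, hB0 p⟩ = 0)
    (hdvd : ∀ b : B0, ρ ⟨algebraMap B0 F b, hB0 b⟩ = 0 → p ∣ b)
    (hker : ∀ x : W', ρ' x = 0 → ∃ y : W', (x : F') = algebraMap B0 F' p * (y : F'))
    (hRW : ∀ r : R, algebraMap R F' r ∈ W') :
    (Ideal.span {algebraMap B0 R p}).IsPrime := by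
  let φ : R →+* Fb' := ρ'.comp ((algebraMap R F').codRestrict W'.toSubring hRW)
  have hφ : ∀ x : R, φ x = ρ' ⟨algebraMap R F' x, hRW x⟩ := fun x => rfl
  have hker' : RingHom.ker φ = Ideal.span {algebraMap B0 R p} := by
    apply le_antisymm
    · intro x hx
      rw [RingHom.mem_ker, hφ] at hx
      obtain ⟨y, rfl⟩ := lyd_fact0 H hB0 hp0 hp hdvd hker hRW x hx
      exact Ideal.mul_mem_right _ _ (Ideal.subset_span rfl)
    · rw [Ideal.span_singleton_le_iff_mem, RingHom.mem_ker, hφ]
      have h1 : algebraMap R F' (algebraMap B0 R p) = algebraMap F F' (algebraMap B0 F p) := by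
        rw [← IsScalarTower.algebraMap_apply, ← IsScalarTower.algebraMap_apply]
      have h2 : (⟨algebraMap R F' (algebraMap B0 R p), hRW _⟩ : W')
          = ⟨algebraMap F F' (algebraMap B0 F p), (H.mem_iff _).mpr (hB0 p)⟩ := Subtype.ext h1
      rw [h2, H.compat _ (hB0 p), hp, map_zero]
  rw [← hker']
  exact RingHom.ker_isPrime φ

end Base

end Fermat.Agent.S18x
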