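import Mathlib
import Fermat.Agent.S18x.PurInst
import Fermat.Agent.S18x.LydBase

/-!
# S18x / PUR instantiation (6): `(V)`, `(hprime)`, FACT 0 for the level-`Y` objects
from an `nd_RedPair` on `(purb_KY h, purb_LY e h N)` (adapters `LydBase → PurInst`)

`W, W', ρ, ρ'` are abstract: any reduction pair `H : nd_RedPair W W' ρ ρ'` for the extension
`purb_LY e h N / purb_KY h` will do.
-/

set_option autoImplicit false
set_option linter.style.haveILetI false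
set_option linter.unusedSectionVars false
set_option synthInstance.maxHeartbeats 400000
set_option maxHeartbeats 1000000

noncomputable section

namespace Fermat.Agent.S18x

open Polynomial Fermat.Agent.S28x Module

variable (ℓ e : ℕ) [Fact ℓ.Prime] [NeZero e] {h : LaurentSeries ℚ} (c : Polynomial ℤ)
  (N : ℕ) [NeZero N]
  {Fb Fb' : Type*} [Field Fb] [Field Fb'] [Algebra Fb Fb']
  {W : ValuationSubring ↥(purb_KY h)} {W' : ValuationSubring ↥(purb_LY e h N)}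
  {ρ : W →+* Fb} {ρ' : W' →+* Fb'}
  (htr : Transcendental ℚ h) (hc : c ≠ 0)
  (H : nd_RedPair W W' ρ ρ')
  (hB0 : ∀ b : ↥(purb_B0 ℓ h c), algebraMap ↥(purb_B0 ℓ h c) ↥(purb_KY h) b ∈ W)
  (hp : ρ ⟨algebraMap ↥(purb_B0 ℓ h c) ↥(purb_KY h) (ℓ : ↥(purb_B0 ℓ h c)),
    hB0 (ℓ : ↥(purb_B0 ℓ h c))⟩ = 0)

include htr hc H hp

/-- elements of `R_Y` lie in `W'`. -/
theorem puri_RY_mem (r : ↥(purb_RY ℓ e h c N)) :
    algebraMap ↥(purb_RY ℓ e h c N) ↥(purb_LY e h N) r ∈ W' := by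
  haveI := puri_B0_isIntegrallyClosed ℓ c htr hc
  haveI := puri_B0_isFractionRing ℓ h c
  exact lyd_mem_of_isIntegral H hB0
    ((IsIntegralClosure.isIntegral ↥(purb_B0 ℓ h c) ↥(purb_LY e h N) r).algebraMap)

/-- **(V)** for the level-`Y` objects. -/
theorem puri_HV_of_redPair [Algebra.IsSeparable Fb Fb']
    (hspan : Submodule.span Fb (Set.range fun r : ↥(purb_RY ℓ e h c N) =>
      ρ' ⟨algebraMap ↥(purb_RY ℓ e h c N) ↥(purb_LY e h N) r,
        puri_RY_mem ℓ e c N htr hc H hB0 hp r⟩) = ⊤) :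
    puri_HV ℓ e h c N := by
  haveI := puri_B0_isIntegrallyClosed ℓ c htr hc
  haveI := puri_B0_isFractionRing ℓ h c
  exact lyd_hV H hB0 (ℓ : ↥(purb_B0 ℓ h c)) hp (puri_RY_mem ℓ e c N htr hc H hB0 hp) hspan
    (ι := Fin (finrank ↥(purb_KY h) ↥(purb_LY e h N))) (Fintype.card_fin _)

variable
  (hdvd : ∀ b : ↥(purb_B0 ℓ h c),
    ρ ⟨algebraMap ↥(purb_B0 ℓ h c) ↥(purb_KY h) b, hB0 b⟩ = 0 → (ℓ : ↥(purb_B0 ℓ h c)) ∣ b)
  (hker : ∀ x : W', ρ' x = 0 → ∃ y : W', (x : ↥(purb_LY e h N)) =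
    algebraMap ↥(purb_B0 ℓ h c) ↥(purb_LY e h N) (ℓ : ↥(purb_B0 ℓ h c)) * (y : ↥(purb_LY e h N)))

include hdvd hker

theorem puri_natCast_B0_ne_zero : (ℓ : ↥(purb_B0 ℓ h c)) ≠ 0 := by
  intro h0
  have h1 := congrArg (fun b : ↥(purb_B0 ℓ h c) => (b : ↥(purb_KY h))) h0
  simp only [SubringClass.coe_natCast, ZeroMemClass.coe_zero] at h1
  have h2 : ((ℓ : ℕ) : ↥(purb_KY h)) ≠ 0 := Nat.cast_ne_zero.mpr (Fact.out : ℓ.Prime).ne_zero
  exact h2 h1

/-- **FACT 0**: an element of `R_Y` with zero reduction lies in `ℓ R_Y`. -/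
theorem puri_mem_IR_of_redPair (x : ↥(purb_RY ℓ e h c N))
    (hx : ρ' ⟨algebraMap ↥(purb_RY ℓ e h c N) ↥(purb_LY e h N) x,
      puri_RY_mem ℓ e c N htr hc H hB0 hp x⟩ = 0) :
    x ∈ puri_IR ℓ e h c N := by
  haveI := puri_B0_isIntegrallyClosed ℓ c htr hc
  haveI := puri_B0_isFractionRing ℓ h c
  obtain ⟨y, hy⟩ := lyd_fact0 H hB0 (puri_natCast_B0_ne_zero ℓ e c N htr hc H hB0 hp hdvd hker)
    hp hdvd hker (puri_RY_mem ℓ e c N htr hc H hB0 hp) x hx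
  rw [puri_IR, puri_IB, Ideal.map_span, Set.image_singleton, Ideal.mem_span_singleton]
  exact ⟨y, hy⟩

/-- **(hprime)**: `ℓ R_Y` is a prime ideal. -/
theorem puri_IR_isPrime_of_redPair : (puri_IR ℓ e h c N).IsPrime := by
  haveI := puri_B0_isIntegrallyClosed ℓ c htr hc
  haveI := puri_B0_isFractionRing ℓ h c
  have h1 := lyd_hprime H hB0 (puri_natCast_B0_ne_zero ℓ e c N htr hc H hB0 hp hdvd hker)
    hp hdvd hker (puri_RY_mem ℓ e c N htr hc H hB0 hp)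
  rw [puri_IR, puri_IB, Ideal.map_span, Set.image_singleton]
  exact h1

end Fermat.Agent.S18x
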