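/-
S18x/NrmKerInst (helper10, block NRM, prefix `nrmk_`): the input `hker` of `nry_main` / `nryp_main`
(kernel of the reduction on `R_Y` is `ℓ R_Y`, FACT 0) on helper28's level-`Y` objects, from
helper29's concrete Gauss pair `lyd_levelY_redPair` + helper39's `puri_mem_IR_of_redPair`,
generic in `(ℓ, e, hZ, c, N', M)` with `h = toQ ℓ hZ`.
-/
import Fermat.Agent.S18x.LydInst
import Fermat.Agent.S18x.PuriLyd
import Fermat.Agent.S18x.PuriGauss
import Fermat.Agent.S18x.NrmYInst19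
import Fermat.Agent.S18x.NrmYPuri

set_option autoImplicit false
set_option linter.style.haveILetI false
set_option linter.unusedSectionVars false
set_option synthInstance.maxHeartbeats 400000
set_option maxHeartbeats 1000000

namespace Fermat.Agent.S18x

open ModularCurve HahnSeries Polynomial Fermat.Agent.S28x

noncomputable section

variable (ℓ e : ℕ) [Fact ℓ.Prime] [NeZero e] (hZ : LaurentSeries (ZL ℓ)) (c : ℤ[X])
  (N' M : ℕ) [NeZero N'] [NeZero M]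

/-- **`hker`** on the level-`Y` objects. -/
theorem nrmk_hker {h : LaurentSeries ℚ} (hh : toQ ℓ hZ = h)
    (hLY : purb_LY e h N' = modularFunctionFieldFull M) (hℓM : ¬ ℓ ∣ M)
    (hj : jq ∈ purb_KY h)
    [FiniteDimensional ↥(purb_KY h) ↥(purb_LY e h N')]
    (htrQ : Transcendental ℚ h) (hc0 : c ≠ 0)
    (htr : Transcendental (ZMod ℓ) (red ℓ hZ)) (hc : nry_cval c (red ℓ hZ) ≠ 0)
    (hW : ∀ t, nryp_incl ℓ e h c N' t ∈ gaussRing ℓ)
    (t : ↥(purb_RY ℓ e h c N'))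
    (ht : nry_rhoR (nryp_incl ℓ e h c N') hW t = 0) :
    ∃ t' : ↥(purb_RY ℓ e h c N'), t = (ℓ : ↥(purb_B0 ℓ h c)) • t' := by
  have hhW : h ∈ gaussRing ℓ := by rw [← hh]; exact toQ_mem_gaussRing ℓ hZ
  have hρh : rho ℓ ⟨h, hhW⟩ = red ℓ hZ := by
    rw [nry_rho_congr hh.symm hhW (toQ_mem_gaussRing ℓ hZ)]
    exact rho_toQ ℓ hZ
  have hcb : Polynomial.eval₂ (Int.castRingHom (LaurentSeries (ZMod ℓ))) (rho ℓ ⟨h, hhW⟩) c ≠ 0 := by
    rw [hρh]; exact hc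
  have htrb : ∀ p : (ZMod ℓ)[X],
      Polynomial.eval₂ (HahnSeries.C : ZMod ℓ →+* LaurentSeries (ZMod ℓ)) (rho ℓ ⟨h, hhW⟩) p = 0 →
        p = 0 := by
    rw [hρh]; exact puri_htrb_of_transcendental htr
  letI := lyd_gAlgebra ℓ (lyd_val (purb_KY h)) (lyd_levelY_mem_frac_base ℓ e h N' M hLY)
    (lyd_val (purb_LY e h N')) (lyd_levelY_mem_frac ℓ e h N' M hLY) (lyd_levelY_compat e h N')
  have H := lyd_levelY_redPair ℓ e h N' M hLY hℓM hj
  have hB0 : ∀ b : ↥(purb_B0 ℓ h c), algebraMap ↥(purb_B0 ℓ h c) ↥(purb_KY h) b ∈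
      lyd_gW ℓ (lyd_val (purb_KY h)) (lyd_levelY_mem_frac_base ℓ e h N' M hLY) := by
    intro b
    rw [lyd_mem_gW, lyd_val_apply]
    exact puri_B0_mem_gaussRing hhW c hcb b
  have hp : lyd_gRhoRes ℓ (lyd_val (purb_KY h)) (lyd_levelY_mem_frac_base ℓ e h N' M hLY)
      ⟨algebraMap ↥(purb_B0 ℓ h c) ↥(purb_KY h) (ℓ : ↥(purb_B0 ℓ h c)),
        hB0 (ℓ : ↥(purb_B0 ℓ h c))⟩ = 0 := by
    apply Subtype.ext
    rw [lyd_gRhoRes_coe]
    have h1 : lyd_val (purb_KY h) (algebraMap ↥(purb_B0 ℓ h c) ↥(purb_KY h)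
        (ℓ : ↥(purb_B0 ℓ h c))) = ((ℓ : ℕ) : LaurentSeries ℚ) := by
      rw [map_natCast, map_natCast]
    have h0 := gr_rho_natCast_self ℓ
    rw [nry_rho_congr h1 _ (((ℓ : ℕ) : gaussRing ℓ)).2]
    exact h0
  have hdvd : ∀ b : ↥(purb_B0 ℓ h c),
      lyd_gRhoRes ℓ (lyd_val (purb_KY h)) (lyd_levelY_mem_frac_base ℓ e h N' M hLY)
        ⟨algebraMap ↥(purb_B0 ℓ h c) ↥(purb_KY h) b, hB0 b⟩ = 0 →
      (ℓ : ↥(purb_B0 ℓ h c)) ∣ b := by
    intro b hb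
    refine puri_B0_dvd_of_rho_eq_zero hhW c hcb htrQ hc0 htrb b ?_
    have h1 := congrArg Subtype.val hb
    rw [lyd_gRhoRes_coe] at h1
    exact h1
  have hker : ∀ x : lyd_gW ℓ (lyd_val (purb_LY e h N')) (lyd_levelY_mem_frac ℓ e h N' M hLY),
      lyd_gRhoRes ℓ (lyd_val (purb_LY e h N')) (lyd_levelY_mem_frac ℓ e h N' M hLY) x = 0 →
      ∃ y : lyd_gW ℓ (lyd_val (purb_LY e h N')) (lyd_levelY_mem_frac ℓ e h N' M hLY),
        (x : ↥(purb_LY e h N')) =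
          algebraMap ↥(purb_B0 ℓ h c) ↥(purb_LY e h N') (ℓ : ↥(purb_B0 ℓ h c)) *
            (y : ↥(purb_LY e h N')) := by
    intro x hx
    obtain ⟨y, hy⟩ := lyd_g_hker ℓ (lyd_val (purb_LY e h N'))
      (lyd_levelY_mem_frac ℓ e h N' M hLY) x hx
    exact ⟨y, by rw [hy, map_natCast]⟩
  have hmem : t ∈ puri_IR ℓ e h c N' := by
    refine puri_mem_IR_of_redPair ℓ e c N' htrQ hc0 H hB0 hp hdvd hker t ?_
    apply Subtype.ext
    rw [lyd_gRhoRes_coe, ZeroMemClass.coe_zero]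
    exact ht
  exact (pur_mem_map_span (p := (ℓ : ↥(purb_B0 ℓ h c))) (x := t)).mp hmem

end

end Fermat.Agent.S18x
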