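/-
S18x/NrmFinalOddKer (helper10, block NRM, row NOdd; prefix `nrmo_`): the input `hker`
(`nrmo_HKer`, kernel of the reduction on `R_Y` is `ℓ R_Y`) of `nrmo_HY_of` is TRUE:
`nrmk_hker` (S18x/NrmKerInst.lean) at `(e, hZ, c, N', M) = (2, X₃ over ℤ_(ℓ), X² - 64, 2N, 4N)`.
Hence `nrmo_HY_of'`: `hY` at level `4N` from `(V)` and `(H)` alone.
-/
import Fermat.Agent.S18x.NrmFinalOdd
import Fermat.Agent.S18x.NrmKerInst

set_option autoImplicit false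
set_option linter.style.haveILetI false
set_option linter.unusedSectionVars false
set_option synthInstance.maxHeartbeats 400000

namespace Fermat.Agent.S18x

open ModularCurve HahnSeries Polynomial Fermat.Agent.S24x Fermat.Agent.S28x

noncomputable section

variable (ℓ : ℕ) [Fact ℓ.Prime] (hl : ℓ ≠ 2) (N : ℕ) [NeZero N]

include hl

theorem nrmo_jq_mem_KY : jq ∈ purb_KY purb_X3Q := by
  have h := bsf4_j_mem (K := ℚ) purb_isUnit_two_rat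
  rw [jqModC_rat] at h
  exact h

/-- **`hker`** at `(ℓ, 2, X₃, X² - 64, 2N)`, `ℓ` odd, `ℓ ∤ 4N`. -/
theorem nrmo_hker (hℓM : ¬ ℓ ∣ 4 * N) : nrmo_HKer ℓ hl N := by
  haveI : FiniteDimensional ↥(purb_KY purb_X3Q) ↥(purb_LY 2 purb_X3Q (2 * N)) :=
    purf_finiteDimensional_X3Q (2 * N)
  intro t ht
  exact nrmk_hker ℓ 2 (lyn_X3Z ℓ hl) purb_c3 (2 * N) (4 * N) (lyn_toQ_X3Z ℓ hl) (bsf4_LY_eq N) hℓM
    (nrmo_jq_mem_KY ℓ hl) lyn_transcendental_X3Q nycf_c3_ne_zero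
    (nycf_transcendental_red_X3Z ℓ hl) (nycf_cval_red_X3Z_ne_zero ℓ hl) (nrmo_hW ℓ hl N) t ht

/-- **`hY` at level `4N`, `ℓ` odd**, from `(V)` and `(H)` at level `Y`. -/
theorem nrmo_HY_of' (A : ValuationSubring (AlgebraicClosure ℚ)) (hA : A.LiesOverPrime ℓ)
    (hℓM : ¬ ℓ ∣ 4 * N)
    (hV : puri_HV ℓ 2 purb_X3Q purb_c3 (2 * N)) (hH : puri_HH ℓ 2 purb_X3Q purb_c3 (2 * N)) :
    nrmt_HY (4 * N) A ℓ hℓM hA :=
  nrmo_HY_of ℓ hl N A hA hℓM hV hH (nrmo_hker ℓ hl N hℓM)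

end

end Fermat.Agent.S18x
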