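import Fermat.Agent.S28x.QepOfDeg
import Fermat.Agent.S28x.DegAll
import Fermat.Agent.S28x.AVClosed

/-!
# S18x / NRM row N4 (D): degree and residue bookkeeping at one level (prefix `lvd_`)

Pure S28x API, for a level `M` prime to `ℓ`:

* (D1) `lvd_rho_mem_Ft`, `lvd_exists_rho_eq`: `ρ(W ∩ F_M) = F̃_M` as sets;
* (D2) `lvd_relfinrank_Ft`, `lvd_relfinrank_full`:
  `[F̃_M : 𝔽_ℓ(j̃)] = ψ(M) = [F_M : ℚ(j)]`;
* (D3) for `M₁ ∣ M`: `F_{M₁} ≤ F_M`, `F̃_{M₁} ≤ F̃_M` (`lvd_full_mono`, `lvd_Ft_mono`),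
  `[F_M : F_{M₁}] * ψ(M₁) = ψ(M)` in both characteristics (`lvd_tower_full`, `lvd_tower_Ft`), hence
  `[F̃_M : F̃_{M₁}] = [F_M : F_{M₁}]` (`lvd_relfinrank_eq`), and finiteness of the towers.
-/

set_option autoImplicit false

open ModularCurve IntermediateField

namespace Fermat.Agent.S18x

open Fermat.Agent.S28x

noncomputable section

/-! ### (D1) residues -/

/-- **(D1a)** `ρ(W ∩ F_M) ⊆ F̃_M` for `ℓ ∤ M`. -/
theorem lvd_rho_mem_Ft (ℓ M : ℕ) [Fact ℓ.Prime] [NeZero M] (hℓM : ¬ ℓ ∣ M)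
    {x : LaurentSeries ℚ} (hxF : x ∈ modularFunctionFieldFull M) (hxW : x ∈ gaussRing ℓ) :
    rho ℓ ⟨x, hxW⟩ ∈ Ft ℓ M := by
  have hAV : x ∈ AV ℓ M :=
    mem_AV_of_mem_gaussRing ℓ M (qep_of_deg ℓ M (deg_all ℓ M hℓM)) hxF hxW
  exact rho_AV_mem_Ft ℓ M hAV

/-- **(D1b)** `F̃_M ⊆ ρ(W ∩ F_M)` (always). -/
theorem lvd_exists_rho_eq (ℓ M : ℕ) [Fact ℓ.Prime] [NeZero M] {c : LaurentSeries (ZMod ℓ)}
    (hc : c ∈ Ft ℓ M) :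
    ∃ (x : LaurentSeries ℚ) (_ : x ∈ modularFunctionFieldFull M) (hxW : x ∈ gaussRing ℓ),
      rho ℓ ⟨x, hxW⟩ = c := by
  obtain ⟨x, hx, h⟩ := exists_AV_rho_eq ℓ M hc
  exact ⟨x, AV_le_full ℓ M hx, AV_le_gaussRing ℓ M hx, h⟩

/-! ### (D2) degrees -/

/-- **(D2, mod `ℓ`)** `[F̃_M : 𝔽_ℓ(j̃)] = ψ(M)` for `ℓ ∤ M`. -/
theorem lvd_relfinrank_Ft (ℓ M : ℕ) [Fact ℓ.Prime] [NeZero M] (hℓM : ¬ ℓ ∣ M) :
    relfinrank (Kj ℓ) (Ft ℓ M) = dedekindPsi M :=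
  le_antisymm (relfinrank_Ft_le ℓ M) (deg_all ℓ M hℓM)

/-- **(D2, char `0`)** `[F_M : ℚ(j)] = ψ(M)` (uses any prime `ℓ ∤ M`). -/
theorem lvd_relfinrank_full (ℓ M : ℕ) [Fact ℓ.Prime] [NeZero M] (hℓM : ¬ ℓ ∣ M) :
    relfinrank Qj (modularFunctionFieldFull M) = dedekindPsi M :=
  le_antisymm (relfinrank_full_le M)
    ((deg_all ℓ M hℓM).trans (qd_relfinrank_Ft_le_full (qd_input ℓ M)))

/-! ### (D3) towers -/

/-- `F_{M₁} ≤ F_M` for `M₁ ∣ M`. -/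
theorem lvd_full_mono {M₁ M : ℕ} (h : M₁ ∣ M) :
    modularFunctionFieldFull M₁ ≤ modularFunctionFieldFull M := by
  apply IntermediateField.adjoin.mono
  rintro x ⟨d, hd0, hd, rfl⟩
  exact ⟨d, hd0, hd.trans h, rfl⟩

/-- `F_{M₁}(K) ≤ F_M(K)` for `M₁ ∣ M`, any field `K`. -/
theorem lvd_fullC_mono (K : Type*) [Field K] {M₁ M : ℕ} (h : M₁ ∣ M) :
    modularFunctionFieldFullC K M₁ ≤ modularFunctionFieldFullC K M := by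
  apply IntermediateField.adjoin.mono
  rintro x ⟨d, hd0, hd, rfl⟩
  exact ⟨d, hd0, hd.trans h, rfl⟩

/-- `F̃_{M₁} ≤ F̃_M` for `M₁ ∣ M`. -/
theorem lvd_Ft_mono (ℓ : ℕ) [Fact ℓ.Prime] {M₁ M : ℕ} (h : M₁ ∣ M) : Ft ℓ M₁ ≤ Ft ℓ M :=
  lvd_fullC_mono (ZMod ℓ) h

/-- **(D3, char `0`)** `[F_M : F_{M₁}] * ψ(M₁) = ψ(M)`. -/
theorem lvd_tower_full (ℓ M₁ M : ℕ) [Fact ℓ.Prime] [NeZero M₁] [NeZero M] (h : M₁ ∣ M)
    (hℓM : ¬ ℓ ∣ M) :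
    relfinrank (modularFunctionFieldFull M₁) (modularFunctionFieldFull M) * dedekindPsi M₁ =
      dedekindPsi M := by
  have hℓM₁ : ¬ ℓ ∣ M₁ := fun h' => hℓM (h'.trans h)
  rw [← lvd_relfinrank_full ℓ M₁ hℓM₁, ← lvd_relfinrank_full ℓ M hℓM, mul_comm]
  exact relfinrank_mul_relfinrank (qd_Qj_le_full M₁) (lvd_full_mono h)

/-- **(D3, mod `ℓ`)** `[F̃_M : F̃_{M₁}] * ψ(M₁) = ψ(M)`. -/
theorem lvd_tower_Ft (ℓ M₁ M : ℕ) [Fact ℓ.Prime] [NeZero M₁] [NeZero M] (h : M₁ ∣ M)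
    (hℓM : ¬ ℓ ∣ M) :
    relfinrank (Ft ℓ M₁) (Ft ℓ M) * dedekindPsi M₁ = dedekindPsi M := by
  have hℓM₁ : ¬ ℓ ∣ M₁ := fun h' => hℓM (h'.trans h)
  rw [← lvd_relfinrank_Ft ℓ M₁ hℓM₁, ← lvd_relfinrank_Ft ℓ M hℓM, mul_comm]
  exact relfinrank_mul_relfinrank (qd_Kj_le_Ft ℓ M₁) (lvd_Ft_mono ℓ h)

/-- **(D3)** the relative degrees agree: `[F̃_M : F̃_{M₁}] = [F_M : F_{M₁}]`. -/
theorem lvd_relfinrank_eq (ℓ M₁ M : ℕ) [Fact ℓ.Prime] [NeZero M₁] [NeZero M] (h : M₁ ∣ M)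
    (hℓM : ¬ ℓ ∣ M) :
    relfinrank (Ft ℓ M₁) (Ft ℓ M) =
      relfinrank (modularFunctionFieldFull M₁) (modularFunctionFieldFull M) := by
  have hpos : 0 < dedekindPsi M₁ := sa_dedekindPsi_pos M₁ (NeZero.ne M₁)
  apply Nat.eq_of_mul_eq_mul_right hpos
  rw [lvd_tower_Ft ℓ M₁ M h hℓM, lvd_tower_full ℓ M₁ M h hℓM]

/-- the relative degree is positive. -/
theorem lvd_relfinrank_pos (ℓ M₁ M : ℕ) [Fact ℓ.Prime] [NeZero M₁] [NeZero M] (h : M₁ ∣ M)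
    (hℓM : ¬ ℓ ∣ M) :
    0 < relfinrank (modularFunctionFieldFull M₁) (modularFunctionFieldFull M) := by
  have hpos : 0 < dedekindPsi M := sa_dedekindPsi_pos M (NeZero.ne M)
  have := lvd_tower_full ℓ M₁ M h hℓM
  by_contra h0
  push Not at h0
  have h1 : relfinrank (modularFunctionFieldFull M₁) (modularFunctionFieldFull M) = 0 := by omega
  rw [h1, zero_mul] at this
  omega

/-- `F_M` is finite over `F_{M₁}` (as `extendScalars`). -/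
theorem lvd_finite_full (ℓ M₁ M : ℕ) [Fact ℓ.Prime] [NeZero M₁] [NeZero M] (h : M₁ ∣ M)
    (hℓM : ¬ ℓ ∣ M) :
    FiniteDimensional (modularFunctionFieldFull M₁) (extendScalars (lvd_full_mono h)) := by
  have hpos := lvd_relfinrank_pos ℓ M₁ M h hℓM
  rw [relfinrank_eq_finrank_of_le (lvd_full_mono h)] at hpos
  exact Module.finite_of_finrank_pos hpos

/-- `F̃_M` is finite over `F̃_{M₁}` (as `extendScalars`). -/
theorem lvd_finite_Ft (ℓ M₁ M : ℕ) [Fact ℓ.Prime] [NeZero M₁] [NeZero M] (h : M₁ ∣ M)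
    (hℓM : ¬ ℓ ∣ M) :
    FiniteDimensional (Ft ℓ M₁) (extendScalars (lvd_Ft_mono ℓ h)) := by
  have hpos := lvd_relfinrank_pos ℓ M₁ M h hℓM
  rw [← lvd_relfinrank_eq ℓ M₁ M h hℓM, relfinrank_eq_finrank_of_le (lvd_Ft_mono ℓ h)] at hpos
  exact Module.finite_of_finrank_pos hpos

end

end Fermat.Agent.S18x
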