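/-
S18x/LydSep.lean (helper29, NRM block row N4): separability of the Gauss residue extension.

* `lyd_isSeparable_incl`: `k` perfect of characteristic `p`, `A1 ≤ B ≤ k((q))` intermediate fields,
  `t ∈ A1` with `p ∤ ord t`, `B` finite over `k(t)`  ⟹  `B / A1` separable for the inclusion
  algebra in the `IntermediateField.inclusion` form (the shape of `lyd_gAlgebra`);
* `lyd_adjoin_subtype_eq_top`: if `B = k(S)` then the lifts of `S` to `↥B` generate `↥B` over `↥A1`.
-/
import Mathlib
import Fermat.Agent.S18x.SepLaurent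
import Fermat.Agent.S18x.LydDeg

set_option autoImplicit false
set_option linter.style.haveILetI false
set_option linter.unusedSectionVars false

namespace Fermat.Agent.S18x

open Module IntermediateField

noncomputable section

section SepCore

variable {k : Type*} [Field k]

/-- The inclusion algebra `↥A → ↥B`, `IntermediateField.inclusion` form. -/
@[reducible] def lyd_inclAlg {Ω : Type*} [Field Ω] [Algebra k Ω] (A B : IntermediateField k Ω)
    (h : A ≤ B) : Algebra A B :=
  (IntermediateField.inclusion h).toRingHom.toAlgebra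

theorem lyd_inclAlg_coe {Ω : Type*} [Field Ω] [Algebra k Ω] (A B : IntermediateField k Ω)
    (h : A ≤ B) (x : A) :
    ((@algebraMap A B _ _ (lyd_inclAlg A B h) x : B) : Ω) = (x : Ω) := rfl

variable [PerfectField k]

/-- **Separability of `B / A1`** when `A1 ∋ t`, `p ∤ ord t`, and `B` is finite over `k(t)`. -/
theorem lyd_isSeparable_incl (p : ℕ) [hp : Fact p.Prime] [CharP k p]
    (A1 B : IntermediateField k (LaurentSeries k)) (h1B : A1 ≤ B) (t : LaurentSeries k)
    (htA1 : t ∈ A1) (ht : ¬ (p : ℤ) ∣ t.order) (hfin : relfinrank k⟮t⟯ B ≠ 0) :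
    @Algebra.IsSeparable A1 B _ _ (lyd_inclAlg A1 B h1B) := by
  have hA1 : k⟮t⟯ ≤ A1 := by
    rw [adjoin_simple_le_iff]
    exact htA1
  have hAB : k⟮t⟯ ≤ B := hA1.trans h1B
  letI algAB : Algebra k⟮t⟯ B := lyd_inclAlg k⟮t⟯ B hAB
  letI algAA1 : Algebra k⟮t⟯ A1 := lyd_inclAlg k⟮t⟯ A1 hA1
  letI algA1B : Algebra A1 B := lyd_inclAlg A1 B h1B
  haveI : IsScalarTower k⟮t⟯ A1 B := IsScalarTower.of_algebraMap_eq (fun x => rfl)
  have hcoe : ∀ x : k⟮t⟯, ((algebraMap k⟮t⟯ B x : B) : LaurentSeries k) = x := fun _ => rfl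
  haveI hfinE : FiniteDimensional k⟮t⟯ (extendScalars hAB) := by
    rw [relfinrank_eq_finrank_of_le hAB] at hfin
    exact Module.finite_of_finrank_pos (Nat.pos_of_ne_zero hfin)
  haveI hfinAB : FiniteDimensional k⟮t⟯ B := lyd_finite_of_coe k⟮t⟯ B hAB hcoe
  haveI hcA : CharP k⟮t⟯ p := charP_of_injective_algebraMap (algebraMap k k⟮t⟯).injective p
  haveI hcΩ : CharP (LaurentSeries k) p :=
    charP_of_injective_algebraMap (algebraMap k (LaurentSeries k)).injective p
  have htA : t ∈ k⟮t⟯ := mem_adjoin_simple_self k t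
  haveI hsepAB : Algebra.IsSeparable k⟮t⟯ B := by
    refine ⟨fun y => ?_⟩
    have hy : IsAlgebraic k⟮t⟯ y := Algebra.IsAlgebraic.isAlgebraic y
    refine sepl_isSeparable_of_pbasis (K := k⟮t⟯) (M := B) p (⟨t, htA⟩ : k⟮t⟯) ?_ ?_ hy
    · intro z
      obtain ⟨c, hc, hzc⟩ := sepl_rep_of_mem (k := k) p t z.2
      refine ⟨fun i => ⟨c i, hc i⟩, ?_⟩
      apply Subtype.ext
      rw [hzc]
      simp
    · intro m hm
      have hm' := congrArg (fun x : B => (x : LaurentSeries k)) hm
      have hm'' : ∑ i : Fin p, t ^ (i : ℕ) * ((m i : B) : LaurentSeries k) ^ p = 0 := by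
        simpa [hcoe] using hm'
      have := sepl_indep_laurent p t ht (fun i => ((m i : B) : LaurentSeries k)) hm''
      intro i
      exact Subtype.ext (this i)
  exact Algebra.isSeparable_tower_top_of_isSeparable k⟮t⟯ A1 B

end SepCore

section Gens

variable {k Ω : Type*} [Field k] [Field Ω] [Algebra k Ω]

/-- If `B = k(S)`, the lifts of the elements of `S` to `↥B` generate `↥B` over `↥A1`. -/
theorem lyd_adjoin_subtype_eq_top (A1 B : IntermediateField k Ω) (h1B : A1 ≤ B) (S : Set Ω)
    (hB : B = IntermediateField.adjoin k S) :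
    @IntermediateField.adjoin A1 _ B _ (lyd_inclAlg A1 B h1B) {x : B | (x : Ω) ∈ S} = ⊤ := by
  letI algA1B : Algebra A1 B := lyd_inclAlg A1 B h1B
  rw [eq_top_iff]
  intro b _
  -- the image of the adjoin in `Ω`, as an intermediate field over `k`
  let T : IntermediateField A1 B := IntermediateField.adjoin A1 {x : B | (x : Ω) ∈ S}
  let T' : Subfield Ω := T.toSubfield.map B.val.toRingHom
  have hk : ∀ c : k, algebraMap k Ω c ∈ T' := by
    intro c
    refine ⟨algebraMap k B c, ?_, rfl⟩
    have : algebraMap k B c = algebraMap A1 B (algebraMap k A1 c) := rfl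
    show algebraMap k B c ∈ T
    rw [this]
    exact T.algebraMap_mem _
  let T'' : IntermediateField k Ω := T'.toIntermediateField hk
  have hle : B ≤ T'' := by
    rw [hB, IntermediateField.adjoin_le_iff]
    intro s hs
    have hsB : s ∈ B := by rw [hB]; exact IntermediateField.subset_adjoin k S hs
    refine ⟨⟨s, hsB⟩, ?_, rfl⟩
    exact IntermediateField.subset_adjoin A1 _ (show ((⟨s, hsB⟩ : B) : Ω) ∈ S from hs)
  obtain ⟨y, hyT, hy⟩ := hle b.2
  have : y = b := Subtype.ext hy
  rw [← this]
  exact hyT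

end Gens

end

end Fermat.Agent.S18x
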