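import Mathlib

/-!
# S18x / NRM row N4: the `hspan` input of `lyd_hV`, abstract form (prefix `lyds_`)

`Fb' / Fb` an algebraic field extension, `S` a subring of `Fb'` containing a set `G` of field
generators of `Fb'` over `Fb`.  Then the `Fb`-span of `S` is everything
(`lyds_span_subring_eq_top`); ring-hom form `lyds_span_range_eq_top` (for `S = ρ'(R)`).
-/

set_option autoImplicit false

namespace Fermat.Agent.S18x

open IntermediateField

variable {Fb Fb' : Type*} [Field Fb] [Field Fb'] [Algebra Fb Fb']

/-- the `Fb`-span of a subring is the `Fb`-subalgebra it generates -/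
theorem lyds_span_subring (S : Subring Fb') :
    Submodule.span Fb (S : Set Fb') = (Algebra.adjoin Fb (S : Set Fb')).toSubmodule := by
  rw [Algebra.adjoin_eq_span]
  congr 1
  ext x
  constructor
  · intro hx
    exact Submonoid.subset_closure hx
  · intro hx
    have : Submonoid.closure (S : Set Fb') ≤ S.toSubmonoid :=
      Submonoid.closure_le.mpr (fun y hy => hy)
    exact this hx

/-- **abstract `hspan`**: a subring containing field generators of an algebraic extension spans
it. -/
theorem lyds_span_subring_eq_top [Algebra.IsAlgebraic Fb Fb'] (S : Subring Fb') (G : Set Fb')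
    (hG : G ⊆ S) (hgen : IntermediateField.adjoin Fb G = ⊤) :
    Submodule.span Fb (S : Set Fb') = ⊤ := by
  rw [lyds_span_subring]
  have h1 : (IntermediateField.adjoin Fb (S : Set Fb')).toSubalgebra =
      Algebra.adjoin Fb (S : Set Fb') :=
    IntermediateField.adjoin_toSubalgebra_of_isAlgebraic
      (fun x _ => Algebra.IsAlgebraic.isAlgebraic x)
  have h2 : IntermediateField.adjoin Fb (S : Set Fb') = ⊤ := by
    apply top_unique
    rw [← hgen]
    exact IntermediateField.adjoin.mono Fb G _ hG
  rw [← h1, h2]
  simp

/-- **abstract `hspan`, ring-hom form**: if the range of a ring hom `φ : R → Fb'` contains field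
generators of the algebraic extension `Fb' / Fb`, its `Fb`-span is everything. -/
theorem lyds_span_range_eq_top [Algebra.IsAlgebraic Fb Fb'] {R : Type*} [Ring R]
    (φ : R →+* Fb') (G : Set Fb') (hG : ∀ g ∈ G, ∃ r : R, φ r = g)
    (hgen : IntermediateField.adjoin Fb G = ⊤) :
    Submodule.span Fb (Set.range φ) = ⊤ := by
  have := lyds_span_subring_eq_top (Fb := Fb) φ.range G
    (fun g hg => by
      obtain ⟨r, hr⟩ := hG g hg
      exact ⟨r, hr⟩) hgen
  rwa [RingHom.coe_range] at this

end Fermat.Agent.S18x
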