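/-
S18x/LydLevelY.lean (helper29, NRM block row N4): the remaining inputs of helper39's `PuriLyd`
for the concrete pair `H = lyd_levelY_redPair` (residue types `Fb = ↥(lyd_gRes ℓ (lyd_val KY) _)`,
`Fb' = ↥(lyd_gRes ℓ (lyd_val LY) _)`), generic in `(ℓ, e, h, N', M)`:

* `lyd_gRes_eq_Ft`: the Gauss residue field of `E = F_M` is `F̃_M = Ft ℓ M` (`ℓ ∤ M`);
* `lyd_levelY_isSeparable`: the residue extension is separable (`h̄ = ρ h` of `q`-order prime to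
  `ℓ`, `j̃ ∈ 𝔽_ℓ(h̄)`);
* `lyd_levelY_span_range_eq_top`: `hspan` for any ring hom `φ : R → Fb'` whose range contains the
  generators `j̃(q^d)`, `d ∣ M`.
-/
import Mathlib
import Fermat.Agent.S18x.LydInst
import Fermat.Agent.S18x.LydRed
import Fermat.Agent.S18x.LydSep
import Fermat.Agent.S18x.LydSpan
import Fermat.Agent.S18x.LevelDeg

set_option autoImplicit false
set_option linter.style.haveILetI false
set_option linter.unusedSectionVars false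

namespace Fermat.Agent.S18x

open Fermat.Agent.S28x ModularCurve Module IntermediateField

noncomputable section

local notation "𝕃" => LaurentSeries ℚ

section ResField

variable (M : ℕ) [NeZero M] (ℓ : ℕ) [Fact ℓ.Prime]

/-- The Gauss residue field of `E = F_M` is `F̃_M`. -/
theorem lyd_gRes_eq_Ft (hℓM : ¬ ℓ ∣ M) {E : IntermediateField ℚ 𝕃}
    (hE : E = modularFunctionFieldFull M) (h1 : ∀ x, lyd_val E x ∈ gr_fracField ℓ) :
    lyd_gRes ℓ (lyd_val E) h1 = Ft ℓ M := by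
  subst hE
  apply le_antisymm
  · rintro _ ⟨x, rfl⟩
    exact lvd_rho_mem_Ft ℓ M hℓM (x : modularFunctionFieldFull M).2 x.2
  · exact lyd_Ft_le_gRes_full ℓ M

end ResField

section LevelY

variable (ℓ e : ℕ) [Fact ℓ.Prime] [NeZero e] (h : 𝕃) (N' M : ℕ) [NeZero N'] [NeZero M]

/-- `h̄ = ρ h` lies in the Gauss residue field of `K_Y = ℚ(h)`. -/
theorem lyd_levelY_hbar_mem (hLY : purb_LY e h N' = modularFunctionFieldFull M)
    (hh : h ∈ gaussRing ℓ) :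
    rho ℓ ⟨h, hh⟩ ∈ lyd_gRes ℓ (lyd_val (purb_KY h)) (lyd_levelY_mem_frac_base ℓ e h N' M hLY) :=
  ⟨⟨purb_hK h, hh⟩, rfl⟩

/-- **Separability of the Gauss residue extension at level `Y`.** -/
theorem lyd_levelY_isSeparable (hLY : purb_LY e h N' = modularFunctionFieldFull M)
    (hℓM : ¬ ℓ ∣ M) (hh : h ∈ gaussRing ℓ)
    (hord : ¬ (ℓ : ℤ) ∣ (rho ℓ ⟨h, hh⟩).order)
    (hjb : jqModC (ZMod ℓ) ∈ (ZMod ℓ)⟮rho ℓ ⟨h, hh⟩⟯) :
    @Algebra.IsSeparable
      (lyd_gRes ℓ (lyd_val (purb_KY h)) (lyd_levelY_mem_frac_base ℓ e h N' M hLY))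
      (lyd_gRes ℓ (lyd_val (purb_LY e h N')) (lyd_levelY_mem_frac ℓ e h N' M hLY)) _ _
      (lyd_gAlgebra ℓ (lyd_val (purb_KY h)) (lyd_levelY_mem_frac_base ℓ e h N' M hLY)
        (lyd_val (purb_LY e h N')) (lyd_levelY_mem_frac ℓ e h N' M hLY)
        (lyd_levelY_compat e h N')) := by
  haveI : CharP (ZMod ℓ) ℓ := ZMod.charP ℓ
  have hB := lyd_gRes_eq_Ft M ℓ hℓM hLY (lyd_levelY_mem_frac ℓ e h N' M hLY)
  have h1B := lyd_gRes_le ℓ (lyd_val (purb_KY h)) (lyd_levelY_mem_frac_base ℓ e h N' M hLY)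
    (lyd_val (purb_LY e h N')) (lyd_levelY_mem_frac ℓ e h N' M hLY) (lyd_levelY_compat e h N')
  have htA1 := lyd_levelY_hbar_mem ℓ e h N' M hLY hh
  refine lyd_isSeparable_incl ℓ _ _ h1B (rho ℓ ⟨h, hh⟩) htA1 hord ?_
  -- finiteness over `𝔽_ℓ(h̄)`
  have hKj : Kj ℓ ≤ (ZMod ℓ)⟮rho ℓ ⟨h, hh⟩⟯ := by
    rw [IntermediateField.adjoin_le_iff, Set.singleton_subset_iff]
    exact hjb
  have hAB : (ZMod ℓ)⟮rho ℓ ⟨h, hh⟩⟯ ≤
      lyd_gRes ℓ (lyd_val (purb_LY e h N')) (lyd_levelY_mem_frac ℓ e h N' M hLY) := by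
    rw [adjoin_simple_le_iff]
    exact h1B htA1
  have hmul := relfinrank_mul_relfinrank hKj hAB
  rw [hB, lvd_relfinrank_Ft ℓ M hℓM] at hmul
  have hpos : 0 < dedekindPsi M := sa_dedekindPsi_pos M (NeZero.ne M)
  intro h0
  rw [hB] at h0
  rw [h0, mul_zero] at hmul
  omega

/-- the lifts of the generators `j̃(q^d)`, `d ∣ M`, generate the residue field `Fb'` over `Fb`. -/
theorem lyd_levelY_adjoin_eq_top (hLY : purb_LY e h N' = modularFunctionFieldFull M)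
    (hℓM : ¬ ℓ ∣ M) :
    @IntermediateField.adjoin
      (lyd_gRes ℓ (lyd_val (purb_KY h)) (lyd_levelY_mem_frac_base ℓ e h N' M hLY)) _
      (lyd_gRes ℓ (lyd_val (purb_LY e h N')) (lyd_levelY_mem_frac ℓ e h N' M hLY)) _
      (lyd_gAlgebra ℓ (lyd_val (purb_KY h)) (lyd_levelY_mem_frac_base ℓ e h N' M hLY)
        (lyd_val (purb_LY e h N')) (lyd_levelY_mem_frac ℓ e h N' M hLY)
        (lyd_levelY_compat e h N'))
      {x | (x : LaurentSeries (ZMod ℓ)) ∈ divisorExpansionsC (ZMod ℓ) M} = ⊤ :=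
  lyd_adjoin_subtype_eq_top _ _
    (lyd_gRes_le ℓ (lyd_val (purb_KY h)) (lyd_levelY_mem_frac_base ℓ e h N' M hLY)
      (lyd_val (purb_LY e h N')) (lyd_levelY_mem_frac ℓ e h N' M hLY) (lyd_levelY_compat e h N'))
    (divisorExpansionsC (ZMod ℓ) M)
    (lyd_gRes_eq_Ft M ℓ hℓM hLY (lyd_levelY_mem_frac ℓ e h N' M hLY))

/-- **`hspan`**: a ring hom into the residue field `Fb'` whose range contains all `j̃(q^d)`,
`d ∣ M`, has `Fb`-span everything. -/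
theorem lyd_levelY_span_range_eq_top (hLY : purb_LY e h N' = modularFunctionFieldFull M)
    (hℓM : ¬ ℓ ∣ M) (hj : jq ∈ purb_KY h)
    [FiniteDimensional ↥(purb_KY h) ↥(purb_LY e h N')] {R : Type*} [Ring R]
    (φ : R →+* lyd_gRes ℓ (lyd_val (purb_LY e h N')) (lyd_levelY_mem_frac ℓ e h N' M hLY))
    (hφ : ∀ (d : ℕ) [NeZero d], d ∣ M → ∃ r : R,
      ((φ r : lyd_gRes ℓ (lyd_val (purb_LY e h N')) (lyd_levelY_mem_frac ℓ e h N' M hLY)) :
        LaurentSeries (ZMod ℓ)) = qExpand (ZMod ℓ) d (jqModC (ZMod ℓ))) :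
    @Submodule.span
      (lyd_gRes ℓ (lyd_val (purb_KY h)) (lyd_levelY_mem_frac_base ℓ e h N' M hLY))
      (lyd_gRes ℓ (lyd_val (purb_LY e h N')) (lyd_levelY_mem_frac ℓ e h N' M hLY)) _ _
      (lyd_gAlgebra ℓ (lyd_val (purb_KY h)) (lyd_levelY_mem_frac_base ℓ e h N' M hLY)
        (lyd_val (purb_LY e h N')) (lyd_levelY_mem_frac ℓ e h N' M hLY)
        (lyd_levelY_compat e h N')).toModule (Set.range φ) = ⊤ := by
  letI := lyd_gAlgebra ℓ (lyd_val (purb_KY h)) (lyd_levelY_mem_frac_base ℓ e h N' M hLY)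
    (lyd_val (purb_LY e h N')) (lyd_levelY_mem_frac ℓ e h N' M hLY) (lyd_levelY_compat e h N')
  have H := lyd_levelY_redPair ℓ e h N' M hLY hℓM hj
  haveI := lyd_finite_red H
  refine lyds_span_range_eq_top φ _ ?_ (lyd_levelY_adjoin_eq_top ℓ e h N' M hLY hℓM)
  rintro g ⟨d, hd0, hdM, hg⟩
  obtain ⟨r, hr⟩ := hφ d hdM
  exact ⟨r, Subtype.ext (hr.trans hg.symm)⟩

end LevelY

end

end Fermat.Agent.S18x
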