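/-
S18x/NrmVInst (helper10, block NRM, prefix `nrmk_`): the input `(V) = puri_HV` of helper39's
`puri_exists_basis_isUnit_discr` / helper94's `nryp_main` on helper28's level-`Y` objects, from
helper29's concrete Gauss pair `lyd_levelY_redPair`, `lyd_levelY_isSeparable`,
`lyd_levelY_span_range_eq_top` + helper39's `puri_HV_of_redPair`; generic in
`(ℓ, e, hZ, c, N', M)` with `h = toQ ℓ hZ`.
-/
import Fermat.Agent.S18x.LydLevelY
import Fermat.Agent.S18x.PuriLyd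
import Fermat.Agent.S18x.PuriGauss
import Fermat.Agent.S18x.NrmYIncl
import Fermat.Agent.S18x.NrmYDefs

set_option autoImplicit false
set_option linter.style.haveILetI false
set_option linter.unusedSectionVars false
set_option synthInstance.maxHeartbeats 400000
set_option maxHeartbeats 1000000

namespace Fermat.Agent.S18x

open ModularCurve HahnSeries Polynomial Fermat.Agent.S28x

noncomputable section

variable (ℓ e : ℕ) [Fact ℓ.Prime] [NeZero e] (hZ : LaurentSeries (ZL ℓ)) (c : ℤ[X])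
  (N' M : ℕ) [NeZero N'] [NeZero M]

/-- **`(V)`** on the level-`Y` objects. -/
theorem nrmk_hV {h : LaurentSeries ℚ} (hh : toQ ℓ hZ = h)
    (hLY : purb_LY e h N' = modularFunctionFieldFull M) (hℓM : ¬ ℓ ∣ M)
    (hj : jq ∈ purb_KY h)
    [FiniteDimensional ↥(purb_KY h) ↥(purb_LY e h N')]
    (htrQ : Transcendental ℚ h) (hc0 : c ≠ 0)
    (hc : nry_cval c (red ℓ hZ) ≠ 0)
    (hord : ¬ (ℓ : ℤ) ∣ (red ℓ hZ).order)
    (hjb : jqModC (ZMod ℓ) ∈ IntermediateField.adjoin (ZMod ℓ) {red ℓ hZ})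
    (hjR : ∀ d : ℕ, [NeZero d] → d ∣ M →
      ∃ t : ↥(purb_RY ℓ e h c N'), nryp_incl ℓ e h c N' t = qExpand ℚ d jq) :
    puri_HV ℓ e h c N' := by
  have hhW : h ∈ gaussRing ℓ := by rw [← hh]; exact toQ_mem_gaussRing ℓ hZ
  have hρh : rho ℓ ⟨h, hhW⟩ = red ℓ hZ := by
    rw [nry_rho_congr hh.symm hhW (toQ_mem_gaussRing ℓ hZ)]
    exact rho_toQ ℓ hZ
  have hcb : Polynomial.eval₂ (Int.castRingHom (LaurentSeries (ZMod ℓ))) (rho ℓ ⟨h, hhW⟩) c ≠ 0 := by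
    rw [hρh]; exact hc
  letI := lyd_gAlgebra ℓ (lyd_val (purb_KY h)) (lyd_levelY_mem_frac_base ℓ e h N' M hLY)
    (lyd_val (purb_LY e h N')) (lyd_levelY_mem_frac ℓ e h N' M hLY) (lyd_levelY_compat e h N')
  have H := lyd_levelY_redPair ℓ e h N' M hLY hℓM hj
  have hB0 : ∀ b : ↥(purb_B0 ℓ h c), algebraMap ↥(purb_B0 ℓ h c) ↥(purb_KY h) b ∈
      lyd_gW ℓ (lyd_val (purb_KY h)) (lyd_levelY_mem_frac_base ℓ e h N' M hLY) := by
    intro b
    rw [lyd_mem_gW, lyd_val_apply]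
    exact puri_B0_mem_gaussRing hhW c hcb b
  have hp : lyd_gRhoRes ℓ (lyd_val (purb_KY h)) (lyd_levelY_mem_frac_base ℓ e h N' M hLY)
      ⟨algebraMap ↥(purb_B0 ℓ h c) ↥(purb_KY h) (ℓ : ↥(purb_B0 ℓ h c)),
        hB0 (ℓ : ↥(purb_B0 ℓ h c))⟩ = 0 := by
    apply Subtype.ext
    rw [lyd_gRhoRes_coe]
    have h1 : lyd_val (purb_KY h) (algebraMap ↥(purb_B0 ℓ h c) ↥(purb_KY h)
        (ℓ : ↥(purb_B0 ℓ h c))) = ((ℓ : ℕ) : LaurentSeries ℚ) := by
      rw [map_natCast, map_natCast]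
    have h0 := gr_rho_natCast_self ℓ
    rw [nry_rho_congr h1 _ (((ℓ : ℕ) : gaussRing ℓ)).2]
    exact h0
  haveI : Algebra.IsSeparable
      (lyd_gRes ℓ (lyd_val (purb_KY h)) (lyd_levelY_mem_frac_base ℓ e h N' M hLY))
      (lyd_gRes ℓ (lyd_val (purb_LY e h N')) (lyd_levelY_mem_frac ℓ e h N' M hLY)) :=
    lyd_levelY_isSeparable ℓ e h N' M hLY hℓM hhW (by rw [hρh]; exact hord)
      (by rw [hρh]; exact hjb)
  -- the ring hom `R_Y → W'`
  let ψ : ↥(purb_RY ℓ e h c N') →+*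
      lyd_gW ℓ (lyd_val (purb_LY e h N')) (lyd_levelY_mem_frac ℓ e h N' M hLY) :=
    { toFun := fun r => ⟨algebraMap ↥(purb_RY ℓ e h c N') ↥(purb_LY e h N') r,
        puri_RY_mem ℓ e c N' htrQ hc0 H hB0 hp r⟩
      map_one' := Subtype.ext (map_one _)
      map_mul' := fun a b => Subtype.ext (map_mul _ a b)
      map_zero' := Subtype.ext (map_zero _)
      map_add' := fun a b => Subtype.ext (map_add _ a b) }
  refine puri_HV_of_redPair ℓ e c N' htrQ hc0 H hB0 hp ?_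
  refine lyd_levelY_span_range_eq_top ℓ e h N' M hLY hℓM hj
    ((lyd_gRhoRes ℓ (lyd_val (purb_LY e h N')) (lyd_levelY_mem_frac ℓ e h N' M hLY)).comp ψ) ?_
  intro d _ hd
  obtain ⟨t, ht⟩ := hjR d hd
  refine ⟨t, ?_⟩
  rw [RingHom.comp_apply, lyd_gRhoRes_coe]
  have h1 : lyd_val (purb_LY e h N') ((ψ t :
      lyd_gW ℓ (lyd_val (purb_LY e h N')) (lyd_levelY_mem_frac ℓ e h N' M hLY)) :
        ↥(purb_LY e h N')) = qExpand ℚ d jq := by
    rw [lyd_val_apply, ← ht]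
    rfl
  rw [nry_rho_congr h1 _ (jqd_mem_gaussRing ℓ d), rho_jqd]

end

end Fermat.Agent.S18x
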