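/-
S18 project, NRM block, rows N2b / N12-twin (helper63, prefix `bsn_`), part 2: closed instances of
`F₉ = K(μ)` and the `ℓ = 2` BRIDGING lemma `F_{3N}(q³) · K(μ) = F_{9N}`.

* `bsn_F9_eq_Q h3 : modularFunctionFieldFullC ℚ 9 = ℚ⟮hsc_mu h3⟯` (`bsn_F9_eq_Q'` in the
  `modularFunctionFieldFull` spelling), `bsn_F9_eq_F ℓ (ℓ ≠ 3) h3` over `ZMod ℓ`
  (degree input: helper68's `bsd_lower_Q`, `bsd_lower_F`).
* `bsn_cube_ne h3 f : (qExpand K 3 f)^3 ≠ μ³` (order argument), `bsn_cubeField K = K((q³))`,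
  `bsn_natDegree_minpoly_mu = 3`, `bsn_relfinrank_sup_mu : [E·K(μ) : E] = 3` for every
  `E ≤ K((q³))` containing `μ³`, `bsn_mu_not_mem`.
* `bsn_F3_le`, `bsn_F3_eq : 4 ≤ [F₃ : K(j)] → F₃ = K(s̃)`, `bsn_mu_cube_mem_map : μ³ ∈ F_{3N}(q³)`.
* `bsn_sup_eq` (hypothesis form, any field with `3` invertible) and the closed instances
  `bsn_LY_eq_Q h3 N : purb_LY 3 (hsc_mu h3) (3 * N) = modularFunctionFieldFull (9 * N)`,
  `bsn_LYb_eq ℓ (ℓ ≠ 3) h3 N (ℓ ∤ N) :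
     purb_LYb ℓ 3 (hsc_mu h3) (3 * N) = modularFunctionFieldFullC (ZMod ℓ) (9 * N)`.
-/
import Fermat.Agent.S18x.BaseIdentNine
import Fermat.Agent.S18x.BaseIdentDeg
import Fermat.Agent.S18x.NrmNonCoprimeAbs

set_option autoImplicit false

open Polynomial IntermediateField ModularCurve

namespace Fermat.Agent.S18x

noncomputable section

theorem bsn_psi_nine : dedekindPsi 9 = 12 := by
  have h := bsd_psi_mul Nat.prime_three (M := 3) (by norm_num) (dvd_refl 3) (L := 9) (by norm_num)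
  rw [h, bsd_psi_prime Nat.prime_three]

/-- **`F₉ = ℚ(μ)`** -/
theorem bsn_F9_eq_Q (h3 : IsUnit (3 : ℚ)) :
    modularFunctionFieldFullC ℚ 9 = ℚ⟮hsc_mu h3⟯ := by
  refine bsn_F9_eq h3 ?_
  have h := bsd_lower_Q 9
  rwa [bsn_psi_nine] at h

/-- **`F₉ = ℚ(μ)`**, in the `modularFunctionFieldFull` spelling -/
theorem bsn_F9_eq_Q' (h3 : IsUnit (3 : ℚ)) :
    modularFunctionFieldFull 9 = ℚ⟮hsc_mu h3⟯ :=
  bsn_F9_eq_Q h3

/-- **`F̃₉ = 𝔽_ℓ(μ)`** for every prime `ℓ ≠ 3` -/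
theorem bsn_F9_eq_F (ℓ : ℕ) [Fact ℓ.Prime] (hℓ3 : ℓ ≠ 3) (h3 : IsUnit (3 : ZMod ℓ)) :
    modularFunctionFieldFullC (ZMod ℓ) 9 = (ZMod ℓ)⟮hsc_mu h3⟯ := by
  refine bsn_F9_eq h3 ?_
  have hℓ : ℓ.Prime := Fact.out
  have h9 : ¬ ℓ ∣ 9 := by
    intro h
    have h' : ℓ ∣ 3 ^ 2 := by norm_num; exact h
    exact hℓ3 ((Nat.prime_dvd_prime_iff_eq hℓ Nat.prime_three).mp (hℓ.dvd_of_dvd_pow h'))
  have h := bsd_lower_F ℓ 9 h9
  rwa [bsn_psi_nine] at h

/-! ### `μ³` is not a cube in `K((q³))` -/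

section Cube

variable {K : Type*} [Field K]

theorem bsn_mu_ne_zero (h3 : IsUnit (3 : K)) : hsc_mu h3 ≠ 0 := by
  intro h0
  have := hsc_mu_coeff_neg_one h3
  rw [h0, HahnSeries.coeff_zero] at this
  exact zero_ne_one this

theorem bsn_order_mu (h3 : IsUnit (3 : K)) : (hsc_mu h3).order = -1 := by
  apply le_antisymm
  · apply HahnSeries.order_le_of_coeff_ne_zero
    rw [hsc_mu_coeff_neg_one]
    exact one_ne_zero
  · by_contra hlt
    rw [not_le] at hlt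
    have h0 := hsc_mu_coeff_of_lt h3 hlt
    rw [HahnSeries.coeff_order_eq_zero] at h0
    exact bsn_mu_ne_zero h3 h0

theorem bsn_order_qExpand (f : LaurentSeries K) : (3 : ℤ) ∣ (qExpand K 3 f).order := by
  by_cases h0 : qExpand K 3 f = 0
  · rw [h0, HahnSeries.order_zero]
    exact dvd_zero _
  · by_contra hnd
    have h := qExpand_coeff_of_not_dvd 3 f (k := (qExpand K 3 f).order) (by exact_mod_cast hnd)
    rw [HahnSeries.coeff_order_eq_zero] at h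
    exact h0 h

/-- **`μ³` has no cube root in `K((q³))`** -/
theorem bsn_cube_ne (h3 : IsUnit (3 : K)) (f : LaurentSeries K) :
    (qExpand K 3 f) ^ 3 ≠ hsc_mu h3 ^ 3 := by
  intro h
  have ho := congrArg HahnSeries.order h
  rw [HahnSeries.order_pow, HahnSeries.order_pow, bsn_order_mu] at ho
  obtain ⟨m, hm⟩ := bsn_order_qExpand f
  rw [hm] at ho
  simp only [nsmul_eq_mul, Nat.cast_ofNat] at ho
  omega

/-- the field `K((q³))` -/
def bsn_cubeField (K : Type*) [Field K] : IntermediateField K (LaurentSeries K) :=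
  (qExpandAlgHomC K 3).fieldRange

theorem bsn_mem_cubeField_iff (y : LaurentSeries K) :
    y ∈ bsn_cubeField K ↔ ∃ f : LaurentSeries K, qExpand K 3 f = y := by
  rw [bsn_cubeField, AlgHom.mem_fieldRange]
  rfl

theorem bsn_map_le_cubeField (F : IntermediateField K (LaurentSeries K)) :
    F.map (qExpandAlgHomC K 3) ≤ bsn_cubeField K := by
  rintro y ⟨f, -, rfl⟩
  exact (bsn_mem_cubeField_iff _).2 ⟨f, rfl⟩

theorem bsn_mu_cube_mem_cubeField (h3 : IsUnit (3 : K)) : hsc_mu h3 ^ 3 ∈ bsn_cubeField K := by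
  rw [hsc_mu_cube]
  exact (bsn_mem_cubeField_iff _).2 ⟨_, rfl⟩

/-- `[K((q³))(μ) : K((q³))] = 3` -/
theorem bsn_natDegree_minpoly_mu (h3 : IsUnit (3 : K)) :
    (minpoly (bsn_cubeField K) (hsc_mu h3)).natDegree = 3 := by
  refine nnc15_natDegree_minpoly_three _ _ (bsn_mu_cube_mem_cubeField h3) ?_
  rintro ⟨y, hy⟩
  obtain ⟨f, rfl⟩ := (bsn_mem_cubeField_iff y).1 hy
  exact bsn_cube_ne h3 f

/-- **for every `E ≤ K((q³))` containing `μ³`: `[E·K(μ) : E] = 3`** -/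
theorem bsn_relfinrank_sup_mu (h3 : IsUnit (3 : K)) (E : IntermediateField K (LaurentSeries K))
    (hE : E ≤ bsn_cubeField K) (hμ : hsc_mu h3 ^ 3 ∈ E) :
    relfinrank E (E ⊔ K⟮hsc_mu h3⟯) = 3 :=
  nnc15_abs_relfinrank_sup (bsn_cubeField K) (hsc_mu h3) (by norm_num)
    (bsn_natDegree_minpoly_mu h3) E hE hμ

theorem bsn_mu_not_mem (h3 : IsUnit (3 : K)) (E : IntermediateField K (LaurentSeries K))
    (hE : E ≤ bsn_cubeField K) : hsc_mu h3 ∉ E := by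
  intro h
  obtain ⟨f, hf⟩ := (bsn_mem_cubeField_iff _).1 (hE h)
  exact bsn_cube_ne h3 f (by rw [hf])

end Cube

/-! ### `F₃ = K(s̃)` -/

section Three

variable {K : Type*} [Field K]

/-- `j(q³) ∈ K(s̃)` -/
theorem bsn_j3_mem_stilde (h3 : IsUnit (3 : K)) :
    qExpand K 3 (jqModC K) ∈ K⟮hsc_stilde K⟯ := by
  have hs : hsc_stilde K ∈ K⟮hsc_stilde K⟯ := mem_adjoin_simple_self K _
  have hne := bsn_stilde_sub_ne_zero h3
  have h1 : qExpand K 3 (jqModC K) =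
      hsc_stilde K * (hsc_stilde K - 24) ^ 3 / (hsc_stilde K - 27) := by
    rw [eq_div_iff hne]
    exact bsn_dual K
  rw [h1]
  exact div_mem (mul_mem hs (pow_mem (sub_mem hs (bsn_ofNat_mem _ 24)) 3))
    (sub_mem hs (bsn_ofNat_mem _ 27))

/-- **`F₃ ≤ K(s̃)`** -/
theorem bsn_F3_le (h3 : IsUnit (3 : K)) :
    modularFunctionFieldFullC K 3 ≤ K⟮hsc_stilde K⟯ := by
  rw [modularFunctionFieldFullC, adjoin_le_iff]
  rintro x ⟨d, hne, hdvd, rfl⟩
  have hd : d ∈ Nat.divisors 3 := Nat.mem_divisors.2 ⟨hdvd, by norm_num⟩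
  have h9 : Nat.divisors 3 = {1, 3} := by decide
  rw [h9] at hd
  simp only [Finset.mem_insert, Finset.mem_singleton] at hd
  rcases hd with rfl | rfl
  · rw [SetLike.mem_coe, qExpand_one_apply]
    exact bsn_Kjq_le_Kstilde h3 (mem_adjoin_simple_self K _)
  · exact bsn_j3_mem_stilde h3

/-- **`F₃ = K(s̃)`** as soon as `[F₃ : K(j)] ≥ 4 = ψ(3)`. -/
theorem bsn_F3_eq (h3 : IsUnit (3 : K))
    (hdeg : 4 ≤ relfinrank K⟮jqModC K⟯ (modularFunctionFieldFullC K 3)) :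
    modularFunctionFieldFullC K 3 = K⟮hsc_stilde K⟯ := by
  have hle := bsn_F3_le h3
  have hj : K⟮jqModC K⟯ ≤ modularFunctionFieldFullC K 3 := by
    rw [adjoin_simple_le_iff]
    exact jqModC_mem_full K 3
  have hmul := relfinrank_mul_relfinrank hj hle
  rw [bsn_relfinrank_jq_stilde h3] at hmul
  have h1 : relfinrank (modularFunctionFieldFullC K 3) K⟮hsc_stilde K⟯ = 1 := by
    rcases Nat.eq_zero_or_pos (relfinrank (modularFunctionFieldFullC K 3) K⟮hsc_stilde K⟯)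
      with h0 | hp
    · rw [h0, mul_zero] at hmul
      exact absurd hmul (by norm_num)
    · nlinarith
  exact le_antisymm hle (relfinrank_eq_one_iff.1 h1)

/-- `μ³ = s̃(q³) ∈ F_{3N}(q³)` -/
theorem bsn_mu_cube_mem_map (h3 : IsUnit (3 : K))
    (hdeg : 4 ≤ relfinrank K⟮jqModC K⟯ (modularFunctionFieldFullC K 3)) (N : ℕ) [NeZero N] :
    hsc_mu h3 ^ 3 ∈ (modularFunctionFieldFullC K (3 * N)).map (qExpandAlgHomC K 3) := by
  rw [hsc_mu_cube]
  have hs : hsc_stilde K ∈ modularFunctionFieldFullC K 3 := by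
    rw [bsn_F3_eq h3 hdeg]
    exact mem_adjoin_simple_self K _
  exact ⟨hsc_stilde K, full_degeneracyC_le K (Dvd.intro N rfl) hs, rfl⟩

end Three

/-! ### the bridging lemma `F_{3N}(q³) · K(μ) = F_{9N}` -/

section Bridge

variable {K : Type*} [Field K]

/-- **Bridging lemma, hypothesis form** (any field, `3` invertible). -/
theorem bsn_sup_eq (h3 : IsUnit (3 : K)) (N : ℕ) [NeZero N]
    (hdeg3 : 4 ≤ relfinrank K⟮jqModC K⟯ (modularFunctionFieldFullC K 3))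
    (hdeg9 : 12 ≤ relfinrank K⟮jqModC K⟯ (modularFunctionFieldFullC K 9))
    (hdegN : relfinrank ((modularFunctionFieldFullC K (3 * N)).map (qExpandAlgHomC K 3))
      (modularFunctionFieldFullC K (9 * N)) ≤ 3)
    (hne : relfinrank K⟮jqModC K⟯ (modularFunctionFieldFullC K (9 * N)) ≠ 0) :
    (modularFunctionFieldFullC K (3 * N)).map (qExpandAlgHomC K 3) ⊔ K⟮hsc_mu h3⟯ =
      modularFunctionFieldFullC K (9 * N) := by
  set E := (modularFunctionFieldFullC K (3 * N)).map (qExpandAlgHomC K 3) with hE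
  set F := modularFunctionFieldFullC K (9 * N) with hF
  have hEF : E ≤ F := by
    have h := full_degeneracyC_map_le K (3 * N) 3
    have e : 3 * N * 3 = 9 * N := by ring
    rw [e] at h
    exact h
  have hμF : K⟮hsc_mu h3⟯ ≤ F := by
    rw [← bsn_F9_eq h3 hdeg9]
    exact full_degeneracyC_le K (Dvd.intro N rfl)
  have hle : E ⊔ K⟮hsc_mu h3⟯ ≤ F := sup_le hEF hμF
  have h3' : relfinrank E (E ⊔ K⟮hsc_mu h3⟯) = 3 :=
    bsn_relfinrank_sup_mu h3 E (bsn_map_le_cubeField _) (bsn_mu_cube_mem_map h3 hdeg3 N)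
  have hmul := relfinrank_mul_relfinrank (le_sup_left : E ≤ E ⊔ K⟮hsc_mu h3⟯) hle
  rw [h3'] at hmul
  have hj : K⟮jqModC K⟯ ≤ E ⊔ K⟮hsc_mu h3⟯ := by
    rw [adjoin_simple_le_iff]
    exact le_sup_right (a := E) (bsn_jq_mem h3)
  have hmul2 := relfinrank_mul_relfinrank hj hle
  have h0 : relfinrank (E ⊔ K⟮hsc_mu h3⟯) F ≠ 0 := by
    intro h0
    rw [h0, mul_zero] at hmul2
    exact hne hmul2.symm
  have h1 : relfinrank (E ⊔ K⟮hsc_mu h3⟯) F = 1 := by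
    have : 3 * relfinrank (E ⊔ K⟮hsc_mu h3⟯) F ≤ 3 := by rw [hmul]; exact hdegN
    omega
  exact le_antisymm hle (relfinrank_eq_one_iff.1 h1)

end Bridge

/-! ### closed instances over `ℚ` and `𝔽_ℓ` in helper28's `purb_` shapes -/

section Instances

theorem bsn_psi_three : dedekindPsi 3 = 4 := bsd_psi_prime Nat.prime_three

/-- **characteristic `0`**: `purb_LY 3 μ (3N) = F_{9N}`. -/
theorem bsn_LY_eq_Q (h3 : IsUnit (3 : ℚ)) (N : ℕ) [NeZero N] :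
    purb_LY 3 (hsc_mu h3) (3 * N) = modularFunctionFieldFull (9 * N) := by
  have hdeg3 : 4 ≤ relfinrank ℚ⟮jqModC ℚ⟯ (modularFunctionFieldFullC ℚ 3) := by
    have h := bsd_lower_Q 3
    rwa [bsn_psi_three] at h
  have hdeg9 : 12 ≤ relfinrank ℚ⟮jqModC ℚ⟯ (modularFunctionFieldFullC ℚ 9) := by
    have h := bsd_lower_Q 9
    rwa [bsn_psi_nine] at h
  have hne : relfinrank ℚ⟮jqModC ℚ⟯ (modularFunctionFieldFullC ℚ (9 * N)) ≠ 0 := by
    have h := bsd_lower_Q (9 * N)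
    have hpos := Fermat.Agent.S28x.sa_dedekindPsi_pos (9 * N) (NeZero.ne _)
    omega
  have hdegN := bsd_relfinrank_Q_three N
  rw [bsd_FNe_eq] at hdegN
  have h := bsn_sup_eq h3 N hdeg3 hdeg9 hdegN hne
  unfold purb_LY purb_KY
  rw [bsd_FNe_eq]
  exact h

/-- **characteristic `ℓ ≠ 3`** (`ℓ ∤ N`): `purb_LYb ℓ 3 μ̄ (3N) = F̃_{9N}`. -/
theorem bsn_LYb_eq (ℓ : ℕ) [Fact ℓ.Prime] (hℓ3 : ℓ ≠ 3) (h3 : IsUnit (3 : ZMod ℓ))
    (N : ℕ) [NeZero N] (hℓN : ¬ ℓ ∣ N) :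
    purb_LYb ℓ 3 (hsc_mu h3) (3 * N) = modularFunctionFieldFullC (ZMod ℓ) (9 * N) := by
  have hℓ : ℓ.Prime := Fact.out
  have hn3 : ¬ ℓ ∣ 3 := fun h => hℓ3 ((Nat.prime_dvd_prime_iff_eq hℓ Nat.prime_three).mp h)
  have hn9 : ¬ ℓ ∣ 9 := by
    intro h
    have h' : ℓ ∣ 3 * 3 := by norm_num; exact h
    exact (hℓ.dvd_mul.mp h').elim hn3 hn3
  have hn9N : ¬ ℓ ∣ 9 * N := fun h => (hℓ.dvd_mul.mp h).elim hn9 hℓN
  have hdeg3 : 4 ≤ relfinrank (ZMod ℓ)⟮jqModC (ZMod ℓ)⟯ (modularFunctionFieldFullC (ZMod ℓ) 3) := by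
    have h := bsd_lower_F ℓ 3 hn3
    rwa [bsn_psi_three] at h
  have hdeg9 : 12 ≤ relfinrank (ZMod ℓ)⟮jqModC (ZMod ℓ)⟯
      (modularFunctionFieldFullC (ZMod ℓ) 9) := by
    have h := bsd_lower_F ℓ 9 hn9
    rwa [bsn_psi_nine] at h
  have hne : relfinrank (ZMod ℓ)⟮jqModC (ZMod ℓ)⟯
      (modularFunctionFieldFullC (ZMod ℓ) (9 * N)) ≠ 0 := by
    have h := bsd_lower_F ℓ (9 * N) hn9N
    have hpos := Fermat.Agent.S28x.sa_dedekindPsi_pos (9 * N) (NeZero.ne _)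
    omega
  have hdegN := bsd_relfinrank_F_three ℓ hℓ3 N hℓN
  unfold purb_FNeb at hdegN
  have h := bsn_sup_eq h3 N hdeg3 hdeg9 hdegN hne
  unfold purb_LYb purb_KYb purb_FNeb
  exact h

end Instances

end

end Fermat.Agent.S18x
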