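/-
S18x/SepLaurent (helper81): SEPARABILITY of function fields embedded in Laurent series,
without modular polynomials.  Prefix `sepl_`.  Mathlib only.

* `sepl_isSeparable_of_pbasis` (abstract): `K ⊆ M` fields of characteristic `p`, `x ∈ K` with
  `K = K^p(x)` (every `z ∈ K` is `∑_{i<p} x^i c_i^p`) and `1, x, …, x^(p-1)` linearly independent
  over `M^p`; then every `y ∈ M` algebraic over `K` is separable over `K`.
* `sepl_pbasis_adjoin` : for `k` perfect of characteristic `p`, `K = k(t)` satisfies `K = K^p(t)`.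
* `sepl_indep_laurent` : in `k((q))`, if `p ∤ order x` then `1, x, …, x^(p-1)` are linearly
  independent over `k((q))^p`.
* `sepl_algebra_isSeparable` : `k` perfect, `E ⊆ k((q))` an intermediate field, `t ∈ E` with
  `p ∤ order t`, `E/k(t)` algebraic  ⟹  `E/k(t)` separable.
-/
import Mathlib

set_option autoImplicit false

namespace Fermat.Agent.S18x

open Polynomial IntermediateField

section Abstract

variable {K M : Type*} [Field K] [Field M] [Algebra K M]

/-- **Abstract separability criterion.**  If `K = K^p(x)` and `1, x, …, x^(p-1)` are linearly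
independent over `M^p`, then every element of `M` algebraic over `K` is separable over `K`. -/
theorem sepl_isSeparable_of_pbasis (p : ℕ) [hp : Fact p.Prime] [CharP K p] (x : K)
    (hK : ∀ z : K, ∃ c : Fin p → K, z = ∑ i : Fin p, x ^ (i : ℕ) * (c i) ^ p)
    (hM : ∀ m : Fin p → M, ∑ i : Fin p, algebraMap K M x ^ (i : ℕ) * (m i) ^ p = 0 → ∀ i, m i = 0)
    {y : M} (hy : IsAlgebraic K y) : IsSeparable K y := by
  classical
  have : CharP M p := charP_of_injective_algebraMap (algebraMap K M).injective p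
  have hirr : Irreducible (minpoly K y) := minpoly.irreducible hy.isIntegral
  rcases separable_or p hirr with h | ⟨-, g, hg, hgf⟩
  · exact h
  exfalso
  -- choose the `p`-basis representation of every coefficient of `g`
  choose c hc using fun j : ℕ => hK (g.coeff j)
  -- the polynomials `h_i`
  set h : Fin p → K[X] := fun i => ∑ j ∈ Finset.range (g.natDegree + 1), C (c j i) * X ^ j with hh
  have hgdeg : g.natDegree ≠ 0 := by
    intro h0
    have h1 : (minpoly K y).natDegree = 0 := by
      rw [← hgf, natDegree_expand, h0, zero_mul]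
    exact (minpoly.natDegree_pos hy.isIntegral).ne' h1
  have hfdeg : (minpoly K y).natDegree = g.natDegree * p := by
    rw [← hgf, natDegree_expand]
  -- the key identity
  have hkey : ∑ i : Fin p, algebraMap K M x ^ (i : ℕ) * (aeval y (h i)) ^ p = 0 := by
    have h0 : aeval y (minpoly K y) = 0 := minpoly.aeval K y
    rw [← hgf, expand_aeval, aeval_eq_sum_range] at h0
    rw [← h0]
    have h1 : ∀ i : Fin p, (aeval y (h i)) ^ p =
        ∑ j ∈ Finset.range (g.natDegree + 1), algebraMap K M (c j i) ^ p * (y ^ p) ^ j := by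
      intro i
      rw [hh]
      simp only [map_sum, map_mul, aeval_C, map_pow, aeval_X]
      rw [sum_pow_char]
      refine Finset.sum_congr rfl fun j _ => ?_
      rw [mul_pow, ← pow_mul, ← pow_mul, mul_comm j p]
    simp only [h1, Finset.mul_sum]
    rw [Finset.sum_comm]
    refine Finset.sum_congr rfl fun j _ => ?_
    rw [Algebra.smul_def]
    conv_rhs => rw [hc j]
    rw [map_sum, Finset.sum_mul]
    refine Finset.sum_congr rfl fun i _ => ?_
    rw [map_mul, map_pow, map_pow]
    ring
  have hzero := hM (fun i => aeval y (h i)) hkey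
  -- each `h i` has degree `< deg minpoly`, hence vanishes
  have hhzero : ∀ i, h i = 0 := by
    intro i
    by_contra hne
    have h1 := minpoly.degree_le_of_ne_zero K y hne (hzero i)
    have h2 : (h i).degree ≤ (g.natDegree : WithBot ℕ) := by
      rw [hh]
      refine (degree_sum_le _ _).trans (Finset.sup_le fun j hj => ?_)
      refine (degree_C_mul_X_pow_le j _).trans ?_
      exact_mod_cast Nat.lt_succ_iff.mp (Finset.mem_range.mp hj)
    have h3 : (minpoly K y).degree = ((g.natDegree * p : ℕ) : WithBot ℕ) := by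
      rw [degree_eq_natDegree hirr.ne_zero, hfdeg]
    rw [h3] at h1
    have h4 : ((g.natDegree * p : ℕ) : WithBot ℕ) ≤ (g.natDegree : WithBot ℕ) := h1.trans h2
    have h5 : g.natDegree * p ≤ g.natDegree := by exact_mod_cast h4
    have h6 : g.natDegree * 2 ≤ g.natDegree * p := Nat.mul_le_mul_left _ hp.out.two_le
    omega
  -- so all coefficients of `g` vanish
  have hcz : ∀ j ≤ g.natDegree, ∀ i, c j i = 0 := by
    intro j hj i
    have h1 := congrArg (fun q => q.coeff j) (hhzero i)
    simp only [hh, finsetSum_coeff, coeff_C_mul, coeff_X_pow, coeff_zero] at h1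
    rw [Finset.sum_eq_single j] at h1
    · simpa using h1
    · intro b _ hb
      rw [if_neg (Ne.symm hb), mul_zero]
    · intro hj'
      exact absurd (Finset.mem_range.mpr (Nat.lt_succ_iff.mpr hj)) hj'
  apply hg.ne_zero
  ext j
  rw [coeff_zero]
  by_cases hj : j ≤ g.natDegree
  · rw [hc j]
    refine Finset.sum_eq_zero fun i _ => ?_
    rw [hcz j hj i, zero_pow hp.out.ne_zero, mul_zero]
  · exact coeff_eq_zero_of_natDegree_lt (not_le.mp hj)

end Abstract

section PBasis

variable {k F : Type*} [Field k] [Field F] [Algebra k F]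

/-- `z = ∑_{i<p} t^i c_i^p` with all `c_i ∈ k(t)`. -/
def sepl_Rep (k : Type*) {F : Type*} [Field k] [Field F] [Algebra k F] (p : ℕ) (t z : F) : Prop :=
  ∃ c : Fin p → F, (∀ i, c i ∈ k⟮t⟯) ∧ z = ∑ i : Fin p, t ^ (i : ℕ) * (c i) ^ p

theorem sepl_rep_zero (p : ℕ) (t : F) : sepl_Rep k p t 0 :=
  ⟨fun _ => 0, fun _ => zero_mem _, by
    rcases Nat.eq_zero_or_pos p with rfl | hp
    · simp
    · simp [zero_pow hp.ne']⟩

theorem sepl_rep_add (p : ℕ) [hp : Fact p.Prime] [CharP F p] (t : F) {z w : F}
    (hz : sepl_Rep k p t z) (hw : sepl_Rep k p t w) : sepl_Rep k p t (z + w) := by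
  obtain ⟨c, hc, rfl⟩ := hz
  obtain ⟨d, hd, rfl⟩ := hw
  refine ⟨fun i => c i + d i, fun i => add_mem (hc i) (hd i), ?_⟩
  rw [← Finset.sum_add_distrib]
  refine Finset.sum_congr rfl fun i _ => ?_
  rw [add_pow_char, mul_add]

theorem sepl_rep_sum (p : ℕ) [hp : Fact p.Prime] [CharP F p] (t : F) {ι : Type*} (s : Finset ι)
    (f : ι → F) (hf : ∀ i ∈ s, sepl_Rep k p t (f i)) : sepl_Rep k p t (∑ i ∈ s, f i) := by
  classical
  induction s using Finset.induction_on with
  | empty => simpa using sepl_rep_zero (k := k) p t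
  | insert a s ha ih =>
    rw [Finset.sum_insert ha]
    exact sepl_rep_add p t (hf a (Finset.mem_insert_self a s))
      (ih fun i hi => hf i (Finset.mem_insert_of_mem hi))

theorem sepl_rep_monomial (p : ℕ) [hp : Fact p.Prime] (t : F) (n : ℕ) {d : F} (hd : d ∈ k⟮t⟯) :
    sepl_Rep k p t (t ^ n * d ^ p) := by
  classical
  have hp0 : 0 < p := hp.out.pos
  have ht : t ∈ k⟮t⟯ := mem_adjoin_simple_self k t
  refine ⟨fun i => if (i : ℕ) = n % p then t ^ (n / p) * d else 0, fun i => ?_, ?_⟩
  · show (if (i : ℕ) = n % p then t ^ (n / p) * d else 0) ∈ k⟮t⟯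
    split_ifs
    · exact mul_mem (pow_mem ht _) hd
    · exact zero_mem _
  · rw [Finset.sum_eq_single (⟨n % p, Nat.mod_lt n hp0⟩ : Fin p)]
    · show _ = t ^ (n % p) * (if n % p = n % p then t ^ (n / p) * d else 0) ^ p
      rw [if_pos rfl, mul_pow, ← pow_mul, ← mul_assoc, ← pow_add, mul_comm (n / p) p, Nat.mod_add_div]
    · intro b _ hb
      have : (b : ℕ) ≠ n % p := fun h => hb (Fin.ext h)
      show t ^ (b : ℕ) * (if (b : ℕ) = n % p then t ^ (n / p) * d else 0) ^ p = 0
      rw [if_neg this, zero_pow hp0.ne', mul_zero]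
    · intro h
      exact absurd (Finset.mem_univ _) h

theorem sepl_rep_mul (p : ℕ) [hp : Fact p.Prime] [CharP F p] (t : F) {z w : F}
    (hz : sepl_Rep k p t z) (hw : sepl_Rep k p t w) : sepl_Rep k p t (z * w) := by
  obtain ⟨c, hc, rfl⟩ := hz
  obtain ⟨d, hd, rfl⟩ := hw
  rw [Finset.sum_mul_sum]
  refine sepl_rep_sum p t _ _ fun i _ => sepl_rep_sum p t _ _ fun j _ => ?_
  have : t ^ (i : ℕ) * c i ^ p * (t ^ (j : ℕ) * d j ^ p) = t ^ ((i : ℕ) + j) * (c i * d j) ^ p := by
    rw [pow_add, mul_pow]; ring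
  rw [this]
  exact sepl_rep_monomial p t _ (mul_mem (hc i) (hd j))

theorem sepl_rep_one (p : ℕ) [hp : Fact p.Prime] (t : F) : sepl_Rep k p t 1 := by
  have := sepl_rep_monomial (k := k) p t 0 (one_mem (k⟮t⟯))
  simpa using this

theorem sepl_rep_pow (p : ℕ) [hp : Fact p.Prime] [CharP F p] (t : F) {z : F}
    (hz : sepl_Rep k p t z) (n : ℕ) : sepl_Rep k p t (z ^ n) := by
  induction n with
  | zero => simpa using sepl_rep_one (k := k) p t
  | succ n ih => rw [pow_succ]; exact sepl_rep_mul p t ih hz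

theorem sepl_rep_mul_pow (p : ℕ) (t : F) {w d : F}
    (hw : sepl_Rep k p t w) (hd : d ∈ k⟮t⟯) : sepl_Rep k p t (w * d ^ p) := by
  obtain ⟨c, hc, rfl⟩ := hw
  refine ⟨fun i => c i * d, fun i => mul_mem (hc i) hd, ?_⟩
  rw [Finset.sum_mul]
  refine Finset.sum_congr rfl fun i _ => ?_
  rw [mul_pow, mul_assoc]

theorem sepl_rep_mem (p : ℕ) (t : F) {z : F} (hz : sepl_Rep k p t z) : z ∈ k⟮t⟯ := by
  obtain ⟨c, hc, rfl⟩ := hz
  exact sum_mem fun i _ => mul_mem (pow_mem (mem_adjoin_simple_self k t) _) (pow_mem (hc i) _)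

theorem sepl_rep_inv (p : ℕ) [hp : Fact p.Prime] [CharP F p] (t : F) {z : F}
    (hz : sepl_Rep k p t z) : sepl_Rep k p t z⁻¹ := by
  rcases eq_or_ne z 0 with rfl | h0
  · rw [inv_zero]; exact sepl_rep_zero p t
  have h1 : z⁻¹ = z ^ (p - 1) * (z⁻¹) ^ p := by
    have hp1 : p - 1 + 1 = p := Nat.sub_add_cancel hp.out.pos
    rw [inv_pow]
    field_simp
    rw [← pow_succ', hp1]
  rw [h1]
  exact sepl_rep_mul_pow p t (sepl_rep_pow p t hz _) (inv_mem (sepl_rep_mem p t hz))

/-- For `k` perfect of characteristic `p`: every element of `k(t)` is `∑_{i<p} t^i c_i^p` with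
`c_i ∈ k(t)`. -/
theorem sepl_rep_of_mem [PerfectField k] (p : ℕ) [hp : Fact p.Prime] [CharP k p] [CharP F p]
    (t : F) {z : F} (hz : z ∈ k⟮t⟯) : sepl_Rep k p t z := by
  induction hz using IntermediateField.adjoin_induction with
  | mem x hx =>
    rw [Set.mem_singleton_iff] at hx
    subst hx
    have := sepl_rep_monomial (k := k) p x 1 (one_mem (k⟮x⟯))
    simpa using this
  | algebraMap a =>
    have : PerfectRing k p := PerfectField.toPerfectRing p
    obtain ⟨b, hb⟩ := surjective_frobenius k p a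
    rw [frobenius_def] at hb
    have := sepl_rep_monomial (k := k) p t 0 (IntermediateField.algebraMap_mem (k⟮t⟯) b)
    rw [pow_zero, one_mul, ← map_pow, hb] at this
    exact this
  | add x y _ _ hx hy => exact sepl_rep_add p t hx hy
  | inv x _ hx => exact sepl_rep_inv p t hx
  | mul x y _ _ hx hy => exact sepl_rep_mul p t hx hy

/-- Subtype form: `K = k(t)` satisfies `K = K^p(t)`. -/
theorem sepl_pbasis_adjoin [PerfectField k] (p : ℕ) [hp : Fact p.Prime] [CharP k p] [CharP F p]
    (t : F) (z : k⟮t⟯) :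
    ∃ c : Fin p → k⟮t⟯, z = ∑ i : Fin p, (AdjoinSimple.gen k t) ^ (i : ℕ) * (c i) ^ p := by
  obtain ⟨c, hc, hz⟩ := sepl_rep_of_mem (k := k) p t z.2
  refine ⟨fun i => ⟨c i, hc i⟩, ?_⟩
  apply Subtype.ext
  rw [hz]
  simp [AdjoinSimple.coe_gen]

end PBasis

section Laurent

variable {k : Type*} [Field k]

/-- A finite family of Laurent series whose nonzero members have pairwise distinct orders and
which sums to zero vanishes identically. -/
theorem sepl_eq_zero_of_sum_eq_zero {ι : Type*} (s : Finset ι) (a : ι → HahnSeries ℤ k)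
    (hdist : ∀ i ∈ s, ∀ j ∈ s, i ≠ j → a i ≠ 0 → a j ≠ 0 → (a i).order ≠ (a j).order)
    (hsum : ∑ i ∈ s, a i = 0) : ∀ i ∈ s, a i = 0 := by
  classical
  by_contra hne
  push Not at hne
  obtain ⟨i1, hi1, hi1ne⟩ := hne
  have hS : (s.filter (fun i => a i ≠ 0)).Nonempty := ⟨i1, Finset.mem_filter.mpr ⟨hi1, hi1ne⟩⟩
  obtain ⟨i0, hi0, hmin⟩ := Finset.exists_min_image _ (fun i => (a i).order) hS
  have hi0s := (Finset.mem_filter.mp hi0).1
  have hi0ne := (Finset.mem_filter.mp hi0).2
  have hcoeff : (∑ i ∈ s, a i).coeff (a i0).order = (a i0).coeff (a i0).order := by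
    rw [HahnSeries.coeff_sum]
    refine Finset.sum_eq_single i0 (fun b hb hbne => ?_) (fun h => absurd hi0s h)
    by_cases hb0 : a b = 0
    · rw [hb0, HahnSeries.coeff_zero]
    · have h1 : (a i0).order ≤ (a b).order := hmin b (Finset.mem_filter.mpr ⟨hb, hb0⟩)
      have h2 : (a i0).order ≠ (a b).order := hdist i0 hi0s b hb (Ne.symm hbne) hi0ne hb0
      exact HahnSeries.coeff_eq_zero_of_lt_order (lt_of_le_of_ne h1 h2)
  rw [hsum, HahnSeries.coeff_zero] at hcoeff
  exact hi0ne (HahnSeries.coeff_order_eq_zero.mp hcoeff.symm)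

/-- In `k((q))`: if `p ∤ order x` then `1, x, …, x^(p-1)` are linearly independent over the
`p`-th powers. -/
theorem sepl_indep_laurent (p : ℕ) [hp : Fact p.Prime] (x : HahnSeries ℤ k)
    (hx : ¬ (p : ℤ) ∣ x.order) (m : Fin p → HahnSeries ℤ k)
    (hsum : ∑ i : Fin p, x ^ (i : ℕ) * (m i) ^ p = 0) : ∀ i, m i = 0 := by
  have hx0 : x ≠ 0 := by
    rintro rfl
    exact hx (by rw [HahnSeries.order_zero]; exact dvd_zero _)
  have hord : ∀ i : Fin p, m i ≠ 0 →
      (x ^ (i : ℕ) * (m i) ^ p).order = (i : ℕ) * x.order + p * (m i).order := by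
    intro i hi
    rw [HahnSeries.order_mul (pow_ne_zero _ hx0) (pow_ne_zero _ hi), HahnSeries.order_pow,
      HahnSeries.order_pow, nsmul_eq_mul, nsmul_eq_mul]
  have hne : ∀ i : Fin p, x ^ (i : ℕ) * (m i) ^ p ≠ 0 → m i ≠ 0 := by
    intro i h h0
    rw [h0, zero_pow hp.out.ne_zero, mul_zero] at h
    exact h rfl
  have key := sepl_eq_zero_of_sum_eq_zero Finset.univ (fun i : Fin p => x ^ (i : ℕ) * (m i) ^ p)
    (by
      intro i _ j _ hij hi hj heq
      rw [hord i (hne i hi), hord j (hne j hj)] at heq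
      have h1 : (p : ℤ) ∣ ((i : ℕ) - (j : ℕ) : ℤ) * x.order := by
        refine ⟨(m j).order - (m i).order, ?_⟩
        linear_combination heq
      have hpp : Prime (p : ℤ) := Nat.prime_iff_prime_int.mp hp.out
      rcases hpp.dvd_or_dvd h1 with h2 | h2
      · have hi' : ((i : ℕ) : ℤ) < p := by exact_mod_cast i.2
        have hj' : ((j : ℕ) : ℤ) < p := by exact_mod_cast j.2
        have hi0 : (0 : ℤ) ≤ ((i : ℕ) : ℤ) := Int.natCast_nonneg _
        have hj0 : (0 : ℤ) ≤ ((j : ℕ) : ℤ) := Int.natCast_nonneg _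
        obtain ⟨c, hc⟩ := h2
        have hc0 : c = 0 := by
          have hp0 : (0 : ℤ) < p := by exact_mod_cast hp.out.pos
          by_contra hcne
          rcases lt_or_gt_of_ne hcne with hlt | hgt
          · have : (p : ℤ) * c ≤ p * (-1) := mul_le_mul_of_nonneg_left (by omega) hp0.le
            omega
          · have : (p : ℤ) * 1 ≤ p * c := mul_le_mul_of_nonneg_left (by omega) hp0.le
            omega
        rw [hc0, mul_zero] at hc
        apply hij
        apply Fin.ext
        have : ((i : ℕ) : ℤ) = (j : ℕ) := by omega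
        exact_mod_cast this
      · exact hx h2)
    hsum
  intro i
  by_contra hi
  have := key i (Finset.mem_univ _)
  exact mul_ne_zero (pow_ne_zero _ hx0) (pow_ne_zero _ hi) this

end Laurent

section Main

set_option synthInstance.maxHeartbeats 400000

variable {k : Type*} [Field k] [PerfectField k]

/-- **Separability inside Laurent series** (element form).  `k` perfect of characteristic `p`,
`E ⊆ k((q))` an intermediate field, `t ∈ E` with `p ∤ order t`: every `y ∈ E` algebraic over
`k(t)` is separable over `k(t)`. -/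
theorem sepl_isSeparable_laurent (p : ℕ) [hp : Fact p.Prime] [CharP k p]
    (E : IntermediateField k (LaurentSeries k)) (t : E)
    (ht : ¬ (p : ℤ) ∣ (t : LaurentSeries k).order) {y : E} (hy : IsAlgebraic k⟮t⟯ y) :
    IsSeparable k⟮t⟯ y := by
  have hcE : CharP E p := charP_of_injective_algebraMap (algebraMap k E).injective p
  have hcK : CharP k⟮t⟯ p := RingHom.charP (algebraMap k⟮t⟯ E) (algebraMap k⟮t⟯ E).injective p
  have hinj : Function.Injective (algebraMap E (LaurentSeries k)) :=
    (algebraMap E (LaurentSeries k)).injective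
  have hy' : IsAlgebraic k⟮t⟯ (algebraMap E (LaurentSeries k) y) := hy.algebraMap
  have h := sepl_isSeparable_of_pbasis (K := k⟮t⟯) (M := LaurentSeries k) p (AdjoinSimple.gen k t)
    (sepl_pbasis_adjoin p t)
    (fun m hm => sepl_indep_laurent p (t : LaurentSeries k) ht m hm) hy'
  unfold IsSeparable at h ⊢
  rwa [minpoly.algebraMap_eq hinj] at h

/-- **Separability inside Laurent series** (field form): exactly the `sep` field of
`pls_IsSepCoordinate` / `cp15_IsSepCoordinate`. -/
theorem sepl_algebra_isSeparable (p : ℕ) [hp : Fact p.Prime] [CharP k p]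
    (E : IntermediateField k (LaurentSeries k)) (t : E)
    (ht : ¬ (p : ℤ) ∣ (t : LaurentSeries k).order) [Algebra.IsAlgebraic k⟮t⟯ E] :
    Algebra.IsSeparable k⟮t⟯ E :=
  ⟨fun y => sepl_isSeparable_laurent p E t ht (Algebra.IsAlgebraic.isAlgebraic y)⟩

/-- Characteristic-free packaging: `k` perfect, `E/k(t)` algebraic, and the order of `t` is
`-1` (e.g. `t = j`); then `E/k(t)` is separable. -/
theorem sepl_algebra_isSeparable_of_order_neg_one
    (E : IntermediateField k (LaurentSeries k)) (t : E)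
    (ht : (t : LaurentSeries k).order = -1) [Algebra.IsAlgebraic k⟮t⟯ E] :
    Algebra.IsSeparable k⟮t⟯ E := by
  obtain ⟨p, hcp⟩ := CharP.exists k
  rcases CharP.char_is_prime_or_zero k p with hp | rfl
  · have : Fact p.Prime := ⟨hp⟩
    refine sepl_algebra_isSeparable p E t ?_
    rw [ht]
    intro hdvd
    have h1 : (p : ℤ) ∣ 1 := by simpa using (dvd_neg.mpr hdvd)
    have h2 : p ∣ 1 := by exact_mod_cast h1
    exact hp.one_lt.ne' (Nat.dvd_one.mp h2)
  · have : CharZero k := CharP.charP_to_charZero k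
    have hE0 : CharZero E := charZero_of_injective_algebraMap (algebraMap k E).injective
    have : CharZero k⟮t⟯ := ⟨fun a b hab => hE0.cast_injective (by simpa using congrArg (algebraMap k⟮t⟯ E) hab)⟩
    exact Algebra.IsSeparable.of_integral k⟮t⟯ E

end Main

end Fermat.Agent.S18x
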