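/-
S18 project, NRM block, row N1f (helper68), prefix `purs_`.

SEPARABILITY OF THE RESIDUE EXTENSION `F̄_Y / 𝔽_ℓ(h̄)` (hypothesis `[Algebra.IsSeparable Fb Fb']` of
`lyd_hV` / `puri_HV_of_redPair`), for helper28's `purb_KYb`, `purb_LYb` with his algebra instance:
the coordinate `h̄` (`X̄₃`, resp. the Hesse parameter `μ̄`) has `q`-order `-1`, prime to `ℓ`, so
helper81's `sepl_algebra_isSeparable_of_order_neg_one` applies; here only the transfer between
the two descriptions of the base field (`k(h̄)` inside `k((q))` versus inside `F̄_Y`).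
-/
import Mathlib
import Fermat.Agent.S18x.SepLaurent
import Fermat.Agent.S18x.PuriFinite
import Fermat.Agent.S18x.BaseIdentNineCor
import Fermat.Agent.S18x.NrmNonCoprimeMain

set_option autoImplicit false
set_option linter.style.haveILetI false
set_option synthInstance.maxHeartbeats 400000

noncomputable section

namespace Fermat.Agent.S18x

open ModularCurve IntermediateField Fermat.Agent.S28x

/-! ## generic -/

section Generic

variable {k : Type*} [Field k] [PerfectField k]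

/-- `k` perfect, `A = k(t) ≤ L ≤ k((q))`, `ord_q t = -1`, `L/A` algebraic (for any "inclusion"
algebra structure): `L/A` is separable. -/
theorem purs_isSeparable (A L : IntermediateField k (LaurentSeries k)) (t : LaurentSeries k)
    (hA : A = k⟮t⟯) (hAL : A ≤ L) [Algebra A L]
    (hcoe : ∀ a : A, ((algebraMap A L a : L) : LaurentSeries k) = a)
    [Algebra.IsAlgebraic A L] (ht : t.order = -1) : Algebra.IsSeparable A L := by
  subst hA
  have htL : t ∈ L := hAL (mem_adjoin_simple_self k t)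
  set t' : L := ⟨t, htL⟩ with ht'
  have h1 : (k⟮t'⟯).map L.val = k⟮t⟯ := by
    rw [adjoin_map, Set.image_singleton]
    rfl
  let e₁ : k⟮t'⟯ ≃+* k⟮t⟯ :=
    (((k⟮t'⟯).equivMap L.val).trans (equivOfEq h1)).toRingEquiv
  have he₁ : ∀ x : k⟮t'⟯, ((e₁ x : k⟮t⟯) : LaurentSeries k) = ((x : L) : LaurentSeries k) := by
    intro x
    show ((equivOfEq h1 ((k⟮t'⟯).equivMap L.val x) : k⟮t⟯) : LaurentSeries k) = _
    rw [equivOfEq_apply]
    rfl
  have he : RingHom.comp (algebraMap k⟮t⟯ L) (e₁ : k⟮t'⟯ →+* k⟮t⟯)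
      = RingHom.comp ((RingEquiv.refl L : L ≃+* L) : L →+* L) (algebraMap k⟮t'⟯ L) := by
    refine RingHom.ext fun x => Subtype.ext ?_
    show ((algebraMap k⟮t⟯ L (e₁ x) : L) : LaurentSeries k) = _
    rw [hcoe, he₁]
    rfl
  haveI : Algebra.IsAlgebraic k⟮t'⟯ L :=
    (Algebra.isAlgebraic_ringHom_iff_of_comp_eq e₁ (RingEquiv.refl L) he).mp inferInstance
  haveI : Algebra.IsSeparable k⟮t'⟯ L :=
    sepl_algebra_isSeparable_of_order_neg_one L t' ht
  exact Algebra.IsSeparable.of_equiv_equiv e₁ (RingEquiv.refl L) he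

end Generic

/-! ## helper28's `purb_KYb`, `purb_LYb` -/

section CharL

variable (ℓ e : ℕ) [Fact ℓ.Prime] [NeZero e] (hb : LaurentSeries (ZMod ℓ)) (N : ℕ) [NeZero N]

/-- **`F̄_Y / K̄_Y` is separable** when `j̄(q^e) ∈ 𝔽_ℓ(h̄)` and `ord_q h̄ = -1`. -/
theorem purs_isSeparable_b
    (hJ : qExpand (ZMod ℓ) e (jqModC (ZMod ℓ)) ∈ purb_KYb ℓ hb) (hord : hb.order = -1) :
    Algebra.IsSeparable ↥(purb_KYb ℓ hb) ↥(purb_LYb ℓ e hb N) := by
  haveI := purf_finiteDimensional_b ℓ e hb N hJ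
  haveI : Algebra.IsAlgebraic ↥(purb_KYb ℓ hb) ↥(purb_LYb ℓ e hb N) :=
    Algebra.IsAlgebraic.of_finite _ _
  exact purs_isSeparable (purb_KYb ℓ hb) (purb_LYb ℓ e hb N) hb rfl (purb_KYb_le_LYb ℓ e hb N)
    (fun a => purb_algebraMap_KYb_LYb_coe ℓ e hb N a) hord

end CharL

/-! ## the coordinates `X₃` and `μ` -/

section Coordinates

/-- `ord_q X₃ = -1` over any field with `2` a unit. -/
theorem purs_order_X3 {K : Type*} [Field K] (h2 : IsUnit (2 : K)) : (purb_X3 h2).order = -1 := by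
  have hne : purb_X3 h2 ≠ 0 := by
    intro h0
    have := nnc15_coeff_X3_neg_one K h2
    rw [h0, HahnSeries.coeff_zero] at this
    exact zero_ne_one this
  apply le_antisymm
  · apply HahnSeries.order_le_of_coeff_ne_zero
    rw [nnc15_coeff_X3_neg_one]
    exact one_ne_zero
  · by_contra hlt
    rw [not_le] at hlt
    have key : ∀ n : ℤ, n < -1 → (purb_X3 h2).coeff n = 0 := by
      intro n hn
      have h := HahnSeries.coeff_single_mul_add (r := (1 : K))
        (x := HahnSeries.ofPowerSeries ℤ K (purb_v3 h2)) (a := n + 1) (b := (-1 : ℤ))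
      rw [one_mul] at h
      have hidx : n + 1 + -1 = n := by ring
      rw [hidx] at h
      rw [purb_X3, h]
      exact ofPowerSeries_coeff_of_neg _ (by omega)
    have h0 := key _ hlt
    rw [HahnSeries.coeff_order_eq_zero] at h0
    exact hne h0

variable (N : ℕ) [NeZero N]

/-- `ℓ` odd: `F̄_Y = F̄_N(q²)·𝔽_ℓ(X̄₃)` is separable over `𝔽_ℓ(X̄₃)`. -/
theorem purs_isSeparable_X3F (ℓ : ℕ) [Fact ℓ.Prime] (h2 : IsUnit (2 : ZMod ℓ)) :
    Algebra.IsSeparable ↥(purb_KYb ℓ (purb_X3 h2)) ↥(purb_LYb ℓ 2 (purb_X3 h2) N) :=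
  purs_isSeparable_b ℓ 2 (purb_X3 h2) N (purf_j2_mem h2) (purs_order_X3 h2)

/-- `ℓ = 2` (any `ℓ ≠ 3`): `F̄_Y = F̄_N(q³)·𝔽_ℓ(μ̄)` is separable over `𝔽_ℓ(μ̄)`. -/
theorem purs_isSeparable_muF (ℓ : ℕ) [Fact ℓ.Prime] (h3 : IsUnit (3 : ZMod ℓ)) :
    Algebra.IsSeparable ↥(purb_KYb ℓ (hsc_mu h3)) ↥(purb_LYb ℓ 3 (hsc_mu h3) N) :=
  purs_isSeparable_b ℓ 3 (hsc_mu h3) N (bsn_j3_mem h3) (bsn_order_mu h3)

end Coordinates

end Fermat.Agent.S18x
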