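/-
S18x/NrmFinalOddV (helper10, block NRM, row NOdd; prefix `nrmo_`): the input `(V) = puri_HV` of
`nrmo_HY_of` is TRUE at `(ℓ, 2, X₃, X² - 64, 2N)`, `ℓ` odd, `ℓ ∤ 4N` (`nrmk_hV`,
S18x/NrmVInst.lean).  Hence `nrmo_HY_of_HH`: `hY` at level `4N` from `(H) = puri_HH` ALONE.
-/
import Fermat.Agent.S18x.NrmFinalOddKer
import Fermat.Agent.S18x.NrmVInst
import Fermat.Agent.S18x.PuriSep

set_option autoImplicit false
set_option linter.style.haveILetI false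
set_option linter.unusedSectionVars false
set_option synthInstance.maxHeartbeats 400000

namespace Fermat.Agent.S18x

open ModularCurve HahnSeries Polynomial Fermat.Agent.S24x Fermat.Agent.S28x

noncomputable section

variable (ℓ : ℕ) [Fact ℓ.Prime] (hl : ℓ ≠ 2) (N : ℕ) [NeZero N]

include hl

theorem nrmo_hord : ¬ (ℓ : ℤ) ∣ (red ℓ (lyn_X3Z ℓ hl)).order := by
  rw [lyn_red_X3Z, lyn_X3F, purs_order_X3]
  intro hdvd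
  have h1 : (ℓ : ℤ) ∣ 1 := (dvd_neg).mp hdvd
  have h2 : ℓ ∣ 1 := by exact_mod_cast h1
  exact (Fact.out : ℓ.Prime).one_lt.ne' (Nat.dvd_one.mp h2)

theorem nrmo_hjb :
    jqModC (ZMod ℓ) ∈ IntermediateField.adjoin (ZMod ℓ) {red ℓ (lyn_X3Z ℓ hl)} := by
  rw [lyn_red_X3Z, lyn_X3F]
  exact bsf4_j_mem (K := ZMod ℓ) (lyn_isUnit_two_zmod ℓ hl)

/-- **`(V)`** at `(ℓ, 2, X₃, X² - 64, 2N)`, `ℓ` odd, `ℓ ∤ 4N`. -/
theorem nrmo_hV (hℓM : ¬ ℓ ∣ 4 * N) : puri_HV ℓ 2 purb_X3Q purb_c3 (2 * N) := by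
  haveI : FiniteDimensional ↥(purb_KY purb_X3Q) ↥(purb_LY 2 purb_X3Q (2 * N)) :=
    purf_finiteDimensional_X3Q (2 * N)
  haveI : Fact (Nat.Prime 2) := ⟨Nat.prime_two⟩
  refine nrmk_hV ℓ 2 (lyn_X3Z ℓ hl) purb_c3 (2 * N) (4 * N) (lyn_toQ_X3Z ℓ hl) (bsf4_LY_eq N) hℓM
    (nrmo_jq_mem_KY ℓ hl) lyn_transcendental_X3Q nycf_c3_ne_zero
    (nycf_cval_red_X3Z_ne_zero ℓ hl) (nrmo_hord ℓ hl) (nrmo_hjb ℓ hl) ?_
  intro d _ hd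
  exact nryj_jd_mem_RY ℓ 2 purb_X3Q purb_c3 (2 * N) (4 * N) (bsf4_LY_eq N) (nryj_hje_X3 ℓ) d hd

/-- **`hY` at level `4N`, `ℓ` odd**, from `(H)` at level `Y` alone. -/
theorem nrmo_HY_of_HH (A : ValuationSubring (AlgebraicClosure ℚ)) (hA : A.LiesOverPrime ℓ)
    (hℓM : ¬ ℓ ∣ 4 * N) (hH : puri_HH ℓ 2 purb_X3Q purb_c3 (2 * N)) :
    nrmt_HY (4 * N) A ℓ hℓM hA :=
  nrmo_HY_of' ℓ hl N A hA hℓM (nrmo_hV ℓ hl N hℓM) hH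

end

end Fermat.Agent.S18x
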