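/-
S18 project, block NRM, integrator file (E) for `ℓ = 2` (helper31, prefix `nrm2_`):
the hypothesis `hY = nrmt_HY (9 N) A 2` of helper40's `NrmTopDefs`, from helper94's `nryg_main`
at `(ℓ, e, h, c, M) = (2, 3, μ, X³ - 27, 9 N)` (Hesse coordinate `μ`).
-/
import Mathlib
import Fermat.Agent.S18x.NrmYGen
import Fermat.Agent.S18x.NrmTopDefs
import Fermat.Agent.S18x.PurInst
import Fermat.Agent.S18x.PuriGauss
import Fermat.Agent.S18x.LevelYInst
import Fermat.Agent.S18x.BaseIdentNineFin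
import Fermat.Agent.S18x.ChartEqJ
import Fermat.Agent.S18x.NrmYIncl
import Fermat.Agent.S18x.NrmYJd
import Fermat.Agent.S18x.NrmYCoordFacts

set_option autoImplicit false
set_option synthInstance.maxHeartbeats 400000
set_option linter.style.haveILetI false
set_option linter.unusedSectionVars false

namespace Fermat.Agent.S18x

open ModularCurve HahnSeries Fermat.Agent.S28x Polynomial Module

noncomputable section

/-! ### generic adapter: `B₀ = purb_B0 ℓ h c`, `R = purb_RY ℓ e h c N₀`, `incl` = coercion -/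

section Generic

variable (ℓ : ℕ) [Fact ℓ.Prime] (e : ℕ) [NeZero e] (h : LaurentSeries ℚ) (c : ℤ[X])
  (N₀ : ℕ) [NeZero N₀]

variable {ℓ h}

/-- the image of `B₀` in `ℚ((q))` is `ℤ_(ℓ)[h, 1/c(h)]`. -/
theorem nrm2_B0_coe_mem (hZ : LaurentSeries (ZL ℓ)) (hh : toQ ℓ hZ = h) (b : ↥(purb_B0 ℓ h c)) :
    ((b : ↥(purb_KY h)) : LaurentSeries ℚ) ∈ Subring.closure (nry_gens hZ c) := by
  have hle : purb_B0 ℓ h c ≤ Subring.comap
      ((purb_KY h).val : ↥(purb_KY h) →+* LaurentSeries ℚ) (Subring.closure (nry_gens hZ c)) := by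
    unfold purb_B0
    rw [Subring.closure_le]
    rintro x (⟨z, rfl⟩ | hx)
    · refine Subring.subset_closure (Or.inl ⟨z, ?_⟩)
      show (HahnSeries.C (z : ℚ) : LaurentSeries ℚ) =
        ((algebraMap ℚ ↥(purb_KY h) (z : ℚ) : ↥(purb_KY h)) : LaurentSeries ℚ)
      rw [HahnSeries.C_eq_algebraMap]
      simp only [eq_ratCast, SubfieldClass.coe_ratCast]
    · rcases hx with rfl | hx
      · refine Subring.subset_closure (Or.inr (Or.inl ?_))
        show ((purb_hK h : ↥(purb_KY h)) : LaurentSeries ℚ) = toQ ℓ hZ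
        rw [hh]; rfl
      · rw [Set.mem_singleton_iff] at hx
        subst hx
        refine Subring.subset_closure (Or.inr (Or.inr ?_))
        show (((purb_cK h c)⁻¹ : ↥(purb_KY h)) : LaurentSeries ℚ) = (nry_cval c (toQ ℓ hZ))⁻¹
        rw [hh, IntermediateField.coe_inv, puri_coe_cK]
        rfl
  exact hle b.2

theorem nrm2_hB0le (hZ : LaurentSeries (ZL ℓ)) (hh : toQ ℓ hZ = h) (b : ↥(purb_B0 ℓ h c)) :
    nryp_incl ℓ e h c N₀ (algebraMap ↥(purb_B0 ℓ h c) ↥(purb_RY ℓ e h c N₀) b) ∈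
      Subring.closure (nry_gens hZ c) := by
  rw [nryp_incl_algebraMap]
  exact nrm2_B0_coe_mem c hZ hh b

theorem nrm2_hconst (z : ZL ℓ) : ∃ b : ↥(purb_B0 ℓ h c),
    nryp_incl ℓ e h c N₀ (algebraMap ↥(purb_B0 ℓ h c) ↥(purb_RY ℓ e h c N₀) b) =
      HahnSeries.C (z : ℚ) := by
  refine ⟨⟨algebraMap ℚ ↥(purb_KY h) (z : ℚ), purb_ZL_mem_B0 ℓ h c z⟩, ?_⟩
  rw [nryp_incl_algebraMap]
  show ((algebraMap ℚ ↥(purb_KY h) (z : ℚ) : ↥(purb_KY h)) : LaurentSeries ℚ) = _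
  rw [HahnSeries.C_eq_algebraMap]
  simp only [eq_ratCast, SubfieldClass.coe_ratCast]

theorem nrm2_hcoord (hZ : LaurentSeries (ZL ℓ)) (hh : toQ ℓ hZ = h) : ∃ b : ↥(purb_B0 ℓ h c),
    nryp_incl ℓ e h c N₀ (algebraMap ↥(purb_B0 ℓ h c) ↥(purb_RY ℓ e h c N₀) b) = toQ ℓ hZ := by
  refine ⟨⟨purb_hK h, purb_hK_mem_B0 ℓ h c⟩, ?_⟩
  rw [nryp_incl_algebraMap, hh]
  rfl


/-- `ρ(ℓ) = 0` on `R`. -/
theorem nrm2_rhoR_natCast
    (hW : ∀ t : ↥(purb_RY ℓ e h c N₀), nryp_incl ℓ e h c N₀ t ∈ gaussRing ℓ) :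
    nry_rhoR (nryp_incl ℓ e h c N₀) hW
      (algebraMap ↥(purb_B0 ℓ h c) ↥(purb_RY ℓ e h c N₀) (ℓ : ↥(purb_B0 ℓ h c))) = 0 := by
  rw [map_natCast, map_natCast]
  have h0 : ((ℓ : ZMod ℓ)) = 0 := ZMod.natCast_self ℓ
  rw [← map_natCast (HahnSeries.C (Γ := ℤ) (R := ZMod ℓ)), h0, map_zero]

/-- **`NRM_Y` at level `Y`, generic in `(ℓ, e, h, c, N₀, M)`**: `nryg_main` for
`B₀ = purb_B0`, `R = purb_RY`, the quotients `puri_Bq`, `puri_Rq`, with all formal inputs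
discharged.  Remaining inputs: purity (`hV`, `hH`), `R ⊆` Gauss ring + `ker = ℓR` (`hW`, `hker`),
the reduced coordinate (`htr`, `hc`), `j(q^d) ∈ R` (`hjR`), `j(q^e) ∈ B₀` (`hje`). -/
theorem nrm2_core (hZ : LaurentSeries (ZL ℓ)) (hh : toQ ℓ hZ = h)
    (htr0 : Transcendental ℚ h) (hc0 : c ≠ 0) (hlc : ¬ C (ℓ : ℤ) ∣ c)
    [FiniteDimensional ↥(purb_KY h) ↥(purb_LY e h N₀)]
    (hV : puri_HV ℓ e h c N₀) (hH : puri_HH ℓ e h c N₀)
    (hW : ∀ t : ↥(purb_RY ℓ e h c N₀),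
      ((t : ↥(purb_LY e h N₀)) : LaurentSeries ℚ) ∈ gaussRing ℓ)
    (hker : ∀ t : ↥(purb_RY ℓ e h c N₀),
      rho ℓ ⟨((t : ↥(purb_LY e h N₀)) : LaurentSeries ℚ), hW t⟩ = 0 →
        ∃ t' : ↥(purb_RY ℓ e h c N₀), t = (ℓ : ↥(purb_B0 ℓ h c)) • t')
    (htr : Transcendental (ZMod ℓ) (red ℓ hZ)) (hc : nry_cval c (red ℓ hZ) ≠ 0)
    (M : ℕ) [NeZero M] [Fact e.Prime]
    (hjR : ∀ d : ℕ, [NeZero d] → d ∣ M → ∃ t : ↥(purb_RY ℓ e h c N₀),
      ((t : ↥(purb_LY e h N₀)) : LaurentSeries ℚ) = qExpand ℚ d jq)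
    (hje : ∃ b : ↥(purb_B0 ℓ h c), ((b : ↥(purb_KY h)) : LaurentSeries ℚ) = qExpand ℚ e jq)
    {L : Type*} [Field L] [Algebra ℚ L] (A : ValuationSubring L)
    {k : Type*} [Field k] [Algebra (ZMod ℓ) k] (π : A →+* k)
    (hA : A.LiesOverPrime ℓ) (hπ : Function.Surjective π)
    (S : Subring (LaurentSeries L)) (hSA : ∀ a : A, HahnSeries.C (a : L) ∈ S)
    (hSh : coeffEmb L h ∈ S) (hSc : (nry_cval c (coeffEmb L h))⁻¹ ∈ S)
    (hSR : ∀ t : ↥(purb_RY ℓ e h c N₀),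
      coeffEmb L ((t : ↥(purb_LY e h N₀)) : LaurentSeries ℚ) ∈ S)
    {x : LaurentSeries k} (hxF : x ∈ modularFunctionFieldFullC k M)
    (hxint : IsIntegral (Algebra.adjoin k {jqModC k}) x) :
    ∃ z : LaurentSeries L, z ∈ S ∧ ∃ hz : z ∈ ga_W A π, ga_rho A π ⟨z, hz⟩ = x := by
  classical
  obtain ⟨τ, hu⟩ := puri_exists_basis_isUnit_discr ℓ e c N₀ htr0 hc0 hlc hV hH
  have hW' : ∀ t : ↥(purb_RY ℓ e h c N₀), nryp_incl ℓ e h c N₀ t ∈ gaussRing ℓ := hW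
  have hp := nrm2_rhoR_natCast e c N₀ hW'
  have hinj₀ : Function.Injective
      (puri_liftR ℓ e h c N₀ (nry_rhoR (nryp_incl ℓ e h c N₀) hW') hp) := by
    rw [injective_iff_map_eq_zero]
    intro a ha
    obtain ⟨t, rfl⟩ := puri_mkR_surjective ℓ e h c N₀ a
    rw [puri_liftR_mk] at ha
    exact (puri_mkR_eq_zero_iff ℓ e h c N₀ t).2 (hker t ha)
  subst hh
  exact nryg_main A π (nryp_incl ℓ e (toQ ℓ hZ) c N₀) hW' hA hπ
    (puri_mkB ℓ (toQ ℓ hZ) c) (puri_mkB_surjective ℓ (toQ ℓ hZ) c)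
    (puri_mkR ℓ e (toQ ℓ hZ) c N₀) (puri_mkR_surjective ℓ e (toQ ℓ hZ) c N₀)
    (puri_algebraMap_mkB ℓ e (toQ ℓ hZ) c N₀)
    (puri_liftR ℓ e (toQ ℓ hZ) c N₀ (nry_rhoR (nryp_incl ℓ e (toQ ℓ hZ) c N₀) hW') hp)
    (puri_liftR_mk ℓ e (toQ ℓ hZ) c N₀ _ hp) hinj₀ τ hu hZ c htr hc
    (nrm2_hB0le e c N₀ hZ rfl) (nrm2_hconst e c N₀) (nrm2_hcoord e c N₀ hZ rfl)
    M e hjR hje S hSA hSh hSc hSR hxF hxint

end Generic

/-! ### the subring `S` of `ℚ̄((q))`: elements of `F_M(ℚ̄)` integral over `ℚ̄[j]` -/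

section SWrap

open Fermat.Agent.S24x

variable (M : ℕ) [NeZero M]

/-- elements of `F_M(ℚ̄)` integral over `ℚ̄[j]`, as a subring of `ℚ̄((q))`. -/
def nrm2_S : Subring (LaurentSeries (AlgebraicClosure ℚ)) :=
  Subring.map ((modularFunctionFieldBar M).val :
      FBar M →+* LaurentSeries (AlgebraicClosure ℚ))
    (integralClosure (Algebra.adjoin (AlgebraicClosure ℚ) {jBar M}) (FBar M)).toSubring

theorem nrm2_mem_S_iff {z : LaurentSeries (AlgebraicClosure ℚ)} :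
    z ∈ nrm2_S M ↔ ∃ x : FBar M,
      IsIntegral (Algebra.adjoin (AlgebraicClosure ℚ) {jBar M}) x ∧
        (x : LaurentSeries (AlgebraicClosure ℚ)) = z := by
  constructor
  · rintro ⟨x, hx, rfl⟩
    exact ⟨x, hx, rfl⟩
  · rintro ⟨x, hx, rfl⟩
    exact ⟨x, hx, rfl⟩

theorem nrm2_coe_jBar :
    ((jBar M : FBar M) : LaurentSeries (AlgebraicClosure ℚ)) = jqModC (AlgebraicClosure ℚ) := by
  rw [coe_jBar, ← jqModC_rat]
  exact coeffMap_jqModC _

/-- membership in `S` from membership in `F_M(ℚ̄)` and integrality over `ℚ̄[j]` inside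
`ℚ̄((q))`. -/
theorem nrm2_mem_S {z : LaurentSeries (AlgebraicClosure ℚ)} (hz : z ∈ modularFunctionFieldBar M)
    (hint : IsIntegral (Algebra.adjoin (AlgebraicClosure ℚ) {jqModC (AlgebraicClosure ℚ)}) z) :
    z ∈ nrm2_S M := by
  rw [nrm2_mem_S_iff]
  refine ⟨⟨z, hz⟩, ?_, rfl⟩
  have hinj : Function.Injective ((modularFunctionFieldBar M).val :
      FBar M →ₐ[AlgebraicClosure ℚ] LaurentSeries (AlgebraicClosure ℚ)) := Subtype.val_injective
  refine cheq_isIntegral_of_map (modularFunctionFieldBar M).val hinj ?_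
  rw [Set.image_singleton]
  show IsIntegral (Algebra.adjoin (AlgebraicClosure ℚ)
    {((jBar M : FBar M) : LaurentSeries (AlgebraicClosure ℚ))}) z
  rw [nrm2_coe_jBar]
  exact hint

theorem nrm2_S_const (a : AlgebraicClosure ℚ) :
    (HahnSeries.C a : LaurentSeries (AlgebraicClosure ℚ)) ∈ nrm2_S M := by
  rw [nrm2_mem_S_iff]
  refine ⟨algebraMap (AlgebraicClosure ℚ) (FBar M) a,
    isIntegral_algebraMap (R := Algebra.adjoin (AlgebraicClosure ℚ) {jBar M})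
      (x := ⟨algebraMap (AlgebraicClosure ℚ) (FBar M) a, Subalgebra.algebraMap_mem _ a⟩), ?_⟩
  show algebraMap (AlgebraicClosure ℚ) (LaurentSeries (AlgebraicClosure ℚ)) a = _
  rw [nry_algebraMap_eq_C]


/-- base change of integrality over `ℚ[j]` to `ℚ̄[j]`. -/
theorem nrm2_coeffEmb_isIntegral {y : LaurentSeries ℚ}
    (hy : IsIntegral (Algebra.adjoin ℚ {jq}) y) :
    IsIntegral (Algebra.adjoin (AlgebraicClosure ℚ) {jqModC (AlgebraicClosure ℚ)})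
      (coeffEmb (AlgebraicClosure ℚ) y) := by
  have hjq : coeffEmb (AlgebraicClosure ℚ) jq = jqModC (AlgebraicClosure ℚ) := by
    rw [← jqModC_rat]
    exact coeffMap_jqModC _
  have hmem : ∀ x ∈ Algebra.adjoin ℚ ({jq} : Set (LaurentSeries ℚ)),
      coeffEmb (AlgebraicClosure ℚ) x ∈
        Algebra.adjoin (AlgebraicClosure ℚ) {jqModC (AlgebraicClosure ℚ)} := by
    intro x hx
    induction hx using Algebra.adjoin_induction with
    | mem x hx =>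
      rw [Set.mem_singleton_iff] at hx
      rw [hx, hjq]
      exact Algebra.subset_adjoin (Set.mem_singleton _)
    | algebraMap r =>
      have h1 : coeffEmb (AlgebraicClosure ℚ) (algebraMap ℚ (LaurentSeries ℚ) r) =
          algebraMap (AlgebraicClosure ℚ) (LaurentSeries (AlgebraicClosure ℚ))
            (algebraMap ℚ (AlgebraicClosure ℚ) r) := by
        rw [nry_algebraMap_eq_C, nry_algebraMap_eq_C, HahnSeries.C_apply, HahnSeries.C_apply]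
        exact coeffMap_single _ _ _
      rw [h1]
      exact Subalgebra.algebraMap_mem _ _
    | add x y _ _ hx hy => rw [map_add]; exact Subalgebra.add_mem _ hx hy
    | mul x y _ _ hx hy => rw [map_mul]; exact Subalgebra.mul_mem _ hx hy
  let φ : Algebra.adjoin ℚ ({jq} : Set (LaurentSeries ℚ)) →+*
      Algebra.adjoin (AlgebraicClosure ℚ) {jqModC (AlgebraicClosure ℚ)} :=
    ((coeffEmb (AlgebraicClosure ℚ)).comp
      (Algebra.adjoin ℚ ({jq} : Set (LaurentSeries ℚ))).val.toRingHom).codRestrict _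
      (fun x => hmem x x.2)
  exact IsIntegral.map_of_comp_eq φ (coeffEmb (AlgebraicClosure ℚ)) (by ext x; rfl) hy

/-- an element of `F_M(ℚ)` integral over `ℚ[j]` gives an element of `S`. -/
theorem nrm2_coeffEmb_mem_S {y : LaurentSeries ℚ} (hy : y ∈ modularFunctionFieldFull M)
    (hint : IsIntegral (Algebra.adjoin ℚ {jq}) y) :
    coeffEmb (AlgebraicClosure ℚ) y ∈ nrm2_S M :=
  nrm2_mem_S M (coeffEmb_mem_laurentBaseChange (AlgebraicClosure ℚ) hy)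
    (nrm2_coeffEmb_isIntegral hint)

end SWrap

/-! ### the final statement for `ℓ = 2` -/

section Two

open Fermat.Agent.S24x

variable (N : ℕ) [NeZero N]

theorem nrm2_not_dvd (hN : ¬ 2 ∣ N) : ¬ 2 ∣ 9 * N := by
  intro h
  rcases (Nat.Prime.dvd_mul Nat.prime_two).1 h with h9 | hN'
  · omega
  · exact hN hN'

/-- **`hY` at `ℓ = 2`, `M = 9 N`**, from purity `(hV)`, `(hH)`, `R ⊆` Gauss ring `(hW)`,
`ker ρ|_R = 2R` `(hker)` and the two chart facts `(hchart)`, `(hRint)`. -/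
theorem nrm2_HY_of (A : ValuationSubring (AlgebraicClosure ℚ)) (hA : A.LiesOverPrime 2)
    (h29 : ¬ 2 ∣ 9 * N)
    (hV : puri_HV 2 3 lyn_muQ lyn_c2 (3 * N)) (hH : puri_HH 2 3 lyn_muQ lyn_c2 (3 * N))
    (hW : ∀ t : ↥(lyn_R2 (3 * N)),
      ((t : ↥(lyn_L2 (3 * N))) : LaurentSeries ℚ) ∈ gaussRing 2)
    (hker : ∀ t : ↥(lyn_R2 (3 * N)),
      rho 2 ⟨((t : ↥(lyn_L2 (3 * N))) : LaurentSeries ℚ), hW t⟩ = 0 →
        ∃ t' : ↥(lyn_R2 (3 * N)), t = ((2 : ℕ) : ↥lyn_B2) • t')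
    (hchart : ∀ y : LaurentSeries ℚ,
      IsIntegral (Algebra.adjoin ℚ {lyn_muQ, (nry_cval lyn_c2 lyn_muQ)⁻¹}) y →
        IsIntegral (Algebra.adjoin ℚ {jq}) y)
    (hRint : ∀ t : ↥(lyn_R2 (3 * N)),
      IsIntegral (Algebra.adjoin ℚ {lyn_muQ, (nry_cval lyn_c2 lyn_muQ)⁻¹})
        ((t : ↥(lyn_L2 (3 * N))) : LaurentSeries ℚ)) :
    nrmt_HY (9 * N) A 2 h29 hA := by
  rw [nrmt_HY_iff]
  intro y hy
  haveI : CharP (IsLocalRing.ResidueField A) 2 := glu_charP A Nat.prime_two hA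
  letI : Algebra (ZMod 2) (IsLocalRing.ResidueField A) := ZMod.algebra _ 2
  haveI : FiniteDimensional ↥(purb_KY lyn_muQ) ↥(purb_LY 3 lyn_muQ (3 * N)) :=
    bsn_lyn_finiteDimensional N
  have hLY : purb_LY 3 lyn_muQ (3 * N) = modularFunctionFieldFull (9 * N) := bsn_lyn_L2_eq N
  -- integrality of `y` in `k((q))`
  have hyint : IsIntegral (Algebra.adjoin (IsLocalRing.ResidueField A)
      {jqModC (IsLocalRing.ResidueField A)})
      ((y : modularFunctionFieldFullC (IsLocalRing.ResidueField A) (9 * N)) :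
        LaurentSeries (IsLocalRing.ResidueField A)) := by
    have h1 := cheq_isIntegral_map
      (modularFunctionFieldFullC (IsLocalRing.ResidueField A) (9 * N)).val hy
    rw [Set.image_singleton] at h1
    exact h1
  -- membership of `μ`, `1/c(μ)` and `R` in `F_{9N}`
  have hμL : lyn_muQ ∈ purb_LY 3 lyn_muQ (3 * N) :=
    purb_KY_le_LY 3 lyn_muQ (3 * N) (purb_h_mem_KY lyn_muQ)
  have hcL : (nry_cval lyn_c2 lyn_muQ)⁻¹ ∈ purb_LY 3 lyn_muQ (3 * N) := by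
    refine inv_mem ?_
    rw [nycf_cval_c2]
    exact sub_mem (pow_mem hμL 3) (ofNat_mem _ 27)
  have hgenint : ∀ y ∈ ({lyn_muQ, (nry_cval lyn_c2 lyn_muQ)⁻¹} : Set (LaurentSeries ℚ)),
      IsIntegral (Algebra.adjoin ℚ {jq}) y := fun y hy =>
    hchart y (isIntegral_algebraMap (x := (⟨y, Algebra.subset_adjoin hy⟩ :
      Algebra.adjoin ℚ ({lyn_muQ, (nry_cval lyn_c2 lyn_muQ)⁻¹} : Set (LaurentSeries ℚ)))))
  obtain ⟨z, hzS, hzW, hzρ⟩ := nrm2_core 3 lyn_c2 (3 * N) lyn_muZ lyn_toQ_muZ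
    lyn_transcendental_muQ nycf_c2_ne_zero (nycf_c2_not_dvd 2) hV hH hW hker
    nycf_transcendental_red_muZ nycf_cval_red_muZ_ne_zero (9 * N)
    (fun d [NeZero d] hd => nryj_jd_mem_RY 2 3 lyn_muQ lyn_c2 (3 * N) (9 * N) hLY (nryj_hje_mu 2) d hd)
    (nryj_hje_mu 2) A (IsLocalRing.residue A) hA IsLocalRing.residue_surjective
    (nrm2_S (9 * N)) (fun a => nrm2_S_const (9 * N) (a : AlgebraicClosure ℚ))
    (nrm2_coeffEmb_mem_S (9 * N) (hLY ▸ hμL) (hgenint _ (by simp)))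
    (by
      rw [← nry_cval_map, ← map_inv₀]
      exact nrm2_coeffEmb_mem_S (9 * N) (hLY ▸ hcL) (hgenint _ (by simp)))
    (fun t => nrm2_coeffEmb_mem_S (9 * N) (hLY ▸ (t : ↥(lyn_L2 (3 * N))).2)
      (hchart _ (hRint t)))
    y.2 hyint
  obtain ⟨x, hxint, hxz⟩ := (nrm2_mem_S_iff (9 * N)).1 hzS
  have hxW : x ∈ nrmt_W (9 * N) A := by
    rw [nrmt_mem_W_iff, hxz]
    exact hzW
  refine ⟨⟨x, hxW⟩, hxint, ?_⟩
  apply Subtype.ext
  rw [nrmt_rho_coe, gwm_rho0_apply, ← hzρ]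
  exact ga_rho_congr A (IsLocalRing.residue A) hxz _ _

end Two

end

end Fermat.Agent.S18x
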