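/-
S18 project, block NRM, `ℓ = 2` bottom (helper86 for helper31, prefix `nrm2c_`): the chart step

  integral over `ℚ[μ, 1/(μ³ - 27)]`  ⟹  integral over `ℚ[j]`

in `ℚ((q))` (Hesse twin of the `X₃`-chart step of `NrmFinalOdd`): `cheq3_isIntegral_iff` with the
Hesse identity `μ³ (μ³ + 216)³ = j(q³) (μ³ - 27)³`, then `cheqj_isIntegral_iff ℚ 3`
(`j(q)` and `j(q³)` are integral over each other).  Both directions are provided, and the
`X₃`-twin for completeness.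
-/
import Mathlib
import Fermat.Agent.S18x.ChartEq
import Fermat.Agent.S18x.ChartEqJ
import Fermat.Agent.S18x.NrmYCoordFacts

set_option autoImplicit false

namespace Fermat.Agent.S18x

open Polynomial ModularCurve Fermat.Agent.S28x

noncomputable section

/-- `μ³ - 27 ≠ 0` in `ℚ((q))`. -/
theorem nrm2c_muQ_cube_sub_ne_zero : lyn_muQ ^ 3 - 27 ≠ 0 := by
  rw [← nycf_cval_c2]
  exact nycf_cval_muQ_ne_zero

/-- the Hesse chart equals the `j(q³)`-chart, integrally. -/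
theorem nrm2c_isIntegral_iff_j3 (y : LaurentSeries ℚ) :
    IsIntegral (Algebra.adjoin ℚ {lyn_muQ, (nry_cval lyn_c2 lyn_muQ)⁻¹}) y ↔
      IsIntegral (Algebra.adjoin ℚ {qExpand ℚ 3 jq}) y := by
  have hw : (nry_cval lyn_c2 lyn_muQ)⁻¹ * (lyn_muQ ^ 3 - 27) = 1 := by
    rw [nycf_cval_c2]
    exact inv_mul_cancel₀ nrm2c_muQ_cube_sub_ne_zero
  exact cheq3_isIntegral_iff (R0 := ℚ) lyn_isUnit_three_rat hw lyn_muQ_identity y

/-- the Hesse chart equals the `j`-chart, integrally. -/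
theorem nrm2c_isIntegral_iff (y : LaurentSeries ℚ) :
    IsIntegral (Algebra.adjoin ℚ {lyn_muQ, (nry_cval lyn_c2 lyn_muQ)⁻¹}) y ↔
      IsIntegral (Algebra.adjoin ℚ {jq}) y := by
  rw [nrm2c_isIntegral_iff_j3]
  have h := cheqj_isIntegral_iff ℚ 3 y
  rw [jqModC_rat] at h
  exact h

/-- **the `ℓ = 2` chart step**: integral over `ℚ[μ, 1/(μ³-27)]` ⟹ integral over `ℚ[j]`. -/
theorem nrm2c_isIntegral_jq {y : LaurentSeries ℚ}
    (hy : IsIntegral (Algebra.adjoin ℚ {lyn_muQ, (nry_cval lyn_c2 lyn_muQ)⁻¹}) y) :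
    IsIntegral (Algebra.adjoin ℚ {jq}) y :=
  (nrm2c_isIntegral_iff y).1 hy

/-- the converse. -/
theorem nrm2c_isIntegral_of_jq {y : LaurentSeries ℚ}
    (hy : IsIntegral (Algebra.adjoin ℚ {jq}) y) :
    IsIntegral (Algebra.adjoin ℚ {lyn_muQ, (nry_cval lyn_c2 lyn_muQ)⁻¹}) y :=
  (nrm2c_isIntegral_iff y).2 hy

/-! ### the `X₃`-twin (`ℓ` odd) -/

/-- `X₃² - 64 ≠ 0` in `ℚ((q))`. -/
theorem nrm2c_X3Q_sq_sub_ne_zero : purb_X3Q ^ 2 - 64 ≠ 0 := by
  rw [← nycf_cval_c3]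
  exact nycf_cval_X3Q_ne_zero

/-- the Legendre chart equals the `j`-chart, integrally. -/
theorem nrm2c_isIntegral_iff_X3 (y : LaurentSeries ℚ) :
    IsIntegral (Algebra.adjoin ℚ {purb_X3Q, (nry_cval purb_c3 purb_X3Q)⁻¹}) y ↔
      IsIntegral (Algebra.adjoin ℚ {jq}) y := by
  have hw : (nry_cval purb_c3 purb_X3Q)⁻¹ * (purb_X3Q ^ 2 - 64) = 1 := by
    rw [nycf_cval_c3]
    exact inv_mul_cancel₀ nrm2c_X3Q_sq_sub_ne_zero
  have h1 := cheq_isIntegral_iff (R0 := ℚ) purb_isUnit_two_rat hw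
    (purb_X3_identity purb_isUnit_two_rat) y
  rw [h1]
  have h := cheqj_isIntegral_iff ℚ 2 y
  rw [jqModC_rat] at h
  exact h

end

end Fermat.Agent.S18x
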