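/-
S18 project, block NRM, leaf for the bottom integrators (helper31 `NrmFinalTwo`, helper10 `NrmFinalOdd`);
helper64, prefix `nryi64_`.  GENERIC in `(ℓ, e, h, c, N0)`.

* `nryi64_coe_cK` : the Laurent series of `c(h) ∈ ℚ(h)` is `nry_cval c h`;
* `nryi64_B0_mem_adjoin` : the image of `B₀ = ℤ_(ℓ)[h, 1/c(h)]` in `ℚ((q))` lies in `ℚ[h, 1/c(h)]`;
* `nryi64_isIntegral_RY` : every element of `R_Y` (integral closure of `B₀` in `F_Y`) is, as a Laurent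
  series, integral over `ℚ[h, 1/c(h)] = Algebra.adjoin ℚ {h, (nry_cval c h)⁻¹}`;
* `nryi64_h_mem_LY`, `nryi64_cval_inv_mem_LY`, `nryi64_cval_mem_LY` : `h`, `c(h)⁻¹`, `c(h) ∈ F_Y`;
* `nryi64_h_mem_RY`, `nryi64_cval_inv_mem_RY` : they even lie in `R_Y`.
-/
import Mathlib
import Fermat.Agent.S18x.LevelYDefs
import Fermat.Agent.S18x.NrmYDefs

set_option autoImplicit false

noncomputable section

namespace Fermat.Agent.S18x

open Polynomial ModularCurve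

variable (ℓ e : ℕ) [NeZero e] (h : LaurentSeries ℚ) (c : ℤ[X]) (N0 : ℕ) [NeZero N0]

/-- the Laurent series of `c(h) ∈ ℚ(h)` is `nry_cval c h`. -/
theorem nryi64_coe_cK :
    ((purb_cK h c : ↥(purb_KY h)) : LaurentSeries ℚ) = nry_cval c h := by
  unfold nry_cval
  rw [purb_cK, aeval_def]
  have h1 := Polynomial.hom_eval₂ c (algebraMap ℤ ↥(purb_KY h))
    (algebraMap ↥(purb_KY h) (LaurentSeries ℚ)) (purb_hK h)
  have h2 : (algebraMap ↥(purb_KY h) (LaurentSeries ℚ)).comp (algebraMap ℤ ↥(purb_KY h)) =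
      Int.castRingHom (LaurentSeries ℚ) := RingHom.ext_int _ _
  rw [h2] at h1
  exact h1

/-- the image of `B₀ = ℤ_(ℓ)[h, 1/c(h)]` in `ℚ((q))` lies in `ℚ[h, 1/c(h)]`. -/
theorem nryi64_B0_mem_adjoin (b : ↥(purb_B0 ℓ h c)) :
    ((b : ↥(purb_KY h)) : LaurentSeries ℚ) ∈
      Algebra.adjoin ℚ ({h, (nry_cval c h)⁻¹} : Set (LaurentSeries ℚ)) := by
  have hle : purb_B0 ℓ h c ≤
      (Algebra.adjoin ℚ ({h, (nry_cval c h)⁻¹} : Set (LaurentSeries ℚ))).toSubring.comap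
        (algebraMap ↥(purb_KY h) (LaurentSeries ℚ)) := by
    rw [purb_B0, Subring.closure_le]
    rintro x (⟨z, rfl⟩ | hx | hx)
    · show ((algebraMap ℚ ↥(purb_KY h) (z : ℚ) : ↥(purb_KY h)) : LaurentSeries ℚ) ∈
        Algebra.adjoin ℚ ({h, (nry_cval c h)⁻¹} : Set (LaurentSeries ℚ))
      have h2 : (algebraMap ↥(purb_KY h) (LaurentSeries ℚ)).comp (algebraMap ℚ ↥(purb_KY h)) =
          algebraMap ℚ (LaurentSeries ℚ) := RingHom.ext_rat _ _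
      have h0 : ((algebraMap ℚ ↥(purb_KY h) (z : ℚ) : ↥(purb_KY h)) : LaurentSeries ℚ) =
          algebraMap ℚ (LaurentSeries ℚ) (z : ℚ) := congrArg (fun f => f (z : ℚ)) h2
      rw [h0]
      exact Subalgebra.algebraMap_mem
        (Algebra.adjoin ℚ ({h, (nry_cval c h)⁻¹} : Set (LaurentSeries ℚ))) (z : ℚ)
    · rw [Set.mem_singleton_iff.mp hx]
      show ((purb_hK h : ↥(purb_KY h)) : LaurentSeries ℚ) ∈
        Algebra.adjoin ℚ ({h, (nry_cval c h)⁻¹} : Set (LaurentSeries ℚ))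
      exact Algebra.subset_adjoin (Or.inl rfl)
    · rw [Set.mem_singleton_iff.mp hx]
      show (((purb_cK h c)⁻¹ : ↥(purb_KY h)) : LaurentSeries ℚ) ∈
        Algebra.adjoin ℚ ({h, (nry_cval c h)⁻¹} : Set (LaurentSeries ℚ))
      have h1 : (((purb_cK h c)⁻¹ : ↥(purb_KY h)) : LaurentSeries ℚ) = (nry_cval c h)⁻¹ := by
        rw [← nryi64_coe_cK h c]
        rfl
      rw [h1]
      exact Algebra.subset_adjoin (Or.inr rfl)
  exact hle b.2

/-- the ring homomorphism `B₀ → ℚ[h, 1/c(h)]`. -/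
def nryi64_phi : ↥(purb_B0 ℓ h c) →+*
    ↥(Algebra.adjoin ℚ ({h, (nry_cval c h)⁻¹} : Set (LaurentSeries ℚ))) :=
  ((algebraMap ↥(purb_KY h) (LaurentSeries ℚ)).comp (purb_B0 ℓ h c).subtype).codRestrict
    (Algebra.adjoin ℚ ({h, (nry_cval c h)⁻¹} : Set (LaurentSeries ℚ)))
    (fun b => nryi64_B0_mem_adjoin ℓ h c b)

theorem nryi64_phi_coe (b : ↥(purb_B0 ℓ h c)) :
    ((nryi64_phi ℓ h c b : ↥(Algebra.adjoin ℚ ({h, (nry_cval c h)⁻¹} : Set (LaurentSeries ℚ)))) :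
      LaurentSeries ℚ) = ((b : ↥(purb_KY h)) : LaurentSeries ℚ) := rfl

/-- **every element of `R_Y` is integral over `ℚ[h, 1/c(h)]`** (as a Laurent series). -/
theorem nryi64_isIntegral_RY (t : ↥(purb_RY ℓ e h c N0)) :
    IsIntegral (Algebra.adjoin ℚ ({h, (nry_cval c h)⁻¹} : Set (LaurentSeries ℚ)))
      (((t : ↥(purb_LY e h N0)) : LaurentSeries ℚ)) := by
  have ht : IsIntegral ↥(purb_B0 ℓ h c) (t : ↥(purb_LY e h N0)) := t.2
  exact IsIntegral.map_of_comp_eq (nryi64_phi ℓ h c)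
    (algebraMap ↥(purb_LY e h N0) (LaurentSeries ℚ)) (RingHom.ext fun b => rfl) ht

/-- the same for an element of `F_Y` which is integral over `B₀`. -/
theorem nryi64_isIntegral_of_isIntegral {x : ↥(purb_LY e h N0)}
    (hx : IsIntegral ↥(purb_B0 ℓ h c) x) :
    IsIntegral (Algebra.adjoin ℚ ({h, (nry_cval c h)⁻¹} : Set (LaurentSeries ℚ)))
      ((x : LaurentSeries ℚ)) :=
  nryi64_isIntegral_RY ℓ e h c N0 ⟨x, hx⟩

/-! ### the coordinate functions lie in `F_Y` (and in `R_Y`) -/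

theorem nryi64_h_mem_LY : h ∈ purb_LY e h N0 :=
  purb_KY_le_LY e h N0 (purb_h_mem_KY h)

theorem nryi64_cval_mem_KY : nry_cval c h ∈ purb_KY h := by
  rw [← nryi64_coe_cK h c]
  exact (purb_cK h c).2

theorem nryi64_cval_mem_LY : nry_cval c h ∈ purb_LY e h N0 :=
  purb_KY_le_LY e h N0 (nryi64_cval_mem_KY h c)

theorem nryi64_cval_inv_mem_KY : (nry_cval c h)⁻¹ ∈ purb_KY h :=
  (purb_KY h).inv_mem (nryi64_cval_mem_KY h c)

theorem nryi64_cval_inv_mem_LY : (nry_cval c h)⁻¹ ∈ purb_LY e h N0 :=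
  purb_KY_le_LY e h N0 (nryi64_cval_inv_mem_KY h c)

/-- the image of an element of `B₀` in `F_Y` lies in `R_Y`. -/
theorem nryi64_algebraMap_mem_RY (b : ↥(purb_B0 ℓ h c)) :
    algebraMap ↥(purb_B0 ℓ h c) ↥(purb_LY e h N0) b ∈ purb_RY ℓ e h c N0 :=
  Subalgebra.algebraMap_mem _ b

/-- `h`, as an element of `R_Y`. -/
theorem nryi64_h_mem_RY :
    ∃ t : ↥(purb_RY ℓ e h c N0), ((t : ↥(purb_LY e h N0)) : LaurentSeries ℚ) = h :=
  ⟨⟨_, nryi64_algebraMap_mem_RY ℓ e h c N0 ⟨purb_hK h, purb_hK_mem_B0 ℓ h c⟩⟩, rfl⟩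

/-- `c(h)⁻¹`, as an element of `R_Y`. -/
theorem nryi64_cval_inv_mem_RY :
    ∃ t : ↥(purb_RY ℓ e h c N0),
      ((t : ↥(purb_LY e h N0)) : LaurentSeries ℚ) = (nry_cval c h)⁻¹ := by
  refine ⟨⟨_, nryi64_algebraMap_mem_RY ℓ e h c N0
    ⟨(purb_cK h c)⁻¹, purb_cK_inv_mem_B0 ℓ h c⟩⟩, ?_⟩
  rw [← nryi64_coe_cK h c]
  rfl

end Fermat.Agent.S18x
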