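/-
S18x/NrmFinalTwoKer (helper31, block NRM, integrator (E) `ℓ = 2`; prefix `nrm2_`): the inputs
`hW`, `hker`, `hchart`, `hRint` of `nrm2_HY_of` (S18x/NrmFinalTwo.lean) are TRUE:
* `hW`     : helper19 `nryv_hW` at `(2, 3, μ over ℤ_(2), X³ - 27, 3N)`;
* `hker`   : helper10 `nrmk_hker` (on helper29's `lyd_levelY_redPair`) at `(…, 3N, 9N)`;
* `hchart` : helper86 `nrm2c_isIntegral_jq`;  `hRint` : helper64 `nryi64_isIntegral_RY`.
Hence `nrm2_HY_of'`: `hY = nrmt_HY (9N) A 2` from `(V) = puri_HV` and `(H) = puri_HH` alone.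
-/
import Fermat.Agent.S18x.NrmFinalTwo
import Fermat.Agent.S18x.NrmKerInst
import Fermat.Agent.S18x.NrmTwoChart
import Fermat.Agent.S18x.NrmYRInt

set_option autoImplicit false
set_option linter.style.haveILetI false
set_option linter.unusedSectionVars false
set_option synthInstance.maxHeartbeats 400000

namespace Fermat.Agent.S18x

open ModularCurve HahnSeries Polynomial Fermat.Agent.S24x Fermat.Agent.S28x

noncomputable section

variable (N : ℕ) [NeZero N]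

/-- `j ∈ ℚ(μ) = F₉`. -/
theorem nrm2_jq_mem_KY : jq ∈ purb_KY lyn_muQ := by
  have h1 : jq ∈ modularFunctionFieldFull 9 := by
    have := jqd_mem_full 9 (one_dvd 9)
    rwa [qExpand_one_apply] at this
  have h2 : purb_KY lyn_muQ = modularFunctionFieldFull 9 := bsn_lyn_K2_eq
  rw [h2]
  exact h1

/-- `hW` at the Hesse coordinate: `R_Y` lies in the Gauss ring at `2`. -/
theorem nrm2_hW (t : ↥(lyn_R2 (3 * N))) :
    ((t : ↥(lyn_L2 (3 * N))) : LaurentSeries ℚ) ∈ gaussRing 2 :=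
  nryv_hW 2 3 lyn_muZ lyn_c2 (3 * N) lyn_toQ_muZ nycf_cval_red_muZ_ne_zero t

/-- **`hker`** at `(2, 3, μ, X³ - 27, 3N)`, `N` odd. -/
theorem nrm2_hker (h29 : ¬ 2 ∣ 9 * N) (t : ↥(lyn_R2 (3 * N)))
    (ht : rho 2 ⟨((t : ↥(lyn_L2 (3 * N))) : LaurentSeries ℚ), nrm2_hW N t⟩ = 0) :
    ∃ t' : ↥(lyn_R2 (3 * N)), t = ((2 : ℕ) : ↥lyn_B2) • t' := by
  haveI : FiniteDimensional ↥(purb_KY lyn_muQ) ↥(purb_LY 3 lyn_muQ (3 * N)) :=
    bsn_lyn_finiteDimensional N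
  exact nrmk_hker 2 3 lyn_muZ lyn_c2 (3 * N) (9 * N) lyn_toQ_muZ (bsn_lyn_L2_eq N) h29
    nrm2_jq_mem_KY lyn_transcendental_muQ nycf_c2_ne_zero nycf_transcendental_red_muZ
    nycf_cval_red_muZ_ne_zero (nrm2_hW N) t ht

/-- **`hY` at level `9N`, `ℓ = 2`**, from `(V)` and `(H)` at level `Y`. -/
theorem nrm2_HY_of' (A : ValuationSubring (AlgebraicClosure ℚ)) (hA : A.LiesOverPrime 2)
    (h29 : ¬ 2 ∣ 9 * N)
    (hV : puri_HV 2 3 lyn_muQ lyn_c2 (3 * N)) (hH : puri_HH 2 3 lyn_muQ lyn_c2 (3 * N)) :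
    nrmt_HY (9 * N) A 2 h29 hA :=
  nrm2_HY_of N A hA h29 hV hH (nrm2_hW N) (nrm2_hker N h29)
    (fun _ hy => nrm2c_isIntegral_jq hy)
    (fun t => nryi64_isIntegral_RY 2 3 lyn_muQ lyn_c2 (3 * N) t)

end

end Fermat.Agent.S18x
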