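/-
S18x/NrmFinalTwoV (helper31, block NRM, integrator (E) `ℓ = 2`; prefix `nrm2_`): the input
`(V) = puri_HV` of `nrm2_HY_of'` is TRUE at `(2, 3, μ, X³ - 27, 3N)`, `N` odd (helper10's generic
`nrmk_hV`, S18x/NrmVInst.lean).  Hence `nrm2_HY_of_HH`: `hY` at level `9N` from `(H) = puri_HH`
ALONE.
-/
import Fermat.Agent.S18x.NrmFinalTwoKer
import Fermat.Agent.S18x.NrmVInst

set_option autoImplicit false
set_option linter.style.haveILetI false
set_option linter.unusedSectionVars false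
set_option synthInstance.maxHeartbeats 400000

namespace Fermat.Agent.S18x

open ModularCurve HahnSeries Polynomial Fermat.Agent.S24x Fermat.Agent.S28x

noncomputable section

variable (N : ℕ) [NeZero N]

theorem nrm2_hord : ¬ ((2 : ℕ) : ℤ) ∣ (red 2 lyn_muZ).order := by
  rw [lyn_red_muZ, lyn_muF, bsn_order_mu]
  norm_num

theorem nrm2_hjb :
    jqModC (ZMod 2) ∈ IntermediateField.adjoin (ZMod 2) {red 2 lyn_muZ} := by
  rw [lyn_red_muZ]
  have h1 : IntermediateField.adjoin (ZMod 2) {lyn_muF} = modularFunctionFieldFullC (ZMod 2) 9 :=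
    bsn_lyn_K2b_eq
  rw [h1]
  exact jqModC_mem_full (ZMod 2) 9

/-- **`(V)`** at `(2, 3, μ, X³ - 27, 3N)`, `N` odd. -/
theorem nrm2_hV (h29 : ¬ 2 ∣ 9 * N) : puri_HV 2 3 lyn_muQ lyn_c2 (3 * N) := by
  haveI : FiniteDimensional ↥(purb_KY lyn_muQ) ↥(purb_LY 3 lyn_muQ (3 * N)) :=
    bsn_lyn_finiteDimensional N
  refine nrmk_hV 2 3 lyn_muZ lyn_c2 (3 * N) (9 * N) lyn_toQ_muZ (bsn_lyn_L2_eq N) h29
    nrm2_jq_mem_KY lyn_transcendental_muQ nycf_c2_ne_zero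
    nycf_cval_red_muZ_ne_zero nrm2_hord nrm2_hjb ?_
  intro d _ hd
  exact nryj_jd_mem_RY 2 3 lyn_muQ lyn_c2 (3 * N) (9 * N) (bsn_lyn_L2_eq N) (nryj_hje_mu 2) d hd

/-- **`hY` at level `9N`, `ℓ = 2`**, from `(H)` at level `Y` alone. -/
theorem nrm2_HY_of_HH (A : ValuationSubring (AlgebraicClosure ℚ)) (hA : A.LiesOverPrime 2)
    (h29 : ¬ 2 ∣ 9 * N) (hH : puri_HH 2 3 lyn_muQ lyn_c2 (3 * N)) :
    nrmt_HY (9 * N) A 2 h29 hA :=
  nrm2_HY_of' N A hA h29 (nrm2_hV N h29) hH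

end

end Fermat.Agent.S18x
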