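/-
S18 project, row N8d (G3) (helper87, prefix `gwm_`): the reduction pair `nd_RedPair` for the levels
`N ∣ M`, from the `h`-free Gauss ring `gwm_W` at level `M` (`S18x/GaussWM.lean`).

* `gwm_algF hF`, `gwm_algFb hFb` : the inclusion algebras `F_N → F_M`, `Fb_N → Fb_M`
  (`(IntermediateField.inclusion h).toAlgebra`; use them as local instances), with the scalar towers
  `gwm_towerF`, `gwm_towerFb`;
* `gwm_finrank_inclusion` : for the inclusion algebra, `finrank ↥A ↥B = relfinrank A B`;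
* `gwm_rho hnf hinto : gwm_W hnf →+* gi_Fb k M` (needs INTO = helper81's `gwmi_`), `gwm_rho_coe`,
  `gwm_ker`, `gwm_rho_surj`, `gwm_rho_alg`, `gwm_rho_iota`;
* `gwm_redPair_of` : `nd_RedPair W (gwm_W hnfM) ρ (gwm_rho hnfM hinto)` for ANY model `(W, ρ)` of the
  Gauss pair at level `N` (carrier `{x | ↑x ∈ ga_W A π}`, `ρ = ga_rho` restricted), given the two
  degree facts (helper40's `glu_`): `gwm_redPair_gi` (`(W, ρ) = (gi_W H, gi_rho H)`, helper19) and
  `gwm_redPair` (`(W, ρ) = (gwm_W, gwm_rho)` at level `N`).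
-/
import Mathlib
import Fermat.Agent.S18x.GaussWM
import Fermat.Agent.S18x.NdNorm

set_option autoImplicit false
set_option linter.style.haveILetI false

namespace Fermat.Agent.S18x

open ModularCurve HahnSeries AlgebraicCurve IntermediateField

noncomputable section

/-! ### inclusion algebras -/

section Incl

variable {K E : Type*} [Field K] [Field E] [Algebra K E] {A B : IntermediateField K E}

/-- for the inclusion algebra `↥A → ↥B`, the degree is the relative degree -/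
theorem gwm_finrank_inclusion (h : A ≤ B) :
    @Module.finrank ↥A ↥B _ _ (IntermediateField.inclusion h).toAlgebra.toModule =
      IntermediateField.relfinrank A B := by
  letI : Algebra ↥A ↥B := (IntermediateField.inclusion h).toAlgebra
  rw [IntermediateField.relfinrank_eq_finrank_of_le h]
  let e : ↥B ≃ₗ[↥A] ↥(IntermediateField.extendScalars h) :=
    { toFun := fun x => ⟨(x : E), (IntermediateField.mem_extendScalars h).mpr x.2⟩
      invFun := fun x => ⟨(x : E), (IntermediateField.mem_extendScalars h).mp x.2⟩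
      left_inv := fun _ => rfl
      right_inv := fun _ => rfl
      map_add' := fun _ _ => rfl
      map_smul' := fun _ _ => rfl }
  exact e.finrank_eq

end Incl

section Instances

variable {L : Type*} [Field L] [Algebra ℚ L] {k : Type*} [Field k] {N M : ℕ}

/-- `F_N ≤ F_M` for `N ∣ M` -/
theorem gwm_F_le (L : Type*) [Field L] [Algebra ℚ L] {N M : ℕ} [NeZero N] [NeZero M] (h : N ∣ M) :
    gi_F L N ≤ gi_F L M := by
  show laurentBaseChange L (modularFunctionFieldFull N) ≤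
    laurentBaseChange L (modularFunctionFieldFull M)
  unfold laurentBaseChange
  apply IntermediateField.adjoin.mono
  rintro _ ⟨x, hx, rfl⟩
  exact ⟨x, full_degeneracy_le h hx, rfl⟩

/-- `Fb_N ≤ Fb_M` for `N ∣ M` -/
theorem gwm_Fb_le (k : Type*) [Field k] {N M : ℕ} [NeZero N] [NeZero M] (h : N ∣ M) :
    gi_Fb k N ≤ gi_Fb k M :=
  full_degeneracyC_le k h

/-- the inclusion algebra `F_N → F_M` -/
@[reducible] def gwm_algF (hF : gi_F L N ≤ gi_F L M) : Algebra ↥(gi_F L N) ↥(gi_F L M) :=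
  (IntermediateField.inclusion hF).toAlgebra

/-- the inclusion algebra `Fb_N → Fb_M` -/
@[reducible] def gwm_algFb (hFb : gi_Fb k N ≤ gi_Fb k M) : Algebra ↥(gi_Fb k N) ↥(gi_Fb k M) :=
  (IntermediateField.inclusion hFb).toAlgebra

theorem gwm_towerF (hF : gi_F L N ≤ gi_F L M) :
    @IsScalarTower L ↥(gi_F L N) ↥(gi_F L M) _ (gwm_algF hF).toSMul _ := by
  letI := gwm_algF hF
  exact IsScalarTower.of_algebraMap_eq fun c => ((IntermediateField.inclusion hF).commutes c).symm

theorem gwm_towerFb (hFb : gi_Fb k N ≤ gi_Fb k M) :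
    @IsScalarTower k ↥(gi_Fb k N) ↥(gi_Fb k M) _ (gwm_algFb hFb).toSMul _ := by
  letI := gwm_algFb hFb
  exact IsScalarTower.of_algebraMap_eq fun c => ((IntermediateField.inclusion hFb).commutes c).symm

theorem gwm_algF_coe (hF : gi_F L N ≤ gi_F L M) (x : gi_F L N) :
    ((@algebraMap ↥(gi_F L N) ↥(gi_F L M) _ _ (gwm_algF hF) x : gi_F L M) : LaurentSeries L) =
      (x : LaurentSeries L) := by
  show ((IntermediateField.inclusion hF x : gi_F L M) : LaurentSeries L) = x
  exact IntermediateField.coe_inclusion hF x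

theorem gwm_algFb_coe (hFb : gi_Fb k N ≤ gi_Fb k M) (x : gi_Fb k N) :
    ((@algebraMap ↥(gi_Fb k N) ↥(gi_Fb k M) _ _ (gwm_algFb hFb) x : gi_Fb k M) : LaurentSeries k) =
      (x : LaurentSeries k) := by
  show ((IntermediateField.inclusion hFb x : gi_Fb k M) : LaurentSeries k) = x
  exact IntermediateField.coe_inclusion hFb x

end Instances

/-! ### the residue map onto `Fb_M` -/

section Rho

variable {L : Type*} [Field L] [Algebra ℚ L] {A : ValuationSubring L}
variable {k : Type*} [Field k] {π : A →+* k} {M : ℕ}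

/-- the residue map `W_M → Fb_M`; `hinto` is the INTO statement (`gwmi_`, helper81) -/
def gwm_rho (hnf : gwm_NF A π M) (hinto : ∀ x : gwm_W hnf, gwm_rho0 hnf x ∈ gi_Fb k M) :
    gwm_W hnf →+* gi_Fb k M :=
  (gwm_rho0 hnf).codRestrict (gi_Fb k M) hinto

theorem gwm_rho_coe (hnf : gwm_NF A π M) (hinto : ∀ x : gwm_W hnf, gwm_rho0 hnf x ∈ gi_Fb k M)
    (x : gwm_W hnf) :
    ((gwm_rho hnf hinto x : gi_Fb k M) : LaurentSeries k) =
      ga_rho A π ⟨((x : gi_F L M) : LaurentSeries L), x.2⟩ := rfl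

theorem gwm_ker (hnf : gwm_NF A π M) (hinto : ∀ x : gwm_W hnf, gwm_rho0 hnf x ∈ gi_Fb k M)
    (x : gwm_W hnf) : gwm_rho hnf hinto x = 0 ↔ ¬ IsUnit x := by
  rw [← gwm_ker0 hnf x]
  constructor
  · intro h
    exact congrArg Subtype.val h
  · intro h
    exact Subtype.ext h

theorem gwm_rho_surj (hnf : gwm_NF A π M) (hinto : ∀ x : gwm_W hnf, gwm_rho0 hnf x ∈ gi_Fb k M)
    (hπs : Function.Surjective π) : Function.Surjective (gwm_rho hnf hinto) := by
  intro y
  obtain ⟨u, hu⟩ := gwm_Fb_le_range hnf hπs y.2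
  exact ⟨u, Subtype.ext hu⟩

/-- `ρ_M` on constants (`= hrho_alg` of `nrn_descent`) -/
theorem gwm_rho_alg (hnf : gwm_NF A π M) (hinto : ∀ x : gwm_W hnf, gwm_rho0 hnf x ∈ gi_Fb k M)
    (c : L) (hc : c ∈ A) (hW : algebraMap L (gi_F L M) c ∈ gwm_W hnf) :
    gwm_rho hnf hinto ⟨algebraMap L (gi_F L M) c, hW⟩ = algebraMap k (gi_Fb k M) (π ⟨c, hc⟩) := by
  apply Subtype.ext
  exact gwm_rho0_alg hnf ⟨c, hc⟩

/-- `ρ_M` of an element with an honest `A`-integral expansion is the coefficientwise reduction -/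
theorem gwm_rho_iota (hnf : gwm_NF A π M) (hinto : ∀ x : gwm_W hnf, gwm_rho0 hnf x ∈ gi_Fb k M)
    (x : gwm_W hnf) (a : LaurentSeries A)
    (hx : ((x : gi_F L M) : LaurentSeries L) = coeffMap A.subtype a) :
    ((gwm_rho hnf hinto x : gi_Fb k M) : LaurentSeries k) = coeffMap π a :=
  gwm_rho0_of_eq_iota hnf x a hx

end Rho

/-! ### the reduction pair -/

section RedPair

variable {L : Type*} [Field L] [Algebra ℚ L] {A : ValuationSubring L}
variable {k : Type*} [Field k] {π : A →+* k} {N M : ℕ}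

/-- **the reduction pair for `N ∣ M`**, for any model `(W, ρ)` of the Gauss pair at level `N`. -/
theorem gwm_redPair_of (hF : gi_F L N ≤ gi_F L M) (hFb : gi_Fb k N ≤ gi_Fb k M)
    (hnfM : gwm_NF A π M) (hinto : ∀ x : gwm_W hnfM, gwm_rho0 hnfM x ∈ gi_Fb k M)
    (hπs : Function.Surjective π)
    (W : ValuationSubring (gi_F L N)) (ρ : W →+* gi_Fb k N)
    (hW : ∀ x : gi_F L N, x ∈ W ↔ (x : LaurentSeries L) ∈ ga_W A π)
    (hρ : ∀ (x : gi_F L N) (hx : x ∈ W) (hx' : (x : LaurentSeries L) ∈ ga_W A π),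
      ((ρ ⟨x, hx⟩ : gi_Fb k N) : LaurentSeries k) = ga_rho A π ⟨(x : LaurentSeries L), hx'⟩)
    (hpos : 0 < IntermediateField.relfinrank (gi_F L N) (gi_F L M))
    (hrank : IntermediateField.relfinrank (gi_Fb k N) (gi_Fb k M) =
      IntermediateField.relfinrank (gi_F L N) (gi_F L M)) :
    @nd_RedPair ↥(gi_F L N) ↥(gi_F L M) ↥(gi_Fb k N) ↥(gi_Fb k M) _ _ _ _ (gwm_algF hF)
      (gwm_algFb hFb) W (gwm_W hnfM) ρ (gwm_rho hnfM hinto) := by
  letI := gwm_algF hF
  letI := gwm_algFb hFb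
  refine
    { mem_iff := fun x => ?_
      compat := fun x hx hx' => ?_
      ker' := gwm_ker hnfM hinto
      surj' := gwm_rho_surj hnfM hinto hπs
      finite := ?_
      finrank_eq := ?_ }
  · rw [gwm_mem_W_iff, hW, gwm_algF_coe]
  · apply Subtype.ext
    rw [gwm_rho_coe, gwm_algFb_coe, hρ x hx ((hW x).mp hx)]
    exact ga_rho_congr A π (gwm_algF_coe hF x) _ _
  · refine Module.finite_of_finrank_pos ?_
    rw [gwm_finrank_inclusion hF]
    exact hpos
  · rw [gwm_finrank_inclusion hF, gwm_finrank_inclusion hFb]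
    exact hrank

/-- the reduction pair with helper19's `(gi_W H, gi_rho H)` at the lower level -/
theorem gwm_redPair_gi [NeZero N] {r : Place L (gi_F L N) → Place k (gi_Fb k N)}
    (H : gi_Inputs π r) (hF : gi_F L N ≤ gi_F L M) (hFb : gi_Fb k N ≤ gi_Fb k M)
    (hnfM : gwm_NF A π M) (hinto : ∀ x : gwm_W hnfM, gwm_rho0 hnfM x ∈ gi_Fb k M)
    (hpos : 0 < IntermediateField.relfinrank (gi_F L N) (gi_F L M))
    (hrank : IntermediateField.relfinrank (gi_Fb k N) (gi_Fb k M) =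
      IntermediateField.relfinrank (gi_F L N) (gi_F L M)) :
    @nd_RedPair ↥(gi_F L N) ↥(gi_F L M) ↥(gi_Fb k N) ↥(gi_Fb k M) _ _ _ _ (gwm_algF hF)
      (gwm_algFb hFb) (gi_W H) (gwm_W hnfM) (gi_rho H) (gwm_rho hnfM hinto) :=
  gwm_redPair_of hF hFb hnfM hinto H.hπs (gi_W H) (gi_rho H) (fun _ => Iff.rfl)
    (fun x hx _ => gi_rho_coe H ⟨x, hx⟩) hpos hrank

/-- the reduction pair with `(gwm_W, gwm_rho)` at both levels -/
theorem gwm_redPair (hF : gi_F L N ≤ gi_F L M) (hFb : gi_Fb k N ≤ gi_Fb k M)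
    (hnfN : gwm_NF A π N) (hintoN : ∀ x : gwm_W hnfN, gwm_rho0 hnfN x ∈ gi_Fb k N)
    (hnfM : gwm_NF A π M) (hinto : ∀ x : gwm_W hnfM, gwm_rho0 hnfM x ∈ gi_Fb k M)
    (hπs : Function.Surjective π)
    (hpos : 0 < IntermediateField.relfinrank (gi_F L N) (gi_F L M))
    (hrank : IntermediateField.relfinrank (gi_Fb k N) (gi_Fb k M) =
      IntermediateField.relfinrank (gi_F L N) (gi_F L M)) :
    @nd_RedPair ↥(gi_F L N) ↥(gi_F L M) ↥(gi_Fb k N) ↥(gi_Fb k M) _ _ _ _ (gwm_algF hF)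
      (gwm_algFb hFb) (gwm_W hnfN) (gwm_W hnfM) (gwm_rho hnfN hintoN) (gwm_rho hnfM hinto) :=
  gwm_redPair_of hF hFb hnfM hinto hπs (gwm_W hnfN) (gwm_rho hnfN hintoN) (fun _ => Iff.rfl)
    (fun x hx _ => gwm_rho_coe hnfN hintoN ⟨x, hx⟩) hpos hrank

end RedPair

end

end Fermat.Agent.S18x
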