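/-
S18 project, row N8d (G3), FINAL file (helper87, prefix `gwm_`): the UNCONDITIONAL reduction pair
`nd_RedPair` between the levels `N ∣ M` (`ℓ ∤ M`) over `L = Q̄`, with lower pair LITERALLY helper19's
`(gi_W H, gi_rho H)` and upper pair the `h`-free Gauss pair `(gwm_WM A π M, gwm_rhoM ℓ hℓM hπs)`.

Inputs (all on main): `gnf_normal_form` (helper97, normal form), `gwmi_rho0_mem` (helper81, INTO),
`lvu_relfinrank_levels_eq`, `lvu_tower_bar` (helper68, degrees), `GaussWM`/`GaussWM3` (helper87).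

EXPORTS (`Qbar = AlgebraicClosure ℚ`, `A : ValuationSubring Qbar`, `π : A →+* k`,
`[Algebra (ZMod ℓ) k]`, `[NeZero M]`, `hℓM : ¬ ℓ ∣ M`, `hπs : Function.Surjective π`):
* `gwm_nf A π M : gwm_NF A π M`;
* `gwm_WM A π M : ValuationSubring (gi_F Qbar M)`, `gwm_mem_WM_iff : x ∈ gwm_WM A π M ↔ ↑x ∈ ga_W A π`;
* `gwm_rhoM ℓ hℓM hπs : gwm_WM A π M →+* gi_Fb k M`, `gwm_rhoM_coe`, `gwm_rhoM_ker`, `gwm_rhoM_surj`;
* `gwm_WM_mem_iff` (`= hmem` at level `M`), `gwm_rhoM_alg` (`= hrho_alg` at level `M`),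
  `gwm_rhoM_iota` (`ρ_M` of an element with expansion `ι a`, `a ∈ A((q))`, is `coeffMap π a`);
* `gwm_JM A π M : gwm_WM A π M` with `gwm_JM_coe : (gwm_JM A π M : FBar M) = jBar M` (rfl) and
  `gwm_rhoM_JM : ↑(ρ_M J_M) = jqModC k`;
* `gwm_redPair_final ℓ hNM hℓM H : nd_RedPair (gi_W H) (gwm_WM A π M) (gi_rho H) (gwm_rhoM ℓ hℓM H.hπs)`
  for the inclusion algebras `gwm_algF (gwm_F_le Qbar hNM)`, `gwm_algFb (gwm_Fb_le k hNM)`;
  `gwm_redPair_final'` : the same for arbitrary proofs `hF`, `hFb` of the two inclusions.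
-/
import Mathlib
import Fermat.Agent.S18x.GaussWM3
import Fermat.Agent.S18x.GaussWMInto3
import Fermat.Agent.S18x.GaussNF
import Fermat.Agent.S18x.LvDegUpper
import Fermat.Agent.S24x.AlgDefs

set_option autoImplicit false
set_option linter.style.haveILetI false

namespace Fermat.Agent.S18x

open ModularCurve HahnSeries AlgebraicCurve IntermediateField Fermat.Agent.S28x Fermat.Agent.S24x

noncomputable section

local notation "Qbar" => AlgebraicClosure ℚ

section General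

variable {L : Type*} [Field L] [Algebra ℚ L] (A : ValuationSubring L)
variable {k : Type*} [Field k] (π : A →+* k) (M : ℕ) [NeZero M]

/-- the normal form holds unconditionally (helper97, `S18x/GaussNF.lean`) -/
theorem gwm_nf : gwm_NF A π M := gnf_normal_form A π M

/-- the Gauss valuation subring of `F_M`, unconditionally -/
def gwm_WM : ValuationSubring (gi_F L M) := gwm_W (gwm_nf A π M)

variable {A π M}

theorem gwm_mem_WM_iff (x : gi_F L M) :
    x ∈ gwm_WM A π M ↔ (x : LaurentSeries L) ∈ ga_W A π := Iff.rfl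

/-- constants (`= hmem` at level `M`) -/
theorem gwm_WM_mem_iff (hπu : ∀ a : A, π a ≠ 0 → IsUnit a) (c : L) :
    algebraMap L (gi_F L M) c ∈ gwm_WM A π M ↔ c ∈ A :=
  gwm_mem_iff (gwm_nf A π M) hπu c

end General

section Final

variable (ℓ : ℕ) [Fact ℓ.Prime] {N M : ℕ} [NeZero N] [NeZero M]
variable {A : ValuationSubring Qbar} {k : Type*} [Field k] [Algebra (ZMod ℓ) k] {π : A →+* k}

/-- the residue map `W_M → Fb_M`, unconditionally (`ℓ ∤ M`, `π` onto) -/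
def gwm_rhoM (hℓM : ¬ ℓ ∣ M) (hπs : Function.Surjective π) : gwm_WM A π M →+* gi_Fb k M :=
  gwm_rho (gwm_nf A π M) (gwmi_rho0_mem ℓ hℓM (gwm_nf A π M) hπs)

theorem gwm_rhoM_coe (hℓM : ¬ ℓ ∣ M) (hπs : Function.Surjective π) (x : gwm_WM A π M) :
    ((gwm_rhoM ℓ hℓM hπs x : gi_Fb k M) : LaurentSeries k) =
      ga_rho A π ⟨((x : gi_F Qbar M) : LaurentSeries Qbar), x.2⟩ := rfl

theorem gwm_rhoM_ker (hℓM : ¬ ℓ ∣ M) (hπs : Function.Surjective π) (x : gwm_WM A π M) :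
    gwm_rhoM ℓ hℓM hπs x = 0 ↔ ¬ IsUnit x :=
  gwm_ker (gwm_nf A π M) _ x

theorem gwm_rhoM_surj (hℓM : ¬ ℓ ∣ M) (hπs : Function.Surjective π) :
    Function.Surjective (gwm_rhoM (k := k) (A := A) ℓ hℓM hπs) :=
  gwm_rho_surj (gwm_nf A π M) _ hπs

/-- `ρ_M` on constants (`= hrho_alg` at level `M`) -/
theorem gwm_rhoM_alg (hℓM : ¬ ℓ ∣ M) (hπs : Function.Surjective π) (c : Qbar) (hc : c ∈ A)
    (hW : algebraMap Qbar (gi_F Qbar M) c ∈ gwm_WM A π M) :
    gwm_rhoM ℓ hℓM hπs ⟨algebraMap Qbar (gi_F Qbar M) c, hW⟩ =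
      algebraMap k (gi_Fb k M) (π ⟨c, hc⟩) :=
  gwm_rho_alg (gwm_nf A π M) _ c hc hW

/-- `ρ_M` of an element with an honest `A`-integral expansion is the coefficientwise reduction -/
theorem gwm_rhoM_iota (hℓM : ¬ ℓ ∣ M) (hπs : Function.Surjective π) (x : gwm_WM A π M)
    (a : LaurentSeries A)
    (hx : ((x : gi_F Qbar M) : LaurentSeries Qbar) = coeffMap A.subtype a) :
    ((gwm_rhoM ℓ hℓM hπs x : gi_Fb k M) : LaurentSeries k) = coeffMap π a :=
  gwm_rho_iota (gwm_nf A π M) _ x a hx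

omit [Fact ℓ.Prime] [NeZero M] in
theorem gwm_coe_jBar (M : ℕ) :
    ((jBar M : FBar M) : LaurentSeries Qbar) = coeffMap A.subtype (jqModC A) := by
  rw [coe_jBar, coeffMap_jqModC, coeffEmb, ← jqModC_rat, coeffMap_jqModC]

end Final

section JM

/-- `j` as an element of `W_M` -/
def gwm_JM (A : ValuationSubring Qbar) {k : Type*} [Field k] (π : A →+* k) (M : ℕ) [NeZero M] :
    gwm_WM A π M :=
  ⟨jBar M, by
    rw [gwm_mem_WM_iff, gwm_coe_jBar (A := A) M]
    exact ga_iota_mem_W A π _⟩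

end JM

section Final2

variable (ℓ : ℕ) [Fact ℓ.Prime] {N M : ℕ} [NeZero N] [NeZero M]
variable {A : ValuationSubring Qbar} {k : Type*} [Field k] [Algebra (ZMod ℓ) k] {π : A →+* k}

theorem gwm_JM_coe : ((gwm_JM A π M : gwm_WM A π M) : FBar M) = jBar M := rfl

theorem gwm_rhoM_JM (hℓM : ¬ ℓ ∣ M) (hπs : Function.Surjective π) :
    ((gwm_rhoM ℓ hℓM hπs (gwm_JM A π M) : gi_Fb k M) : LaurentSeries k) = jqModC k := by
  rw [gwm_rhoM_iota ℓ hℓM hπs (gwm_JM A π M) (jqModC A) (gwm_coe_jBar (A := A) M),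
    coeffMap_jqModC]

/-- **the reduction pair between the levels `N ∣ M`** (arbitrary proofs of the inclusions) -/
theorem gwm_redPair_final' (hNM : N ∣ M) (hℓM : ¬ ℓ ∣ M)
    {r : Place Qbar (gi_F Qbar N) → Place k (gi_Fb k N)} (H : gi_Inputs π r)
    (hF : gi_F Qbar N ≤ gi_F Qbar M) (hFb : gi_Fb k N ≤ gi_Fb k M) :
    @nd_RedPair ↥(gi_F Qbar N) ↥(gi_F Qbar M) ↥(gi_Fb k N) ↥(gi_Fb k M) _ _ _ _ (gwm_algF hF)
      (gwm_algFb hFb) (gi_W H) (gwm_WM A π M) (gi_rho H) (gwm_rhoM ℓ hℓM H.hπs) := by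
  have hrank := (lvu_relfinrank_levels_eq N ℓ k M hNM hℓM).symm
  have hpos : 0 < IntermediateField.relfinrank (gi_F Qbar N) (gi_F Qbar M) := by
    have h2 := lvu_tower_bar N M hNM
    have hM : 0 < dedekindPsi M := sa_dedekindPsi_pos M (NeZero.ne M)
    rcases Nat.eq_zero_or_pos (IntermediateField.relfinrank (gi_F Qbar N) (gi_F Qbar M)) with h0 | h0
    · exfalso
      have h3 : dedekindPsi N * IntermediateField.relfinrank (gi_F Qbar N) (gi_F Qbar M) =
          dedekindPsi M := h2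
      rw [h0, mul_zero] at h3
      omega
    · exact h0
  exact gwm_redPair_gi H hF hFb (gwm_nf A π M) (gwmi_rho0_mem ℓ hℓM (gwm_nf A π M) H.hπs) hpos hrank

/-- **the reduction pair between the levels `N ∣ M`**, for the canonical inclusion algebras -/
theorem gwm_redPair_final (hNM : N ∣ M) (hℓM : ¬ ℓ ∣ M)
    {r : Place Qbar (gi_F Qbar N) → Place k (gi_Fb k N)} (H : gi_Inputs π r) :
    @nd_RedPair ↥(gi_F Qbar N) ↥(gi_F Qbar M) ↥(gi_Fb k N) ↥(gi_Fb k M) _ _ _ _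
      (gwm_algF (gwm_F_le Qbar hNM)) (gwm_algFb (gwm_Fb_le k hNM)) (gi_W H) (gwm_WM A π M)
      (gi_rho H) (gwm_rhoM ℓ hℓM H.hπs) :=
  gwm_redPair_final' ℓ hNM hℓM H _ _

end Final2

end

end Fermat.Agent.S18x
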