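/-
S18x/NrmNCoord (helper48, row N8a (c)): COORDINATE FACTS on the concrete modular function fields,
for the norm-descent instantiation `nrns_N0_descent` (levels `N ∣ M`, e.g. `M = 4N, 9N`).

* `nnc_sepCoord_F M`     : `j` is a separating coordinate of `FBar M` over `Q̄`;
* `nnc_sepCoord_Fb k M`  : `j̄` is a separating coordinate of `F̄_M` over a perfect field `k`;
* `nnc_F_le`, `nnc_Fb_le` : the inclusions `F_N ≤ F_M`, `F̄_N ≤ F̄_M` for `N ∣ M`;
* `nnc_incl_jBar`, `nnc_incl_jb` : the inclusions send `j_N ↦ j_M`, `j̄_N ↦ j̄_M`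
  (statements for `IntermediateField.inclusion` = `algebraMap` of helper87's `gwm_algF`/`gwm_algFb`);
* `nnc_isSeparable_Fb`   : `F̄_M / F̄_N` is separable (`k` perfect), for the inclusion algebra;
* `nnc_isSeparable_F`    : `F_M / F_N` is separable (characteristic zero);
* generic: `nnc_isSeparable_inclusion` (separable over a coordinate subfield ⟹ separable over any
  intermediate field containing the coordinate), `nnc_isScalarTower_inclusion`.
All `Algebra ↥A ↥B` structures are `(IntermediateField.inclusion h).toAlgebra`, given explicitly.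
-/
import Mathlib
import Fermat.Agent.S18x.PlsTsFields
import Fermat.Agent.S18x.PlsFbarFinal
import Fermat.Agent.S18x.CpFund

set_option autoImplicit false
set_option synthInstance.maxHeartbeats 400000

namespace Fermat.Agent.S18x

open ModularCurve IntermediateField
open Fermat.Agent.S24x AlgebraicCurve

section Generic

variable {K Ω : Type*} [Field K] [Field Ω] [Algebra K Ω]

/-- the scalar tower `K → A → B` for the inclusion algebra of intermediate fields. -/
theorem nnc_isScalarTower_inclusion {A B : IntermediateField K Ω} (h : A ≤ B) :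
    @IsScalarTower K ↥A ↥B _ (IntermediateField.inclusion h).toAlgebra.toSMul _ :=
  let _ := (IntermediateField.inclusion h).toAlgebra
  IsScalarTower.of_algebraMap_eq fun _ => rfl

/-- **Separability over an intermediate field.**  If `B / K(t)` is separable (`t ∈ B`) and `A ≤ B`
is an intermediate field containing `t`, then `B / A` is separable (inclusion algebra). -/
theorem nnc_isSeparable_inclusion {A B : IntermediateField K Ω} (h : A ≤ B) (t : ↥B)
    (ht : (t : Ω) ∈ A) (hsep : Algebra.IsSeparable K⟮t⟯ ↥B) :
    @Algebra.IsSeparable ↥A ↥B _ _ (IntermediateField.inclusion h).toAlgebra := by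
  let _ : Algebra ↥A ↥B := (IntermediateField.inclusion h).toAlgebra
  -- every element of `K(t) ⊆ B` lies in `A`
  have hmem : ∀ y : K⟮t⟯, ((y : ↥B) : Ω) ∈ A := by
    intro y
    have h1 : ((y : ↥B) : Ω) ∈ (K⟮t⟯ : IntermediateField K ↥B).map B.val :=
      (IntermediateField.mem_map _).mpr ⟨y, y.2, rfl⟩
    rw [IntermediateField.adjoin_map, Set.image_singleton] at h1
    have h2 : K⟮B.val t⟯ ≤ A := by
      rw [IntermediateField.adjoin_simple_le_iff]
      exact ht
    exact h2 h1
  let φ : K⟮t⟯ →+* ↥A :=
    { toFun := fun y => ⟨((y : ↥B) : Ω), hmem y⟩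
      map_one' := rfl
      map_mul' := fun _ _ => rfl
      map_zero' := rfl
      map_add' := fun _ _ => rfl }
  let _ : Algebra K⟮t⟯ ↥A := φ.toAlgebra
  have : IsScalarTower K⟮t⟯ ↥A ↥B := IsScalarTower.of_algebraMap_eq fun _ => rfl
  exact Algebra.isSeparable_tower_top_of_isSeparable K⟮t⟯ ↥A ↥B

/-- the two (identical) notions of separating coordinate: `pls_` ⟹ `cp15_`. -/
theorem nnc_cp15_of_pls {K F : Type*} [Field K] [Field F] [Algebra K F] {t : F}
    (h : pls_IsSepCoordinate K F t) : cp15_IsSepCoordinate K F t :=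
  ⟨h.coord, h.sep⟩

/-- the two (identical) notions of separating coordinate: `cp15_` ⟹ `pls_`. -/
theorem nnc_pls_of_cp15 {K F : Type*} [Field K] [Field F] [Algebra K F] {t : F}
    (h : cp15_IsSepCoordinate K F t) : pls_IsSepCoordinate K F t :=
  ⟨h.coord, h.sep⟩

end Generic

section Levels

variable (k : Type*) [Field k]

/-- `F̄_N ≤ F̄_M` for `N ∣ M`. -/
theorem nnc_Fb_le {N M : ℕ} [NeZero N] [NeZero M] (h : N ∣ M) :
    modularFunctionFieldFullC k N ≤ modularFunctionFieldFullC k M :=
  full_degeneracyC_le k h

/-- the inclusion `F̄_N → F̄_M` sends `j̄` to `j̄`. -/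
theorem nnc_incl_jb {N M : ℕ} [NeZero N] [NeZero M]
    (hFb : modularFunctionFieldFullC k N ≤ modularFunctionFieldFullC k M) :
    IntermediateField.inclusion hFb (pls_jb k N) = pls_jb k M :=
  rfl

/-- the same, as a statement about the `algebraMap` of the inclusion algebra. -/
theorem nnc_algebraMap_jb {N M : ℕ} [NeZero N] [NeZero M]
    (hFb : modularFunctionFieldFullC k N ≤ modularFunctionFieldFullC k M) :
    @algebraMap ↥(modularFunctionFieldFullC k N) ↥(modularFunctionFieldFullC k M) _ _
      (IntermediateField.inclusion hFb).toAlgebra (pls_jb k N) = pls_jb k M :=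
  rfl

/-- **`j̄` is a separating coordinate of `F̄_M`** (`k` perfect, any characteristic). -/
theorem nnc_sepCoord_Fb [PerfectField k] (M : ℕ) [NeZero M] :
    pls_IsSepCoordinate k (pls_Fb k M) (pls_jb k M) :=
  pls_isSepCoordinate_jb_perfect k M

/-- **`F̄_M / F̄_N` is separable** (`k` perfect), for the inclusion algebra. -/
theorem nnc_isSeparable_Fb [PerfectField k] {N M : ℕ} [NeZero N] [NeZero M]
    (hFb : modularFunctionFieldFullC k N ≤ modularFunctionFieldFullC k M) :
    @Algebra.IsSeparable ↥(modularFunctionFieldFullC k N) ↥(modularFunctionFieldFullC k M) _ _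
      (IntermediateField.inclusion hFb).toAlgebra :=
  nnc_isSeparable_inclusion hFb (pls_jb k M) (jqModC_mem_full k N)
    (pls_isSepCoordinate_jb_perfect k M).sep

end Levels

section CharZero

/-- `F_N ≤ F_M` for `N ∣ M` (over `Q̄`). -/
theorem nnc_F_le {N M : ℕ} [NeZero N] [NeZero M] (h : N ∣ M) :
    modularFunctionFieldBar N ≤ modularFunctionFieldBar M := by
  show laurentBaseChange (AlgebraicClosure ℚ) (modularFunctionFieldFull N) ≤
    laurentBaseChange (AlgebraicClosure ℚ) (modularFunctionFieldFull M)
  unfold laurentBaseChange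
  exact IntermediateField.adjoin.mono _ _ _ (Set.image_mono (full_degeneracy_le h))

/-- the inclusion `F_N → F_M` sends `j` to `j`. -/
theorem nnc_incl_jBar {N M : ℕ} (hF : modularFunctionFieldBar N ≤ modularFunctionFieldBar M) :
    IntermediateField.inclusion hF (jBar N) = jBar M :=
  Subtype.ext (by
    show ((jBar N : FBar N) : LaurentSeries (AlgebraicClosure ℚ)) = ((jBar M : FBar M) : _)
    rw [coe_jBar, coe_jBar])

/-- the same, as a statement about the `algebraMap` of the inclusion algebra. -/
theorem nnc_algebraMap_jBar {N M : ℕ}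
    (hF : modularFunctionFieldBar N ≤ modularFunctionFieldBar M) :
    @algebraMap ↥(modularFunctionFieldBar N) ↥(modularFunctionFieldBar M) _ _
      (IntermediateField.inclusion hF).toAlgebra (jBar N) = jBar M :=
  nnc_incl_jBar hF

/-- **`j` is a separating coordinate of `F_M`** over `Q̄`. -/
theorem nnc_sepCoord_F (M : ℕ) [NeZero M] : pls_IsSepCoordinate Qbar (FBar M) (jBar M) :=
  pls_isSepCoordinate_jBar M

/-- **`F_M / F_N` is separable** (characteristic zero), for the inclusion algebra. -/
theorem nnc_isSeparable_F {N M : ℕ} [NeZero M]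
    (hF : modularFunctionFieldBar N ≤ modularFunctionFieldBar M) :
    @Algebra.IsSeparable ↥(modularFunctionFieldBar N) ↥(modularFunctionFieldBar M) _ _
      (IntermediateField.inclusion hF).toAlgebra :=
  nnc_isSeparable_inclusion hF (jBar M)
    (by rw [← nnc_incl_jBar hF]; exact (jBar N).2)
    (pls_isSepCoordinate_jBar M).sep

/-- `cp15_` forms of the coordinate facts. -/
theorem nnc_cp15_sepCoord_F (M : ℕ) [NeZero M] : cp15_IsSepCoordinate Qbar (FBar M) (jBar M) :=
  nnc_cp15_of_pls (nnc_sepCoord_F M)

theorem nnc_cp15_sepCoord_Fb (k : Type*) [Field k] [PerfectField k] (M : ℕ) [NeZero M] :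
    cp15_IsSepCoordinate k (pls_Fb k M) (pls_jb k M) :=
  nnc_cp15_of_pls (nnc_sepCoord_Fb k M)

end CharZero

end Fermat.Agent.S18x
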