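/-
S18x/NormalCrit29.lean (helper29): abstract NORMALITY CRITERION used in the norm-descent step
(Step 7 of doc S18_l23_solution_helper57).  Mathlib only.

`nc29_surjective`: let `S` be a Dedekind domain, module-finite over a subring `R` (injective ring
map `R → S`).  Assume that for every maximal ideal `𝔮` of `S`
 * (residue fields agree) every `s : S` is congruent mod `𝔮` to an element of `R`;
 * (separating uniformizer) there is `t : R` whose image lies in `𝔮`, not in `𝔮 ^ 2`, and in no other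
   maximal ideal `𝔮'` of `S` lying over the same prime of `R` as `𝔮`.
Then `R → S` is surjective (so `R ≃ S`: the subring is already integrally closed).
-/
import Mathlib

set_option autoImplicit false

namespace Fermat.Agent.S18x

open Ideal

section

variable {R S : Type*} [CommRing R] [CommRing S] [Algebra R S]

/-- Nakayama-type reduction: a module-finite ring map `R → S` is surjective as soon as
`S = R + 𝔭 S` for every maximal ideal `𝔭` of `R`. -/
theorem nc29_surjective_of_forall_maximal [Module.Finite R S]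
    (h : ∀ 𝔭 : Ideal R, 𝔭.IsMaximal → ∀ s : S, ∃ r : R,
      s - algebraMap R S r ∈ 𝔭.map (algebraMap R S)) :
    Function.Surjective (algebraMap R S) := by
  classical
  set N : Submodule R S := LinearMap.range (Algebra.linearMap R S) with hN
  have key : N = ⊤ := by
    by_contra hne
    have hQ : Nontrivial (S ⧸ N) := Submodule.Quotient.nontrivial_iff.mpr hne
    have hann : (Module.annihilator R (S ⧸ N)) ≠ ⊤ := by
      intro htop
      have h1 : (1 : R) ∈ Module.annihilator R (S ⧸ N) := by rw [htop]; trivial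
      rw [Module.mem_annihilator] at h1
      obtain ⟨x, y, hxy⟩ := hQ
      exact hxy (by rw [← one_smul R x, ← one_smul R y, h1 x, h1 y])
    obtain ⟨𝔭, h𝔭max, h𝔭le⟩ := Ideal.exists_le_maximal _ hann
    have htop : (⊤ : Submodule R (S ⧸ N)) ≤ 𝔭 • (⊤ : Submodule R (S ⧸ N)) := by
      rintro x -
      obtain ⟨s, rfl⟩ := Submodule.Quotient.mk_surjective N x
      obtain ⟨r, hr⟩ := h 𝔭 h𝔭max s
      have hs : Submodule.Quotient.mk (p := N) s
          = Submodule.Quotient.mk (p := N) (s - algebraMap R S r) := by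
        rw [Submodule.Quotient.eq]
        exact ⟨r, by simp⟩
      rw [hs]
      have hz : (s - algebraMap R S r) ∈ 𝔭 • (⊤ : Submodule R S) := by
        rw [Ideal.smul_top_eq_map]
        exact hr
      have : N.mkQ (s - algebraMap R S r) ∈ (𝔭 • (⊤ : Submodule R S)).map N.mkQ :=
        Submodule.mem_map_of_mem hz
      rw [Submodule.map_smul''] at this
      exact Submodule.smul_mono le_rfl le_top this
    obtain ⟨r, hr1, hr0⟩ := Submodule.exists_sub_one_mem_and_smul_eq_zero_of_fg_of_le_smul 𝔭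
      (⊤ : Submodule R (S ⧸ N)) (Module.finite_def.mp inferInstance) htop
    have hrann : r ∈ Module.annihilator R (S ⧸ N) := by
      rw [Module.mem_annihilator]
      intro m
      exact hr0 m trivial
    have hr𝔭 : r ∈ 𝔭 := h𝔭le hrann
    have : (1 : R) ∈ 𝔭 := by
      have := 𝔭.sub_mem hr𝔭 hr1
      simpa using this
    exact h𝔭max.ne_top ((Ideal.eq_top_iff_one _).mpr this)
  intro s
  have : s ∈ N := by rw [key]; trivial
  obtain ⟨r, hr⟩ := this
  exact ⟨r, by simpa using hr⟩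

end

section Dedekind

variable {R S : Type*} [CommRing R] [CommRing S] [IsDedekindDomain S] [Algebra R S]

/-- In a Dedekind domain, an ideal `I ≤ 𝔮` containing an element outside `𝔮 ^ 2` and outside every
other maximal ideal containing `I` equals `𝔮`. -/
theorem nc29_eq_of_uniformizer {I 𝔮 : Ideal S} (h𝔮 : 𝔮.IsMaximal) (hI𝔮 : I ≤ 𝔮) {x : S}
    (hxI : x ∈ I) (hx2 : x ∉ 𝔮 ^ 2)
    (hx' : ∀ 𝔮' : Ideal S, 𝔮'.IsMaximal → I ≤ 𝔮' → 𝔮' ≠ 𝔮 → x ∉ 𝔮') : I = 𝔮 := by
  obtain ⟨J, hJ⟩ := (Ideal.dvd_iff_le).mpr hI𝔮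
  by_cases hJtop : J = ⊤
  · rw [hJ, hJtop, Ideal.mul_top]
  · exfalso
    obtain ⟨𝔮', h𝔮'max, hJ𝔮'⟩ := Ideal.exists_le_maximal J hJtop
    have hI𝔮𝔮' : I ≤ 𝔮 * 𝔮' := by
      rw [hJ]
      exact Ideal.mul_mono_right hJ𝔮'
    by_cases hEq : 𝔮' = 𝔮
    · apply hx2
      rw [pow_two]
      rw [hEq] at hI𝔮𝔮'
      exact hI𝔮𝔮' hxI
    · exact hx' 𝔮' h𝔮'max (hI𝔮𝔮'.trans Ideal.mul_le_right) hEq
        ((hI𝔮𝔮'.trans Ideal.mul_le_right) hxI)

/-- NORMALITY CRITERION.  `S` Dedekind, module-finite over `R ⊆ S`; residue fields agree and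
every maximal ideal of `S` has a uniformizer coming from `R` which is a unit at the other points of
its fibre.  Then `R = S`. -/
theorem nc29_surjective [Module.Finite R S]
    (hinj : Function.Injective (algebraMap R S))
    (hres : ∀ 𝔮 : Ideal S, 𝔮.IsMaximal → ∀ s : S, ∃ r : R, s - algebraMap R S r ∈ 𝔮)
    (hunif : ∀ 𝔮 : Ideal S, 𝔮.IsMaximal → ∃ t : R, algebraMap R S t ∈ 𝔮 ∧
      algebraMap R S t ∉ 𝔮 ^ 2 ∧
      ∀ 𝔮' : Ideal S, 𝔮'.IsMaximal →
        𝔮'.comap (algebraMap R S) = 𝔮.comap (algebraMap R S) → 𝔮' ≠ 𝔮 →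
          algebraMap R S t ∉ 𝔮') :
    Function.Surjective (algebraMap R S) := by
  apply nc29_surjective_of_forall_maximal
  intro 𝔭 h𝔭 s
  have hint : Algebra.IsIntegral R S := inferInstance
  have hker : RingHom.ker (algebraMap R S) ≤ 𝔭 := by
    rw [(RingHom.injective_iff_ker_eq_bot _).mp hinj]
    exact bot_le
  obtain ⟨𝔮, h𝔮max, h𝔮𝔭⟩ := Ideal.exists_ideal_over_maximal_of_isIntegral 𝔭 hker
  obtain ⟨t, ht𝔮, ht2, ht'⟩ := hunif 𝔮 h𝔮max
  have ht𝔭 : t ∈ 𝔭 := by
    rw [← h𝔮𝔭]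
    exact ht𝔮
  have hmap_le : 𝔭.map (algebraMap R S) ≤ 𝔮 := by
    rw [Ideal.map_le_iff_le_comap, h𝔮𝔭]
  have hEq : 𝔭.map (algebraMap R S) = 𝔮 := by
    refine nc29_eq_of_uniformizer h𝔮max hmap_le (Ideal.mem_map_of_mem _ ht𝔭) ht2 ?_
    intro 𝔮' h𝔮'max hle hne
    refine ht' 𝔮' h𝔮'max ?_ hne
    rw [h𝔮𝔭]
    have h1 : 𝔭 ≤ 𝔮'.comap (algebraMap R S) := Ideal.map_le_iff_le_comap.mp hle
    have h2 : 𝔮'.comap (algebraMap R S) ≠ ⊤ := (Ideal.comap_ne_top _ h𝔮'max.ne_top)
    exact (h𝔭.eq_of_le h2 h1).symm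
  obtain ⟨r, hr⟩ := hres 𝔮 h𝔮max s
  exact ⟨r, by rw [hEq]; exact hr⟩

end Dedekind

end Fermat.Agent.S18x
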