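/-
S18x/NdCore.lean (helper8): NORM DESCENT, abstract core of Step 7 of doc S18_l23_solution_helper57.
Mathlib + S18x/NormalCrit29 only.

Setting: `D ⊆ E` Dedekind domains, `E` module-finite and torsion-free over `D`, with GALOIS extension
of fraction fields, all inertia degrees `= 1` (e.g. residue fields algebraically closed).
`nd_exists_intNorm_uniformizer`: for a maximal ideal `Q ≠ ⊥` of `D` and finitely many other maximal
ideals `p ∈ s`, there is `z : E` with `intNorm z ∈ Q`, `∉ Q ^ 2`, `∉ p` (`p ∈ s`).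
`nd_surjective`: if `R → D` is an injective module-finite ring map with the same residue fields,
and the integral norm of every element of `E` comes from `R`, then `R → D` is surjective.
-/
import Mathlib
import Fermat.Agent.S18x.NormalCrit29

set_option autoImplicit false

namespace Fermat.Agent.S18x

open Ideal Module

attribute [local instance] FractionRing.liftAlgebra

section RelNorm

variable {D E : Type*} [CommRing D] [IsDedekindDomain D] [CommRing E] [IsDedekindDomain E]
  [Algebra D E] [Module.Finite D E] [IsTorsionFree D E]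

/-- If an ideal `J` of `E` is contained in no prime of `E` over the maximal ideal `p` of `D`,
then its relative norm is not contained in `p`. -/
theorem nd_relNorm_not_le (p : Ideal D) [hp : p.IsMaximal] (J : Ideal E)
    (hJ : ∀ P : Ideal E, P.IsPrime → P.LiesOver p → ¬ J ≤ P) : ¬ relNorm D J ≤ p := by
  classical
  have hJ0 : J ≠ ⊥ := by
    rintro rfl
    obtain ⟨P, hPmax, hP⟩ := Ideal.exists_ideal_over_maximal_of_isIntegral (S := E) p
      (by
        rw [(RingHom.injective_iff_ker_eq_bot _).mp (FaithfulSMul.algebraMap_injective D E)]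
        exact bot_le)
    exact hJ P hPmax.isPrime ⟨hP.symm⟩ bot_le
  rw [← Ideal.prod_normalizedFactors_eq_self hJ0]
  refine Multiset.prod_induction (fun I : Ideal E => ¬ relNorm D I ≤ p) _ ?_ ?_ ?_
  · intro I I' hI hI' hle
    rw [map_mul] at hle
    rcases (hp.isPrime.mul_le).mp hle with h | h
    · exact hI h
    · exact hI' h
  · rw [one_eq_top, relNorm_top]
    exact fun h => hp.ne_top (top_le_iff.mp h)
  · intro P hP hle
    have hP0 : P ≠ ⊥ := UniqueFactorizationMonoid.ne_zero_of_mem_normalizedFactors hP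
    rw [Ideal.mem_normalizedFactors_iff hJ0] at hP
    have hPprime : P.IsPrime := hP.1
    obtain ⟨n, hn⟩ := exists_relNorm_eq_pow_of_isPrime P (P.under D)
    rw [hn] at hle
    have hle' : P.under D ≤ p := hp.isPrime.le_of_pow_le hle
    have hPmax : P.IsMaximal := Ring.DimensionLEOne.maximalOfPrime hP0 hPprime
    have hunder : (P.under D).IsMaximal := Ideal.IsMaximal.under D P
    have heq : P.under D = p := hunder.eq_of_le hp.ne_top hle'
    exact hJ P hPprime ⟨heq.symm⟩ hP.2

/-- A maximal ideal `Q ≠ ⊥` of a Dedekind domain contains an element outside `Q ^ 2`. -/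
theorem nd_exists_mem_not_mem_sq (Q : Ideal E) [hQ : Q.IsMaximal] (hQ0 : Q ≠ ⊥) :
    ∃ x ∈ Q, x ∉ Q ^ 2 := by
  by_contra h
  have hle : Q ≤ Q ^ 2 := fun x hx => by
    by_contra hx2
    exact h ⟨x, hx, hx2⟩
  have hlt : Q ^ 2 < Q ^ 1 := Ideal.pow_right_strictAnti Q hQ0 hQ.ne_top (by norm_num)
  rw [pow_one] at hlt
  exact absurd hle (not_le_of_gt hlt)

/-- NORM DESCENT, local statement: there is `z : E` whose integral norm is a uniformizer at `Q` and
a unit at finitely many other prescribed maximal ideals of `D`. -/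
theorem nd_exists_intNorm_uniformizer [IsGalois (FractionRing D) (FractionRing E)]
    (hf : ∀ P : Ideal E, P.IsMaximal → P.inertiaDeg D = 1)
    (Q : Ideal D) [hQ : Q.IsMaximal] (hQ0 : Q ≠ ⊥)
    (s : Finset (Ideal D)) (hs : ∀ p ∈ s, p.IsMaximal ∧ p ≠ Q) :
    ∃ z : E, Algebra.intNorm D E z ∈ Q ∧ Algebra.intNorm D E z ∉ Q ^ 2 ∧
      ∀ p ∈ s, Algebra.intNorm D E z ∉ p := by
  classical
  have hinj : Function.Injective (algebraMap D E) := FaithfulSMul.algebraMap_injective D E
  -- a prime `P₁` of `E` over `Q`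
  obtain ⟨P₁, hP₁max, hP₁Q⟩ := Ideal.exists_ideal_over_maximal_of_isIntegral (S := E) Q
    (by rw [(RingHom.injective_iff_ker_eq_bot _).mp hinj]; exact bot_le)
  have hP₁lies : P₁.LiesOver Q := ⟨hP₁Q.symm⟩
  have hP₁0 : P₁ ≠ ⊥ := by
    rintro rfl
    apply hQ0
    rw [← hP₁Q]
    exact Ideal.comap_bot_of_injective _ hinj
  obtain ⟨π, hπ, hπ2⟩ := nd_exists_mem_not_mem_sq P₁ hP₁0
  -- the finite set of primes of `E` over `Q` and over the `p ∈ s`
  have hfin : ∀ p : Ideal D, (p.primesOver E).Finite :=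
    fun p => Algebra.QuasiFinite.finite_primesOver p
  let PS : Finset (Ideal E) := (hfin Q).toFinset ∪ s.biUnion (fun p => (hfin p).toFinset)
  have hmaxne : ∀ p : Ideal D, p.IsMaximal → p ≠ ⊥ := by
    rintro p hp rfl
    exact hQ0 (hp.eq_of_le hQ.ne_top bot_le).symm
  have hover0 : ∀ (p : Ideal D) (P : Ideal E), p.IsMaximal → P.LiesOver p → P ≠ ⊥ := by
    rintro p P hp hP rfl
    apply hmaxne p hp
    rw [hP.over]
    exact Ideal.comap_bot_of_injective _ hinj
  have hPSprime : ∀ P ∈ PS, P.IsPrime ∧ P ≠ ⊥ := by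
    intro P hP
    rcases Finset.mem_union.mp hP with h | h
    · have hP' : P ∈ Q.primesOver E := (hfin Q).mem_toFinset.mp h
      exact ⟨hP'.1, hover0 Q P hQ hP'.2⟩
    · obtain ⟨p, hp, hPp⟩ := Finset.mem_biUnion.mp h
      have hP' : P ∈ p.primesOver E := (hfin p).mem_toFinset.mp hPp
      exact ⟨hP'.1, hover0 p P (hs p hp).1 hP'.2⟩
  -- CRT
  obtain ⟨z, hz⟩ := IsDedekindDomain.exists_forall_sub_mem_ideal (s := PS) (fun P : Ideal E => P)
    (fun P => if P = P₁ then 2 else 1)
    (fun P hP => Ideal.prime_of_isPrime (hPSprime P hP).2 (hPSprime P hP).1)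
    (fun P _ P' _ h => h)
    (fun P => if (P : Ideal E) = P₁ then π else 1)
  have hP₁mem : P₁ ∈ PS :=
    Finset.mem_union_left _ ((hfin Q).mem_toFinset.mpr ⟨hP₁max.isPrime, hP₁lies⟩)
  have hzP₁ : z ∈ P₁ := by
    have h1 := hz P₁ hP₁mem
    simp only [if_true] at h1
    have h2 : z - π ∈ P₁ := Ideal.pow_le_self (by norm_num) h1
    have : z = (z - π) + π := by ring
    rw [this]
    exact P₁.add_mem h2 hπ
  have hzP₁2 : z ∉ P₁ ^ 2 := by
    intro hcon
    have h1 := hz P₁ hP₁mem
    simp only [if_true] at h1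
    apply hπ2
    have : π = z - (z - π) := by ring
    rw [this]
    exact (P₁ ^ 2).sub_mem hcon h1
  have hzother : ∀ P ∈ PS, P ≠ P₁ → z ∉ P := by
    intro P hP hne hcon
    have h1 := hz P hP
    simp only [if_neg hne, pow_one] at h1
    have h1' : (1 : E) ∈ P := by
      have : (1 : E) = z - (z - 1) := by ring
      rw [this]
      exact P.sub_mem hcon h1
    exact (hPSprime P hP).1.ne_top ((Ideal.eq_top_iff_one P).mpr h1')
  -- factor `(z) = P₁ * J`
  obtain ⟨J, hJ⟩ : P₁ ∣ Ideal.span {z} :=
    Ideal.dvd_iff_le.mpr ((Ideal.span_singleton_le_iff_mem P₁).mpr hzP₁)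
  have hJQ : ∀ P : Ideal E, P.IsPrime → P.LiesOver Q → ¬ J ≤ P := by
    intro P hPprime hPQ hle
    have hPmem : P ∈ PS :=
      Finset.mem_union_left _ ((hfin Q).mem_toFinset.mpr ⟨hPprime, hPQ⟩)
    by_cases hPP₁ : P = P₁
    · subst hPP₁
      apply hzP₁2
      have : Ideal.span {z} ≤ P ^ 2 := by
        rw [hJ, pow_two]
        exact Ideal.mul_mono_right hle
      exact this (Ideal.mem_span_singleton_self z)
    · apply hzother P hPmem hPP₁
      have : Ideal.span {z} ≤ P := by
        rw [hJ]
        exact Ideal.mul_le_right.trans hle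
      exact this (Ideal.mem_span_singleton_self z)
  have hrel : Ideal.span {Algebra.intNorm D E z} = Q * relNorm D J := by
    rw [← relNorm_singleton, hJ, map_mul, relNorm_eq_pow_of_isPrime_isGalois P₁ Q,
      hf P₁ hP₁max, pow_one]
  have hnotle := nd_relNorm_not_le Q J hJQ
  refine ⟨z, ?_, ?_, ?_⟩
  · have : Ideal.span {Algebra.intNorm D E z} ≤ Q := by
      rw [hrel]
      exact Ideal.mul_le_left
    exact this (Ideal.mem_span_singleton_self _)
  · intro hcon
    apply hnotle
    have h1 : Ideal.span {Algebra.intNorm D E z} ≤ Q ^ 2 :=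
      (Ideal.span_singleton_le_iff_mem _).mpr hcon
    rw [hrel, pow_two, ← Ideal.dvd_iff_le] at h1
    exact Ideal.dvd_iff_le.mp ((mul_dvd_mul_iff_left hQ0).mp h1)
  · intro p hp hcon
    have hpmax := (hs p hp).1
    have hle : relNorm D (Ideal.span {z}) ≤ p := by
      rw [relNorm_singleton]
      exact (Ideal.span_singleton_le_iff_mem _).mpr hcon
    refine nd_relNorm_not_le p (Ideal.span {z}) ?_ hle
    intro P hPprime hPp hle'
    have hPmem : P ∈ PS :=
      Finset.mem_union_right _ (Finset.mem_biUnion.mpr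
        ⟨p, hp, (hfin p).mem_toFinset.mpr ⟨hPprime, hPp⟩⟩)
    have hne : P ≠ P₁ := by
      rintro rfl
      apply (hs p hp).2
      rw [hPp.over, hP₁lies.over]
    exact hzother P hPmem hne (hle' (Ideal.mem_span_singleton_self z))

/-- Inertia degree one from "residue fields agree". -/
theorem nd_inertiaDeg_eq_one_of_residue (P : Ideal E) [hP : P.IsMaximal]
    (hres : ∀ x : E, ∃ d : D, x - algebraMap D E d ∈ P) : P.inertiaDeg D = 1 := by
  have hpmax : (P.under D).IsMaximal := Ideal.IsMaximal.under D P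
  rw [Ideal.inertiaDeg_eq_of_isMaximal (P.under D) P]
  let _ : Field (D ⧸ P.under D) := Ideal.Quotient.field _
  let _ : Field (E ⧸ P) := Ideal.Quotient.field _
  have hsurj : Function.Surjective (algebraMap (D ⧸ P.under D) (E ⧸ P)) := by
    intro y
    obtain ⟨x, rfl⟩ := Ideal.Quotient.mk_surjective y
    obtain ⟨d, hd⟩ := hres x
    refine ⟨Ideal.Quotient.mk _ d, ?_⟩
    rw [Ideal.Quotient.algebraMap_mk_of_liesOver, eq_comm]
    exact Ideal.Quotient.eq.mpr hd
  exact Algebra.finrank_eq_one_iff_bijective_algebraMap.mpr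
    ⟨FaithfulSMul.algebraMap_injective _ _, hsurj⟩

end RelNorm

section Descent

variable {R D E : Type*} [CommRing R] [CommRing D] [IsDedekindDomain D] [Algebra R D]
  [Module.Finite R D] [CommRing E] [IsDedekindDomain E] [Algebra D E] [Module.Finite D E]
  [IsTorsionFree D E] [IsGalois (FractionRing D) (FractionRing E)]

/-- NORM DESCENT (abstract Step 7).  `R ⊆ D` module-finite, `D ⊆ E` finite Galois extension of
Dedekind domains with trivial residue extensions, residue fields of `D` come from `R`, and the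
norm of every element of `E` lies in `R`.  Then `R = D`. -/
theorem nd_surjective (hD : ¬ IsField D)
    (hinj : Function.Injective (algebraMap R D))
    (hres : ∀ 𝔮 : Ideal D, 𝔮.IsMaximal → ∀ s : D, ∃ r : R, s - algebraMap R D r ∈ 𝔮)
    (hf : ∀ P : Ideal E, P.IsMaximal → P.inertiaDeg D = 1)
    (hnorm : ∀ z : E, ∃ r : R, algebraMap R D r = Algebra.intNorm D E z) :
    Function.Surjective (algebraMap R D) := by
  classical
  refine nc29_surjective hinj hres ?_
  intro 𝔮 h𝔮
  have h𝔮0 : 𝔮 ≠ ⊥ := Ring.ne_bot_of_isMaximal_of_not_isField h𝔮 hD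
  have hfin : ((𝔮.comap (algebraMap R D)).primesOver D).Finite :=
    Algebra.QuasiFinite.finite_primesOver _
  let s : Finset (Ideal D) := hfin.toFinset.filter (fun 𝔮' => 𝔮'.IsMaximal ∧ 𝔮' ≠ 𝔮)
  obtain ⟨z, hz1, hz2, hz3⟩ := nd_exists_intNorm_uniformizer (E := E) hf 𝔮 h𝔮0 s
    (fun p hp => (Finset.mem_filter.mp hp).2)
  obtain ⟨t, ht⟩ := hnorm z
  refine ⟨t, ht ▸ hz1, ht ▸ hz2, ?_⟩
  intro 𝔮' h𝔮' hcomap hne
  rw [ht]
  refine hz3 𝔮' (Finset.mem_filter.mpr ⟨hfin.mem_toFinset.mpr ⟨h𝔮'.isPrime, ⟨hcomap.symm⟩⟩,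
    h𝔮', hne⟩)

end Descent

section DescentFields

variable {R D E K M : Type*} [CommRing R] [CommRing D] [IsDedekindDomain D] [Algebra R D]
  [Module.Finite R D] [CommRing E] [IsDedekindDomain E] [Algebra D E] [Module.Finite D E]
  [IsTorsionFree D E]
  [Field K] [Field M] [Algebra D K] [IsFractionRing D K] [Algebra E M] [IsFractionRing E M]
  [Algebra K M] [Algebra D M] [IsScalarTower D K M] [IsScalarTower D E M]

/-- Transfer of the Galois property to the `FractionRing` model. -/
theorem nd_isGalois_fractionRing [IsGalois K M] :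
    IsGalois (FractionRing D) (FractionRing E) := by
  refine IsGalois.of_equiv_equiv (F := K) (E := M)
    (f := (FractionRing.algEquiv D K).symm.toRingEquiv)
    (g := (FractionRing.algEquiv E M).symm.toRingEquiv) ?_
  apply IsLocalization.ringHom_ext (nonZeroDivisors D)
  ext d
  simp only [RingHom.coe_comp, Function.comp_apply, RingHom.coe_coe, AlgEquiv.coe_ringEquiv,
    AlgEquiv.commutes]
  rw [← IsScalarTower.algebraMap_apply D K M, IsScalarTower.algebraMap_apply D E M,
    AlgEquiv.commutes, ← IsScalarTower.algebraMap_apply D (FractionRing D) (FractionRing E),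
    IsScalarTower.algebraMap_apply D E (FractionRing E)]

/-- NORM DESCENT, version with arbitrary models `K = Frac D`, `M = Frac E` and the field norm. -/
theorem nd_surjective_of_fields [FiniteDimensional K M] [IsGalois K M] (hD : ¬ IsField D)
    (hinj : Function.Injective (algebraMap R D))
    (hres : ∀ 𝔮 : Ideal D, 𝔮.IsMaximal → ∀ s : D, ∃ r : R, s - algebraMap R D r ∈ 𝔮)
    (hresE : ∀ P : Ideal E, P.IsMaximal → ∀ x : E, ∃ d : D, x - algebraMap D E d ∈ P)
    (hnorm : ∀ z : E, ∃ r : R,
      algebraMap D K (algebraMap R D r) = Algebra.norm K (algebraMap E M z)) :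
    Function.Surjective (algebraMap R D) := by
  have hG : IsGalois (FractionRing D) (FractionRing E) := nd_isGalois_fractionRing (K := K) (M := M)
  refine nd_surjective (E := E) hD hinj hres
    (fun P hP => nd_inertiaDeg_eq_one_of_residue P (hresE P hP)) ?_
  intro z
  obtain ⟨r, hr⟩ := hnorm z
  refine ⟨r, IsFractionRing.injective D K ?_⟩
  rw [hr, Algebra.algebraMap_intNorm (L := M)]

end DescentFields

end Fermat.Agent.S18x
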