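/-
S18x/NdDescent.lean (helper8): NORM DESCENT of normality, abstract glue (Step 7 of doc
S18_l23_solution_helper57):   NRM at the auxiliary level `Y`  ==>  NRM at level `N`.

Abstract setting.  `F ⊆ F'` finite extension of fields ("`F_N ⊆ F_Y`") with reduction data
`nd_RedPair W W' ρ ρ'` (valuation subrings, residue maps to `Fb ⊆ Fb'`, `[Fb':Fb] = [F':F]`),
subrings `O ⊆ F`, `O' ⊆ F'` ("integral over `A[j]`") with `Norm_{F'/F} O' ⊆ O`;  Dedekind domains
`D` (fraction field `Fb`), `E` (fraction field `Fb'`, finite over `D`, `Fb'/Fb` Galois, trivial residue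
extensions) ("integral closures of `k[jbar]`"), and a base ring `k0` ("`k[jbar]`") over which `D` is
module-finite, whose elements lift to `O ∩ W`, and which surjects onto all residue fields of `D`.

`nd_descent`: if every element of `E` is the reduction of an element of `O' ∩ W'`, then every element
of `D` is the reduction of an element of `O ∩ W`.
-/
import Mathlib
import Fermat.Agent.S18x.NdCore
import Fermat.Agent.S18x.NdNorm

set_option autoImplicit false

namespace Fermat.Agent.S18x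

open Module

section

variable {F F' Fb Fb' : Type*} [Field F] [Field F'] [Field Fb] [Field Fb'] [Algebra F F']
  [Algebra Fb Fb'] {W : ValuationSubring F} {W' : ValuationSubring F'} {ρ : W →+* Fb}
  {ρ' : W' →+* Fb'}
  {D : Type*} [CommRing D] [Algebra D Fb]

/-- The subring of `D` of elements which are reductions of elements of `O ∩ W`. -/
def nd_liftable (ρ : W →+* Fb) (O : Subring F) (D : Type*) [CommRing D] [Algebra D Fb] :
    Subring D where
  carrier := {d | ∃ y : W, (y : F) ∈ O ∧ ρ y = algebraMap D Fb d}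
  mul_mem' := by
    rintro a b ⟨y, hy, hya⟩ ⟨y', hy', hyb⟩
    exact ⟨y * y', O.mul_mem hy hy', by rw [map_mul, map_mul, hya, hyb]⟩
  one_mem' := ⟨1, O.one_mem, by rw [map_one, map_one]⟩
  add_mem' := by
    rintro a b ⟨y, hy, hya⟩ ⟨y', hy', hyb⟩
    exact ⟨y + y', O.add_mem hy hy', by rw [map_add, map_add, hya, hyb]⟩
  zero_mem' := ⟨0, O.zero_mem, by rw [map_zero, map_zero]⟩
  neg_mem' := by
    rintro a ⟨y, hy, hya⟩
    exact ⟨-y, O.neg_mem hy, by rw [map_neg, map_neg, hya]⟩

theorem nd_mem_liftable {O : Subring F} {d : D} :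
    d ∈ nd_liftable ρ O D ↔ ∃ y : W, (y : F) ∈ O ∧ ρ y = algebraMap D Fb d := Iff.rfl

end

section Descent

variable {F F' Fb Fb' : Type*} [Field F] [Field F'] [Field Fb] [Field Fb'] [Algebra F F']
  [Algebra Fb Fb'] {W : ValuationSubring F} {W' : ValuationSubring F'} {ρ : W →+* Fb}
  {ρ' : W' →+* Fb'}
  {k0 D E : Type*} [CommRing k0] [CommRing D] [IsDedekindDomain D] [Algebra k0 D]
  [Module.Finite k0 D] [CommRing E] [IsDedekindDomain E] [Algebra D E] [Module.Finite D E]
  [IsTorsionFree D E] [Algebra D Fb] [IsFractionRing D Fb] [Algebra E Fb'] [IsFractionRing E Fb']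
  [Algebra D Fb'] [IsScalarTower D Fb Fb'] [IsScalarTower D E Fb'] [IsGalois Fb Fb']

/-- NORM DESCENT OF NORMALITY (abstract Step 7). -/
theorem nd_descent (H : nd_RedPair W W' ρ ρ') (O : Subring F) (O' : Subring F')
    (hOnorm : ∀ z ∈ O', Algebra.norm F z ∈ O) (hD : ¬ IsField D)
    (hk0 : ∀ c : k0, ∃ y : W, (y : F) ∈ O ∧ ρ y = algebraMap D Fb (algebraMap k0 D c))
    (hresD : ∀ 𝔮 : Ideal D, 𝔮.IsMaximal → ∀ s : D, ∃ c : k0, s - algebraMap k0 D c ∈ 𝔮)
    (hresE : ∀ P : Ideal E, P.IsMaximal → ∀ x : E, ∃ d : D, x - algebraMap D E d ∈ P)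
    (hY : ∀ e : E, ∃ z : W', (z : F') ∈ O' ∧ ρ' z = algebraMap E Fb' e) :
    ∀ d : D, ∃ y : W, (y : F) ∈ O ∧ ρ y = algebraMap D Fb d := by
  classical
  let Rs : Subring D := nd_liftable ρ O D
  have hk0mem : ∀ c : k0, algebraMap k0 D c ∈ Rs := fun c => hk0 c
  -- `D` is module-finite over `Rs`
  have hfinRs : Module.Finite Rs D := by
    obtain ⟨S, hS⟩ := (Module.Finite.fg_top : (⊤ : Submodule k0 D).FG)
    refine ⟨⟨S, ?_⟩⟩
    rw [eq_top_iff]
    intro x _
    have hx : x ∈ Submodule.span k0 (S : Set D) := hS ▸ Submodule.mem_top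
    refine Submodule.span_induction (p := fun x _ => x ∈ Submodule.span Rs (S : Set D))
      (fun x hx => Submodule.subset_span hx) (Submodule.zero_mem _)
      (fun x y _ _ hx hy => Submodule.add_mem _ hx hy) ?_ hx
    intro c x _ hx
    have : c • x = (⟨algebraMap k0 D c, hk0mem c⟩ : Rs) • x := by
      rw [Algebra.smul_def]
      rfl
    rw [this]
    exact Submodule.smul_mem _ _ hx
  have hpos : 0 < finrank Fb Fb' := by
    have := H.finite
    rw [H.finrank_eq]
    exact finrank_pos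
  have hfin' : FiniteDimensional Fb Fb' := Module.finite_of_finrank_pos hpos
  have hsurj : Function.Surjective (algebraMap Rs D) := by
    refine nd_surjective_of_fields (E := E) (K := Fb) (M := Fb') hD Subtype.val_injective ?_ hresE ?_
    · intro 𝔮 h𝔮 s
      obtain ⟨c, hc⟩ := hresD 𝔮 h𝔮 s
      exact ⟨⟨algebraMap k0 D c, hk0mem c⟩, hc⟩
    · intro e
      obtain ⟨z, hzO, hz⟩ := hY e
      obtain ⟨hN, hρN⟩ := H.norm_reduction z
      have hmem : Algebra.intNorm D E e ∈ Rs := by
        refine ⟨⟨_, hN⟩, hOnorm _ hzO, ?_⟩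
        rw [hρN, hz, Algebra.algebraMap_intNorm (L := Fb')]
      exact ⟨⟨_, hmem⟩, by
        rw [← Algebra.algebraMap_intNorm (A := D) (K := Fb) (L := Fb') (B := E)]
        rfl⟩
  intro d
  obtain ⟨⟨r, hr⟩, rfl⟩ := hsurj d
  exact hr

end Descent

end Fermat.Agent.S18x
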