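/-
S18x/NdsCore.lean (helper85): NORM DESCENT WITHOUT ANY GALOIS (or separability) HYPOTHESIS.

`NdCore.lean` (helper8) proves the abstract Step 7 of doc S18_l23_solution_helper57 under
`[IsGalois (FractionRing D) (FractionRing E)]`; the only use of that hypothesis is Mathlib's
`Ideal.relNorm_eq_pow_of_isPrime_isGalois` (the non-Galois Mathlib version needs `PerfectField`, false
for function fields in characteristic `ℓ`).  When ALL inertia degrees over `p` are `1` (our case:
algebraically closed residue fields) the formula `relNorm D P = p` is elementary: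
`p ^ n = relNorm (p E) = ∏ relNorm (P_i) ^ e_i = p ^ (∑ s_i e_i)` with `s_i ≥ 1`, and
`n = ∑ e_i f_i = ∑ e_i`, hence all `s_i = 1`.

So the auxiliary level may be taken as `F_Y := F_{4N}` (resp. `F_{9N}`) over `F_N` DIRECTLY
(a non-Galois extension), with no `V`-twist and no parity case split.

Main statements (same as `nd_*` minus the Galois instance):
`nds_relNorm_eq_of_inertiaDeg_one`, `nds_exists_intNorm_uniformizer`, `nds_surjective`,
`nds_surjective_of_fields`.
-/
import Mathlib
import Fermat.Agent.S18x.NdCore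

set_option autoImplicit false

namespace Fermat.Agent.S18x

open Ideal Module

attribute [local instance] FractionRing.liftAlgebra

section RelNorm

variable {D E : Type*} [CommRing D] [IsDedekindDomain D] [CommRing E] [IsDedekindDomain E]
  [Algebra D E] [Module.Finite D E] [IsTorsionFree D E]

/-- If every prime of `E` over the maximal ideal `p ≠ ⊥` of `D` has inertia degree one, then the
relative norm of each of them is `p` itself.  No Galois or separability hypothesis. -/
theorem nds_relNorm_eq_of_inertiaDeg_one (p : Ideal D) [hp : p.IsMaximal] (hp0 : p ≠ ⊥)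
    (hf : ∀ P : Ideal E, P.IsMaximal → P.inertiaDeg D = 1)
    (P : Ideal E) [hP : P.IsPrime] [hPp : P.LiesOver p] : relNorm D P = p := by
  classical
  have hfin : (p.primesOver E).Finite := Algebra.QuasiFinite.finite_primesOver p
  let _ : Fintype (p.primesOver E) := hfin.fintype
  -- exponents `s Q` with `relNorm D Q = p ^ s Q`
  have hs : ∀ Q : p.primesOver E, ∃ s : ℕ, relNorm D Q.1 = p ^ s := by
    intro Q
    have : Q.1.IsPrime := Q.2.1
    have : Q.1.LiesOver p := Q.2.2
    exact exists_relNorm_eq_pow_of_isPrime Q.1 p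
  choose s hs using hs
  have hs1 : ∀ Q : p.primesOver E, 1 ≤ s Q := by
    intro Q
    have : Q.1.IsPrime := Q.2.1
    have : Q.1.LiesOver p := Q.2.2
    rw [Nat.one_le_iff_ne_zero]
    intro h0
    have hle : relNorm D Q.1 ≤ p := by
      have := relNorm_le_comap D Q.1
      rwa [← Ideal.under_def, ← Ideal.over_def Q.1 p] at this
    rw [hs Q, h0, pow_zero, Ideal.one_eq_top] at hle
    exact hp.ne_top (top_le_iff.mp hle)
  -- `p ^ n = ∏ relNorm(Q) ^ e_Q = p ^ (∑ s_Q e_Q)`
  have h1 : p ^ finrank D E = p ^ ∑ Q : p.primesOver E, s Q * Q.1.ramificationIdx D := by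
    rw [← relNorm_algebraMap E p, Ideal.map_algebraMap_eq_finsetProd_pow (R := E) hp0, map_prod,
      ← Finset.prod_pow_eq_pow_sum]
    rw [← Finset.prod_set_coe]
    refine Finset.prod_congr rfl ?_
    intro Q _
    rw [map_pow, hs Q, ← pow_mul]
  have h2 : finrank D E = ∑ Q : p.primesOver E, s Q * Q.1.ramificationIdx D := by
    refine ((IsLeftCancelMulZero.mul_left_cancel_of_ne_zero hp0).pow_injective ?_) h1
    rw [Ideal.one_eq_top]
    exact hp.ne_top
  have h3 : ∑ Q : p.primesOver E, Q.1.ramificationIdx D * Q.1.inertiaDeg D = finrank D E :=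
    Ideal.sum_ramification_inertia_eq_finrank p E
  have h4 : ∑ Q : p.primesOver E, Q.1.ramificationIdx D =
      ∑ Q : p.primesOver E, s Q * Q.1.ramificationIdx D := by
    rw [← h2, ← h3]
    refine Finset.sum_congr rfl ?_
    intro Q _
    have : Q.1.IsPrime := Q.2.1
    have : Q.1.LiesOver p := Q.2.2
    have hQmax : Q.1.IsMaximal := IsMaximal.of_liesOver_isMaximal Q.1 p
    rw [hf Q.1 hQmax, mul_one]
  -- each term on the right dominates the one on the left; equality of sums forces termwise equality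
  have hle : ∀ Q ∈ (Finset.univ : Finset (p.primesOver E)),
      Q.1.ramificationIdx D ≤ s Q * Q.1.ramificationIdx D := by
    intro Q _
    exact Nat.le_mul_of_pos_left _ (hs1 Q)
  have heq := (Finset.sum_eq_sum_iff_of_le hle).mp h4
  have hPmem : P ∈ p.primesOver E := ⟨hP, hPp⟩
  have hPeq := heq ⟨P, hPmem⟩ (Finset.mem_univ _)
  have he0 : P.ramificationIdx D ≠ 0 := (Ideal.ramificationIdx_pos (R := D) (q := P)).ne'
  have hsP : s ⟨P, hPmem⟩ = 1 := by
    have h5 : 1 * P.ramificationIdx D = s ⟨P, hPmem⟩ * P.ramificationIdx D := by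
      rw [one_mul]; exact hPeq
    exact (Nat.eq_of_mul_eq_mul_right (Nat.pos_of_ne_zero he0) h5).symm
  have := hs ⟨P, hPmem⟩
  rw [hsP, pow_one] at this
  exact this

/-- NORM DESCENT, local statement: there is `z : E` whose integral norm is a uniformizer at `Q` and
a unit at finitely many other prescribed maximal ideals of `D`. -/
theorem nds_exists_intNorm_uniformizer
    (hf : ∀ P : Ideal E, P.IsMaximal → P.inertiaDeg D = 1)
    (Q : Ideal D) [hQ : Q.IsMaximal] (hQ0 : Q ≠ ⊥)
    (s : Finset (Ideal D)) (hs : ∀ p ∈ s, p.IsMaximal ∧ p ≠ Q) :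
    ∃ z : E, Algebra.intNorm D E z ∈ Q ∧ Algebra.intNorm D E z ∉ Q ^ 2 ∧
      ∀ p ∈ s, Algebra.intNorm D E z ∉ p := by
  classical
  have hinj : Function.Injective (algebraMap D E) := FaithfulSMul.algebraMap_injective D E
  -- a prime `P₁` of `E` over `Q`
  obtain ⟨P₁, hP₁max, hP₁Q⟩ := Ideal.exists_ideal_over_maximal_of_isIntegral (S := E) Q
    (by rw [(RingHom.injective_iff_ker_eq_bot _).mp hinj]; exact bot_le)
  have hP₁lies : P₁.LiesOver Q := ⟨hP₁Q.symm⟩
  have hP₁0 : P₁ ≠ ⊥ := by
    rintro rfl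
    apply hQ0
    rw [← hP₁Q]
    exact Ideal.comap_bot_of_injective _ hinj
  obtain ⟨π, hπ, hπ2⟩ := nd_exists_mem_not_mem_sq P₁ hP₁0
  -- the finite set of primes of `E` over `Q` and over the `p ∈ s`
  have hfin : ∀ p : Ideal D, (p.primesOver E).Finite :=
    fun p => Algebra.QuasiFinite.finite_primesOver p
  let PS : Finset (Ideal E) := (hfin Q).toFinset ∪ s.biUnion (fun p => (hfin p).toFinset)
  have hmaxne : ∀ p : Ideal D, p.IsMaximal → p ≠ ⊥ := by
    rintro p hp rfl
    exact hQ0 (hp.eq_of_le hQ.ne_top bot_le).symm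
  have hover0 : ∀ (p : Ideal D) (P : Ideal E), p.IsMaximal → P.LiesOver p → P ≠ ⊥ := by
    rintro p P hp hP rfl
    apply hmaxne p hp
    rw [hP.over]
    exact Ideal.comap_bot_of_injective _ hinj
  have hPSprime : ∀ P ∈ PS, P.IsPrime ∧ P ≠ ⊥ := by
    intro P hP
    rcases Finset.mem_union.mp hP with h | h
    · have hP' : P ∈ Q.primesOver E := (hfin Q).mem_toFinset.mp h
      exact ⟨hP'.1, hover0 Q P hQ hP'.2⟩
    · obtain ⟨p, hp, hPp⟩ := Finset.mem_biUnion.mp h
      have hP' : P ∈ p.primesOver E := (hfin p).mem_toFinset.mp hPp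
      exact ⟨hP'.1, hover0 p P (hs p hp).1 hP'.2⟩
  -- CRT
  obtain ⟨z, hz⟩ := IsDedekindDomain.exists_forall_sub_mem_ideal (s := PS) (fun P : Ideal E => P)
    (fun P => if P = P₁ then 2 else 1)
    (fun P hP => Ideal.prime_of_isPrime (hPSprime P hP).2 (hPSprime P hP).1)
    (fun P _ P' _ h => h)
    (fun P => if (P : Ideal E) = P₁ then π else 1)
  have hP₁mem : P₁ ∈ PS :=
    Finset.mem_union_left _ ((hfin Q).mem_toFinset.mpr ⟨hP₁max.isPrime, hP₁lies⟩)
  have hzP₁ : z ∈ P₁ := by
    have h1 := hz P₁ hP₁mem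
    simp only [if_true] at h1
    have h2 : z - π ∈ P₁ := Ideal.pow_le_self (by norm_num) h1
    have : z = (z - π) + π := by ring
    rw [this]
    exact P₁.add_mem h2 hπ
  have hzP₁2 : z ∉ P₁ ^ 2 := by
    intro hcon
    have h1 := hz P₁ hP₁mem
    simp only [if_true] at h1
    apply hπ2
    have : π = z - (z - π) := by ring
    rw [this]
    exact (P₁ ^ 2).sub_mem hcon h1
  have hzother : ∀ P ∈ PS, P ≠ P₁ → z ∉ P := by
    intro P hP hne hcon
    have h1 := hz P hP
    simp only [if_neg hne, pow_one] at h1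
    have h1' : (1 : E) ∈ P := by
      have : (1 : E) = z - (z - 1) := by ring
      rw [this]
      exact P.sub_mem hcon h1
    exact (hPSprime P hP).1.ne_top ((Ideal.eq_top_iff_one P).mpr h1')
  -- factor `(z) = P₁ * J`
  obtain ⟨J, hJ⟩ : P₁ ∣ Ideal.span {z} :=
    Ideal.dvd_iff_le.mpr ((Ideal.span_singleton_le_iff_mem P₁).mpr hzP₁)
  have hJQ : ∀ P : Ideal E, P.IsPrime → P.LiesOver Q → ¬ J ≤ P := by
    intro P hPprime hPQ hle
    have hPmem : P ∈ PS :=
      Finset.mem_union_left _ ((hfin Q).mem_toFinset.mpr ⟨hPprime, hPQ⟩)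
    by_cases hPP₁ : P = P₁
    · subst hPP₁
      apply hzP₁2
      have : Ideal.span {z} ≤ P ^ 2 := by
        rw [hJ, pow_two]
        exact Ideal.mul_mono_right hle
      exact this (Ideal.mem_span_singleton_self z)
    · apply hzother P hPmem hPP₁
      have : Ideal.span {z} ≤ P := by
        rw [hJ]
        exact Ideal.mul_le_right.trans hle
      exact this (Ideal.mem_span_singleton_self z)
  have hrel : Ideal.span {Algebra.intNorm D E z} = Q * relNorm D J := by
    rw [← relNorm_singleton, hJ, map_mul, nds_relNorm_eq_of_inertiaDeg_one Q hQ0 hf P₁]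
  have hnotle := nd_relNorm_not_le Q J hJQ
  refine ⟨z, ?_, ?_, ?_⟩
  · have : Ideal.span {Algebra.intNorm D E z} ≤ Q := by
      rw [hrel]
      exact Ideal.mul_le_left
    exact this (Ideal.mem_span_singleton_self _)
  · intro hcon
    apply hnotle
    have h1 : Ideal.span {Algebra.intNorm D E z} ≤ Q ^ 2 :=
      (Ideal.span_singleton_le_iff_mem _).mpr hcon
    rw [hrel, pow_two, ← Ideal.dvd_iff_le] at h1
    exact Ideal.dvd_iff_le.mp ((mul_dvd_mul_iff_left hQ0).mp h1)
  · intro p hp hcon
    have hpmax := (hs p hp).1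
    have hle : relNorm D (Ideal.span {z}) ≤ p := by
      rw [relNorm_singleton]
      exact (Ideal.span_singleton_le_iff_mem _).mpr hcon
    refine nd_relNorm_not_le p (Ideal.span {z}) ?_ hle
    intro P hPprime hPp hle'
    have hPmem : P ∈ PS :=
      Finset.mem_union_right _ (Finset.mem_biUnion.mpr
        ⟨p, hp, (hfin p).mem_toFinset.mpr ⟨hPprime, hPp⟩⟩)
    have hne : P ≠ P₁ := by
      rintro rfl
      apply (hs p hp).2
      rw [hPp.over, hP₁lies.over]
    exact hzother P hPmem hne (hle' (Ideal.mem_span_singleton_self z))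

end RelNorm

section Descent

variable {R D E : Type*} [CommRing R] [CommRing D] [IsDedekindDomain D] [Algebra R D]
  [Module.Finite R D] [CommRing E] [IsDedekindDomain E] [Algebra D E] [Module.Finite D E]
  [IsTorsionFree D E]

/-- NORM DESCENT (abstract Step 7).  `R ⊆ D` module-finite, `D ⊆ E` finite extension of
Dedekind domains with trivial residue extensions, residue fields of `D` come from `R`, and the
norm of every element of `E` lies in `R`.  Then `R = D`. -/
theorem nds_surjective (hD : ¬ IsField D)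
    (hinj : Function.Injective (algebraMap R D))
    (hres : ∀ 𝔮 : Ideal D, 𝔮.IsMaximal → ∀ s : D, ∃ r : R, s - algebraMap R D r ∈ 𝔮)
    (hf : ∀ P : Ideal E, P.IsMaximal → P.inertiaDeg D = 1)
    (hnorm : ∀ z : E, ∃ r : R, algebraMap R D r = Algebra.intNorm D E z) :
    Function.Surjective (algebraMap R D) := by
  classical
  refine nc29_surjective hinj hres ?_
  intro 𝔮 h𝔮
  have h𝔮0 : 𝔮 ≠ ⊥ := Ring.ne_bot_of_isMaximal_of_not_isField h𝔮 hD
  have hfin : ((𝔮.comap (algebraMap R D)).primesOver D).Finite :=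
    Algebra.QuasiFinite.finite_primesOver _
  let s : Finset (Ideal D) := hfin.toFinset.filter (fun 𝔮' => 𝔮'.IsMaximal ∧ 𝔮' ≠ 𝔮)
  obtain ⟨z, hz1, hz2, hz3⟩ := nds_exists_intNorm_uniformizer (E := E) hf 𝔮 h𝔮0 s
    (fun p hp => (Finset.mem_filter.mp hp).2)
  obtain ⟨t, ht⟩ := hnorm z
  refine ⟨t, ht ▸ hz1, ht ▸ hz2, ?_⟩
  intro 𝔮' h𝔮' hcomap hne
  rw [ht]
  refine hz3 𝔮' (Finset.mem_filter.mpr ⟨hfin.mem_toFinset.mpr ⟨h𝔮'.isPrime, ⟨hcomap.symm⟩⟩,
    h𝔮', hne⟩)

end Descent

section DescentFields

variable {R D E K M : Type*} [CommRing R] [CommRing D] [IsDedekindDomain D] [Algebra R D]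
  [Module.Finite R D] [CommRing E] [IsDedekindDomain E] [Algebra D E] [Module.Finite D E]
  [IsTorsionFree D E]
  [Field K] [Field M] [Algebra D K] [IsFractionRing D K] [Algebra E M] [IsFractionRing E M]
  [Algebra K M] [Algebra D M] [IsScalarTower D K M] [IsScalarTower D E M]

/-- NORM DESCENT, version with arbitrary models `K = Frac D`, `M = Frac E` and the field norm. -/
theorem nds_surjective_of_fields [FiniteDimensional K M] (hD : ¬ IsField D)
    (hinj : Function.Injective (algebraMap R D))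
    (hres : ∀ 𝔮 : Ideal D, 𝔮.IsMaximal → ∀ s : D, ∃ r : R, s - algebraMap R D r ∈ 𝔮)
    (hresE : ∀ P : Ideal E, P.IsMaximal → ∀ x : E, ∃ d : D, x - algebraMap D E d ∈ P)
    (hnorm : ∀ z : E, ∃ r : R,
      algebraMap D K (algebraMap R D r) = Algebra.norm K (algebraMap E M z)) :
    Function.Surjective (algebraMap R D) := by
  refine nds_surjective (E := E) hD hinj hres
    (fun P hP => nd_inertiaDeg_eq_one_of_residue P (hresE P hP)) ?_
  intro z
  obtain ⟨r, hr⟩ := hnorm z
  refine ⟨r, IsFractionRing.injective D K ?_⟩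
  rw [hr, Algebra.algebraMap_intNorm (L := M)]

end DescentFields

end Fermat.Agent.S18x
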