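/-
S18x/NdsDescent.lean (helper85): NORM DESCENT of normality WITHOUT the Galois hypothesis.

`nds_descent` is verbatim `nd_descent` (helper8, S18x/NdDescent.lean) with the instance
`[IsGalois Fb Fb']` REMOVED (and no separability assumption either); it rests on
`nds_surjective_of_fields` (S18x/NdsCore.lean), where the relative-norm formula `relNorm D P = p` is
proved elementarily from "all inertia degrees are one".

Consequence for the S18 plan: the auxiliary level can be `F_Y := F_{4N}` (`ℓ` odd) resp. `F_{9N}`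
(`ℓ = 2`) over `F_N` DIRECTLY (a non-Galois extension): no `V`-twist `q ↦ q²`, no compositum
`V(F_N) · ℚ(X3)`, no case split on `gcd(N, 2)` resp. `gcd(N, 3)`.
-/
import Mathlib
import Fermat.Agent.S18x.NdsCore
import Fermat.Agent.S18x.NdDescent

set_option autoImplicit false

namespace Fermat.Agent.S18x

open Module

section Descent

variable {F F' Fb Fb' : Type*} [Field F] [Field F'] [Field Fb] [Field Fb'] [Algebra F F']
  [Algebra Fb Fb'] {W : ValuationSubring F} {W' : ValuationSubring F'} {ρ : W →+* Fb}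
  {ρ' : W' →+* Fb'}
  {k0 D E : Type*} [CommRing k0] [CommRing D] [IsDedekindDomain D] [Algebra k0 D]
  [Module.Finite k0 D] [CommRing E] [IsDedekindDomain E] [Algebra D E] [Module.Finite D E]
  [IsTorsionFree D E] [Algebra D Fb] [IsFractionRing D Fb] [Algebra E Fb'] [IsFractionRing E Fb']
  [Algebra D Fb'] [IsScalarTower D Fb Fb'] [IsScalarTower D E Fb']

/-- NORM DESCENT OF NORMALITY (abstract Step 7), WITHOUT any Galois hypothesis on `Fb' / Fb`:
verbatim `nd_descent` (helper8) minus `[IsGalois Fb Fb']`. -/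
theorem nds_descent (H : nd_RedPair W W' ρ ρ') (O : Subring F) (O' : Subring F')
    (hOnorm : ∀ z ∈ O', Algebra.norm F z ∈ O) (hD : ¬ IsField D)
    (hk0 : ∀ c : k0, ∃ y : W, (y : F) ∈ O ∧ ρ y = algebraMap D Fb (algebraMap k0 D c))
    (hresD : ∀ 𝔮 : Ideal D, 𝔮.IsMaximal → ∀ s : D, ∃ c : k0, s - algebraMap k0 D c ∈ 𝔮)
    (hresE : ∀ P : Ideal E, P.IsMaximal → ∀ x : E, ∃ d : D, x - algebraMap D E d ∈ P)
    (hY : ∀ e : E, ∃ z : W', (z : F') ∈ O' ∧ ρ' z = algebraMap E Fb' e) :
    ∀ d : D, ∃ y : W, (y : F) ∈ O ∧ ρ y = algebraMap D Fb d := by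
  classical
  let Rs : Subring D := nd_liftable ρ O D
  have hk0mem : ∀ c : k0, algebraMap k0 D c ∈ Rs := fun c => hk0 c
  -- `D` is module-finite over `Rs`
  have hfinRs : Module.Finite Rs D := by
    obtain ⟨S, hS⟩ := (Module.Finite.fg_top : (⊤ : Submodule k0 D).FG)
    refine ⟨⟨S, ?_⟩⟩
    rw [eq_top_iff]
    intro x _
    have hx : x ∈ Submodule.span k0 (S : Set D) := hS ▸ Submodule.mem_top
    refine Submodule.span_induction (p := fun x _ => x ∈ Submodule.span Rs (S : Set D))
      (fun x hx => Submodule.subset_span hx) (Submodule.zero_mem _)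
      (fun x y _ _ hx hy => Submodule.add_mem _ hx hy) ?_ hx
    intro c x _ hx
    have : c • x = (⟨algebraMap k0 D c, hk0mem c⟩ : Rs) • x := by
      rw [Algebra.smul_def]
      rfl
    rw [this]
    exact Submodule.smul_mem _ _ hx
  have hpos : 0 < finrank Fb Fb' := by
    have := H.finite
    rw [H.finrank_eq]
    exact finrank_pos
  have hfin' : FiniteDimensional Fb Fb' := Module.finite_of_finrank_pos hpos
  have hsurj : Function.Surjective (algebraMap Rs D) := by
    refine nds_surjective_of_fields (E := E) (K := Fb) (M := Fb') hD Subtype.val_injective ?_ hresE ?_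
    · intro 𝔮 h𝔮 s
      obtain ⟨c, hc⟩ := hresD 𝔮 h𝔮 s
      exact ⟨⟨algebraMap k0 D c, hk0mem c⟩, hc⟩
    · intro e
      obtain ⟨z, hzO, hz⟩ := hY e
      obtain ⟨hN, hρN⟩ := H.norm_reduction z
      have hmem : Algebra.intNorm D E e ∈ Rs := by
        refine ⟨⟨_, hN⟩, hOnorm _ hzO, ?_⟩
        rw [hρN, hz, Algebra.algebraMap_intNorm (L := Fb')]
      exact ⟨⟨_, hmem⟩, by
        rw [← Algebra.algebraMap_intNorm (A := D) (K := Fb) (L := Fb') (B := E)]
        rfl⟩
  intro d
  obtain ⟨⟨r, hr⟩, rfl⟩ := hsurj d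
  exact hr

end Descent

end Fermat.Agent.S18x
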