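/-
S18x/NrnCoreS.lean (helper8, row N8a): the three main theorems of S18x/NrnCore.lean WITHOUT the Galois
hypothesis: `[IsGalois Fb Fb']` is replaced by `[Algebra.IsSeparable Fb Fb']`, and helper85's
`nds_descent` (S18x/NdsDescent.lean, elementary relative-norm formula for inertia degree one)
replaces `nd_descent`.  So the auxiliary level may be `F_{4N} ⊇ F_N` (resp. `F_{9N}`) directly.

* `nrns_descent`        : NRM (ring form, `nrn_NRM`) at the upper level ==> NRM at the lower level;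
* `nrns_descent_places` : the same in place form (`adicValuation ≤ 1`);
* `nrns_N0_descent`     : the same in the exact `0 ≤ ord` form of (N0) of `s18_plan` row GE2.
-/
import Mathlib
import Fermat.Agent.S18x.NrnCore
import Fermat.Agent.S18x.NdsDescent
import Fermat.Agent.S18x.NrmDict

set_option autoImplicit false

namespace Fermat.Agent.S18x

open AlgebraicCurve IntermediateField Polynomial
open Fermat.Agent.S24x

section Main

variable {L k F F' Fb Fb' : Type*} [Field L] [Field k] [Field F] [Field F'] [Field Fb] [Field Fb']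
  [Algebra L F] [Algebra L F'] [Algebra F F'] [IsScalarTower L F F']
  [Algebra k Fb] [Algebra k Fb'] [Algebra Fb Fb'] [IsScalarTower k Fb Fb']
  {A : ValuationSubring L} {π : A →+* k} {W : ValuationSubring F} {W' : ValuationSubring F'}
  {ρ : W →+* Fb} {ρ' : W' →+* Fb'}

/-- Auxiliary form of `nrn_descent` with abstract models `k0 → D → E` of
`k[x̄] ⊆ (integral closure in Fb) ⊆ (integral closure in Fb')`. -/
theorem nrns_descent_aux [IsAlgClosed k] (H : nd_RedPair W W' ρ ρ')
    (hmem : ∀ c : L, algebraMap L F c ∈ W ↔ c ∈ A)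
    (hρalg : ∀ (c : L) (hc : c ∈ A) (hW : algebraMap L F c ∈ W),
      ρ ⟨algebraMap L F c, hW⟩ = algebraMap k Fb (π ⟨c, hc⟩))
    (hπ : Function.Surjective π)
    (x : W) (x' : W') (hx' : (x' : F') = algebraMap F F' (x : F))
    {k0 D E : Type*} [CommRing k0] [CommRing D] [IsDedekindDomain D] [Algebra k0 D]
    [Module.Finite k0 D] [CommRing E] [IsDedekindDomain E] [Algebra D E] [Module.Finite D E]
    [Module.IsTorsionFree D E] [Algebra D Fb] [IsFractionRing D Fb] [Algebra E Fb']
    [IsFractionRing E Fb'] [Algebra D Fb'] [IsScalarTower D Fb Fb'] [IsScalarTower D E Fb']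
    [Algebra k k0] [Algebra k D] [Algebra k E] [IsScalarTower k k0 D] [IsScalarTower k D E]
    [Algebra.FiniteType k D] [Algebra.FiniteType k E]
    (hDnf : ¬ IsField D)
    (hk0 : ∀ c : k0, algebraMap D Fb (algebraMap k0 D c) ∈ Algebra.adjoin k {ρ x})
    (hDsurj : ∀ y : Fb, IsIntegral (Algebra.adjoin k {ρ x}) y → ∃ d : D, algebraMap D Fb d = y)
    (hEint : ∀ e : E, IsIntegral (Algebra.adjoin k {ρ x}) (algebraMap E Fb' e))
    (hY : nrn_NRM L k ρ' x') : nrn_NRM L k ρ x := by
  classical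
  have hρx' : ρ' x' = algebraMap Fb Fb' (ρ x) := by
    have h1 : x' = ⟨algebraMap F F' (x : F), (H.mem_iff _).mpr x.2⟩ := Subtype.ext hx'
    rw [h1]
    exact H.compat _ x.2 _
  -- the subrings of integral elements in characteristic zero
  let O : Subring F := (integralClosure (Algebra.adjoin L {(x : F)}) F).toSubring
  let O' : Subring F' := (integralClosure (Algebra.adjoin L {(x : F)}) F').toSubring
  have hOnorm : ∀ z ∈ O', Algebra.norm F z ∈ O := by
    intro z hz
    have hz' : IsIntegral (Algebra.adjoin L {(x : F)}) z := hz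
    exact Algebra.isIntegral_norm F hz'
  have hk0' : ∀ c : k0, ∃ y : W, (y : F) ∈ O ∧ ρ y = algebraMap D Fb (algebraMap k0 D c) := by
    intro c
    obtain ⟨y, hy, hρy⟩ := nrn_lift_adjoin hmem hρalg hπ x _ (hk0 c)
    refine ⟨y, ?_, hρy⟩
    have : IsIntegral (Algebra.adjoin L {(x : F)}) (y : F) := by
      have h1 : (y : F) = algebraMap (Algebra.adjoin L {(x : F)}) F ⟨(y : F), hy⟩ := rfl
      rw [h1]
      exact isIntegral_algebraMap
    exact this
  have hresD : ∀ 𝔮 : Ideal D, 𝔮.IsMaximal → ∀ s : D, ∃ c : k0, s - algebraMap k0 D c ∈ 𝔮 := by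
    intro 𝔮 h𝔮 s
    obtain ⟨a, ha⟩ := nrn_exists_const_sub_mem (k := k) 𝔮 h𝔮 s
    refine ⟨algebraMap k k0 a, ?_⟩
    rwa [← IsScalarTower.algebraMap_apply k k0 D]
  have hresE : ∀ P : Ideal E, P.IsMaximal → ∀ z : E, ∃ d : D, z - algebraMap D E d ∈ P := by
    intro P hP z
    obtain ⟨a, ha⟩ := nrn_exists_const_sub_mem (k := k) P hP z
    refine ⟨algebraMap k D a, ?_⟩
    rwa [← IsScalarTower.algebraMap_apply k D E]
  have hYE : ∀ e : E, ∃ z : W', (z : F') ∈ O' ∧ ρ' z = algebraMap E Fb' e := by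
    intro e
    have h3 : IsIntegral (Algebra.adjoin k {ρ' x'}) (algebraMap E Fb' e) := by
      rw [hρx']
      exact (nrn_isIntegral_adjoin_iff (K := k) (ρ x) (algebraMap E Fb' e)).mp (hEint e)
    obtain ⟨u', hu', hρu'⟩ := hY _ h3
    refine ⟨u', ?_, hρu'⟩
    rw [hx'] at hu'
    exact (nrn_isIntegral_adjoin_iff (K := L) (x : F) (u' : F')).mpr hu'
  have key := nds_descent (k0 := k0) (D := D) (E := E) H O O' hOnorm hDnf hk0' hresD hresE hYE
  intro y hy
  obtain ⟨d, rfl⟩ := hDsurj y hy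
  obtain ⟨u, hu, hρu⟩ := key d
  exact ⟨u, hu, hρu⟩

set_option synthInstance.maxHeartbeats 400000 in
set_option maxHeartbeats 1000000 in
open scoped IntermediateField.algebraAdjoinAdjoin in
/-- **NORM DESCENT OF NORMALITY, function-field form.**  `F' / F` finite with reduction data
`nd_RedPair` (`[Fb':Fb] = [F':F]`), `Fb' / Fb` separable (NOT necessarily Galois), `ρ x` a separable coordinate of `Fb / k`,
`k` algebraically closed, constants reduce through `π : A → k`.  Then normality of the reduction on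
the finite chart of `x` at the upper level implies normality at the lower level. -/
theorem nrns_descent [IsAlgClosed k] (H : nd_RedPair W W' ρ ρ')
    (hmem : ∀ c : L, algebraMap L F c ∈ W ↔ c ∈ A)
    (hρalg : ∀ (c : L) (hc : c ∈ A) (hW : algebraMap L F c ∈ W),
      ρ ⟨algebraMap L F c, hW⟩ = algebraMap k Fb (π ⟨c, hc⟩))
    (hπ : Function.Surjective π)
    (x : W) (x' : W') (hx' : (x' : F') = algebraMap F F' (x : F))
    [FFData k Fb (ρ x)] [Algebra.IsSeparable k⟮ρ x⟯ Fb] [Algebra.IsSeparable Fb Fb']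
    (hY : nrn_NRM L k ρ' x') : nrn_NRM L k ρ x := by
  classical
  have hpos : 0 < Module.finrank Fb Fb' := by
    have := H.finite
    rw [H.finrank_eq]
    exact Module.finrank_pos
  have hfin' : FiniteDimensional Fb Fb' := Module.finite_of_finrank_pos hpos
  let k0 := ringA k (ρ x)
  let D := ringB k (ρ x)
  have hDed : IsDedekindDomain D := cp15_isDedekindDomain_ringB (K := k) (ρ x)
  have hfinD : Module.Finite k0 D := cp15_finite_ringB (K := k) (ρ x)
  let E := integralClosure D Fb'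
  have hEded : IsDedekindDomain E := integralClosure.isDedekindDomain D Fb Fb'
  have hEfrac : IsFractionRing E Fb' := integralClosure.isFractionRing_of_finite_extension Fb Fb'
  have hEfin : Module.Finite D E := IsIntegralClosure.finite D Fb Fb' E
  have htf1 : Module.IsTorsionFree D Fb' := .trans_faithfulSMul D Fb Fb'
  have htf2 : Module.IsTorsionFree D E := inferInstance
  have htr : Transcendental k (ρ x) := FFData.transc
  let e0 : k[X] ≃ₐ[k] k0 := Polynomial.algEquivOfTranscendental k (ρ x) htr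
  have hk0nf : ¬ IsField k0 := fun h => Polynomial.not_isField k (e0.toMulEquiv.isField h)
  have hDnf : ¬ IsField D := by
    intro h
    apply hk0nf
    have hint : Algebra.IsIntegral k0 D := inferInstance
    exact isField_of_isIntegral_of_isField (FaithfulSMul.algebraMap_injective k0 D) h
  have hftk0 : Algebra.FiniteType k k0 :=
    Algebra.FiniteType.equiv (inferInstance : Algebra.FiniteType k k[X]) e0
  have hftD : Algebra.FiniteType k D :=
    Algebra.FiniteType.trans hftk0 (inferInstance : Algebra.FiniteType k0 D)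
  have hftE : Algebra.FiniteType k E :=
    Algebra.FiniteType.trans hftD (inferInstance : Algebra.FiniteType D E)
  refine nrns_descent_aux (k0 := k0) (D := D) (E := E) H hmem hρalg hπ x x' hx' hDnf ?_ ?_ ?_ hY
  · intro c
    exact c.2
  · intro y hy
    exact ⟨⟨y, hy⟩, rfl⟩
  · intro e
    have h1 : IsIntegral D (e : Fb') := e.2
    exact isIntegral_trans (R := k0) (e : Fb') h1

end Main

section MainPlaces

variable {L k F F' Fb Fb' : Type*} [Field L] [Field k] [Field F] [Field F'] [Field Fb] [Field Fb']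
  [Algebra L F] [Algebra L F'] [Algebra F F'] [IsScalarTower L F F']
  [Algebra k Fb] [Algebra k Fb'] [Algebra Fb Fb'] [IsScalarTower k Fb Fb']
  {A : ValuationSubring L} {π : A →+* k} {W : ValuationSubring F} {W' : ValuationSubring F'}
  {ρ : W →+* Fb} {ρ' : W' →+* Fb'}

/-- **NORM DESCENT OF NORMALITY, place form**: from `hN0` at the upper level to `hN0` at the lower
level. -/
theorem nrns_descent_places [IsAlgClosed k] (H : nd_RedPair W W' ρ ρ')
    (hmem : ∀ c : L, algebraMap L F c ∈ W ↔ c ∈ A)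
    (hρalg : ∀ (c : L) (hc : c ∈ A) (hW : algebraMap L F c ∈ W),
      ρ ⟨algebraMap L F c, hW⟩ = algebraMap k Fb (π ⟨c, hc⟩))
    (hπ : Function.Surjective π)
    (x : W) (x' : W') (hx' : (x' : F') = algebraMap F F' (x : F))
    (hxF : cp15_IsSepCoordinate L F (x : F)) (hxF' : cp15_IsSepCoordinate L F' (x' : F'))
    (hxb : cp15_IsSepCoordinate k Fb (ρ x)) (hxb' : cp15_IsSepCoordinate k Fb' (ρ' x'))
    [Algebra.IsSeparable Fb Fb']
    (hY : ∀ y : Fb', (∀ Q : Place k Fb', Q.adicValuation (ρ' x') ≤ 1 → Q.adicValuation y ≤ 1) →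
        ∃ u : W', (∀ P : Place L F', P.adicValuation (x' : F') ≤ 1 → P.adicValuation (u : F') ≤ 1) ∧
          ρ' u = y) :
    ∀ y : Fb, (∀ Q : Place k Fb, Q.adicValuation (ρ x) ≤ 1 → Q.adicValuation y ≤ 1) →
        ∃ u : W, (∀ P : Place L F, P.adicValuation (x : F) ≤ 1 → P.adicValuation (u : F) ≤ 1) ∧
          ρ u = y := by
  have : FFData k Fb (ρ x) := cp15_ffData hxb
  have : Algebra.IsSeparable k⟮ρ x⟯ Fb := hxb.sep
  rw [← nrn_NRM_iff_places hxF hxb]
  exact nrns_descent H hmem hρalg hπ x x' hx' ((nrn_NRM_iff_places hxF' hxb').mpr hY)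

/-- `nrn_NRM` is exactly (N0) of `s18_plan` row GE2 (`0 ≤ ord` form). -/
theorem nrns_NRM_iff_N0 {x : W} (hxF : pls_IsSepCoordinate L F (x : F))
    (hxb : pls_IsSepCoordinate k Fb (ρ x)) :
    nrn_NRM L k ρ x ↔
      ∀ yb : Fb, (∀ Q : Place k Fb, 0 ≤ Q.ord (ρ x) → 0 ≤ Q.ord yb) →
        ∃ u : W, ρ u = yb ∧ ∀ P : Place L F, 0 ≤ P.ord (x : F) → 0 ≤ P.ord (u : F) := by
  unfold nrn_NRM
  simp only [← nrd_regular_iff hxF, ← nrd_regular_iff hxb]
  constructor
  · intro h yb hyb
    obtain ⟨u, hu, hρ⟩ := h yb hyb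
    exact ⟨u, hρ, hu⟩
  · intro h yb hyb
    obtain ⟨u, hρ, hu⟩ := h yb hyb
    exact ⟨u, hu, hρ⟩

/-- **(N0) at the auxiliary level ==> (N0) at level N**, exact GE2 shape on both sides. -/
theorem nrns_N0_descent [IsAlgClosed k] (H : nd_RedPair W W' ρ ρ')
    (hmem : ∀ c : L, algebraMap L F c ∈ W ↔ c ∈ A)
    (hρalg : ∀ (c : L) (hc : c ∈ A) (hW : algebraMap L F c ∈ W),
      ρ ⟨algebraMap L F c, hW⟩ = algebraMap k Fb (π ⟨c, hc⟩))
    (hπ : Function.Surjective π)
    (x : W) (x' : W') (hx' : (x' : F') = algebraMap F F' (x : F))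
    (hxF : pls_IsSepCoordinate L F (x : F)) (hxF' : pls_IsSepCoordinate L F' (x' : F'))
    (hxb : pls_IsSepCoordinate k Fb (ρ x)) (hxb' : pls_IsSepCoordinate k Fb' (ρ' x'))
    [Algebra.IsSeparable Fb Fb']
    (hY : ∀ yb : Fb', (∀ Q : Place k Fb', 0 ≤ Q.ord (ρ' x') → 0 ≤ Q.ord yb) →
        ∃ u : W', ρ' u = yb ∧ ∀ P : Place L F', 0 ≤ P.ord (x' : F') → 0 ≤ P.ord (u : F')) :
    ∀ yb : Fb, (∀ Q : Place k Fb, 0 ≤ Q.ord (ρ x) → 0 ≤ Q.ord yb) →
        ∃ u : W, ρ u = yb ∧ ∀ P : Place L F, 0 ≤ P.ord (x : F) → 0 ≤ P.ord (u : F) := by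
  have : FFData k Fb (ρ x) := cp15_ffData (nrd_cp15_of_pls hxb)
  have : Algebra.IsSeparable k⟮ρ x⟯ Fb := hxb.sep
  rw [← nrns_NRM_iff_N0 hxF hxb]
  exact nrns_descent H hmem hρalg hπ x x' hx' ((nrns_NRM_iff_N0 hxF' hxb').mpr hY)

end MainPlaces

end Fermat.Agent.S18x
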