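/-
S18x/NrmNFinal.lean (helper8, row N8a, prefix `nrnf_`): the CONCRETE norm-descent wiring.

For levels `N ∣ M` (`M = 4N` for `ℓ` odd, `M = 9N` for `ℓ = 2`, or any multiple of `N` prime to
`ℓ`), normality of the reduction on the finite chart of `j` at level `M` (`hY`, row N6) gives
`hInt0` at level `N` for the CANONICAL Gauss pair `(s18f_W, s18f_rho)`, in the literal shape of
the hypothesis `hInt0` of `nig_normality_of_int0_onto` (S18x/NrmFinalOfInt.lean).

* `nrnf_hInt0_of_redPair` : from ANY upper pair `(W', ρ', J')` with an `nd_RedPair` over the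
  canonical lower pair (inclusion algebras);
* `nrnf_hInt0`            : the same for the `h`-free Gauss pair at level `M`
  (`gwm_W (gnf_normal_form A π M)`, `gwmi_rho`).
-/
import Mathlib
import Fermat.Agent.S18x.NrnCoreS
import Fermat.Agent.S18x.NrmNCoord
import Fermat.Agent.S18x.AssemblyFinal
import Fermat.Agent.S18x.GaussWM4

set_option autoImplicit false
set_option synthInstance.maxHeartbeats 400000
set_option linter.style.haveILetI false

namespace Fermat.Agent.S18x

open AlgebraicCurve ModularCurve IntermediateField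
open Fermat.Agent.S24x

noncomputable section

section Layer1

variable (N : ℕ) [NeZero N] (A : ValuationSubring (AlgebraicClosure ℚ))
  (h : ModularCurve.ReductionInputsModL A N)

set_option maxHeartbeats 1000000 in
/-- **`hInt0` at level `N` from normality at level `M`**, for an arbitrary upper pair. -/
theorem nrnf_hInt0_of_redPair {M : ℕ} [NeZero M]
    (hF : modularFunctionFieldBar N ≤ modularFunctionFieldBar M)
    (hFb : modularFunctionFieldFullC (IsLocalRing.ResidueField A) N ≤
      modularFunctionFieldFullC (IsLocalRing.ResidueField A) M)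
    (W' : ValuationSubring (modularFunctionFieldBar M))
    (ρ' : W' →+* modularFunctionFieldFullC (IsLocalRing.ResidueField A) M)
    (H : @nd_RedPair ↥(modularFunctionFieldBar N) ↥(modularFunctionFieldBar M)
      ↥(modularFunctionFieldFullC (IsLocalRing.ResidueField A) N)
      ↥(modularFunctionFieldFullC (IsLocalRing.ResidueField A) M) _ _ _ _
      (IntermediateField.inclusion hF).toAlgebra (IntermediateField.inclusion hFb).toAlgebra
      (s18f_W N A h) W' (s18f_rho N A h) ρ')
    (J' : W') (hJ' : (J' : modularFunctionFieldBar M) = jBar M)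
    (hY : nrn_NRM (AlgebraicClosure ℚ) (IsLocalRing.ResidueField A) ρ' J') :
    ∀ yb : modularFunctionFieldFullC (IsLocalRing.ResidueField A) N,
      IsIntegral (Algebra.adjoin (IsLocalRing.ResidueField A)
        {pls_jb (IsLocalRing.ResidueField A) N}) yb →
      ∃ u : s18f_W N A h, s18f_rho N A h u = yb ∧
        IsIntegral (Algebra.adjoin (AlgebraicClosure ℚ) {jBar N})
          (u : modularFunctionFieldBar N) := by
  have hk : IsAlgClosed (IsLocalRing.ResidueField A) := s18a_isAlgClosed_residue A
  have HH := s18f_hyp N A h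
  letI : Algebra ↥(modularFunctionFieldBar N) ↥(modularFunctionFieldBar M) :=
    (IntermediateField.inclusion hF).toAlgebra
  letI : Algebra ↥(modularFunctionFieldFullC (IsLocalRing.ResidueField A) N)
      ↥(modularFunctionFieldFullC (IsLocalRing.ResidueField A) M) :=
    (IntermediateField.inclusion hFb).toAlgebra
  haveI : IsScalarTower (AlgebraicClosure ℚ) ↥(modularFunctionFieldBar N)
      ↥(modularFunctionFieldBar M) := nnc_isScalarTower_inclusion hF
  haveI : IsScalarTower (IsLocalRing.ResidueField A)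
      ↥(modularFunctionFieldFullC (IsLocalRing.ResidueField A) N)
      ↥(modularFunctionFieldFullC (IsLocalRing.ResidueField A) M) :=
    nnc_isScalarTower_inclusion hFb
  haveI : Algebra.IsSeparable ↥(modularFunctionFieldFullC (IsLocalRing.ResidueField A) N)
      ↥(modularFunctionFieldFullC (IsLocalRing.ResidueField A) M) :=
    nnc_isSeparable_Fb (IsLocalRing.ResidueField A) hFb
  have hρJ := s18f_rho_J N A h
  have hxb : pls_IsSepCoordinate (IsLocalRing.ResidueField A)
      (modularFunctionFieldFullC (IsLocalRing.ResidueField A) N)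
      (s18f_rho N A h (s18f_J N A h)) := by
    rw [hρJ]
    exact nnc_sepCoord_Fb (IsLocalRing.ResidueField A) N
  haveI : FFData (IsLocalRing.ResidueField A)
      (modularFunctionFieldFullC (IsLocalRing.ResidueField A) N)
      (s18f_rho N A h (s18f_J N A h)) := cp15_ffData (nrd_cp15_of_pls hxb)
  haveI : Algebra.IsSeparable
      (IsLocalRing.ResidueField A)⟮s18f_rho N A h (s18f_J N A h)⟯
      (modularFunctionFieldFullC (IsLocalRing.ResidueField A) N) := hxb.sep
  have hx' : (J' : modularFunctionFieldBar M) =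
      algebraMap ↥(modularFunctionFieldBar N) ↥(modularFunctionFieldBar M)
        ((s18f_J N A h : s18f_W N A h) : modularFunctionFieldBar N) := by
    rw [hJ', s18f_J_coe]
    exact (nnc_algebraMap_jBar hF).symm
  have key : nrn_NRM (AlgebraicClosure ℚ) (IsLocalRing.ResidueField A) (s18f_rho N A h)
      (s18f_J N A h) :=
    nrns_descent H HH.mem_iff HH.rho_alg HH.pi_surj (s18f_J N A h) J' hx' hY
  intro yb hyb
  obtain ⟨u, hu, hρu⟩ := key yb (by rw [hρJ]; exact hyb)
  exact ⟨u, hρu, by rw [← s18f_J_coe N A h]; exact hu⟩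

end Layer1

section Layer2

variable (N : ℕ) [NeZero N] (A : ValuationSubring (AlgebraicClosure ℚ))
  (h : ModularCurve.ReductionInputsModL A N)

/-- **`hInt0` at level `N` from normality at level `M`** (row N6 output `hY`), for the `h`-free
Gauss pair `(gwm_WM, gwm_rhoM, gwm_JM)` of `S18x/GaussWM4.lean` at ANY level `M` with `N ∣ M`,
`ℓ ∤ M`. The conclusion is literally the hypothesis `hInt0` of `nig_normality_of_int0_onto`. -/
theorem nrnf_hInt0 (ℓ : ℕ) [Fact ℓ.Prime] [Algebra (ZMod ℓ) (IsLocalRing.ResidueField A)]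
    {M : ℕ} [NeZero M] (hNM : N ∣ M) (hℓM : ¬ ℓ ∣ M)
    (hπs : Function.Surjective (IsLocalRing.residue A))
    (hY : nrn_NRM (AlgebraicClosure ℚ) (IsLocalRing.ResidueField A)
      (gwm_rhoM (A := A) (k := IsLocalRing.ResidueField A) (π := IsLocalRing.residue A) (M := M)
        ℓ hℓM hπs)
      (gwm_JM A (IsLocalRing.residue A) M)) :
    ∀ yb : modularFunctionFieldFullC (IsLocalRing.ResidueField A) N,
      IsIntegral (Algebra.adjoin (IsLocalRing.ResidueField A)
        {pls_jb (IsLocalRing.ResidueField A) N}) yb →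
      ∃ u : s18f_W N A h, s18f_rho N A h u = yb ∧
        IsIntegral (Algebra.adjoin (AlgebraicClosure ℚ) {jBar N})
          (u : modularFunctionFieldBar N) :=
  nrnf_hInt0_of_redPair N A h (nnc_F_le hNM) (nnc_Fb_le (IsLocalRing.ResidueField A) hNM)
    (gwm_WM A (IsLocalRing.residue A) M) (gwm_rhoM ℓ hℓM hπs)
    (gwm_redPair_final' ℓ hNM hℓM (s18f_inputs N A h) _ _)
    (gwm_JM A (IsLocalRing.residue A) M) rfl hY

/-- The same with `hY` in RAW form (no `gwm_` names, no `Algebra (ZMod ℓ) k` instance in the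
statement of `hY`): every `y ∈ F̄_M` integral over `k[j̄]` is `ga_rho` of some `u ∈ F_M` in the
Gauss ring `ga_W`, integral over `Q̄[j]`. -/
theorem nrnf_hInt0_raw (ℓ : ℕ) [Fact ℓ.Prime] [Algebra (ZMod ℓ) (IsLocalRing.ResidueField A)]
    {M : ℕ} [NeZero M] (hNM : N ∣ M) (hℓM : ¬ ℓ ∣ M)
    (hY : ∀ y : modularFunctionFieldFullC (IsLocalRing.ResidueField A) M,
      IsIntegral (Algebra.adjoin (IsLocalRing.ResidueField A)
        {pls_jb (IsLocalRing.ResidueField A) M}) y →
      ∃ u : modularFunctionFieldBar M,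
        ∃ hW : (u : LaurentSeries (AlgebraicClosure ℚ)) ∈ ga_W A (IsLocalRing.residue A),
          IsIntegral (Algebra.adjoin (AlgebraicClosure ℚ) {jBar M}) u ∧
          ga_rho A (IsLocalRing.residue A) ⟨(u : LaurentSeries (AlgebraicClosure ℚ)), hW⟩ =
            (y : LaurentSeries (IsLocalRing.ResidueField A))) :
    ∀ yb : modularFunctionFieldFullC (IsLocalRing.ResidueField A) N,
      IsIntegral (Algebra.adjoin (IsLocalRing.ResidueField A)
        {pls_jb (IsLocalRing.ResidueField A) N}) yb →
      ∃ u : s18f_W N A h, s18f_rho N A h u = yb ∧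
        IsIntegral (Algebra.adjoin (AlgebraicClosure ℚ) {jBar N})
          (u : modularFunctionFieldBar N) := by
  have hπs : Function.Surjective (IsLocalRing.residue A) := (s18f_inputs N A h).hπs
  refine nrnf_hInt0 N A h ℓ hNM hℓM hπs ?_
  intro y hy
  have hρJ : gwm_rhoM (A := A) (k := IsLocalRing.ResidueField A) (π := IsLocalRing.residue A)
      (M := M) ℓ hℓM hπs (gwm_JM A (IsLocalRing.residue A) M) =
      pls_jb (IsLocalRing.ResidueField A) M :=
    Subtype.ext (gwm_rhoM_JM ℓ hℓM hπs)
  rw [hρJ] at hy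
  obtain ⟨u, hW, hu, hρu⟩ := hY y hy
  exact ⟨⟨u, hW⟩, hu, Subtype.ext hρu⟩

/-- `nrnf_hInt0_raw` with the `Algebra (ZMod ℓ) k` structure built inside from
`A.LiesOverPrime ℓ`: NO instance argument at all. -/
theorem nrnf_hInt0_raw' {ℓ : ℕ} [Fact ℓ.Prime] (hA : A.LiesOverPrime ℓ)
    {M : ℕ} [NeZero M] (hNM : N ∣ M) (hℓM : ¬ ℓ ∣ M)
    (hY : ∀ y : modularFunctionFieldFullC (IsLocalRing.ResidueField A) M,
      IsIntegral (Algebra.adjoin (IsLocalRing.ResidueField A)
        {pls_jb (IsLocalRing.ResidueField A) M}) y →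
      ∃ u : modularFunctionFieldBar M,
        ∃ hW : (u : LaurentSeries (AlgebraicClosure ℚ)) ∈ ga_W A (IsLocalRing.residue A),
          IsIntegral (Algebra.adjoin (AlgebraicClosure ℚ) {jBar M}) u ∧
          ga_rho A (IsLocalRing.residue A) ⟨(u : LaurentSeries (AlgebraicClosure ℚ)), hW⟩ =
            (y : LaurentSeries (IsLocalRing.ResidueField A))) :
    ∀ yb : modularFunctionFieldFullC (IsLocalRing.ResidueField A) N,
      IsIntegral (Algebra.adjoin (IsLocalRing.ResidueField A)
        {pls_jb (IsLocalRing.ResidueField A) N}) yb →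
      ∃ u : s18f_W N A h, s18f_rho N A h u = yb ∧
        IsIntegral (Algebra.adjoin (AlgebraicClosure ℚ) {jBar N})
          (u : modularFunctionFieldBar N) := by
  haveI : CharP (IsLocalRing.ResidueField A) ℓ := glu_charP A (Fact.out : ℓ.Prime) hA
  letI : Algebra (ZMod ℓ) (IsLocalRing.ResidueField A) := ZMod.algebra _ ℓ
  exact nrnf_hInt0_raw N A h ℓ hNM hℓM hY

end Layer2

end

end Fermat.Agent.S18x
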