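/-
S18x/NrmNFinalTop.lean (helper8, row N8a, prefix `nrnf_`): adapter between helper40's canonical
names (`S18x/NrmTopDefs`: `nrmt_W`, `nrmt_rho`, `nrmt_J`, `nrmt_HY`) and `S18x/NrmNFinal`.

* `nrnf_raw_of_HY`   : `nrmt_HY M A ℓ hℓM hA` gives the RAW form of `hY` (`ga_W` / `ga_rho` only);
* `nrnf_hInt0_of_HY` : `nrmt_HY M A ℓ hℓM hA` (any `M` with `N ∣ M`, `ℓ ∤ M`) gives `hInt0` at level
  `N` for the canonical pair `(s18f_W, s18f_rho)`, in the literal shape of the hypothesis `hInt0`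
  of `nig_normality_of_int0_onto` / `nig_normality_of_int0_cusp`.
-/
import Mathlib
import Fermat.Agent.S18x.NrmNFinal
import Fermat.Agent.S18x.NrmTopDefs

set_option autoImplicit false
set_option synthInstance.maxHeartbeats 400000

namespace Fermat.Agent.S18x

open AlgebraicCurve ModularCurve IntermediateField
open Fermat.Agent.S24x

noncomputable section

variable (N : ℕ) [NeZero N] (A : ValuationSubring (AlgebraicClosure ℚ))

/-- `nrmt_HY` in RAW form. -/
theorem nrnf_raw_of_HY {ℓ : ℕ} [Fact ℓ.Prime] {M : ℕ} [NeZero M] (hℓM : ¬ ℓ ∣ M)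
    (hA : A.LiesOverPrime ℓ) (hY : nrmt_HY M A ℓ hℓM hA) :
    ∀ y : modularFunctionFieldFullC (IsLocalRing.ResidueField A) M,
      IsIntegral (Algebra.adjoin (IsLocalRing.ResidueField A)
        {pls_jb (IsLocalRing.ResidueField A) M}) y →
      ∃ u : modularFunctionFieldBar M,
        ∃ hW : (u : LaurentSeries (AlgebraicClosure ℚ)) ∈ ga_W A (IsLocalRing.residue A),
          IsIntegral (Algebra.adjoin (AlgebraicClosure ℚ) {jBar M}) u ∧
          ga_rho A (IsLocalRing.residue A) ⟨(u : LaurentSeries (AlgebraicClosure ℚ)), hW⟩ =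
            (y : LaurentSeries (IsLocalRing.ResidueField A)) := by
  intro y hy
  obtain ⟨u, hu, hρu⟩ := (nrmt_HY_iff M A ℓ hℓM hA).mp hY y hy
  have hW : ((u : FBar M) : LaurentSeries (AlgebraicClosure ℚ)) ∈
      ga_W A (IsLocalRing.residue A) := (nrmt_mem_W_iff M A (u : FBar M)).mp u.2
  refine ⟨(u : FBar M), hW, hu, ?_⟩
  rw [← hρu, nrmt_rho_coe]
  exact (gwm_rho0_apply (nrmt_nf M A) u).symm

variable (h : ModularCurve.ReductionInputsModL A N)

/-- **`hInt0` at level `N` from `nrmt_HY` at level `M`** (`N ∣ M`, `ℓ ∤ M`). -/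
theorem nrnf_hInt0_of_HY {ℓ : ℕ} [Fact ℓ.Prime] {M : ℕ} [NeZero M] (hNM : N ∣ M)
    (hℓM : ¬ ℓ ∣ M) (hA : A.LiesOverPrime ℓ) (hY : nrmt_HY M A ℓ hℓM hA) :
    ∀ yb : modularFunctionFieldFullC (IsLocalRing.ResidueField A) N,
      IsIntegral (Algebra.adjoin (IsLocalRing.ResidueField A)
        {pls_jb (IsLocalRing.ResidueField A) N}) yb →
      ∃ u : s18f_W N A h, s18f_rho N A h u = yb ∧
        IsIntegral (Algebra.adjoin (AlgebraicClosure ℚ) {jBar N})
          (u : modularFunctionFieldBar N) :=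
  nrnf_hInt0_raw' N A h hA hNM hℓM (nrnf_raw_of_HY A hℓM hA hY)

end

end Fermat.Agent.S18x
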