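/-
S18x/NrmFinal (helper80, S18 integrator; prefix `nrmf_`): the CLOSED tops of the normality chain.

* `nrmf_HY_odd` / `nrmf_HY_two` : normality of the finite chart of the `j`-line at the auxiliary
  level `4N` (`ℓ` odd) / `9N` (`ℓ = 2`), for the `h`-free Gauss pair `(nrmt_W, nrmt_rho)`
  (`(V)`, `hker` : helper10/helper31/helper29/helper39/helper46; `(H)` : helper40/helper81/helper33/
  helper18/helper72; purity : helper39; `N6` : helper94/helper19).
* `nrmf_hInt0` : the finite chart at level `N` for the canonical pair (norm descent: helper8/helper85).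
* `nrmf_normality` : `s18f_Normality N A h` for EVERY prime `ℓ ∤ N` (cusp chart: helper35).
-/
import Fermat.Agent.S18x.AssemblyFinal
import Fermat.Agent.S18x.NrmFinalOfInt
import Fermat.Agent.S18x.CspnLevelN
import Fermat.Agent.S18x.NrmNFinalTop
import Fermat.Agent.S18x.NrmFinalOddV
import Fermat.Agent.S18x.NrmFinalTwoV
import Fermat.Agent.S18x.HorizTwin40Inst

set_option autoImplicit false

namespace Fermat.Agent.S18x

open ModularCurve

theorem nrmf_not_dvd_four_mul {ℓ : ℕ} (hℓ : ℓ.Prime) (hl : ℓ ≠ 2) {N : ℕ} (hℓN : ¬ ℓ ∣ N) :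
    ¬ ℓ ∣ 4 * N := by
  intro hd
  rcases (Nat.Prime.dvd_mul hℓ).mp hd with h1 | h1
  · have h22 : ℓ ∣ 2 ^ 2 := by norm_num; exact h1
    exact hl ((Nat.prime_dvd_prime_iff_eq hℓ Nat.prime_two).mp (hℓ.dvd_of_dvd_pow h22))
  · exact hℓN h1

theorem nrmf_not_dvd_nine_mul {N : ℕ} (hN : ¬ 2 ∣ N) : ¬ 2 ∣ 9 * N := by
  intro hd
  rcases (Nat.Prime.dvd_mul Nat.prime_two).mp hd with h1 | h1
  · omega
  · exact hN h1

/-- **normality of the finite chart at level `4N`, `ℓ` odd** (`h`-free Gauss pair). -/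
theorem nrmf_HY_odd (ℓ : ℕ) [Fact ℓ.Prime] (hl : ℓ ≠ 2) (N : ℕ) [NeZero N]
    (A : ValuationSubring (AlgebraicClosure ℚ)) (hA : A.LiesOverPrime ℓ) (hℓM : ¬ ℓ ∣ 4 * N) :
    nrmt_HY (4 * N) A ℓ hℓM hA :=
  nrmo_HY_of_HH ℓ hl N A hA hℓM (hzt40_HH_X3 ℓ (2 * N))

/-- **normality of the finite chart at level `9N`, `ℓ = 2`** (`h`-free Gauss pair). -/
theorem nrmf_HY_two (N : ℕ) [NeZero N]
    (A : ValuationSubring (AlgebraicClosure ℚ)) (hA : A.LiesOverPrime 2) (h29 : ¬ 2 ∣ 9 * N) :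
    nrmt_HY (9 * N) A 2 h29 hA :=
  nrm2_HY_of_HH N A hA h29 (hzt40_HH_mu 2 (3 * N))

variable (N : ℕ) [NeZero N] (A : ValuationSubring (AlgebraicClosure ℚ))
  (h : ModularCurve.ReductionInputsModL A N)

/-- **the finite chart at level `N`**, canonical Gauss pair, every prime `ℓ ∤ N`. -/
theorem nrmf_hInt0 {ℓ : ℕ} [Fact ℓ.Prime] (hℓN : ¬ ℓ ∣ N) (hA : A.LiesOverPrime ℓ) :
    ∀ yb : modularFunctionFieldFullC (IsLocalRing.ResidueField A) N,
      IsIntegral (Algebra.adjoin (IsLocalRing.ResidueField A)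
        {pls_jb (IsLocalRing.ResidueField A) N}) yb →
      ∃ u : s18f_W N A h, s18f_rho N A h u = yb ∧
        IsIntegral (Algebra.adjoin (AlgebraicClosure ℚ) {Fermat.Agent.S24x.jBar N})
          (u : modularFunctionFieldBar N) := by
  have hℓ : ℓ.Prime := Fact.out
  by_cases hl : ℓ = 2
  · subst hl
    have h9 : ¬ 2 ∣ 9 * N := nrmf_not_dvd_nine_mul hℓN
    haveI : NeZero (9 * N) := ⟨Nat.mul_ne_zero (by norm_num) (NeZero.ne N)⟩
    exact nrnf_hInt0_of_HY N A h (M := 9 * N) (Dvd.intro_left 9 rfl) h9 hA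
      (nrmf_HY_two N A hA h9)
  · have h4 : ¬ ℓ ∣ 4 * N := nrmf_not_dvd_four_mul hℓ hl hℓN
    haveI : NeZero (4 * N) := ⟨Nat.mul_ne_zero (by norm_num) (NeZero.ne N)⟩
    exact nrnf_hInt0_of_HY N A h (M := 4 * N) (Dvd.intro_left 4 rfl) h4 hA
      (nrmf_HY_odd ℓ hl N A hA h4)

/-- **two-chart normality of the reduction of `X₀(N)` at every prime `ℓ ∤ N`.** -/
theorem nrmf_normality {ℓ : ℕ} [Fact ℓ.Prime] (hℓN : ¬ ℓ ∣ N) (hA : A.LiesOverPrime ℓ) :
    s18f_Normality N A h :=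
  nig_normality_of_int0_onto N A h hℓN hA (nrmf_hInt0 N A h hℓN hA)
    (cspn_hCo_levelN N A h hℓN hA)

end Fermat.Agent.S18x
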