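/-
S18x/ArchQbar (helper34): valuation subrings of an algebraic extension `L/ℚ` lying over a prime `ℓ`
are NON-TRIVIAL and of RANK ONE (archimedean):
`aqb_arch : A.valuation π < 1 → ∀ c, ∃ s, π ^ s * c ∈ A`
(= fields `nontriv`, `arch` of helper77's `h1v_Hyp`, and the 'discreteness-free' substitute used
by the lattice arguments).  Mathlib + S28x `gv_exists_primitive` only.
-/
import Mathlib
import Fermat.Prelude.Def_FLTPrelim_Ramification
import Fermat.Agent.S28x.GaussV

set_option autoImplicit false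

namespace Fermat.Agent.S18x

open Polynomial Fermat.Agent.S28x

section

variable {L : Type*} [Field L] [CharZero L] (A : ValuationSubring L) {ℓ : ℕ} [hℓ : Fact ℓ.Prime]

omit [CharZero L] in
theorem aqb_int_mem (n : ℤ) : (n : L) ∈ A := by
  have : (n : L) = ((n : A) : L) := by push_cast; rfl
  rw [this]
  exact SetLike.coe_mem _

omit [CharZero L] in
theorem aqb_val_int_le_one (n : ℤ) : A.valuation (n : L) ≤ 1 :=
  (A.valuation_le_one_iff _).mpr (aqb_int_mem A n)

variable {A}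

omit hℓ [CharZero L] in
theorem aqb_val_ell_lt_one (hA : A.LiesOverPrime ℓ) : A.valuation (ℓ : L) < 1 := by
  have hmem : (ℓ : L) ∈ A := by exact_mod_cast aqb_int_mem A (ℓ : ℤ)
  have hnu : (ℓ : L) ∈ A.nonunits := hA
  rw [ValuationSubring.mem_nonunits_iff_exists_mem_maximalIdeal] at hnu
  obtain ⟨ha, hmax⟩ := hnu
  exact (A.valuation_lt_one_iff _).mp hmax

theorem aqb_nontriv (hA : A.LiesOverPrime ℓ) : ∃ π : L, π ≠ 0 ∧ A.valuation π < 1 :=
  ⟨(ℓ : L), by exact_mod_cast hℓ.out.ne_zero, aqb_val_ell_lt_one hA⟩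

omit [CharZero L] in
/-- integers prime to `ℓ` are units of `A`. -/
theorem aqb_val_int_eq_one (hA : A.LiesOverPrime ℓ) {n : ℤ} (hn : ¬ (ℓ : ℤ) ∣ n) :
    A.valuation (n : L) = 1 := by
  refine le_antisymm (aqb_val_int_le_one A n) ?_
  by_contra hlt
  rw [not_le] at hlt
  have hcop : IsCoprime n (ℓ : ℤ) := by
    have hp : Prime (ℓ : ℤ) := Nat.prime_iff_prime_int.mp hℓ.out
    exact (IsCoprime.symm ((Prime.coprime_iff_not_dvd hp).mpr hn))
  obtain ⟨a, b, hab⟩ := hcop
  have h1 : (a : L) * (n : L) + (b : L) * (ℓ : L) = 1 := by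
    have := congrArg (fun z : ℤ => (z : L)) hab
    push_cast at this
    exact this
  have h2 : A.valuation ((a : L) * (n : L) + (b : L) * (ℓ : L)) < 1 := by
    refine lt_of_le_of_lt (A.valuation.map_add _ _) (max_lt ?_ ?_)
    · rw [map_mul]
      calc A.valuation (a : L) * A.valuation (n : L) ≤ 1 * A.valuation (n : L) := by
            gcongr; exact aqb_val_int_le_one A a
        _ < 1 := by rwa [one_mul]
    · rw [map_mul]
      calc A.valuation (b : L) * A.valuation (ℓ : L) ≤ 1 * A.valuation (ℓ : L) := by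
            gcongr; exact aqb_val_int_le_one A b
        _ < 1 := by rw [one_mul]; exact aqb_val_ell_lt_one hA
  rw [h1, map_one] at h2
  exact lt_irrefl _ h2

omit hℓ [CharZero L] in
/-- an integer divisible by `ℓ` has valuation `≤ v(ℓ)`. -/
theorem aqb_val_int_le_of_dvd {n : ℤ} (hn : (ℓ : ℤ) ∣ n) :
    A.valuation (n : L) ≤ A.valuation (ℓ : L) := by
  obtain ⟨m, rfl⟩ := hn
  push_cast
  rw [map_mul]
  calc A.valuation (ℓ : L) * A.valuation (m : L) ≤ A.valuation (ℓ : L) * 1 := by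
        gcongr; exact aqb_val_int_le_one A m
    _ = _ := mul_one _

end

section Alg

variable {L : Type*} [Field L] [CharZero L] [Algebra.IsAlgebraic ℚ L]
  {A : ValuationSubring L} {ℓ : ℕ} [hℓ : Fact ℓ.Prime]

/-- **Step A**: every element becomes integral after multiplying by a power of `ℓ`. -/
theorem aqb_exists_pow_mul_mem (hA : A.LiesOverPrime ℓ) (c : L) : ∃ m : ℕ, (ℓ : L) ^ m * c ∈ A := by
  have hcalg : IsAlgebraic ℤ c :=
    (IsFractionRing.isAlgebraic_iff ℤ ℚ L).mpr (Algebra.IsAlgebraic.isAlgebraic c)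
  obtain ⟨a, ha0, hint⟩ := hcalg.exists_integral_multiple
  -- `a • c` is integral over `ℤ`, hence in `A`
  have hmem : a • c ∈ A := by
    have h1 : IsIntegral A (a • c) := hint.tower_top
    obtain ⟨y, hy⟩ := (IsIntegrallyClosed.isIntegral_iff (R := A) (K := L)).mp h1
    rw [← hy]
    exact y.2
  rw [zsmul_eq_mul] at hmem
  -- write `a = ℓ^m a'`
  have hp : Prime (ℓ : ℤ) := Nat.prime_iff_prime_int.mp hℓ.out
  obtain ⟨m, a', ha', rfl⟩ := WfDvdMonoid.max_power_factor ha0 hp.irreducible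
  refine ⟨m, ?_⟩
  have hunit : A.valuation (a' : L) = 1 := aqb_val_int_eq_one hA ha'
  have ha'0 : (a' : L) ≠ 0 := by
    intro h
    rw [h, map_zero] at hunit
    exact zero_ne_one hunit
  have hinv : ((a' : L))⁻¹ ∈ A := by
    rw [← A.valuation_le_one_iff, map_inv₀, hunit, inv_one]
  have : (ℓ : L) ^ m * c = (a' : L)⁻¹ * ((((ℓ : ℤ) ^ m * a' : ℤ) : L) * c) := by
    push_cast
    field_simp
  rw [this]
  exact A.mul_mem _ _ hinv hmem

/-- **Step B**: a power of any element of the maximal ideal is divisible by `ℓ`. -/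
theorem aqb_exists_pow_le (hA : A.LiesOverPrime ℓ) {π : L} (hπ : A.valuation π < 1) :
    ∃ s : ℕ, A.valuation π ^ s ≤ A.valuation (ℓ : L) := by
  classical
  rcases eq_or_ne π 0 with rfl | hπ0
  · exact ⟨1, by simp⟩
  have hvπ0 : A.valuation π ≠ 0 := (_root_.map_ne_zero _).mpr hπ0
  have hπalg : IsAlgebraic ℤ π :=
    (IsFractionRing.isAlgebraic_iff ℤ ℚ L).mpr (Algebra.IsAlgebraic.isAlgebraic π)
  obtain ⟨P, hP0, hPπ⟩ := hπalg
  obtain ⟨e, P₀, hPe, hP₀⟩ := gv_exists_primitive ℓ hP0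
  -- `P₀ π = 0`
  have hP₀π : aeval π P₀ = 0 := by
    rw [hPe, map_mul, aeval_C] at hPπ
    rcases mul_eq_zero.mp hPπ with h | h
    · exfalso
      have : ((ℓ : ℤ) ^ e : ℤ) ≠ 0 := pow_ne_zero _ (by exact_mod_cast hℓ.out.ne_zero)
      exact this (by
        have h' : ((((ℓ : ℤ) ^ e : ℤ)) : L) = 0 := by simpa using h
        exact_mod_cast h')
    · exact h
  -- some coefficient is prime to `ℓ`
  have hex : ∃ i, ¬ (ℓ : ℤ) ∣ P₀.coeff i := by
    by_contra hall
    push Not at hall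
    apply hP₀
    ext i
    rw [coeff_map, coeff_zero, eq_intCast, ZMod.intCast_zmod_eq_zero_iff_dvd]
    exact hall i
  set i₀ := Nat.find hex with hi₀
  have hi₀spec : ¬ (ℓ : ℤ) ∣ P₀.coeff i₀ := Nat.find_spec hex
  have hi₀min : ∀ i < i₀, (ℓ : ℤ) ∣ P₀.coeff i := fun i hi => by
    by_contra h
    exact Nat.find_min hex hi h
  refine ⟨i₀, ?_⟩
  -- expand `P₀ π = 0`
  have hsum : ∑ i ∈ Finset.range (P₀.natDegree + 1), ((P₀.coeff i : ℤ) : L) * π ^ i = 0 := by
    rw [← hP₀π, aeval_eq_sum_range]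
    refine Finset.sum_congr rfl fun i _ => ?_
    rw [zsmul_eq_mul]
  have hi₀le : i₀ ≤ P₀.natDegree := by
    by_contra hgt
    rw [not_le] at hgt
    exact hi₀spec (by rw [coeff_eq_zero_of_natDegree_lt hgt]; exact dvd_zero _)
  have hmem : i₀ ∈ Finset.range (P₀.natDegree + 1) := Finset.mem_range.mpr (by omega)
  rw [← Finset.add_sum_erase _ _ hmem] at hsum
  have heq : ((P₀.coeff i₀ : ℤ) : L) * π ^ i₀ =
      -∑ i ∈ (Finset.range (P₀.natDegree + 1)).erase i₀, ((P₀.coeff i : ℤ) : L) * π ^ i :=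
    eq_neg_of_add_eq_zero_left hsum
  have hval : A.valuation π ^ i₀ =
      A.valuation (∑ i ∈ (Finset.range (P₀.natDegree + 1)).erase i₀,
        ((P₀.coeff i : ℤ) : L) * π ^ i) := by
    have := congrArg A.valuation heq
    rwa [map_mul, aqb_val_int_eq_one hA hi₀spec, one_mul, map_pow, Valuation.map_neg] at this
  -- bound each term
  by_contra hgt
  rw [not_le] at hgt
  have hbound : ∀ i ∈ (Finset.range (P₀.natDegree + 1)).erase i₀,
      A.valuation (((P₀.coeff i : ℤ) : L) * π ^ i) < A.valuation π ^ i₀ := by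
    intro i hi
    rw [Finset.mem_erase] at hi
    rw [map_mul, map_pow]
    rcases lt_or_gt_of_ne hi.1 with hlt | hgt'
    · -- `i < i₀`: coefficient divisible by `ℓ`
      calc A.valuation ((P₀.coeff i : ℤ) : L) * A.valuation π ^ i
          ≤ A.valuation (ℓ : L) * 1 := by
            gcongr
            · exact aqb_val_int_le_of_dvd (hi₀min i hlt)
            · exact pow_le_one₀ zero_le hπ.le
        _ = A.valuation (ℓ : L) := mul_one _
        _ < A.valuation π ^ i₀ := hgt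
    · -- `i > i₀`
      calc A.valuation ((P₀.coeff i : ℤ) : L) * A.valuation π ^ i
          ≤ 1 * A.valuation π ^ i := by
            gcongr
            exact aqb_val_int_le_one A _
        _ = A.valuation π ^ i := one_mul _
        _ < A.valuation π ^ i₀ := pow_lt_pow_right_of_lt_one₀ (zero_lt_iff.mpr hvπ0) hπ hgt'
  have hlt : A.valuation (∑ i ∈ (Finset.range (P₀.natDegree + 1)).erase i₀,
      ((P₀.coeff i : ℤ) : L) * π ^ i) < A.valuation π ^ i₀ :=
    Valuation.map_sum_lt _ (pow_ne_zero _ hvπ0) hbound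
  rw [← hval] at hlt
  exact lt_irrefl _ hlt

/-- **Rank one**: `π ∈ 𝔪_A` ⇒ for every `c` some `π^s c` lies in `A`. -/
theorem aqb_arch (hA : A.LiesOverPrime ℓ) {π : L} (hπ : A.valuation π < 1) (c : L) :
    ∃ s : ℕ, π ^ s * c ∈ A := by
  obtain ⟨m, hm⟩ := aqb_exists_pow_mul_mem hA c
  obtain ⟨s, hs⟩ := aqb_exists_pow_le hA hπ
  refine ⟨s * m, ?_⟩
  rw [← A.valuation_le_one_iff] at hm ⊢
  rw [map_mul, map_pow] at hm ⊢
  calc A.valuation π ^ (s * m) * A.valuation c
      = (A.valuation π ^ s) ^ m * A.valuation c := by rw [pow_mul]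
    _ ≤ A.valuation (ℓ : L) ^ m * A.valuation c := by gcongr
    _ ≤ 1 := hm

end Alg

/-- the instance for `AlgebraicClosure ℚ` -/
theorem aqb_arch_Qbar {A : ValuationSubring (AlgebraicClosure ℚ)} {ℓ : ℕ} [Fact ℓ.Prime]
    (hA : A.LiesOverPrime ℓ) {π : AlgebraicClosure ℚ} (hπ : A.valuation π < 1)
    (c : AlgebraicClosure ℚ) : ∃ s : ℕ, π ^ s * c ∈ A :=
  haveI : Algebra.IsAlgebraic ℚ (AlgebraicClosure ℚ) := AlgebraicClosure.isAlgebraic ℚ
  aqb_arch hA hπ c

end Fermat.Agent.S18x
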