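/-
S18 project, NRM block, row N12 (helper15), prefix `bsi_`.

The DUAL level-two identity over an ARBITRARY commutative ring `R`, in `x`-form:
  `j(q²) · x² = (1 + 16 x)³`,  `x = ud_gd R 2 = Δ(q²)/Δ(q)`,
from helper11's integral identity `mid2_int_dual` by the base change `ℤ⟦X⟧ → R((X))`
(`mi2_iota`, helper30).  Also the `y`-form `j(q²) · y = (y + 16)³`, `y = mi2_y R = Δ(q)/Δ(q²)`.
-/
import Mathlib
import Fermat.Agent.S18x.ModIdTwoRing
import Fermat.Agent.S18x.ModIdTwoDual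

set_option autoImplicit false

noncomputable section

namespace Fermat.Agent.S18x

open ModularCurve Fermat.Agent.S28x

section General

variable (R : Type*) [CommRing R]

/-- `j(q²) · Δ(q²) = E₄(q²)³` formally over `R`. -/
theorem bsi_jq2_mul_D2 :
    qExpand R 2 (jqModC R) * mi2_iota R mid2_D2 = mi2_iota R mid2_E2 ^ 3 := by
  have h : mid2_D2 = PowerSeries.expand 2 (NeZero.ne 2) mid2_D := rfl
  have h' : mid2_E2 = PowerSeries.expand 2 (NeZero.ne 2) eisenstein4 := rfl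
  rw [h, h', mi2_iota_expand, mi2_iota_expand, ← map_mul, mi2_jq_mul_D, map_pow]

/-- **dual level-two identity, `x`-form, any commutative ring**:
`j(q²) · x² = (1 + 16 x)³`, `x = Δ(q²)/Δ(q)`. -/
theorem bsi_dual_ring :
    qExpand R 2 (jqModC R) * ud_gd R 2 ^ 2 = (1 + 16 * ud_gd R 2) ^ 3 := by
  set D := mi2_iota R mid2_D with hD
  set D2 := mi2_iota R mid2_D2 with hD2
  set x := ud_gd R 2 with hx
  set j2 := qExpand R 2 (jqModC R) with hj2
  have hint : mi2_iota R mid2_E2 ^ 3 * D * D2 = (D + 16 * D2) ^ 3 := by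
    have h := congrArg (mi2_iota R) mid2_int_dual
    simpa only [map_mul, map_pow, map_add, map_ofNat] using h
  have hxD : x * D = D2 := mi2_gd_two_mul_D R
  have hjD : j2 * D2 = mi2_iota R mid2_E2 ^ 3 := bsi_jq2_mul_D2 R
  have key : (j2 * x ^ 2) * D ^ 3 = ((1 + 16 * x) ^ 3) * D ^ 3 := by
    calc (j2 * x ^ 2) * D ^ 3 = (j2 * (x * D)) * D * (x * D) := by ring
      _ = (D + 16 * (x * D)) ^ 3 := by rw [hxD, hjD, hint]
      _ = ((1 + 16 * x) ^ 3) * D ^ 3 := by ring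
  have hunit : D ^ 3 * ud_DeltaInv R 1 ^ 3 = 1 := by
    rw [← mul_pow, mul_comm, mi2_DeltaInv_mul_D, one_pow]
  calc j2 * x ^ 2 = (j2 * x ^ 2) * D ^ 3 * ud_DeltaInv R 1 ^ 3 := by
        rw [mul_assoc, hunit, mul_one]
    _ = ((1 + 16 * x) ^ 3) * D ^ 3 * ud_DeltaInv R 1 ^ 3 := by rw [key]
    _ = (1 + 16 * x) ^ 3 := by rw [mul_assoc, hunit, mul_one]

/-- **dual level-two identity, `y`-form**: `j(q²) · y = (y + 16)³`, `y = Δ(q)/Δ(q²)`. -/
theorem bsi_dual_ring_y :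
    qExpand R 2 (jqModC R) * mi2_y R = (mi2_y R + 16) ^ 3 := by
  have h := bsi_dual_ring R
  have hxy := mi2_gd_two_mul_y R
  calc qExpand R 2 (jqModC R) * mi2_y R
      = qExpand R 2 (jqModC R) * (ud_gd R 2 * mi2_y R) ^ 2 * mi2_y R := by
        rw [hxy, one_pow, mul_one]
    _ = (qExpand R 2 (jqModC R) * ud_gd R 2 ^ 2) * mi2_y R ^ 3 := by ring
    _ = (1 + 16 * ud_gd R 2) ^ 3 * mi2_y R ^ 3 := by rw [h]
    _ = (mi2_y R + 16 * (ud_gd R 2 * mi2_y R)) ^ 3 := by ring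
    _ = (mi2_y R + 16) ^ 3 := by rw [hxy, mul_one]

/-- the `U`-cubic for `j(q²)`: `U = 64 + 4096 x` satisfies `(U + 192)³ = j(q²) (U - 64)²`. -/
theorem bsi_dual_cubic :
    ((64 + 4096 * ud_gd R 2) + 192) ^ 3
      = qExpand R 2 (jqModC R) * ((64 + 4096 * ud_gd R 2) - 64) ^ 2 := by
  have h := bsi_dual_ring R
  calc ((64 + 4096 * ud_gd R 2) + 192) ^ 3 = 16777216 * (1 + 16 * ud_gd R 2) ^ 3 := by ring
    _ = 16777216 * (qExpand R 2 (jqModC R) * ud_gd R 2 ^ 2) := by rw [h]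
    _ = qExpand R 2 (jqModC R) * ((64 + 4096 * ud_gd R 2) - 64) ^ 2 := by ring

/-- the `U`-cubic for `j(q²)` from (I1) at `q²`: `U = 64 + y(q²)`. -/
theorem bsi_I1_cubic_sq :
    ((64 + qExpand R 2 (mi2_y R)) + 192) ^ 3
      = qExpand R 2 (jqModC R) * ((64 + qExpand R 2 (mi2_y R)) - 64) ^ 2 := by
  have h := congrArg (qExpand R 2) (mi2_cubic_ring_u R)
  simpa only [map_mul, map_pow, map_add, map_sub, map_ofNat] using h

end General

end Fermat.Agent.S18x
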