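/-
S18 project, NRM block, row N12 (helper15), prefix `bsi_`.

**`F₄ = K(X₃)`** for ANY field `K` in which `2` is a unit (`K = ℚ`, `K = 𝔽_ℓ`, `ℓ` odd, ...):
* `bsi_F4_le : modularFunctionFieldFullC K 4 ≤ K⟮purb_X3 h2⟯` (no degree input);
* `bsi_F4_eq` under the single degree hypothesis `3 ≤ [F₂ : K(j)]`.

Route (no Galois theory, no Hensel uniqueness): helper17's `ls3_cubic_factor` in the FIELD `K((q))`
with `x := X₃` says `(T+192)³ - j(q²)(T-64)² = (T - X₃²)(T - b(X₃)²)(T - b(-X₃)²)`, so every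
`U ∈ K((q))` with `(U+192)³ = j(q²)(U-64)²` lies in `K(X₃)` (`bsi_root_mem`).  Apply this to
`U = 64 + 4096 x` (`x = Δ(q²)/Δ(q)`, dual identity) and to `U = 64 + y(q²)` ((I1) at `q²`).
Then `j = (1+256x)³/x`, `j(q⁴) = (1+16x₂)³/x₂²`.
-/
import Mathlib
import Fermat.Agent.S18x.BaseIdentDual
import Fermat.Agent.S18x.LamS3
import Fermat.Agent.S18x.NrmNonCoprimeLevel

set_option autoImplicit false

noncomputable section

namespace Fermat.Agent.S18x

open ModularCurve IntermediateField Fermat.Agent.S28x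

section Le

variable {K : Type*} [Field K] (h2 : IsUnit (2 : K))

theorem bsi_X3_ne_eight : purb_X3 h2 ≠ 8 := by
  intro h
  exact nnc15_X3_not_mem_even h2 (by rw [h]; exact nnc15_ofNat_mem _ 8)

theorem bsi_X3_ne_neg_eight : purb_X3 h2 ≠ -8 := by
  intro h
  exact nnc15_X3_not_mem_even h2 (by rw [h]; exact neg_mem (nnc15_ofNat_mem _ 8))

theorem bsi_ls3_J_X3 : ls3_J (purb_X3 h2) = qExpand K 2 (jqModC K) :=
  (nnc15_j2_eq h2).symm

theorem bsi_ls3_b_mem (F : IntermediateField K (LaurentSeries K)) {x : LaurentSeries K}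
    (hx : x ∈ F) : ls3_b x ∈ F := by
  unfold ls3_b
  exact div_mem (mul_mem (nnc15_ofNat_mem _ 8) (add_mem hx (nnc15_ofNat_mem _ 24)))
    (sub_mem hx (nnc15_ofNat_mem _ 8))

/-- every root in `K((q))` of the `U`-cubic `(U+192)³ = j(q²)(U-64)²` lies in `K(X₃)`. -/
theorem bsi_root_mem (U : LaurentSeries K)
    (hU : (U + 192) ^ 3 = qExpand K 2 (jqModC K) * (U - 64) ^ 2) : U ∈ K⟮purb_X3 h2⟯ := by
  have hX : purb_X3 h2 ∈ K⟮purb_X3 h2⟯ := mem_adjoin_simple_self K _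
  have hf := ls3_cubic_factor (purb_X3 h2) (bsi_X3_ne_eight h2) (bsi_X3_ne_neg_eight h2)
  have h := congrArg (Polynomial.eval U) hf
  simp only [Polynomial.eval_sub, Polynomial.eval_mul, Polynomial.eval_pow, Polynomial.eval_add,
    Polynomial.eval_X, Polynomial.eval_C] at h
  rw [bsi_ls3_J_X3, hU, sub_self] at h
  rcases mul_eq_zero.1 h.symm with h1 | h1
  · rcases mul_eq_zero.1 h1 with h3 | h3
    · rw [sub_eq_zero.1 h3]; exact pow_mem hX 2
    · rw [sub_eq_zero.1 h3]; exact pow_mem (bsi_ls3_b_mem _ hX) 2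
  · rw [sub_eq_zero.1 h1]; exact pow_mem (bsi_ls3_b_mem _ (neg_mem hX)) 2

include h2 in
theorem bsi_4096_ne_zero : (4096 : LaurentSeries K) ≠ 0 := by
  have h : (4096 : K) ≠ 0 := by
    have : (4096 : K) = 2 ^ 12 := by norm_num
    rw [this]; exact pow_ne_zero _ h2.ne_zero
  have e : (4096 : LaurentSeries K) = algebraMap K (LaurentSeries K) 4096 := by rw [map_ofNat]
  rw [e]
  exact fun h0 => h ((algebraMap K (LaurentSeries K)).injective (by rw [h0, map_zero]))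

/-- `x = Δ(q²)/Δ(q) ∈ K(X₃)`. -/
theorem bsi_x_mem : ud_gd K 2 ∈ K⟮purb_X3 h2⟯ := by
  have hU := bsi_root_mem h2 _ (bsi_dual_cubic K)
  have h4096 := bsi_4096_ne_zero h2
  have : ud_gd K 2 = ((64 + 4096 * ud_gd K 2) - 64) / 4096 := by
    field_simp
    ring
  rw [this]
  exact div_mem (sub_mem hU (nnc15_ofNat_mem _ 64)) (nnc15_ofNat_mem _ 4096)

theorem bsi_x_ne_zero : ud_gd K 2 ≠ 0 := by
  intro h
  have := mi2_gd_two_mul_y K
  rw [h, zero_mul] at this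
  exact zero_ne_one this

/-- `y(q²) = Δ(q²)/Δ(q⁴) ∈ K(X₃)`. -/
theorem bsi_y2_mem : qExpand K 2 (mi2_y K) ∈ K⟮purb_X3 h2⟯ := by
  have hU := bsi_root_mem h2 _ (bsi_I1_cubic_sq K)
  have : qExpand K 2 (mi2_y K) = (64 + qExpand K 2 (mi2_y K)) - 64 := by ring
  rw [this]
  exact sub_mem hU (nnc15_ofNat_mem _ 64)

theorem bsi_x2_mul_y2 : qExpand K 2 (ud_gd K 2) * qExpand K 2 (mi2_y K) = 1 := by
  rw [← map_mul, mi2_gd_two_mul_y, map_one]

theorem bsi_x2_ne_zero : qExpand K 2 (ud_gd K 2) ≠ 0 := by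
  intro h
  have := bsi_x2_mul_y2 (K := K)
  rw [h, zero_mul] at this
  exact zero_ne_one this

/-- `x(q²) = Δ(q⁴)/Δ(q²) ∈ K(X₃)`. -/
theorem bsi_x2_mem : qExpand K 2 (ud_gd K 2) ∈ K⟮purb_X3 h2⟯ := by
  have h := bsi_x2_mul_y2 (K := K)
  have : qExpand K 2 (ud_gd K 2) = (qExpand K 2 (mi2_y K))⁻¹ := eq_inv_of_mul_eq_one_left h
  rw [this]
  exact inv_mem (bsi_y2_mem h2)

/-- `j(q) ∈ K(X₃)`. -/
theorem bsi_j_mem : jqModC K ∈ K⟮purb_X3 h2⟯ := by
  have h := mi2_identity_ring K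
  have hx := bsi_x_mem h2
  have : jqModC K = (1 + 256 * ud_gd K 2) ^ 3 / ud_gd K 2 := by
    rw [eq_div_iff bsi_x_ne_zero]; exact h
  rw [this]
  exact div_mem (pow_mem (add_mem (one_mem _) (mul_mem (nnc15_ofNat_mem _ 256) hx)) 3) hx

/-- `j(q²) ∈ K(X₃)`. -/
theorem bsi_j2_mem : qExpand K 2 (jqModC K) ∈ K⟮purb_X3 h2⟯ :=
  nnc15_adjoin_pow_le (K := K) (purb_X3 h2) 2 (nnc15_j2_mem_adjoin_sq h2)

/-- `j(q⁴) ∈ K(X₃)`. -/
theorem bsi_j4_mem : qExpand K 4 (jqModC K) ∈ K⟮purb_X3 h2⟯ := by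
  have h := congrArg (qExpand K 2) (bsi_dual_ring K)
  simp only [map_mul, map_pow, map_add, map_one, map_ofNat] at h
  rw [qExpand_qExpand] at h
  have h4 : qExpand K (2 * 2) (jqModC K) = qExpand K 4 (jqModC K) := qExpand_congr (by norm_num) _
  rw [h4] at h
  have hx := bsi_x2_mem h2
  have : qExpand K 4 (jqModC K)
      = (1 + 16 * qExpand K 2 (ud_gd K 2)) ^ 3 / qExpand K 2 (ud_gd K 2) ^ 2 := by
    rw [eq_div_iff (pow_ne_zero 2 bsi_x2_ne_zero)]; exact h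
  rw [this]
  exact div_mem (pow_mem (add_mem (one_mem _) (mul_mem (nnc15_ofNat_mem _ 16) hx)) 3)
    (pow_mem hx 2)

/-- **`F₄ ≤ K(X₃)`** (any field `K`, `2` a unit; no degree input). -/
theorem bsi_F4_le : modularFunctionFieldFullC K 4 ≤ K⟮purb_X3 h2⟯ := by
  rw [modularFunctionFieldFullC, adjoin_le_iff]
  rintro x ⟨d, hne, hdvd, rfl⟩
  have hd4 : d ≤ 4 := Nat.le_of_dvd (by norm_num) hdvd
  have hd0 : d ≠ 0 := hne.out
  have hd : d = 1 ∨ d = 2 ∨ d = 4 := by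
    interval_cases d
    · exact absurd rfl hd0
    · exact Or.inl rfl
    · exact Or.inr (Or.inl rfl)
    · exact absurd hdvd (by norm_num)
    · exact Or.inr (Or.inr rfl)
  rcases hd with rfl | rfl | rfl
  · rw [SetLike.mem_coe, qExpand_one_apply]; exact bsi_j_mem h2
  · exact bsi_j2_mem h2
  · exact bsi_j4_mem h2

end Le

section Eq

variable {K : Type*} [Field K] (h2 : IsUnit (2 : K))

theorem bsi_coeff_jqModC_neg_one : (jqModC K).coeff (-1) = 1 := coeff_jqModC_neg_one K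

/-- `j(q) ∉ K((q²))`. -/
theorem bsi_j_not_mem_even : jqModC K ∉ nnc15_even K := by
  intro h
  have h0 := nnc15_coeff_eq_zero_of_mem_even h (k := -1) (by norm_num)
  rw [bsi_coeff_jqModC_neg_one] at h0
  exact one_ne_zero h0

/-- `F₂(q²) ≤ F₄`. -/
theorem bsi_E2_le_F4 : nnc15_E K 2 ≤ modularFunctionFieldFullC K 4 :=
  full_degeneracyC_map_le K 2 2

/-- **`F₄ = K(X₃)`** under `3 ≤ [F₂ : K(j)]` (DEG at level `2`). -/
theorem bsi_F4_eq
    (hdeg2 : 3 ≤ relfinrank K⟮jqModC K⟯ (modularFunctionFieldFullC K 2)) :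
    modularFunctionFieldFullC K 4 = K⟮purb_X3 h2⟯ := by
  refine le_antisymm (bsi_F4_le h2) ?_
  have hAB : K⟮qExpand K 2 (jqModC K)⟯ ≤ nnc15_E K 2 := nnc15_adjoin_j2_le_E K 2
  have hBF : nnc15_E K 2 ≤ modularFunctionFieldFullC K 4 := bsi_E2_le_F4
  have hFS : modularFunctionFieldFullC K 4 ≤ K⟮purb_X3 h2⟯ := bsi_F4_le h2
  have h1 := relfinrank_mul_relfinrank hAB hBF
  have h2' := relfinrank_mul_relfinrank (hAB.trans hBF) hFS
  rw [nnc15_relfinrank_j2_X3 h2, ← h1, nnc15_relfinrank_E] at h2'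
  set a := relfinrank K⟮jqModC K⟯ (modularFunctionFieldFullC K 2) with ha
  set b := relfinrank (nnc15_E K 2) (modularFunctionFieldFullC K 4) with hb
  set c := relfinrank (modularFunctionFieldFullC K 4) K⟮purb_X3 h2⟯ with hc
  have hb1 : b ≠ 1 := by
    intro hb1
    have hle : modularFunctionFieldFullC K 4 ≤ nnc15_E K 2 := relfinrank_eq_one_iff.1 hb1
    exact bsi_j_not_mem_even (nnc15_E_le_even K 2 (hle (jqModC_mem_full K 4)))
  have hb0 : b ≠ 0 := by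
    intro h0; rw [h0, mul_zero, zero_mul] at h2'; exact absurd h2' (by norm_num)
  have hc0 : c ≠ 0 := by
    intro h0; rw [h0, mul_zero] at h2'; exact absurd h2' (by norm_num)
  have hb2 : 2 ≤ b := by omega
  have hc1 : c = 1 := by
    have h6 : 6 ≤ a * b := Nat.mul_le_mul hdeg2 hb2
    have hc1' : 1 ≤ c := Nat.one_le_iff_ne_zero.2 hc0
    by_contra hne
    have hc2 : 2 ≤ c := by omega
    have : 12 ≤ a * b * c := Nat.mul_le_mul h6 hc2
    omega
  exact relfinrank_eq_one_iff.1 hc1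

end Eq

end Fermat.Agent.S18x
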