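/-
S18 project, NRM block, row N12 (`F₄ = K(X₃)`, owner helper15; this file: helper69), prefix `bsia_`.

ABSTRACT field-theory steps of the base identity, Mathlib only:

* `bsia_mem_of_normal` : NORMALITY STEP.  `S/F` normal (inside an ambient field `Ω`), `P ∈ F[X]`
  irreducible with one root `α ∈ S`  ⟹  every root `β ∈ Ω` of `P` lies in `S`.
* `bsia_mem_of_isGalois` : same with `[IsGalois F S]` (shape of helper17's `ls3_isGalois*`).
* `bsia_eq_adjoin_of_sq` : QUADRATIC STEP.  `C ≤ E ≤ C(x)`, `x² ∈ C`, `E ≠ C`  ⟹  `E = C(x)`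
  (no degrees, no Galois theory, any characteristic).
* `bsia_eq_of_prime_relfinrank` : PRIME-DEGREE STEP (for the cubic twin `F₉ = K(μ)`):
  `C ≤ E ≤ S`, `[S:C]` prime, `E ≠ C` ⟹ `E = S`.
-/
import Mathlib

set_option autoImplicit false

namespace Fermat.Agent.S18x

open Polynomial IntermediateField

section Normal

variable {F Ω : Type*} [Field F] [Field Ω] [Algebra F Ω]

/-- NORMALITY STEP: a normal intermediate field containing one root of an irreducible polynomial
contains all its roots (in the ambient field). -/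
theorem bsia_mem_of_normal (S : IntermediateField F Ω) [Normal F S] {P : F[X]}
    (hP : Irreducible P) {α β : Ω} (hα : α ∈ S) (hαP : aeval α P = 0) (hβP : aeval β P = 0) :
    β ∈ S := by
  set a : S := ⟨α, hα⟩ with ha
  have haP : aeval a P = 0 := by
    apply Subtype.ext
    have : ((aeval a P : S) : Ω) = aeval α P := by
      rw [← IntermediateField.algebraMap_apply, ← aeval_algebraMap_apply]
      rfl
    rw [this, hαP]; rfl
  have hint : IsIntegral F a := (Normal.isIntegral (inferInstance : Normal F S) a)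
  -- `minpoly F a ∣ P`, hence associated to `P`
  have hdvd : minpoly F a ∣ P := minpoly.dvd F a haP
  obtain ⟨Q, hQ⟩ := hdvd
  have hmin_nu : ¬ IsUnit (minpoly F a) := minpoly.not_isUnit F a
  have hQu : IsUnit Q := (hP.isUnit_or_isUnit hQ).resolve_left hmin_nu
  -- `β` is a root of `minpoly F a`
  have hβm : aeval β (minpoly F a) = 0 := by
    have h1 : aeval β P = aeval β (minpoly F a) * aeval β Q := by rw [hQ, map_mul]
    rw [hβP] at h1
    have hQβ : aeval β Q ≠ 0 := by
      obtain ⟨c, hc, rfl⟩ := Polynomial.isUnit_iff.mp hQu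
      rw [aeval_C]
      exact (map_ne_zero (algebraMap F Ω)).mpr hc.ne_zero
    exact (mul_eq_zero.mp h1.symm).resolve_right hQβ
  have hsp : Splits ((minpoly F a).map (algebraMap F S)) :=
    Normal.splits (inferInstance : Normal F S) a
  have hne : (minpoly F a).map (algebraMap F S) ≠ 0 :=
    Polynomial.map_ne_zero (minpoly.ne_zero hint)
  have hroot : (((minpoly F a).map (algebraMap F S)).map (algebraMap S Ω)).IsRoot β := by
    rw [Polynomial.map_map, ← IsScalarTower.algebraMap_eq, IsRoot.def, eval_map_algebraMap]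
    exact hβm
  obtain ⟨b, hb⟩ := hsp.mem_range_of_isRoot hne hroot
  rw [← hb]
  exact b.2

/-- the same for a Galois intermediate field (shape of helper17's `ls3_isGalois*`). -/
theorem bsia_mem_of_isGalois (S : IntermediateField F Ω) [IsGalois F S] {P : F[X]}
    (hP : Irreducible P) {α β : Ω} (hα : α ∈ S) (hαP : aeval α P = 0) (hβP : aeval β P = 0) :
    β ∈ S :=
  bsia_mem_of_normal S hP hα hαP hβP

/-- variant: `P` is only assumed to be *the minimal polynomial up to a constant*, i.e. we are given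
that `α` is algebraic over `F` and `β` is a root of `minpoly F α`. -/
theorem bsia_mem_of_normal_minpoly (S : IntermediateField F Ω) [Normal F S] {α β : Ω}
    (hα : α ∈ S) (hint : IsIntegral F α) (hβ : aeval β (minpoly F α) = 0) : β ∈ S :=
  bsia_mem_of_normal S (minpoly.irreducible hint) hα (minpoly.aeval F α) hβ

end Normal

section Quadratic

variable {K Ω : Type*} [Field K] [Field Ω] [Algebra K Ω]

/-- elements of `C(x)` with `x² ∈ C` are of the form `a + b x`, `a, b ∈ C`. -/
theorem bsia_exists_of_mem_adjoin_sq (C : IntermediateField K Ω) {x : Ω} (hx2 : x ^ 2 ∈ C)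
    {y : Ω} (hy : y ∈ (C ⊔ K⟮x⟯ : IntermediateField K Ω)) :
    ∃ a ∈ C, ∃ b ∈ C, y = a + b * x := by
  -- the set `{a + b x}` is a subfield containing `C` and `x`
  by_cases hxC : x ∈ C
  · refine ⟨y, ?_, 0, C.zero_mem, by ring⟩
    have : (C ⊔ K⟮x⟯ : IntermediateField K Ω) ≤ C :=
      sup_le le_rfl (by rw [adjoin_simple_le_iff]; exact hxC)
    exact this hy
  have hx0 : x ≠ 0 := fun h => hxC (h ▸ C.zero_mem)
  -- key: nonzero `a + b x` has inverse of the same shape
  have hnorm : ∀ a ∈ C, ∀ b ∈ C, a + b * x ≠ 0 → a ^ 2 - b ^ 2 * x ^ 2 ≠ 0 := by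
    intro a ha b hb hne h0
    have hfac : (a + b * x) * (a - b * x) = 0 := by rw [← h0]; ring
    rcases mul_eq_zero.mp hfac with h | h
    · exact hne h
    · -- `a = b x`; if `b = 0` then `a = 0` and `a + b x = 0`; else `x = a / b ∈ C`
      by_cases hb0 : b = 0
      · subst hb0
        apply hne
        have : a = 0 := by simpa using h
        simp [this]
      · apply hxC
        have hxe : x = a / b := by
          field_simp
          linear_combination -h
        rw [hxe]
        exact C.div_mem ha hb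
  let T : IntermediateField K Ω :=
    { carrier := {y | ∃ a ∈ C, ∃ b ∈ C, y = a + b * x}
      mul_mem' := by
        rintro _ _ ⟨a, ha, b, hb, rfl⟩ ⟨a', ha', b', hb', rfl⟩
        refine ⟨a * a' + b * b' * x ^ 2,
          C.add_mem (C.mul_mem ha ha') (C.mul_mem (C.mul_mem hb hb') hx2),
          a * b' + b * a', C.add_mem (C.mul_mem ha hb') (C.mul_mem hb ha'), by ring⟩
      one_mem' := ⟨1, C.one_mem, 0, C.zero_mem, by ring⟩
      add_mem' := by
        rintro _ _ ⟨a, ha, b, hb, rfl⟩ ⟨a', ha', b', hb', rfl⟩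
        exact ⟨a + a', C.add_mem ha ha', b + b', C.add_mem hb hb', by ring⟩
      zero_mem' := ⟨0, C.zero_mem, 0, C.zero_mem, by ring⟩
      algebraMap_mem' := fun r => ⟨algebraMap K Ω r, C.algebraMap_mem r, 0, C.zero_mem, by ring⟩
      inv_mem' := by
        rintro _ ⟨a, ha, b, hb, rfl⟩
        by_cases hne : a + b * x = 0
        · rw [hne, inv_zero]; exact ⟨0, C.zero_mem, 0, C.zero_mem, by ring⟩
        · have hd := hnorm a ha b hb hne
          have hdC : a ^ 2 - b ^ 2 * x ^ 2 ∈ C :=
            C.sub_mem (pow_mem ha 2) (C.mul_mem (pow_mem hb 2) hx2)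
          refine ⟨a / (a ^ 2 - b ^ 2 * x ^ 2), C.div_mem ha hdC,
            -b / (a ^ 2 - b ^ 2 * x ^ 2), C.div_mem (C.neg_mem hb) hdC, ?_⟩
          field_simp
          ring }
  have hle : (C ⊔ K⟮x⟯ : IntermediateField K Ω) ≤ T := by
    refine sup_le ?_ ?_
    · intro c hc
      exact ⟨c, hc, 0, C.zero_mem, by ring⟩
    · rw [adjoin_simple_le_iff]
      exact ⟨0, C.zero_mem, 1, C.one_mem, by ring⟩
  exact hle hy

/-- QUADRATIC STEP: `C ≤ E ≤ C(x)`, `x² ∈ C`, `E ≠ C` ⟹ `E = C(x)`. -/
theorem bsia_eq_adjoin_of_sq (C E : IntermediateField K Ω) {x : Ω} (hx2 : x ^ 2 ∈ C)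
    (hCE : C ≤ E) (hES : E ≤ C ⊔ K⟮x⟯) (hne : E ≠ C) : E = C ⊔ K⟮x⟯ := by
  refine le_antisymm hES (sup_le hCE ?_)
  rw [adjoin_simple_le_iff]
  -- pick `y ∈ E \ C`
  have : ∃ y ∈ E, y ∉ C := by
    by_contra hcon
    have hcon' : ∀ y ∈ E, y ∈ C := fun y hy => by
      by_contra hyC
      exact hcon ⟨y, hy, hyC⟩
    exact hne (le_antisymm hcon' hCE)
  obtain ⟨y, hyE, hyC⟩ := this
  obtain ⟨a, ha, b, hb, rfl⟩ := bsia_exists_of_mem_adjoin_sq C hx2 (hES hyE)
  have hb0 : b ≠ 0 := by
    rintro rfl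
    apply hyC
    simpa using ha
  have hx : x = ((a + b * x) - a) / b := by field_simp; ring
  rw [hx]
  exact E.div_mem (E.sub_mem hyE (hCE ha)) (hCE hb)

/-- the form used for `F₄ = K(X₃)`: `C = K(x²)`-like subfield with `C ≤ E ≤ K(x)`, `x² ∈ C`,
`C ≤ K(x)`: then `E ≠ C` forces `E = K(x)`. -/
theorem bsia_eq_adjoin_simple_of_sq (C E : IntermediateField K Ω) {x : Ω} (hx2 : x ^ 2 ∈ C)
    (hCS : C ≤ K⟮x⟯) (hCE : C ≤ E) (hES : E ≤ K⟮x⟯) (hne : E ≠ C) : E = K⟮x⟯ := by
  have hsup : (C ⊔ K⟮x⟯ : IntermediateField K Ω) = K⟮x⟯ := sup_eq_right.mpr hCS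
  have := bsia_eq_adjoin_of_sq C E hx2 hCE (by rw [hsup]; exact hES) hne
  rw [this, hsup]

end Quadratic

section PrimeDegree

variable {K Ω : Type*} [Field K] [Field Ω] [Algebra K Ω]

/-- PRIME-DEGREE STEP: `C ≤ E ≤ S`, `[S:C]` prime, `E ≠ C` ⟹ `E = S`. -/
theorem bsia_eq_of_prime_relfinrank (C E S : IntermediateField K Ω) (hCE : C ≤ E) (hES : E ≤ S)
    (hp : (C.relfinrank S).Prime) (hne : E ≠ C) : E = S := by
  have hmul : C.relfinrank E * E.relfinrank S = C.relfinrank S :=
    IntermediateField.relfinrank_mul_relfinrank hCE hES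
  have h1 : C.relfinrank E ≠ 1 := by
    intro h
    apply hne
    have hEC : E ≤ C := IntermediateField.relfinrank_eq_one_iff.mp h
    exact le_antisymm hEC hCE
  have hd : C.relfinrank E ∣ C.relfinrank S := ⟨_, hmul.symm⟩
  have h2 : C.relfinrank E = C.relfinrank S := (hp.eq_one_or_self_of_dvd _ hd).resolve_left h1
  have h3 : E.relfinrank S = 1 := by
    rw [h2] at hmul
    have hpos : 0 < C.relfinrank S := hp.pos
    exact Nat.eq_of_mul_eq_mul_left hpos (by rw [hmul, mul_one])
  have hSE : S ≤ E := IntermediateField.relfinrank_eq_one_iff.mp h3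
  exact le_antisymm hES hSE

end PrimeDegree

end Fermat.Agent.S18x
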