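import Mathlib
import Fermat.Agent.S24x.CombIndex
import Fermat.Agent.S18x.NrmNonCoprimeLevel
import Fermat.Agent.S18x.LevelYDefs

/-!
# N12 (d): the bridging lemma `F_{2N}(q²) · K(X₃) = F_{4N}` (helper17; prefix `bsib_`)

`K` any field with `2` invertible, `X₃ = purb_X3 h2`, `E = nnc15_E K (2N) = F_{2N}(q²)`.
Hypothesis form: `X₃ ∈ F_4` (row N12 proper) and degree data (DEG at the levels `2, 2N, 4N`, and
`[F_2 : K(j(q²))] = 3`).
-/

set_option autoImplicit false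

noncomputable section

namespace Fermat.Agent.S18x

open ModularCurve IntermediateField

section Abstract

variable {K Ω : Type*} [Field K] [Field Ω] [Algebra K Ω]

/-- `E ≤ F`, `x ∈ F ∖ E`, `[F : E] ≤ 2` (finite) ⟹ `E(x) = F`. -/
theorem bsib_abs_sup_eq (E F : IntermediateField K Ω) (x : Ω) (hEF : E ≤ F) (hxF : x ∈ F)
    (hxE : x ∉ E) (hdeg : relfinrank E F ≤ 2) (hne : relfinrank E F ≠ 0) :
    E ⊔ K⟮x⟯ = F := by
  have hle : E ⊔ K⟮x⟯ ≤ F := sup_le hEF (adjoin_simple_le_iff.mpr hxF)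
  have hmul := relfinrank_mul_relfinrank (le_sup_left : E ≤ E ⊔ K⟮x⟯) hle
  have h1 : relfinrank E (E ⊔ K⟮x⟯) ≠ 1 := by
    intro h
    have := relfinrank_eq_one_iff.mp h
    exact hxE (this (le_sup_right (a := E) (mem_adjoin_simple_self K x)))
  have h0 : relfinrank E (E ⊔ K⟮x⟯) ≠ 0 := by
    intro h
    rw [h, zero_mul] at hmul
    exact hne hmul.symm
  have h0' : relfinrank (E ⊔ K⟮x⟯) F ≠ 0 := by
    intro h
    rw [h, mul_zero] at hmul
    exact hne hmul.symm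
  have ha : 2 ≤ relfinrank E (E ⊔ K⟮x⟯) := by omega
  have hb : relfinrank (E ⊔ K⟮x⟯) F = 1 := by
    have hb1 : 1 ≤ relfinrank (E ⊔ K⟮x⟯) F := Nat.one_le_iff_ne_zero.mpr h0'
    by_contra hcon
    have hb2 : 2 ≤ relfinrank (E ⊔ K⟮x⟯) F := by omega
    have : 4 ≤ relfinrank E (E ⊔ K⟮x⟯) * relfinrank (E ⊔ K⟮x⟯) F :=
      le_trans (by norm_num) (Nat.mul_le_mul ha hb2)
    omega
  exact le_antisymm hle (relfinrank_eq_one_iff.mp hb)

end Abstract

section Level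

variable (K : Type*) [Field K] (h2 : IsUnit (2 : K)) (N : ℕ) [NeZero N]

omit [NeZero N] in
theorem bsib_E_le : nnc15_E K (2 * N) ≤ modularFunctionFieldFullC K (4 * N) := by
  have h := full_degeneracyC_map_le K (2 * N) 2
  have e : 2 * N * 2 = 4 * N := by ring
  rw [e] at h
  exact h

theorem bsib_F4_le : modularFunctionFieldFullC K 4 ≤ modularFunctionFieldFullC K (4 * N) :=
  full_degeneracyC_le K (Dvd.intro N rfl)

theorem bsib_F2_le : modularFunctionFieldFullC K 2 ≤ modularFunctionFieldFullC K (4 * N) :=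
  full_degeneracyC_le K ⟨2 * N, by ring⟩

/-- `(≤)`: generators. -/
theorem bsib_sup_le (hX3 : purb_X3 h2 ∈ modularFunctionFieldFullC K 4) :
    nnc15_E K (2 * N) ⊔ K⟮purb_X3 h2⟯ ≤ modularFunctionFieldFullC K (4 * N) :=
  sup_le (bsib_E_le K N) (adjoin_simple_le_iff.mpr (bsib_F4_le K N hX3))

/-- **Bridging lemma**, degree hypothesis `[F_{4N} : F_{2N}(q²)] ≤ 2`. -/
theorem bsib_sup_eq (hX3 : purb_X3 h2 ∈ modularFunctionFieldFullC K 4)
    (hdeg : relfinrank (nnc15_E K (2 * N)) (modularFunctionFieldFullC K (4 * N)) ≤ 2)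
    (hne : relfinrank (nnc15_E K (2 * N)) (modularFunctionFieldFullC K (4 * N)) ≠ 0) :
    nnc15_E K (2 * N) ⊔ K⟮purb_X3 h2⟯ = modularFunctionFieldFullC K (4 * N) :=
  bsib_abs_sup_eq _ _ _ (bsib_E_le K N) (bsib_F4_le K N hX3)
    (nnc15_levelN_X3_not_mem (2 * N) h2) hdeg hne

/-- degree bookkeeping: DEG (equalities) at the levels `2`, `2N`, `4N` over `K(j)` and
`[F_2 : K(j(q²))] = 3` give `[F_{4N} : F_{2N}(q²)] = 2`. -/
theorem bsib_relfinrank_eq_two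
    (hd4 : relfinrank K⟮jqModC K⟯ (modularFunctionFieldFullC K (4 * N)) = dedekindPsi (4 * N))
    (hd2N : relfinrank K⟮jqModC K⟯ (modularFunctionFieldFullC K (2 * N)) = dedekindPsi (2 * N))
    (hd2 : relfinrank K⟮jqModC K⟯ (modularFunctionFieldFullC K 2) = 3)
    (hd2' : relfinrank K⟮qExpand K 2 (jqModC K)⟯ (modularFunctionFieldFullC K 2) = 3) :
    relfinrank (nnc15_E K (2 * N)) (modularFunctionFieldFullC K (4 * N)) = 2 := by
  have hpsi : dedekindPsi (4 * N) = 2 * dedekindPsi (2 * N) := by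
    have := Fermat.Agent.S24x.dedekindPsi_mul_prime_of_dvd (2 * N) 2 Nat.prime_two
      (Nat.pos_of_ne_zero (NeZero.ne (2 * N))) (Dvd.intro N rfl)
    have e : 2 * N * 2 = 4 * N := by ring
    rw [e] at this
    exact this
  have hpos : 0 < dedekindPsi (2 * N) := by
    unfold dedekindPsi
    have hM : 2 * N ≠ 0 := NeZero.ne (2 * N)
    have h1 : (1 : ℕ) ∈ (2 * N).divisors.filter Squarefree :=
      Finset.mem_filter.2 ⟨Nat.mem_divisors.2 ⟨one_dvd _, hM⟩, squarefree_one⟩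
    have := Finset.single_le_sum (f := fun d => 2 * N / d) (fun _ _ => Nat.zero_le _) h1
    simp only [Nat.div_one] at this
    exact lt_of_lt_of_le (Nat.pos_of_ne_zero hM) this
  -- the two towers through `F_2`
  have hj : K⟮jqModC K⟯ ≤ modularFunctionFieldFullC K 2 :=
    adjoin_simple_le_iff.mpr (jqModC_mem_full K 2)
  have hj2 : K⟮qExpand K 2 (jqModC K)⟯ ≤ modularFunctionFieldFullC K 2 :=
    adjoin_simple_le_iff.mpr (jqModCd_mem_full K 2 (dvd_refl 2))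
  have t1 := relfinrank_mul_relfinrank hj (bsib_F2_le K N)
  have t2 := relfinrank_mul_relfinrank hj2 (bsib_F2_le K N)
  rw [hd2, hd4] at t1
  rw [hd2'] at t2
  -- the tower through `E`
  have t3 := relfinrank_mul_relfinrank (nnc15_adjoin_j2_le_E K (2 * N)) (bsib_E_le K N)
  rw [nnc15_relfinrank_E (2 * N), hd2N] at t3
  have hT : relfinrank K⟮qExpand K 2 (jqModC K)⟯ (modularFunctionFieldFullC K (4 * N))
      = 2 * dedekindPsi (2 * N) := by
    rw [← t2, t1, hpsi]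
  rw [hT] at t3
  have : dedekindPsi (2 * N) *
      relfinrank (nnc15_E K (2 * N)) (modularFunctionFieldFullC K (4 * N))
      = dedekindPsi (2 * N) * 2 := by rw [t3]; ring
  exact Nat.eq_of_mul_eq_mul_left hpos this

/-- **Bridging lemma**, DEG form. -/
theorem bsib_sup_eq_of_deg (hX3 : purb_X3 h2 ∈ modularFunctionFieldFullC K 4)
    (hd4 : relfinrank K⟮jqModC K⟯ (modularFunctionFieldFullC K (4 * N)) = dedekindPsi (4 * N))
    (hd2N : relfinrank K⟮jqModC K⟯ (modularFunctionFieldFullC K (2 * N)) = dedekindPsi (2 * N))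
    (hd2 : relfinrank K⟮jqModC K⟯ (modularFunctionFieldFullC K 2) = 3)
    (hd2' : relfinrank K⟮qExpand K 2 (jqModC K)⟯ (modularFunctionFieldFullC K 2) = 3) :
    nnc15_E K (2 * N) ⊔ K⟮purb_X3 h2⟯ = modularFunctionFieldFullC K (4 * N) := by
  have h := bsib_relfinrank_eq_two K N hd4 hd2N hd2 hd2'
  exact bsib_sup_eq K h2 N hX3 (by rw [h]) (by rw [h]; norm_num)

end Level

section Literal

/-! ### the literal level-`Y` fields of `LevelYDefs.lean` -/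

theorem bsib_qExpandₐ_eq (e : ℕ) [NeZero e] : qExpandₐ e = qExpandAlgHomC ℚ e :=
  AlgHom.ext fun _ => rfl

theorem bsib_FNe_eq (N : ℕ) [NeZero N] : purb_FNe 2 N = nnc15_E ℚ N := by
  unfold purb_FNe nnc15_E
  rw [bsib_qExpandₐ_eq]
  rfl

/-- characteristic `0`: `purb_LY 2 X₃ (2N) = F_{4N}`. -/
theorem bsib_LY_eq (h2 : IsUnit (2 : ℚ)) (N : ℕ) [NeZero N]
    (hX3 : purb_X3 h2 ∈ modularFunctionFieldFullC ℚ 4)
    (hd4 : relfinrank ℚ⟮jqModC ℚ⟯ (modularFunctionFieldFullC ℚ (4 * N)) = dedekindPsi (4 * N))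
    (hd2N : relfinrank ℚ⟮jqModC ℚ⟯ (modularFunctionFieldFullC ℚ (2 * N)) = dedekindPsi (2 * N))
    (hd2 : relfinrank ℚ⟮jqModC ℚ⟯ (modularFunctionFieldFullC ℚ 2) = 3)
    (hd2' : relfinrank ℚ⟮qExpand ℚ 2 (jqModC ℚ)⟯ (modularFunctionFieldFullC ℚ 2) = 3) :
    purb_LY 2 (purb_X3 h2) (2 * N) = modularFunctionFieldFull (4 * N) := by
  unfold purb_LY purb_KY
  rw [bsib_FNe_eq]
  exact bsib_sup_eq_of_deg ℚ h2 N hX3 hd4 hd2N hd2 hd2'

/-- characteristic `ℓ`: `purb_LYb ℓ 2 X̄₃ (2N) = F̃_{4N}`. -/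
theorem bsib_LYb_eq (ℓ : ℕ) [Fact ℓ.Prime] (h2 : IsUnit (2 : ZMod ℓ)) (N : ℕ) [NeZero N]
    (hX3 : purb_X3 h2 ∈ modularFunctionFieldFullC (ZMod ℓ) 4)
    (hd4 : relfinrank (ZMod ℓ)⟮jqModC (ZMod ℓ)⟯ (modularFunctionFieldFullC (ZMod ℓ) (4 * N))
      = dedekindPsi (4 * N))
    (hd2N : relfinrank (ZMod ℓ)⟮jqModC (ZMod ℓ)⟯ (modularFunctionFieldFullC (ZMod ℓ) (2 * N))
      = dedekindPsi (2 * N))
    (hd2 : relfinrank (ZMod ℓ)⟮jqModC (ZMod ℓ)⟯ (modularFunctionFieldFullC (ZMod ℓ) 2) = 3)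
    (hd2' : relfinrank (ZMod ℓ)⟮qExpand (ZMod ℓ) 2 (jqModC (ZMod ℓ))⟯
      (modularFunctionFieldFullC (ZMod ℓ) 2) = 3) :
    purb_LYb ℓ 2 (purb_X3 h2) (2 * N) = modularFunctionFieldFullC (ZMod ℓ) (4 * N) := by
  unfold purb_LYb purb_KYb purb_FNeb
  exact bsib_sup_eq_of_deg (ZMod ℓ) h2 N hX3 hd4 hd2N hd2 hd2'

end Literal

end Fermat.Agent.S18x
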