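/-
S18 project, NRM block, row N12 (d) (helper69, prefix `bsly_`): the BRIDGING LEMMA
`F_{p N}(q^p) · K(x) = F_{p² N}`.

* Layer 0 (pure field theory): `A ≤ B`, `x ∈ B \ A`, `0 < [B : A] ≤ 3`  ⟹  `A ⊔ K(x) = B`.
* Layer 1 (degree bookkeeping in a lattice of intermediate fields).
* Layer 2 (modular function fields over an arbitrary field `K`, hypotheses = degree facts).
* Layer 3: the instances `(e, p) = (2, 2)`, `x = X₃` and `(e, p) = (3, 3)`, `x = μ`.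
-/
import Mathlib
import Fermat.Agent.S18x.BaseIdentAbs
import Fermat.Agent.S18x.NrmNonCoprimeLevel
import Fermat.Agent.S18x.LevelYDefs
import Fermat.Agent.S18x.LevelYInst
import Fermat.Agent.S24x.CombIndex
import Fermat.Agent.S28x.DegAll
import Fermat.Agent.S28x.QepOfDeg
import Fermat.Agent.S28x.DegreeUpper
import Fermat.Agent.S28x.ModPolyConsFinal

set_option autoImplicit false

noncomputable section

namespace Fermat.Agent.S18x

open ModularCurve IntermediateField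

/-! ## Layer 0: pure field theory -/

section Abstract

variable {K Ω : Type*} [Field K] [Field Ω] [Algebra K Ω]

/-- `A ≤ B`, `x ∈ B`, `x ∉ A`, `[B : A]` prime ⟹ `A(x) = B`. -/
theorem bsly_sup_adjoin_eq_of_prime (A B : IntermediateField K Ω) (hAB : A ≤ B) {x : Ω}
    (hxB : x ∈ B) (hxA : x ∉ A) (hp : (A.relfinrank B).Prime) : A ⊔ K⟮x⟯ = B := by
  refine bsia_eq_of_prime_relfinrank A (A ⊔ K⟮x⟯) B le_sup_left
    (sup_le hAB (by rw [adjoin_simple_le_iff]; exact hxB)) hp ?_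
  intro h
  apply hxA
  rw [← h]
  exact (le_sup_right : K⟮x⟯ ≤ A ⊔ K⟮x⟯) (mem_adjoin_simple_self K x)

/-- `A ≤ B`, `x ∈ B`, `x ∉ A`, `0 < [B : A] ≤ 3` ⟹ `[B : A]` is prime. -/
theorem bsly_prime_relfinrank_of_le_three (A B : IntermediateField K Ω) {x : Ω}
    (hxB : x ∈ B) (hxA : x ∉ A) (h0 : 0 < A.relfinrank B) (h3 : A.relfinrank B ≤ 3) :
    (A.relfinrank B).Prime := by
  have h1 : A.relfinrank B ≠ 1 := by
    intro h
    exact hxA (IntermediateField.relfinrank_eq_one_iff.mp h hxB)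
  have : A.relfinrank B = 2 ∨ A.relfinrank B = 3 := by omega
  rcases this with h | h <;> rw [h]
  · exact Nat.prime_two
  · exact Nat.prime_three

/-- **Bridging lemma, abstract form**: `A ≤ B`, `x ∈ B`, `x ∉ A`, `0 < [B : A] ≤ 3`
⟹ `A(x) = B`. -/
theorem bsly_sup_adjoin_eq (A B : IntermediateField K Ω) (hAB : A ≤ B) {x : Ω}
    (hxB : x ∈ B) (hxA : x ∉ A) (h0 : 0 < A.relfinrank B) (h3 : A.relfinrank B ≤ 3) :
    A ⊔ K⟮x⟯ = B :=
  bsly_sup_adjoin_eq_of_prime A B hAB hxB hxA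
    (bsly_prime_relfinrank_of_le_three A B hxB hxA h0 h3)

/-- in the situation of `bsly_sup_adjoin_eq`, if moreover `[B : A] ≤ 2` then `[B : A] = 2`. -/
theorem bsly_relfinrank_eq_two (A B : IntermediateField K Ω) {x : Ω}
    (hxB : x ∈ B) (hxA : x ∉ A) (h0 : 0 < A.relfinrank B) (h2 : A.relfinrank B ≤ 2) :
    A.relfinrank B = 2 := by
  have h1 : A.relfinrank B ≠ 1 := by
    intro h
    exact hxA (IntermediateField.relfinrank_eq_one_iff.mp h hxB)
  omega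

/-! ## Layer 1: degree bookkeeping

`J ≤ P ≤ B` (`J = K(j)`, `P = F_{p²}`), `J' ≤ P` (`J' = K(j(q^p))`), `J' ≤ A ≤ B`
(`A = F_{pN}(q^p)`), and
`[P : J'] ≤ D ≤ [P : J]`, `0 < [B : J] ≤ p m`, `0 < m ≤ [A : J']`, `0 < [P : J']`.
Then `0 < [B : A] ≤ p`. -/

theorem bsly_relfinrank_bound (J J' P A B : IntermediateField K Ω)
    (hJP : J ≤ P) (hJ'P : J' ≤ P) (hPB : P ≤ B) (hJ'A : J' ≤ A) (hAB : A ≤ B)
    {D m p : ℕ}
    (hDp : J'.relfinrank P ≤ D) (hDp0 : 0 < J'.relfinrank P) (hD : D ≤ J.relfinrank P)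
    (hB0 : 0 < J.relfinrank B) (hB : J.relfinrank B ≤ p * m)
    (hm : 0 < m) (hA : m ≤ J'.relfinrank A) :
    0 < A.relfinrank B ∧ A.relfinrank B ≤ p := by
  have e1 : J.relfinrank P * P.relfinrank B = J.relfinrank B :=
    IntermediateField.relfinrank_mul_relfinrank hJP hPB
  have e2 : J'.relfinrank P * P.relfinrank B = J'.relfinrank B :=
    IntermediateField.relfinrank_mul_relfinrank hJ'P hPB
  have e3 : J'.relfinrank A * A.relfinrank B = J'.relfinrank B :=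
    IntermediateField.relfinrank_mul_relfinrank hJ'A hAB
  set a := J.relfinrank P
  set a' := J'.relfinrank P
  set t := P.relfinrank B
  set c := J'.relfinrank A
  set r := A.relfinrank B
  have ht : 0 < t := by
    rcases Nat.eq_zero_or_pos t with h | h
    · rw [h, mul_zero] at e1; omega
    · exact h
  have hJ'B : 0 < a' * t := Nat.mul_pos hDp0 ht
  have hr : 0 < r := by
    rcases Nat.eq_zero_or_pos r with h | h
    · rw [h, mul_zero] at e3; omega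
    · exact h
  refine ⟨hr, ?_⟩
  -- m * r ≤ c * r = a' * t ≤ D * t ≤ a * t ≤ p * m
  have h1 : m * r ≤ c * r := Nat.mul_le_mul_right r hA
  have h2 : a' * t ≤ D * t := Nat.mul_le_mul_right t hDp
  have h3 : D * t ≤ a * t := Nat.mul_le_mul_right t hD
  have h4 : m * r ≤ m * p := by
    calc m * r ≤ c * r := h1
      _ = a' * t := by rw [e3, e2]
      _ ≤ D * t := h2
      _ ≤ a * t := h3
      _ = J.relfinrank B := e1
      _ ≤ p * m := hB
      _ = m * p := mul_comm p m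
  exact Nat.le_of_mul_le_mul_left h4 hm

end Abstract

/-! ## Layer 2: modular function fields over an arbitrary field `K` -/

section Full

variable (K : Type*) [Field K]

theorem bsly_adjoin_j_le_full (M : ℕ) [NeZero M] :
    K⟮jqModC K⟯ ≤ modularFunctionFieldFullC K M := by
  rw [adjoin_simple_le_iff]
  exact jqModC_mem_full K M

theorem bsly_adjoin_jp_le_full (p P : ℕ) [NeZero p] [NeZero P] (hpP : p ∣ P) :
    K⟮qExpand K p (jqModC K)⟯ ≤ modularFunctionFieldFullC K P := by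
  rw [adjoin_simple_le_iff]
  exact jqModCd_mem_full K P hpP

theorem bsly_adjoin_jp_le_map (p M : ℕ) [NeZero p] [NeZero M] :
    K⟮qExpand K p (jqModC K)⟯ ≤ (modularFunctionFieldFullC K M).map (qExpandAlgHomC K p) := by
  rw [adjoin_simple_le_iff]
  exact ⟨jqModC K, jqModC_mem_full K M, rfl⟩

/-- transport of degrees along `q ↦ q^p`: `[F_M(q^p) : K(j(q^p))] = [F_M : K(j)]`. -/
theorem bsly_relfinrank_map (p M : ℕ) [NeZero p] [NeZero M] :
    relfinrank K⟮qExpand K p (jqModC K)⟯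
        ((modularFunctionFieldFullC K M).map (qExpandAlgHomC K p))
      = relfinrank K⟮jqModC K⟯ (modularFunctionFieldFullC K M) := by
  have h1 : (K⟮jqModC K⟯).map (qExpandAlgHomC K p) = K⟮qExpand K p (jqModC K)⟯ := by
    rw [IntermediateField.adjoin_map, Set.image_singleton, qExpandAlgHomC_apply]
  rw [← h1, IntermediateField.relfinrank_map_map]

theorem bsly_map_le_full (p M M' : ℕ) [NeZero p] [NeZero M] [NeZero M'] (h : M * p ∣ M') :
    (modularFunctionFieldFullC K M).map (qExpandAlgHomC K p) ≤ modularFunctionFieldFullC K M' := by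
  have : NeZero (M * p) := ⟨Nat.mul_ne_zero (NeZero.ne M) (NeZero.ne p)⟩
  exact (full_degeneracyC_map_le K M p).trans (full_degeneracyC_le K h)

theorem bsly_relfinrank_full_pos (M : ℕ) [NeZero M] :
    0 < relfinrank K⟮jqModC K⟯ (modularFunctionFieldFullC K M) :=
  Fermat.Agent.S28x.mpcf_relfinrank_fullC_pos K M K⟮jqModC K⟯ (mem_adjoin_simple_self K _)
    (bsly_adjoin_j_le_full K M)

/-- an element with a non-zero coefficient at an index not divisible by `p` is not in the image of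
`q ↦ q^p`. -/
theorem bsly_not_mem_map (p : ℕ) [NeZero p] (E : IntermediateField K (LaurentSeries K))
    {x : LaurentSeries K} {k : ℤ} (hk : ¬ (p : ℤ) ∣ k) (hx : x.coeff k ≠ 0) :
    x ∉ E.map (qExpandAlgHomC K p) := by
  rintro ⟨f, -, rfl⟩
  exact hx (qExpand_coeff_of_not_dvd p f hk)

/-- **Degree bound** `0 < [F_{M'} : F_M(q^p)] ≤ p'` from degree facts:
`[F_P : K(j(q^p))] ≤ D ≤ [F_P : K(j)]`, `[F_{M'} : K(j)] ≤ p' m`, `m ≤ [F_M : K(j)]`. -/
theorem bsly_full_relfinrank_bound (p M M' P : ℕ) [NeZero p] [NeZero M] [NeZero M'] [NeZero P]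
    (hMM' : M * p ∣ M') (hPM' : P ∣ M') (hpP : p ∣ P) {D m p' : ℕ}
    (hDp : relfinrank K⟮qExpand K p (jqModC K)⟯ (modularFunctionFieldFullC K P) ≤ D)
    (hDp0 : 0 < relfinrank K⟮qExpand K p (jqModC K)⟯ (modularFunctionFieldFullC K P))
    (hD : D ≤ relfinrank K⟮jqModC K⟯ (modularFunctionFieldFullC K P))
    (hB : relfinrank K⟮jqModC K⟯ (modularFunctionFieldFullC K M') ≤ p' * m)
    (hm : 0 < m) (hA : m ≤ relfinrank K⟮jqModC K⟯ (modularFunctionFieldFullC K M)) :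
    0 < relfinrank ((modularFunctionFieldFullC K M).map (qExpandAlgHomC K p))
          (modularFunctionFieldFullC K M') ∧
      relfinrank ((modularFunctionFieldFullC K M).map (qExpandAlgHomC K p))
          (modularFunctionFieldFullC K M') ≤ p' :=
  bsly_relfinrank_bound K⟮jqModC K⟯ K⟮qExpand K p (jqModC K)⟯ (modularFunctionFieldFullC K P)
    ((modularFunctionFieldFullC K M).map (qExpandAlgHomC K p)) (modularFunctionFieldFullC K M')
    (bsly_adjoin_j_le_full K P) (bsly_adjoin_jp_le_full K p P hpP) (full_degeneracyC_le K hPM')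
    (bsly_adjoin_jp_le_map K p M) (bsly_map_le_full K p M M' hMM')
    hDp hDp0 hD (bsly_relfinrank_full_pos K M') hB hm
    (by rw [bsly_relfinrank_map]; exact hA)

/-- **Bridging lemma, general form**: `F_M(q^p) · K(x) = F_{M'}`. -/
theorem bsly_full_sup_eq (p M M' P : ℕ) [NeZero p] [NeZero M] [NeZero M'] [NeZero P]
    (hMM' : M * p ∣ M') (hPM' : P ∣ M') (hpP : p ∣ P) {D m p' : ℕ} {x : LaurentSeries K}
    (hxP : x ∈ modularFunctionFieldFullC K P)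
    (hxA : x ∉ (modularFunctionFieldFullC K M).map (qExpandAlgHomC K p))
    (hDp : relfinrank K⟮qExpand K p (jqModC K)⟯ (modularFunctionFieldFullC K P) ≤ D)
    (hDp0 : 0 < relfinrank K⟮qExpand K p (jqModC K)⟯ (modularFunctionFieldFullC K P))
    (hD : D ≤ relfinrank K⟮jqModC K⟯ (modularFunctionFieldFullC K P))
    (hB : relfinrank K⟮jqModC K⟯ (modularFunctionFieldFullC K M') ≤ p' * m)
    (hm : 0 < m) (hA : m ≤ relfinrank K⟮jqModC K⟯ (modularFunctionFieldFullC K M))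
    (hp' : p' ≤ 3) :
    (modularFunctionFieldFullC K M).map (qExpandAlgHomC K p) ⊔ K⟮x⟯
      = modularFunctionFieldFullC K M' := by
  obtain ⟨h0, h1⟩ := bsly_full_relfinrank_bound K p M M' P hMM' hPM' hpP hDp hDp0 hD hB hm hA
  exact bsly_sup_adjoin_eq _ _ (bsly_map_le_full K p M M' hMM')
    (full_degeneracyC_le K hPM' hxP) hxA h0 (h1.trans hp')

/-- variant with `F_P = K(x)` and `[K(x) : K(j(q^p))] = D`. -/
theorem bsly_full_sup_eq_of_eq_adjoin (p M M' P : ℕ) [NeZero p] [NeZero M] [NeZero M'] [NeZero P]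
    (hMM' : M * p ∣ M') (hPM' : P ∣ M') (hpP : p ∣ P) {D m p' : ℕ} {x : LaurentSeries K}
    (hF : modularFunctionFieldFullC K P = K⟮x⟯)
    (hxA : x ∉ (modularFunctionFieldFullC K M).map (qExpandAlgHomC K p))
    (hDp : relfinrank K⟮qExpand K p (jqModC K)⟯ K⟮x⟯ = D) (hD0 : 0 < D)
    (hD : D ≤ relfinrank K⟮jqModC K⟯ (modularFunctionFieldFullC K P))
    (hB : relfinrank K⟮jqModC K⟯ (modularFunctionFieldFullC K M') ≤ p' * m)
    (hm : 0 < m) (hA : m ≤ relfinrank K⟮jqModC K⟯ (modularFunctionFieldFullC K M))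
    (hp' : p' ≤ 3) :
    (modularFunctionFieldFullC K M).map (qExpandAlgHomC K p) ⊔ K⟮x⟯
      = modularFunctionFieldFullC K M' :=
  bsly_full_sup_eq K p M M' P hMM' hPM' hpP
    (by rw [hF]; exact mem_adjoin_simple_self K x) hxA
    (by rw [hF, hDp]) (by rw [hF, hDp]; exact hD0) hD hB hm hA hp'

end Full

/-! ## Layer 3a: `(e, p) = (2, 2)`, `x = X₃` over an arbitrary field `K` with `2 ≠ 0` -/

section Two

theorem bsly_psi_two : dedekindPsi 2 = 3 := by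
  have h := Fermat.Agent.S24x.dedekindPsi_mul_prime_of_not_dvd 1 2 Nat.prime_two one_pos
    (by norm_num)
  rw [dedekindPsi_one] at h
  simpa using h

theorem bsly_psi_four : dedekindPsi 4 = 6 := by
  have h := Fermat.Agent.S24x.dedekindPsi_mul_prime_of_dvd 2 2 Nat.prime_two two_pos dvd_rfl
  rw [bsly_psi_two] at h
  simpa using h

theorem bsly_psi_four_mul (N : ℕ) (hN : 0 < N) :
    dedekindPsi (4 * N) = 2 * dedekindPsi (2 * N) := by
  have h := Fermat.Agent.S24x.dedekindPsi_mul_prime_of_dvd (2 * N) 2 Nat.prime_two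
    (by omega) (dvd_mul_right 2 N)
  rw [← h]
  congr 1
  ring

variable (K : Type*) [Field K] (h2 : IsUnit (2 : K)) (N : ℕ) [NeZero N]

/-- **Bridging lemma for `ℓ` odd, any field `K` with `2 ≠ 0`**, degree facts as hypotheses:
`F_{2N}(q²) · K(X₃) = F_{4N}`. -/
theorem bsly_X3_sup_eq
    (hF4 : modularFunctionFieldFullC K 4 = K⟮purb_X3 h2⟯)
    (h4 : 6 ≤ relfinrank K⟮jqModC K⟯ (modularFunctionFieldFullC K 4))
    (h4N : relfinrank K⟮jqModC K⟯ (modularFunctionFieldFullC K (4 * N)) ≤ dedekindPsi (4 * N))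
    (h2N : dedekindPsi (2 * N) ≤ relfinrank K⟮jqModC K⟯ (modularFunctionFieldFullC K (2 * N))) :
    nnc15_E K (2 * N) ⊔ K⟮purb_X3 h2⟯ = modularFunctionFieldFullC K (4 * N) := by
  have hNpos : 0 < N := Nat.pos_of_ne_zero (NeZero.ne N)
  refine bsly_full_sup_eq_of_eq_adjoin K 2 (2 * N) (4 * N) 4 ⟨1, by ring⟩ (dvd_mul_right 4 N)
    ⟨2, by norm_num⟩ (D := 6) (m := dedekindPsi (2 * N)) (p' := 2) hF4
    (nnc15_levelN_X3_not_mem (2 * N) h2) (nnc15_relfinrank_j2_X3 h2) (by norm_num) h4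
    (by rw [← bsly_psi_four_mul N hNpos]; exact h4N)
    (Fermat.Agent.S28x.sa_dedekindPsi_pos _ (NeZero.ne _)) h2N (by norm_num)

/-- in the same situation `[F_{4N} : F_{2N}(q²)] = 2`. -/
theorem bsly_X3_relfinrank
    (hF4 : modularFunctionFieldFullC K 4 = K⟮purb_X3 h2⟯)
    (h4 : 6 ≤ relfinrank K⟮jqModC K⟯ (modularFunctionFieldFullC K 4))
    (h4N : relfinrank K⟮jqModC K⟯ (modularFunctionFieldFullC K (4 * N)) ≤ dedekindPsi (4 * N))
    (h2N : dedekindPsi (2 * N) ≤ relfinrank K⟮jqModC K⟯ (modularFunctionFieldFullC K (2 * N))) :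
    relfinrank (nnc15_E K (2 * N)) (modularFunctionFieldFullC K (4 * N)) = 2 := by
  have hNpos : 0 < N := Nat.pos_of_ne_zero (NeZero.ne N)
  obtain ⟨h0, h1⟩ := bsly_full_relfinrank_bound K 2 (2 * N) (4 * N) 4 ⟨1, by ring⟩
    (dvd_mul_right 4 N) ⟨2, by norm_num⟩ (D := 6) (m := dedekindPsi (2 * N)) (p' := 2)
    (by rw [hF4, nnc15_relfinrank_j2_X3 h2]) (by rw [hF4, nnc15_relfinrank_j2_X3 h2]; norm_num) h4
    (by rw [← bsly_psi_four_mul N hNpos]; exact h4N)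
    (Fermat.Agent.S28x.sa_dedekindPsi_pos _ (NeZero.ne _)) h2N
  refine bsly_relfinrank_eq_two _ _ (x := purb_X3 h2) ?_ (nnc15_levelN_X3_not_mem (2 * N) h2) h0 h1
  exact full_degeneracyC_le K (dvd_mul_right 4 N) (by rw [hF4]; exact mem_adjoin_simple_self K _)

end Two

/-! ## Layer 3b: degree facts over `ℚ` and `𝔽_ℓ` -/

section Degrees

open Fermat.Agent.S28x

/-- **DEG over `ℚ`**: `ψ(M) ≤ [F_M : ℚ(j)]` (reduce modulo a prime `ℓ ∤ M`). -/
theorem bsly_psi_le_relfinrank_rat (M : ℕ) [NeZero M] :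
    dedekindPsi M ≤ relfinrank Qj (modularFunctionFieldFull M) := by
  obtain ⟨ℓ, hℓM, hℓ⟩ := Nat.exists_infinite_primes (M + 1)
  have : Fact ℓ.Prime := ⟨hℓ⟩
  have hnd : ¬ ℓ ∣ M := fun h =>
    absurd (Nat.le_of_dvd (Nat.pos_of_ne_zero (NeZero.ne M)) h) (by omega)
  have h1 : dedekindPsi M ≤ relfinrank (Kj ℓ) (Ft ℓ M) := deg_all ℓ M hnd
  exact h1.trans (qd_relfinrank_Ft_le_full (qd_input ℓ M))

/-- `[F_M : ℚ(j)] = ψ(M)`. -/
theorem bsly_relfinrank_rat (M : ℕ) [NeZero M] :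
    relfinrank Qj (modularFunctionFieldFull M) = dedekindPsi M :=
  le_antisymm (relfinrank_full_le M) (bsly_psi_le_relfinrank_rat M)

/-- `[F̃_M : 𝔽_ℓ(j̃)] = ψ(M)` for `ℓ ∤ M`. -/
theorem bsly_relfinrank_zmod (ℓ M : ℕ) [Fact ℓ.Prime] [NeZero M] (hℓM : ¬ ℓ ∣ M) :
    relfinrank (Kj ℓ) (Ft ℓ M) = dedekindPsi M :=
  le_antisymm (relfinrank_Ft_le ℓ M) (deg_all ℓ M hℓM)

end Degrees

/-! ## Layer 3c: the instances in helper28's names (`purb_LY`, `purb_LYb`) -/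

section Instances

open Fermat.Agent.S28x

theorem bsly_qExpandₐ_eq (e : ℕ) [NeZero e] : qExpandₐ e = qExpandAlgHomC ℚ e := rfl

theorem bsly_FNe_eq (e M : ℕ) [NeZero e] [NeZero M] :
    purb_FNe e M = (modularFunctionFieldFullC ℚ M).map (qExpandAlgHomC ℚ e) := rfl

/-- **char `0` instance**: `F_Y = F_{2N}(q²)·ℚ(X₃) = F_{4N}`, given `F_4 = ℚ(X₃)` (row N12). -/
theorem bsly_LY_eq (N : ℕ) [NeZero N]
    (hF4 : modularFunctionFieldFull 4 = ℚ⟮purb_X3Q⟯) :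
    purb_LY 2 purb_X3Q (2 * N) = modularFunctionFieldFull (4 * N) :=
  bsly_X3_sup_eq ℚ purb_isUnit_two_rat N hF4
    (by
      have := bsly_psi_le_relfinrank_rat 4
      rw [bsly_psi_four] at this
      exact this)
    (relfinrank_full_le (4 * N)) (bsly_psi_le_relfinrank_rat (2 * N))

/-- char `0`: `[F_{4N} : F_{2N}(q²)] = 2`. -/
theorem bsly_relfinrank_FNe (N : ℕ) [NeZero N]
    (hF4 : modularFunctionFieldFull 4 = ℚ⟮purb_X3Q⟯) :
    relfinrank (purb_FNe 2 (2 * N)) (modularFunctionFieldFull (4 * N)) = 2 :=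
  bsly_X3_relfinrank ℚ purb_isUnit_two_rat N hF4
    (by
      have := bsly_psi_le_relfinrank_rat 4
      rw [bsly_psi_four] at this
      exact this)
    (relfinrank_full_le (4 * N)) (bsly_psi_le_relfinrank_rat (2 * N))

theorem bsly_not_dvd_four {ℓ : ℕ} (hℓ : ℓ.Prime) (hℓ2 : ℓ ≠ 2) : ¬ ℓ ∣ 4 := by
  intro h
  have h4 : (4 : ℕ) = 2 ^ 2 := by norm_num
  rw [h4] at h
  exact hℓ2 ((Nat.prime_dvd_prime_iff_eq hℓ Nat.prime_two).mp (hℓ.dvd_of_dvd_pow h))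

theorem bsly_not_dvd_two_mul {ℓ N : ℕ} (hℓ : ℓ.Prime) (hℓ2 : ℓ ≠ 2) (hℓN : ¬ ℓ ∣ N) :
    ¬ ℓ ∣ 2 * N := by
  intro h
  rcases hℓ.dvd_mul.mp h with h | h
  · exact hℓ2 ((Nat.prime_dvd_prime_iff_eq hℓ Nat.prime_two).mp h)
  · exact hℓN h

/-- **char `ℓ` instance** (`ℓ` odd, `ℓ ∤ N`): `F̄_Y = F̃_{2N}(q²)·𝔽_ℓ(X̄₃) = F̃_{4N}`,
given `F̃_4 = 𝔽_ℓ(X̄₃)` (row N12). -/
theorem bsly_LYb_eq (ℓ : ℕ) [Fact ℓ.Prime] (hℓ2 : ℓ ≠ 2) (N : ℕ) [NeZero N] (hℓN : ¬ ℓ ∣ N)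
    (h2 : IsUnit (2 : ZMod ℓ))
    (hF4 : modularFunctionFieldFullC (ZMod ℓ) 4 = (ZMod ℓ)⟮purb_X3 h2⟯) :
    purb_LYb ℓ 2 (purb_X3 h2) (2 * N) = modularFunctionFieldFullC (ZMod ℓ) (4 * N) := by
  have hℓ : ℓ.Prime := Fact.out
  refine bsly_X3_sup_eq (ZMod ℓ) h2 N hF4 ?_ (relfinrank_Ft_le ℓ (4 * N))
    (deg_all ℓ (2 * N) (bsly_not_dvd_two_mul hℓ hℓ2 hℓN))
  have := deg_all ℓ 4 (bsly_not_dvd_four hℓ hℓ2)
  rw [DEG, bsly_psi_four] at this
  exact this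

/-- char `ℓ`: `[F̃_{4N} : F̃_{2N}(q²)] = 2`. -/
theorem bsly_relfinrank_FNeb (ℓ : ℕ) [Fact ℓ.Prime] (hℓ2 : ℓ ≠ 2) (N : ℕ) [NeZero N]
    (hℓN : ¬ ℓ ∣ N) (h2 : IsUnit (2 : ZMod ℓ))
    (hF4 : modularFunctionFieldFullC (ZMod ℓ) 4 = (ZMod ℓ)⟮purb_X3 h2⟯) :
    relfinrank (purb_FNeb ℓ 2 (2 * N)) (modularFunctionFieldFullC (ZMod ℓ) (4 * N)) = 2 := by
  have hℓ : ℓ.Prime := Fact.out
  refine bsly_X3_relfinrank (ZMod ℓ) h2 N hF4 ?_ (relfinrank_Ft_le ℓ (4 * N))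
    (deg_all ℓ (2 * N) (bsly_not_dvd_two_mul hℓ hℓ2 hℓN))
  have := deg_all ℓ 4 (bsly_not_dvd_four hℓ hℓ2)
  rw [DEG, bsly_psi_four] at this
  exact this

/-- the same in helper86's names (`LevelYInst.lean`): `lyn_LY (2N) = F_{4N}`. -/
theorem bsly_lyn_LY_eq (N : ℕ) [NeZero N]
    (hF4 : modularFunctionFieldFull 4 = ℚ⟮purb_X3Q⟯) :
    lyn_LY (2 * N) = modularFunctionFieldFull (4 * N) :=
  bsly_LY_eq N hF4

/-- the same in helper86's names (`LevelYInst.lean`): `lyn_LYb ℓ hl (2N) = F̃_{4N}`. -/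
theorem bsly_lyn_LYb_eq (ℓ : ℕ) [Fact ℓ.Prime] (hl : ℓ ≠ 2) (N : ℕ) [NeZero N] (hℓN : ¬ ℓ ∣ N)
    (hF4 : modularFunctionFieldFullC (ZMod ℓ) 4 = (ZMod ℓ)⟮lyn_X3F ℓ hl⟯) :
    lyn_LYb ℓ hl (2 * N) = modularFunctionFieldFullC (ZMod ℓ) (4 * N) :=
  bsly_LYb_eq ℓ hl N hℓN (lyn_isUnit_two_zmod ℓ hl) hF4

end Instances

end Fermat.Agent.S18x
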