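/-
S18 project, NRM block, row N12 (helper69, prefix `bsf4_`): `F_4 = K(X₃)` for any field `K` with
`2 ≠ 0` (own-risk twin of helper15's `bsi_`), and the UNCONDITIONAL bridging statements.

Route (helper15's plan): by helper17's `ls3_cubic_factor` every root `U ∈ K((q))` of
`(T+192)³ - j(q²)(T-64)²` is one of `X₃², b(X₃)², b(-X₃)² ∈ K(X₃)`.  With `y = Δ(q)/Δ(q²)`:
`U = 64 + 4096/y` is a root (dual (I1): `j(q²) y = (y+16)³`) and `U = 64 + y(q²)` is a root ((I1) at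
`q²`: `(y+256)³ = j y²`).  Hence `y, y(q²) ∈ K(X₃)` and `j = (y+256)³/y²`,
`j(q⁴) = (y(q²)+16)³/y(q²)` are in `K(X₃)`.
-/
import Mathlib
import Fermat.Agent.S18x.LamS3
import Fermat.Agent.S18x.NrmNonCoprimeLevel
import Fermat.Agent.S18x.BaseIdentDeg
import Fermat.Agent.S18x.ModIdTwoRing
import Fermat.Agent.S18x.BaseIdentLY

set_option autoImplicit false

noncomputable section

namespace Fermat.Agent.S18x

open ModularCurve IntermediateField Polynomial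

section Roots

variable {K : Type*} [Field K] (h2 : IsUnit (2 : K))

theorem bsf4_X3_ne : purb_X3 h2 ≠ 8 := by
  intro h
  apply nnc15_X3_sq_sub_ne_zero h2
  rw [h]; norm_num

theorem bsf4_X3_ne' : purb_X3 h2 ≠ -8 := by
  intro h
  apply nnc15_X3_sq_sub_ne_zero h2
  rw [h]; norm_num

theorem bsf4_J_X3 : ls3_J (purb_X3 h2) = qExpand K 2 (jqModC K) := by
  rw [nnc15_j2_eq h2]
  rfl

theorem bsf4_b_mem {x : LaurentSeries K} : ls3_b x ∈ K⟮x⟯ := by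
  have hx : x ∈ K⟮x⟯ := mem_adjoin_simple_self K x
  unfold ls3_b
  exact div_mem (mul_mem (nnc15_ofNat_mem _ 8) (add_mem hx (nnc15_ofNat_mem _ 24)))
    (sub_mem hx (nnc15_ofNat_mem _ 8))

theorem bsf4_b_neg_mem {x : LaurentSeries K} : ls3_b (-x) ∈ K⟮x⟯ := by
  have hx : x ∈ K⟮x⟯ := mem_adjoin_simple_self K x
  unfold ls3_b
  exact div_mem (mul_mem (nnc15_ofNat_mem _ 8) (add_mem (neg_mem hx) (nnc15_ofNat_mem _ 24)))
    (sub_mem (neg_mem hx) (nnc15_ofNat_mem _ 8))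

/-- **(a)** every root `U ∈ K((q))` of `(T+192)³ - j(q²)(T-64)²` lies in `K(X₃)`. -/
theorem bsf4_root_mem {U : LaurentSeries K}
    (hU : (U + 192) ^ 3 = qExpand K 2 (jqModC K) * (U - 64) ^ 2) : U ∈ K⟮purb_X3 h2⟯ := by
  have hfac := ls3_cubic_factor (purb_X3 h2) (bsf4_X3_ne h2) (bsf4_X3_ne' h2)
  have hev := congrArg (Polynomial.eval U) hfac
  simp only [eval_sub, eval_mul, eval_pow, eval_add, eval_X, eval_C] at hev
  rw [bsf4_J_X3 h2, hU, sub_self] at hev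
  have hx : purb_X3 h2 ∈ K⟮purb_X3 h2⟯ := mem_adjoin_simple_self K _
  rcases mul_eq_zero.mp hev.symm with h | h
  · rcases mul_eq_zero.mp h with h | h
    · rw [sub_eq_zero.mp h]; exact pow_mem hx 2
    · rw [sub_eq_zero.mp h]; exact pow_mem bsf4_b_mem 2
  · rw [sub_eq_zero.mp h]; exact pow_mem bsf4_b_neg_mem 2

/-- `y = Δ(q)/Δ(q²) ∈ K(X₃)`. -/
theorem bsf4_y_mem : mi2_y K ∈ K⟮purb_X3 h2⟯ := by
  have hy : mi2_y K ≠ 0 := bsd_y_ne_zero K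
  have hdual := bsd_dual_two K
  have h4096 : (4096 : LaurentSeries K) ≠ 0 := by
    have h2' : (2 : LaurentSeries K) ≠ 0 := by
      have : (2 : LaurentSeries K) = algebraMap K (LaurentSeries K) 2 := by rw [map_ofNat]
      rw [this]
      exact (_root_.map_ne_zero _).mpr h2.ne_zero
    have : (4096 : LaurentSeries K) = 2 ^ 12 := by norm_num
    rw [this]; exact pow_ne_zero _ h2'
  set U : LaurentSeries K := 64 + 4096 / mi2_y K with hUdef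
  have hU : (U + 192) ^ 3 = qExpand K 2 (jqModC K) * (U - 64) ^ 2 := by
    rw [hUdef]
    field_simp
    linear_combination (-16777216 : LaurentSeries K) * hdual
  have hmem := bsf4_root_mem h2 hU
  have e : U - 64 = 4096 / mi2_y K := by rw [hUdef]; ring
  have hy' : mi2_y K = 4096 / (U - 64) := by
    rw [e]
    field_simp
  rw [hy']
  exact div_mem (nnc15_ofNat_mem _ 4096) (sub_mem hmem (nnc15_ofNat_mem _ 64))

/-- `j ∈ K(X₃)`. -/
theorem bsf4_j_mem : jqModC K ∈ K⟮purb_X3 h2⟯ := by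
  have hy : mi2_y K ≠ 0 := bsd_y_ne_zero K
  have h : jqModC K = (mi2_y K + 256) ^ 3 / mi2_y K ^ 2 := by
    rw [eq_div_iff (pow_ne_zero 2 hy)]
    exact (mi2_cubic_ring K).symm
  rw [h]
  have hm := bsf4_y_mem h2
  exact div_mem (pow_mem (add_mem hm (nnc15_ofNat_mem _ 256)) 3) (pow_mem hm 2)

/-- `y(q²) ∈ K(X₃)`. -/
theorem bsf4_y2_mem : qExpand K 2 (mi2_y K) ∈ K⟮purb_X3 h2⟯ := by
  have hc := congrArg (qExpand K 2) (mi2_cubic_ring K)
  simp only [map_pow, map_add, map_mul, map_ofNat] at hc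
  set U : LaurentSeries K := 64 + qExpand K 2 (mi2_y K) with hUdef
  have hU : (U + 192) ^ 3 = qExpand K 2 (jqModC K) * (U - 64) ^ 2 := by
    rw [hUdef]
    linear_combination hc
  have hmem := bsf4_root_mem h2 hU
  have : qExpand K 2 (mi2_y K) = U - 64 := by rw [hUdef]; ring
  rw [this]
  exact sub_mem hmem (nnc15_ofNat_mem _ 64)

theorem bsf4_qExpand_four (f : LaurentSeries K) :
    qExpand K 4 f = qExpand K 2 (qExpand K 2 f) := by
  rw [qExpand_qExpand]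

/-- `j(q⁴) ∈ K(X₃)`. -/
theorem bsf4_j4_mem : qExpand K 4 (jqModC K) ∈ K⟮purb_X3 h2⟯ := by
  have hy : qExpand K 2 (mi2_y K) ≠ 0 := by
    intro h
    apply bsd_y_ne_zero K
    apply qExpand_injective 2
    rw [h, map_zero]
  have hd := congrArg (qExpand K 2) (bsd_dual_two K)
  simp only [map_pow, map_add, map_mul, map_ofNat] at hd
  have h : qExpand K 4 (jqModC K)
      = (qExpand K 2 (mi2_y K) + 16) ^ 3 / qExpand K 2 (mi2_y K) := by
    rw [eq_div_iff hy, bsf4_qExpand_four]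
    exact hd
  rw [h]
  have hm := bsf4_y2_mem h2
  exact div_mem (pow_mem (add_mem hm (nnc15_ofNat_mem _ 16)) 3) hm

/-- `j(q²) ∈ K(X₃)`. -/
theorem bsf4_j2_mem : qExpand K 2 (jqModC K) ∈ K⟮purb_X3 h2⟯ :=
  nnc15_adjoin_pow_le (purb_X3 h2) 2 (nnc15_j2_mem_adjoin_sq h2)

/-- **`F_4 ≤ K(X₃)`**, any field with `2 ≠ 0`. -/
theorem bsf4_F4_le : modularFunctionFieldFullC K 4 ≤ K⟮purb_X3 h2⟯ := by
  rw [modularFunctionFieldFullC, adjoin_le_iff]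
  rintro x ⟨d, hne, hd, rfl⟩
  have hd4 : d ≤ 4 := Nat.le_of_dvd (by norm_num) hd
  have hd0 : d ≠ 0 := NeZero.ne d
  interval_cases d
  · exact absurd rfl hd0
  · rw [qExpand_one_apply]; exact bsf4_j_mem h2
  · exact bsf4_j2_mem h2
  · norm_num at hd
  · exact bsf4_j4_mem h2

/-- `j ∉ F_2(q²)` (its `q⁻¹`-coefficient is `1`). -/
theorem bsf4_j_not_mem_E (K : Type*) [Field K] (M : ℕ) [NeZero M] : jqModC K ∉ nnc15_E K M := by
  intro h
  have h0 := nnc15_coeff_eq_zero_of_mem_even (nnc15_E_le_even K M h) (k := -1) (by norm_num)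
  rw [coeff_jqModC_neg_one] at h0
  exact one_ne_zero h0

/-- **`F_4 = K(X₃)`**, any field with `2 ≠ 0`, given `3 ≤ [F_2 : K(j)]`. -/
theorem bsf4_F4_eq (hdeg2 : 3 ≤ relfinrank K⟮jqModC K⟯ (modularFunctionFieldFullC K 2)) :
    modularFunctionFieldFullC K 4 = K⟮purb_X3 h2⟯ := by
  refine le_antisymm (bsf4_F4_le h2) ?_
  have hJE : K⟮qExpand K 2 (jqModC K)⟯ ≤ nnc15_E K 2 := nnc15_adjoin_j2_le_E K 2
  have hEF : nnc15_E K 2 ≤ modularFunctionFieldFullC K 4 := by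
    have h := full_degeneracyC_map_le K 2 2
    exact h
  have hFX := bsf4_F4_le h2
  have e1 := relfinrank_mul_relfinrank hJE hEF
  have e2 := relfinrank_mul_relfinrank (hJE.trans hEF) hFX
  rw [nnc15_relfinrank_j2_X3 h2, ← e1, nnc15_relfinrank_E 2] at e2
  set a := relfinrank K⟮jqModC K⟯ (modularFunctionFieldFullC K 2)
  set b := relfinrank (nnc15_E K 2) (modularFunctionFieldFullC K 4)
  set c := relfinrank (modularFunctionFieldFullC K 4) K⟮purb_X3 h2⟯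
  have hb1 : b ≠ 1 := by
    intro h
    exact bsf4_j_not_mem_E K 2 (relfinrank_eq_one_iff.mp h (jqModC_mem_full K 4))
  have hb0 : b ≠ 0 := by
    intro h
    rw [h] at e2
    simp at e2
  have hc0 : c ≠ 0 := by
    intro h
    rw [h] at e2
    simp at e2
  have hab : 6 ≤ a * b := by
    calc 6 = 3 * 2 := by norm_num
      _ ≤ a * b := Nat.mul_le_mul hdeg2 (by omega)
  have hc1 : c = 1 := by
    have : a * b * c ≤ a * b * 1 := by
      rw [e2, mul_one]; exact hab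
    have := Nat.le_of_mul_le_mul_left this (by omega)
    omega
  exact relfinrank_eq_one_iff.mp hc1

end Roots

/-! ## closed instances and the UNCONDITIONAL bridging statements -/

section Closed

/-- `F_4 = ℚ(X₃)`. -/
theorem bsf4_F4_eq_Q : modularFunctionFieldFull 4 = ℚ⟮purb_X3Q⟯ :=
  bsf4_F4_eq purb_isUnit_two_rat (by
    have := bsd_lower_Q 2
    rwa [bsd_psi_prime Nat.prime_two] at this)

/-- `F̃_4 = 𝔽_ℓ(X̄₃)`, `ℓ` odd. -/
theorem bsf4_F4_eq_F (ℓ : ℕ) [Fact ℓ.Prime] (hℓ2 : ℓ ≠ 2) (h2 : IsUnit (2 : ZMod ℓ)) :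
    modularFunctionFieldFullC (ZMod ℓ) 4 = (ZMod ℓ)⟮purb_X3 h2⟯ :=
  bsf4_F4_eq h2 (by
    have hℓ : ℓ.Prime := Fact.out
    have := bsd_lower_F ℓ 2 (fun h => hℓ2 ((Nat.prime_dvd_prime_iff_eq hℓ Nat.prime_two).mp h))
    rwa [bsd_psi_prime Nat.prime_two] at this)

/-- **N12, char `0`, unconditional**: `F_Y = F_{2N}(q²)·ℚ(X₃) = F_{4N}`. -/
theorem bsf4_LY_eq (N : ℕ) [NeZero N] :
    purb_LY 2 purb_X3Q (2 * N) = modularFunctionFieldFull (4 * N) :=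
  bsly_LY_eq N bsf4_F4_eq_Q

/-- **N12, char `ℓ` odd, `ℓ ∤ N`, unconditional**: `F̄_Y = F̃_{2N}(q²)·𝔽_ℓ(X̄₃) = F̃_{4N}`. -/
theorem bsf4_LYb_eq (ℓ : ℕ) [Fact ℓ.Prime] (hℓ2 : ℓ ≠ 2) (N : ℕ) [NeZero N] (hℓN : ¬ ℓ ∣ N)
    (h2 : IsUnit (2 : ZMod ℓ)) :
    purb_LYb ℓ 2 (purb_X3 h2) (2 * N) = modularFunctionFieldFullC (ZMod ℓ) (4 * N) :=
  bsly_LYb_eq ℓ hℓ2 N hℓN h2 (bsf4_F4_eq_F ℓ hℓ2 h2)

/-- in helper86's names: `lyn_LY (2N) = F_{4N}`. -/
theorem bsf4_lyn_LY_eq (N : ℕ) [NeZero N] : lyn_LY (2 * N) = modularFunctionFieldFull (4 * N) :=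
  bsf4_LY_eq N

/-- in helper86's names: `lyn_LYb ℓ hl (2N) = F̃_{4N}`. -/
theorem bsf4_lyn_LYb_eq (ℓ : ℕ) [Fact ℓ.Prime] (hl : ℓ ≠ 2) (N : ℕ) [NeZero N] (hℓN : ¬ ℓ ∣ N) :
    lyn_LYb ℓ hl (2 * N) = modularFunctionFieldFullC (ZMod ℓ) (4 * N) :=
  bsf4_LYb_eq ℓ hl N hℓN (lyn_isUnit_two_zmod ℓ hl)

/-- `[F_{4N} : F_{2N}(q²)] = 2` over `ℚ`. -/
theorem bsf4_relfinrank_FNe (N : ℕ) [NeZero N] :
    relfinrank (purb_FNe 2 (2 * N)) (modularFunctionFieldFull (4 * N)) = 2 :=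
  bsly_relfinrank_FNe N bsf4_F4_eq_Q

/-- `[F̃_{4N} : F̃_{2N}(q²)] = 2` over `𝔽_ℓ`. -/
theorem bsf4_relfinrank_FNeb (ℓ : ℕ) [Fact ℓ.Prime] (hℓ2 : ℓ ≠ 2) (N : ℕ) [NeZero N]
    (hℓN : ¬ ℓ ∣ N) :
    relfinrank (purb_FNeb ℓ 2 (2 * N)) (modularFunctionFieldFullC (ZMod ℓ) (4 * N)) = 2 :=
  bsly_relfinrank_FNeb ℓ hℓ2 N hℓN (lyn_isUnit_two_zmod ℓ hℓ2)
    (bsf4_F4_eq_F ℓ hℓ2 (lyn_isUnit_two_zmod ℓ hℓ2))

end Closed

end Fermat.Agent.S18x
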