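/-
S18 project, NRM block, rows N2b / N12-twin (helper63, prefix `bsn_`), part 3: the FINITENESS /
DEGREE / SEPARABILITY package for the `ℓ = 2` level-`Y` pair `(K_Y, F_Y) = (ℚ(μ), F_{9N})` and its
reduction `(𝔽_ℓ(μ̄), F̃_{9N})`, in helper28's literal `purb_` shapes (algebra instances
`purb_algebraKYLY`, `purb_algebraKYbLYb`) and helper86's `lyn_` names.

* generic: `bsn_inclAlgebra A B hAB` (inclusion algebra `↥A → ↥B`), `bsn_finrank_eq_relfinrank`,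
  `bsn_finiteDimensional_of_relfinrank_ne_zero`, `bsn_isSeparable_incl` (char `p`, `A = k(t)`,
  `p ∤ ord t`, via helper81's `SepLaurent`), `bsn_isSeparable_KYb_LYb_of_order` (ANY coordinate
  of order `-1`, any `e`, `N`: also usable for `X̄₃`).
* `bsn_relfinrank_KY_LY`, `bsn_relfinrank_KYb_LYb : 12 · [F_Y : K_Y] = ψ(9N)` (both
  characteristics), `bsn_finiteDimensional_KY_LY`, `bsn_finiteDimensional_KYb_LYb`,
  `bsn_finrank_eq` (the `finrank_eq` field of `nd_RedPair`), `bsn_isSeparable_KYb_LYb`.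
* `bsn_lyn_*`: the same for `lyn_K2`, `lyn_L2 (3N)`, `lyn_K2b`, `lyn_L2b (3N)`.
-/
import Fermat.Agent.S18x.BaseIdentNineCor
import Fermat.Agent.S18x.LevelYInst
import Fermat.Agent.S18x.SepLaurent

set_option autoImplicit false
set_option synthInstance.maxHeartbeats 400000
set_option linter.style.haveILetI false

open Polynomial IntermediateField ModularCurve

namespace Fermat.Agent.S18x

noncomputable section

/-! ### generic: `relfinrank A B` versus `finrank ↥A ↥B` for the inclusion algebra -/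

section Generic

variable {K Ω : Type*} [Field K] [Field Ω] [Algebra K Ω]

/-- the algebra structure on `↥B` over `↥A` given by the inclusion (this is literally the shape of
helper28's `purb_algebraKYLY`, `purb_algebraKYbLYb`). -/
@[reducible] def bsn_inclAlgebra (A B : IntermediateField K Ω) (hAB : A ≤ B) : Algebra ↥A ↥B :=
  (Subring.inclusion (show A.toSubring ≤ B.toSubring from hAB)).toAlgebra

/-- the `↥A`-linear identification `extendScalars hAB ≃ ↥B` -/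
def bsn_extendEquiv (A B : IntermediateField K Ω) (hAB : A ≤ B) :
    letI := bsn_inclAlgebra A B hAB
    ↥(extendScalars hAB) ≃ₗ[↥A] ↥B :=
  letI := bsn_inclAlgebra A B hAB
  { toFun := fun x => ⟨x.1, x.2⟩
    invFun := fun x => ⟨x.1, x.2⟩
    left_inv := fun _ => rfl
    right_inv := fun _ => rfl
    map_add' := fun _ _ => rfl
    map_smul' := fun a x => by
      apply Subtype.ext
      rfl }

theorem bsn_finrank_eq_relfinrank (A B : IntermediateField K Ω) (hAB : A ≤ B) :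
    letI := bsn_inclAlgebra A B hAB
    Module.finrank ↥A ↥B = relfinrank A B := by
  letI := bsn_inclAlgebra A B hAB
  rw [relfinrank_eq_finrank_of_le hAB]
  exact (bsn_extendEquiv A B hAB).finrank_eq.symm

theorem bsn_finiteDimensional_of_relfinrank_ne_zero (A B : IntermediateField K Ω) (hAB : A ≤ B)
    (h0 : relfinrank A B ≠ 0) :
    letI := bsn_inclAlgebra A B hAB
    FiniteDimensional ↥A ↥B := by
  letI := bsn_inclAlgebra A B hAB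
  rw [relfinrank_eq_finrank_of_le hAB] at h0
  haveI : Module.Finite ↥A ↥(extendScalars hAB) :=
    Module.finite_of_finrank_pos (Nat.pos_of_ne_zero h0)
  exact Module.Finite.equiv (bsn_extendEquiv A B hAB)

end Generic

/-! ### degrees of `F_{9N} / K(μ)` in both characteristics -/

section Degrees

theorem bsn_relfinrank_Q (N : ℕ) [NeZero N] :
    relfinrank ℚ⟮jqModC ℚ⟯ (modularFunctionFieldFullC ℚ N) = dedekindPsi N :=
  le_antisymm (bsd_upper_Q N) (bsd_lower_Q N)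

theorem bsn_relfinrank_F (ℓ : ℕ) [Fact ℓ.Prime] (N : ℕ) [NeZero N] (hℓN : ¬ ℓ ∣ N) :
    relfinrank (ZMod ℓ)⟮jqModC (ZMod ℓ)⟯ (modularFunctionFieldFullC (ZMod ℓ) N) = dedekindPsi N :=
  le_antisymm (bsd_upper_F ℓ N) (bsd_lower_F ℓ N hℓN)

/-- **char 0**: `12 · [F_{9N} : ℚ(μ)] = ψ(9N)` -/
theorem bsn_relfinrank_KY_LY (h3 : IsUnit (3 : ℚ)) (N : ℕ) [NeZero N] :
    12 * relfinrank (purb_KY (hsc_mu h3)) (purb_LY 3 (hsc_mu h3) (3 * N)) = dedekindPsi (9 * N) := by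
  have hK : purb_KY (hsc_mu h3) = modularFunctionFieldFullC ℚ 9 := (bsn_F9_eq_Q h3).symm
  have hL : purb_LY 3 (hsc_mu h3) (3 * N) = modularFunctionFieldFullC ℚ (9 * N) := bsn_LY_eq_Q h3 N
  rw [hK, hL]
  have hj : ℚ⟮jqModC ℚ⟯ ≤ modularFunctionFieldFullC ℚ 9 := by
    rw [adjoin_simple_le_iff]; exact jqModC_mem_full ℚ 9
  have hle : modularFunctionFieldFullC ℚ 9 ≤ modularFunctionFieldFullC ℚ (9 * N) :=
    full_degeneracyC_le ℚ (Dvd.intro N rfl)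
  have hmul := relfinrank_mul_relfinrank hj hle
  rw [bsn_relfinrank_Q 9, bsn_relfinrank_Q (9 * N), bsn_psi_nine] at hmul
  exact hmul

/-- **char `ℓ ≠ 3`**, `ℓ ∤ N`: `12 · [F̃_{9N} : 𝔽_ℓ(μ̄)] = ψ(9N)` -/
theorem bsn_relfinrank_KYb_LYb (ℓ : ℕ) [Fact ℓ.Prime] (hℓ3 : ℓ ≠ 3) (h3 : IsUnit (3 : ZMod ℓ))
    (N : ℕ) [NeZero N] (hℓN : ¬ ℓ ∣ N) :
    12 * relfinrank (purb_KYb ℓ (hsc_mu h3)) (purb_LYb ℓ 3 (hsc_mu h3) (3 * N)) =
      dedekindPsi (9 * N) := by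
  have hℓ : ℓ.Prime := Fact.out
  have hn3 : ¬ ℓ ∣ 3 := fun h => hℓ3 ((Nat.prime_dvd_prime_iff_eq hℓ Nat.prime_three).mp h)
  have hn9 : ¬ ℓ ∣ 9 := by
    intro h
    have h' : ℓ ∣ 3 * 3 := by norm_num; exact h
    exact (hℓ.dvd_mul.mp h').elim hn3 hn3
  have hn9N : ¬ ℓ ∣ 9 * N := fun h => (hℓ.dvd_mul.mp h).elim hn9 hℓN
  have hK : purb_KYb ℓ (hsc_mu h3) = modularFunctionFieldFullC (ZMod ℓ) 9 :=
    (bsn_F9_eq_F ℓ hℓ3 h3).symm
  have hL : purb_LYb ℓ 3 (hsc_mu h3) (3 * N) = modularFunctionFieldFullC (ZMod ℓ) (9 * N) :=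
    bsn_LYb_eq ℓ hℓ3 h3 N hℓN
  rw [hK, hL]
  have hj : (ZMod ℓ)⟮jqModC (ZMod ℓ)⟯ ≤ modularFunctionFieldFullC (ZMod ℓ) 9 := by
    rw [adjoin_simple_le_iff]; exact jqModC_mem_full (ZMod ℓ) 9
  have hle : modularFunctionFieldFullC (ZMod ℓ) 9 ≤ modularFunctionFieldFullC (ZMod ℓ) (9 * N) :=
    full_degeneracyC_le (ZMod ℓ) (Dvd.intro N rfl)
  have hmul := relfinrank_mul_relfinrank hj hle
  rw [bsn_relfinrank_F ℓ 9 hn9, bsn_relfinrank_F ℓ (9 * N) hn9N, bsn_psi_nine] at hmul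
  exact hmul

theorem bsn_relfinrank_KY_LY_ne_zero (h3 : IsUnit (3 : ℚ)) (N : ℕ) [NeZero N] :
    relfinrank (purb_KY (hsc_mu h3)) (purb_LY 3 (hsc_mu h3) (3 * N)) ≠ 0 := by
  intro h0
  have h := bsn_relfinrank_KY_LY h3 N
  rw [h0, mul_zero] at h
  exact (Fermat.Agent.S28x.sa_dedekindPsi_pos (9 * N) (NeZero.ne _)).ne h

theorem bsn_relfinrank_KYb_LYb_ne_zero (ℓ : ℕ) [Fact ℓ.Prime] (hℓ3 : ℓ ≠ 3)
    (h3 : IsUnit (3 : ZMod ℓ)) (N : ℕ) [NeZero N] (hℓN : ¬ ℓ ∣ N) :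
    relfinrank (purb_KYb ℓ (hsc_mu h3)) (purb_LYb ℓ 3 (hsc_mu h3) (3 * N)) ≠ 0 := by
  intro h0
  have h := bsn_relfinrank_KYb_LYb ℓ hℓ3 h3 N hℓN
  rw [h0, mul_zero] at h
  exact (Fermat.Agent.S28x.sa_dedekindPsi_pos (9 * N) (NeZero.ne _)).ne h

/-- **`F_{9N} / ℚ(μ)` is finite** (helper28's algebra instance `purb_algebraKYLY`). -/
theorem bsn_finiteDimensional_KY_LY (h3 : IsUnit (3 : ℚ)) (N : ℕ) [NeZero N] :
    FiniteDimensional ↥(purb_KY (hsc_mu h3)) ↥(purb_LY 3 (hsc_mu h3) (3 * N)) :=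
  bsn_finiteDimensional_of_relfinrank_ne_zero _ _ (purb_KY_le_LY 3 (hsc_mu h3) (3 * N))
    (bsn_relfinrank_KY_LY_ne_zero h3 N)

/-- **`F̃_{9N} / 𝔽_ℓ(μ̄)` is finite** (helper28's algebra instance `purb_algebraKYbLYb`). -/
theorem bsn_finiteDimensional_KYb_LYb (ℓ : ℕ) [Fact ℓ.Prime] (hℓ3 : ℓ ≠ 3)
    (h3 : IsUnit (3 : ZMod ℓ)) (N : ℕ) [NeZero N] (hℓN : ¬ ℓ ∣ N) :
    FiniteDimensional ↥(purb_KYb ℓ (hsc_mu h3)) ↥(purb_LYb ℓ 3 (hsc_mu h3) (3 * N)) :=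
  bsn_finiteDimensional_of_relfinrank_ne_zero _ _ (purb_KYb_le_LYb ℓ 3 (hsc_mu h3) (3 * N))
    (bsn_relfinrank_KYb_LYb_ne_zero ℓ hℓ3 h3 N hℓN)

theorem bsn_finrank_KY_LY (h3 : IsUnit (3 : ℚ)) (N : ℕ) [NeZero N] :
    12 * Module.finrank ↥(purb_KY (hsc_mu h3)) ↥(purb_LY 3 (hsc_mu h3) (3 * N)) =
      dedekindPsi (9 * N) := by
  have h := bsn_finrank_eq_relfinrank _ _ (purb_KY_le_LY 3 (hsc_mu h3) (3 * N))
  rw [← bsn_relfinrank_KY_LY h3 N, ← h]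
  rfl

theorem bsn_finrank_KYb_LYb (ℓ : ℕ) [Fact ℓ.Prime] (hℓ3 : ℓ ≠ 3)
    (h3 : IsUnit (3 : ZMod ℓ)) (N : ℕ) [NeZero N] (hℓN : ¬ ℓ ∣ N) :
    12 * Module.finrank ↥(purb_KYb ℓ (hsc_mu h3)) ↥(purb_LYb ℓ 3 (hsc_mu h3) (3 * N)) =
      dedekindPsi (9 * N) := by
  have h := bsn_finrank_eq_relfinrank _ _ (purb_KYb_le_LYb ℓ 3 (hsc_mu h3) (3 * N))
  rw [← bsn_relfinrank_KYb_LYb ℓ hℓ3 h3 N hℓN, ← h]
  rfl

/-- **the residue degree equals the generic degree**: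
`[F̃_{9N} : 𝔽_ℓ(μ̄)] = [F_{9N} : ℚ(μ)]` (the `finrank_eq` field of `nd_RedPair`). -/
theorem bsn_finrank_eq (ℓ : ℕ) [Fact ℓ.Prime] (hℓ3 : ℓ ≠ 3) (h3F : IsUnit (3 : ZMod ℓ))
    (h3Q : IsUnit (3 : ℚ)) (N : ℕ) [NeZero N] (hℓN : ¬ ℓ ∣ N) :
    Module.finrank ↥(purb_KYb ℓ (hsc_mu h3F)) ↥(purb_LYb ℓ 3 (hsc_mu h3F) (3 * N)) =
      Module.finrank ↥(purb_KY (hsc_mu h3Q)) ↥(purb_LY 3 (hsc_mu h3Q) (3 * N)) := by
  have h1 := bsn_finrank_KYb_LYb ℓ hℓ3 h3F N hℓN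
  have h2 := bsn_finrank_KY_LY h3Q N
  omega

end Degrees

/-! ### separability of the inclusion algebra in characteristic `p` -/

section Sep

variable {k : Type*} [Field k] [PerfectField k]

/-- **separability for the inclusion algebra** `↥A → ↥B`, `A = k(t) ≤ B ≤ k((q))`, `p ∤ ord t`,
`B/A` algebraic. -/
theorem bsn_isSeparable_incl (p : ℕ) [hp : Fact p.Prime] [CharP k p]
    (A B : IntermediateField k (LaurentSeries k)) (hAB : A ≤ B) (t : LaurentSeries k)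
    (hA : A = k⟮t⟯) (ht : ¬ (p : ℤ) ∣ t.order)
    (halg : letI := (Subring.inclusion (show A.toSubring ≤ B.toSubring from hAB)).toAlgebra
      Algebra.IsAlgebraic ↥A ↥B) :
    letI := (Subring.inclusion (show A.toSubring ≤ B.toSubring from hAB)).toAlgebra
    Algebra.IsSeparable ↥A ↥B := by
  letI alg : Algebra ↥A ↥B :=
    (Subring.inclusion (show A.toSubring ≤ B.toSubring from hAB)).toAlgebra
  have htA : t ∈ A := by rw [hA]; exact mem_adjoin_simple_self k t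
  haveI hcA : CharP ↥A p := charP_of_injective_algebraMap (algebraMap k ↥A).injective p
  haveI hcΩ : CharP (LaurentSeries k) p :=
    charP_of_injective_algebraMap (algebraMap k (LaurentSeries k)).injective p
  have hcoe : ∀ x : ↥A, ((algebraMap ↥A ↥B x : ↥B) : LaurentSeries k) = x := fun _ => rfl
  refine ⟨fun y => ?_⟩
  have hy : IsAlgebraic ↥A y := halg.isAlgebraic y
  refine sepl_isSeparable_of_pbasis (K := ↥A) (M := ↥B) p (⟨t, htA⟩ : ↥A) ?_ ?_ hy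
  · intro z
    have hz : (z : LaurentSeries k) ∈ k⟮t⟯ := by rw [← hA]; exact z.2
    obtain ⟨c, hc, hzc⟩ := sepl_rep_of_mem (k := k) p t hz
    refine ⟨fun i => ⟨c i, by rw [hA]; exact hc i⟩, ?_⟩
    apply Subtype.ext
    rw [hzc]
    simp
  · intro m hm
    have hm' := congrArg (fun x : ↥B => (x : LaurentSeries k)) hm
    have hm'' : ∑ i : Fin p, t ^ (i : ℕ) * ((m i : ↥B) : LaurentSeries k) ^ p = 0 := by
      simpa [hcoe] using hm'
    have := sepl_indep_laurent p t ht (fun i => ((m i : ↥B) : LaurentSeries k)) hm''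
    intro i
    exact Subtype.ext (this i)

end Sep

/-! ### separability of `F̃_Y / 𝔽_ℓ(h̄)` for a coordinate of order `-1` -/

section SepInst

/-- generic: any coordinate `hb` of `q`-order `-1`, `F̃_Y/𝔽_ℓ(h̄)` finite ⟹ separable
(helper28's algebra instance `purb_algebraKYbLYb`). Covers `X̄₃` (`ℓ` odd) and `μ̄` (`ℓ = 2`). -/
theorem bsn_isSeparable_KYb_LYb_of_order (ℓ e : ℕ) [Fact ℓ.Prime] [NeZero e]
    (hb : LaurentSeries (ZMod ℓ)) (N : ℕ) [NeZero N] (hord : hb.order = -1)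
    (h0 : relfinrank (purb_KYb ℓ hb) (purb_LYb ℓ e hb N) ≠ 0) :
    Algebra.IsSeparable ↥(purb_KYb ℓ hb) ↥(purb_LYb ℓ e hb N) := by
  have hℓ : ℓ.Prime := Fact.out
  haveI := bsn_finiteDimensional_of_relfinrank_ne_zero _ _ (purb_KYb_le_LYb ℓ e hb N) h0
  refine bsn_isSeparable_incl ℓ _ _ (purb_KYb_le_LYb ℓ e hb N) hb rfl ?_ ?_
  · rw [hord]
    intro hdvd
    have h1 : (ℓ : ℤ) ∣ 1 := by simpa using (dvd_neg.mpr hdvd)
    have h2 : ℓ ∣ 1 := by exact_mod_cast h1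
    exact hℓ.one_lt.ne' (Nat.dvd_one.mp h2)
  · exact Algebra.IsAlgebraic.of_finite _ _

/-- **`F̃_{9N} / 𝔽_ℓ(μ̄)` is separable** (`ℓ ≠ 3`, `ℓ ∤ N`). -/
theorem bsn_isSeparable_KYb_LYb (ℓ : ℕ) [Fact ℓ.Prime] (hℓ3 : ℓ ≠ 3)
    (h3 : IsUnit (3 : ZMod ℓ)) (N : ℕ) [NeZero N] (hℓN : ¬ ℓ ∣ N) :
    Algebra.IsSeparable ↥(purb_KYb ℓ (hsc_mu h3)) ↥(purb_LYb ℓ 3 (hsc_mu h3) (3 * N)) :=
  bsn_isSeparable_KYb_LYb_of_order ℓ 3 (hsc_mu h3) (3 * N) (bsn_order_mu h3)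
    (bsn_relfinrank_KYb_LYb_ne_zero ℓ hℓ3 h3 N hℓN)

end SepInst

/-! ### the same statements in helper86's `lyn_` names (`ℓ = 2`) -/

section Lyn

theorem bsn_lyn_K2_eq : lyn_K2 = modularFunctionFieldFull 9 :=
  (bsn_F9_eq_Q' lyn_isUnit_three_rat).symm

theorem bsn_lyn_K2b_eq : lyn_K2b = modularFunctionFieldFullC (ZMod 2) 9 :=
  (bsn_F9_eq_F 2 (by norm_num) lyn_isUnit_three_zmod2).symm

theorem bsn_lyn_L2_eq (N : ℕ) [NeZero N] : lyn_L2 (3 * N) = modularFunctionFieldFull (9 * N) :=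
  bsn_LY_eq_Q lyn_isUnit_three_rat N

theorem bsn_lyn_L2b_eq (N : ℕ) [NeZero N] (hN : ¬ 2 ∣ N) :
    lyn_L2b (3 * N) = modularFunctionFieldFullC (ZMod 2) (9 * N) :=
  bsn_LYb_eq 2 (by norm_num) lyn_isUnit_three_zmod2 N hN

theorem bsn_lyn_finiteDimensional (N : ℕ) [NeZero N] :
    FiniteDimensional ↥lyn_K2 ↥(lyn_L2 (3 * N)) :=
  bsn_finiteDimensional_KY_LY lyn_isUnit_three_rat N

theorem bsn_lyn_finiteDimensional_b (N : ℕ) [NeZero N] (hN : ¬ 2 ∣ N) :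
    FiniteDimensional ↥lyn_K2b ↥(lyn_L2b (3 * N)) :=
  bsn_finiteDimensional_KYb_LYb 2 (by norm_num) lyn_isUnit_three_zmod2 N hN

theorem bsn_lyn_isSeparable_b (N : ℕ) [NeZero N] (hN : ¬ 2 ∣ N) :
    Algebra.IsSeparable ↥lyn_K2b ↥(lyn_L2b (3 * N)) :=
  bsn_isSeparable_KYb_LYb 2 (by norm_num) lyn_isUnit_three_zmod2 N hN

theorem bsn_lyn_finrank_eq (N : ℕ) [NeZero N] (hN : ¬ 2 ∣ N) :
    Module.finrank ↥lyn_K2b ↥(lyn_L2b (3 * N)) = Module.finrank ↥lyn_K2 ↥(lyn_L2 (3 * N)) :=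
  bsn_finrank_eq 2 (by norm_num) lyn_isUnit_three_zmod2 lyn_isUnit_three_rat N hN

theorem bsn_lyn_finrank (N : ℕ) [NeZero N] :
    12 * Module.finrank ↥lyn_K2 ↥(lyn_L2 (3 * N)) = dedekindPsi (9 * N) :=
  bsn_finrank_KY_LY lyn_isUnit_three_rat N

end Lyn

end

end Fermat.Agent.S18x
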