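/-
S18 project, NRM block, row N4 / N12-twin (helper77, prefix `bsf4f_`; leaf 3 of `s18_nrm_leaves`):
the `ℓ`-ODD TWIN of helper63's `S18x/BaseIdentNineFin.lean`: FINITENESS / DEGREE / SEPARABILITY
package for the level-`Y` pair `(K_Y, F_Y) = (ℚ(X₃), F_{4N})` and its reduction
`(𝔽_ℓ(X̄₃), F̃_{4N})`, in helper28's literal `purb_` shapes (algebra instances
`purb_algebraKYLY`, `purb_algebraKYbLYb`) and helper86's `lyn_` names.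

* `bsf4f_relfinrank_KY_LY`, `bsf4f_relfinrank_KYb_LYb : 6 · [F_Y : K_Y] = ψ(4N)` (both
  characteristics), `bsf4f_finiteDimensional_KY_LY`, `bsf4f_finiteDimensional_KYb_LYb`,
  `bsf4f_finrank_KY_LY`, `bsf4f_finrank_KYb_LYb`, `bsf4f_finrank_eq` (the `finrank_eq` field of
  `nd_RedPair`), `bsf4f_isSeparable_KYb_LYb`.
* `bsf4f_lyn_*`: the same for `lyn_KY`, `lyn_LY (2N)`, `lyn_KYb ℓ hl`, `lyn_LYb ℓ hl (2N)`.
-/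
import Fermat.Agent.S18x.BaseIdentF4
import Fermat.Agent.S18x.BaseIdentNineFin

set_option autoImplicit false
set_option synthInstance.maxHeartbeats 400000
set_option linter.style.haveILetI false

open Polynomial IntermediateField ModularCurve

namespace Fermat.Agent.S18x

noncomputable section

/-! ### `ψ(4) = 6` and the order of `X₃` -/

section Basic

theorem bsf4f_psi_four : dedekindPsi 4 = 6 := by
  have h := bsd_psi_mul Nat.prime_two (M := 2) (by norm_num) (dvd_refl 2) (L := 4) (by norm_num)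
  rw [h, bsd_psi_prime Nat.prime_two]

variable {K : Type*} [Field K]

theorem bsf4f_X3_coeff_of_lt (h2 : IsUnit (2 : K)) {n : ℤ} (hn : n < -1) :
    (purb_X3 h2).coeff n = 0 := by
  rw [purb_X3, HahnSeries.coeff_single_mul, one_mul]
  exact ofPowerSeries_coeff_of_neg _ (by omega)

theorem bsf4f_X3_ne_zero (h2 : IsUnit (2 : K)) : purb_X3 h2 ≠ 0 := by
  intro h0
  have := nnc15_coeff_X3_neg_one K h2
  rw [h0, HahnSeries.coeff_zero] at this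
  exact zero_ne_one this

/-- `X₃` has `q`-order `-1`. -/
theorem bsf4f_order_X3 (h2 : IsUnit (2 : K)) : (purb_X3 h2).order = -1 := by
  apply le_antisymm
  · apply HahnSeries.order_le_of_coeff_ne_zero
    rw [nnc15_coeff_X3_neg_one K h2]
    exact one_ne_zero
  · by_contra hlt
    rw [not_le] at hlt
    have h0 := bsf4f_X3_coeff_of_lt h2 hlt
    rw [HahnSeries.coeff_order_eq_zero] at h0
    exact bsf4f_X3_ne_zero h2 h0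

end Basic

/-! ### degrees of `F_{4N} / K(X₃)` in both characteristics -/

section Degrees

theorem bsf4f_KY_eq : purb_KY purb_X3Q = modularFunctionFieldFullC ℚ 4 :=
  bsf4_F4_eq_Q.symm

theorem bsf4f_KYb_eq (ℓ : ℕ) [Fact ℓ.Prime] (hℓ2 : ℓ ≠ 2) (h2 : IsUnit (2 : ZMod ℓ)) :
    purb_KYb ℓ (purb_X3 h2) = modularFunctionFieldFullC (ZMod ℓ) 4 :=
  (bsf4_F4_eq_F ℓ hℓ2 h2).symm

/-- **char 0**: `6 · [F_{4N} : ℚ(X₃)] = ψ(4N)` -/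
theorem bsf4f_relfinrank_KY_LY (N : ℕ) [NeZero N] :
    6 * relfinrank (purb_KY purb_X3Q) (purb_LY 2 purb_X3Q (2 * N)) = dedekindPsi (4 * N) := by
  have hK : purb_KY purb_X3Q = modularFunctionFieldFullC ℚ 4 := bsf4f_KY_eq
  have hL : purb_LY 2 purb_X3Q (2 * N) = modularFunctionFieldFullC ℚ (4 * N) := bsf4_LY_eq N
  rw [hK, hL]
  have hj : ℚ⟮jqModC ℚ⟯ ≤ modularFunctionFieldFullC ℚ 4 := by
    rw [adjoin_simple_le_iff]; exact jqModC_mem_full ℚ 4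
  have hle : modularFunctionFieldFullC ℚ 4 ≤ modularFunctionFieldFullC ℚ (4 * N) :=
    full_degeneracyC_le ℚ (Dvd.intro N rfl)
  have hmul := relfinrank_mul_relfinrank hj hle
  rw [bsn_relfinrank_Q 4, bsn_relfinrank_Q (4 * N), bsf4f_psi_four] at hmul
  exact hmul

/-- **char `ℓ` odd**, `ℓ ∤ N`: `6 · [F̃_{4N} : 𝔽_ℓ(X̄₃)] = ψ(4N)` -/
theorem bsf4f_relfinrank_KYb_LYb (ℓ : ℕ) [Fact ℓ.Prime] (hℓ2 : ℓ ≠ 2) (h2 : IsUnit (2 : ZMod ℓ))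
    (N : ℕ) [NeZero N] (hℓN : ¬ ℓ ∣ N) :
    6 * relfinrank (purb_KYb ℓ (purb_X3 h2)) (purb_LYb ℓ 2 (purb_X3 h2) (2 * N)) =
      dedekindPsi (4 * N) := by
  have hℓ : ℓ.Prime := Fact.out
  have hn2 : ¬ ℓ ∣ 2 := fun h => hℓ2 ((Nat.prime_dvd_prime_iff_eq hℓ Nat.prime_two).mp h)
  have hn4 : ¬ ℓ ∣ 4 := by
    intro h
    have h' : ℓ ∣ 2 * 2 := by norm_num; exact h
    exact (hℓ.dvd_mul.mp h').elim hn2 hn2
  have hn4N : ¬ ℓ ∣ 4 * N := fun h => (hℓ.dvd_mul.mp h).elim hn4 hℓN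
  have hK : purb_KYb ℓ (purb_X3 h2) = modularFunctionFieldFullC (ZMod ℓ) 4 :=
    bsf4f_KYb_eq ℓ hℓ2 h2
  have hL : purb_LYb ℓ 2 (purb_X3 h2) (2 * N) = modularFunctionFieldFullC (ZMod ℓ) (4 * N) :=
    bsf4_LYb_eq ℓ hℓ2 N hℓN h2
  rw [hK, hL]
  have hj : (ZMod ℓ)⟮jqModC (ZMod ℓ)⟯ ≤ modularFunctionFieldFullC (ZMod ℓ) 4 := by
    rw [adjoin_simple_le_iff]; exact jqModC_mem_full (ZMod ℓ) 4
  have hle : modularFunctionFieldFullC (ZMod ℓ) 4 ≤ modularFunctionFieldFullC (ZMod ℓ) (4 * N) :=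
    full_degeneracyC_le (ZMod ℓ) (Dvd.intro N rfl)
  have hmul := relfinrank_mul_relfinrank hj hle
  rw [bsn_relfinrank_F ℓ 4 hn4, bsn_relfinrank_F ℓ (4 * N) hn4N, bsf4f_psi_four] at hmul
  exact hmul

theorem bsf4f_relfinrank_KY_LY_ne_zero (N : ℕ) [NeZero N] :
    relfinrank (purb_KY purb_X3Q) (purb_LY 2 purb_X3Q (2 * N)) ≠ 0 := by
  intro h0
  have h := bsf4f_relfinrank_KY_LY N
  rw [h0, mul_zero] at h
  exact (Fermat.Agent.S28x.sa_dedekindPsi_pos (4 * N) (NeZero.ne _)).ne h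

theorem bsf4f_relfinrank_KYb_LYb_ne_zero (ℓ : ℕ) [Fact ℓ.Prime] (hℓ2 : ℓ ≠ 2)
    (h2 : IsUnit (2 : ZMod ℓ)) (N : ℕ) [NeZero N] (hℓN : ¬ ℓ ∣ N) :
    relfinrank (purb_KYb ℓ (purb_X3 h2)) (purb_LYb ℓ 2 (purb_X3 h2) (2 * N)) ≠ 0 := by
  intro h0
  have h := bsf4f_relfinrank_KYb_LYb ℓ hℓ2 h2 N hℓN
  rw [h0, mul_zero] at h
  exact (Fermat.Agent.S28x.sa_dedekindPsi_pos (4 * N) (NeZero.ne _)).ne h

/-- **`F_{4N} / ℚ(X₃)` is finite** (helper28's algebra instance `purb_algebraKYLY`). -/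
theorem bsf4f_finiteDimensional_KY_LY (N : ℕ) [NeZero N] :
    FiniteDimensional ↥(purb_KY purb_X3Q) ↥(purb_LY 2 purb_X3Q (2 * N)) :=
  bsn_finiteDimensional_of_relfinrank_ne_zero _ _ (purb_KY_le_LY 2 purb_X3Q (2 * N))
    (bsf4f_relfinrank_KY_LY_ne_zero N)

/-- **`F̃_{4N} / 𝔽_ℓ(X̄₃)` is finite** (helper28's algebra instance `purb_algebraKYbLYb`). -/
theorem bsf4f_finiteDimensional_KYb_LYb (ℓ : ℕ) [Fact ℓ.Prime] (hℓ2 : ℓ ≠ 2)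
    (h2 : IsUnit (2 : ZMod ℓ)) (N : ℕ) [NeZero N] (hℓN : ¬ ℓ ∣ N) :
    FiniteDimensional ↥(purb_KYb ℓ (purb_X3 h2)) ↥(purb_LYb ℓ 2 (purb_X3 h2) (2 * N)) :=
  bsn_finiteDimensional_of_relfinrank_ne_zero _ _ (purb_KYb_le_LYb ℓ 2 (purb_X3 h2) (2 * N))
    (bsf4f_relfinrank_KYb_LYb_ne_zero ℓ hℓ2 h2 N hℓN)

theorem bsf4f_finrank_KY_LY (N : ℕ) [NeZero N] :
    6 * Module.finrank ↥(purb_KY purb_X3Q) ↥(purb_LY 2 purb_X3Q (2 * N)) =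
      dedekindPsi (4 * N) := by
  have h := bsn_finrank_eq_relfinrank _ _ (purb_KY_le_LY 2 purb_X3Q (2 * N))
  rw [← bsf4f_relfinrank_KY_LY N, ← h]
  rfl

theorem bsf4f_finrank_KYb_LYb (ℓ : ℕ) [Fact ℓ.Prime] (hℓ2 : ℓ ≠ 2)
    (h2 : IsUnit (2 : ZMod ℓ)) (N : ℕ) [NeZero N] (hℓN : ¬ ℓ ∣ N) :
    6 * Module.finrank ↥(purb_KYb ℓ (purb_X3 h2)) ↥(purb_LYb ℓ 2 (purb_X3 h2) (2 * N)) =
      dedekindPsi (4 * N) := by
  have h := bsn_finrank_eq_relfinrank _ _ (purb_KYb_le_LYb ℓ 2 (purb_X3 h2) (2 * N))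
  rw [← bsf4f_relfinrank_KYb_LYb ℓ hℓ2 h2 N hℓN, ← h]
  rfl

/-- **the residue degree equals the generic degree**:
`[F̃_{4N} : 𝔽_ℓ(X̄₃)] = [F_{4N} : ℚ(X₃)]` (the `finrank_eq` field of `nd_RedPair`). -/
theorem bsf4f_finrank_eq (ℓ : ℕ) [Fact ℓ.Prime] (hℓ2 : ℓ ≠ 2) (h2 : IsUnit (2 : ZMod ℓ))
    (N : ℕ) [NeZero N] (hℓN : ¬ ℓ ∣ N) :
    Module.finrank ↥(purb_KYb ℓ (purb_X3 h2)) ↥(purb_LYb ℓ 2 (purb_X3 h2) (2 * N)) =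
      Module.finrank ↥(purb_KY purb_X3Q) ↥(purb_LY 2 purb_X3Q (2 * N)) := by
  have h1 := bsf4f_finrank_KYb_LYb ℓ hℓ2 h2 N hℓN
  have h2' := bsf4f_finrank_KY_LY N
  omega

end Degrees

/-! ### separability of `F̃_{4N} / 𝔽_ℓ(X̄₃)` -/

section SepInst

/-- **`F̃_{4N} / 𝔽_ℓ(X̄₃)` is separable** (`ℓ` odd, `ℓ ∤ N`). -/
theorem bsf4f_isSeparable_KYb_LYb (ℓ : ℕ) [Fact ℓ.Prime] (hℓ2 : ℓ ≠ 2)
    (h2 : IsUnit (2 : ZMod ℓ)) (N : ℕ) [NeZero N] (hℓN : ¬ ℓ ∣ N) :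
    Algebra.IsSeparable ↥(purb_KYb ℓ (purb_X3 h2)) ↥(purb_LYb ℓ 2 (purb_X3 h2) (2 * N)) :=
  bsn_isSeparable_KYb_LYb_of_order ℓ 2 (purb_X3 h2) (2 * N) (bsf4f_order_X3 h2)
    (bsf4f_relfinrank_KYb_LYb_ne_zero ℓ hℓ2 h2 N hℓN)

end SepInst

/-! ### the same statements in helper86's `lyn_` names (`ℓ` odd) -/

section Lyn

theorem bsf4f_lyn_KY_eq : lyn_KY = modularFunctionFieldFull 4 := bsf4f_KY_eq

theorem bsf4f_lyn_KYb_eq (ℓ : ℕ) [Fact ℓ.Prime] (hl : ℓ ≠ 2) :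
    lyn_KYb ℓ hl = modularFunctionFieldFullC (ZMod ℓ) 4 :=
  bsf4f_KYb_eq ℓ hl (lyn_isUnit_two_zmod ℓ hl)

theorem bsf4f_lyn_finiteDimensional (N : ℕ) [NeZero N] :
    FiniteDimensional ↥lyn_KY ↥(lyn_LY (2 * N)) :=
  bsf4f_finiteDimensional_KY_LY N

theorem bsf4f_lyn_finiteDimensional_b (ℓ : ℕ) [Fact ℓ.Prime] (hl : ℓ ≠ 2) (N : ℕ) [NeZero N]
    (hℓN : ¬ ℓ ∣ N) :
    FiniteDimensional ↥(lyn_KYb ℓ hl) ↥(lyn_LYb ℓ hl (2 * N)) :=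
  bsf4f_finiteDimensional_KYb_LYb ℓ hl (lyn_isUnit_two_zmod ℓ hl) N hℓN

theorem bsf4f_lyn_isSeparable_b (ℓ : ℕ) [Fact ℓ.Prime] (hl : ℓ ≠ 2) (N : ℕ) [NeZero N]
    (hℓN : ¬ ℓ ∣ N) :
    Algebra.IsSeparable ↥(lyn_KYb ℓ hl) ↥(lyn_LYb ℓ hl (2 * N)) :=
  bsf4f_isSeparable_KYb_LYb ℓ hl (lyn_isUnit_two_zmod ℓ hl) N hℓN

theorem bsf4f_lyn_finrank_eq (ℓ : ℕ) [Fact ℓ.Prime] (hl : ℓ ≠ 2) (N : ℕ) [NeZero N]
    (hℓN : ¬ ℓ ∣ N) :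
    Module.finrank ↥(lyn_KYb ℓ hl) ↥(lyn_LYb ℓ hl (2 * N)) =
      Module.finrank ↥lyn_KY ↥(lyn_LY (2 * N)) :=
  bsf4f_finrank_eq ℓ hl (lyn_isUnit_two_zmod ℓ hl) N hℓN

theorem bsf4f_lyn_finrank (N : ℕ) [NeZero N] :
    6 * Module.finrank ↥lyn_KY ↥(lyn_LY (2 * N)) = dedekindPsi (4 * N) :=
  bsf4f_finrank_KY_LY N

theorem bsf4f_lyn_finrank_b (ℓ : ℕ) [Fact ℓ.Prime] (hl : ℓ ≠ 2) (N : ℕ) [NeZero N]
    (hℓN : ¬ ℓ ∣ N) :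
    6 * Module.finrank ↥(lyn_KYb ℓ hl) ↥(lyn_LYb ℓ hl (2 * N)) = dedekindPsi (4 * N) :=
  bsf4f_finrank_KYb_LYb ℓ hl (lyn_isUnit_two_zmod ℓ hl) N hℓN

end Lyn

end

end Fermat.Agent.S18x
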