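/-
S18 project, NRM block, row N12 (helper15), prefix `bsi_`.

INSTANCES of `bsi_F4_eq` (`F₄ = K(X₃)`):
* `K = ℚ`                       (`bsi_F4_eq_rat`, `bsi_F4_eq_K3` in helper28's names);
* `K` any field of odd characteristic `ℓ` (`bsi_F4_eq_charL`), in particular
  `K = ZMod ℓ` (`bsi_Ft4_eq`) and `ℓ = 3` in helper28's names (`bsi_Ft4_eq_K3b`).
Degree input `3 = ψ(2) ≤ [F₂ : K(j)]`: S28x `deg_all` (+ `qd_relfinrank_Ft_le_full` for `ℚ`,
helper94's `lv_deg_le` for a general field of characteristic `ℓ`).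
-/
import Mathlib
import Fermat.Agent.S18x.BaseIdent
import Fermat.Agent.S18x.LevelYDefs
import Fermat.Agent.S18x.LvDegK
import Fermat.Agent.S28x.QepOfDeg
import Fermat.Agent.S28x.DegAll

set_option autoImplicit false

noncomputable section

namespace Fermat.Agent.S18x

open ModularCurve IntermediateField Fermat.Agent.S28x

theorem bsi_psi_two : dedekindPsi 2 = 3 := by
  have h : (2 : ℕ).divisors = {1, 2} := by decide
  rw [dedekindPsi, h]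
  rw [Finset.filter_true_of_mem]
  · simp
  · intro x hx
    simp at hx
    rcases hx with rfl | rfl
    · exact squarefree_one
    · exact Nat.prime_two.squarefree

/-- DEG at level `2` over `ℚ` (through reduction mod `3`). -/
theorem bsi_deg2_rat :
    3 ≤ relfinrank ℚ⟮jqModC ℚ⟯ (modularFunctionFieldFullC ℚ 2) := by
  have h1 : DEG 3 2 := deg_all 3 2 (by norm_num)
  have h2 := qd_relfinrank_Ft_le_full (qd_input 3 2)
  rw [DEG, bsi_psi_two] at h1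
  exact h1.trans h2

/-- **`F₄ = ℚ(X₃)`**. -/
theorem bsi_F4_eq_rat (h2 : IsUnit (2 : ℚ)) :
    modularFunctionFieldFull 4 = ℚ⟮purb_X3 h2⟯ :=
  bsi_F4_eq h2 bsi_deg2_rat

/-- **`F₄ = ℚ(X₃)`** in the names of `LevelYDefs`. -/
theorem bsi_F4_eq_K3 : modularFunctionFieldFull 4 = purb_K3 :=
  bsi_F4_eq_rat purb_isUnit_two_rat

theorem bsi_X3Q_mem_F4 : purb_X3Q ∈ modularFunctionFieldFull 4 := by
  rw [bsi_F4_eq_K3]; exact purb_h_mem_KY _

section CharL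

variable (ℓ : ℕ) [Fact ℓ.Prime]

theorem bsi_not_dvd_two (hℓ : ℓ ≠ 2) : ¬ ℓ ∣ 2 := by
  intro h
  exact hℓ ((Nat.prime_dvd_prime_iff_eq (Fact.out : ℓ.Prime) Nat.prime_two).1 h)

/-- DEG at level `2` over any field of odd characteristic `ℓ`. -/
theorem bsi_deg2_charL (hℓ : ℓ ≠ 2) (k : Type*) [Field k] [Algebra (ZMod ℓ) k] :
    3 ≤ relfinrank k⟮jqModC k⟯ (modularFunctionFieldFullC k 2) := by
  have h := lv_deg_le ℓ 2 (bsi_not_dvd_two ℓ hℓ) k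
  rwa [bsi_psi_two] at h

/-- **`F̄₄ = k(X̄₃)`** for every field `k` of odd characteristic `ℓ`. -/
theorem bsi_F4_eq_charL (hℓ : ℓ ≠ 2) (k : Type*) [Field k] [Algebra (ZMod ℓ) k]
    (h2 : IsUnit (2 : k)) :
    modularFunctionFieldFullC k 4 = k⟮purb_X3 h2⟯ :=
  bsi_F4_eq h2 (bsi_deg2_charL ℓ hℓ k)

/-- **`F̃₄ = 𝔽_ℓ(X̄₃)`**, `ℓ` odd. -/
theorem bsi_Ft4_eq (hℓ : ℓ ≠ 2) (h2 : IsUnit (2 : ZMod ℓ)) :
    Ft ℓ 4 = (ZMod ℓ)⟮purb_X3 h2⟯ :=
  bsi_F4_eq_charL ℓ hℓ (ZMod ℓ) h2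

end CharL

/-- **`F̃₄ = 𝔽₃(X̄₃)`** in the names of `LevelYDefs`. -/
theorem bsi_Ft4_eq_K3b : Ft 3 4 = purb_K3b :=
  bsi_Ft4_eq 3 (by norm_num) purb_isUnit_two_zmod3

theorem bsi_X3F_mem_Ft4 : purb_X3F ∈ Ft 3 4 := by
  rw [bsi_Ft4_eq_K3b]; exact IntermediateField.mem_adjoin_simple_self _ _

end Fermat.Agent.S18x
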