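/-
S18x/BcDiscrFrac (helper21): `BcDiscrAmb` specialised to `K' := FractionRing D'` acting on the
ambient field `Ω` through `FractionRing.liftAlgebra`, plus a DENOMINATOR form which does not
mention any fraction field:

* `bcd_den_exists_coeff_of_isIntegral`: if `d • x` lies in the `D'`-span of the `φ (τ i)` for some
  `d ≠ 0` in `D'`, and `x` is integral over `D'`, then `x = ∑ i, c i • φ (τ i)` with `c i ∈ D'`.
-/
import Fermat.Agent.S18x.BcDiscrAmb

set_option autoImplicit false
set_option linter.unusedSectionVars false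

namespace Fermat.Agent.S18x

open Module

section Frac

variable {D T D' Ω ι : Type*} [Fintype ι] [DecidableEq ι]
variable [CommRing D] [CommRing T] [Algebra D T]
variable [CommRing D'] [IsDomain D'] [Field Ω] [Algebra D' Ω] [FaithfulSMul D' Ω]

attribute [local instance] FractionRing.liftAlgebra

/-- Ambient form over `K' = FractionRing D'`. -/
theorem bcd_frac_exists_coeff_of_isIntegral [IsIntegrallyClosed D']
    (f : D →+* D') (φ : T →+* Ω)
    (hφ : ∀ d, φ (algebraMap D T d) = algebraMap D' Ω (f d))
    (τ : Basis ι D T) (hu : IsUnit (Algebra.discr D τ))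
    (hli : LinearIndependent D' (fun i => φ (τ i)))
    {x : Ω} (hxs : x ∈ Submodule.span (FractionRing D') (Set.range fun i => φ (τ i)))
    (hx : IsIntegral D' x) : ∃ c : ι → D', x = ∑ i, c i • φ (τ i) :=
  bcd_amb_exists_coeff_of_isIntegral (K' := FractionRing D') f φ hφ τ hu hli hxs hx

/-- **Denominator form.** -/
theorem bcd_den_exists_coeff_of_isIntegral [IsIntegrallyClosed D']
    (f : D →+* D') (φ : T →+* Ω)
    (hφ : ∀ d, φ (algebraMap D T d) = algebraMap D' Ω (f d))
    (τ : Basis ι D T) (hu : IsUnit (Algebra.discr D τ))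
    (hli : LinearIndependent D' (fun i => φ (τ i)))
    {x : Ω} (d : D') (hd : d ≠ 0)
    (hxs : d • x ∈ Submodule.span D' (Set.range fun i => φ (τ i)))
    (hx : IsIntegral D' x) : ∃ c : ι → D', x = ∑ i, c i • φ (τ i) := by
  refine bcd_frac_exists_coeff_of_isIntegral f φ hφ τ hu hli ?_ hx
  obtain ⟨c, hc⟩ := (Submodule.mem_span_range_iff_exists_fun D').mp hxs
  have hdK : algebraMap D' (FractionRing D') d ≠ 0 := by
    rw [Ne, map_eq_zero_iff _ (IsFractionRing.injective D' (FractionRing D'))]
    exact hd
  have hx' : x = (algebraMap D' (FractionRing D') d)⁻¹ • (d • x) := by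
    rw [← algebraMap_smul (FractionRing D') d x, smul_smul, inv_mul_cancel₀ hdK, one_smul]
  rw [hx', ← hc]
  refine Submodule.smul_mem _ _ (Submodule.sum_mem _ fun i _ => ?_)
  rw [← algebraMap_smul (FractionRing D') (c i) (φ (τ i))]
  exact Submodule.smul_mem _ _ (Submodule.subset_span ⟨i, rfl⟩)

end Frac

end Fermat.Agent.S18x
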