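/-
S18x/CcjFactor (helper7), sub-lemma of row N3 (cusp conjugates, helper23).

FORMAL FACTORISATION OF THE MODULAR POLYNOMIAL `Φ_p(X, j)` over `K((t))`, `t = q^{1/p}`,
for any field `K` containing a primitive `p`-th root of unity `ξ`:

* `ccf_rescale_qExpand` : `(t ↦ c t) ∘ (q ↦ q^p) = (q ↦ q^p) ∘ (q ↦ c^p q)`;
* `ccf_charpoly_mat`    : `charpoly (M_f(t^p)) = ∏_{b < p} (X - f(ξ^b t))` for EVERY `f ∈ K((t))`,
  `M_f = mp_mat p f` (S28x/ModPolyFormal) the matrix of multiplication by `f(t)` over `K((t^p))`;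
* `ccf_exists_modPoly`  : STRONG form of `exists_modPoly`: `Φ_p ∈ ℤ[Y][X]` monic of degree `p + 1`
  with `Φ_p(X, j(q)) = (X - j(q^p)) · charpoly M_j` in `ℤ((q))[X]`;
* `ccf_modPoly_map`     : the same identity over any commutative ring `R`;
* `ccf_factor`          : over `K((t))`:
  `Φ_p(X, j(t^p)) = (X - j(t^{p²})) · ∏_{b < p} (X - j(ξ^b t))`;
* `ccf_factor_map`      : the image of `ccf_factor` under any ring hom `s : K((t)) →+* E`
  (e.g. a Puiseux substitution `t ↦ ζ' t^{a}`), which is the factorisation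
  `Φ_p(X, J(u)) = (X - J(u^p)) ∏_{ξ^p = 1} (X - J(ξ u^{1/p}))` for a Puiseux parameter `u`.
-/
import Mathlib
import Fermat.Agent.S28x.ModPolyFormal
import Fermat.Agent.S28x.ModPolyVdm
import Fermat.Agent.S28x.ModPolyCoef
import Fermat.Agent.S28x.LaurentFieldQ

set_option autoImplicit false

open ModularCurve Polynomial

namespace Fermat.Agent.S18x

open Fermat.Agent.S28x

noncomputable section

section Rescale

variable {K : Type*} [Field K]

/-- `(t ↦ c t) ∘ (q ↦ q^p) = (q ↦ q^p) ∘ (q ↦ c^p q)` -/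
theorem ccf_rescale_qExpand (p : ℕ) [NeZero p] (c : K) (hc : c ≠ 0) (g : LaurentSeries K) :
    lf_rescale c hc (qExpand K p g) = qExpand K p (lf_rescale (c ^ p) (pow_ne_zero p hc) g) := by
  ext n
  rw [lf_rescale_coeff, mp_coeff_qExpand, mp_coeff_qExpand]
  split_ifs with h
  · rw [lf_rescale_coeff]
    obtain ⟨m, rfl⟩ := h
    have hp : (p : ℤ) ≠ 0 := by exact_mod_cast NeZero.ne p
    rw [Int.mul_ediv_cancel_left _ hp, zpow_mul, zpow_natCast]
  · rw [mul_zero]

theorem ccf_rescale_one (g : LaurentSeries K) : lf_rescale (1 : K) one_ne_zero g = g := by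
  ext n
  rw [lf_rescale_coeff, one_zpow, one_mul]

/-- a `p`-th root of unity acts trivially on `K((t^p))` -/
theorem ccf_rescale_qExpand_of_pow_eq_one (p : ℕ) [NeZero p] (c : K) (hc : c ≠ 0)
    (hcp : c ^ p = 1) (g : LaurentSeries K) :
    lf_rescale c hc (qExpand K p g) = qExpand K p g := by
  rw [ccf_rescale_qExpand p c hc g]
  congr 1
  ext n
  rw [lf_rescale_coeff, hcp, one_zpow, one_mul]

theorem ccf_rescale_single_one_coeff (c : K) (hc : c ≠ 0) :
    (lf_rescale c hc (HahnSeries.single (1 : ℤ) (1 : K))).coeff 1 = c := by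
  rw [lf_rescale_coeff, HahnSeries.coeff_single_same, zpow_one, mul_one]

end Rescale

section Charpoly

variable {K : Type*} [Field K] (p : ℕ) [NeZero p]

/-- **the conjugates of `f(t)` over `K((t^p))`**: for a primitive `p`-th root of unity `ξ`,
`charpoly (M_f(t^p)) = ∏_{b < p} (X - f(ξ^b t))`. -/
theorem ccf_charpoly_mat {ξ : K} (hξ : IsPrimitiveRoot ξ p) (f : LaurentSeries K) :
    ((mp_mat p f).map (qExpand K p)).charpoly =
      ∏ b : Fin p, (X - C (lf_rescale (ξ ^ (b : ℕ)) (pow_ne_zero _ (hξ.ne_zero (NeZero.ne p))) f)) := by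
  have hξ0 : ξ ≠ 0 := hξ.ne_zero (NeZero.ne p)
  -- the rescaling homs
  set R : Fin p → (LaurentSeries K →+* LaurentSeries K) :=
    fun b => lf_rescale (ξ ^ (b : ℕ)) (pow_ne_zero _ hξ0) with hR
  have hRp : ∀ b : Fin p, (ξ ^ (b : ℕ)) ^ p = 1 := by
    intro b
    rw [← pow_mul, mul_comm, pow_mul, hξ.pow_eq_one, one_pow]
  refine mpv_charpoly_eq_prod (K := LaurentSeries K) _
    (fun b => R b (HahnSeries.single (1 : ℤ) (1 : K))) (fun b => R b f) ?_ ?_
  · -- injectivity of `b ↦ ξ^b t`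
    intro b b' hbb'
    have h1 := congrArg (fun x : LaurentSeries K => x.coeff 1) hbb'
    simp only [hR, ccf_rescale_single_one_coeff] at h1
    exact Fin.ext (hξ.pow_inj b.2 b'.2 h1)
  · intro b k
    have hE := congrArg (R b) (mp_eigen p f k)
    rw [map_mul, map_sum] at hE
    have hsingle : ∀ i : Fin p, HahnSeries.single (((i : ℕ) : ℤ)) (1 : K) =
        (HahnSeries.single (1 : ℤ) (1 : K)) ^ (i : ℕ) := by
      intro i
      rw [HahnSeries.single_pow, one_pow, nsmul_eq_mul, mul_one]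
    rw [hsingle k, map_pow] at hE
    rw [hE]
    refine Finset.sum_congr rfl fun i _ => ?_
    rw [map_mul, hsingle i, map_pow, Matrix.map_apply]
    congr 1
    exact (ccf_rescale_qExpand_of_pow_eq_one p _ _ (hRp b) _).symm

end Charpoly

section ModPoly

/-- `aeval (jqModC R)` on `ℤ[Y]` is `coeffMap (ℤ → R) ∘ aeval (jqModC ℤ)`. -/
theorem ccf_aeval_comp (R : Type*) [CommRing R] :
    (coeffMap (Int.castRingHom R)).comp (Polynomial.aeval (R := ℤ) (jqModC ℤ)).toRingHom =
      (Polynomial.aeval (R := ℤ) (jqModC R)).toRingHom := by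
  refine Polynomial.ringHom_ext (fun a => ?_) ?_
  · have : ∀ f g : ℤ →+* LaurentSeries R, f a = g a := fun f g => by rw [RingHom.ext_int f g]
    exact this (((coeffMap (Int.castRingHom R)).comp
      (Polynomial.aeval (R := ℤ) (jqModC ℤ)).toRingHom).comp Polynomial.C)
      ((Polynomial.aeval (R := ℤ) (jqModC R)).toRingHom.comp Polynomial.C)
  · simp only [RingHom.comp_apply, AlgHom.toRingHom_eq_coe, RingHom.coe_coe, Polynomial.aeval_X]
    rw [coeffMap_jqModC]

/-- **strong form of the modular polynomial**: `Φ_p(X, j(q)) = (X - j(q^p)) · charpoly M_j`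
in `ℤ((q))[X]`. -/
theorem ccf_exists_modPoly (p : ℕ) [hp : Fact p.Prime] :
    haveI : NeZero p := ⟨hp.out.ne_zero⟩
    ∃ Φ : Polynomial (Polynomial ℤ), Φ.Monic ∧ Φ.natDegree = p + 1 ∧
      Φ.map (Polynomial.aeval (R := ℤ) (jqModC ℤ)).toRingHom = mp_thetaZ p := by
  have : NeZero p := ⟨hp.out.ne_zero⟩
  have hm1 : ((X : Polynomial (LaurentSeries ℤ)) - C (qExpand ℤ p (jqModC ℤ))).Monic :=
    Polynomial.monic_X_sub_C _
  have hm2 : (mp_mat p (jqModC ℤ)).charpoly.Monic := Matrix.charpoly_monic _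
  have hΘm : (mp_thetaZ p).Monic := hm1.mul hm2
  have hΘd : (mp_thetaZ p).natDegree = p + 1 := by
    rw [mp_thetaZ, hm1.natDegree_mul hm2, Polynomial.natDegree_X_sub_C,
      Matrix.charpoly_natDegree_eq_dim, Fintype.card_fin, add_comm]
  choose P hP using mp_theta_coeff p
  set Φ : Polynomial (Polynomial ℤ) :=
    X ^ (p + 1) + ∑ i ∈ Finset.range (p + 1), C (P i) * X ^ i with hΦ
  have hdeg : (∑ i ∈ Finset.range (p + 1), C (P i) * (X : Polynomial (Polynomial ℤ)) ^ i).degree
      < ((p + 1 : ℕ) : WithBot ℕ) := by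
    refine lt_of_le_of_lt (Polynomial.degree_sum_le _ _) ?_
    rw [Finset.sup_lt_iff (WithBot.bot_lt_coe _)]
    intro i hi
    exact lt_of_le_of_lt (Polynomial.degree_C_mul_X_pow_le _ _)
      (by exact_mod_cast Finset.mem_range.mp hi)
  have hmonic : Φ.Monic := Polynomial.monic_X_pow_add hdeg
  have hnat : Φ.natDegree = p + 1 := by
    rw [hΦ, Polynomial.natDegree_add_eq_left_of_degree_lt
      (by rw [Polynomial.degree_X_pow]; exact hdeg), Polynomial.natDegree_X_pow]
  refine ⟨Φ, hmonic, hnat, ?_⟩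
  conv_rhs => rw [hΘm.as_sum, hΘd]
  rw [hΦ, Polynomial.map_add, Polynomial.map_pow, Polynomial.map_X, Polynomial.map_sum]
  congr 1
  refine Finset.sum_congr rfl fun i _ => ?_
  rw [Polynomial.map_mul, Polynomial.map_pow, Polynomial.map_X, Polynomial.map_C]
  congr 2
  exact hP i

/-- `Θ_p` over an arbitrary commutative ring. -/
theorem ccf_thetaZ_map (p : ℕ) [NeZero p] (R : Type*) [CommRing R] :
    (mp_thetaZ p).map (coeffMap (Int.castRingHom R)) =
      (X - C (qExpand R p (jqModC R))) * (mp_mat p (jqModC R)).charpoly := by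
  rw [mp_thetaZ, Polynomial.map_mul, Polynomial.map_sub, Polynomial.map_X, Polynomial.map_C,
    ← Matrix.charpoly_map, ← mp_mat_coeffMap, coeffMap_qExpand, coeffMap_jqModC]

/-- **the modular polynomial over any commutative ring `R`**:
`Φ_p(X, j) = (X - j(q^p)) · charpoly M_j` in `R((q))[X]`. -/
theorem ccf_modPoly_map (p : ℕ) [NeZero p] (R : Type*) [CommRing R]
    (Φ : Polynomial (Polynomial ℤ))
    (hΦ : Φ.map (Polynomial.aeval (R := ℤ) (jqModC ℤ)).toRingHom = mp_thetaZ p) :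
    Φ.map (Polynomial.aeval (R := ℤ) (jqModC R)).toRingHom =
      (X - C (qExpand R p (jqModC R))) * (mp_mat p (jqModC R)).charpoly := by
  rw [← ccf_thetaZ_map, ← hΦ, Polynomial.map_map, ccf_aeval_comp]

end ModPoly

section Factor

variable {K : Type*} [Field K] (p : ℕ) [NeZero p]

/-- **FACTORISATION over `K((t))`, `q = t^p`**:
`Φ_p(X, j(t^p)) = (X - j(t^{p²})) · ∏_{b < p} (X - j(ξ^b t))`. -/
theorem ccf_factor {ξ : K} (hξ : IsPrimitiveRoot ξ p) (Φ : Polynomial (Polynomial ℤ))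
    (hΦ : Φ.map (Polynomial.aeval (R := ℤ) (jqModC ℤ)).toRingHom = mp_thetaZ p) :
    (Φ.map (Polynomial.aeval (R := ℤ) (jqModC K)).toRingHom).map (qExpand K p) =
      (X - C (qExpand K p (qExpand K p (jqModC K)))) *
        ∏ b : Fin p, (X - C (lf_rescale (ξ ^ (b : ℕ))
          (pow_ne_zero _ (hξ.ne_zero (NeZero.ne p))) (jqModC K))) := by
  rw [ccf_modPoly_map p K Φ hΦ, Polynomial.map_mul, Polynomial.map_sub, Polynomial.map_X,
    Polynomial.map_C, ← Matrix.charpoly_map, ccf_charpoly_mat p hξ]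

/-- the image of `ccf_factor` under an arbitrary ring hom `s` out of `K((t))`
(Puiseux substitution `t ↦ ζ' t^a`, reduction, …). -/
theorem ccf_factor_map {ξ : K} (hξ : IsPrimitiveRoot ξ p) (Φ : Polynomial (Polynomial ℤ))
    (hΦ : Φ.map (Polynomial.aeval (R := ℤ) (jqModC ℤ)).toRingHom = mp_thetaZ p)
    {E : Type*} [CommRing E] (s : LaurentSeries K →+* E) :
    (Φ.map (Polynomial.aeval (R := ℤ) (jqModC K)).toRingHom).map (s.comp (qExpand K p)) =
      (X - C (s (qExpand K p (qExpand K p (jqModC K))))) *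
        ∏ b : Fin p, (X - C (s (lf_rescale (ξ ^ (b : ℕ))
          (pow_ne_zero _ (hξ.ne_zero (NeZero.ne p))) (jqModC K)))) := by
  rw [← Polynomial.map_map, ccf_factor p hξ Φ hΦ, Polynomial.map_mul, Polynomial.map_sub,
    Polynomial.map_X, Polynomial.map_C, Polynomial.map_prod]
  congr 1
  refine Finset.prod_congr rfl fun b _ => ?_
  rw [Polynomial.map_sub, Polynomial.map_X, Polynomial.map_C]

end Factor

end

end Fermat.Agent.S18x
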