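/-
S18x/CpnRootsReduce (helper70): corollary of row P1 of helper38's CUSPN(b) block
(`cpnr_unit_coeff`, helper77, `S18x/CpnRoots.lean`).
`cpnr_reduce`: if `d = X ^ a * e` has coefficients in the valuation ring `A` of an algebraically
closed field, some unit coefficient (Gauss norm 1), and `e` has NO root in the open unit disc,
then the coefficient of `X ^ a` in `d` is a unit and all lower coefficients vanish (so the
coefficientwise reduction of `d` has order of vanishing exactly `a` at `0`).
-/
import Mathlib
import Fermat.Agent.S18x.CpnRoots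

set_option autoImplicit false

namespace Fermat.Agent.S18x

open Polynomial

/-- **Corollary of row P1.** -/
theorem cpnr_reduce {L : Type*} [Field L] [IsAlgClosed L] (A : ValuationSubring L)
    (d e : Polynomial L) (a : ℕ) (hd : d = X ^ a * e) (hint : ∀ j, d.coeff j ∈ A)
    (hprim : ∃ j, A.valuation (d.coeff j) = 1)
    (hroot : ∀ ρ : L, A.valuation ρ < 1 → e.eval ρ ≠ 0) :
    A.valuation (d.coeff a) = 1 ∧ ∀ j < a, d.coeff j = 0 := by
  have hcoeff : ∀ j, d.coeff j = if a ≤ j then e.coeff (j - a) else 0 := by
    intro j
    rw [hd, coeff_X_pow_mul']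
  have hlow : ∀ j < a, d.coeff j = 0 := by
    intro j hj
    rw [hcoeff j, if_neg (by omega)]
  have hshift : ∀ j, e.coeff j = d.coeff (j + a) := by
    intro j
    rw [hcoeff (j + a), if_pos (by omega), Nat.add_sub_cancel]
  refine ⟨?_, hlow⟩
  have hinte : ∀ j, e.coeff j ∈ A := fun j => by rw [hshift j]; exact hint _
  have hprime : ∃ j, A.valuation (e.coeff j) = 1 := by
    obtain ⟨j, hj⟩ := hprim
    by_cases hja : a ≤ j
    · refine ⟨j - a, ?_⟩
      rw [hshift (j - a), Nat.sub_add_cancel hja]
      exact hj
    · rw [hlow j (by omega), map_zero] at hj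
      exact absurd hj zero_ne_one
  have h0 := cpnr_unit_coeff A e hinte hprime hroot
  rw [hshift 0, zero_add] at h0
  exact h0

end Fermat.Agent.S18x
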