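/-
S18x/CpnCore (helper38): polynomial-matrix core of CUSPN(b) (cusp normality at level `N` by
discriminants, insurance twin of row N7).

`A ⊂ L` valuation ring of an algebraically closed field, `π : A → k` its residue map.
* `tA`   : the trace matrix `Tr(b_i b_j)` of the lifted orthonormal basis, entries in `A[X]`
           (`X = 1/j`); its images over `L[X]` and `k[X]` are the trace matrices of `b`, `b̄`;
* `tγ`   : trace matrix of an `L[X]`-basis `γ` of the characteristic-zero maximal order,
           `b = M γ`, `N M = I • 1` with `I` without roots in `A` (KEY LEMMA);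
           `det tγ = X^a e`, `e` without roots in the open unit disc (tame equality + no other
           branch point in the disc);
* `tβ`   : trace matrix of a `k[X]`-basis `β` of the maximal order in characteristic `ℓ`,
           `b̄ = T β`, `X^a ∣ det tβ` (Dedekind lower bound + `#{Q ∣ ∞} ≤ #cusps`).
Conclusion: `X ∤ det T`, i.e. the reduced order is maximal at `X = 0`.
-/
import Fermat.Agent.S18x.CpnRootsReduce

set_option autoImplicit false

namespace Fermat.Agent.S18x

open Polynomial Matrix

theorem cpn_core {L k : Type*} [Field L] [IsAlgClosed L] [Field k] (A : ValuationSubring L)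
    (π : A →+* k) (hπ : ∀ c : A, A.valuation (c : L) < 1 → π c = 0)
    {n : ℕ} (tA : Matrix (Fin n) (Fin n) A[X])
    (M N tγ : Matrix (Fin n) (Fin n) L[X]) (I : L[X])
    (ht : tA.map (Polynomial.map A.subtype) = M * tγ * Mᵀ)
    (hNM : N * M = I • (1 : Matrix (Fin n) (Fin n) L[X]))
    (hI : ∀ ρ : L, ρ ∈ A → I.eval ρ ≠ 0)
    (a : ℕ) (e : L[X]) (hD : tγ.det = X ^ a * e)
    (he : ∀ ρ : L, A.valuation ρ < 1 → e.eval ρ ≠ 0)
    (T tβ : Matrix (Fin n) (Fin n) k[X])
    (htb : tA.map (Polynomial.map π) = T * tβ * Tᵀ)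
    (hdet : (tA.map (Polynomial.map π)).det ≠ 0)
    (hβ : X ^ a ∣ tβ.det) : ¬ (X : k[X]) ∣ T.det := by
  classical
  set dA : A[X] := tA.det with hdA
  -- determinants commute with the two coefficient maps
  have hdL : (tA.map (Polynomial.map A.subtype)).det = dA.map A.subtype := by
    rw [hdA]
    exact (RingHom.map_det (Polynomial.mapRingHom A.subtype) tA).symm
  have hdk : (tA.map (Polynomial.map π)).det = dA.map π := by
    rw [hdA]
    exact (RingHom.map_det (Polynomial.mapRingHom π) tA).symm
  -- `det M` has no root in `A`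
  have hMroot : ∀ ρ : L, ρ ∈ A → M.det.eval ρ ≠ 0 := by
    intro ρ hρ h0
    have h1 : N.det * M.det = I ^ n := by
      rw [← Matrix.det_mul, hNM, Matrix.det_smul, Matrix.det_one, mul_one, Fintype.card_fin]
    have h2 := congrArg (Polynomial.eval ρ) h1
    rw [eval_mul, h0, mul_zero, eval_pow] at h2
    rcases Nat.eq_zero_or_pos n with hn | hn
    · subst hn
      have : M.det = 1 := Matrix.det_isEmpty
      rw [this, eval_one] at h0
      exact one_ne_zero h0
    · exact hI ρ hρ ((pow_eq_zero_iff (Nat.pos_iff_ne_zero.mp hn)).mp h2.symm)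
  -- the characteristic zero discriminant `d = X^a * (e * det M ^ 2)`
  have hd : dA.map A.subtype = X ^ a * (e * M.det ^ 2) := by
    rw [← hdL, ht, Matrix.det_mul, Matrix.det_mul, Matrix.det_transpose, hD]
    ring
  have hint : ∀ j, (dA.map A.subtype).coeff j ∈ A := by
    intro j
    rw [coeff_map]
    exact (dA.coeff j).2
  have hprim : ∃ j, A.valuation ((dA.map A.subtype).coeff j) = 1 := by
    by_contra hcon
    push Not at hcon
    apply hdet
    rw [hdk]
    ext j
    rw [coeff_map, coeff_zero]
    apply hπ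
    have hle : A.valuation ((dA.coeff j : A) : L) ≤ 1 := A.valuation_le_one _
    have hne := hcon j
    rw [coeff_map] at hne
    exact lt_of_le_of_ne hle hne
  have hroot : ∀ ρ : L, A.valuation ρ < 1 → (e * M.det ^ 2).eval ρ ≠ 0 := by
    intro ρ hρ
    rw [eval_mul, eval_pow]
    have hρA : ρ ∈ A := (A.valuation_le_one_iff ρ).mp hρ.le
    exact mul_ne_zero (he ρ hρ) (pow_ne_zero _ (hMroot ρ hρA))
  obtain ⟨hunit, hlow⟩ := cpnr_reduce A (dA.map A.subtype) (e * M.det ^ 2) a hd hint hprim hroot
  -- reduce: `d̄ = X^a * (unit + ...)`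
  have hcoeff_a : (dA.map π).coeff a ≠ 0 := by
    rw [coeff_map]
    have hu : IsUnit (dA.coeff a) := by
      rw [A.valuation_eq_one_iff]
      rw [coeff_map] at hunit
      exact hunit
    exact (hu.map π).ne_zero
  -- contradiction if `X ∣ det T`
  rintro ⟨q, hq⟩
  obtain ⟨u, hu⟩ := hβ
  have hdb : dA.map π = X ^ (a + 1) * (X * q ^ 2 * u) := by
    rw [← hdk, htb, Matrix.det_mul, Matrix.det_mul, Matrix.det_transpose, hq, hu]
    ring
  apply hcoeff_a
  rw [hdb, coeff_X_pow_mul']
  simp
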