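/-
S18x/CpnFF (helper38): function-field form of CUSPN(b).

`D₀ ≃ L[X]`, `O₀` a finite free `D₀`-algebra (the characteristic zero maximal order on the chart
`X = 1/j`) with basis `γ`; `D₁ ≃ k[X]`, `O₁` finite free with basis `β` (the maximal order in
characteristic `ℓ`).  `b₀ : Fin n → O₀` the lifted orthonormal family, `b₁ : Fin n → O₁` its
reduction.  Hypotheses:
* `htr₀, htr₁` : the two trace matrices are the images of ONE matrix `tA` over `A[X]`
                 ("the trace commutes with reduction");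
* `hden`       : `I • γ_j ∈ ∑ D₀ b₀ i` with `I` without roots in `A` (KEY LEMMA of H1V);
* `hdisc₀`     : `discr γ = X^a e`, `e` without roots in the open unit disc (tame equality);
* `hdisc₁`     : `X^a ∣ discr β` (Dedekind lower bound + `#{Q ∣ ∞} ≤ #cusps`);
* `hsep`       : `discr b₁ ≠ 0` (separability).
Conclusion: every element of `O₁` becomes a `D₁`-combination of the `b₁ i` after multiplication by
a polynomial `p` with `p(0) ≠ 0`, i.e. the reduced order is maximal at `X = 0` (CUSP-NRM).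
-/
import Fermat.Agent.S18x.CpnCore

set_option autoImplicit false

namespace Fermat.Agent.S18x

open Polynomial Matrix Module

theorem cpn_ff {L k : Type*} [Field L] [IsAlgClosed L] [Field k] (A : ValuationSubring L)
    (π : A →+* k) (hπ : ∀ c : A, A.valuation (c : L) < 1 → π c = 0)
    {D₀ O₀ D₁ O₁ : Type*} [CommRing D₀] [CommRing O₀] [Algebra D₀ O₀]
    [CommRing D₁] [CommRing O₁] [Algebra D₁ O₁]
    (e₀ : L[X] ≃+* D₀) (e₁ : k[X] ≃+* D₁) {n : ℕ}
    (γ : Basis (Fin n) D₀ O₀) (β : Basis (Fin n) D₁ O₁) (b₀ : Fin n → O₀) (b₁ : Fin n → O₁)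
    (tA : Matrix (Fin n) (Fin n) A[X])
    (htr₀ : ∀ i j, Algebra.trace D₀ O₀ (b₀ i * b₀ j) = e₀ ((tA i j).map A.subtype))
    (htr₁ : ∀ i j, Algebra.trace D₁ O₁ (b₁ i * b₁ j) = e₁ ((tA i j).map π))
    (I : L[X]) (hI : ∀ ρ : L, ρ ∈ A → I.eval ρ ≠ 0)
    (hden : ∀ j, ∃ c : Fin n → D₀, e₀ I • γ j = ∑ i, c i • b₀ i)
    (a : ℕ) (e : L[X]) (hdisc₀ : Algebra.discr D₀ γ = e₀ (X ^ a * e))
    (he : ∀ ρ : L, A.valuation ρ < 1 → e.eval ρ ≠ 0)
    (hdisc₁ : e₁ (X ^ a) ∣ Algebra.discr D₁ β)
    (hsep : Algebra.discr D₁ b₁ ≠ 0) :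
    ∀ y : O₁, ∃ p : k[X], p.eval 0 ≠ 0 ∧ ∃ c : Fin n → D₁, e₁ p • y = ∑ i, c i • b₁ i := by
  classical
  -- coordinate matrices
  set M₀ : Matrix (Fin n) (Fin n) D₀ := Matrix.of fun i j => γ.repr (b₀ i) j with hM₀
  set T₁ : Matrix (Fin n) (Fin n) D₁ := Matrix.of fun i j => β.repr (b₁ i) j with hT₁
  have hb₀ : b₀ = (M₀.map (algebraMap D₀ O₀)) *ᵥ (γ : Fin n → O₀) := by
    funext i
    simp only [Matrix.mulVec, dotProduct, Matrix.map_apply, hM₀, Matrix.of_apply]
    conv_lhs => rw [← γ.sum_repr (b₀ i)]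
    exact Finset.sum_congr rfl fun j _ => by rw [Algebra.smul_def]
  have hb₁ : b₁ = (T₁.map (algebraMap D₁ O₁)) *ᵥ (β : Fin n → O₁) := by
    funext i
    simp only [Matrix.mulVec, dotProduct, Matrix.map_apply, hT₁, Matrix.of_apply]
    conv_lhs => rw [← β.sum_repr (b₁ i)]
    exact Finset.sum_congr rfl fun j _ => by rw [Algebra.smul_def]
  have htm₀ : Algebra.traceMatrix D₀ b₀ = M₀ * Algebra.traceMatrix D₀ γ * M₀ᵀ := by
    rw [hb₀]; exact Algebra.traceMatrix_of_matrix_mulVec _ _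
  have htm₁ : Algebra.traceMatrix D₁ b₁ = T₁ * Algebra.traceMatrix D₁ β * T₁ᵀ := by
    rw [hb₁]; exact Algebra.traceMatrix_of_matrix_mulVec _ _
  -- the matrix `N₀` with `N₀ * M₀ = I`
  choose cN hcN using hden
  set N₀ : Matrix (Fin n) (Fin n) D₀ := Matrix.of fun j i => cN j i with hN₀
  have hNM₀ : N₀ * M₀ = e₀ I • (1 : Matrix (Fin n) (Fin n) D₀) := by
    ext j l
    have h1 : e₀ I • γ j = ∑ l', (∑ i, cN j i * γ.repr (b₀ i) l') • γ l' := by
      rw [hcN j]
      have : ∀ i, cN j i • b₀ i = ∑ l', (cN j i * γ.repr (b₀ i) l') • γ l' := by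
        intro i
        conv_lhs => rw [← γ.sum_repr (b₀ i), Finset.smul_sum]
        exact Finset.sum_congr rfl fun l' _ => by rw [smul_smul]
      rw [Finset.sum_congr rfl fun i _ => this i, Finset.sum_comm]
      exact Finset.sum_congr rfl fun l' _ => by rw [Finset.sum_smul]
    have h2 := congrArg (fun v => γ.repr v l) h1
    simp only [map_smul, Basis.repr_self, Finsupp.smul_apply, map_sum, Finsupp.coe_finsetSum,
      Finset.sum_apply, Finsupp.single_apply, smul_eq_mul, mul_ite, mul_one, mul_zero,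
      Finset.sum_ite_eq', Finset.mem_univ, if_true] at h2
    rw [Matrix.mul_apply, Matrix.smul_apply, Matrix.one_apply, smul_eq_mul, mul_ite, mul_one,
      mul_zero]
    simp only [hN₀, hM₀, Matrix.of_apply]
    rw [← h2]
  -- pull everything back to polynomial rings
  set M : Matrix (Fin n) (Fin n) L[X] := M₀.map e₀.symm with hM
  set N : Matrix (Fin n) (Fin n) L[X] := N₀.map e₀.symm with hN
  set tγ : Matrix (Fin n) (Fin n) L[X] := (Algebra.traceMatrix D₀ γ).map e₀.symm with htγ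
  set T : Matrix (Fin n) (Fin n) k[X] := T₁.map e₁.symm with hT
  set tβ : Matrix (Fin n) (Fin n) k[X] := (Algebra.traceMatrix D₁ β).map e₁.symm with htβ
  have hmap₀ : ∀ X' : Matrix (Fin n) (Fin n) D₀, (X'.map e₀.symm).map e₀ = X' := by
    intro X'; ext i j; simp
  have hmap₁ : ∀ X' : Matrix (Fin n) (Fin n) D₁, (X'.map e₁.symm).map e₁ = X' := by
    intro X'; ext i j; simp
  have hinj₀ : Function.Injective
      (fun X' : Matrix (Fin n) (Fin n) L[X] => X'.map e₀) := by
    intro X' Y' h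
    ext i j : 1
    have := congrFun (congrFun h i) j
    simp only [Matrix.map_apply] at this
    exact e₀.injective this
  have hinj₁ : Function.Injective
      (fun X' : Matrix (Fin n) (Fin n) k[X] => X'.map e₁) := by
    intro X' Y' h
    ext i j : 1
    have := congrFun (congrFun h i) j
    simp only [Matrix.map_apply] at this
    exact e₁.injective this
  have ht : tA.map (Polynomial.map A.subtype) = M * tγ * Mᵀ := by
    apply hinj₀
    show (tA.map (Polynomial.map A.subtype)).map e₀ = (M * tγ * Mᵀ).map e₀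
    have hmul : (M * tγ * Mᵀ).map e₀ = M.map e₀ * tγ.map e₀ * (M.map e₀)ᵀ := by
      rw [← RingEquiv.coe_toRingHom, Matrix.map_mul, Matrix.map_mul, Matrix.transpose_map]
    rw [hmul, hM, htγ, hmap₀, hmap₀, ← htm₀]
    ext i j
    simp only [Matrix.map_apply, Algebra.traceMatrix_apply, Algebra.traceForm_apply]
    exact (htr₀ i j).symm
  have htb : tA.map (Polynomial.map π) = T * tβ * Tᵀ := by
    apply hinj₁
    show (tA.map (Polynomial.map π)).map e₁ = (T * tβ * Tᵀ).map e₁
    have hmul : (T * tβ * Tᵀ).map e₁ = T.map e₁ * tβ.map e₁ * (T.map e₁)ᵀ := by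
      rw [← RingEquiv.coe_toRingHom, Matrix.map_mul, Matrix.map_mul, Matrix.transpose_map]
    rw [hmul, hT, htβ, hmap₁, hmap₁, ← htm₁]
    ext i j
    simp only [Matrix.map_apply, Algebra.traceMatrix_apply, Algebra.traceForm_apply]
    exact (htr₁ i j).symm
  have hNM : N * M = I • (1 : Matrix (Fin n) (Fin n) L[X]) := by
    apply hinj₀
    show (N * M).map e₀ = (I • (1 : Matrix (Fin n) (Fin n) L[X])).map e₀
    rw [← RingEquiv.coe_toRingHom, Matrix.map_mul, RingEquiv.coe_toRingHom, hN, hM, hmap₀, hmap₀,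
      hNM₀]
    ext i j
    simp only [Matrix.smul_apply, Matrix.one_apply, Matrix.map_apply, smul_eq_mul, mul_ite,
      mul_one, mul_zero]
    split_ifs <;> simp
  have hdetmap₀ : ∀ X' : Matrix (Fin n) (Fin n) D₀, (X'.map e₀.symm).det = e₀.symm X'.det := by
    intro X'
    rw [← RingEquiv.coe_toRingHom, ← RingHom.mapMatrix_apply, ← RingHom.map_det]
  have hdetmap₁ : ∀ X' : Matrix (Fin n) (Fin n) D₁, (X'.map e₁.symm).det = e₁.symm X'.det := by
    intro X'
    rw [← RingEquiv.coe_toRingHom, ← RingHom.mapMatrix_apply, ← RingHom.map_det]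
  have hD : tγ.det = X ^ a * e := by
    rw [htγ, hdetmap₀, ← Algebra.discr_def, hdisc₀, RingEquiv.symm_apply_apply]
  have hβ : X ^ a ∣ tβ.det := by
    rw [htβ, hdetmap₁, ← Algebra.discr_def]
    obtain ⟨u, hu⟩ := hdisc₁
    refine ⟨e₁.symm u, ?_⟩
    rw [hu, map_mul, RingEquiv.symm_apply_apply]
  have hdet : (tA.map (Polynomial.map π)).det ≠ 0 := by
    intro h0
    apply hsep
    rw [Algebra.discr_def, htm₁]
    have : (T * tβ * Tᵀ).det = 0 := by rw [← htb]; exact h0
    have h2 : ((T * tβ * Tᵀ).map e₁).det = 0 := by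
      rw [← RingEquiv.coe_toRingHom, ← RingHom.mapMatrix_apply, ← RingHom.map_det, this, map_zero]
    have hmul : (T * tβ * Tᵀ).map e₁ = T.map e₁ * tβ.map e₁ * (T.map e₁)ᵀ := by
      rw [← RingEquiv.coe_toRingHom, Matrix.map_mul, Matrix.map_mul, Matrix.transpose_map]
    rwa [hmul, hT, htβ, hmap₁, hmap₁] at h2
  have hXT : ¬ (X : k[X]) ∣ T.det :=
    cpn_core A π hπ tA M N tγ I ht hNM hI a e hD he T tβ htb hdet hβ
  -- conclusion
  intro y
  refine ⟨T.det, ?_, ?_⟩
  · intro h0
    apply hXT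
    rw [Polynomial.X_dvd_iff, Polynomial.coeff_zero_eq_eval_zero]
    exact h0
  · have hTdet : e₁ T.det = T₁.det := by
      rw [hT, hdetmap₁, RingEquiv.apply_symm_apply]
    refine ⟨fun i => ∑ j, β.repr y j * T₁.adjugate j i, ?_⟩
    rw [hTdet]
    -- `det T₁ • β j = ∑ i, adj j i • b₁ i`
    have hadj : ∀ j, T₁.det • β j = ∑ i, T₁.adjugate j i • b₁ i := by
      intro j
      have hb₁i : ∀ i, b₁ i = ∑ l, T₁ i l • β l := by
        intro i
        simp only [hT₁, Matrix.of_apply]
        exact (β.sum_repr (b₁ i)).symm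
      have : ∑ i, T₁.adjugate j i • b₁ i = ∑ l, (T₁.adjugate * T₁) j l • β l := by
        rw [Finset.sum_congr rfl fun i _ => by rw [hb₁i i, Finset.smul_sum]]
        rw [Finset.sum_comm]
        refine Finset.sum_congr rfl fun l _ => ?_
        rw [Matrix.mul_apply, Finset.sum_smul]
        exact Finset.sum_congr rfl fun i _ => by rw [smul_smul]
      rw [this, Matrix.adjugate_mul]
      simp only [Matrix.smul_apply, Matrix.one_apply, smul_eq_mul, mul_ite, mul_one, mul_zero,
        ite_smul, zero_smul, Finset.sum_ite_eq, Finset.mem_univ, if_true]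
    conv_lhs => rw [← β.sum_repr y, Finset.smul_sum]
    rw [Finset.sum_congr rfl fun j _ => by rw [smul_comm, hadj j, Finset.smul_sum]]
    rw [Finset.sum_comm]
    refine Finset.sum_congr rfl fun i _ => ?_
    rw [Finset.sum_smul]
    exact Finset.sum_congr rfl fun j _ => by rw [smul_smul]

end Fermat.Agent.S18x
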