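/-
S18x/HzCore (helper71): Mathlib-only core of the "Hurwitz via trace-form discriminants" toolkit.

* `hz_pow_dvd_det_of_rows` : if all entries of the rows indexed by `S` are divisible by `π`,
  then `π ^ S.card ∣ det`.
* `hz_dvd_trace_of_pow_eq_smul` : an element of a finite free algebra that is nilpotent modulo `π`
  (`π` prime) has trace divisible by `π`.
* `hz_pow_dvd_discr` : if `z₁ … z_s` are nilpotent modulo `π` and their coordinate vectors are
  linearly independent modulo `π`, then `π ^ s ∣ discr`.
-/
import Mathlib

set_option autoImplicit false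

namespace Fermat.Agent.S18x

open Matrix

section Rows

variable {A : Type*} [CommRing A] {ι : Type*} [Fintype ι] [DecidableEq ι]

/-- rows in `S` divisible by `π` implies `π ^ |S| ∣ det`. -/
theorem hz_pow_dvd_det_of_rows (M : Matrix ι ι A) (π : A) (S : Finset ι)
    (h : ∀ i ∈ S, ∀ j, π ∣ M i j) : π ^ S.card ∣ M.det := by
  classical
  choose! q hq using h
  -- `M = D * M'` with `D` diagonal
  let M' : Matrix ι ι A := fun i j => if i ∈ S then q i j else M i j
  let D : Matrix ι ι A := Matrix.diagonal fun i => if i ∈ S then π else 1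
  have hM : M = D * M' := by
    ext i j
    rw [Matrix.diagonal_mul]
    by_cases hi : i ∈ S
    · simp only [M', hi, if_true]; exact hq i hi j
    · simp only [M', hi, if_false, one_mul]
  rw [hM, Matrix.det_mul, Matrix.det_diagonal]
  have : (∏ i, if i ∈ S then π else 1) = π ^ S.card := by
    rw [Finset.prod_ite_mem, Finset.univ_inter, Finset.prod_const]
  rw [this]
  exact Dvd.intro _ rfl

end Rows

section Trace

variable {A B : Type*} [CommRing A] [CommRing B] [Algebra A B]
variable {ι : Type*} [Fintype ι] [DecidableEq ι]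

/-- an element nilpotent modulo a prime `π` has trace divisible by `π`. -/
theorem hz_dvd_trace_of_pow_eq_smul (b : Module.Basis ι A B) {π : A} (hπ : Prime π)
    (z : B) (m : ℕ) (w : B) (h : z ^ m = π • w) : π ∣ Algebra.trace A B z := by
  classical
  have hprime : (Ideal.span {π}).IsPrime := (Ideal.span_singleton_prime hπ.ne_zero).mpr hπ
  let φ : A →+* A ⧸ Ideal.span {π} := Ideal.Quotient.mk _
  rw [Algebra.trace_eq_matrix_trace b z]
  set M := Algebra.leftMulMatrix b z with hM
  have hpow : M ^ m = π • Algebra.leftMulMatrix b w := by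
    rw [hM, ← map_pow, h, map_smul]
  have hnil : IsNilpotent (M.map φ) := by
    refine ⟨m, ?_⟩
    have : (M.map φ) ^ m = (M ^ m).map φ := by
      rw [← RingHom.mapMatrix_apply, ← map_pow, RingHom.mapMatrix_apply]
    rw [this, hpow]
    ext i j
    simp only [Matrix.map_apply, Matrix.smul_apply, smul_eq_mul, map_mul, Matrix.zero_apply]
    have : φ π = 0 := Ideal.Quotient.eq_zero_iff_mem.mpr (Ideal.mem_span_singleton_self π)
    rw [this, zero_mul]
  have htr : (M.map φ).trace = 0 := (Matrix.isNilpotent_trace_of_isNilpotent hnil).eq_zero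
  have : φ M.trace = 0 := by
    rw [← htr]
    simp [Matrix.trace, Matrix.diag]
  exact Ideal.mem_span_singleton.mp (Ideal.Quotient.eq_zero_iff_mem.mp this)

end Trace

section Extend

open Module

/-- a linearly independent family of `s` vectors in `K^ι` can be completed to an invertible
matrix: there is an injection `g : Fin s → ι` and an invertible `Q` whose column `g l` is `v l`. -/
theorem hz_exists_matrix {K : Type*} [Field K] {ι : Type*} [Fintype ι] [DecidableEq ι] {s : ℕ}
    (v : Fin s → (ι → K)) (hv : LinearIndependent K v) :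
    ∃ (g : Fin s → ι) (Q : Matrix ι ι K), Function.Injective g ∧ Q.det ≠ 0 ∧
      ∀ l i, Q i (g l) = v l i := by
  classical
  have ht : LinearIndepOn K id (Set.range v) := hv.linearIndepOn_id
  let B := Basis.extend ht
  let σ := B.indexEquiv (Pi.basisFun K ι)
  have hmem : ∀ l, v l ∈ ht.extend (Set.subset_univ _) :=
    fun l => ht.subset_extend _ (Set.mem_range_self l)
  refine ⟨fun l => σ ⟨v l, hmem l⟩, fun i j => ((σ.symm j : ι → K)) i, ?_, ?_, ?_⟩
  · intro l l' h
    have := σ.injective h
    exact hv.injective (congrArg Subtype.val this)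
  · have h1 : IsUnit ((Pi.basisFun K ι).det (B.reindex σ)) := (Pi.basisFun K ι).isUnit_det _
    rw [Basis.det_apply] at h1
    have h2 : (Pi.basisFun K ι).toMatrix (B.reindex σ) = fun i j => ((σ.symm j : ι → K)) i := by
      ext i j
      rw [Basis.toMatrix_apply, Pi.basisFun_repr, Basis.reindex_apply, Basis.extend_apply_self]
    rw [h2] at h1
    exact h1.ne_zero
  · intro l i
    simp

end Extend

section Discr

open Module

variable {A B : Type*} [CommRing A] [IsDomain A] [CommRing B] [Algebra A B]
variable {ι : Type*} [Fintype ι] [DecidableEq ι]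

/-- **Discriminant divisibility.**  `A` a domain, `π` a prime element generating a maximal ideal,
`B` a finite free `A`-algebra with basis `b`.  If `z₁ … z_s ∈ B` are nilpotent modulo `π` and their
coordinate vectors are linearly independent modulo `π`, then `π ^ s ∣ discr A b`. -/
theorem hz_pow_dvd_discr (b : Basis ι A B) {π : A} (hπ : Prime π)
    [hmax : (Ideal.span {π}).IsMaximal] {s : ℕ} (z : Fin s → B)
    (hnil : ∀ l, ∃ (m : ℕ) (w : B), z l ^ m = π • w)
    (hind : letI := Ideal.Quotient.field (Ideal.span {π})
      LinearIndependent (A ⧸ Ideal.span {π})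
        (fun l : Fin s => fun i : ι => (Ideal.Quotient.mk (Ideal.span {π}) (b.repr (z l) i)))) :
    π ^ s ∣ Algebra.discr A b := by
  classical
  let _ := Ideal.Quotient.field (Ideal.span {π})
  let φ : A →+* A ⧸ Ideal.span {π} := Ideal.Quotient.mk _
  obtain ⟨g, Q, hg, hQ, hQv⟩ := hz_exists_matrix _ hind
  -- lift `Q` to `P` over `A`, keeping the columns `g l` equal to the coordinates of `z l`
  have hsurj : Function.Surjective φ := Ideal.Quotient.mk_surjective
  let P : Matrix ι ι A := fun i j =>
    if h : ∃ l, g l = j then b.repr (z h.choose) i else Function.surjInv hsurj (Q i j)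
  have hPQ : P.map φ = Q := by
    ext i j
    rw [Matrix.map_apply]
    show φ (if h : ∃ l, g l = j then b.repr (z h.choose) i else Function.surjInv hsurj (Q i j)) = _
    split_ifs with h
    · have h1 := hQv h.choose i
      rw [h.choose_spec] at h1
      exact h1.symm
    · exact Function.surjInv_eq hsurj _
  have hPg : ∀ l i, P i (g l) = b.repr (z l) i := by
    intro l i
    have h : ∃ l', g l' = g l := ⟨l, rfl⟩
    simp only [P, dif_pos h]
    rw [hg h.choose_spec]
  have hdetP : ¬ π ∣ P.det := by
    intro hdvd
    have : φ P.det = 0 :=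
      Ideal.Quotient.eq_zero_iff_mem.mpr (Ideal.mem_span_singleton.mpr hdvd)
    rw [RingHom.map_det, RingHom.mapMatrix_apply, hPQ] at this
    exact hQ this
  -- the new family
  set c : ι → B := b ᵥ* P.map (algebraMap A B) with hc
  have hcg : ∀ l, c (g l) = z l := by
    intro l
    rw [hc]
    simp only [Matrix.vecMul, dotProduct, Matrix.map_apply, hPg]
    conv_rhs => rw [← b.sum_repr (z l)]
    refine Finset.sum_congr rfl fun i _ => ?_
    rw [Algebra.smul_def, mul_comm]
  have hdiscr : Algebra.discr A c = P.det ^ 2 * Algebra.discr A b :=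
    Algebra.discr_of_matrix_vecMul b P
  have hrows : π ^ (Finset.univ.image g).card ∣ (Algebra.traceMatrix A c).det := by
    apply hz_pow_dvd_det_of_rows
    intro i hi j
    obtain ⟨l, -, rfl⟩ := Finset.mem_image.mp hi
    rw [Algebra.traceMatrix_apply, Algebra.traceForm_apply, hcg]
    obtain ⟨m, w, hw⟩ := hnil l
    refine hz_dvd_trace_of_pow_eq_smul b hπ (z l * c j) m (w * c j ^ m) ?_
    rw [mul_pow, hw, smul_mul_assoc]
  rw [Finset.card_image_of_injective _ hg, Finset.card_univ, Fintype.card_fin,
    ← Algebra.discr_def, hdiscr] at hrows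
  refine hπ.pow_dvd_of_dvd_mul_left s ?_ hrows
  exact fun h => hdetP (hπ.dvd_of_dvd_pow h)

end Discr

end Fermat.Agent.S18x
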