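/-
S18x/HzLocal (helper71): local discriminant LOWER BOUND by counting maximal ideals.

`hzl_pow_dvd_discr` : `A` a domain, `π` prime with `(π)` maximal, `B` a finite free `A`-algebra with
basis `b` (rank `n`), all maximal ideals of `B` over `π` have residue field `A/(π)`, and there are
at most `r` of them.  Then `π ^ (n - r) ∣ discr A b`.
(`B` is NOT assumed normal; no tameness; any characteristic.)
-/
import Mathlib
import Fermat.Agent.S18x.HzCore
import Fermat.Agent.S18x.PurxUnitDiscr

set_option autoImplicit false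

namespace Fermat.Agent.S18x

open Module

section L1

variable {A B : Type*} [CommRing A] [CommRing B] [Algebra A B]
variable {ι : Type*} [Fintype ι] [DecidableEq ι]

/-- coordinates in the quotient basis. -/
theorem hzl_quotientBasis_repr (I : Ideal A) (b : Basis ι A B) (x : B) (i : ι) :
    (purx_quotientBasis I b).repr (Ideal.Quotient.mk (I.map (algebraMap A B)) x) i =
      Ideal.Quotient.mk I (b.repr x i) :=
  purx_repr_map (Ideal.Quotient.mk I) (Ideal.Quotient.mk (I.map (algebraMap A B)))
    (fun _ => rfl) b (purx_quotientBasis I b) (fun i => (purx_quotientBasis_apply I b i).symm) x i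

/-- In a finite-dimensional commutative algebra `C` over a field `k` all of whose maximal ideals
have residue field `k`, the nilradical has codimension at most the number of maximal ideals. -/
theorem hzl_finrank_le_nilradical_add {k C : Type*} [Field k] [CommRing C] [Algebra k C]
    [Module.Finite k C] [Fintype (MaximalSpectrum C)]
    (hres : ∀ m : MaximalSpectrum C, ∀ y : C ⧸ m.asIdeal, ∃ c : k, c • (1 : C ⧸ m.asIdeal) = y) :
    finrank k C ≤
      finrank k ((nilradical C).restrictScalars k) + Fintype.card (MaximalSpectrum C) := by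
  classical
  have : IsArtinianRing C := IsArtinianRing.of_finite k C
  let ev : C →ₗ[k] (∀ m : MaximalSpectrum C, C ⧸ m.asIdeal) :=
    LinearMap.pi fun m => (Ideal.Quotient.mkₐ k m.asIdeal).toLinearMap
  have hker : LinearMap.ker ev ≤ (nilradical C).restrictScalars k := by
    intro x hx
    rw [LinearMap.mem_ker] at hx
    rw [Submodule.restrictScalars_mem, nilradical, ← IsArtinianRing.jacobson_eq_radical,
      Ideal.jacobson, Ideal.mem_sInf]
    rintro J ⟨-, hJ⟩
    have := congrFun hx ⟨J, hJ⟩
    simpa [ev, Ideal.Quotient.eq_zero_iff_mem] using this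
  have h1 : finrank k C = finrank k (LinearMap.range ev) + finrank k (LinearMap.ker ev) :=
    (LinearMap.finrank_range_add_finrank_ker ev).symm
  have h2 : finrank k (LinearMap.ker ev) ≤ finrank k ((nilradical C).restrictScalars k) :=
    Submodule.finrank_mono hker
  have h3 : finrank k (LinearMap.range ev) ≤ Fintype.card (MaximalSpectrum C) := by
    refine (Submodule.finrank_le _).trans ?_
    rw [Module.finrank_pi_fintype]
    calc ∑ m : MaximalSpectrum C, finrank k (C ⧸ m.asIdeal)
        ≤ ∑ _m : MaximalSpectrum C, 1 :=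
          Finset.sum_le_sum fun m _ => finrank_le_one (1 : C ⧸ m.asIdeal) (hres m)
      _ = Fintype.card (MaximalSpectrum C) := by simp
  omega

end L1

section L1main

variable {A B : Type*} [CommRing A] [IsDomain A] [CommRing B] [Algebra A B]
variable {ι : Type*} [Fintype ι] [DecidableEq ι]

/-- **Local discriminant lower bound.**  `A` a domain, `π` a prime element generating a maximal
ideal, `B` a finite free `A`-algebra with basis `b`.  Assume every maximal ideal `M` of `B`
containing `π` has residue field `A/(π)` (`hres`), and that any finite set of such maximal ideals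
has at most `r` elements.  Then `π ^ (n - r) ∣ discr A b`, `n = rank`. -/
theorem hzl_pow_dvd_discr (b : Basis ι A B) {π : A} (hπ : Prime π)
    [hmax : (Ideal.span {π}).IsMaximal]
    (hres : ∀ M : Ideal B, M.IsMaximal → algebraMap A B π ∈ M →
      ∀ x : B, ∃ a : A, x - algebraMap A B a ∈ M)
    (r : ℕ)
    (hr : ∀ S : Finset (Ideal B), (∀ M ∈ S, M.IsMaximal ∧ algebraMap A B π ∈ M) → S.card ≤ r) :
    π ^ (Fintype.card ι - r) ∣ Algebra.discr A b := by
  classical
  letI : Field (A ⧸ Ideal.span {π}) := Ideal.Quotient.field (Ideal.span {π})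
  have hfin : Module.Finite (A ⧸ Ideal.span {π})
      (B ⧸ (Ideal.span {π}).map (algebraMap A B)) :=
    Module.Finite.of_basis (purx_quotientBasis (Ideal.span {π}) b)
  have hart : IsArtinianRing (B ⧸ (Ideal.span {π}).map (algebraMap A B)) :=
    IsArtinianRing.of_finite (A ⧸ Ideal.span {π}) _
  have hπJ : algebraMap A B π ∈ (Ideal.span {π}).map (algebraMap A B) :=
    Ideal.mem_map_of_mem _ (Ideal.mem_span_singleton_self π)
  have hJspan : (Ideal.span {π}).map (algebraMap A B) = Ideal.span {algebraMap A B π} := by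
    rw [Ideal.map_span, Set.image_singleton]
  have : Finite (MaximalSpectrum (B ⧸ (Ideal.span {π}).map (algebraMap A B))) := inferInstance
  letI : Fintype (MaximalSpectrum (B ⧸ (Ideal.span {π}).map (algebraMap A B))) :=
    Fintype.ofFinite _
  -- the comap of a maximal ideal of `C`
  let cm : MaximalSpectrum (B ⧸ (Ideal.span {π}).map (algebraMap A B)) → Ideal B :=
    fun m => m.asIdeal.comap (Ideal.Quotient.mk ((Ideal.span {π}).map (algebraMap A B)))
  have hcm_max : ∀ m, (cm m).IsMaximal := fun m =>
    Ideal.comap_isMaximal_of_surjective _ Ideal.Quotient.mk_surjective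
  have hcm_mem : ∀ m, algebraMap A B π ∈ cm m := fun m => by
    show Ideal.Quotient.mk _ (algebraMap A B π) ∈ m.asIdeal
    rw [Ideal.Quotient.eq_zero_iff_mem.mpr hπJ]
    exact zero_mem _
  have hcm_inj : Function.Injective cm := by
    intro m m' h
    have := Ideal.comap_injective_of_surjective _ Ideal.Quotient.mk_surjective h
    exact MaximalSpectrum.ext this
  have hcard : Fintype.card (MaximalSpectrum (B ⧸ (Ideal.span {π}).map (algebraMap A B))) ≤ r := by
    have := hr (Finset.univ.image cm) (by
      intro M hM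
      obtain ⟨m, -, rfl⟩ := Finset.mem_image.mp hM
      exact ⟨hcm_max m, hcm_mem m⟩)
    rwa [Finset.card_image_of_injective _ hcm_inj, Finset.card_univ] at this
  -- residue fields are `k`
  have hresC : ∀ m : MaximalSpectrum (B ⧸ (Ideal.span {π}).map (algebraMap A B)),
      ∀ y : (B ⧸ (Ideal.span {π}).map (algebraMap A B)) ⧸ m.asIdeal,
      ∃ c : A ⧸ Ideal.span {π}, c • (1 : (B ⧸ (Ideal.span {π}).map (algebraMap A B)) ⧸ m.asIdeal)
        = y := by
    intro m y
    obtain ⟨y', rfl⟩ := Ideal.Quotient.mk_surjective y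
    obtain ⟨x, rfl⟩ := Ideal.Quotient.mk_surjective y'
    obtain ⟨a, ha⟩ := hres (cm m) (hcm_max m) (hcm_mem m) x
    refine ⟨Ideal.Quotient.mk _ a, ?_⟩
    have h1 : Ideal.Quotient.mk ((Ideal.span {π}).map (algebraMap A B)) (x - algebraMap A B a)
        ∈ m.asIdeal := ha
    rw [map_sub] at h1
    have h2 : (Ideal.Quotient.mk (Ideal.span {π}) a) •
        (1 : (B ⧸ (Ideal.span {π}).map (algebraMap A B)) ⧸ m.asIdeal) =
        Ideal.Quotient.mk m.asIdeal
          (Ideal.Quotient.mk ((Ideal.span {π}).map (algebraMap A B)) (algebraMap A B a)) := by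
      rw [Algebra.smul_def, mul_one]
      rfl
    rw [h2, eq_comm, Ideal.Quotient.eq]
    exact h1
  have hdim := hzl_finrank_le_nilradical_add (k := A ⧸ Ideal.span {π})
    (C := B ⧸ (Ideal.span {π}).map (algebraMap A B)) hresC
  have hn : finrank (A ⧸ Ideal.span {π}) (B ⧸ (Ideal.span {π}).map (algebraMap A B))
      = Fintype.card ι := by
    rw [Module.finrank_eq_card_basis (purx_quotientBasis (Ideal.span {π}) b)]
  set s := Fintype.card ι - r with hs
  have hsle : s ≤ finrank (A ⧸ Ideal.span {π})
      ((nilradical (B ⧸ (Ideal.span {π}).map (algebraMap A B))).restrictScalars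
        (A ⧸ Ideal.span {π})) := by omega
  obtain ⟨f, hf⟩ := exists_linearIndependent_of_le_finrank hsle
  -- push to `C`
  have hf' : LinearIndependent (A ⧸ Ideal.span {π})
      (fun l => ((f l : (nilradical (B ⧸ (Ideal.span {π}).map (algebraMap A B))).restrictScalars
        (A ⧸ Ideal.span {π})) : B ⧸ (Ideal.span {π}).map (algebraMap A B))) :=
    hf.map' (Submodule.subtype _) (Submodule.ker_subtype _)
  have hnilC : ∀ l, IsNilpotent ((f l : (nilradical
      (B ⧸ (Ideal.span {π}).map (algebraMap A B))).restrictScalars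
        (A ⧸ Ideal.span {π})) : B ⧸ (Ideal.span {π}).map (algebraMap A B)) := fun l =>
    (mem_nilradical).mp ((Submodule.restrictScalars_mem _ _ _).mp (f l).2)
  -- lift to `B`
  have hlift : ∀ l, ∃ z : B, Ideal.Quotient.mk ((Ideal.span {π}).map (algebraMap A B)) z =
      ((f l : (nilradical (B ⧸ (Ideal.span {π}).map (algebraMap A B))).restrictScalars
        (A ⧸ Ideal.span {π})) : B ⧸ (Ideal.span {π}).map (algebraMap A B)) :=
    fun l => Ideal.Quotient.mk_surjective _
  choose z hz using hlift
  refine hz_pow_dvd_discr b hπ z ?_ ?_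
  · intro l
    obtain ⟨m, hm⟩ := hnilC l
    rw [← hz l, ← map_pow, Ideal.Quotient.eq_zero_iff_mem, hJspan,
      Ideal.mem_span_singleton] at hm
    obtain ⟨w, hw⟩ := hm
    exact ⟨m, w, by rw [hw, Algebra.smul_def]⟩
  · have h3 : LinearIndependent (A ⧸ Ideal.span {π}) (fun l =>
        (purx_quotientBasis (Ideal.span {π}) b).equivFun
          (Ideal.Quotient.mk ((Ideal.span {π}).map (algebraMap A B)) (z l))) := by
      have := hf'.map' (purx_quotientBasis (Ideal.span {π}) b).equivFun.toLinearMap
        (LinearEquiv.ker _)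
      have h4 : (fun l => (purx_quotientBasis (Ideal.span {π}) b).equivFun
          (Ideal.Quotient.mk ((Ideal.span {π}).map (algebraMap A B)) (z l))) =
          ((purx_quotientBasis (Ideal.span {π}) b).equivFun.toLinearMap ∘ fun l =>
            ((f l : (nilradical (B ⧸ (Ideal.span {π}).map (algebraMap A B))).restrictScalars
              (A ⧸ Ideal.span {π})) : B ⧸ (Ideal.span {π}).map (algebraMap A B))) := by
        funext l
        rw [hz l]
        rfl
      rw [h4]
      exact this
    convert h3 using 2 with l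
    ext i
    rw [Basis.equivFun_apply]
    exact (hzl_quotientBasis_repr (Ideal.span {π}) b (z l) i).symm

end L1main

section L1cor

variable {A B : Type*} [CommRing A] [IsDomain A] [CommRing B] [Algebra A B]
variable {ι : Type*} [Fintype ι] [DecidableEq ι]

omit [IsDomain A] in
/-- the set of maximal ideals of a finite free algebra over a maximal principal ideal `(π)` is
finite. -/
theorem hzl_finite_maximal_over (b : Basis ι A B) (π : A) [hmax : (Ideal.span {π}).IsMaximal] :
    {M : Ideal B | M.IsMaximal ∧ algebraMap A B π ∈ M}.Finite := by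
  classical
  letI : Field (A ⧸ Ideal.span {π}) := Ideal.Quotient.field (Ideal.span {π})
  have hfin : Module.Finite (A ⧸ Ideal.span {π})
      (B ⧸ (Ideal.span {π}).map (algebraMap A B)) :=
    Module.Finite.of_basis (purx_quotientBasis (Ideal.span {π}) b)
  have hart : IsArtinianRing (B ⧸ (Ideal.span {π}).map (algebraMap A B)) :=
    IsArtinianRing.of_finite (A ⧸ Ideal.span {π}) _
  have hJspan : (Ideal.span {π}).map (algebraMap A B) = Ideal.span {algebraMap A B π} := by
    rw [Ideal.map_span, Set.image_singleton]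
  have : Finite (MaximalSpectrum (B ⧸ (Ideal.span {π}).map (algebraMap A B))) := inferInstance
  let cm : MaximalSpectrum (B ⧸ (Ideal.span {π}).map (algebraMap A B)) → Ideal B :=
    fun m => m.asIdeal.comap (Ideal.Quotient.mk ((Ideal.span {π}).map (algebraMap A B)))
  refine (Set.finite_range cm).subset ?_
  rintro M ⟨hM, hπM⟩
  have hle : (Ideal.span {π}).map (algebraMap A B) ≤ M := by
    rw [hJspan, Ideal.span_le]
    rintro x rfl
    exact hπM
  have hcomap : (M.map (Ideal.Quotient.mk ((Ideal.span {π}).map (algebraMap A B)))).comap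
      (Ideal.Quotient.mk ((Ideal.span {π}).map (algebraMap A B))) = M := by
    rw [Ideal.comap_map_of_surjective _ Ideal.Quotient.mk_surjective, ← RingHom.ker_eq_comap_bot,
      Ideal.mk_ker, sup_eq_left]
    exact hle
  have hmaxq : (M.map (Ideal.Quotient.mk ((Ideal.span {π}).map (algebraMap A B)))).IsMaximal := by
    rcases Ideal.map_eq_top_or_isMaximal_of_surjective
      (Ideal.Quotient.mk ((Ideal.span {π}).map (algebraMap A B))) Ideal.Quotient.mk_surjective hM
      with h | h
    · exfalso
      rw [h, Ideal.comap_top] at hcomap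
      exact hM.ne_top hcomap.symm
    · exact h
  exact ⟨⟨_, hmaxq⟩, hcomap⟩

/-- `hzl_pow_dvd_discr` with the count given as an `ncard`. -/
theorem hzl_pow_dvd_discr_ncard (b : Basis ι A B) {π : A} (hπ : Prime π)
    [hmax : (Ideal.span {π}).IsMaximal]
    (hres : ∀ M : Ideal B, M.IsMaximal → algebraMap A B π ∈ M →
      ∀ x : B, ∃ a : A, x - algebraMap A B a ∈ M)
    (r : ℕ) (hr : {M : Ideal B | M.IsMaximal ∧ algebraMap A B π ∈ M}.ncard ≤ r) :
    π ^ (Fintype.card ι - r) ∣ Algebra.discr A b := by
  classical
  refine hzl_pow_dvd_discr b hπ hres r fun S hS => le_trans ?_ hr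
  rw [← Set.ncard_coe_finset S]
  exact Set.ncard_le_ncard (fun M hM => hS M hM) (hzl_finite_maximal_over b π)

omit [IsDomain A] [DecidableEq ι] in
/-- residue fields over `(π)` are trivial if `A/(π)` is (the image of) an algebraically closed
field `k`. -/
theorem hzl_res_of_isAlgClosed (k : Type*) [Field k] [IsAlgClosed k] [Algebra k A]
    (b : Basis ι A B) (π : A)
    (hk : ∀ a : A, ∃ c : k, a - algebraMap k A c ∈ Ideal.span {π})
    (M : Ideal B) (hM : M.IsMaximal) (hπM : algebraMap A B π ∈ M) (x : B) :
    ∃ a : A, x - algebraMap A B a ∈ M := by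
  classical
  letI : Field (B ⧸ M) := Ideal.Quotient.field M
  let φ : k →+* B ⧸ M := (Ideal.Quotient.mk M).comp ((algebraMap A B).comp (algebraMap k A))
  letI : Algebra k (B ⧸ M) := φ.toAlgebra
  have hφ : ∀ c : k, algebraMap k (B ⧸ M) c =
      Ideal.Quotient.mk M (algebraMap A B (algebraMap k A c)) := fun c => rfl
  -- `B ⧸ M` is spanned over `k` by the images of the basis
  have hmk : ∀ a : A, ∃ c : k, Ideal.Quotient.mk M (algebraMap A B a) = algebraMap k (B ⧸ M) c := by
    intro a
    obtain ⟨c, hc⟩ := hk a
    refine ⟨c, ?_⟩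
    rw [hφ, ← sub_eq_zero, ← map_sub, ← map_sub, Ideal.Quotient.eq_zero_iff_mem]
    obtain ⟨d, hd⟩ := Ideal.mem_span_singleton.mp hc
    rw [hd, map_mul]
    exact M.mul_mem_right _ hπM
  have hspan : (⊤ : Submodule k (B ⧸ M)) ≤
      Submodule.span k (Set.range fun i => Ideal.Quotient.mk M (b i)) := by
    rintro y -
    obtain ⟨x, rfl⟩ := Ideal.Quotient.mk_surjective y
    rw [← b.sum_repr x, map_sum]
    refine Submodule.sum_mem _ fun i _ => ?_
    obtain ⟨c, hc⟩ := hmk (b.repr x i)
    rw [Algebra.smul_def, map_mul, hc, ← Algebra.smul_def]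
    exact Submodule.smul_mem _ _ (Submodule.subset_span ⟨i, rfl⟩)
  have hfin : Module.Finite k (B ⧸ M) :=
    ⟨⟨Finset.univ.image fun i => Ideal.Quotient.mk M (b i), by
      rw [Finset.coe_image, Finset.coe_univ, Set.image_univ]
      exact top_le_iff.mp hspan⟩⟩
  have hint : Algebra.IsIntegral k (B ⧸ M) := Algebra.IsIntegral.of_finite k (B ⧸ M)
  obtain ⟨c, hc⟩ := (IsAlgClosed.algebraMap_bijective_of_isIntegral (k := k) (K := B ⧸ M)).2
    (Ideal.Quotient.mk M x)
  refine ⟨algebraMap k A c, ?_⟩
  rw [← Ideal.Quotient.eq_zero_iff_mem, map_sub, ← hφ, hc, sub_self]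

/-- **(L1), consumer form.**  `k` algebraically closed, `A` a `k`-algebra and a domain, `π ∈ A`
prime with `A = k + (π)`; `B` finite free over `A` with basis `b`.  If at most `r` maximal ideals
of `B` contain `π`, then `π ^ (rank - r) ∣ discr A b`. -/
theorem hzl_pow_dvd_discr_of_isAlgClosed (k : Type*) [Field k] [IsAlgClosed k] [Algebra k A]
    (b : Basis ι A B) {π : A} (hπ : Prime π) [hmax : (Ideal.span {π}).IsMaximal]
    (hk : ∀ a : A, ∃ c : k, a - algebraMap k A c ∈ Ideal.span {π})
    (r : ℕ) (hr : {M : Ideal B | M.IsMaximal ∧ algebraMap A B π ∈ M}.ncard ≤ r) :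
    π ^ (Fintype.card ι - r) ∣ Algebra.discr A b :=
  hzl_pow_dvd_discr_ncard b hπ (fun M hM hπM x => hzl_res_of_isAlgClosed k b π hk M hM hπM x) r hr

end L1cor

end Fermat.Agent.S18x
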