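/-
S18x/HzExact (helper71): exact `π`-adic valuation of a discriminant from a "second order"
nondegeneracy statement (pure linear algebra over a domain `A` with a prime element `π`).
-/
import Mathlib

set_option autoImplicit false

namespace Fermat.Agent.S18x

open Matrix Module

section LA

variable {A B : Type*} [CommRing A] [IsDomain A] [CommRing B] [Algebra A B]
variable {ι : Type*} [Fintype ι] [DecidableEq ι]

/-- **Exact valuation of the discriminant.**  `c = b ᵥ* P` a family with `π ∤ det P`, `Z` a set of
indices such that `Tr(x c_a) ∈ (π)` for `a ∈ Z` and all `x`, and such that any `z` with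
`Tr(z c_a) ∈ (π²)` for `a ∈ Z` and `Tr(z c_a) ∈ (π)` for `a ∉ Z` lies in `π B`.
Then `π ^ |Z|` exactly divides `discr A b`. -/
theorem hzx_exact_of_family (b : Basis ι A B) {π : A} (hπ : Prime π)
    (P : Matrix ι ι A) (hP : ¬ π ∣ P.det) (Z : Finset ι)
    (h1 : ∀ a ∈ Z, ∀ x : B, π ∣ Algebra.trace A B (x * (b ᵥ* P.map (algebraMap A B)) a))
    (h2 : ∀ z : B,
      (∀ a ∈ Z, π ^ 2 ∣ Algebra.trace A B (z * (b ᵥ* P.map (algebraMap A B)) a)) →
      (∀ a, a ∉ Z → π ∣ Algebra.trace A B (z * (b ᵥ* P.map (algebraMap A B)) a)) →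
      ∃ w : B, z = π • w) :
    π ^ Z.card ∣ Algebra.discr A b ∧ ¬ π ^ (Z.card + 1) ∣ Algebra.discr A b := by
  classical
  set c : ι → B := b ᵥ* P.map (algebraMap A B) with hc
  have hprime : (Ideal.span {π}).IsPrime := (Ideal.span_singleton_prime hπ.ne_zero).mpr hπ
  let φ : A →+* A ⧸ Ideal.span {π} := Ideal.Quotient.mk _
  have hφ0 : ∀ a : A, φ a = 0 ↔ π ∣ a := fun a => by
    rw [Ideal.Quotient.eq_zero_iff_mem, Ideal.mem_span_singleton]
  have hsurj : Function.Surjective φ := Ideal.Quotient.mk_surjective
  set Gc := Algebra.traceMatrix A c with hGc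
  have hGc_apply : ∀ a a', Gc a a' = Algebra.trace A B (c a * c a') := fun a a' => by
    rw [hGc, Algebra.traceMatrix_apply, Algebra.traceForm_apply]
  -- divide the columns in `Z` by `π`
  have hdiv : ∀ a a', a' ∈ Z → π ∣ Gc a a' := fun a a' ha' => by
    rw [hGc_apply]; exact h1 a' ha' (c a)
  choose! q hq using hdiv
  let H : Matrix ι ι A := fun a a' => if a' ∈ Z then q a a' else Gc a a'
  let D : Matrix ι ι A := Matrix.diagonal fun a' => if a' ∈ Z then π else 1
  have hGHD : Gc = H * D := by
    ext a a'
    rw [Matrix.mul_diagonal]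
    by_cases ha' : a' ∈ Z
    · simp only [H, ha', if_true]; rw [hq a a' ha', mul_comm]
    · simp only [H, ha', if_false, mul_one]
  have hdetD : D.det = π ^ Z.card := by
    rw [Matrix.det_diagonal, Finset.prod_ite_mem, Finset.univ_inter, Finset.prod_const]
  have hdiscr : P.det ^ 2 * Algebra.discr A b = H.det * π ^ Z.card := by
    rw [← Algebra.discr_of_matrix_vecMul b P, Algebra.discr_def, ← hc, ← hGc, hGHD,
      Matrix.det_mul, hdetD]
  -- the key claim
  have hH : ¬ π ∣ H.det := by
    intro hdvd
    have h0 : (H.map φ).det = 0 := by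
      rw [← RingHom.mapMatrix_apply, ← RingHom.map_det, hφ0]; exact hdvd
    obtain ⟨vbar, hvbar, hv0⟩ := Matrix.exists_vecMul_eq_zero_iff.mpr h0
    let v : ι → A := fun a => Function.surjInv hsurj (vbar a)
    have hv : ∀ a, φ (v a) = vbar a := fun a => Function.surjInv_eq hsurj _
    have hvH : ∀ a', π ∣ ∑ a, v a * H a a' := by
      intro a'
      rw [← hφ0, map_sum]
      have := congrFun hv0 a'
      simp only [Matrix.vecMul, dotProduct, Matrix.map_apply, Pi.zero_apply] at this
      rw [← this]
      refine Finset.sum_congr rfl fun a _ => ?_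
      rw [map_mul, hv]
    set z : B := ∑ a, v a • c a with hz
    have htr : ∀ a', Algebra.trace A B (z * c a') = ∑ a, v a * Gc a a' := by
      intro a'
      rw [hz, Finset.sum_mul, map_sum]
      refine Finset.sum_congr rfl fun a _ => ?_
      rw [smul_mul_assoc, map_smul, smul_eq_mul, hGc_apply]
    obtain ⟨w, hw⟩ := h2 z
      (by
        intro a' ha'
        rw [htr]
        obtain ⟨u, hu⟩ := hvH a'
        refine ⟨u, ?_⟩
        have : ∑ a, v a * Gc a a' = π * ∑ a, v a * H a a' := by
          rw [Finset.mul_sum]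
          refine Finset.sum_congr rfl fun a _ => ?_
          rw [hq a a' ha']
          simp only [H, ha', if_true]
          ring
        rw [this, hu]; ring)
      (by
        intro a' ha'
        rw [htr]
        have : ∑ a, v a * Gc a a' = ∑ a, v a * H a a' := by
          refine Finset.sum_congr rfl fun a _ => ?_
          simp only [H, ha', if_false]
        rw [this]
        exact hvH a')
    -- coordinates of `z`
    have hrepr : ∀ i, b.repr z i = ∑ a, P i a * v a := by
      intro i
      have hci : ∀ a, b.repr (c a) i = P i a := by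
        intro a
        have : c a = ∑ j, P j a • b j := by
          rw [hc]
          simp only [Matrix.vecMul, dotProduct, Matrix.map_apply]
          refine Finset.sum_congr rfl fun j _ => ?_
          rw [Algebra.smul_def, mul_comm]
        rw [this, map_sum, Finsupp.coe_finsetSum, Finset.sum_apply]
        simp [Finsupp.single_apply]
      rw [hz, map_sum, Finsupp.coe_finsetSum, Finset.sum_apply]
      refine Finset.sum_congr rfl fun a _ => ?_
      rw [map_smul, Finsupp.smul_apply, hci, smul_eq_mul, mul_comm]
    have hPv : (P.map φ) *ᵥ vbar = 0 := by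
      ext i
      simp only [Matrix.mulVec, dotProduct, Matrix.map_apply, Pi.zero_apply]
      have : ∑ a, φ (P i a) * vbar a = φ (b.repr z i) := by
        rw [hrepr, map_sum]
        refine Finset.sum_congr rfl fun a _ => ?_
        rw [map_mul, hv]
      rw [this, hφ0, hw, map_smul, Finsupp.smul_apply, smul_eq_mul]
      exact Dvd.intro _ rfl
    have hdetP : (P.map φ).det ≠ 0 := by
      rw [← RingHom.mapMatrix_apply, ← RingHom.map_det, Ne, hφ0]; exact hP
    exact hvbar (Matrix.eq_zero_of_mulVec_eq_zero hdetP hPv)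
  have hP2 : ¬ π ∣ P.det ^ 2 := fun h => hP (hπ.dvd_of_dvd_pow h)
  constructor
  · refine hπ.pow_dvd_of_dvd_mul_left _ hP2 ?_
    rw [hdiscr]
    exact Dvd.intro_left _ rfl
  · intro hdvd
    have : π ^ (Z.card + 1) ∣ H.det * π ^ Z.card := by
      rw [← hdiscr]
      exact Dvd.dvd.mul_left hdvd _
    rw [pow_succ, mul_comm (H.det)] at this
    exact hH ((mul_dvd_mul_iff_left (pow_ne_zero _ hπ.ne_zero)).mp this)

end LA

end Fermat.Agent.S18x
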