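/-
S18x/HzExactRad (helper71): exact valuation of the discriminant at `π` in terms of the dimension of
the nilradical of the fibre `B / π B`, given the second-order nondegeneracy of the trace form on the
radical of `π B`.
-/
import Mathlib
import Fermat.Agent.S18x.HzCore
import Fermat.Agent.S18x.HzLocal
import Fermat.Agent.S18x.HzExact
import Fermat.Agent.S18x.PurxUnitDiscr

set_option autoImplicit false

namespace Fermat.Agent.S18x

open Matrix Module

section Aux

variable {A B : Type*} [CommRing A] [CommRing B] [Algebra A B]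
variable {ι : Type*} [Fintype ι] [DecidableEq ι]

/-- coordinates of a combination of the family `b ᵥ* P`. -/
theorem hzx_repr_sum_vecMul (b : Basis ι A B) (P : Matrix ι ι A) (v : ι → A) (i : ι) :
    b.repr (∑ a, v a • (b ᵥ* P.map (algebraMap A B)) a) i = (P *ᵥ v) i := by
  have hci : ∀ a, b.repr ((b ᵥ* P.map (algebraMap A B)) a) i = P i a := by
    intro a
    have : (b ᵥ* P.map (algebraMap A B)) a = ∑ j, P j a • b j := by
      simp only [Matrix.vecMul, dotProduct, Matrix.map_apply]
      refine Finset.sum_congr rfl fun j _ => ?_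
      rw [Algebra.smul_def, mul_comm]
    rw [this, map_sum, Finsupp.coe_finsetSum, Finset.sum_apply]
    simp [Finsupp.single_apply]
  rw [map_sum, Finsupp.coe_finsetSum, Finset.sum_apply]
  simp only [Matrix.mulVec, dotProduct]
  refine Finset.sum_congr rfl fun a _ => ?_
  rw [map_smul, Finsupp.smul_apply, hci, smul_eq_mul, mul_comm]

/-- Cramer: `det P • x` is a combination of the family `b ᵥ* P`. -/
theorem hzx_det_smul_eq_sum (b : Basis ι A B) (P : Matrix ι ι A) (x : B) :
    P.det • x = ∑ a, (P.adjugate *ᵥ (fun i => b.repr x i)) a • (b ᵥ* P.map (algebraMap A B)) a := by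
  apply b.repr.injective
  ext i
  rw [hzx_repr_sum_vecMul, Matrix.mulVec_mulVec, Matrix.mul_adjugate, Matrix.smul_mulVec,
    Matrix.one_mulVec, map_smul, Finsupp.smul_apply, Pi.smul_apply]

/-- if `π ∤ det P` and `(π)` is maximal, then `B = span (b ᵥ* P) + π B`. -/
theorem hzx_exists_sum_add (b : Basis ι A B) (P : Matrix ι ι A) (π : A)
    [hmax : (Ideal.span {π}).IsMaximal] (hP : ¬ π ∣ P.det) (x : B) :
    ∃ (β : ι → A) (x' : B), x = ∑ a, β a • (b ᵥ* P.map (algebraMap A B)) a + π • x' := by
  have hP' : P.det ∉ Ideal.span {π} := fun h => hP (Ideal.mem_span_singleton.mp h)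
  obtain ⟨u, i, hi, hui⟩ := hmax.exists_inv hP'
  obtain ⟨t, rfl⟩ := Ideal.mem_span_singleton.mp hi
  refine ⟨fun a => u * (P.adjugate *ᵥ (fun i => b.repr x i)) a, t • x, ?_⟩
  have h1 : x = (u * P.det + π * t) • x := by rw [hui, one_smul]
  conv_lhs => rw [h1]
  rw [add_smul, mul_smul, hzx_det_smul_eq_sum b P x, Finset.smul_sum, mul_smul]
  congr 1
  refine Finset.sum_congr rfl fun a _ => ?_
  rw [mul_smul]

end Aux

section Rad

variable {A B : Type*} [CommRing A] [IsDomain A] [CommRing B] [Algebra A B]
variable {ι : Type*} [Fintype ι] [DecidableEq ι]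

/-- **Exact valuation from the radical.**  `s` = dimension of the nilradical of the fibre
`B / π B`; if every `z` with `Tr(z x) ∈ (π²)` for all `x` nilpotent modulo `π` lies in `π B`, then
`π ^ s` exactly divides the discriminant. -/
theorem hzx_exact_of_radical (b : Basis ι A B) {π : A} (hπ : Prime π)
    [hmax : (Ideal.span {π}).IsMaximal]
    (h2 : ∀ z : B, (∀ x : B, (∃ (m : ℕ) (w : B), x ^ m = π • w) →
      π ^ 2 ∣ Algebra.trace A B (z * x)) → ∃ w : B, z = π • w)
    (s : ℕ)
    (hs : letI := Ideal.Quotient.field (Ideal.span {π});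
      finrank (A ⧸ Ideal.span {π})
        ((nilradical (B ⧸ (Ideal.span {π}).map (algebraMap A B))).restrictScalars
          (A ⧸ Ideal.span {π})) = s) :
    π ^ s ∣ Algebra.discr A b ∧ ¬ π ^ (s + 1) ∣ Algebra.discr A b := by
  classical
  letI : Field (A ⧸ Ideal.span {π}) := Ideal.Quotient.field (Ideal.span {π})
  let φ : A →+* A ⧸ Ideal.span {π} := Ideal.Quotient.mk _
  have hsurj : Function.Surjective φ := Ideal.Quotient.mk_surjective
  have hφ0 : ∀ a : A, φ a = 0 ↔ π ∣ a := fun a => by
    rw [Ideal.Quotient.eq_zero_iff_mem, Ideal.mem_span_singleton]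
  have hfin : Module.Finite (A ⧸ Ideal.span {π})
      (B ⧸ (Ideal.span {π}).map (algebraMap A B)) :=
    Module.Finite.of_basis (purx_quotientBasis (Ideal.span {π}) b)
  have hJspan : (Ideal.span {π}).map (algebraMap A B) = Ideal.span {algebraMap A B π} := by
    rw [Ideal.map_span, Set.image_singleton]
  have hmk0 : ∀ y : B, Ideal.Quotient.mk ((Ideal.span {π}).map (algebraMap A B)) y = 0 →
      ∃ w : B, y = π • w := by
    intro y hy
    rw [Ideal.Quotient.eq_zero_iff_mem, hJspan, Ideal.mem_span_singleton] at hy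
    obtain ⟨w, hw⟩ := hy
    exact ⟨w, by rw [hw, Algebra.smul_def]⟩
  have hmkπ : ∀ w : B, Ideal.Quotient.mk ((Ideal.span {π}).map (algebraMap A B)) (π • w) = 0 := by
    intro w
    rw [Ideal.Quotient.eq_zero_iff_mem, hJspan, Ideal.mem_span_singleton, Algebra.smul_def]
    exact Dvd.intro _ rfl
  -- a basis of the nilradical
  let f := Module.finBasisOfFinrankEq (A ⧸ Ideal.span {π})
    ((nilradical (B ⧸ (Ideal.span {π}).map (algebraMap A B))).restrictScalars
      (A ⧸ Ideal.span {π})) hs
  have hf' : LinearIndependent (A ⧸ Ideal.span {π})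
      (fun l => ((f l : (nilradical (B ⧸ (Ideal.span {π}).map (algebraMap A B))).restrictScalars
        (A ⧸ Ideal.span {π})) : B ⧸ (Ideal.span {π}).map (algebraMap A B))) :=
    f.linearIndependent.map' (Submodule.subtype _) (Submodule.ker_subtype _)
  have hnilC : ∀ l, IsNilpotent ((f l : (nilradical
      (B ⧸ (Ideal.span {π}).map (algebraMap A B))).restrictScalars
        (A ⧸ Ideal.span {π})) : B ⧸ (Ideal.span {π}).map (algebraMap A B)) := fun l =>
    (mem_nilradical).mp ((Submodule.restrictScalars_mem _ _ _).mp (f l).2)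
  have hlift : ∀ l, ∃ z : B, Ideal.Quotient.mk ((Ideal.span {π}).map (algebraMap A B)) z =
      ((f l : (nilradical (B ⧸ (Ideal.span {π}).map (algebraMap A B))).restrictScalars
        (A ⧸ Ideal.span {π})) : B ⧸ (Ideal.span {π}).map (algebraMap A B)) :=
    fun l => Ideal.Quotient.mk_surjective _
  choose z hz using hlift
  have hznil : ∀ l, ∃ (m : ℕ) (w : B), z l ^ m = π • w := by
    intro l
    obtain ⟨m, hm⟩ := hnilC l
    rw [← hz l, ← map_pow] at hm
    obtain ⟨w, hw⟩ := hmk0 _ hm
    exact ⟨m, w, hw⟩
  have hind : LinearIndependent (A ⧸ Ideal.span {π})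
      (fun l : Fin s => fun i : ι => φ (b.repr (z l) i)) := by
    have h3 : LinearIndependent (A ⧸ Ideal.span {π}) (fun l =>
        (purx_quotientBasis (Ideal.span {π}) b).equivFun
          (Ideal.Quotient.mk ((Ideal.span {π}).map (algebraMap A B)) (z l))) := by
      have := hf'.map' (purx_quotientBasis (Ideal.span {π}) b).equivFun.toLinearMap
        (LinearEquiv.ker _)
      have h4 : (fun l => (purx_quotientBasis (Ideal.span {π}) b).equivFun
          (Ideal.Quotient.mk ((Ideal.span {π}).map (algebraMap A B)) (z l))) =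
          ((purx_quotientBasis (Ideal.span {π}) b).equivFun.toLinearMap ∘ fun l =>
            ((f l : (nilradical (B ⧸ (Ideal.span {π}).map (algebraMap A B))).restrictScalars
              (A ⧸ Ideal.span {π})) : B ⧸ (Ideal.span {π}).map (algebraMap A B))) := by
        funext l
        rw [hz l]
        rfl
      rw [h4]
      exact this
    convert h3 using 2 with l
    ext i
    rw [Basis.equivFun_apply]
    exact (hzl_quotientBasis_repr (Ideal.span {π}) b (z l) i).symm
  obtain ⟨g, Q, hg, hQ, hQv⟩ := hz_exists_matrix _ hind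
  let P : Matrix ι ι A := fun i j =>
    if h : ∃ l, g l = j then b.repr (z h.choose) i else Function.surjInv hsurj (Q i j)
  have hPQ : P.map φ = Q := by
    ext i j
    rw [Matrix.map_apply]
    show φ (if h : ∃ l, g l = j then b.repr (z h.choose) i else Function.surjInv hsurj (Q i j)) = _
    split_ifs with h
    · have h1 := hQv h.choose i
      rw [h.choose_spec] at h1
      exact h1.symm
    · exact Function.surjInv_eq hsurj _
  have hPg : ∀ l i, P i (g l) = b.repr (z l) i := by
    intro l i
    have h : ∃ l', g l' = g l := ⟨l, rfl⟩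
    simp only [P, dif_pos h]
    rw [hg h.choose_spec]
  have hdetP : ¬ π ∣ P.det := by
    intro hdvd
    have : φ P.det = 0 := (hφ0 _).mpr hdvd
    rw [RingHom.map_det, RingHom.mapMatrix_apply, hPQ] at this
    exact hQ this
  have hcg : ∀ l, (b ᵥ* P.map (algebraMap A B)) (g l) = z l := by
    intro l
    simp only [Matrix.vecMul, dotProduct, Matrix.map_apply, hPg]
    conv_rhs => rw [← b.sum_repr (z l)]
    refine Finset.sum_congr rfl fun i _ => ?_
    rw [Algebra.smul_def, mul_comm]
  have hcard : (Finset.univ.image g).card = s := by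
    rw [Finset.card_image_of_injective _ hg, Finset.card_univ, Fintype.card_fin]
  rw [← hcard]
  refine hzx_exact_of_family b hπ P hdetP (Finset.univ.image g) ?_ ?_
  · intro a ha x
    obtain ⟨l, -, rfl⟩ := Finset.mem_image.mp ha
    rw [hcg]
    obtain ⟨m, w, hw⟩ := hznil l
    refine hz_dvd_trace_of_pow_eq_smul b hπ (x * z l) m (x ^ m * w) ?_
    rw [mul_pow, hw, mul_smul_comm]
  · intro z0 hZ hnZ
    have hall : ∀ a, π ∣ Algebra.trace A B (z0 * (b ᵥ* P.map (algebraMap A B)) a) := by
      intro a
      by_cases ha : a ∈ Finset.univ.image g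
      · exact (dvd_pow_self π two_ne_zero).trans (hZ a ha)
      · exact hnZ a ha
    apply h2 z0
    rintro x ⟨m, w, hxw⟩
    -- `x̄` lies in the nilradical
    have hxnil : Ideal.Quotient.mk ((Ideal.span {π}).map (algebraMap A B)) x ∈
        (nilradical (B ⧸ (Ideal.span {π}).map (algebraMap A B))).restrictScalars
          (A ⧸ Ideal.span {π}) := by
      rw [Submodule.restrictScalars_mem, mem_nilradical]
      exact ⟨m, by rw [← map_pow, hxw, hmkπ]⟩
    have hrep := f.sum_repr ⟨_, hxnil⟩
    have hα : ∀ l, ∃ α : A, φ α = f.repr ⟨_, hxnil⟩ l := fun l => hsurj _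
    choose α hα' using hα
    have hx1 : Ideal.Quotient.mk ((Ideal.span {π}).map (algebraMap A B))
        (x - ∑ l, α l • z l) = 0 := by
      rw [map_sub, sub_eq_zero, map_sum]
      have h5 := congrArg (Submodule.subtype _) hrep
      simp only [map_sum, map_smul, Submodule.subtype_apply] at h5
      rw [← h5]
      refine Finset.sum_congr rfl fun l _ => ?_
      rw [← hα' l, ← hz l, Algebra.smul_def, Algebra.smul_def (α l) (z l), map_mul]
      rfl
    obtain ⟨x1, hx1'⟩ := hmk0 _ hx1
    obtain ⟨β, x2, hx2⟩ := hzx_exists_sum_add b P π hdetP x1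
    have hx : x = ∑ l, α l • z l + π • (∑ a, β a • (b ᵥ* P.map (algebraMap A B)) a + π • x2) := by
      rw [← hx2, ← hx1']; ring
    rw [hx, mul_add, map_add]
    refine dvd_add ?_ ?_
    · rw [Finset.mul_sum, map_sum]
      refine Finset.dvd_sum fun l _ => ?_
      rw [mul_smul_comm, map_smul, smul_eq_mul, ← hcg l]
      exact Dvd.dvd.mul_left (hZ (g l) (Finset.mem_image_of_mem g (Finset.mem_univ l))) _
    · rw [mul_smul_comm, map_smul, smul_eq_mul, pow_two, mul_add, map_add]
      refine mul_dvd_mul_left π (dvd_add ?_ ?_)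
      · rw [Finset.mul_sum, map_sum]
        refine Finset.dvd_sum fun a _ => ?_
        rw [mul_smul_comm, map_smul, smul_eq_mul]
        exact Dvd.dvd.mul_left (hall a) _
      · rw [mul_smul_comm, map_smul, smul_eq_mul]
        exact Dvd.intro _ rfl

end Rad

end Fermat.Agent.S18x
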