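/-
S18x/HzTame (helper71): the tame second-order nondegeneracy of the trace form for a Dedekind
domain `B` finite free over `A`, and the resulting EXACT valuation of the discriminant at `π`.
-/
import Mathlib
import Fermat.Agent.S18x.HzCore
import Fermat.Agent.S18x.HzLocal
import Fermat.Agent.S18x.HzExact
import Fermat.Agent.S18x.HzExactRad
import Fermat.Agent.S18x.PurxUnitDiscr

set_option autoImplicit false

namespace Fermat.Agent.S18x

open Matrix Module

section IdemTrace

/-- in a finite-dimensional commutative algebra over a field, an element `x` with `x (1 - x)`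
nilpotent and `x` not nilpotent has trace `d • 1` for some `1 ≤ d ≤ dim`. -/
theorem hztm_trace_idem_like {k C : Type*} [Field k] [CommRing C] [Algebra k C]
    [Module.Finite k C] (x : C) (h1 : IsNilpotent (x * (1 - x))) (h2 : ¬ IsNilpotent x) :
    ∃ d : ℕ, 0 < d ∧ d ≤ finrank k C ∧ Algebra.trace k C x = (d : k) := by
  classical
  -- lift the idempotent `x mod nilradical`
  let f : C →+* C ⧸ nilradical C := Ideal.Quotient.mk _
  have hker : ∀ y ∈ RingHom.ker f, IsNilpotent y := by
    intro y hy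
    rw [RingHom.mem_ker, Ideal.Quotient.eq_zero_iff_mem, mem_nilradical] at hy
    exact hy
  have hidem : IsIdempotentElem (f x) := by
    have : f (x * (1 - x)) = 0 := by
      rw [Ideal.Quotient.eq_zero_iff_mem, mem_nilradical]; exact h1
    rw [map_mul, map_sub, map_one, mul_sub, mul_one, sub_eq_zero] at this
    exact this.symm
  obtain ⟨e, he, hfe⟩ := exists_isIdempotentElem_eq_of_ker_isNilpotent f hker (f x)
    ⟨x, rfl⟩ hidem
  have hdiff : IsNilpotent (x - e) := by
    apply hker
    rw [RingHom.mem_ker, map_sub, hfe, sub_self]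
  have he0 : e ≠ 0 := by
    rintro rfl
    rw [sub_zero] at hdiff
    exact h2 hdiff
  -- trace of the nilpotent part
  have htr0 : Algebra.trace k C (x - e) = 0 := by
    rw [Algebra.trace_apply]
    refine (LinearMap.isNilpotent_trace_of_isNilpotent ?_).eq_zero
    obtain ⟨m, hm⟩ := hdiff
    refine ⟨m, ?_⟩
    rw [← map_pow, hm, map_zero]
  -- trace of the idempotent
  have hE : IsIdempotentElem (Algebra.lmul k C e) := by
    rw [IsIdempotentElem, ← map_mul, he.eq]
  have hproj := LinearMap.IsIdempotentElem.isProj_range (Algebra.lmul k C e) hE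
  have htre : Algebra.trace k C e = (finrank k (LinearMap.range (Algebra.lmul k C e)) : k) := by
    rw [Algebra.trace_apply]
    exact hproj.trace
  refine ⟨finrank k (LinearMap.range (Algebra.lmul k C e)), ?_, Submodule.finrank_le _, ?_⟩
  · rw [Module.finrank_pos_iff_exists_ne_zero]
    refine ⟨⟨e, ⟨1, by simp⟩⟩, ?_⟩
    intro h
    exact he0 (congrArg Subtype.val h)
  · have : x = e + (x - e) := by ring
    rw [this, map_add, htr0, add_zero, htre]

end IdemTrace

section Lifted

variable {A B : Type*} [CommRing A] [IsDomain A] [CommRing B] [Algebra A B]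
variable {ι : Type*} [Fintype ι] [DecidableEq ι]

omit [IsDomain A] in
/-- `ε ∈ B` with `ε (1 - ε)` nilpotent modulo `π` and `ε` not nilpotent modulo `π` has trace not
divisible by `π`, provided no integer `1 ≤ d ≤ rank` is divisible by `π` (tameness). -/
theorem hztm_not_dvd_trace (b : Basis ι A B) {π : A}
    [hmax : (Ideal.span {π}).IsMaximal]
    (htame : ∀ d : ℕ, 0 < d → d ≤ Fintype.card ι → ¬ π ∣ (d : A))
    (ε : B) (h1 : ∃ (m : ℕ) (w : B), (ε * (1 - ε)) ^ m = π • w)
    (h2 : ¬ ∃ (m : ℕ) (w : B), ε ^ m = π • w) :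
    ¬ π ∣ Algebra.trace A B ε := by
  classical
  letI : Field (A ⧸ Ideal.span {π}) := Ideal.Quotient.field (Ideal.span {π})
  let φ : A →+* A ⧸ Ideal.span {π} := Ideal.Quotient.mk _
  have hφ0 : ∀ a : A, φ a = 0 ↔ π ∣ a := fun a => by
    rw [Ideal.Quotient.eq_zero_iff_mem, Ideal.mem_span_singleton]
  have hfin : Module.Finite (A ⧸ Ideal.span {π})
      (B ⧸ (Ideal.span {π}).map (algebraMap A B)) :=
    Module.Finite.of_basis (purx_quotientBasis (Ideal.span {π}) b)
  have hJspan : (Ideal.span {π}).map (algebraMap A B) = Ideal.span {algebraMap A B π} := by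
    rw [Ideal.map_span, Set.image_singleton]
  have hmk0 : ∀ y : B, Ideal.Quotient.mk ((Ideal.span {π}).map (algebraMap A B)) y = 0 →
      ∃ w : B, y = π • w := by
    intro y hy
    rw [Ideal.Quotient.eq_zero_iff_mem, hJspan, Ideal.mem_span_singleton] at hy
    obtain ⟨w, hw⟩ := hy
    exact ⟨w, by rw [hw, Algebra.smul_def]⟩
  have hmkπ : ∀ w : B, Ideal.Quotient.mk ((Ideal.span {π}).map (algebraMap A B)) (π • w) = 0 := by
    intro w
    rw [Ideal.Quotient.eq_zero_iff_mem, hJspan, Ideal.mem_span_singleton, Algebra.smul_def]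
    exact Dvd.intro _ rfl
  set x := Ideal.Quotient.mk ((Ideal.span {π}).map (algebraMap A B)) ε with hx
  have hx1 : IsNilpotent (x * (1 - x)) := by
    obtain ⟨m, w, hw⟩ := h1
    refine ⟨m, ?_⟩
    rw [hx, ← map_one (Ideal.Quotient.mk ((Ideal.span {π}).map (algebraMap A B))), ← map_sub,
      ← map_mul, ← map_pow, hw, hmkπ]
  have hx2 : ¬ IsNilpotent x := by
    rintro ⟨m, hm⟩
    rw [hx, ← map_pow] at hm
    obtain ⟨w, hw⟩ := hmk0 _ hm
    exact h2 ⟨m, w, hw⟩
  obtain ⟨d, hd0, hdn, hd⟩ := hztm_trace_idem_like (k := A ⧸ Ideal.span {π}) x hx1 hx2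
  rw [Module.finrank_eq_card_basis (purx_quotientBasis (Ideal.span {π}) b)] at hdn
  have htr : Algebra.trace (A ⧸ Ideal.span {π}) (B ⧸ (Ideal.span {π}).map (algebraMap A B)) x =
      φ (Algebra.trace A B ε) :=
    purx_trace_map (Ideal.Quotient.mk (Ideal.span {π}))
      (Ideal.Quotient.mk ((Ideal.span {π}).map (algebraMap A B)))
      (fun _ => rfl) b (purx_quotientBasis (Ideal.span {π}) b)
      (fun i => (purx_quotientBasis_apply (Ideal.span {π}) b i).symm) ε
  intro hdvd
  have h0 : φ (Algebra.trace A B ε) = 0 := (hφ0 _).mpr hdvd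
  rw [← htr, hd] at h0
  have : φ (d : A) = 0 := by rw [map_natCast]; exact h0
  exact htame d hd0 hdn ((hφ0 _).mp this)

end Lifted

section Dedekind

variable {A B : Type*} [CommRing A] [IsDomain A] [CommRing B] [IsDedekindDomain B]
variable [Algebra A B]
variable {ι : Type*} [Fintype ι] [DecidableEq ι]

/-- **Tame second-order nondegeneracy.**  `B` a Dedekind domain, finite free over the domain `A`,
`π ∈ A` prime with `(π)` maximal, no integer `1 ≤ d ≤ rank` divisible by `π`.  If `Tr(z x) ∈ (π²)`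
for every `x` nilpotent modulo `π`, then `z ∈ π B`. -/
theorem hztm_second_order (b : Basis ι A B) {π : A} (hπ : Prime π)
    [hmax : (Ideal.span {π}).IsMaximal]
    (htame : ∀ d : ℕ, 0 < d → d ≤ Fintype.card ι → ¬ π ∣ (d : A)) :
    ∀ z : B, (∀ x : B, (∃ (m : ℕ) (w : B), x ^ m = π • w) →
      π ^ 2 ∣ Algebra.trace A B (z * x)) → ∃ w : B, z = π • w := by
  classical
  intro z hz
  set Pi : Ideal B := Ideal.span {algebraMap A B π} with hPi
  set J : Ideal B := Pi.radical with hJ
  have hJmem : ∀ x, x ∈ J ↔ ∃ (m : ℕ) (w : B), x ^ m = π • w := by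
    intro x
    rw [hJ, Ideal.mem_radical_iff]
    constructor
    · rintro ⟨m, hm⟩
      obtain ⟨w, hw⟩ := Ideal.mem_span_singleton.mp hm
      exact ⟨m, w, by rw [hw, Algebra.smul_def]⟩
    · rintro ⟨m, w, hw⟩
      refine ⟨m, ?_⟩
      rw [hw, Algebra.smul_def]
      exact Ideal.mem_span_singleton.mpr (Dvd.intro _ rfl)
  have hJtr : ∀ x ∈ J, π ∣ Algebra.trace A B x := by
    intro x hx
    obtain ⟨m, w, hw⟩ := (hJmem x).mp hx
    exact hz_dvd_trace_of_pow_eq_smul b hπ x m w hw
  -- the ideal `𝔞`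
  let 𝔞 : Ideal B :=
    { carrier := {z | ∀ x ∈ J, π ^ 2 ∣ Algebra.trace A B (z * x)}
      zero_mem' := by intro x _; simp
      add_mem' := by
        intro z1 z2 h1 h2 x hx
        rw [add_mul, map_add]
        exact dvd_add (h1 x hx) (h2 x hx)
      smul_mem' := by
        intro y z1 h1 x hx
        have := h1 (y * x) (J.mul_mem_left y hx)
        rwa [mul_left_comm, ← mul_assoc] at this }
  have h𝔞mem : ∀ z1, z1 ∈ 𝔞 ↔ ∀ x ∈ J, π ^ 2 ∣ Algebra.trace A B (z1 * x) := fun _ => Iff.rfl
  have hPile : Pi ≤ 𝔞 := by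
    intro z1 hz1 x hx
    obtain ⟨y, rfl⟩ := Ideal.mem_span_singleton.mp hz1
    rw [mul_assoc, ← Algebra.smul_def, map_smul, smul_eq_mul, pow_two]
    exact mul_dvd_mul_left π (hJtr _ (J.mul_mem_left y hx))
  have hz𝔞 : z ∈ 𝔞 := fun x hx => hz x ((hJmem x).mp hx)
  suffices h𝔞Pi : 𝔞 ≤ Pi by
    obtain ⟨w, hw⟩ := Ideal.mem_span_singleton.mp (h𝔞Pi hz𝔞)
    exact ⟨w, by rw [hw, Algebra.smul_def]⟩
  by_contra hcontra
  have hπB : algebraMap A B π ≠ 0 := by
    intro h
    have h1 : π • (1 : B) = 0 := by rw [Algebra.smul_def, mul_one, h]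
    have h2 := congrArg b.repr h1
    rw [map_smul, map_zero, smul_eq_zero] at h2
    rcases h2 with h2 | h2
    · exact hπ.ne_zero h2
    · exact one_ne_zero (b.repr.map_eq_zero_iff.mp h2)
  have hPi0 : Pi ≠ ⊥ := by
    rw [hPi, Ne, Ideal.span_singleton_eq_bot]; exact hπB
  obtain ⟨𝔡, h𝔡⟩ : 𝔞 ∣ Pi := Ideal.dvd_iff_le.mpr hPile
  have h𝔡top : 𝔡 ≠ ⊤ := by
    rintro rfl
    rw [Ideal.mul_top] at h𝔡
    exact hcontra (h𝔡 ▸ le_rfl)
  obtain ⟨M, hM, h𝔡M⟩ := Ideal.exists_le_maximal 𝔡 h𝔡top
  obtain ⟨𝔡', h𝔡'⟩ : M ∣ 𝔡 := Ideal.dvd_iff_le.mpr h𝔡M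
  have h𝔟𝔞 : 𝔞 * 𝔡' ≤ 𝔞 := Ideal.mul_le_left
  have hPi𝔟 : Pi = 𝔞 * 𝔡' * M := by rw [h𝔡, h𝔡', mul_comm M 𝔡', mul_assoc]
  have hPiM : Pi ≤ M := by rw [hPi𝔟]; exact Ideal.mul_le_right
  have hJM : J ≤ M := hM.isPrime.radical_le_iff.mpr hPiM
  obtain ⟨𝔠, h𝔠⟩ : M ∣ J := Ideal.dvd_iff_le.mpr hJM
  have hJ0 : J ≠ ⊥ := ne_bot_of_le_ne_bot hPi0 Ideal.le_radical
  have h𝔠M : ¬ 𝔠 ≤ M := by
    intro hle
    obtain ⟨𝔠', h𝔠'⟩ : M ∣ 𝔠 := Ideal.dvd_iff_le.mpr hle
    have hJX : J = M * (M * 𝔠') := by rw [h𝔠, h𝔠']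
    have hXJ : M * 𝔠' ≤ J := by
      intro x hx
      have hxx : x * x ∈ (M * 𝔠') * (M * 𝔠') := Ideal.mul_mem_mul hx hx
      have hXX : (M * 𝔠') * (M * 𝔠') ≤ J := by
        calc (M * 𝔠') * (M * 𝔠') = (M * (M * 𝔠')) * 𝔠' := by ring
          _ ≤ M * (M * 𝔠') := Ideal.mul_le_left
          _ = J := hJX.symm
      have hrad : J.radical = J := Ideal.radical_idem Pi
      rw [← hrad]
      exact ⟨2, by rw [pow_two]; exact hXX hxx⟩
    have hX0 : M * 𝔠' ≠ ⊥ := by
      intro h
      rw [hJX, h, Ideal.mul_bot] at hJ0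
      exact hJ0 rfl
    obtain ⟨Y, hY⟩ : M * (M * 𝔠') ∣ M * 𝔠' := Ideal.dvd_iff_le.mpr (hJX ▸ hXJ)
    have h1 : (M * 𝔠') * 1 = (M * 𝔠') * (M * Y) := by
      rw [mul_one]
      conv_lhs => rw [hY]
      ring
    have h2 := mul_left_cancel₀ hX0 h1
    have h3 : (1 : Ideal B) ≤ M := by rw [h2]; exact Ideal.mul_le_left
    exact hM.ne_top (top_le_iff.mp (Ideal.one_eq_top (R := B) ▸ h3))
  have hsup : M ⊔ 𝔠 = ⊤ := by
    by_contra hne
    have := hM.eq_of_le hne le_sup_left
    exact h𝔠M (this ▸ le_sup_right)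
  obtain ⟨μ, hμ, ε, hε, hsum⟩ := Submodule.mem_sup.mp ((Ideal.eq_top_iff_one _).mp hsup)
  have hεM : ∀ x ∈ M, x * ε ∈ J := fun x hx => h𝔠 ▸ Ideal.mul_mem_mul hx hε
  have hεnot : ε ∉ M := fun h =>
    hM.ne_top ((Ideal.eq_top_iff_one _).mpr (hsum ▸ M.add_mem hμ h))
  have hεtr : ¬ π ∣ Algebra.trace A B ε := by
    apply hztm_not_dvd_trace b htame ε
    · have : ε * (1 - ε) = μ * ε := by rw [← hsum]; ring
      rw [this]
      exact (hJmem _).mp (hεM μ hμ)
    · intro h
      exact hεnot (hJM ((hJmem ε).mpr h))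
  apply hεtr
  have hmem : algebraMap A B π ∈ 𝔞 * 𝔡' * M := hPi𝔟 ▸ Ideal.mem_span_singleton_self _
  have key : ∀ y ∈ 𝔞 * 𝔡' * M, π ^ 2 ∣ Algebra.trace A B (y * ε) := by
    intro y hy
    refine Submodule.mul_induction_on hy ?_ ?_
    · intro β hβ μ' hμ'
      have := h𝔟𝔞 hβ (μ' * ε) (hεM μ' hμ')
      rwa [← mul_assoc] at this
    · intro y1 y2 h1 h2
      rw [add_mul, map_add]
      exact dvd_add h1 h2
  have h4 := key _ hmem
  rw [← Algebra.smul_def, map_smul, smul_eq_mul, pow_two] at h4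
  exact (mul_dvd_mul_iff_left hπ.ne_zero).mp h4

end Dedekind

section Count

/-- In a finite-dimensional commutative algebra `C` over a field `k`, the nilradical has
codimension at least the number of maximal ideals. -/
theorem hztm_nilradical_add_le_finrank {k C : Type*} [Field k] [CommRing C] [Algebra k C]
    [Module.Finite k C] [Fintype (MaximalSpectrum C)] :
    finrank k ((nilradical C).restrictScalars k) + Fintype.card (MaximalSpectrum C) ≤
      finrank k C := by
  classical
  have : IsArtinianRing C := IsArtinianRing.of_finite k C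
  let ev : C →ₗ[k] (∀ m : MaximalSpectrum C, C ⧸ m.asIdeal) :=
    LinearMap.pi fun m => (Ideal.Quotient.mkₐ k m.asIdeal).toLinearMap
  have hker : (nilradical C).restrictScalars k ≤ LinearMap.ker ev := by
    intro x hx
    rw [Submodule.restrictScalars_mem, mem_nilradical] at hx
    rw [LinearMap.mem_ker]
    funext m
    have hprime : m.asIdeal.IsPrime := m.isMaximal.isPrime
    obtain ⟨n, hn⟩ := hx
    have : x ∈ m.asIdeal := hprime.mem_of_pow_mem n (hn ▸ zero_mem _)
    simpa [ev, Ideal.Quotient.eq_zero_iff_mem] using this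
  have hsurj : Function.Surjective ev := by
    intro y
    obtain ⟨u, hu⟩ := Ideal.quotientInfToPiQuotient_surj
      (I := fun m : MaximalSpectrum C => m.asIdeal) (fun I J h => I.isCoprime_of_ne h) y
    obtain ⟨x, rfl⟩ := Ideal.Quotient.mk_surjective u
    refine ⟨x, ?_⟩
    rw [← hu]
    rfl
  have h1 : finrank k C = finrank k (LinearMap.range ev) + finrank k (LinearMap.ker ev) :=
    (LinearMap.finrank_range_add_finrank_ker ev).symm
  have h2 : finrank k ((nilradical C).restrictScalars k) ≤ finrank k (LinearMap.ker ev) :=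
    Submodule.finrank_mono hker
  have h3 : Fintype.card (MaximalSpectrum C) ≤ finrank k (LinearMap.range ev) := by
    rw [LinearMap.range_eq_top.mpr hsurj, finrank_top, Module.finrank_pi_fintype]
    calc Fintype.card (MaximalSpectrum C) = ∑ _m : MaximalSpectrum C, 1 := by simp
      _ ≤ ∑ m : MaximalSpectrum C, finrank k (C ⧸ m.asIdeal) := by
          refine Finset.sum_le_sum fun m _ => ?_
          have : Nontrivial (C ⧸ m.asIdeal) :=
            Ideal.Quotient.nontrivial_iff.mpr m.isMaximal.ne_top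
          exact Module.finrank_pos
  omega

end Count

section Final

variable {A B : Type*} [CommRing A] [IsDomain A] [CommRing B] [IsDedekindDomain B]
variable [Algebra A B]
variable {ι : Type*} [Fintype ι] [DecidableEq ι]

/-- **Tame upper bound.**  `B` a Dedekind domain, finite free over the domain `A` with basis `b`,
`π ∈ A` prime with `(π)` maximal, no integer `1 ≤ d ≤ rank` divisible by `π` (e.g. residue
characteristic zero).  If there are at least `r` maximal ideals of `B` containing `π`, then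
`π ^ (rank - r + 1) ∤ discr A b`. -/
theorem hztm_not_pow_succ_dvd_discr (b : Basis ι A B) {π : A} (hπ : Prime π)
    [hmax : (Ideal.span {π}).IsMaximal]
    (htame : ∀ d : ℕ, 0 < d → d ≤ Fintype.card ι → ¬ π ∣ (d : A))
    (r : ℕ) (S : Finset (Ideal B)) (hS : ∀ M ∈ S, M.IsMaximal ∧ algebraMap A B π ∈ M)
    (hr : r ≤ S.card) :
    ¬ π ^ (Fintype.card ι - r + 1) ∣ Algebra.discr A b := by
  classical
  letI : Field (A ⧸ Ideal.span {π}) := Ideal.Quotient.field (Ideal.span {π})
  have hfin : Module.Finite (A ⧸ Ideal.span {π})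
      (B ⧸ (Ideal.span {π}).map (algebraMap A B)) :=
    Module.Finite.of_basis (purx_quotientBasis (Ideal.span {π}) b)
  have hart : IsArtinianRing (B ⧸ (Ideal.span {π}).map (algebraMap A B)) :=
    IsArtinianRing.of_finite (A ⧸ Ideal.span {π}) _
  have hJspan : (Ideal.span {π}).map (algebraMap A B) = Ideal.span {algebraMap A B π} := by
    rw [Ideal.map_span, Set.image_singleton]
  have : Finite (MaximalSpectrum (B ⧸ (Ideal.span {π}).map (algebraMap A B))) := inferInstance
  letI : Fintype (MaximalSpectrum (B ⧸ (Ideal.span {π}).map (algebraMap A B))) :=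
    Fintype.ofFinite _
  -- every element of `S` gives a maximal ideal of the fibre
  have hle : ∀ M ∈ S, (Ideal.span {π}).map (algebraMap A B) ≤ M := by
    intro M hM
    rw [hJspan, Ideal.span_le]
    rintro x rfl
    exact (hS M hM).2
  have hcomap : ∀ M ∈ S,
      (M.map (Ideal.Quotient.mk ((Ideal.span {π}).map (algebraMap A B)))).comap
        (Ideal.Quotient.mk ((Ideal.span {π}).map (algebraMap A B))) = M := by
    intro M hM
    rw [Ideal.comap_map_of_surjective _ Ideal.Quotient.mk_surjective, ← RingHom.ker_eq_comap_bot,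
      Ideal.mk_ker, sup_eq_left]
    exact hle M hM
  have hmaxq : ∀ M ∈ S,
      (M.map (Ideal.Quotient.mk ((Ideal.span {π}).map (algebraMap A B)))).IsMaximal := by
    intro M hM
    rcases Ideal.map_eq_top_or_isMaximal_of_surjective
      (Ideal.Quotient.mk ((Ideal.span {π}).map (algebraMap A B))) Ideal.Quotient.mk_surjective
      (hS M hM).1 with h | h
    · exfalso
      have h1 := hcomap M hM
      rw [h, Ideal.comap_top] at h1
      exact (hS M hM).1.ne_top h1.symm
    · exact h
  have hcard : S.card ≤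
      Fintype.card (MaximalSpectrum (B ⧸ (Ideal.span {π}).map (algebraMap A B))) := by
    let g : S → MaximalSpectrum (B ⧸ (Ideal.span {π}).map (algebraMap A B)) :=
      fun M => ⟨_, hmaxq M.1 M.2⟩
    have hg : Function.Injective g := by
      intro M M' h
      have h1 : (M.1.map (Ideal.Quotient.mk ((Ideal.span {π}).map (algebraMap A B)))) =
          (M'.1.map (Ideal.Quotient.mk ((Ideal.span {π}).map (algebraMap A B)))) :=
        congrArg MaximalSpectrum.asIdeal h
      apply Subtype.ext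
      rw [← hcomap M.1 M.2, ← hcomap M'.1 M'.2, h1]
    have := Fintype.card_le_of_injective g hg
    rwa [Fintype.card_coe] at this
  have hcount := hztm_nilradical_add_le_finrank (k := A ⧸ Ideal.span {π})
    (C := B ⧸ (Ideal.span {π}).map (algebraMap A B))
  rw [Module.finrank_eq_card_basis (purx_quotientBasis (Ideal.span {π}) b)] at hcount
  obtain ⟨-, hnot⟩ := hzx_exact_of_radical b hπ (hztm_second_order b hπ htame) _ rfl
  intro hdvd
  apply hnot
  refine (pow_dvd_pow π ?_).trans hdvd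
  omega

/-- **Exact valuation of the discriminant at a tame prime.**  As above, with all residue fields
over `π` equal to `A/(π)` and exactly `r` maximal ideals of `B` containing `π`:
`π ^ (rank - r)` exactly divides `discr A b`. -/
theorem hztm_discr_exact (b : Basis ι A B) {π : A} (hπ : Prime π)
    [hmax : (Ideal.span {π}).IsMaximal]
    (htame : ∀ d : ℕ, 0 < d → d ≤ Fintype.card ι → ¬ π ∣ (d : A))
    (hres : ∀ M : Ideal B, M.IsMaximal → algebraMap A B π ∈ M →
      ∀ x : B, ∃ a : A, x - algebraMap A B a ∈ M)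
    (r : ℕ) (hr : {M : Ideal B | M.IsMaximal ∧ algebraMap A B π ∈ M}.ncard = r) :
    π ^ (Fintype.card ι - r) ∣ Algebra.discr A b ∧
      ¬ π ^ (Fintype.card ι - r + 1) ∣ Algebra.discr A b := by
  classical
  refine ⟨hzl_pow_dvd_discr_ncard b hπ hres r hr.le, ?_⟩
  have hfinite := hzl_finite_maximal_over b π
  refine hztm_not_pow_succ_dvd_discr b hπ htame r hfinite.toFinset ?_ ?_
  · intro M hM
    exact (Set.Finite.mem_toFinset hfinite).mp hM
  · rw [← hr, Set.ncard_eq_toFinset_card _ hfinite]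

end Final

section FinalAlgClosed

variable {A B : Type*} [CommRing A] [IsDomain A] [CommRing B] [IsDedekindDomain B]
variable [Algebra A B]
variable {ι : Type*} [Fintype ι] [DecidableEq ι]

omit [IsDomain A] in
/-- tameness is automatic over a field of characteristic zero. -/
theorem hztm_tame_of_charZero (k : Type*) [Field k] [CharZero k] [Algebra k A] {π : A}
    (hπ : Prime π) (d : ℕ) (hd : 0 < d) : ¬ π ∣ (d : A) := by
  intro hdvd
  have hu : IsUnit ((d : k)) := IsUnit.mk0 _ (Nat.cast_ne_zero.mpr hd.ne')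
  have hu' : IsUnit ((d : A)) := by
    have := hu.map (algebraMap k A)
    rwa [map_natCast] at this
  exact hπ.not_isUnit (isUnit_of_dvd_unit hdvd hu')

/-- **(L2), consumer form.**  `k` algebraically closed of characteristic zero, `A` a `k`-algebra
and a domain, `π ∈ A` prime with `(π)` maximal and `A = k + (π)`; `B` a Dedekind domain, finite
free over `A` with basis `b`.  If exactly `r` maximal ideals of `B` contain `π`, then
`π ^ (rank - r)` exactly divides `discr A b`. -/
theorem hztm_discr_exact_of_isAlgClosed (k : Type*) [Field k] [IsAlgClosed k] [CharZero k]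
    [Algebra k A] (b : Basis ι A B) {π : A} (hπ : Prime π) [hmax : (Ideal.span {π}).IsMaximal]
    (hk : ∀ a : A, ∃ c : k, a - algebraMap k A c ∈ Ideal.span {π})
    (r : ℕ) (hr : {M : Ideal B | M.IsMaximal ∧ algebraMap A B π ∈ M}.ncard = r) :
    π ^ (Fintype.card ι - r) ∣ Algebra.discr A b ∧
      ¬ π ^ (Fintype.card ι - r + 1) ∣ Algebra.discr A b :=
  hztm_discr_exact b hπ (fun d hd _ => hztm_tame_of_charZero k hπ d hd)
    (fun M hM hπM x => hzl_res_of_isAlgClosed k b π hk M hM hπM x) r hr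

end FinalAlgClosed

end Fermat.Agent.S18x
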