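/-
S18x/HzPoly (helper71): consumer forms of the local discriminant bounds over a polynomial ring
`K[X]` at the prime `X - C ρ` (`K` algebraically closed).

* `hzp_pow_dvd_discr` (any characteristic, `B` any finite free `K[X]`-algebra):
  at most `r` maximal ideals over `X - C ρ`  ⟹  `(X - C ρ) ^ (n - r) ∣ discr`.
* `hzp_discr_eq_pow_mul` (characteristic zero, `B` Dedekind): exactly `r` maximal ideals over
  `X - C ρ`  ⟹  `discr = (X - C ρ) ^ (n - r) * u` with `(X - C ρ) ∤ u`.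
* `hztm_discr_eq_pow_mul` : the same conclusion shape in the abstract setting of `HzTame`.
-/
import Mathlib
import Fermat.Agent.S18x.HzLocal
import Fermat.Agent.S18x.HzTame

set_option autoImplicit false

namespace Fermat.Agent.S18x

open Module Polynomial

section Shape

variable {A : Type*} [CommRing A]

/-- `π ^ s ∣ d` and `¬ π ^ (s+1) ∣ d` repackaged as `d = π ^ s * u`, `π ∤ u`. -/
theorem hzp_eq_pow_mul_of_exact {π d : A} {s : ℕ} (h1 : π ^ s ∣ d) (h2 : ¬ π ^ (s + 1) ∣ d) :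
    ∃ u : A, ¬ π ∣ u ∧ d = π ^ s * u := by
  obtain ⟨u, hu⟩ := h1
  refine ⟨u, ?_, hu⟩
  rintro ⟨v, rfl⟩
  apply h2
  rw [hu, pow_succ, ← mul_assoc]
  exact Dvd.intro _ rfl

end Shape

section Abstract

variable {A B : Type*} [CommRing A] [IsDomain A] [CommRing B] [IsDedekindDomain B]
variable [Algebra A B]
variable {ι : Type*} [Fintype ι] [DecidableEq ι]

/-- `hztm_discr_exact` in the shape `discr = π ^ (n - r) * u`, `π ∤ u`. -/
theorem hztm_discr_eq_pow_mul (b : Basis ι A B) {π : A} (hπ : Prime π)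
    [hmax : (Ideal.span {π}).IsMaximal]
    (htame : ∀ d : ℕ, 0 < d → d ≤ Fintype.card ι → ¬ π ∣ (d : A))
    (hres : ∀ M : Ideal B, M.IsMaximal → algebraMap A B π ∈ M →
      ∀ x : B, ∃ a : A, x - algebraMap A B a ∈ M)
    (r : ℕ) (hr : {M : Ideal B | M.IsMaximal ∧ algebraMap A B π ∈ M}.ncard = r) :
    ∃ u : A, ¬ π ∣ u ∧ Algebra.discr A b = π ^ (Fintype.card ι - r) * u := by
  obtain ⟨h1, h2⟩ := hztm_discr_exact b hπ htame hres r hr
  exact hzp_eq_pow_mul_of_exact h1 h2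

end Abstract

section Poly

variable {K : Type*} [Field K]

theorem hzp_prime (ρ : K) : Prime (X - C ρ : K[X]) := prime_X_sub_C ρ

theorem hzp_isMaximal (ρ : K) : (Ideal.span {(X - C ρ : K[X])}).IsMaximal :=
  PrincipalIdealRing.isMaximal_of_irreducible (irreducible_X_sub_C ρ)

theorem hzp_hk (ρ : K) (a : K[X]) :
    ∃ c : K, a - algebraMap K K[X] c ∈ Ideal.span {(X - C ρ : K[X])} := by
  refine ⟨a.eval ρ, ?_⟩
  rw [Ideal.mem_span_singleton, Polynomial.algebraMap_eq]
  exact X_sub_C_dvd_sub_C_eval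

variable {B : Type*} [CommRing B] [Algebra K[X] B]
variable {ι : Type*} [Fintype ι] [DecidableEq ι]

/-- **(L1) over `K[X]`**, any characteristic, `B` not necessarily normal. -/
theorem hzp_pow_dvd_discr [IsAlgClosed K] (b : Basis ι K[X] B) (ρ : K) (r : ℕ)
    (hr : {M : Ideal B | M.IsMaximal ∧ algebraMap K[X] B (X - C ρ) ∈ M}.ncard ≤ r) :
    (X - C ρ : K[X]) ^ (Fintype.card ι - r) ∣ Algebra.discr K[X] b :=
  haveI := hzp_isMaximal ρ
  hzl_pow_dvd_discr_of_isAlgClosed K b (hzp_prime ρ) (hzp_hk ρ) r hr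

end Poly

section PolyDedekind

variable {K : Type*} [Field K]
variable {B : Type*} [CommRing B] [IsDedekindDomain B] [Algebra K[X] B]
variable {ι : Type*} [Fintype ι] [DecidableEq ι]

/-- **(L2) over `K[X]`**, characteristic zero, `B` Dedekind: exact valuation. -/
theorem hzp_discr_exact [IsAlgClosed K] [CharZero K] (b : Basis ι K[X] B) (ρ : K) (r : ℕ)
    (hr : {M : Ideal B | M.IsMaximal ∧ algebraMap K[X] B (X - C ρ) ∈ M}.ncard = r) :
    (X - C ρ : K[X]) ^ (Fintype.card ι - r) ∣ Algebra.discr K[X] b ∧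
      ¬ (X - C ρ : K[X]) ^ (Fintype.card ι - r + 1) ∣ Algebra.discr K[X] b :=
  haveI := hzp_isMaximal ρ
  hztm_discr_exact_of_isAlgClosed K b (hzp_prime ρ) (hzp_hk ρ) r hr

/-- **(L2) over `K[X]`** in the shape `discr = (X - C ρ) ^ (n - r) * u`, `(X - C ρ) ∤ u`. -/
theorem hzp_discr_eq_pow_mul [IsAlgClosed K] [CharZero K] (b : Basis ι K[X] B) (ρ : K) (r : ℕ)
    (hr : {M : Ideal B | M.IsMaximal ∧ algebraMap K[X] B (X - C ρ) ∈ M}.ncard = r) :
    ∃ u : K[X], ¬ (X - C ρ) ∣ u ∧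
      Algebra.discr K[X] b = (X - C ρ) ^ (Fintype.card ι - r) * u := by
  obtain ⟨h1, h2⟩ := hzp_discr_exact b ρ r hr
  exact hzp_eq_pow_mul_of_exact h1 h2

/-- unramified case: if there are `n = rank` maximal ideals over `X - C ρ`, then `ρ` is not a root
of the discriminant. -/
theorem hzp_discr_eval_ne_zero [IsAlgClosed K] [CharZero K] (b : Basis ι K[X] B) (ρ : K)
    (hr : {M : Ideal B | M.IsMaximal ∧ algebraMap K[X] B (X - C ρ) ∈ M}.ncard = Fintype.card ι) :
    (Algebra.discr K[X] b).eval ρ ≠ 0 := by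
  obtain ⟨-, h2⟩ := hzp_discr_exact b ρ _ hr
  rw [Nat.sub_self, zero_add, pow_one, dvd_iff_isRoot] at h2
  exact h2

end PolyDedekind

end Fermat.Agent.S18x
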