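/-
S18x/HzPlaces (helper71): the count bridge "maximal ideals of a Dedekind model containing `s`"
= "places at which `s` vanishes", in the Prelude `Place` API, and the local discriminant bounds of
`HzLocal`/`HzTame` restated with PLACE COUNTS for `ringA K x ⊆ ringB K x`.
-/
import Mathlib
import Fermat.Agent.S24x.FundIdentity
import Fermat.Agent.S24x.PlacePrime
import Fermat.Agent.S24x.PlaceBasic
import Fermat.Agent.S18x.HzLocal
import Fermat.Agent.S18x.HzTame
import Fermat.Agent.S18x.HzPoly

set_option autoImplicit false

namespace Fermat.Agent.S18x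

open AlgebraicCurve IsDedekindDomain
open Fermat.Agent.S24x

section Generic

variable {K F : Type*} [Field K] [Field F] [Algebra K F]
variable {S : Type*} [CommRing S] [IsDedekindDomain S] [Algebra S F] [IsFractionRing S F]
  [Algebra K S] [IsScalarTower K S F]

/-- **Count bridge.**  `S` a Dedekind domain with fraction field `F`, `s ≠ 0` in `S` such that
every place of `F/K` at which `s` vanishes contains `S`.  Then the maximal ideals of `S` containing
`s` are in bijection with the places at which `s` vanishes. -/
theorem hzb_ncard_maximal_eq (s : S) (hs : s ≠ 0)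
    (hS : ∀ v : Place K F, 0 < v.ord (algebraMap S F s) →
      ∀ t : S, algebraMap S F t ∈ v.toValuationSubring) :
    {M : Ideal S | M.IsMaximal ∧ s ∈ M}.ncard =
      {v : Place K F | 0 < v.ord (algebraMap S F s)}.ncard := by
  classical
  -- step 1: maximal ideals containing `s` ↔ height one primes containing `s`
  have h1 : {M : Ideal S | M.IsMaximal ∧ s ∈ M} =
      HeightOneSpectrum.asIdeal '' {w : HeightOneSpectrum S | s ∈ w.asIdeal} := by
    ext M
    constructor
    · rintro ⟨hM, hsM⟩
      have hMbot : M ≠ ⊥ := by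
        rintro rfl
        exact hs ((Ideal.mem_bot).mp hsM)
      exact ⟨⟨M, hM.isPrime, hMbot⟩, hsM, rfl⟩
    · rintro ⟨w, hw, rfl⟩
      exact ⟨w.isMaximal, hw⟩
  have hinj1 : Function.Injective (HeightOneSpectrum.asIdeal (R := S)) := by
    intro w w' h
    exact HeightOneSpectrum.ext h
  -- step 2: height one primes containing `s` ↔ places where `s` vanishes
  have h2 : {v : Place K F | 0 < v.ord (algebraMap S F s)} =
      (Place.ofHeightOneSpectrum (K := K) (F := F) (R := S)) ''
        {w : HeightOneSpectrum S | s ∈ w.asIdeal} := by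
    ext v
    constructor
    · intro hv
      obtain ⟨w, rfl⟩ := fid_exists_heightOneSpectrum (K := K) (F := F) (S := S) v (hS v hv)
      exact ⟨w, (fid_mem_asIdeal_iff (K := K) w hs).mpr hv, rfl⟩
    · rintro ⟨w, hw, rfl⟩
      exact (fid_mem_asIdeal_iff (K := K) w hs).mp hw
  rw [h1, h2, Set.ncard_image_of_injective _ hinj1,
    Set.ncard_image_of_injective _ (fid_ofHeightOneSpectrum_injective (K := K) (F := F) (S := S))]

end Generic

section RingAB

open Polynomial Module

variable {K F : Type*} [Field K] [Field F] [Algebra K F]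
variable (x : F) [hx : FFData K F x]

/-- the element `x - c` of `ringA K x = K[x]`. -/
noncomputable def hzb_lin (c : K) : ringA K x := genA K x - algebraMap K (ringA K x) c

omit hx in
@[simp] theorem hzb_coe_lin (c : K) : ((hzb_lin x c : ringA K x) : F) = x - algebraMap K F c := rfl

theorem hzb_lin_eq (c : K) :
    hzb_lin x c = Polynomial.algEquivOfTranscendental K x hx.transc (X - C c) := by
  rw [Polynomial.algEquivOfTranscendental_apply, map_sub, aeval_X, aeval_C]
  rfl

theorem hzb_prime_lin (c : K) : Prime (hzb_lin x c) := by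
  rw [hzb_lin_eq]
  exact (MulEquiv.prime_iff
    (Polynomial.algEquivOfTranscendental K x hx.transc).toMulEquiv).mpr (prime_X_sub_C c)

theorem hzb_isMaximal_lin (c : K) : (Ideal.span {hzb_lin x c}).IsMaximal :=
  PrincipalIdealRing.isMaximal_of_irreducible (hzb_prime_lin x c).irreducible

theorem hzb_hk (c : K) (a : ringA K x) :
    ∃ c' : K, a - algebraMap K (ringA K x) c' ∈ Ideal.span {hzb_lin x c} := by
  obtain ⟨p, rfl⟩ := (Polynomial.algEquivOfTranscendental K x hx.transc).surjective a
  refine ⟨p.eval c, ?_⟩
  rw [Ideal.mem_span_singleton, hzb_lin_eq]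
  have h1 : (X - C c : K[X]) ∣ p - C (p.eval c) := X_sub_C_dvd_sub_C_eval
  obtain ⟨q, hq⟩ := h1
  refine ⟨Polynomial.algEquivOfTranscendental K x hx.transc q, ?_⟩
  rw [← map_mul, ← hq, map_sub]
  congr 1
  rw [Polynomial.algEquivOfTranscendental_apply, aeval_C]

end RingAB

section Count

variable {K F : Type*} [Field K] [Field F] [Algebra K F]
variable (x : F) [hx : FFData K F x]

omit hx in
/-- a place over `x = c` contains `x`. -/
theorem hzb_mem_of_placesOver {c : K} {v : Place K F} (hv : v ∈ placesOver K F x c) :
    x ∈ v.toValuationSubring := by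
  have hne : x - algebraMap K F c ≠ 0 := by
    intro h0
    rw [mem_placesOver, h0, Place.ord_zero] at hv
    exact lt_irrefl _ hv
  have h1 : x - algebraMap K F c ∈ v.toValuationSubring :=
    (pb_mem_iff v hne).mpr (le_of_lt hv)
  have h2 : algebraMap K F c ∈ v.toValuationSubring := v.algebraMap_mem' c
  have : x = (x - algebraMap K F c) + algebraMap K F c := by ring
  rw [this]
  exact v.toValuationSubring.add_mem _ _ h1 h2

/-- **Count bridge for `ringB`.**  The maximal ideals of `ringB K x` containing `x - c` are in
bijection with the places over `x = c`. -/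
theorem hzb_ncard_ringB [IsDedekindDomain (ringB K x)] (c : K) :
    {M : Ideal (ringB K x) | M.IsMaximal ∧
      algebraMap (ringA K x) (ringB K x) (hzb_lin x c) ∈ M}.ncard = (placesOver K F x c).ncard := by
  have hs : algebraMap (ringA K x) (ringB K x) (hzb_lin x c) ≠ 0 := by
    intro h0
    have h1 : ((algebraMap (ringA K x) (ringB K x) (hzb_lin x c) : ringB K x) : F) = 0 := by
      rw [h0]; rfl
    have h2 : ((hzb_lin x c : ringA K x) : F) = 0 := h1
    exact (hzb_prime_lin x c).ne_zero (Subtype.ext h2)
  have hcoe : algebraMap (ringB K x) F (algebraMap (ringA K x) (ringB K x) (hzb_lin x c)) =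
      x - algebraMap K F c := rfl
  have := hzb_ncard_maximal_eq (K := K) (F := F) (S := ringB K x)
    (algebraMap (ringA K x) (ringB K x) (hzb_lin x c)) hs (by
      intro v hv t
      rw [hcoe] at hv
      exact ringB_mem_place x v (hzb_mem_of_placesOver x hv) t)
  rw [this, hcoe]
  rfl

end Count

section Discr

open Module

variable {K F : Type*} [Field K] [Field F] [Algebra K F]
variable (x : F) [hx : FFData K F x]
variable {ι : Type*} [Fintype ι] [DecidableEq ι]

/-- **(L1) with place counts**: `K` algebraically closed (any characteristic), `ringB K x`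
Dedekind (e.g. `x` a separating coordinate).  For any basis `b` of `ringB` over `ringA = K[x]`:
`(x - c) ^ (n - #{places over x = c}) ∣ discr`. -/
theorem hzb_pow_dvd_discr [IsAlgClosed K] [IsDedekindDomain (ringB K x)]
    (b : Basis ι (ringA K x) (ringB K x)) (c : K) :
    hzb_lin x c ^ (Fintype.card ι - (placesOver K F x c).ncard) ∣
      Algebra.discr (ringA K x) b :=
  haveI := hzb_isMaximal_lin x c
  hzl_pow_dvd_discr_of_isAlgClosed K b (hzb_prime_lin x c) (hzb_hk x c) _
    (hzb_ncard_ringB x c).le

/-- **(L2) with place counts**: `K` algebraically closed of characteristic zero.  For any basis `b`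
of `ringB` over `ringA = K[x]`, `(x - c) ^ (n - #{places over x = c})` EXACTLY divides `discr`. -/
theorem hzb_discr_exact [IsAlgClosed K] [CharZero K] [IsDedekindDomain (ringB K x)]
    (b : Basis ι (ringA K x) (ringB K x)) (c : K) :
    hzb_lin x c ^ (Fintype.card ι - (placesOver K F x c).ncard) ∣ Algebra.discr (ringA K x) b ∧
      ¬ hzb_lin x c ^ (Fintype.card ι - (placesOver K F x c).ncard + 1) ∣
        Algebra.discr (ringA K x) b :=
  haveI := hzb_isMaximal_lin x c
  hztm_discr_exact_of_isAlgClosed K b (hzb_prime_lin x c) (hzb_hk x c) _ (hzb_ncard_ringB x c)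

end Discr

section DiscrPoly

open Module Polynomial

variable {K F : Type*} [Field K] [Field F] [Algebra K F]
variable (x : F) [hx : FFData K F x]
variable {ι : Type*} [Fintype ι] [DecidableEq ι]

/-- the discriminant of a `K[x]`-basis of `ringB`, read as a polynomial in `K[X]`. -/
noncomputable def hzb_discrPoly (b : Basis ι (ringA K x) (ringB K x)) : K[X] :=
  (Polynomial.algEquivOfTranscendental K x hx.transc).symm (Algebra.discr (ringA K x) b)

theorem hzb_aeval_discrPoly (b : Basis ι (ringA K x) (ringB K x)) :
    Polynomial.aeval (genA K x) (hzb_discrPoly x b) = Algebra.discr (ringA K x) b := by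
  have := (Polynomial.algEquivOfTranscendental K x hx.transc).apply_symm_apply
    (Algebra.discr (ringA K x) b)
  rw [Polynomial.algEquivOfTranscendental_apply] at this
  exact this

theorem hzb_pow_dvd_discrPoly_iff (b : Basis ι (ringA K x) (ringB K x)) (c : K) (m : ℕ) :
    (X - C c : K[X]) ^ m ∣ hzb_discrPoly x b ↔
      hzb_lin x c ^ m ∣ Algebra.discr (ringA K x) b := by
  rw [hzb_lin_eq, ← map_pow, hzb_discrPoly]
  constructor
  · intro h
    have := map_dvd (Polynomial.algEquivOfTranscendental K x hx.transc) h
    rwa [AlgEquiv.apply_symm_apply] at this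
  · intro h
    have := map_dvd (Polynomial.algEquivOfTranscendental K x hx.transc).symm h
    rwa [AlgEquiv.symm_apply_apply] at this

/-- (L1), polynomial form with place counts. -/
theorem hzb_pow_dvd_discrPoly [IsAlgClosed K] [IsDedekindDomain (ringB K x)]
    (b : Basis ι (ringA K x) (ringB K x)) (c : K) :
    (X - C c : K[X]) ^ (Fintype.card ι - (placesOver K F x c).ncard) ∣ hzb_discrPoly x b :=
  (hzb_pow_dvd_discrPoly_iff x b c _).mpr (hzb_pow_dvd_discr x b c)

/-- (L2), polynomial form with place counts: `discrPoly = (X - c)^(n - #places over c) * u`,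
`u(c) ≠ 0`. -/
theorem hzb_discrPoly_eq_pow_mul [IsAlgClosed K] [CharZero K] [IsDedekindDomain (ringB K x)]
    (b : Basis ι (ringA K x) (ringB K x)) (c : K) :
    ∃ u : K[X], u.eval c ≠ 0 ∧
      hzb_discrPoly x b = (X - C c) ^ (Fintype.card ι - (placesOver K F x c).ncard) * u := by
  obtain ⟨h1, h2⟩ := hzb_discr_exact x b c
  rw [← hzb_pow_dvd_discrPoly_iff] at h1 h2
  obtain ⟨u, hu, hd⟩ := hzp_eq_pow_mul_of_exact h1 h2
  refine ⟨u, ?_, hd⟩
  rwa [dvd_iff_isRoot] at hu

/-- unramified points are not roots of the discriminant polynomial (characteristic zero). -/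
theorem hzb_discrPoly_eval_ne_zero [IsAlgClosed K] [CharZero K] [IsDedekindDomain (ringB K x)]
    (b : Basis ι (ringA K x) (ringB K x)) (c : K)
    (hc : (placesOver K F x c).ncard = Fintype.card ι) :
    (hzb_discrPoly x b).eval c ≠ 0 := by
  obtain ⟨u, hu, hd⟩ := hzb_discrPoly_eq_pow_mul x b c
  rw [hd, hc, Nat.sub_self, pow_zero, one_mul]
  exact hu

end DiscrPoly

end Fermat.Agent.S18x
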