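/-
S18x/HzCpn (helper71): the two discriminant inputs `hdisc₀`, `hdisc₁` of `cpn_ff` (helper38,
S18x/CpnFF.lean) in EXACTLY the consumer shapes, from place counts.

`D = ringA K x ≃ K[X]` via `hzb_equiv x`, `O = ringB K x`.
-/
import Mathlib
import Fermat.Agent.S18x.HzPlaces

set_option autoImplicit false

namespace Fermat.Agent.S18x

open AlgebraicCurve Polynomial Module
open Fermat.Agent.S24x

variable {K F : Type*} [Field K] [Field F] [Algebra K F]
variable (x : F) [hx : FFData K F x]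
variable {ι : Type*} [Fintype ι] [DecidableEq ι]

/-- the ring isomorphism `K[X] ≃+* ringA K x`, `X ↦ x` (to be used as `e₀`, `e₁` in `cpn_ff`). -/
noncomputable def hzb_equiv : K[X] ≃+* ringA K x :=
  (Polynomial.algEquivOfTranscendental K x hx.transc).toRingEquiv

theorem hzb_equiv_apply (p : K[X]) : hzb_equiv x p = Polynomial.aeval (genA K x) p := rfl

theorem hzb_equiv_X : hzb_equiv x (X : K[X]) = genA K x := by
  rw [hzb_equiv_apply, aeval_X]

theorem hzb_equiv_X_sub_C (c : K) : hzb_equiv x (X - C c : K[X]) = hzb_lin x c :=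
  (hzb_lin_eq x c).symm

omit hx in
theorem hzb_lin_zero : hzb_lin x (0 : K) = genA K x := by
  rw [hzb_lin, map_zero, sub_zero]

/-- **`hdisc₁` of `cpn_ff`** (any characteristic): if at most `r` places lie over `x = 0` and
`a + r ≤ n`, then `e (X ^ a) ∣ discr β`. -/
theorem hzb_cpn_hdisc1 [IsAlgClosed K] [IsDedekindDomain (ringB K x)]
    (β : Basis ι (ringA K x) (ringB K x)) (a : ℕ)
    (ha : a + (placesOver K F x (0 : K)).ncard ≤ Fintype.card ι) :
    hzb_equiv x (X ^ a) ∣ Algebra.discr (ringA K x) β := by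
  have h := hzb_pow_dvd_discr x β (0 : K)
  rw [hzb_lin_zero] at h
  rw [map_pow, hzb_equiv_X]
  exact (pow_dvd_pow _ (by omega)).trans h

/-- **`hdisc₀`, `he` of `cpn_ff`** (characteristic zero): with `r₀` places over `x = 0` and every
`ρ ≠ 0` of a set `S` (the open unit disc) unramified (`n` places over `x = ρ`):
`discr γ = e (X ^ (n - r₀) * u)` with `u(ρ) ≠ 0` for all `ρ ∈ S`. -/
theorem hzb_cpn_hdisc0 [IsAlgClosed K] [CharZero K] [IsDedekindDomain (ringB K x)]
    (γ : Basis ι (ringA K x) (ringB K x)) (S : Set K)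
    (hS : ∀ ρ ∈ S, ρ ≠ 0 → (placesOver K F x ρ).ncard = Fintype.card ι) :
    ∃ u : K[X], Algebra.discr (ringA K x) γ =
        hzb_equiv x (X ^ (Fintype.card ι - (placesOver K F x (0 : K)).ncard) * u) ∧
      ∀ ρ ∈ S, u.eval ρ ≠ 0 := by
  obtain ⟨u, hu0, hd⟩ := hzb_discrPoly_eq_pow_mul x γ (0 : K)
  rw [map_zero, sub_zero] at hd
  refine ⟨u, ?_, ?_⟩
  · rw [← hd]
    exact ((Polynomial.algEquivOfTranscendental K x hx.transc).apply_symm_apply _).symm
  · intro ρ hρ
    rcases eq_or_ne ρ 0 with rfl | hρ0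
    · exact hu0
    · have h1 := hzb_discrPoly_eval_ne_zero x γ ρ (hS ρ hρ hρ0)
      rw [hd, eval_mul] at h1
      exact right_ne_zero_of_mul h1

end Fermat.Agent.S18x
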