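/-
S18x/CpnCountGen (helper24): generic prime / place counts on a chart `ringA K x ⊆ ringB K x` of a
function field `F/K`, in ANY characteristic, for a separable coordinate `x` (row A/B of the
CUSPN(b) twin plan, generic part).  Prefix `cpng_`.

* `cpng_exists_basis`        : `ringB K x` has a `ringA K x`-basis indexed by `Fin (cdeg K F x)`;
* `cpng_ncard_maximal_sub`   : `#{M maximal ∋ x - c} = #(placesOver K F x c)`;
* `cpng_ncard_maximal_gen`   : `#{M maximal ∋ x} = #(polePlaces K F x⁻¹)`;
* `cpng_placesOver_inv`      : `placesOver K F t⁻¹ c = placesOver K F t c⁻¹` for `c ≠ 0`;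
* `cpng_ncard_of_simple`     : fundamental identity + all zeros simple ⟹ `#placesOver = cdeg`;
* `cpng_discr_form`          : char 0, discriminant of a basis of `B` over `K[x]` is
                               `X^(n - #poles of x⁻¹) * e`, `e` without roots at the unramified points
                               (the `hdisc₀`/`he` inputs of `cpn_ff`).
-/
import Mathlib
import Fermat.Agent.S18x.HzPlaces
import Fermat.Agent.S18x.CpPlaces

set_option autoImplicit false

namespace Fermat.Agent.S18x

open AlgebraicCurve IsDedekindDomain IntermediateField Module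
open Fermat.Agent.S24x
open scoped IntermediateField.algebraAdjoinAdjoin

variable {K F : Type*} [Field K] [Field F] [Algebra K F]

section Basis

variable (x : F) [FFData K F x] [Algebra.IsSeparable K⟮x⟯ F]

/-- `finrank_{K[x]} B = [F : K(x)]`. -/
theorem cpng_finrank_ringB : Module.finrank (ringA K x) (ringB K x) = cdeg K F x :=
  IsIntegralClosure.rank (ringA K x) K⟮x⟯ F (ringB K x)

/-- `B` is free over `K[x]`. -/
theorem cpng_free_ringB : Module.Free (ringA K x) (ringB K x) :=
  IsIntegralClosure.module_free (ringA K x) K⟮x⟯ F (ringB K x)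

/-- **(A3)/(B3)**: a `K[x]`-basis of the maximal order `B`, indexed by `Fin [F : K(x)]`. -/
theorem cpng_exists_basis : Nonempty (Basis (Fin (cdeg K F x)) (ringA K x) (ringB K x)) := by
  have := cpng_free_ringB (K := K) x
  have := cp15_finite_ringB (K := K) x
  exact ⟨(Module.finBasis (ringA K x) (ringB K x)).reindex
    (finCongr (cpng_finrank_ringB (K := K) x))⟩

end Basis

section Count

variable (x : F) [FFData K F x]

/-- **(A1)/(B1), prime side**: the maximal ideals of `B` containing `x - c` are in bijection with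
the places over `x = c` (literal `genA - c` form of `hzb_ncard_ringB`). -/
theorem cpng_ncard_maximal_sub [IsDedekindDomain (ringB K x)] (c : K) :
    {M : Ideal (ringB K x) | M.IsMaximal ∧
      algebraMap (ringA K x) (ringB K x) (genA K x - algebraMap K (ringA K x) c) ∈ M}.ncard =
      (placesOver K F x c).ncard :=
  hzb_ncard_ringB x c

/-- **(A2)/(B2), prime side**: the maximal ideals of `B` containing `x` are in bijection with the
zeros of `x`, i.e. the poles of `x⁻¹`. -/
theorem cpng_ncard_maximal_gen [IsDedekindDomain (ringB K x)] :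
    {M : Ideal (ringB K x) | M.IsMaximal ∧
      algebraMap (ringA K x) (ringB K x) (genA K x) ∈ M}.ncard =
      (polePlaces K F x⁻¹).ncard := by
  have h := hzb_ncard_ringB (K := K) x 0
  have h0 : hzb_lin (K := K) x 0 = genA K x := by
    unfold hzb_lin
    rw [map_zero, sub_zero]
  rw [h0] at h
  rw [h, fid_polePlaces_eq, inv_inv]

end Count

section Places

/-- `ord (-f) = ord f`. -/
theorem cpng_ord_neg (v : Place K F) (f : F) : v.ord (-f) = v.ord f := by
  rcases eq_or_ne f 0 with rfl | hf
  · simp
  have h1 : (-1 : F) = algebraMap K F (-1) := by simp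
  have h2 : v.ord (-1 : F) = 0 := by rw [h1]; exact pb_ord_algebraMap v _
  have h3 : -f = (-1 : F) * f := by ring
  rw [h3, v.ord_mul (by simp) hf, h2, zero_add]

/-- at a zero of `s - d` (`d ≠ 0` a constant), `s` is a unit. -/
theorem cpng_ord_eq_zero_of_sub_pos (v : Place K F) {s : F} {d : K} (hd : d ≠ 0)
    (hv : 0 < v.ord (s - algebraMap K F d)) : s ≠ 0 ∧ v.ord s = 0 := by
  have hdF : algebraMap K F d ≠ 0 := by
    rw [Ne, map_eq_zero_iff _ (algebraMap K F).injective]; exact hd
  have hs0 : s ≠ 0 := by
    rintro rfl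
    rw [zero_sub, cpng_ord_neg, pb_ord_algebraMap] at hv
    exact lt_irrefl _ hv
  refine ⟨hs0, ?_⟩
  have hne : s - algebraMap K F d ≠ 0 := by
    intro h0; rw [h0, Place.ord_zero] at hv; exact lt_irrefl _ hv
  -- `0 ≤ ord s`
  have h1 : min (v.ord (s - algebraMap K F d)) (v.ord (algebraMap K F d)) ≤
      v.ord ((s - algebraMap K F d) + algebraMap K F d) :=
    pb_ord_add v (by rw [sub_add_cancel]; exact hs0)
  rw [sub_add_cancel, pb_ord_algebraMap] at h1
  -- `ord s ≤ 0`
  have h2 : min (v.ord s) (v.ord (-(s - algebraMap K F d))) ≤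
      v.ord (s + -(s - algebraMap K F d)) :=
    pb_ord_add v (by
      have : s + -(s - algebraMap K F d) = algebraMap K F d := by ring
      rw [this]; exact hdF)
  have h3 : s + -(s - algebraMap K F d) = algebraMap K F d := by ring
  rw [h3, cpng_ord_neg, pb_ord_algebraMap] at h2
  have h4 : 0 ≤ v.ord s := by
    have := min_le_iff.mp (le_refl (min (v.ord (s - algebraMap K F d)) 0))
    rcases le_total (v.ord (s - algebraMap K F d)) 0 with h | h
    · omega
    · rw [min_eq_right h] at h1; exact h1
  rcases le_total (v.ord s) (v.ord (s - algebraMap K F d)) with h | h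
  · rw [min_eq_left h] at h2; omega
  · rw [min_eq_right h] at h2; omega

/-- places over `t⁻¹ = c` are the places over `t = c⁻¹` (`c ≠ 0`), with the same orders. -/
theorem cpng_ord_inv_sub (v : Place K F) {s : F} {d : K} (hd : d ≠ 0)
    (hv : 0 < v.ord (s - algebraMap K F d)) :
    v.ord (s⁻¹ - algebraMap K F d⁻¹) = v.ord (s - algebraMap K F d) := by
  have hdF : algebraMap K F d ≠ 0 := by
    rw [Ne, map_eq_zero_iff _ (algebraMap K F).injective]; exact hd
  have hne : s - algebraMap K F d ≠ 0 := by
    intro h0; rw [h0, Place.ord_zero] at hv; exact lt_irrefl _ hv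
  obtain ⟨hs0, hords⟩ := cpng_ord_eq_zero_of_sub_pos v hd hv
  have hid : s⁻¹ - algebraMap K F d⁻¹ =
      -(s - algebraMap K F d) * (s⁻¹ * algebraMap K F d⁻¹) := by
    rw [map_inv₀]
    field_simp
    ring
  have hd' : algebraMap K F d⁻¹ ≠ 0 := by rw [map_inv₀]; exact inv_ne_zero hdF
  rw [hid, v.ord_mul (neg_ne_zero.mpr hne) (mul_ne_zero (inv_ne_zero hs0) hd'),
    cpng_ord_neg, v.ord_mul (inv_ne_zero hs0) hd', Place.ord_inv, hords, pb_ord_algebraMap]
  simp

/-- places over `t⁻¹ = c` are the places over `t = c⁻¹` (`c ≠ 0`). -/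
theorem cpng_placesOver_inv (t : F) {c : K} (hc : c ≠ 0) :
    placesOver K F t⁻¹ c = placesOver K F t c⁻¹ := by
  ext v
  rw [mem_placesOver, mem_placesOver]
  constructor
  · intro hv
    have := cpng_ord_inv_sub v hc hv
    rw [inv_inv] at this
    rw [this]; exact hv
  · intro hv
    have := cpng_ord_inv_sub v (inv_ne_zero hc) hv
    rw [inv_inv] at this
    rw [this]; exact hv

/-- fundamental identity + all zeros simple ⟹ the fibre has exactly `cdeg` points. -/
theorem cpng_ncard_of_simple {t : F} {c : K} {n : ℕ}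
    (hsum : ∃ hfin : (placesOver K F t c).Finite,
      ∑ v ∈ hfin.toFinset, v.ord (t - algebraMap K F c) = (n : ℤ))
    (hsimple : ∀ v ∈ placesOver K F t c, v.ord (t - algebraMap K F c) = 1) :
    (placesOver K F t c).ncard = n := by
  obtain ⟨hfin, hs⟩ := hsum
  rw [Set.ncard_eq_toFinset_card _ hfin]
  have h1 : ∑ v ∈ hfin.toFinset, v.ord (t - algebraMap K F c) = (hfin.toFinset.card : ℤ) := by
    rw [Finset.sum_congr rfl fun v hv => hsimple v (hfin.mem_toFinset.mp hv)]
    simp
  rw [h1] at hs
  exact_mod_cast hs

end Places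

section Discr

open Polynomial

variable (x : F) [hx : FFData K F x]
variable {ι : Type*} [Fintype ι] [DecidableEq ι]

omit [DecidableEq ι] in
/-- every `K[x]`-basis of the maximal order has `[F : K(x)]` elements. -/
theorem cpng_card_basis [Algebra.IsSeparable K⟮x⟯ F] (b : Basis ι (ringA K x) (ringB K x)) :
    Fintype.card ι = cdeg K F x := by
  rw [← Module.finrank_eq_card_basis b, cpng_finrank_ringB]

/-- **discriminant normal form on the chart (polynomial form)**, characteristic zero: if the fibres
of `x` over the nonzero points of `S` are unramified, then `discr = X^(n - #zeros of x) * e` with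
`e` without roots in `S`. -/
theorem cpng_discrPoly_form [IsAlgClosed K] [CharZero K] [IsDedekindDomain (ringB K x)]
    (b : Basis ι (ringA K x) (ringB K x)) (S : Set K)
    (hS : ∀ c ∈ S, c ≠ 0 → (placesOver K F x c).ncard = Fintype.card ι) :
    ∃ e : K[X], hzb_discrPoly x b =
        X ^ (Fintype.card ι - (placesOver K F x 0).ncard) * e ∧ ∀ c ∈ S, e.eval c ≠ 0 := by
  obtain ⟨u, hu, hd⟩ := hzb_discrPoly_eq_pow_mul x b (0 : K)
  rw [map_zero, sub_zero] at hd
  refine ⟨u, hd, ?_⟩
  intro c hc
  rcases eq_or_ne c 0 with rfl | hc0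
  · exact hu
  · have h1 := hzb_discrPoly_eval_ne_zero x b c (hS c hc hc0)
    rw [hd, eval_mul] at h1
    exact right_ne_zero_of_mul h1

/-- **discriminant normal form on the chart** in the shape consumed by `cpn_ff`
(`e₀ := (Polynomial.algEquivOfTranscendental K x _).toRingEquiv`), with the zeros of `x` counted as
the poles of `x⁻¹`. -/
theorem cpng_discr_form [IsAlgClosed K] [CharZero K] [IsDedekindDomain (ringB K x)]
    (b : Basis ι (ringA K x) (ringB K x)) (S : Set K)
    (hS : ∀ c ∈ S, c ≠ 0 → (placesOver K F x c).ncard = Fintype.card ι) :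
    ∃ e : K[X], Algebra.discr (ringA K x) b =
        (Polynomial.algEquivOfTranscendental K x hx.transc).toRingEquiv
          (X ^ (Fintype.card ι - (polePlaces K F x⁻¹).ncard) * e) ∧ ∀ c ∈ S, e.eval c ≠ 0 := by
  obtain ⟨e, he, hne⟩ := cpng_discrPoly_form x b S hS
  refine ⟨e, ?_, hne⟩
  rw [fid_polePlaces_eq, inv_inv, ← he]
  unfold hzb_discrPoly
  exact ((Polynomial.algEquivOfTranscendental K x hx.transc).apply_symm_apply _).symm

end Discr

end Fermat.Agent.S18x
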