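/-
S18x/CpnCountL (helper70): row B of the CUSPN(b) twin plan (`s18_cpn_plan`): characteristic-`ℓ`
(in fact: ANY algebraically closed field `k`) counts of the primes of the maximal order
`ringB k xb`, `xb := (pls_jb k N)⁻¹`, of `F̄_N = pls_Fb k N` on the chart `xb = 1/j̄`.
Prefix `cpnb_`.  (Generic lemmas: helper24's `CpnCountGen`, prefix `cpng_`.)

* `cpnb_isSepCoordinate_inv`       : `1/j̄` is a separating coordinate of `F̄_N`;
* `cpnb_ffData`               (B0) : `FFData k (pls_Fb k N) (pls_jb k N)⁻¹`;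
* `cpnb_isSeparable`               : `F̄_N / k(1/j̄)` is separable;
* `cpnb_isDedekindDomain`, `cpnb_finite` (B0) : `ringB` is Dedekind and finite over `ringA`;
* `cpnb_cdeg_inv`                  : `cdeg k F̄_N (1/j̄) = cdeg k F̄_N j̄`;
* `cpnb_ncard_maximal_gen`    (B2) : the maximal ideals of `ringB` containing `xb` are as many as
                                     the poles of `j̄`;
* `cpnb_finite_polePlaces`         : the poles of `j̄` form a finite set;
* `cpnb_exists_basis`         (B3) : a basis `β` of `ringB` over `ringA` indexed by `Fin cdeg`.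
(B4) (`cdeg` equality with characteristic zero) is in `S18x/CpnCountLDeg.lean`.
-/
import Mathlib
import Fermat.Agent.S18x.CpnCountGen
import Fermat.Agent.S18x.PlsFbarFinal

set_option autoImplicit false
set_option synthInstance.maxHeartbeats 400000

namespace Fermat.Agent.S18x

open AlgebraicCurve Module ModularCurve IntermediateField
open Fermat.Agent.S24x

variable (k : Type*) [Field k] [IsAlgClosed k] (N : ℕ) [NeZero N]

/-- `1/j̄` is a separating coordinate of `F̄_N`. -/
theorem cpnb_isSepCoordinate_inv : pls_IsSepCoordinate k (pls_Fb k N) (pls_jb k N)⁻¹ :=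
  pls_isSepCoordinate_inv (pls_isSepCoordinate_jb_perfect k N)

/-- **(B0)** `xb = 1/j̄` is a coordinate of `F̄_N`. -/
theorem cpnb_ffData : FFData k (pls_Fb k N) (pls_jb k N)⁻¹ :=
  ⟨(cpnb_isSepCoordinate_inv k N).coord.transcendental, (cpnb_isSepCoordinate_inv k N).coord.finite⟩

/-- `F̄_N` is separable over `k(1/j̄)`. -/
theorem cpnb_isSeparable : Algebra.IsSeparable k⟮(pls_jb k N)⁻¹⟯ (pls_Fb k N) :=
  (cpnb_isSepCoordinate_inv k N).sep

/-- **(B0)** the maximal order on the chart `1/j̄` is a Dedekind domain. -/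
theorem cpnb_isDedekindDomain : IsDedekindDomain (ringB k (pls_jb k N)⁻¹) :=
  have := cpnb_ffData k N
  have := cpnb_isSeparable k N
  cp15_isDedekindDomain_ringB (K := k) (pls_jb k N)⁻¹

/-- **(B0)** the maximal order on the chart `1/j̄` is finite over `k[1/j̄]`. -/
theorem cpnb_finite : Module.Finite (ringA k (pls_jb k N)⁻¹) (ringB k (pls_jb k N)⁻¹) :=
  have := cpnb_ffData k N
  have := cpnb_isSeparable k N
  cp15_finite_ringB (K := k) (pls_jb k N)⁻¹

omit [IsAlgClosed k] [NeZero N] in
theorem cpnb_cdeg_inv :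
    cdeg k (pls_Fb k N) (pls_jb k N)⁻¹ = cdeg k (pls_Fb k N) (pls_jb k N) :=
  fid_cdeg_inv (pls_jb k N)

/-- **(B2)** the maximal ideals of the maximal order containing `xb = 1/j̄` are as many as the
poles of `j̄`. -/
theorem cpnb_ncard_maximal_gen :
    {M : Ideal (ringB k (pls_jb k N)⁻¹) | M.IsMaximal ∧
      algebraMap (ringA k (pls_jb k N)⁻¹) (ringB k (pls_jb k N)⁻¹)
        (genA k (pls_jb k N)⁻¹) ∈ M}.ncard =
      (polePlaces k (pls_Fb k N) (pls_jb k N)).ncard := by
  have := cpnb_ffData k N
  have := cpnb_isDedekindDomain k N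
  rw [cpng_ncard_maximal_gen (K := k) (pls_jb k N)⁻¹, inv_inv]

/-- the set of poles of `j̄` is finite. -/
theorem cpnb_finite_polePlaces : (polePlaces k (pls_Fb k N) (pls_jb k N)).Finite :=
  (pls_fb_sum_ord_polePlaces k N).1

/-- **(B3)** a basis of the maximal order over `k[xb]`, indexed by `Fin cdeg`. -/
theorem cpnb_exists_basis :
    Nonempty (Basis (Fin (cdeg k (pls_Fb k N) (pls_jb k N)⁻¹)) (ringA k (pls_jb k N)⁻¹)
      (ringB k (pls_jb k N)⁻¹)) := by
  have := cpnb_ffData k N
  have := cpnb_isSeparable k N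
  exact cpng_exists_basis (K := k) (pls_jb k N)⁻¹

end Fermat.Agent.S18x
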