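/-
S18x/CpnCountLDeg (helper70): row B of the CUSPN(b) twin plan, part (B4): the degree of the reduced
modular function field over `k(j̄)` for a field `k` of characteristic `ℓ`.

* `cpnb_cdeg_le`  : `[F̄_N(k) : k(j̄)] ≤ ψ(N)`     (ANY field `k` of characteristic `ℓ`, any `N`);
                    base change of S28x `relfinrank_Ft_le` (`[F̃_N : 𝔽_ℓ(j̃)] ≤ ψ(N)`) from `𝔽_ℓ` to
                    `k`: the `k(j̄)`-span of the images of an `𝔽_ℓ(j̃)`-basis of `F̃_N` is a ring,
                    hence a field, containing all generators `j̄(q^d)`;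
* `cpnb_cdeg_eq`  : `[F̄_N(k) : k(j̄)] = ψ(N)` for `ℓ ∤ N` (with helper40's `glu_psi_le_cdeg`);
* `cpnb_cdeg_eq_charZero` (B4): `cdeg k F̄_N (1/j̄) = cdeg Q̄ F_N (1/j)` for `ℓ ∤ N`.
Prefix `cpnb_`.
-/
import Mathlib
import Fermat.Agent.S18x.GlueDegK
import Fermat.Agent.S28x.QepOfDeg
import Fermat.Agent.S24

set_option autoImplicit false
set_option synthInstance.maxHeartbeats 400000
set_option linter.unusedSectionVars false

namespace Fermat.Agent.S18x

open ModularCurve IntermediateField Module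
open Fermat.Agent.S24x Fermat.Agent.S28x

noncomputable section

section Upper

/-- base change of constants: the image of `𝔽_ℓ(j̃)` lands in `k(j̄)` -/
theorem cpnb_coeffMap_Kj (ℓ : ℕ) [Fact ℓ.Prime] (k : Type*) [Field k] [Algebra (ZMod ℓ) k]
    (N : ℕ) [NeZero N] {z : LaurentSeries (ZMod ℓ)} (hz : z ∈ Kj ℓ) :
    ∃ w : pls_Fb k N, (w : LaurentSeries k) = coeffMap (algebraMap (ZMod ℓ) k) z ∧
      w ∈ k⟮pls_jb k N⟯ := by
  induction hz using IntermediateField.adjoin_induction with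
  | mem x hx =>
    rw [Set.mem_singleton_iff] at hx
    subst hx
    exact ⟨pls_jb k N, by rw [coeffMap_jqModC]; rfl, mem_adjoin_simple_self k _⟩
  | algebraMap r =>
    refine ⟨algebraMap k (pls_Fb k N) (algebraMap (ZMod ℓ) k r), ?_, IntermediateField.algebraMap_mem _ _⟩
    rw [algebraMap_laurentSeries_eq_single, coeffMap_single, ← algebraMap_laurentSeries_eq_single]
    rfl
  | add x y _ _ hx hy =>
    obtain ⟨w₁, h₁, m₁⟩ := hx
    obtain ⟨w₂, h₂, m₂⟩ := hy
    exact ⟨w₁ + w₂, by rw [map_add, ← h₁, ← h₂]; rfl, add_mem m₁ m₂⟩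
  | inv x _ hx =>
    obtain ⟨w₁, h₁, m₁⟩ := hx
    exact ⟨w₁⁻¹, by rw [map_inv₀, ← h₁]; rfl, inv_mem m₁⟩
  | mul x y _ _ hx hy =>
    obtain ⟨w₁, h₁, m₁⟩ := hx
    obtain ⟨w₂, h₂, m₂⟩ := hy
    exact ⟨w₁ * w₂, by rw [map_mul, ← h₁, ← h₂]; rfl, mul_mem m₁ m₂⟩

set_option maxHeartbeats 1000000 in
/-- **upper bound for the degree over any field of characteristic `ℓ`**:
`[F̄_N(k) : k(j̄)] ≤ ψ(N)`. -/
theorem cpnb_cdeg_le (ℓ : ℕ) [Fact ℓ.Prime] (k : Type*) [Field k] [Algebra (ZMod ℓ) k]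
    (N : ℕ) [NeZero N] : cdeg k (pls_Fb k N) (pls_jb k N) ≤ dedekindPsi N := by
  classical
  set c := coeffMap (algebraMap (ZMod ℓ) k) with hc
  have hle := db_Kj_le_Ft ℓ N
  have hup := relfinrank_Ft_le ℓ N
  rw [IntermediateField.relfinrank_eq_finrank_of_le hle] at hup
  set E := IntermediateField.extendScalars hle with hE
  have hfin : FiniteDimensional (Kj ℓ) E :=
    mpcf_finiteDimensional_fullC_extendScalars (ZMod ℓ) N (Kj ℓ)
      (IntermediateField.subset_adjoin _ _ rfl) hle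
  set n := Module.finrank (Kj ℓ) E with hn
  let B : Basis (Fin n) (Kj ℓ) E := Module.finBasis (Kj ℓ) E
  have hBmem : ∀ i, ((B i : E) : LaurentSeries (ZMod ℓ)) ∈ Ft ℓ N := fun i =>
    (IntermediateField.mem_extendScalars hle).mp (B i).2
  let y : Fin n → pls_Fb k N := fun i =>
    ⟨c ((B i : E) : LaurentSeries (ZMod ℓ)), glu_coeffMap_mem_fullC _ N (hBmem i)⟩
  set K' := k⟮pls_jb k N⟯ with hK'
  set V : Submodule K' (pls_Fb k N) := Submodule.span K' (Set.range y) with hV
  -- Claim A: the image of `F̃_N` lies in `V`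
  have hA : ∀ z ∈ Ft ℓ N, ∀ w : pls_Fb k N, (w : LaurentSeries k) = c z → w ∈ V := by
    intro z hz w hw
    let z' : E := ⟨z, (IntermediateField.mem_extendScalars hle).mpr hz⟩
    have hrepr : z' = ∑ i, B.repr z' i • B i := (B.sum_repr z').symm
    have hz1 : z = ∑ i, ((B.repr z' i : Kj ℓ) : LaurentSeries (ZMod ℓ)) *
        ((B i : E) : LaurentSeries (ZMod ℓ)) := by
      have h := congrArg (fun e : E => (e : LaurentSeries (ZMod ℓ))) hrepr
      rw [show ((z' : E) : LaurentSeries (ZMod ℓ)) = z from rfl] at h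
      rw [h]
      rw [AddSubmonoidClass.coe_finsetSum]
      rfl
    choose a ha hamem using fun i => cpnb_coeffMap_Kj ℓ k N (B.repr z' i).2
    have hw' : w = ∑ i, (⟨a i, hamem i⟩ : K') • y i := by
      apply Subtype.ext
      rw [hw, hz1, map_sum, AddSubmonoidClass.coe_finsetSum]
      refine Finset.sum_congr rfl fun i _ => ?_
      rw [map_mul, ← ha i]
      rfl
    rw [hw']
    exact Submodule.sum_mem _ fun i _ => Submodule.smul_mem _ _ (Submodule.subset_span ⟨i, rfl⟩)
  have hone : (1 : pls_Fb k N) ∈ V := hA 1 (one_mem _) 1 (by rw [map_one]; rfl)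
  have hmul : ∀ v w : pls_Fb k N, v ∈ V → w ∈ V → v * w ∈ V := by
    intro v w hv hw
    have h1 : v * w ∈ V * V := Submodule.mul_mem_mul hv hw
    have h2 : V * V ≤ V := by
      rw [hV, Submodule.span_mul_span, Submodule.span_le]
      rintro _ ⟨_, ⟨i, rfl⟩, _, ⟨j, rfl⟩, rfl⟩
      exact hA _ (mul_mem (hBmem i) (hBmem j)) _ (by rw [map_mul]; rfl)
    exact h2 h1
  let S : Subalgebra K' (pls_Fb k N) := Submodule.toSubalgebra V hone hmul
  have hSV : ∀ w : pls_Fb k N, w ∈ S ↔ w ∈ V := fun w => Iff.rfl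
  have hfd : FiniteDimensional K' (pls_Fb k N) := pls_finiteDimensional_jb k N
  have halg : Algebra.IsAlgebraic K' (pls_Fb k N) := Algebra.IsAlgebraic.of_finite K' (pls_Fb k N)
  -- every element of `F̄_N` lies in `S`
  have htop : ∀ w : pls_Fb k N, w ∈ S := by
    intro w
    have hw : w ∈ IntermediateField.adjoin k (pls_gens k N) := by
      rw [pls_adjoin_gens_eq_top]; exact IntermediateField.mem_top
    induction hw using IntermediateField.adjoin_induction with
    | mem x hx =>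
      obtain ⟨d, hne, hd, rfl⟩ := hx
      rw [hSV]
      refine hA (qExpand (ZMod ℓ) d (jqModC (ZMod ℓ))) (jqModCd_mem_full (ZMod ℓ) N hd) _ ?_
      rw [hc, coeffMap_qExpand, coeffMap_jqModC]
      rfl
    | algebraMap r =>
      have : algebraMap k (pls_Fb k N) r = algebraMap K' (pls_Fb k N) (algebraMap k K' r) := rfl
      rw [this]
      exact S.algebraMap_mem _
    | add x y _ _ hx hy => exact S.add_mem hx hy
    | inv x _ hx =>
      exact Subalgebra.inv_mem_of_algebraic S (x := ⟨x, hx⟩) (halg.isAlgebraic x)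
    | mul x y _ _ hx hy => exact S.mul_mem hx hy
  have hVtop : V = ⊤ := by
    rw [eq_top_iff]
    intro w _
    exact (hSV w).mp (htop w)
  have hcard : Module.finrank K' (pls_Fb k N) ≤ n := by
    have h1 := finrank_range_le_card (R := K') y
    rw [Fintype.card_fin] at h1
    have h2 : Set.finrank K' (Set.range y) = Module.finrank K' (pls_Fb k N) := by
      unfold Set.finrank
      rw [← hV, hVtop, finrank_top]
    rw [h2] at h1
    exact h1
  unfold cdeg
  exact hcard.trans hup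

end Upper

section Equal

variable (ℓ : ℕ) [Fact ℓ.Prime] (k : Type*) [Field k] [CharP k ℓ] (N : ℕ) [NeZero N]

/-- **the degree of `F̄_N(k)` over `k(j̄)` is `ψ(N)`** for every field `k` of characteristic
`ℓ ∤ N`. -/
theorem cpnb_cdeg_eq (hℓN : ¬ ℓ ∣ N) :
    cdeg k (pls_Fb k N) (pls_jb k N) = dedekindPsi N := by
  let _ : Algebra (ZMod ℓ) k := ZMod.algebra k ℓ
  exact le_antisymm (cpnb_cdeg_le ℓ k N) (glu_psi_le_cdeg ℓ k N hℓN)

/-- **(B4)** the two charts `1/j̄` (characteristic `ℓ ∤ N`) and `1/j` (characteristic zero) have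
the same degree. -/
theorem cpnb_cdeg_eq_charZero (hℓN : ¬ ℓ ∣ N) :
    cdeg k (pls_Fb k N) (pls_jb k N)⁻¹ = cdeg Qbar (FBar N) (jBar N)⁻¹ := by
  rw [fid_cdeg_inv, fid_cdeg_inv, cpnb_cdeg_eq ℓ k N hℓN, (Fermat.Agent.S24.cInputs N).cdeg_jBar]

end Equal

end

end Fermat.Agent.S18x
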