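/-
S18x/CpnPoleCount (helper38): row C of the CUSPN(b) twin.
Through a divisor-compatible place reduction `r` (ts_Hyp), every pole of `ρ t` has a pole of `t`
in its residue disc; hence `#poles(ρ t) ≤ #poles(t)` ("`#{Q ∣ ∞} ≤ #cusps`", free from `h`).
-/
import Fermat.Agent.S18x.TsBasic

set_option autoImplicit false

namespace Fermat.Agent.S18x

open AlgebraicCurve

section

variable {L k F Fb : Type*} [Field L] [Field k] [Field F] [Field Fb] [Algebra L F] [Algebra k Fb]
variable {A : ValuationSubring L} {π : A →+* k} {W : ValuationSubring F} {ρ : W →+* Fb}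
  {r : Place L F → Place k Fb}

/-- every pole of `ρ t` is the reduction of a pole of `t`. -/
theorem cpnc_exists_pole_over (H : ts_Hyp A π W ρ r) (t : W) (ht : ρ t ≠ 0)
    (Q : Place k Fb) (hQ : Q.ord (ρ t) < 0) : ∃ P : Place L F, r P = Q ∧ P.ord (t : F) < 0 := by
  classical
  have ht0 : (t : F) ≠ 0 := by
    intro h
    apply ht
    have : t = 0 := Subtype.ext h
    rw [this, map_zero]
  obtain ⟨D, hD⟩ := H.hpd (t : F) ht0
  have hc := H.compat t ht D hD Q
  rw [ts_mapDomain_apply] at hc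
  by_contra hcon
  push Not at hcon
  have : 0 ≤ ∑ a ∈ D.support.filter (fun a => r a = Q), D a := by
    refine Finset.sum_nonneg fun P hP => ?_
    rw [Finset.mem_filter] at hP
    rw [hD P]
    exact hcon P hP.2
  omega

/-- `#poles(ρ t) ≤ #poles(t)`. -/
theorem cpnc_ncard_poles_le (H : ts_Hyp A π W ρ r) (t : W) (ht : ρ t ≠ 0)
    (hfin : {P : Place L F | P.ord (t : F) < 0}.Finite) :
    {Q : Place k Fb | Q.ord (ρ t) < 0}.ncard ≤ {P : Place L F | P.ord (t : F) < 0}.ncard := by
  have hsub : {Q : Place k Fb | Q.ord (ρ t) < 0} ⊆ r '' {P : Place L F | P.ord (t : F) < 0} := by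
    intro Q hQ
    obtain ⟨P, hP, hPt⟩ := cpnc_exists_pole_over H t ht Q hQ
    exact ⟨P, hPt, hP⟩
  calc {Q : Place k Fb | Q.ord (ρ t) < 0}.ncard
      ≤ (r '' {P : Place L F | P.ord (t : F) < 0}).ncard :=
        Set.ncard_le_ncard hsub (hfin.image r)
    _ ≤ {P : Place L F | P.ord (t : F) < 0}.ncard := Set.ncard_image_le hfin

/-- the set of poles of `ρ t` is finite. -/
theorem cpnc_finite_poles (H : ts_Hyp A π W ρ r) (t : W) (ht : ρ t ≠ 0)
    (hfin : {P : Place L F | P.ord (t : F) < 0}.Finite) :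
    {Q : Place k Fb | Q.ord (ρ t) < 0}.Finite := by
  refine (hfin.image r).subset ?_
  intro Q hQ
  obtain ⟨P, hP, hPt⟩ := cpnc_exists_pole_over H t ht Q hQ
  exact ⟨P, hPt, hP⟩

end

end Fermat.Agent.S18x
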