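/-
S18x/CpnCountLe (helper58): leaf (F3) of the CUSPN(b) wiring (row F, helper38).

* `cpnq_placesOver_inv_zero` : `placesOver K F t⁻¹ 0 = polePlaces K F t`  (S24x names);
* `cpnq_placesOver_zero_eq`  : `placesOver K F x 0 = polePlaces K F x⁻¹`;
* `cpnq_finite_poles`        : through `ts_Hyp`, the poles of any element form a finite set;
* `cpnq_hcountle`            : for a unit `x : W`,
    `#(placesOver k Fb (ρ x) 0) ≤ #(placesOver L F x 0)`   (via helper38's `cpnc_ncard_poles_le`).
-/
import Mathlib
import Fermat.Agent.S24x.FundIdentity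
import Fermat.Agent.S18x.CpnPoleCount

set_option autoImplicit false

namespace Fermat.Agent.S18x

open AlgebraicCurve
open Fermat.Agent.S24x

section Generic

variable {K F : Type*} [Field K] [Field F] [Algebra K F]

theorem cpnq_placesOver_inv_zero (t : F) : placesOver K F t⁻¹ 0 = polePlaces K F t :=
  (fid_polePlaces_eq t).symm

theorem cpnq_placesOver_zero_eq (x : F) : placesOver K F x 0 = polePlaces K F x⁻¹ := by
  rw [fid_polePlaces_eq, inv_inv]

theorem cpnq_placesOver_zero_eq_setOf (x : F) :
    placesOver K F x 0 = {P : Place K F | P.ord x⁻¹ < 0} :=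
  cpnq_placesOver_zero_eq x

end Generic

section Count

variable {L k F Fb : Type*} [Field L] [Field k] [Field F] [Field Fb] [Algebra L F] [Algebra k Fb]
variable {A : ValuationSubring L} {π : A →+* k} {W : ValuationSubring F} {ρ : W →+* Fb}
  {r : Place L F → Place k Fb}

/-- the poles of any element form a finite set (from `ts_Hyp.hpd`). -/
theorem cpnq_finite_poles (H : ts_Hyp A π W ρ r) (t : F) :
    {P : Place L F | P.ord t < 0}.Finite := by
  rcases eq_or_ne t 0 with rfl | ht
  · have : {P : Place L F | P.ord (0 : F) < 0} = ∅ := by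
      ext P
      simp [Place.ord_zero]
    rw [this]
    exact Set.finite_empty
  · obtain ⟨D, hD⟩ := H.hpd t ht
    refine D.support.finite_toSet.subset ?_
    intro P hP
    have hP' : P.ord t < 0 := hP
    rw [Finset.mem_coe, Finsupp.mem_support_iff, hD P]
    omega

/-- **(F3)** `hcountle`: for a unit `x` of `W`, the zeros of `ρ x` are at most as many as the
zeros of `x`. -/
theorem cpnq_hcountle (H : ts_Hyp A π W ρ r) (x : W) (hx : IsUnit x) :
    (placesOver k Fb (ρ x) 0).ncard ≤ (placesOver L F (x : F) 0).ncard := by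
  obtain ⟨u, rfl⟩ := hx
  set t : W := ((u⁻¹ : Wˣ) : W) with ht
  have hρu : ρ (u : W) * ρ t = 1 := by
    rw [← map_mul, ht, Units.mul_inv, map_one]
  have hρt : ρ t ≠ 0 := right_ne_zero_of_mul_eq_one hρu
  have htF : (t : F) = ((u : W) : F)⁻¹ := by
    have h1 : (((u : W) * t : W) : F) = 1 := by
      rw [ht, Units.mul_inv]
      rfl
    exact (inv_eq_of_mul_eq_one_right (by simpa using h1)).symm
  have hρtinv : ρ t = (ρ (u : W))⁻¹ := (inv_eq_of_mul_eq_one_right hρu).symm
  have h := cpnc_ncard_poles_le H t hρt (cpnq_finite_poles H (t : F))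
  rw [cpnq_placesOver_zero_eq_setOf, cpnq_placesOver_zero_eq_setOf, ← hρtinv, ← htF]
  exact h

end Count

end Fermat.Agent.S18x
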