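/-
S18x/CpnCountZero (helper24): row A of the CUSPN(b) twin plan (`s18_cpn_plan`): characteristic-zero
counts of the primes of the maximal order `ringB Q̄ x`, `x := (jBar N)⁻¹`, of `F_N = FBar N` on the
chart `x = 1/j`.  Prefix `cpna_`.

* `cpna_ffData`               (A0) : `FFData Q̄ (FBar N) (jBar N)⁻¹`;
* `cpna_isDedekindDomain`, `cpna_finite` : `ringB` is Dedekind and finite over `ringA`;
* `cpna_ncard_maximal_sub`    (A1) : for `c ≠ 0`, `c⁻¹ ≠ 1728` there are exactly `cdeg` maximal
                                     ideals of `ringB` containing `x - c`;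
* `cpna_ncard_maximal_gen`    (A2) : the maximal ideals containing `x` are as many as the poles
                                     (cusps) of `j`;
* `cpna_exists_basis`         (A3) : a basis `γ` of `ringB` over `ringA` indexed by `Fin cdeg`;
* `cpna_cdeg`                      : `cdeg Q̄ (FBar N) (jBar N)⁻¹ = cdeg Q̄ (FBar N) (jBar N)`;
* `cpna_discr_form`           (A4) : `discr γ = e₀ (X^(n - #cusps) * e)`, `e` without roots in the
                                     open unit disc of any valuation subring `A` of `Q̄`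
                                     (= inputs `hdisc₀`, `he` of `cpn_ff`).
-/
import Mathlib
import Fermat.Agent.S18x.CpnCountGen
import Fermat.Agent.S18x.RamDataN
import Fermat.Agent.S24x.CoveringRing
import Fermat.Agent.S24x.FBarFinite

set_option autoImplicit false
set_option synthInstance.maxHeartbeats 400000
set_option maxHeartbeats 1000000

namespace Fermat.Agent.S18x

open AlgebraicCurve Module ModularCurve
open Fermat.Agent.S24x


variable (N : ℕ) [NeZero N]

/-- **(A0)** `x = 1/j` is a coordinate of `F_N`. -/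
theorem cpna_ffData : FFData Qbar (FBar N) (jBar N)⁻¹ :=
  cr_ffData_inv (fbf_isCoordinate_jBar N)

omit [NeZero N] in
theorem cpna_cdeg : cdeg Qbar (FBar N) (jBar N)⁻¹ = cdeg Qbar (FBar N) (jBar N) :=
  fid_cdeg_inv (jBar N)

theorem cpna_isDedekindDomain : IsDedekindDomain (ringB Qbar (jBar N)⁻¹) :=
  have := cpna_ffData N
  inferInstance

theorem cpna_finite : Module.Finite (ringA Qbar (jBar N)⁻¹) (ringB Qbar (jBar N)⁻¹) :=
  have := cpna_ffData N
  inferInstance

/-- the fibre of `x = 1/j` over a generic value `c` has exactly `cdeg` points. -/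
theorem cpna_ncard_placesOver {c : Qbar} (h0 : c ≠ 0) (h1 : c⁻¹ ≠ 1728) :
    (placesOver Qbar (FBar N) (jBar N)⁻¹ c).ncard = cdeg Qbar (FBar N) (jBar N)⁻¹ := by
  rw [cpng_placesOver_inv (jBar N) h0, cpna_cdeg]
  refine cpng_ncard_of_simple (sum_ord_placesOver (fbf_isCoordinate_jBar N) c⁻¹) ?_
  intro v hv
  exact rdn_ord_generic N c⁻¹ (inv_ne_zero h0) h1 v (mem_placesOver.mp hv)

/-- **(A1)** for `c ≠ 0`, `c⁻¹ ≠ 1728`, exactly `cdeg` maximal ideals of the maximal order contain
`x - c` (all places over `j = 1/c` are simple zeros). -/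
theorem cpna_ncard_maximal_sub {c : Qbar} (h0 : c ≠ 0) (h1 : c⁻¹ ≠ 1728) :
    {M : Ideal (ringB Qbar (jBar N)⁻¹) | M.IsMaximal ∧
      algebraMap (ringA Qbar (jBar N)⁻¹) (ringB Qbar (jBar N)⁻¹)
        (genA Qbar (jBar N)⁻¹ - algebraMap Qbar (ringA Qbar (jBar N)⁻¹) c) ∈ M}.ncard =
      cdeg Qbar (FBar N) (jBar N)⁻¹ := by
  have := cpna_ffData N
  rw [cpng_ncard_maximal_sub (K := Qbar) (jBar N)⁻¹ c, cpna_ncard_placesOver N h0 h1]

/-- **(A2)** the maximal ideals of the maximal order containing `x = 1/j` are as many as the poles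
of `j`. -/
theorem cpna_ncard_maximal_gen :
    {M : Ideal (ringB Qbar (jBar N)⁻¹) | M.IsMaximal ∧
      algebraMap (ringA Qbar (jBar N)⁻¹) (ringB Qbar (jBar N)⁻¹)
        (genA Qbar (jBar N)⁻¹) ∈ M}.ncard =
      (polePlaces Qbar (FBar N) (jBar N)).ncard := by
  have := cpna_ffData N
  rw [cpng_ncard_maximal_gen (K := Qbar) (jBar N)⁻¹, inv_inv]

/-- the set of poles of `j` is finite. -/
theorem cpna_finite_polePlaces : (polePlaces Qbar (FBar N) (jBar N)).Finite :=
  (sum_ord_polePlaces (fbf_isCoordinate_jBar N)).1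

/-- **(A3)** a basis of the maximal order over `Q̄[x]`, indexed by `Fin cdeg`. -/
theorem cpna_exists_basis :
    Nonempty (Basis (Fin (cdeg Qbar (FBar N) (jBar N)⁻¹)) (ringA Qbar (jBar N)⁻¹)
      (ringB Qbar (jBar N)⁻¹)) := by
  have := cpna_ffData N
  exact cpng_exists_basis (K := Qbar) (jBar N)⁻¹

/-- **(A4), the `hdisc₀`/`he` inputs of `cpn_ff`**: for ANY basis `γ` of the maximal order over
`Q̄[x]` (`x = 1/j`) and any valuation subring `A` of `Q̄`, the discriminant is
`X^(n - #cusps) * e` with `e` without roots in the open unit disc of `A`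
(the only other branch value on this chart is `x = 1/1728`, which has `|x| ≥ 1`). -/
theorem cpna_discr_form (A : ValuationSubring Qbar) {ι : Type*} [Fintype ι] [DecidableEq ι]
    (γ : Basis ι (ringA Qbar (jBar N)⁻¹) (ringB Qbar (jBar N)⁻¹)) :
    ∃ e : Polynomial Qbar, Algebra.discr (ringA Qbar (jBar N)⁻¹) γ =
        (Polynomial.algEquivOfTranscendental Qbar (jBar N)⁻¹ (cpna_ffData N).transc).toRingEquiv
          (Polynomial.X ^ (Fintype.card ι - (polePlaces Qbar (FBar N) (jBar N)).ncard) * e) ∧
      ∀ ρ : Qbar, A.valuation ρ < 1 → e.eval ρ ≠ 0 := by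
  have hFF := cpna_ffData N
  have hcard : Fintype.card ι = cdeg Qbar (FBar N) (jBar N)⁻¹ :=
    cpng_card_basis (K := Qbar) (jBar N)⁻¹ γ
  have h := cpng_discr_form (K := Qbar) (jBar N)⁻¹ γ {ρ : Qbar | A.valuation ρ < 1} (by
    intro c hc hc0
    rw [hcard]
    refine cpna_ncard_placesOver N hc0 ?_
    intro h1728
    have hc' : A.valuation c < 1 := hc
    have hmem : (1728 : Qbar) ∈ A := by
      have : ((1728 : ℕ) : Qbar) ∈ A := natCast_mem A 1728
      exact_mod_cast this
    have hle : A.valuation (1728 : Qbar) ≤ 1 := (A.valuation_le_one_iff _).mpr hmem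
    rw [← h1728, map_inv₀] at hle
    have hpos : 0 < A.valuation c := by
      rw [Valuation.pos_iff]; exact hc0
    have := (one_le_inv₀ hpos).mpr hc'.le
    have h2 : (A.valuation c)⁻¹ = 1 := le_antisymm hle this
    rw [inv_eq_one] at h2
    exact absurd h2 hc'.ne)
  rw [inv_inv] at h
  exact h

end Fermat.Agent.S18x
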