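/-
S18x/CpnLiftBasis (helper77): row D of the CUSPN(b) twin, part 1 (Mathlib only).
A "polynomial form" of: a `k[x̄]`-submodule of a finitely generated `k[x̄]`-submodule of a field
`Fb ⊇ k(x̄)` is free of finite rank (`k[x̄]` is a PID, `Fb` is torsion free).
Everything is phrased with `aeval x̄ p * a`, so no module instances leak to the consumers.
-/
import Mathlib

set_option autoImplicit false

namespace Fermat.Agent.S18x

open Polynomial

/-- **Free basis in polynomial form.**  `M ⊆ Fb` closed under `+` and under multiplication by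
`k[x̄]`, contained in the `k[x̄]`-span of finitely many `Y j`: then `M` has a finite `k[x̄]`-basis
`c` (independent and spanning, both in polynomial form). -/
theorem cpnd_exists_basis {k Fb : Type*} [Field k] [Field Fb] [Algebra k Fb] (xb : Fb)
    (hx : Transcendental k xb) (M : Set Fb) (h0 : (0 : Fb) ∈ M)
    (hadd : ∀ a ∈ M, ∀ b ∈ M, a + b ∈ M)
    (hsmul : ∀ (p : k[X]), ∀ a ∈ M, aeval xb p * a ∈ M)
    {r : ℕ} (Y : Fin r → Fb)
    (hY : ∀ a ∈ M, ∃ p : Fin r → k[X], a = ∑ j, aeval xb (p j) * Y j) :
    ∃ (n : ℕ) (c : Fin n → Fb), (∀ i, c i ∈ M) ∧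
      (∀ p : Fin n → k[X], ∑ i, aeval xb (p i) * c i = 0 → ∀ i, p i = 0) ∧
      ∀ a ∈ M, ∃ p : Fin n → k[X], a = ∑ i, aeval xb (p i) * c i := by
  classical
  let _ : Module k[X] Fb := Module.compHom Fb (aeval (R := k) xb).toRingHom
  have hsm : ∀ (p : k[X]) (a : Fb), p • a = aeval xb p * a := fun _ _ => rfl
  have hinj : Function.Injective (aeval (R := k) xb) := transcendental_iff_injective.mp hx
  have : Module.IsTorsionFree k[X] Fb := by
    refine ⟨fun p hp a b hab => ?_⟩
    have hp0 : p ≠ 0 := hp.ne_zero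
    have hne : aeval xb p ≠ 0 := by
      intro h
      apply hp0
      apply hinj
      rw [h, map_zero]
    have hab' : aeval xb p * a = aeval xb p * b := hab
    exact mul_left_cancel₀ hne hab'
  let Msub : Submodule k[X] Fb :=
    { carrier := M
      add_mem' := fun {a b} ha hb => hadd a ha b hb
      zero_mem' := h0
      smul_mem' := fun p a ha => hsmul p a ha }
  let φ : (Fin r → k[X]) →ₗ[k[X]] Fb := Fintype.linearCombination k[X] Y
  have hφ : ∀ p, φ p = ∑ j, aeval xb (p j) * Y j := by
    intro p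
    simp only [φ, Fintype.linearCombination_apply, hsm]
  have hle : Msub ≤ LinearMap.range φ := by
    intro a ha
    obtain ⟨p, hp⟩ := hY a ha
    exact ⟨p, by rw [hφ, hp]⟩
  have hfg : Msub.FG := by
    have h1 : (Msub.comap φ).FG := IsNoetherian.noetherian _
    have h2 : (Msub.comap φ).map φ = Msub := by
      rw [Submodule.map_comap_eq, inf_eq_right.mpr hle]
    rw [← h2]
    exact h1.map φ
  have : Module.Finite k[X] Msub := Module.Finite.iff_fg.mpr hfg
  obtain ⟨n, B⟩ := Module.basisOfFiniteTypeTorsionFree' (R := k[X]) (M := Msub)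
  refine ⟨n, fun i => (B i : Fb), fun i => (B i).2, ?_, ?_⟩
  · intro p hp i
    have hli := B.linearIndependent
    rw [Fintype.linearIndependent_iff] at hli
    apply hli p
    apply Subtype.ext
    rw [Submodule.coe_sum, Submodule.coe_zero, ← hp]
    refine Finset.sum_congr rfl fun i _ => ?_
    rw [Submodule.coe_smul, hsm]
  · intro a ha
    refine ⟨fun i => B.repr ⟨a, ha⟩ i, ?_⟩
    have h1 := B.sum_repr ⟨a, ha⟩
    have h2 := congrArg (Subtype.val) h1
    rw [Submodule.coe_sum] at h2
    have h3 : a = ∑ i, ((B.repr ⟨a, ha⟩ i • B i : Msub) : Fb) := h2.symm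
    refine h3.trans ?_
    refine Finset.sum_congr rfl fun i _ => ?_
    rw [Submodule.coe_smul, hsm]

end Fermat.Agent.S18x
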