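/-
S18x/H1vRoot (helper77): block H1V of S18, part 3.
`h1v_Den L x b I` : `I(x)` is a common denominator of the integral closure of `L[x]` w.r.t. the
lifted basis `b`.  KEY LEMMA `h1v_Hyp.den_root`: a linear factor `X - ρ` with `ρ ∈ A` can be
removed from a common denominator (the "index polynomial" has no root in the closed unit disc).
Consequence (`L` algebraically closed): there is a common denominator of the form `1 - J` with
all coefficients of `J` in the maximal ideal of `A`.  Mathlib only.
-/
import Fermat.Agent.S18x.H1vHyp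

set_option autoImplicit false

namespace Fermat.Agent.S18x

open Polynomial

/-- `I(x)` is a common denominator: `I(x) y ∈ ∑ L[x] b_i` for every `y` integral over `L[x]` -/
def h1v_Den (L : Type*) {K : Type*} [Field L] [Field K] [Algebra L K] (x : K) {n : ℕ}
    (b : Fin n → K) (I : L[X]) : Prop :=
  ∀ y : K, h1v_Int L x y → ∃ c : Fin n → L[X], aeval x I * y = ∑ i, aeval x (c i) * b i

section

variable {L K : Type*} [Field L] [Field K] [Algebra L K]
variable {A : ValuationSubring L} {W : ValuationSubring K} {x : K} {n : ℕ} {b : Fin n → K}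

theorem h1v_Den.of_const_mul {e : L} (he : e ≠ 0) {I : L[X]} (h : h1v_Den L x b (C e * I)) :
    h1v_Den L x b I := by
  intro y hy
  obtain ⟨c, hc⟩ := h y hy
  refine ⟨fun i => C e⁻¹ * c i, ?_⟩
  have h1 : aeval x I * y = algebraMap L K e⁻¹ * (aeval x (C e * I) * y) := by
    rw [map_mul, aeval_C, ← mul_assoc, ← mul_assoc, ← map_mul, inv_mul_cancel₀ he, map_one,
      one_mul]
  rw [h1, hc, Finset.mul_sum]
  refine Finset.sum_congr rfl fun i _ => ?_
  rw [map_mul, aeval_C, mul_assoc]

namespace h1v_Hyp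

/-- **Key lemma**: removing a root `ρ ∈ A` from a common denominator. -/
theorem den_root (H : h1v_Hyp A W x b) {ρ : L} (hρ : ρ ∈ A) {I : L[X]}
    (hI : h1v_Den L x b ((X - C ρ) * I)) : h1v_Den L x b I := by
  classical
  intro y hy
  set z := aeval x I * y with hz
  have hzint : h1v_Int L x z := (h1v_Int_aeval x I).mul hy
  obtain ⟨c, hc⟩ := hI y hy
  have hxz : (x - algebraMap L K ρ) * z = ∑ i, aeval x (c i) * b i := by
    rw [← hc, hz, map_mul, map_sub, aeval_X, aeval_C, mul_assoc]
  set c' : Fin n → L[X] := fun i => c i /ₘ (X - C ρ) with hc'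
  set α : Fin n → L := fun i => (c i).eval ρ with hα
  have hdiv : ∀ i, c i = (X - C ρ) * c' i + C (α i) := by
    intro i
    have h1 := modByMonic_add_div (c i) (X - C ρ)
    rw [modByMonic_X_sub_C_eq_C_eval] at h1
    rw [hc', hα]
    conv_lhs => rw [← h1]
    ring
  set z' := z - ∑ i, aeval x (c' i) * b i with hz'
  have hz'eq : (x - algebraMap L K ρ) * z' = ∑ i, algebraMap L K (α i) * b i := by
    rw [hz', mul_sub, hxz, Finset.mul_sum, ← Finset.sum_sub_distrib]
    refine Finset.sum_congr rfl fun i _ => ?_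
    rw [hdiv i, map_add, map_mul, map_sub, aeval_X, aeval_C, aeval_C]
    ring
  have hz'int : h1v_Int L x z' :=
    hzint.sub (h1v_Int_sum _ _ fun i _ => (h1v_Int_aeval x _).mul (H.b_int i))
  have hα0 : ∀ i, α i = 0 := by
    by_contra hne
    push Not at hne
    obtain ⟨i₁, hi₁⟩ := hne
    obtain ⟨i₀, -, hmax⟩ := Finset.exists_max_image Finset.univ
      (fun i => A.valuation (α i)) ⟨i₁, Finset.mem_univ _⟩
    have hαi₀ : α i₀ ≠ 0 := by
      intro h0
      have h1 := hmax i₁ (Finset.mem_univ _)
      simp only [h0, Valuation.map_zero] at h1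
      exact hi₁ ((Valuation.zero_iff _).mp (le_antisymm h1 zero_le))
    have hvα : 0 < A.valuation (α i₀) := zero_lt_iff.mpr ((Valuation.ne_zero_iff _).mpr hαi₀)
    set β : Fin n → L := fun i => α i * (α i₀)⁻¹ with hβ
    have hβA : ∀ i, β i ∈ A := by
      intro i
      rw [← A.valuation_le_one_iff, hβ, Valuation.map_mul, map_inv₀]
      rw [mul_inv_le_iff₀ hvα, one_mul]
      exact hmax i (Finset.mem_univ _)
    have hβ0 : β i₀ = 1 := mul_inv_cancel₀ hαi₀
    set s := ∑ i, algebraMap L K (β i) * b i with hs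
    set z'' := algebraMap L K (α i₀)⁻¹ * z' with hz''
    have hz''eq : (x - algebraMap L K ρ) * z'' = s := by
      rw [hz'', mul_left_comm, hz'eq, hs, Finset.mul_sum]
      refine Finset.sum_congr rfl fun i _ => ?_
      rw [hβ, map_mul]
      ring
    have hsum : (∑ i, aeval x (C (β i) : L[X]) * b i) = s := by
      rw [hs]
      refine Finset.sum_congr rfl fun i _ => ?_
      rw [aeval_C]
    have hsv : W.valuation s = 1 := by
      have hle : W.valuation s ≤ 1 := by
        rw [W.valuation_le_one_iff, hs]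
        exact sum_mem fun i _ => W.mul_mem _ _ ((H.mem_iff _).mpr (hβA i)) (H.b_mem i)
      rcases lt_or_eq_of_le hle with hlt | heq
      · exfalso
        have h1 := H.ortho_lt (fun i => C (β i)) (by rw [hsum]; exact hlt) i₀ 0
        rw [coeff_C_zero, hβ0, Valuation.map_one] at h1
        exact lt_irrefl _ h1
      · exact heq
    have hvz'' : W.valuation z'' = 1 := by
      have h1 := congrArg W.valuation hz''eq
      rwa [Valuation.map_mul, H.val_sub_const hρ, one_mul, hsv] at h1
    have hz''int : h1v_Int L x z'' := (h1v_Int_algebraMap x _).mul hz'int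
    obtain ⟨c'', -, hc''⟩ := H.span z'' ((W.valuation_le_one_iff _).mp hvz''.le) hz''int
    have h3 : W.valuation (∑ i, aeval x (C (β i) - (X - C ρ) * c'' i) * b i) < 1 := by
      have h4 : (∑ i, aeval x (C (β i) - (X - C ρ) * c'' i) * b i)
          = (x - algebraMap L K ρ) * (z'' - ∑ i, aeval x (c'' i) * b i) := by
        rw [mul_sub, hz''eq, hs, Finset.mul_sum, ← Finset.sum_sub_distrib]
        refine Finset.sum_congr rfl fun i _ => ?_
        simp only [map_sub, map_mul, aeval_X, aeval_C]
        ring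
      rw [h4, Valuation.map_mul, H.val_sub_const hρ, one_mul]
      exact hc''
    have h5 := (H.ortho_lt _ h3 i₀).eval_lt hρ
    rw [eval_sub, eval_C, eval_mul, eval_sub, eval_X, eval_C, sub_self, zero_mul, sub_zero, hβ0,
      Valuation.map_one] at h5
    exact lt_irrefl _ h5
  have hz'0 : z' = 0 := by
    have h1 : (x - algebraMap L K ρ) * z' = 0 := by
      rw [hz'eq]
      refine Finset.sum_eq_zero fun i _ => ?_
      rw [hα0 i, map_zero, zero_mul]
    have hne : x - algebraMap L K ρ ≠ 0 := by
      intro h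
      have h2 := H.val_sub_const hρ
      rw [h, Valuation.map_zero] at h2
      exact zero_ne_one h2
    exact (mul_eq_zero.mp h1).resolve_left hne
  exact ⟨c', sub_eq_zero.mp hz'0⟩

/-- removing all roots in `A` -/
theorem den_prod (H : h1v_Hyp A W x b) (S : Multiset L) (hS : ∀ ρ ∈ S, ρ ∈ A) (Q : L[X])
    (h : h1v_Den L x b ((S.map fun ρ => X - C ρ).prod * Q)) : h1v_Den L x b Q := by
  induction S using Multiset.induction_on with
  | empty => simpa using h
  | cons ρ S ih =>
    rw [Multiset.map_cons, Multiset.prod_cons, mul_assoc] at h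
    exact ih (fun σ hσ => hS σ (Multiset.mem_cons_of_mem hσ))
      (H.den_root (hS ρ (Multiset.mem_cons_self ρ S)) h)

end h1v_Hyp

/-- a product of linear factors with roots outside `A` is `e * (1 - J)` with `J` small -/
theorem h1v_prod_outside (S : Multiset L) (hS : ∀ ρ ∈ S, ρ ∉ A) :
    ∃ (e : L) (J : L[X]), e ≠ 0 ∧ h1v_SmallPoly A J ∧
      (S.map fun ρ => X - C ρ).prod = C e * (1 - J) := by
  induction S using Multiset.induction_on with
  | empty => exact ⟨1, 0, one_ne_zero, h1v_SmallPoly_zero, by simp⟩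
  | cons ρ S ih =>
    obtain ⟨e, J, he, hJ, hprod⟩ := ih fun σ hσ => hS σ (Multiset.mem_cons_of_mem hσ)
    have hρA : ρ ∉ A := hS ρ (Multiset.mem_cons_self ρ S)
    have hρ0 : ρ ≠ 0 := fun h => hρA (h ▸ A.zero_mem)
    have hρinv : A.valuation ρ⁻¹ < 1 := by
      rw [map_inv₀]
      have h1 : ¬ A.valuation ρ ≤ 1 := fun h => hρA ((A.valuation_le_one_iff _).mp h)
      rw [not_le] at h1
      exact (inv_lt_one₀ (lt_trans zero_lt_one h1)).mpr h1
    have hsmall : h1v_SmallPoly A (C ρ⁻¹ * X) := h1v_SmallPoly_C_mul_X hρinv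
    refine ⟨-ρ * e, C ρ⁻¹ * X + J - C ρ⁻¹ * X * J, mul_ne_zero (neg_ne_zero.mpr hρ0) he,
      (hsmall.add hJ).sub (hsmall.mul_int hJ.int), ?_⟩
    rw [Multiset.map_cons, Multiset.prod_cons, hprod]
    have hlin : (X - C ρ : L[X]) = C (-ρ) * (1 - C ρ⁻¹ * X) := by
      rw [mul_sub, mul_one, ← mul_assoc, ← C_mul, neg_mul, mul_inv_cancel₀ hρ0, C_neg, C_neg, C_1]
      ring
    rw [hlin, C_mul]
    ring

/-- **Normalised denominator**: for `L` algebraically closed there is a common denominator of the
form `1 - J` with `J ∈ 𝔪_A[X]`. -/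
theorem h1v_Hyp.exists_den_small [IsAlgClosed L] (H : h1v_Hyp A W x b) :
    ∃ J : L[X], h1v_SmallPoly A J ∧ h1v_Den L x b (1 - J) := by
  classical
  obtain ⟨I, hI0, hI⟩ := H.den
  have hsplit := (IsAlgClosed.splits I).eq_prod_roots
  set Sin := I.roots.filter (fun ρ => ρ ∈ A) with hSin
  set Sout := I.roots.filter (fun ρ => ¬ ρ ∈ A) with hSout
  have hroots : Sin + Sout = I.roots := Multiset.filter_add_not _ _
  obtain ⟨e, J, he, hJ, hprod⟩ := h1v_prod_outside (A := A) Sout
    (fun ρ hρ => (Multiset.mem_filter.mp hρ).2)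
  have hlc : I.leadingCoeff ≠ 0 := leadingCoeff_ne_zero.mpr hI0
  have hI' : I = (Sin.map fun ρ => X - C ρ).prod * (C (I.leadingCoeff * e) * (1 - J)) := by
    conv_lhs => rw [hsplit, ← hroots, Multiset.map_add, Multiset.prod_add, hprod]
    rw [C_mul]
    ring
  have hden : h1v_Den L x b I := hI
  rw [hI'] at hden
  have h1 := H.den_prod Sin (fun ρ hρ => (Multiset.mem_filter.mp hρ).2) _ hden
  exact ⟨J, hJ, h1.of_const_mul (mul_ne_zero hlc he)⟩

end

end Fermat.Agent.S18x
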