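/-
S18x/CpnLiftBridge (helper77): row D of the CUSPN(b) twin, part 2 (Mathlib + `h1v_` only).
Bridges between the polynomial language of block H1V (`h1v_Int L x y`, `h1v_Den`) and the ring
language of the consumers (`Algebra.adjoin L {x}` = `ringA L x`,
`integralClosure (Algebra.adjoin L {x}) F` = `ringB L x`).
-/
import Fermat.Agent.S18x.H1vRoot

set_option autoImplicit false

namespace Fermat.Agent.S18x

open Polynomial

section Bridge

variable {L F : Type*} [Field L] [Field F] [Algebra L F]

theorem cpnd_coe_aeval (x : F) (q : L[X]) :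
    ((aeval (R := L) (⟨x, Algebra.self_mem_adjoin_singleton L x⟩ : Algebra.adjoin L {x}) q :
      Algebra.adjoin L {x}) : F) = aeval x q :=
  aeval_subalgebra_coe q (Algebra.adjoin L {x}) ⟨x, Algebra.self_mem_adjoin_singleton L x⟩

/-- the canonical map `L[X] → L[x]` is onto -/
theorem cpnd_adjoin_surj (x : F) : Function.Surjective
    (aeval (R := L) (⟨x, Algebra.self_mem_adjoin_singleton L x⟩ : Algebra.adjoin L {x})) := by
  rintro ⟨z, hz⟩
  have hz' : z ∈ (aeval (R := L) x).range := by
    rw [← Algebra.adjoin_singleton_eq_range_aeval]; exact hz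
  obtain ⟨q, hq⟩ := hz'
  refine ⟨q, Subtype.ext ?_⟩
  rw [cpnd_coe_aeval]
  exact hq

theorem cpnd_comp_eq (x : F) :
    (algebraMap (Algebra.adjoin L {x}) F).comp
      (aeval (R := L) (⟨x, Algebra.self_mem_adjoin_singleton L x⟩ :
        Algebra.adjoin L {x})).toRingHom = (aeval (R := L) x).toRingHom := by
  ext q
  · simp
  · simp

/-- `h1v_Int L x y` is integrality over the subalgebra `L[x]`. -/
theorem cpnd_int_iff (x y : F) : h1v_Int L x y ↔ IsIntegral (Algebra.adjoin L {x}) y := by
  constructor
  · intro h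
    have h' : ((algebraMap (Algebra.adjoin L {x}) F).comp
      (aeval (R := L) (⟨x, Algebra.self_mem_adjoin_singleton L x⟩ :
        Algebra.adjoin L {x})).toRingHom).IsIntegralElem y := by
      rw [cpnd_comp_eq]; exact h
    exact RingHom.IsIntegralElem.of_comp h'
  · rintro ⟨p, hp, hpy⟩
    set g : L[X] →+* Algebra.adjoin L {x} :=
      (aeval (R := L) (⟨x, Algebra.self_mem_adjoin_singleton L x⟩ :
        Algebra.adjoin L {x})).toRingHom with hg
    have hgs : Function.Surjective g := cpnd_adjoin_surj x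
    have hlift : p ∈ Polynomial.lifts g :=
      (Polynomial.mem_lifts p).mpr (Polynomial.map_surjective g hgs p)
    obtain ⟨P, hPmap, -, hPmonic⟩ := Polynomial.lifts_and_natDegree_eq_and_monic hlift hp
    refine ⟨P, hPmonic, ?_⟩
    have : (aeval (R := L) x).toRingHom = (algebraMap (Algebra.adjoin L {x}) F).comp g := by
      rw [hg, cpnd_comp_eq]
    rw [this, ← Polynomial.eval₂_map, hPmap]
    exact hpy

theorem cpnd_int_iff_mem (x y : F) :
    h1v_Int L x y ↔ y ∈ integralClosure (Algebra.adjoin L {x}) F :=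
  cpnd_int_iff x y

/-- finiteness of the integral closure of `L[x]`, in the polynomial language of `h1v_Hyp.fg`. -/
theorem cpnd_fg_of_finite (x : F)
    [Module.Finite (Algebra.adjoin L {x}) (integralClosure (Algebra.adjoin L {x}) F)] :
    ∃ (r : ℕ) (Y : Fin r → F), (∀ j, h1v_Int L x (Y j)) ∧
      ∀ y, h1v_Int L x y → ∃ p : Fin r → L[X], y = ∑ j, aeval x (p j) * Y j := by
  classical
  obtain ⟨r, s, hs⟩ := Module.Finite.exists_fin (R := Algebra.adjoin L {x})
    (M := integralClosure (Algebra.adjoin L {x}) F)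
  refine ⟨r, fun j => (s j : F), fun j => (cpnd_int_iff_mem x _).mpr (s j).2, fun y hy => ?_⟩
  have hy' : y ∈ integralClosure (Algebra.adjoin L {x}) F := (cpnd_int_iff_mem x y).mp hy
  have hmem : (⟨y, hy'⟩ : integralClosure (Algebra.adjoin L {x}) F) ∈
      Submodule.span (Algebra.adjoin L {x}) (Set.range s) := by
    rw [hs]; exact Submodule.mem_top
  obtain ⟨c, hc⟩ := (Submodule.mem_span_range_iff_exists_fun _).mp hmem
  choose p hp using fun j => cpnd_adjoin_surj x (c j)
  refine ⟨p, ?_⟩
  have h1 := congrArg (fun z : integralClosure (Algebra.adjoin L {x}) F => (z : F)) hc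
  simp only at h1
  rw [← h1]
  rw [AddSubmonoidClass.coe_finsetSum]
  refine Finset.sum_congr rfl fun j _ => ?_
  rw [← cpnd_coe_aeval x (p j), hp j]
  rfl

/-- the denominator property `h1v_Den` in ring form (the `hden` input of `cpn_ff`). -/
theorem cpnd_den_ring (x : F) (hx : Transcendental L x) {n : ℕ} (b : Fin n → F)
    (hb : ∀ i, h1v_Int L x (b i)) (I : L[X]) (hI : h1v_Den L x b I)
    (z : integralClosure (Algebra.adjoin L {x}) F) :
    ∃ c : Fin n → Algebra.adjoin L {x},
      (Polynomial.algEquivOfTranscendental L x hx).toRingEquiv I • z =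
        ∑ i, c i • (⟨b i, (cpnd_int_iff_mem x (b i)).mp (hb i)⟩ :
          integralClosure (Algebra.adjoin L {x}) F) := by
  classical
  obtain ⟨c, hc⟩ := hI (z : F) ((cpnd_int_iff_mem x _).mpr z.2)
  refine ⟨fun i => aeval (R := L)
    (⟨x, Algebra.self_mem_adjoin_singleton L x⟩ : Algebra.adjoin L {x}) (c i), ?_⟩
  apply Subtype.ext
  rw [AddSubmonoidClass.coe_finsetSum]
  have h1 : ((((Polynomial.algEquivOfTranscendental L x hx).toRingEquiv I •
      z : integralClosure (Algebra.adjoin L {x}) F)) : F) = aeval x I * (z : F) := by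
    rw [← cpnd_coe_aeval x I]
    rfl
  rw [h1, hc]
  refine Finset.sum_congr rfl fun i _ => ?_
  rw [← cpnd_coe_aeval x (c i)]
  rfl

end Bridge

section Small

variable {L : Type*} [Field L] {A : ValuationSubring L}

/-- `1 - J` with `J` small has no roots in `A` (the `hI` input of `cpn_ff`). -/
theorem cpnd_one_sub_small_eval_ne_zero {J : L[X]} (hJ : h1v_SmallPoly A J) {c : L} (hc : c ∈ A) :
    (1 - J).eval c ≠ 0 := by
  intro h
  rw [eval_sub, eval_one, sub_eq_zero] at h
  have h1 := hJ.eval_lt hc
  rw [← h, Valuation.map_one] at h1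
  exact lt_irrefl _ h1

end Small

end Fermat.Agent.S18x
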