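/-
S18x/DflElim (helper21): abstract "defectless" module, part 2.

Max-norm Gaussian elimination over an arbitrary valued field: every finite-dimensional
`L`-subspace `U` of `J →₀ L` has a basis with coordinates in the valuation ring `A` whose
coordinatewise reductions are `k`-linearly independent (`dfl_elim`).

Consequence (`dfl_exists_lifts_of_le_range`): if `x : J → W` has `k`-independent reductions and
`U` is a subspace of the `L`-span of the `x j` of finrank `r`, then `U ∩ W` contains `r` elements
with `k`-independent reductions.
-/
import Fermat.Agent.S18x.DflBasic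

set_option autoImplicit false

namespace Fermat.Agent.S18x

open Module

section Elim

variable {L k : Type*} [Field L] [Field k]

/-- **Gaussian elimination with maximal pivots.** -/
theorem dfl_elim (A : ValuationSubring L) (π : A →+* k) {J : Type*} :
    ∀ (r : ℕ) (U : Submodule L (J →₀ L)), finrank L U = r →
      ∃ v : Fin r → (J →₀ L), (∀ i, v i ∈ U) ∧ (∀ i j, v i j ∈ A) ∧
        LinearIndependent k (fun i => dfl_resF A π (v i)) := by
  intro r
  induction r with
  | zero =>
    intro U _
    exact ⟨fun i => i.elim0, fun i => i.elim0, fun i => i.elim0, linearIndependent_empty_type⟩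
  | succ r ih =>
    intro U hU
    have : FiniteDimensional L U := FiniteDimensional.of_finrank_pos (by rw [hU]; exact Nat.succ_pos r)
    -- a nonzero element of `U`
    obtain ⟨⟨z, hzU⟩, hz0⟩ : ∃ z : U, z ≠ 0 := by
      have : 0 < finrank L U := by rw [hU]; exact Nat.succ_pos r
      exact (Module.finrank_pos_iff_exists_ne_zero (R := L) (M := U)).mp this
    have hz : z ≠ 0 := fun h => hz0 (Subtype.ext h)
    obtain ⟨s, hs0, hmax⟩ := dfl_exists_max A z hz
    set w : J →₀ L := (z s)⁻¹ • z with hw
    have hwU : w ∈ U := U.smul_mem _ hzU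
    have hwA : ∀ j, w j ∈ A := fun j => by
      rw [hw, Finsupp.smul_apply, smul_eq_mul, mul_comm, ← div_eq_mul_inv]
      exact hmax j
    have hws : w s = 1 := by
      rw [hw, Finsupp.smul_apply, smul_eq_mul, inv_mul_cancel₀ hs0]
    -- the hyperplane section
    set f : U →ₗ[L] L := (Finsupp.lapply s).domRestrict U with hf
    have hfsurj : LinearMap.range f = ⊤ := by
      rw [LinearMap.range_eq_top]
      intro a
      refine ⟨a • ⟨w, hwU⟩, ?_⟩
      rw [map_smul, hf, LinearMap.domRestrict_apply, Finsupp.lapply_apply]
      show a • w s = a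
      rw [hws, smul_eq_mul, mul_one]
    have hker : finrank L (LinearMap.ker f) = r := by
      have h1 := LinearMap.finrank_range_add_finrank_ker (K := L) (V := U) (V₂ := L) f
      rw [hfsurj, finrank_top, finrank_self, hU] at h1
      omega
    set U' : Submodule L (J →₀ L) := (LinearMap.ker f).map U.subtype with hU'
    have hU'r : finrank L U' = r := by
      rw [hU', ← hker]
      exact (Submodule.equivMapOfInjective U.subtype U.injective_subtype _).symm.finrank_eq
    have hU'mem : ∀ y, y ∈ U' → y ∈ U ∧ y s = 0 := by
      intro y hy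
      rw [hU', Submodule.mem_map] at hy
      obtain ⟨y', hy', rfl⟩ := hy
      refine ⟨y'.2, ?_⟩
      have := LinearMap.mem_ker.mp hy'
      rwa [hf, LinearMap.domRestrict_apply, Finsupp.lapply_apply] at this
    obtain ⟨v', hv'U, hv'A, hv'ind⟩ := ih U' hU'r
    refine ⟨Fin.cons w v', ?_, ?_, ?_⟩
    · intro i
      refine Fin.cases ?_ (fun i => ?_) i
      · simpa using hwU
      · simpa using (hU'mem _ (hv'U i)).1
    · intro i j
      refine Fin.cases ?_ (fun i => ?_) i
      · simpa using hwA j
      · simpa using hv'A i j
    · have hcons : (fun i => dfl_resF A π ((Fin.cons w v' : Fin (r + 1) → (J →₀ L)) i))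
          = Fin.cons (dfl_resF A π w) (fun i => dfl_resF A π (v' i)) := by
        funext i
        refine Fin.cases ?_ (fun i => ?_) i
        · simp
        · simp
      rw [hcons, linearIndependent_finCons]
      refine ⟨hv'ind, fun hmem => ?_⟩
      -- the `s`-coordinate vanishes on the span but not on the reduction of `w`
      have hle : Submodule.span k (Set.range fun i => dfl_resF A π (v' i))
          ≤ LinearMap.ker (Finsupp.lapply (M := k) (R := k) s) := by
        rw [Submodule.span_le]
        rintro _ ⟨i, rfl⟩
        show (Finsupp.lapply (M := k) (R := k) s) (dfl_resF A π (v' i)) = 0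
        rw [Finsupp.lapply_apply, dfl_resF_apply, (hU'mem _ (hv'U i)).2, dfl_res_zero]
      have h0 := hle hmem
      have h0' : (Finsupp.lapply (M := k) (R := k) s) (dfl_resF A π w) = 0 := h0
      rw [Finsupp.lapply_apply, dfl_resF_apply, hws, dfl_res_one] at h0'
      exact one_ne_zero h0'

end Elim

section Transport

variable {L k F Fb : Type*} [Field L] [Field k] [Field F] [Field Fb] [Algebra L F] [Algebra k Fb]
variable {A : ValuationSubring L} {π : A →+* k} {W : ValuationSubring F} {ρ : W →+* Fb}

/-- If `U` (of finrank `r`) lies in the `L`-span of an orthonormal family `x`, then `U ∩ W`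
contains `r` elements with `k`-independent reductions. -/
theorem dfl_exists_lifts_of_le_range (H : dfl_Hyp A π W ρ) {J : Type*} (x : J → W)
    (hx : LinearIndependent k (fun j => ρ (x j))) (U : Submodule L F)
    (hU : U ≤ LinearMap.range (dfl_phi L W x)) :
    ∃ y : Fin (finrank L U) → W, (∀ i, ((y i : W) : F) ∈ U) ∧
      LinearIndependent k (fun i => ρ (y i)) := by
  have hinj := dfl_phi_injective H x hx
  set U₀ : Submodule L (J →₀ L) := U.comap (dfl_phi L W x) with hU₀
  have hmap : U₀.map (dfl_phi L W x) = U := by
    rw [hU₀, Submodule.map_comap_eq, inf_eq_right.mpr hU]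
  have hr : finrank L U₀ = finrank L U := by
    rw [← hmap]
    exact (Submodule.equivMapOfInjective _ hinj U₀).finrank_eq
  obtain ⟨v, hvU, hvA, hvind⟩ := dfl_elim A π (finrank L U) U₀ hr
  refine ⟨fun i => dfl_sumW W x (v i), fun i => ?_, ?_⟩
  · rw [dfl_sumW_coe H x (v i) (hvA i)]
    exact hvU i
  · have : (fun i => ρ (dfl_sumW W x (v i)))
        = (Finsupp.linearCombination k fun j => ρ (x j)) ∘ (fun i => dfl_resF A π (v i)) := by
      funext i
      exact dfl_rho_sumW H x (v i) (hvA i)
    rw [this]
    exact hvind.map' _ (linearIndependent_iff_ker.mp hx)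

end Transport

end Fermat.Agent.S18x
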