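/-
S18x/DfmMain (helper21; supersedes DflMain, whose `dfl_exists_basis` clashes with S18x/DflPivot): abstract "defectless" module, part 3 (main theorem).

Setting as in `DflBasic` (`A ⊆ L`, `W ⊆ F`, residue maps `π`, `ρ`).  Suppose `t ∈ W` has
transcendental reduction and `b i ∈ W` (`i : ι`, finite) have reductions independent over
`k[ρ t]` and span `F` over `L(t)` (polynomial form).  Then for EVERY finite-dimensional
`L`-subspace `V` of `F`:

* `dfm_exists_basis`: `V ∩ W` contains `finrank L V` elements with `k`-independent reductions;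
* `dfm_finrank_red_eq`: `finrank k (dfl_red H V) = finrank L V`  (`dfl_red H V = ρ (V ∩ W)`);
* `dfm_unitBall_eq`: any family in `V ∩ W` of cardinality `finrank L V` with `k`-independent
  reductions is an `A`-basis of the unit ball `V ∩ W`.
-/
import Fermat.Agent.S18x.DflElim

set_option autoImplicit false

namespace Fermat.Agent.S18x

open Module Polynomial

section Main

variable {L k F Fb : Type*} [Field L] [Field k] [Field F] [Field Fb] [Algebra L F] [Algebra k Fb]
variable {A : ValuationSubring L} {π : A →+* k} {W : ValuationSubring F} {ρ : W →+* Fb}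

/-- The family `t ^ m * b i`, indexed by `ι × ℕ`. -/
def dfm_tb {ι : Type*} (t : W) (b : ι → W) (j : ι × ℕ) : W := t ^ j.2 * b j.1

/-- Independence over `k[ρ t]` of the `ρ (b i)` gives `k`-independence of the `ρ (t^m * b i)`. -/
theorem dfm_tb_indep {ι : Type*} [Fintype ι] (t : W) (b : ι → W)
    (hb : ∀ p : ι → k[X], ∑ i, aeval (ρ t) (p i) * ρ (b i) = 0 → ∀ i, p i = 0) :
    LinearIndependent k (fun j : ι × ℕ => ρ (dfm_tb t b j)) := by
  classical
  rw [linearIndependent_iff]
  intro c hc
  rw [Finsupp.linearCombination_apply, Finsupp.sum] at hc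
  set p : ι → k[X] := fun i => ∑ j ∈ c.support, if j.1 = i then monomial j.2 (c j) else 0 with hp
  have hsum : ∑ i, aeval (ρ t) (p i) * ρ (b i) = 0 := by
    rw [← hc]
    simp only [hp, map_sum, Finset.sum_mul]
    rw [Finset.sum_comm]
    refine Finset.sum_congr rfl fun j _ => ?_
    rw [Finset.sum_eq_single j.1]
    · rw [if_pos rfl, aeval_monomial, dfm_tb, map_mul, map_pow, Algebra.smul_def, mul_assoc]
    · intro i _ hij
      rw [if_neg (Ne.symm hij), map_zero, zero_mul]
    · intro h
      exact absurd (Finset.mem_univ _) h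
  have hp0 := hb p hsum
  ext ⟨i, m⟩
  have hcoeff : (p i).coeff m = c (i, m) := by
    simp only [hp, finsetSum_coeff]
    by_cases hmem : (i, m) ∈ c.support
    · rw [Finset.sum_eq_single (i, m)]
      · rw [if_pos rfl, coeff_monomial, if_pos rfl]
      · rintro ⟨i', m'⟩ _ hne
        by_cases hi : i' = i
        · subst hi
          rw [if_pos rfl, coeff_monomial, if_neg]
          intro hm
          exact hne (Prod.ext rfl hm)
        · rw [if_neg hi, coeff_zero]
      · intro h
        exact absurd hmem h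
    · rw [Finsupp.notMem_support_iff.mp hmem]
      refine Finset.sum_eq_zero ?_
      rintro ⟨i', m'⟩ hj
      by_cases hi : i' = i
      · subst hi
        rw [if_pos rfl, coeff_monomial, if_neg]
        intro hm
        subst hm
        exact hmem hj
      · rw [if_neg hi, coeff_zero]
  rw [Finsupp.zero_apply, ← hcoeff, hp0 i, coeff_zero]

/-- The reductions of the powers of `t` are `k`-independent when `ρ t` is transcendental. -/
theorem dfm_pow_indep (t : W) (ht : Transcendental k (ρ t)) :
    LinearIndependent k (fun m : ℕ => ρ (t ^ m)) := by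
  classical
  rw [linearIndependent_iff]
  intro c hc
  rw [Finsupp.linearCombination_apply, Finsupp.sum] at hc
  set p : k[X] := ∑ m ∈ c.support, monomial m (c m) with hp
  have h0 : aeval (ρ t) p = 0 := by
    rw [← hc, hp, map_sum]
    refine Finset.sum_congr rfl fun m _ => ?_
    rw [aeval_monomial, map_pow, Algebra.smul_def]
  have hp0 := (transcendental_iff.mp ht) _ h0
  ext m
  have hcoeff : p.coeff m = c m := by
    simp only [hp, finsetSum_coeff, coeff_monomial]
    rw [Finset.sum_ite_eq' c.support m]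
    split_ifs with hm
    · rfl
    · exact (Finsupp.notMem_support_iff.mp hm).symm
  rw [Finsupp.zero_apply, ← hcoeff, hp0, coeff_zero]

/-- The coefficient vector of a polynomial, as a finitely supported function. -/
noncomputable def dfm_coeffF (d : L[X]) : ℕ →₀ L :=
  Finsupp.onFinset d.support d.coeff (fun _ hm => Polynomial.mem_support_iff.mpr hm)

@[simp] theorem dfm_coeffF_apply (d : L[X]) (m : ℕ) : dfm_coeffF d m = d.coeff m := rfl

theorem dfm_coeffF_ne_zero {d : L[X]} (hd : d ≠ 0) : dfm_coeffF d ≠ 0 := by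
  intro h
  apply hd
  ext m
  rw [← dfm_coeffF_apply, h, Finsupp.zero_apply, coeff_zero]

/-- `aeval t d` as a combination of the powers family. -/
theorem dfm_aeval_eq_phi (t : W) (d : L[X]) :
    aeval ((t : W) : F) d = dfl_phi L W (fun m : ℕ => t ^ m) (dfm_coeffF d) := by
  rw [dfl_phi, Finsupp.linearCombination_apply, dfm_coeffF,
    Finsupp.onFinset_sum (g := fun m a => a • ((t ^ m : W) : F)) _ (fun _ => zero_smul L _),
    aeval_def, eval₂_eq_sum, Polynomial.sum_def]
  refine Finset.sum_congr rfl fun m _ => ?_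
  rw [Algebra.smul_def]
  rfl

/-- A nonzero polynomial in `t` is a nonzero constant times a unit of `W`. -/
theorem dfm_aeval_eq_smul_unit (H : dfl_Hyp A π W ρ) (t : W) (ht : Transcendental k (ρ t))
    (d : L[X]) (hd : d ≠ 0) :
    ∃ (a : L) (u : W), a ≠ 0 ∧ IsUnit u ∧ aeval ((t : W) : F) d = a • ((u : W) : F) := by
  obtain ⟨s, hs0, -, u, hu, hφ⟩ :=
    dfl_exists_unit H (fun m : ℕ => t ^ m) (dfm_pow_indep t ht) (dfm_coeffF d)
      (dfm_coeffF_ne_zero hd)
  exact ⟨_, u, hs0, hu, by rw [dfm_aeval_eq_phi, hφ]⟩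

/-- The `L[t]`-module generated by the `b i`, as an `L`-subspace of `F`. -/
noncomputable def dfm_M (L : Type*) [Field L] [Algebra L F] {ι : Type*} (t : W) (b : ι → W) : Submodule L F :=
  LinearMap.range (dfl_phi L W (dfm_tb t b))

theorem dfm_M_eq_span {ι : Type*} (t : W) (b : ι → W) :
    dfm_M L t b = Submodule.span L (Set.range fun j : ι × ℕ => ((dfm_tb t b j : W) : F)) := by
  rw [dfm_M, dfl_phi, Finsupp.range_linearCombination]

theorem dfm_M_pow_mul_mem {ι : Type*} (t : W) (b : ι → W) (n : ℕ) {y : F}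
    (hy : y ∈ dfm_M L t b) : ((t : W) : F) ^ n * y ∈ dfm_M L t b := by
  have hle : (dfm_M L t b).map (LinearMap.mulLeft L (((t : W) : F) ^ n)) ≤ dfm_M L t b := by
    rw [dfm_M_eq_span, Submodule.map_span, Submodule.span_le]
    rintro _ ⟨_, ⟨⟨i, m⟩, rfl⟩, rfl⟩
    refine Submodule.subset_span ⟨(i, n + m), ?_⟩
    simp only [dfm_tb, LinearMap.mulLeft_apply, MulMemClass.coe_mul, SubmonoidClass.coe_pow]
    rw [pow_add, mul_assoc]
  exact hle (Submodule.mem_map_of_mem hy)

theorem dfm_M_aeval_mul_mem {ι : Type*} (t : W) (b : ι → W) (q : L[X]) {y : F}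
    (hy : y ∈ dfm_M L t b) : aeval ((t : W) : F) q * y ∈ dfm_M L t b := by
  induction q using Polynomial.induction_on' with
  | add p q hp hq =>
    rw [map_add, add_mul]
    exact (dfm_M L t b).add_mem hp hq
  | monomial n a =>
    rw [aeval_monomial, ← Algebra.smul_def, smul_mul_assoc]
    exact (dfm_M L t b).smul_mem _ (dfm_M_pow_mul_mem t b n hy)

theorem dfm_b_mem_M {ι : Type*} (t : W) (b : ι → W) (i : ι) :
    ((b i : W) : F) ∈ dfm_M L t b := by
  rw [dfm_M_eq_span]
  refine Submodule.subset_span ⟨(i, 0), ?_⟩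
  simp [dfm_tb]

/-- Common denominators: a finite-dimensional `V` is carried into `dfm_M` by a nonzero polynomial
in `t`. -/
theorem dfm_exists_denominator {ι : Type*} [Fintype ι] (t : W) (b : ι → W)
    (hspan : ∀ x : F, ∃ (d : L[X]) (p : ι → L[X]), d ≠ 0 ∧
      aeval ((t : W) : F) d * x = ∑ i, aeval ((t : W) : F) (p i) * ((b i : W) : F))
    (V : Submodule L F) (hV : V.FG) :
    ∃ d : L[X], d ≠ 0 ∧ ∀ y ∈ V, aeval ((t : W) : F) d * y ∈ dfm_M L t b := by
  refine Submodule.fg_induction
    (motive := fun V _ => ∃ d : L[X], d ≠ 0 ∧ ∀ y ∈ V, aeval ((t : W) : F) d * y ∈ dfm_M L t b)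
    ?_ ?_ V hV
  · intro x
    obtain ⟨d, p, hd, hdx⟩ := hspan x
    refine ⟨d, hd, fun y hy => ?_⟩
    obtain ⟨a, rfl⟩ := Submodule.mem_span_singleton.mp hy
    rw [mul_smul_comm, hdx]
    refine (dfm_M L t b).smul_mem _ (Submodule.sum_mem _ fun i _ => ?_)
    exact dfm_M_aeval_mul_mem t b (p i) (dfm_b_mem_M t b i)
  · intro V₁ V₂ _ _ h₁ h₂
    obtain ⟨d₁, hd₁, h₁⟩ := h₁
    obtain ⟨d₂, hd₂, h₂⟩ := h₂
    refine ⟨d₁ * d₂, mul_ne_zero hd₁ hd₂, fun y hy => ?_⟩
    obtain ⟨y₁, hy₁, y₂, hy₂, rfl⟩ := Submodule.mem_sup.mp hy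
    rw [map_mul, mul_add]
    refine (dfm_M L t b).add_mem ?_ ?_
    · rw [mul_comm (aeval ((t : W) : F) d₁), mul_assoc]
      exact dfm_M_aeval_mul_mem t b d₂ (h₁ y₁ hy₁)
    · rw [mul_assoc]
      exact dfm_M_aeval_mul_mem t b d₁ (h₂ y₂ hy₂)

/-- **Existence of orthonormal bases.**  Every finite-dimensional `L`-subspace `V` of `F`
contains `finrank L V` elements of `W` with `k`-independent reductions. -/
theorem dfm_exists_basis (H : dfl_Hyp A π W ρ) (t : W) (ht : Transcendental k (ρ t))
    {ι : Type*} [Fintype ι] (b : ι → W)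
    (hb : ∀ p : ι → k[X], ∑ i, aeval (ρ t) (p i) * ρ (b i) = 0 → ∀ i, p i = 0)
    (hspan : ∀ x : F, ∃ (d : L[X]) (p : ι → L[X]), d ≠ 0 ∧
      aeval ((t : W) : F) d * x = ∑ i, aeval ((t : W) : F) (p i) * ((b i : W) : F))
    (V : Submodule L F) [FiniteDimensional L V] :
    ∃ y : Fin (finrank L V) → W, (∀ i, ((y i : W) : F) ∈ V) ∧
      LinearIndependent k (fun i => ρ (y i)) := by
  have hVfg : V.FG := Module.Finite.iff_fg.mp inferInstance
  obtain ⟨d, hd, hdV⟩ := dfm_exists_denominator t b hspan V hVfg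
  obtain ⟨a, u, ha, hu, hdu⟩ := dfm_aeval_eq_smul_unit H t ht d hd
  obtain ⟨v, huv⟩ := hu.exists_right_inv
  have huvF : ((u : W) : F) * ((v : W) : F) = 1 := by
    have := congrArg Subtype.val huv
    simpa only [MulMemClass.coe_mul, OneMemClass.coe_one] using this
  have hu0 : ((u : W) : F) ≠ 0 := left_ne_zero_of_mul_eq_one huvF
  -- the subspace `u • V`
  set U : Submodule L F := V.map (LinearMap.mulLeft L ((u : W) : F)) with hU
  have hinj : Function.Injective (LinearMap.mulLeft L ((u : W) : F)) := by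
    intro y z hyz
    exact mul_left_cancel₀ hu0 hyz
  have hUr : finrank L U = finrank L V :=
    ((Submodule.equivMapOfInjective _ hinj V).finrank_eq).symm
  have hUM : U ≤ LinearMap.range (dfl_phi L W (dfm_tb t b)) := by
    rintro _ ⟨y, hy, rfl⟩
    have h1 := hdV y hy
    rw [hdu, smul_mul_assoc] at h1
    have h2 := (dfm_M L t b).smul_mem a⁻¹ h1
    rwa [smul_smul, inv_mul_cancel₀ ha, one_smul] at h2
  obtain ⟨y, hyU, hyind⟩ :=
    dfl_exists_lifts_of_le_range H (dfm_tb t b) (dfm_tb_indep t b hb) U hUM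
  refine ⟨fun i => v * y (Fin.cast hUr.symm i), fun i => ?_, ?_⟩
  · obtain ⟨z, hz, hzy⟩ := hyU (Fin.cast hUr.symm i)
    rw [LinearMap.mulLeft_apply] at hzy
    rw [MulMemClass.coe_mul, ← hzy, ← mul_assoc, mul_comm ((v : W) : F), huvF, one_mul]
    exact hz
  · have hρv : ρ v ≠ 0 := by
      intro h0
      have : ρ u * ρ v = 1 := by rw [← map_mul, huv, map_one]
      rw [h0, mul_zero] at this
      exact zero_ne_one this
    have h1 : LinearIndependent k (fun i : Fin (finrank L V) => ρ (y (Fin.cast hUr.symm i))) :=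
      hyind.comp _ (Fin.cast_injective _)
    have h2 : (fun i : Fin (finrank L V) => ρ (v * y (Fin.cast hUr.symm i)))
        = (LinearMap.mulLeft k (ρ v)) ∘ (fun i => ρ (y (Fin.cast hUr.symm i))) := by
      funext i
      simp [map_mul]
    rw [h2]
    refine h1.map' _ ?_
    rw [LinearMap.ker_eq_bot]
    intro y z hyz
    exact mul_left_cancel₀ hρv hyz

/-- **Defectless.**  `dim_k ρ(V ∩ W) = dim_L V` for every finite-dimensional `V`. -/
theorem dfm_finrank_red_eq (H : dfl_Hyp A π W ρ) (t : W) (ht : Transcendental k (ρ t))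
    {ι : Type*} [Fintype ι] (b : ι → W)
    (hb : ∀ p : ι → k[X], ∑ i, aeval (ρ t) (p i) * ρ (b i) = 0 → ∀ i, p i = 0)
    (hspan : ∀ x : F, ∃ (d : L[X]) (p : ι → L[X]), d ≠ 0 ∧
      aeval ((t : W) : F) d * x = ∑ i, aeval ((t : W) : F) (p i) * ((b i : W) : F))
    (V : Submodule L F) [FiniteDimensional L V] :
    finrank k (dfl_red H V) = finrank L V := by
  refine le_antisymm (dfl_finrank_red_le H V) ?_
  obtain ⟨y, hyV, hyind⟩ := dfm_exists_basis H t ht b hb hspan V
  have h2 : LinearIndependent k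
      (fun i => (⟨ρ (y i), dfl_rho_mem_red H (y i) (hyV i)⟩ : dfl_red H V)) :=
    LinearIndependent.of_comp (dfl_red H V).subtype hyind
  have := h2.fintype_card_le_finrank
  rwa [Fintype.card_fin] at this

/-- **Unit balls are free.**  A family in `V ∩ W` of cardinality `finrank L V` with
`k`-independent reductions spans the unit ball `V ∩ W` over `A`. -/
theorem dfm_unitBall_eq (H : dfl_Hyp A π W ρ) (V : Submodule L F) [FiniteDimensional L V]
    {J : Type*} [Fintype J] (y : J → W) (hyV : ∀ j, ((y j : W) : F) ∈ V)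
    (hy : LinearIndependent k (fun j => ρ (y j))) (hcard : Fintype.card J = finrank L V)
    {z : F} (hzV : z ∈ V) (hzW : z ∈ W) :
    ∃ a : J → A, z = ∑ j, ((a j : A) : L) • ((y j : W) : F) := by
  classical
  have h1 := dfl_linearIndependent_of_red H y hy
  have h2 : LinearIndependent L (fun j => (⟨((y j : W) : F), hyV j⟩ : V)) :=
    LinearIndependent.of_comp V.subtype h1
  have hspan := h2.span_eq_top_of_card_eq_finrank' hcard
  have hz : (⟨z, hzV⟩ : V) ∈ Submodule.span L (Set.range fun j => (⟨((y j : W) : F), hyV j⟩ : V)) := by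
    rw [hspan]; exact Submodule.mem_top
  obtain ⟨c, hc⟩ := (Submodule.mem_span_range_iff_exists_fun L).mp hz
  have hcz : z = ∑ j, c j • ((y j : W) : F) := by
    have := congrArg (Subtype.val) hc
    simp only [Submodule.coe_sum, Submodule.coe_smul] at this
    exact this.symm
  set cF : J →₀ L := Finsupp.equivFunOnFinite.symm c with hcF
  have hφ : dfl_phi L W y cF = z := by
    rw [dfl_phi, Finsupp.linearCombination_apply,
      Finsupp.sum_fintype cF (fun j a => a • ((y j : W) : F)) (fun _ => zero_smul L _), hcz]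
    rfl
  have hA := dfl_coeff_mem_of_mem H y hy cF (by rw [hφ]; exact hzW)
  exact ⟨fun j => ⟨c j, hA j⟩, hcz⟩

end Main

end Fermat.Agent.S18x
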