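/-
S18x/DfmSpan (helper21; supersedes DflSpan): abstract "defectless" module, part 4 (consumer conveniences).

* `dfm_hb_of_linearIndependent`: the polynomial-form independence hypothesis `hb` of `DflMain`
  from `LinearIndependent k⟮ρ t⟯ (ρ ∘ b)`.
* `dfm_poly_indep`: `∑ i, q_i(t) * b i = 0 → q = 0` over `L` (lift of `hb`).
* `dfm_linearIndependent_adjoin`: the `b i` are `L⟮t⟯`-linearly independent.
* `dfm_hspan_of_finrank`: the polynomial-form spanning hypothesis `hspan` of `DflMain` from
  `finrank L⟮t⟯ F = card ι`.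
* `dfm_finrank_red_eq_of_finrank`: the main theorem with these inputs.
-/
import Fermat.Agent.S18x.DfmMain

set_option autoImplicit false

namespace Fermat.Agent.S18x

open Module Polynomial IntermediateField

section Span

variable {L k F Fb : Type*} [Field L] [Field k] [Field F] [Field Fb] [Algebra L F] [Algebra k Fb]
variable {A : ValuationSubring L} {π : A →+* k} {W : ValuationSubring F} {ρ : W →+* Fb}

theorem dfm_hb_of_linearIndependent (t : W) (ht : Transcendental k (ρ t))
    {ι : Type*} [Fintype ι] (b : ι → W)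
    (h : LinearIndependent k⟮ρ t⟯ (fun i => ρ (b i))) :
    ∀ p : ι → k[X], ∑ i, aeval (ρ t) (p i) * ρ (b i) = 0 → ∀ i, p i = 0 := by
  intro p hp i
  have hmem : ∀ i, aeval (ρ t) (p i) ∈ k⟮ρ t⟯ := fun i => by
    rw [IntermediateField.mem_adjoin_simple_iff]
    exact ⟨p i, 1, by simp⟩
  have h0 := (Fintype.linearIndependent_iff.mp h) (fun i => ⟨aeval (ρ t) (p i), hmem i⟩)
    (by
      rw [← hp]
      refine Finset.sum_congr rfl fun i _ => ?_
      rw [IntermediateField.smul_def]
      rfl) i
  have h1 : aeval (ρ t) (p i) = 0 := congrArg Subtype.val h0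
  exact (transcendental_iff.mp ht) _ h1

/-- The coefficient vector of a family of polynomials. -/
noncomputable def dfm_coeffFF {ι : Type*} [Fintype ι] (q : ι → L[X]) : ι × ℕ →₀ L :=
  Finsupp.onFinset (Finset.univ ×ˢ (Finset.univ.biUnion fun i => (q i).support))
    (fun j => (q j.1).coeff j.2) (fun j hj => by
      rw [Finset.mem_product]
      exact ⟨Finset.mem_univ _, Finset.mem_biUnion.mpr
        ⟨j.1, Finset.mem_univ _, Polynomial.mem_support_iff.mpr hj⟩⟩)

@[simp] theorem dfm_coeffFF_apply {ι : Type*} [Fintype ι] (q : ι → L[X]) (j : ι × ℕ) :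
    dfm_coeffFF q j = (q j.1).coeff j.2 := rfl

theorem dfm_phi_coeffFF {ι : Type*} [Fintype ι] (t : W) (b : ι → W) (q : ι → L[X]) :
    dfl_phi L W (dfm_tb t b) (dfm_coeffFF q)
      = ∑ i, aeval ((t : W) : F) (q i) * ((b i : W) : F) := by
  classical
  rw [dfl_phi, Finsupp.linearCombination_apply, dfm_coeffFF,
    Finsupp.onFinset_sum (g := fun j a => a • ((dfm_tb t b j : W) : F)) _
      (fun _ => zero_smul L _), Finset.sum_product]
  refine Finset.sum_congr rfl fun i _ => ?_
  rw [aeval_def, eval₂_eq_sum, Polynomial.sum_def, Finset.sum_mul]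
  have hsub : (q i).support ⊆ Finset.univ.biUnion fun i => (q i).support :=
    Finset.subset_biUnion_of_mem (fun i => (q i).support) (Finset.mem_univ i)
  rw [Finset.sum_subset hsub]
  · refine Finset.sum_congr rfl fun m _ => ?_
    simp only [dfm_tb, MulMemClass.coe_mul, SubmonoidClass.coe_pow, Algebra.smul_def, mul_assoc]
  · intro m _ hm
    rw [Polynomial.notMem_support_iff.mp hm, map_zero, zero_mul, zero_mul]

/-- Lift of `hb` to `L`: a polynomial relation among the `b i` over `L[t]` is trivial. -/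
theorem dfm_poly_indep (H : dfl_Hyp A π W ρ) (t : W) {ι : Type*} [Fintype ι] (b : ι → W)
    (hb : ∀ p : ι → k[X], ∑ i, aeval (ρ t) (p i) * ρ (b i) = 0 → ∀ i, p i = 0)
    (q : ι → L[X]) (hq : ∑ i, aeval ((t : W) : F) (q i) * ((b i : W) : F) = 0) : ∀ i, q i = 0 := by
  have hinj := dfl_phi_injective H (dfm_tb t b) (dfm_tb_indep t b hb)
  have h0 : dfm_coeffFF q = 0 := by
    apply hinj
    rw [dfm_phi_coeffFF, hq, map_zero]
  intro i
  ext m
  have := congrArg (fun c => c (i, m)) h0
  simpa using this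

/-- `t` is transcendental over `L`. -/
theorem dfm_transcendental (H : dfl_Hyp A π W ρ) (t : W) (ht : Transcendental k (ρ t)) :
    Transcendental L ((t : W) : F) := by
  rw [transcendental_iff]
  intro d hd
  by_contra hd0
  obtain ⟨a, u, ha, hu, hdu⟩ := dfm_aeval_eq_smul_unit H t ht d hd0
  rw [hd, Algebra.smul_def] at hdu
  rcases mul_eq_zero.mp hdu.symm with h | h
  · exact ha ((map_eq_zero (algebraMap L F)).mp h)
  · have : u = 0 := Subtype.ext h
    rw [this] at hu
    exact not_isUnit_zero hu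

/-- Elements of `L⟮t⟯` are fractions with nonvanishing denominators. -/
theorem dfm_exists_fraction (x : F) (f : L⟮x⟯) :
    ∃ r s : L[X], aeval x s ≠ 0 ∧ (f : F) * aeval x s = aeval x r := by
  obtain ⟨r, s, hrs⟩ := (IntermediateField.mem_adjoin_simple_iff L (f : F)).mp f.2
  by_cases hs : aeval x s = 0
  · refine ⟨0, 1, by simp, ?_⟩
    rw [hrs, hs, div_zero, zero_mul, map_zero]
  · exact ⟨r, s, hs, by rw [hrs, div_mul_cancel₀ _ hs]⟩

theorem dfm_linearIndependent_adjoin (H : dfl_Hyp A π W ρ) (t : W)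
    {ι : Type*} [Fintype ι] (b : ι → W)
    (hb : ∀ p : ι → k[X], ∑ i, aeval (ρ t) (p i) * ρ (b i) = 0 → ∀ i, p i = 0) :
    LinearIndependent L⟮((t : W) : F)⟯ (fun i => ((b i : W) : F)) := by
  classical
  rw [Fintype.linearIndependent_iff]
  intro f hf i
  choose r s hs hrs using fun i => dfm_exists_fraction ((t : W) : F) (f i)
  -- clear denominators
  set q : ι → L[X] := fun i => r i * ∏ i' ∈ Finset.univ.erase i, s i' with hq
  have hS : ∀ i, (f i : F) * aeval ((t : W) : F) (∏ i', s i') = aeval ((t : W) : F) (q i) := by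
    intro i
    rw [hq, ← Finset.mul_prod_erase Finset.univ s (Finset.mem_univ i), map_mul, map_mul,
      ← mul_assoc, hrs i]
  have hsum : ∑ i, aeval ((t : W) : F) (q i) * ((b i : W) : F) = 0 := by
    have h1 : aeval ((t : W) : F) (∏ i', s i') * ∑ i, f i • ((b i : W) : F) = 0 := by
      rw [hf, mul_zero]
    rw [Finset.mul_sum] at h1
    rw [← h1]
    refine Finset.sum_congr rfl fun i _ => ?_
    rw [← hS i, IntermediateField.smul_def, smul_eq_mul]
    ring
  have hq0 := dfm_poly_indep H t b hb q hsum i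
  have hprod : (∏ i' ∈ Finset.univ.erase i, s i') ≠ 0 := by
    rw [Finset.prod_ne_zero_iff]
    intro i' _ h0
    apply hs i'
    rw [h0, map_zero]
  have hr0 : r i = 0 := by
    rcases mul_eq_zero.mp hq0 with h | h
    · exact h
    · exact absurd h hprod
  have hfi : (f i : F) * aeval ((t : W) : F) (s i) = 0 := by rw [hrs i, hr0, map_zero]
  rcases mul_eq_zero.mp hfi with h | h
  · exact Subtype.ext h
  · exact absurd h (hs i)

/-- The spanning hypothesis of `DflMain` from a degree count. -/
theorem dfm_hspan_of_finrank (H : dfl_Hyp A π W ρ) (t : W)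
    {ι : Type*} [Fintype ι] (b : ι → W)
    (hb : ∀ p : ι → k[X], ∑ i, aeval (ρ t) (p i) * ρ (b i) = 0 → ∀ i, p i = 0)
    [FiniteDimensional L⟮((t : W) : F)⟯ F]
    (hfin : finrank L⟮((t : W) : F)⟯ F = Fintype.card ι) :
    ∀ x : F, ∃ (d : L[X]) (p : ι → L[X]), d ≠ 0 ∧
      aeval ((t : W) : F) d * x = ∑ i, aeval ((t : W) : F) (p i) * ((b i : W) : F) := by
  classical
  intro x
  have hli := dfm_linearIndependent_adjoin H t b hb
  have hspan := hli.span_eq_top_of_card_eq_finrank' hfin.symm
  have hx : x ∈ Submodule.span L⟮((t : W) : F)⟯ (Set.range fun i => ((b i : W) : F)) := by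
    rw [hspan]; exact Submodule.mem_top
  obtain ⟨f, hf⟩ := (Submodule.mem_span_range_iff_exists_fun _).mp hx
  choose r s hs hrs using fun i => dfm_exists_fraction ((t : W) : F) (f i)
  refine ⟨∏ i', s i', fun i => r i * ∏ i' ∈ Finset.univ.erase i, s i', ?_, ?_⟩
  · rw [Finset.prod_ne_zero_iff]
    intro i' _ h0
    apply hs i'
    rw [h0, map_zero]
  · rw [← hf, Finset.mul_sum]
    refine Finset.sum_congr rfl fun i _ => ?_
    rw [← Finset.mul_prod_erase Finset.univ s (Finset.mem_univ i), map_mul, map_mul,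
      IntermediateField.smul_def, smul_eq_mul, ← hrs i]
    ring

/-- Main theorem of the defectless module, degree-count form. -/
theorem dfm_finrank_red_eq_of_finrank (H : dfl_Hyp A π W ρ) (t : W)
    (ht : Transcendental k (ρ t)) {ι : Type*} [Fintype ι] (b : ι → W)
    (hb : LinearIndependent k⟮ρ t⟯ (fun i => ρ (b i)))
    [FiniteDimensional L⟮((t : W) : F)⟯ F]
    (hfin : finrank L⟮((t : W) : F)⟯ F = Fintype.card ι)
    (V : Submodule L F) [FiniteDimensional L V] :
    finrank k (dfl_red H V) = finrank L V :=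
  dfm_finrank_red_eq H t ht b (dfm_hb_of_linearIndependent t ht b hb)
    (dfm_hspan_of_finrank H t b (dfm_hb_of_linearIndependent t ht b hb) hfin) V

end Span

end Fermat.Agent.S18x
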