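/-
S18x/H1vHyp (helper77): block H1V of S18, part 2: the abstract hypothesis package `h1v_Hyp`
(Gauss-type valuation ring `W` of `K ⊇ L(x)`, orthonormal lifted basis `b` of the chart ring
`R₀ = {y ∈ W | y integral over L[x]}`) and its first consequences
(Gauss lemma, strict orthonormality).  Mathlib only.
-/
import Fermat.Agent.S18x.H1vBasic

set_option autoImplicit false

namespace Fermat.Agent.S18x

open Polynomial

section Poly

variable {L : Type*} [Field L]

/-- all coefficients in `A` -/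
def h1v_IntPoly (A : ValuationSubring L) (p : L[X]) : Prop := ∀ j, p.coeff j ∈ A

/-- all coefficients in the maximal ideal of `A` -/
def h1v_SmallPoly (A : ValuationSubring L) (p : L[X]) : Prop :=
  ∀ j, A.valuation (p.coeff j) < 1

variable {A : ValuationSubring L} {p q : L[X]}

theorem h1v_SmallPoly.int (hp : h1v_SmallPoly A p) : h1v_IntPoly A p := fun j =>
  (A.valuation_le_one_iff _).mp (hp j).le

theorem h1v_IntPoly_zero : h1v_IntPoly A (0 : L[X]) := fun j => by simp [A.zero_mem]

theorem h1v_SmallPoly_zero : h1v_SmallPoly A (0 : L[X]) := fun j => by simp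

theorem h1v_IntPoly_C {c : L} (hc : c ∈ A) : h1v_IntPoly A (C c) := fun j => by
  rw [coeff_C]; split_ifs
  · exact hc
  · exact A.zero_mem

theorem h1v_IntPoly_one : h1v_IntPoly A (1 : L[X]) := by
  simpa using h1v_IntPoly_C (A := A) A.one_mem

theorem h1v_IntPoly_X : h1v_IntPoly A (X : L[X]) := fun j => by
  rw [coeff_X]; split_ifs
  · exact A.one_mem
  · exact A.zero_mem

theorem h1v_IntPoly.add (hp : h1v_IntPoly A p) (hq : h1v_IntPoly A q) : h1v_IntPoly A (p + q) :=
  fun j => by rw [coeff_add]; exact A.add_mem _ _ (hp j) (hq j)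

theorem h1v_IntPoly.neg (hp : h1v_IntPoly A p) : h1v_IntPoly A (-p) :=
  fun j => by rw [coeff_neg]; exact A.neg_mem _ (hp j)

theorem h1v_IntPoly.sub (hp : h1v_IntPoly A p) (hq : h1v_IntPoly A q) : h1v_IntPoly A (p - q) := by
  rw [sub_eq_add_neg]; exact hp.add hq.neg

theorem h1v_IntPoly.mul (hp : h1v_IntPoly A p) (hq : h1v_IntPoly A q) : h1v_IntPoly A (p * q) :=
  fun j => by
    rw [coeff_mul]
    exact sum_mem fun ij _ => A.mul_mem _ _ (hp _) (hq _)

theorem h1v_IntPoly.pow (hp : h1v_IntPoly A p) (m : ℕ) : h1v_IntPoly A (p ^ m) := by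
  induction m with
  | zero => simpa using h1v_IntPoly_one (A := A)
  | succ m ih => rw [pow_succ]; exact ih.mul hp

theorem h1v_IntPoly_sum {ι : Type*} (s : Finset ι) (f : ι → L[X])
    (h : ∀ i ∈ s, h1v_IntPoly A (f i)) : h1v_IntPoly A (∑ i ∈ s, f i) := fun j => by
  rw [finsetSum_coeff]
  exact sum_mem fun i hi => h i hi j

theorem h1v_SmallPoly.add (hp : h1v_SmallPoly A p) (hq : h1v_SmallPoly A q) :
    h1v_SmallPoly A (p + q) := fun j => by
  rw [coeff_add]
  exact lt_of_le_of_lt (A.valuation.map_add _ _) (max_lt (hp j) (hq j))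

theorem h1v_SmallPoly.neg (hp : h1v_SmallPoly A p) : h1v_SmallPoly A (-p) := fun j => by
  rw [coeff_neg, Valuation.map_neg]; exact hp j

theorem h1v_SmallPoly.sub (hp : h1v_SmallPoly A p) (hq : h1v_SmallPoly A q) :
    h1v_SmallPoly A (p - q) := by
  rw [sub_eq_add_neg]; exact hp.add hq.neg

theorem h1v_SmallPoly.mul_int (hp : h1v_SmallPoly A p) (hq : h1v_IntPoly A q) :
    h1v_SmallPoly A (p * q) := fun j => by
  rw [coeff_mul]
  refine Valuation.map_sum_lt _ one_ne_zero fun ij _ => ?_
  rw [Valuation.map_mul]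
  have h1 := hp ij.1
  have h2 := (A.valuation_le_one_iff _).mpr (hq ij.2)
  calc A.valuation (p.coeff ij.1) * A.valuation (q.coeff ij.2)
      ≤ A.valuation (p.coeff ij.1) * 1 := by gcongr
    _ < 1 := by rwa [mul_one]

theorem h1v_SmallPoly_C_mul_X {e : L} (he : A.valuation e < 1) :
    h1v_SmallPoly A (C e * X) := fun j => by
  rw [coeff_C_mul, coeff_X]
  split_ifs
  · simpa using he
  · simp

theorem h1v_IntPoly.eval_mem (hp : h1v_IntPoly A p) {ρ : L} (hρ : ρ ∈ A) : p.eval ρ ∈ A := by
  rw [eval_eq_sum_range]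
  exact sum_mem fun j _ => A.mul_mem _ _ (hp j) (pow_mem hρ j)

theorem h1v_SmallPoly.eval_lt (hp : h1v_SmallPoly A p) {ρ : L} (hρ : ρ ∈ A) :
    A.valuation (p.eval ρ) < 1 := by
  rw [eval_eq_sum_range]
  refine Valuation.map_sum_lt _ one_ne_zero fun j _ => ?_
  rw [Valuation.map_mul, Valuation.map_pow]
  have h2 : A.valuation ρ ^ j ≤ 1 := pow_le_one₀ zero_le ((A.valuation_le_one_iff _).mpr hρ)
  calc A.valuation (p.coeff j) * A.valuation ρ ^ j ≤ A.valuation (p.coeff j) * 1 := by gcongr
    _ < 1 := by rw [mul_one]; exact hp j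

end Poly

section Hyp

variable {L K : Type*} [Field L] [Field K] [Algebra L K]

/-- **Hypotheses of block H1V.**  `A` a (rank one, non-trivial) valuation ring of `L`,
`W` a valuation ring of `K` with `W ∩ L = A` and the same value group, `x` a `W`-unit,
`b` a family in the chart ring `R₀ = {y ∈ W | y integral over L[x]}` which is *orthonormal*
over `L[x]` and spans `R₀` modulo the maximal ideal of `W`; plus finiteness of the integral
closure of `L[x]` in `K` (`fg`) and a common denominator (`den`). -/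
structure h1v_Hyp (A : ValuationSubring L) (W : ValuationSubring K) (x : K) {n : ℕ}
    (b : Fin n → K) : Prop where
  mem_iff : ∀ c : L, algebraMap L K c ∈ W ↔ c ∈ A
  nontriv : ∃ π : L, π ≠ 0 ∧ A.valuation π < 1
  norm : ∀ y : K, y ≠ 0 → ∃ c : L, c ≠ 0 ∧ W.valuation (algebraMap L K c * y) = 1
  arch : ∀ π : L, A.valuation π < 1 → ∀ c : L, ∃ s : ℕ, π ^ s * c ∈ A
  x_unit : W.valuation x = 1
  b_mem : ∀ i, b i ∈ W
  b_int : ∀ i, h1v_Int L x (b i)
  ortho : ∀ c : Fin n → L[X], (∑ i, aeval x (c i) * b i) ∈ W → ∀ i, h1v_IntPoly A (c i)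
  span : ∀ y : K, y ∈ W → h1v_Int L x y → ∃ c : Fin n → L[X], (∀ i, h1v_IntPoly A (c i)) ∧
    W.valuation (y - ∑ i, aeval x (c i) * b i) < 1
  den : ∃ I : L[X], I ≠ 0 ∧ ∀ y : K, h1v_Int L x y →
    ∃ c : Fin n → L[X], aeval x I * y = ∑ i, aeval x (c i) * b i
  fg : ∃ (r : ℕ) (Y : Fin r → K), (∀ j, h1v_Int L x (Y j)) ∧
    ∀ y, h1v_Int L x y → ∃ p : Fin r → L[X], y = ∑ j, aeval x (p j) * Y j

variable {A : ValuationSubring L} {W : ValuationSubring K} {x : K} {n : ℕ} {b : Fin n → K}

namespace h1v_Hyp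

theorem val_alg_le (H : h1v_Hyp A W x b) (c : L) :
    W.valuation (algebraMap L K c) ≤ 1 ↔ A.valuation c ≤ 1 := by
  rw [W.valuation_le_one_iff, A.valuation_le_one_iff, H.mem_iff]

theorem val_alg_lt (H : h1v_Hyp A W x b) (c : L) :
    W.valuation (algebraMap L K c) < 1 ↔ A.valuation c < 1 := by
  rcases eq_or_ne c 0 with rfl | hc
  · simp
  · have h1 := H.val_alg_le c⁻¹
    rw [map_inv₀, map_inv₀, map_inv₀] at h1
    have hc' : algebraMap L K c ≠ 0 := by simpa using hc
    have hv : W.valuation (algebraMap L K c) ≠ 0 := (Valuation.ne_zero_iff _).mpr hc'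
    have hvA : A.valuation c ≠ 0 := (Valuation.ne_zero_iff _).mpr hc
    rw [inv_le_one₀ (zero_lt_iff.mpr hv), inv_le_one₀ (zero_lt_iff.mpr hvA)] at h1
    constructor
    · intro h
      by_contra hn
      rw [not_lt] at hn
      exact absurd (h1.mpr hn) (not_le.mpr h)
    · intro h
      by_contra hn
      rw [not_lt] at hn
      exact absurd (h1.mp hn) (not_le.mpr h)

theorem x_mem (H : h1v_Hyp A W x b) : x ∈ W :=
  (W.valuation_le_one_iff _).mp H.x_unit.le

theorem x_ne_zero (H : h1v_Hyp A W x b) : x ≠ 0 := by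
  intro h
  have := H.x_unit
  rw [h, Valuation.map_zero] at this
  exact zero_ne_one this

theorem x_inv_mem (H : h1v_Hyp A W x b) : x⁻¹ ∈ W := by
  rw [← W.valuation_le_one_iff, map_inv₀, H.x_unit, inv_one]

theorem aeval_mem (H : h1v_Hyp A W x b) {p : L[X]} (hp : h1v_IntPoly A p) : aeval x p ∈ W := by
  rw [aeval_eq_sum_range]
  refine sum_mem fun j _ => ?_
  rw [Algebra.smul_def]
  exact W.mul_mem _ _ ((H.mem_iff _).mpr (hp j)) (pow_mem H.x_mem j)

theorem aeval_lt (H : h1v_Hyp A W x b) {p : L[X]} (hp : h1v_SmallPoly A p) :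
    W.valuation (aeval x p) < 1 := by
  rw [aeval_eq_sum_range]
  refine Valuation.map_sum_lt _ one_ne_zero fun j _ => ?_
  rw [Algebra.smul_def, Valuation.map_mul, Valuation.map_pow, H.x_unit, one_pow, mul_one]
  exact (H.val_alg_lt _).mpr (hp j)

/-- strict orthonormality -/
theorem ortho_lt (H : h1v_Hyp A W x b) (c : Fin n → L[X])
    (h : W.valuation (∑ i, aeval x (c i) * b i) < 1) : ∀ i, h1v_SmallPoly A (c i) := by
  intro i j
  by_contra hnot
  rw [not_lt] at hnot
  set a := (c i).coeff j with ha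
  have ha0 : a ≠ 0 := by
    intro h0
    rw [h0, Valuation.map_zero] at hnot
    exact absurd hnot (not_le.mpr zero_lt_one)
  -- scaling the relation by a constant `e`
  have hscale : ∀ e : L, (∑ i, aeval x (C e * c i) * b i)
      = algebraMap L K e * ∑ i, aeval x (c i) * b i := by
    intro e
    rw [Finset.mul_sum]
    refine Finset.sum_congr rfl fun i _ => ?_
    rw [map_mul, aeval_C, mul_assoc]
  rcases eq_or_ne (∑ i, aeval x (c i) * b i) 0 with ht | ht
  · obtain ⟨π, hπ0, hπ⟩ := H.nontriv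
    have h1 := H.ortho (fun i => C (π * a)⁻¹ * c i) (by
      rw [hscale, ht, mul_zero]; exact W.zero_mem) i j
    rw [coeff_C_mul, ← ha, mul_inv, mul_assoc, inv_mul_cancel₀ ha0, mul_one] at h1
    have h2 := (A.valuation_le_one_iff _).mpr h1
    rw [map_inv₀] at h2
    have hvπ : A.valuation π ≠ 0 := (Valuation.ne_zero_iff _).mpr hπ0
    rw [inv_le_one₀ (zero_lt_iff.mpr hvπ)] at h2
    exact absurd h2 (not_le.mpr hπ)
  · obtain ⟨e, he0, he⟩ := H.norm _ ht
    have h1 := H.ortho (fun i => C e * c i) (by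
      rw [hscale, ← W.valuation_le_one_iff, he]) i j
    rw [coeff_C_mul, ← ha] at h1
    have h2 := (A.valuation_le_one_iff _).mpr h1
    rw [Valuation.map_mul] at h2
    -- `v(e) > 1`
    rw [Valuation.map_mul] at he
    have hve : ¬ A.valuation e ≤ 1 := by
      intro hle
      have := (H.val_alg_le e).mpr hle
      have : W.valuation (algebraMap L K e) * W.valuation (∑ i, aeval x (c i) * b i) < 1 := by
        calc W.valuation (algebraMap L K e) * W.valuation (∑ i, aeval x (c i) * b i)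
            ≤ 1 * W.valuation (∑ i, aeval x (c i) * b i) := by gcongr
          _ < 1 := by rwa [one_mul]
      rw [he] at this
      exact lt_irrefl _ this
    rw [not_le] at hve
    have : A.valuation e * A.valuation a > 1 := by
      calc A.valuation e * A.valuation a ≥ A.valuation e * 1 := by gcongr
        _ > 1 := by rwa [mul_one]
    exact absurd h2 (not_le.mpr this)

theorem n_pos (H : h1v_Hyp A W x b) : 0 < n := by
  by_contra h0
  have hn : n = 0 := by omega
  subst hn
  obtain ⟨c, -, hc⟩ := H.span 1 W.one_mem (h1v_Int_one x)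
  simp at hc

/-- Gauss lemma for `L[x]` -/
theorem gauss (H : h1v_Hyp A W x b) {p : L[X]} (hp : aeval x p ∈ W) : h1v_IntPoly A p := by
  classical
  let i₀ : Fin n := ⟨0, H.n_pos⟩
  have hsum : (∑ i, aeval x ((Pi.single i₀ p : Fin n → L[X]) i) * b i) = aeval x p * b i₀ := by
    rw [Finset.sum_eq_single i₀]
    · rw [Pi.single_eq_same]
    · intro j _ hj
      rw [Pi.single_eq_of_ne hj, map_zero, zero_mul]
    · intro h; exact absurd (Finset.mem_univ _) h
  have := H.ortho (Pi.single i₀ p) (by rw [hsum]; exact W.mul_mem _ _ hp (H.b_mem i₀)) i₀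
  rwa [Pi.single_eq_same] at this

/-- Gauss lemma, strict form -/
theorem gauss_lt (H : h1v_Hyp A W x b) {p : L[X]} (hp : W.valuation (aeval x p) < 1) :
    h1v_SmallPoly A p := by
  classical
  let i₀ : Fin n := ⟨0, H.n_pos⟩
  have hsum : (∑ i, aeval x ((Pi.single i₀ p : Fin n → L[X]) i) * b i) = aeval x p * b i₀ := by
    rw [Finset.sum_eq_single i₀]
    · rw [Pi.single_eq_same]
    · intro j _ hj
      rw [Pi.single_eq_of_ne hj, map_zero, zero_mul]
    · intro h; exact absurd (Finset.mem_univ _) h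
  have := H.ortho_lt (Pi.single i₀ p) (by
    rw [hsum, Valuation.map_mul]
    calc W.valuation (aeval x p) * W.valuation (b i₀) ≤ W.valuation (aeval x p) * 1 := by
          gcongr; exact (W.valuation_le_one_iff _).mpr (H.b_mem i₀)
      _ < 1 := by rwa [mul_one]) i₀
  rwa [Pi.single_eq_same] at this

/-- `x - ρ` is a `W`-unit for `ρ ∈ A` -/
theorem val_sub_const (H : h1v_Hyp A W x b) {ρ : L} (hρ : ρ ∈ A) :
    W.valuation (x - algebraMap L K ρ) = 1 := by
  have hle : W.valuation (x - algebraMap L K ρ) ≤ 1 :=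
    (W.valuation_le_one_iff _).mpr (sub_mem H.x_mem ((H.mem_iff _).mpr hρ))
  rcases lt_or_eq_of_le hle with hlt | heq
  · exfalso
    have h1 : aeval x (X - C ρ : L[X]) = x - algebraMap L K ρ := by simp
    have h2 := H.gauss_lt (p := X - C ρ) (by rwa [h1]) 1
    rw [coeff_sub, coeff_X_one, coeff_C] at h2
    simp at h2
  · exact heq

end h1v_Hyp

end Hyp

end Fermat.Agent.S18x
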