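/-
S18x/DfmH1v (helper21): bridge from the defectless module (`dfl_`/`dfm_`) to helper77's `h1v_Hyp`
package: discharge of the fields `ortho` and `den` in the exact `h1v_Hyp` types
(`x : K`, `b : Fin n → K`).

* `dfm_h1v_ortho`: reductions of the `b i` independent over `k[ρ x]` (polynomial form) ⟹
  `∑ i, aeval x (c i) * b i ∈ W → ∀ i, h1v_IntPoly A (c i)`.
* `dfm_h1v_den`: `b` spans `K` over `L(x)` (polynomial form) + finite generation of the integral
  closure of `L[x]` ⟹ a common denominator.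
-/
import Fermat.Agent.S18x.DfmSpan
import Fermat.Agent.S18x.H1vHyp

set_option autoImplicit false

namespace Fermat.Agent.S18x

open Module Polynomial

section Bridge

variable {L k K Fb : Type*} [Field L] [Field k] [Field K] [Field Fb] [Algebra L K] [Algebra k Fb]
variable {A : ValuationSubring L} {π : A →+* k} {W : ValuationSubring K} {ρ : W →+* Fb}

/-- `h1v_Hyp.ortho` from the independence of the reductions. -/
theorem dfm_h1v_ortho (H : dfl_Hyp A π W ρ) (x : K) (hxW : x ∈ W) {n : ℕ} (b : Fin n → K)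
    (hbW : ∀ i, b i ∈ W)
    (hb : ∀ p : Fin n → k[X],
      ∑ i, aeval (ρ ⟨x, hxW⟩) (p i) * ρ ⟨b i, hbW i⟩ = 0 → ∀ i, p i = 0)
    (c : Fin n → L[X]) (hc : (∑ i, aeval x (c i) * b i) ∈ W) :
    ∀ i, h1v_IntPoly A (c i) := by
  set t : W := ⟨x, hxW⟩ with ht
  set bW : Fin n → W := fun i => ⟨b i, hbW i⟩ with hbWdef
  have hind := dfm_tb_indep t bW hb
  have hφ : dfl_phi L W (dfm_tb t bW) (dfm_coeffFF c) = ∑ i, aeval x (c i) * b i :=
    dfm_phi_coeffFF t bW c
  have hmem := dfl_coeff_mem_of_mem H (dfm_tb t bW) hind (dfm_coeffFF c) (by rw [hφ]; exact hc)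
  intro i j
  exact hmem (i, j)

/-- `h1v_Hyp.den` from spanning (polynomial form) and finite generation. -/
theorem dfm_h1v_den (x : K) {n : ℕ} (b : Fin n → K)
    (hspan : ∀ y : K, ∃ (d : L[X]) (p : Fin n → L[X]), d ≠ 0 ∧
      aeval x d * y = ∑ i, aeval x (p i) * b i)
    (fg : ∃ (r : ℕ) (Y : Fin r → K), (∀ j, h1v_Int L x (Y j)) ∧
      ∀ y, h1v_Int L x y → ∃ p : Fin r → L[X], y = ∑ j, aeval x (p j) * Y j) :
    ∃ I : L[X], I ≠ 0 ∧ ∀ y : K, h1v_Int L x y →
      ∃ c : Fin n → L[X], aeval x I * y = ∑ i, aeval x (c i) * b i := by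
  classical
  obtain ⟨r, Y, -, hY⟩ := fg
  choose d p hd hdp using fun j => hspan (Y j)
  refine ⟨∏ j, d j, Finset.prod_ne_zero_iff.mpr fun j _ => hd j, fun y hy => ?_⟩
  obtain ⟨q, hq⟩ := hY y hy
  refine ⟨fun i => ∑ j, q j * (∏ j' ∈ Finset.univ.erase j, d j') * p j i, ?_⟩
  rw [hq, Finset.mul_sum]
  have h1 : ∀ j, aeval x (∏ j', d j') * (aeval x (q j) * Y j)
      = ∑ i, aeval x (q j * (∏ j' ∈ Finset.univ.erase j, d j') * p j i) * b i := by
    intro j
    rw [← Finset.mul_prod_erase Finset.univ d (Finset.mem_univ j), map_mul]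
    have h2 : aeval x (d j) * aeval x (∏ j' ∈ Finset.univ.erase j, d j') * (aeval x (q j) * Y j)
        = aeval x (q j) * aeval x (∏ j' ∈ Finset.univ.erase j, d j') * (aeval x (d j) * Y j) := by
      ring
    rw [h2, hdp j, Finset.mul_sum]
    refine Finset.sum_congr rfl fun i _ => ?_
    rw [map_mul, map_mul]
    ring
  simp_rw [h1]
  rw [Finset.sum_comm]
  refine Finset.sum_congr rfl fun i _ => ?_
  rw [map_sum, Finset.sum_mul]

end Bridge

end Fermat.Agent.S18x
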