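/-
S18x/DfmOfTs (helper21; supersedes DflOfTs): helper80's `ts_Hyp` bundle implies the `dfl_Hyp` bundle of the
defectless module, so `dfl_*` results apply verbatim to the torsion-step data.
-/
import Fermat.Agent.S18x.DfmSpan
import Fermat.Agent.S18x.TsBasic

set_option autoImplicit false

namespace Fermat.Agent.S18x

open AlgebraicCurve

variable {L k F Fb : Type*} [Field L] [Field k] [Field F] [Field Fb] [Algebra L F] [Algebra k Fb]
variable {A : ValuationSubring L} {π : A →+* k} {W : ValuationSubring F} {ρ : W →+* Fb}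
variable {r : Place L F → Place k Fb}

theorem dfm_hyp_of_ts (H : ts_Hyp A π W ρ r) : dfl_Hyp A π W ρ :=
  ⟨H.mem_iff, H.rho_alg, H.pi_surj, H.ker⟩

end Fermat.Agent.S18x
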