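/-
S18x/GeHyp (helper4): block (HY) for helper77's H1V package: the hypothesis bundle `h1v_Hyp`
(S18x/H1vHyp) from helper80's reduction data `ts_Hyp` plus a family `b` in the chart ring
`R₀ = {y ∈ W | y integral over L[x]}` whose reductions are `k[x̄]`-linearly independent and span
the reduction of `R₀` over `k[x̄]` (this is what NORMALITY + DEG give), plus finite generation of
the integral closure of `L[x]` (characteristic zero) and the rank-one property of `A`.
Also: `geh_arch_qbar`, the rank-one property for valuation subrings of `Q̄` over a prime.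
-/
import Fermat.Agent.S18x.H1vHyp
import Fermat.Agent.S18x.TsBasic
import Fermat.Agent.S13x.ValQbar

set_option autoImplicit false

namespace Fermat.Agent.S18x

open AlgebraicCurve Polynomial

section Arch

local notation "Qc" => AlgebraicClosure ℚ

/-- valuation subrings of `Q̄` over a prime have rank one -/
theorem geh_arch_qbar {A : ValuationSubring Qc} {q : ℕ} (hq : q.Prime) (hA : A.LiesOverPrime q) :
    ∀ π : Qc, A.valuation π < 1 → ∀ c : Qc, ∃ s : ℕ, π ^ s * c ∈ A := by
  intro π hπ c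
  rcases eq_or_ne c 0 with rfl | hc
  · exact ⟨0, by rw [mul_zero]; exact A.zero_mem⟩
  rcases eq_or_ne π 0 with rfl | hπ0
  · exact ⟨1, by rw [pow_one, zero_mul]; exact A.zero_mem⟩
  obtain ⟨m₁, hm₁, k₁, hk₁⟩ := Fermat.Agent.S13x.vq_exists_pow_eq_qbar hq hA hπ0
  obtain ⟨m₂, hm₂, k₂, hk₂⟩ := Fermat.Agent.S13x.vq_exists_pow_eq_qbar hq hA hc
  have hvq : A.valuation (q : Qc) < 1 := Fermat.Agent.S13x.vq_val_q_lt_one hA
  have hvq0 : A.valuation (q : Qc) ≠ 0 := by
    rw [Ne, map_eq_zero]; exact_mod_cast hq.ne_zero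
  have hvqpos : 0 < A.valuation (q : Qc) := zero_lt_iff.mpr hvq0
  -- `k₁ > 0`
  have hk₁pos : 0 < k₁ := by
    by_contra hle
    rw [not_lt] at hle
    have h1 : A.valuation π ^ m₁ < 1 := pow_lt_one₀ zero_le hπ (by omega)
    rw [hk₁] at h1
    have h2 : 1 ≤ A.valuation (q : Qc) ^ k₁ := by
      obtain ⟨j, hj⟩ := Int.exists_eq_neg_ofNat hle
      rw [hj, zpow_neg, zpow_natCast]
      exact (one_le_inv₀ (pow_pos hvqpos j)).mpr (pow_le_one₀ zero_le hvq.le)
    exact absurd h1 (not_lt.mpr h2)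
  -- choose `s = m₁ * |k₂|`
  refine ⟨m₁ * k₂.natAbs, ?_⟩
  rw [← A.valuation_le_one_iff]
  have hπpow : A.valuation π ^ (m₁ * k₂.natAbs) = A.valuation (q : Qc) ^ (k₁ * k₂.natAbs) := by
    rw [pow_mul, hk₁, ← zpow_natCast (A.valuation (q : Qc) ^ k₁) k₂.natAbs, ← zpow_mul]
  have hpow : A.valuation (π ^ (m₁ * k₂.natAbs) * c) ^ m₂
      = A.valuation (q : Qc) ^ (k₁ * k₂.natAbs * m₂ + k₂) := by
    rw [map_mul, map_pow, mul_pow, hk₂, hπpow,
      ← zpow_natCast (A.valuation (q : Qc) ^ (k₁ * (k₂.natAbs : ℤ))) m₂, ← zpow_mul,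
      ← zpow_add₀ hvq0]
  have hexp : 0 ≤ k₁ * k₂.natAbs * m₂ + k₂ := by
    have hm₂' : (1 : ℤ) ≤ m₂ := by exact_mod_cast hm₂
    have hnn : (0 : ℤ) ≤ k₂.natAbs := Int.natCast_nonneg _
    have h0 : (k₂.natAbs : ℤ) ≤ k₁ * k₂.natAbs := le_mul_of_one_le_left hnn (by omega)
    have h1 : k₁ * (k₂.natAbs : ℤ) ≤ k₁ * k₂.natAbs * m₂ :=
      le_mul_of_one_le_right (by positivity) hm₂'
    have h2 : -(k₂.natAbs : ℤ) ≤ k₂ := by
      rw [Int.natCast_natAbs]; exact neg_abs_le k₂
    omega
  have hle1 : A.valuation (π ^ (m₁ * k₂.natAbs) * c) ^ m₂ ≤ 1 := by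
    rw [hpow]
    obtain ⟨j, hj⟩ := Int.eq_ofNat_of_zero_le hexp
    rw [hj, zpow_natCast]
    exact pow_le_one₀ zero_le hvq.le
  by_contra hgt
  rw [not_le] at hgt
  exact absurd hle1 (not_le.mpr (one_lt_pow₀ hgt (by omega)))

theorem geh_nontriv_of_liesOver {L : Type*} [Field L] [CharZero L] {A : ValuationSubring L}
    {q : ℕ} (hq : q.Prime) (hA : A.LiesOverPrime q) : ∃ π : L, π ≠ 0 ∧ A.valuation π < 1 :=
  ⟨(q : L), by exact_mod_cast hq.ne_zero, Fermat.Agent.S13x.vq_val_q_lt_one hA⟩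

end Arch

section Hyp

variable {L k F Fb : Type*} [Field L] [Field k] [Field F] [Field Fb] [Algebra L F] [Algebra k Fb]
variable {A : ValuationSubring L} {π : A →+* k} {W : ValuationSubring F} {ρ : W →+* Fb}
  {r : Place L F → Place k Fb}

/-- the structure map `A → W` -/
noncomputable def geh_iota (H : ts_Hyp A π W ρ r) : A →+* W :=
  ((algebraMap L F).comp A.subtype).codRestrict W (fun c => H.algW c.2)

theorem geh_coe_iota (H : ts_Hyp A π W ρ r) (c : A) :
    ((geh_iota H c : W) : F) = algebraMap L F (c : L) := rfl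

theorem geh_rho_iota (H : ts_Hyp A π W ρ r) (c : A) :
    ρ (geh_iota H c) = algebraMap k Fb (π c) :=
  H.rho_alg (c : L) c.2 _

/-- evaluation `A[X] → W` at `x` -/
noncomputable def geh_Phi (H : ts_Hyp A π W ρ r) (x : W) : A[X] →+* W :=
  Polynomial.eval₂RingHom (geh_iota H) x

theorem geh_coe_Phi (H : ts_Hyp A π W ρ r) (x : W) (q : A[X]) :
    ((geh_Phi H x q : W) : F) = aeval (x : F) (q.map A.subtype) := by
  have h1 : ((geh_Phi H x q : W) : F) = W.subtype (eval₂ (geh_iota H) x q) := rfl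
  rw [h1, Polynomial.hom_eval₂, aeval_def, eval₂_map]
  rfl

theorem geh_rho_Phi (H : ts_Hyp A π W ρ r) (x : W) (q : A[X]) :
    ρ (geh_Phi H x q) = aeval (ρ x) (q.map π) := by
  have h1 : ρ (geh_Phi H x q) = ρ (eval₂ (geh_iota H) x q) := rfl
  rw [h1, Polynomial.hom_eval₂, aeval_def, eval₂_map]
  congr 1
  exact RingHom.ext fun c => geh_rho_iota H c

theorem geh_exists_lift_of_intPoly {p : L[X]} (hp : h1v_IntPoly A p) :
    ∃ q : A[X], q.map A.subtype = p := by
  have : p ∈ Polynomial.lifts A.subtype := by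
    rw [Polynomial.lifts_iff_coeff_lifts]
    intro j
    exact ⟨⟨p.coeff j, hp j⟩, rfl⟩
  exact (Polynomial.mem_lifts p).mp this

theorem geh_intPoly_map (q : A[X]) : h1v_IntPoly A (q.map A.subtype) := fun j => by
  rw [coeff_map]; exact (q.coeff j).2

theorem geh_val_lt_one_of_rho_eq_zero (H : ts_Hyp A π W ρ r) {w : W} (hw : ρ w = 0) :
    W.valuation (w : F) < 1 := by
  have hnu : ¬ IsUnit w := (H.ker w).mp hw
  have hmem : w ∈ IsLocalRing.maximalIdeal W := by
    rwa [IsLocalRing.mem_maximalIdeal, mem_nonunits_iff]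
  exact (W.valuation_lt_one_iff w).mp hmem

theorem geh_rho_eq_zero_of_val_lt_one (H : ts_Hyp A π W ρ r) {w : W}
    (hw : W.valuation (w : F) < 1) : ρ w = 0 := by
  rw [H.ker w]
  have hmem : w ∈ IsLocalRing.maximalIdeal W := (W.valuation_lt_one_iff w).mpr hw
  rwa [IsLocalRing.mem_maximalIdeal, mem_nonunits_iff] at hmem

/-- **(HY)**: the hypothesis bundle of block H1V from reduction data and a family `b` whose
reductions form a `k[x̄]`-basis of the reduction of the chart ring. -/
theorem geh_h1vHyp (H : ts_Hyp A π W ρ r) (x : W) (hρx : ρ x ≠ 0)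
    (hnontriv : ∃ π₀ : L, π₀ ≠ 0 ∧ A.valuation π₀ < 1)
    (harch : ∀ π₀ : L, A.valuation π₀ < 1 → ∀ c : L, ∃ s : ℕ, π₀ ^ s * c ∈ A)
    {n : ℕ} (b : Fin n → W) (hbint : ∀ i, h1v_Int L (x : F) (b i : F))
    (hindep : ∀ p : Fin n → k[X], ∑ i, aeval (ρ x) (p i) * ρ (b i) = 0 → ∀ i, p i = 0)
    (hspan : ∀ y : W, h1v_Int L (x : F) (y : F) →
      ∃ p : Fin n → k[X], ρ y = ∑ i, aeval (ρ x) (p i) * ρ (b i))
    (hden : ∃ I : L[X], I ≠ 0 ∧ ∀ y : F, h1v_Int L (x : F) y →
      ∃ c : Fin n → L[X], aeval (x : F) I * y = ∑ i, aeval (x : F) (c i) * (b i : F))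
    (hfg : ∃ (r' : ℕ) (Y : Fin r' → F), (∀ j, h1v_Int L (x : F) (Y j)) ∧
      ∀ y, h1v_Int L (x : F) y → ∃ p : Fin r' → L[X], y = ∑ j, aeval (x : F) (p j) * Y j) :
    h1v_Hyp A W (x : F) (fun i => (b i : F)) := by
  classical
  have hxu : IsUnit x := by
    by_contra h
    exact hρx ((H.ker x).mpr h)
  -- key computation: reduction of an integral combination
  have hcomb : ∀ q : Fin n → A[X],
      ρ (∑ i, geh_Phi H x (q i) * b i) = ∑ i, aeval (ρ x) ((q i).map π) * ρ (b i) := by
    intro q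
    rw [map_sum]
    refine Finset.sum_congr rfl fun i _ => ?_
    rw [map_mul, geh_rho_Phi]
  have hcoe : ∀ q : Fin n → A[X],
      ((∑ i, geh_Phi H x (q i) * b i : W) : F)
        = ∑ i, aeval (x : F) ((q i).map A.subtype) * (b i : F) := by
    intro q
    have h1 : ((∑ i, geh_Phi H x (q i) * b i : W) : F)
        = W.subtype (∑ i, geh_Phi H x (q i) * b i) := rfl
    rw [h1, map_sum]
    refine Finset.sum_congr rfl fun i _ => ?_
    rw [map_mul]
    show ((geh_Phi H x (q i) : W) : F) * (b i : F) = _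
    rw [geh_coe_Phi]
  refine
    { mem_iff := H.mem_iff
      nontriv := hnontriv
      norm := ?_
      arch := harch
      x_unit := (W.valuation_eq_one_iff x).mp hxu
      b_mem := fun i => (b i).2
      b_int := hbint
      ortho := ?_
      span := ?_
      den := hden
      fg := hfg }
  · -- norm
    intro y hy
    obtain ⟨c, hc0, h1, h2⟩ := H.norm y hy
    refine ⟨c, hc0, le_antisymm ((W.valuation_le_one_iff _).mpr h1) ?_⟩
    have h3 := (W.valuation_le_one_iff _).mpr h2
    rw [map_inv₀] at h3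
    have hne : W.valuation (algebraMap L F c * y) ≠ 0 :=
      (Valuation.ne_zero_iff _).mpr (mul_ne_zero (by simpa using hc0) hy)
    exact (inv_le_one₀ (zero_lt_iff.mpr hne)).mp h3
  · -- ortho
    intro c hc
    by_contra hnot
    simp only [not_forall] at hnot
    obtain ⟨i₀, hi₀⟩ := hnot
    unfold h1v_IntPoly at hi₀
    simp only [not_forall] at hi₀
    obtain ⟨j₀, hj₀⟩ := hi₀
    -- the finite set of all (index, exponent) pairs
    let S : Finset (Fin n × ℕ) :=
      Finset.univ.biUnion (fun i => (c i).support.image (fun j => (i, j)))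
    have hS : ∀ i j, (c i).coeff j ≠ 0 → (i, j) ∈ S := by
      intro i j hij
      refine Finset.mem_biUnion.mpr ⟨i, Finset.mem_univ i, ?_⟩
      exact Finset.mem_image.mpr ⟨j, Polynomial.mem_support_iff.mpr hij, rfl⟩
    have hne₀ : (c i₀).coeff j₀ ≠ 0 := fun h0 => hj₀ (h0 ▸ A.zero_mem)
    obtain ⟨⟨i₁, j₁⟩, -, hmax⟩ := S.exists_max_image
      (fun p => A.valuation ((c p.1).coeff p.2)) ⟨(i₀, j₀), hS i₀ j₀ hne₀⟩
    set γ := (c i₁).coeff j₁ with hγ
    have hγbig : 1 < A.valuation γ := by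
      have h1 : ¬ A.valuation ((c i₀).coeff j₀) ≤ 1 := fun h => hj₀ ((A.valuation_le_one_iff _).mp h)
      exact lt_of_lt_of_le (not_le.mp h1) (hmax (i₀, j₀) (hS i₀ j₀ hne₀))
    have hγ0 : γ ≠ 0 := by
      intro h0; rw [h0, map_zero] at hγbig; exact absurd hγbig (not_lt.mpr zero_le_one)
    have hγinv : A.valuation γ⁻¹ < 1 := by
      rw [map_inv₀]; exact inv_lt_one_of_one_lt₀ hγbig
    -- scaled polynomials have integral coefficients
    have hint : ∀ i, h1v_IntPoly A (C γ⁻¹ * c i) := by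
      intro i j
      rw [coeff_C_mul, ← A.valuation_le_one_iff, map_mul, map_inv₀]
      rcases eq_or_ne ((c i).coeff j) 0 with h0 | h0
      · rw [h0, map_zero, mul_zero]; exact zero_le_one
      · have := hmax (i, j) (hS i j h0)
        have hpos : 0 < A.valuation γ := lt_trans zero_lt_one hγbig
        rw [inv_mul_le_iff₀ hpos, mul_one]
        exact this
    choose q hq using fun i => geh_exists_lift_of_intPoly (hint i)
    -- the scaled combination lies in the maximal ideal
    have hsum : ((∑ i, geh_Phi H x (q i) * b i : W) : F)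
        = algebraMap L F γ⁻¹ * ∑ i, aeval (x : F) (c i) * (b i : F) := by
      rw [hcoe, Finset.mul_sum]
      refine Finset.sum_congr rfl fun i _ => ?_
      rw [hq i, map_mul, aeval_C, mul_assoc]
    have hsmall : W.valuation ((∑ i, geh_Phi H x (q i) * b i : W) : F) < 1 := by
      rw [hsum, map_mul]
      have h1 : W.valuation (algebraMap L F γ⁻¹) < 1 := by
        have hmemA : γ⁻¹ ∈ A := (A.valuation_le_one_iff _).mp hγinv.le
        have hπ0 : π ⟨γ⁻¹, hmemA⟩ = 0 := by
          apply H.pi_eq_zero hmemA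
          rw [inv_inv]
          intro hmem
          exact absurd ((A.valuation_le_one_iff _).mpr hmem) (not_le.mpr hγbig)
        have hρ0 : ρ (geh_iota H ⟨γ⁻¹, hmemA⟩) = 0 := by
          rw [geh_rho_iota, hπ0, map_zero]
        exact geh_val_lt_one_of_rho_eq_zero H hρ0
      have h2 := (W.valuation_le_one_iff _).mpr hc
      calc W.valuation (algebraMap L F γ⁻¹) * W.valuation (∑ i, aeval (x : F) (c i) * (b i : F))
          ≤ W.valuation (algebraMap L F γ⁻¹) * 1 := by gcongr
        _ < 1 := by rw [mul_one]; exact h1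
    have hzero := geh_rho_eq_zero_of_val_lt_one H hsmall
    rw [hcomb] at hzero
    have hall := hindep _ hzero i₁
    have hcoeff : ((q i₁).map π).coeff j₁ = 1 := by
      rw [coeff_map]
      have h1 : ((q i₁).coeff j₁ : L) = 1 := by
        have := congrArg (fun p => p.coeff j₁) (hq i₁)
        simp only [coeff_map, coeff_C_mul] at this
        rw [← hγ, inv_mul_cancel₀ hγ0] at this
        exact this
      have h2 : (q i₁).coeff j₁ = 1 := Subtype.ext h1
      rw [h2, map_one]
    rw [hall, coeff_zero] at hcoeff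
    exact zero_ne_one hcoeff
  · -- span
    intro y hyW hyint
    obtain ⟨p, hp⟩ := hspan ⟨y, hyW⟩ hyint
    have hπsurj : Function.Surjective π := H.pi_surj
    choose q hq using fun i => Polynomial.map_surjective π hπsurj (p i)
    refine ⟨fun i => (q i).map A.subtype, fun i => geh_intPoly_map (q i), ?_⟩
    have h1 : y - ∑ i, aeval (x : F) ((q i).map A.subtype) * (b i : F)
        = (((⟨y, hyW⟩ : W) - ∑ i, geh_Phi H x (q i) * b i : W) : F) := by
      rw [← hcoe]; rfl
    rw [h1]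
    apply geh_val_lt_one_of_rho_eq_zero H
    rw [map_sub, hcomb, hp, sub_eq_zero]
    refine Finset.sum_congr rfl fun i _ => ?_
    rw [hq i]

end Hyp

end Fermat.Agent.S18x
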