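/-
S18x/GeHyp2 (helper4): the two characteristic-zero fields `fg` and `den` of helper77's `h1v_Hyp`
for a function field `F/K` with coordinate `x` (S24x `FFData`):
* `geh_fg_of_ffData`   : the integral closure of `K[x]` in `F` is a finitely generated `K[x]`-module
  (Mathlib `IsIntegralClosure.finite`, via the S24x instance), in `h1v_Hyp.fg` shape;
* `geh_frac_of_basis`  : a family `b` of `n = [F : K(x)]` elements, linearly independent over `K[x]`,
  spans `F` over `K(x)`: every `y` has a denominator `I ≠ 0` with `I(x) y ∈ ⊕ K[x] b_i`;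
* `geh_den_of_fg`      : common denominator for the integral closure, `h1v_Hyp.den` shape.
-/
import Fermat.Agent.S18x.GeHyp
import Fermat.Agent.S18x.GeBridge

set_option autoImplicit false

namespace Fermat.Agent.S18x

open AlgebraicCurve Polynomial IntermediateField Fermat.Agent.S24x

variable {K F : Type*} [Field K] [Field F] [Algebra K F]

/-- finite generation of the integral closure of `K[x]`, in `h1v_Hyp.fg` shape -/
theorem geh_fg_of_ffData [CharZero K] (x : F) [FFData K F x] :
    ∃ (r' : ℕ) (Y : Fin r' → F), (∀ j, h1v_Int K x (Y j)) ∧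
      ∀ y, h1v_Int K x y → ∃ p : Fin r' → K[X], y = ∑ j, aeval x (p j) * Y j := by
  obtain ⟨r', s, hs⟩ := Module.Finite.exists_fin (R := ringA K x) (M := ringB K x)
  refine ⟨r', fun j => ((s j : ringB K x) : F), fun j => geb_int_of_isIntegral (s j).2, ?_⟩
  intro y hy
  have hyB : IsIntegral (ringA K x) y := geb_isIntegral_of_int hy
  have hmem : (⟨y, hyB⟩ : ringB K x) ∈ Submodule.span (ringA K x) (Set.range s) := by
    rw [hs]; exact Submodule.mem_top
  obtain ⟨a, ha⟩ := (Submodule.mem_span_range_iff_exists_fun (ringA K x)).mp hmem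
  choose p hp using fun j => cr_exists_aeval_eq K x (a j)
  refine ⟨p, ?_⟩
  have h1 := congrArg (fun z : ringB K x => (z : F)) ha
  simp only at h1
  rw [← h1]
  have h2 : ((∑ j, a j • s j : ringB K x) : F) = ∑ j, ((a j : ringA K x) : F) * ((s j : ringB K x) : F) := by
    rw [← Subalgebra.coe_val (ringB K x), map_sum]
    rfl
  rw [h2]
  refine Finset.sum_congr rfl fun j _ => ?_
  rw [hp j]

/-- common denominator from finite generation and fraction-spanning -/
theorem geh_den_of_fg {x : F} {n : ℕ} (b : Fin n → F)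
    (hfg : ∃ (r' : ℕ) (Y : Fin r' → F), (∀ j, h1v_Int K x (Y j)) ∧
      ∀ y, h1v_Int K x y → ∃ p : Fin r' → K[X], y = ∑ j, aeval x (p j) * Y j)
    (hfrac : ∀ y : F, ∃ I : K[X], I ≠ 0 ∧ ∃ c : Fin n → K[X],
      aeval x I * y = ∑ i, aeval x (c i) * b i) :
    ∃ I : K[X], I ≠ 0 ∧ ∀ y : F, h1v_Int K x y →
      ∃ c : Fin n → K[X], aeval x I * y = ∑ i, aeval x (c i) * b i := by
  classical
  obtain ⟨r', Y, -, hY⟩ := hfg
  choose I hI0 c hc using fun j => hfrac (Y j)
  refine ⟨∏ j, I j, Finset.prod_ne_zero_iff.mpr fun j _ => hI0 j, fun y hy => ?_⟩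
  obtain ⟨p, hp⟩ := hY y hy
  refine ⟨fun i => ∑ j, p j * (∏ j' ∈ Finset.univ.erase j, I j') * c j i, ?_⟩
  rw [hp, Finset.mul_sum]
  have hterm : ∀ j, aeval x (∏ j, I j) * (aeval x (p j) * Y j)
      = ∑ i, aeval x (p j * (∏ j' ∈ Finset.univ.erase j, I j') * c j i) * b i := by
    intro j
    have hprod : (∏ j, I j) = I j * ∏ j' ∈ Finset.univ.erase j, I j' :=
      (Finset.mul_prod_erase Finset.univ I (Finset.mem_univ j)).symm
    rw [hprod, map_mul]
    have := hc j
    calc aeval x (I j) * aeval x (∏ j' ∈ Finset.univ.erase j, I j') * (aeval x (p j) * Y j)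
        = aeval x (p j) * aeval x (∏ j' ∈ Finset.univ.erase j, I j') * (aeval x (I j) * Y j) := by
          ring
      _ = aeval x (p j) * aeval x (∏ j' ∈ Finset.univ.erase j, I j') *
            ∑ i, aeval x (c j i) * b i := by rw [this]
      _ = _ := by
          rw [Finset.mul_sum]
          refine Finset.sum_congr rfl fun i _ => ?_
          rw [map_mul, map_mul]; ring
  rw [Finset.sum_congr rfl fun j _ => hterm j, Finset.sum_comm]
  refine Finset.sum_congr rfl fun i _ => ?_
  rw [map_sum, Finset.sum_mul]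

/-- fractions: every element of `K(x)` is a quotient of polynomial values with nonzero
denominator -/
theorem geh_exists_frac {x : F} (g : K⟮x⟯) :
    ∃ p q : K[X], aeval x q ≠ 0 ∧ (g : F) * aeval x q = aeval x p := by
  obtain ⟨p, q, hpq⟩ := (IntermediateField.mem_adjoin_simple_iff K (g : F)).mp g.2
  by_cases hq : aeval x q = 0
  · refine ⟨0, 1, by simp, ?_⟩
    rw [hpq, hq, div_zero]; simp
  · exact ⟨p, q, hq, by rw [hpq, div_mul_cancel₀ _ hq]⟩

/-- a `K[x]`-independent family of `[F : K(x)]` elements spans `F` over `K(x)` -/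
theorem geh_frac_of_basis (x : F) [FiniteDimensional K⟮x⟯ F] {n : ℕ} (b : Fin n → F)
    (hn : n = Module.finrank K⟮x⟯ F)
    (hind : ∀ c : Fin n → K[X], ∑ i, aeval x (c i) * b i = 0 → ∀ i, c i = 0) :
    ∀ y : F, ∃ I : K[X], I ≠ 0 ∧ ∃ c : Fin n → K[X],
      aeval x I * y = ∑ i, aeval x (c i) * b i := by
  classical
  -- common denominators for a family of elements of `K(x)`
  have hcd : ∀ g : Fin n → K⟮x⟯, ∃ (I : K[X]) (c : Fin n → K[X]), aeval x I ≠ 0 ∧
      (∀ i, c i = 0 → g i = 0) ∧ ∀ i, aeval x I * (g i : F) = aeval x (c i) := by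
    intro g
    choose p q hq hpq using fun i => geh_exists_frac (K := K) (x := x) (g i)
    refine ⟨∏ i, q i, fun i => p i * ∏ j ∈ Finset.univ.erase i, q j, ?_, ?_, ?_⟩
    · rw [map_prod]; exact Finset.prod_ne_zero_iff.mpr fun i _ => hq i
    · intro i hi
      have hne : (∏ j ∈ Finset.univ.erase i, q j) ≠ 0 := by
        refine Finset.prod_ne_zero_iff.mpr fun j _ hj => ?_
        exact hq j (by rw [hj, map_zero])
      have hp0 : p i = 0 := (mul_eq_zero.mp hi).resolve_right hne
      have := hpq i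
      rw [hp0, map_zero] at this
      have h2 : (g i : F) = 0 := (mul_eq_zero.mp this).resolve_right (hq i)
      exact Subtype.ext h2
    · intro i
      have hprod : (∏ i, q i) = q i * ∏ j ∈ Finset.univ.erase i, q j :=
        (Finset.mul_prod_erase Finset.univ q (Finset.mem_univ i)).symm
      rw [hprod, map_mul, map_mul, ← hpq i]; ring
  -- linear independence over `K(x)`
  have hli : LinearIndependent K⟮x⟯ b := by
    rw [Fintype.linearIndependent_iff]
    intro g hg
    obtain ⟨I, c, hI, hc0, hc⟩ := hcd g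
    have h0 : ∑ i, aeval x (c i) * b i = 0 := by
      have h1 : ∑ i, aeval x (c i) * b i = aeval x I * ∑ i, g i • b i := by
        rw [Finset.mul_sum]
        refine Finset.sum_congr rfl fun i _ => ?_
        rw [← hc i]
        show _ = aeval x I * ((g i : F) * b i)
        ring
      rw [h1, hg, mul_zero]
    intro i
    exact hc0 i (hind c h0 i)
  have hspan : Submodule.span K⟮x⟯ (Set.range b) = ⊤ :=
    hli.span_eq_top_of_card_eq_finrank' (by rw [Fintype.card_fin, hn])
  intro y
  have hy : y ∈ Submodule.span K⟮x⟯ (Set.range b) := by rw [hspan]; exact Submodule.mem_top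
  obtain ⟨g, hg⟩ := (Submodule.mem_span_range_iff_exists_fun K⟮x⟯).mp hy
  obtain ⟨I, c, hI, -, hc⟩ := hcd g
  refine ⟨I, fun h => hI (by rw [h, map_zero]), c, ?_⟩
  rw [← hg, Finset.mul_sum]
  refine Finset.sum_congr rfl fun i _ => ?_
  rw [← hc i]
  show aeval x I * ((g i : F) * b i) = _
  ring

end Fermat.Agent.S18x
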