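/-
S18x/CpnLiftMain (helper77): row D of the CUSPN(b) twin (table `s18_cpn_plan`), main file.
Abstract over helper80's reduction data `ts_Hyp A π W ρ r` and a coordinate `x ∈ W`
(`x = 1/j` in the application):

* `cpnd_rho_isIntegral` (D1): `y ∈ W` integral over `L[x]`  ⟹  `ρ y` integral over `k[x̄]`
  (poles of `x` reduce to poles of `x̄`, `ts_Hyp.reg_of_disc`, and the place/integrality dictionary
  of helper4's `GeDict`);
* `cpnd_exists_lift` (D2): a family `b : Fin n → W`, integral over `L[x]`, whose reductions are a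
  `k[x̄]`-basis (polynomial form) of `ρ (W ∩ O₀)`, `O₀` = integral closure of `L[x]`;
* `cpnd_card_eq`: then `n = [F : L(x)]` and `ρ ∘ b` is a `k(x̄)`-basis of `Fb`
  (needs `ρ` onto and `[F : L(x)] ≤ [Fb : k(x̄)]`);
* `cpnd_main` (D3): the package: `b`, `h1v_Hyp A W x b`, and the small denominator `1 - J`.
-/
import Fermat.Agent.S18x.GeHyp2
import Fermat.Agent.S18x.GeDict
import Fermat.Agent.S18x.DfmH1v
import Fermat.Agent.S18x.DfmOfTs
import Fermat.Agent.S18x.H1vRoot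
import Fermat.Agent.S18x.CpnLiftBasis
import Fermat.Agent.S18x.CpnLiftBridge

set_option autoImplicit false

namespace Fermat.Agent.S18x

open AlgebraicCurve Polynomial IntermediateField Module Fermat.Agent.S24x
open scoped IntermediateField.algebraAdjoinAdjoin

variable {L k F Fb : Type*} [Field L] [Field k] [Field F] [Field Fb] [Algebra L F] [Algebra k Fb]
variable {A : ValuationSubring L} {π : A →+* k} {W : ValuationSubring F} {ρ : W →+* Fb}
  {r : Place L F → Place k Fb}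

section D1

/-- (D1), place form: the reduction of an element of `W ∩ O₀` is regular wherever `x̄` is. -/
theorem cpnd_ord_rho_nonneg (H : ts_Hyp A π W ρ r) (x : W)
    (hpole : ∀ P : Place L F, P.ord (x : F) < 0 → (r P).ord (ρ x) < 0)
    (y : W) (hy : h1v_Int L (x : F) (y : F)) (Q : Place k Fb) (hQ : 0 ≤ Q.ord (ρ x)) :
    0 ≤ Q.ord (ρ y) := by
  rw [ged_ord_nonneg_iff]
  apply H.reg_of_disc y Q
  intro P hP
  rw [← ged_ord_nonneg_iff]
  apply ged_ord_of_isIntegral (geb_isIntegral_of_int hy) P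
  by_contra hneg
  have h1 := hpole P (not_le.mp hneg)
  rw [hP] at h1
  omega

/-- **(D1)**: `ρ (W ∩ O₀) ⊆ O₁`. -/
theorem cpnd_rho_isIntegral (H : ts_Hyp A π W ρ r) (x : W)
    (hpole : ∀ P : Place L F, P.ord (x : F) < 0 → (r P).ord (ρ x) < 0)
    (hsep : pls_IsSepCoordinate k Fb (ρ x))
    (y : W) (hy : h1v_Int L (x : F) (y : F)) :
    IsIntegral (Algebra.adjoin k {ρ x}) (ρ y) :=
  ged_isIntegral_of_ord hsep fun Q hQ => cpnd_ord_rho_nonneg H x hpole y hy Q hQ

theorem cpnd_rho_int (H : ts_Hyp A π W ρ r) (x : W)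
    (hpole : ∀ P : Place L F, P.ord (x : F) < 0 → (r P).ord (ρ x) < 0)
    (hsep : pls_IsSepCoordinate k Fb (ρ x))
    (y : W) (hy : h1v_Int L (x : F) (y : F)) : h1v_Int k (ρ x) (ρ y) :=
  (cpnd_int_iff _ _).mpr (cpnd_rho_isIntegral H x hpole hsep y hy)

/-- finiteness of `O₁` in polynomial form, for a separating coordinate -/
theorem cpnd_fg_of_sep {K E : Type*} [Field K] [Field E] [Algebra K E] {t : E}
    (ht : pls_IsSepCoordinate K E t) :
    ∃ (m : ℕ) (Y : Fin m → E), (∀ j, h1v_Int K t (Y j)) ∧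
      ∀ y, h1v_Int K t y → ∃ p : Fin m → K[X], y = ∑ j, aeval t (p j) * Y j := by
  have : FFData K E t := ⟨ht.coord.transcendental, ht.coord.finite⟩
  have := ht.sep
  have : Module.Finite (Algebra.adjoin K {t}) (integralClosure (Algebra.adjoin K {t}) E) :=
    IsIntegralClosure.finite (ringA K t) K⟮t⟯ E (ringB K t)
  exact cpnd_fg_of_finite (L := K) t

/-- `ρ (W ∩ O₀)` lies in a finitely generated `k[x̄]`-module -/
theorem cpnd_hred (H : ts_Hyp A π W ρ r) (x : W)
    (hpole : ∀ P : Place L F, P.ord (x : F) < 0 → (r P).ord (ρ x) < 0)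
    (hsep : pls_IsSepCoordinate k Fb (ρ x)) :
    ∃ (m : ℕ) (Y : Fin m → Fb), ∀ y : W, h1v_Int L (x : F) (y : F) →
      ∃ p : Fin m → k[X], ρ y = ∑ j, aeval (ρ x) (p j) * Y j := by
  obtain ⟨m, Y, -, hY⟩ := cpnd_fg_of_sep hsep
  exact ⟨m, Y, fun y hy => hY _ (cpnd_rho_int H x hpole hsep y hy)⟩

end D1

section D2

/-- multiplication by a lifted polynomial: `q(x) y ∈ W ∩ O₀` and its reduction -/
theorem cpnd_mul_lift (H : ts_Hyp A π W ρ r) (x : W) (q : A[X]) (y : W)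
    (hy : h1v_Int L (x : F) (y : F)) :
    h1v_Int L (x : F) ((geh_Phi H x q * y : W) : F) ∧
      ρ (geh_Phi H x q * y) = aeval (ρ x) (q.map π) * ρ y := by
  refine ⟨?_, by rw [map_mul, geh_rho_Phi]⟩
  have h1 : ((geh_Phi H x q * y : W) : F) = aeval (x : F) (q.map A.subtype) * (y : F) := by
    rw [← geh_coe_Phi H x q]; rfl
  rw [h1]
  exact (h1v_Int_aeval _ _).mul hy

/-- **(D2)**: a lifted `k[x̄]`-basis of the reduction of the chart ring. -/
theorem cpnd_exists_lift (H : ts_Hyp A π W ρ r) (x : W) (hx : Transcendental k (ρ x))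
    (hred : ∃ (m : ℕ) (Y : Fin m → Fb), ∀ y : W, h1v_Int L (x : F) (y : F) →
      ∃ p : Fin m → k[X], ρ y = ∑ j, aeval (ρ x) (p j) * Y j) :
    ∃ (n : ℕ) (b : Fin n → W), (∀ i, h1v_Int L (x : F) (b i : F)) ∧
      (∀ p : Fin n → k[X], ∑ i, aeval (ρ x) (p i) * ρ (b i) = 0 → ∀ i, p i = 0) ∧
      ∀ y : W, h1v_Int L (x : F) (y : F) →
        ∃ q : Fin n → k[X], ρ y = ∑ i, aeval (ρ x) (q i) * ρ (b i) := by
  classical
  obtain ⟨m, Y, hY⟩ := hred
  set M : Set Fb := {yb | ∃ y : W, h1v_Int L (x : F) (y : F) ∧ ρ y = yb} with hM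
  have h0 : (0 : Fb) ∈ M := ⟨0, h1v_Int_zero _, map_zero ρ⟩
  have hadd : ∀ a ∈ M, ∀ b ∈ M, a + b ∈ M := by
    rintro a ⟨y, hy, rfl⟩ b ⟨z, hz, rfl⟩
    exact ⟨y + z, hy.add hz, map_add ρ y z⟩
  have hsmul : ∀ (p : k[X]), ∀ a ∈ M, aeval (ρ x) p * a ∈ M := by
    rintro p a ⟨y, hy, rfl⟩
    obtain ⟨q, hq⟩ := Polynomial.map_surjective π H.pi_surj p
    obtain ⟨h1, h2⟩ := cpnd_mul_lift H x q y hy
    exact ⟨geh_Phi H x q * y, h1, by rw [h2, hq]⟩
  have hYM : ∀ a ∈ M, ∃ p : Fin m → k[X], a = ∑ j, aeval (ρ x) (p j) * Y j := by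
    rintro a ⟨y, hy, rfl⟩
    exact hY y hy
  obtain ⟨n, c, hcM, hcind, hcspan⟩ := cpnd_exists_basis (ρ x) hx M h0 hadd hsmul Y hYM
  choose b hbint hbc using hcM
  refine ⟨n, b, hbint, ?_, ?_⟩
  · intro p hp
    apply hcind p
    rw [← hp]
    exact Finset.sum_congr rfl fun i _ => by rw [hbc i]
  · intro y hy
    obtain ⟨q, hq⟩ := hcspan (ρ y) ⟨y, hy, rfl⟩
    refine ⟨q, ?_⟩
    rw [hq]
    exact Finset.sum_congr rfl fun i _ => by rw [hbc i]

end D2

section Count

/-- Gauss normalisation of a nonzero polynomial: a constant multiple is primitive over `A`. -/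
theorem cpnd_exists_primitive (A : ValuationSubring L) (a : L[X]) (ha : a ≠ 0) :
    ∃ (e : L) (q : A[X]) (s : ℕ), e ≠ 0 ∧ q.map A.subtype = C e * a ∧ q.coeff s = 1 := by
  have hne : a.support.Nonempty := Polynomial.support_nonempty.mpr ha
  obtain ⟨s, hs, hmax⟩ := Finset.exists_max_image a.support (fun j => A.valuation (a.coeff j)) hne
  have hs0' : a.coeff s ≠ 0 := Polynomial.mem_support_iff.mp hs
  have hint : h1v_IntPoly A (C (a.coeff s)⁻¹ * a) := by
    intro j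
    rw [coeff_C_mul]
    by_cases hj : j ∈ a.support
    · rw [← A.valuation_le_one_iff, map_mul, map_inv₀]
      have hv : A.valuation (a.coeff s) ≠ 0 := (Valuation.ne_zero_iff _).mpr hs0'
      rw [inv_mul_le_iff₀ (zero_lt_iff.mpr hv), mul_one]
      exact hmax j hj
    · rw [Polynomial.notMem_support_iff.mp hj, mul_zero]
      exact A.zero_mem
  obtain ⟨q, hq⟩ := geh_exists_lift_of_intPoly hint
  refine ⟨(a.coeff s)⁻¹, q, s, inv_ne_zero hs0', hq, ?_⟩
  apply Subtype.ext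
  have h2 := congrArg (fun p => p.coeff s) hq
  simp only [coeff_map, coeff_C_mul] at h2
  rw [inv_mul_cancel₀ hs0'] at h2
  exact h2

theorem cpnd_aeval_mem_adjoin (t : Fb) (p : k[X]) : aeval t p ∈ k⟮t⟯ := by
  rw [IntermediateField.mem_adjoin_simple_iff]
  exact ⟨p, 1, by simp⟩

/-- every `y ∈ F` has a multiple `q(x) y`, `q ∈ A[X]` primitive, integral over `L[x]` -/
theorem cpnd_exists_int_multiple (A : ValuationSubring L) (π : A →+* k) (x : F)
    [FiniteDimensional L⟮x⟯ F] (y : F) :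
    ∃ q : A[X], q.map π ≠ 0 ∧ h1v_Int L x (aeval x (q.map A.subtype) * y) := by
  have halg : IsAlgebraic L⟮x⟯ y := Algebra.IsAlgebraic.isAlgebraic y
  have halg' : IsAlgebraic (Algebra.adjoin L {x}) y :=
    (IsFractionRing.isAlgebraic_iff (Algebra.adjoin L {x}) L⟮x⟯ F).mpr halg
  obtain ⟨d, hd0, hd⟩ := halg'.exists_integral_multiple
  obtain ⟨a, ha⟩ := cpnd_adjoin_surj (L := L) x d
  have ha0 : a ≠ 0 := by
    rintro rfl
    apply hd0
    rw [← ha, map_zero]
  obtain ⟨e, q, s, -, hq, hqs⟩ := cpnd_exists_primitive A a ha0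
  refine ⟨q, ?_, ?_⟩
  · intro h0
    have h1 := congrArg (fun p => p.coeff s) h0
    simp only [coeff_map, hqs, map_one, coeff_zero] at h1
    exact one_ne_zero h1
  · rw [hq, map_mul, aeval_C, mul_assoc]
    apply (h1v_Int_algebraMap _ e).mul
    have h2 : aeval x a * y = d • y := by
      rw [← ha, Algebra.smul_def, ← cpnd_coe_aeval]
      rfl
    rw [h2]
    exact (cpnd_int_iff _ _).mpr hd

/-- **count**: the lifted family has `[F : L(x)]` elements and its reduction is a `k(x̄)`-basis of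
`Fb`. -/
theorem cpnd_card_eq (H : ts_Hyp A π W ρ r) (x : W) (hx : Transcendental k (ρ x))
    (hρsurj : ∀ y : Fb, y ≠ 0 → ∃ u : W, ρ u = y)
    [FiniteDimensional L⟮(x : F)⟯ F]
    (hdeg : finrank L⟮(x : F)⟯ F ≤ finrank k⟮ρ x⟯ Fb)
    {n : ℕ} (b : Fin n → W)
    (hind : ∀ p : Fin n → k[X], ∑ i, aeval (ρ x) (p i) * ρ (b i) = 0 → ∀ i, p i = 0)
    (hspan : ∀ y : W, h1v_Int L (x : F) (y : F) →
        ∃ q : Fin n → k[X], ρ y = ∑ i, aeval (ρ x) (q i) * ρ (b i)) :
    n = finrank L⟮(x : F)⟯ F ∧ LinearIndependent k⟮ρ x⟯ (fun i => ρ (b i)) ∧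
      Submodule.span k⟮ρ x⟯ (Set.range fun i => ρ (b i)) = ⊤ := by
  classical
  -- (a) independence over `k(x̄)`
  have hli : LinearIndependent k⟮ρ x⟯ (fun i => ρ (b i)) := by
    have h1 : LinearIndependent (Algebra.adjoin k {ρ x}) (fun i => ρ (b i)) := by
      rw [Fintype.linearIndependent_iff]
      intro g hg i
      choose p hp using fun i => cpnd_adjoin_surj (L := k) (ρ x) (g i)
      have h0 : ∑ i, aeval (ρ x) (p i) * ρ (b i) = 0 := by
        rw [← hg]
        refine Finset.sum_congr rfl fun i _ => ?_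
        rw [← cpnd_coe_aeval (ρ x) (p i), hp i]
        rfl
      rw [← hp i, hind p h0 i, map_zero]
    exact (LinearIndependent.iff_fractionRing (Algebra.adjoin k {ρ x}) k⟮ρ x⟯).mp h1
  -- (b) spanning over `k(x̄)`
  have hsp : Submodule.span k⟮ρ x⟯ (Set.range fun i => ρ (b i)) = ⊤ := by
    rw [eq_top_iff]
    intro yb _
    rcases eq_or_ne yb 0 with rfl | hyb
    · exact Submodule.zero_mem _
    obtain ⟨y, rfl⟩ := hρsurj yb hyb
    obtain ⟨q, hq0, hqint⟩ := cpnd_exists_int_multiple A π (x : F) (y : F)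
    have hzint : h1v_Int L (x : F) ((geh_Phi H x q * y : W) : F) := by
      have h1 : ((geh_Phi H x q * y : W) : F) = aeval (x : F) (q.map A.subtype) * (y : F) := by
        rw [← geh_coe_Phi H x q]; rfl
      rw [h1]; exact hqint
    obtain ⟨p, hp⟩ := hspan _ hzint
    rw [map_mul, geh_rho_Phi] at hp
    have hd : aeval (ρ x) (q.map π) ≠ 0 := fun h => hq0 ((transcendental_iff.mp hx) _ h)
    have hy : ρ y = ∑ i, (⟨(aeval (ρ x) (q.map π))⁻¹ * aeval (ρ x) (p i),
        mul_mem (inv_mem (cpnd_aeval_mem_adjoin _ _)) (cpnd_aeval_mem_adjoin _ _)⟩ : k⟮ρ x⟯) •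
          ρ (b i) := by
      have h2 : ρ y = (aeval (ρ x) (q.map π))⁻¹ * (aeval (ρ x) (q.map π) * ρ y) := by
        rw [← mul_assoc, inv_mul_cancel₀ hd, one_mul]
      rw [h2, hp, Finset.mul_sum]
      refine Finset.sum_congr rfl fun i _ => ?_
      rw [IntermediateField.smul_def, smul_eq_mul, mul_assoc]
    rw [hy]
    exact Submodule.sum_mem _ fun i _ =>
      Submodule.smul_mem _ _ (Submodule.subset_span ⟨i, rfl⟩)
  -- (c) count
  have hcard : finrank k⟮ρ x⟯ Fb = n := by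
    have := Module.finrank_eq_card_basis (Basis.mk hli hsp.ge)
    rw [this, Fintype.card_fin]
  have hle : n ≤ finrank L⟮(x : F)⟯ F := by
    have h1 := (dfm_linearIndependent_adjoin (dfm_hyp_of_ts H) x b hind).fintype_card_le_finrank
    rwa [Fintype.card_fin] at h1
  exact ⟨le_antisymm hle (hcard ▸ hdeg), hli, hsp⟩

end Count

section Main

/-- **Row D, main theorem**: the lifted orthonormal basis on the chart `x` (`x = 1/j` in the
application), the hypothesis bundle `h1v_Hyp` and the small denominator `I = 1 - J`. -/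
theorem cpnd_main [IsAlgClosed L] [CharZero L] (H : ts_Hyp A π W ρ r)
    (hnontriv : ∃ π₀ : L, π₀ ≠ 0 ∧ A.valuation π₀ < 1)
    (harch : ∀ π₀ : L, A.valuation π₀ < 1 → ∀ c : L, ∃ s : ℕ, π₀ ^ s * c ∈ A)
    (x : W) (hsep : pls_IsSepCoordinate k Fb (ρ x))
    (hρsurj : ∀ y : Fb, y ≠ 0 → ∃ u : W, ρ u = y)
    (hpole : ∀ P : Place L F, P.ord (x : F) < 0 → (r P).ord (ρ x) < 0)
    [FiniteDimensional L⟮(x : F)⟯ F]
    (hdeg : finrank L⟮(x : F)⟯ F ≤ finrank k⟮ρ x⟯ Fb) :
    ∃ b : Fin (finrank L⟮(x : F)⟯ F) → W,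
      (∀ i, h1v_Int L (x : F) (b i : F)) ∧
      (∀ p : Fin (finrank L⟮(x : F)⟯ F) → k[X],
        ∑ i, aeval (ρ x) (p i) * ρ (b i) = 0 → ∀ i, p i = 0) ∧
      LinearIndependent k⟮ρ x⟯ (fun i => ρ (b i)) ∧
      Submodule.span k⟮ρ x⟯ (Set.range fun i => ρ (b i)) = ⊤ ∧
      (∀ y : W, h1v_Int L (x : F) (y : F) →
        ∃ q : Fin (finrank L⟮(x : F)⟯ F) → k[X], ρ y = ∑ i, aeval (ρ x) (q i) * ρ (b i)) ∧
      h1v_Hyp A W (x : F) (fun i => (b i : F)) ∧
      ∃ J : L[X], h1v_SmallPoly A J ∧ h1v_Den L (x : F) (fun i => (b i : F)) (1 - J) := by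
  have hx : Transcendental k (ρ x) := hsep.coord.transcendental
  obtain ⟨n, b, hbint, hind, hspan⟩ := cpnd_exists_lift H x hx (cpnd_hred H x hpole hsep)
  obtain ⟨hn, hli, hsp⟩ := cpnd_card_eq H x hx hρsurj hdeg b hind hspan
  subst hn
  have hxL : Transcendental L (x : F) := dfm_transcendental (dfm_hyp_of_ts H) x hx
  have : FFData L F (x : F) := ⟨hxL, inferInstance⟩
  have hfg := geh_fg_of_ffData (K := L) (x : F)
  have hfrac := geh_frac_of_basis (K := L) (x : F) (fun i => (b i : F)) rfl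
    (dfm_poly_indep (dfm_hyp_of_ts H) x b hind)
  have hden := geh_den_of_fg (fun i => (b i : F)) hfg hfrac
  have hρx : ρ x ≠ 0 := fun h => hx (h ▸ isAlgebraic_zero)
  have HY := geh_h1vHyp H x hρx hnontriv harch b hbint hind hspan hden hfg
  exact ⟨b, hbint, hind, hli, hsp, hspan, HY, HY.exists_den_small⟩

end Main

end Fermat.Agent.S18x
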