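/-
S18x/CpnPForm (helper38): row F of the CUSPN(b) twin, "onto up to a polynomial unit at 0" form
(the shape (OUT-C-onto) consumed by helper34's `NrmInfGlue`):
every `ȳ` integral over `k[x̄]` (`x = 1/j`) becomes, after multiplication by some `s(x̄)` with
`s(0) ≠ 0`, the reduction of an element of `W` integral over `L[x]`.
Same hypotheses as `cpnf_Cinf`.
-/
import Fermat.Agent.S18x.CpnFF
import Fermat.Agent.S18x.HzCpn

set_option autoImplicit false

namespace Fermat.Agent.S18x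

open AlgebraicCurve Polynomial Module
open Fermat.Agent.S24x

section

variable {L k F Fb : Type*} [Field L] [IsAlgClosed L] [CharZero L] [Field k] [IsAlgClosed k]
  [Field F] [Field Fb] [Algebra L F] [Algebra k Fb]

theorem cpnf_pform (A : ValuationSubring L) (π : A →+* k)
    (hπ0 : ∀ c : A, A.valuation (c : L) < 1 → π c = 0) (hπs : Function.Surjective π)
    (W : ValuationSubring F) (ρ : W →+* Fb) (x : W)
    [hx : FFData L F (x : F)] [hxb : FFData k Fb (ρ x)]
    [IsDedekindDomain (ringB k (ρ x))]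
    (hgauss : ∀ p : A[X], ∃ h : Polynomial.aeval (x : F) (p.map A.subtype) ∈ W,
      ρ ⟨_, h⟩ = Polynomial.aeval (ρ x) (p.map π))
    {n : ℕ} (γ : Basis (Fin n) (ringA L (x : F)) (ringB L (x : F)))
    (β : Basis (Fin n) (ringA k (ρ x)) (ringB k (ρ x)))
    (b₀ : Fin n → W) (hb₀ : ∀ i, ((b₀ i : W) : F) ∈ ringB L (x : F))
    (hb₁ : ∀ i, ρ (b₀ i) ∈ ringB k (ρ x))
    (tA : Matrix (Fin n) (Fin n) A[X])
    (htr₀ : ∀ i j, Algebra.trace (ringA L (x : F)) (ringB L (x : F))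
      ((⟨_, hb₀ i⟩ : ringB L (x : F)) * ⟨_, hb₀ j⟩) = hzb_equiv (x : F) ((tA i j).map A.subtype))
    (htr₁ : ∀ i j, Algebra.trace (ringA k (ρ x)) (ringB k (ρ x))
      ((⟨_, hb₁ i⟩ : ringB k (ρ x)) * ⟨_, hb₁ j⟩) = hzb_equiv (ρ x) ((tA i j).map π))
    (I : L[X]) (hI : ∀ c : L, c ∈ A → I.eval c ≠ 0)
    (hden : ∀ j, ∃ c : Fin n → ringA L (x : F),
      hzb_equiv (x : F) I • γ j = ∑ i, c i • (⟨_, hb₀ i⟩ : ringB L (x : F)))
    (hcount₀ : ∀ c : L, A.valuation c < 1 → c ≠ 0 → (placesOver L F (x : F) c).ncard = n)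
    (hr₀ : (placesOver L F (x : F) (0 : L)).ncard ≤ n)
    (hcountle : (placesOver k Fb (ρ x) (0 : k)).ncard ≤ (placesOver L F (x : F) (0 : L)).ncard)
    (hsep : Algebra.discr (ringA k (ρ x)) (fun i => (⟨_, hb₁ i⟩ : ringB k (ρ x))) ≠ 0) :
    ∀ yb : Fb, IsIntegral (Algebra.adjoin k {ρ x}) yb →
      ∃ (u : W) (s : k[X]), s.eval 0 ≠ 0 ∧ ρ u = Polynomial.aeval (ρ x) s * yb ∧
        IsIntegral (Algebra.adjoin L {(x : F)}) (u : F) := by
  classical
  -- the two discriminant inputs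
  obtain ⟨e, hd0, he⟩ := hzb_cpn_hdisc0 (x : F) γ {c : L | A.valuation c < 1}
    (fun c hc hc0 => by rw [hcount₀ c hc hc0, Fintype.card_fin])
  have hd1 := hzb_cpn_hdisc1 (ρ x) β (Fintype.card (Fin n) - (placesOver L F (x : F) (0 : L)).ncard)
    (by rw [Fintype.card_fin]; omega)
  have key := cpn_ff A π hπ0 (hzb_equiv (x : F)) (hzb_equiv (ρ x)) γ β
    (fun i => (⟨_, hb₀ i⟩ : ringB L (x : F))) (fun i => (⟨_, hb₁ i⟩ : ringB k (ρ x))) tA htr₀ htr₁
    I hI hden _ e hd0 (fun c hc => he c hc) hd1 hsep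
  intro yb hyb
  have hyb' : IsIntegral (ringA k (ρ x)) yb := hyb
  obtain ⟨p, hp0, c, hc⟩ := key ⟨yb, hyb'⟩
  -- pass to `Fb`
  have hcF : Polynomial.aeval (ρ x) p * yb =
      ∑ i, ((c i : ringA k (ρ x)) : Fb) * ρ (b₀ i) := by
    have := congrArg (fun z : ringB k (ρ x) => (z : Fb)) hc
    simp only [hzb_equiv_apply] at this
    have e1 : ((Polynomial.aeval (genA k (ρ x)) p • (⟨yb, hyb'⟩ : ringB k (ρ x)) : ringB k (ρ x)) : Fb)
        = Polynomial.aeval (ρ x) p * yb := by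
      show ((Polynomial.aeval (genA k (ρ x)) p : ringA k (ρ x)) : Fb) * yb = _
      congr 1
      have := Polynomial.aeval_algHom_apply (ringA k (ρ x)).val (genA k (ρ x)) p
      simpa using this.symm
    rw [e1] at this
    rw [this]
    rw [show ((∑ i, c i • (⟨_, hb₁ i⟩ : ringB k (ρ x)) : ringB k (ρ x)) : Fb) =
      ∑ i, ((c i • (⟨_, hb₁ i⟩ : ringB k (ρ x)) : ringB k (ρ x)) : Fb) from by
        simp]
    rfl
  -- the coefficients as polynomials
  have hcpoly : ∀ i, ∃ q : k[X], ((c i : ringA k (ρ x)) : Fb) = Polynomial.aeval (ρ x) q := by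
    intro i
    refine ⟨(hzb_equiv (ρ x)).symm (c i), ?_⟩
    have h1 : hzb_equiv (ρ x) ((hzb_equiv (ρ x)).symm (c i)) = c i :=
      (hzb_equiv (ρ x)).apply_symm_apply (c i)
    rw [hzb_equiv_apply] at h1
    have h2 := Polynomial.aeval_algHom_apply (ringA k (ρ x)).val (genA k (ρ x))
      ((hzb_equiv (ρ x)).symm (c i))
    rw [h1] at h2
    simpa using h2.symm
  choose qb hqb using hcpoly
  have hlift : ∀ i, ∃ q : A[X], q.map π = qb i := fun i =>
    Polynomial.map_surjective π hπs _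
  choose q hq using hlift
  choose hqW hqρ using fun i => hgauss (q i)
  set u : W := ∑ i, (⟨_, hqW i⟩ : W) * b₀ i with hu
  have hρu : ρ u = Polynomial.aeval (ρ x) p * yb := by
    rw [hu, map_sum, hcF]
    refine Finset.sum_congr rfl fun i _ => ?_
    rw [map_mul, hqρ i, hq i, hqb i]
  have hLint : ∀ r : L[X], IsIntegral (ringA L (x : F)) (Polynomial.aeval (x : F) r) := by
    intro r
    have hmem : Polynomial.aeval (x : F) r ∈ ringA L (x : F) := by
      show _ ∈ Algebra.adjoin L {(x : F)}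
      rw [Algebra.adjoin_singleton_eq_range_aeval]
      exact ⟨r, rfl⟩
    exact isIntegral_algebraMap (R := ringA L (x : F)) (A := F)
      (x := (⟨_, hmem⟩ : ringA L (x : F)))
  refine ⟨u, p, hp0, hρu, ?_⟩
  -- `u` is integral over `L[x]`
  have : (u : F) = ∑ i, Polynomial.aeval (x : F) ((q i).map A.subtype) * ((b₀ i : W) : F) := by
    rw [hu]
    simp
  rw [this]
  show IsIntegral (ringA L (x : F)) _
  refine IsIntegral.sum _ fun i _ => (hLint _).mul ?_
  exact hb₀ i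

end

end Fermat.Agent.S18x
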