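/-
S18x/CpnTraceGauss (helper58): row E of the CUSPN(b) twin, part E2 (Mathlib only).

`A` a valuation ring of `L` with a ring map `π : A →+* k`, `W` a valuation ring of `F ⊇ L` with a
ring map `ρ : W →+* Fb` compatible with `π` on constants, `x ∈ W`.

* `cpne_aeval_mem`  : `p(x) ∈ W` for `p ∈ A[X]`;
* `cpne_rho_aeval`  : `ρ (p(x)) = p̄(ρ x)` for `p ∈ A[X]`;
* `cpne_exists_map` : a polynomial over `L` with all coefficients in `A` comes from `A[X]`;
* `cpne_exists_scale` : a nonzero polynomial over `L` can be scaled to have coefficients in `A`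
                        and one coefficient equal to `1`;
* `cpne_gauss`      : GAUSS LEMMA.  If `ρ x` is transcendental over `k` and `π` kills the maximal
                      ideal, then `p(x) ∈ W` forces all coefficients of `p` into `A`.
-/
import Mathlib

set_option autoImplicit false

namespace Fermat.Agent.S18x

open Polynomial

section Gauss

variable {L k F Fb : Type*} [Field L] [Field k] [Field F] [Field Fb] [Algebra L F] [Algebra k Fb]
variable (A : ValuationSubring L) (π : A →+* k) (W : ValuationSubring F) (ρ : W →+* Fb)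

/-- the inclusion of constants `A → W` -/
noncomputable def cpne_const (hmem : ∀ c : L, c ∈ A → algebraMap L F c ∈ W) : A →+* W :=
  ((algebraMap L F).comp A.subtype).codRestrict W (fun c => hmem _ c.2)

theorem cpne_const_coe (hmem : ∀ c : L, c ∈ A → algebraMap L F c ∈ W) (c : A) :
    ((cpne_const A W hmem c : W) : F) = algebraMap L F (c : L) := rfl

/-- evaluation at `x ∈ W` as a ring map `A[X] → W` -/
noncomputable def cpne_evalW (hmem : ∀ c : L, c ∈ A → algebraMap L F c ∈ W) (x : F) (hx : x ∈ W) :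
    A[X] →+* W :=
  Polynomial.eval₂RingHom (cpne_const A W hmem) ⟨x, hx⟩

theorem cpne_evalW_coe (hmem : ∀ c : L, c ∈ A → algebraMap L F c ∈ W) (x : F) (hx : x ∈ W)
    (p : A[X]) : ((cpne_evalW A W hmem x hx p : W) : F) = aeval x (p.map A.subtype) := by
  have h : (W.subtype.comp (cpne_evalW A W hmem x hx))
      = ((aeval x : L[X] →ₐ[L] F) : L[X] →+* F).comp (mapRingHom A.subtype) := by
    apply Polynomial.ringHom_ext
    · intro c
      simp [cpne_evalW, cpne_const_coe]
    · simp [cpne_evalW]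
  exact congrArg (fun f => f p) h

/-- `p(x) ∈ W` for `p ∈ A[X]`. -/
theorem cpne_aeval_mem (hmem : ∀ c : L, c ∈ A → algebraMap L F c ∈ W) (x : F) (hx : x ∈ W)
    (p : A[X]) : aeval x (p.map A.subtype) ∈ W := by
  rw [← cpne_evalW_coe A W hmem x hx p]
  exact (cpne_evalW A W hmem x hx p).2

/-- `ρ (p(x)) = p̄(ρ x)` for `p ∈ A[X]`. -/
theorem cpne_rho_aeval (hmem : ∀ c : L, c ∈ A → algebraMap L F c ∈ W)
    (hρalg : ∀ (c : L) (hc : c ∈ A) (hW : algebraMap L F c ∈ W),
      ρ ⟨algebraMap L F c, hW⟩ = algebraMap k Fb (π ⟨c, hc⟩))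
    (x : F) (hx : x ∈ W) (p : A[X]) :
    ρ ⟨aeval x (p.map A.subtype), cpne_aeval_mem A W hmem x hx p⟩
      = aeval (ρ ⟨x, hx⟩) (p.map π) := by
  have h : ρ.comp (cpne_evalW A W hmem x hx)
      = ((aeval (ρ ⟨x, hx⟩) : k[X] →ₐ[k] Fb) : k[X] →+* Fb).comp (mapRingHom π) := by
    apply Polynomial.ringHom_ext
    · intro c
      simp only [cpne_evalW, RingHom.comp_apply, coe_eval₂RingHom, eval₂_C, coe_mapRingHom, map_C,
        RingHom.coe_coe, aeval_C]
      exact hρalg (c : L) c.2 _
    · simp [cpne_evalW]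
  have h2 := congrArg (fun f => f p) h
  simp only [RingHom.comp_apply, coe_mapRingHom, RingHom.coe_coe] at h2
  rw [← h2]
  congr 1
  exact Subtype.ext (cpne_evalW_coe A W hmem x hx p).symm

/-- A polynomial over `L` with all coefficients in `A` comes from `A[X]`. -/
theorem cpne_exists_map (p : L[X]) (hp : ∀ j, p.coeff j ∈ A) :
    ∃ p' : A[X], p'.map A.subtype = p := by
  have h : p ∈ (mapRingHom A.subtype).range := by
    rw [Polynomial.mem_map_range]
    intro j
    exact ⟨⟨p.coeff j, hp j⟩, rfl⟩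
  obtain ⟨p', hp'⟩ := h
  exact ⟨p', hp'⟩

/-- Scaling a nonzero polynomial: some `c ≠ 0` with `C c * p ∈ A[X]` having a coefficient `1`. -/
theorem cpne_exists_scale (p : L[X]) (hp : p ≠ 0) :
    ∃ (c : L) (p' : A[X]) (j : ℕ), c ≠ 0 ∧ p'.map A.subtype = C c * p ∧ p'.coeff j = 1 := by
  obtain ⟨j, hjs, hj⟩ := Finset.exists_max_image p.support (fun i => A.valuation (p.coeff i))
    (by rwa [Finset.nonempty_iff_ne_empty, Ne, Polynomial.support_eq_empty])
  have ha0 : p.coeff j ≠ 0 := Polynomial.mem_support_iff.mp hjs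
  have hv0 : A.valuation (p.coeff j) ≠ 0 := (Valuation.ne_zero_iff _).mpr ha0
  have hcoef : ∀ i, (C (p.coeff j)⁻¹ * p).coeff i ∈ A := by
    intro i
    rw [coeff_C_mul, ← A.valuation_le_one_iff, map_mul, map_inv₀]
    by_cases hi : i ∈ p.support
    · rw [inv_mul_le_iff₀ (zero_lt_iff.mpr hv0), mul_one]
      exact hj i hi
    · rw [Polynomial.notMem_support_iff.mp hi, map_zero, mul_zero]
      exact zero_le_one
  obtain ⟨p', hp'⟩ := cpne_exists_map A _ hcoef
  refine ⟨(p.coeff j)⁻¹, p', j, inv_ne_zero ha0, hp', ?_⟩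
  apply Subtype.ext
  have := congrArg (fun q => q.coeff j) hp'
  simp only [coeff_map, coeff_C_mul] at this
  rw [ValuationSubring.subtype_apply] at this
  rw [this, inv_mul_cancel₀ ha0]
  rfl

/-- **Gauss lemma**: if `ρ x` is transcendental over `k`, `p(x) ∈ W` forces `p ∈ A[X]`. -/
theorem cpne_gauss (hπ : ∀ c : A, A.valuation (c : L) < 1 → π c = 0)
    (hmem : ∀ c : L, c ∈ A → algebraMap L F c ∈ W)
    (hρalg : ∀ (c : L) (hc : c ∈ A) (hW : algebraMap L F c ∈ W),
      ρ ⟨algebraMap L F c, hW⟩ = algebraMap k Fb (π ⟨c, hc⟩))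
    (x : F) (hx : x ∈ W) (htr : Transcendental k (ρ ⟨x, hx⟩))
    (p : L[X]) (hp : aeval x p ∈ W) : ∀ j, p.coeff j ∈ A := by
  by_contra hcon
  obtain ⟨i1, hi1⟩ := not_forall.mp hcon
  have hp0 : p ≠ 0 := by
    rintro rfl
    exact hi1 (by simp)
  obtain ⟨j, hjs, hj⟩ := Finset.exists_max_image p.support (fun i => A.valuation (p.coeff i))
    (by rwa [Finset.nonempty_iff_ne_empty, Ne, Polynomial.support_eq_empty])
  have ha0 : p.coeff j ≠ 0 := Polynomial.mem_support_iff.mp hjs
  have hv0 : A.valuation (p.coeff j) ≠ 0 := (Valuation.ne_zero_iff _).mpr ha0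
  -- the maximal coefficient has valuation `> 1`
  have hbig : 1 < A.valuation (p.coeff j) := by
    have h1 : ¬ A.valuation (p.coeff i1) ≤ 1 := fun h => hi1 ((A.valuation_le_one_iff _).mp h)
    have hi1s : i1 ∈ p.support := by
      rw [Polynomial.mem_support_iff]
      rintro h0
      exact hi1 (h0 ▸ A.zero_mem)
    exact lt_of_lt_of_le (not_le.mp h1) (hj i1 hi1s)
  set a := p.coeff j with ha
  have hcoef : ∀ i, (C a⁻¹ * p).coeff i ∈ A := by
    intro i
    rw [coeff_C_mul, ← A.valuation_le_one_iff, map_mul, map_inv₀]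
    by_cases hi : i ∈ p.support
    · rw [inv_mul_le_iff₀ (zero_lt_iff.mpr hv0), mul_one]
      exact hj i hi
    · rw [Polynomial.notMem_support_iff.mp hi, map_zero, mul_zero]
      exact zero_le_one
  obtain ⟨q, hq⟩ := cpne_exists_map A _ hcoef
  have hqj : q.coeff j = 1 := by
    apply Subtype.ext
    have := congrArg (fun q => q.coeff j) hq
    simp only [coeff_map, coeff_C_mul] at this
    rw [ValuationSubring.subtype_apply] at this
    rw [this, ← ha, inv_mul_cancel₀ ha0]
    rfl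
  -- `a⁻¹` lies in the maximal ideal
  have hainv : A.valuation a⁻¹ < 1 := by
    rw [map_inv₀]
    exact inv_lt_one_of_one_lt₀ hbig
  have hainvA : a⁻¹ ∈ A := (A.valuation_le_one_iff _).mp hainv.le
  have hπa : π ⟨a⁻¹, hainvA⟩ = 0 := hπ ⟨a⁻¹, hainvA⟩ hainv
  -- reduce `q(x) = a⁻¹ p(x)`
  have h1 := cpne_rho_aeval A π W ρ hmem hρalg x hx q
  have h2 : (⟨aeval x (q.map A.subtype), cpne_aeval_mem A W hmem x hx q⟩ : W)
      = ⟨algebraMap L F a⁻¹, hmem _ hainvA⟩ * ⟨aeval x p, hp⟩ := by
    apply Subtype.ext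
    show aeval x (q.map A.subtype) = algebraMap L F a⁻¹ * aeval x p
    rw [hq, map_mul, aeval_C]
  rw [h2, map_mul, hρalg a⁻¹ hainvA, hπa, map_zero, zero_mul] at h1
  have h3 : q.map π = 0 := by
    by_contra hne
    exact htr ⟨q.map π, hne, h1.symm⟩
  have h4 := congrArg (fun q => q.coeff j) h3
  simp only [coeff_map, hqj, map_one, coeff_zero] at h4
  exact one_ne_zero h4

end Gauss

end Fermat.Agent.S18x
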