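/-
S18x/CpnTraceH1v (helper86, prefix `cpnt_`): row E of the CUSPN(b) twin (`s18_cpn_plan`):
"the trace commutes with reduction", in EXACTLY the shape of the hypotheses `htr₀`, `htr₁` of
`cpn_ff` (S18x/CpnFF.lean), directly from helper77's package `h1v_Hyp` (no `L(x)`, no `k(x̄)`,
no field-level trace).

* `cpnt_trace_of_family` (pure linear algebra over a domain `R`): if `S` is free with basis `β`,
  `b : Fin n → S` is `R`-linearly independent and `d • (y * b l) = ∑ m, C l m • b m`, then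
  `d * Tr_{S/R}(y) = tr C`.
* `cpnt_exists_trace`: for `y ∈ W` integral over `L[x]`, with the normalised denominator
  `I = 1 - J` of `h1v_Hyp.exists_den_small`: `(1 - J)(x) y b_l = ∑ c_{lm}(x) b_m`, `c_{lm} ∈ A[X]` by
  orthonormality; so `(1 - J) Tr(y) = ∑ c_{ll}`, whence `Tr(y) ∈ A[X]` (Gauss lemma) and, since
  `1 - J` reduces to `1`, `Tr(ρ y) = reduction of Tr(y)`.
* `cpnt_exists_tA`: the trace matrix `tA` over `A[X]` with both trace identities.
-/
import Mathlib
import Fermat.Agent.S18x.H1vRoot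

set_option autoImplicit false

namespace Fermat.Agent.S18x

open Module Matrix Polynomial

section LinAlg

variable {R S : Type*} [CommRing R] [IsDomain R] [CommRing S] [Algebra R S]

/-- the coordinate matrix of a linearly independent family (of the size of a basis) has nonzero
determinant. -/
theorem cpnt_det_ne_zero {n : ℕ} (β : Basis (Fin n) R S) (b : Fin n → S)
    (hb : LinearIndependent R b) :
    (Matrix.of fun l j => β.repr (b l) j : Matrix (Fin n) (Fin n) R).det ≠ 0 := by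
  classical
  intro h0
  obtain ⟨v, hv0, hv⟩ := Matrix.exists_vecMul_eq_zero_iff.mpr h0
  apply hv0
  have hsum : ∑ l, v l • b l = 0 := by
    apply β.repr.injective
    ext j
    have := congrFun hv j
    simp only [Matrix.vecMul, dotProduct, Matrix.of_apply, Pi.zero_apply] at this
    simp only [map_sum, map_smul, Finsupp.coe_finsetSum, Finsupp.coe_smul, Finset.sum_apply,
      Pi.smul_apply, smul_eq_mul, map_zero, Finsupp.coe_zero, Pi.zero_apply]
    exact this
  funext l
  exact Fintype.linearIndependent_iff.mp hb v hsum l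

/-- **trace through a full-rank subfamily**: if `d • (y * b l) = ∑ m, C l m • b m` for a linearly
independent family `b` of the size of a basis, then `d * Tr(y) = tr C`. -/
theorem cpnt_trace_of_family {n : ℕ} (β : Basis (Fin n) R S) (b : Fin n → S)
    (hb : LinearIndependent R b) (y : S) (d : R) (C : Matrix (Fin n) (Fin n) R)
    (h : ∀ l, d • (y * b l) = ∑ m, C l m • b m) :
    d * Algebra.trace R S y = Matrix.trace C := by
  classical
  set T : Matrix (Fin n) (Fin n) R := Matrix.of fun l j => β.repr (b l) j with hT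
  set Y : Matrix (Fin n) (Fin n) R := Algebra.leftMulMatrix β y with hY
  have hdet : T.det ≠ 0 := cpnt_det_ne_zero β b hb
  have hbl : ∀ l, b l = ∑ j, T l j • β j := fun l => (β.sum_repr (b l)).symm
  -- the matrix identity `d • (T * Yᵀ) = C * T`
  have hmat : d • (T * Yᵀ) = C * T := by
    ext l i
    have h1 := congrArg (fun z => β.repr z i) (h l)
    simp only [map_smul, Finsupp.smul_apply, smul_eq_mul, map_sum, Finsupp.coe_finsetSum,
      Finset.sum_apply] at h1
    have h2 : β.repr (y * b l) i = ∑ j, T l j * Y i j := by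
      conv_lhs => rw [hbl l, Finset.mul_sum]
      simp only [map_sum, Finsupp.coe_finsetSum, Finset.sum_apply]
      refine Finset.sum_congr rfl fun j _ => ?_
      rw [mul_smul_comm, map_smul, Finsupp.smul_apply, smul_eq_mul, hY,
        Algebra.leftMulMatrix_eq_repr_mul]
    rw [Matrix.smul_apply, Matrix.mul_apply, Matrix.mul_apply, smul_eq_mul]
    simp only [Matrix.transpose_apply]
    rw [← h2, h1]
    refine Finset.sum_congr rfl fun m _ => ?_
    simp [hT]
  have h3 : d • (T * Yᵀ * T.adjugate) = T.det • C := by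
    rw [← Matrix.smul_mul, hmat, Matrix.mul_assoc, Matrix.mul_adjugate, Matrix.mul_smul,
      Matrix.mul_one]
  have h4 : Matrix.trace (T * Yᵀ * T.adjugate) = T.det * Matrix.trace Y := by
    rw [Matrix.trace_mul_comm, ← Matrix.mul_assoc, Matrix.adjugate_mul, Matrix.smul_mul,
      Matrix.one_mul, Matrix.trace_smul, Matrix.trace_transpose, smul_eq_mul]
  have h5 := congrArg Matrix.trace h3
  rw [Matrix.trace_smul, Matrix.trace_smul, h4, smul_eq_mul, smul_eq_mul] at h5
  rw [Algebra.trace_eq_matrix_trace β y]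
  apply mul_left_cancel₀ hdet
  rw [← h5]
  ring

end LinAlg

section Poly

variable {L : Type*} [Field L] {A : ValuationSubring L}

/-- a polynomial with coefficients in `A` comes from `A[X]`. -/
theorem cpnt_exists_lift {p : L[X]} (hp : h1v_IntPoly A p) :
    ∃ q : A[X], q.map A.subtype = p := by
  have : p ∈ Polynomial.lifts A.subtype := by
    rw [Polynomial.lifts_iff_coeff_lifts]
    intro j
    exact ⟨⟨p.coeff j, hp j⟩, rfl⟩
  obtain ⟨q, hq⟩ := (Polynomial.mem_lifts p).mp this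
  exact ⟨q, hq⟩

theorem cpnt_map_subtype_injective :
    Function.Injective (Polynomial.map (A.subtype) : A[X] → L[X]) :=
  Polynomial.map_injective _ Subtype.val_injective

/-- a polynomial over `A` with all coefficients in the maximal ideal reduces to `0`. -/
theorem cpnt_map_eq_zero_of_small {k : Type*} [Field k] (π : A →+* k)
    (hπ : ∀ c : A, A.valuation (c : L) < 1 → π c = 0) (q : A[X])
    (hq : h1v_SmallPoly A (q.map A.subtype)) : q.map π = 0 := by
  ext j
  rw [coeff_map, coeff_zero]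
  apply hπ
  have := hq j
  rwa [coeff_map] at this

end Poly

section Main

variable {L k F Fb : Type*} [Field L] [Field k] [Field F] [Field Fb] [Algebra L F] [Algebra k Fb]
variable {A : ValuationSubring L} {W : ValuationSubring F} {x : F} {n : ℕ} {b : Fin n → F}

/-- the ring homomorphism `A → W`. -/
def cpnt_iotaA (H : h1v_Hyp A W x b) : A →+* W :=
  ((algebraMap L F).comp A.subtype).codRestrict W (fun c => (H.mem_iff _).mpr c.2)

/-- the ring homomorphism `A[X] → W`, `X ↦ x`. -/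
def cpnt_phi (H : h1v_Hyp A W x b) : A[X] →+* W :=
  Polynomial.eval₂RingHom (cpnt_iotaA H) ⟨x, H.x_mem⟩

theorem cpnt_phi_coe (H : h1v_Hyp A W x b) (q : A[X]) :
    ((cpnt_phi H q : W) : F) = aeval x (q.map A.subtype) := by
  have h : (W.subtype.comp (cpnt_phi H) : A[X] →+* F) =
      ((aeval x : L[X] →ₐ[L] F) : L[X] →+* F).comp (Polynomial.mapRingHom A.subtype) := by
    apply Polynomial.ringHom_ext
    · intro a
      simp [cpnt_phi, cpnt_iotaA]
    · simp [cpnt_phi]
  exact RingHom.congr_fun h q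

theorem cpnt_rho_phi (H : h1v_Hyp A W x b) (π : A →+* k) (ρ : W →+* Fb)
    (hρalg : ∀ (c : L) (hc : c ∈ A) (hW : algebraMap L F c ∈ W),
      ρ ⟨algebraMap L F c, hW⟩ = algebraMap k Fb (π ⟨c, hc⟩))
    (xb : Fb) (hρx : ρ ⟨x, H.x_mem⟩ = xb) (q : A[X]) :
    ρ (cpnt_phi H q) = aeval xb (q.map π) := by
  have h : (ρ.comp (cpnt_phi H) : A[X] →+* Fb) =
      ((aeval xb : k[X] →ₐ[k] Fb) : k[X] →+* Fb).comp (Polynomial.mapRingHom π) := by
    apply Polynomial.ringHom_ext
    · intro a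
      have := hρalg (a : L) a.2 ((H.mem_iff _).mpr a.2)
      simp only [RingHom.comp_apply, cpnt_phi, Polynomial.coe_eval₂RingHom, eval₂_C,
        Polynomial.coe_mapRingHom, map_C, AlgHom.coe_toRingHom, aeval_C]
      exact this
    · simp only [RingHom.comp_apply, cpnt_phi, Polynomial.coe_eval₂RingHom, eval₂_X,
        Polynomial.coe_mapRingHom, map_X, AlgHom.coe_toRingHom, aeval_X]
      exact hρx
  exact RingHom.congr_fun h q

/-- `(1 - J)(x)` is a `W`-unit for `J` small. -/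
theorem cpnt_val_one_sub (H : h1v_Hyp A W x b) {J : L[X]} (hJ : h1v_SmallPoly A J) :
    W.valuation (aeval x (1 - J)) = 1 := by
  rw [map_sub, map_one]
  exact Valuation.map_one_sub_of_lt _ (H.aeval_lt hJ)

/-- if `(1 - J) * P` has coefficients in `A` (`J` small) then so has `P`. -/
theorem cpnt_intPoly_of_mul (H : h1v_Hyp A W x b) {J P : L[X]} (hJ : h1v_SmallPoly A J)
    (hS : h1v_IntPoly A ((1 - J) * P)) : h1v_IntPoly A P := by
  apply H.gauss
  have h1 : aeval x ((1 - J) * P) ∈ W := H.aeval_mem hS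
  rw [← W.valuation_le_one_iff, map_mul, Valuation.map_mul, cpnt_val_one_sub H hJ, one_mul] at h1
  exact (W.valuation_le_one_iff _).mp h1

/-- `L[x]`-linear independence of an orthonormal family (polynomial form). -/
theorem cpnt_indep (H : h1v_Hyp A W x b) (p : Fin n → L[X])
    (hp : ∑ i, aeval x (p i) * b i = 0) : ∀ i, p i = 0 := by
  obtain ⟨π₀, hπ₀, hπ₀lt⟩ := H.nontriv
  intro i
  by_contra hne
  obtain ⟨j, hj⟩ : ∃ j, (p i).coeff j ≠ 0 := by
    by_contra hcon
    push Not at hcon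
    exact hne (Polynomial.ext fun j => by rw [hcon j, coeff_zero])
  set a := (p i).coeff j with ha
  set lam : L := (π₀ * a)⁻¹ with hlam
  have hsum : ∑ i, aeval x (C lam * p i) * b i = 0 := by
    have : ∀ i, aeval x (C lam * p i) * b i = algebraMap L F lam * (aeval x (p i) * b i) := by
      intro i
      rw [map_mul, aeval_C, mul_assoc]
    rw [Finset.sum_congr rfl fun i _ => this i, ← Finset.mul_sum, hp, mul_zero]
  have hint := H.ortho (fun i => C lam * p i) (by rw [hsum]; exact W.zero_mem) i j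
  rw [coeff_C_mul, ← ha, hlam, mul_inv, mul_assoc, inv_mul_cancel₀ hj, mul_one] at hint
  have h1 : A.valuation π₀⁻¹ ≤ 1 := (A.valuation_le_one_iff _).mpr hint
  rw [map_inv₀] at h1
  have hv0 : A.valuation π₀ ≠ 0 := (Valuation.ne_zero_iff _).mpr hπ₀
  have h2 : 1 ≤ A.valuation π₀ := (inv_le_one₀ (zero_lt_iff.mpr hv0)).mp h1
  exact absurd hπ₀lt (not_lt.mpr h2)

/-- **Row E, one element.**  For `y ∈ W` integral over `L[x]` (given inside a model `O₀` of the
characteristic zero order, `D₀ ≃ L[X]`) and its reduction `ȳ` (inside a model `O₁`, `D₁ ≃ k[X]`):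
the trace of `y` is a polynomial over `A` and the trace of `ȳ` is its reduction. -/
theorem cpnt_exists_trace [IsAlgClosed L] (π : A →+* k)
    (hπ : ∀ c : A, A.valuation (c : L) < 1 → π c = 0) (ρ : W →+* Fb)
    (hρalg : ∀ (c : L) (hc : c ∈ A) (hW : algebraMap L F c ∈ W),
      ρ ⟨algebraMap L F c, hW⟩ = algebraMap k Fb (π ⟨c, hc⟩))
    (H : h1v_Hyp A W x b) (xb : Fb) (hρx : ρ ⟨x, H.x_mem⟩ = xb)
    {D₀ O₀ D₁ O₁ : Type*} [CommRing D₀] [CommRing O₀] [Algebra D₀ O₀]
    [CommRing D₁] [CommRing O₁] [Algebra D₁ O₁]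
    (e₀ : L[X] ≃+* D₀) (e₁ : k[X] ≃+* D₁)
    (ι₀ : O₀ →+* F) (hι₀ : Function.Injective ι₀)
    (hι₀e : ∀ (p : L[X]) (z : O₀), ι₀ (e₀ p • z) = aeval x p * ι₀ z)
    (ι₁ : O₁ →+* Fb) (hι₁ : Function.Injective ι₁)
    (hι₁e : ∀ (p : k[X]) (z : O₁), ι₁ (e₁ p • z) = aeval xb p * ι₁ z)
    (γ : Basis (Fin n) D₀ O₀) (β : Basis (Fin n) D₁ O₁)
    (b₀ : Fin n → O₀) (hb₀ : ∀ i, ι₀ (b₀ i) = b i)
    (b₁ : Fin n → O₁) (hb₁ : ∀ i, ι₁ (b₁ i) = ρ ⟨b i, H.b_mem i⟩)
    (hli : LinearIndependent D₁ b₁)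
    (y₀ : O₀) (y₁ : O₁) (hyW : ι₀ y₀ ∈ W) (hyint : h1v_Int L x (ι₀ y₀))
    (hy₁ : ι₁ y₁ = ρ ⟨ι₀ y₀, hyW⟩) :
    ∃ P : A[X], Algebra.trace D₀ O₀ y₀ = e₀ (P.map A.subtype) ∧
      Algebra.trace D₁ O₁ y₁ = e₁ (P.map π) := by
  classical
  have : IsDomain D₀ := Function.Injective.isDomain e₀.symm.toRingHom e₀.symm.injective
  have : IsDomain D₁ := Function.Injective.isDomain e₁.symm.toRingHom e₁.symm.injective
  set y : F := ι₀ y₀ with hy
  -- the normalised denominator and the structure constants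
  obtain ⟨J, hJ, hden⟩ := H.exists_den_small
  have hIint : h1v_IntPoly A (1 - J) := h1v_IntPoly_one.sub hJ.int
  choose c hc using fun l => hden (y * b l) (hyint.mul (H.b_int l))
  have hcint : ∀ l m, h1v_IntPoly A (c l m) := by
    intro l
    refine H.ortho (c l) ?_
    rw [← hc l]
    exact W.mul_mem _ _ (H.aeval_mem hIint) (W.mul_mem _ _ hyW (H.b_mem l))
  choose cA hcA using fun l m => cpnt_exists_lift (hcint l m)
  obtain ⟨JA, hJA⟩ := cpnt_exists_lift hJ.int
  have hJA0 : JA.map π = 0 := cpnt_map_eq_zero_of_small π hπ JA (by rw [hJA]; exact hJ)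
  -- characteristic zero: linear independence of `b₀` over `D₀`
  have hli₀ : LinearIndependent D₀ b₀ := by
    rw [Fintype.linearIndependent_iff]
    intro g hg i
    have h1 : ∑ i, aeval x (e₀.symm (g i)) * b i = 0 := by
      have h2 := congrArg ι₀ hg
      rw [map_sum, map_zero] at h2
      rw [← h2]
      refine Finset.sum_congr rfl fun i _ => ?_
      rw [← hb₀ i, ← hι₀e, RingEquiv.apply_symm_apply]
    have h3 := cpnt_indep H (fun i => e₀.symm (g i)) h1 i
    exact (RingEquiv.map_eq_zero_iff e₀.symm).mp h3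
  -- the characteristic zero trace identity
  have htr₀ : e₀ (1 - J) * Algebra.trace D₀ O₀ y₀ = e₀ (∑ l, c l l) := by
    have h := cpnt_trace_of_family γ b₀ hli₀ y₀ (e₀ (1 - J))
      (Matrix.of fun l m => e₀ (c l m)) (by
        intro l
        apply hι₀
        rw [hι₀e, map_mul, hb₀, map_sum, ← hy, hc l]
        refine Finset.sum_congr rfl fun m _ => ?_
        rw [Matrix.of_apply, hι₀e, hb₀])
    rw [h, Matrix.trace, map_sum]
    rfl
  set P : L[X] := e₀.symm (Algebra.trace D₀ O₀ y₀) with hP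
  have hPS : (1 - J) * P = ∑ l, c l l := by
    apply e₀.injective
    rw [map_mul, hP, RingEquiv.apply_symm_apply, htr₀]
  have hPint : h1v_IntPoly A P := by
    apply cpnt_intPoly_of_mul H hJ
    rw [hPS]
    exact h1v_IntPoly_sum _ _ fun l _ => hcint l l
  obtain ⟨PA, hPA⟩ := cpnt_exists_lift hPint
  have hPSA : (1 - JA) * PA = ∑ l, cA l l := by
    apply cpnt_map_subtype_injective (A := A)
    rw [Polynomial.map_mul, Polynomial.map_sub, Polynomial.map_one, hJA, hPA, hPS,
      Polynomial.map_sum]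
    exact Finset.sum_congr rfl fun l _ => (hcA l l).symm
  have hPSk : PA.map π = ∑ l, (cA l l).map π := by
    have := congrArg (Polynomial.map π) hPSA
    rw [Polynomial.map_mul, Polynomial.map_sub, Polynomial.map_one, hJA0, sub_zero, one_mul,
      Polynomial.map_sum] at this
    exact this
  refine ⟨PA, ?_, ?_⟩
  · rw [hPA, hP, RingEquiv.apply_symm_apply]
  · -- characteristic `ℓ`: reduce the structure relations
    have hrel : ∀ l, (1 : D₁) • (y₁ * b₁ l) = ∑ m, e₁ ((cA l m).map π) • b₁ m := by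
      intro l
      apply hι₁
      rw [one_smul, map_mul, hy₁, hb₁, map_sum]
      -- the relation inside `W`
      have hW : cpnt_phi H (1 - JA) * ((⟨y, hyW⟩ : W) * ⟨b l, H.b_mem l⟩)
          = ∑ m, cpnt_phi H (cA l m) * ⟨b m, H.b_mem m⟩ := by
        apply Subtype.ext
        rw [MulMemClass.coe_mul, MulMemClass.coe_mul, AddSubmonoidClass.coe_finsetSum,
          cpnt_phi_coe, Polynomial.map_sub, Polynomial.map_one, hJA]
        rw [hc l]
        refine Finset.sum_congr rfl fun m _ => ?_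
        rw [MulMemClass.coe_mul, cpnt_phi_coe, hcA]
      have hW' := congrArg ρ hW
      rw [map_mul, map_mul, map_sum, cpnt_rho_phi H π ρ hρalg xb hρx, Polynomial.map_sub,
        Polynomial.map_one, hJA0, sub_zero, map_one, one_mul] at hW'
      rw [hW']
      refine Finset.sum_congr rfl fun m _ => ?_
      rw [map_mul, cpnt_rho_phi H π ρ hρalg xb hρx, hι₁e, hb₁]
    have h := cpnt_trace_of_family β b₁ hli y₁ 1 (Matrix.of fun l m => e₁ ((cA l m).map π)) hrel
    rw [one_mul] at h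
    rw [h, hPSk, map_sum, Matrix.trace]
    rfl

/-- **Row E**: the trace matrix `tA` over `A[X]` of the lifted orthonormal family, with both trace
identities `htr₀`, `htr₁` of `cpn_ff` (abstract models `O₀ ⊆ F`, `O₁ ⊆ Fb` of the two orders). -/
theorem cpnt_exists_tA [IsAlgClosed L] (π : A →+* k)
    (hπ : ∀ c : A, A.valuation (c : L) < 1 → π c = 0) (ρ : W →+* Fb)
    (hρalg : ∀ (c : L) (hc : c ∈ A) (hW : algebraMap L F c ∈ W),
      ρ ⟨algebraMap L F c, hW⟩ = algebraMap k Fb (π ⟨c, hc⟩))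
    (H : h1v_Hyp A W x b) (xb : Fb) (hρx : ρ ⟨x, H.x_mem⟩ = xb)
    {D₀ O₀ D₁ O₁ : Type*} [CommRing D₀] [CommRing O₀] [Algebra D₀ O₀]
    [CommRing D₁] [CommRing O₁] [Algebra D₁ O₁]
    (e₀ : L[X] ≃+* D₀) (e₁ : k[X] ≃+* D₁)
    (ι₀ : O₀ →+* F) (hι₀ : Function.Injective ι₀)
    (hι₀e : ∀ (p : L[X]) (z : O₀), ι₀ (e₀ p • z) = aeval x p * ι₀ z)
    (ι₁ : O₁ →+* Fb) (hι₁ : Function.Injective ι₁)
    (hι₁e : ∀ (p : k[X]) (z : O₁), ι₁ (e₁ p • z) = aeval xb p * ι₁ z)
    (γ : Basis (Fin n) D₀ O₀) (β : Basis (Fin n) D₁ O₁)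
    (b₀ : Fin n → O₀) (hb₀ : ∀ i, ι₀ (b₀ i) = b i)
    (b₁ : Fin n → O₁) (hb₁ : ∀ i, ι₁ (b₁ i) = ρ ⟨b i, H.b_mem i⟩)
    (hli : LinearIndependent D₁ b₁) :
    ∃ tA : Matrix (Fin n) (Fin n) A[X],
      (∀ i j, Algebra.trace D₀ O₀ (b₀ i * b₀ j) = e₀ ((tA i j).map A.subtype)) ∧
      (∀ i j, Algebra.trace D₁ O₁ (b₁ i * b₁ j) = e₁ ((tA i j).map π)) := by
  have key : ∀ i j, ∃ P : A[X],
      Algebra.trace D₀ O₀ (b₀ i * b₀ j) = e₀ (P.map A.subtype) ∧
        Algebra.trace D₁ O₁ (b₁ i * b₁ j) = e₁ (P.map π) := by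
    intro i j
    have hyW : ι₀ (b₀ i * b₀ j) ∈ W := by
      rw [map_mul, hb₀, hb₀]
      exact W.mul_mem _ _ (H.b_mem i) (H.b_mem j)
    refine cpnt_exists_trace π hπ ρ hρalg H xb hρx e₀ e₁ ι₀ hι₀ hι₀e ι₁ hι₁ hι₁e γ β b₀ hb₀ b₁ hb₁
      hli (b₀ i * b₀ j) (b₁ i * b₁ j) hyW ?_ ?_
    · rw [map_mul, hb₀, hb₀]
      exact (H.b_int i).mul (H.b_int j)
    · rw [map_mul, hb₁, hb₁, ← map_mul]
      congr 1
      apply Subtype.ext
      show b i * b j = ι₀ (b₀ i * b₀ j)
      rw [map_mul, hb₀, hb₀]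
  choose tA h₀ h₁ using key
  exact ⟨Matrix.of tA, fun i j => h₀ i j, fun i j => h₁ i j⟩

/-- `D₁`-linear independence of the reduced family, from `ker ρ ⊆ 𝔪_W` and strict
orthonormality. -/
theorem cpnt_indep_red (π : A →+* k) (hπsurj : Function.Surjective π)
    (hπ : ∀ c : A, A.valuation (c : L) < 1 → π c = 0) (ρ : W →+* Fb)
    (hρalg : ∀ (c : L) (hc : c ∈ A) (hW : algebraMap L F c ∈ W),
      ρ ⟨algebraMap L F c, hW⟩ = algebraMap k Fb (π ⟨c, hc⟩))
    (hker : ∀ u : W, ρ u = 0 → W.valuation (u : F) < 1)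
    (H : h1v_Hyp A W x b) (xb : Fb) (hρx : ρ ⟨x, H.x_mem⟩ = xb)
    {D₁ O₁ : Type*} [CommRing D₁] [CommRing O₁] [Algebra D₁ O₁] (e₁ : k[X] ≃+* D₁)
    (ι₁ : O₁ →+* Fb)
    (hι₁e : ∀ (p : k[X]) (z : O₁), ι₁ (e₁ p • z) = aeval xb p * ι₁ z)
    (b₁ : Fin n → O₁) (hb₁ : ∀ i, ι₁ (b₁ i) = ρ ⟨b i, H.b_mem i⟩) :
    LinearIndependent D₁ b₁ := by
  classical
  rw [Fintype.linearIndependent_iff]
  intro g hg i
  -- lift the coefficients to `A[X]`
  have hlift : ∀ p : k[X], ∃ q : A[X], q.map π = p := fun p =>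
    Polynomial.map_surjective π hπsurj p
  choose q hq using fun i => hlift (e₁.symm (g i))
  set u : W := ∑ i, cpnt_phi H (q i) * ⟨b i, H.b_mem i⟩ with hu
  have hρu : ρ u = 0 := by
    have h2 := congrArg ι₁ hg
    rw [map_sum, map_zero] at h2
    rw [hu, map_sum, ← h2]
    refine Finset.sum_congr rfl fun i _ => ?_
    rw [map_mul, cpnt_rho_phi H π ρ hρalg xb hρx, hq, ← hb₁, ← hι₁e, RingEquiv.apply_symm_apply]
  have hval := hker u hρu
  have hcoe : (u : F) = ∑ i, aeval x ((q i).map A.subtype) * b i := by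
    rw [hu, AddSubmonoidClass.coe_finsetSum]
    refine Finset.sum_congr rfl fun i _ => ?_
    rw [MulMemClass.coe_mul, cpnt_phi_coe]
  rw [hcoe] at hval
  have hsmall := H.ortho_lt (fun i => (q i).map A.subtype) hval i
  have h0 : (q i).map π = 0 := cpnt_map_eq_zero_of_small π hπ (q i) hsmall
  rw [hq i] at h0
  exact (RingEquiv.map_eq_zero_iff e₁.symm).mp h0

end Main

end Fermat.Agent.S18x
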