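/-
S18x/CpnTraceInst (helper86, prefix `cpnt_`): row E of the CUSPN(b) twin on the concrete orders
`ringA K x ⊆ ringB K x` (S24x) with `e₀ = hzb_equiv x`, `e₁ = hzb_equiv xb` (helper71): the trace
matrix `tA` over `A[X]` with the two identities `htr₀`, `htr₁` of `cpn_ff`.
-/
import Mathlib
import Fermat.Agent.S18x.CpnTraceH1v
import Fermat.Agent.S18x.HzCpn

set_option autoImplicit false

namespace Fermat.Agent.S18x

open Module Matrix Polynomial
open Fermat.Agent.S24x

section Inst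

variable {K F : Type*} [Field K] [Field F] [Algebra K F]

/-- `e (p) • z = p(x) z` inside `F`. -/
theorem cpnt_coe_equiv_smul (x : F) [FFData K F x] (p : K[X]) (z : ringB K x) :
    (((hzb_equiv x p) • z : ringB K x) : F) = aeval x p * (z : F) := by
  have h1 : (((hzb_equiv x p) • z : ringB K x) : F) = ((hzb_equiv x p : ringA K x) : F) * (z : F) :=
    rfl
  rw [h1, hzb_equiv_apply, Polynomial.aeval_subalgebra_coe, coe_genA]

end Inst

section Main

variable {L k F Fb : Type*} [Field L] [Field k] [Field F] [Field Fb] [Algebra L F] [Algebra k Fb]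

/-- **Row E on the concrete orders.** -/
theorem cpnt_exists_tA_ring [IsAlgClosed L] {A : ValuationSubring L} (π : A →+* k)
    (hπ : ∀ c : A, A.valuation (c : L) < 1 → π c = 0) {W : ValuationSubring F} (ρ : W →+* Fb)
    (hρalg : ∀ (c : L) (hc : c ∈ A) (hW : algebraMap L F c ∈ W),
      ρ ⟨algebraMap L F c, hW⟩ = algebraMap k Fb (π ⟨c, hc⟩))
    (x : F) (xb : Fb) [FFData L F x] [FFData k Fb xb] {n : ℕ}
    (b₀ : Fin n → ringB L x) (H : h1v_Hyp A W x (fun i => ((b₀ i : ringB L x) : F)))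
    (hρx : ρ ⟨x, H.x_mem⟩ = xb)
    (b₁ : Fin n → ringB k xb)
    (hb₁ : ∀ i, ((b₁ i : ringB k xb) : Fb) = ρ ⟨((b₀ i : ringB L x) : F), H.b_mem i⟩)
    (γ : Basis (Fin n) (ringA L x) (ringB L x)) (β : Basis (Fin n) (ringA k xb) (ringB k xb))
    (hli : LinearIndependent (ringA k xb) b₁) :
    ∃ tA : Matrix (Fin n) (Fin n) A[X],
      (∀ i j, Algebra.trace (ringA L x) (ringB L x) (b₀ i * b₀ j)
        = hzb_equiv x ((tA i j).map A.subtype)) ∧
      (∀ i j, Algebra.trace (ringA k xb) (ringB k xb) (b₁ i * b₁ j)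
        = hzb_equiv xb ((tA i j).map π)) :=
  cpnt_exists_tA π hπ ρ hρalg H xb hρx (hzb_equiv x) (hzb_equiv xb)
    ((ringB L x).val : ringB L x →+* F) Subtype.val_injective (cpnt_coe_equiv_smul x)
    ((ringB k xb).val : ringB k xb →+* Fb) Subtype.val_injective (cpnt_coe_equiv_smul xb)
    γ β b₀ (fun _ => rfl) b₁ hb₁ hli

/-- `ringA k xb`-linear independence of the reduced family on the concrete order. -/
theorem cpnt_indep_red_ring {A : ValuationSubring L} (π : A →+* k)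
    (hπsurj : Function.Surjective π)
    (hπ : ∀ c : A, A.valuation (c : L) < 1 → π c = 0) {W : ValuationSubring F} (ρ : W →+* Fb)
    (hρalg : ∀ (c : L) (hc : c ∈ A) (hW : algebraMap L F c ∈ W),
      ρ ⟨algebraMap L F c, hW⟩ = algebraMap k Fb (π ⟨c, hc⟩))
    (hker : ∀ u : W, ρ u = 0 → W.valuation (u : F) < 1)
    (x : F) (xb : Fb) [FFData k Fb xb] {n : ℕ}
    (b : Fin n → F) (H : h1v_Hyp A W x b)
    (hρx : ρ ⟨x, H.x_mem⟩ = xb)
    (b₁ : Fin n → ringB k xb)
    (hb₁ : ∀ i, ((b₁ i : ringB k xb) : Fb) = ρ ⟨b i, H.b_mem i⟩) :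
    LinearIndependent (ringA k xb) b₁ :=
  cpnt_indep_red π hπsurj hπ ρ hρalg hker H xb hρx (hzb_equiv xb)
    ((ringB k xb).val : ringB k xb →+* Fb) (cpnt_coe_equiv_smul xb) b₁ hb₁

end Main

end Fermat.Agent.S18x
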