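/-
S18x/HzTraceBridge (helper71): ring-level versus field-level trace for `ringA K x ⊆ ringB K x`
(row E3 of s18_cpn_plan): for `y ∈ ringB K x`,
`Tr_{ringB/ringA} y = Tr_{F/K(x)} y` (as elements of `K(x)`, resp. of `F`).
-/
import Mathlib
import Fermat.Agent.S24x.PlacePrime
import Fermat.Agent.S24x.AlgDefs

set_option autoImplicit false

namespace Fermat.Agent.S18x

open IntermediateField
open Fermat.Agent.S24x
open scoped IntermediateField.algebraAdjoinAdjoin

variable {K F : Type*} [Field K] [Field F] [Algebra K F]
variable (x : F) [hx : FFData K F x]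

/-- `F` is the localization of `ringB K x` at the nonzero elements of `ringA K x`. -/
theorem hzb_isLocalization_ringB :
    IsLocalization (Algebra.algebraMapSubmonoid (ringB K x) (nonZeroDivisors (ringA K x))) F :=
  IsIntegralClosure.isLocalization (ringA K x) K⟮x⟯ F (ringB K x)

/-- **Trace bridge (E3).**  For `y ∈ ringB K x` (finite free over `ringA K x`), the trace over
`ringA K x` maps to the field trace over `K(x)`. -/
theorem hzb_trace_ringB_eq [Module.Free (ringA K x) (ringB K x)]
    [Module.Finite (ringA K x) (ringB K x)] (y : ringB K x) :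
    algebraMap (ringA K x) K⟮x⟯ (Algebra.trace (ringA K x) (ringB K x) y) =
      Algebra.trace K⟮x⟯ F (y : F) := by
  haveI := hzb_isLocalization_ringB (K := K) x
  exact (Algebra.trace_localization (ringA K x) (nonZeroDivisors (ringA K x))
    (Rₘ := K⟮x⟯) (Sₘ := F) y).symm

/-- the same identity read in `F`. -/
theorem hzb_coe_trace_ringB_eq [Module.Free (ringA K x) (ringB K x)]
    [Module.Finite (ringA K x) (ringB K x)] (y : ringB K x) :
    ((Algebra.trace (ringA K x) (ringB K x) y : ringA K x) : F) =
      algebraMap K⟮x⟯ F (Algebra.trace K⟮x⟯ F (y : F)) := by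
  rw [← hzb_trace_ringB_eq x y]
  rfl

section Basis

open Module

variable [Algebra.IsSeparable K⟮x⟯ F]

/-- `ringB K x` is finite over `ringA K x` (separable coordinate). -/
theorem hzb_finite_ringB : Module.Finite (ringA K x) (ringB K x) :=
  IsIntegralClosure.finite (ringA K x) K⟮x⟯ F (ringB K x)

/-- `ringB K x` is free over the PID `ringA K x`. -/
theorem hzb_free_ringB : Module.Free (ringA K x) (ringB K x) :=
  IsIntegralClosure.module_free (ringA K x) K⟮x⟯ F (ringB K x)

/-- the rank of `ringB K x` over `ringA K x` is `[F : K(x)]`. -/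
theorem hzb_finrank_ringB : finrank (ringA K x) (ringB K x) = cdeg K F x :=
  IsIntegralClosure.rank (ringA K x) K⟮x⟯ F (ringB K x)

/-- a basis of `ringB K x` over `ringA K x` indexed by `Fin [F : K(x)]` (rows A3/B3). -/
theorem hzb_exists_basis : Nonempty (Basis (Fin (cdeg K F x)) (ringA K x) (ringB K x)) := by
  haveI := hzb_finite_ringB (K := K) x
  haveI := hzb_free_ringB (K := K) x
  exact ⟨Module.finBasisOfFinrankEq _ _ (hzb_finrank_ringB x)⟩

end Basis

end Fermat.Agent.S18x
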