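/-
S18x/HzDiscrBridge (helper71): ring-level versus field-level DISCRIMINANT for families in
`ringB K x` over `ringA K x` (companion of `HzTraceBridge`), and the separability criterion
`discr ≠ 0` (row D4 `hsep` of s18_cpn_plan).
-/
import Mathlib
import Fermat.Agent.S18x.HzTraceBridge

set_option autoImplicit false

namespace Fermat.Agent.S18x

open IntermediateField Module
open Fermat.Agent.S24x
open scoped IntermediateField.algebraAdjoinAdjoin

variable {K F : Type*} [Field K] [Field F] [Algebra K F]
variable (x : F) [hx : FFData K F x]
variable {ι : Type*} [Fintype ι] [DecidableEq ι]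

/-- the discriminant over `ringA K x` of a family in `ringB K x` maps to the discriminant over
`K(x)` of the same family in `F`. -/
theorem hzb_discr_ringB_eq [Module.Free (ringA K x) (ringB K x)]
    [Module.Finite (ringA K x) (ringB K x)] (b : ι → ringB K x) :
    algebraMap (ringA K x) K⟮x⟯ (Algebra.discr (ringA K x) b) =
      Algebra.discr K⟮x⟯ (fun i => ((b i : ringB K x) : F)) := by
  rw [Algebra.discr_def, Algebra.discr_def, RingHom.map_det]
  congr 1
  ext i j
  rw [RingHom.mapMatrix_apply, Matrix.map_apply, Algebra.traceMatrix_apply,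
    Algebra.traceMatrix_apply, Algebra.traceForm_apply, Algebra.traceForm_apply,
    hzb_trace_ringB_eq x (b i * b j)]
  rfl

/-- **`hsep`**: a family of `[F : K(x)]` elements of `ringB K x` that is linearly independent over
`K(x)` has nonzero discriminant over `ringA K x`, if `F / K(x)` is separable. -/
theorem hzb_discr_ne_zero [Algebra.IsSeparable K⟮x⟯ F] (b : ι → ringB K x)
    (hli : LinearIndependent K⟮x⟯ (fun i => ((b i : ringB K x) : F)))
    (hcard : Fintype.card ι = finrank K⟮x⟯ F) :
    Algebra.discr (ringA K x) b ≠ 0 := by
  haveI := hzb_finite_ringB (K := K) x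
  haveI := hzb_free_ringB (K := K) x
  intro h0
  have h1 := hzb_discr_ringB_eq x b
  rw [h0, map_zero] at h1
  haveI : Nonempty ι := by
    rw [← Fintype.card_pos_iff, hcard]
    exact Module.finrank_pos
  have h2 : Algebra.discr K⟮x⟯ (basisOfLinearIndependentOfCardEqFinrank hli hcard : ι → F) ≠ 0 :=
    Algebra.discr_not_zero_of_basis K⟮x⟯ (basisOfLinearIndependentOfCardEqFinrank hli hcard)
  apply h2
  rw [coe_basisOfLinearIndependentOfCardEqFinrank hli hcard]
  exact h1.symm

end Fermat.Agent.S18x
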