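/-
S18x/CpnWire (helper38, prefix `cpnw_`): row F of the CUSPN(b) twin, abstract wiring.
From a divisor-compatible reduction datum `ts_Hyp`, a unit coordinate `x : W`, the orthonormal
lifted family `b₀` with `h1v_Hyp` (row D), the degree equality (row B4) and the generic place
count in the open unit disc (row A1'), all remaining inputs of `cpnf_pform` are produced
(bases, Gauss property on polynomials, trace matrix, denominator, place count inequalities,
separability), and the conclusion is the shape (OUT-C-onto).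
-/
import Fermat.Agent.S18x.CpnPForm
import Fermat.Agent.S18x.CpnPoleCount
import Fermat.Agent.S18x.CpnTraceInst
import Fermat.Agent.S18x.CpnTraceGauss
import Fermat.Agent.S18x.HzDiscrBridge
import Fermat.Agent.S24x.FundIdentity
import Fermat.Agent.S18x.H1vRoot

set_option autoImplicit false

namespace Fermat.Agent.S18x

open AlgebraicCurve Polynomial Module IntermediateField
open Fermat.Agent.S24x
open scoped IntermediateField.algebraAdjoinAdjoin

section Generic

variable {K F : Type*} [Field K] [Field F] [Algebra K F]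

/-- `FFData` gives an `IsCoordinate`. -/
theorem cpnw_isCoordinate (x : F) [hx : FFData K F x] : IsCoordinate K F x :=
  ⟨hx.transc, hx.fin⟩

/-- in characteristic zero, at most `[F : K(x)]` places lie over `x = c`. -/
theorem cpnw_ncard_placesOver_le [IsAlgClosed K] [CharZero K] (x : F) [FFData K F x] (c : K) :
    (placesOver K F x c).Finite ∧ (placesOver K F x c).ncard ≤ cdeg K F x := by
  obtain ⟨hfin, hsum⟩ := sum_ord_placesOver (cpnw_isCoordinate (K := K) x) c
  refine ⟨hfin, ?_⟩
  rw [Set.ncard_eq_toFinset_card _ hfin]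
  have h1 : ((hfin.toFinset.card : ℕ) : ℤ) ≤ ∑ v ∈ hfin.toFinset, v.ord (x - algebraMap K F c) := by
    rw [Finset.card_eq_sum_ones, Nat.cast_sum]
    refine Finset.sum_le_sum fun v hv => ?_
    have : 0 < v.ord (x - algebraMap K F c) := by
      have := (Set.Finite.mem_toFinset hfin).mp hv
      exact this
    simp only [Nat.cast_one]
    omega
  rw [hsum] at h1
  exact_mod_cast h1


theorem cpnw_hsep (x : F) [FFData K F x] [Algebra.IsSeparable K⟮x⟯ F] {ι : Type*} [Fintype ι]
    [DecidableEq ι] (b : ι → ringB K x) (hli : LinearIndependent (ringA K x) b)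
    (hcard : Fintype.card ι = cdeg K F x) : Algebra.discr (ringA K x) b ≠ 0 := by
  have := hzb_isLocalization_ringB (K := K) x
  refine hzb_discr_ne_zero x b ?_ hcard
  have := LinearIndependent.localization_localization (R := ringA K x)
    (S := nonZeroDivisors (ringA K x)) (Rₛ := K⟮x⟯) (A := ringB K x) (Aₛ := F) hli
  exact this

theorem cpnw_coe_equiv (x : F) [FFData K F x] (p : K[X]) :
    ((hzb_equiv x p : ringA K x) : F) = aeval x p := by
  rw [hzb_equiv_apply, Polynomial.aeval_subalgebra_coe, coe_genA]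

theorem cpnw_int_of_isIntegral (x : F) [FFData K F x] {y : F} (h : IsIntegral (ringA K x) y) :
    h1v_Int K x y := by
  obtain ⟨p, hpm, hp⟩ := h
  refine ⟨p.map ((hzb_equiv (K := K) x).symm.toRingHom), hpm.map _, ?_⟩
  rw [eval₂_map]
  have hcomp : ((Polynomial.aeval (R := K) x).toRingHom).comp
      ((hzb_equiv (K := K) x).symm.toRingHom) = algebraMap (ringA K x) F := by
    apply RingHom.ext
    intro a
    obtain ⟨q, rfl⟩ := (hzb_equiv x).surjective a
    rw [RingHom.comp_apply]
    have h1 : (hzb_equiv (K := K) x).symm.toRingHom (hzb_equiv x q) = q :=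
      (hzb_equiv (K := K) x).symm_apply_apply q
    rw [h1]
    exact (cpnw_coe_equiv x q).symm
  rw [hcomp]
  exact hp

theorem cpnw_hden {L F : Type*} [Field L] [Field F] [Algebra L F] (x : F) [FFData L F x] {n : ℕ}
    (γ : Basis (Fin n) (ringA L x) (ringB L x)) (b₀ : Fin n → F) (hb₀ : ∀ i, b₀ i ∈ ringB L x)
    (I : L[X]) (hI : h1v_Den L x b₀ I) :
    ∀ j, ∃ c : Fin n → ringA L x,
      hzb_equiv x I • γ j = ∑ i, c i • (⟨_, hb₀ i⟩ : ringB L x) := by
  intro j
  obtain ⟨c, hc⟩ := hI ((γ j : ringB L x) : F) (cpnw_int_of_isIntegral x (γ j).2)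
  refine ⟨fun i => hzb_equiv x (c i), ?_⟩
  apply Subtype.ext
  rw [cpnt_coe_equiv_smul, hc]
  rw [show ((∑ i, hzb_equiv x (c i) • (⟨_, hb₀ i⟩ : ringB L x) : ringB L x) : F) =
      ∑ i, ((hzb_equiv x (c i) • (⟨_, hb₀ i⟩ : ringB L x) : ringB L x) : F) from by simp]
  refine Finset.sum_congr rfl fun i _ => ?_
  rw [cpnt_coe_equiv_smul]

end Generic

section Count

variable {L k F Fb : Type*} [Field L] [Field k] [Field F] [Field Fb] [Algebra L F] [Algebra k Fb]
variable {A : ValuationSubring L} {π : A →+* k} {W : ValuationSubring F} {ρ : W →+* Fb}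
  {r : Place L F → Place k Fb}

/-- `hcountle` for a unit coordinate `x : W`: the zeros of `ρ x` are at most as many as those of
`x`. -/
theorem cpnw_hcountle (H : ts_Hyp A π W ρ r) (x : W) (hρx : ρ x ≠ 0)
    (hfin : (placesOver L F (x : F) (0 : L)).Finite) :
    (placesOver k Fb (ρ x) (0 : k)).ncard ≤ (placesOver L F (x : F) (0 : L)).ncard := by
  have hu : IsUnit x := by
    by_contra h
    exact hρx ((H.ker x).mpr h)
  obtain ⟨t, ht⟩ := hu.exists_right_inv
  have htF : (t : F) = ((x : F))⁻¹ := by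
    have h1 : (x : F) * (t : F) = 1 := by
      have := congrArg (fun z : W => (z : F)) ht
      simpa using this
    exact eq_inv_of_mul_eq_one_right h1
  have hρt : ρ t = (ρ x)⁻¹ := by
    have h1 : ρ x * ρ t = 1 := by rw [← map_mul, ht, map_one]
    exact eq_inv_of_mul_eq_one_right h1
  have hρt0 : ρ t ≠ 0 := by rw [hρt]; exact inv_ne_zero hρx
  have e1 : {Q : Place k Fb | Q.ord (ρ t) < 0} = placesOver k Fb (ρ x) (0 : k) := by
    have := fid_polePlaces_eq (K := k) (F := Fb) (ρ t)
    rw [hρt, inv_inv] at this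
    rw [hρt]
    exact this
  have e0 : {P : Place L F | P.ord (t : F) < 0} = placesOver L F (x : F) (0 : L) := by
    have := fid_polePlaces_eq (K := L) (F := F) (t : F)
    rw [htF, inv_inv] at this
    rw [htF]
    exact this
  have := cpnc_ncard_poles_le H t hρt0 (by rw [e0]; exact hfin)
  rwa [e1, e0] at this

end Count

section Main

variable {L k F Fb : Type*} [Field L] [IsAlgClosed L] [CharZero L] [Field k] [IsAlgClosed k]
  [Field F] [Field Fb] [Algebra L F] [Algebra k Fb]
variable {A : ValuationSubring L} {π : A →+* k} {W : ValuationSubring F} {ρ : W →+* Fb}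
  {r : Place L F → Place k Fb}

/-- **Abstract wiring of the CUSPN(b) twin.**  Output = (OUT-C-onto). -/
theorem cpnw_pform (H : ts_Hyp A π W ρ r)
    (hπ0 : ∀ c : A, A.valuation (c : L) < 1 → π c = 0)
    (x : W) (hρx : ρ x ≠ 0)
    [FFData L F (x : F)] [FFData k Fb (ρ x)] [IsDedekindDomain (ringB k (ρ x))]
    [Algebra.IsSeparable k⟮ρ x⟯ Fb]
    {n : ℕ} (hn₀ : cdeg L F (x : F) = n) (hn₁ : cdeg k Fb (ρ x) = n)
    (hcount₀ : ∀ c : L, A.valuation c < 1 → c ≠ 0 → (placesOver L F (x : F) c).ncard = n)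
    (b₀ : Fin n → W) (hb₀ : ∀ i, ((b₀ i : W) : F) ∈ ringB L (x : F))
    (Hh : h1v_Hyp A W (x : F) (fun i => ((b₀ i : W) : F)))
    (hb₁ : ∀ i, ρ (b₀ i) ∈ ringB k (ρ x)) :
    ∀ yb : Fb, IsIntegral (Algebra.adjoin k {ρ x}) yb →
      ∃ (u : W) (s : k[X]), s.eval 0 ≠ 0 ∧ ρ u = Polynomial.aeval (ρ x) s * yb ∧
        IsIntegral (Algebra.adjoin L {(x : F)}) (u : F) := by
  classical
  subst hn₀
  -- bases
  obtain ⟨γ⟩ := hzb_exists_basis (K := L) (x : F)
  obtain ⟨β'⟩ := hzb_exists_basis (K := k) (ρ x)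
  let β : Basis (Fin (cdeg L F (x : F))) (ringA k (ρ x)) (ringB k (ρ x)) :=
    β'.reindex (finCongr hn₁)
  -- Gauss property on polynomials
  have hmem : ∀ c : L, c ∈ A → algebraMap L F c ∈ W := fun c hc => (H.mem_iff c).mpr hc
  have hgauss : ∀ p : A[X], ∃ h : Polynomial.aeval (x : F) (p.map A.subtype) ∈ W,
      ρ ⟨_, h⟩ = Polynomial.aeval (ρ x) (p.map π) := fun p =>
    ⟨cpne_aeval_mem A W hmem (x : F) x.2 p, cpne_rho_aeval A π W ρ hmem H.rho_alg (x : F) x.2 p⟩
  -- kernel in valuation form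
  have hker : ∀ u : W, ρ u = 0 → W.valuation (u : F) < 1 := by
    intro u hu
    have h1 : ¬ IsUnit u := (H.ker u).mp hu
    have h2 : u ∈ IsLocalRing.maximalIdeal W := (IsLocalRing.mem_maximalIdeal u).mpr h1
    exact (W.valuation_lt_one_iff u).mp h2
  -- the reduced family, its independence and the trace matrix
  have hρx' : ρ ⟨(x : F), Hh.x_mem⟩ = ρ x := rfl
  have hli : LinearIndependent (ringA k (ρ x)) (fun i => (⟨_, hb₁ i⟩ : ringB k (ρ x))) :=
    cpnt_indep_red_ring π H.pi_surj hπ0 ρ H.rho_alg hker (x : F) (ρ x)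
      (fun i => ((b₀ i : W) : F)) Hh hρx' _ (fun _ => rfl)
  obtain ⟨tA, htr₀, htr₁⟩ := cpnt_exists_tA_ring π hπ0 ρ H.rho_alg (x : F) (ρ x)
    (fun i => (⟨_, hb₀ i⟩ : ringB L (x : F))) Hh hρx'
    (fun i => (⟨_, hb₁ i⟩ : ringB k (ρ x))) (fun _ => rfl) γ β hli
  -- the denominator
  obtain ⟨J, hJ, hden⟩ := Hh.exists_den_small
  have hI : ∀ c : L, c ∈ A → (1 - J).eval c ≠ 0 := by
    intro c hc h0
    have h1 : J.eval c = 1 := by
      rw [eval_sub, eval_one] at h0
      exact (sub_eq_zero.mp h0).symm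
    have h2 : A.valuation (J.eval c) < 1 := by
      rw [eval_eq_sum_range]
      refine Valuation.map_sum_lt _ one_ne_zero fun i _ => ?_
      rw [map_mul, map_pow]
      calc A.valuation (J.coeff i) * A.valuation c ^ i
          ≤ A.valuation (J.coeff i) * 1 := by
            gcongr
            exact pow_le_one₀ zero_le ((A.valuation_le_one_iff c).mpr hc)
        _ = A.valuation (J.coeff i) := mul_one _
        _ < 1 := hJ i
    rw [h1, map_one] at h2
    exact lt_irrefl _ h2
  -- place counts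
  obtain ⟨hfin0, hr₀⟩ := cpnw_ncard_placesOver_le (K := L) (x : F) (0 : L)
  have hcountle := cpnw_hcountle H x hρx hfin0
  -- separability of the reduced family
  have hsep : Algebra.discr (ringA k (ρ x)) (fun i => (⟨_, hb₁ i⟩ : ringB k (ρ x))) ≠ 0 :=
    cpnw_hsep (ρ x) _ hli (by rw [Fintype.card_fin, hn₁])
  exact cpnf_pform A π hπ0 H.pi_surj W ρ x hgauss γ β b₀ hb₀ hb₁ tA htr₀ htr₁ (1 - J) hI
    (cpnw_hden (x : F) γ _ hb₀ (1 - J) hden) hcount₀ hr₀ hcountle hsep

end Main

end Fermat.Agent.S18x
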