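/-
S18x/H1vArch (helper77): the fields `nontriv` and `arch` of `h1v_Hyp` (rank one) for valuation
subrings of `AlgebraicClosure ℚ` lying over a prime `ℓ`.  Uses S13x/ValQbar
(`vq_exists_pow_eq_qbar`: the value group lies in the divisible hull of `v(ℓ)^ℤ`).
-/
import Fermat.Agent.S13x.ValQbar

set_option autoImplicit false

namespace Fermat.Agent.S18x

open Fermat.Agent.S13x

local notation "Qc" => AlgebraicClosure ℚ

/-- the valuation of `A` is non-trivial -/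
theorem h1va_nontriv {A : ValuationSubring Qc} {ℓ : ℕ} (hℓ : ℓ.Prime) (hA : A.LiesOverPrime ℓ) :
    ∃ π : Qc, π ≠ 0 ∧ A.valuation π < 1 :=
  ⟨(ℓ : Qc), by exact_mod_cast hℓ.ne_zero, (A.mem_nonunits_iff).mp hA⟩

/-- **rank one**: for `π` in the maximal ideal, `π^s c ∈ A` for `s` large. -/
theorem h1va_arch {A : ValuationSubring Qc} {ℓ : ℕ} (hℓ : ℓ.Prime) (hA : A.LiesOverPrime ℓ)
    (π : Qc) (hπ : A.valuation π < 1) (c : Qc) : ∃ s : ℕ, π ^ s * c ∈ A := by
  rcases eq_or_ne π 0 with rfl | hπ0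
  · exact ⟨1, by simp [A.zero_mem]⟩
  rcases eq_or_ne c 0 with rfl | hc0
  · exact ⟨0, by simp [A.zero_mem]⟩
  obtain ⟨m, hm, k, hk⟩ := vq_exists_pow_eq_qbar hℓ hA hπ0
  obtain ⟨m', hm', k', hk'⟩ := vq_exists_pow_eq_qbar hℓ hA hc0
  set vl := A.valuation ((ℓ : ℕ) : Qc) with hvl
  have hvl1 : vl < 1 := (A.mem_nonunits_iff).mp hA
  have hvl0 : vl ≠ 0 := by
    rw [hvl, Ne, map_eq_zero]; exact_mod_cast hℓ.ne_zero
  have hvlpos : 0 < vl := zero_lt_iff.mpr hvl0
  have hvπ0 : A.valuation π ≠ 0 := by rw [Ne, map_eq_zero]; exact hπ0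
  -- `k > 0`
  have hkpos : 0 < k := by
    by_contra hk0
    rw [not_lt] at hk0
    have h1 : A.valuation π ^ m < 1 := pow_lt_one₀ zero_le hπ hm.ne'
    rw [hk] at h1
    obtain ⟨K, hK⟩ := Int.exists_eq_neg_ofNat hk0
    rw [hK, zpow_neg, zpow_natCast] at h1
    have h2 : vl ^ K ≤ 1 := pow_le_one₀ zero_le hvl1.le
    have h3 : 1 ≤ (vl ^ K)⁻¹ := (one_le_inv₀ (pow_pos hvlpos K)).mpr h2
    exact absurd h1 (not_lt.mpr h3)
  obtain ⟨K, hK⟩ := Int.eq_ofNat_of_zero_le hkpos.le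
  have hK1 : 1 ≤ K := by omega
  rw [hK, zpow_natCast] at hk
  suffices hsuff : ∃ s : ℕ, A.valuation (π ^ s * c) ≤ 1 by
    obtain ⟨s, hs⟩ := hsuff
    exact ⟨s, (A.valuation_le_one_iff _).mp hs⟩
  by_cases hk'0 : 0 ≤ k'
  · -- `v(c) ≤ 1`
    obtain ⟨K', hK'⟩ := Int.eq_ofNat_of_zero_le hk'0
    rw [hK', zpow_natCast] at hk'
    refine ⟨0, ?_⟩
    rw [pow_zero, one_mul]
    have h1 : A.valuation c ^ m' ≤ 1 := by rw [hk']; exact pow_le_one₀ zero_le hvl1.le
    by_contra hgt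
    rw [not_le] at hgt
    exact absurd h1 (not_le.mpr (one_lt_pow₀ hgt hm'.ne'))
  · rw [not_le] at hk'0
    obtain ⟨K', hK'⟩ := Int.exists_eq_neg_ofNat hk'0.le
    rw [hK', zpow_neg, zpow_natCast] at hk'
    have hvK' : vl ^ K' ≠ 0 := pow_ne_zero _ hvl0
    have hck : A.valuation c ^ m' * vl ^ K' = 1 := by
      rw [hk', inv_mul_cancel₀ hvK']
    refine ⟨m * K', ?_⟩
    rw [Valuation.map_mul, Valuation.map_pow]
    have hexp : K' ≤ K * K' * m' := by
      calc K' = 1 * K' * 1 := by ring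
        _ ≤ K * K' * m' := by gcongr; omega
    obtain ⟨e, he⟩ := Nat.exists_eq_add_of_le hexp
    have hpow : (A.valuation π ^ (m * K') * A.valuation c) ^ m' ≤ 1 := by
      have h1 : (A.valuation π ^ (m * K') * A.valuation c) ^ m'
          = vl ^ e * (A.valuation c ^ m' * vl ^ K') := by
        rw [mul_pow, ← pow_mul, show m * K' * m' = m * (K' * m') by ring,
          pow_mul (A.valuation π) m, hk, ← pow_mul,
          show K * (K' * m') = K * K' * m' by ring, he, pow_add]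
        rw [mul_comm (vl ^ e), mul_assoc (A.valuation c ^ m'), mul_comm (vl ^ K' * vl ^ e)]
      rw [h1, hck, mul_one]
      exact pow_le_one₀ zero_le hvl1.le
    by_contra hgt
    rw [not_le] at hgt
    exact absurd hpow (not_le.mpr (one_lt_pow₀ hgt hm'.ne'))

end Fermat.Agent.S18x
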