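/-
S18x/HzCountJ (helper71): the char-0 COUNT input `hcount₀` of helper38's `cpnf_Cinf`
(row A1 of the CUSPN(b) twin) for the chart `x = 1/j` of `F_N = FBar N`:

* `hzj_placesOver_inv` (generic): for `c ≠ 0`, `placesOver K F t⁻¹ c = placesOver K F t c⁻¹`;
* `hzj_ncard_inv_generic` : for `c ≠ 0` with `c⁻¹ ≠ 1728`:
  `(placesOver Qbar (FBar N) (jBar N)⁻¹ c).ncard = dedekindPsi N`;
* `hzj_hcount0` : the same for every `c ≠ 0` in the open unit disc of a valuation subring `A`
  of `Qbar` (then `c⁻¹ ∉ A ∋ 1728`);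
* `hzj_cdeg_inv` : `cdeg Qbar (FBar N) (jBar N)⁻¹ = dedekindPsi N`; `hzj_ffData_inv`.
-/
import Fermat.Agent.S24x.FundIdentity
import Fermat.Agent.S24x.PlaceBasic
import Fermat.Agent.S24x.PlacePrime
import Fermat.Agent.S18x.RamDataN

set_option autoImplicit false

namespace Fermat.Agent.S18x

open AlgebraicCurve ModularCurve
open Fermat.Agent.S24x

section Generic

variable {K F : Type*} [Field K] [Field F] [Algebra K F]

theorem hzj_placesOver_inv_subset (t : F) (c : K) (hc : c ≠ 0) :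
    placesOver K F t⁻¹ c ⊆ placesOver K F t c⁻¹ := by
  intro v hv
  rw [mem_placesOver] at hv ⊢
  have hcF : algebraMap K F c ≠ 0 := by simpa using hc
  have ht : t ≠ 0 := by
    rintro rfl
    rw [inv_zero, zero_sub, ← map_neg, pb_ord_algebraMap] at hv
    exact lt_irrefl _ hv
  have hd : t⁻¹ - algebraMap K F c ≠ 0 := by
    intro h
    rw [h, Place.ord_zero] at hv
    exact lt_irrefl _ hv
  have hordc : v.ord (algebraMap K F c) = 0 := pb_ord_algebraMap v c
  -- `ord t⁻¹ = 0`
  have h1 : 0 ≤ v.ord t⁻¹ := by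
    have := pb_ord_add v (f := t⁻¹ - algebraMap K F c) (g := algebraMap K F c)
      (by rw [sub_add_cancel]; exact inv_ne_zero ht)
    rw [sub_add_cancel, hordc] at this
    have h2 : 0 ≤ min (v.ord (t⁻¹ - algebraMap K F c)) 0 := by
      rw [min_eq_right (le_of_lt hv)]
    exact le_trans h2 this
  have h2 : v.ord t⁻¹ ≤ 0 := by
    by_contra hcon
    push Not at hcon
    have := pb_ord_add v (f := t⁻¹) (g := -(t⁻¹ - algebraMap K F c))
      (by rw [← sub_eq_add_neg, sub_sub_cancel]; exact hcF)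
    rw [← sub_eq_add_neg, sub_sub_cancel, hordc] at this
    have h3 : v.ord (-(t⁻¹ - algebraMap K F c)) = v.ord (t⁻¹ - algebraMap K F c) := by
      rw [neg_eq_neg_one_mul, v.ord_mul (by simp) hd]
      have : v.ord (-1 : F) = 0 := by
        have := pb_ord_algebraMap v (-1 : K)
        simpa using this
      rw [this, zero_add]
    rw [h3] at this
    have : 0 < min (v.ord t⁻¹) (v.ord (t⁻¹ - algebraMap K F c)) := lt_min hcon hv
    omega
  have hordt : v.ord t = 0 := by
    have := v.ord_inv t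
    omega
  have hkey : t - algebraMap K F c⁻¹ =
      algebraMap K F (-c⁻¹) * (t * (t⁻¹ - algebraMap K F c)) := by
    rw [map_neg, map_inv₀]
    field_simp
    ring
  rw [hkey, v.ord_mul (by simpa using hc) (mul_ne_zero ht hd), v.ord_mul ht hd,
    pb_ord_algebraMap, hordt]
  omega

/-- for `c ≠ 0`: the places over `t⁻¹ = c` are the places over `t = c⁻¹`. -/
theorem hzj_placesOver_inv (t : F) (c : K) (hc : c ≠ 0) :
    placesOver K F t⁻¹ c = placesOver K F t c⁻¹ := by
  apply Set.Subset.antisymm (hzj_placesOver_inv_subset t c hc)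
  have := hzj_placesOver_inv_subset (K := K) t⁻¹ c⁻¹ (inv_ne_zero hc)
  rwa [inv_inv, inv_inv] at this

end Generic

section Concrete

variable (N : ℕ) [NeZero N]

/-- `1/j` is a coordinate of `F_N`. -/
theorem hzj_isCoordinate_inv : IsCoordinate Qbar (FBar N) (jBar N)⁻¹ :=
  fid_isCoordinate_inv (fbf_isCoordinate_jBar N)

/-- `FFData` for the chart `1/j` (row A0). -/
theorem hzj_ffData_inv : FFData Qbar (FBar N) (jBar N)⁻¹ :=
  ⟨(hzj_isCoordinate_inv N).transcendental, (hzj_isCoordinate_inv N).finite⟩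

/-- `FFData` for the chart `j`. -/
theorem hzj_ffData : FFData Qbar (FBar N) (jBar N) :=
  ⟨(fbf_isCoordinate_jBar N).transcendental, (fbf_isCoordinate_jBar N).finite⟩

/-- `[F_N : Qbar(1/j)] = ψ(N)`. -/
theorem hzj_cdeg_inv : cdeg Qbar (FBar N) (jBar N)⁻¹ = dedekindPsi N := by
  rw [fid_cdeg_inv]
  exact (rdn_cInputs N).cdeg_jBar

/-- generic fibres of `1/j`: `ψ(N)` places over `1/j = c` for `c ≠ 0`, `c⁻¹ ≠ 1728`. -/
theorem hzj_ncard_inv_generic (c : Qbar) (hc : c ≠ 0) (h1 : c⁻¹ ≠ 1728) :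
    (placesOver Qbar (FBar N) (jBar N)⁻¹ c).ncard = dedekindPsi N := by
  rw [hzj_placesOver_inv _ c hc]
  exact (rdn_cInputs N).ncard_placesOver_generic c⁻¹ (inv_ne_zero hc) h1

/-- **`hcount₀`** (exact shape of `cpnf_Cinf` up to `n = ψ(N)`): every `c ≠ 0` of the open unit
disc of a valuation subring `A` of `Qbar` has exactly `ψ(N)` places of `F_N` over `1/j = c`. -/
theorem hzj_hcount0 (A : ValuationSubring Qbar) (c : Qbar) (hc : A.valuation c < 1)
    (hc0 : c ≠ 0) : (placesOver Qbar (FBar N) (jBar N)⁻¹ c).ncard = dedekindPsi N := by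
  refine hzj_ncard_inv_generic N c hc0 ?_
  intro h
  have hmem : (1728 : Qbar) ∈ A := ofNat_mem A 1728
  rw [← h] at hmem
  have h2 : A.valuation c⁻¹ ≤ 1 := (A.valuation_le_one_iff _).mpr hmem
  rw [map_inv₀] at h2
  have h3 : A.valuation c ≠ 0 := (Valuation.ne_zero_iff _).mpr hc0
  have h4 : 1 ≤ A.valuation c := by
    rwa [inv_le_one₀ (zero_lt_iff.mpr h3)] at h2
  exact absurd hc (not_lt.mpr h4)

/-- the same with `n = cdeg` of the chart `1/j`. -/
theorem hzj_hcount0_cdeg (A : ValuationSubring Qbar) (c : Qbar) (hc : A.valuation c < 1)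
    (hc0 : c ≠ 0) :
    (placesOver Qbar (FBar N) (jBar N)⁻¹ c).ncard = cdeg Qbar (FBar N) (jBar N)⁻¹ := by
  rw [hzj_hcount0 N A c hc hc0, hzj_cdeg_inv]

end Concrete

end Fermat.Agent.S18x
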