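/-
S18x/CpnLevelN (helper38, prefix `cpnl_`): row F of the CUSPN(b) twin, level-`N` wiring.
Cusp normality of the reduction of `X₀(N)` in the shape (OUT-C-onto) consumed by helper34's
`nig_normality_of_int0_onto`, for the canonical Gauss pair `(s18f_W, s18f_rho)` of helper80's
`AssemblyFinal`, UNCONDITIONALLY (no Puiseux expansions at the cusps):

  every `ȳ ∈ F̄_N` integral over `k[1/j̄]` becomes, after multiplication by some `s(1/j̄)` with
  `s(0) ≠ 0`, the reduction of an element of the Gauss ring integral over `ℚ̄[1/j]`.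

Inputs: `cpnw_pform` (abstract wiring), helper77's `cpnd_main` (lifted orthonormal family),
helper71's `hzj_*` (char-0 counts for the chart `1/j`), helper68's `lvu_cdeg_eq` (degree in
characteristic `ℓ`), helper34's `nig_hzero_canonical`, `pls_isSepCoordinate_jb_perfect`.
-/
import Fermat.Agent.S18x.CpnWire
import Fermat.Agent.S18x.CpnLiftMain
import Fermat.Agent.S18x.HzCountJ
import Fermat.Agent.S18x.LvDegUpper
import Fermat.Agent.S18x.NrmFinalOfInt
import Fermat.Agent.S18x.H1vArch

set_option autoImplicit false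
set_option synthInstance.maxHeartbeats 400000

namespace Fermat.Agent.S18x

open AlgebraicCurve ModularCurve Polynomial IntermediateField
open Fermat.Agent.S24x
open scoped IntermediateField.algebraAdjoinAdjoin

variable (N : ℕ) [NeZero N] (A : ValuationSubring (AlgebraicClosure ℚ))
  (h : ModularCurve.ReductionInputsModL A N)

/-- the residue map kills the maximal ideal (valuation form). -/
theorem cpnl_residue_small (c : A) (hc : A.valuation (c : AlgebraicClosure ℚ) < 1) :
    IsLocalRing.residue A c = 0 := by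
  rw [IsLocalRing.residue_eq_zero_iff]
  exact (A.valuation_lt_one_iff c).mpr hc

set_option maxHeartbeats 2000000 in
/-- **CUSPN(b) at level `N`**: (OUT-C-onto) for the canonical Gauss pair. -/
theorem cpnl_hCo {ℓ : ℕ} [Fact ℓ.Prime] (hℓN : ¬ ℓ ∣ N) (hA : A.LiesOverPrime ℓ) :
    ∀ yb : modularFunctionFieldFullC (IsLocalRing.ResidueField A) N,
      IsIntegral (Algebra.adjoin (IsLocalRing.ResidueField A)
        {(pls_jb (IsLocalRing.ResidueField A) N)⁻¹}) yb →
      ∃ (u : s18f_W N A h) (s : Polynomial (IsLocalRing.ResidueField A)), s.eval 0 ≠ 0 ∧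
        s18f_rho N A h u = Polynomial.aeval (pls_jb (IsLocalRing.ResidueField A) N)⁻¹ s * yb ∧
        IsIntegral (Algebra.adjoin (AlgebraicClosure ℚ) {(jBar N)⁻¹})
          (u : modularFunctionFieldBar N) := by
  classical
  have hk : IsAlgClosed (IsLocalRing.ResidueField A) := s18a_isAlgClosed_residue A
  have hch : CharP (IsLocalRing.ResidueField A) ℓ := glu_charP A (Fact.out : ℓ.Prime) hA
  have H := s18f_hyp N A h
  have hρJ := s18f_rho_J N A h
  have hρJ0 : s18f_rho N A h (s18f_J N A h) ≠ 0 := by
    rw [hρJ]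
    intro h0
    exact (pls_transcendental_jb (IsLocalRing.ResidueField A) N) (h0 ▸ isAlgebraic_zero)
  -- the coordinate `x = 1/j` as an element of the Gauss ring
  have hu : IsUnit (s18f_J N A h) := by
    by_contra hnu
    exact hρJ0 ((H.ker _).mpr hnu)
  obtain ⟨t, ht⟩ := hu.exists_right_inv
  have htF : ((t : s18f_W N A h) : modularFunctionFieldBar N) = (jBar N)⁻¹ := by
    have h1 : (jBar N : modularFunctionFieldBar N) * (t : modularFunctionFieldBar N) = 1 := by
      have := congrArg (fun z : s18f_W N A h => (z : modularFunctionFieldBar N)) ht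
      simpa [s18f_J_coe] using this
    exact eq_inv_of_mul_eq_one_right h1
  have hxmem : (jBar N)⁻¹ ∈ s18f_W N A h := htF ▸ t.2
  set x : s18f_W N A h := ⟨(jBar N)⁻¹, hxmem⟩ with hx
  have hxt : x = t := Subtype.ext htF.symm
  have hρx : s18f_rho N A h x = (pls_jb (IsLocalRing.ResidueField A) N)⁻¹ := by
    have h1 : s18f_rho N A h (s18f_J N A h) * s18f_rho N A h x = 1 := by
      rw [hxt, ← map_mul, ht, map_one]
    rw [hρJ] at h1
    exact eq_inv_of_mul_eq_one_right h1
  have hρx0 : s18f_rho N A h x ≠ 0 := by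
    rw [hρx]
    rw [← hρJ]
    exact inv_ne_zero hρJ0
  -- the `k`-side coordinate data
  have hsepb : pls_IsSepCoordinate (IsLocalRing.ResidueField A)
      (modularFunctionFieldFullC (IsLocalRing.ResidueField A) N) (s18f_rho N A h x) := by
    rw [hρx]
    exact pls_isSepCoordinate_inv (pls_isSepCoordinate_jb_perfect (IsLocalRing.ResidueField A) N)
  have hFFb : FFData (IsLocalRing.ResidueField A)
      (modularFunctionFieldFullC (IsLocalRing.ResidueField A) N) (s18f_rho N A h x) :=
    ⟨hsepb.coord.transcendental, hsepb.coord.finite⟩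
  have hsepI : Algebra.IsSeparable (IsLocalRing.ResidueField A)⟮s18f_rho N A h x⟯
      (modularFunctionFieldFullC (IsLocalRing.ResidueField A) N) := hsepb.sep
  have hDed : IsDedekindDomain (ringB (IsLocalRing.ResidueField A) (s18f_rho N A h x)) :=
    integralClosure.isDedekindDomain (ringA (IsLocalRing.ResidueField A) (s18f_rho N A h x))
      (IsLocalRing.ResidueField A)⟮s18f_rho N A h x⟯
      (modularFunctionFieldFullC (IsLocalRing.ResidueField A) N)
  -- the char-0 coordinate data
  have hFF : FFData (AlgebraicClosure ℚ) (modularFunctionFieldBar N)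
      ((x : s18f_W N A h) : modularFunctionFieldBar N) := hzj_ffData_inv N
  have hn₀ : cdeg (AlgebraicClosure ℚ) (modularFunctionFieldBar N)
      ((x : s18f_W N A h) : modularFunctionFieldBar N) = dedekindPsi N := hzj_cdeg_inv N
  have hn₁ : cdeg (IsLocalRing.ResidueField A)
      (modularFunctionFieldFullC (IsLocalRing.ResidueField A) N) (s18f_rho N A h x)
        = dedekindPsi N := by
    rw [hρx, fid_cdeg_inv]
    exact lvu_cdeg_eq ℓ N (IsLocalRing.ResidueField A) hℓN
  -- zeros of `j` reduce to zeros of `j̄`, i.e. poles of `x` reduce to poles of `x̄`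
  have hzero := nig_hzero_canonical N A h hℓN hA
  have hpole : ∀ P : Place (AlgebraicClosure ℚ) (modularFunctionFieldBar N),
      P.ord ((x : s18f_W N A h) : modularFunctionFieldBar N) < 0 →
      (placeReductionModL h P).ord (s18f_rho N A h x) < 0 := by
    intro P hP
    have h1 : 0 < P.ord ((s18f_J N A h : s18f_W N A h) : modularFunctionFieldBar N) := by
      rw [s18f_J_coe]
      have : P.ord ((jBar N)⁻¹) < 0 := hP
      rw [Place.ord_inv] at this
      omega
    have h2 := hzero P h1
    rw [hρJ] at h2
    rw [hρx, Place.ord_inv]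
    omega
  -- row D
  have hdeg : Module.finrank (AlgebraicClosure ℚ)⟮((x : s18f_W N A h) : modularFunctionFieldBar N)⟯
      (modularFunctionFieldBar N) ≤
      Module.finrank (IsLocalRing.ResidueField A)⟮s18f_rho N A h x⟯
        (modularFunctionFieldFullC (IsLocalRing.ResidueField A) N) := by
    have e0 : Module.finrank (AlgebraicClosure ℚ)⟮((x : s18f_W N A h) : modularFunctionFieldBar N)⟯
      (modularFunctionFieldBar N) = dedekindPsi N := hn₀
    have e1 : Module.finrank (IsLocalRing.ResidueField A)⟮s18f_rho N A h x⟯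
        (modularFunctionFieldFullC (IsLocalRing.ResidueField A) N) = dedekindPsi N := hn₁
    rw [e0, e1]
  obtain ⟨b, hbint, -, -, -, -, Hh, -⟩ := cpnd_main H
    (h1va_nontriv (Fact.out : ℓ.Prime) hA) (h1va_arch (Fact.out : ℓ.Prime) hA) x hsepb
    (fun y _ => gi_rho_surj (s18f_inputs N A h) y) hpole hdeg
  have hres := cpnw_pform H (cpnl_residue_small A) x hρx0 rfl
    (hn₁.trans hn₀.symm)
    (fun c hc hc0 => hzj_hcount0_cdeg N A c hc hc0) b
    (fun i => (cpnd_int_iff_mem _ _).mp (hbint i)) Hh
    (fun i => cpnd_rho_isIntegral H x hpole hsepb (b i) (hbint i))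
  intro yb hyb
  obtain ⟨u, s, hs0, hρu, hint⟩ := hres yb (by rw [hρx]; exact hyb)
  refine ⟨u, s, hs0, ?_, hint⟩
  rw [hρu, hρx]

end Fermat.Agent.S18x
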