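/-
S18x/CpnFinal (helper38, prefix `cpnl_`): S18 from the finite-chart normality `hInt0` ALONE.
The cusp chart is supplied unconditionally by `cpnl_hCo` (CUSPN(b) twin, S18x/CpnLevelN.lean),
glued by helper34's `nig_normality_of_int0_onto` and helper80's `s18f_result`.
-/
import Fermat.Agent.S18x.CpnLevelN

set_option autoImplicit false
set_option synthInstance.maxHeartbeats 400000

namespace Fermat.Agent.S18x

open AlgebraicCurve ModularCurve Polynomial
open Fermat.Agent.S24x

variable (N : ℕ) [NeZero N] (A : ValuationSubring (AlgebraicClosure ℚ))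
  (h : ModularCurve.ReductionInputsModL A N)

/-- **two-chart normality from the finite chart alone.** -/
theorem cpnl_normality_of_int0 {ℓ : ℕ} [Fact ℓ.Prime] (hℓN : ¬ ℓ ∣ N) (hA : A.LiesOverPrime ℓ)
    (hInt0 : ∀ yb : modularFunctionFieldFullC (IsLocalRing.ResidueField A) N,
      IsIntegral (Algebra.adjoin (IsLocalRing.ResidueField A)
        {pls_jb (IsLocalRing.ResidueField A) N}) yb →
      ∃ u : s18f_W N A h, s18f_rho N A h u = yb ∧
        IsIntegral (Algebra.adjoin (AlgebraicClosure ℚ) {jBar N})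
          (u : modularFunctionFieldBar N)) :
    s18f_Normality N A h :=
  nig_normality_of_int0_onto N A h hℓN hA hInt0 (cpnl_hCo N A h hℓN hA)

/-- **the frozen S18 conclusion from `hInt0` alone.** -/
theorem cpnl_result_of_int0 {ℓ : ℕ} [Fact ℓ.Prime] (hℓN : ¬ ℓ ∣ N) (hA : A.LiesOverPrime ℓ)
    (hInt0 : ∀ yb : modularFunctionFieldFullC (IsLocalRing.ResidueField A) N,
      IsIntegral (Algebra.adjoin (IsLocalRing.ResidueField A)
        {pls_jb (IsLocalRing.ResidueField A) N}) yb →
      ∃ u : s18f_W N A h, s18f_rho N A h u = yb ∧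
        IsIntegral (Algebra.adjoin (AlgebraicClosure ℚ) {jBar N})
          (u : modularFunctionFieldBar N))
    (m : ℕ) (hm : ¬ ℓ ∣ m) (z : ModularCurve.JZero N) (hmz : m • z = 0)
    (hz : ModularCurve.reductionModL A N z = 0) : z = 0 :=
  s18f_result N A h hℓN hA (cpnl_normality_of_int0 N A h hℓN hA hInt0) m hm z hmz hz

end Fermat.Agent.S18x
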