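/-
S18x/CpnGaussX (helper58): leaf (F2) of the CUSPN(b) wiring (row F, helper38).

`hgauss` for an element `x : W`: for `p ∈ A[X]`, `p(x) ∈ W` and `ρ (p(x)) = p̄(ρ x)`,
from `mem_iff` and `rho_alg` of `ts_Hyp` / `s18a_Gauss` only.
-/
import Mathlib
import Fermat.Agent.S18x.CpnTraceGauss

set_option autoImplicit false

namespace Fermat.Agent.S18x

open Polynomial

section

variable {L k F Fb : Type*} [Field L] [Field k] [Field F] [Field Fb] [Algebra L F] [Algebra k Fb]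

/-- **(F2)** `hgauss` for `x : W`. -/
theorem cpne_hgauss {A : ValuationSubring L} {π : A →+* k} {W : ValuationSubring F}
    {ρ : W →+* Fb} (hmem : ∀ c : L, algebraMap L F c ∈ W ↔ c ∈ A)
    (hρalg : ∀ (c : L) (hc : c ∈ A) (hW : algebraMap L F c ∈ W),
      ρ ⟨algebraMap L F c, hW⟩ = algebraMap k Fb (π ⟨c, hc⟩))
    (x : W) :
    ∀ p : A[X], ∃ h : aeval (x : F) (p.map A.subtype) ∈ W,
      ρ ⟨_, h⟩ = aeval (ρ x) (p.map π) := by
  intro p
  have hmem' : ∀ c : L, c ∈ A → algebraMap L F c ∈ W := fun c hc => (hmem c).mpr hc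
  exact ⟨cpne_aeval_mem A W hmem' (x : F) x.2 p, cpne_rho_aeval A π W ρ hmem' hρalg (x : F) x.2 p⟩

/-- Gauss lemma in the same packaging: if `ρ x` is transcendental over `k` and `π` kills the
maximal ideal, `p(x) ∈ W` forces `p ∈ A[X]`. -/
theorem cpne_hgauss_conv {A : ValuationSubring L} {π : A →+* k} {W : ValuationSubring F}
    {ρ : W →+* Fb} (hπ : ∀ c : A, A.valuation (c : L) < 1 → π c = 0)
    (hmem : ∀ c : L, algebraMap L F c ∈ W ↔ c ∈ A)
    (hρalg : ∀ (c : L) (hc : c ∈ A) (hW : algebraMap L F c ∈ W),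
      ρ ⟨algebraMap L F c, hW⟩ = algebraMap k Fb (π ⟨c, hc⟩))
    (x : W) (htr : Transcendental k (ρ x)) (p : L[X]) (hp : aeval (x : F) p ∈ W) :
    ∃ p' : A[X], p'.map A.subtype = p :=
  cpne_exists_map A p
    (cpne_gauss A π W ρ hπ (fun c hc => (hmem c).mpr hc) hρalg (x : F) x.2 htr p hp)

end

end Fermat.Agent.S18x
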