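/-
S18 project, CUSPN(b) twin, row D part (D1) (helper19, prefix `cpnd1_`):
the reduction map sends `W ∩ O₀` into `O₁`, where for a coordinate `x : W`
`O₀ = ringB L x` (functions regular wherever `x` is regular) and `O₁ = ringB k (ρ x)`.

Abstract over helper80's `ts_Hyp`; the only extra input is "poles of `x` reduce to poles of `ρ x`"
(`s18a_pole_of_pole` / `htp_pole_of_pole`).

* `cpnd1_reg`      : valuation-ring form (no hypotheses on the fields);
* `cpnd1_ord`      : `ord` form;
* `cpnd1_mem_ringB`: `ringB` form, through `cp15_mem_ringB_iff` (separable coordinates).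
-/
import Mathlib
import Fermat.Agent.S18x.TsBasic
import Fermat.Agent.S18x.CpPlaces

set_option autoImplicit false

namespace Fermat.Agent.S18x

open AlgebraicCurve WithZero Fermat.Agent.S24x

variable {L k F Fb : Type*} [Field L] [Field k] [Field F] [Field Fb] [Algebra L F] [Algebra k Fb]
variable {A : ValuationSubring L} {π : A →+* k} {W : ValuationSubring F} {ρ : W →+* Fb}
  {r : Place L F → Place k Fb}

/-- membership in the valuation ring of a place, in terms of `adicValuation` -/
theorem cpnd1_mem_iff_val {K E : Type*} [Field K] [Field E] [Algebra K E] (v : Place K E) (f : E) :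
    f ∈ v.toValuationSubring ↔ v.adicValuation f ≤ 1 := by
  rcases eq_or_ne f 0 with rfl | hf
  · simp [v.toValuationSubring.zero_mem]
  · rw [pb_mem_iff v hf, Place.adicValuation_le_one_iff]
    exact ⟨fun h => Or.inr h, fun h => h.resolve_left hf⟩

/-- **(D1), valuation-ring form**: if `y ∈ W` is regular wherever `x` is regular, then `ρ y` is
regular wherever `ρ x` is regular. -/
theorem cpnd1_reg (H : ts_Hyp A π W ρ r) (x : W)
    (hpole : ∀ P : Place L F, P.ord (x : F) < 0 → (r P).ord (ρ x) < 0)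
    (y : W)
    (hy : ∀ P : Place L F, (x : F) ∈ P.toValuationSubring → (y : F) ∈ P.toValuationSubring)
    (Q : Place k Fb) (hQ : ρ x ∈ Q.toValuationSubring) : ρ y ∈ Q.toValuationSubring := by
  rw [cpnd1_mem_iff_val]
  refine H.reg_of_disc y Q fun P hP => ?_
  rw [← cpnd1_mem_iff_val]
  apply hy P
  by_contra hx
  have hx0 : (x : F) ≠ 0 := fun h => hx (h ▸ P.toValuationSubring.zero_mem)
  have hneg : P.ord (x : F) < 0 := by
    by_contra hnn
    rw [not_lt] at hnn
    exact hx ((pb_mem_iff P hx0).mpr hnn)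
  have h1 := hpole P hneg
  rw [hP] at h1
  have hρ0 : ρ x ≠ 0 := by
    intro h0
    rw [h0, Place.ord_zero] at h1
    exact lt_irrefl _ h1
  have h2 := (pb_mem_iff Q hρ0).mp hQ
  omega

/-- **(D1), `ord` form**. -/
theorem cpnd1_ord (H : ts_Hyp A π W ρ r) (x : W)
    (hpole : ∀ P : Place L F, P.ord (x : F) < 0 → (r P).ord (ρ x) < 0)
    (y : W) (hy : ∀ P : Place L F, 0 ≤ P.ord (x : F) → 0 ≤ P.ord (y : F))
    (Q : Place k Fb) (hQ : 0 ≤ Q.ord (ρ x)) : 0 ≤ Q.ord (ρ y) := by
  rcases eq_or_ne (ρ y) 0 with h0 | h0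
  · rw [h0, Place.ord_zero]
  rcases eq_or_ne (ρ x) 0 with hx0 | hx0
  · -- `ρ x = 0`: then `x` has no poles at all
    have hxreg : ∀ P : Place L F, 0 ≤ P.ord (x : F) := by
      intro P
      by_contra hneg
      rw [not_le] at hneg
      have := hpole P hneg
      rw [hx0, Place.ord_zero] at this
      exact lt_irrefl _ this
    have hval := H.reg_of_disc y Q fun P _ => by
      rw [Place.adicValuation_le_one_iff]
      exact Or.inr (hy P (hxreg P))
    exact ((Q.adicValuation_le_one_iff).mp hval).resolve_left h0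
  have hmem := cpnd1_reg H x hpole y (fun P hxP => by
    rcases eq_or_ne (y : F) 0 with hy0 | hy0
    · rw [hy0]; exact P.toValuationSubring.zero_mem
    rcases eq_or_ne (x : F) 0 with hxz | hxz
    · exact (pb_mem_iff P hy0).mpr (hy P (by rw [hxz, Place.ord_zero]))
    · exact (pb_mem_iff P hy0).mpr (hy P ((pb_mem_iff P hxz).mp hxP))) Q
    ((pb_mem_iff Q hx0).mpr hQ)
  exact (pb_mem_iff Q h0).mp hmem

/-- **(D1), `ringB` form**: `ρ (W ∩ ringB L x) ⊆ ringB k (ρ x)` for separable coordinates. -/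
theorem cpnd1_mem_ringB (H : ts_Hyp A π W ρ r) (x : W)
    [FFData L F (x : F)] [Algebra.IsSeparable (IntermediateField.adjoin L {(x : F)}) F]
    [FFData k Fb (ρ x)] [Algebra.IsSeparable (IntermediateField.adjoin k {ρ x}) Fb]
    (hpole : ∀ P : Place L F, P.ord (x : F) < 0 → (r P).ord (ρ x) < 0)
    (y : W) (hy : (y : F) ∈ ringB L (x : F)) : ρ y ∈ ringB k (ρ x) := by
  rw [cp15_mem_ringB_iff]
  intro Q hQ
  exact cpnd1_reg H x hpole y ((cp15_mem_ringB_iff (x : F) (y : F)).mp hy) Q hQ

end Fermat.Agent.S18x
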