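/-
S18x/CpnLiftPack (helper77): row D of the CUSPN(b) twin, ring-form PACKAGE for the consumers
`cpn_ff` (helper38, S18x/CpnFF.lean) and `cpnt_exists_tA_ring` (helper86, S18x/CpnTraceInst.lean):
from `cpnd_main` we produce `b₀ : Fin n → ringB L x`, `b₁ : Fin n → ringB k xb` with
`b₁ i = ρ (b₀ i)`, the bundle `h1v_Hyp A W x b₀`, linear independence of `b₁`, `hsep`
(`discr b₁ ≠ 0`), the span statement `ρ (W ∩ O₀) = ∑ D₁ b₁ i`, and `hden`, `hI` with
`e₀ = hzb_equiv x`, `I = 1 - J`.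
-/
import Fermat.Agent.S18x.CpnLiftMain
import Fermat.Agent.S18x.HzCpn
import Fermat.Agent.S18x.HzDiscrBridge

set_option autoImplicit false

namespace Fermat.Agent.S18x

open AlgebraicCurve Polynomial IntermediateField Module Fermat.Agent.S24x
open scoped IntermediateField.algebraAdjoinAdjoin

variable {L k F Fb : Type*} [Field L] [Field k] [Field F] [Field Fb] [Algebra L F] [Algebra k Fb]
variable {A : ValuationSubring L} {π : A →+* k} {W : ValuationSubring F} {ρ : W →+* Fb}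
  {r : Place L F → Place k Fb}

/-- **Row D, ring-form package.** -/
theorem cpnd_pack [IsAlgClosed L] [CharZero L] (H : ts_Hyp A π W ρ r)
    (hnontriv : ∃ π₀ : L, π₀ ≠ 0 ∧ A.valuation π₀ < 1)
    (harch : ∀ π₀ : L, A.valuation π₀ < 1 → ∀ c : L, ∃ s : ℕ, π₀ ^ s * c ∈ A)
    (x : W) (xb : Fb) (hxb : ρ x = xb) (hsep : pls_IsSepCoordinate k Fb xb)
    (hρsurj : ∀ y : Fb, y ≠ 0 → ∃ u : W, ρ u = y)
    (hpole : ∀ P : Place L F, P.ord (x : F) < 0 → (r P).ord xb < 0)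
    [FFData L F (x : F)] [FFData k Fb xb]
    (hdeg : cdeg L F (x : F) ≤ cdeg k Fb xb) :
    ∃ (b₀ : Fin (cdeg L F (x : F)) → ringB L (x : F))
      (b₁ : Fin (cdeg L F (x : F)) → ringB k xb)
      (HY : h1v_Hyp A W (x : F) (fun i => ((b₀ i : ringB L (x : F)) : F))),
      (∀ i, ((b₁ i : ringB k xb) : Fb) = ρ ⟨((b₀ i : ringB L (x : F)) : F), HY.b_mem i⟩) ∧
      cdeg k Fb xb = cdeg L F (x : F) ∧
      LinearIndependent k⟮xb⟯ (fun i => ((b₁ i : ringB k xb) : Fb)) ∧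
      LinearIndependent (ringA k xb) b₁ ∧
      Algebra.discr (ringA k xb) b₁ ≠ 0 ∧
      (∀ y : W, (y : F) ∈ ringB L (x : F) → ∃ c : Fin (cdeg L F (x : F)) → ringA k xb,
        ρ y = ∑ i, ((c i : ringA k xb) : Fb) * ((b₁ i : ringB k xb) : Fb)) ∧
      ∃ J : L[X], h1v_SmallPoly A J ∧ (∀ c : L, c ∈ A → (1 - J).eval c ≠ 0) ∧
        h1v_Den L (x : F) (fun i => ((b₀ i : ringB L (x : F)) : F)) (1 - J) ∧
        ∀ z : ringB L (x : F), ∃ c : Fin (cdeg L F (x : F)) → ringA L (x : F),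
          hzb_equiv (x : F) (1 - J) • z = ∑ i, c i • b₀ i := by
  classical
  subst hxb
  unfold cdeg at hdeg ⊢
  have hx : Transcendental k (ρ x) := hsep.coord.transcendental
  obtain ⟨b, hbint, hind, hli, hsp, hspan, HY, J, hJ, hDen⟩ :=
    cpnd_main H hnontriv harch x hsep hρsurj hpole hdeg
  have hb1mem : ∀ i, ρ (b i) ∈ ringB k (ρ x) := fun i =>
    cpnd_rho_isIntegral H x hpole hsep (b i) (hbint i)
  have hcard : finrank k⟮ρ x⟯ Fb = finrank L⟮(x : F)⟯ F := by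
    have h1 := Module.finrank_eq_card_basis (Basis.mk hli hsp.ge)
    rw [Fintype.card_fin] at h1
    exact h1
  have := hsep.sep
  have hxL : Transcendental L (x : F) := FFData.transc
  have hb0mem : ∀ i, ((b i : W) : F) ∈ ringB L (x : F) := fun i =>
    (cpnd_int_iff_mem _ _).mp (hbint i)
  let b₀ : Fin (finrank L⟮(x : F)⟯ F) → ringB L (x : F) := fun i => ⟨(b i : F), hb0mem i⟩
  let b₁ : Fin (finrank L⟮(x : F)⟯ F) → ringB k (ρ x) := fun i => ⟨ρ (b i), hb1mem i⟩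
  have HY' : h1v_Hyp A W (x : F) (fun i => ((b₀ i : ringB L (x : F)) : F)) := HY
  refine ⟨b₀, b₁, HY', ?_, hcard, ?_, ?_, ?_, ?_, ?_⟩
  · intro i
    rfl
  · exact hli
  · -- independence over `ringA`
    have h1 : LinearIndependent (ringA k (ρ x)) (fun i => ρ (b i)) :=
      (LinearIndependent.iff_fractionRing (ringA k (ρ x)) k⟮ρ x⟯).mpr hli
    exact LinearIndependent.of_comp ((ringB k (ρ x)).val.toLinearMap) h1
  · -- `hsep`
    apply hzb_discr_ne_zero (ρ x) b₁ hli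
    rw [Fintype.card_fin]
    exact hcard.symm
  · -- span
    intro y hy
    obtain ⟨q, hq⟩ := hspan y ((cpnd_int_iff_mem _ _).mpr hy)
    refine ⟨fun i => hzb_equiv (ρ x) (q i), ?_⟩
    rw [hq]
    refine Finset.sum_congr rfl fun i _ => ?_
    show aeval (ρ x) (q i) * ρ (b i) = ((hzb_equiv (ρ x) (q i) : ringA k (ρ x)) : Fb) * ρ (b i)
    rw [hzb_equiv_apply, Polynomial.aeval_subalgebra_coe, coe_genA]
  · refine ⟨J, hJ, fun c hc => cpnd_one_sub_small_eval_ne_zero hJ hc, hDen, fun z => ?_⟩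
    exact cpnd_den_ring (x : F) hxL (fun i => (b i : F)) hbint (1 - J) hDen z

end Fermat.Agent.S18x
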