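/-
S18x/CpnRoots (helper77): row P1 of helper38's CUSPN(b) block.
`cpnr_unit_coeff`: a polynomial with coefficients in a valuation ring `A` of an algebraically
closed field, with some unit coefficient (Gauss norm 1) and NO root in the open unit disc,
has a unit constant coefficient.  Mathlib only.
-/
import Mathlib

set_option autoImplicit false

namespace Fermat.Agent.S18x

open Polynomial

section

variable {L : Type*} [Field L]

/-- a product of linear factors whose roots `ρ` satisfy `ρ⁻¹ ∈ A`, `ρ ≠ 0`, is `c * P` with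
`P ∈ A[X]`, `P(0) = 1`. -/
theorem cpnr_prod_factor (A : ValuationSubring L) (S : Multiset L)
    (hS : ∀ ρ ∈ S, ρ ≠ 0 ∧ ρ⁻¹ ∈ A) :
    ∃ (c : L) (P : L[X]), c ≠ 0 ∧ (∀ j, P.coeff j ∈ A) ∧ P.coeff 0 = 1 ∧
      (S.map fun ρ => X - C ρ).prod = C c * P := by
  induction S using Multiset.induction_on with
  | empty =>
    refine ⟨1, 1, one_ne_zero, fun j => ?_, by simp, by simp⟩
    rw [coeff_one]; split_ifs
    · exact A.one_mem
    · exact A.zero_mem
  | cons ρ S ih =>
    obtain ⟨c, P, hc, hP, hP0, hprod⟩ := ih fun σ hσ => hS σ (Multiset.mem_cons_of_mem hσ)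
    obtain ⟨hρ0, hρA⟩ := hS ρ (Multiset.mem_cons_self ρ S)
    refine ⟨-ρ * c, (1 - C ρ⁻¹ * X) * P, mul_ne_zero (neg_ne_zero.mpr hρ0) hc, fun j => ?_, ?_, ?_⟩
    · rw [sub_mul, one_mul, coeff_sub, mul_assoc, coeff_C_mul]
      refine sub_mem (hP j) (A.mul_mem _ _ hρA ?_)
      rcases j with _ | j
      · simp [A.zero_mem]
      · rw [coeff_X_mul]; exact hP j
    · rw [sub_mul, one_mul, coeff_sub, mul_assoc, coeff_C_mul, hP0]
      simp
    · rw [Multiset.map_cons, Multiset.prod_cons, hprod]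
      have hlin : (X - C ρ : L[X]) = C (-ρ) * (1 - C ρ⁻¹ * X) := by
        rw [mul_sub, mul_one, ← mul_assoc, ← C_mul, neg_mul, mul_inv_cancel₀ hρ0, C_neg, C_neg,
          C_1]
        ring
      rw [hlin, C_mul]
      ring

/-- **Row P1.**  Gauss norm one + no root in the open unit disc ⟹ unit constant coefficient. -/
theorem cpnr_unit_coeff [IsAlgClosed L] (A : ValuationSubring L) (e : Polynomial L)
    (hint : ∀ j, e.coeff j ∈ A) (hprim : ∃ j, A.valuation (e.coeff j) = 1)
    (hroot : ∀ ρ : L, A.valuation ρ < 1 → e.eval ρ ≠ 0) : A.valuation (e.coeff 0) = 1 := by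
  classical
  have he0 : e ≠ 0 := by
    rintro rfl
    obtain ⟨j, hj⟩ := hprim
    simp at hj
  have hsplit := (IsAlgClosed.splits e).eq_prod_roots
  have hS : ∀ ρ ∈ e.roots, ρ ≠ 0 ∧ ρ⁻¹ ∈ A := by
    intro ρ hρ
    have hev : e.eval ρ = 0 := (mem_roots he0).mp hρ
    have hv : ¬ A.valuation ρ < 1 := fun h => hroot ρ h hev
    rw [not_lt] at hv
    have hρ0 : ρ ≠ 0 := by
      rintro rfl
      rw [Valuation.map_zero] at hv
      exact absurd hv (not_le.mpr zero_lt_one)
    refine ⟨hρ0, ?_⟩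
    rw [← A.valuation_le_one_iff, map_inv₀]
    exact inv_le_one_of_one_le₀ hv
  obtain ⟨c, P, hc, hP, hP0, hprod⟩ := cpnr_prod_factor A e.roots hS
  have hlc : e.leadingCoeff ≠ 0 := leadingCoeff_ne_zero.mpr he0
  have he : e = C (e.leadingCoeff * c) * P := by
    conv_lhs => rw [hsplit, hprod]
    rw [C_mul]; ring
  have hcoef : ∀ j, e.coeff j = e.leadingCoeff * c * P.coeff j := by
    intro j
    conv_lhs => rw [he]
    rw [coeff_C_mul]
  have h0 : e.coeff 0 = e.leadingCoeff * c := by rw [hcoef 0, hP0, mul_one]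
  have hle : A.valuation (e.leadingCoeff * c) ≤ 1 := by
    rw [← h0]; exact (A.valuation_le_one_iff _).mpr (hint 0)
  obtain ⟨j, hj⟩ := hprim
  rw [hcoef j, Valuation.map_mul] at hj
  have hPj : A.valuation (P.coeff j) ≤ 1 := (A.valuation_le_one_iff _).mpr (hP j)
  rw [h0]
  refine le_antisymm hle ?_
  calc (1 : A.ValueGroup) = A.valuation (e.leadingCoeff * c) * A.valuation (P.coeff j) := hj.symm
    _ ≤ A.valuation (e.leadingCoeff * c) * 1 := by gcongr
    _ = A.valuation (e.leadingCoeff * c) := mul_one _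

end

end Fermat.Agent.S18x
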