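/-
S18x/CpnTraceRed (helper58): the GENERIC rational-base instance of `nd_RedPair` (helper8, NdNorm).

`A` a valuation ring of `L` with `π : A →+* k` killing the maximal ideal; `W` a valuation ring of
`F ⊇ L` with residue map `ρ : W →+* Fb` (kernel = non-units, onto), equal to `π` on constants;
`x ∈ W` with `xb = ρ x` transcendental over `k`.

* `cpne_ratfunc`  : GAUSS LEMMA FOR RATIONAL FUNCTIONS.  Every `v ∈ W ∩ L(x)` satisfies
                    `v * s(x) = r(x)` with `r, s ∈ A[X]`, `s̄ ≠ 0`, and `ρ v * s̄(xb) = r̄(xb)`.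
* `cpne_V`        : the valuation ring `W ∩ L(x)` of `L⟮x⟯`.
* `cpne_redPair`  : if `F / L(x)` is finite and `[Fb : k(xb)] = [F : L(x)]` then
                    `nd_RedPair (W ∩ L(x)) W ρ₀ ρ` where `ρ₀ : W ∩ L(x) →+* k⟮xb⟯` is `ρ` restricted.
  Hence (helper29, LydRed/LydBase) trace, norm, discriminant and minimal polynomials of `F / L(x)`
  commute with reduction.
-/
import Mathlib
import Fermat.Agent.S18x.NdNorm
import Fermat.Agent.S18x.CpnTraceGauss

set_option autoImplicit false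

namespace Fermat.Agent.S18x

open Polynomial Module IntermediateField

section Red

variable {L k F Fb : Type*} [Field L] [Field k] [Field F] [Field Fb] [Algebra L F] [Algebra k Fb]
variable (A : ValuationSubring L) (π : A →+* k) (W : ValuationSubring F) (ρ : W →+* Fb)

/-- **Gauss lemma for rational functions.** -/
theorem cpne_ratfunc (hπ : ∀ c : A, A.valuation (c : L) < 1 → π c = 0)
    (hmem : ∀ c : L, c ∈ A → algebraMap L F c ∈ W)
    (hρalg : ∀ (c : L) (hc : c ∈ A) (hW : algebraMap L F c ∈ W),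
      ρ ⟨algebraMap L F c, hW⟩ = algebraMap k Fb (π ⟨c, hc⟩))
    (x : F) (hx : x ∈ W) (htr : Transcendental k (ρ ⟨x, hx⟩))
    (v : F) (hvx : v ∈ L⟮x⟯) (hvW : v ∈ W) :
    ∃ r s : A[X], s.map π ≠ 0 ∧
      v * aeval x (s.map A.subtype) = aeval x (r.map A.subtype) ∧
      ρ ⟨v, hvW⟩ * aeval (ρ ⟨x, hx⟩) (s.map π) = aeval (ρ ⟨x, hx⟩) (r.map π) := by
  obtain ⟨r0, s0, hv⟩ := (IntermediateField.mem_adjoin_simple_iff L v).mp hvx
  -- the key step, once `v * s(x) = r(x)` with `s` normalised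
  have key : ∀ (r1 : L[X]) (s : A[X]), s.map π ≠ 0 →
      v * aeval x (s.map A.subtype) = aeval x r1 →
      ∃ r s : A[X], s.map π ≠ 0 ∧
        v * aeval x (s.map A.subtype) = aeval x (r.map A.subtype) ∧
        ρ ⟨v, hvW⟩ * aeval (ρ ⟨x, hx⟩) (s.map π) = aeval (ρ ⟨x, hx⟩) (r.map π) := by
    intro r1 s hs h
    have hr1W : aeval x r1 ∈ W := by
      rw [← h]
      exact W.mul_mem _ _ hvW (cpne_aeval_mem A W hmem x hx s)
    obtain ⟨r, hr⟩ := cpne_exists_map A r1 (cpne_gauss A π W ρ hπ hmem hρalg x hx htr r1 hr1W)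
    refine ⟨r, s, hs, by rw [hr]; exact h, ?_⟩
    rw [← cpne_rho_aeval A π W ρ hmem hρalg x hx s, ← cpne_rho_aeval A π W ρ hmem hρalg x hx r,
      ← map_mul]
    congr 1
    apply Subtype.ext
    show v * aeval x (s.map A.subtype) = aeval x (r.map A.subtype)
    rw [hr]
    exact h
  by_cases hs0 : aeval x s0 = 0
  · -- `v = 0`
    have hv0 : v = 0 := by rw [hv, hs0, div_zero]
    refine key 0 1 ?_ ?_
    · rw [Polynomial.map_one]; exact one_ne_zero
    · rw [hv0, zero_mul, map_zero]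
  · have hs0' : s0 ≠ 0 := by
      rintro rfl
      exact hs0 (map_zero _)
    obtain ⟨c, s, j, hc, hs, hsj⟩ := cpne_exists_scale A s0 hs0'
    refine key (C c * r0) s ?_ ?_
    · intro h0
      have := congrArg (fun q => q.coeff j) h0
      simp only [coeff_map, hsj, map_one, coeff_zero] at this
      exact one_ne_zero this
    · rw [hs, map_mul, map_mul, aeval_C, hv]
      field_simp

/-- The valuation ring `W ∩ L(x)` of `L⟮x⟯`. -/
def cpne_V (x : F) : ValuationSubring L⟮x⟯ := W.comap (algebraMap L⟮x⟯ F)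

theorem cpne_mem_V (x : F) (v : L⟮x⟯) : v ∈ cpne_V (L := L) W x ↔ (v : F) ∈ W := Iff.rfl

/-- The inclusion `W ∩ L(x) → W`. -/
def cpne_inclV (x : F) : cpne_V (L := L) W x →+* W :=
  ((algebraMap L⟮x⟯ F).comp (cpne_V (L := L) W x).subtype).codRestrict W (fun v => v.2)

theorem cpne_inclV_coe (x : F) (v : cpne_V (L := L) W x) :
    ((cpne_inclV (L := L) W x v : W) : F) = ((v : L⟮x⟯) : F) := rfl

/-- **The rational-base `nd_RedPair`.** -/
theorem cpne_redPair (hπ : ∀ c : A, A.valuation (c : L) < 1 → π c = 0)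
    (hmem : ∀ c : L, c ∈ A → algebraMap L F c ∈ W)
    (hρalg : ∀ (c : L) (hc : c ∈ A) (hW : algebraMap L F c ∈ W),
      ρ ⟨algebraMap L F c, hW⟩ = algebraMap k Fb (π ⟨c, hc⟩))
    (hker : ∀ u : W, ρ u = 0 ↔ ¬ IsUnit u) (hsurj : Function.Surjective ρ)
    (x : F) (hx : x ∈ W) (xb : Fb) (hxb : ρ ⟨x, hx⟩ = xb) (htr : Transcendental k xb)
    (hfin : FiniteDimensional L⟮x⟯ F) (hdeg : finrank k⟮xb⟯ Fb = finrank L⟮x⟯ F) :
    ∃ ρ₀ : cpne_V (L := L) W x →+* k⟮xb⟯,
      (∀ v : cpne_V (L := L) W x, ((ρ₀ v : k⟮xb⟯) : Fb) = ρ (cpne_inclV (L := L) W x v)) ∧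
      nd_RedPair (cpne_V (L := L) W x) W ρ₀ ρ := by
  subst hxb
  have hrange : ∀ v : cpne_V (L := L) W x,
      (ρ.comp (cpne_inclV (L := L) W x)) v ∈ k⟮ρ ⟨x, hx⟩⟯ := by
    intro v
    obtain ⟨r, s, hs, -, h2⟩ := cpne_ratfunc A π W ρ hπ hmem hρalg x hx htr
      ((v : L⟮x⟯) : F) (v : L⟮x⟯).2 v.2
    have hs' : aeval (ρ ⟨x, hx⟩) (s.map π) ≠ 0 := fun h0 => htr ⟨s.map π, hs, h0⟩
    rw [IntermediateField.mem_adjoin_simple_iff k]
    refine ⟨r.map π, s.map π, ?_⟩
    rw [eq_div_iff hs', ← h2]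
    rfl
  refine ⟨(ρ.comp (cpne_inclV (L := L) W x)).codRestrict k⟮ρ ⟨x, hx⟩⟯ hrange, fun v => rfl, ?_⟩
  exact
    { mem_iff := fun v => Iff.rfl
      compat := fun v hv hv' => rfl
      ker' := hker
      surj' := hsurj
      finite := hfin
      finrank_eq := hdeg }

end Red

end Fermat.Agent.S18x
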