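/-
S18x/CpnTraceRedGen (helper58): the rational-base `nd_RedPair` of `CpnTraceRed` for an ABSTRACT
lower field.

`F0 = L(x0)` any field generated over `L` by one element `x0` (every element is `r(x0)/s(x0)`),
with an algebra map `F0 → F`; `Fb0` any field with `k → Fb0 → Fb` and an element `xb0` transcendental
over `k`, such that `ρ (x0) = xb0` inside `Fb`.  Then `ρ` maps `W ∩ F0` into (the image of) `Fb0`
and `nd_RedPair (W ∩ F0) W ρ₀ ρ` holds as soon as `[Fb : Fb0] = [F : F0]`.

Intended instance (block NRM, row N4): `F0 = purb_KY h`, `F = purb_LY e h N`,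
`Fb0 = purb_KYb ℓ hb`, `Fb = purb_LYb ℓ e hb N`.
-/
import Mathlib
import Fermat.Agent.S18x.CpnTraceRed

set_option autoImplicit false

namespace Fermat.Agent.S18x

open Polynomial Module IntermediateField

section RedGen

variable {L k F Fb F0 Fb0 : Type*} [Field L] [Field k] [Field F] [Field Fb] [Algebra L F]
  [Algebra k Fb] [Field F0] [Field Fb0] [Algebra L F0] [Algebra F0 F] [IsScalarTower L F0 F]
  [Algebra k Fb0] [Algebra Fb0 Fb] [IsScalarTower k Fb0 Fb]
variable (A : ValuationSubring L) (π : A →+* k) (W : ValuationSubring F) (ρ : W →+* Fb)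

/-- `ρ` maps `W ∩ F0` into the image of `Fb0`. -/
theorem cpne_rho_mem_range (hπ : ∀ c : A, A.valuation (c : L) < 1 → π c = 0)
    (hmem : ∀ c : L, c ∈ A → algebraMap L F c ∈ W)
    (hρalg : ∀ (c : L) (hc : c ∈ A) (hW : algebraMap L F c ∈ W),
      ρ ⟨algebraMap L F c, hW⟩ = algebraMap k Fb (π ⟨c, hc⟩))
    (x0 : F0) (hgen : ∀ v : F0, ∃ r s : L[X], v = aeval x0 r / aeval x0 s)
    (hx : algebraMap F0 F x0 ∈ W) (xb0 : Fb0)
    (hxb : ρ ⟨algebraMap F0 F x0, hx⟩ = algebraMap Fb0 Fb xb0) (htr : Transcendental k xb0)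
    (v : F0) (hv : algebraMap F0 F v ∈ W) :
    ∃ y : Fb0, algebraMap Fb0 Fb y = ρ ⟨algebraMap F0 F v, hv⟩ := by
  have hinj : Function.Injective (algebraMap Fb0 Fb) := (algebraMap Fb0 Fb).injective
  have htr' : Transcendental k (ρ ⟨algebraMap F0 F x0, hx⟩) := by
    rw [hxb]
    exact (transcendental_algebraMap_iff hinj).mpr htr
  have hvx : algebraMap F0 F v ∈ L⟮algebraMap F0 F x0⟯ := by
    obtain ⟨r, s, hrs⟩ := hgen v
    rw [IntermediateField.mem_adjoin_simple_iff L]
    refine ⟨r, s, ?_⟩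
    rw [hrs, map_div₀, Polynomial.aeval_algebraMap_apply, Polynomial.aeval_algebraMap_apply]
  obtain ⟨r, s, hs, -, h2⟩ := cpne_ratfunc A π W ρ hπ hmem hρalg (algebraMap F0 F x0) hx htr'
    (algebraMap F0 F v) hvx hv
  have hs' : aeval xb0 (s.map π) ≠ 0 := fun h0 => htr ⟨s.map π, hs, h0⟩
  refine ⟨aeval xb0 (r.map π) / aeval xb0 (s.map π), ?_⟩
  rw [hxb, Polynomial.aeval_algebraMap_apply, Polynomial.aeval_algebraMap_apply] at h2
  rw [map_div₀, ← h2, mul_div_assoc, div_self ((_root_.map_ne_zero _).mpr hs'), mul_one]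

/-- **The rational-base `nd_RedPair`, abstract lower fields.** -/
theorem cpne_redPair_gen (hπ : ∀ c : A, A.valuation (c : L) < 1 → π c = 0)
    (hmem : ∀ c : L, c ∈ A → algebraMap L F c ∈ W)
    (hρalg : ∀ (c : L) (hc : c ∈ A) (hW : algebraMap L F c ∈ W),
      ρ ⟨algebraMap L F c, hW⟩ = algebraMap k Fb (π ⟨c, hc⟩))
    (hker : ∀ u : W, ρ u = 0 ↔ ¬ IsUnit u) (hsurj : Function.Surjective ρ)
    (x0 : F0) (hgen : ∀ v : F0, ∃ r s : L[X], v = aeval x0 r / aeval x0 s)
    (hx : algebraMap F0 F x0 ∈ W) (xb0 : Fb0)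
    (hxb : ρ ⟨algebraMap F0 F x0, hx⟩ = algebraMap Fb0 Fb xb0) (htr : Transcendental k xb0)
    (hfin : FiniteDimensional F0 F) (hdeg : finrank Fb0 Fb = finrank F0 F) :
    ∃ ρ₀ : W.comap (algebraMap F0 F) →+* Fb0,
      (∀ v : W.comap (algebraMap F0 F),
        algebraMap Fb0 Fb (ρ₀ v) = ρ ⟨algebraMap F0 F (v : F0), v.2⟩) ∧
      nd_RedPair (W.comap (algebraMap F0 F)) W ρ₀ ρ := by
  have hinj : Function.Injective (algebraMap Fb0 Fb) := (algebraMap Fb0 Fb).injective
  choose f hf using fun v : W.comap (algebraMap F0 F) =>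
    cpne_rho_mem_range A π W ρ hπ hmem hρalg x0 hgen hx xb0 hxb htr (v : F0) v.2
  let ρ₀ : W.comap (algebraMap F0 F) →+* Fb0 :=
    { toFun := f
      map_one' := by
        apply hinj
        rw [hf, map_one, ← map_one ρ]
        congr 1
        exact Subtype.ext (map_one _)
      map_mul' := fun a b => by
        apply hinj
        rw [hf, map_mul, hf, hf, ← map_mul ρ]
        congr 1
        exact Subtype.ext (map_mul _ _ _)
      map_zero' := by
        apply hinj
        rw [hf, map_zero, ← map_zero ρ]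
        congr 1
        exact Subtype.ext (map_zero _)
      map_add' := fun a b => by
        apply hinj
        rw [hf, map_add, hf, hf, ← map_add ρ]
        congr 1
        exact Subtype.ext (map_add _ _ _) }
  refine ⟨ρ₀, hf, ?_⟩
  exact
    { mem_iff := fun v => Iff.rfl
      compat := fun v hv hv' => (hf ⟨v, hv⟩).symm
      ker' := hker
      surj' := hsurj
      finite := hfin
      finrank_eq := hdeg }

end RedGen

end Fermat.Agent.S18x
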