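/-
S18 / block NRM / row N7 (helper35), part 5: approximation of power series in `q` by polynomials
in `x = q * unit`, with coefficients in a prescribed ideal.  Mathlib only.
-/
import Mathlib

set_option autoImplicit false

namespace Fermat.Agent.S18x

open PowerSeries

section Approx

variable {A : Type*} [CommRing A]

/-- the tail `(f - f(0)) / X` -/
noncomputable def cspn_tail (f : A⟦X⟧) : A⟦X⟧ := PowerSeries.mk fun m => coeff (m + 1) f

theorem cspn_tail_spec (f : A⟦X⟧) : f = C (coeff 0 f) + X * cspn_tail f := by
  ext m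
  rw [map_add, coeff_C]
  rcases m with _ | m
  · simp [cspn_tail]
  · rw [if_neg (Nat.succ_ne_zero m), zero_add, coeff_succ_X_mul, cspn_tail, coeff_mk]

/-- Power series with coefficients in an ideal are stable under multiplication by any series. -/
theorem cspn_coeff_mul_mem (I : Ideal A) (g f : A⟦X⟧) (hf : ∀ m, coeff m f ∈ I) (m : ℕ) :
    coeff m (g * f) ∈ I := by
  rw [coeff_mul]
  exact Ideal.sum_mem I fun p _ => I.mul_mem_left _ (hf _)

theorem cspn_approx_ideal (I : Ideal A) (x ε δ : A⟦X⟧) (hx : x = X * ε) (hεδ : δ * ε = 1) :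
    ∀ (M : ℕ) (f : A⟦X⟧), (∀ m, coeff m f ∈ I) →
      ∃ r : Polynomial A, (∀ m, r.coeff m ∈ I) ∧ (X : A⟦X⟧) ^ M ∣ f - Polynomial.aeval x r := by
  intro M
  induction M with
  | zero =>
    intro f _
    exact ⟨0, fun m => by simp, by simp⟩
  | succ M ih =>
    intro f hf
    have hsp := cspn_tail_spec f
    set f1 : A⟦X⟧ := δ * cspn_tail f with hf1
    have hf1I : ∀ m, coeff m f1 ∈ I := cspn_coeff_mul_mem I δ _ (fun m => by
      rw [cspn_tail, coeff_mk]; exact hf _)
    obtain ⟨r1, hr1I, hr1⟩ := ih f1 hf1I
    refine ⟨Polynomial.C (coeff 0 f) + Polynomial.X * r1, ?_, ?_⟩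
    · intro m
      rw [Polynomial.coeff_add, Polynomial.coeff_C]
      refine I.add_mem ?_ ?_
      · split_ifs
        · exact hf 0
        · exact I.zero_mem
      · rcases m with _ | m
        · simp
        · rw [Polynomial.coeff_X_mul]; exact hr1I m
    · have hxf1 : x * f1 = X * cspn_tail f := by
        rw [hx, hf1]
        calc X * ε * (δ * cspn_tail f) = X * ((δ * ε) * cspn_tail f) := by ring
          _ = X * cspn_tail f := by rw [hεδ, one_mul]
      have hrew : f - Polynomial.aeval x (Polynomial.C (coeff 0 f) + Polynomial.X * r1) =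
          x * (f1 - Polynomial.aeval x r1) := by
        have h2 : Polynomial.aeval x (Polynomial.C (coeff 0 f) + Polynomial.X * r1) =
            C (coeff 0 f) + x * Polynomial.aeval x r1 := by
          rw [map_add, map_mul, Polynomial.aeval_C, Polynomial.aeval_X]
          rfl
        have hsp' : f - C (coeff 0 f) = X * cspn_tail f := sub_eq_iff_eq_add'.mpr hsp
        rw [h2, mul_sub, hxf1, ← hsp']
        ring
      obtain ⟨w, hw⟩ := hr1
      refine ⟨ε * w, ?_⟩
      rw [hrew, hw, pow_succ]
      conv_lhs => rw [hx]
      ring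

/-- reduction of `aeval x r` -/
theorem cspn_map_aeval {k : Type*} [CommRing k] (π : A →+* k) (x : A⟦X⟧) (r : Polynomial A) :
    PowerSeries.map π (Polynomial.aeval x r) =
      Polynomial.aeval (PowerSeries.map π x) (r.map π) := by
  induction r using Polynomial.induction_on' with
  | add p q hp hq => rw [map_add, map_add, hp, hq, Polynomial.map_add, map_add]
  | monomial n a =>
    rw [Polynomial.map_monomial, Polynomial.aeval_monomial, Polynomial.aeval_monomial, map_mul,
      map_pow]
    congr 1
    ext m
    simp [PowerSeries.coeff_C]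

end Approx

end Fermat.Agent.S18x
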