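/-
S18 / block NRM / row N7 (helper35), part 7: the conductor argument over a FIELD, standalone
(used for the char-0 regularity of the lifts), and transfer of `q`-divisibility of `p(x)` to
`X`-divisibility of `p`.  Mathlib only.
-/
import Fermat.Agent.S18x.CspnMain

set_option autoImplicit false

namespace Fermat.Agent.S18x

open PowerSeries Finset

section Conductor

variable {K : Type*} [Field K]
variable {ι : Type*} [Fintype ι] [DecidableEq ι]

/-- **Conductor.**  Over a field: there is `c'` such that for every polynomial `Gb` over `K[[q]]`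
of degree `< n` whose values at all conjugates are divisible by `t^(N e)`, the polynomial
`q^c' * Gb` is divisible by `q^e`. -/
theorem cspn_conductor (N : ℕ) (hN : N ≠ 0) (y : ι → K⟦X⟧)
    (hy : ∀ i i', i ≠ i' → cspn_IsMonUnit (y i - y i')) :
    ∃ c' : ℕ, ∀ (Gb : Polynomial K⟦X⟧), Gb.degree < Fintype.card ι → ∀ e : ℕ,
      (∀ i, (X : K⟦X⟧) ^ (N * e) ∣ (Gb.map (cspn_exp K N hN)).eval (y i)) →
      Polynomial.C ((X : K⟦X⟧) ^ e) ∣ Polynomial.C ((X : K⟦X⟧) ^ c') * Gb := by
  classical
  set φk : K⟦X⟧ →+* K⟦X⟧ := cspn_exp K N hN with hφk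
  set d : ι → K⟦X⟧ := fun i => ∏ i' ∈ univ.erase i, (y i - y i') with hd
  have hdMU : ∀ i, cspn_IsMonUnit (d i) := fun i =>
    cspn_isMonUnit_prod _ _ fun i' hi' => hy i i' (by
      simp only [mem_erase, mem_univ, and_true] at hi'
      exact fun h => hi' h.symm)
  choose mi hmi using fun i => (hdMU i).exists_mul_eq
  set c' : ℕ := ∑ i, mi i with hc'
  have hmile : ∀ i, mi i ≤ N * c' := fun i =>
    le_trans (Finset.single_le_sum (f := mi) (fun _ _ => Nat.zero_le _) (mem_univ i))
      (Nat.le_mul_of_pos_left _ (Nat.pos_of_ne_zero hN))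
  choose ei hei using fun i => hmi i (N * c') (hmile i)
  have hyinj : Function.Injective y := by
    intro i i' h
    by_contra hne
    exact (hy i i' hne).ne_zero (sub_eq_zero.mpr h)
  refine ⟨c', fun Gb hdeg e hGb => ?_⟩
  rcases Nat.eq_zero_or_pos (Fintype.card ι) with h0 | hpos
  · have hGb0 : Gb = 0 := by
      rw [h0, Nat.cast_zero] at hdeg
      exact Polynomial.degree_eq_bot.mp (Nat.WithBot.lt_zero_iff.mp hdeg)
    rw [hGb0, mul_zero]
    exact dvd_zero _
  choose bq hbq using hGb
  have hLag : Polynomial.C ((X : K⟦X⟧) ^ (N * c')) * Gb.map φk =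
      Polynomial.C ((X : K⟦X⟧) ^ (N * e)) * cspn_lagr y (fun i => bq i * ei i) := by
    rw [← cspn_lagr_smul]
    refine Polynomial.eq_of_degrees_lt_of_eval_index_eq (v := y) univ (hyinj.injOn) ?_ ?_ ?_
    · rw [card_univ]
      refine lt_of_le_of_lt ?_ hdeg
      refine le_trans (Polynomial.degree_mul_le _ _) ?_
      refine le_trans (add_le_add (Polynomial.degree_C_le) (Polynomial.degree_map_le)) ?_
      rw [zero_add]
    · rw [card_univ]
      exact cspn_lagr_degree_lt _ _ hpos
    · intro i _
      rw [cspn_lagr_eval, Polynomial.eval_mul, Polynomial.eval_C, hbq i]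
      have := hei i
      calc (X : K⟦X⟧) ^ (N * c') * (X ^ (N * e) * bq i)
          = X ^ (N * e) * bq i * X ^ (N * c') := by ring
        _ = X ^ (N * e) * bq i * (ei i * d i) := by rw [this]
        _ = X ^ (N * e) * (bq i * ei i) * ∏ i' ∈ univ.erase i, (y i - y i') := by
            simp only [hd]; ring
  rw [Polynomial.C_dvd_iff_dvd_coeff]
  intro m
  rw [Polynomial.coeff_C_mul]
  apply cspn_X_pow_dvd_of_expand N hN
  have h1 := congrArg (fun p => p.coeff m) hLag
  simp only [Polynomial.coeff_C_mul, Polynomial.coeff_map] at h1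
  rw [map_mul, cspn_expand_X_pow]
  exact ⟨_, h1⟩

end Conductor

section XDvd

variable {K : Type*} [Field K]

/-- the constant coefficient of `p(x)`, `x = q * ε` -/
theorem cspn_constantCoeff_aeval (x ε : K⟦X⟧) (hx : x = X * ε) (p : Polynomial K) :
    constantCoeff (Polynomial.aeval x p) = p.coeff 0 := by
  have hx0 : constantCoeff x = 0 := by rw [hx, map_mul, constantCoeff_X, zero_mul]
  induction p using Polynomial.induction_on' with
  | add p q hp hq => rw [map_add, map_add, hp, hq, Polynomial.coeff_add]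
  | monomial n a =>
    rw [Polynomial.aeval_monomial, map_mul, map_pow, hx0, Polynomial.coeff_monomial]
    rcases n with _ | n
    · simp
    · simp

/-- If `q^e ∣ q^c * p(x)` in `K[[q]]` (`x = q * unit`) then `X^e ∣ X^c * p` in `K[X]`. -/
theorem cspn_X_pow_dvd_of_aeval (x ε δ : K⟦X⟧) (hx : x = X * ε) (hεδ : δ * ε = 1)
    (p : Polynomial K) (c e : ℕ)
    (h : (X : K⟦X⟧) ^ e ∣ X ^ c * Polynomial.aeval x p) :
    (Polynomial.X : Polynomial K) ^ e ∣ Polynomial.X ^ c * p := by
  have hε0 : constantCoeff ε ≠ 0 := by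
    intro h0
    have := congrArg constantCoeff hεδ
    rw [map_mul, h0, mul_zero, map_one] at this
    exact zero_ne_one this
  -- all coefficients of `p` below `e - c` vanish
  have key : ∀ a : ℕ, a ≤ e - c → ∀ a' < a, p.coeff a' = 0 := by
    intro a
    induction a with
    | zero => intro _ a' ha'; omega
    | succ a ih =>
      intro ha a' ha'
      have ih' := ih (by omega)
      rcases Nat.lt_succ_iff_lt_or_eq.mp ha' with h1 | rfl
      · exact ih' a' h1
      · obtain ⟨p1, hp1⟩ := (Polynomial.X_pow_dvd_iff (n := a')).mpr ih'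
        have hcoef : p.coeff a' = p1.coeff 0 := by
          rw [hp1]
          have := Polynomial.coeff_X_pow_mul p1 a' 0
          rwa [zero_add] at this
        rw [hcoef]
        -- `q^e ∣ q^(c + a') * (ε^a' * p1(x))`
        have h2 : Polynomial.aeval x p = X ^ a' * (ε ^ a' * Polynomial.aeval x p1) := by
          rw [hp1, map_mul, map_pow, Polynomial.aeval_X, hx, mul_pow]
          ring
        rw [h2] at h
        have h3 : (X : K⟦X⟧) ^ (c + a' + 1) ∣ X ^ (c + a') * (ε ^ a' * Polynomial.aeval x p1) := by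
          refine dvd_trans (pow_dvd_pow X (show c + a' + 1 ≤ e by omega)) ?_
          convert h using 1
          rw [pow_add]
          ring
        rw [pow_succ] at h3
        have h4 : (X : K⟦X⟧) ∣ ε ^ a' * Polynomial.aeval x p1 :=
          (mul_dvd_mul_iff_left (pow_ne_zero _ X_ne_zero)).mp h3
        rw [X_dvd_iff, map_mul, map_pow, cspn_constantCoeff_aeval x ε hx] at h4
        rcases mul_eq_zero.mp h4 with h5 | h5
        · exact absurd h5 (pow_ne_zero _ hε0)
        · exact h5
  rw [Polynomial.X_pow_dvd_iff]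
  intro m hm
  rw [Polynomial.coeff_X_pow_mul']
  split_ifs with hcm
  · exact key (e - c) le_rfl (m - c) (by omega)
  · rfl

end XDvd

end Fermat.Agent.S18x
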