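/-
S18 / block NRM / row N7 (helper35), part 15: OUT-C at level `N` for an ARBITRARY Gauss pair
`(W, ρ)` on `F_N(ℚ̄) → F̄_N(k)` satisfying the coefficient clause (elements with `A`-integral
`q`-expansion lie in `W` and `ρ` reduces coefficientwise), and its instance at helper40's
`h`-FREE canonical pair `(nrmt_W N A, nrmt_rho N A ℓ hℓN hA)`:
`cspn_hCo_gen`, `cspn_hCo_free` (the `hCo` input of helper85's `nrtf_hIntInf`).
-/
import Fermat.Agent.S18x.CspnLevelN
import Fermat.Agent.S18x.NrmTopDefs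

set_option autoImplicit false
set_option synthInstance.maxHeartbeats 400000

namespace Fermat.Agent.S18x

open PowerSeries Finset ModularCurve AlgebraicCurve Fermat.Agent.S24x

noncomputable section

variable (N : ℕ) [NeZero N] (A : ValuationSubring (AlgebraicClosure ℚ))

set_option maxHeartbeats 1000000 in
/-- **OUT-C at level `N`** for any pair `(W, ρ)` with the coefficient clause. -/
theorem cspn_hCo_gen {ℓ : ℕ} [Fact ℓ.Prime] (hℓN : ¬ ℓ ∣ N) (hA : A.LiesOverPrime ℓ)
    (W : ValuationSubring (modularFunctionFieldBar N))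
    (ρ : W →+* modularFunctionFieldFullC (IsLocalRing.ResidueField A) N)
    (hcoef : ∀ (z : LaurentSeries A) (hz : coeffMap A.subtype z ∈ modularFunctionFieldBar N),
      ∃ hW : (⟨coeffMap A.subtype z, hz⟩ : modularFunctionFieldBar N) ∈ W,
        ((ρ ⟨⟨coeffMap A.subtype z, hz⟩, hW⟩ :
          modularFunctionFieldFullC (IsLocalRing.ResidueField A) N) :
            LaurentSeries (IsLocalRing.ResidueField A)) = coeffMap (IsLocalRing.residue A) z)
    (J : W) (hJ : (J : modularFunctionFieldBar N) = jBar N)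
    (hρJ : ρ J = pls_jb (IsLocalRing.ResidueField A) N) :
    ∀ yb : modularFunctionFieldFullC (IsLocalRing.ResidueField A) N,
      IsIntegral (Algebra.adjoin (IsLocalRing.ResidueField A)
        {(pls_jb (IsLocalRing.ResidueField A) N)⁻¹}) yb →
      ∃ (u : W) (s : Polynomial (IsLocalRing.ResidueField A)), s.eval 0 ≠ 0 ∧
        ρ u = Polynomial.aeval (pls_jb (IsLocalRing.ResidueField A) N)⁻¹ s * yb ∧
        IsIntegral (Algebra.adjoin (AlgebraicClosure ℚ) {(jBar N)⁻¹})
          (u : modularFunctionFieldBar N) := by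
  classical
  have hN0 : N ≠ 0 := NeZero.ne N
  have hch : CharP (IsLocalRing.ResidueField A) ℓ := glu_charP A (Fact.out : ℓ.Prime) hA
  have hNu : IsUnit ((N : ℕ) : A) := cspi_isUnit_natCast A (Fact.out : ℓ.Prime) hA hℓN
  obtain ⟨zN, hzN⟩ := cspi_exists_zN A N
  have hzL : IsPrimitiveRoot ((((zN : (↥A)ˣ) : ↥A) : AlgebraicClosure ℚ)) N :=
    hzN.map_of_injective (f := A.subtype) Subtype.val_injective
  obtain ⟨n, ζ, m, hne, f, G, hζ, hm, hinj, ⟨i0, hi0ζ, hi0m⟩, hrot, hfm, -, -, hnle, hf, -⟩ :=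
    cph_H2_val A N ((zN : (↥A)ˣ) : ↥A) hzL
  have hn : n ≤ dedekindPsi N := cspd_le_psi N hnle
  have : NeZero (N * N) := ⟨mul_ne_zero hN0 hN0⟩
  have hi0 : cci_yc A N (ζ i0) (m i0) = cspn_exp A N hN0 (cspi_ys A N) :=
    (cspi_yc_congr A N hi0ζ hi0m).trans (cspi_yc_one A N)
  have hf' : f.map ((cspn_exp A N hN0).comp (cspn_aev (cci_x A))) =
      ∏ i, (Polynomial.X - Polynomial.C (cci_yc A N (ζ i) (m i))) := by
    rw [cspi_exp_comp_aev]; exact hf
  have hfb := cspn_map_prod_formula (IsLocalRing.residue A) N hN0 (cci_x A)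
    (fun i => cci_yc A N (ζ i) (m i)) f hf'
  have hi0b : PowerSeries.map (IsLocalRing.residue A) (cci_yc A N (ζ i0) (m i0)) =
      cspn_exp (IsLocalRing.ResidueField A) N hN0
        (PowerSeries.map (IsLocalRing.residue A) (cspi_ys A N)) := by
    rw [hi0, cspn_map_exp_apply]
  have hf0 := cspn_front_evq_f N hN0 (PowerSeries.map (IsLocalRing.residue A) (cci_x A))
    (PowerSeries.map (IsLocalRing.residue A) (cspi_ys A N))
    (fun i => PowerSeries.map (IsLocalRing.residue A) (cci_yc A N (ζ i) (m i))) i0 hi0b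
    (f.map (Polynomial.mapRingHom (IsLocalRing.residue A))) hfb
  rw [cci_map_x, cspi_map_ys] at hf0
  obtain ⟨τ, hτ⟩ := cspi_tau zN hzN ζ m (fun i => (hm i).2) hinj
    (fun i => hrot zN (cspi_zN_pow zN hzN) i)
  have hy := cspi_monunit zN hzN hNu ζ m hζ (fun i => (hm i).2) hinj
  have hxF : ((((J : modularFunctionFieldBar N))⁻¹ : modularFunctionFieldBar N) :
      LaurentSeries (AlgebraicClosure ℚ)) =
      HahnSeries.ofPowerSeries ℤ (AlgebraicClosure ℚ) (PowerSeries.map A.subtype (cci_x A)) := by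
    rw [hJ]; exact cspn_coe_inv_jBar N A
  have hsep : pls_IsSepCoordinate (AlgebraicClosure ℚ) (modularFunctionFieldBar N)
      ((J : modularFunctionFieldBar N))⁻¹ := by
    rw [hJ]; exact pls_isSepCoordinate_inv (pls_isSepCoordinate_jBar N)
  have key := cspn_outC A (IsLocalRing.residue A) IsLocalRing.residue_surjective
    (modularFunctionFieldBar N) (modularFunctionFieldFullC (IsLocalRing.ResidueField A) N)
    W ρ hcoef
    N hN0 ((zN : (↥A)ˣ) : ↥A) hzN.pow_eq_one
    (fun j hj h1 => hj ((hzN.pow_eq_one_iff_dvd j).mp h1))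
    τ (fun i => cci_yc A N (ζ i) (m i)) hτ hy
    (cci_x A) (cci_jnumInv A) (cci_jnum A) rfl (cci_jnum_mul_inv A)
    f hfm hf'
    (cspi_ys A N) i0 hi0
    (by rw [cci_map_x, cspi_map_ys, Fintype.card_fin]
        exact fun H hH h0 => cspl_hLI ℓ N hℓN (IsLocalRing.ResidueField A) n hn H hH h0)
    (by rw [cci_map_x, cspi_map_ys]
        exact fun yb => cspl_hnd ℓ N hℓN (IsLocalRing.ResidueField A)
          (f.map (Polynomial.mapRingHom (IsLocalRing.residue A))) (hfm.map _) hf0 yb)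
    J hxF
    (by rw [hρJ, cci_map_x]; exact cspn_coe_inv_jb N _)
    (cspn_yF N) (cspn_coe_yF N A) hsep
  intro yb hyb
  rw [← hρJ] at hyb
  obtain ⟨u, s, hs, hρu, hint⟩ := key yb hyb
  refine ⟨u, s, hs, ?_, ?_⟩
  · rw [hρu, hρJ]
  · rw [← hJ]; exact hint

set_option maxHeartbeats 1000000 in
/-- **OUT-C at level `N`** for helper40's `h`-free canonical pair. -/
theorem cspn_hCo_free {ℓ : ℕ} [Fact ℓ.Prime] (hℓN : ¬ ℓ ∣ N) (hA : A.LiesOverPrime ℓ) :
    ∀ yb : modularFunctionFieldFullC (IsLocalRing.ResidueField A) N,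
      IsIntegral (Algebra.adjoin (IsLocalRing.ResidueField A)
        {(pls_jb (IsLocalRing.ResidueField A) N)⁻¹}) yb →
      ∃ (u : nrmt_W N A) (s : Polynomial (IsLocalRing.ResidueField A)), s.eval 0 ≠ 0 ∧
        nrmt_rho N A ℓ hℓN hA u =
          Polynomial.aeval (pls_jb (IsLocalRing.ResidueField A) N)⁻¹ s * yb ∧
        IsIntegral (Algebra.adjoin (AlgebraicClosure ℚ) {(jBar N)⁻¹})
          (u : modularFunctionFieldBar N) :=
  cspn_hCo_gen N A hℓN hA (nrmt_W N A) (nrmt_rho N A ℓ hℓN hA)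
    (fun z hz => ⟨nrmt_mem_of_iota N A (x := ⟨coeffMap A.subtype z, hz⟩) rfl,
      nrmt_rho_of_iota N A ℓ hℓN hA (x := ⟨coeffMap A.subtype z, hz⟩) rfl _⟩)
    (nrmt_J N A) (nrmt_J_coe N A) (nrmt_rho_J N A ℓ hℓN hA)

end

end Fermat.Agent.S18x
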