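/-
S18 / block NRM / row N7 (helper35), part 16: OUT-C at level `N` in the LITERAL `hCo` shape of
helper40's `nrmt_result` / helper34's `nig_result_of_gauss_int0_onto` at the pair
`(gi_W (gi_inputs_S18 N A h), gi_rho (gi_inputs_S18 N A h), gi_J N A h)`.
-/
import Fermat.Agent.S18x.CspnLevelNGen
import Fermat.Agent.S18x.InstGaussJ

set_option autoImplicit false
set_option synthInstance.maxHeartbeats 400000

namespace Fermat.Agent.S18x

open PowerSeries Finset ModularCurve AlgebraicCurve Fermat.Agent.S24x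

noncomputable section

variable (N : ℕ) [NeZero N] (A : ValuationSubring (AlgebraicClosure ℚ))
  (h : ModularCurve.ReductionInputsModL A N)

set_option maxHeartbeats 1000000 in
/-- **OUT-C at level `N`**, `gi_` spelling (input `hCo` of `nrmt_result`). -/
theorem cspn_hCo_gi {ℓ : ℕ} [Fact ℓ.Prime] (hℓN : ¬ ℓ ∣ N) (hA : A.LiesOverPrime ℓ) :
    ∀ yb : modularFunctionFieldFullC (IsLocalRing.ResidueField A) N,
      IsIntegral (Algebra.adjoin (IsLocalRing.ResidueField A)
        {(gi_rho (gi_inputs_S18 N A h) (gi_J N A h))⁻¹}) yb →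
      ∃ (u : gi_W (gi_inputs_S18 N A h)) (s : Polynomial (IsLocalRing.ResidueField A)),
        s.eval 0 ≠ 0 ∧
        gi_rho (gi_inputs_S18 N A h) u =
          Polynomial.aeval (gi_rho (gi_inputs_S18 N A h) (gi_J N A h))⁻¹ s * yb ∧
        IsIntegral (Algebra.adjoin (AlgebraicClosure ℚ)
          {(((gi_J N A h : gi_W (gi_inputs_S18 N A h)) : modularFunctionFieldBar N))⁻¹})
          (u : modularFunctionFieldBar N) := by
  have hρJ : gi_rho (gi_inputs_S18 N A h) (gi_J N A h) =
      pls_jb (IsLocalRing.ResidueField A) N := Subtype.ext (gi_rho_J N A h)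
  rw [hρJ, gi_J_coe]
  exact cspn_hCo_gen N A hℓN hA (gi_W (gi_inputs_S18 N A h)) (gi_rho (gi_inputs_S18 N A h))
    (gi_gauss_coeff N A h) (gi_J N A h) (gi_J_coe N A h) hρJ

end

end Fermat.Agent.S18x
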