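/-
S18 project, block NRM, sub-row N3k (helper23, prefix `ccq_`): **COMPAT** -- matching the
characteristic-`0` conjugates of `j(q^N)` in the Puiseux field with the characteristic-`ℓ` ones.

Abstract core (`A ⊆ L` a subring of a field, `π : A → k`): if `Y i ∈ A((t))` (`i ∈ I` finite) are
series whose images in `L((t))` are integral over `L[J(t^N)]` and such that the coefficients of
`∏ (X - Y i)` lie in `L(J(t^N))`, then `∏ (X - Y i) = G(J(t^N), X)` for a `G ∈ A[j][X]`, monic in
`X`; consequently every ring hom `σ̄` from a subfield of `k((q))` to `k((t))` over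
`j̄ ↦ J̄(t^N)` sends a root `ȳ` of `Ḡ(j̄, X)` to one of the reductions `red (Y i)`.
-/
import Mathlib
import Fermat.Agent.S18x.PuiseuxSubst
import Fermat.Agent.S28x.StepACore
import Fermat.Agent.S28x.ModPolyCons

set_option autoImplicit false

namespace Fermat.Agent.S18x

open ModularCurve Polynomial Fermat.Agent.S28x

noncomputable section

variable {L k : Type*} [Field L] [Field k]

/-- the coefficients of powers of `J` over a field lie in every subring. -/
theorem ccq_coeff_jq_pow_mem (A : Subring L) (D : ℕ) (n : ℤ) : (jqModC L ^ D).coeff n ∈ A := by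
  have h : jqModC L ^ D = coeffMap A.subtype (jqModC A ^ D) := by
    rw [map_pow, coeffMap_jqModC]
  rw [h, coeffMap_coeff]
  exact ((jqModC A ^ D).coeff n).2

/-- leading-term induction: a polynomial `g ∈ L[X]` such that `g(J)` has coefficients in the
subring `A` has coefficients in `A`. -/
theorem ccq_exists_of_aeval_mem (A : Subring L) :
    ∀ (D : ℕ) (g : Polynomial L), g.natDegree ≤ D →
      (∀ n : ℤ, (Polynomial.aeval (jqModC L) g).coeff n ∈ A) →
      ∃ g' : Polynomial A, g'.map A.subtype = g := by
  intro D
  induction D with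
  | zero =>
    intro g hg h
    have hg' : g = Polynomial.C (g.coeff 0) := Polynomial.eq_C_of_natDegree_le_zero hg
    have hc : (Polynomial.aeval (jqModC L) g).coeff 0 = g.coeff 0 := by
      rw [hg']
      simp [algebraMap_laurentSeries_eq_single]
    have hmem : g.coeff 0 ∈ A := by
      rw [← hc]
      exact h 0
    refine ⟨Polynomial.C ⟨g.coeff 0, hmem⟩, ?_⟩
    rw [Polynomial.map_C]
    exact hg'.symm
  | succ D ih =>
    intro g hg h
    rcases Nat.lt_or_ge g.natDegree (D + 1) with hlt | hge
    · exact ih g (Nat.lt_succ_iff.mp hlt) h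
    · have hdeg : g.natDegree = D + 1 := le_antisymm hg hge
      have hg0 : g ≠ 0 := by
        intro h0
        rw [h0] at hdeg
        simp at hdeg
      have hlc : (Polynomial.aeval (jqModC L) g).coeff (-(g.natDegree : ℤ)) = g.leadingCoeff :=
        sa_coeff_aeval_jqModC L g
      have hmem : g.leadingCoeff ∈ A := by
        rw [← hlc]
        exact h _
      set a : A := ⟨g.leadingCoeff, hmem⟩ with ha
      set g₁ : Polynomial L := g - Polynomial.C g.leadingCoeff * Polynomial.X ^ (D + 1) with hg₁
      have hg₁deg : g₁.natDegree ≤ D := by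
        have h1 : g₁.degree < g.degree := by
          rw [hg₁, ← hdeg]
          refine Polynomial.degree_sub_lt ?_ hg0 ?_
          · rw [Polynomial.degree_C_mul_X_pow _ (Polynomial.leadingCoeff_ne_zero.mpr hg0)]
            exact Polynomial.degree_eq_natDegree hg0
          · rw [Polynomial.leadingCoeff_mul, Polynomial.leadingCoeff_C,
              Polynomial.leadingCoeff_X_pow, mul_one]
        have h2 : g₁.degree < ((D + 1 : ℕ) : WithBot ℕ) := by
          rw [← hdeg]
          exact lt_of_lt_of_le h1 Polynomial.degree_le_natDegree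
        by_cases h0 : g₁ = 0
        · rw [h0]; simp
        · rw [Polynomial.degree_eq_natDegree h0] at h2
          exact Nat.lt_succ_iff.mp (by exact_mod_cast h2)
      have hmem₁ : ∀ n : ℤ, (Polynomial.aeval (jqModC L) g₁).coeff n ∈ A := by
        intro n
        rw [hg₁, map_sub, map_mul, map_pow, Polynomial.aeval_X, Polynomial.aeval_C,
          algebraMap_laurentSeries_eq_single, HahnSeries.coeff_sub,
          HahnSeries.coeff_single_zero_mul]
        exact A.sub_mem (h n) (A.mul_mem hmem (ccq_coeff_jq_pow_mem A _ _))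
      obtain ⟨g₁', hg₁'⟩ := ih g₁ hg₁deg hmem₁
      refine ⟨g₁' + Polynomial.C a * Polynomial.X ^ (D + 1), ?_⟩
      rw [Polynomial.map_add, hg₁', Polynomial.map_mul, Polynomial.map_pow, Polynomial.map_X,
        Polynomial.map_C, hg₁]
      simp [ha]

/-- the same for `J(t^N)`. -/
theorem ccq_exists_of_aeval_qExpand_mem (A : Subring L) (N : ℕ) [NeZero N] (g : Polynomial L)
    (h : ∀ n : ℤ, (Polynomial.aeval (qExpand L N (jqModC L)) g).coeff n ∈ A) :
    ∃ g' : Polynomial A, g'.map A.subtype = g := by
  refine ccq_exists_of_aeval_mem A g.natDegree g le_rfl (fun n => ?_)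
  have h1 : Polynomial.aeval (qExpand L N (jqModC L)) g
      = qExpand L N (Polynomial.aeval (jqModC L) g) := by
    have := congrArg (fun φ : Polynomial L →+* LaurentSeries L => φ g)
      (mpc_qExpand_comp_aeval (R := L) N (jqModC L))
    simpa using this.symm
  have h2 := h ((N : ℤ) * n)
  rwa [h1, qExpand_coeff_mul] at h2

/-- `J(t^N)` is transcendental over the constants. -/
theorem ccq_transcendental_jt (N : ℕ) [NeZero N] :
    Transcendental L (qExpand L N (jqModC L)) := by
  intro halg
  obtain ⟨f, hf0, hf⟩ := halg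
  have h1 : Polynomial.aeval (qExpand L N (jqModC L)) f
      = qExpand L N (Polynomial.aeval (jqModC L) f) := by
    have := congrArg (fun φ : Polynomial L →+* LaurentSeries L => φ f)
      (mpc_qExpand_comp_aeval (R := L) N (jqModC L))
    simpa using this.symm
  rw [h1] at hf
  have h2 : Polynomial.aeval (jqModC L) f = 0 := by
    apply qExpand_injective N
    rw [hf, map_zero]
  exact (sa_transcendental_jqModC L) ⟨f, hf0, h2⟩

section core

variable (A : Subring L) (N : ℕ) [NeZero N] {I : Type*} [Fintype I] (Y : I → LaurentSeries A)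

/-- **COMPAT, step 1**: the polynomial `∏ (X - Y i)` over `A((t))` comes from a polynomial
`G ∈ A[j][X]`, monic in `X`, by `j ↦ J(t^N)`. -/
theorem ccq_exists_G
    (hint : ∀ i, IsIntegral (Algebra.adjoin L {qExpand L N (jqModC L)})
      (coeffMap A.subtype (Y i)))
    (hrat : ∀ r, (∏ i, (Polynomial.X - Polynomial.C (coeffMap A.subtype (Y i)))).coeff r ∈
      IntermediateField.adjoin L {qExpand L N (jqModC L)}) :
    ∃ G : Polynomial (Polynomial A), G.Monic ∧ G.natDegree = Fintype.card I ∧
      G.map (Polynomial.aeval (R := A) (qExpand A N (jqModC A))).toRingHom =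
        ∏ i, (Polynomial.X - Polynomial.C (Y i)) := by
  classical
  set pA : Polynomial (LaurentSeries A) := ∏ i, (Polynomial.X - Polynomial.C (Y i)) with hpA
  set p : Polynomial (LaurentSeries L) :=
    ∏ i, (Polynomial.X - Polynomial.C (coeffMap A.subtype (Y i))) with hp
  have hpmap : pA.map (coeffMap A.subtype) = p := by
    rw [hpA, hp, Polynomial.map_prod]
    refine Finset.prod_congr rfl (fun i _ => ?_)
    rw [Polynomial.map_sub, Polynomial.map_X, Polynomial.map_C]
  have hpAmonic : pA.Monic := Polynomial.monic_prod_of_monic _ _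
    (fun i _ => Polynomial.monic_X_sub_C _)
  have hpAdeg : pA.natDegree = Fintype.card I := by
    rw [hpA, Polynomial.natDegree_prod_of_monic _ _ (fun i _ => Polynomial.monic_X_sub_C _)]
    simp
  have hpmonic : p.Monic := Polynomial.monic_prod_of_monic _ _
    (fun i _ => Polynomial.monic_X_sub_C _)
  have hinj : Function.Injective (coeffMap A.subtype) :=
    sa_coeffMap_injective A.subtype Subtype.val_injective
  -- coefficients are integral over `L[J(t^N)]`
  have hcoeff_int : ∀ r, IsIntegral (Algebra.adjoin L {qExpand L N (jqModC L)}) (p.coeff r) := by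
    intro r
    refine Polynomial.isIntegral_coeff_of_factors p ?_ ?_ ?_ r
    · rw [hpmonic.leadingCoeff]; exact isIntegral_one
    · exact Polynomial.Splits.prod (fun i _ => Polynomial.Splits.X_sub_C _)
    · intro x hx
      rw [Polynomial.IsRoot.def, hp, Polynomial.eval_prod, Finset.prod_eq_zero_iff] at hx
      obtain ⟨i, -, hi⟩ := hx
      rw [Polynomial.eval_sub, Polynomial.eval_X, Polynomial.eval_C, sub_eq_zero] at hi
      rw [hi]
      exact hint i
  -- hence polynomials in `J(t^N)`, with coefficients in `A`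
  have hcoeff : ∀ r, ∃ g : Polynomial A,
      Polynomial.aeval (qExpand A N (jqModC A)) g = pA.coeff r := by
    intro r
    obtain ⟨f, hf⟩ := sa_mem_range_aeval_of_isIntegral (qExpand L N (jqModC L))
      (ccq_transcendental_jt N) (p.coeff r) (hrat r) (hcoeff_int r)
    obtain ⟨g, hg⟩ := ccq_exists_of_aeval_qExpand_mem A N f (fun n => by
      rw [hf, ← hpmap, Polynomial.coeff_map, coeffMap_coeff]
      exact ((pA.coeff r).coeff n).2)
    refine ⟨g, hinj ?_⟩
    rw [← Polynomial.coeff_map, hpmap, ← hf, ← hg]
    have : (coeffMap A.subtype).comp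
        (Polynomial.aeval (R := A) (qExpand A N (jqModC A))).toRingHom
        = (Polynomial.aeval (R := L) (qExpand L N (jqModC L))).toRingHom.comp
          (Polynomial.mapRingHom A.subtype) := by
      refine Polynomial.ringHom_ext (fun a => ?_) ?_
      · simp [mpc_algebraMap_eq_C]
      · simp [coeffMap_qExpand, coeffMap_jqModC]
    exact congrArg (fun φ : Polynomial A →+* LaurentSeries L => φ g) this
  choose g hg using hcoeff
  set n := Fintype.card I with hn
  set q : Polynomial (Polynomial A) :=
    ∑ r ∈ Finset.range n, Polynomial.C (g r) * Polynomial.X ^ r with hq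
  have hqdeg : q.degree < (n : WithBot ℕ) := by
    rw [Polynomial.degree_lt_iff_coeff_zero]
    intro m hm
    rw [hq, Polynomial.finsetSum_coeff]
    refine Finset.sum_eq_zero (fun r hr => ?_)
    have : m ≠ r := by
      have := Finset.mem_range.mp hr
      omega
    rw [Polynomial.coeff_C_mul, Polynomial.coeff_X_pow, if_neg this, mul_zero]
  refine ⟨Polynomial.X ^ n + q, Polynomial.monic_X_pow_add hqdeg, ?_, ?_⟩
  · rw [Polynomial.natDegree_add_eq_left_of_degree_lt (by
      rw [Polynomial.degree_X_pow]; exact hqdeg), Polynomial.natDegree_X_pow]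
  · refine Polynomial.ext (fun r => ?_)
    rw [Polynomial.coeff_map, Polynomial.coeff_add, Polynomial.coeff_X_pow, hq,
      Polynomial.finsetSum_coeff]
    simp only [Polynomial.coeff_C_mul, Polynomial.coeff_X_pow]
    rcases lt_trichotomy r n with hr | hr | hr
    · rw [if_neg hr.ne, zero_add, Finset.sum_eq_single r]
      · simp only [if_true, mul_one]
        exact hg r
      · intro b _ hb
        rw [if_neg (Ne.symm hb), mul_zero]
      · intro hr'
        exact absurd (Finset.mem_range.mpr hr) hr'
    · rw [if_pos hr, Finset.sum_eq_zero, add_zero]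
      · have : pA.coeff r = 1 := by
          rw [hr, ← hpAdeg]
          exact hpAmonic.coeff_natDegree
        rw [this]
        simp
      · intro b hb
        have : r ≠ b := by
          have := Finset.mem_range.mp hb
          omega
        rw [if_neg this, mul_zero]
    · rw [if_neg hr.ne', zero_add, Finset.sum_eq_zero]
      · rw [Polynomial.coeff_eq_zero_of_natDegree_lt (by rw [hpAdeg]; exact hr)]
        simp
      · intro b hb
        have : r ≠ b := by
          have := Finset.mem_range.mp hb
          omega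
        rw [if_neg this, mul_zero]

end core

section reduction

variable (A : Subring L) (π : A →+* k) (N : ℕ) [NeZero N] {I : Type*} [Fintype I]
  (Y : I → LaurentSeries A)

/-- coefficient maps commute with the evaluations `j ↦ J(t^N)`. -/
theorem ccq_coeffMap_comp_aeval {R S : Type*} [CommRing R] [CommRing S] (f : R →+* S)
    (y : LaurentSeries R) :
    (coeffMap f).comp (Polynomial.aeval (R := R) y).toRingHom
      = (Polynomial.aeval (R := S) (coeffMap f y)).toRingHom.comp (Polynomial.mapRingHom f) := by
  refine Polynomial.ringHom_ext (fun a => ?_) ?_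
  · simp [mpc_algebraMap_eq_C]
  · simp

/-- **COMPAT, step 2**: the relation `G(j, j_N) = 0` over `A` when one of the `Y i` is the
expansion `J(t^{N·N})` of `j_N` itself. -/
theorem ccq_rel (G : Polynomial (Polynomial A))
    (hG : G.map (Polynomial.aeval (R := A) (qExpand A N (jqModC A))).toRingHom =
      ∏ i, (Polynomial.X - Polynomial.C (Y i)))
    (i₀ : I) (hi₀ : Y i₀ = qExpand A N (qExpand A N (jqModC A))) :
    G.eval₂ (Polynomial.aeval (R := A) (jqModC A)).toRingHom (qExpand A N (jqModC A)) = 0 := by
  apply qExpand_injective N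
  rw [Polynomial.hom_eval₂, mpc_qExpand_comp_aeval, map_zero, ← hi₀, ← Polynomial.eval_map, hG,
    Polynomial.eval_prod]
  exact Finset.prod_eq_zero (Finset.mem_univ i₀) (by simp)

/-- **COMPAT, step 3**: every `k`-algebra hom `σ̄` from an intermediate field of `k((q))`
containing `j̄`, `j̄_N` into `k((t))` with `σ̄(j̄) = J̄(t^N)` sends `j̄_N` to the reduction of one of
the `Y i`. -/
theorem ccq_root_mem (G : Polynomial (Polynomial A))
    (hG : G.map (Polynomial.aeval (R := A) (qExpand A N (jqModC A))).toRingHom =
      ∏ i, (Polynomial.X - Polynomial.C (Y i)))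
    (i₀ : I) (hi₀ : Y i₀ = qExpand A N (qExpand A N (jqModC A)))
    (Fb : IntermediateField k (LaurentSeries k)) (hj : jqModC k ∈ Fb)
    (hjN : qExpand k N (jqModC k) ∈ Fb) (σ : Fb →ₐ[k] LaurentSeries k)
    (hσ : σ ⟨jqModC k, hj⟩ = qExpand k N (jqModC k)) :
    ∃ i, σ ⟨qExpand k N (jqModC k), hjN⟩ = coeffMap π (Y i) := by
  -- the relation over `k`
  have hrel := congrArg (coeffMap π) (ccq_rel A N Y G hG i₀ hi₀)
  rw [Polynomial.hom_eval₂, ccq_coeffMap_comp_aeval, map_zero, coeffMap_jqModC, coeffMap_qExpand,
    coeffMap_jqModC, ← Polynomial.eval₂_map] at hrel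
  set Gk : Polynomial (Polynomial k) := G.map (Polynomial.mapRingHom π) with hGk
  -- the same relation inside `Fb`
  have hrelF : Gk.eval₂ (Polynomial.aeval (R := k) (⟨jqModC k, hj⟩ : Fb)).toRingHom
      (⟨qExpand k N (jqModC k), hjN⟩ : Fb) = 0 := by
    apply (algebraMap Fb (LaurentSeries k)).injective
    rw [Polynomial.hom_eval₂, map_zero]
    have : (algebraMap Fb (LaurentSeries k)).comp
        (Polynomial.aeval (R := k) (⟨jqModC k, hj⟩ : Fb)).toRingHom
        = (Polynomial.aeval (R := k) (jqModC k)).toRingHom := by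
      refine Polynomial.ringHom_ext (fun a => ?_) ?_
      · simp
      · simp
    rw [this]
    exact hrel
  -- apply `σ`
  have h3 := congrArg σ hrelF
  rw [map_zero] at h3
  have h4 : σ (Gk.eval₂ (Polynomial.aeval (R := k) (⟨jqModC k, hj⟩ : Fb)).toRingHom
      (⟨qExpand k N (jqModC k), hjN⟩ : Fb))
      = Gk.eval₂ ((σ : Fb →+* LaurentSeries k).comp
          (Polynomial.aeval (R := k) (⟨jqModC k, hj⟩ : Fb)).toRingHom)
        (σ ⟨qExpand k N (jqModC k), hjN⟩) :=
    Polynomial.hom_eval₂ Gk _ (σ : Fb →+* LaurentSeries k) _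
  rw [h4] at h3
  have h5 : (σ : Fb →+* LaurentSeries k).comp
      (Polynomial.aeval (R := k) (⟨jqModC k, hj⟩ : Fb)).toRingHom
      = (Polynomial.aeval (R := k) (qExpand k N (jqModC k))).toRingHom := by
    refine Polynomial.ringHom_ext (fun a => ?_) ?_
    · simp
    · simp [hσ]
  rw [h5, ← Polynomial.eval_map] at h3
  -- `Gk(J(t^N), X) = ∏ (X - red (Y i))`
  have h6 : Gk.map (Polynomial.aeval (R := k) (qExpand k N (jqModC k))).toRingHom
      = ∏ i, (Polynomial.X - Polynomial.C (coeffMap π (Y i))) := by
    have := congrArg (Polynomial.map (coeffMap π)) hG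
    rw [Polynomial.map_map, ccq_coeffMap_comp_aeval, coeffMap_qExpand, coeffMap_jqModC,
      ← Polynomial.map_map, Polynomial.map_prod] at this
    rw [hGk]
    convert this using 2
    rw [Polynomial.map_sub, Polynomial.map_X, Polynomial.map_C]
  rw [h6, Polynomial.eval_prod, Finset.prod_eq_zero_iff] at h3
  obtain ⟨i, -, hi⟩ := h3
  rw [Polynomial.eval_sub, Polynomial.eval_X, Polynomial.eval_C, sub_eq_zero] at hi
  exact ⟨i, hi⟩

/-- **COMPAT** (abstract core, all steps). -/
theorem ccq_compat
    (hint : ∀ i, IsIntegral (Algebra.adjoin L {qExpand L N (jqModC L)})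
      (coeffMap A.subtype (Y i)))
    (hrat : ∀ r, (∏ i, (Polynomial.X - Polynomial.C (coeffMap A.subtype (Y i)))).coeff r ∈
      IntermediateField.adjoin L {qExpand L N (jqModC L)})
    (i₀ : I) (hi₀ : Y i₀ = qExpand A N (qExpand A N (jqModC A)))
    (Fb : IntermediateField k (LaurentSeries k)) (hj : jqModC k ∈ Fb)
    (hjN : qExpand k N (jqModC k) ∈ Fb) (σ : Fb →ₐ[k] LaurentSeries k)
    (hσ : σ ⟨jqModC k, hj⟩ = qExpand k N (jqModC k)) :
    ∃ i, σ ⟨qExpand k N (jqModC k), hjN⟩ = coeffMap π (Y i) := by
  obtain ⟨G, -, -, hG⟩ := ccq_exists_G A N Y hint hrat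
  exact ccq_root_mem A π N Y G hG i₀ hi₀ Fb hj hjN σ hσ

end reduction

end

end Fermat.Agent.S18x
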