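/-
S18x/CuspConjGalois (helper16; S18 block NRM, row N3 sub-row E, for helper23's `CuspConj`).
Pure Mathlib field theory.  `K ⊆ F` algebraic, `K ⊆ L ⊆ Om` with `Om` algebraically closed,
`S ⊆ F` a generating set of `F / K`.  If every `K`-embedding `τ : F → Om` maps `S` into (the image
of) `L`, then
* `ccg_mem_range`, `ccg_exists_factor` : every `τ` has image in `L`, i.e. factors through `L`;
* `ccg_splits` : every minimal polynomial `minpoly K x` (`x : F`) splits over `L`;
* `ccg_natCard_algHom`, `ccg_card_algHom` : if moreover `F / K` is finite separable, then the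
  number of `K`-embeddings `F → L` equals `[F : K]`;
* `ccg_comp_bijective` : composition with `L → Om` is a bijection `(F →ₐ[K] L) ≃ (F →ₐ[K] Om)`.
-/
import Mathlib

set_option autoImplicit false

namespace Fermat.Agent.S18x

open Polynomial IntermediateField

section CuspConjGalois

variable {K F L Om : Type*} [Field K] [Field F] [Field L] [Field Om]
  [Algebra K F] [Algebra K L] [Algebra L Om] [Algebra K Om] [IsScalarTower K L Om]

/-- The image of `L` in `Om` as an intermediate field of `Om / K`. -/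
noncomputable def ccg_rangeL (K L Om : Type*) [Field K] [Field L] [Field Om]
    [Algebra K L] [Algebra L Om] [Algebra K Om] [IsScalarTower K L Om] :
    IntermediateField K Om :=
  (IsScalarTower.toAlgHom K L Om).fieldRange

theorem ccg_mem_rangeL_iff {y : Om} :
    y ∈ ccg_rangeL K L Om ↔ y ∈ (algebraMap L Om).range := by
  unfold ccg_rangeL
  rw [AlgHom.mem_fieldRange, RingHom.mem_range]
  rfl

/-- If a `K`-embedding `τ : F → Om` maps a generating set into `L`, it maps everything into `L`. -/
theorem ccg_mem_range {S : Set F} (hS : IntermediateField.adjoin K S = ⊤) (τ : F →ₐ[K] Om)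
    (hτ : ∀ s ∈ S, τ s ∈ (algebraMap L Om).range) (x : F) :
    τ x ∈ (algebraMap L Om).range := by
  have hle : IntermediateField.adjoin K S ≤ (ccg_rangeL K L Om).comap τ := by
    rw [IntermediateField.adjoin_le_iff]
    intro s hs
    show τ s ∈ ccg_rangeL K L Om
    exact ccg_mem_rangeL_iff.mpr (hτ s hs)
  have hx : x ∈ (ccg_rangeL K L Om).comap τ := hle (hS ▸ IntermediateField.mem_top)
  exact ccg_mem_rangeL_iff.mp hx

/-- A `K`-embedding `F → Om` with image in `L` factors through `L`. -/
theorem ccg_exists_factor_of_forall_mem (τ : F →ₐ[K] Om)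
    (hτ : ∀ x : F, τ x ∈ (algebraMap L Om).range) :
    ∃ τ' : F →ₐ[K] L, (IsScalarTower.toAlgHom K L Om).comp τ' = τ := by
  classical
  set ι : L →ₐ[K] Om := IsScalarTower.toAlgHom K L Om with hι
  have hmem : ∀ x : F, τ x ∈ ι.fieldRange := fun x => by
    rw [AlgHom.mem_fieldRange]
    obtain ⟨y, hy⟩ := hτ x
    exact ⟨y, hy⟩
  let e : L ≃ₐ[K] ι.fieldRange := AlgEquiv.ofInjectiveField ι
  let τ₀ : F →ₐ[K] ι.fieldRange := τ.codRestrict ι.fieldRange.toSubalgebra hmem
  refine ⟨(e.symm : ι.fieldRange →ₐ[K] L).comp τ₀, ?_⟩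
  ext x
  show ι (e.symm (τ₀ x)) = τ x
  have h1 : (e (e.symm (τ₀ x)) : Om) = ι (e.symm (τ₀ x)) := rfl
  rw [← h1, AlgEquiv.apply_symm_apply]
  rfl

/-- **(2)** every `K`-embedding `F → Om` mapping a generating set into `L` factors through `L`. -/
theorem ccg_exists_factor {S : Set F} (hS : IntermediateField.adjoin K S = ⊤) (τ : F →ₐ[K] Om)
    (hτ : ∀ s ∈ S, τ s ∈ (algebraMap L Om).range) :
    ∃ τ' : F →ₐ[K] L, ∀ x : F, algebraMap L Om (τ' x) = τ x := by
  obtain ⟨τ', hτ'⟩ := ccg_exists_factor_of_forall_mem (L := L) τ (ccg_mem_range hS τ hτ)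
  exact ⟨τ', fun x => DFunLike.congr_fun hτ' x⟩

/-- **(1)** minimal polynomials over `K` of elements of `F` split over `L`. -/
theorem ccg_splits [Algebra.IsAlgebraic K F] [IsAlgClosed Om] {S : Set F}
    (hS : IntermediateField.adjoin K S = ⊤)
    (hall : ∀ τ : F →ₐ[K] Om, ∀ s ∈ S, τ s ∈ (algebraMap L Om).range) (x : F) :
    ((minpoly K x).map (algebraMap K L)).Splits := by
  have hOm : ∀ y : F, IsIntegral K y ∧ ((minpoly K y).map (algebraMap K Om)).Splits :=
    fun y => ⟨Algebra.IsIntegral.isIntegral y, IsAlgClosed.splits _⟩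
  refine Polynomial.Splits.of_splits_map (algebraMap L Om) (IsAlgClosed.splits _) ?_
  intro a ha
  rw [Polynomial.map_map, ← IsScalarTower.algebraMap_eq] at ha
  have hne : (minpoly K x).map (algebraMap K Om) ≠ 0 :=
    Polynomial.map_ne_zero (minpoly.ne_zero (Algebra.IsIntegral.isIntegral x))
  have hroot : Polynomial.aeval a (minpoly K x) = 0 := by
    have := (Polynomial.mem_roots hne).mp ha
    rwa [Polynomial.IsRoot.def, Polynomial.eval_map_algebraMap] at this
  obtain ⟨τ, hτ⟩ := IntermediateField.exists_algHom_of_splits_of_aeval hOm hroot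
  rw [← hτ]
  exact ccg_mem_range hS τ (hall τ) x

/-- **(3)** for `F / K` finite separable, the number of `K`-embeddings `F → L` is `[F : K]`. -/
theorem ccg_natCard_algHom [FiniteDimensional K F] [Algebra.IsSeparable K F] [IsAlgClosed Om]
    {S : Set F} (hS : IntermediateField.adjoin K S = ⊤)
    (hall : ∀ τ : F →ₐ[K] Om, ∀ s ∈ S, τ s ∈ (algebraMap L Om).range) :
    Nat.card (F →ₐ[K] L) = Module.finrank K F :=
  AlgHom.natCard_of_splits K F L fun x => ccg_splits hS hall x

theorem ccg_card_algHom [FiniteDimensional K F] [Algebra.IsSeparable K F] [IsAlgClosed Om]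
    {S : Set F} (hS : IntermediateField.adjoin K S = ⊤)
    (hall : ∀ τ : F →ₐ[K] Om, ∀ s ∈ S, τ s ∈ (algebraMap L Om).range) :
    Fintype.card (F →ₐ[K] L) = Module.finrank K F :=
  AlgHom.card_of_splits K F L fun x => ccg_splits hS hall x

/-- Composition with `L → Om` identifies the `K`-embeddings into `L` with those into `Om`. -/
theorem ccg_comp_bijective {S : Set F} (hS : IntermediateField.adjoin K S = ⊤)
    (hall : ∀ τ : F →ₐ[K] Om, ∀ s ∈ S, τ s ∈ (algebraMap L Om).range) :
    Function.Bijective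
      (fun τ' : F →ₐ[K] L => (IsScalarTower.toAlgHom K L Om).comp τ') := by
  constructor
  · intro τ₁ τ₂ h
    ext x
    have := DFunLike.congr_fun h x
    exact (algebraMap L Om).injective this
  · intro τ
    exact ccg_exists_factor_of_forall_mem (L := L) τ (ccg_mem_range hS τ (hall τ))

end CuspConjGalois

end Fermat.Agent.S18x
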