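/-
S18x/CuspConjEmb (helper16; S18 block NRM, row N3 sub-row F, for helper23's `CuspConj` and the
N7 consumers).  The set `ccm_Emb K N` of `K`-algebra embeddings `σ : F_N(K) → K((t))` with
`σ(j) = J(t^N)` (`t = q^{1/N}`):
* `ccm_incl_mem`, `ccm_rescale_mem` : the standard embedding `q ↦ t^N` lies in it and it is stable
  under `t ↦ ζ t`, `ζ^N = 1`;
* `ccm_param` : parameter form `σ(j(q^d)) = J(ζ t^m)` (from `ccj_param_of`);
* `ccm_ext`, `ccm_finite` : an embedding is determined by the `σ(j(q^d))`, `d ∣ N`; finiteness;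
* `ccm_splits` : every minimal polynomial over `K(j)` of an element of `F_N` splits in `K((t))`;
* `ccm_ncard` : for `K` perfect, `#ccm_Emb K N = [F_N : K(j)]`.
-/
import Mathlib
import Fermat.Agent.S18x.CuspConj
import Fermat.Agent.S18x.CuspConjGalois
import Fermat.Agent.S18x.PlsFbar
import Fermat.Agent.S18x.SepFull

set_option autoImplicit false

namespace Fermat.Agent.S18x

open ModularCurve Polynomial IntermediateField Fermat.Agent.S28x

noncomputable section

universe u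

section Defs

variable (K : Type u) [Field K] (N : ℕ) [NeZero N]

/-- `q ↦ ζ q` as a `K`-algebra endomorphism of `K((q))`. -/
def ccm_rescaleAlg (ζ : Kˣ) : LaurentSeries K →ₐ[K] LaurentSeries K where
  __ := pxs_rescale K ζ
  commutes' c := by
    show pxs_rescale K ζ (algebraMap K (LaurentSeries K) c) = algebraMap K (LaurentSeries K) c
    rw [mpc_algebraMap_eq_C, pxs_rescale_C]

@[simp]
theorem ccm_rescaleAlg_apply (ζ : Kˣ) (f : LaurentSeries K) :
    ccm_rescaleAlg K ζ f = pxs_rescale K ζ f := rfl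

/-- the `K`-embeddings `σ : F_N → K((t))` with `σ(j) = J(t^N)`. -/
def ccm_Emb : Set (modularFunctionFieldFullC K N →ₐ[K] LaurentSeries K) :=
  {σ | σ ⟨jqModC K, jqModC_mem_full K N⟩ = qExpand K N (jqModC K)}

variable {K N} in
theorem ccm_mem_Emb_iff {σ : modularFunctionFieldFullC K N →ₐ[K] LaurentSeries K} :
    σ ∈ ccm_Emb K N ↔ σ ⟨jqModC K, jqModC_mem_full K N⟩ = qExpand K N (jqModC K) := Iff.rfl

/-- the standard embedding `f(q) ↦ f(t^N)`. -/
def ccm_incl : modularFunctionFieldFullC K N →ₐ[K] LaurentSeries K :=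
  (qExpandAlgHomC K N).comp (modularFunctionFieldFullC K N).val

@[simp]
theorem ccm_incl_apply (x : modularFunctionFieldFullC K N) :
    ccm_incl K N x = qExpand K N (x : LaurentSeries K) := rfl

theorem ccm_incl_mem : ccm_incl K N ∈ ccm_Emb K N := rfl

theorem ccm_incl_mem' :
    (qExpandAlgHomC K N).comp (modularFunctionFieldFullC K N).val ∈ ccm_Emb K N := rfl

variable {K N}

theorem ccm_rescale_mem (ζ : Kˣ) (hζ : ζ ^ N = 1)
    {σ : modularFunctionFieldFullC K N →ₐ[K] LaurentSeries K} (hσ : σ ∈ ccm_Emb K N) :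
    (ccm_rescaleAlg K ζ).comp σ ∈ ccm_Emb K N := by
  rw [ccm_mem_Emb_iff] at hσ ⊢
  rw [AlgHom.comp_apply, hσ, ccm_rescaleAlg_apply, pxs_rescale_qExpand, hζ]
  congr 1
  exact pxs_rescale_one _

/-- `t ↦ ζ t` (`ζ^N = 1`) as a permutation of `ccm_Emb K N`. -/
def ccm_rescalePerm (ζ : Kˣ) (hζ : ζ ^ N = 1) : Equiv.Perm (ccm_Emb K N) where
  toFun σ := ⟨(ccm_rescaleAlg K ζ).comp σ.1, ccm_rescale_mem ζ hζ σ.2⟩
  invFun σ := ⟨(ccm_rescaleAlg K ζ⁻¹).comp σ.1,
    ccm_rescale_mem ζ⁻¹ (by rw [inv_pow, hζ, inv_one]) σ.2⟩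
  left_inv σ := by
    apply Subtype.ext
    refine AlgHom.ext fun x => ?_
    show pxs_rescale K ζ⁻¹ (pxs_rescale K ζ (σ.1 x)) = σ.1 x
    rw [pxs_rescale_rescale, mul_inv_cancel, pxs_rescale_one]
  right_inv σ := by
    apply Subtype.ext
    refine AlgHom.ext fun x => ?_
    show pxs_rescale K ζ (pxs_rescale K ζ⁻¹ (σ.1 x)) = σ.1 x
    rw [pxs_rescale_rescale, inv_mul_cancel, pxs_rescale_one]

@[simp]
theorem ccm_rescalePerm_apply (ζ : Kˣ) (hζ : ζ ^ N = 1) (σ : ccm_Emb K N)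
    (x : modularFunctionFieldFullC K N) :
    (ccm_rescalePerm ζ hζ σ).1 x = pxs_rescale K ζ (σ.1 x) := rfl

/-- `t ↦ ζ' t` applied to `f(ζ t^m)` is `f(ζ ζ'^m t^m)`. -/
theorem ccm_rescale_subst (ζ ζ' : Kˣ) (m : ℕ) [NeZero m] (f : LaurentSeries K) :
    pxs_rescale K ζ' (pxs_subst K ζ m f) = pxs_subst K (ζ * ζ' ^ m) m f := by
  ext n
  rw [pxs_rescale_coeff]
  by_cases hn : (m : ℤ) ∣ n
  · obtain ⟨k, rfl⟩ := hn
    rw [pxs_subst_coeff_mul, pxs_subst_coeff_mul, ← mul_assoc, ← Units.val_mul]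
    congr 2
    rw [mul_zpow, zpow_mul, zpow_natCast, mul_comm]
  · rw [pxs_subst_coeff_of_not_dvd _ _ _ hn, pxs_subst_coeff_of_not_dvd _ _ _ hn, mul_zero]

/-- **parameter form**: `σ(j(q^d)) = J(ζ t^m)`, `ζ^d = 1`, `(N/d) ∣ m`. -/
theorem ccm_param (hRC : ccj_RootCases.{u, u} K) (zN : K) (hzN : IsPrimitiveRoot zN N)
    {σ : modularFunctionFieldFullC K N →ₐ[K] LaurentSeries K} (hσ : σ ∈ ccm_Emb K N)
    (d : ℕ) [NeZero d] (hd : d ∣ N) :
    ∃ (ζ : Kˣ) (m : ℕ) (_ : NeZero m), ζ ^ d = 1 ∧ N / d ∣ m ∧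
      σ ⟨qExpand K d (jqModC K), jqModCd_mem_full K N hd⟩ = pxs_subst K ζ m (jqModC K) := by
  have := ccj_param_of (k := K) hRC N zN hzN (RingHom.id (LaurentSeries K))
    (σ : modularFunctionFieldFullC K N →+* LaurentSeries K) hσ d hd
  simpa using this

omit [NeZero N] in
/-- an embedding is determined by its values on the generators `j(q^d)`, `d ∣ N`. -/
theorem ccm_ext {σ σ' : modularFunctionFieldFullC K N →ₐ[K] LaurentSeries K}
    (h : ∀ (d : ℕ) [NeZero d] (hd : d ∣ N),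
      σ ⟨qExpand K d (jqModC K), jqModCd_mem_full K N hd⟩ =
        σ' ⟨qExpand K d (jqModC K), jqModCd_mem_full K N hd⟩) : σ = σ' := by
  refine IntermediateField.adjoin_algHom_ext K ?_
  rintro x ⟨d, hne, hd, rfl⟩
  exact @h d hne hd

end Defs

section Galois

set_option synthInstance.maxHeartbeats 400000

variable (K : Type u) [Field K] (N : ℕ) [NeZero N]

/-- `j` as an element of `K(j) ⊆ F_N`. -/
def ccm_jK : K⟮pls_jb K N⟯ := ⟨pls_jb K N, mem_adjoin_simple_self K _⟩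

/-- the base embedding `K(j) → K((t))`, `j ↦ J(t^N)`. -/
def ccm_base : K⟮pls_jb K N⟯ →ₐ[K] LaurentSeries K :=
  (ccm_incl K N).comp (K⟮pls_jb K N⟯).val

theorem ccm_base_apply (c : K⟮pls_jb K N⟯) :
    ccm_base K N c = qExpand K N (((c : pls_Fb K N) : LaurentSeries K)) := rfl

theorem ccm_base_jK : ccm_base K N (ccm_jK K N) = qExpand K N (jqModC K) := rfl

/-- `K((t))` as a `K(j)`-algebra via `j ↦ J(t^N)`: a type synonym of `LaurentSeries K`
(the inclusion `K(j) ⊆ F_N ⊆ K((q))` already gives `LaurentSeries K` ANOTHER `K(j)`-algebra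
structure, so the synonym is necessary). -/
def ccm_Lt (K : Type u) [Field K] (N : ℕ) [NeZero N] : Type u :=
  (fun _ : ℕ => LaurentSeries K) N

instance ccm_instField : Field (ccm_Lt K N) := inferInstanceAs (Field (LaurentSeries K))

instance ccm_instAlgebraK : Algebra K (ccm_Lt K N) :=
  inferInstanceAs (Algebra K (LaurentSeries K))

/-- the identification `K((t)) = ccm_Lt K N`. -/
def ccm_toLt : LaurentSeries K ≃ₐ[K] ccm_Lt K N := AlgEquiv.refl

instance ccm_instAlgebraKj : Algebra K⟮pls_jb K N⟯ (ccm_Lt K N) :=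
  (((ccm_toLt K N : LaurentSeries K →ₐ[K] ccm_Lt K N).comp (ccm_base K N)).toRingHom).toAlgebra

theorem ccm_algebraMap_Kj (c : K⟮pls_jb K N⟯) :
    algebraMap K⟮pls_jb K N⟯ (ccm_Lt K N) c = ccm_toLt K N (ccm_base K N c) := rfl

instance ccm_instIsScalarTower : IsScalarTower K K⟮pls_jb K N⟯ (ccm_Lt K N) :=
  IsScalarTower.of_algebraMap_eq fun c =>
    (((ccm_toLt K N : LaurentSeries K →ₐ[K] ccm_Lt K N).comp (ccm_base K N)).commutes c).symm

variable {K N}

/-- restriction of an element of `ccm_Emb` to `K(j)` is the base embedding. -/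
theorem ccm_comp_val_eq {σ : modularFunctionFieldFullC K N →ₐ[K] LaurentSeries K}
    (hσ : σ ∈ ccm_Emb K N) : σ.comp (K⟮pls_jb K N⟯).val = ccm_base K N := by
  refine IntermediateField.adjoin_algHom_ext K ?_
  intro x hx
  rw [Set.mem_singleton_iff] at hx
  subst hx
  exact hσ

theorem ccm_apply_algebraMap {σ : modularFunctionFieldFullC K N →ₐ[K] LaurentSeries K}
    (hσ : σ ∈ ccm_Emb K N) (c : K⟮pls_jb K N⟯) :
    σ (algebraMap K⟮pls_jb K N⟯ (pls_Fb K N) c) = ccm_base K N c :=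
  DFunLike.congr_fun (ccm_comp_val_eq hσ) c

variable (K N)

/-- `ccm_Emb K N` is the set of `K(j)`-algebra homs `F_N → K((t))`. -/
def ccm_embEquiv : (pls_Fb K N →ₐ[K⟮pls_jb K N⟯] ccm_Lt K N) ≃ ccm_Emb K N where
  toFun τ := ⟨((ccm_toLt K N).symm : ccm_Lt K N →ₐ[K] LaurentSeries K).comp (τ.restrictScalars K), by
      rw [ccm_mem_Emb_iff]
      have h := τ.commutes (ccm_jK K N)
      exact congrArg (ccm_toLt K N).symm h⟩
  invFun σ :=
      { ((ccm_toLt K N : LaurentSeries K →ₐ[K] ccm_Lt K N).comp σ.1 :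
          pls_Fb K N →+* ccm_Lt K N) with
        commutes' := fun c => congrArg (ccm_toLt K N) (ccm_apply_algebraMap σ.2 c) }
  left_inv τ := by
      ext x
      rfl
  right_inv σ := by
      ext x
      rfl

theorem ccm_embEquiv_apply (τ : pls_Fb K N →ₐ[K⟮pls_jb K N⟯] ccm_Lt K N) (x : pls_Fb K N) :
    (ccm_embEquiv K N τ : modularFunctionFieldFullC K N →ₐ[K] LaurentSeries K) x =
      (ccm_toLt K N).symm (τ x) := rfl

theorem ccm_finite : (ccm_Emb K N).Finite := by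
  haveI := pls_finiteDimensional_jb K N
  haveI : Finite (pls_Fb K N →ₐ[K⟮pls_jb K N⟯] ccm_Lt K N) := inferInstance
  exact Set.finite_coe_iff.mp (Finite.of_equiv _ (ccm_embEquiv K N))

/-- the generators `j(q^d)`, `d ∣ N`, generate `F_N` over `K(j)`. -/
theorem ccm_adjoin_gens :
    IntermediateField.adjoin K⟮pls_jb K N⟯ (pls_gens K N) = ⊤ := by
  rw [← IntermediateField.restrictScalars_eq_top_iff (K := K), adjoin_adjoin_left, eq_top_iff,
    ← pls_adjoin_gens_eq_top K N]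
  exact adjoin.mono K _ _ Set.subset_union_right

variable {K N}

/-- every `K(j)`-embedding of `F_N` into the algebraic closure of `K((t))` maps the generators
`j(q^d)` into `K((t))`. -/
theorem ccm_hall (hRC : ccj_RootCases.{u, u} K) (zN : K) (hzN : IsPrimitiveRoot zN N)
    (τ : pls_Fb K N →ₐ[K⟮pls_jb K N⟯] AlgebraicClosure (ccm_Lt K N))
    (s : pls_Fb K N) (hs : s ∈ pls_gens K N) :
    τ s ∈ (algebraMap (ccm_Lt K N) (AlgebraicClosure (ccm_Lt K N))).range := by
  obtain ⟨d, hne, hd, rfl⟩ := hs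
  haveI := hne
  set φ : LaurentSeries K →+* AlgebraicClosure (ccm_Lt K N) :=
    (algebraMap (ccm_Lt K N) (AlgebraicClosure (ccm_Lt K N))).comp
      ((ccm_toLt K N : LaurentSeries K →ₐ[K] ccm_Lt K N) : LaurentSeries K →+* ccm_Lt K N) with hφ
  have hτj : (τ : pls_Fb K N →+* AlgebraicClosure (ccm_Lt K N))
      ⟨jqModC K, jqModC_mem_full K N⟩ = φ (qExpand K N (jqModC K)) := by
    have h := τ.commutes (ccm_jK K N)
    rw [IsScalarTower.algebraMap_apply K⟮pls_jb K N⟯ (ccm_Lt K N)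
      (AlgebraicClosure (ccm_Lt K N))] at h
    exact h
  obtain ⟨ζ, m, hm, -, -, h⟩ := ccj_param_of (k := K) hRC N zN hzN φ
    (τ : pls_Fb K N →+* AlgebraicClosure (ccm_Lt K N)) hτj d hd
  exact ⟨ccm_toLt K N (pxs_subst K ζ m (jqModC K)), h.symm⟩

/-- **every minimal polynomial over `K(j)` of an element of `F_N` splits in `K((t))`**
(along `j ↦ J(t^N)`). -/
theorem ccm_splits (hRC : ccj_RootCases.{u, u} K) (zN : K) (hzN : IsPrimitiveRoot zN N)
    (x : pls_Fb K N) :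
    ((minpoly K⟮pls_jb K N⟯ x).map (ccm_base K N).toRingHom).Splits := by
  haveI := pls_finiteDimensional_jb K N
  haveI : Algebra.IsAlgebraic K⟮pls_jb K N⟯ (pls_Fb K N) := Algebra.IsAlgebraic.of_finite _ _
  have h := ccg_splits (K := K⟮pls_jb K N⟯) (F := pls_Fb K N) (L := ccm_Lt K N)
    (Om := AlgebraicClosure (ccm_Lt K N)) (ccm_adjoin_gens K N)
    (fun τ s hs => ccm_hall hRC zN hzN τ s hs) x
  exact h

/-- **the number of embeddings**: for `K` perfect, `#ccm_Emb K N = [F_N : K(j)]`. -/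
theorem ccm_ncard [PerfectField K] (hRC : ccj_RootCases.{u, u} K) (zN : K)
    (hzN : IsPrimitiveRoot zN N) :
    (ccm_Emb K N).ncard = Module.finrank K⟮pls_jb K N⟯ (pls_Fb K N) := by
  haveI := pls_finiteDimensional_jb K N
  haveI : Algebra.IsAlgebraic K⟮pls_jb K N⟯ (pls_Fb K N) := Algebra.IsAlgebraic.of_finite _ _
  haveI : Algebra.IsSeparable K⟮pls_jb K N⟯ (pls_Fb K N) :=
    @sepl_isSeparable_full K _ _ N ‹Algebra.IsAlgebraic K⟮pls_jb K N⟯ (pls_Fb K N)›
  rw [← Nat.card_coe_set_eq, ← Nat.card_congr (ccm_embEquiv K N)]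
  exact ccg_natCard_algHom (Om := AlgebraicClosure (ccm_Lt K N)) (ccm_adjoin_gens K N)
    (fun τ s hs => ccm_hall hRC zN hzN τ s hs)

end Galois

end

end Fermat.Agent.S18x
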