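/-
S18x/CuspConjEmbFinal (helper16; S18 block NRM, row N3f): UNCONDITIONAL forms of
`S18x/CuspConjEmb` (the hypothesis `ccj_RootCases` is discharged by `ccj_rootCases`,
`S18x/CuspConjFinal`), plus the bounded parameter form (`ccjb_param_id`, `S18x/CuspConjBound`),
the product formula `minpoly = ∏ (X - σ x)`.  Prefix `ccm_`.
-/
import Mathlib
import Fermat.Agent.S18x.CuspConjEmb
import Fermat.Agent.S18x.CuspConjFinal
import Fermat.Agent.S18x.CuspConjBound

set_option autoImplicit false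

namespace Fermat.Agent.S18x

open ModularCurve Polynomial IntermediateField Fermat.Agent.S28x

noncomputable section

universe u

section

set_option synthInstance.maxHeartbeats 400000

variable {K : Type u} [Field K] {N : ℕ} [NeZero N]

/-- **parameter form with bound** for the elements of `ccm_Emb K N`:
`σ(j(q^d)) = J(ζ t^m)`, `ζ^d = 1`, `(N/d) ∣ m`, `m ≤ N d`. -/
theorem ccm_param_bound (zN : K) (hzN : IsPrimitiveRoot zN N)
    {σ : modularFunctionFieldFullC K N →ₐ[K] LaurentSeries K} (hσ : σ ∈ ccm_Emb K N)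
    (d : ℕ) [NeZero d] (hd : d ∣ N) :
    ∃ (ζ : Kˣ) (m : ℕ) (_ : NeZero m), ζ ^ d = 1 ∧ N / d ∣ m ∧ m ≤ N * d ∧
      σ ⟨qExpand K d (jqModC K), jqModCd_mem_full K N hd⟩ = pxs_subst K ζ m (jqModC K) := by
  have := ccjb_param_id (k := K) N zN hzN
    (σ : modularFunctionFieldFullC K N →+* LaurentSeries K) hσ d hd
  simpa using this

/-- unconditional `ccm_param`. -/
theorem ccm_param_final (zN : K) (hzN : IsPrimitiveRoot zN N)
    {σ : modularFunctionFieldFullC K N →ₐ[K] LaurentSeries K} (hσ : σ ∈ ccm_Emb K N)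
    (d : ℕ) [NeZero d] (hd : d ∣ N) :
    ∃ (ζ : Kˣ) (m : ℕ) (_ : NeZero m), ζ ^ d = 1 ∧ N / d ∣ m ∧
      σ ⟨qExpand K d (jqModC K), jqModCd_mem_full K N hd⟩ = pxs_subst K ζ m (jqModC K) :=
  ccm_param (ccj_rootCases K) zN hzN hσ d hd

/-- unconditional `ccm_splits`: every minimal polynomial over `K(j)` of an element of `F_N`
splits in `K((t))` along `j ↦ J(t^N)`. -/
theorem ccm_splits_final (zN : K) (hzN : IsPrimitiveRoot zN N) (x : pls_Fb K N) :
    ((minpoly K⟮pls_jb K N⟯ x).map (ccm_base K N).toRingHom).Splits :=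
  ccm_splits (ccj_rootCases K) zN hzN x

/-- unconditional `ccm_ncard`: for `K` perfect, `#ccm_Emb K N = [F_N : K(j)]`. -/
theorem ccm_ncard_final [PerfectField K] (zN : K) (hzN : IsPrimitiveRoot zN N) :
    (ccm_Emb K N).ncard = Module.finrank K⟮pls_jb K N⟯ (pls_Fb K N) :=
  ccm_ncard (ccj_rootCases K) zN hzN

/-- `σ x` is a root of the minimal polynomial of `x` over `K(j)` (mapped along
`j ↦ J(t^N)`). -/
theorem ccm_eval_apply {σ : modularFunctionFieldFullC K N →ₐ[K] LaurentSeries K}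
    (hσ : σ ∈ ccm_Emb K N) (x : pls_Fb K N) :
    ((minpoly K⟮pls_jb K N⟯ x).map (ccm_base K N).toRingHom).eval (σ x) = 0 := by
  rw [Polynomial.eval_map]
  have h1 : (ccm_base K N).toRingHom =
      (σ : pls_Fb K N →+* LaurentSeries K).comp
        (algebraMap K⟮pls_jb K N⟯ (pls_Fb K N)) := by
    ext c
    exact congrArg (fun y : LaurentSeries K => y.coeff _) (ccm_apply_algebraMap hσ c).symm
  rw [h1]
  show Polynomial.eval₂ _ ((σ : pls_Fb K N →+* LaurentSeries K) x) _ = 0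
  rw [← Polynomial.hom_eval₂, ← Polynomial.aeval_def, minpoly.aeval, map_zero]

/-- every root in `K((t))` of the minimal polynomial of `x` over `K(j)` is `σ x` for some
`σ ∈ ccm_Emb K N`. -/
theorem ccm_exists_of_root (zN : K) (hzN : IsPrimitiveRoot zN N) (x : pls_Fb K N)
    (a : LaurentSeries K)
    (ha : ((minpoly K⟮pls_jb K N⟯ x).map (ccm_base K N).toRingHom).eval a = 0) :
    ∃ σ ∈ ccm_Emb K N, σ x = a := by
  haveI := pls_finiteDimensional_jb K N
  haveI : Algebra.IsAlgebraic K⟮pls_jb K N⟯ (pls_Fb K N) := Algebra.IsAlgebraic.of_finite _ _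
  have hOm : ∀ y : pls_Fb K N, IsIntegral K⟮pls_jb K N⟯ y ∧
      ((minpoly K⟮pls_jb K N⟯ y).map
        (algebraMap K⟮pls_jb K N⟯ (AlgebraicClosure (ccm_Lt K N)))).Splits :=
    fun y => ⟨Algebra.IsIntegral.isIntegral y, IsAlgClosed.splits _⟩
  have h0 : Polynomial.eval₂ (algebraMap K⟮pls_jb K N⟯ (ccm_Lt K N)) (ccm_toLt K N a)
      (minpoly K⟮pls_jb K N⟯ x) = 0 := by
    rw [Polynomial.eval_map] at ha
    exact ha
  have hroot : Polynomial.aeval
      (algebraMap (ccm_Lt K N) (AlgebraicClosure (ccm_Lt K N)) (ccm_toLt K N a))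
      (minpoly K⟮pls_jb K N⟯ x) = 0 := by
    rw [Polynomial.aeval_def, IsScalarTower.algebraMap_eq K⟮pls_jb K N⟯ (ccm_Lt K N)
      (AlgebraicClosure (ccm_Lt K N)), ← Polynomial.hom_eval₂, h0, map_zero]
  obtain ⟨τ, hτ⟩ := IntermediateField.exists_algHom_of_splits_of_aeval hOm hroot
  obtain ⟨τ', hτ'⟩ := ccg_exists_factor (L := ccm_Lt K N) (ccm_adjoin_gens K N) τ
    (fun s hs => ccm_hall (ccj_rootCases K) zN hzN τ s hs)
  refine ⟨(ccm_embEquiv K N τ').1, (ccm_embEquiv K N τ').2, ?_⟩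
  rw [ccm_embEquiv_apply]
  have h2 : τ' x = ccm_toLt K N a :=
    (algebraMap (ccm_Lt K N) (AlgebraicClosure (ccm_Lt K N))).injective (by rw [hτ' x, hτ])
  rw [h2]
  exact AlgEquiv.symm_apply_apply _ _

open scoped Classical in
/-- **product formula**: for `K` perfect, the minimal polynomial of `x ∈ F_N` over `K(j)`, mapped
to `K((t))` along `j ↦ J(t^N)`, is the product of `X - a` over the DISTINCT conjugates
`a = σ x`, `σ ∈ ccm_Emb K N`. -/
theorem ccm_map_minpoly_eq_prod [PerfectField K] (zN : K) (hzN : IsPrimitiveRoot zN N)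
    (x : pls_Fb K N) :
    (minpoly K⟮pls_jb K N⟯ x).map (ccm_base K N).toRingHom =
      ∏ a ∈ (ccm_finite K N).toFinset.image (fun σ => σ x), (X - C a) := by
  haveI := pls_finiteDimensional_jb K N
  haveI : Algebra.IsAlgebraic K⟮pls_jb K N⟯ (pls_Fb K N) := Algebra.IsAlgebraic.of_finite _ _
  haveI : Algebra.IsSeparable K⟮pls_jb K N⟯ (pls_Fb K N) :=
    @sepl_isSeparable_full K _ _ N ‹Algebra.IsAlgebraic K⟮pls_jb K N⟯ (pls_Fb K N)›
  set p := (minpoly K⟮pls_jb K N⟯ x).map (ccm_base K N).toRingHom with hp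
  have hmonic : p.Monic := (minpoly.monic (Algebra.IsIntegral.isIntegral x)).map _
  have hsplit : p.Splits := ccm_splits_final zN hzN x
  have hsep : p.Separable :=
    Polynomial.Separable.map (Algebra.IsSeparable.isSeparable K⟮pls_jb K N⟯ x)
  have hnodup : p.roots.Nodup := Polynomial.nodup_roots hsep
  have hroots : p.roots.toFinset = (ccm_finite K N).toFinset.image (fun σ => σ x) := by
    ext a
    rw [Multiset.mem_toFinset, Polynomial.mem_roots hmonic.ne_zero, Polynomial.IsRoot.def,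
      Finset.mem_image]
    constructor
    · intro ha
      obtain ⟨σ, hσ, hσx⟩ := ccm_exists_of_root zN hzN x a ha
      exact ⟨σ, (Set.Finite.mem_toFinset _).mpr hσ, hσx⟩
    · rintro ⟨σ, hσ, rfl⟩
      exact ccm_eval_apply ((Set.Finite.mem_toFinset _).mp hσ) x
  conv_lhs => rw [hsplit.eq_prod_roots_of_monic hmonic]
  rw [← hroots, Finset.prod_eq_multiset_prod, Multiset.toFinset_val,
    Multiset.dedup_eq_self.mpr hnodup]

/-- two elements of `ccm_Emb K N` agreeing on a primitive element of `F_N / K(j)` are equal. -/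
theorem ccm_injOn_of_primitive (x : pls_Fb K N) (hx : K⟮pls_jb K N⟯⟮x⟯ = ⊤) :
    Set.InjOn (fun σ : modularFunctionFieldFullC K N →ₐ[K] LaurentSeries K => σ x)
      (ccm_Emb K N) := by
  intro σ hσ σ' hσ' hxx
  set τ := (ccm_embEquiv K N).symm ⟨σ, hσ⟩ with hτ
  set τ' := (ccm_embEquiv K N).symm ⟨σ', hσ'⟩ with hτ'
  have hτx : ∀ y, τ y = ccm_toLt K N (σ y) := fun y => rfl
  have hτ'x : ∀ y, τ' y = ccm_toLt K N (σ' y) := fun y => rfl
  have key : τ.comp (IntermediateField.topEquiv (F := K⟮pls_jb K N⟯) (E := pls_Fb K N) :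
        (⊤ : IntermediateField K⟮pls_jb K N⟯ (pls_Fb K N)) →ₐ[K⟮pls_jb K N⟯] pls_Fb K N) =
      τ'.comp (IntermediateField.topEquiv (F := K⟮pls_jb K N⟯) (E := pls_Fb K N) :
        (⊤ : IntermediateField K⟮pls_jb K N⟯ (pls_Fb K N)) →ₐ[K⟮pls_jb K N⟯] pls_Fb K N) := by
    refine IntermediateField.algHom_ext_of_eq_adjoin K⟮pls_jb K N⟯ hx.symm ?_
    intro y hy
    rw [Set.mem_singleton_iff] at hy
    subst hy
    show τ y = τ' y
    rw [hτx, hτ'x]
    exact congrArg _ hxx
  refine AlgHom.ext fun y => ?_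
  have h := DFunLike.congr_fun key ⟨y, IntermediateField.mem_top⟩
  have h' : τ y = τ' y := h
  rw [hτx, hτ'x] at h'
  exact (ccm_toLt K N).injective h'

/-- **product formula for a primitive element**: `∏_{σ ∈ ccm_Emb K N} (X - σ x)`. -/
theorem ccm_map_minpoly_eq_prod_of_primitive [PerfectField K] (zN : K)
    (hzN : IsPrimitiveRoot zN N) (x : pls_Fb K N) (hx : K⟮pls_jb K N⟯⟮x⟯ = ⊤) :
    (minpoly K⟮pls_jb K N⟯ x).map (ccm_base K N).toRingHom =
      ∏ σ ∈ (ccm_finite K N).toFinset, (X - C (σ x)) := by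
  classical
  rw [ccm_map_minpoly_eq_prod zN hzN x, Finset.prod_image]
  intro σ hσ σ' hσ' h
  exact ccm_injOn_of_primitive x hx ((Set.Finite.mem_toFinset _).mp hσ)
    ((Set.Finite.mem_toFinset _).mp hσ') h

end

end

end Fermat.Agent.S18x
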