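/-
S18 project, block NRM, row N3 (helper23, prefix `cch_`): two abstract inputs of `ccq_exists_G`
(`S18x/CuspConjCompat.lean`) for the family of all embeddings of `F_N` into the Puiseux field:

* `cch_prod_eq_map_minpoly`: if `σ i : F → S` (`i ∈ I` finite) are ring homs over `ι : K → S`,
  the values `σ i x` are pairwise distinct and `card I = deg (minpoly K x)`, then
  `∏ (X - σ i x) = (minpoly K x).map ι`  (so the coefficients of the product lie in `ι K`);
* `cch_isIntegral_map`: transport of integrality along ring homs.
-/
import Mathlib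

set_option autoImplicit false

namespace Fermat.Agent.S18x

open Polynomial

noncomputable section

/-- a monic polynomial over a domain with `deg` many pairwise distinct given roots is the
product of the corresponding linear factors. -/
theorem cch_eq_prod_of_roots {S : Type*} [CommRing S] [IsDomain S] {I : Type*} [Fintype I]
    (p : Polynomial S) (hp : p.Monic) (r : I → S) (hr : Function.Injective r)
    (hroot : ∀ i, p.eval (r i) = 0) (hcard : Fintype.card I = p.natDegree) :
    ∏ i, (X - C (r i)) = p := by
  classical
  have hp0 : p ≠ 0 := hp.ne_zero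
  have hle : (Finset.univ.val.map r) ≤ p.roots := by
    rw [Multiset.le_iff_subset]
    · intro a ha
      obtain ⟨i, -, rfl⟩ := Multiset.mem_map.mp ha
      exact (Polynomial.mem_roots hp0).mpr (hroot i)
    · exact (Multiset.nodup_map_iff_of_injective hr).mpr Finset.univ.nodup
  have hdvd : (∏ i, (X - C (r i))) ∣ p := by
    have h1 : ((Finset.univ.val.map r).map fun a => X - C a).prod ∣
        (p.roots.map fun a => X - C a).prod :=
      Multiset.prod_dvd_prod_of_le (Multiset.map_le_map hle)
    have h2 : ((Finset.univ.val.map r).map fun a => X - C a).prod = ∏ i, (X - C (r i)) := by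
      rw [Multiset.map_map]
      rfl
    rw [h2] at h1
    exact h1.trans (Polynomial.prod_multiset_X_sub_C_dvd p)
  have hmonic : (∏ i, (X - C (r i))).Monic :=
    Polynomial.monic_prod_of_monic _ _ (fun i _ => Polynomial.monic_X_sub_C _)
  have hdeg : (∏ i, (X - C (r i))).natDegree = Fintype.card I := by
    rw [Polynomial.natDegree_prod_of_monic _ _ (fun i _ => Polynomial.monic_X_sub_C _)]
    simp
  exact (Polynomial.eq_of_monic_of_dvd_of_natDegree_le hmonic hp hdvd
    (by rw [hdeg, hcard])).symm

/-- **`hrat`**: the product over a full family of embeddings separated by `x` is the image of the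
minimal polynomial of `x`. -/
theorem cch_prod_eq_map_minpoly {K F S : Type*} [Field K] [Field F] [Algebra K F] [CommRing S]
    [IsDomain S] (ι : K →+* S) {I : Type*} [Fintype I] (σ : I → F →+* S)
    (hσ : ∀ i (c : K), σ i (algebraMap K F c) = ι c) (x : F) (hx : IsIntegral K x)
    (hinj : Function.Injective fun i => σ i x)
    (hcard : Fintype.card I = (minpoly K x).natDegree) :
    ∏ i, (X - C (σ i x)) = (minpoly K x).map ι := by
  refine cch_eq_prod_of_roots ((minpoly K x).map ι) ((minpoly.monic hx).map ι) (fun i => σ i x)
    hinj (fun i => ?_) (by rw [(minpoly.monic hx).natDegree_map, hcard])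
  rw [Polynomial.eval_map]
  have h1 : ι = (σ i).comp (algebraMap K F) := RingHom.ext fun c => (hσ i c).symm
  rw [h1, ← Polynomial.hom_eval₂, ← Polynomial.aeval_def, minpoly.aeval, map_zero]

/-- every coefficient of the product lies in the image of `K`. -/
theorem cch_coeff_mem_range {K F S : Type*} [Field K] [Field F] [Algebra K F] [CommRing S]
    [IsDomain S] (ι : K →+* S) {I : Type*} [Fintype I] (σ : I → F →+* S)
    (hσ : ∀ i (c : K), σ i (algebraMap K F c) = ι c) (x : F) (hx : IsIntegral K x)
    (hinj : Function.Injective fun i => σ i x)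
    (hcard : Fintype.card I = (minpoly K x).natDegree) (r : ℕ) :
    (∏ i, (X - C (σ i x))).coeff r ∈ ι.range := by
  rw [cch_prod_eq_map_minpoly ι σ hσ x hx hinj hcard, Polynomial.coeff_map]
  exact ⟨_, rfl⟩

/-- **`hint`**: transport of integrality along a ring hom `σ : F → S` which maps the subring
`R₀ ⊆ F` into the subring `R₁ ⊆ S`. -/
theorem cch_isIntegral_map {F S : Type*} [CommRing F] [CommRing S] (R₀ : Subring F)
    (R₁ : Subring S) (σ : F →+* S) (hσ : ∀ a ∈ R₀, σ a ∈ R₁) (y : F) (hy : IsIntegral R₀ y) :
    IsIntegral R₁ (σ y) := by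
  let φ : R₀ →+* R₁ := (σ.comp R₀.subtype).codRestrict R₁ (fun a => hσ a a.2)
  exact hy.map_of_comp_eq φ σ (RingHom.ext fun a => rfl)

end

end Fermat.Agent.S18x
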