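/-
S18 project, block NRM, row N3 (helper23, prefix `cch2_`): **assembly of (H2), Laurent-series
form**.  For a finite family `σ i` of `L`-algebra embeddings of `F_N(L)` into the Puiseux field
`L((t))` over `j ↦ J(t^N)` whose product polynomial `∏ (X - σ i (j_N))` has coefficients in
`L(J(t^N))` (e.g. the family of ALL such embeddings), and a subring `A ⊆ L` containing a primitive
`N`-th root of unity: there are exponents `e i`, `m i ≤ N^2` with
`σ i (j_N) = J(zA^{e i} t^{m i})` (coefficients in `A`) and a polynomial `G ∈ A[j][X]`, monic in `X`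
of degree `card`, with `G(J(t^N), X) = ∏ (X - J(zA^{e i} t^{m i}))` over `A((t))`.
-/
import Mathlib
import Fermat.Agent.S18x.CuspConjBound
import Fermat.Agent.S18x.CuspConjCompat
import Fermat.Agent.S18x.CuspConjInt
import Fermat.Agent.S18x.CuspConjH2Core
import Fermat.Agent.S28x.ModPolyConsFinal

set_option autoImplicit false

namespace Fermat.Agent.S18x

open ModularCurve Polynomial Fermat.Agent.S28x

noncomputable section

variable {L : Type*} [Field L] (N : ℕ) [NeZero N]

/-- a monic relation `P(j, j_N) = 0` inside `F_N`. -/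
theorem cch2_exists_rel :
    ∃ P : Polynomial (Polynomial L), P.Monic ∧
      P.eval₂ (Polynomial.aeval (R := L)
        (⟨jqModC L, jqModC_mem_full L N⟩ : modularFunctionFieldFullC L N)).toRingHom
        (⟨qExpand L N (jqModC L), jqModCd_mem_full L N dvd_rfl⟩ :
          modularFunctionFieldFullC L N) = 0 := by
  obtain ⟨P, hPm, hP⟩ := mpcf_exists_monic_jqd L N
  refine ⟨P, hPm, ?_⟩
  apply (algebraMap (modularFunctionFieldFullC L N) (LaurentSeries L)).injective
  rw [Polynomial.hom_eval₂, map_zero]
  have : (algebraMap (modularFunctionFieldFullC L N) (LaurentSeries L)).comp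
      (Polynomial.aeval (R := L)
        (⟨jqModC L, jqModC_mem_full L N⟩ : modularFunctionFieldFullC L N)).toRingHom
      = (Polynomial.aeval (R := L) (jqModC L)).toRingHom := by
    refine Polynomial.ringHom_ext (fun a => ?_) ?_
    · simp
    · simp
  rw [this]
  exact hP

/-- **`hint`**: the image of `j(q^N)` under an `L`-algebra hom `σ : F_N → L((t))` over
`j ↦ J(t^N)` is integral over `L[J(t^N)]`. -/
theorem cch2_isIntegral (σ : modularFunctionFieldFullC L N →ₐ[L] LaurentSeries L)
    (hσj : σ ⟨jqModC L, jqModC_mem_full L N⟩ = qExpand L N (jqModC L)) :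
    IsIntegral (Algebra.adjoin L {qExpand L N (jqModC L)})
      (σ ⟨qExpand L N (jqModC L), jqModCd_mem_full L N dvd_rfl⟩) := by
  obtain ⟨P, hPm, hrelF⟩ := cch2_exists_rel (L := L) N
  set jF : modularFunctionFieldFullC L N := ⟨jqModC L, jqModC_mem_full L N⟩ with hjF
  set jN : modularFunctionFieldFullC L N :=
    ⟨qExpand L N (jqModC L), jqModCd_mem_full L N dvd_rfl⟩ with hjN
  -- apply `σ`
  have h3 := congrArg σ hrelF
  rw [map_zero] at h3
  have h4 : σ (P.eval₂ (Polynomial.aeval (R := L) jF).toRingHom jN)
      = P.eval₂ ((σ : modularFunctionFieldFullC L N →+* LaurentSeries L).comp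
          (Polynomial.aeval (R := L) jF).toRingHom) (σ jN) :=
    Polynomial.hom_eval₂ P _ (σ : modularFunctionFieldFullC L N →+* LaurentSeries L) _
  rw [h4] at h3
  have h5 : (σ : modularFunctionFieldFullC L N →+* LaurentSeries L).comp
      (Polynomial.aeval (R := L) jF).toRingHom
      = (Polynomial.aeval (R := L) (qExpand L N (jqModC L))).toRingHom := by
    refine Polynomial.ringHom_ext (fun a => ?_) ?_
    · simp
    · simp [hσj]
  rw [h5] at h3
  exact sa_isIntegral_subalgebra_of_rel _ P hPm _ _ (Algebra.self_mem_adjoin_singleton _ _) h3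

section assembly

variable (A : Subring L) (zA : Aˣ) (hz : IsPrimitiveRoot ((zA : A) : L) N)
  {ι : Type*} [Fintype ι] (σ : ι → modularFunctionFieldFullC L N →ₐ[L] LaurentSeries L)

include hz in
/-- **(H2), Laurent-series form, from a family of embeddings with rational product
polynomial.** -/
theorem cch2_H2_of
    (hσj : ∀ i, σ i ⟨jqModC L, jqModC_mem_full L N⟩ = qExpand L N (jqModC L))
    (hrat : ∀ r, (∏ i, (Polynomial.X - Polynomial.C
      (σ i ⟨qExpand L N (jqModC L), jqModCd_mem_full L N dvd_rfl⟩))).coeff r ∈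
        IntermediateField.adjoin L {qExpand L N (jqModC L)}) :
    ∃ (e : ι → ℕ) (m : ι → ℕ) (_ : ∀ i, NeZero (m i)) (G : Polynomial (Polynomial A)),
      (∀ i, e i < N) ∧ (∀ i, m i ≤ N * N) ∧ G.Monic ∧ G.natDegree = Fintype.card ι ∧
      (∀ i, σ i ⟨qExpand L N (jqModC L), jqModCd_mem_full L N dvd_rfl⟩ =
        coeffMap A.subtype (pxs_subst A (zA ^ e i) (m i) (jqModC A))) ∧
      G.map (Polynomial.aeval (R := A) (qExpand A N (jqModC A))).toRingHom =
        ∏ i, (Polynomial.X - Polynomial.C (pxs_subst A (zA ^ e i) (m i) (jqModC A))) := by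
  classical
  -- parameters of each embedding
  have hpar : ∀ i, ∃ (e m : ℕ) (_ : NeZero m), e < N ∧ m ≤ N * N ∧
      σ i ⟨qExpand L N (jqModC L), jqModCd_mem_full L N dvd_rfl⟩ =
        coeffMap A.subtype (pxs_subst A (zA ^ e) m (jqModC A)) := by
    intro i
    obtain ⟨ζ, m, hm, hζ, -, hle, h⟩ := ccjb_param_id (k := L) N ((zA : A) : L) hz
      (σ i : modularFunctionFieldFullC L N →+* LaurentSeries L) (hσj i) N dvd_rfl
    obtain ⟨e, he, h'⟩ := cci_exists_integral A.subtype zA hz ζ hζ m
    exact ⟨e, m, hm, he, hle, by rw [← h']; exact h⟩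
  choose e m hm he hle hpar using hpar
  set Y : ι → LaurentSeries A := fun i => pxs_subst A (zA ^ e i) (m i) (jqModC A) with hY
  have hYσ : ∀ i, coeffMap A.subtype (Y i) =
      σ i ⟨qExpand L N (jqModC L), jqModCd_mem_full L N dvd_rfl⟩ := fun i => (hpar i).symm
  obtain ⟨G, hGm, hGd, hG⟩ := ccq_exists_G A N Y
    (fun i => by rw [hYσ i]; exact cch2_isIntegral N (σ i) (hσj i))
    (fun r => by
      have : (fun i => Polynomial.X - Polynomial.C (coeffMap A.subtype (Y i)))
          = fun i => Polynomial.X - Polynomial.C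
            (σ i ⟨qExpand L N (jqModC L), jqModCd_mem_full L N dvd_rfl⟩) := by
        funext i
        rw [hYσ i]
      rw [this]
      exact hrat r)
  exact ⟨e, m, hm, G, he, hle, hGm, hGd, hpar, hG⟩

set_option synthInstance.maxHeartbeats 400000 in
set_option maxHeartbeats 1600000 in
/-- **`hrat`** from a counting hypothesis: a family of embeddings separated by `j_N` whose
cardinality is the degree of `j_N` over `L(j)` has product polynomial with coefficients in
`L(J(t^N))`. -/
theorem cch2_hrat
    (hσj : ∀ i, σ i ⟨jqModC L, jqModC_mem_full L N⟩ = qExpand L N (jqModC L))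
    (hinj : Function.Injective fun i =>
      σ i ⟨qExpand L N (jqModC L), jqModCd_mem_full L N dvd_rfl⟩)
    (hcard : Fintype.card ι = (minpoly (IntermediateField.adjoin L
      {(⟨jqModC L, jqModC_mem_full L N⟩ : modularFunctionFieldFullC L N)})
      (⟨qExpand L N (jqModC L), jqModCd_mem_full L N dvd_rfl⟩ :
        modularFunctionFieldFullC L N)).natDegree) (r : ℕ) :
    (∏ i, (Polynomial.X - Polynomial.C
      (σ i ⟨qExpand L N (jqModC L), jqModCd_mem_full L N dvd_rfl⟩))).coeff r ∈
        IntermediateField.adjoin L {qExpand L N (jqModC L)} := by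
  set jF : modularFunctionFieldFullC L N := ⟨jqModC L, jqModC_mem_full L N⟩ with hjF
  set jN : modularFunctionFieldFullC L N :=
    ⟨qExpand L N (jqModC L), jqModCd_mem_full L N dvd_rfl⟩ with hjN
  -- the common restriction to `L(j)`
  set φ : modularFunctionFieldFullC L N →ₐ[L] LaurentSeries L :=
    (qExpandAlgHomC L N).comp (modularFunctionFieldFullC L N).val with hφ
  have hφj : φ jF = qExpand L N (jqModC L) := rfl
  have hres : ∀ i, (σ i).comp (IntermediateField.adjoin L {jF}).val
      = φ.comp (IntermediateField.adjoin L {jF}).val := by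
    intro i
    apply IntermediateField.adjoin_algHom_ext
    intro x hx
    rw [Set.mem_singleton_iff] at hx
    subst hx
    show σ i jF = φ jF
    rw [hσj i, hφj]
  -- integrality of `j_N` over `L(j)`
  have hint : IsIntegral (IntermediateField.adjoin L {jF}) jN := by
    obtain ⟨P, hPm, hrelF⟩ := cch2_exists_rel (L := L) N
    exact sa_isIntegral_subalgebra_of_rel (IntermediateField.adjoin L {jF}).toSubalgebra P hPm
      jF jN (IntermediateField.subset_adjoin L _ (Set.mem_singleton jF)) hrelF
  have hmem := cch_coeff_mem_range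
    ((φ.comp (IntermediateField.adjoin L {jF}).val :
      (IntermediateField.adjoin L {jF}) →ₐ[L] LaurentSeries L) :
        (IntermediateField.adjoin L {jF}) →+* _)
    (fun i => ((σ i : modularFunctionFieldFullC L N →ₐ[L] LaurentSeries L) :
      modularFunctionFieldFullC L N →+* LaurentSeries L))
    (fun i c => by
      have := congrArg
        (fun ψ : (IntermediateField.adjoin L {jF}) →ₐ[L] LaurentSeries L => ψ c) (hres i)
      exact this) jN hint hinj hcard r
  obtain ⟨c, hc⟩ := hmem
  -- the image of `L(j)` lies in `L(J(t^N))`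
  have hmap : (IntermediateField.adjoin L {jF}).map φ
      = IntermediateField.adjoin L {qExpand L N (jqModC L)} := by
    rw [IntermediateField.adjoin_map, Set.image_singleton, hφj]
  have hc' : φ (c : modularFunctionFieldFullC L N)
      = (∏ i, (Polynomial.X - Polynomial.C ((σ i) jN))).coeff r := hc
  rw [← hc', ← hmap]
  exact ⟨c, c.2, rfl⟩

include hz in
/-- **(H2), Laurent-series form, from a separated family of embeddings of the right
cardinality.** -/
theorem cch2_H2_of_card
    (hσj : ∀ i, σ i ⟨jqModC L, jqModC_mem_full L N⟩ = qExpand L N (jqModC L))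
    (hinj : Function.Injective fun i =>
      σ i ⟨qExpand L N (jqModC L), jqModCd_mem_full L N dvd_rfl⟩)
    (hcard : Fintype.card ι = (minpoly (IntermediateField.adjoin L
      {(⟨jqModC L, jqModC_mem_full L N⟩ : modularFunctionFieldFullC L N)})
      (⟨qExpand L N (jqModC L), jqModCd_mem_full L N dvd_rfl⟩ :
        modularFunctionFieldFullC L N)).natDegree) :
    ∃ (e : ι → ℕ) (m : ι → ℕ) (_ : ∀ i, NeZero (m i)) (G : Polynomial (Polynomial A)),
      (∀ i, e i < N) ∧ (∀ i, m i ≤ N * N) ∧ G.Monic ∧ G.natDegree = Fintype.card ι ∧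
      (∀ i, σ i ⟨qExpand L N (jqModC L), jqModCd_mem_full L N dvd_rfl⟩ =
        coeffMap A.subtype (pxs_subst A (zA ^ e i) (m i) (jqModC A))) ∧
      G.map (Polynomial.aeval (R := A) (qExpand A N (jqModC A))).toRingHom =
        ∏ i, (Polynomial.X - Polynomial.C (pxs_subst A (zA ^ e i) (m i) (jqModC A))) :=
  cch2_H2_of N A zA hz σ hσj (cch2_hrat N σ hσj hinj hcard)

end assembly

end

end Fermat.Agent.S18x
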