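/-
S18 project, NRM block, row N3m-hint (helper89): the hypothesis `(hint)` of `ccq_exists_G`
(`S18x/CuspConjCompat.lean`).

For every ring hom `σ : F̃_N(L) →+* S` into a commutative `L`-algebra `S` which is the identity on
constants, `σ(j(q^d))` (`d ∣ N`) is integral over `L[σ(j)]`: transport of the two-variable monic
relation `P(j, j(q^d)) = 0` (`S28x.mpcf_exists_monic_jqd`, i.e. the modular polynomials) along `σ`.

Corollary (`cchi_hint`): for an `L`-algebra hom `σ : F̃_N(L) →ₐ[L] L((t))` with
`σ(j) = J(t^N)`, the series `σ(j_N)` is integral over `L[J(t^N)]` -- literally the shape of `(hint)`.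
Prefix `cchi_`.
-/
import Fermat.Agent.S28x.ModPolyConsFinal

set_option autoImplicit false

open ModularCurve Polynomial

namespace Fermat.Agent.S18x

noncomputable section

open Fermat.Agent.S28x

/-- transport of `aeval` along a ring hom which is compatible with the algebra maps -/
theorem cchi_comp_aeval {L F S : Type*} [CommRing L] [CommRing F] [CommRing S]
    [Algebra L F] [Algebra L S] (σ : F →+* S)
    (hσ : ∀ c : L, σ (algebraMap L F c) = algebraMap L S c) (y : F) :
    σ.comp (Polynomial.aeval (R := L) y).toRingHom =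
      (Polynomial.aeval (R := L) (σ y)).toRingHom := by
  refine Polynomial.ringHom_ext (fun a => ?_) ?_
  · simp [hσ]
  · simp

/-- **abstract transport**: a two-variable relation `P(y, z) = 0`, `P ∈ L[Y][X]` monic in `X`,
is transported by any ring hom `σ` compatible with the algebra maps into integrality of `σ z` over
`L[σ y]`. -/
theorem cchi_isIntegral_map_of_eval₂ {L F S : Type*} [CommRing L] [CommRing F] [CommRing S]
    [Algebra L F] [Algebra L S] (σ : F →+* S)
    (hσ : ∀ c : L, σ (algebraMap L F c) = algebraMap L S c) (y z : F)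
    (P : Polynomial (Polynomial L)) (hP : P.Monic)
    (hz : P.eval₂ (Polynomial.aeval (R := L) y).toRingHom z = 0) :
    IsIntegral (Algebra.adjoin L {σ y}) (σ z) := by
  have hy : IsIntegral (Algebra.adjoin L {σ y}) (σ y) := by
    have hmem : σ y ∈ Algebra.adjoin L {σ y} := Algebra.subset_adjoin rfl
    exact isIntegral_algebraMap (x := (⟨σ y, hmem⟩ : Algebra.adjoin L {σ y}))
  refine mpc_isIntegral_of_eval₂ (Algebra.adjoin L {σ y}) (σ y) (σ z) hy P hP ?_
  have := congrArg σ hz
  rw [Polynomial.hom_eval₂, cchi_comp_aeval σ hσ, map_zero] at this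
  exact this

section field

variable (L : Type*) [Field L] (N : ℕ) [NeZero N]

/-- the two-variable monic relation `P(j, j(q^d)) = 0` inside `F̃_N(L)` -/
theorem cchi_exists_monic_full {d : ℕ} [NeZero d] (hd : d ∣ N) :
    ∃ P : Polynomial (Polynomial L), P.Monic ∧
      P.eval₂ (Polynomial.aeval (R := L)
          (⟨jqModC L, jqModC_mem_full L N⟩ : modularFunctionFieldFullC L N)).toRingHom
        (⟨qExpand L d (jqModC L), jqModCd_mem_full L N hd⟩ : modularFunctionFieldFullC L N) = 0 := by
  obtain ⟨P, hP, h0⟩ := mpcf_exists_monic_jqd L d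
  refine ⟨P, hP, ?_⟩
  apply Subtype.val_injective
  have hval := cchi_comp_aeval (L := L) (modularFunctionFieldFullC L N).val.toRingHom
    (fun c => rfl) (⟨jqModC L, jqModC_mem_full L N⟩ : modularFunctionFieldFullC L N)
  have h1 : (modularFunctionFieldFullC L N).val.toRingHom
      (P.eval₂ (Polynomial.aeval (R := L)
          (⟨jqModC L, jqModC_mem_full L N⟩ : modularFunctionFieldFullC L N)).toRingHom
        (⟨qExpand L d (jqModC L), jqModCd_mem_full L N hd⟩ : modularFunctionFieldFullC L N)) = 0 := by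
    rw [Polynomial.hom_eval₂, hval]
    exact h0
  exact h1

/-- **(hint), general form**: for every ring hom `σ : F̃_N(L) →+* S` into a commutative
`L`-algebra which is compatible with the constants, `σ(j(q^d))` is integral over `L[σ(j)]`
(`d ∣ N`). -/
theorem cchi_isIntegral_ringHom {S : Type*} [CommRing S] [Algebra L S]
    (σ : modularFunctionFieldFullC L N →+* S)
    (hσ : ∀ c : L, σ (algebraMap L (modularFunctionFieldFullC L N) c) = algebraMap L S c)
    {d : ℕ} [NeZero d] (hd : d ∣ N) :
    IsIntegral (Algebra.adjoin L {σ ⟨jqModC L, jqModC_mem_full L N⟩})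
      (σ ⟨qExpand L d (jqModC L), jqModCd_mem_full L N hd⟩) := by
  obtain ⟨P, hP, h0⟩ := cchi_exists_monic_full L N hd
  exact cchi_isIntegral_map_of_eval₂ σ hσ _ _ P hP h0

/-- the same with the value `J0 = σ(j)` as a parameter -/
theorem cchi_isIntegral_ringHom' {S : Type*} [CommRing S] [Algebra L S]
    (σ : modularFunctionFieldFullC L N →+* S)
    (hσ : ∀ c : L, σ (algebraMap L (modularFunctionFieldFullC L N) c) = algebraMap L S c)
    (J0 : S) (hJ : σ ⟨jqModC L, jqModC_mem_full L N⟩ = J0)
    {d : ℕ} [NeZero d] (hd : d ∣ N) :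
    IsIntegral (Algebra.adjoin L {J0})
      (σ ⟨qExpand L d (jqModC L), jqModCd_mem_full L N hd⟩) := by
  subst hJ
  exact cchi_isIntegral_ringHom L N σ hσ hd

/-- `AlgHom` form. -/
theorem cchi_isIntegral_algHom {S : Type*} [CommRing S] [Algebra L S]
    (σ : modularFunctionFieldFullC L N →ₐ[L] S)
    (J0 : S) (hJ : σ ⟨jqModC L, jqModC_mem_full L N⟩ = J0)
    {d : ℕ} [NeZero d] (hd : d ∣ N) :
    IsIntegral (Algebra.adjoin L {J0})
      (σ ⟨qExpand L d (jqModC L), jqModCd_mem_full L N hd⟩) :=
  cchi_isIntegral_ringHom' L N σ.toRingHom (fun c => σ.commutes c) J0 hJ hd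

/-- **(hint)**, literal shape of the hypothesis of `ccq_exists_G`: for an `L`-embedding
`σ : F̃_N(L) →ₐ[L] L((t))` with `σ(j) = J(t^N)`, the conjugate `σ(j_N)` of `j_N = j(q^N)` is
integral over `L[J(t^N)]`. -/
theorem cchi_hint (σ : modularFunctionFieldFullC L N →ₐ[L] LaurentSeries L)
    (hσ : σ ⟨jqModC L, jqModC_mem_full L N⟩ = qExpand L N (jqModC L)) :
    IsIntegral (Algebra.adjoin L {qExpand L N (jqModC L)})
      (σ ⟨qExpand L N (jqModC L), jqModCd_mem_full L N dvd_rfl⟩) :=
  cchi_isIntegral_algHom L N σ _ hσ dvd_rfl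

/-- **(hint)** for all `d ∣ N`. -/
theorem cchi_hint_dvd (σ : modularFunctionFieldFullC L N →ₐ[L] LaurentSeries L)
    (hσ : σ ⟨jqModC L, jqModC_mem_full L N⟩ = qExpand L N (jqModC L))
    {d : ℕ} [NeZero d] (hd : d ∣ N) :
    IsIntegral (Algebra.adjoin L {qExpand L N (jqModC L)})
      (σ ⟨qExpand L d (jqModC L), jqModCd_mem_full L N hd⟩) :=
  cchi_isIntegral_algHom L N σ _ hσ hd

end field

end

end Fermat.Agent.S18x
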