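/-
S18 project, NRM block, row N3 (helper83, prefix `cchg_`): HOMOGENISATION step of (H2).

Abstract algebra (Mathlib only in the first part): let `G ∈ A[X][Y]` be monic in `Y` of degree `n`
with `deg_X (coeff_Y^k G) ≤ N (n - k)`, and let `J, x` be elements of an `A`-algebra-like ring `S`
(`φ : A →+* S`) with `J x = 1`.  Put
  `f := ∑_k Y^k · X^(N(n-k)) g_k(1/X)`   (`cchg_f N G`, `g_k = coeff_Y^k G`).
Then `f` is monic in `Y` of degree `n` and, whenever `G(J, Y) = ∏_i (Y - Y_i)` in `S[Y]`,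
  `f(x, Y) = ∏_i (Y - x^N Y_i)`.
Second part: the instance `S = A((t))`, `J = j(t^N)`, `x = x(t^N)` (`cci_xN`), `Y_i = J(ζ_i t^(m_i))`,
in POWER SERIES form with `cci_yc` (helper35's (H2)).
-/
import Mathlib
import Fermat.Agent.S18x.CuspConjInt

set_option autoImplicit false

noncomputable section

namespace Fermat.Agent.S18x

open Polynomial

section Abstract

variable {A S : Type*} [CommRing A] [CommRing S]

/-- the homogenised polynomial `f = ∑_k Y^k · X^(N(n-k)) g_k(1/X)`, `n = deg_Y G`. -/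
def cchg_f (N : ℕ) (G : Polynomial (Polynomial A)) : Polynomial (Polynomial A) :=
  ∑ k ∈ Finset.range (G.natDegree + 1),
    monomial k (reflect (N * (G.natDegree - k)) (G.coeff k))

theorem cchg_f_coeff (N : ℕ) (G : Polynomial (Polynomial A)) (k : ℕ) :
    (cchg_f N G).coeff k =
      if k ≤ G.natDegree then reflect (N * (G.natDegree - k)) (G.coeff k) else 0 := by
  rw [cchg_f, finsetSum_coeff]
  simp only [coeff_monomial]
  split_ifs with h
  · rw [Finset.sum_eq_single k]
    · rw [if_pos rfl]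
    · intro b _ hb
      rw [if_neg hb]
    · intro hk
      exact absurd (Finset.mem_range.mpr (Nat.lt_succ_of_le h)) hk
  · apply Finset.sum_eq_zero
    intro b hb
    rw [if_neg]
    rintro rfl
    exact h (Nat.lt_succ_iff.mp (Finset.mem_range.mp hb))

theorem cchg_f_natDegree_le (N : ℕ) (G : Polynomial (Polynomial A)) :
    (cchg_f N G).natDegree ≤ G.natDegree := by
  rw [natDegree_le_iff_coeff_eq_zero]
  intro k hk
  rw [cchg_f_coeff, if_neg (not_le.mpr hk)]

theorem cchg_f_coeff_natDegree (N : ℕ) {G : Polynomial (Polynomial A)} (hG : G.Monic) :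
    (cchg_f N G).coeff G.natDegree = 1 := by
  rw [cchg_f_coeff, if_pos le_rfl, Nat.sub_self, mul_zero, hG.coeff_natDegree]
  simp

theorem cchg_f_monic (N : ℕ) {G : Polynomial (Polynomial A)} (hG : G.Monic) :
    (cchg_f N G).Monic :=
  monic_of_natDegree_le_of_coeff_eq_one _ (cchg_f_natDegree_le N G) (cchg_f_coeff_natDegree N hG)

theorem cchg_f_natDegree (N : ℕ) {G : Polynomial (Polynomial A)} (hG : G.Monic) :
    (cchg_f N G).natDegree = G.natDegree := by
  rcases subsingleton_or_nontrivial A with h | h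
  · have : Subsingleton (Polynomial (Polynomial A)) := inferInstance
    rw [Subsingleton.elim (cchg_f N G) G]
  · refine le_antisymm (cchg_f_natDegree_le N G) (le_natDegree_of_ne_zero ?_)
    rw [cchg_f_coeff_natDegree N hG]
    exact one_ne_zero

/-- `X^d p(1/X)` evaluated at `x` is `x^d p(J)` when `J x = 1`. -/
theorem cchg_eval₂_reflect (φ : A →+* S) {J x : S} (hJx : J * x = 1) (d : ℕ) (p : Polynomial A)
    (hp : p.natDegree ≤ d) : (reflect d p).eval₂ φ x = x ^ d * p.eval₂ φ J := by
  let _ : Invertible J := ⟨x, by rw [mul_comm]; exact hJx, hJx⟩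
  have h := eval₂_reflect_mul_pow φ J d p hp
  have hinv : ⅟J = x := rfl
  rw [hinv] at h
  calc (reflect d p).eval₂ φ x = (reflect d p).eval₂ φ x * (J * x) ^ d := by
        rw [hJx, one_pow, mul_one]
    _ = x ^ d * ((reflect d p).eval₂ φ x * J ^ d) := by rw [mul_pow]; ring
    _ = x ^ d * p.eval₂ φ J := by rw [h]

/-- coefficients of `f(x, Y)` versus those of `G(J, Y)`. -/
theorem cchg_map_coeff (φ : A →+* S) {J x : S} (hJx : J * x = 1) (N : ℕ)
    (G : Polynomial (Polynomial A))
    (hdeg : ∀ k ≤ G.natDegree, (G.coeff k).natDegree ≤ N * (G.natDegree - k)) (k : ℕ) :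
    ((cchg_f N G).map (eval₂RingHom φ x)).coeff k =
      x ^ (N * (G.natDegree - k)) * (G.map (eval₂RingHom φ J)).coeff k := by
  rw [coeff_map, coeff_map, cchg_f_coeff]
  split_ifs with h
  · rw [coe_eval₂RingHom, coe_eval₂RingHom, cchg_eval₂_reflect φ hJx _ _ (hdeg k h)]
  · rw [map_zero, coeff_eq_zero_of_natDegree_lt (not_le.mp h), map_zero, mul_zero]

/-- scaling the roots: `∏ (Y - u Y_i)` has `k`-th coefficient `u^(n-k)` times that of
`∏ (Y - Y_i)`, in the form valid for `u v = 1`. -/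
theorem cchg_prod_scale {ι : Type*} [Fintype ι] (Y : ι → S) {u v : S} (huv : u * v = 1) :
    ∏ i, (X - C (u * Y i)) =
      C (u ^ Fintype.card ι) * (∏ i, (X - C (Y i))).comp (C v * X) := by
  rw [Polynomial.prod_comp]
  have h : ∀ i, (X - C (u * Y i) : Polynomial S) = C u * ((X - C (Y i)).comp (C v * X)) := by
    intro i
    rw [sub_comp, X_comp, C_comp, mul_sub, ← mul_assoc, ← C_mul, huv, C_1, one_mul, ← C_mul]
  rw [Finset.prod_congr rfl fun i _ => h i, Finset.prod_mul_distrib, Finset.prod_const,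
    Finset.card_univ, C_pow]

/-- **homogenisation**: if `G(J, Y) = ∏ (Y - Y_i)` then `f(x, Y) = ∏ (Y - x^N Y_i)`. -/
theorem cchg_map_eq_prod (φ : A →+* S) {J x : S} (hJx : J * x = 1) (N : ℕ)
    {G : Polynomial (Polynomial A)} (hG : G.Monic)
    (hdeg : ∀ k ≤ G.natDegree, (G.coeff k).natDegree ≤ N * (G.natDegree - k))
    {ι : Type*} [Fintype ι] (Y : ι → S)
    (hprod : G.map (eval₂RingHom φ J) = ∏ i, (X - C (Y i))) :
    (cchg_f N G).map (eval₂RingHom φ x) = ∏ i, (X - C (x ^ N * Y i)) := by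
  rcases subsingleton_or_nontrivial S with hS | hS
  · exact Subsingleton.elim _ _
  -- the number of roots is the degree
  have hcard : Fintype.card ι = G.natDegree := by
    have h1 : (G.map (eval₂RingHom φ J)).natDegree = G.natDegree := hG.natDegree_map _
    rw [hprod, natDegree_prod_of_monic _ _ (fun i _ => monic_X_sub_C (Y i))] at h1
    simpa using h1
  have huv : x ^ N * J ^ N = 1 := by rw [← mul_pow, mul_comm, hJx, one_pow]
  rw [cchg_prod_scale Y huv, ← hprod, hcard]
  ext k
  rw [cchg_map_coeff φ hJx N G hdeg k, coeff_C_mul, comp_C_mul_X_coeff]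
  by_cases hk : k ≤ G.natDegree
  · have e : (x ^ N) ^ G.natDegree * ((G.map (eval₂RingHom φ J)).coeff k * (J ^ N) ^ k) =
        x ^ (N * (G.natDegree - k)) * (G.map (eval₂RingHom φ J)).coeff k *
          ((x ^ N) ^ k * (J ^ N) ^ k) := by
      have : (x ^ N) ^ G.natDegree = x ^ (N * (G.natDegree - k)) * (x ^ N) ^ k := by
        rw [← pow_mul, ← pow_mul, ← pow_add, ← Nat.mul_add, Nat.sub_add_cancel hk]
      rw [this]; ring
    rw [e, ← mul_pow, huv, one_pow, mul_one]
  · have h0 : (G.map (eval₂RingHom φ J)).coeff k = 0 := by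
      rw [coeff_map, coeff_eq_zero_of_natDegree_lt (not_le.mp hk), map_zero]
    rw [h0, mul_zero, zero_mul, mul_zero]

/-- the degree hypothesis in helper7's indexing: `natDegree (G.coeff (n - r)) ≤ N r`. -/
theorem cchg_hdeg_of (N : ℕ) (G : Polynomial (Polynomial A))
    (h : ∀ r ≤ G.natDegree, (G.coeff (G.natDegree - r)).natDegree ≤ N * r) :
    ∀ k ≤ G.natDegree, (G.coeff k).natDegree ≤ N * (G.natDegree - k) := by
  intro k hk
  have := h (G.natDegree - k) (Nat.sub_le _ _)
  rwa [Nat.sub_sub_self hk] at this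

end Abstract

/-! ### the instance: (H2) in power series form -/

section Instance

open ModularCurve

variable (A : Type*) [CommRing A] (N : ℕ) [NeZero N]

/-- `A[X] → A((t))`, `X ↦ x(t^N)`, factors through `A⟦t⟧`. -/
theorem cchg_ofPowerSeries_comp_eval₂ :
    (HahnSeries.ofPowerSeries ℤ A).comp (eval₂RingHom (PowerSeries.C : A →+* PowerSeries A) (cci_xN A N))
      = eval₂RingHom (HahnSeries.C : A →+* LaurentSeries A)
          (HahnSeries.ofPowerSeries ℤ A (cci_xN A N)) := by
  apply Polynomial.ringHom_ext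
  · intro a
    simp [HahnSeries.ofPowerSeries_C]
  · simp

/-- **(H2), power series form**: let `G ∈ A[j][Y]` be monic in `Y` with the degree bound
`deg_j (coeff_Y^k G) ≤ N (n - k)`, and suppose `G(J(t^N), Y) = ∏_i (Y - J(ζ_i t^(m_i)))` over
`A((t))` with `m_i ≤ N²`.  Then the homogenised `f = cchg_f N G ∈ A[X][Y]` (monic in `Y`, same
degree) satisfies `f(x(t^N), Y) = ∏_i (Y - yc_i)` over `A⟦t⟧`, `yc_i = x(t^N)^N J(ζ_i t^(m_i))`. -/
theorem cchg_H2 {G : Polynomial (Polynomial A)} (hG : G.Monic)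
    (hdeg : ∀ k ≤ G.natDegree, (G.coeff k).natDegree ≤ N * (G.natDegree - k))
    (ψ : Polynomial A →+* LaurentSeries A) (hψC : ∀ a, ψ (C a) = HahnSeries.C a)
    (hψX : ψ X = qExpand A N (jqModC A))
    {ι : Type*} [Fintype ι] (ζ : ι → Aˣ) (m : ι → ℕ) [∀ i, NeZero (m i)]
    (hm : ∀ i, m i ≤ N * N)
    (hprod : G.map ψ = ∏ i, (X - C (pxs_subst A (ζ i) (m i) (jqModC A)))) :
    (cchg_f N G).map (eval₂RingHom (PowerSeries.C : A →+* PowerSeries A) (cci_xN A N)) =
      ∏ i, (X - C (cci_yc A N (ζ i) (m i))) := by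
  have hψ : ψ = eval₂RingHom (HahnSeries.C : A →+* LaurentSeries A) (qExpand A N (jqModC A)) := by
    apply Polynomial.ringHom_ext
    · intro a
      rw [hψC, coe_eval₂RingHom, eval₂_C]
    · rw [hψX, coe_eval₂RingHom, eval₂_X]
  rw [hψ] at hprod
  have key := cchg_map_eq_prod (HahnSeries.C : A →+* LaurentSeries A)
    (cci_jqN_mul_xN A N) N hG hdeg
    (fun i => pxs_subst A (ζ i) (m i) (jqModC A)) hprod
  apply Polynomial.map_injective (HahnSeries.ofPowerSeries ℤ A)
    (HahnSeries.ofPowerSeries_injective (Γ := ℤ) (R := A))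
  rw [Polynomial.map_map, cchg_ofPowerSeries_comp_eval₂, key, Polynomial.map_prod]
  refine Finset.prod_congr rfl fun i _ => ?_
  rw [Polynomial.map_sub, Polynomial.map_X, Polynomial.map_C, cci_ofPowerSeries_yc A N _ _ (hm i)]

omit [NeZero N] in
/-- `f` is monic of the same `Y`-degree as `G` (restated for the consumer of `cchg_H2`). -/
theorem cchg_H2_monic {G : Polynomial (Polynomial A)} (hG : G.Monic) :
    (cchg_f N G).Monic ∧ (cchg_f N G).natDegree = G.natDegree :=
  ⟨cchg_f_monic N hG, cchg_f_natDegree N hG⟩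

end Instance

end Fermat.Agent.S18x
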