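/-
S18 project, NRM block, row N3 (helper83, prefix `cchg_`): the DEGREE BOUND step (b) of (H2).

If `G ∈ A[j][Y]` satisfies `G(J(t^N), Y) = ∏_i (Y - Y_i)` over `A((t))` and every `Y_i` has pole order
`≤ c` at `t = 0`, then `deg_j (coeff_Y^k G) · N ≤ c (n - k)`.  With `c = N²` (the parameter form
conjugates `J(ζ t^m)`, `m ≤ N²`) this is the hypothesis `hdeg` of `cchg_H2`, so (H2) follows from the
product formula alone: `cchg_H2'`.
-/
import Mathlib
import Fermat.Agent.S18x.CuspConjHomog

set_option autoImplicit false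

noncomputable section

namespace Fermat.Agent.S18x

open Polynomial ModularCurve

section PoleOrder

variable {A : Type*} [CommRing A]

/-- pole order at most `c`: no coefficients below `-c`. -/
def cchg_PoleLe (F : LaurentSeries A) (c : ℕ) : Prop := ∀ n : ℤ, n < -(c : ℤ) → F.coeff n = 0

theorem cchg_poleLe_zero (c : ℕ) : cchg_PoleLe (0 : LaurentSeries A) c := fun _ _ => rfl

theorem cchg_poleLe_mono {F : LaurentSeries A} {c c' : ℕ} (h : cchg_PoleLe F c) (hc : c ≤ c') :
    cchg_PoleLe F c' := by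
  intro n hn
  apply h n
  have : (c : ℤ) ≤ c' := by exact_mod_cast hc
  omega

theorem cchg_poleLe_sub {F F' : LaurentSeries A} {c : ℕ} (h : cchg_PoleLe F c)
    (h' : cchg_PoleLe F' c) : cchg_PoleLe (F - F') c := fun n hn => by
  rw [HahnSeries.coeff_sub, h n hn, h' n hn, sub_zero]

theorem cchg_poleLe_mul {F F' : LaurentSeries A} {c c' : ℕ} (h : cchg_PoleLe F c)
    (h' : cchg_PoleLe F' c') : cchg_PoleLe (F * F') (c + c') := by
  intro n hn
  rw [HahnSeries.coeff_mul]
  apply Finset.sum_eq_zero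
  rintro ⟨i, j⟩ hij
  rw [Finset.mem_antidiagonal] at hij
  obtain ⟨hi, hj, hsum⟩ := hij
  simp only at hi hj hsum
  by_cases hic : i < -(c : ℤ)
  · rw [h i hic, zero_mul]
  · have hjc : j < -(c' : ℤ) := by push_cast at hn; omega
    rw [h' j hjc, mul_zero]

end PoleOrder

section Coefficients

variable {A : Type*} [CommRing A]

/-- the coefficients of `∏_{i ∈ s} (Y - Y_i)` have pole order `≤ c (|s| - k)`. -/
theorem cchg_poleLe_prod_coeff {ι : Type*} [DecidableEq ι] (Y : ι → LaurentSeries A) (c : ℕ)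
    (hY : ∀ i, cchg_PoleLe (Y i) c) (s : Finset ι) :
    ∀ k ≤ s.card, cchg_PoleLe ((∏ i ∈ s, (X - C (Y i))).coeff k) (c * (s.card - k)) := by
  induction s using Finset.induction_on with
  | empty =>
    intro k hk
    have : k = 0 := by simpa using hk
    subst this
    intro n hn
    simp only [Finset.prod_empty, coeff_one_zero, Finset.card_empty, Nat.sub_self, mul_zero,
      Nat.cast_zero, neg_zero] at hn ⊢
    rw [HahnSeries.coeff_one, if_neg hn.ne]
  | insert a s ha ih =>
    intro k hk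
    rw [Finset.prod_insert ha, Finset.card_insert_of_notMem ha] at *
    set P := ∏ i ∈ s, (X - C (Y i)) with hP
    have hPdeg : P.natDegree ≤ s.card := by
      rw [hP]
      refine (natDegree_prod_le _ _).trans ?_
      calc ∑ i ∈ s, (X - C (Y i)).natDegree ≤ ∑ _i ∈ s, 1 :=
            Finset.sum_le_sum (f := fun i => (X - C (Y i)).natDegree) (g := fun _ => 1)
              fun i _ => natDegree_X_sub_C_le (Y i)
        _ = s.card := by simp
    have hexp : ((X - C (Y a)) * P).coeff k =
        (if 0 < k then P.coeff (k - 1) else 0) - Y a * P.coeff k := by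
      rw [sub_mul, coeff_sub, coeff_C_mul]
      congr 1
      rcases k with _ | k
      · simp
      · rw [coeff_X_mul, if_pos (Nat.succ_pos k), Nat.succ_sub_one]
    rw [hexp]
    apply cchg_poleLe_sub
    · split_ifs with hk0
      · have h1 : k - 1 ≤ s.card := by omega
        have := ih (k - 1) h1
        have e : s.card - (k - 1) = s.card + 1 - k := by omega
        rwa [e] at this
      · exact cchg_poleLe_zero _
    · by_cases hk' : k ≤ s.card
      · have := cchg_poleLe_mul (hY a) (ih k hk')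
        have e : c + c * (s.card - k) = c * (s.card + 1 - k) := by
          have : s.card + 1 - k = (s.card - k) + 1 := by omega
          rw [this]; ring
        rwa [e] at this
      · rw [coeff_eq_zero_of_natDegree_lt (lt_of_le_of_lt hPdeg (not_le.mp hk')), mul_zero]
        exact cchg_poleLe_zero _

variable (A) (N : ℕ) [NeZero N]

/-- powers of `J(t^N)`: pole order `N i`, leading coefficient `1`. -/
theorem cchg_jN_pow_coeff_of_lt (i : ℕ) {n : ℤ} (hn : n < -((N * i : ℕ) : ℤ)) :
    (qExpand A N (jqModC A) ^ i).coeff n = 0 := by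
  rw [← map_pow]
  by_cases hd : (N : ℤ) ∣ n
  · obtain ⟨n', rfl⟩ := hd
    rw [qExpand_coeff_mul]
    apply coeff_jqModC_pow_of_lt
    have hN : (0 : ℤ) < N := by exact_mod_cast NeZero.pos N
    push_cast at hn
    by_contra hcon
    rw [not_lt] at hcon
    have : (N : ℤ) * (-(i : ℤ)) ≤ (N : ℤ) * n' := mul_le_mul_of_nonneg_left hcon hN.le
    linarith
  · exact qExpand_coeff_of_not_dvd N _ hd

theorem cchg_jN_pow_coeff_self (i : ℕ) :
    (qExpand A N (jqModC A) ^ i).coeff (-((N * i : ℕ) : ℤ)) = 1 := by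
  rw [← map_pow]
  have e : -((N * i : ℕ) : ℤ) = (N : ℤ) * (-(i : ℤ)) := by push_cast; ring
  rw [e, qExpand_coeff_mul, coeff_jqModC_pow_self]

/-- the coefficient of `g(J(t^N))` at `-N · deg g` is the leading coefficient of `g`. -/
theorem cchg_eval₂_coeff_lead (g : Polynomial A) :
    (g.eval₂ (HahnSeries.C : A →+* LaurentSeries A) (qExpand A N (jqModC A))).coeff
      (-((N * g.natDegree : ℕ) : ℤ)) = g.leadingCoeff := by
  rw [eval₂_eq_sum_range, HahnSeries.coeff_sum]
  rw [Finset.sum_eq_single g.natDegree]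
  · rw [HahnSeries.C_mul_eq_smul, HahnSeries.coeff_smul, cchg_jN_pow_coeff_self, smul_eq_mul,
      mul_one, leadingCoeff]
  · intro i hi hne
    have hlt : i < g.natDegree := lt_of_le_of_ne (Nat.lt_succ_iff.mp (Finset.mem_range.mp hi)) hne
    rw [HahnSeries.C_mul_eq_smul, HahnSeries.coeff_smul, cchg_jN_pow_coeff_of_lt A N i, smul_zero]
    have : ((N * i : ℕ) : ℤ) < ((N * g.natDegree : ℕ) : ℤ) := by
      exact_mod_cast Nat.mul_lt_mul_of_pos_left hlt (NeZero.pos N)
    omega
  · intro h
    exact absurd (Finset.mem_range.mpr (Nat.lt_succ_self _)) h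

/-- a polynomial in `J(t^N)` with pole order `≤ c` has `N · deg ≤ c`. -/
theorem cchg_natDegree_le_of_poleLe (g : Polynomial A) (c : ℕ)
    (h : cchg_PoleLe (g.eval₂ (HahnSeries.C : A →+* LaurentSeries A) (qExpand A N (jqModC A))) c) :
    N * g.natDegree ≤ c := by
  by_contra hcon
  rw [not_le] at hcon
  have hg : g ≠ 0 := by
    rintro rfl
    simp at hcon
  have h1 := h (-((N * g.natDegree : ℕ) : ℤ)) (by
    have : (c : ℤ) < ((N * g.natDegree : ℕ) : ℤ) := by exact_mod_cast hcon
    omega)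
  rw [cchg_eval₂_coeff_lead] at h1
  exact hg (leadingCoeff_eq_zero.mp h1)

end Coefficients

section Main

variable (A : Type*) [CommRing A] (N : ℕ) [NeZero N]

/-- **(b) degree bound from pole orders**: if `G(J(t^N), Y) = ∏ (Y - Y_i)` and every `Y_i` has pole
order `≤ c`, then `N · deg_j (coeff_Y^k G) ≤ c (n - k)`. -/
theorem cchg_mul_natDegree_le {G : Polynomial (Polynomial A)} (hG : G.Monic)
    {ι : Type*} [Fintype ι] (Y : ι → LaurentSeries A) (c : ℕ) (hY : ∀ i, cchg_PoleLe (Y i) c)
    (hprod : G.map (eval₂RingHom (HahnSeries.C : A →+* LaurentSeries A) (qExpand A N (jqModC A)))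
      = ∏ i, (X - C (Y i))) :
    ∀ k ≤ G.natDegree, N * (G.coeff k).natDegree ≤ c * (G.natDegree - k) := by
  classical
  intro k hk
  rcases subsingleton_or_nontrivial A with hA | hA
  · have : G.coeff k = 0 := Subsingleton.elim _ _
    rw [this, natDegree_zero, mul_zero]
    exact Nat.zero_le _
  have hcard : Fintype.card ι = G.natDegree := by
    have h1 : (G.map (eval₂RingHom (HahnSeries.C : A →+* LaurentSeries A)
        (qExpand A N (jqModC A)))).natDegree = G.natDegree := hG.natDegree_map _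
    rw [hprod, natDegree_prod_of_monic _ _ (fun i _ => monic_X_sub_C (Y i))] at h1
    simpa using h1
  have hpole := cchg_poleLe_prod_coeff Y c hY Finset.univ k (by rw [Finset.card_univ, hcard]; exact hk)
  rw [← hprod, coeff_map, coe_eval₂RingHom, Finset.card_univ, hcard] at hpole
  exact cchg_natDegree_le_of_poleLe A N _ _ hpole

/-- the parameter form conjugates `J(ζ t^m)` have pole order `≤ m`. -/
theorem cchg_poleLe_subst (ζ : Aˣ) (m : ℕ) [NeZero m] :
    cchg_PoleLe (pxs_subst A ζ m (jqModC A)) m := fun _ hn =>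
  cce_subst_jq_coeff_of_lt (cce_isSubst_pxs ζ m) (NeZero.pos m) hn

/-- the hypothesis `hdeg` of `cchg_H2` from the product formula with `m_i ≤ N²`. -/
theorem cchg_hdeg_of_prod {G : Polynomial (Polynomial A)} (hG : G.Monic)
    {ι : Type*} [Fintype ι] (ζ : ι → Aˣ) (m : ι → ℕ) [∀ i, NeZero (m i)]
    (hm : ∀ i, m i ≤ N * N)
    (hprod : G.map (eval₂RingHom (HahnSeries.C : A →+* LaurentSeries A) (qExpand A N (jqModC A)))
      = ∏ i, (X - C (pxs_subst A (ζ i) (m i) (jqModC A)))) :
    ∀ k ≤ G.natDegree, (G.coeff k).natDegree ≤ N * (G.natDegree - k) := by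
  intro k hk
  have h := cchg_mul_natDegree_le A N hG (fun i => pxs_subst A (ζ i) (m i) (jqModC A)) (N * N)
    (fun i => cchg_poleLe_mono (cchg_poleLe_subst A (ζ i) (m i)) (hm i)) hprod k hk
  rw [mul_assoc] at h
  exact Nat.le_of_mul_le_mul_left h (NeZero.pos N)

/-- **(H2), power series form, from the product formula alone**: if `G ∈ A[j][Y]` is monic in `Y`
and `G(J(t^N), Y) = ∏_i (Y - J(ζ_i t^(m_i)))` over `A((t))` with `m_i ≤ N²`, then
`f = cchg_f N G ∈ A[X][Y]` is monic in `Y` of the same degree and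
`f(x(t^N), Y) = ∏_i (Y - yc_i)` over `A⟦t⟧`, `yc_i = x(t^N)^N J(ζ_i t^(m_i)) = cci_yc A N (ζ i) (m i)`. -/
theorem cchg_H2' {G : Polynomial (Polynomial A)} (hG : G.Monic)
    (ψ : Polynomial A →+* LaurentSeries A) (hψC : ∀ a, ψ (C a) = HahnSeries.C a)
    (hψX : ψ X = qExpand A N (jqModC A))
    {ι : Type*} [Fintype ι] (ζ : ι → Aˣ) (m : ι → ℕ) [∀ i, NeZero (m i)]
    (hm : ∀ i, m i ≤ N * N)
    (hprod : G.map ψ = ∏ i, (X - C (pxs_subst A (ζ i) (m i) (jqModC A)))) :
    (cchg_f N G).Monic ∧ (cchg_f N G).natDegree = G.natDegree ∧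
    (cchg_f N G).map (eval₂RingHom (PowerSeries.C : A →+* PowerSeries A) (cci_xN A N)) =
      ∏ i, (X - C (cci_yc A N (ζ i) (m i))) := by
  have hψ : ψ = eval₂RingHom (HahnSeries.C : A →+* LaurentSeries A) (qExpand A N (jqModC A)) := by
    apply Polynomial.ringHom_ext
    · intro a
      rw [hψC, coe_eval₂RingHom, eval₂_C]
    · rw [hψX, coe_eval₂RingHom, eval₂_X]
  have hdeg := cchg_hdeg_of_prod A N hG ζ m hm (hψ ▸ hprod)
  exact ⟨cchg_f_monic N hG, cchg_f_natDegree N hG, cchg_H2 A N hG hdeg ψ hψC hψX ζ m hm hprod⟩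

end Main

end Fermat.Agent.S18x
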