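/-
S18 project, block NRM, sub-row N3m (helper7), part 3: **input (H2) of N7** (helper35).

`K` a field of characteristic `0`, `A ⊆ K` a subring containing a primitive `N`-th root of unity.
* `cph_exists_GA` : Laurent-series form: `G ∈ A[j][Y]` monic with
  `G(J(t^N), Y) = ∏_i (Y - J(ζ_i t^(m_i)))` over `A((t))`, the `(ζ_i, m_i)` as in
  `cph_Gι_eq_prod'` (descent `K → A` by helper23's leading-term induction);
* `cph_H2` : power-series form (helper83's `cchg_H2'`): `f ∈ A[X][Y]` monic with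
  `f(x(t^N), Y) = ∏_i (Y - yc_i)`, `yc_i = x(t^N)^N J(ζ_i t^(m_i)) = cci_yc A N (ζ i) (m i)`.
-/
import Mathlib
import Fermat.Agent.S18x.CuspConjPhi
import Fermat.Agent.S18x.CuspConjCompat
import Fermat.Agent.S18x.CuspConjHomogDeg

set_option autoImplicit false

namespace Fermat.Agent.S18x

open ModularCurve Polynomial IntermediateField Fermat.Agent.S28x

noncomputable section

universe u

section Descent

variable {K : Type u} [Field K] [CharZero K] (A : Subring K) (N : ℕ) [NeZero N]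

/-- **Laurent-series form of (H2)** over a subring `A` containing a primitive `N`-th root of
unity. -/
theorem cph_exists_GA (zN : A) (hzN : IsPrimitiveRoot (zN : K) N) :
    ∃ (n : ℕ) (ζ : Fin n → (↥A)ˣ) (m : Fin n → ℕ) (G : Polynomial (Polynomial A)),
      (∀ i, ζ i ^ N = 1) ∧ (∀ i, 0 < m i ∧ m i ≤ N * N) ∧
      Function.Injective (fun i => (ζ i, m i)) ∧
      (∃ i0, ζ i0 = 1 ∧ m i0 = N * N) ∧
      (∀ z : (↥A)ˣ, z ^ N = 1 → ∀ i, ∃ i', ζ i' = ζ i * z ^ m i ∧ m i' = m i) ∧
      G.Monic ∧ G.natDegree = n ∧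
      n = (minpoly (cph_E K N) (cph_jN K N)).natDegree ∧
      G.map (Polynomial.aeval (R := A) (qExpand A N (jqModC A))).toRingHom =
        ∏ i, (X - C (cph_J A (ζ i) (m i))) := by
  classical
  obtain ⟨n, ζ, m, h1, h2, h3, h4, h5, h6, h7⟩ := cph_Gι_eq_prod' K N (zN : K) hzN
  obtain ⟨G₁, hG₁m, hG₁⟩ := cph_exists_G₁ K N
  have hσ : Function.Injective (A.subtype : A →+* K) := Subtype.val_injective
  -- the unit `zN`
  have hzA : IsPrimitiveRoot zN N :=
    IsPrimitiveRoot.of_map_of_injective (f := (A.subtype : A →+* K)) hzN hσ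
  set zu : (↥A)ˣ := (hzA.isUnit (NeZero.ne N)).unit with hzu
  have hzuK : IsPrimitiveRoot ((A.subtype : A →+* K) (zu : A)) N := by
    rw [hzu, IsUnit.unit_spec]
    exact hzN
  -- the units of `A` over the `ζ i`
  set u : (↥A)ˣ →* Kˣ := Units.map ((A.subtype : A →+* K) : A →* K) with hu
  have huinj : Function.Injective u := Units.map_injective hσ
  choose e _he hζe using fun i => cci_exists_pow (A.subtype : A →+* K) zu hzuK (ζ i) (h1 i)
  set ζA : Fin n → (↥A)ˣ := fun i => zu ^ e i with hζA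
  have huζ : ∀ i, u (ζA i) = ζ i := fun i => (hζe i).symm
  -- the product over `A`
  set PA : Polynomial (LaurentSeries A) := ∏ i, (X - C (cph_J A (ζA i) (m i))) with hPA
  have hPAmap : PA.map (coeffMap (A.subtype : A →+* K)) = cph_Gι K N := by
    rw [h7, hPA, Polynomial.map_prod]
    refine Finset.prod_congr rfl fun i _ => ?_
    rw [Polynomial.map_sub, Polynomial.map_X, Polynomial.map_C, cph_coeffMap_J]
    rw [← huζ i]
  -- coefficients of `G₁` descend to `A`
  have hcoeff : ∀ r : ℕ, ∃ g' : Polynomial A, g'.map (A.subtype : A →+* K) = G₁.coeff r := by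
    intro r
    refine ccq_exists_of_aeval_qExpand_mem A N (G₁.coeff r) fun k => ?_
    have h8 : Polynomial.aeval (qExpand K N (jqModC K)) (G₁.coeff r) =
        coeffMap (A.subtype : A →+* K) (PA.coeff r) := by
      rw [← Polynomial.coeff_map, hPAmap, ← hG₁, Polynomial.coeff_map]
      rfl
    rw [h8, coeffMap_coeff]
    exact ((PA.coeff r).coeff k).2
  have hlifts : G₁ ∈ Polynomial.lifts (Polynomial.mapRingHom (A.subtype : A →+* K)) := by
    rw [Polynomial.lifts_iff_coeff_lifts]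
    intro r
    obtain ⟨g', hg'⟩ := hcoeff r
    exact ⟨g', by rw [Polynomial.coe_mapRingHom]; exact hg'⟩
  obtain ⟨GA, hGAmap, hGAdeg, hGAm⟩ := Polynomial.lifts_and_natDegree_eq_and_monic hlifts hG₁m
  have hJ₀ : coeffMap (A.subtype : A →+* K) (qExpand A N (jqModC A)) = qExpand K N (jqModC K) := by
    rw [coeffMap_qExpand, coeffMap_jqModC]
  have hGA : GA.map (Polynomial.aeval (R := A) (qExpand A N (jqModC A))).toRingHom = PA := by
    apply Polynomial.map_injective _ (mpc_coeffMap_injective _ hσ)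
    rw [Polynomial.map_map, ccq_coeffMap_comp_aeval, ← Polynomial.map_map, hGAmap, hJ₀, hG₁,
      hPAmap]
  have hnG : G₁.natDegree = n := by
    have h9 : (G₁.map (Polynomial.aeval (R := K) (qExpand K N (jqModC K))).toRingHom).natDegree =
        G₁.natDegree := hG₁m.natDegree_map _
    rw [← h9, hG₁, ← h6]
  refine ⟨n, ζA, m, GA, ?_, h2, ?_, ?_, ?_, hGAm, hGAdeg.trans hnG, ?_, hGA⟩
  · intro i
    apply huinj
    rw [map_pow, huζ, h1, map_one]
  · intro i i' hii'
    simp only [Prod.mk.injEq] at hii'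
    apply h3
    simp only [Prod.mk.injEq]
    exact ⟨by rw [← huζ i, ← huζ i', hii'.1], hii'.2⟩
  · obtain ⟨i0, hi0, hm0⟩ := h4
    refine ⟨i0, ?_, hm0⟩
    apply huinj
    rw [huζ, hi0, map_one]
  · intro z hz i
    obtain ⟨i', hi', hm'⟩ := h5 (u z) (by rw [← map_pow, hz, map_one]) i
    refine ⟨i', ?_, hm'⟩
    apply huinj
    rw [huζ, hi', map_mul, huζ, map_pow]
  · rw [h6, cph_Gι_natDegree]

set_option synthInstance.maxHeartbeats 400000 in
set_option maxHeartbeats 1000000 in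
/-- **(H2) of N7, power-series form** (helper35 #5993/#6552): `f ∈ A[X][Y]` monic in `Y` with
`f(x(t^N), Y) = ∏_i (Y - yc_i)`, `yc_i = x(t^N)^N J(ζ_i t^(m_i))`; the parameters `(ζ_i, m_i)`
are pairwise distinct, contain the identity branch `(1, N·N)` and are stable under the rotation
`(ζ, m) ↦ (ζ z^m, m)`, `z^N = 1`; `n` is the degree of `j(q^N)` over `K(j)`. -/
theorem cph_H2 (zN : A) (hzN : IsPrimitiveRoot (zN : K) N) :
    ∃ (n : ℕ) (ζ : Fin n → (↥A)ˣ) (m : Fin n → ℕ) (_ : ∀ i, NeZero (m i))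
      (f G : Polynomial (Polynomial A)),
      (∀ i, ζ i ^ N = 1) ∧ (∀ i, 0 < m i ∧ m i ≤ N * N) ∧
      Function.Injective (fun i => (ζ i, m i)) ∧
      (∃ i0, ζ i0 = 1 ∧ m i0 = N * N) ∧
      (∀ z : (↥A)ˣ, z ^ N = 1 → ∀ i, ∃ i', ζ i' = ζ i * z ^ m i ∧ m i' = m i) ∧
      f.Monic ∧ f.natDegree = n ∧
      n = (minpoly (cph_E K N) (cph_jN K N)).natDegree ∧
      n ≤ Module.finrank (cph_E K N) (pls_Fb K N) ∧
      f.map (eval₂RingHom (PowerSeries.C : A →+* PowerSeries A) (cci_xN A N)) =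
        ∏ i, (X - C (cci_yc A N (ζ i) (m i))) ∧
      G.Monic ∧ G.natDegree = n ∧ f = cchg_f N G ∧
      G.map (Polynomial.aeval (R := A) (qExpand A N (jqModC A))).toRingHom =
        ∏ i, (X - C (pxs_subst A (ζ i) (m i) (jqModC A))) := by
  obtain ⟨n, ζ, m, G, h1, h2, h3, h4, h5, hGm, hGn, hn, hG⟩ := cph_exists_GA A N zN hzN
  have hm : ∀ i, NeZero (m i) := fun i => ⟨(h2 i).1.ne'⟩
  have hprod : G.map (Polynomial.aeval (R := A) (qExpand A N (jqModC A))).toRingHom =
      ∏ i, (X - C (pxs_subst A (ζ i) (m i) (jqModC A))) := by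
    rw [hG]
    refine Finset.prod_congr rfl fun i _ => ?_
    rw [cph_J_eq]
  obtain ⟨hfm, hfn, hf⟩ := cchg_H2' A N hGm
    (Polynomial.aeval (R := A) (qExpand A N (jqModC A))).toRingHom
    (fun a => by
      show Polynomial.aeval (qExpand A N (jqModC A)) (C a) = HahnSeries.C a
      rw [Polynomial.aeval_C, mpc_algebraMap_eq_C])
    (by
      show Polynomial.aeval (qExpand A N (jqModC A)) X = _
      rw [Polynomial.aeval_X]) ζ m (fun i => (h2 i).2) hprod
  have hfin : FiniteDimensional (cph_E K N) (pls_Fb K N) := pls_finiteDimensional_jb K N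
  refine ⟨n, ζ, m, hm, cchg_f N G, G, h1, h2, h3, h4, h5, hfm, hfn.trans hGn, hn, ?_, hf, hGm,
    hGn, rfl, hprod⟩
  rw [hn]
  exact minpoly.natDegree_le _

end Descent

end

end Fermat.Agent.S18x
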