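/-
S18 project, block NRM, sub-row N3m (helper7), part 4: `cph_H2` restated for a
`ValuationSubring` (consumer shape of N7, helper35's `cspn_outC`).
-/
import Mathlib
import Fermat.Agent.S18x.CuspConjPhiInt

set_option autoImplicit false

namespace Fermat.Agent.S18x

open ModularCurve Polynomial IntermediateField Fermat.Agent.S28x

noncomputable section

universe u

variable {K : Type u} [Field K] [CharZero K] (A : ValuationSubring K) (N : ℕ) [NeZero N]

/-- `cph_H2` for a valuation subring (the types `↥A` and `↥A.toSubring` agree definitionally). -/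
theorem cph_H2_val (zN : A) (hzN : IsPrimitiveRoot (zN : K) N) :
    ∃ (n : ℕ) (ζ : Fin n → (↥A)ˣ) (m : Fin n → ℕ) (_ : ∀ i, NeZero (m i))
      (f G : Polynomial (Polynomial A)),
      (∀ i, ζ i ^ N = 1) ∧ (∀ i, 0 < m i ∧ m i ≤ N * N) ∧
      Function.Injective (fun i => (ζ i, m i)) ∧
      (∃ i0, ζ i0 = 1 ∧ m i0 = N * N) ∧
      (∀ z : (↥A)ˣ, z ^ N = 1 → ∀ i, ∃ i', ζ i' = ζ i * z ^ m i ∧ m i' = m i) ∧
      f.Monic ∧ f.natDegree = n ∧
      n = (minpoly (cph_E K N) (cph_jN K N)).natDegree ∧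
      n ≤ Module.finrank (cph_E K N) (pls_Fb K N) ∧
      f.map (eval₂RingHom (PowerSeries.C : A →+* PowerSeries A) (cci_xN A N)) =
        ∏ i, (X - C (cci_yc A N (ζ i) (m i))) ∧
      G.Monic ∧ G.natDegree = n ∧ f = cchg_f N G ∧
      G.map (Polynomial.aeval (R := A) (qExpand A N (jqModC A))).toRingHom =
        ∏ i, (X - C (pxs_subst A (ζ i) (m i) (jqModC A))) :=
  cph_H2 A.toSubring N zN hzN

end

end Fermat.Agent.S18x
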