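/-
S18 project, block NRM, row N3 (helper23, prefix `ccr_`): **reduction of Gauss-integral rational
functions of `j`**.  `A` a valuation subring of a field `L`, `π : A → k` a ring hom to a field.
If `c ∈ L(j) ⊆ L((q))` has all its `q`-expansion coefficients in `A` (`c = coeffMap A.subtype C`),
then the coefficientwise reduction `coeffMap π C` lies in `k(j̄) ⊆ k((q))`.
(Step 3 of PRIM: `j̄(q^d) ∈ k(j̄)(j̄(q^N))`.)
-/
import Mathlib
import Fermat.Agent.S18x.CuspConjCompat

set_option autoImplicit false

namespace Fermat.Agent.S18x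

open ModularCurve Polynomial Fermat.Agent.S28x

noncomputable section

variable {L k : Type*} [Field L] [Field k]

/-- normalisation of a non-zero polynomial over the fraction field of a valuation ring: some
scalar multiple has coefficients in `A` and one coefficient equal to `1`. -/
theorem ccr_exists_normalised (A : ValuationSubring L) (Q : Polynomial L) (hQ : Q ≠ 0) :
    ∃ (c : L) (Q' : Polynomial A) (m : ℕ), c ≠ 0 ∧ Q'.map A.subtype = Polynomial.C c * Q ∧
      Q'.coeff m = 1 := by
  classical
  have hne : Q.support.Nonempty := Polynomial.support_nonempty.mpr hQ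
  obtain ⟨m, hm, hmax⟩ := Finset.exists_max_image Q.support (fun i => A.valuation (Q.coeff i)) hne
  have hqm : Q.coeff m ≠ 0 := Polynomial.mem_support_iff.mp hm
  have hmem : ∀ i, (Q.coeff m)⁻¹ * Q.coeff i ∈ A := by
    intro i
    by_cases hi : i ∈ Q.support
    · rw [← A.valuation_le_one_iff, map_mul, map_inv₀]
      have h1 := hmax i hi
      have h2 : A.valuation (Q.coeff m) ≠ 0 := (A.valuation.ne_zero_iff).mpr hqm
      rw [inv_mul_le_iff₀ (lt_of_le_of_ne zero_le h2.symm), mul_one]
      exact h1
    · rw [Polynomial.notMem_support_iff.mp hi, mul_zero]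
      exact A.zero_mem
  have hl : Polynomial.C (Q.coeff m)⁻¹ * Q ∈ Polynomial.lifts A.subtype := by
    rw [Polynomial.lifts_iff_coeff_lifts]
    intro i
    exact ⟨⟨_, hmem i⟩, by simp [Polynomial.coeff_C_mul]⟩
  obtain ⟨Q', hQ'⟩ := (Polynomial.mem_lifts _).1 hl
  refine ⟨(Q.coeff m)⁻¹, Q', m, inv_ne_zero hqm, hQ', ?_⟩
  apply Subtype.ext
  have := congrArg (fun g => g.coeff m) hQ'
  simp only [Polynomial.coeff_map, Polynomial.coeff_C_mul] at this
  rw [show ((Q'.coeff m : A) : L) = A.subtype (Q'.coeff m) from rfl, this]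
  simp [hqm]

/-- **Reduction of Gauss-integral elements of `L(j)`.** -/
theorem ccr_red_mem (A : ValuationSubring L) (π : A →+* k) (C : LaurentSeries A)
    (hc : coeffMap A.subtype C ∈ IntermediateField.adjoin L {jqModC L}) :
    coeffMap π C ∈ IntermediateField.adjoin k {jqModC k} := by
  have hinj : Function.Injective (coeffMap A.subtype) :=
    sa_coeffMap_injective A.subtype Subtype.val_injective
  obtain ⟨P, Q, hPQ⟩ := (IntermediateField.mem_adjoin_simple_iff L _).1 hc
  by_cases hQ : Polynomial.aeval (jqModC L) Q = 0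
  · rw [hQ, div_zero] at hPQ
    have : C = 0 := hinj (by rw [hPQ, map_zero])
    rw [this, map_zero]
    exact zero_mem _
  have hQ0 : Q ≠ 0 := by
    rintro rfl
    simp at hQ
  obtain ⟨c, Q', m, hc0, hQ', hm⟩ := ccr_exists_normalised A Q hQ0
  -- `c P (J) = (coeffMap C) * Q'(J)` has coefficients in `A`
  have hcomp : ∀ g : Polynomial A, coeffMap A.subtype (Polynomial.aeval (jqModC A) g)
      = Polynomial.aeval (jqModC L) (g.map A.subtype) := by
    intro g
    have := congrArg (fun φ : Polynomial A →+* LaurentSeries L => φ g)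
      (ccq_coeffMap_comp_aeval A.subtype (jqModC A))
    simpa [coeffMap_jqModC] using this
  have hkey : Polynomial.aeval (jqModC L) (Polynomial.C c * P)
      = coeffMap A.subtype (C * Polynomial.aeval (jqModC A) Q') := by
    rw [map_mul (coeffMap A.subtype), hcomp, hQ', map_mul, map_mul, hPQ]
    have : Polynomial.aeval (jqModC L) Q ≠ 0 := hQ
    field_simp
  obtain ⟨P', hP'⟩ := ccq_exists_of_aeval_mem A.toSubring _ (Polynomial.C c * P) le_rfl
    (fun n => by
      rw [hkey, coeffMap_coeff]
      exact ((C * Polynomial.aeval (jqModC A) Q').coeff n).2)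
  -- the identity over `A`
  have hA : Polynomial.aeval (jqModC A) P' = C * Polynomial.aeval (jqModC A) Q' := by
    apply hinj
    rw [hcomp]
    have : P'.map A.subtype = Polynomial.C c * P := hP'
    rw [this, hkey]
  -- reduce
  have hred : ∀ g : Polynomial A, coeffMap π (Polynomial.aeval (jqModC A) g)
      = Polynomial.aeval (jqModC k) (g.map π) := by
    intro g
    have := congrArg (fun φ : Polynomial A →+* LaurentSeries k => φ g)
      (ccq_coeffMap_comp_aeval π (jqModC A))
    simpa [coeffMap_jqModC] using this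
  have hk := congrArg (coeffMap π) hA
  rw [map_mul, hred, hred] at hk
  have hQk : Q'.map π ≠ 0 := by
    intro h0
    have := congrArg (fun g => g.coeff m) h0
    simp [hm] at this
  have hQk' : Polynomial.aeval (jqModC k) (Q'.map π) ≠ 0 := by
    intro h0
    exact (sa_transcendental_jqModC k) ⟨_, hQk, h0⟩
  have hfinal : coeffMap π C
      = Polynomial.aeval (jqModC k) (P'.map π) / Polynomial.aeval (jqModC k) (Q'.map π) := by
    rw [hk]
    field_simp
  rw [hfinal]
  exact (IntermediateField.mem_adjoin_simple_iff k _).2 ⟨_, _, rfl⟩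

end

end Fermat.Agent.S18x
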