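/-
S18 project, block NRM, row N3 (helper10, prefix `ccx_`): `ccj_RootCases K` (the hypothesis of
helper23's `ccj_param_of`, `S18x/CuspConj.lean`) holds for every field `K`
(= `ccx_root_cases`, `S18x/CuspConjXFactor.lean`), and the resulting unconditional parameter form
of the embeddings of `F_N`.
-/
import Fermat.Agent.S18x.CuspConj
import Fermat.Agent.S18x.CuspConjXFactor

set_option autoImplicit false

open HahnSeries ModularCurve Polynomial

namespace Fermat.Agent.S18x

noncomputable section

universe u v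

/-- `ccj_RootCases` holds for every field. -/
theorem ccx_rootCases (K : Type u) [Field K] : ccj_RootCases.{u, v} K := by
  intro p _ _ ξ hξ Φ hmonic hdeg h1 h2 ζ ζ' hζ m' _ _ _ Ω _ φ x hx
  exact ccx_root_cases p ξ hξ Φ hmonic hdeg h1 h2 ζ ζ' hζ m' φ x hx

/-- **Unconditional parameter form of the embeddings of `F_N` into (extensions of) the Puiseux
field** (`ccj_param_of` with `ccx_rootCases`). -/
theorem ccx_param {k : Type*} {K : Type u} {Ω : Type v} [Field k] [Field K] [Field Ω]
    (N : ℕ) [NeZero N] (zN : K) (hzN : IsPrimitiveRoot zN N)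
    (φ : LaurentSeries K →+* Ω) (τ : modularFunctionFieldFullC k N →+* Ω)
    (hτj : τ ⟨jqModC k, jqModC_mem_full k N⟩ = φ (qExpand K N (jqModC K)))
    (d : ℕ) [NeZero d] (hd : d ∣ N) :
    ∃ (ζ : Kˣ) (m : ℕ) (_ : NeZero m), ζ ^ d = 1 ∧ N / d ∣ m ∧
      τ ⟨qExpand k d (jqModC k), jqModCd_mem_full k N hd⟩ = φ (pxs_subst K ζ m (jqModC K)) :=
  ccj_param_of (ccx_rootCases K) N zN hzN φ τ hτj d hd

end

end Fermat.Agent.S18x
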