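/-
S18x/CuspPlaceDict (helper4): PLACES over `x = 0` versus CONJUGATE EXPANSIONS, through integrality
over the local ring `K[x]_(x)` phrased with denominators.  Abstract; usable on both sides of the
reduction (char 0: `F = FBar N` over `Q̄`; char `ℓ`: `F̄_N` over `k`).  Prefix `cpd_`.

`K` a field, `F/K` a function field, `x` a separating coordinate (`pls_IsSepCoordinate K F x`).

* `cpd_ord_of_den`  (CPD-2, no hypotheses): `g(0) ≠ 0`, `g(x) u` integral over `K[x]`
    ⟹ `u` is regular at every place over `x = 0`;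
* `cpd_exists_den_of_ord` (CPD-1): `u` regular at every place over `x = 0`
    ⟹ `∃ g, g(0) ≠ 0 ∧ g(x) u` integral over `K[x]`   (going-up in the Dedekind ring `ringB K x`);
* `cpd_expansions_iff` (CPD-3): `σ i : F →+* M`, `i : ι`, pairwise distinct, agreeing on `K(x)`,
  `card ι = [F : K(x)]`, `O` a valuation subring of `M` with `σ i (K) ⊆ O`, `σ i x` a nonunit of `O`:
    `(∀ i, σ i u ∈ O) ↔ ∀ P, 0 < P.ord x → 0 ≤ P.ord u`.
-/
import Fermat.Agent.S18x.GeDict
import Fermat.Agent.S18x.ValToPlace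
import Fermat.Agent.S24x.CoveringDedekind

set_option autoImplicit false

namespace Fermat.Agent.S18x

open AlgebraicCurve Polynomial IsDedekindDomain IntermediateField Fermat.Agent.S24x
open scoped IntermediateField.algebraAdjoinAdjoin

section Val

variable {K F : Type*} [Field K] [Field F] [Algebra K F]
variable {Γ : Type*} [LinearOrderedCommGroupWithZero Γ]

/-- polynomials in `x` are `v`-integral when `x` and the constants are -/
theorem cpd_val_aeval_le_one (v : Valuation F Γ) (hK : ∀ c : K, v (algebraMap K F c) ≤ 1)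
    {x : F} (hx : v x ≤ 1) (g : K[X]) : v (aeval x g) ≤ 1 := by
  induction g using Polynomial.induction_on' with
  | add p q hp hq =>
    rw [map_add]
    exact (v.map_add _ _).trans (max_le hp hq)
  | monomial n c =>
    rw [aeval_monomial, map_mul, map_pow]
    exact mul_le_one' (hK c) (pow_le_one' hx n)

/-- nonzero constants are `v`-units -/
theorem cpd_val_const_eq_one (v : Valuation F Γ) (hK : ∀ c : K, v (algebraMap K F c) ≤ 1)
    {c : K} (hc : c ≠ 0) : v (algebraMap K F c) = 1 := by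
  refine le_antisymm (hK c) ?_
  have h1 : v (algebraMap K F c) * v (algebraMap K F c⁻¹) = 1 := by
    rw [← map_mul, ← map_mul, mul_inv_cancel₀ hc, map_one, map_one]
  by_contra hlt
  rw [not_le] at hlt
  have h2 : v (algebraMap K F c) * v (algebraMap K F c⁻¹) < 1 :=
    calc v (algebraMap K F c) * v (algebraMap K F c⁻¹)
        ≤ v (algebraMap K F c) * 1 := mul_le_mul' le_rfl (hK c⁻¹)
      _ = v (algebraMap K F c) := mul_one _
      _ < 1 := hlt
  rw [h1] at h2
  exact lt_irrefl _ h2

/-- `g(0) ≠ 0` ⟹ `g(x)` is a `v`-unit when `v x < 1` -/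
theorem cpd_val_aeval_eq_one (v : Valuation F Γ) (hK : ∀ c : K, v (algebraMap K F c) ≤ 1)
    {x : F} (hx : v x < 1) {g : K[X]} (hg : g.eval 0 ≠ 0) : v (aeval x g) = 1 := by
  have hdec : g = g.divX * X + C (g.coeff 0) := (divX_mul_X_add g).symm
  have hg0 : g.coeff 0 ≠ 0 := by rwa [coeff_zero_eq_eval_zero]
  have h1 : v (aeval x (g.divX * X)) < 1 := by
    rw [map_mul, aeval_X, map_mul]
    calc v (aeval x g.divX) * v x ≤ 1 * v x :=
          mul_le_mul' (cpd_val_aeval_le_one v hK hx.le _) le_rfl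
      _ = v x := one_mul _
      _ < 1 := hx
  have h2 : v (aeval x (C (g.coeff 0))) = 1 := by
    rw [aeval_C]
    exact cpd_val_const_eq_one v hK hg0
  have h3 : v (aeval x (g.divX * X) + aeval x (C (g.coeff 0))) = v (aeval x (C (g.coeff 0))) :=
    Valuation.map_add_eq_of_lt_right v (h1.trans_eq h2.symm)
  rw [hdec, map_add, h3, h2]

end Val

section Den

variable {K F : Type*} [Field K] [Field F] [Algebra K F]

theorem cpd_ord_pos_iff (P : Place K F) {x : F} (hx0 : x ≠ 0) :
    0 < P.ord x ↔ P.adicValuation x < 1 := by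
  rw [P.adicValuation_eq_exp_neg_ord hx0, ← WithZero.exp_zero, WithZero.exp_lt_exp]
  omega

/-- **(CPD-2)** `g(0) ≠ 0` and `g(x) u` integral over `K[x]` ⟹ `u` regular over `x = 0`. -/
theorem cpd_ord_of_den {x u : F} {g : K[X]} (hg : g.eval 0 ≠ 0)
    (hint : IsIntegral (Algebra.adjoin K {x}) (aeval x g * u))
    (P : Place K F) (hP : 0 < P.ord x) : 0 ≤ P.ord u := by
  have hx0 : x ≠ 0 := by
    rintro rfl
    rw [P.ord_zero] at hP
    exact lt_irrefl _ hP
  have hxv : P.adicValuation x < 1 := (cpd_ord_pos_iff P hx0).mp hP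
  have h1 : 0 ≤ P.ord (aeval x g * u) := ged_ord_of_isIntegral hint P hP.le
  have h2 := (ged_ord_nonneg_iff P _).mp h1
  rw [map_mul, cpd_val_aeval_eq_one P.adicValuation P.adicValuation_algebraMap_le_one hxv hg,
    one_mul] at h2
  exact (ged_ord_nonneg_iff P u).mpr h2

/-- evaluation at `x = 0` on `K[x]` (for transcendental `x`) -/
noncomputable def cpd_ev0 (x : F) (hx : Transcendental K x) : ringA K x →+* K :=
  ((Polynomial.aeval (0 : K) : K[X] →ₐ[K] K) : K[X] →+* K).comp
    ((Polynomial.algEquivOfTranscendental K x hx).symm : ringA K x →+* K[X])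

theorem cpd_ev0_aeval (x : F) (hx : Transcendental K x) (g : K[X]) :
    cpd_ev0 x hx (aeval (genA K x) g) = g.eval 0 := by
  unfold cpd_ev0
  have h : (Polynomial.algEquivOfTranscendental K x hx).symm (aeval (genA K x) g) = g :=
    Polynomial.algEquivOfTranscendental_symm_aeval K x hx g
  show (Polynomial.aeval (0 : K)) ((Polynomial.algEquivOfTranscendental K x hx).symm
    (aeval (genA K x) g)) = _
  rw [h, Polynomial.coe_aeval_eq_eval]

theorem cpd_exists_poly (x : F) (hx : Transcendental K x) (a : ringA K x) :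
    ∃ g : K[X], aeval (genA K x) g = a :=
  ⟨(Polynomial.algEquivOfTranscendental K x hx).symm a,
    (Polynomial.algEquivOfTranscendental K x hx).apply_symm_apply a⟩

theorem cpd_coe_aeval_genA (x : F) (g : K[X]) :
    ((aeval (genA K x) g : ringA K x) : F) = aeval x g := by
  have h : algebraMap (ringA K x) F (aeval (genA K x) g) = aeval x g := by
    rw [← aeval_algebraMap_apply]
    rfl
  exact h

/-- **(CPD-1)** `u` regular at every place over `x = 0` ⟹ `g(x) u` integral over `K[x]` for some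
polynomial `g` with `g(0) ≠ 0`. -/
theorem cpd_exists_den_of_ord {x : F} (hx : pls_IsSepCoordinate K F x) {u : F}
    (h : ∀ P : Place K F, 0 < P.ord x → 0 ≤ P.ord u) :
    ∃ g : K[X], g.eval 0 ≠ 0 ∧ IsIntegral (Algebra.adjoin K {x}) (aeval x g * u) := by
  classical
  have htr := hx.coord.transcendental
  have : FFData K F x := ⟨hx.coord.transcendental, hx.coord.finite⟩
  have := hx.sep
  have hDed : IsDedekindDomain (ringB K x) :=
    integralClosure.isDedekindDomain (ringA K x) K⟮x⟯ F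
  by_contra hcon
  rw [not_exists] at hcon
  -- the ideal of denominators of `u`
  let I : Ideal (ringB K x) :=
    { carrier := {b | IsIntegral (ringA K x) ((b : F) * u)}
      zero_mem' := by
        show IsIntegral (ringA K x) (((0 : ringB K x) : F) * u)
        rw [ZeroMemClass.coe_zero, zero_mul]; exact isIntegral_zero
      add_mem' := by
        intro a b ha hb
        show IsIntegral (ringA K x) (((a + b : ringB K x) : F) * u)
        rw [AddMemClass.coe_add, add_mul]
        exact ha.add hb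
      smul_mem' := by
        intro c b hb
        show IsIntegral (ringA K x) (((c * b : ringB K x) : F) * u)
        rw [MulMemClass.coe_mul, mul_assoc]
        exact c.2.mul hb }
  have hImem : ∀ b : ringB K x, b ∈ I ↔ IsIntegral (ringA K x) ((b : F) * u) := fun _ => Iff.rfl
  have hcomap : I.comap (algebraMap (ringA K x) (ringB K x)) ≤ RingHom.ker (cpd_ev0 x htr) := by
    intro a ha
    rw [Ideal.mem_comap, hImem] at ha
    rw [RingHom.mem_ker]
    obtain ⟨g, rfl⟩ := cpd_exists_poly x htr a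
    rw [cpd_ev0_aeval]
    by_contra hg
    apply hcon g
    refine ⟨hg, ?_⟩
    have : ((algebraMap (ringA K x) (ringB K x) (aeval (genA K x) g) : ringB K x) : F)
        = aeval x g := cpd_coe_aeval_genA x g
    rw [this] at ha
    exact ha
  have hPprime : (RingHom.ker (cpd_ev0 x htr)).IsPrime := RingHom.ker_isPrime _
  obtain ⟨Q, hIQ, hQprime, hQP⟩ :=
    Ideal.exists_ideal_over_prime_of_isIntegral (RingHom.ker (cpd_ev0 x htr)) I hcomap
  -- `x ∈ Q`
  have hgenP : genA K x ∈ RingHom.ker (cpd_ev0 x htr) := by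
    rw [RingHom.mem_ker]
    have := cpd_ev0_aeval x htr (X : K[X])
    rw [aeval_X, eval_X] at this
    exact this
  have hxQ : crGen K x ∈ Q := by
    have : genA K x ∈ Q.comap (algebraMap (ringA K x) (ringB K x)) := by rw [hQP]; exact hgenP
    exact this
  have hx0 : x ≠ 0 := by
    rintro rfl
    exact htr (isAlgebraic_zero)
  have hgen0 : crGen K x ≠ 0 := by
    intro h0
    apply hx0
    have := congrArg (fun b : ringB K x => (b : F)) h0
    simpa using this
  have hQne : Q ≠ ⊥ := by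
    intro hbot
    rw [hbot, Ideal.mem_bot] at hxQ
    exact hgen0 hxQ
  let w : HeightOneSpectrum (ringB K x) := ⟨Q, hQprime, hQne⟩
  have hpos : 0 < (Place.ofHeightOneSpectrum (K := K) (F := F) w).ord x := by
    have := (cov_ord_pos_iff (K := K) (F := F) (ringB K x) w (crGen K x)).mpr ⟨hxQ, hgen0⟩
    rwa [algebraMap_crGen] at this
  have hu := h _ hpos
  have hu' : u ∈ (Place.ofHeightOneSpectrum (K := K) (F := F) w).toValuationSubring :=
    ns_mem_of_val_le_one _ ((ged_ord_nonneg_iff _ u).mp hu)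
  rw [Place.ofHeightOneSpectrum_toValuationSubring,
    ← HeightOneSpectrum.valuationSubringAtPrime_eq_valuationSubring] at hu'
  obtain ⟨a, s, hs, hus⟩ := hu'
  have hsI : s ∈ I := by
    rw [hImem]
    have hs0 : (s : F) ≠ 0 := by
      intro h0
      apply hs
      have : s = 0 := by
        apply Subtype.ext
        simpa using h0
      rw [this]
      exact Ideal.zero_mem _
    have hsa : (s : F) * u = (a : F) := by
      rw [hus]
      show (s : F) * ((a : F) * ((s : F))⁻¹) = (a : F)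
      field_simp
    rw [hsa]
    exact a.2
  exact hs (hIQ hsI)

end Den

section Expansions

variable {K F : Type*} [Field K] [Field F] [Algebra K F]

/-- in a valuation subring `V ⊇ K` in which `x` is a nonunit, `v x < 1` -/
theorem cpd_valuation_lt_one (V : ValuationSubring F) {x : F} (hxV : x ∈ V) (hxnu : x⁻¹ ∉ V) :
    V.valuation x < 1 := by
  refine lt_of_le_of_ne ((V.valuation_le_one_iff x).mpr hxV) ?_
  intro h1
  apply hxnu
  rw [← V.valuation_le_one_iff, map_inv₀, h1, inv_one]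

/-- `g(0) ≠ 0` ⟹ `g(x)` is a unit of `V` -/
theorem cpd_aeval_inv_mem (V : ValuationSubring F) (hK : ∀ c : K, algebraMap K F c ∈ V)
    {x : F} (hxV : x ∈ V) (hxnu : x⁻¹ ∉ V) {g : K[X]} (hg : g.eval 0 ≠ 0) :
    (aeval x g)⁻¹ ∈ V := by
  have h1 : V.valuation (aeval x g) = 1 :=
    cpd_val_aeval_eq_one V.valuation (fun c => (V.valuation_le_one_iff _).mpr (hK c))
      (cpd_valuation_lt_one V hxV hxnu) hg
  rw [← V.valuation_le_one_iff, map_inv₀, h1, inv_one]

/-- (⟸ of CPD-3), one embedding: regular over `x = 0` ⟹ expansion in `O`. -/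
theorem cpd_mem_of_ord {x : F} (hx : pls_IsSepCoordinate K F x)
    {M : Type*} [Field M] (O : ValuationSubring M) (σ : F →+* M)
    (hK : ∀ c : K, σ (algebraMap K F c) ∈ O) (hxO : σ x ∈ O) (hxnu : (σ x)⁻¹ ∉ O)
    {u : F} (h : ∀ P : Place K F, 0 < P.ord x → 0 ≤ P.ord u) : σ u ∈ O := by
  obtain ⟨g, hg, hint⟩ := cpd_exists_den_of_ord hx h
  have hKV : ∀ c : K, algebraMap K F c ∈ O.comap σ := fun c => hK c
  have hxV : x ∈ O.comap σ := hxO
  have hxnuV : x⁻¹ ∉ O.comap σ := by
    intro hmem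
    apply hxnu
    have : σ x⁻¹ ∈ O := hmem
    rwa [map_inv₀] at this
  have h1 : aeval x g * u ∈ O.comap σ := vtp_ringB_mem (O.comap σ) hKV hxV ⟨_, hint⟩
  have h2 : (aeval x g)⁻¹ ∈ O.comap σ := cpd_aeval_inv_mem (O.comap σ) hKV hxV hxnuV hg
  have h3 : (aeval x g)⁻¹ * (aeval x g * u) ∈ O.comap σ := (O.comap σ).mul_mem _ _ h2 h1
  have hne : aeval x g ≠ 0 := by
    intro h0
    have := cpd_aeval_inv_mem (O.comap σ) hKV hxV hxnuV hg
    have hv : (O.comap σ).valuation (aeval x g) = 1 :=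
      cpd_val_aeval_eq_one (O.comap σ).valuation
        (fun c => ((O.comap σ).valuation_le_one_iff _).mpr (hKV c))
        (cpd_valuation_lt_one (O.comap σ) hxV hxnuV) hg
    rw [h0, map_zero] at hv
    exact zero_ne_one hv
  rw [← mul_assoc, inv_mul_cancel₀ hne, one_mul] at h3
  exact h3

/-- a nonzero polynomial is `X^m * r₁` with `r₁(0) ≠ 0` -/
theorem cpd_exists_pow_mul (r : K[X]) (hr : r ≠ 0) :
    ∃ (m : ℕ) (r₁ : K[X]), r = X ^ m * r₁ ∧ r₁.eval 0 ≠ 0 := by
  obtain ⟨q, hq, hnd⟩ := exists_eq_pow_rootMultiplicity_mul_and_not_dvd r hr 0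
  rw [C_0, sub_zero] at hq hnd
  refine ⟨_, q, hq, ?_⟩
  rw [← coeff_zero_eq_eval_zero]
  intro h0
  exact hnd (X_dvd_iff.mpr h0)

/-- an element of `K(x)` lying in a valuation subring `V ⊇ K` in which `x` is a nonunit has a
denominator that does not vanish at `0` -/
theorem cpd_den_of_mem (V : ValuationSubring F) (hK : ∀ c : K, algebraMap K F c ∈ V)
    {x : F} (hxV : x ∈ V) (hxnu : x⁻¹ ∉ V) {f : F} (hf : f ∈ K⟮x⟯) (hfV : f ∈ V) :
    ∃ a g : K[X], g.eval 0 ≠ 0 ∧ f * aeval x g = aeval x a := by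
  have hKv : ∀ c : K, V.valuation (algebraMap K F c) ≤ 1 :=
    fun c => (V.valuation_le_one_iff _).mpr (hK c)
  have hxv : V.valuation x < 1 := cpd_valuation_lt_one V hxV hxnu
  obtain ⟨r, s, hrs⟩ := (mem_adjoin_simple_iff K f).mp hf
  by_cases hs0 : aeval x s = 0
  · refine ⟨0, 1, by simp, ?_⟩
    rw [hrs, hs0, div_zero, zero_mul, map_zero]
  by_cases hr0 : r = 0
  · refine ⟨0, 1, by simp, ?_⟩
    rw [hrs, hr0, map_zero, zero_div, zero_mul]
  have hs : s ≠ 0 := by
    rintro rfl
    exact hs0 (map_zero _)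
  obtain ⟨m, r₁, hr₁, hr₁0⟩ := cpd_exists_pow_mul r hr0
  obtain ⟨n, s₁, hs₁, hs₁0⟩ := cpd_exists_pow_mul s hs
  have hx0 : x ≠ 0 := by
    rintro rfl
    apply hxnu
    rw [inv_zero]
    exact V.zero_mem
  have hs₁x : aeval x s₁ ≠ 0 := by
    intro h0
    apply hs0
    rw [hs₁, map_mul, h0, mul_zero]
  -- `f * (x^n * s₁(x)) = x^m * r₁(x)`
  have hmain : f * (x ^ n * aeval x s₁) = x ^ m * aeval x r₁ := by
    have h1 : aeval x s = x ^ n * aeval x s₁ := by rw [hs₁, map_mul, map_pow, aeval_X]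
    have h2 : aeval x r = x ^ m * aeval x r₁ := by rw [hr₁, map_mul, map_pow, aeval_X]
    rw [hrs, ← h1, ← h2, div_mul_cancel₀ _ hs0]
  have hv1 : V.valuation (aeval x r₁) = 1 := cpd_val_aeval_eq_one V.valuation hKv hxv hr₁0
  have hv2 : V.valuation (aeval x s₁) = 1 := cpd_val_aeval_eq_one V.valuation hKv hxv hs₁0
  rcases le_or_gt n m with hnm | hmn
  · refine ⟨X ^ (m - n) * r₁, s₁, hs₁0, ?_⟩
    rw [map_mul, map_pow, aeval_X]
    have hxn : x ^ n ≠ 0 := pow_ne_zero _ hx0
    apply mul_left_cancel₀ hxn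
    calc x ^ n * (f * aeval x s₁) = f * (x ^ n * aeval x s₁) := by ring
      _ = x ^ m * aeval x r₁ := hmain
      _ = x ^ n * (x ^ (m - n) * aeval x r₁) := by
        rw [← mul_assoc, ← pow_add, Nat.add_sub_cancel' hnm]
  · exfalso
    -- `f * x^(n-m) * s₁(x) = r₁(x)`
    have hxm : x ^ m ≠ 0 := pow_ne_zero _ hx0
    have h3 : f * x ^ (n - m) * aeval x s₁ = aeval x r₁ := by
      apply mul_left_cancel₀ hxm
      calc x ^ m * (f * x ^ (n - m) * aeval x s₁)
          = f * (x ^ (m + (n - m)) * aeval x s₁) := by rw [pow_add]; ring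
        _ = f * (x ^ n * aeval x s₁) := by rw [Nat.add_sub_cancel' hmn.le]
        _ = x ^ m * aeval x r₁ := hmain
    have h4 := congrArg V.valuation h3
    rw [map_mul, map_mul, hv1, hv2, mul_one, map_pow] at h4
    have hfv : V.valuation f ≤ 1 := (V.valuation_le_one_iff _).mpr hfV
    have hpow : V.valuation x ^ (n - m) < 1 := by
      have hpos : n - m ≠ 0 := by omega
      exact pow_lt_one₀ zero_le hxv hpos
    have : V.valuation f * V.valuation x ^ (n - m) < 1 :=
      calc V.valuation f * V.valuation x ^ (n - m) ≤ 1 * V.valuation x ^ (n - m) :=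
            mul_le_mul' hfv le_rfl
        _ = V.valuation x ^ (n - m) := one_mul _
        _ < 1 := hpow
    rw [h4] at this
    exact lt_irrefl _ this

/-- the coefficients of the minimal polynomial of `u` over `K(x)` have expansions in `O` as soon
as all conjugate expansions of `u` lie in `O` -/
theorem cpd_minpoly_coeff_mem {x : F} [FiniteDimensional K⟮x⟯ F] [Algebra.IsSeparable K⟮x⟯ F]
    {M : Type*} [Field M] (O : ValuationSubring M)
    {ι : Type*} [Fintype ι] (σ : ι → F →+* M)
    (hσinj : Function.Injective σ)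
    (hcard : Fintype.card ι = Module.finrank K⟮x⟯ F)
    (hagree : ∀ i i' (f : K⟮x⟯), σ i (algebraMap K⟮x⟯ F f) = σ i' (algebraMap K⟮x⟯ F f))
    {u : F} (hu : ∀ i, σ i u ∈ O) (i0 : ι) (j : ℕ) :
    σ i0 (algebraMap K⟮x⟯ F ((minpoly K⟮x⟯ u).coeff j)) ∈ O := by
  classical
  let algM : Algebra K⟮x⟯ M := ((σ i0).comp (algebraMap K⟮x⟯ F)).toAlgebra
  have halgM : ∀ f : K⟮x⟯, algebraMap K⟮x⟯ M f = σ i0 (algebraMap K⟮x⟯ F f) := fun _ => rfl
  let φ : ι → (F →ₐ[K⟮x⟯] AlgebraicClosure M) := fun i =>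
    { toRingHom := (algebraMap M (AlgebraicClosure M)).comp (σ i)
      commutes' := fun f => by
        show algebraMap M (AlgebraicClosure M) (σ i (algebraMap K⟮x⟯ F f)) =
          algebraMap K⟮x⟯ (AlgebraicClosure M) f
        rw [IsScalarTower.algebraMap_apply K⟮x⟯ M (AlgebraicClosure M), halgM, hagree i i0] }
  have hφapp : ∀ i y, φ i y = algebraMap M (AlgebraicClosure M) (σ i y) := fun _ _ => rfl
  have hφinj : Function.Injective φ := by
    intro i i' h
    apply hσinj
    ext y
    have := DFunLike.congr_fun h y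
    rw [hφapp, hφapp] at this
    exact (algebraMap M (AlgebraicClosure M)).injective this
  have hφbij : Function.Bijective φ :=
    (Fintype.bijective_iff_injective_and_card φ).mpr
      ⟨hφinj, hcard.trans (AlgHom.card K⟮x⟯ F (AlgebraicClosure M)).symm⟩
  have hint : IsIntegral K⟮x⟯ u := Algebra.IsIntegral.isIntegral u
  have hcoef : IsIntegral O
      (((minpoly K⟮x⟯ u).map (algebraMap K⟮x⟯ (AlgebraicClosure M))).coeff j) := by
    apply Polynomial.isIntegral_coeff_of_factors
    · rw [((minpoly.monic hint).map _).leadingCoeff]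
      exact isIntegral_one
    · exact IsAlgClosed.splits _
    · intro r hr
      have hr' : aeval r (minpoly K⟮x⟯ u) = 0 := by
        rwa [IsRoot, eval_map_algebraMap] at hr
      obtain ⟨ψ, hψ⟩ := IntermediateField.exists_algHom_of_splits_of_aeval
        (fun s => ⟨Algebra.IsIntegral.isIntegral s, IsAlgClosed.splits _⟩) hr'
      obtain ⟨i, rfl⟩ := hφbij.2 ψ
      rw [← hψ, hφapp]
      have : algebraMap M (AlgebraicClosure M) (σ i u) =
          algebraMap O (AlgebraicClosure M) ⟨σ i u, hu i⟩ := by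
        rw [IsScalarTower.algebraMap_apply O M (AlgebraicClosure M)]
        rfl
      rw [this]
      exact isIntegral_algebraMap
  rw [coeff_map, IsScalarTower.algebraMap_apply K⟮x⟯ M (AlgebraicClosure M), halgM] at hcoef
  have h2 : IsIntegral O (σ i0 (algebraMap K⟮x⟯ F ((minpoly K⟮x⟯ u).coeff j))) :=
    (isIntegral_algebraMap_iff (algebraMap M (AlgebraicClosure M)).injective).mp hcoef
  obtain ⟨o, ho⟩ := (IsIntegrallyClosed.isIntegral_iff (R := O) (K := M)).mp h2
  rw [← ho]
  exact o.2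

/-- clearing the denominators of a monic equation over `K(x)`: if `p(u) = 0`, `p` monic over
`K(x)`, and `g(x)` times every lower coefficient of `p` is a polynomial in `x`, then `g(x) u` is
integral over `K[x]`. -/
theorem cpd_isIntegral_of_coeff_den {x u : F} (p : K⟮x⟯[X]) (hp : p.Monic) (hpu : aeval u p = 0)
    (g : K[X])
    (hden : ∀ j < p.natDegree, ∃ a : K[X],
      algebraMap K⟮x⟯ F (p.coeff j) * aeval x g = aeval x a) :
    IsIntegral (Algebra.adjoin K {x}) (aeval x g * u) := by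
  have hpF : (p.map (algebraMap K⟮x⟯ F)).Monic := hp.map _
  have hdeg : (p.map (algebraMap K⟮x⟯ F)).natDegree = p.natDegree :=
    natDegree_map_eq_of_injective (algebraMap K⟮x⟯ F).injective p
  have hqmonic : (scaleRoots (p.map (algebraMap K⟮x⟯ F)) (aeval x g)).Monic :=
    (monic_scaleRoots_iff _).mpr hpF
  have hroot : eval (aeval x g * u) (scaleRoots (p.map (algebraMap K⟮x⟯ F)) (aeval x g)) = 0 := by
    rw [scaleRoots_eval_mul, eval_map_algebraMap, hpu, mul_zero]
  have hrange : ∀ a : K[X], aeval x a ∈ Set.range (algebraMap (ringA K x) F) := fun a =>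
    ⟨aeval (genA K x) a, cpd_coe_aeval_genA x a⟩
  have hlifts : scaleRoots (p.map (algebraMap K⟮x⟯ F)) (aeval x g) ∈
      lifts (algebraMap (ringA K x) F) := by
    rw [lifts_iff_coeff_lifts]
    intro n
    rw [coeff_scaleRoots, hdeg, coeff_map]
    rcases lt_trichotomy n p.natDegree with hn | hn | hn
    · obtain ⟨a, ha⟩ := hden n hn
      have hpow : p.natDegree - n = (p.natDegree - n - 1) + 1 := by omega
      rw [hpow, pow_succ, ← mul_assoc, mul_comm _ (aeval x g), ← mul_assoc,
        mul_comm (aeval x g), ha, ← map_pow, ← map_mul]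
      exact hrange _
    · rw [hn, Nat.sub_self, pow_zero, mul_one]
      have h1 : p.coeff p.natDegree = 1 := hp
      rw [h1, map_one]
      exact ⟨1, map_one _⟩
    · rw [coeff_eq_zero_of_natDegree_lt hn, map_zero, zero_mul]
      exact ⟨0, map_zero _⟩
  obtain ⟨Q, hQmap, -, hQmonic⟩ := lifts_and_degree_eq_and_monic hlifts hqmonic
  refine ⟨Q, hQmonic, ?_⟩
  rw [eval₂_eq_eval_map, hQmap]
  exact hroot

/-- all conjugate expansions of `u` in `O` ⟹ `g(x) u` integral over `K[x]` with `g(0) ≠ 0`. -/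
theorem cpd_exists_den_of_mem {x : F} (hx : pls_IsSepCoordinate K F x)
    {M : Type*} [Field M] (O : ValuationSubring M)
    {ι : Type*} [Fintype ι] (σ : ι → F →+* M)
    (hσinj : Function.Injective σ)
    (hcard : Fintype.card ι = Module.finrank K⟮x⟯ F)
    (hagree : ∀ i i' (f : K⟮x⟯), σ i (algebraMap K⟮x⟯ F f) = σ i' (algebraMap K⟮x⟯ F f))
    (hK : ∀ i (c : K), σ i (algebraMap K F c) ∈ O)
    (hxO : ∀ i, σ i x ∈ O) (hxnu : ∀ i, (σ i x)⁻¹ ∉ O)
    {u : F} (hu : ∀ i, σ i u ∈ O) :
    ∃ g : K[X], g.eval 0 ≠ 0 ∧ IsIntegral (Algebra.adjoin K {x}) (aeval x g * u) := by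
  classical
  have := hx.coord.finite
  have := hx.sep
  have hpos : 0 < Fintype.card ι := by rw [hcard]; exact Module.finrank_pos
  obtain ⟨i0⟩ : Nonempty ι := Fintype.card_pos_iff.mp hpos
  have hint : IsIntegral K⟮x⟯ u := Algebra.IsIntegral.isIntegral u
  have hKV : ∀ c : K, algebraMap K F c ∈ O.comap (σ i0) := fun c => hK i0 c
  have hxV : x ∈ O.comap (σ i0) := hxO i0
  have hxnuV : x⁻¹ ∉ O.comap (σ i0) := by
    intro hmem
    apply hxnu i0
    have : σ i0 x⁻¹ ∈ O := hmem
    rwa [map_inv₀] at this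
  have hcoeff : ∀ j, ∃ a g : K[X], g.eval 0 ≠ 0 ∧
      algebraMap K⟮x⟯ F ((minpoly K⟮x⟯ u).coeff j) * aeval x g = aeval x a := by
    intro j
    exact cpd_den_of_mem (O.comap (σ i0)) hKV hxV hxnuV
      (f := algebraMap K⟮x⟯ F ((minpoly K⟮x⟯ u).coeff j)) ((minpoly K⟮x⟯ u).coeff j).2
      (cpd_minpoly_coeff_mem O σ hσinj hcard hagree hu i0 j)
  choose a g hg hag using hcoeff
  refine ⟨∏ j ∈ Finset.range (minpoly K⟮x⟯ u).natDegree, g j, ?_, ?_⟩
  · rw [eval_prod]
    exact Finset.prod_ne_zero_iff.mpr (fun j _ => hg j)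
  · apply cpd_isIntegral_of_coeff_den (minpoly K⟮x⟯ u) (minpoly.monic hint) (minpoly.aeval _ _)
    intro j hj
    refine ⟨a j * ∏ j' ∈ (Finset.range (minpoly K⟮x⟯ u).natDegree).erase j, g j', ?_⟩
    rw [← Finset.mul_prod_erase _ _ (Finset.mem_range.mpr hj), map_mul, ← mul_assoc, hag j,
      map_mul]

/-- **(CPD-3)** conjugate expansions versus places over `x = 0`. -/
theorem cpd_expansions_iff {x : F} (hx : pls_IsSepCoordinate K F x)
    {M : Type*} [Field M] (O : ValuationSubring M)
    {ι : Type*} [Fintype ι] (σ : ι → F →+* M)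
    (hσinj : Function.Injective σ)
    (hcard : Fintype.card ι = Module.finrank K⟮x⟯ F)
    (hagree : ∀ i i' (f : K⟮x⟯), σ i (algebraMap K⟮x⟯ F f) = σ i' (algebraMap K⟮x⟯ F f))
    (hK : ∀ i (c : K), σ i (algebraMap K F c) ∈ O)
    (hxO : ∀ i, σ i x ∈ O) (hxnu : ∀ i, (σ i x)⁻¹ ∉ O) (u : F) :
    (∀ i, σ i u ∈ O) ↔ ∀ P : Place K F, 0 < P.ord x → 0 ≤ P.ord u := by
  constructor
  · intro hu P hP
    obtain ⟨g, hg, hint⟩ := cpd_exists_den_of_mem hx O σ hσinj hcard hagree hK hxO hxnu hu
    exact cpd_ord_of_den hg hint P hP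
  · intro h i
    exact cpd_mem_of_ord hx O (σ i) (hK i) (hxO i) (hxnu i) h

/-- agreement on `K(x)` from agreement on `K` and at `x` -/
theorem cpd_agree_of_gen {x : F} {M : Type*} [Field M] (σ τ : F →+* M)
    (hK : ∀ c : K, σ (algebraMap K F c) = τ (algebraMap K F c)) (hxx : σ x = τ x)
    (f : K⟮x⟯) : σ (algebraMap K⟮x⟯ F f) = τ (algebraMap K⟮x⟯ F f) := by
  obtain ⟨r, s, hrs⟩ := (mem_adjoin_simple_iff K (f : F)).mp f.2
  have haev : ∀ q : K[X], σ (aeval x q) = τ (aeval x q) := by
    intro q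
    induction q using Polynomial.induction_on' with
    | add p q hp hq => rw [map_add, map_add, map_add, hp, hq]
    | monomial n c => rw [aeval_monomial, map_mul, map_mul, map_pow, map_pow, hK, hxx]
  show σ (f : F) = τ (f : F)
  rw [hrs, map_div₀, map_div₀, haev, haev]

/-- **(CPD-3')** the same with agreement of the embeddings stated on `K` and at `x` only. -/
theorem cpd_expansions_iff' {x : F} (hx : pls_IsSepCoordinate K F x)
    {M : Type*} [Field M] (O : ValuationSubring M)
    {ι : Type*} [Fintype ι] (σ : ι → F →+* M)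
    (hσinj : Function.Injective σ)
    (hcard : Fintype.card ι = Module.finrank K⟮x⟯ F)
    (hagreeK : ∀ i i' (c : K), σ i (algebraMap K F c) = σ i' (algebraMap K F c))
    (hagreex : ∀ i i', σ i x = σ i' x)
    (hK : ∀ i (c : K), σ i (algebraMap K F c) ∈ O)
    (hxO : ∀ i, σ i x ∈ O) (hxnu : ∀ i, (σ i x)⁻¹ ∉ O) (u : F) :
    (∀ i, σ i u ∈ O) ↔ ∀ P : Place K F, 0 < P.ord x → 0 ≤ P.ord u :=
  cpd_expansions_iff hx O σ hσinj hcard
    (fun i i' f => cpd_agree_of_gen (σ i) (σ i') (hagreeK i i') (hagreex i i') f) hK hxO hxnu u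

end Expansions

end Fermat.Agent.S18x
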