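/-
S18x/CuspIntDict (helper4): the cusp dictionary of `S18x/CuspPlaceDict` in INTEGRALITY language
(helper57's DICT for the N7 bridge).  "`u` is integral over the local ring `K[x]_(x)`" is phrased
with denominators: `∃ g : K[X], g(0) ≠ 0 ∧ g(x) u` integral over `K[x] = Algebra.adjoin K {x}`.
Prefix `cid_`.

* `cid_mem_of_den` (⟸, NO separability): `g(0) ≠ 0`, `g(x) u` integral over `K[x]`, `σ : F →+* M`
  with `σ(K) ⊆ O`, `σ x` a nonunit of the valuation subring `O` ⟹ `σ u ∈ O`;
* `cid_expansions_iff` : DICT: all conjugate expansions of `u` lie in `O`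
    ⟺ `u` integral over `K[x]_(x)`;
* `cid_isIntegral_of_den_of_pow` : integral over `K[x]_(x)` and over `K[x, 1/x]` ⟹ integral over
  `K[x]`  (`g(0) ≠ 0`, `g(x) u` and `x^m u` integral ⟹ `u` integral; Bézout);
* `cid_den_iff_ord`, `cid_pow_of_ord` : translations to the place language.
-/
import Fermat.Agent.S18x.CuspPlaceDict

set_option autoImplicit false

namespace Fermat.Agent.S18x

open AlgebraicCurve Polynomial IsDedekindDomain IntermediateField Fermat.Agent.S24x
open scoped IntermediateField.algebraAdjoinAdjoin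

variable {K F : Type*} [Field K] [Field F] [Algebra K F]

/-- polynomials in `x` are integral over `K[x]` -/
theorem cid_isIntegral_aeval (x : F) (a : K[X]) :
    IsIntegral (Algebra.adjoin K {x}) (aeval x a) := by
  have h : aeval x a = algebraMap (ringA K x) F (aeval (genA K x) a) :=
    (cpd_coe_aeval_genA x a).symm
  rw [h]
  exact isIntegral_algebraMap

/-- (⟸ of DICT), one embedding, no separability: integral over `K[x]_(x)` ⟹ expansion in `O`. -/
theorem cid_mem_of_den {x u : F} {g : K[X]} (hg : g.eval 0 ≠ 0)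
    (hint : IsIntegral (Algebra.adjoin K {x}) (aeval x g * u))
    {M : Type*} [Field M] (O : ValuationSubring M) (σ : F →+* M)
    (hK : ∀ c : K, σ (algebraMap K F c) ∈ O) (hxO : σ x ∈ O) (hxnu : (σ x)⁻¹ ∉ O) : σ u ∈ O := by
  have hKV : ∀ c : K, algebraMap K F c ∈ O.comap σ := fun c => hK c
  have hxV : x ∈ O.comap σ := hxO
  have hxnuV : x⁻¹ ∉ O.comap σ := by
    intro hmem
    apply hxnu
    have : σ x⁻¹ ∈ O := hmem
    rwa [map_inv₀] at this
  have h1 : aeval x g * u ∈ O.comap σ := vtp_ringB_mem (O.comap σ) hKV hxV ⟨_, hint⟩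
  have h2 : (aeval x g)⁻¹ ∈ O.comap σ := cpd_aeval_inv_mem (O.comap σ) hKV hxV hxnuV hg
  have h3 : (aeval x g)⁻¹ * (aeval x g * u) ∈ O.comap σ := (O.comap σ).mul_mem _ _ h2 h1
  have hne : aeval x g ≠ 0 := by
    intro h0
    have hv : (O.comap σ).valuation (aeval x g) = 1 :=
      cpd_val_aeval_eq_one (O.comap σ).valuation
        (fun c => ((O.comap σ).valuation_le_one_iff _).mpr (hKV c))
        (cpd_valuation_lt_one (O.comap σ) hxV hxnuV) hg
    rw [h0, map_zero] at hv
    exact zero_ne_one hv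
  rw [← mul_assoc, inv_mul_cancel₀ hne, one_mul] at h3
  exact h3

/-- **DICT** (helper57): all conjugate expansions of `u` lie in `O` ⟺ `u` is integral over
`K[x]_(x)`. -/
theorem cid_expansions_iff {x : F} (hx : pls_IsSepCoordinate K F x)
    {M : Type*} [Field M] (O : ValuationSubring M)
    {ι : Type*} [Fintype ι] (σ : ι → F →+* M)
    (hσinj : Function.Injective σ)
    (hcard : Fintype.card ι = Module.finrank K⟮x⟯ F)
    (hagree : ∀ i i' (f : K⟮x⟯), σ i (algebraMap K⟮x⟯ F f) = σ i' (algebraMap K⟮x⟯ F f))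
    (hK : ∀ i (c : K), σ i (algebraMap K F c) ∈ O)
    (hxO : ∀ i, σ i x ∈ O) (hxnu : ∀ i, (σ i x)⁻¹ ∉ O) (u : F) :
    (∀ i, σ i u ∈ O) ↔
      ∃ g : K[X], g.eval 0 ≠ 0 ∧ IsIntegral (Algebra.adjoin K {x}) (aeval x g * u) := by
  constructor
  · intro hu
    exact cpd_exists_den_of_mem hx O σ hσinj hcard hagree hK hxO hxnu hu
  · rintro ⟨g, hg, hint⟩ i
    exact cid_mem_of_den hg hint O (σ i) (hK i) (hxO i) (hxnu i)

/-- integral over `K[x]_(x)` and over `K[x, 1/x]` ⟹ integral over `K[x]`. -/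
theorem cid_isIntegral_of_den_of_pow {x u : F} {g : K[X]} (hg : g.eval 0 ≠ 0)
    (hint : IsIntegral (Algebra.adjoin K {x}) (aeval x g * u)) {m : ℕ}
    (hpow : IsIntegral (Algebra.adjoin K {x}) (x ^ m * u)) :
    IsIntegral (Algebra.adjoin K {x}) u := by
  have hnd : ¬ (X : K[X]) ∣ g := by
    rw [X_dvd_iff, coeff_zero_eq_eval_zero]
    exact hg
  have hcop : IsCoprime ((X : K[X]) ^ m) g :=
    ((Polynomial.prime_X (R := K)).irreducible.coprime_iff_not_dvd.mpr hnd).pow_left
  obtain ⟨a, b, hab⟩ := hcop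
  have h1 : u = aeval x a * (x ^ m * u) + aeval x b * (aeval x g * u) := by
    have h2 := congrArg (aeval x) hab
    rw [map_add, map_mul, map_mul, map_pow, aeval_X, map_one] at h2
    calc u = 1 * u := (one_mul u).symm
      _ = (aeval x a * x ^ m + aeval x b * aeval x g) * u := by rw [h2]
      _ = _ := by ring
  rw [h1]
  exact ((cid_isIntegral_aeval x a).mul hpow).add ((cid_isIntegral_aeval x b).mul hint)

/-- the denominator form is the place form (separating coordinate) -/
theorem cid_den_iff_ord {x : F} (hx : pls_IsSepCoordinate K F x) (u : F) :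
    (∃ g : K[X], g.eval 0 ≠ 0 ∧ IsIntegral (Algebra.adjoin K {x}) (aeval x g * u)) ↔
      ∀ P : Place K F, 0 < P.ord x → 0 ≤ P.ord u :=
  ⟨fun ⟨_, hg, hint⟩ P hP => cpd_ord_of_den hg hint P hP, cpd_exists_den_of_ord hx⟩

/-- integral over `K[x]` ⟺ integral over `K[x]_(x)` and regular at the places where `x` is a unit
(place form of `cid_isIntegral_of_den_of_pow`, separating coordinate). -/
theorem cid_isIntegral_of_ord {x : F} (hx : pls_IsSepCoordinate K F x) {u : F}
    (h0 : ∀ P : Place K F, 0 < P.ord x → 0 ≤ P.ord u)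
    (h1 : ∀ P : Place K F, P.ord x = 0 → 0 ≤ P.ord u) :
    IsIntegral (Algebra.adjoin K {x}) u := by
  apply ged_isIntegral_of_ord hx
  intro P hP
  rcases hP.lt_or_eq with h | h
  · exact h0 P h
  · exact h1 P h.symm

end Fermat.Agent.S18x
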