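/-
S18x/CuspLaurentVal (helper4): the valuation subring `K⟦t⟧ ⊆ K⸨t⸩` packaged as a
`ValuationSubring (LaurentSeries K)`, in the shape needed by `cpd_expansions_iff` /
`cid_expansions_iff` (S18x/CuspPlaceDict, CuspIntDict) with `M = LaurentSeries K`.  Prefix `clv_`.
-/
import Mathlib

set_option autoImplicit false

namespace Fermat.Agent.S18x

open PowerSeries WithZero

variable (K : Type*) [Field K]

/-- power series inside Laurent series, as a valuation subring -/
noncomputable def clv_O : ValuationSubring (LaurentSeries K) :=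
  (Valued.v : Valuation (LaurentSeries K) ℤᵐ⁰).valuationSubring

variable {K}

theorem clv_mem_iff_val (f : LaurentSeries K) :
    f ∈ clv_O K ↔ (Valued.v f : ℤᵐ⁰) ≤ 1 :=
  Valuation.mem_valuationSubring_iff _ _

theorem clv_mem_iff (f : LaurentSeries K) :
    f ∈ clv_O K ↔ ∃ p : PowerSeries K, (p : LaurentSeries K) = f := by
  rw [clv_mem_iff_val, LaurentSeries.val_le_one_iff_eq_coe]

theorem clv_mem_iff_coeff (f : LaurentSeries K) :
    f ∈ clv_O K ↔ ∀ n : ℤ, n < 0 → f.coeff n = 0 := by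
  rw [clv_mem_iff_val]
  have h := LaurentSeries.valuation_le_iff_coeff_lt_eq_zero K (D := 0) (f := f)
  rw [neg_zero, exp_zero] at h
  exact h

theorem clv_coe_mem (p : PowerSeries K) : (p : LaurentSeries K) ∈ clv_O K :=
  (clv_mem_iff _).mpr ⟨p, rfl⟩

theorem clv_C_mem (c : K) : (HahnSeries.C c : LaurentSeries K) ∈ clv_O K := by
  rw [clv_mem_iff_coeff]
  intro n hn
  rw [HahnSeries.C_apply, HahnSeries.coeff_single_of_ne hn.ne]

/-- a Laurent series of positive order is a nonunit of `clv_O` -/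
theorem clv_inv_not_mem {f : LaurentSeries K} (hf0 : f ≠ 0)
    (hf : ∀ n : ℤ, n < 1 → f.coeff n = 0) : f⁻¹ ∉ clv_O K := by
  rw [clv_mem_iff_val, map_inv₀]
  have h1 : (Valued.v f : ℤᵐ⁰) ≤ exp (-(1 : ℤ)) :=
    (LaurentSeries.valuation_le_iff_coeff_lt_eq_zero K).mpr hf
  have h0 : (Valued.v f : ℤᵐ⁰) ≠ 0 := (Valuation.ne_zero_iff _).mpr hf0
  intro hle
  have h2 : (1 : ℤᵐ⁰) ≤ Valued.v f := by
    have := mul_le_mul' hle (le_refl (Valued.v f : ℤᵐ⁰))
    rwa [inv_mul_cancel₀ h0, one_mul] at this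
  have h3 : (1 : ℤᵐ⁰) ≤ exp (-(1 : ℤ)) := h2.trans h1
  rw [← exp_zero, exp_le_exp] at h3
  omega

/-- power series with zero constant term are nonunits of `clv_O` -/
theorem clv_coe_inv_not_mem {p : PowerSeries K} (hp0 : p ≠ 0)
    (hp : PowerSeries.constantCoeff p = 0) : ((p : LaurentSeries K))⁻¹ ∉ clv_O K := by
  apply clv_inv_not_mem
  · intro h
    apply hp0
    have : (p : LaurentSeries K) = ((0 : PowerSeries K) : LaurentSeries K) := by
      rw [h]; simp
    exact HahnSeries.ofPowerSeries_injective this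
  · intro n hn
    rw [PowerSeries.coeff_coe]
    split_ifs with h
    · rfl
    · have hn0 : n = 0 := by omega
      rw [hn0, Int.natAbs_zero, PowerSeries.coeff_zero_eq_constantCoeff_apply]
      exact hp

end Fermat.Agent.S18x
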