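import Mathlib

/-!
# S18 / block NRM / row N7 (OUT-C, cusp normality): pure power-series core (prefix `cnm_`)

`R` is a commutative domain (the valuation ring `A'`), `s = q^(1/N)` the variable of `R⟦X⟧`,
`ρ = rescale ζ` the generator of the `μ_N`-action.  Given finitely many "conjugates"
`y i ∈ R⟦X⟧` permuted by `ρ`, all of whose differences are `X^m * unit`, every `ρ`-equivariant
family `τ` is interpolated, up to the factor `x^c'` (conductor) and modulo any power of `X^N`,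
by a polynomial in `(x, y i)` with coefficients in `R`; here `x = X^N * unit` is `ρ`-invariant
(`x = 1/j`).  This is the Lagrange / Dedekind conductor argument.
-/

set_option autoImplicit false

namespace Fermat.Agent.S18x

open scoped PowerSeries Polynomial

variable {R : Type*} [CommRing R]

/-- `ρ`-invariance. -/
def cnm_Inv (ζ : R) (f : R⟦X⟧) : Prop := PowerSeries.rescale ζ f = f

theorem cnm_Inv.mul {ζ : R} {f g : R⟦X⟧} (hf : cnm_Inv ζ f) (hg : cnm_Inv ζ g) :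
    cnm_Inv ζ (f * g) := by
  unfold cnm_Inv at *; rw [map_mul, hf, hg]

theorem cnm_Inv.pow {ζ : R} {f : R⟦X⟧} (hf : cnm_Inv ζ f) (n : ℕ) : cnm_Inv ζ (f ^ n) := by
  unfold cnm_Inv at *; rw [map_pow, hf]

theorem cnm_Inv_X_pow {ζ : R} {N : ℕ} (hζ : ζ ^ N = 1) :
    cnm_Inv ζ ((PowerSeries.X : R⟦X⟧) ^ N) := by
  unfold cnm_Inv
  rw [map_pow, PowerSeries.rescale_X, mul_pow, ← map_pow, hζ, map_one, one_mul]

theorem cnm_Inv_X_pow_mul {ζ : R} {N : ℕ} (hζ : ζ ^ N = 1) (k : ℕ) :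
    cnm_Inv ζ ((PowerSeries.X : R⟦X⟧) ^ (N * k)) := by
  rw [pow_mul]; exact (cnm_Inv_X_pow hζ).pow k

/-- the inverse of an invariant unit is invariant -/
theorem cnm_Inv_unit_inv {ζ : R} (u : (R⟦X⟧)ˣ) (hu : cnm_Inv ζ (u : R⟦X⟧)) :
    cnm_Inv ζ ((u⁻¹ : (R⟦X⟧)ˣ) : R⟦X⟧) := by
  unfold cnm_Inv at *
  have h1 : PowerSeries.rescale ζ ((u⁻¹ : (R⟦X⟧)ˣ) : R⟦X⟧) * (u : R⟦X⟧) = 1 := by
    conv_lhs => rw [← hu]
    rw [← map_mul, Units.inv_mul, map_one]
  calc PowerSeries.rescale ζ ((u⁻¹ : (R⟦X⟧)ˣ) : R⟦X⟧)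
      = PowerSeries.rescale ζ ((u⁻¹ : (R⟦X⟧)ˣ) : R⟦X⟧) *
          ((u : R⟦X⟧) * ((u⁻¹ : (R⟦X⟧)ˣ) : R⟦X⟧)) := by
        rw [Units.mul_inv, mul_one]
    _ = ((u⁻¹ : (R⟦X⟧)ˣ) : R⟦X⟧) := by rw [← mul_assoc, h1, one_mul]

/-- invariant series are supported on multiples of `N` -/
theorem cnm_coeff_eq_zero_of_inv {N : ℕ} {ζ : R}
    (hreg : ∀ m : ℕ, ¬ N ∣ m → ∀ a : R, ζ ^ m * a = a → a = 0)
    {f : R⟦X⟧} (hf : cnm_Inv ζ f) {m : ℕ} (hm : ¬ N ∣ m) : PowerSeries.coeff m f = 0 := by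
  apply hreg m hm
  have := congrArg (PowerSeries.coeff m) hf
  rwa [PowerSeries.coeff_rescale] at this

/-- the shift `f ↦ (f - f(0)) / X^N` of an invariant series -/
noncomputable def cnm_shift (N : ℕ) (f : R⟦X⟧) : R⟦X⟧ :=
  PowerSeries.mk fun m => PowerSeries.coeff (m + N) f

theorem cnm_shift_spec {N : ℕ} (hN : 0 < N) {ζ : R}
    (hreg : ∀ m : ℕ, ¬ N ∣ m → ∀ a : R, ζ ^ m * a = a → a = 0)
    {f : R⟦X⟧} (hf : cnm_Inv ζ f) :
    f = PowerSeries.C (PowerSeries.coeff 0 f) + PowerSeries.X ^ N * cnm_shift N f := by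
  ext m
  rw [map_add, PowerSeries.coeff_C, PowerSeries.coeff_X_pow_mul']
  by_cases hm0 : m = 0
  · subst hm0
    rw [if_pos rfl, if_neg (by omega), add_zero]
  · rw [if_neg hm0, zero_add]
    by_cases hNm : N ≤ m
    · rw [if_pos hNm, cnm_shift, PowerSeries.coeff_mk, Nat.sub_add_cancel hNm]
    · rw [if_neg hNm]
      apply cnm_coeff_eq_zero_of_inv hreg hf
      intro hdvd
      exact hNm (Nat.le_of_dvd (Nat.pos_of_ne_zero hm0) hdvd)

theorem cnm_shift_inv {N : ℕ} {ζ : R} (hζ : ζ ^ N = 1) {f : R⟦X⟧} (hf : cnm_Inv ζ f) :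
    cnm_Inv ζ (cnm_shift N f) := by
  unfold cnm_Inv
  ext m
  rw [PowerSeries.coeff_rescale, cnm_shift, PowerSeries.coeff_mk]
  have := congrArg (PowerSeries.coeff (m + N)) hf
  rw [PowerSeries.coeff_rescale, pow_add, hζ, mul_one] at this
  exact this

/-- approximation of invariant series by polynomials in `x = X^N * unit` -/
theorem cnm_approx {N : ℕ} (hN : 0 < N) {ζ : R} (hζ : ζ ^ N = 1)
    (hreg : ∀ m : ℕ, ¬ N ∣ m → ∀ a : R, ζ ^ m * a = a → a = 0)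
    (x : R⟦X⟧) (u : (R⟦X⟧)ˣ) (hxu : x = PowerSeries.X ^ N * (u : R⟦X⟧)) (hu : cnm_Inv ζ (u : R⟦X⟧))
    (K : ℕ) : ∀ f : R⟦X⟧, cnm_Inv ζ f →
      ∃ p : R[X], (PowerSeries.X : R⟦X⟧) ^ (N * K) ∣ f - Polynomial.aeval x p := by
  induction K with
  | zero =>
    intro f _
    exact ⟨0, by simp⟩
  | succ K ih =>
    intro f hf
    have hsh := cnm_shift_spec hN hreg hf
    set f' := cnm_shift N f with hf'
    have hf'inv : cnm_Inv ζ f' := cnm_shift_inv hζ hf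
    set f₁ : R⟦X⟧ := ((u⁻¹ : (R⟦X⟧)ˣ) : R⟦X⟧) * f' with hf₁
    have hf₁inv : cnm_Inv ζ f₁ := (cnm_Inv_unit_inv u hu).mul hf'inv
    obtain ⟨p₁, hp₁⟩ := ih f₁ hf₁inv
    refine ⟨Polynomial.C (PowerSeries.coeff 0 f) + Polynomial.X * p₁, ?_⟩
    have hx : PowerSeries.X ^ N * f' = x * f₁ := by
      rw [hxu, hf₁, mul_assoc, ← mul_assoc (u : R⟦X⟧), Units.mul_inv, one_mul]
    have hrew : f - Polynomial.aeval x (Polynomial.C (PowerSeries.coeff 0 f) + Polynomial.X * p₁)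
        = x * (f₁ - Polynomial.aeval x p₁) := by
      have h2 : Polynomial.aeval x (Polynomial.C (PowerSeries.coeff 0 f) + Polynomial.X * p₁)
          = PowerSeries.C (PowerSeries.coeff 0 f) + x * Polynomial.aeval x p₁ := by
        rw [map_add, map_mul, Polynomial.aeval_C, Polynomial.aeval_X]
        rfl
      have hsh' : f - PowerSeries.C (PowerSeries.coeff 0 f) = PowerSeries.X ^ N * f' :=
        sub_eq_iff_eq_add'.mpr hsh
      rw [h2, mul_sub, ← hx, ← hsh']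
      ring
    rw [hrew, Nat.mul_succ, pow_add, mul_comm (PowerSeries.X ^ (N * K)) _]
    apply mul_dvd_mul _ hp₁
    rw [hxu]
    exact Dvd.intro _ rfl

end Fermat.Agent.S18x
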