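import Fermat.Agent.S18x.CuspNormalLagrange

/-!
# S18 / NRM / N7: the interpolation theorem `cnm_core` (prefix `cnm_`)
-/

set_option autoImplicit false

namespace Fermat.Agent.S18x

open scoped PowerSeries Polynomial

variable {R : Type*} [CommRing R]

/-- evaluation of a two-variable polynomial `H ∈ R[x][Y]` at `(x, yi)` in `R⟦X⟧` -/
noncomputable def cnm_ev (x yi : R⟦X⟧) (H : Polynomial (Polynomial R)) : R⟦X⟧ :=
  Polynomial.eval₂ ((Polynomial.aeval x : R[X] →ₐ[R] R⟦X⟧) : R[X] →+* R⟦X⟧) yi H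

theorem cnm_cancel_MU {a b f : R⟦X⟧} (hf : cnm_IsMU f) (h : a * f = b * f) : a = b := by
  obtain ⟨m, v, rfl⟩ := hf
  have h1 : PowerSeries.X ^ m * (a * (v : R⟦X⟧)) = PowerSeries.X ^ m * (b * (v : R⟦X⟧)) := by
    calc PowerSeries.X ^ m * (a * (v : R⟦X⟧)) = a * (PowerSeries.X ^ m * (v : R⟦X⟧)) := by ring
      _ = b * (PowerSeries.X ^ m * (v : R⟦X⟧)) := h
      _ = PowerSeries.X ^ m * (b * (v : R⟦X⟧)) := by ring
  have h2 := PowerSeries.X_pow_mul_cancel h1
  exact v.isUnit.mul_left_injective h2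

theorem cnm_core {N : ℕ} (hN : 0 < N) {ζ : R} (hζ : ζ ^ N = 1)
    (hreg : ∀ m : ℕ, ¬ N ∣ m → ∀ a : R, ζ ^ m * a = a → a = 0)
    {I : Type*} [Fintype I] [DecidableEq I] (g : Equiv.Perm I) (y : I → R⟦X⟧)
    (hy : ∀ i, PowerSeries.rescale ζ (y i) = y (g i))
    (hD : ∀ i i', i ≠ i' → cnm_IsMU (y i - y i'))
    (x : R⟦X⟧) (u : (R⟦X⟧)ˣ) (hxu : x = PowerSeries.X ^ N * (u : R⟦X⟧))
    (hu : cnm_Inv ζ (u : R⟦X⟧)) :
    ∃ c' : ℕ, ∀ τ : I → R⟦X⟧, (∀ i, PowerSeries.rescale ζ (τ i) = τ (g i)) → ∀ K : ℕ,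
      ∃ H : Polynomial (Polynomial R), ∀ i,
        (PowerSeries.X : R⟦X⟧) ^ (N * K) ∣ cnm_ev x (y i) H - x ^ c' * τ i := by
  classical
  -- the exponents and units of `dPhi`
  have hMU := cnm_dPhi_isMU y hD
  choose m v hmv using hMU
  set c' : ℕ := Finset.univ.sup m with hc'
  have hmc : ∀ i, m i ≤ N * c' := by
    intro i
    have h1 : m i ≤ c' := Finset.le_sup (f := m) (Finset.mem_univ i)
    have h2 : c' ≤ N * c' := Nat.le_mul_of_pos_left c' hN
    exact h1.trans h2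
  refine ⟨c', fun τ hτ K => ?_⟩
  -- the cofactors `h i` with `h i * dPhi i = X^(N c')`
  set h : I → R⟦X⟧ := fun i =>
    (PowerSeries.X : R⟦X⟧) ^ (N * c' - m i) * (((v i)⁻¹ : (R⟦X⟧)ˣ) : R⟦X⟧) with hh
  have hhd : ∀ i, h i * cnm_dPhi y i = PowerSeries.X ^ (N * c') := by
    intro i
    rw [hh, hmv i]
    calc PowerSeries.X ^ (N * c' - m i) * (((v i)⁻¹ : (R⟦X⟧)ˣ) : R⟦X⟧) *
          (PowerSeries.X ^ m i * (v i : R⟦X⟧))
        = PowerSeries.X ^ (N * c' - m i) * PowerSeries.X ^ m i *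
          ((((v i)⁻¹ : (R⟦X⟧)ˣ) : R⟦X⟧) * (v i : R⟦X⟧)) := by ring
      _ = PowerSeries.X ^ (N * c') := by
        rw [Units.inv_mul, mul_one, ← pow_add, Nat.sub_add_cancel (hmc i)]
  have hhinv : ∀ i, PowerSeries.rescale ζ (h i) = h (g i) := by
    intro i
    apply cnm_cancel_MU (f := cnm_dPhi y (g i)) ⟨m (g i), v (g i), hmv (g i)⟩
    rw [hhd (g i), ← cnm_dPhi_rescale ζ g y hy i, ← map_mul, hhd i]
    exact cnm_Inv_X_pow_mul hζ c'
  -- the modified target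
  set a : I → R⟦X⟧ := fun i => τ i * (u : R⟦X⟧) ^ c' * h i with ha
  have hainv : ∀ i, PowerSeries.rescale ζ (a i) = a (g i) := by
    intro i
    rw [ha]
    simp only
    rw [map_mul, map_mul, hτ i, hhinv i, (hu.pow c')]
  set G := cnm_lag y a with hG
  have hGev : ∀ j, Polynomial.eval (y j) G = x ^ c' * τ j := by
    intro j
    rw [hG, cnm_lag_eval, ha]
    simp only
    rw [mul_assoc, mul_assoc, hhd j, hxu, mul_pow, ← pow_mul]
    ring
  have hGinv : ∀ k, cnm_Inv ζ (G.coeff k) := by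
    intro k
    have := congrArg (fun P => Polynomial.coeff P k) (cnm_lag_map_rescale ζ g y a hy hainv)
    simp only [Polynomial.coeff_map] at this
    exact this
  -- approximate the coefficients
  have happ := fun k => cnm_approx hN hζ hreg x u hxu hu K (G.coeff k) (hGinv k)
  choose p hp using happ
  refine ⟨∑ k ∈ Finset.range (G.natDegree + 1), Polynomial.C (p k) * Polynomial.X ^ k, fun j => ?_⟩
  have hev : cnm_ev x (y j) (∑ k ∈ Finset.range (G.natDegree + 1),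
      Polynomial.C (p k) * Polynomial.X ^ k)
      = ∑ k ∈ Finset.range (G.natDegree + 1), Polynomial.aeval x (p k) * y j ^ k := by
    unfold cnm_ev
    rw [Polynomial.eval₂_finsetSum]
    refine Finset.sum_congr rfl fun k _ => ?_
    rw [Polynomial.eval₂_mul, Polynomial.eval₂_C, Polynomial.eval₂_pow, Polynomial.eval₂_X]
    rfl
  rw [hev, ← hGev j, Polynomial.eval_eq_sum_range, ← Finset.sum_sub_distrib]
  refine Finset.dvd_sum fun k _ => ?_
  rw [← sub_mul]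
  apply Dvd.dvd.mul_right
  have := hp k
  rw [← neg_sub, dvd_neg]
  exact this

end Fermat.Agent.S18x
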