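/-
S18 / block NRM / row N7 (helper35), part 1: the Lagrange numerator polynomial
`∑ i, b i * ∏_{i' ≠ i} (X - y i')`, its values, degree, functoriality, and the descent of its
coefficients to a subring of invariants.  Mathlib only.
-/
import Mathlib

set_option autoImplicit false

namespace Fermat.Agent.S18x

open Polynomial Finset

section Lagr

variable {S : Type*} [CommRing S] {ι : Type*} [Fintype ι] [DecidableEq ι]

/-- the Lagrange numerator polynomial `∑ i, b i * ∏_{i' ≠ i} (X - y i')` -/
noncomputable def cnm_lagr (y b : ι → S) : S[X] :=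
  ∑ i, C (b i) * ∏ i' ∈ univ.erase i, (X - C (y i'))

theorem cnm_lagr_eval (y b : ι → S) (i : ι) :
    (cnm_lagr y b).eval (y i) = b i * ∏ i' ∈ univ.erase i, (y i - y i') := by
  rw [cnm_lagr, eval_finsetSum, Finset.sum_eq_single i]
  · simp [eval_prod]
  · intro j _ hji
    rw [eval_mul, eval_prod, Finset.prod_eq_zero (i := i) (by simp [hji.symm]) (by simp), mul_zero]
  · intro h
    exact absurd (mem_univ i) h

theorem cnm_lagr_degree_lt [Nontrivial S] (y b : ι → S) (hι : 0 < Fintype.card ι) :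
    (cnm_lagr y b).degree < Fintype.card ι := by
  rw [cnm_lagr]
  refine lt_of_le_of_lt (degree_sum_le _ _) ?_
  rw [Finset.sup_lt_iff (by exact_mod_cast WithBot.bot_lt_coe _)]
  intro i _
  refine lt_of_le_of_lt (degree_mul_le _ _) ?_
  have h1 : (C (b i)).degree ≤ 0 := degree_C_le
  have h2 : (∏ i' ∈ univ.erase i, (X - C (y i'))).degree = ((Fintype.card ι - 1 : ℕ) : WithBot ℕ) := by
    rw [degree_prod_of_monic _ _ (fun j _ => monic_X_sub_C _)]
    simp [degree_X_sub_C, card_erase_of_mem]
  rw [h2]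
  calc (C (b i)).degree + ((Fintype.card ι - 1 : ℕ) : WithBot ℕ)
      ≤ 0 + ((Fintype.card ι - 1 : ℕ) : WithBot ℕ) := by gcongr
    _ = ((Fintype.card ι - 1 : ℕ) : WithBot ℕ) := zero_add _
    _ < (Fintype.card ι : WithBot ℕ) := by
        exact_mod_cast Nat.sub_lt hι Nat.one_pos

theorem cnm_lagr_map {S' : Type*} [CommRing S'] (θ : S →+* S') (y b : ι → S) :
    (cnm_lagr y b).map θ = cnm_lagr (fun i => θ (y i)) (fun i => θ (b i)) := by
  simp [cnm_lagr, Polynomial.map_sum, Polynomial.map_prod]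

theorem cnm_lagr_comp_equiv (τ : ι ≃ ι) (y b : ι → S) :
    cnm_lagr (fun i => y (τ i)) (fun i => b (τ i)) = cnm_lagr y b := by
  rw [cnm_lagr, cnm_lagr]
  refine Fintype.sum_equiv τ _ _ fun i => ?_
  congr 1
  refine Finset.prod_bij (fun j _ => τ j) ?_ ?_ ?_ ?_
  · intro j hj
    simp only [mem_erase, mem_univ, and_true, ne_eq] at hj ⊢
    exact fun h => hj (τ.injective h)
  · intro j _ j' _ h
    exact τ.injective h
  · intro j hj
    refine ⟨τ.symm j, ?_, by simp⟩
    simp only [mem_erase, mem_univ, and_true, ne_eq] at hj ⊢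
    intro h
    exact hj (by rw [← h]; simp)
  · intro j _
    rfl

theorem cnm_lagr_smul (y b : ι → S) (z : S) :
    cnm_lagr y (fun i => z * b i) = C z * cnm_lagr y b := by
  rw [cnm_lagr, cnm_lagr, Finset.mul_sum]
  refine Finset.sum_congr rfl fun i _ => ?_
  rw [C_mul, mul_assoc]

theorem cnm_lagr_zero (y : ι → S) : cnm_lagr y (fun _ => (0 : S)) = 0 := by
  simp [cnm_lagr]

/-- **Descent of the coefficients to invariants.**  If `θ` is a ring endomorphism of `S`, `τ` a
permutation of the index set with `y ∘ τ = θ ∘ y` and `b ∘ τ = θ ∘ b`, and every `θ`-fixed element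
of `S` comes from `R`, then the Lagrange numerator polynomial has coefficients in `R`. -/
theorem cnm_lagr_mem_lifts {R : Type*} [CommRing R] (φ : R →+* S) (θ : S →+* S)
    (hinv : ∀ s : S, θ s = s → s ∈ Set.range φ) (τ : ι ≃ ι) (y b : ι → S)
    (hy : ∀ i, y (τ i) = θ (y i)) (hb : ∀ i, b (τ i) = θ (b i)) :
    ∃ H : R[X], H.map φ = cnm_lagr y b := by
  have hfix : (cnm_lagr y b).map θ = cnm_lagr y b := by
    rw [cnm_lagr_map]
    simp_rw [← hy, ← hb]
    exact cnm_lagr_comp_equiv τ y b
  have hmem : cnm_lagr y b ∈ Polynomial.lifts φ := by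
    rw [Polynomial.lifts_iff_coeff_lifts]
    intro m
    apply hinv
    have := congrArg (fun p => p.coeff m) hfix
    simpa [coeff_map] using this
  exact hmem

end Lagr

end Fermat.Agent.S18x
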