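import Fermat.Agent.S18x.CuspNormalCore

/-!
# S18 / NRM / N7: Lagrange interpolation with conductor (prefix `cnm_`)
-/

set_option autoImplicit false

namespace Fermat.Agent.S18x

open scoped PowerSeries Polynomial

variable {R : Type*} [CommRing R]

/-- "monomial times unit" -/
def cnm_IsMU (f : R⟦X⟧) : Prop :=
  ∃ (m : ℕ) (v : (R⟦X⟧)ˣ), f = PowerSeries.X ^ m * (v : R⟦X⟧)

theorem cnm_IsMU_one : cnm_IsMU (1 : R⟦X⟧) := ⟨0, 1, by simp⟩

theorem cnm_IsMU.mul {f g : R⟦X⟧} (hf : cnm_IsMU f) (hg : cnm_IsMU g) : cnm_IsMU (f * g) := by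
  obtain ⟨m, v, rfl⟩ := hf
  obtain ⟨m', v', rfl⟩ := hg
  exact ⟨m + m', v * v', by rw [Units.val_mul, pow_add]; ring⟩

theorem cnm_IsMU_prod {ι : Type*} (s : Finset ι) (f : ι → R⟦X⟧) (h : ∀ i ∈ s, cnm_IsMU (f i)) :
    cnm_IsMU (∏ i ∈ s, f i) :=
  Finset.prod_induction f cnm_IsMU (fun _ _ => cnm_IsMU.mul) cnm_IsMU_one h

section Lagrange

variable {I : Type*} [Fintype I] [DecidableEq I]

/-- the "derivative of the characteristic polynomial" at the `i`-th conjugate -/
noncomputable def cnm_dPhi (y : I → R⟦X⟧) (i : I) : R⟦X⟧ :=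
  ∏ i' ∈ Finset.univ.erase i, (y i - y i')

theorem cnm_dPhi_isMU (y : I → R⟦X⟧)
    (hD : ∀ i i', i ≠ i' → cnm_IsMU (y i - y i')) (i : I) : cnm_IsMU (cnm_dPhi y i) :=
  cnm_IsMU_prod _ _ fun i' hi' => hD i i' (Finset.ne_of_mem_erase hi').symm

theorem cnm_dPhi_rescale (ζ : R) (g : Equiv.Perm I) (y : I → R⟦X⟧)
    (hy : ∀ i, PowerSeries.rescale ζ (y i) = y (g i)) (i : I) :
    PowerSeries.rescale ζ (cnm_dPhi y i) = cnm_dPhi y (g i) := by
  unfold cnm_dPhi
  rw [map_prod]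
  have hmap : (Finset.univ.erase i).map g.toEmbedding = Finset.univ.erase (g i) := by
    rw [Finset.map_erase, Finset.map_univ_equiv]
    rfl
  rw [← hmap, Finset.prod_map]
  refine Finset.prod_congr rfl fun i' _ => ?_
  rw [map_sub, hy, hy]
  rfl

/-- the Lagrange polynomial with values `a i * dPhi i` at `y i` -/
noncomputable def cnm_lag (y : I → R⟦X⟧) (a : I → R⟦X⟧) : (R⟦X⟧)[X] :=
  ∑ i, Polynomial.C (a i) * ∏ i' ∈ Finset.univ.erase i, (Polynomial.X - Polynomial.C (y i'))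

theorem cnm_lag_eval (y : I → R⟦X⟧) (a : I → R⟦X⟧) (j : I) :
    Polynomial.eval (y j) (cnm_lag y a) = a j * cnm_dPhi y j := by
  unfold cnm_lag cnm_dPhi
  rw [Polynomial.eval_finsetSum]
  rw [Finset.sum_eq_single j]
  · rw [Polynomial.eval_mul, Polynomial.eval_C, Polynomial.eval_prod]
    congr 1
    refine Finset.prod_congr rfl fun i' _ => ?_
    rw [Polynomial.eval_sub, Polynomial.eval_X, Polynomial.eval_C]
  · intro i _ hij
    rw [Polynomial.eval_mul, Polynomial.eval_prod]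
    have hj : j ∈ Finset.univ.erase i := Finset.mem_erase.mpr ⟨fun h => hij h.symm, Finset.mem_univ _⟩
    rw [Finset.prod_eq_zero hj, mul_zero]
    rw [Polynomial.eval_sub, Polynomial.eval_X, Polynomial.eval_C, sub_self]
  · intro h; exact absurd (Finset.mem_univ j) h

theorem cnm_lag_map_rescale (ζ : R) (g : Equiv.Perm I) (y : I → R⟦X⟧) (a : I → R⟦X⟧)
    (hy : ∀ i, PowerSeries.rescale ζ (y i) = y (g i))
    (ha : ∀ i, PowerSeries.rescale ζ (a i) = a (g i)) :
    (cnm_lag y a).map (PowerSeries.rescale ζ) = cnm_lag y a := by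
  unfold cnm_lag
  rw [Polynomial.map_sum]
  rw [← Equiv.sum_comp g (fun i => Polynomial.C (a i) *
    ∏ i' ∈ Finset.univ.erase i, (Polynomial.X - Polynomial.C (y i')))]
  refine Finset.sum_congr rfl fun i _ => ?_
  rw [Polynomial.map_mul, Polynomial.map_C, ha, Polynomial.map_prod]
  congr 1
  have hmap : (Finset.univ.erase i).map g.toEmbedding = Finset.univ.erase (g i) := by
    rw [Finset.map_erase, Finset.map_univ_equiv]
    rfl
  rw [← hmap, Finset.prod_map]
  refine Finset.prod_congr rfl fun i' _ => ?_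
  rw [Polynomial.map_sub, Polynomial.map_X, Polynomial.map_C, hy]
  rfl

end Lagrange

end Fermat.Agent.S18x
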