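/-
S18x/CzMain (helper38): the *cuspidal* torsion step of S18, abstract form, NO place reduction map.

Setting: `L` a valued field (`A`), `F/L` a function field with a Gauss-type valuation ring `W`
(`W ∩ L = A`, same value group), residue map `ρ : W → Fb`.  `L₁ = L(H₁ + D)`, `L₂ = L(H₂ + D)`,
`L₁₂ = L(H₁ + H₂ + D)`, `M_i = L(m H_i)` with `H₁, H₂` cuspidal and disjoint; `f ≡ 1 mod 𝔪_W` with
`div f = m D`.  Special fibre: `Lb_i = Lbar(Hbar_i)`, `Mb_i = Lbar(m Hbar_i)`.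
Conclusion: there is `φ ∈ L₁ ∩ L₂ = L(D)` with `ρ φ = 1`; in particular `L(D) ≠ 0`.

The hypotheses are exactly the facts listed in docs `S18_architecture_no_rY_helper38`:
`liftL*` = (B), `sat` = saturation of the cuspidal Čech map, `sep` = separation of poles at the two
cusps, `pow*` = `φ ↦ φ^m f`, `att` = "the infimum is attained" (Smith form over the valuation
ring; proved separately from orthonormal bases).
-/
import Mathlib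

set_option autoImplicit false

namespace Fermat.Agent.S18x

section

variable {L k F Fb : Type*} [Field L] [Field k] [Field F] [Field Fb] [Algebra L F] [Algebra k Fb]

/-- Abstract Gauss-valuation data (no place reduction map). -/
structure cz_Hyp (A : ValuationSubring L) (π : A →+* k) (W : ValuationSubring F) (ρ : W →+* Fb) :
    Prop where
  mem_iff : ∀ c : L, algebraMap L F c ∈ W ↔ c ∈ A
  rho_alg : ∀ (c : L) (hc : c ∈ A) (hW : algebraMap L F c ∈ W),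
    ρ ⟨algebraMap L F c, hW⟩ = algebraMap k Fb (π ⟨c, hc⟩)
  ker : ∀ x : W, ρ x = 0 ↔ ¬ IsUnit x
  norm : ∀ x : F, x ≠ 0 → ∃ c : L, c ≠ 0 ∧ algebraMap L F c * x ∈ W ∧ (algebraMap L F c * x)⁻¹ ∈ W

variable {A : ValuationSubring L} {π : A →+* k} {W : ValuationSubring F} {ρ : W →+* Fb}

theorem cz_isUnit_iff (x : W) : IsUnit x ↔ (x : F) ≠ 0 ∧ (x : F)⁻¹ ∈ W := by
  rw [W.valuation_eq_one_iff]
  constructor
  · intro h1
    have hx0 : (x : F) ≠ 0 := by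
      intro h0; rw [h0, map_zero] at h1; exact zero_ne_one h1
    refine ⟨hx0, ?_⟩
    rw [← W.valuation_le_one_iff, map_inv₀, h1, inv_one]
  · rintro ⟨h0, hinv⟩
    have h1 : W.valuation (x : F) ≤ 1 := (W.valuation_le_one_iff _).mpr x.2
    have h2 : W.valuation ((x : F)⁻¹) ≤ 1 := (W.valuation_le_one_iff _).mpr hinv
    rw [map_inv₀] at h2
    have hne : W.valuation (x : F) ≠ 0 := (map_ne_zero _).mpr h0
    refine le_antisymm h1 ?_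
    by_contra hlt
    rw [not_le] at hlt
    have : 1 < (W.valuation (x : F))⁻¹ := (one_lt_inv₀ (zero_lt_iff.mpr hne)).mpr hlt
    exact absurd h2 (not_le.mpr this)

theorem cz_val_lt_one_of_rho_eq_zero (H : cz_Hyp A π W ρ) (x : W) (hx : ρ x = 0) :
    W.valuation (x : F) < 1 := by
  have hnu : ¬ IsUnit x := (H.ker x).mp hx
  have hle : W.valuation (x : F) ≤ 1 := (W.valuation_le_one_iff _).mpr x.2
  refine lt_of_le_of_ne hle fun h1 => hnu ?_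
  rw [cz_isUnit_iff]
  have hx0 : (x : F) ≠ 0 := by
    intro h0; rw [h0, map_zero] at h1; exact zero_ne_one h1
  refine ⟨hx0, ?_⟩
  rw [← W.valuation_le_one_iff, map_inv₀, h1, inv_one]

theorem cz_val_eq_one_of_isUnit (x : W) (hx : IsUnit x) : W.valuation (x : F) = 1 := by
  rw [cz_isUnit_iff] at hx
  have h1 : W.valuation (x : F) ≤ 1 := (W.valuation_le_one_iff _).mpr x.2
  have h2 : W.valuation ((x : F)⁻¹) ≤ 1 := (W.valuation_le_one_iff _).mpr hx.2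
  rw [map_inv₀] at h2
  have hne : W.valuation (x : F) ≠ 0 := (map_ne_zero _).mpr hx.1
  refine le_antisymm h1 ?_
  have := (inv_le_one₀ (zero_lt_iff.mpr hne)).mp h2
  exact this

/-- **Cuspidal torsion step.** -/
theorem cz_main (H : cz_Hyp A π W ρ)
    (L₁ L₂ L₁₂ M₁ M₂ : Submodule L F) (Lb₁ Lb₂ Lb₁₂ Mb₁ Mb₂ : Submodule k Fb)
    (h1 : L₁ ≤ L₁₂) (h2 : L₂ ≤ L₁₂)
    (redL12 : ∀ x : W, (x : F) ∈ L₁₂ → ρ x ∈ Lb₁₂)
    (liftL1 : ∀ b ∈ Lb₁, ∃ x : W, (x : F) ∈ L₁ ∧ ρ x = b)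
    (liftL2 : ∀ b ∈ Lb₂, ∃ x : W, (x : F) ∈ L₂ ∧ ρ x = b)
    (sep : ∀ x ∈ Lb₁₂, ∀ a₁ ∈ Mb₁, ∀ a₂ ∈ Mb₂, x = a₁ - a₂ →
      ∃ b₁ ∈ Lb₁, ∃ b₂ ∈ Lb₂, x = b₁ - b₂)
    (sat : ∀ ψ₁ ψ₂ η : W, (ψ₁ : F) ∈ M₁ → (ψ₂ : F) ∈ M₂ → ∀ c : L, c ≠ 0 →
      (ψ₁ : F) - ψ₂ = c • (η : F) → ∃ a₁ ∈ Mb₁, ∃ a₂ ∈ Mb₂, ρ η = a₁ - a₂)
    (m : ℕ) (hm : (m : k) ≠ 0) (f : W) (hf : ρ f = 1)
    (pow1 : ∀ x ∈ L₁, x ^ m * (f : F) ∈ M₁) (pow2 : ∀ x ∈ L₂, x ^ m * (f : F) ∈ M₂)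
    (att : ∃ φ₁ φ₂ : W, (φ₁ : F) ∈ L₁ ∧ (φ₂ : F) ∈ L₂ ∧ ρ φ₁ = 1 ∧ ρ φ₂ = 1 ∧
      ∀ φ₁' φ₂' : W, (φ₁' : F) ∈ L₁ → (φ₂' : F) ∈ L₂ → ρ φ₁' = 1 → ρ φ₂' = 1 →
        W.valuation ((φ₁ : F) - φ₂) ≤ W.valuation ((φ₁' : F) - φ₂')) :
    ∃ φ : W, (φ : F) ∈ L₁ ∧ (φ : F) ∈ L₂ ∧ ρ φ = 1 := by
  obtain ⟨φ₁, φ₂, hφ₁, hφ₂, hρ₁, hρ₂, hmin⟩ := att
  by_cases heq : (φ₁ : F) = φ₂
  · exact ⟨φ₁, hφ₁, heq ▸ hφ₂, hρ₁⟩
  exfalso
  set δ : F := (φ₁ : F) - φ₂ with hδ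
  have hδ0 : δ ≠ 0 := sub_ne_zero.mpr heq
  obtain ⟨c₀, hc₀, hξW, hξinv⟩ := H.norm δ hδ0
  set ξ : W := ⟨algebraMap L F c₀ * δ, hξW⟩ with hξ
  have hξu : IsUnit ξ := by
    rw [cz_isUnit_iff]
    exact ⟨mul_ne_zero (by simpa using hc₀) hδ0, hξinv⟩
  set c : L := c₀⁻¹ with hc
  have hc0 : c ≠ 0 := inv_ne_zero hc₀
  have hδξ : δ = c • (ξ : F) := by
    rw [hξ, Algebra.smul_def]
    show δ = algebraMap L F c * (algebraMap L F c₀ * δ)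
    rw [← mul_assoc, ← map_mul, hc, inv_mul_cancel₀ hc₀, map_one, one_mul]
  -- `φ₁ - φ₂` is a non-unit of `W`
  have hδρ : ρ (φ₁ - φ₂) = 0 := by rw [map_sub, hρ₁, hρ₂, sub_self]
  have hδlt : W.valuation δ < 1 := cz_val_lt_one_of_rho_eq_zero H (φ₁ - φ₂) hδρ
  have hξ1 : W.valuation (ξ : F) = 1 := cz_val_eq_one_of_isUnit ξ hξu
  have hvalc : W.valuation (algebraMap L F c) = W.valuation δ := by
    rw [hδξ, Algebra.smul_def, map_mul, hξ1, mul_one]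
  have hcW : algebraMap L F c ∈ W := by
    rw [← W.valuation_le_one_iff, hvalc]; exact hδlt.le
  have hcA : c ∈ A := (H.mem_iff c).mp hcW
  have hρc : ρ ⟨algebraMap L F c, hcW⟩ = 0 := by
    rw [H.ker]
    intro hu
    have := cz_val_eq_one_of_isUnit _ hu
    simp only at this
    rw [hvalc] at this
    exact absurd this hδlt.ne
  -- the `m`-th power trick
  set S : W := ∑ i ∈ Finset.range m, φ₁ ^ i * φ₂ ^ (m - 1 - i) with hS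
  have hSρ : ρ S = (m : Fb) := by
    rw [hS, map_sum]
    simp [map_mul, map_pow, hρ₁, hρ₂]
  have hgeom : S * (φ₁ - φ₂) = φ₁ ^ m - φ₂ ^ m := by
    rw [hS]; exact (Commute.all φ₁ φ₂).geom_sum₂_mul m
  set ψ₁ : W := φ₁ ^ m * f
  set ψ₂ : W := φ₂ ^ m * f
  set η : W := ξ * f * S with hη
  have hψ : (ψ₁ : F) - ψ₂ = c • (η : F) := by
    have e1 : (ψ₁ : F) - ψ₂ = (f : F) * ((S : F) * δ) := by
      have := congrArg (fun y : W => (y : F)) hgeom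
      simp only [ψ₁, ψ₂]
      push_cast at this ⊢
      rw [hδ, this]; ring
    rw [e1, hδξ, hη]
    push_cast
    rw [Algebra.smul_def, Algebra.smul_def]
    ring
  obtain ⟨a₁, ha₁, a₂, ha₂, hηa⟩ := sat ψ₁ ψ₂ η (by simpa [ψ₁] using pow1 _ hφ₁)
    (by simpa [ψ₂] using pow2 _ hφ₂) c hc0 hψ
  have hηρ : ρ η = ρ ξ * (m : Fb) := by
    rw [hη, map_mul, map_mul, hf, mul_one, hSρ]
  have hmFb : (m : Fb) = algebraMap k Fb (m : k) := (map_natCast _ m).symm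
  have hm' : (m : Fb) ≠ 0 := by
    rw [hmFb]; exact (map_ne_zero _).mpr hm
  have hρξ : ρ ξ = ((m : k)⁻¹ • a₁) - ((m : k)⁻¹ • a₂) := by
    rw [← smul_sub, ← hηa, hηρ, Algebra.smul_def, map_inv₀, ← hmFb]
    field_simp
  have hξL : ((ξ : W) : F) ∈ L₁₂ := by
    have : (ξ : F) = c₀ • δ := by rw [hξ, Algebra.smul_def]
    rw [this]
    exact L₁₂.smul_mem _ (L₁₂.sub_mem (h1 hφ₁) (h2 hφ₂))
  obtain ⟨b₁, hb₁, b₂, hb₂, hb⟩ := sep (ρ ξ) (redL12 ξ hξL) _ (Mb₁.smul_mem _ ha₁) _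
    (Mb₂.smul_mem _ ha₂) hρξ
  obtain ⟨β₁, hβ₁L, hβ₁⟩ := liftL1 b₁ hb₁
  obtain ⟨β₂, hβ₂L, hβ₂⟩ := liftL2 b₂ hb₂
  set cW : W := ⟨algebraMap L F c, hcW⟩ with hcWdef
  set φ₁' : W := φ₁ - cW * β₁
  set φ₂' : W := φ₂ - cW * β₂
  have hφ₁'L : (φ₁' : F) ∈ L₁ := by
    have : (φ₁' : F) = (φ₁ : F) - c • (β₁ : F) := by
      simp only [φ₁', hcWdef]; push_cast; rw [Algebra.smul_def]
    rw [this]; exact L₁.sub_mem hφ₁ (L₁.smul_mem _ hβ₁L)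
  have hφ₂'L : (φ₂' : F) ∈ L₂ := by
    have : (φ₂' : F) = (φ₂ : F) - c • (β₂ : F) := by
      simp only [φ₂', hcWdef]; push_cast; rw [Algebra.smul_def]
    rw [this]; exact L₂.sub_mem hφ₂ (L₂.smul_mem _ hβ₂L)
  have hρ₁' : ρ φ₁' = 1 := by
    simp only [φ₁']; rw [map_sub, map_mul, hρc, zero_mul, sub_zero, hρ₁]
  have hρ₂' : ρ φ₂' = 1 := by
    simp only [φ₂']; rw [map_sub, map_mul, hρc, zero_mul, sub_zero, hρ₂]
  have hmin' := hmin φ₁' φ₂' hφ₁'L hφ₂'L hρ₁' hρ₂'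
  -- but the new difference is strictly smaller
  set ζ : W := ξ - β₁ + β₂ with hζ
  have hζρ : ρ ζ = 0 := by
    rw [hζ, map_add, map_sub, hβ₁, hβ₂, hb]; ring
  have hζlt : W.valuation (ζ : F) < 1 := cz_val_lt_one_of_rho_eq_zero H ζ hζρ
  have hdiff : (φ₁' : F) - φ₂' = algebraMap L F c * (ζ : F) := by
    simp only [φ₁', φ₂', hcWdef, hζ]
    push_cast
    have : (φ₁ : F) - φ₂ = algebraMap L F c * (ξ : F) := by
      rw [← Algebra.smul_def, ← hδξ]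
    linear_combination this
  rw [hdiff, map_mul, hvalc] at hmin'
  have hδpos : 0 < W.valuation δ := zero_lt_iff.mpr ((map_ne_zero _).mpr hδ0)
  have : W.valuation δ * W.valuation (ζ : F) < W.valuation δ * 1 :=
    mul_lt_mul_of_pos_left hζlt hδpos
  rw [mul_one] at this
  exact absurd hmin' (not_le.mpr this)

end

end Fermat.Agent.S18x
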