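/-
S18x/DflLaurent (helper34): Laurent-series form of the defectless lemma `DflPivot`.

For a valuation subring `A` of a field `L` and a finite-dimensional `L`-subspace `V` of
`LaurentSeries L` in which every nonzero series attains its Gauss norm (has a coefficient of
maximal absolute value), there are `A`-integral series `b_1,…,b_n` (`n = dim_L V`) which form an
`L`-basis of `V`, `A`-span the integral elements of `V`, and whose coefficientwise reductions are
linearly independent over the residue field.  Hence `dim_k red(V ∩ A((q))) = dim_L V`.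
-/
import Fermat.Agent.S18x.DflPivot
import Fermat.Prelude.Def_ModularCurve_LaurentCoeff

set_option autoImplicit false

namespace Fermat.Agent.S18x

open Module ModularCurve

section Laurent

variable {L : Type*} [Field L]

/-- The coefficient map `L((q)) → (ℤ → L)` as a linear map. -/
def dfl_coeffLin (R : Type*) [CommRing R] : LaurentSeries R →ₗ[R] (ℤ → R) where
  toFun x := fun n => x.coeff n
  map_add' x y := by
    funext n
    simp
  map_smul' c x := by
    funext n
    simp

theorem dfl_coeffLin_apply (R : Type*) [CommRing R] (x : LaurentSeries R) (n : ℤ) :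
    dfl_coeffLin R x n = x.coeff n := rfl

theorem dfl_coeffLin_injective (R : Type*) [CommRing R] :
    Function.Injective (dfl_coeffLin R) := by
  intro x y h
  ext n
  exact congrFun h n

/-- Lift a Laurent series with coefficients in `A` to `LaurentSeries A`. -/
def dfl_liftSeries (A : ValuationSubring L) (x : LaurentSeries L) (hx : ∀ n, x.coeff n ∈ A) :
    LaurentSeries A where
  coeff n := ⟨x.coeff n, hx n⟩
  isPWO_support' := by
    have : (Function.support fun n => (⟨x.coeff n, hx n⟩ : A)) = x.support := by
      ext n
      simp only [Function.mem_support, ne_eq, HahnSeries.mem_support]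
      constructor
      · intro h h0
        exact h (Subtype.ext h0)
      · intro h h0
        exact h (congrArg Subtype.val h0)
    rw [this]
    exact x.isPWO_support

theorem dfl_coeffMap_liftSeries (A : ValuationSubring L) (x : LaurentSeries L)
    (hx : ∀ n, x.coeff n ∈ A) : coeffMap A.subtype (dfl_liftSeries A x hx) = x := by
  ext n
  rfl

/-- **Defectless lemma, Laurent form.** -/
theorem dfl_laurent (A : ValuationSubring L) (V : Submodule L (LaurentSeries L))
    [FiniteDimensional L V]
    (hpiv : ∀ x ∈ V, x ≠ 0 → ∃ n₀, x.coeff n₀ ≠ 0 ∧ ∀ n, x.coeff n / x.coeff n₀ ∈ A) :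
    ∃ b : Fin (finrank L V) → LaurentSeries A,
      (∀ j, coeffMap A.subtype (b j) ∈ V) ∧
      LinearIndependent L (fun j => coeffMap A.subtype (b j)) ∧
      Submodule.span L (Set.range fun j => coeffMap A.subtype (b j)) = V ∧
      (∀ y : LaurentSeries A, coeffMap A.subtype y ∈ V →
        ∃ c : Fin (finrank L V) → A,
          coeffMap A.subtype y = ∑ j, (c j : L) • coeffMap A.subtype (b j)) ∧
      LinearIndependent (IsLocalRing.ResidueField A)
        (fun j => coeffMap (IsLocalRing.residue A) (b j)) := by
  classical
  set Φ := dfl_coeffLin L with hΦ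
  have hΦinj : Function.Injective Φ := dfl_coeffLin_injective L
  set V' : Submodule L (ℤ → L) := V.map Φ with hV'
  have e : V ≃ₗ[L] V' := Submodule.equivMapOfInjective Φ hΦinj V
  have : FiniteDimensional L V' := LinearEquiv.finiteDimensional e
  have hrk : finrank L V' = finrank L V := (LinearEquiv.finrank_eq e).symm
  have hpiv' : ∀ x ∈ V', x ≠ 0 → dfl_HasPivot A x := by
    rintro _ ⟨x, hxV, rfl⟩ hx0
    have hx0' : x ≠ 0 := by
      rintro rfl
      exact hx0 (map_zero Φ)
    obtain ⟨n₀, h1, h2⟩ := hpiv x hxV hx0'
    exact ⟨n₀, h1, h2⟩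
  obtain ⟨b', hli', hspan', hcrit', hres'⟩ :=
    dfl_exists_integral_basis' A V' hpiv' (finrank L V) hrk
  have hb'mem : ∀ j, (fun n => ((b' j n : A) : L)) ∈ V' := by
    intro j
    rw [← hspan']
    exact Submodule.subset_span ⟨j, rfl⟩
  choose x hxV hxΦ using hb'mem
  have hxcoeff : ∀ j n, (x j).coeff n = (b' j n : L) := fun j n => congrFun (hxΦ j) n
  have hxA : ∀ j n, (x j).coeff n ∈ A := fun j n => by
    rw [hxcoeff]
    exact (b' j n).2
  refine ⟨fun j => dfl_liftSeries A (x j) (hxA j), ?_, ?_, ?_, ?_, ?_⟩
  · intro j
    rw [dfl_coeffMap_liftSeries]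
    exact hxV j
  · have hcomp : (fun j => Φ (x j)) = fun j n => ((b' j n : A) : L) := funext hxΦ
    have hli'' : LinearIndependent L (fun j => Φ (x j)) := by
      rw [hcomp]
      exact hli'
    have := LinearIndependent.of_comp Φ hli''
    simpa only [dfl_coeffMap_liftSeries] using this
  · simp only [dfl_coeffMap_liftSeries]
    apply Submodule.map_injective_of_injective hΦinj
    rw [Submodule.map_span, ← hV', ← hspan', ← Set.range_comp]
    congr 1
    ext v
    constructor
    · rintro ⟨j, rfl⟩
      exact ⟨j, (hxΦ j).symm⟩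
    · rintro ⟨j, rfl⟩
      exact ⟨j, hxΦ j⟩
  · intro y hy
    obtain ⟨c, hc⟩ := hcrit' (Φ (coeffMap A.subtype y)) ⟨_, hy, rfl⟩ (fun n => by
      rw [hΦ, dfl_coeffLin_apply, coeffMap_coeff]
      exact (y.coeff n).2)
    refine ⟨c, ?_⟩
    simp only [dfl_coeffMap_liftSeries]
    apply hΦinj
    rw [hc, map_sum]
    refine Finset.sum_congr rfl fun j _ => ?_
    rw [map_smul, hxΦ j]
  · set Ψ := dfl_coeffLin (IsLocalRing.ResidueField A) with hΨ
    have hcomp : (fun j => Ψ (coeffMap (IsLocalRing.residue A) (dfl_liftSeries A (x j) (hxA j))))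
        = fun j n => IsLocalRing.residue A (b' j n) := by
      funext j n
      rw [hΨ, dfl_coeffLin_apply, coeffMap_coeff]
      congr 1
      exact Subtype.ext (hxcoeff j n)
    have hli'' : LinearIndependent (IsLocalRing.ResidueField A)
        (fun j => Ψ (coeffMap (IsLocalRing.residue A) (dfl_liftSeries A (x j) (hxA j)))) := by
      rw [hcomp]
      exact hres'
    exact LinearIndependent.of_comp Ψ hli''

end Laurent

end Fermat.Agent.S18x
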