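/-
S18x/DflpPivot (helper34; renamed copy of DflPivot with prefix dflp_ to avoid the dfl_ name clash with DflMain): the "defectless / max-pivot elimination" lemma, Mathlib only.

`K` a field, `O` a valuation subring, `ι` ANY index type, `V ⊆ (ι → K)` a finite-dimensional
subspace in which every nonzero vector has a *pivot* (a coordinate of maximal absolute value;
automatic for finite `ι`, and for coefficient vectors of Laurent series whose coefficients lie in
a discretely valued subfield).  Then `V ∩ O^ι` is a free `O`-module on `n = dim V` vectors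
`b_1,…,b_n` whose reductions are linearly independent over the residue field.
Consequently `dim_k red(V ∩ O^ι) = dim_K V` (no completeness/discreteness needed).
-/
import Mathlib

set_option autoImplicit false

namespace Fermat.Agent.S18x

open Module

section Pivot

variable {K : Type*} [Field K] (O : ValuationSubring K) {ι : Type*}

/-- `x` has a coordinate of maximal absolute value. -/
def dflp_HasPivot (x : ι → K) : Prop := ∃ i₀, x i₀ ≠ 0 ∧ ∀ i, x i / x i₀ ∈ O

theorem dflp_hasPivot_of_finite [Finite ι] (x : ι → K) (hx : x ≠ 0) : dflp_HasPivot O x := by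
  classical
  cases nonempty_fintype ι
  have hne : ∃ i, x i ≠ 0 := by
    by_contra h
    push Not at h
    exact hx (funext h)
  obtain ⟨i₁, hi₁⟩ := hne
  -- choose a coordinate with maximal valuation
  obtain ⟨i₀, -, hmax⟩ := Finset.exists_max_image (Finset.univ : Finset ι)
    (fun i => O.valuation (x i)) ⟨i₁, Finset.mem_univ _⟩
  have hi₀ : x i₀ ≠ 0 := by
    intro h0
    have := hmax i₁ (Finset.mem_univ _)
    rw [h0, map_zero] at this
    exact hi₁ ((map_eq_zero _).mp (le_antisymm this zero_le))
  refine ⟨i₀, hi₀, fun i => ?_⟩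
  rw [← ValuationSubring.valuation_le_one_iff, map_div₀]
  exact div_le_one_of_le₀ (hmax i (Finset.mem_univ _)) zero_le

/-- Core induction: an `O`-integral `K`-basis of `V` with the coefficient criterion. -/
theorem dflp_exists_basis_aux (n : ℕ) :
    ∀ V : Submodule K (ι → K), FiniteDimensional K V → finrank K V = n →
      (∀ x ∈ V, x ≠ 0 → dflp_HasPivot O x) →
      ∃ b : Fin n → ι → K,
        LinearIndependent K b ∧ Submodule.span K (Set.range b) = V ∧
        (∀ j i, b j i ∈ O) ∧
        ∀ c : Fin n → K, (∀ i, (∑ j, c j • b j) i ∈ O) → ∀ j, c j ∈ O := by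
  induction n with
  | zero =>
    intro V hfin hrk _
    refine ⟨Fin.elim0, linearIndependent_empty_type, ?_, fun j => j.elim0, fun _ _ j => j.elim0⟩
    have hV : V = ⊥ := Submodule.finrank_eq_zero.mp hrk
    rw [hV]
    simp
  | succ n ih =>
    intro V hfin hrk hpiv
    classical
    -- a nonzero vector of V
    have hpos : 0 < finrank K V := by omega
    obtain ⟨⟨x, hxV⟩, hx0⟩ := (Module.finrank_pos_iff_exists_ne_zero (R := K) (M := V)).mp hpos
    have hx0' : x ≠ 0 := fun h => hx0 (Subtype.ext h)
    obtain ⟨i₀, hxi₀, hxO⟩ := hpiv x hxV hx0'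
    -- normalised pivot vector
    set v : ι → K := (x i₀)⁻¹ • x with hv
    have hvV : v ∈ V := V.smul_mem _ hxV
    have hvi₀ : v i₀ = 1 := by
      rw [hv, Pi.smul_apply, smul_eq_mul, inv_mul_cancel₀ hxi₀]
    have hvO : ∀ i, v i ∈ O := by
      intro i
      have := hxO i
      rwa [div_eq_inv_mul] at this
    -- the hyperplane section
    set V' : Submodule K (ι → K) := V ⊓ LinearMap.ker (LinearMap.proj (R := K) (φ := fun _ => K) i₀)
      with hV'
    have hV'le : V' ≤ V := inf_le_left
    have hV'i₀ : ∀ y ∈ V', y i₀ = 0 := by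
      intro y hy
      have := hy.2
      simpa [LinearMap.mem_ker] using this
    have hvV' : v ∉ V' := fun h => one_ne_zero (hvi₀ ▸ hV'i₀ v h)
    have hsup : V' ⊔ Submodule.span K {v} = V := by
      apply le_antisymm
      · exact sup_le hV'le ((Submodule.span_singleton_le_iff_mem _ _).mpr hvV)
      · intro y hy
        have hy' : y - y i₀ • v ∈ V' := by
          refine ⟨V.sub_mem hy (V.smul_mem _ hvV), ?_⟩
          simp [LinearMap.mem_ker, hvi₀]
        have : y = (y - y i₀ • v) + y i₀ • v := by abel
        rw [this]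
        exact Submodule.add_mem_sup hy' (Submodule.smul_mem _ _ (Submodule.mem_span_singleton_self v))
    have hinf : V' ⊓ Submodule.span K {v} = ⊥ := by
      rw [eq_bot_iff]
      rintro y ⟨hy1, hy2⟩
      obtain ⟨a, rfl⟩ := Submodule.mem_span_singleton.mp hy2
      have h0 := hV'i₀ _ hy1
      rw [Pi.smul_apply, hvi₀, smul_eq_mul, mul_one] at h0
      rw [h0, zero_smul]
      exact Submodule.zero_mem _
    have hfinV' : FiniteDimensional K V' := Submodule.finiteDimensional_of_le hV'le
    have hv0 : v ≠ 0 := by
      intro h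
      rw [h] at hvi₀
      exact zero_ne_one hvi₀
    have hrk' : finrank K V' = n := by
      have h1 := Submodule.finrank_sup_add_finrank_inf_eq V' (Submodule.span K {v})
      rw [hsup, hinf, finrank_bot, finrank_span_singleton hv0, hrk] at h1
      omega
    obtain ⟨b', hb'li, hb'span, hb'O, hb'crit⟩ :=
      ih V' hfinV' hrk' (fun y hy hy0 => hpiv y (hV'le hy) hy0)
    have hb'V' : ∀ j, b' j ∈ V' := by
      intro j
      rw [← hb'span]
      exact Submodule.subset_span ⟨j, rfl⟩
    refine ⟨Fin.cons v b', ?_, ?_, ?_, ?_⟩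
    · rw [linearIndependent_finCons]
      refine ⟨hb'li, ?_⟩
      rw [hb'span]
      exact hvV'
    · rw [Fin.range_cons, Submodule.span_insert, hb'span, sup_comm]
      exact hsup
    · intro j i
      refine Fin.cases ?_ (fun j' => ?_) j
      · simpa using hvO i
      · simpa using hb'O j' i
    · intro c hc
      have hsum : ∀ i, (∑ j, c j • (Fin.cons v b' : Fin (n + 1) → ι → K) j) i
          = c 0 * v i + (∑ j : Fin n, c j.succ • b' j) i := by
        intro i
        rw [Fin.sum_univ_succ]
        simp [Finset.sum_apply]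
      have hc0 : c 0 ∈ O := by
        have h := hc i₀
        rw [hsum i₀, hvi₀, mul_one] at h
        have hz : (∑ j : Fin n, c j.succ • b' j) i₀ = 0 := by
          rw [Finset.sum_apply]
          refine Finset.sum_eq_zero fun j _ => ?_
          rw [Pi.smul_apply, hV'i₀ _ (hb'V' j), smul_zero]
        rwa [hz, add_zero] at h
      have hrest : ∀ i, (∑ j : Fin n, c j.succ • b' j) i ∈ O := by
        intro i
        have h := hc i
        rw [hsum i] at h
        have h2 : c 0 * v i ∈ O := O.mul_mem _ _ hc0 (hvO i)
        have := O.sub_mem h h2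
        rwa [add_sub_cancel_left] at this
      have hsucc := hb'crit (fun j => c j.succ) hrest
      intro j
      refine Fin.cases hc0 (fun j' => hsucc j') j

/-- Basis form with `n = finrank K V`. -/
theorem dflp_exists_basis (V : Submodule K (ι → K)) [FiniteDimensional K V]
    (hpiv : ∀ x ∈ V, x ≠ 0 → dflp_HasPivot O x) :
    ∃ b : Fin (finrank K V) → ι → K,
      LinearIndependent K b ∧ Submodule.span K (Set.range b) = V ∧
      (∀ j i, b j i ∈ O) ∧
      ∀ c : Fin (finrank K V) → K, (∀ i, (∑ j, c j • b j) i ∈ O) → ∀ j, c j ∈ O :=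
  dflp_exists_basis_aux O (finrank K V) V inferInstance rfl hpiv

/-- If a combination of a pivot basis is coordinatewise in the maximal ideal, so are its
coefficients. -/
theorem dflp_coeff_lt_one {n : ℕ} {V : Submodule K (ι → K)}
    (hpiv : ∀ x ∈ V, x ≠ 0 → dflp_HasPivot O x)
    {b : Fin n → ι → K} (hli : LinearIndependent K b)
    (hspan : Submodule.span K (Set.range b) = V)
    (hcrit : ∀ c : Fin n → K, (∀ i, (∑ j, c j • b j) i ∈ O) → ∀ j, c j ∈ O)
    (c : Fin n → K) (hc : ∀ i, O.valuation ((∑ j, c j • b j) i) < 1) :
    ∀ j, O.valuation (c j) < 1 := by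
  classical
  set x : ι → K := ∑ j, c j • b j with hx
  have hxV : x ∈ V := by
    rw [← hspan]
    exact Submodule.sum_mem _ fun j _ =>
      Submodule.smul_mem _ _ (Submodule.subset_span ⟨j, rfl⟩)
  by_cases hx0 : x = 0
  · have := (Fintype.linearIndependent_iff.mp hli) c hx0
    intro j
    rw [this j, map_zero]
    exact zero_lt_one
  · obtain ⟨i₀, hxi₀, hxO⟩ := hpiv x hxV hx0
    have key := hcrit (fun j => c j / x i₀) (by
      intro i
      have : (∑ j, (c j / x i₀) • b j) i = x i / x i₀ := by
        have hxi : x i = ∑ j, c j * b j i := by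
          rw [hx, Finset.sum_apply]
          rfl
        rw [hxi, Finset.sum_apply, Finset.sum_div]
        refine Finset.sum_congr rfl fun j _ => ?_
        simp only [Pi.smul_apply, smul_eq_mul]
        ring
      rw [this]
      exact hxO i)
    intro j
    have h1 : O.valuation (c j / x i₀) ≤ 1 := (O.valuation_le_one_iff _).mpr (key j)
    rw [map_div₀] at h1
    have hpos : 0 < O.valuation (x i₀) := by
      rw [pos_iff_ne_zero]
      exact (map_ne_zero _).mpr hxi₀
    have h2 : O.valuation (c j) ≤ O.valuation (x i₀) := by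
      rwa [div_le_one₀ hpos] at h1
    exact lt_of_le_of_lt h2 (hc i₀)

/-- **Defectless lemma** (with the dimension as a free parameter `n = dim_K V`).
`V ∩ O^ι` is `O`-free on `n` vectors whose reductions are linearly independent over the
residue field. -/
theorem dflp_exists_integral_basis' (V : Submodule K (ι → K)) [FiniteDimensional K V]
    (hpiv : ∀ x ∈ V, x ≠ 0 → dflp_HasPivot O x) (n : ℕ) (hn : finrank K V = n) :
    ∃ b : Fin n → ι → O,
      LinearIndependent K (fun j i => (b j i : K)) ∧
      Submodule.span K (Set.range (fun j i => (b j i : K))) = V ∧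
      (∀ x ∈ V, (∀ i, x i ∈ O) →
        ∃ c : Fin n → O, x = ∑ j, (c j : K) • (fun i => (b j i : K))) ∧
      LinearIndependent (IsLocalRing.ResidueField O)
        (fun j i => IsLocalRing.residue O (b j i)) := by
  classical
  obtain ⟨b, hli, hspan, hbO, hcrit⟩ := dflp_exists_basis_aux O n V inferInstance hn hpiv
  refine ⟨fun j i => ⟨b j i, hbO j i⟩, hli, hspan, ?_, ?_⟩
  · intro x hxV hxO
    rw [← hspan] at hxV
    obtain ⟨c, rfl⟩ := (Submodule.mem_span_range_iff_exists_fun K).mp hxV
    have hcO := hcrit c hxO
    exact ⟨fun j => ⟨c j, hcO j⟩, rfl⟩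
  · rw [Fintype.linearIndependent_iff]
    intro a ha j
    -- lift the coefficients
    choose c hc using fun j => IsLocalRing.residue_surjective (R := O) (a j)
    have hval : ∀ i, O.valuation ((∑ j, (c j : K) • b j) i) < 1 := by
      intro i
      have hi := congrFun ha i
      rw [Finset.sum_apply] at hi
      simp only [Pi.smul_apply, smul_eq_mul, Pi.zero_apply] at hi
      have hmem : (∑ j, c j * (⟨b j i, hbO j i⟩ : O)) ∈ IsLocalRing.maximalIdeal O := by
        rw [← IsLocalRing.residue_eq_zero_iff, map_sum]
        rw [← hi]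
        refine Finset.sum_congr rfl fun j _ => ?_
        rw [map_mul, hc j]
      have := (O.valuation_lt_one_iff _).mp hmem
      have hcoe : ((∑ j, c j * (⟨b j i, hbO j i⟩ : O) : O) : K) = (∑ j, (c j : K) • b j) i := by
        rw [Finset.sum_apply]
        push_cast
        rfl
      rwa [hcoe] at this
    have hlt := dflp_coeff_lt_one O hpiv hli hspan hcrit (fun j => (c j : K)) hval j
    have hmem : c j ∈ IsLocalRing.maximalIdeal O := (O.valuation_lt_one_iff _).mpr hlt
    rw [← hc j]
    exact (IsLocalRing.residue_eq_zero_iff _).mpr hmem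

/-- **Defectless lemma.**  `V ∩ O^ι` is `O`-free on `n = dim_K V` vectors whose reductions are
linearly independent over the residue field. -/
theorem dflp_exists_integral_basis (V : Submodule K (ι → K)) [FiniteDimensional K V]
    (hpiv : ∀ x ∈ V, x ≠ 0 → dflp_HasPivot O x) :
    ∃ b : Fin (finrank K V) → ι → O,
      LinearIndependent K (fun j i => (b j i : K)) ∧
      Submodule.span K (Set.range (fun j i => (b j i : K))) = V ∧
      (∀ x ∈ V, (∀ i, x i ∈ O) →
        ∃ c : Fin (finrank K V) → O, x = ∑ j, (c j : K) • (fun i => (b j i : K))) ∧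
      LinearIndependent (IsLocalRing.ResidueField O)
        (fun j i => IsLocalRing.residue O (b j i)) :=
  dflp_exists_integral_basis' O V hpiv _ rfl

end Pivot

end Fermat.Agent.S18x
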