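/-
S18x/FibCompat (helper7): fibre consequences of a divisor-compatible place reduction
(`ts_Hyp.compat`, i.e. clause (2) of the Prelude's `IsPlaceReductionAlong`):
every pole (zero) of the reduction `ρ u` is the image under `r` of a pole (zero) of `u`;
hence `#poles (ρ u) ≤ #poles u`, `#zeros (ρ u) ≤ #zeros u`, and the same for the fibres
`t = c` of a coordinate (`placesOver`).  Abstract (no modular curves).

Consumers: cusp count of the reduction (`polePlaces j̄ ⊆ r '' polePlaces j`), the tame `ℓ ≥ 5`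
fibre count, normality at the cusps.
-/
import Mathlib
import Fermat.Agent.S18x.TsBasic
import Fermat.Agent.S24x.AlgDefs

set_option autoImplicit false

namespace Fermat.Agent.S18x

open AlgebraicCurve WithZero Fermat.Agent.S24x

variable {L k F Fb : Type*} [Field L] [Field k] [Field F] [Field Fb] [Algebra L F] [Algebra k Fb]
variable {A : ValuationSubring L} {π : A →+* k} {W : ValuationSubring F} {ρ : W →+* Fb}
  {r : Place L F → Place k Fb}

theorem fbc_ne_zero_of_rho_ne_zero (u : W) (hu : ρ u ≠ 0) : (u : F) ≠ 0 := by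
  intro h
  apply hu
  have : u = 0 := Subtype.ext h
  rw [this, map_zero]

open Classical in
/-- the order of the reduction at `Q` is the sum of the orders over the residue disc of `Q`. -/
theorem fbc_ord_rho_eq_sum (H : ts_Hyp A π W ρ r) (u : W) (hu : ρ u ≠ 0)
    (D : Divisor L F) (hD : ∀ P, D P = P.ord (u : F)) (Q : Place k Fb) :
    Q.ord (ρ u) = ∑ P ∈ D.support.filter (fun P => r P = Q), P.ord (u : F) := by
  rw [← H.compat u hu D hD Q, ts_mapDomain_apply]
  exact Finset.sum_congr rfl fun P _ => hD P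

/-- every pole of `ρ u` is the reduction of a pole of `u`. -/
theorem fbc_exists_pole (H : ts_Hyp A π W ρ r) (u : W) (hu : ρ u ≠ 0) (Q : Place k Fb)
    (hQ : Q.ord (ρ u) < 0) : ∃ P, r P = Q ∧ P.ord (u : F) < 0 := by
  classical
  obtain ⟨D, hD⟩ := H.hpd (u : F) (fbc_ne_zero_of_rho_ne_zero u hu)
  rw [fbc_ord_rho_eq_sum H u hu D hD Q] at hQ
  by_contra hcon
  push Not at hcon
  have : 0 ≤ ∑ P ∈ D.support.filter (fun P => r P = Q), P.ord (u : F) :=
    Finset.sum_nonneg fun P hP => hcon P (Finset.mem_filter.mp hP).2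
  omega

/-- every zero of `ρ u` is the reduction of a zero of `u`. -/
theorem fbc_exists_zero (H : ts_Hyp A π W ρ r) (u : W) (hu : ρ u ≠ 0) (Q : Place k Fb)
    (hQ : 0 < Q.ord (ρ u)) : ∃ P, r P = Q ∧ 0 < P.ord (u : F) := by
  classical
  obtain ⟨D, hD⟩ := H.hpd (u : F) (fbc_ne_zero_of_rho_ne_zero u hu)
  rw [fbc_ord_rho_eq_sum H u hu D hD Q] at hQ
  by_contra hcon
  push Not at hcon
  have : ∑ P ∈ D.support.filter (fun P => r P = Q), P.ord (u : F) ≤ 0 :=
    Finset.sum_nonpos fun P hP => hcon P (Finset.mem_filter.mp hP).2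
  omega

/-- the poles of the reduction lie in the image of the poles. -/
theorem fbc_polePlaces_subset (H : ts_Hyp A π W ρ r) (u : W) (hu : ρ u ≠ 0) :
    polePlaces k Fb (ρ u) ⊆ r '' polePlaces L F (u : F) := by
  intro Q hQ
  obtain ⟨P, hPQ, hP⟩ := fbc_exists_pole H u hu Q hQ
  exact ⟨P, hP, hPQ⟩

/-- the zeros of the reduction lie in the image of the zeros. -/
theorem fbc_zeros_subset (H : ts_Hyp A π W ρ r) (u : W) (hu : ρ u ≠ 0) :
    {Q : Place k Fb | 0 < Q.ord (ρ u)} ⊆ r '' {P : Place L F | 0 < P.ord (u : F)} := by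
  intro Q hQ
  obtain ⟨P, hPQ, hP⟩ := fbc_exists_zero H u hu Q hQ
  exact ⟨P, hP, hPQ⟩

/-- the set of poles of a nonzero function is finite (given that divisors of functions exist). -/
theorem fbc_finite_polePlaces {x : F}
    (hpd : ∃ D : Divisor L F, ∀ P : Place L F, D P = P.ord x) :
    (polePlaces L F x).Finite := by
  obtain ⟨D, hD⟩ := hpd
  refine D.support.finite_toSet.subset fun P hP => ?_
  rw [Finset.mem_coe, Finsupp.mem_support_iff, hD P]
  have : P.ord x < 0 := hP
  omega

/-- the set of zeros of a nonzero function is finite. -/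
theorem fbc_finite_zeros {x : F}
    (hpd : ∃ D : Divisor L F, ∀ P : Place L F, D P = P.ord x) :
    {P : Place L F | 0 < P.ord x}.Finite := by
  obtain ⟨D, hD⟩ := hpd
  refine D.support.finite_toSet.subset fun P hP => ?_
  rw [Finset.mem_coe, Finsupp.mem_support_iff, hD P]
  have : 0 < P.ord x := hP
  omega

/-- **cusp count inequality**: the reduction has at most as many poles as the function. -/
theorem fbc_ncard_polePlaces_le (H : ts_Hyp A π W ρ r) (u : W) (hu : ρ u ≠ 0) :
    (polePlaces k Fb (ρ u)).ncard ≤ (polePlaces L F (u : F)).ncard := by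
  have hfin : (polePlaces L F (u : F)).Finite :=
    fbc_finite_polePlaces (H.hpd _ (fbc_ne_zero_of_rho_ne_zero u hu))
  exact (Set.ncard_le_ncard (fbc_polePlaces_subset H u hu) (hfin.image r)).trans
    (Set.ncard_image_le hfin)

/-- the reduction has at most as many zeros as the function. -/
theorem fbc_ncard_zeros_le (H : ts_Hyp A π W ρ r) (u : W) (hu : ρ u ≠ 0) :
    {Q : Place k Fb | 0 < Q.ord (ρ u)}.ncard ≤ {P : Place L F | 0 < P.ord (u : F)}.ncard := by
  have hfin : {P : Place L F | 0 < P.ord (u : F)}.Finite :=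
    fbc_finite_zeros (H.hpd _ (fbc_ne_zero_of_rho_ne_zero u hu))
  exact (Set.ncard_le_ncard (fbc_zeros_subset H u hu) (hfin.image r)).trans
    (Set.ncard_image_le hfin)

/-- the fibre `ρ t = π c` of the reduction lies in the image of the fibre `t = c`
(for `c ∈ A` with `ρ t ≠ π c`). -/
theorem fbc_placesOver_subset (H : ts_Hyp A π W ρ r) (t : W) (c : L) (hc : c ∈ A)
    (hne : ρ t ≠ algebraMap k Fb (π ⟨c, hc⟩)) :
    placesOver k Fb (ρ t) (π ⟨c, hc⟩) ⊆ r '' placesOver L F (t : F) c := by
  let cW : W := ⟨algebraMap L F c, H.algW hc⟩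
  have hρ : ρ (t - cW) = ρ t - algebraMap k Fb (π ⟨c, hc⟩) := by
    rw [map_sub, H.rho_alg c hc]
  have hu : ρ (t - cW) ≠ 0 := by
    rw [hρ]
    exact sub_ne_zero.mpr hne
  intro Q hQ
  have hQ' : 0 < Q.ord (ρ (t - cW)) := by
    rw [hρ]
    exact hQ
  obtain ⟨P, hPQ, hP⟩ := fbc_exists_zero H (t - cW) hu Q hQ'
  exact ⟨P, hP, hPQ⟩

/-- **fibre count inequality** for the fibre over `c ∈ A`. -/
theorem fbc_ncard_placesOver_le (H : ts_Hyp A π W ρ r) (t : W) (c : L) (hc : c ∈ A)
    (hne : ρ t ≠ algebraMap k Fb (π ⟨c, hc⟩)) :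
    (placesOver k Fb (ρ t) (π ⟨c, hc⟩)).ncard ≤ (placesOver L F (t : F) c).ncard := by
  have hx : (t : F) - algebraMap L F c ≠ 0 := by
    intro h
    apply hne
    have : t = ⟨algebraMap L F c, H.algW hc⟩ := Subtype.ext (sub_eq_zero.mp h)
    rw [this, H.rho_alg c hc]
  have hfin : (placesOver L F (t : F) c).Finite := fbc_finite_zeros (H.hpd _ hx)
  exact (Set.ncard_le_ncard (fbc_placesOver_subset H t c hc hne) (hfin.image r)).trans
    (Set.ncard_image_le hfin)

end Fermat.Agent.S18x
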