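import Mathlib

/-!
# S18x / NRM row N4(b): orthonormal bases for a "Gauss" valuation ring (prefix `gob_`)

Generic valued-field lemma (Mathlib only).  `F / K` a field extension, `O` a subring of `F` with a
ring hom `ρ : O → κ` into a domain (the "reduction"), `O_K := O ∩ K`.  Hypotheses:

* `hval`  : `O_K` is a valuation ring of `K` (`x ∈ O_K ∨ x⁻¹ ∈ O_K`);
* `hunit` : an element of `O_K` with non-zero reduction is a unit of `O_K`;
* `hind`  : `b i ∈ O` have `O_K`-independent reductions: `∑ ρ(c i) ρ(b i) = 0 → ∀ i, ρ(c i) = 0`.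

Conclusions:

* `gob_linearIndependent` : the `b i` are linearly independent over `K`;
* `gob_coeff_mem`         : `∑ c i • b i ∈ O → ∀ i, c i ∈ O_K`;
* if moreover the `b i` span `F` over `K` (e.g. `card ι = [F : K]`):
  `gob_exists_coeff` (`O = ⊕ O_K b i`), `gob_isIntegral` (every element of `O` is integral over
  `O_K`), `gob_mem_or_inv_mem` (`O` is a valuation ring of `F`), `gob_mem_of_isIntegral`
  (`O` is integrally closed in `F`), `gob_mem_of_isIntegral_base` (FACT 0: everything integral over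
  a subring `B₀` of `O_K` lies in `O`), `gob_div_mem` and `gob_hprime` (`pR` is a prime ideal of the
  integral closure `R` of `B₀` in `F`, in the exact shape needed by `pur_quotient_isIntegrallyClosed`).
-/

set_option autoImplicit false
set_option linter.unusedSectionVars false

namespace Fermat.Agent.S18x

open Polynomial

/-- a finite family of elements of a valued field, not all zero, has a member of maximal
valuation -/
theorem gob_exists_pivot {K : Type*} [Field K] (V : ValuationSubring K) {ι : Type*} [Fintype ι]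
    (c : ι → K) (hne : ∃ i, c i ≠ 0) : ∃ i0, c i0 ≠ 0 ∧ ∀ i, c i / c i0 ∈ V := by
  classical
  obtain ⟨i1, hi1⟩ := hne
  have : Nonempty ι := ⟨i1⟩
  obtain ⟨i0, -, hmax⟩ := Finset.exists_max_image Finset.univ (fun i => V.valuation (c i))
    Finset.univ_nonempty
  have h0 : c i0 ≠ 0 := by
    intro h
    have h1 := hmax i1 (Finset.mem_univ _)
    simp only [h, map_zero] at h1
    exact hi1 ((map_eq_zero _).mp (le_zero_iff.mp h1))
  refine ⟨i0, h0, fun i => ?_⟩
  rw [← V.valuation_le_one_iff, map_div₀]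
  have hpos : 0 < V.valuation (c i0) := zero_lt_iff.mpr ((_root_.map_ne_zero _).mpr h0)
  exact (div_le_one₀ hpos).mpr (hmax i (Finset.mem_univ _))

/-- a valuation ring of a field is integrally closed in it (subring form) -/
theorem gob_mem_of_isIntegral_of_val {F : Type*} [Field F] (O : Subring F)
    (hO : ∀ y : F, y ∈ O ∨ y⁻¹ ∈ O) {y : F} (hy : IsIntegral O y) : y ∈ O := by
  let VF : ValuationSubring F := { O with mem_or_inv_mem' := hO }
  have hI : VF.valuation.Integers O :=
    { hom_inj := Subtype.val_injective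
      map_le_one := fun x => (VF.valuation_le_one_iff _).mpr x.2
      exists_of_le_one := fun {x} hx => ⟨⟨x, (VF.valuation_le_one_iff x).mp hx⟩, rfl⟩ }
  have h3 := hI.mem_of_integral hy
  exact (VF.valuation_le_one_iff y).mp h3

section main

variable {K F κ : Type*} [Field K] [Field F] [Algebra K F] [CommRing κ] [IsDomain κ]
  (O : Subring F) (ρ : O →+* κ)
  (hval : ∀ x : K, algebraMap K F x ∈ O ∨ algebraMap K F x⁻¹ ∈ O)
  (hunit : ∀ (x : K) (hx : algebraMap K F x ∈ O), ρ ⟨_, hx⟩ ≠ 0 → algebraMap K F x⁻¹ ∈ O)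
  {ι : Type*} [Fintype ι] (b : ι → F) (hb : ∀ i, b i ∈ O)
  (hind : ∀ (c : ι → K) (hc : ∀ i, algebraMap K F (c i) ∈ O),
    ∑ i, ρ ⟨_, hc i⟩ * ρ ⟨b i, hb i⟩ = 0 → ∀ i, ρ ⟨_, hc i⟩ = 0)

/-- `O_K = O ∩ K` as a valuation subring of `K` -/
def gob_V : ValuationSubring K :=
  { O.comap (algebraMap K F) with mem_or_inv_mem' := hval }

theorem gob_mem_V (x : K) : x ∈ gob_V O hval ↔ algebraMap K F x ∈ O := Iff.rfl

include hind in
/-- a combination with coefficients in `O_K` and vanishing reduction has all coefficients of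
reduction zero -/
theorem gob_key (d : ι → K) (hd : ∀ i, algebraMap K F (d i) ∈ O)
    (hs : ∑ i, d i • b i ∈ O) (h0 : ρ ⟨_, hs⟩ = 0) : ∀ i, ρ ⟨_, hd i⟩ = 0 := by
  apply hind d hd
  have : (⟨∑ i, d i • b i, hs⟩ : O) = ∑ i, ⟨_, hd i⟩ * ⟨b i, hb i⟩ := by
    apply Subtype.ext
    simp [Algebra.smul_def]
  rw [this, map_sum] at h0
  simpa only [map_mul] using h0

include hval hind in
/-- **(C1)** lifts of independent residues are linearly independent over `K` -/
theorem gob_linearIndependent : LinearIndependent K b := by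
  classical
  rw [Fintype.linearIndependent_iff]
  intro c hc
  by_contra hne
  push Not at hne
  obtain ⟨i0, hi0, hdiv⟩ := gob_exists_pivot (gob_V O hval) c hne
  have hd : ∀ i, algebraMap K F (c i / c i0) ∈ O := hdiv
  have hsum : ∑ i, (c i / c i0) • b i = 0 := by
    have : ∑ i, (c i / c i0) • b i = (c i0)⁻¹ • ∑ i, c i • b i := by
      rw [Finset.smul_sum]
      refine Finset.sum_congr rfl fun i _ => ?_
      rw [smul_smul, div_eq_inv_mul]
    rw [this, hc, smul_zero]
  have hs : ∑ i, (c i / c i0) • b i ∈ O := by rw [hsum]; exact O.zero_mem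
  have h0 : ρ ⟨_, hs⟩ = 0 := by
    have : (⟨_, hs⟩ : O) = 0 := Subtype.ext hsum
    rw [this, map_zero]
  have h1 := gob_key O ρ b hb hind _ hd hs h0 i0
  have h2 : (⟨algebraMap K F (c i0 / c i0), hd i0⟩ : O) = 1 := by
    apply Subtype.ext
    simp [div_self hi0]
  rw [h2, map_one] at h1
  exact one_ne_zero h1

include hval hunit hind in
/-- **(C2)** a `K`-combination of the `b i` lying in `O` has all its coefficients in `O_K` -/
theorem gob_coeff_mem (c : ι → K) (hy : ∑ i, c i • b i ∈ O) (i : ι) :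
    algebraMap K F (c i) ∈ O := by
  classical
  by_cases hne : ∃ i, c i ≠ 0
  swap
  · push Not at hne
    rw [hne i, map_zero]; exact O.zero_mem
  obtain ⟨i0, hi0, hdiv⟩ := gob_exists_pivot (gob_V O hval) c hne
  have hd : ∀ i, algebraMap K F (c i / c i0) ∈ O := hdiv
  have hc0 : algebraMap K F (c i0) ∈ O := by
    by_contra hnot
    have hinv : algebraMap K F (c i0)⁻¹ ∈ O := (hval (c i0)).resolve_left hnot
    have hρinv : ρ ⟨_, hinv⟩ = 0 := by
      by_contra hne0
      have := hunit _ hinv hne0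
      rw [inv_inv] at this
      exact hnot this
    have hsum : ∑ i, (c i / c i0) • b i = algebraMap K F (c i0)⁻¹ * ∑ i, c i • b i := by
      rw [← Algebra.smul_def, Finset.smul_sum]
      refine Finset.sum_congr rfl fun i _ => ?_
      rw [smul_smul, div_eq_inv_mul]
    have hs : ∑ i, (c i / c i0) • b i ∈ O := by rw [hsum]; exact O.mul_mem hinv hy
    have h0 : ρ ⟨_, hs⟩ = 0 := by
      have : (⟨_, hs⟩ : O) = ⟨_, hinv⟩ * ⟨_, hy⟩ := Subtype.ext hsum
      rw [this, map_mul, hρinv, zero_mul]
    have h1 := gob_key O ρ b hb hind _ hd hs h0 i0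
    have h2 : (⟨algebraMap K F (c i0 / c i0), hd i0⟩ : O) = 1 := by
      apply Subtype.ext
      simp [div_self hi0]
    rw [h2, map_one] at h1
    exact one_ne_zero h1
  have : c i = c i / c i0 * c i0 := by field_simp
  rw [this, map_mul]
  exact O.mul_mem (hd i) hc0

include hval hind in
/-- the spanning hypothesis follows from `[F : K] ≤ card ι` -/
theorem gob_span_of_card [FiniteDimensional K F] (hcard : Module.finrank K F ≤ Fintype.card ι) :
    ⊤ ≤ Submodule.span K (Set.range b) := by
  have hli := gob_linearIndependent O ρ hval b hb hind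
  have h1 : Fintype.card ι ≤ Module.finrank K F := hli.fintype_card_le_finrank
  exact (hli.span_eq_top_of_card_eq_finrank' (le_antisymm h1 hcard)).ge

variable (hspan : ⊤ ≤ Submodule.span K (Set.range b))

include hval hunit hind hspan in
/-- **(C3)** `O = ⊕ O_K b i` -/
theorem gob_exists_coeff {y : F} (hy : y ∈ O) :
    ∃ c : ι → K, (∀ i, algebraMap K F (c i) ∈ O) ∧ y = ∑ i, c i • b i := by
  have hmem : y ∈ Submodule.span K (Set.range b) := hspan Submodule.mem_top
  obtain ⟨c, hc⟩ := (Submodule.mem_span_range_iff_exists_fun K).mp hmem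
  refine ⟨c, fun i => ?_, hc.symm⟩
  exact gob_coeff_mem O ρ hval hunit b hb hind c (by rw [hc]; exact hy) i

/-- `O` as a subalgebra over `O_K` -/
def gob_subalgebra : Subalgebra (O.comap (algebraMap K F)) F :=
  { O with algebraMap_mem' := fun r => r.2 }

theorem gob_mem_subalgebra (y : F) : y ∈ gob_subalgebra (K := K) O ↔ y ∈ O := Iff.rfl

include hval hunit hind hspan in
theorem gob_subalgebra_fg : (gob_subalgebra (K := K) O).toSubmodule.FG := by
  classical
  refine ⟨Finset.univ.image b, ?_⟩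
  apply le_antisymm
  · rw [Submodule.span_le]
    intro x hx
    simp only [Finset.coe_image, Finset.coe_univ, Set.image_univ, Set.mem_range] at hx
    obtain ⟨i, rfl⟩ := hx
    exact hb i
  · intro y hy
    obtain ⟨c, hc, rfl⟩ := gob_exists_coeff O ρ hval hunit b hb hind hspan
      ((gob_mem_subalgebra O y).mp hy)
    refine Submodule.sum_mem _ fun i _ => ?_
    have h1 : c i • b i = (⟨c i, hc i⟩ : O.comap (algebraMap K F)) • b i := rfl
    rw [h1]
    refine Submodule.smul_mem _ _ (Submodule.subset_span ?_)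
    simp

include hval hunit hind hspan in
/-- **(C4)** every element of `O` is integral over `O_K` -/
theorem gob_isIntegral {y : F} (hy : y ∈ O) : IsIntegral (O.comap (algebraMap K F)) y :=
  IsIntegral.of_mem_of_fg (gob_subalgebra (K := K) O)
    (gob_subalgebra_fg O ρ hval hunit b hb hind hspan) y hy

include hval hunit hind hspan in
/-- every non-zero element of `F` is (non-zero element of `K`) * (unit of `O`) -/
theorem gob_exists_unit_decomp {y : F} (hy : y ≠ 0) :
    ∃ (a : K) (u : F) (hu : u ∈ O), a ≠ 0 ∧ ρ ⟨u, hu⟩ ≠ 0 ∧ y = algebraMap K F a * u := by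
  classical
  have hmem : y ∈ Submodule.span K (Set.range b) := hspan Submodule.mem_top
  obtain ⟨c, hc⟩ := (Submodule.mem_span_range_iff_exists_fun K).mp hmem
  have hne : ∃ i, c i ≠ 0 := by
    by_contra h
    push Not at h
    apply hy
    rw [← hc]
    simp [h]
  obtain ⟨i0, hi0, hdiv⟩ := gob_exists_pivot (gob_V O hval) c hne
  have hd : ∀ i, algebraMap K F (c i / c i0) ∈ O := hdiv
  have hs : ∑ i, (c i / c i0) • b i ∈ O := by
    refine O.sum_mem fun i _ => ?_
    rw [Algebra.smul_def]
    exact O.mul_mem (hd i) (hb i)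
  refine ⟨c i0, _, hs, hi0, ?_, ?_⟩
  · intro h0
    have h1 := gob_key O ρ b hb hind _ hd hs h0 i0
    have h2 : (⟨algebraMap K F (c i0 / c i0), hd i0⟩ : O) = 1 := by
      apply Subtype.ext
      simp [div_self hi0]
    rw [h2, map_one] at h1
    exact one_ne_zero h1
  · rw [← Algebra.smul_def, Finset.smul_sum, ← hc]
    refine Finset.sum_congr rfl fun i _ => ?_
    rw [smul_smul]
    congr 1
    field_simp

include hval hunit hind hspan in
/-- an element of `O` with non-zero reduction is a unit of `O` -/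
theorem gob_inv_mem {u : F} (hu : u ∈ O) (hρ : ρ ⟨u, hu⟩ ≠ 0) : u⁻¹ ∈ O := by
  have hu0 : u ≠ 0 := by
    rintro rfl
    apply hρ
    have : (⟨0, hu⟩ : O) = 0 := rfl
    rw [this, map_zero]
  obtain ⟨a, w, hw, ha, hρw, hinv⟩ :=
    gob_exists_unit_decomp O ρ hval hunit b hb hind hspan (inv_ne_zero hu0)
  -- `a⁻¹ = u * w ∈ O` with non-zero reduction
  have h1 : algebraMap K F a⁻¹ = u * w := by
    have hFa : algebraMap K F a ≠ 0 := (_root_.map_ne_zero _).mpr ha
    rw [map_inv₀]
    have : u * (algebraMap K F a * w) = 1 := by rw [← hinv, mul_inv_cancel₀ hu0]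
    field_simp
    rw [← this]; ring
  have h2 : algebraMap K F a⁻¹ ∈ O := by rw [h1]; exact O.mul_mem hu hw
  have h3 : ρ ⟨_, h2⟩ ≠ 0 := by
    have : (⟨_, h2⟩ : O) = ⟨u, hu⟩ * ⟨w, hw⟩ := Subtype.ext h1
    rw [this, map_mul]
    exact mul_ne_zero hρ hρw
  have h4 := hunit _ h2 h3
  rw [inv_inv] at h4
  rw [hinv]
  exact O.mul_mem h4 hw

include hval hunit hind hspan in
/-- **(C5)** `O` is a valuation ring of `F` -/
theorem gob_mem_or_inv_mem (y : F) : y ∈ O ∨ y⁻¹ ∈ O := by
  by_cases hy : y = 0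
  · left; rw [hy]; exact O.zero_mem
  obtain ⟨a, u, hu, ha, hρu, rfl⟩ := gob_exists_unit_decomp O ρ hval hunit b hb hind hspan hy
  rcases hval a with h | h
  · left; exact O.mul_mem h hu
  · right
    rw [mul_inv, ← map_inv₀]
    exact O.mul_mem h (gob_inv_mem O ρ hval hunit b hb hind hspan hu hρu)

include hval hunit hind hspan in
/-- **(C6)** `O` is integrally closed in `F` -/
theorem gob_mem_of_isIntegral {y : F} (hy : IsIntegral O y) : y ∈ O :=
  gob_mem_of_isIntegral_of_val O (gob_mem_or_inv_mem O ρ hval hunit b hb hind hspan) hy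

section base

variable {B₀ : Type*} [CommRing B₀] [Algebra B₀ F] (hB : ∀ r : B₀, algebraMap B₀ F r ∈ O)

include hB in
omit [Algebra K F] in
/-- integrality over a subring of `O` implies integrality over `O` -/
theorem gob_isIntegral_of_base {y : F} (hy : IsIntegral B₀ y) : IsIntegral O y := by
  obtain ⟨P, hP, hPy⟩ := hy
  let φ : B₀ →+* O := (algebraMap B₀ F).codRestrict O hB
  refine ⟨P.map φ, hP.map φ, ?_⟩
  rw [eval₂_map]
  have : (algebraMap O F).comp φ = algebraMap B₀ F := by ext r; rfl
  rw [this]; exact hPy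

include hval hunit hind hspan hB in
/-- **FACT 0 (a)**: every element of `F` integral over a subring `B₀` of `O` lies in `O` -/
theorem gob_mem_of_isIntegral_base {y : F} (hy : IsIntegral B₀ y) : y ∈ O :=
  gob_mem_of_isIntegral O ρ hval hunit b hb hind hspan (gob_isIntegral_of_base O hB hy)

variable [Algebra B₀ K] [IsScalarTower B₀ K F] [IsDomain B₀] [IsFractionRing B₀ K]
  (p : B₀) (hp0 : p ≠ 0)
  (hρp : ρ ⟨algebraMap B₀ F p, hB p⟩ = 0)
  (hcap : ∀ r : B₀, ρ ⟨algebraMap B₀ F r, hB r⟩ = 0 → p ∣ r)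

include hB hp0 hρp hcap in
/-- `O_K ∩ B₀[1/p] = B₀` -/
theorem gob_cap (n : ℕ) : ∀ (z : K) (r : B₀), algebraMap K F z ∈ O →
    algebraMap B₀ K p ^ n * z = algebraMap B₀ K r → ∃ r' : B₀, z = algebraMap B₀ K r' := by
  have hpK : algebraMap B₀ K p ≠ 0 := by
    rwa [Ne, map_eq_zero_iff _ (IsFractionRing.injective B₀ K)]
  induction n with
  | zero =>
    intro z r _ h
    exact ⟨r, by simpa using h⟩
  | succ n ih =>
    intro z r hz h
    have hF : algebraMap B₀ F r = algebraMap B₀ F p ^ (n + 1) * algebraMap K F z := by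
      rw [IsScalarTower.algebraMap_apply B₀ K F r, ← h, map_mul, map_pow,
        ← IsScalarTower.algebraMap_apply B₀ K F p]
    have h0 : ρ ⟨algebraMap B₀ F r, hB r⟩ = 0 := by
      have : (⟨algebraMap B₀ F r, hB r⟩ : O) = ⟨_, hB p⟩ ^ (n + 1) * ⟨_, hz⟩ := Subtype.ext hF
      rw [this, map_mul, map_pow, hρp, zero_pow (Nat.succ_ne_zero n), zero_mul]
    obtain ⟨r', rfl⟩ := hcap r h0
    refine ih z r' hz ?_
    apply mul_left_cancel₀ hpK
    rw [← mul_assoc, ← pow_succ', h, map_mul]

variable [IsIntegrallyClosed B₀]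

include hval hunit hind hspan hB hp0 hρp hcap in
/-- **FACT 0 (b)**: if `p * y` is integral over `B₀` and `y ∈ O`, then `y` is integral over `B₀` -/
theorem gob_div_mem {x y : F} (hx : IsIntegral B₀ x) (hy : y ∈ O)
    (hxy : x = algebraMap B₀ F p * y) : IsIntegral B₀ y := by
  have hpK : algebraMap B₀ K p ≠ 0 := by
    rwa [Ne, map_eq_zero_iff _ (IsFractionRing.injective B₀ K)]
  have hpF : algebraMap B₀ F p = algebraMap K F (algebraMap B₀ K p) :=
    IsScalarTower.algebraMap_apply B₀ K F p
  -- `y` is integral over `O_K`, hence over `K`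
  have hyV : IsIntegral (O.comap (algebraMap K F)) y :=
    gob_isIntegral O ρ hval hunit b hb hind hspan hy
  have hyK : IsIntegral K y := by
    obtain ⟨P, hP, hPy⟩ := hyV
    refine ⟨P.map (algebraMap _ K), hP.map _, ?_⟩
    rw [eval₂_map]; exact hPy
  have hxK : IsIntegral K x := hx.tower_top
  set m := minpoly K y with hm
  set mx := minpoly K x with hmx
  have hmmon : m.Monic := minpoly.monic hyK
  have hmxmon : mx.Monic := minpoly.monic hxK
  -- coefficients of `m` lie in `O_K`
  have hA : ∀ i, algebraMap K F (m.coeff i) ∈ O := by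
    intro i
    obtain ⟨P, hP, hPy⟩ := hyV
    have hdvd : m ∣ P.map (algebraMap (O.comap (algebraMap K F)) K) := by
      apply minpoly.dvd
      rw [aeval_def, eval₂_map]; exact hPy
    have hint := isIntegral_coeff_of_dvd P m hP hmmon hdvd i
    exact gob_mem_of_isIntegral_of_val (O.comap (algebraMap K F)) hval hint
  -- `m` is the rescaling of `mx`
  have h1 : mx ∣ scaleRoots m (algebraMap B₀ K p) := by
    apply minpoly.dvd
    have := scaleRoots_aeval_eq_zero (A := F) (r := algebraMap B₀ K p) (minpoly.aeval K y)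
    rwa [← hpF, ← hxy] at this
  have h2 : m ∣ scaleRoots mx (algebraMap B₀ K p)⁻¹ := by
    apply minpoly.dvd
    have := scaleRoots_aeval_eq_zero (A := F) (r := (algebraMap B₀ K p)⁻¹) (minpoly.aeval K x)
    have hy' : algebraMap K F (algebraMap B₀ K p)⁻¹ * x = y := by
      rw [hxy, hpF, ← mul_assoc, ← map_mul, inv_mul_cancel₀ hpK, map_one, one_mul]
    rwa [hy'] at this
  have hQmon : (scaleRoots mx (algebraMap B₀ K p)⁻¹).Monic := (monic_scaleRoots_iff _).mpr hmxmon
  have hdeg1 : mx.natDegree ≤ m.natDegree := by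
    have := natDegree_le_of_dvd h1 (((monic_scaleRoots_iff _).mpr hmmon).ne_zero)
    rwa [natDegree_scaleRoots] at this
  have hQ : scaleRoots mx (algebraMap B₀ K p)⁻¹ = m :=
    eq_of_monic_of_dvd_of_natDegree_le hmmon hQmon h2 (by rwa [natDegree_scaleRoots])
  have hmxB : mx = (minpoly B₀ x).map (algebraMap B₀ K) :=
    minpoly.isIntegrallyClosed_eq_field_fractions' K hx
  -- coefficients of `m` lie in `B₀`
  have hBc : ∀ i, m.coeff i ∈ Set.range (algebraMap B₀ K) := by
    intro i
    have hci : algebraMap B₀ K p ^ (mx.natDegree - i) * m.coeff i =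
        algebraMap B₀ K ((minpoly B₀ x).coeff i) := by
      rw [← hQ, coeff_scaleRoots, hmxB, coeff_map, inv_pow]
      field_simp
    obtain ⟨r', hr'⟩ := gob_cap O ρ hB p hp0 hρp hcap _ _ _ (hA i) hci
    exact ⟨r', hr'.symm⟩
  have hlift : m ∈ lifts (algebraMap B₀ K) := (lifts_iff_coeff_lifts m).mpr hBc
  obtain ⟨M, hMmap, -, hMmon⟩ := lifts_and_natDegree_eq_and_monic hlift hmmon
  refine ⟨M, hMmon, ?_⟩
  have := minpoly.aeval K y
  rw [← hm, ← hMmap, aeval_def, eval₂_map, ← IsScalarTower.algebraMap_eq] at this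
  exact this

variable {R : Type*} [CommRing R] [Algebra B₀ R] [Algebra R F] [IsScalarTower B₀ R F]
  [IsIntegralClosure R B₀ F]
  (hker : ∀ x : O, ρ x = 0 → ∃ y : O, (x : F) = algebraMap B₀ F p * y)

include hval hunit hind hspan hB hp0 hρp hcap hker in
/-- **(hprime)**: `p` generates a prime ideal of the integral closure `R` of `B₀` in `F` -/
theorem gob_prime : Prime (algebraMap B₀ R p) := by
  have hinj : Function.Injective (algebraMap R F) := IsIntegralClosure.algebraMap_injective R B₀ F
  have hpK : algebraMap B₀ K p ≠ 0 := by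
    rwa [Ne, map_eq_zero_iff _ (IsFractionRing.injective B₀ K)]
  have hpF : algebraMap B₀ F p ≠ 0 := by
    rw [IsScalarTower.algebraMap_apply B₀ K F p]
    exact (_root_.map_ne_zero _).mpr hpK
  have hRp : algebraMap R F (algebraMap B₀ R p) = algebraMap B₀ F p :=
    (IsScalarTower.algebraMap_apply B₀ R F p).symm
  have hRO : ∀ r : R, algebraMap R F r ∈ O := fun r =>
    gob_mem_of_isIntegral_base O ρ hval hunit b hb hind hspan hB
      ((IsIntegralClosure.isIntegral_iff (A := R)).mpr ⟨r, rfl⟩)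
  refine ⟨?_, ?_, ?_⟩
  · intro h
    apply hpF
    rw [← hRp, h, map_zero]
  · rintro ⟨u, hu⟩
    have h1 : algebraMap B₀ F p * algebraMap R F (↑u⁻¹ : R) = 1 := by
      rw [← hRp, ← hu, ← map_mul, Units.mul_inv, map_one]
    have h2 : (⟨_, hB p⟩ : O) * ⟨_, hRO (↑u⁻¹ : R)⟩ = 1 := Subtype.ext h1
    have h3 := congrArg ρ h2
    rw [map_mul, hρp, zero_mul, map_one] at h3
    exact zero_ne_one h3
  · intro a c hac
    obtain ⟨d, hd⟩ := hac
    have h1 : (⟨_, hRO a⟩ : O) * ⟨_, hRO c⟩ = ⟨_, hB p⟩ * ⟨_, hRO d⟩ := by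
      apply Subtype.ext
      show algebraMap R F a * algebraMap R F c = algebraMap B₀ F p * algebraMap R F d
      rw [← map_mul, hd, map_mul, hRp]
    have h2 := congrArg ρ h1
    rw [map_mul, map_mul, hρp, zero_mul, mul_eq_zero] at h2
    have key : ∀ a : R, ρ ⟨_, hRO a⟩ = 0 → algebraMap B₀ R p ∣ a := by
      intro a ha
      obtain ⟨y, hy⟩ := hker _ ha
      have hyint : IsIntegral B₀ (y : F) :=
        gob_div_mem O ρ hval hunit b hb hind hspan hB p hp0 hρp hcap
          ((IsIntegralClosure.isIntegral_iff (A := R)).mpr ⟨a, rfl⟩) y.2 hy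
      obtain ⟨a', ha'⟩ := (IsIntegralClosure.isIntegral_iff (A := R)).mp hyint
      refine ⟨a', hinj ?_⟩
      rw [map_mul, hRp, ha']
      exact hy
    rcases h2 with h | h
    · exact Or.inl (key a h)
    · exact Or.inr (key c h)

include hval hunit hind hspan hB hp0 hρp hcap hker in
/-- **(hprime)** in the shape consumed by `pur_quotient_isIntegrallyClosed` -/
theorem gob_hprime : (Ideal.map (algebraMap B₀ R) (Ideal.span {p})).IsPrime := by
  have hprime := gob_prime O ρ hval hunit b hb hind hspan hB p hp0 hρp hcap (R := R) hker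
  rw [Ideal.map_span, Set.image_singleton]
  exact (Ideal.span_singleton_prime hprime.ne_zero).mpr hprime

end base

end main

end Fermat.Agent.S18x
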