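/-
S18 project, row N8d, adapter (helper87, prefix `gwm_`): the reduction pair `gwm_redPair_final`
(`S18x/GaussWM4.lean`) restated LITERALLY in helper40's canonical names of `S18x/NrmTopDefs.lean`
(`nrmt_W M A`, `nrmt_rho M A ℓ hℓM hA`, residue field `k = IsLocalRing.ResidueField A`), and the
dictionary between the two families of names (all `rfl`).
-/
import Mathlib
import Fermat.Agent.S18x.GaussWM4
import Fermat.Agent.S18x.NrmTopDefs

set_option autoImplicit false
set_option synthInstance.maxHeartbeats 400000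
set_option linter.style.haveILetI false

namespace Fermat.Agent.S18x

open ModularCurve HahnSeries AlgebraicCurve IntermediateField Fermat.Agent.S24x

noncomputable section

local notation "Qbar" => AlgebraicClosure ℚ

variable {N : ℕ} (M : ℕ) [NeZero N] [NeZero M] (A : ValuationSubring Qbar)
variable (ℓ : ℕ) [Fact ℓ.Prime] (hℓM : ¬ ℓ ∣ M) (hA : A.LiesOverPrime ℓ)

omit [NeZero N] in
/-- dictionary: `nrmt_W = gwm_WM` -/
theorem gwm_nrmt_W_eq : nrmt_W M A = gwm_WM A (IsLocalRing.residue A) M := rfl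

omit [NeZero N] in
/-- dictionary: `nrmt_J = gwm_JM` -/
theorem gwm_nrmt_J_eq : nrmt_J M A = gwm_JM A (IsLocalRing.residue A) M := rfl

/-- **the reduction pair between the levels `N ∣ M` in `nrmt_` names** (lower pair = helper19's
`(gi_W H, gi_rho H)`), for arbitrary proofs `hF`, `hFb` of the two inclusions. -/
theorem gwm_redPair_nrmt' (hNM : N ∣ M)
    {r : Place Qbar (gi_F Qbar N) →
      Place (IsLocalRing.ResidueField A) (gi_Fb (IsLocalRing.ResidueField A) N)}
    (H : gi_Inputs (IsLocalRing.residue A) r)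
    (hF : gi_F Qbar N ≤ gi_F Qbar M)
    (hFb : gi_Fb (IsLocalRing.ResidueField A) N ≤ gi_Fb (IsLocalRing.ResidueField A) M) :
    @nd_RedPair ↥(gi_F Qbar N) ↥(gi_F Qbar M) ↥(gi_Fb (IsLocalRing.ResidueField A) N)
      ↥(gi_Fb (IsLocalRing.ResidueField A) M) _ _ _ _ (gwm_algF hF) (gwm_algFb hFb)
      (gi_W H) (nrmt_W M A) (gi_rho H) (nrmt_rho M A ℓ hℓM hA) := by
  haveI : CharP (IsLocalRing.ResidueField A) ℓ := glu_charP A (Fact.out : ℓ.Prime) hA
  letI : Algebra (ZMod ℓ) (IsLocalRing.ResidueField A) := ZMod.algebra _ ℓ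
  exact gwm_redPair_final' ℓ hNM hℓM H hF hFb

/-- the same for the canonical inclusion proofs -/
theorem gwm_redPair_nrmt (hNM : N ∣ M)
    {r : Place Qbar (gi_F Qbar N) →
      Place (IsLocalRing.ResidueField A) (gi_Fb (IsLocalRing.ResidueField A) N)}
    (H : gi_Inputs (IsLocalRing.residue A) r) :
    @nd_RedPair ↥(gi_F Qbar N) ↥(gi_F Qbar M) ↥(gi_Fb (IsLocalRing.ResidueField A) N)
      ↥(gi_Fb (IsLocalRing.ResidueField A) M) _ _ _ _ (gwm_algF (gwm_F_le Qbar hNM))
      (gwm_algFb (gwm_Fb_le (IsLocalRing.ResidueField A) hNM))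
      (gi_W H) (nrmt_W M A) (gi_rho H) (nrmt_rho M A ℓ hℓM hA) :=
  gwm_redPair_nrmt' M A ℓ hℓM hA hNM H _ _

end

end Fermat.Agent.S18x
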