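/-
S18x/GlueDegEq (helper40): the degree of the reduced modular function field over an ARBITRARY
field `k` of characteristic `ℓ`:
* `glu_cdeg_le_psi` : `[F̄_M(k) : k(j̄)] ≤ ψ(M)` (any `ℓ`), by base change of the S28x bound
  `relfinrank_Ft_le` over `𝔽_ℓ`: `k(j̄)[image of F̄_M(𝔽_ℓ)]` has `k(j̄)`-rank `≤ [F̄_M(𝔽_ℓ) : 𝔽_ℓ(j̃)]`
  (`Subalgebra.adjoin_rank_le`), is a field and contains the generators of `F̄_M(k)`;
* `glu_cdeg_eq_psi` : `[F̄_M(k) : k(j̄)] = ψ(M)` for `ℓ ∤ M` (with `glu_psi_le_cdeg`).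
-/
import Mathlib
import Fermat.Agent.S18x.GlueDegK
import Fermat.Agent.S28x.QepOfDeg

set_option autoImplicit false
set_option synthInstance.maxHeartbeats 400000
set_option linter.unusedSectionVars false
set_option linter.style.haveILetI false

namespace Fermat.Agent.S18x

open ModularCurve IntermediateField Polynomial
open Fermat.Agent.S24x Fermat.Agent.S28x

noncomputable section

section Abstract

universe u1 u2 u3 u4

/-- `[E[φ(V)] : E] ≤ [V : F]` for a tower `Ω / E / F` and an `F`-algebra map `φ : Ω₀ → Ω`. -/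
theorem glu_adjoin_image_rank_le {F : Type u1} {E : Type u2} {Ω₀ : Type u3} {Ω : Type u4} [Field F] [Field E] [Field Ω₀] [Field Ω]
    [Algebra F Ω₀] [Algebra F E] [Algebra E Ω] [Algebra F Ω] [IsScalarTower F E Ω]
    (φ : Ω₀ →ₐ[F] Ω) (V : Subalgebra F Ω₀) (n : ℕ) (hV : Module.rank F V ≤ (n : Cardinal)) :
    Module.rank E (Algebra.adjoin E ((V.map φ : Subalgebra F Ω) : Set Ω)) ≤ (n : Cardinal) := by
  have h1 := Subalgebra.adjoin_rank_le E (V.map φ)
  refine h1.trans ?_
  have h2 := (Subalgebra.equivMapOfInjective V φ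
    (RingHom.injective φ.toRingHom)).toLinearEquiv.lift_rank_eq
  have h3 : Cardinal.lift.{u3} (Module.rank F ↥(V.map φ)) ≤ Cardinal.lift.{u3} (n : Cardinal) := by
    rw [← h2, Cardinal.lift_natCast, ← Cardinal.lift_natCast.{u4}, Cardinal.lift_le]
    exact hV
  exact Cardinal.lift_le.mp h3

/-- a subalgebra of a field which is finite over a field is closed under inverses -/
theorem glu_inv_mem_of_finite {E Ω : Type*} [Field E] [Field Ω] [Algebra E Ω]
    (T : Subalgebra E Ω) [Module.Finite E T] {y : Ω} (hy : y ∈ T) : y⁻¹ ∈ T := by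
  have halg : IsAlgebraic E (⟨y, hy⟩ : T) := Algebra.IsAlgebraic.isAlgebraic _
  have halg' : IsAlgebraic E (((⟨y, hy⟩ : T) : T) : Ω) :=
    (isAlgebraic_algebraMap_iff (A := Ω) (S := T) Subtype.val_injective).mpr halg
  exact T.inv_mem_of_algebraic (x := ⟨y, hy⟩) halg'

end Abstract

/-- coefficientwise base change maps `k₁(j̄)` into `k₂(j̄)` -/
theorem glu_coeffMap_mem_Kj {k₁ k₂ : Type*} [Field k₁] [Field k₂] (f : k₁ →+* k₂)
    {x : LaurentSeries k₁} (hx : x ∈ IntermediateField.adjoin k₁ {jqModC k₁}) :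
    coeffMap f x ∈ IntermediateField.adjoin k₂ {jqModC k₂} := by
  induction hx using IntermediateField.adjoin_induction with
  | mem x hx =>
    rw [Set.mem_singleton_iff] at hx
    rw [hx, coeffMap_jqModC]
    exact IntermediateField.subset_adjoin _ _ rfl
  | algebraMap r =>
    rw [algebraMap_laurentSeries_eq_single, coeffMap_single, ← algebraMap_laurentSeries_eq_single]
    exact IntermediateField.algebraMap_mem _ _
  | add x y _ _ hx hy => rw [map_add]; exact add_mem hx hy
  | inv x _ hx => rw [map_inv₀]; exact inv_mem hx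
  | mul x y _ _ hx hy => rw [map_mul]; exact mul_mem hx hy

section Upper

set_option maxHeartbeats 1000000 in
/-- the subalgebra `T = k(j̄)[image of F̄_M(𝔽_ℓ)]` of `k((q))` has `k(j̄)`-rank `≤ ψ(M)` and
contains `F̄_M(k)`. -/
theorem glu_exists_T (ℓ : ℕ) [Fact ℓ.Prime] (k : Type*) [Field k] [CharP k ℓ] (M : ℕ)
    [NeZero M] :
    ∃ T : Subalgebra (IntermediateField.adjoin k {jqModC k}) (LaurentSeries k),
      Module.rank (IntermediateField.adjoin k {jqModC k}) T ≤ (dedekindPsi M : Cardinal) ∧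
      ∀ y ∈ modularFunctionFieldFullC k M, y ∈ T := by
  classical
  let _ : Algebra (ZMod ℓ) k := ZMod.algebra k ℓ
  set φ : LaurentSeries (ZMod ℓ) →+* LaurentSeries k := coeffMap (algebraMap (ZMod ℓ) k) with hφ
  let fFE : ↥(Kj ℓ) →+* ↥(IntermediateField.adjoin k {jqModC k}) :=
    (φ.comp (algebraMap ↥(Kj ℓ) (LaurentSeries (ZMod ℓ)))).codRestrict
      (IntermediateField.adjoin k {jqModC k}) (fun x => glu_coeffMap_mem_Kj _ x.2)
  letI : Algebra ↥(Kj ℓ) ↥(IntermediateField.adjoin k {jqModC k}) := fFE.toAlgebra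
  letI : Algebra ↥(Kj ℓ) (LaurentSeries k) :=
    ((algebraMap ↥(IntermediateField.adjoin k {jqModC k}) (LaurentSeries k)).comp fFE).toAlgebra
  haveI : IsScalarTower ↥(Kj ℓ) ↥(IntermediateField.adjoin k {jqModC k}) (LaurentSeries k) :=
    IsScalarTower.of_algebraMap_eq (fun _ => rfl)
  let φA : LaurentSeries (ZMod ℓ) →ₐ[↥(Kj ℓ)] LaurentSeries k :=
    { φ with commutes' := fun x => rfl }
  have hle := db_Kj_le_Ft ℓ M
  let V : Subalgebra ↥(Kj ℓ) (LaurentSeries (ZMod ℓ)) :=
    (IntermediateField.extendScalars hle).toSubalgebra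
  have hfin : FiniteDimensional ↥(Kj ℓ) (IntermediateField.extendScalars hle) :=
    mpcf_finiteDimensional_fullC_extendScalars (ZMod ℓ) M (Kj ℓ)
      (IntermediateField.subset_adjoin _ _ rfl) hle
  have hV : Module.rank ↥(Kj ℓ) V ≤ (dedekindPsi M : Cardinal) := by
    have h := relfinrank_Ft_le ℓ M
    rw [IntermediateField.relfinrank_eq_finrank_of_le hle] at h
    have h2 : Module.rank ↥(Kj ℓ) V =
        (Module.finrank ↥(Kj ℓ) (IntermediateField.extendScalars hle) : Cardinal) :=
      (Module.finrank_eq_rank ↥(Kj ℓ) (IntermediateField.extendScalars hle)).symm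
    rw [h2]
    exact_mod_cast h
  have hrank := glu_adjoin_image_rank_le (E := ↥(IntermediateField.adjoin k {jqModC k})) φA V _ hV
  refine ⟨Algebra.adjoin ↥(IntermediateField.adjoin k {jqModC k})
    ((V.map φA : Subalgebra ↥(Kj ℓ) (LaurentSeries k)) : Set (LaurentSeries k)), hrank, ?_⟩
  set T := Algebra.adjoin ↥(IntermediateField.adjoin k {jqModC k})
    ((V.map φA : Subalgebra ↥(Kj ℓ) (LaurentSeries k)) : Set (LaurentSeries k)) with hT
  have hTfin : Module.Finite ↥(IntermediateField.adjoin k {jqModC k}) T :=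
    Module.rank_lt_aleph0_iff.mp (lt_of_le_of_lt hrank (Cardinal.natCast_lt_aleph0))
  intro y hy
  unfold modularFunctionFieldFullC at hy
  induction hy using IntermediateField.adjoin_induction with
  | mem x hx =>
    obtain ⟨d, hne, hd, rfl⟩ := hx
    apply Algebra.subset_adjoin
    refine ⟨qExpand (ZMod ℓ) d (jqModC (ZMod ℓ)), ?_, ?_⟩
    · exact (IntermediateField.mem_extendScalars hle).mpr (jqModCd_mem_full (ZMod ℓ) M hd)
    · show φ _ = _
      rw [hφ, coeffMap_qExpand, coeffMap_jqModC]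
  | algebraMap r =>
    exact T.algebraMap_mem (algebraMap k ↥(IntermediateField.adjoin k {jqModC k}) r)
  | add x y _ _ hx hy => exact T.add_mem hx hy
  | inv x _ hx => exact glu_inv_mem_of_finite T hx
  | mul x y _ _ hx hy => exact T.mul_mem hx hy

set_option maxHeartbeats 1000000 in
/-- **upper bound of the degree over any field of characteristic `ℓ`**:
`[F̄_M(k) : k(j̄)] ≤ ψ(M)`. -/
theorem glu_cdeg_le_psi (ℓ : ℕ) [Fact ℓ.Prime] (k : Type*) [Field k] [CharP k ℓ] (M : ℕ)
    [NeZero M] : cdeg k (pls_Fb k M) (pls_jb k M) ≤ dedekindPsi M := by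
  classical
  obtain ⟨T, hrank, hmem⟩ := glu_exists_T ℓ k M
  have hfd := pls_finiteDimensional_jb k M
  unfold cdeg
  obtain ⟨n, hn⟩ : ∃ n, n = Module.finrank k⟮pls_jb k M⟯ (pls_Fb k M) := ⟨_, rfl⟩
  rw [← hn]
  let B : Module.Basis (Fin n) k⟮pls_jb k M⟯ (pls_Fb k M) :=
    (Module.finBasis k⟮pls_jb k M⟯ (pls_Fb k M)).reindex (finCongr hn.symm)
  have hli : LinearIndependent k⟮pls_jb k M⟯ B := B.linearIndependent
  have h1 := du_linearIndependent_pow_mul (pls_transcendental_jb k M) hli
  have h2 : @LinearIndependent _ k (LaurentSeries k)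
      (fun p : ℕ × Fin n =>
        jqModC k ^ p.1 * ((B p.2 : pls_Fb k M) : LaurentSeries k)) _ _ Algebra.toModule := by
    let _ : Module k (LaurentSeries k) := Algebra.toModule
    have h := h1.map' ((modularFunctionFieldFullC k M).val.toLinearMap)
      (LinearMap.ker_eq_bot.mpr (modularFunctionFieldFullC k M).val.injective)
    have heq : ((modularFunctionFieldFullC k M).val.toLinearMap ∘
        fun p : ℕ × Fin n => (pls_jb k M) ^ p.1 * B p.2)
        = fun p : ℕ × Fin n =>
          jqModC k ^ p.1 * ((B p.2 : pls_Fb k M) : LaurentSeries k) := by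
      funext p
      simp only [Function.comp_apply, AlgHom.toLinearMap_apply, map_mul, map_pow,
        IntermediateField.coe_val, pls_coe_jb]
    rw [heq] at h
    exact h
  have h3 := du_linearIndependent_adjoin_of_pow_mul (t := jqModC k)
    (x := fun i : Fin n => ((B i : pls_Fb k M) : LaurentSeries k)) h2
  let x : Fin n → T := fun i => ⟨((B i : pls_Fb k M) : LaurentSeries k), hmem _ (B i).2⟩
  have h4 : LinearIndependent ↥(IntermediateField.adjoin k {jqModC k}) x := by
    refine LinearIndependent.of_comp (T.val.toLinearMap) ?_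
    exact h3
  have hTfin : Module.Finite ↥(IntermediateField.adjoin k {jqModC k}) T :=
    Module.rank_lt_aleph0_iff.mp (lt_of_le_of_lt hrank (Cardinal.natCast_lt_aleph0))
  have h5 := h4.fintype_card_le_finrank
  rw [Fintype.card_fin] at h5
  exact h5.trans (Module.finrank_le_of_rank_le hrank)

/-- **the degree over any field of characteristic `ℓ ∤ M`**: `[F̄_M(k) : k(j̄)] = ψ(M)`. -/
theorem glu_cdeg_eq_psi (ℓ : ℕ) [Fact ℓ.Prime] (k : Type*) [Field k] [CharP k ℓ] (M : ℕ)
    [NeZero M] (hℓM : ¬ ℓ ∣ M) : cdeg k (pls_Fb k M) (pls_jb k M) = dedekindPsi M :=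
  le_antisymm (glu_cdeg_le_psi ℓ k M) (glu_psi_le_cdeg ℓ k M hℓM)

end Upper

end

end Fermat.Agent.S18x
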