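/-
S18x/GlueHT (helper40): TOP-glue for the `hT` hypothesis of `ts_main` / `ts_injective`.

(G1) For a divisor-compatible place reduction `r` (clause `compat` of `ts_Hyp`) and `x ∈ W`
(think `x = j`) whose pole degree does not drop under reduction, *poles of `x` reduce to poles of
`ρ x`* ("cusps reduce to cusps").  Consequently, for every place `Q` of the special fibre which is
a simple zero of `ρ x - c̄`, the function `T = x - c` is a disc uniformiser at `Q` in the sense of
`ts_main` (`glu_hT`).
(G3) `glu_rsurj`: surjectivity of `r` from `compat` + surjectivity of `ρ` + existence of a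
function with a zero at `Q`.
Abstract: Mathlib + Prelude + `TsBasic` only.
-/
import Mathlib
import Fermat.Agent.S18x.TsBasic

set_option autoImplicit false

namespace Fermat.Agent.S18x

open AlgebraicCurve WithZero

section Comb

/-- If the total negative part of `D` does not drop under push-forward along `r`, then there is
no cancellation in the fibres: every point with `D a < 0` maps to a point where `r_* D < 0`. -/
theorem glu_neg_fibre {α β : Type*} (r : α → β) (D : α →₀ ℤ)
    (h : ∑ a ∈ D.support, max (-D a) 0 ≤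
      ∑ b ∈ (Finsupp.mapDomain r D).support, max (-(Finsupp.mapDomain r D) b) 0) :
    ∀ a, D a < 0 → Finsupp.mapDomain r D (r a) < 0 := by
  classical
  set E := Finsupp.mapDomain r D with hE
  set S := D.support with hS
  set T := S.image r with hT
  have hsupp : E.support ⊆ T := Finsupp.mapDomain_support
  -- rewrite the right-hand side over `T`
  have hR : ∑ b ∈ E.support, max (-E b) 0 = ∑ b ∈ T, max (-E b) 0 := by
    refine Finset.sum_subset hsupp fun b _ hb => ?_
    rw [Finsupp.notMem_support_iff] at hb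
    simp [hb]
  -- rewrite the left-hand side fibrewise
  have hL : ∑ a ∈ S, max (-D a) 0 = ∑ b ∈ T, ∑ a ∈ S.filter (fun a => r a = b), max (-D a) 0 :=
    (Finset.sum_fiberwise_of_maps_to (fun a ha => Finset.mem_image_of_mem r ha) _).symm
  have hEb : ∀ b, E b = ∑ a ∈ S.filter (fun a => r a = b), D a := fun b =>
    ts_mapDomain_apply r D b
  -- termwise inequality
  have hterm : ∀ b ∈ T, max (-E b) 0 ≤ ∑ a ∈ S.filter (fun a => r a = b), max (-D a) 0 := by
    intro b _
    apply max_le
    · rw [hEb b, ← Finset.sum_neg_distrib]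
      exact Finset.sum_le_sum fun a _ => le_max_left _ _
    · exact Finset.sum_nonneg fun a _ => le_max_right _ _
  have hle : ∑ b ∈ T, max (-E b) 0 ≤ ∑ b ∈ T, ∑ a ∈ S.filter (fun a => r a = b), max (-D a) 0 :=
    Finset.sum_le_sum hterm
  have heq : ∑ b ∈ T, max (-E b) 0 = ∑ b ∈ T, ∑ a ∈ S.filter (fun a => r a = b), max (-D a) 0 :=
    le_antisymm hle (by rw [← hL, ← hR]; exact h)
  have htermeq := (Finset.sum_eq_sum_iff_of_le hterm).mp heq
  intro a ha
  have haS : a ∈ S := by rw [hS, Finsupp.mem_support_iff]; omega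
  have hbT : r a ∈ T := Finset.mem_image_of_mem r haS
  by_contra hnn
  rw [not_lt] at hnn
  have h0 : max (-E (r a)) 0 = 0 := max_eq_right (by omega)
  have hfib := htermeq (r a) hbT
  rw [h0] at hfib
  have hmem : a ∈ S.filter (fun a' => r a' = r a) := Finset.mem_filter.mpr ⟨haS, rfl⟩
  have hsingle : max (-D a) 0 ≤ ∑ a' ∈ S.filter (fun a' => r a' = r a), max (-D a') 0 :=
    Finset.single_le_sum (f := fun a' => max (-D a') 0) (fun a' _ => le_max_right _ _) hmem
  have : 0 < max (-D a) 0 := lt_max_of_lt_left (by omega)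
  omega

end Comb

section Setup

variable {L k F Fb : Type*} [Field L] [Field k] [Field F] [Field Fb] [Algebra L F] [Algebra k Fb]
variable {A : ValuationSubring L} {π : A →+* k} {W : ValuationSubring F} {ρ : W →+* Fb}
  {r : Place L F → Place k Fb}

/-- **cusps reduce to cusps**: if the pole degree of `x ∈ W` does not drop under reduction, every
pole of `x` reduces to a pole of `ρ x`. -/
theorem glu_pole_of_pole (H : ts_Hyp A π W ρ r) (x : W) (hρx : ρ x ≠ 0)
    (Dx : Divisor L F) (hDx : ∀ P, Dx P = P.ord (x : F))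
    (hdeg : ∑ P ∈ Dx.support, max (-Dx P) 0 ≤
      ∑ Q ∈ (Finsupp.mapDomain r Dx).support, max (-(Finsupp.mapDomain r Dx) Q) 0)
    (P : Place L F) (hP : P.ord (x : F) < 0) : (r P).ord (ρ x) < 0 := by
  have h := glu_neg_fibre r Dx hdeg P (by rw [hDx]; exact hP)
  rwa [H.compat x hρx Dx hDx (r P)] at h

/-- the `hT` clause of `ts_main` for `T = x - c` at a simple zero `Q` of `ρ x - c̄`. -/
theorem glu_hT (H : ts_Hyp A π W ρ r) (x : W) (hρx : ρ x ≠ 0)
    (Dx : Divisor L F) (hDx : ∀ P, Dx P = P.ord (x : F))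
    (hdeg : ∑ P ∈ Dx.support, max (-Dx P) 0 ≤
      ∑ Q ∈ (Finsupp.mapDomain r Dx).support, max (-(Finsupp.mapDomain r Dx) Q) 0)
    (Q : Place k Fb) (c : A) (hQ : Q.ord (ρ x - algebraMap k Fb (π c)) = 1) :
    ∃ T : W, Q.ord (ρ T) = 1 ∧ ∀ P, r P = Q → P.adicValuation (T : F) ≤ 1 := by
  have hcW : algebraMap L F (c : L) ∈ W := (H.mem_iff _).mpr c.2
  refine ⟨x - ⟨algebraMap L F (c : L), hcW⟩, ?_, ?_⟩
  · rw [map_sub, H.rho_alg (c : L) c.2 hcW]
    exact hQ
  · intro P hPQ
    rw [P.adicValuation_le_one_iff]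
    by_cases hT0 : ((x - ⟨algebraMap L F (c : L), hcW⟩ : W) : F) = 0
    · exact Or.inl hT0
    right
    -- `x` has no pole at `P`
    have hxP : 0 ≤ P.ord (x : F) := by
      by_contra hneg
      rw [not_le] at hneg
      have hpole := glu_pole_of_pole H x hρx Dx hDx hdeg P hneg
      rw [hPQ] at hpole
      -- but `ρ x = (ρ x - c̄) + c̄` is regular at `Q`
      have h1 : Q.adicValuation (ρ x - algebraMap k Fb (π c)) ≤ 1 := by
        rw [Q.adicValuation_le_one_iff]; right; omega
      have h2 : Q.adicValuation (algebraMap k Fb (π c)) ≤ 1 :=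
        Q.adicValuation_algebraMap_le_one _
      have h3 : Q.adicValuation (ρ x) ≤ 1 := by
        have := (Valuation.map_add Q.adicValuation (ρ x - algebraMap k Fb (π c))
          (algebraMap k Fb (π c))).trans (max_le h1 h2)
        simpa using this
      rcases (Q.adicValuation_le_one_iff).mp h3 with h | h
      · exact hρx h
      · omega
    have hx1 : P.adicValuation (x : F) ≤ 1 := by
      rw [P.adicValuation_le_one_iff]; exact Or.inr hxP
    have hc1 : P.adicValuation (algebraMap L F (c : L)) ≤ 1 :=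
      P.adicValuation_algebraMap_le_one _
    have hsub : P.adicValuation ((x : F) - algebraMap L F (c : L)) ≤ 1 :=
      (Valuation.map_sub P.adicValuation _ _).trans (max_le hx1 hc1)
    rcases (P.adicValuation_le_one_iff).mp hsub with h | h
    · exact absurd h hT0
    · exact h

/-- (G3) surjectivity of `r`: every place of the special fibre at which some non-zero function in
the image of `ρ` has a zero is hit by `r`. -/
theorem glu_mem_range_of_zero (hpd : ∀ x : F, x ≠ 0 → ∃ D : Divisor L F, ∀ P : Place L F,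
      D P = P.ord x)
    (compat : ∀ u : W, ρ u ≠ 0 → ∀ D : Divisor L F, (∀ P, D P = P.ord (u : F)) →
      ∀ Q, Finsupp.mapDomain r D Q = Q.ord (ρ u))
    (Q : Place k Fb) (u : W) (hu : 0 < Q.ord (ρ u)) : ∃ P, r P = Q := by
  classical
  have hρu : ρ u ≠ 0 := by
    intro h0
    rw [h0, Place.ord_zero] at hu
    exact lt_irrefl _ hu
  have hu0 : (u : F) ≠ 0 := by
    intro h
    apply hρu
    have : u = 0 := Subtype.ext h
    rw [this, map_zero]
  obtain ⟨D, hD⟩ := hpd (u : F) hu0
  have hc := compat u hρu D hD Q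
  rw [ts_mapDomain_apply] at hc
  by_contra hne
  push Not at hne
  have hempty : D.support.filter (fun P => r P = Q) = ∅ :=
    Finset.filter_eq_empty_iff.mpr fun P _ => hne P
  rw [hempty, Finset.sum_empty] at hc
  omega

theorem glu_rsurj (hpd : ∀ x : F, x ≠ 0 → ∃ D : Divisor L F, ∀ P : Place L F, D P = P.ord x)
    (compat : ∀ u : W, ρ u ≠ 0 → ∀ D : Divisor L F, (∀ P, D P = P.ord (u : F)) →
      ∀ Q, Finsupp.mapDomain r D Q = Q.ord (ρ u))
    (hρsurj : ∀ y : Fb, y ≠ 0 → ∃ u : W, ρ u = y)
    (hzero : ∀ Q : Place k Fb, ∃ y : Fb, 0 < Q.ord y) :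
    Function.Surjective r := by
  intro Q
  obtain ⟨y, hy⟩ := hzero Q
  have hy0 : y ≠ 0 := by
    intro h0
    rw [h0, Place.ord_zero] at hy
    exact lt_irrefl _ hy
  obtain ⟨u, hu⟩ := hρsurj y hy0
  exact glu_mem_range_of_zero hpd compat Q u (by rw [hu]; exact hy)

/-- every place has a function with a zero (a uniformiser) -/
theorem glu_exists_zero {K' F' : Type*} [Field K'] [Field F'] [Algebra K' F'] (Q : Place K' F') :
    ∃ y : F', 0 < Q.ord y := by
  obtain ⟨ϖ, hϖ⟩ := IsDiscreteValuationRing.exists_irreducible Q.toValuationSubring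
  exact ⟨(ϖ : F'), by rw [Q.ord_coe_irreducible hϖ]; exact one_pos⟩

end Setup

end Fermat.Agent.S18x
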