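/-
S18x/GlueTower (helper40): the DEGREE side of `nd_RedPair` for the levels `N ∣ M` (block N8d-G3),
in instance-free `relfinrank` form (inside `k((q))`, resp. `ℚ̄((q))`):
* `glu_finrank_adjoin_eq_relfinrank` : `[F : K(t)]` computed in the subtype `↥F` equals
  `relfinrank K⟮t⟯ F` computed in the ambient field;
* `glu_relfinrank_fullC_eq_psi` : `relfinrank k(j̄) F̄_M(k) = ψ(M)`  (`char k = ℓ ∤ M`);
* `glu_relfinrank_bar_eq_psi`   : `relfinrank ℚ̄(j) F_M(ℚ̄) = ψ(M)`;
* `glu_tower_fullC`, `glu_tower_bar` : `ψ(N) * relfinrank F_N F_M = ψ(M)` on both sides;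
* `glu_relfinrank_eq`, `glu_relfinrank_pos` : `relfinrank F̄_N(k) F̄_M(k) = relfinrank F_N(ℚ̄) F_M(ℚ̄)`
  and positivity (= `finrank_eq` of `nd_RedPair`, helper87's form (R)).
-/
import Mathlib
import Fermat.Agent.S24
import Fermat.Agent.S18x.GlueDegEq

set_option autoImplicit false
set_option synthInstance.maxHeartbeats 400000

namespace Fermat.Agent.S18x

open ModularCurve IntermediateField
open Fermat.Agent.S24x

section Generic

variable {K Ω : Type*} [Field K] [Field Ω] [Algebra K Ω]

/-- `K(t)` inside the subtype `↥F` is the preimage of `K(t)` inside the ambient field -/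
theorem glu_comap_adjoin_simple (F : IntermediateField K Ω) (t : F) :
    (K⟮(t : Ω)⟯).comap F.val = K⟮t⟯ := by
  apply le_antisymm
  · intro x hx
    have hx' : (x : Ω) ∈ K⟮(t : Ω)⟯ := hx
    have h2 : (x : Ω) ∈ (K⟮t⟯).map F.val := by
      rw [adjoin_map, Set.image_singleton]
      exact hx'
    obtain ⟨y, hy, hyx⟩ := h2
    have : y = x := Subtype.ext hyx
    rw [← this]
    exact hy
  · rw [adjoin_le_iff, Set.singleton_subset_iff]
    show (t : Ω) ∈ K⟮(t : Ω)⟯
    exact mem_adjoin_simple_self K _

/-- the degree over `K(t)` computed in the subtype equals the relative degree in the ambient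
field -/
theorem glu_finrank_adjoin_eq_relfinrank (F : IntermediateField K Ω) (t : F) :
    Module.finrank K⟮t⟯ F = IntermediateField.relfinrank K⟮(t : Ω)⟯ F := by
  rw [← glu_comap_adjoin_simple F t, IntermediateField.finrank_comap, fieldRange_val]

end Generic

section CharL

variable (ℓ : ℕ) [Fact ℓ.Prime] (k : Type*) [Field k] [CharP k ℓ]

/-- `relfinrank k(j̄) F̄_M(k) = ψ(M)` for `char k = ℓ ∤ M`. -/
theorem glu_relfinrank_fullC_eq_psi (M : ℕ) [NeZero M] (hℓM : ¬ ℓ ∣ M) :
    IntermediateField.relfinrank (IntermediateField.adjoin k {jqModC k})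
      (modularFunctionFieldFullC k M) = dedekindPsi M := by
  have h := glu_cdeg_eq_psi ℓ k M hℓM
  unfold cdeg at h
  rw [glu_finrank_adjoin_eq_relfinrank] at h
  exact h

/-- tower law in characteristic `ℓ`. -/
theorem glu_tower_fullC {N M : ℕ} [NeZero N] [NeZero M] (hNM : N ∣ M) (hℓM : ¬ ℓ ∣ M) :
    dedekindPsi N * IntermediateField.relfinrank (modularFunctionFieldFullC k N)
      (modularFunctionFieldFullC k M) = dedekindPsi M := by
  have hℓN : ¬ ℓ ∣ N := fun h => hℓM (h.trans hNM)
  have h1 : IntermediateField.adjoin k {jqModC k} ≤ modularFunctionFieldFullC k N :=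
    IntermediateField.adjoin_le_iff.mpr (Set.singleton_subset_iff.mpr (jqModC_mem_full k N))
  have h2 : modularFunctionFieldFullC k N ≤ modularFunctionFieldFullC k M :=
    full_degeneracyC_le k hNM
  rw [← glu_relfinrank_fullC_eq_psi ℓ k N hℓN, ← glu_relfinrank_fullC_eq_psi ℓ k M hℓM]
  exact IntermediateField.relfinrank_mul_relfinrank h1 h2

end CharL

section CharZero

/-- `relfinrank ℚ̄(j) F_M(ℚ̄) = ψ(M)`. -/
theorem glu_relfinrank_bar_eq_psi (M : ℕ) [NeZero M] :
    IntermediateField.relfinrank
      (IntermediateField.adjoin Qbar {((jBar M : FBar M) : LaurentSeries Qbar)})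
      (modularFunctionFieldBar M) = dedekindPsi M := by
  have h := (Fermat.Agent.S24.cInputs M).cdeg_jBar
  unfold cdeg at h
  rw [glu_finrank_adjoin_eq_relfinrank] at h
  exact h

/-- `F_N(ℚ̄) ≤ F_M(ℚ̄)` for `N ∣ M`. -/
theorem glu_bar_le {N M : ℕ} [NeZero N] [NeZero M] (hNM : N ∣ M) :
    modularFunctionFieldBar N ≤ modularFunctionFieldBar M := by
  unfold modularFunctionFieldBar laurentBaseChange
  apply IntermediateField.adjoin.mono
  exact Set.image_mono (full_degeneracy_le hNM)

/-- tower law in characteristic `0`. -/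
theorem glu_tower_bar {N M : ℕ} [NeZero N] [NeZero M] (hNM : N ∣ M) :
    dedekindPsi N * IntermediateField.relfinrank (modularFunctionFieldBar N)
      (modularFunctionFieldBar M) = dedekindPsi M := by
  have h1 : IntermediateField.adjoin Qbar {((jBar N : FBar N) : LaurentSeries Qbar)} ≤
      modularFunctionFieldBar N :=
    IntermediateField.adjoin_le_iff.mpr (Set.singleton_subset_iff.mpr (jBar N).2)
  have h2 := glu_bar_le hNM
  have hj : ((jBar N : FBar N) : LaurentSeries Qbar) = ((jBar M : FBar M) : LaurentSeries Qbar) := by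
    rw [coe_jBar, coe_jBar]
  rw [← glu_relfinrank_bar_eq_psi N, ← glu_relfinrank_bar_eq_psi M, ← hj]
  exact IntermediateField.relfinrank_mul_relfinrank h1 h2

end CharZero

section Both

variable (ℓ : ℕ) [Fact ℓ.Prime] (k : Type*) [Field k] [CharP k ℓ]

/-- **`finrank_eq` of `nd_RedPair`, instance-free form**: the relative degrees of the levels
`N ∣ M` agree in characteristic `ℓ ∤ M` and in characteristic `0`. -/
theorem glu_relfinrank_eq {N M : ℕ} [NeZero N] [NeZero M] (hNM : N ∣ M) (hℓM : ¬ ℓ ∣ M) :
    IntermediateField.relfinrank (modularFunctionFieldFullC k N) (modularFunctionFieldFullC k M) =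
      IntermediateField.relfinrank (modularFunctionFieldBar N) (modularFunctionFieldBar M) := by
  have h1 := glu_tower_fullC ℓ k hNM hℓM
  have h2 := glu_tower_bar hNM
  have hpos : 0 < dedekindPsi N := by
    have hfd := (fbf_isCoordinate_jBar N).finite
    rw [← (Fermat.Agent.S24.cInputs N).cdeg_jBar]
    exact Module.finrank_pos
  exact Nat.eq_of_mul_eq_mul_left hpos (h1.trans h2.symm)

theorem glu_relfinrank_pos {N M : ℕ} [NeZero N] [NeZero M] (hNM : N ∣ M) :
    0 < IntermediateField.relfinrank (modularFunctionFieldBar N) (modularFunctionFieldBar M) := by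
  have h2 := glu_tower_bar hNM
  have hpos : 0 < dedekindPsi M := by
    have hfd := (fbf_isCoordinate_jBar M).finite
    rw [← (Fermat.Agent.S24.cInputs M).cdeg_jBar]
    exact Module.finrank_pos
  rcases Nat.eq_zero_or_pos (IntermediateField.relfinrank (modularFunctionFieldBar N)
    (modularFunctionFieldBar M)) with h0 | h0
  · rw [h0, mul_zero] at h2
    omega
  · exact h0

end Both

end Fermat.Agent.S18x
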