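/-
S18x/H1vFg (helper77): block H1V of S18, part 4: the chart ring
`R₀ = {y ∈ W | y integral over L[x]}` is FINITELY GENERATED over `A[x]`
(`h1v_Hyp.exists_generators`), although `A` need not be noetherian:
`R₀ = ∑ A[x] b_i + ∑ A[x] y_j`.  Mathlib only.
-/
import Fermat.Agent.S18x.H1vRoot

set_option autoImplicit false

namespace Fermat.Agent.S18x

open Polynomial

section

variable {L K : Type*} [Field L] [Field K] [Algebra L K]
variable {A : ValuationSubring L} {W : ValuationSubring K} {x : K} {n : ℕ} {b : Fin n → K}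

/-- a small polynomial is a small constant times an integral polynomial -/
theorem h1v_SmallPoly.exists_factor {J : L[X]} (hJ : h1v_SmallPoly A J) :
    ∃ (π : L) (J' : L[X]), A.valuation π < 1 ∧ h1v_IntPoly A J' ∧ J = C π * J' := by
  classical
  rcases eq_or_ne J 0 with rfl | hJ0
  · exact ⟨0, 0, by simp, h1v_IntPoly_zero, by simp⟩
  · have hne : J.support.Nonempty := by
      rwa [Finset.nonempty_iff_ne_empty, Ne, support_eq_empty]
    obtain ⟨j₀, hj₀, hmax⟩ := Finset.exists_max_image J.support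
      (fun j => A.valuation (J.coeff j)) hne
    have hπ0 : J.coeff j₀ ≠ 0 := mem_support_iff.mp hj₀
    have hvπ : 0 < A.valuation (J.coeff j₀) :=
      zero_lt_iff.mpr ((Valuation.ne_zero_iff _).mpr hπ0)
    have hle : ∀ j, A.valuation (J.coeff j) ≤ A.valuation (J.coeff j₀) := by
      intro j
      by_cases hj : j ∈ J.support
      · exact hmax j hj
      · rw [notMem_support_iff.mp hj, Valuation.map_zero]; exact zero_le
    refine ⟨J.coeff j₀, C (J.coeff j₀)⁻¹ * J, hJ j₀, fun j => ?_, ?_⟩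
    · rw [coeff_C_mul, ← A.valuation_le_one_iff, Valuation.map_mul, map_inv₀,
        inv_mul_le_iff₀ hvπ, mul_one]
      exact hle j
    · rw [← mul_assoc, ← C_mul, mul_inv_cancel₀ hπ0, C_1, one_mul]

namespace h1v_Hyp

/-- Archimedean consequence: `J(x)^s y ∈ W` for `s` large, `J` small -/
theorem exists_pow_mul_mem (H : h1v_Hyp A W x b) {J : L[X]} (hJ : h1v_SmallPoly A J) (y : K) :
    ∃ s : ℕ, aeval x J ^ s * y ∈ W := by
  obtain ⟨π, J', hπ, hJ', rfl⟩ := hJ.exists_factor
  rcases eq_or_ne y 0 with rfl | hy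
  · exact ⟨0, by simp [W.zero_mem]⟩
  · obtain ⟨e, he0, he⟩ := H.norm y hy
    obtain ⟨s, hs⟩ := H.arch π hπ e⁻¹
    refine ⟨s, ?_⟩
    have h1 : aeval x (C π * J') ^ s * y
        = algebraMap L K (π ^ s * e⁻¹) * (aeval x J') ^ s * (algebraMap L K e * y) := by
      rw [map_mul, aeval_C, mul_pow, map_mul, map_pow, map_inv₀]
      have : algebraMap L K e ≠ 0 := by simpa using he0
      field_simp
    rw [h1]
    exact W.mul_mem _ _ (W.mul_mem _ _ ((H.mem_iff _).mpr hs) (pow_mem (H.aeval_mem hJ') s))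
      ((W.valuation_le_one_iff _).mp he.le)

/-- **Step 3**: modulo `∑ L[x] b_i` every integral element is represented by an element of `W`. -/
theorem exists_approx (H : h1v_Hyp A W x b) {J : L[X]} (hJ : h1v_SmallPoly A J)
    (hden : h1v_Den L x b (1 - J)) {y : K} (hy : h1v_Int L x y) :
    ∃ φ : Fin n → L[X], y - ∑ i, aeval x (φ i) * b i ∈ W := by
  obtain ⟨s, hs⟩ := H.exists_pow_mul_mem hJ y
  obtain ⟨c, hc⟩ := hden y hy
  set G : L[X] := ∑ t ∈ Finset.range s, J ^ t with hG
  refine ⟨fun i => G * c i, ?_⟩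
  have h1 : (∑ i, aeval x (G * c i) * b i) = aeval x (G * (1 - J)) * y := by
    rw [map_mul, mul_assoc, hc, Finset.mul_sum]
    refine Finset.sum_congr rfl fun i _ => ?_
    rw [map_mul, mul_assoc]
  have h2 : G * (1 - J) = 1 - J ^ s := geom_sum_mul_neg J s
  have h3 : y - ∑ i, aeval x (G * c i) * b i = aeval x J ^ s * y := by
    rw [h1, h2, map_sub, map_one, map_pow]
    ring
  rw [h3]
  exact hs

/-- reduction modulo `1 - J`: every polynomial is congruent to one with coefficients in `A` -/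
theorem exists_int_rep (H : h1v_Hyp A W x b) {J : L[X]} (hJ : h1v_SmallPoly A J) (p : L[X]) :
    ∃ q m : L[X], h1v_IntPoly A q ∧ p = q + m * (1 - J) := by
  classical
  obtain ⟨π, J', hπ, hJ', rfl⟩ := hJ.exists_factor
  have hπA : π ∈ A := (A.valuation_le_one_iff _).mp hπ.le
  choose sj hsj using fun j : ℕ => H.arch π hπ (p.coeff j)
  set s := p.support.sup sj with hs
  have hcoef : ∀ j, π ^ s * p.coeff j ∈ A := by
    intro j
    by_cases hj : j ∈ p.support
    · have hle : sj j ≤ s := Finset.le_sup hj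
      obtain ⟨k, hk⟩ := Nat.exists_eq_add_of_le hle
      rw [hk, pow_add, mul_comm (π ^ sj j), mul_assoc]
      exact A.mul_mem _ _ (pow_mem hπA k) (hsj j)
    · rw [notMem_support_iff.mp hj, mul_zero]; exact A.zero_mem
  set G : L[X] := ∑ t ∈ Finset.range s, (C π * J') ^ t with hG
  refine ⟨C (π ^ s) * p * J' ^ s, p * G, ?_, ?_⟩
  · refine h1v_IntPoly.mul (fun j => ?_) (hJ'.pow s)
    rw [coeff_C_mul]
    exact hcoef j
  · have h2 : G * (1 - C π * J') = 1 - (C π * J') ^ s := geom_sum_mul_neg _ s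
    have h3 : p * G * (1 - C π * J') = p * (1 - (C π * J') ^ s) := by rw [mul_assoc, h2]
    rw [h3, mul_pow, ← C_pow]
    ring

/-- **Step 4: finite generation of the chart ring over `A[x]`.** -/
theorem exists_generators [IsAlgClosed L] (H : h1v_Hyp A W x b) :
    ∃ (r : ℕ) (g : Fin r → K), (∀ j, g j ∈ W) ∧ (∀ j, h1v_Int L x (g j)) ∧
      ∀ y, y ∈ W → h1v_Int L x y → ∃ (a : Fin n → L[X]) (q : Fin r → L[X]),
        (∀ i, h1v_IntPoly A (a i)) ∧ (∀ j, h1v_IntPoly A (q j)) ∧
        y = ∑ i, aeval x (a i) * b i + ∑ j, aeval x (q j) * g j := by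
  classical
  obtain ⟨J, hJ, hden⟩ := H.exists_den_small
  obtain ⟨r, Y, hYint, hYgen⟩ := H.fg
  choose φ hφ using fun j => H.exists_approx hJ hden (hYint j)
  set g : Fin r → K := fun j => Y j - ∑ i, aeval x (φ j i) * b i with hg
  have hgint : ∀ j, h1v_Int L x (g j) := fun j =>
    (hYint j).sub (h1v_Int_sum _ _ fun i _ => (h1v_Int_aeval x _).mul (H.b_int i))
  choose cden hcden using fun j => hden (g j) (hgint j)
  refine ⟨r, g, hφ, hgint, ?_⟩
  intro y hyW hyint
  obtain ⟨p, hp⟩ := hYgen y hyint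
  choose q m hq hpm using fun j => H.exists_int_rep hJ (p j)
  set a : Fin n → L[X] := fun i => ∑ j, (m j * cden j i + p j * φ j i) with ha
  have hterm : ∀ j, aeval x (p j) * Y j
      = aeval x (q j) * g j + ∑ i, aeval x (m j * cden j i + p j * φ j i) * b i := by
    intro j
    have h1 : Y j = g j + ∑ i, aeval x (φ j i) * b i := by rw [hg]; ring
    have h2 : aeval x (p j) * g j
        = aeval x (q j) * g j + aeval x (m j) * (aeval x (1 - J) * g j) := by
      conv_lhs => rw [hpm j]
      rw [map_add, map_mul]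
      ring
    rw [h1, mul_add, h2, hcden j, Finset.mul_sum, Finset.mul_sum, add_assoc,
      ← Finset.sum_add_distrib]
    congr 1
    refine Finset.sum_congr rfl fun i _ => ?_
    rw [map_add, map_mul, map_mul]
    ring
  have hy : y = ∑ i, aeval x (a i) * b i + ∑ j, aeval x (q j) * g j := by
    rw [hp, Finset.sum_congr rfl fun j _ => hterm j, Finset.sum_add_distrib, add_comm]
    congr 1
    rw [Finset.sum_comm]
    refine Finset.sum_congr rfl fun i _ => ?_
    rw [ha, map_sum, Finset.sum_mul]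
  have haW : (∑ i, aeval x (a i) * b i) ∈ W := by
    have h1 : (∑ i, aeval x (a i) * b i) = y - ∑ j, aeval x (q j) * g j := by
      rw [eq_sub_iff_add_eq]; exact hy.symm
    rw [h1]
    exact sub_mem hyW (sum_mem fun j _ => W.mul_mem _ _ (H.aeval_mem (hq j)) (hφ j))
  exact ⟨a, q, H.ortho a haW, hq, hy⟩

end h1v_Hyp

end

end Fermat.Agent.S18x
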