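/-
S18x/H1vMain (helper77): block H1V of S18, part 5 (main results).

* `h1v_Hyp.decomp` : **integral `H¹`-vanishing.**  There is `d` such that for all `t ≥ d` every
  `u ∈ W` which is integral over `L[x, x⁻¹]` (in the form: `x^m u` integral over `L[x]` for some `m`)
  decomposes as `u = a' + x^t b'` with `a' ∈ R₀ = {W, integral over L[x]}` and
  `b' ∈ R_∞ = {W, integral over L[x⁻¹]}`.
* `h1v_Hyp.lift` : consequently, if `f₀ ∈ R₀`, `f₁ ∈ R_∞` and `f₀ ≡ x^t f₁` modulo the maximal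
  ideal of `W`, there is `f ∈ R₀ ∩ x^t R_∞` with `f ≡ f₀`: the reduction map
  `W ∩ L(t (x)_∞) → red(R₀) ∩ x̄^t red(R_∞)` is ONTO for `t ≥ d`.
Mathlib only.
-/
import Fermat.Agent.S18x.H1vFg

set_option autoImplicit false

namespace Fermat.Agent.S18x

open Polynomial

section

variable {L K : Type*} [Field L] [Field K] [Algebra L K]
variable {A : ValuationSubring L} {W : ValuationSubring K} {x : K} {n : ℕ} {b : Fin n → K}

/-- `u = a' + x^t b'` with `a'` in the finite chart ring and `b'` in the chart ring at infinity -/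
def h1v_Dec (L : Type*) {K : Type*} [Field L] [Field K] [Algebra L K] (W : ValuationSubring K)
    (x : K) (t : ℕ) (u : K) : Prop :=
  ∃ a' b' : K, a' ∈ W ∧ h1v_Int L x a' ∧ b' ∈ W ∧ h1v_Int L x⁻¹ b' ∧ u = a' + x ^ t * b'

theorem h1v_Dec_zero (t : ℕ) : h1v_Dec L W x t 0 :=
  ⟨0, 0, W.zero_mem, h1v_Int_zero x, W.zero_mem, h1v_Int_zero x⁻¹, by simp⟩

theorem h1v_Dec.add {t : ℕ} {u v : K} (hu : h1v_Dec L W x t u) (hv : h1v_Dec L W x t v) :
    h1v_Dec L W x t (u + v) := by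
  obtain ⟨a₁, b₁, ha₁, ha₁', hb₁, hb₁', rfl⟩ := hu
  obtain ⟨a₂, b₂, ha₂, ha₂', hb₂, hb₂', rfl⟩ := hv
  exact ⟨a₁ + a₂, b₁ + b₂, W.add_mem _ _ ha₁ ha₂, ha₁'.add ha₂', W.add_mem _ _ hb₁ hb₂,
    hb₁'.add hb₂', by ring⟩

theorem h1v_Dec_sum {ι : Type*} {t : ℕ} (s : Finset ι) (f : ι → K)
    (h : ∀ i ∈ s, h1v_Dec L W x t (f i)) : h1v_Dec L W x t (∑ i ∈ s, f i) := by
  classical
  induction s using Finset.induction_on with
  | empty => simpa using h1v_Dec_zero (L := L) (W := W) (x := x) t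
  | insert a s ha ih =>
    rw [Finset.sum_insert ha]
    exact (h a (Finset.mem_insert_self a s)).add
      (ih fun i hi => h i (Finset.mem_insert_of_mem hi))

namespace h1v_Hyp

/-- one monomial term: `c x^l x^{-m} g` with `g ∈ R₀`, `g x^{-e} ∈ R_∞` for `e ≥ d`, `d ≤ t`. -/
theorem dec_term (H : h1v_Hyp A W x b) {g : K} (hgW : g ∈ W) (hgint : h1v_Int L x g) {d t : ℕ}
    (hd : ∀ e, d ≤ e → h1v_Int L x⁻¹ (g * x⁻¹ ^ e)) (hdt : d ≤ t) {c : L} (hc : c ∈ A)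
    (l m : ℕ) : h1v_Dec L W x t (x⁻¹ ^ m * (algebraMap L K c * x ^ l * g)) := by
  have hx0 : x ≠ 0 := H.x_ne_zero
  have hcW : algebraMap L K c ∈ W := (H.mem_iff _).mpr hc
  have hxx : ∀ k : ℕ, x ^ k * x⁻¹ ^ k = 1 := fun k => by
    rw [← mul_pow, mul_inv_cancel₀ hx0, one_pow]
  by_cases hml : m ≤ l
  · obtain ⟨k, rfl⟩ := Nat.exists_eq_add_of_le hml
    refine ⟨algebraMap L K c * x ^ k * g, 0, ?_, ?_, W.zero_mem, h1v_Int_zero _, ?_⟩
    · exact W.mul_mem _ _ (W.mul_mem _ _ hcW (pow_mem H.x_mem k)) hgW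
    · exact ((h1v_Int_algebraMap x c).mul ((h1v_Int_self x).pow k)).mul hgint
    · rw [mul_zero, add_zero, pow_add]
      have := hxx m
      calc x⁻¹ ^ m * (algebraMap L K c * (x ^ m * x ^ k) * g)
          = (x ^ m * x⁻¹ ^ m) * (algebraMap L K c * x ^ k * g) := by ring
        _ = algebraMap L K c * x ^ k * g := by rw [this, one_mul]
  · rw [not_le] at hml
    obtain ⟨k, rfl⟩ := Nat.exists_eq_add_of_le hml.le
    refine ⟨0, algebraMap L K c * (g * x⁻¹ ^ (k + t)), W.zero_mem, h1v_Int_zero _, ?_, ?_, ?_⟩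
    · exact W.mul_mem _ _ hcW (W.mul_mem _ _ hgW (pow_mem H.x_inv_mem _))
    · exact (h1v_Int_algebraMap x⁻¹ c).mul (hd _ (by omega))
    · rw [zero_add, pow_add, pow_add]
      have h1 := hxx l
      have h2 := hxx t
      calc x⁻¹ ^ l * x⁻¹ ^ k * (algebraMap L K c * x ^ l * g)
          = (x ^ l * x⁻¹ ^ l) * (algebraMap L K c * (g * x⁻¹ ^ k)) := by ring
        _ = (x ^ t * x⁻¹ ^ t) * (algebraMap L K c * (g * x⁻¹ ^ k)) := by rw [h1, h2]
        _ = x ^ t * (algebraMap L K c * (g * (x⁻¹ ^ k * x⁻¹ ^ t))) := by ring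

/-- a polynomial term `x^{-m} a(x) g` with `a ∈ A[X]` -/
theorem dec_poly (H : h1v_Hyp A W x b) {g : K} (hgW : g ∈ W) (hgint : h1v_Int L x g) {d t : ℕ}
    (hd : ∀ e, d ≤ e → h1v_Int L x⁻¹ (g * x⁻¹ ^ e)) (hdt : d ≤ t) {a : L[X]}
    (ha : h1v_IntPoly A a) (m : ℕ) : h1v_Dec L W x t (x⁻¹ ^ m * (aeval x a * g)) := by
  rw [aeval_eq_sum_range, Finset.sum_mul, Finset.mul_sum]
  refine h1v_Dec_sum _ _ fun l _ => ?_
  rw [Algebra.smul_def]
  exact H.dec_term hgW hgint hd hdt (ha l) l m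

/-- **Integral `H¹`-vanishing.** -/
theorem decomp [IsAlgClosed L] (H : h1v_Hyp A W x b) :
    ∃ d : ℕ, ∀ t, d ≤ t → ∀ u : K, u ∈ W → (∃ m : ℕ, h1v_Int L x (x ^ m * u)) →
      h1v_Dec L W x t u := by
  classical
  have hx0 : x ≠ 0 := H.x_ne_zero
  obtain ⟨r, g, hgW, hgint, hgen⟩ := H.exists_generators
  choose db hdb using fun i => h1v_Int_scale hx0 (H.b_int i)
  choose dg hdg using fun j => h1v_Int_scale hx0 (hgint j)
  refine ⟨max (Finset.univ.sup db) (Finset.univ.sup dg), fun t ht u huW hu => ?_⟩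
  obtain ⟨m, hm⟩ := hu
  have hdb' : ∀ i, db i ≤ t := fun i =>
    (Finset.le_sup (f := db) (Finset.mem_univ i)).trans ((le_max_left _ _).trans ht)
  have hdg' : ∀ j, dg j ≤ t := fun j =>
    (Finset.le_sup (f := dg) (Finset.mem_univ j)).trans ((le_max_right _ _).trans ht)
  obtain ⟨a, q, ha, hq, hu'⟩ := hgen (x ^ m * u) (W.mul_mem _ _ (pow_mem H.x_mem m) huW) hm
  have hu'' : u = ∑ i, x⁻¹ ^ m * (aeval x (a i) * b i)
      + ∑ j, x⁻¹ ^ m * (aeval x (q j) * g j) := by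
    rw [← Finset.mul_sum, ← Finset.mul_sum, ← mul_add, ← hu', ← mul_assoc, mul_comm (x⁻¹ ^ m),
      ← mul_pow, mul_inv_cancel₀ hx0, one_pow, one_mul]
  rw [hu'']
  refine (h1v_Dec_sum _ _ fun i _ => ?_).add (h1v_Dec_sum _ _ fun j _ => ?_)
  · exact H.dec_poly (H.b_mem i) (H.b_int i) (hdb i) (hdb' i) (ha i) m
  · exact H.dec_poly (hgW j) (hgint j) (hdg j) (hdg' j) (hq j) m

/-- **Surjectivity of reduction on `L(t (x)_∞)`**, in congruence form. -/
theorem lift [IsAlgClosed L] (H : h1v_Hyp A W x b) :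
    ∃ d : ℕ, ∀ t, d ≤ t → ∀ f₀ f₁ : K, f₀ ∈ W → h1v_Int L x f₀ → f₁ ∈ W → h1v_Int L x⁻¹ f₁ →
      W.valuation (f₀ - x ^ t * f₁) < 1 →
      ∃ f f' : K, f ∈ W ∧ h1v_Int L x f ∧ f' ∈ W ∧ h1v_Int L x⁻¹ f' ∧ f = x ^ t * f' ∧
        W.valuation (f - f₀) < 1 := by
  obtain ⟨d, hd⟩ := H.decomp
  refine ⟨d, fun t ht f₀ f₁ hf₀W hf₀ hf₁W hf₁ hlt => ?_⟩
  have hx0 : x ≠ 0 := H.x_ne_zero
  rcases eq_or_ne (f₀ - x ^ t * f₁) 0 with h0 | h0
  · exact ⟨f₀, f₁, hf₀W, hf₀, hf₁W, hf₁, sub_eq_zero.mp h0, by simp⟩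
  · obtain ⟨e, he0, he⟩ := H.norm _ h0
    set u := algebraMap L K e * (f₀ - x ^ t * f₁) with hu
    have huW : u ∈ W := (W.valuation_le_one_iff _).mp he.le
    -- `e⁻¹` is small
    have heinv : W.valuation (algebraMap L K e⁻¹) < 1 := by
      rw [Valuation.map_mul] at he
      have hve : W.valuation (algebraMap L K e) ≠ 0 :=
        (Valuation.ne_zero_iff _).mpr (by simpa using he0)
      rw [map_inv₀, map_inv₀]
      have h1 : (W.valuation (algebraMap L K e))⁻¹ = W.valuation (f₀ - x ^ t * f₁) := by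
        rw [eq_comm, ← mul_eq_one_iff_eq_inv₀ hve, mul_comm]; exact he
      rw [h1]; exact hlt
    have heinvW : algebraMap L K e⁻¹ ∈ W := (W.valuation_le_one_iff _).mp heinv.le
    -- `x^m u` is integral over `L[x]` for `m` large
    obtain ⟨d₁, hd₁⟩ := h1v_Int_scale (L := L) (inv_ne_zero hx0) hf₁
    rw [inv_inv] at hd₁
    have hum : h1v_Int L x (x ^ d₁ * u) := by
      have h1 : x ^ d₁ * u = algebraMap L K e * (x ^ d₁ * f₀ - x ^ t * (f₁ * x ^ d₁)) := by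
        rw [hu]; ring
      rw [h1]
      exact (h1v_Int_algebraMap x e).mul ((((h1v_Int_self x).pow d₁).mul hf₀).sub
        (((h1v_Int_self x).pow t).mul (hd₁ d₁ le_rfl)))
    obtain ⟨a', b', ha'W, ha', hb'W, hb', huab⟩ := hd t ht u huW ⟨d₁, hum⟩
    have hf₀eq : f₀ = x ^ t * f₁ + algebraMap L K e⁻¹ * u := by
      rw [hu, ← mul_assoc, ← map_mul, inv_mul_cancel₀ he0, map_one, one_mul]; ring
    refine ⟨f₀ - algebraMap L K e⁻¹ * a', f₁ + algebraMap L K e⁻¹ * b', ?_, ?_, ?_, ?_, ?_, ?_⟩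
    · exact sub_mem hf₀W (W.mul_mem _ _ heinvW ha'W)
    · exact hf₀.sub ((h1v_Int_algebraMap x _).mul ha')
    · exact W.add_mem _ _ hf₁W (W.mul_mem _ _ heinvW hb'W)
    · exact hf₁.add ((h1v_Int_algebraMap x⁻¹ _).mul hb')
    · conv_lhs => rw [hf₀eq, huab]
      ring
    · have h1 : f₀ - algebraMap L K e⁻¹ * a' - f₀ = -(algebraMap L K e⁻¹ * a') := by ring
      rw [h1, Valuation.map_neg, Valuation.map_mul]
      calc W.valuation (algebraMap L K e⁻¹) * W.valuation a'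
          ≤ W.valuation (algebraMap L K e⁻¹) * 1 := by
            gcongr; exact (W.valuation_le_one_iff _).mpr ha'W
        _ < 1 := by rwa [mul_one]

end h1v_Hyp

end

end Fermat.Agent.S18x
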