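import Mathlib
import Fermat.Agent.S18x.HorizBase2
import Fermat.Agent.S18x.PurxHorizC

/-!
# S18x / N5 G9 (helper39, insurance twin; prefix `hzg39_`): `(H)`, abstract form

`k` a field of characteristic zero, `K ∋ t` a field over `k` with `t` transcendental,
`Ah = k[t, 1/c(t)] ⊆ K` (`hzf_A`), `B₀ ⊆ Ah` an integrally closed subring of `K` with fraction
field `K` and `Ah = B₀[1/p]`, `L / K` finite.  If, in a geometric model `Lbar / Kbar` of `L / k`
with coordinate `t`, every zero of `t - a` (`c(a) ≠ 0`) is simple, then hypothesis `(hH)` of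
`pur_quotient_isIntegrallyClosed` holds for the integral closure of `B₀` in `L`.

All types are abstract: the statement is instantiated at the level-`Y` objects in `HorizGen39`.
-/

set_option autoImplicit false
set_option linter.style.haveILetI false
set_option linter.unusedSectionVars false

noncomputable section

namespace Fermat.Agent.S18x

open Polynomial AlgebraicCurve Fermat.Agent.S24x

section Abs

variable {k K L Kbar Lbar : Type*} [Field k] [CharZero k] [Field K] [Algebra k K]
  {t : K} {c : k[X]} [Field L] [Algebra K L] [Algebra k L] [IsScalarTower k K L]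
  [FiniteDimensional K L]
  [Field Kbar] [Algebra k Kbar] [Algebra.IsAlgebraic k Kbar] [IsAlgClosed Kbar]
  [Field Lbar] [Algebra Kbar Lbar] [Algebra L Lbar] [Algebra k Lbar] [IsScalarTower k L Lbar]
  [IsScalarTower k Kbar Lbar]

/-- closed fibres of `Ah = k[t, 1/c(t)]` have characteristic zero. -/
theorem hzg39_hchar_abs (t : K) (c : k[X]) (I : Ideal ↥(hzf_A t c)) (hI : I.IsMaximal) :
    CharZero (↥(hzf_A t c) ⧸ I) := by
  haveI : Nontrivial (↥(hzf_A t c) ⧸ I) := Ideal.Quotient.nontrivial_iff.mpr hI.ne_top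
  let f : k →+* ↥(hzf_A t c) ⧸ I :=
    (Ideal.Quotient.mk I).comp
      ((algebraMap k K).codRestrict (hzf_A t c) (hzf_algebraMap_mem t c))
  exact charZero_of_injective_ringHom f.injective

/-- **`(H)` from the place-form statement (A), abstract form.** -/
theorem hzg39_HH_abs (B0 : Subring K) [IsIntegrallyClosed ↥B0] [IsFractionRing ↥B0 K]
    [Algebra ↥B0 L] [IsScalarTower ↥B0 K L]
    (hle : B0 ≤ hzf_A t c) (p : ↥B0) (hp : ((p : K))⁻¹ ∈ hzf_A t c) (hp0 : (p : K) ≠ 0)
    (hsurj : ∀ z ∈ hzf_A t c, ∃ n : ℕ, z * (p : K) ^ n ∈ B0)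
    (ht : Transcendental k t) (hc : c ≠ 0)
    (hx : IsCoordinate Kbar Lbar (algebraMap L Lbar (algebraMap K L t)))
    (hA : ∀ P : Place Kbar Lbar, ∀ a : Kbar, (c.map (algebraMap k Kbar)).eval a ≠ 0 →
      0 < P.ord (algebraMap L Lbar (algebraMap K L t) - algebraMap Kbar Lbar a) →
        P.ord (algebraMap L Lbar (algebraMap K L t) - algebraMap Kbar Lbar a) = 1) :
    ∀ q : Ideal ↥B0, q.IsPrime → p ∉ q →
      ∃ s : Fin (Module.finrank K L) → ↥(integralClosure ↥B0 L), ∃ d : ↥B0,
        algebraMap ↥B0 K d =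
          Algebra.discr K (fun i => algebraMap ↥(integralClosure ↥B0 L) L (s i)) ∧ d ∉ q := by
  letI algB0Ah : Algebra ↥B0 ↥(hzf_A t c) := (Subring.inclusion hle).toAlgebra
  haveI hloc : IsLocalization.Away p ↥(hzf_A t c) :=
    hzf_isLocalization_away B0 (hzf_A t c) hle p hp hp0 hsurj
  haveI : IsPrincipalIdealRing ↥(hzf_A t c) := hzf_isPrincipalIdealRing ht hc
  letI algAhL : Algebra ↥(hzf_A t c) L := hzf_algebraL (L := L) t c
  haveI : IsScalarTower ↥B0 ↥(hzf_A t c) K := IsScalarTower.of_algebraMap_eq fun _ => rfl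
  haveI : IsScalarTower ↥(hzf_A t c) K L := IsScalarTower.of_algebraMap_eq fun _ => rfl
  haveI : IsScalarTower ↥B0 ↥(hzf_A t c) L := IsScalarTower.of_algebraMap_eq fun x => by
    rw [IsScalarTower.algebraMap_apply ↥B0 K L]
    rfl
  haveI : CharZero K := charZero_of_injective_algebraMap (algebraMap k K).injective
  haveI : Algebra.IsSeparable K L := Algebra.IsSeparable.of_integral _ _
  exact purx_hH_fin_of_dvd_pow_pid (B0 := ↥B0) (K := K) (L := L)
    (R := ↥(integralClosure ↥B0 L)) (Ah := ↥(hzf_A t c))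
    (Rh := ↥(integralClosure ↥(hzf_A t c) L)) p (hzg39_hchar_abs t c)
    (fun g hg x m hdvd =>
      hzf_hred (L := L) (Kbar := Kbar) (Lbar := Lbar) ht hc hx hA g hg x m hdvd)

end Abs

end Fermat.Agent.S18x
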