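/-
S18x/HorizFinal (helper81; row N5/G9, prefix `hzf_`): hypothesis `(hH)` of
`pur_quotient_isIntegrallyClosed` for helper28's level-`Y` objects (`S18x/LevelYDefs.lean`)

  `B₀ = purb_B0 ℓ h c`, `K = purb_KY h`, `L = purb_LY e h N`, `R = purb_RY ℓ e h c N`, `p = ℓ`,

generic in `(ℓ, e, h, c, N)`, from the geometric input (A) (simple zeros of `h - a`, `c(a) ≠ 0`, on a
function field `Lbar / Q̄` containing `L`, with coordinate `h`).

* `hzf_AY h c = ℚ[h, 1/c(h)] ⊆ K` (`= hzf_A (purb_hK h) c_ℚ`), `hzf_B0_le`, `hzf_away`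
  (`Ah = B₀[1/ℓ]`);
* `hzf_hH` : `(hH)` verbatim.
-/
import Mathlib
import Fermat.Agent.S18x.LevelYDefs
import Fermat.Agent.S18x.HorizBase2
import Fermat.Agent.S18x.PurxHorizC
import Fermat.Agent.S18x.PurInst

set_option autoImplicit false
set_option linter.style.haveILetI false
set_option linter.unusedSectionVars false

namespace Fermat.Agent.S18x

open ModularCurve Fermat.Agent.S28x Polynomial AlgebraicCurve IntermediateField
  Fermat.Agent.S24x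

noncomputable section

local notation "Qbar" => AlgebraicClosure ℚ

/-- every rational is `z / ℓ ^ n` with `z ∈ ℤ_(ℓ)`. -/
theorem hzf_exists_pow_mul_mem (ℓ : ℕ) [Fact ℓ.Prime] (r : ℚ) :
    ∃ n : ℕ, r * (ℓ : ℚ) ^ n ∈ GaloisRep.ratLocalizedAt ℓ := by
  have hℓ : ℓ.Prime := Fact.out
  obtain ⟨n, d', hd', hden⟩ := Nat.exists_eq_pow_mul_and_not_dvd r.den_ne_zero ℓ hℓ.ne_one
  refine ⟨n, ?_⟩
  show (r * (ℓ : ℚ) ^ n).den.Coprime ℓ
  have hd0 : d' ≠ 0 := by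
    rintro rfl
    rw [mul_zero] at hden
    exact r.den_ne_zero hden
  have h1 : r * (ℓ : ℚ) ^ n = (r.num : ℚ) / (d' : ℚ) := by
    have h2 : r = (r.num : ℚ) / (r.den : ℚ) := (Rat.num_div_den r).symm
    have hℓ0 : ((ℓ : ℚ)) ^ n ≠ 0 := pow_ne_zero n (Nat.cast_ne_zero.mpr hℓ.ne_zero)
    have hd0' : (d' : ℚ) ≠ 0 := Nat.cast_ne_zero.mpr hd0
    conv_lhs => rw [h2, hden]
    push_cast
    field_simp
  rw [h1]
  have h3 : ((r.num : ℚ) / (d' : ℚ)).den ∣ d' := by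
    have := Rat.den_dvd r.num (d' : ℤ)
    rw [Rat.divInt_eq_div] at this
    exact_mod_cast this
  exact Nat.Coprime.coprime_dvd_left h3 ((Nat.Prime.coprime_iff_not_dvd hℓ).mpr hd').symm

section Generic

variable (ℓ e : ℕ) [Fact ℓ.Prime] [NeZero e] (h : LaurentSeries ℚ) (c : Polynomial ℤ) (N : ℕ)
  [NeZero N]

/-- the cusp polynomial over `ℚ`. -/
abbrev hzf_cQ : ℚ[X] := c.map (Int.castRingHom ℚ)

/-- `Ah = ℚ[h, 1/c(h)] ⊆ K_Y = ℚ(h)`. -/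
abbrev hzf_AY : Subring ↥(purb_KY h) := hzf_A (purb_hK h) (hzf_cQ c)

theorem hzf_cK_eq : purb_cK h c = aeval (purb_hK h) (hzf_cQ c) := by
  rw [purb_cK, hzf_cQ]
  exact (Polynomial.aeval_map_algebraMap ℚ (purb_hK h) c).symm

variable {h} in
theorem hzf_transcendental_hK (hh : Transcendental ℚ h) : Transcendental ℚ (purb_hK h) := by
  rw [transcendental_iff] at hh ⊢
  intro p hp
  apply hh p
  rw [← puri_coe_aeval h p, hp]
  rfl

theorem hzf_B0_le : purb_B0 ℓ h c ≤ hzf_AY h c := by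
  refine Subring.closure_le.mpr ?_
  rintro x (⟨z, rfl⟩ | rfl | rfl)
  · exact hzf_algebraMap_mem _ _ _
  · exact hzf_t_mem _ _
  · rw [hzf_cK_eq]
    exact hzf_inv_mem _ _

/-- the `B₀`-algebra structure of `Ah` (inclusion). -/
@[reducible] def hzf_algebraB0AY : Algebra ↥(purb_B0 ℓ h c) ↥(hzf_AY h c) :=
  (Subring.inclusion (hzf_B0_le ℓ h c)).toAlgebra

/-- every element of `Ah` is `b / ℓ ^ n`, `b ∈ B₀`. -/
theorem hzf_exists_pow_mul_mem_B0 (z : ↥(purb_KY h)) (hz : z ∈ hzf_AY h c) :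
    ∃ n : ℕ, z * ((ℓ : ℕ) : ↥(purb_KY h)) ^ n ∈ purb_B0 ℓ h c := by
  unfold hzf_AY hzf_A at hz
  induction hz using Subring.closure_induction with
  | mem x hx =>
    rcases hx with ⟨r, rfl⟩ | rfl | rfl
    · obtain ⟨n, hn⟩ := hzf_exists_pow_mul_mem ℓ r
      refine ⟨n, ?_⟩
      have : algebraMap ℚ ↥(purb_KY h) r * ((ℓ : ℕ) : ↥(purb_KY h)) ^ n =
          algebraMap ℚ ↥(purb_KY h) (r * (ℓ : ℚ) ^ n) := by
        rw [map_mul, map_pow, map_natCast]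
      rw [this]
      exact purb_ZL_mem_B0 ℓ h c ⟨_, hn⟩
    · exact ⟨0, by rw [pow_zero, mul_one]; exact purb_hK_mem_B0 ℓ h c⟩
    · refine ⟨0, ?_⟩
      rw [pow_zero, mul_one, ← hzf_cK_eq]
      exact purb_cK_inv_mem_B0 ℓ h c
  | zero => exact ⟨0, by rw [zero_mul]; exact Subring.zero_mem _⟩
  | one => exact ⟨0, by rw [pow_zero, mul_one]; exact Subring.one_mem _⟩
  | add x y _ _ hx hy =>
    obtain ⟨n, hn⟩ := hx
    obtain ⟨m, hm⟩ := hy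
    refine ⟨n + m, ?_⟩
    have hℓB : ((ℓ : ℕ) : ↥(purb_KY h)) ∈ purb_B0 ℓ h c := natCast_mem _ ℓ
    have : (x + y) * ((ℓ : ℕ) : ↥(purb_KY h)) ^ (n + m) =
        x * ((ℓ : ℕ) : ↥(purb_KY h)) ^ n * ((ℓ : ℕ) : ↥(purb_KY h)) ^ m +
          y * ((ℓ : ℕ) : ↥(purb_KY h)) ^ m * ((ℓ : ℕ) : ↥(purb_KY h)) ^ n := by
      rw [pow_add]; ring
    rw [this]
    exact Subring.add_mem _ (Subring.mul_mem _ hn (Subring.pow_mem _ hℓB m))
      (Subring.mul_mem _ hm (Subring.pow_mem _ hℓB n))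
  | neg x _ hx =>
    obtain ⟨n, hn⟩ := hx
    exact ⟨n, by rw [neg_mul]; exact Subring.neg_mem _ hn⟩
  | mul x y _ _ hx hy =>
    obtain ⟨n, hn⟩ := hx
    obtain ⟨m, hm⟩ := hy
    refine ⟨n + m, ?_⟩
    have : x * y * ((ℓ : ℕ) : ↥(purb_KY h)) ^ (n + m) =
        (x * ((ℓ : ℕ) : ↥(purb_KY h)) ^ n) * (y * ((ℓ : ℕ) : ↥(purb_KY h)) ^ m) := by
      rw [pow_add]; ring
    rw [this]
    exact Subring.mul_mem _ hn hm

/-- `Ah = B₀[1/ℓ]`. -/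
theorem hzf_away :
    letI := hzf_algebraB0AY ℓ h c
    IsLocalization.Away ((ℓ : ℕ) : ↥(purb_B0 ℓ h c)) ↥(hzf_AY h c) := by
  have hℓ : ℓ.Prime := Fact.out
  have hcoe : ((((ℓ : ℕ) : ↥(purb_B0 ℓ h c)) : ↥(purb_KY h))) = ((ℓ : ℕ) : ↥(purb_KY h)) := rfl
  refine hzf_isLocalization_away (purb_B0 ℓ h c) (hzf_AY h c) (hzf_B0_le ℓ h c)
    ((ℓ : ℕ) : ↥(purb_B0 ℓ h c)) ?_ ?_ ?_
  · rw [hcoe]
    have : (((ℓ : ℕ) : ↥(purb_KY h)))⁻¹ = algebraMap ℚ ↥(purb_KY h) ((ℓ : ℚ)⁻¹) := by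
      rw [map_inv₀, map_natCast]
    rw [this]
    exact hzf_algebraMap_mem _ _ _
  · rw [hcoe]
    exact Nat.cast_ne_zero.mpr hℓ.ne_zero
  · intro z hz
    rw [hcoe]
    exact hzf_exists_pow_mul_mem_B0 ℓ h c z hz

end Generic

section Final

variable (ℓ e : ℕ) [Fact ℓ.Prime] [NeZero e] (h : LaurentSeries ℚ) (c : Polynomial ℤ) (N : ℕ)
  [NeZero N]

/-- the `ℚ`-algebra structure of `Ah`. -/
@[reducible] def hzf_algebraRatAY : Algebra ℚ ↥(hzf_AY h c) :=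
  ((algebraMap ℚ ↥(purb_KY h)).codRestrict (hzf_AY h c)
    (fun r => hzf_algebraMap_mem _ _ r)).toAlgebra

theorem hzf_cQ_ne_zero {c : Polynomial ℤ} (hc : c ≠ 0) : hzf_cQ c ≠ 0 := by
  rw [hzf_cQ, Ne, Polynomial.map_eq_zero_iff (RingHom.injective_int (Int.castRingHom ℚ))]
  exact hc

variable {h}

end Final

end

end Fermat.Agent.S18x
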