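/-
S18x/HorizFinal2 (helper81; row N5/G9, prefix `hzf_`): `(hH)` of `pur_quotient_isIntegrallyClosed`
over an ABSTRACT base: `K ∋ t` transcendental over `ℚ`, `Ah = ℚ[t, 1/c(t)] = hzf_A t c`,
`B₀ ≤ Ah` a subring of `K` with `Ah = B₀[1/p]`, `L / K` finite, from the geometric input (A).
(Abstract types keep instance search fast; the instantiation at helper28's `purb_` objects is in
`HorizFinal3`.)
-/
import Mathlib
import Fermat.Agent.S18x.HorizBase2
import Fermat.Agent.S18x.PurxHorizC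

set_option autoImplicit false
set_option linter.style.haveILetI false
set_option linter.unusedSectionVars false

namespace Fermat.Agent.S18x

open Polynomial AlgebraicCurve IntermediateField Fermat.Agent.S24x

noncomputable section

variable {K L Kbar Lbar : Type*} [Field K] [Algebra ℚ K] (t : K) (c : ℚ[X])
  [Field L] [Algebra K L] [Algebra ℚ L] [IsScalarTower ℚ K L] [FiniteDimensional K L]
  [Field Kbar] [Algebra ℚ Kbar] [Algebra.IsAlgebraic ℚ Kbar] [IsAlgClosed Kbar]
  [Field Lbar] [Algebra Kbar Lbar] [Algebra L Lbar] [Algebra ℚ Lbar] [IsScalarTower ℚ L Lbar]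
  [IsScalarTower ℚ Kbar Lbar]

/-- the `ℚ`-algebra structure of `Ah`. -/
@[reducible] def hzf_algebraRatA : Algebra ℚ ↥(hzf_A t c) :=
  ((algebraMap ℚ K).codRestrict (hzf_A t c) (fun r => hzf_algebraMap_mem t c r)).toAlgebra

variable {t}

/-- **(hH), abstract base.** -/
theorem hzf_hH_generic (ht : Transcendental ℚ t) {c : ℚ[X]} (hc : c ≠ 0)
    (B0 : Subring K) (hB0 : B0 ≤ hzf_A t c) [IsIntegrallyClosed ↥B0] [IsFractionRing ↥B0 K]
    [Algebra ↥B0 L] [IsScalarTower ↥B0 K L] (p : ↥B0)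
    (hloc : letI : Algebra ↥B0 ↥(hzf_A t c) := (Subring.inclusion hB0).toAlgebra
      IsLocalization.Away p ↥(hzf_A t c))
    {R : Type*} [CommRing R] [Algebra ↥B0 R] [Algebra R L] [IsScalarTower ↥B0 R L]
    [IsIntegralClosure R ↥B0 L]
    (hx : IsCoordinate Kbar Lbar (algebraMap L Lbar (algebraMap K L t)))
    (hA : ∀ P : Place Kbar Lbar, ∀ a : Kbar, (c.map (algebraMap ℚ Kbar)).eval a ≠ 0 →
      0 < P.ord (algebraMap L Lbar (algebraMap K L t) - algebraMap Kbar Lbar a) →
        P.ord (algebraMap L Lbar (algebraMap K L t) - algebraMap Kbar Lbar a) = 1) :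
    ∀ q : Ideal ↥B0, q.IsPrime → p ∉ q → ∃ c' : Fin (Module.finrank K L) → R, ∃ d : ↥B0,
      algebraMap ↥B0 K d = Algebra.discr K (fun i => algebraMap R L (c' i)) ∧ d ∉ q := by
  haveI : IsPrincipalIdealRing ↥(hzf_A t c) := hzf_isPrincipalIdealRing ht hc
  letI : Algebra ↥B0 ↥(hzf_A t c) := (Subring.inclusion hB0).toAlgebra
  haveI : IsLocalization.Away p ↥(hzf_A t c) := hloc
  letI := hzf_algebraL (L := L) t c
  haveI : IsScalarTower ↥B0 ↥(hzf_A t c) K := IsScalarTower.of_algebraMap_eq fun _ => rfl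
  haveI : IsScalarTower ↥(hzf_A t c) K L := IsScalarTower.of_algebraMap_eq fun _ => rfl
  haveI : IsScalarTower ↥B0 ↥(hzf_A t c) L := IsScalarTower.of_algebraMap_eq fun x => by
    rw [IsScalarTower.algebraMap_apply ↥B0 K L]
    rfl
  haveI : CharZero K := charZero_of_injective_algebraMap (algebraMap ℚ K).injective
  haveI : Algebra.IsSeparable K L := Algebra.IsSeparable.of_integral _ _
  letI := hzf_algebraRatA t c
  have hchar : ∀ I : Ideal ↥(hzf_A t c), I.IsMaximal → CharZero (↥(hzf_A t c) ⧸ I) :=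
    fun I hI => purx_charZero_quotient_of_algebraRat I hI
  exact purx_hH_fin_of_dvd_pow_pid (B0 := ↥B0) (K := K) (L := L) (R := R) (Ah := ↥(hzf_A t c))
    (Rh := ↥(integralClosure ↥(hzf_A t c) L)) p hchar
    (fun g hg x m hdvd => hzf_hred (L := L) (Kbar := Kbar) (Lbar := Lbar)
      ht hc hx hA g hg x m hdvd)

end

end Fermat.Agent.S18x
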