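/-
S18x/HorizFinal3 (helper81; row N5/G9, prefix `hzf_`): `(hH)` at level `Y` for helper28's objects
(`= puri_HH ℓ e h c N` of helper39's `PurInst`), generic in `(ℓ, e, h, c, N)`, from the geometric
input (A) on a function field `Lbar / Q̄ ⊇ L_Y` with coordinate `h`.
-/
import Mathlib
import Fermat.Agent.S18x.HorizFinal
import Fermat.Agent.S18x.HorizFinal2

set_option autoImplicit false
set_option linter.style.haveILetI false
set_option linter.unusedSectionVars false

namespace Fermat.Agent.S18x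

open ModularCurve Fermat.Agent.S28x Polynomial AlgebraicCurve IntermediateField
  Fermat.Agent.S24x

noncomputable section

local notation "Qbar" => AlgebraicClosure ℚ

variable (ℓ e : ℕ) [Fact ℓ.Prime] [NeZero e] {h : LaurentSeries ℚ} (c : Polynomial ℤ) (N : ℕ)
  [NeZero N]

set_option maxHeartbeats 1000000 in
set_option synthInstance.maxHeartbeats 400000 in
/-- **(hH) at level `Y`** (`= puri_HH`, helper39's `PurInst`). -/
theorem hzf_puri_HH (htr : Transcendental ℚ h) (hc : c ≠ 0)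
    [FiniteDimensional ↥(purb_KY h) ↥(purb_LY e h N)]
    {Lbar : Type*} [Field Lbar] [Algebra Qbar Lbar] [Algebra ↥(purb_LY e h N) Lbar]
    [Algebra ℚ Lbar] [IsScalarTower ℚ ↥(purb_LY e h N) Lbar] [IsScalarTower ℚ Qbar Lbar]
    (hx : IsCoordinate Qbar Lbar (algebraMap ↥(purb_LY e h N) Lbar
      (algebraMap ↥(purb_KY h) ↥(purb_LY e h N) (purb_hK h))))
    (hA : ∀ P : Place Qbar Lbar, ∀ a : Qbar,
      ((hzf_cQ c).map (algebraMap ℚ Qbar)).eval a ≠ 0 →
      0 < P.ord (algebraMap ↥(purb_LY e h N) Lbar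
        (algebraMap ↥(purb_KY h) ↥(purb_LY e h N) (purb_hK h)) - algebraMap Qbar Lbar a) →
      P.ord (algebraMap ↥(purb_LY e h N) Lbar
        (algebraMap ↥(purb_KY h) ↥(purb_LY e h N) (purb_hK h)) - algebraMap Qbar Lbar a) = 1) :
    puri_HH ℓ e h c N := by
  have hcQ : hzf_cQ c ≠ 0 := hzf_cQ_ne_zero hc
  have htK := hzf_transcendental_hK htr
  haveI : Algebra.IsAlgebraic ℚ Qbar := AlgebraicClosure.isAlgebraic ℚ
  haveI := puri_B0_isIntegrallyClosed ℓ c htr hc
  haveI := puri_B0_isFractionRing ℓ h c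
  exact hzf_hH_generic (K := ↥(purb_KY h)) (L := ↥(purb_LY e h N)) (Kbar := Qbar) (Lbar := Lbar)
    htK hcQ (purb_B0 ℓ h c) (hzf_B0_le ℓ h c) ((ℓ : ℕ) : ↥(purb_B0 ℓ h c)) (hzf_away ℓ h c)
    (R := ↥(purb_RY ℓ e h c N)) hx hA

end

end Fermat.Agent.S18x
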