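/-
S18 project, NRM block, rows N5 / N5t, step G9 (helper18, prefix `hzf2_`): the horizontal
hypothesis `(H)` of PUR, `puri_HH ℓ e h c N` (PurInst.lean), for helper28's level-`Y` objects.

GENERIC part (any prime `ℓ`, twist `e`, coordinate `h` transcendental over `ℚ`, cusp polynomial
`c ≠ 0`):
* `hzf2_B0_le`, `hzf2_isLocalization_away` : `Ah = ℚ[h, 1/c(h)] = B₀[1/ℓ]`,
  `B₀ = ℤ_(ℓ)[h, 1/c(h)]` (as subrings of `ℚ(h)`);
* `hzf2_HH_of_hred` : `(H)` from reducedness of the closed fibres of `Rh / Ah`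
  (`purx_hH_fin_of_dvd_pow_pid`);
* `hzf2_HH` : `(H)` from the geometric input `(A)` over `Q̄` (all zeros of `h - a`, `c(a) ≠ 0`,
  are simple on a function field `Lbar ⊇ F_Y` with coordinate `h`), via helper81's `hzf_hred`.

INSTANCE `ℓ = 2`: `hzf2_HH_mu (N) : puri_HH 2 3 lyn_muQ lyn_c2 N` (Hesse coordinate `μ`,
`c = X³ - 27`, `Lbar = lyi2_LBar N`, `(A)` = `lyh2_ord_eq_one_levelY`).
-/
import Mathlib
import Fermat.Agent.S18x.LevelYHoriz2
import Fermat.Agent.S18x.LevelYInst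
import Fermat.Agent.S18x.HorizBase2
import Fermat.Agent.S18x.PuriRing
import Fermat.Agent.S18x.PurInst
import Fermat.Agent.S18x.PuriFinite
import Fermat.Agent.S18x.PurxHorizC

set_option autoImplicit false
set_option linter.style.haveILetI false
set_option linter.unusedSectionVars false
set_option synthInstance.maxHeartbeats 200000
set_option maxHeartbeats 1000000

noncomputable section

namespace Fermat.Agent.S18x

open ModularCurve IntermediateField Polynomial AlgebraicCurve Fermat.Agent.S24x Fermat.Agent.S28x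

local notation "Qbar" => AlgebraicClosure ℚ

theorem hzf2_exists_pow_mul_mem (ℓ : ℕ) (hℓ : ℓ.Prime) (r : ℚ) :
    ∃ n : ℕ, r * (ℓ : ℚ) ^ n ∈ GaloisRep.ratLocalizedAt ℓ := by
  obtain ⟨k, m, hm, hden⟩ := Nat.exists_eq_pow_mul_and_not_dvd r.den_ne_zero ℓ hℓ.ne_one
  refine ⟨k, ?_⟩
  have hm0 : m ≠ 0 := by
    rintro rfl
    rw [mul_zero] at hden
    exact r.den_ne_zero hden
  have hℓ0 : (ℓ : ℚ) ≠ 0 := Nat.cast_ne_zero.mpr hℓ.ne_zero
  have h1 : r * (ℓ : ℚ) ^ k = Rat.divInt r.num (m : ℤ) := by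
    rw [Rat.divInt_eq_div]
    have hr : r = (r.num : ℚ) / (r.den : ℚ) := (Rat.num_div_den r).symm
    conv_lhs => rw [hr, hden]
    push_cast
    field_simp
  show (r * (ℓ : ℚ) ^ k).den.Coprime ℓ
  rw [h1]
  have h2 : ((Rat.divInt r.num (m : ℤ)).den : ℤ) ∣ (m : ℤ) := Rat.den_dvd _ _
  have h3 : (Rat.divInt r.num (m : ℤ)).den ∣ m := by exact_mod_cast h2
  have h4 : Nat.Coprime m ℓ := ((Nat.Prime.coprime_iff_not_dvd hℓ).2 hm).symm
  exact Nat.Coprime.coprime_dvd_left h3 h4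

section Generic

variable (ℓ : ℕ) (h : LaurentSeries ℚ) (c : ℤ[X])

/-- the cusp polynomial over `ℚ`. -/
def hzf2_cQ : ℚ[X] := c.map (Int.castRingHom ℚ)

theorem hzf2_cQ_ne_zero (hc : c ≠ 0) : hzf2_cQ c ≠ 0 := by
  rw [hzf2_cQ, Ne, Polynomial.map_eq_zero_iff (RingHom.injective_int (Int.castRingHom ℚ))]
  exact hc

theorem hzf2_aeval_cQ : aeval (purb_hK h) (hzf2_cQ c) = purb_cK h c := by
  rw [hzf2_cQ, purb_cK, ← algebraMap_int_eq, aeval_map_algebraMap]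

/-- `B₀ = ℤ_(ℓ)[h, 1/c(h)] ⊆ Ah = ℚ[h, 1/c(h)]`. -/
theorem hzf2_B0_le : purb_B0 ℓ h c ≤ hzf_A (purb_hK h) (hzf2_cQ c) := by
  rw [purb_B0, Subring.closure_le]
  rintro x (⟨z, rfl⟩ | hx | hx)
  · exact hzf_algebraMap_mem _ _ _
  · have hx' : x = purb_hK h := hx
    rw [hx']
    exact hzf_t_mem _ _
  · have hx' : x = (purb_cK h c)⁻¹ := hx
    rw [hx', ← hzf2_aeval_cQ]
    exact hzf_inv_mem _ _

theorem hzf2_natCast_mem_B0 (n : ℕ) : ((n : ℕ) : ↥(purb_KY h)) ∈ purb_B0 ℓ h c :=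
  natCast_mem _ n

/-- every element of `Ah` is `b / ℓ ^ n` with `b ∈ B₀`. -/
theorem hzf2_exists_pow_mul_mem_B0 (hℓ : ℓ.Prime) (z : ↥(purb_KY h))
    (hz : z ∈ hzf_A (purb_hK h) (hzf2_cQ c)) :
    ∃ n : ℕ, z * ((ℓ : ℕ) : ↥(purb_KY h)) ^ n ∈ purb_B0 ℓ h c := by
  have hπ : ((ℓ : ℕ) : ↥(purb_KY h)) ∈ purb_B0 ℓ h c := hzf2_natCast_mem_B0 ℓ h c ℓ
  unfold hzf_A at hz
  induction hz using Subring.closure_induction with
  | mem x hx =>
    rcases hx with ⟨r, rfl⟩ | hx | hx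
    · obtain ⟨n, hn⟩ := hzf2_exists_pow_mul_mem ℓ hℓ r
      refine ⟨n, ?_⟩
      have h1 : algebraMap ℚ ↥(purb_KY h) r * ((ℓ : ℕ) : ↥(purb_KY h)) ^ n =
          algebraMap ℚ ↥(purb_KY h) (((⟨r * (ℓ : ℚ) ^ n, hn⟩ : ZL ℓ) : ℚ)) := by
        rw [map_mul, map_pow, map_natCast]
      rw [h1]
      exact purb_ZL_mem_B0 ℓ h c _
    · have hx' : x = purb_hK h := hx
      refine ⟨0, ?_⟩
      rw [pow_zero, mul_one, hx']
      exact purb_hK_mem_B0 ℓ h c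
    · have hx' : x = (aeval (purb_hK h) (hzf2_cQ c))⁻¹ := hx
      refine ⟨0, ?_⟩
      rw [pow_zero, mul_one, hx', hzf2_aeval_cQ]
      exact purb_cK_inv_mem_B0 ℓ h c
  | zero => exact ⟨0, by rw [zero_mul]; exact Subring.zero_mem _⟩
  | one => exact ⟨0, by rw [pow_zero, mul_one]; exact Subring.one_mem _⟩
  | add x y _ _ hx hy =>
    obtain ⟨n, hn⟩ := hx
    obtain ⟨m, hm⟩ := hy
    refine ⟨n + m, ?_⟩
    have : (x + y) * ((ℓ : ℕ) : ↥(purb_KY h)) ^ (n + m) =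
        x * ((ℓ : ℕ) : ↥(purb_KY h)) ^ n * ((ℓ : ℕ) : ↥(purb_KY h)) ^ m +
          y * ((ℓ : ℕ) : ↥(purb_KY h)) ^ m * ((ℓ : ℕ) : ↥(purb_KY h)) ^ n := by
      rw [pow_add]; ring
    rw [this]
    exact Subring.add_mem _ (Subring.mul_mem _ hn (Subring.pow_mem _ hπ m))
      (Subring.mul_mem _ hm (Subring.pow_mem _ hπ n))
  | neg x _ hx =>
    obtain ⟨n, hn⟩ := hx
    exact ⟨n, by rw [neg_mul]; exact Subring.neg_mem _ hn⟩
  | mul x y _ _ hx hy =>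
    obtain ⟨n, hn⟩ := hx
    obtain ⟨m, hm⟩ := hy
    refine ⟨n + m, ?_⟩
    have : x * y * ((ℓ : ℕ) : ↥(purb_KY h)) ^ (n + m) =
        x * ((ℓ : ℕ) : ↥(purb_KY h)) ^ n * (y * ((ℓ : ℕ) : ↥(purb_KY h)) ^ m) := by
      rw [pow_add]; ring
    rw [this]
    exact Subring.mul_mem _ hn hm

end Generic

section Final

variable (ℓ e : ℕ) [NeZero e] {h : LaurentSeries ℚ} (c : ℤ[X]) (N : ℕ) [NeZero N] [Fact ℓ.Prime]

theorem hzf2_transcendental_hK (htr : Transcendental ℚ h) : Transcendental ℚ (purb_hK h) := by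
  rw [transcendental_iff] at htr ⊢
  intro p hp
  apply htr p
  have := congrArg (fun z : ↥(purb_KY h) => (z : LaurentSeries ℚ)) hp
  simp only [ZeroMemClass.coe_zero] at this
  rw [← this]
  exact (puri_coe_aeval h p).symm

/-- the `B₀`-algebra structure of `Ah` (inclusion of subrings of `ℚ(h)`). -/
@[reducible] def hzf2_algB0Ah : Algebra ↥(purb_B0 ℓ h c) ↥(hzf_A (purb_hK h) (hzf2_cQ c)) :=
  (Subring.inclusion (hzf2_B0_le ℓ h c)).toAlgebra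

/-- the `Ah`-algebra structure of `K_Y`. -/
@[reducible] def hzf2_algAhK : Algebra ↥(hzf_A (purb_hK h) (hzf2_cQ c)) ↥(purb_KY h) :=
  (hzf_A (purb_hK h) (hzf2_cQ c)).subtype.toAlgebra

theorem hzf2_isLocalization_away :
    @IsLocalization.Away ↥(purb_B0 ℓ h c) _ ((ℓ : ℕ) : ↥(purb_B0 ℓ h c))
      ↥(hzf_A (purb_hK h) (hzf2_cQ c)) _ (hzf2_algB0Ah ℓ (h := h) c) := by
  have hℓ : ℓ.Prime := Fact.out
  have hπ0 : (((ℓ : ℕ) : ↥(purb_B0 ℓ h c)) : ↥(purb_KY h)) ≠ 0 := by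
    rw [Subring.coe_natCast]
    exact Nat.cast_ne_zero.mpr hℓ.ne_zero
  have hπinv : ((((ℓ : ℕ) : ↥(purb_B0 ℓ h c)) : ↥(purb_KY h)))⁻¹ ∈
      hzf_A (purb_hK h) (hzf2_cQ c) := by
    rw [Subring.coe_natCast]
    have : (((ℓ : ℕ) : ↥(purb_KY h)))⁻¹ = algebraMap ℚ ↥(purb_KY h) ((ℓ : ℚ)⁻¹) := by
      rw [map_inv₀, map_natCast]
    rw [this]
    exact hzf_algebraMap_mem _ _ _
  exact hzf_isLocalization_away (purb_B0 ℓ h c) (hzf_A (purb_hK h) (hzf2_cQ c))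
      (hzf2_B0_le ℓ h c) ((ℓ : ℕ) : ↥(purb_B0 ℓ h c)) hπinv hπ0 (fun z hz => by
        obtain ⟨n, hn⟩ := hzf2_exists_pow_mul_mem_B0 ℓ h c hℓ z hz
        refine ⟨n, ?_⟩
        rw [Subring.coe_natCast]
        exact hn)

theorem hzf2_tower1 :
    @IsScalarTower ↥(purb_B0 ℓ h c) ↥(hzf_A (purb_hK h) (hzf2_cQ c)) ↥(purb_KY h)
      (hzf2_algB0Ah ℓ (h := h) c).toSMul (hzf2_algAhK (h := h) c).toSMul Algebra.toSMul := by
  letI := hzf2_algB0Ah ℓ (h := h) c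
  letI := hzf2_algAhK (h := h) c
  exact IsScalarTower.of_algebraMap_eq fun x => rfl

theorem hzf2_tower2 :
    @IsScalarTower ↥(hzf_A (purb_hK h) (hzf2_cQ c)) ↥(purb_KY h) ↥(purb_LY e h N)
      (hzf2_algAhK (h := h) c).toSMul Algebra.toSMul
      (hzf_algebraL (L := ↥(purb_LY e h N)) (purb_hK h) (hzf2_cQ c)).toSMul := by
  letI := hzf2_algAhK (h := h) c
  letI := hzf_algebraL (L := ↥(purb_LY e h N)) (purb_hK h) (hzf2_cQ c)
  exact IsScalarTower.of_algebraMap_eq fun x => rfl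

theorem hzf2_tower3 :
    @IsScalarTower ↥(purb_B0 ℓ h c) ↥(hzf_A (purb_hK h) (hzf2_cQ c)) ↥(purb_LY e h N)
      (hzf2_algB0Ah ℓ (h := h) c).toSMul
      (hzf_algebraL (L := ↥(purb_LY e h N)) (purb_hK h) (hzf2_cQ c)).toSMul Algebra.toSMul := by
  letI := hzf2_algB0Ah ℓ (h := h) c
  letI := hzf2_algAhK (h := h) c
  letI := hzf_algebraL (L := ↥(purb_LY e h N)) (purb_hK h) (hzf2_cQ c)
  haveI := hzf2_tower1 ℓ (h := h) c
  haveI := hzf2_tower2 e (h := h) c N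
  refine IsScalarTower.of_algebraMap_eq fun x => ?_
  rw [IsScalarTower.algebraMap_apply ↥(purb_B0 ℓ h c) ↥(purb_KY h) ↥(purb_LY e h N),
    IsScalarTower.algebraMap_apply ↥(hzf_A (purb_hK h) (hzf2_cQ c)) ↥(purb_KY h)
      ↥(purb_LY e h N),
    ← IsScalarTower.algebraMap_apply ↥(purb_B0 ℓ h c) ↥(hzf_A (purb_hK h) (hzf2_cQ c))
      ↥(purb_KY h)]

theorem hzf2_hchar (I : Ideal ↥(hzf_A (purb_hK h) (hzf2_cQ c))) (hI : I.IsMaximal) :
    CharZero (↥(hzf_A (purb_hK h) (hzf2_cQ c)) ⧸ I) := by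
  letI : Algebra ℚ ↥(hzf_A (purb_hK h) (hzf2_cQ c)) :=
    ((algebraMap ℚ ↥(purb_KY h)).codRestrict (hzf_A (purb_hK h) (hzf2_cQ c))
      (hzf_algebraMap_mem _ _)).toAlgebra
  exact purx_charZero_quotient_of_algebraRat I hI

/-- **(hH) from reduced closed fibres over `Ah = ℚ[h, 1/c(h)]`**, for helper28's level-`Y`
objects. -/
theorem hzf2_HH_of_hred (htr : Transcendental ℚ h) (hc : c ≠ 0)
    [FiniteDimensional ↥(purb_KY h) ↥(purb_LY e h N)]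
    (hred : letI := hzf_algebraL (L := ↥(purb_LY e h N)) (purb_hK h) (hzf2_cQ c)
      ∀ g : ↥(hzf_A (purb_hK h) (hzf2_cQ c)), (Ideal.span {g}).IsMaximal →
      ∀ (x : ↥(integralClosure ↥(hzf_A (purb_hK h) (hzf2_cQ c)) ↥(purb_LY e h N))) (m : ℕ),
        algebraMap ↥(hzf_A (purb_hK h) (hzf2_cQ c))
          ↥(integralClosure ↥(hzf_A (purb_hK h) (hzf2_cQ c)) ↥(purb_LY e h N)) g ∣ x ^ m →
        algebraMap ↥(hzf_A (purb_hK h) (hzf2_cQ c))
          ↥(integralClosure ↥(hzf_A (purb_hK h) (hzf2_cQ c)) ↥(purb_LY e h N)) g ∣ x) :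
    puri_HH ℓ e h c N := by
  haveI := puri_B0_isIntegrallyClosed ℓ c htr hc
  haveI := puri_B0_isFractionRing ℓ h c
  have ht := hzf2_transcendental_hK htr
  have hcQ := hzf2_cQ_ne_zero c hc
  letI := hzf2_algB0Ah ℓ (h := h) c
  letI := hzf2_algAhK (h := h) c
  letI := hzf_algebraL (L := ↥(purb_LY e h N)) (purb_hK h) (hzf2_cQ c)
  haveI : IsPrincipalIdealRing ↥(hzf_A (purb_hK h) (hzf2_cQ c)) :=
    hzf_isPrincipalIdealRing ht hcQ
  haveI := hzf2_isLocalization_away ℓ (h := h) c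
  haveI := hzf2_tower1 ℓ (h := h) c
  haveI := hzf2_tower2 e (h := h) c N
  haveI := hzf2_tower3 ℓ e (h := h) c N
  exact purx_hH_fin_of_dvd_pow_pid (B0 := ↥(purb_B0 ℓ h c)) (K := ↥(purb_KY h))
    (L := ↥(purb_LY e h N)) (R := ↥(purb_RY ℓ e h c N))
    (Ah := ↥(hzf_A (purb_hK h) (hzf2_cQ c)))
    (Rh := ↥(integralClosure ↥(hzf_A (purb_hK h) (hzf2_cQ c)) ↥(purb_LY e h N)))
    ((ℓ : ℕ) : ↥(purb_B0 ℓ h c)) (hzf2_hchar (h := h) c) hred

end Final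


section GenericHH

variable (ℓ e : ℕ) [NeZero e] {h : LaurentSeries ℚ} (c : ℤ[X]) (N : ℕ) [NeZero N] [Fact ℓ.Prime]

/-- `Q̄/ℚ` is algebraic, for the `ℚ`-algebra structure found by instance search. -/
theorem hzf2_isAlgebraic_Qbar : Algebra.IsAlgebraic ℚ Qbar := by
  have h : @Algebra.IsAlgebraic ℚ Qbar _ _ (AlgebraicClosure.instAlgebra (k := ℚ)) :=
    inferInstance
  convert h
  exact Subsingleton.elim _ _

/-- **(H) from (A)**: `Lbar` a function field over `Q̄` containing `F_Y = purb_LY e h N`, with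
coordinate `h`, such that `h - a` has only simple zeros for every `a` with `c(a) ≠ 0`. -/
theorem hzf2_HH (htr : Transcendental ℚ h) (hc : c ≠ 0)
    [FiniteDimensional ↥(purb_KY h) ↥(purb_LY e h N)]
    {Lbar : Type*} [Field Lbar] [Algebra Qbar Lbar] [Algebra ↥(purb_LY e h N) Lbar]
    (hx : IsCoordinate Qbar Lbar (algebraMap ↥(purb_LY e h N) Lbar
      (algebraMap ↥(purb_KY h) ↥(purb_LY e h N) (purb_hK h))))
    (hA : ∀ P : Place Qbar Lbar, ∀ a : Qbar,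
      ((hzf2_cQ c).map (algebraMap ℚ Qbar)).eval a ≠ 0 →
      0 < P.ord (algebraMap ↥(purb_LY e h N) Lbar
        (algebraMap ↥(purb_KY h) ↥(purb_LY e h N) (purb_hK h)) - algebraMap Qbar Lbar a) →
      P.ord (algebraMap ↥(purb_LY e h N) Lbar
        (algebraMap ↥(purb_KY h) ↥(purb_LY e h N) (purb_hK h)) - algebraMap Qbar Lbar a) = 1) :
    puri_HH ℓ e h c N := by
  haveI := hzf2_isAlgebraic_Qbar
  haveI : CharZero Lbar := charZero_of_injective_algebraMap (algebraMap Qbar Lbar).injective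
  refine hzf2_HH_of_hred ℓ e c N htr hc ?_
  letI := hzf_algebraL (L := ↥(purb_LY e h N)) (purb_hK h) (hzf2_cQ c)
  intro g hg x m hdvd
  exact hzf_hred (k := ℚ) (K := ↥(purb_KY h)) (L := ↥(purb_LY e h N))
    (Kbar := Qbar) (Lbar := Lbar) (hzf2_transcendental_hK htr) (hzf2_cQ_ne_zero c hc)
    hx hA g hg x m hdvd

end GenericHH

section Iota

variable (N : ℕ) [NeZero N]

theorem hzf2_mus_eq : lyi2_mus ℚ = lyn_muQ := rfl

theorem hzf2_coeffEmb_mem (x : ↥(purb_LY 3 lyn_muQ N)) :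
    coeffEmb Qbar (x : LaurentSeries ℚ) ∈ lyi2_LBar N :=
  lyi2_coeffEmb_mem N x x.2

/-- coefficientwise extension of scalars `F_Y → lyi2_LBar N`. -/
def hzf2_iota : ↥(purb_LY 3 lyn_muQ N) →+* ↥(lyi2_LBar N) :=
  ((coeffEmb Qbar).comp (algebraMap ↥(purb_LY 3 lyn_muQ N) (LaurentSeries ℚ))).codRestrict
    (lyi2_LBar N) (hzf2_coeffEmb_mem N)

theorem hzf2_coe_iota (x : ↥(purb_LY 3 lyn_muQ N)) :
    ((hzf2_iota N x : ↥(lyi2_LBar N)) : LaurentSeries Qbar) =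
      coeffEmb Qbar (x : LaurentSeries ℚ) := rfl

/-- the `F_Y`-algebra structure of `lyi2_LBar N` (NOT an instance). -/
@[reducible] def hzf2_algebra : Algebra ↥(purb_LY 3 lyn_muQ N) ↥(lyi2_LBar N) :=
  (hzf2_iota N).toAlgebra

theorem hzf2_algebraMap_mu :
    letI := hzf2_algebra N
    algebraMap ↥(purb_LY 3 lyn_muQ N) ↥(lyi2_LBar N)
      (algebraMap ↥(purb_KY lyn_muQ) ↥(purb_LY 3 lyn_muQ N) (purb_hK lyn_muQ)) = lyi2_mu N := by
  letI := hzf2_algebra N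
  apply Subtype.ext
  show coeffEmb Qbar lyn_muQ = lyi2_mus Qbar
  exact lyi2_coeffEmb_mu

theorem hzf2_isCoordinate :
    letI := hzf2_algebra N
    IsCoordinate Qbar ↥(lyi2_LBar N)
      (algebraMap ↥(purb_LY 3 lyn_muQ N) ↥(lyi2_LBar N)
        (algebraMap ↥(purb_KY lyn_muQ) ↥(purb_LY 3 lyn_muQ N) (purb_hK lyn_muQ))) := by
  letI := hzf2_algebra N
  rw [hzf2_algebraMap_mu]
  exact lyi2_isCoordinate N

theorem hzf2_eval_c2 (a : Qbar) :
    (((lyn_c2.map (Int.castRingHom ℚ)).map (algebraMap ℚ Qbar))).eval a = a ^ 3 - 27 := by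
  simp [lyn_c2]

theorem hzf2_hA :
    letI := hzf2_algebra N
    ∀ P : Place Qbar ↥(lyi2_LBar N), ∀ a : Qbar,
      (((lyn_c2.map (Int.castRingHom ℚ)).map (algebraMap ℚ Qbar))).eval a ≠ 0 →
      0 < P.ord (algebraMap ↥(purb_LY 3 lyn_muQ N) ↥(lyi2_LBar N)
        (algebraMap ↥(purb_KY lyn_muQ) ↥(purb_LY 3 lyn_muQ N) (purb_hK lyn_muQ))
          - algebraMap Qbar ↥(lyi2_LBar N) a) →
      P.ord (algebraMap ↥(purb_LY 3 lyn_muQ N) ↥(lyi2_LBar N)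
        (algebraMap ↥(purb_KY lyn_muQ) ↥(purb_LY 3 lyn_muQ N) (purb_hK lyn_muQ))
          - algebraMap Qbar ↥(lyi2_LBar N) a) = 1 := by
  letI := hzf2_algebra N
  intro P a ha hpos
  rw [hzf2_algebraMap_mu] at hpos ⊢
  rw [hzf2_eval_c2] at ha
  exact lyh2_ord_eq_one_levelY N P a (fun h => ha (by rw [h, sub_self])) hpos

end Iota


/-! ### the instance `ℓ = 2` -/

section Mu

variable (N : ℕ) [NeZero N]

theorem hzf2_c2_ne_zero : lyn_c2 ≠ 0 := by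
  intro h
  have := congrArg (fun p : ℤ[X] => p.coeff 3) h
  simp [lyn_c2] at this

/-- **(H) for `ℓ = 2`**: Hesse coordinate `μ`, twist `q ↦ q³`, cusp polynomial `X³ - 27`. -/
theorem hzf2_HH_mu : puri_HH 2 3 lyn_muQ lyn_c2 N := by
  haveI : FiniteDimensional ↥(purb_KY lyn_muQ) ↥(purb_LY 3 lyn_muQ N) :=
    purf_finiteDimensional_muQ N lyn_isUnit_three_rat
  letI := hzf2_algebra N
  exact hzf2_HH 2 3 lyn_c2 N lyn_transcendental_muQ hzf2_c2_ne_zero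
    (Lbar := ↥(lyi2_LBar N)) (hzf2_isCoordinate N) (hzf2_hA N)

end Mu

end Fermat.Agent.S18x
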