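/-
S18x/HorizFinalY (helper81; row N5/G9, prefix `hzf_`): `(hH)` for the `λ`-line level-`Y` objects
(`ℓ` any prime, `e = 2`, `h = purb_X3Q`, `c = X² - 64`): `puri_HH ℓ 2 purb_X3Q purb_c3 N`,
unconditionally up to `[L_Y : K_Y] < ∞`.  Inputs: `hzf_puri_HH` (HorizFinal3), helper72's
`lyi_` package (`L̄_Y`, `lyi_isCoordinate`, `lyi_coeffEmb_mem`, `lyi_coeffEmb_X3`) and helper33's
`lyh_ord_eq_one_levelY`.
-/
import Mathlib
import Fermat.Agent.S18x.HorizFinal3
import Fermat.Agent.S18x.LevelYHorizInst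
import Fermat.Agent.S18x.LyhInstCoord
import Fermat.Agent.S18x.LevelYInst

set_option autoImplicit false
set_option linter.style.haveILetI false
set_option linter.unusedSectionVars false

namespace Fermat.Agent.S18x

open ModularCurve Fermat.Agent.S28x Polynomial AlgebraicCurve IntermediateField
  Fermat.Agent.S24x

noncomputable section

local notation "Qbar" => AlgebraicClosure ℚ

variable (N : ℕ) [NeZero N]

/-- the base change `L_Y → L̄_Y` (coefficientwise `ℚ → Q̄`). -/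
def hzf_toLBar : ↥(purb_LY 2 purb_X3Q N) →+* ↥(lyi_LBar N) where
  toFun x := ⟨coeffEmb Qbar (x : LaurentSeries ℚ), lyi_coeffEmb_mem N _ x.2⟩
  map_one' := Subtype.ext (map_one (coeffEmb Qbar))
  map_mul' _ _ := Subtype.ext (map_mul (coeffEmb Qbar) _ _)
  map_zero' := Subtype.ext (map_zero (coeffEmb Qbar))
  map_add' _ _ := Subtype.ext (map_add (coeffEmb Qbar) _ _)

theorem hzf_toLBar_coe (x : ↥(purb_LY 2 purb_X3Q N)) :
    ((hzf_toLBar N x : ↥(lyi_LBar N)) : LaurentSeries Qbar) =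
      coeffEmb Qbar (x : LaurentSeries ℚ) := rfl

/-- the `L_Y`-algebra structure of `L̄_Y` (NOT an instance). -/
@[reducible] def hzf_algebraLBar : Algebra ↥(purb_LY 2 purb_X3Q N) ↥(lyi_LBar N) :=
  (hzf_toLBar N).toAlgebra

theorem hzf_toLBar_X3 :
    hzf_toLBar N (algebraMap ↥(purb_KY purb_X3Q) ↥(purb_LY 2 purb_X3Q N) (purb_hK purb_X3Q)) =
      lyi_X3 N := by
  apply Subtype.ext
  rw [hzf_toLBar_coe]
  exact lyi_coeffEmb_X3

theorem hzf_eval_c3 (a : Qbar) :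
    ((hzf_cQ purb_c3).map (algebraMap ℚ Qbar)).eval a = a ^ 2 - 64 := by
  simp [hzf_cQ, purb_c3]

set_option maxHeartbeats 1000000 in
set_option synthInstance.maxHeartbeats 400000 in
/-- **(hH) for the `λ`-line level-`Y` objects**, every prime `ℓ`. -/
theorem hzf_puri_HH_X3 (ℓ : ℕ) [Fact ℓ.Prime]
    [FiniteDimensional ↥(purb_KY purb_X3Q) ↥(purb_LY 2 purb_X3Q N)] :
    puri_HH ℓ 2 purb_X3Q purb_c3 N := by
  letI := hzf_algebraLBar N
  haveI : IsScalarTower ℚ ↥(purb_LY 2 purb_X3Q N) ↥(lyi_LBar N) :=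
    IsScalarTower.of_algebraMap_eq' (RingHom.ext_rat _ _)
  haveI : IsScalarTower ℚ Qbar ↥(lyi_LBar N) :=
    IsScalarTower.of_algebraMap_eq' (RingHom.ext_rat _ _)
  have hc3 : purb_c3 ≠ 0 := by
    intro h0
    have := congrArg (fun p : Polynomial ℤ => p.coeff 2) h0
    simp [purb_c3] at this
  refine hzf_puri_HH ℓ 2 purb_c3 N lyn_transcendental_X3Q hc3 (Lbar := ↥(lyi_LBar N)) ?_ ?_
  · show IsCoordinate Qbar ↥(lyi_LBar N) (hzf_toLBar N
      (algebraMap ↥(purb_KY purb_X3Q) ↥(purb_LY 2 purb_X3Q N) (purb_hK purb_X3Q)))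
    rw [hzf_toLBar_X3]
    exact lyi_isCoordinate N
  · intro P a ha hpos
    rw [hzf_eval_c3] at ha
    have ha' : a ^ 2 ≠ 64 := fun h => ha (by rw [h]; ring)
    have hX : algebraMap ↥(purb_LY 2 purb_X3Q N) ↥(lyi_LBar N)
        (algebraMap ↥(purb_KY purb_X3Q) ↥(purb_LY 2 purb_X3Q N) (purb_hK purb_X3Q)) =
        lyi_X3 N := hzf_toLBar_X3 N
    rw [hX] at hpos ⊢
    exact lyh_ord_eq_one_levelY N P a ha' hpos

end

end Fermat.Agent.S18x
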