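import Mathlib
import Fermat.Agent.S18x.HorizAbs39
import Fermat.Agent.S18x.PurInst

/-!
# S18x / N5 G9 (helper39, insurance twin; prefix `hzg39_`): `(H) = puri_HH`, generic form

For the level-`Y` objects of `LevelYDefs` (`K = ℚ(h)`, `L = F_N(q^e)·ℚ(h)`,
`B₀ = ℤ_(ℓ)[h, 1/c(h)]`, `R` the integral closure of `B₀` in `L`) and ANY function field
`Lbar ⊇ L` over `Q̄` in which `h` is a coordinate, the place-form unramifiedness statement

  (A)  `c(a) ≠ 0 → ord_P (h - a) > 0 → ord_P (h - a) = 1`   (all places `P` of `Lbar / Q̄`, `a ∈ Q̄`)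

implies hypothesis `(H) = puri_HH ℓ e h c N` of global purity (`PurInst`).

Route: `Ah = ℚ[h, 1/c(h)] = B₀[1/ℓ]` (`hzf_A`, `hzf_isLocalization_away`) is a PID
(`hzf_isPrincipalIdealRing`), its closed fibres in the integral closure are reduced (`hzf_hred`
from (A)), then `purx_hH_fin_of_dvd_pow_pid`.
-/

set_option autoImplicit false
set_option linter.style.haveILetI false
set_option linter.unusedSectionVars false
set_option synthInstance.maxHeartbeats 400000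
set_option maxHeartbeats 1000000

noncomputable section

namespace Fermat.Agent.S18x

open Polynomial AlgebraicCurve Fermat.Agent.S24x Fermat.Agent.S28x

local notation "Qbar" => AlgebraicClosure ℚ

section Gen

variable (ℓ e : ℕ) [NeZero e] (h : LaurentSeries ℚ) (c : Polynomial ℤ) (N : ℕ) [NeZero N]

/-- the cusp polynomial with rational coefficients. -/
def hzg39_cQ : ℚ[X] := c.map (Int.castRingHom ℚ)

theorem hzg39_cQ_ne_zero (hc : c ≠ 0) : hzg39_cQ c ≠ 0 := by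
  rw [hzg39_cQ, Ne, Polynomial.map_eq_zero_iff]
  · exact hc
  · exact Int.cast_injective

theorem hzg39_aeval_cQ : aeval (purb_hK h) (hzg39_cQ c) = purb_cK h c := by
  rw [hzg39_cQ, purb_cK, ← algebraMap_int_eq, aeval_map_algebraMap]

/-- `Transcendental ℚ h` transported to `ℚ(h)`. -/
theorem hzg39_transcendental_hK {h : LaurentSeries ℚ} (htr : Transcendental ℚ h) :
    Transcendental ℚ (purb_hK h) := by
  rw [transcendental_iff] at htr ⊢
  intro p hp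
  apply htr p
  have := congrArg (fun z : ↥(purb_KY h) => (z : LaurentSeries ℚ)) hp
  simp only [ZeroMemClass.coe_zero] at this
  rw [← this]
  exact (puri_coe_aeval h p).symm

/-- `B₀ ⊆ Ah`. -/
theorem hzg39_B0_le : purb_B0 ℓ h c ≤ hzf_A (purb_hK h) (hzg39_cQ c) := by
  rw [purb_B0]
  refine Subring.closure_le.mpr ?_
  rintro x (⟨z, rfl⟩ | hx)
  · exact hzf_algebraMap_mem _ _ _
  · rcases hx with rfl | hx
    · exact hzf_t_mem _ _
    · have hx' : x = (purb_cK h c)⁻¹ := hx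
      rw [hx', ← hzg39_aeval_cQ]
      exact hzf_inv_mem _ _

theorem hzg39_natCast_mem_B0 : ((ℓ : ℕ) : ↥(purb_KY h)) ∈ purb_B0 ℓ h c :=
  natCast_mem _ ℓ

/-- every rational number becomes `ℓ`-integral after multiplication by a power of `ℓ`. -/
theorem hzg39_rat_mul_pow_mem [Fact ℓ.Prime] (r : ℚ) :
    ∃ n : ℕ, r * (ℓ : ℚ) ^ n ∈ GaloisRep.ratLocalizedAt ℓ := by
  have hℓ : ℓ.Prime := Fact.out
  obtain ⟨n, m, hm, hden⟩ := Nat.exists_eq_pow_mul_and_not_dvd r.den_ne_zero ℓ hℓ.ne_one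
  refine ⟨n, ?_⟩
  have hℓ0 : (ℓ : ℚ) ≠ 0 := Nat.cast_ne_zero.mpr hℓ.ne_zero
  have hm0 : m ≠ 0 := by
    rintro rfl
    exact r.den_ne_zero (by rw [hden, mul_zero])
  have hmq : (m : ℚ) ≠ 0 := Nat.cast_ne_zero.mpr hm0
  have hr : r * (ℓ : ℚ) ^ n = ((r.num : ℤ) : ℚ) / (((m : ℕ) : ℤ) : ℚ) := by
    have h1 : r = (r.num : ℚ) / (r.den : ℚ) := (Rat.num_div_den r).symm
    have h2 : (r.den : ℚ) = (ℓ : ℚ) ^ n * (m : ℚ) := by
      rw [hden]; push_cast; ring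
    rw [Int.cast_natCast]
    rw [eq_div_iff hmq]
    calc r * (ℓ : ℚ) ^ n * (m : ℚ) = r * ((ℓ : ℚ) ^ n * (m : ℚ)) := by ring
      _ = r * (r.den : ℚ) := by rw [h2]
      _ = (r.num : ℚ) := Rat.mul_den_eq_num r
  show (r * (ℓ : ℚ) ^ n).den.Coprime ℓ
  rw [hr]
  have hdvd : ((((r.num : ℤ) : ℚ) / (((m : ℕ) : ℤ) : ℚ)).den : ℤ) ∣ ((m : ℕ) : ℤ) := by
    have h0 := Rat.den_dvd r.num (m : ℤ)
    rw [Rat.divInt_eq_div] at h0
    exact h0
  have hdvd' : (((r.num : ℤ) : ℚ) / (((m : ℕ) : ℤ) : ℚ)).den ∣ m :=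
    Int.natCast_dvd_natCast.mp hdvd
  exact Nat.Coprime.coprime_dvd_left hdvd' ((Nat.Prime.coprime_iff_not_dvd hℓ).mpr hm).symm

/-- `Ah = B₀[1/ℓ]`, elementwise. -/
theorem hzg39_hsurj [Fact ℓ.Prime] (z : ↥(purb_KY h))
    (hz : z ∈ hzf_A (purb_hK h) (hzg39_cQ c)) :
    ∃ n : ℕ, z * ((ℓ : ℕ) : ↥(purb_KY h)) ^ n ∈ purb_B0 ℓ h c := by
  have hℓmem := hzg39_natCast_mem_B0 ℓ h c
  unfold hzf_A at hz
  induction hz using Subring.closure_induction with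
  | mem x hx =>
    rcases hx with ⟨r, rfl⟩ | hx
    · obtain ⟨n, hn⟩ := hzg39_rat_mul_pow_mem ℓ r
      refine ⟨n, ?_⟩
      have h1 := purb_ZL_mem_B0 ℓ h c ⟨r * (ℓ : ℚ) ^ n, hn⟩
      have h2 : algebraMap ℚ ↥(purb_KY h) (r * (ℓ : ℚ) ^ n) =
          algebraMap ℚ ↥(purb_KY h) r * ((ℓ : ℕ) : ↥(purb_KY h)) ^ n := by
        rw [map_mul, map_pow, map_natCast]
      rw [← h2]
      exact h1
    · rcases hx with rfl | hx
      · exact ⟨0, by rw [pow_zero, mul_one]; exact purb_hK_mem_B0 ℓ h c⟩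
      · have hx' : x = (aeval (purb_hK h) (hzg39_cQ c))⁻¹ := hx
        refine ⟨0, ?_⟩
        rw [pow_zero, mul_one, hx', hzg39_aeval_cQ]
        exact purb_cK_inv_mem_B0 ℓ h c
  | zero => exact ⟨0, by rw [zero_mul]; exact Subring.zero_mem _⟩
  | one => exact ⟨0, by rw [pow_zero, mul_one]; exact Subring.one_mem _⟩
  | add x y _ _ hx hy =>
    obtain ⟨n, hn⟩ := hx
    obtain ⟨m, hm⟩ := hy
    refine ⟨n + m, ?_⟩
    have h1 : (x + y) * ((ℓ : ℕ) : ↥(purb_KY h)) ^ (n + m) =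
        x * ((ℓ : ℕ) : ↥(purb_KY h)) ^ n * ((ℓ : ℕ) : ↥(purb_KY h)) ^ m +
          y * ((ℓ : ℕ) : ↥(purb_KY h)) ^ m * ((ℓ : ℕ) : ↥(purb_KY h)) ^ n := by
      rw [pow_add]; ring
    rw [h1]
    exact Subring.add_mem _ (Subring.mul_mem _ hn (Subring.pow_mem _ hℓmem m))
      (Subring.mul_mem _ hm (Subring.pow_mem _ hℓmem n))
  | neg x _ hx =>
    obtain ⟨n, hn⟩ := hx
    exact ⟨n, by rw [neg_mul]; exact Subring.neg_mem _ hn⟩
  | mul x y _ _ hx hy =>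
    obtain ⟨n, hn⟩ := hx
    obtain ⟨m, hm⟩ := hy
    refine ⟨n + m, ?_⟩
    have h1 : x * y * ((ℓ : ℕ) : ↥(purb_KY h)) ^ (n + m) =
        (x * ((ℓ : ℕ) : ↥(purb_KY h)) ^ n) * (y * ((ℓ : ℕ) : ↥(purb_KY h)) ^ m) := by
      rw [pow_add]; ring
    rw [h1]
    exact Subring.mul_mem _ hn hm

instance hzg39_algebraic_Qbar : Algebra.IsAlgebraic ℚ Qbar := by
  have h0 : @Algebra.IsAlgebraic ℚ Qbar _ _ (AlgebraicClosure.instAlgebra (k := ℚ)) :=
    inferInstance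
  convert h0
  exact Subsingleton.elim _ _

variable {h}

/-- **`(H)` from the place-form statement (A), generic in `(ℓ, e, h, c, N)` and in the geometric
function field `Lbar`.** -/
theorem hzg39_HH [Fact ℓ.Prime] (htr : Transcendental ℚ h) (hc : c ≠ 0)
    [FiniteDimensional ↥(purb_KY h) ↥(purb_LY e h N)]
    {Lbar : Type*} [Field Lbar] [CharZero Lbar] [Algebra Qbar Lbar]
    [Algebra ↥(purb_LY e h N) Lbar]
    (hx : IsCoordinate Qbar Lbar (algebraMap ↥(purb_LY e h N) Lbar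
      (algebraMap ↥(purb_KY h) ↥(purb_LY e h N) (purb_hK h))))
    (hA : ∀ P : Place Qbar Lbar, ∀ a : Qbar,
      ((hzg39_cQ c).map (algebraMap ℚ Qbar)).eval a ≠ 0 →
      0 < P.ord (algebraMap ↥(purb_LY e h N) Lbar
        (algebraMap ↥(purb_KY h) ↥(purb_LY e h N) (purb_hK h)) - algebraMap Qbar Lbar a) →
        P.ord (algebraMap ↥(purb_LY e h N) Lbar
          (algebraMap ↥(purb_KY h) ↥(purb_LY e h N) (purb_hK h)) - algebraMap Qbar Lbar a) = 1) :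
    puri_HH ℓ e h c N := by
  have hℓ : ℓ.Prime := Fact.out
  have htK : Transcendental ℚ (purb_hK h) := hzg39_transcendental_hK htr
  have hcQ : hzg39_cQ c ≠ 0 := hzg39_cQ_ne_zero c hc
  haveI := puri_B0_isIntegrallyClosed ℓ c htr hc
  haveI := puri_B0_isFractionRing ℓ h c
  have hcoe : (((ℓ : ℕ) : ↥(purb_B0 ℓ h c)) : ↥(purb_KY h)) = ((ℓ : ℕ) : ↥(purb_KY h)) :=
    Subring.coe_natCast _ _
  have hp : ((((ℓ : ℕ) : ↥(purb_B0 ℓ h c)) : ↥(purb_KY h)))⁻¹ ∈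
      hzf_A (purb_hK h) (hzg39_cQ c) := by
    rw [hcoe]
    have h1 : (((ℓ : ℕ) : ↥(purb_KY h)))⁻¹ = algebraMap ℚ ↥(purb_KY h) ((ℓ : ℚ)⁻¹) := by
      rw [map_inv₀, map_natCast]
    rw [h1]
    exact hzf_algebraMap_mem _ _ _
  have hp0 : (((ℓ : ℕ) : ↥(purb_B0 ℓ h c)) : ↥(purb_KY h)) ≠ 0 := by
    rw [hcoe]
    exact Nat.cast_ne_zero.mpr hℓ.ne_zero
  have hsurj : ∀ z ∈ hzf_A (purb_hK h) (hzg39_cQ c), ∃ n : ℕ,
      z * (((ℓ : ℕ) : ↥(purb_B0 ℓ h c)) : ↥(purb_KY h)) ^ n ∈ purb_B0 ℓ h c := by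
    intro z hz
    rw [hcoe]
    exact hzg39_hsurj ℓ h c z hz
  intro q hq hlq
  exact hzg39_HH_abs (k := ℚ) (K := ↥(purb_KY h)) (L := ↥(purb_LY e h N)) (Kbar := Qbar)
    (Lbar := Lbar) (t := purb_hK h) (c := hzg39_cQ c) (purb_B0 ℓ h c)
    (hzg39_B0_le ℓ h c) (ℓ : ↥(purb_B0 ℓ h c)) hp hp0 hsurj htK hcQ hx hA q hq hlq

end Gen

end Fermat.Agent.S18x
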