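/-
S18x/HorizGen71 (helper71; row N5/G9 = (H), GENERIC final theorem, insurance twin; prefix `hzg71_`).

From the geometric input (A) [place form] + `IsCoordinate` for a function field `Lbar / Kbar`
receiving the level-`Y` field `purb_LY e h N` through a ring hom `emb`, to hypothesis `(H)`
= `puri_HH ℓ e h c N` of global purity at level `Y`:

* `hzg71_exists_pow_mem_ZL` : every rational becomes `ℓ`-integral after multiplication by `ℓ ^ n`;
* `hzg71_B0_le`, `hzg71_exists_pow_mem_B0`, `hzg71_isLocalization_away` :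
  `Ah = ℚ[h, 1/c(h)] = B₀[1/ℓ]`, `B₀ = ℤ_(ℓ)[h, 1/c(h)]`;
* `hzg71_puri_HH` : the generic theorem, via `purx_hH_fin_of_dvd_pow_pid` (helper18) and
  `hzf_hred` (helper81).
-/
import Mathlib
import Fermat.Agent.S18x.PurInst
import Fermat.Agent.S18x.PurxHorizC
import Fermat.Agent.S18x.HorizBase2

set_option autoImplicit false
set_option linter.style.haveILetI false
set_option linter.unusedSectionVars false
set_option synthInstance.maxHeartbeats 400000
set_option maxHeartbeats 1000000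

noncomputable section

namespace Fermat.Agent.S18x

open Polynomial AlgebraicCurve Fermat.Agent.S24x Fermat.Agent.S28x

section Rat

/-- every rational number becomes `ℓ`-integral after multiplication by a power of `ℓ`. -/
theorem hzg71_exists_pow_mem_ZL (ℓ : ℕ) [hℓ : Fact ℓ.Prime] (r : ℚ) :
    ∃ n : ℕ, r * (ℓ : ℚ) ^ n ∈ GaloisRep.ratLocalizedAt ℓ := by
  obtain ⟨k, m, hm, hden⟩ :=
    Nat.exists_eq_pow_mul_and_not_dvd r.den_nz ℓ hℓ.out.ne_one
  refine ⟨k, ?_⟩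
  have hm0 : m ≠ 0 := by
    rintro rfl
    exact hm (dvd_zero _)
  have hℓ0 : (ℓ : ℚ) ≠ 0 := Nat.cast_ne_zero.mpr hℓ.out.ne_zero
  have hr : r * (ℓ : ℚ) ^ k = (r.num : ℚ) * ((m : ℚ))⁻¹ := by
    have hmQ : (m : ℚ) ≠ 0 := Nat.cast_ne_zero.mpr hm0
    rw [eq_mul_inv_iff_mul_eq₀ hmQ, mul_assoc]
    have h2 : (ℓ : ℚ) ^ k * (m : ℚ) = (r.den : ℚ) := by
      rw [hden]; push_cast; rfl
    rw [h2, Rat.mul_den_eq_num]
  rw [hr]
  refine Subring.mul_mem _ (intCast_mem _ _) ?_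
  show ((m : ℚ)⁻¹).den.Coprime ℓ
  rw [Rat.inv_natCast_den, if_neg hm0]
  exact (Nat.Coprime.symm ((Nat.Prime.coprime_iff_not_dvd hℓ.out).mpr hm))

end Rat

section Ring

variable (ℓ : ℕ) [Fact ℓ.Prime] (h : LaurentSeries ℚ) (c : Polynomial ℤ)

/-- the cusp polynomial with rational coefficients. -/
def hzg71_cQ : ℚ[X] := c.map (Int.castRingHom ℚ)

theorem hzg71_cQ_ne_zero (hc : c ≠ 0) : hzg71_cQ c ≠ 0 := by
  rw [hzg71_cQ, Ne, Polynomial.map_eq_zero_iff (RingHom.injective_int (Int.castRingHom ℚ))]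
  exact hc

theorem hzg71_aeval_cQ : aeval (purb_hK h) (hzg71_cQ c) = purb_cK h c := by
  rw [hzg71_cQ, purb_cK, ← algebraMap_int_eq, aeval_map_algebraMap]

/-- `B₀ = ℤ_(ℓ)[h, 1/c(h)] ⊆ Ah = ℚ[h, 1/c(h)]`. -/
theorem hzg71_B0_le : purb_B0 ℓ h c ≤ hzf_A (purb_hK h) (hzg71_cQ c) := by
  unfold purb_B0
  rw [Subring.closure_le]
  rintro x (⟨z, rfl⟩ | hx | hx)
  · exact hzf_algebraMap_mem _ _ _
  · rw [Set.mem_singleton_iff.mp hx] at *
    exact hzf_t_mem _ _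
  · rw [Set.mem_singleton_iff.mp hx, ← hzg71_aeval_cQ]
    exact hzf_inv_mem _ _

/-- every element of `Ah` lands in `B₀` after multiplication by a power of `ℓ`. -/
theorem hzg71_exists_pow_mem_B0 (z : ↥(purb_KY h)) (hz : z ∈ hzf_A (purb_hK h) (hzg71_cQ c)) :
    ∃ n : ℕ, z * (ℓ : ↥(purb_KY h)) ^ n ∈ purb_B0 ℓ h c := by
  have hℓmem : (ℓ : ↥(purb_KY h)) ∈ purb_B0 ℓ h c := natCast_mem _ _
  unfold hzf_A at hz
  induction hz using Subring.closure_induction with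
  | mem x hx =>
    rcases hx with ⟨r, rfl⟩ | hx | hx
    · obtain ⟨n, hn⟩ := hzg71_exists_pow_mem_ZL ℓ r
      refine ⟨n, ?_⟩
      have := purb_ZL_mem_B0 ℓ h c ⟨_, hn⟩
      simpa using this
    · refine ⟨0, ?_⟩
      rw [Set.mem_singleton_iff.mp hx, pow_zero, mul_one]
      exact purb_hK_mem_B0 ℓ h c
    · refine ⟨0, ?_⟩
      rw [Set.mem_singleton_iff.mp hx, pow_zero, mul_one, hzg71_aeval_cQ]
      exact purb_cK_inv_mem_B0 ℓ h c
  | zero => exact ⟨0, by simp⟩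
  | one => exact ⟨0, by simp⟩
  | add x y _ _ hx hy =>
    obtain ⟨n, hn⟩ := hx
    obtain ⟨m, hm⟩ := hy
    refine ⟨n + m, ?_⟩
    have : (x + y) * (ℓ : ↥(purb_KY h)) ^ (n + m) =
        x * (ℓ : ↥(purb_KY h)) ^ n * (ℓ : ↥(purb_KY h)) ^ m +
          y * (ℓ : ↥(purb_KY h)) ^ m * (ℓ : ↥(purb_KY h)) ^ n := by
      rw [pow_add]; ring
    rw [this]
    exact Subring.add_mem _ (Subring.mul_mem _ hn (Subring.pow_mem _ hℓmem m))
      (Subring.mul_mem _ hm (Subring.pow_mem _ hℓmem n))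
  | neg x _ hx =>
    obtain ⟨n, hn⟩ := hx
    refine ⟨n, ?_⟩
    rw [neg_mul]
    exact Subring.neg_mem _ hn
  | mul x y _ _ hx hy =>
    obtain ⟨n, hn⟩ := hx
    obtain ⟨m, hm⟩ := hy
    refine ⟨n + m, ?_⟩
    have : (x * y) * (ℓ : ↥(purb_KY h)) ^ (n + m) =
        (x * (ℓ : ↥(purb_KY h)) ^ n) * (y * (ℓ : ↥(purb_KY h)) ^ m) := by
      rw [pow_add]; ring
    rw [this]
    exact Subring.mul_mem _ hn hm

/-- the `B₀`-algebra structure of `Ah` (inclusion; NOT an instance). -/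
@[reducible] def hzg71_algebraB0Ah :
    Algebra ↥(purb_B0 ℓ h c) ↥(hzf_A (purb_hK h) (hzg71_cQ c)) :=
  (Subring.inclusion (hzg71_B0_le ℓ h c)).toAlgebra

/-- `Ah = B₀[1/ℓ]`. -/
theorem hzg71_isLocalization_away :
    letI := hzg71_algebraB0Ah ℓ h c
    IsLocalization.Away (ℓ : ↥(purb_B0 ℓ h c)) ↥(hzf_A (purb_hK h) (hzg71_cQ c)) := by
  have hℓ0 : (ℓ : ↥(purb_KY h)) ≠ 0 :=
    Nat.cast_ne_zero.mpr (Fact.out : ℓ.Prime).ne_zero
  have hcoe : (((ℓ : ↥(purb_B0 ℓ h c)) : ↥(purb_B0 ℓ h c)) : ↥(purb_KY h)) =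
      (ℓ : ↥(purb_KY h)) := by
    simp
  refine hzf_isLocalization_away (purb_B0 ℓ h c) (hzf_A (purb_hK h) (hzg71_cQ c))
    (hzg71_B0_le ℓ h c) (ℓ : ↥(purb_B0 ℓ h c)) ?_ ?_ ?_
  · rw [hcoe]
    have h1 : ((ℓ : ↥(purb_KY h)))⁻¹ = algebraMap ℚ ↥(purb_KY h) ((ℓ : ℚ)⁻¹) := by
      rw [map_inv₀, map_natCast]
    rw [h1]
    exact hzf_algebraMap_mem _ _ _
  · rw [hcoe]; exact hℓ0
  · intro z hz
    rw [hcoe]
    exact hzg71_exists_pow_mem_B0 ℓ h c z hz

end Ring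

section Main

variable (ℓ e : ℕ) [Fact ℓ.Prime] [NeZero e] (h : LaurentSeries ℚ) (c : Polynomial ℤ)
  (N : ℕ) [NeZero N]

theorem hzg71_transcendental_hK {h : LaurentSeries ℚ} (htr : Transcendental ℚ h) :
    Transcendental ℚ (purb_hK h) := by
  rw [transcendental_iff] at htr ⊢
  intro p hp
  apply htr p
  have := congrArg (fun z : ↥(purb_KY h) => (z : LaurentSeries ℚ)) hp
  simp only [ZeroMemClass.coe_zero] at this
  rw [← this]
  exact (puri_coe_aeval h p).symm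


end Main

section Towers

variable {K L : Type*} [CommRing K] [CommRing L] [Algebra K L] (B A : Subring K) (hBA : B ≤ A)

theorem hzg71_tower_gen1 :
    letI : Algebra ↥B ↥A := (Subring.inclusion hBA).toAlgebra
    IsScalarTower ↥B ↥A K := by
  letI : Algebra ↥B ↥A := (Subring.inclusion hBA).toAlgebra
  exact IsScalarTower.of_algebraMap_eq fun _ => rfl

theorem hzg71_tower_gen3 :
    letI : Algebra ↥B ↥A := (Subring.inclusion hBA).toAlgebra
    letI : Algebra ↥B L := ((algebraMap K L).comp B.subtype).toAlgebra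
    letI : Algebra ↥A L := ((algebraMap K L).comp A.subtype).toAlgebra
    IsScalarTower ↥B ↥A L := by
  letI : Algebra ↥B ↥A := (Subring.inclusion hBA).toAlgebra
  letI : Algebra ↥B L := ((algebraMap K L).comp B.subtype).toAlgebra
  letI : Algebra ↥A L := ((algebraMap K L).comp A.subtype).toAlgebra
  exact IsScalarTower.of_algebraMap_eq fun _ => rfl

end Towers

section Main2

variable (ℓ e : ℕ) [Fact ℓ.Prime] [NeZero e] (h : LaurentSeries ℚ) (c : Polynomial ℤ)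
  (N : ℕ) [NeZero N]

theorem hzg71_tower1 :
    letI := hzg71_algebraB0Ah ℓ h c
    IsScalarTower ↥(purb_B0 ℓ h c) ↥(hzf_A (purb_hK h) (hzg71_cQ c)) ↥(purb_KY h) :=
  hzg71_tower_gen1 (purb_B0 ℓ h c) (hzf_A (purb_hK h) (hzg71_cQ c)) (hzg71_B0_le ℓ h c)

theorem hzg71_tower3 :
    letI := hzg71_algebraB0Ah ℓ h c
    letI := hzf_algebraL (L := ↥(purb_LY e h N)) (purb_hK h) (hzg71_cQ c)
    IsScalarTower ↥(purb_B0 ℓ h c) ↥(hzf_A (purb_hK h) (hzg71_cQ c)) ↥(purb_LY e h N) :=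
  hzg71_tower_gen3 (L := ↥(purb_LY e h N)) (purb_B0 ℓ h c) (hzf_A (purb_hK h) (hzg71_cQ c))
    (hzg71_B0_le ℓ h c)

/-- **(H), generic form.**  `Lbar / Kbar` a function field over an algebraic closure `Kbar` of `ℚ`
receiving the level-`Y` field `L_Y = purb_LY e h N` through a ring hom `emb`, such that the image
of `h` is a coordinate all of whose values `a` with `c(a) ≠ 0` are taken with multiplicity one.
Then hypothesis `(H)` of global purity at level `Y` holds. -/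
theorem hzg71_puri_HH {h : LaurentSeries ℚ} (htr : Transcendental ℚ h) (hc : c ≠ 0)
    [FiniteDimensional ↥(purb_KY h) ↥(purb_LY e h N)]
    {Kbar Lbar : Type*} [Field Kbar] [IsAlgClosed Kbar] [Algebra ℚ Kbar]
    [Algebra.IsAlgebraic ℚ Kbar] [Field Lbar] [Algebra Kbar Lbar]
    (emb : ↥(purb_LY e h N) →+* Lbar)
    (hx : IsCoordinate Kbar Lbar
      (emb (algebraMap ↥(purb_KY h) ↥(purb_LY e h N) (purb_hK h))))
    (hA : ∀ P : Place Kbar Lbar, ∀ a : Kbar, (c.map (Int.castRingHom Kbar)).eval a ≠ 0 →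
      0 < P.ord (emb (algebraMap ↥(purb_KY h) ↥(purb_LY e h N) (purb_hK h)) -
        algebraMap Kbar Lbar a) →
      P.ord (emb (algebraMap ↥(purb_KY h) ↥(purb_LY e h N) (purb_hK h)) -
        algebraMap Kbar Lbar a) = 1) :
    puri_HH ℓ e h c N := by
  have htK : Transcendental ℚ (purb_hK h) := hzg71_transcendental_hK htr
  have hcQ : hzg71_cQ c ≠ 0 := hzg71_cQ_ne_zero c hc
  haveI := puri_B0_isIntegrallyClosed ℓ c htr hc
  haveI := puri_B0_isFractionRing ℓ h c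
  haveI : Algebra.IsSeparable ↥(purb_KY h) ↥(purb_LY e h N) := Algebra.IsSeparable.of_integral _ _
  letI algLbar : Algebra ↥(purb_LY e h N) Lbar := emb.toAlgebra
  letI algQLbar : Algebra ℚ Lbar := ((algebraMap Kbar Lbar).comp (algebraMap ℚ Kbar)).toAlgebra
  haveI : IsScalarTower ℚ Kbar Lbar := IsScalarTower.of_algebraMap_eq fun _ => rfl
  haveI : IsScalarTower ℚ ↥(purb_LY e h N) Lbar := IsScalarTower.of_algebraMap_eq fun r =>
    RingHom.congr_fun (RingHom.ext_rat (algebraMap ℚ Lbar)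
      ((algebraMap ↥(purb_LY e h N) Lbar).comp (algebraMap ℚ ↥(purb_LY e h N)))) r
  letI := hzg71_algebraB0Ah ℓ h c
  haveI := hzg71_isLocalization_away ℓ h c
  haveI := hzf_isPrincipalIdealRing htK hcQ
  letI := hzf_algebraL (L := ↥(purb_LY e h N)) (purb_hK h) (hzg71_cQ c)
  haveI := hzg71_tower1 ℓ h c
  haveI : IsScalarTower ↥(hzf_A (purb_hK h) (hzg71_cQ c)) ↥(purb_KY h) ↥(purb_LY e h N) :=
    IsScalarTower.of_algebraMap_eq fun _ => rfl
  haveI := hzg71_tower3 ℓ e h c N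
  letI algQAh : Algebra ℚ ↥(hzf_A (purb_hK h) (hzg71_cQ c)) :=
    ((algebraMap ℚ ↥(purb_KY h)).codRestrict (hzf_A (purb_hK h) (hzg71_cQ c))
      (hzf_algebraMap_mem _ _)).toAlgebra
  have hchar : ∀ I : Ideal ↥(hzf_A (purb_hK h) (hzg71_cQ c)), I.IsMaximal →
      CharZero (↥(hzf_A (purb_hK h) (hzg71_cQ c)) ⧸ I) :=
    fun I hI => purx_charZero_quotient_of_algebraRat I hI
  have hA' : ∀ P : Place Kbar Lbar, ∀ a : Kbar,
      ((hzg71_cQ c).map (algebraMap ℚ Kbar)).eval a ≠ 0 →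
      0 < P.ord (algebraMap ↥(purb_LY e h N) Lbar
        (algebraMap ↥(purb_KY h) ↥(purb_LY e h N) (purb_hK h)) - algebraMap Kbar Lbar a) →
      P.ord (algebraMap ↥(purb_LY e h N) Lbar
        (algebraMap ↥(purb_KY h) ↥(purb_LY e h N) (purb_hK h)) - algebraMap Kbar Lbar a) = 1 := by
    intro P a ha hpos
    refine hA P a ?_ hpos
    have hcomp : (algebraMap ℚ Kbar).comp (Int.castRingHom ℚ) = Int.castRingHom Kbar :=
      RingHom.ext_int _ _
    rw [hzg71_cQ, Polynomial.map_map, hcomp] at ha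
    exact ha
  refine purx_hH_fin_of_dvd_pow_pid (R := ↥(purb_RY ℓ e h c N))
    (Ah := ↥(hzf_A (purb_hK h) (hzg71_cQ c)))
    (Rh := ↥(integralClosure ↥(hzf_A (purb_hK h) (hzg71_cQ c)) ↥(purb_LY e h N)))
    (ℓ : ↥(purb_B0 ℓ h c)) hchar ?_
  intro g hg x m hdvd
  exact hzf_hred (Kbar := Kbar) (Lbar := Lbar) htK hcQ hx hA' g hg x m hdvd

end Main2

end Fermat.Agent.S18x
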