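import Mathlib
import Fermat.Agent.S18x.HorizGen39
import Fermat.Agent.S18x.LyhInst2
import Fermat.Agent.S18x.LevelYHoriz2
import Fermat.Agent.S18x.LevelYInst
import Fermat.Agent.S18x.PuriFinite

/-!
# S18x / N5t G9 (helper39, insurance twin; prefix `hzg39_`): `(H)` for the Hesse instance

`hzg39_HH_mu ℓ M : puri_HH ℓ 3 lyn_muQ lyn_c2 M` for every prime `ℓ` and level `M`, from the
generic `hzg39_HH` and the place-form statement `lyh2_ord_eq_one_levelY` (helper18).
-/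

set_option autoImplicit false
set_option linter.style.haveILetI false
set_option linter.unusedSectionVars false
set_option synthInstance.maxHeartbeats 400000
set_option maxHeartbeats 1000000

noncomputable section

namespace Fermat.Agent.S18x

open Polynomial AlgebraicCurve ModularCurve Fermat.Agent.S24x Fermat.Agent.S28x

local notation "Qbar" => AlgebraicClosure ℚ

section Mu

variable (M : ℕ) [NeZero M]

theorem hzg39_muQ_eq : lyn_muQ = lyi2_mus ℚ := rfl

theorem hzg39_coeffEmb_mem_mu (x : LaurentSeries ℚ) (hx : x ∈ purb_LY 3 lyn_muQ M) :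
    coeffEmb Qbar x ∈ lyi2_LBar M :=
  lyi2_coeffEmb_mem M x hx

/-- the base change `F_Y → L̄_Y` (coefficientwise `ℚ → Q̄`), Hesse instance. -/
def hzg39_iotaMu : ↥(purb_LY 3 lyn_muQ M) →+* ↥(lyi2_LBar M) where
  toFun x := ⟨coeffEmb Qbar (x : LaurentSeries ℚ), hzg39_coeffEmb_mem_mu M _ x.2⟩
  map_one' := Subtype.ext (by
    show coeffEmb Qbar ((1 : ↥(purb_LY 3 lyn_muQ M)) : LaurentSeries ℚ) = _
    rw [OneMemClass.coe_one, map_one]; rfl)
  map_mul' x y := Subtype.ext (by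
    show coeffEmb Qbar ((x * y : ↥(purb_LY 3 lyn_muQ M)) : LaurentSeries ℚ) = _
    rw [MulMemClass.coe_mul, map_mul]; rfl)
  map_zero' := Subtype.ext (by
    show coeffEmb Qbar ((0 : ↥(purb_LY 3 lyn_muQ M)) : LaurentSeries ℚ) = _
    rw [ZeroMemClass.coe_zero, map_zero]; rfl)
  map_add' x y := Subtype.ext (by
    show coeffEmb Qbar ((x + y : ↥(purb_LY 3 lyn_muQ M)) : LaurentSeries ℚ) = _
    rw [AddMemClass.coe_add, map_add]; rfl)

/-- the `F_Y`-algebra structure of `L̄_Y` (NOT an instance), Hesse instance. -/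
@[reducible] def hzg39_algebraMu : Algebra ↥(purb_LY 3 lyn_muQ M) ↥(lyi2_LBar M) :=
  (hzg39_iotaMu M).toAlgebra

theorem hzg39_iotaMu_hK :
    hzg39_iotaMu M (algebraMap ↥(purb_KY lyn_muQ) ↥(purb_LY 3 lyn_muQ M) (purb_hK lyn_muQ)) =
      lyi2_mu M := by
  apply Subtype.ext
  show coeffEmb Qbar lyn_muQ = lyi2_mus Qbar
  rw [hzg39_muQ_eq]
  exact lyi2_coeffEmb_mu

theorem hzg39_eval_c2 (a : Qbar) :
    ((hzg39_cQ lyn_c2).map (algebraMap ℚ Qbar)).eval a = a ^ 3 - 27 := by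
  simp [hzg39_cQ, lyn_c2]

instance hzg39_charZero_LBar2 : CharZero ↥(lyi2_LBar M) :=
  charZero_of_injective_algebraMap (algebraMap Qbar ↥(lyi2_LBar M)).injective

/-- **`(H)` for the Hesse instance**, every prime `ℓ`, every level `M`. -/
theorem hzg39_HH_mu (ℓ : ℕ) [Fact ℓ.Prime] : puri_HH ℓ 3 lyn_muQ lyn_c2 M := by
  haveI : FiniteDimensional ↥(purb_KY lyn_muQ) ↥(purb_LY 3 lyn_muQ M) :=
    purf_finiteDimensional_muQ M lyn_isUnit_three_rat
  letI := hzg39_algebraMu M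
  have hc : lyn_c2 ≠ 0 := by
    intro h0
    have := congrArg (fun p : ℤ[X] => p.coeff 3) h0
    simp [lyn_c2, coeff_X_pow] at this
  have hcoord : algebraMap ↥(purb_LY 3 lyn_muQ M) ↥(lyi2_LBar M)
      (algebraMap ↥(purb_KY lyn_muQ) ↥(purb_LY 3 lyn_muQ M) (purb_hK lyn_muQ)) = lyi2_mu M :=
    hzg39_iotaMu_hK M
  refine hzg39_HH ℓ 3 lyn_c2 M lyn_transcendental_muQ hc (Lbar := ↥(lyi2_LBar M)) ?_ ?_
  · rw [hcoord]
    exact lyi2_isCoordinate M
  · intro P a ha hpos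
    rw [hcoord] at hpos ⊢
    rw [hzg39_eval_c2] at ha
    exact lyh2_ord_eq_one_levelY M P a (fun h0 => ha (by rw [h0, sub_self])) hpos

end Mu

end Fermat.Agent.S18x
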