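import Mathlib
import Fermat.Agent.S18x.HorizGen39
import Fermat.Agent.S18x.LyhInstCoord
import Fermat.Agent.S18x.LevelYHorizInst
import Fermat.Agent.S18x.LevelYInst
import Fermat.Agent.S18x.PuriFinite

/-!
# S18x / N5 G9 (helper39, insurance twin; prefix `hzg39_`): `(H)` for the `X₃` instance

`hzg39_HH_X3 ℓ M : puri_HH ℓ 2 purb_X3Q purb_c3 M` for every prime `ℓ` and level `M`, from the
generic `hzg39_HH` and the place-form statement `lyh_ord_eq_one_levelY` (helper33/helper72).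
-/

set_option autoImplicit false
set_option linter.style.haveILetI false
set_option linter.unusedSectionVars false
set_option synthInstance.maxHeartbeats 400000
set_option maxHeartbeats 1000000

noncomputable section

namespace Fermat.Agent.S18x

open Polynomial AlgebraicCurve ModularCurve Fermat.Agent.S24x Fermat.Agent.S28x

local notation "Qbar" => AlgebraicClosure ℚ

section X3

variable (M : ℕ) [NeZero M]

/-- the base change `F_Y → L̄_Y` (coefficientwise `ℚ → Q̄`). -/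
def hzg39_iotaX3 : ↥(purb_LY 2 purb_X3Q M) →+* ↥(lyi_LBar M) where
  toFun x := ⟨coeffEmb Qbar (x : LaurentSeries ℚ), lyi_coeffEmb_mem M _ x.2⟩
  map_one' := Subtype.ext (by
    show coeffEmb Qbar ((1 : ↥(purb_LY 2 purb_X3Q M)) : LaurentSeries ℚ) = _
    rw [OneMemClass.coe_one, map_one]; rfl)
  map_mul' x y := Subtype.ext (by
    show coeffEmb Qbar ((x * y : ↥(purb_LY 2 purb_X3Q M)) : LaurentSeries ℚ) = _
    rw [MulMemClass.coe_mul, map_mul]; rfl)
  map_zero' := Subtype.ext (by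
    show coeffEmb Qbar ((0 : ↥(purb_LY 2 purb_X3Q M)) : LaurentSeries ℚ) = _
    rw [ZeroMemClass.coe_zero, map_zero]; rfl)
  map_add' x y := Subtype.ext (by
    show coeffEmb Qbar ((x + y : ↥(purb_LY 2 purb_X3Q M)) : LaurentSeries ℚ) = _
    rw [AddMemClass.coe_add, map_add]; rfl)

/-- the `F_Y`-algebra structure of `L̄_Y` (NOT an instance). -/
@[reducible] def hzg39_algebraX3 : Algebra ↥(purb_LY 2 purb_X3Q M) ↥(lyi_LBar M) :=
  (hzg39_iotaX3 M).toAlgebra

theorem hzg39_iotaX3_hK :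
    hzg39_iotaX3 M (algebraMap ↥(purb_KY purb_X3Q) ↥(purb_LY 2 purb_X3Q M) (purb_hK purb_X3Q)) =
      lyi_X3 M := by
  apply Subtype.ext
  show coeffEmb Qbar purb_X3Q = lyi_X3s Qbar
  exact lyi_coeffEmb_X3

theorem hzg39_eval_c3 (a : Qbar) :
    ((hzg39_cQ purb_c3).map (algebraMap ℚ Qbar)).eval a = a ^ 2 - 64 := by
  simp [hzg39_cQ, purb_c3]

/-- **`(H)` for the `X₃` instance**, every prime `ℓ`, every level `M`. -/
theorem hzg39_HH_X3 (ℓ : ℕ) [Fact ℓ.Prime] : puri_HH ℓ 2 purb_X3Q purb_c3 M := by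
  haveI : FiniteDimensional ↥(purb_KY purb_X3Q) ↥(purb_LY 2 purb_X3Q M) :=
    purf_finiteDimensional_X3Q M
  letI := hzg39_algebraX3 M
  have hc : purb_c3 ≠ 0 := by
    intro h0
    have := congrArg (fun p : ℤ[X] => p.coeff 2) h0
    simp [purb_c3, coeff_X_pow] at this
  have hcoord : algebraMap ↥(purb_LY 2 purb_X3Q M) ↥(lyi_LBar M)
      (algebraMap ↥(purb_KY purb_X3Q) ↥(purb_LY 2 purb_X3Q M) (purb_hK purb_X3Q)) = lyi_X3 M :=
    hzg39_iotaX3_hK M
  refine hzg39_HH ℓ 2 purb_c3 M lyn_transcendental_X3Q hc (Lbar := ↥(lyi_LBar M)) ?_ ?_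
  · rw [hcoord]
    exact lyi_isCoordinate M
  · intro P a ha hpos
    rw [hcoord] at hpos ⊢
    rw [hzg39_eval_c3] at ha
    exact lyh_ord_eq_one_levelY M P a (fun h0 => ha (by rw [h0, sub_self])) hpos

end X3

end Fermat.Agent.S18x
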