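/-
S18x/HtPole (helper38): "poles reduce to poles".

Abstract (ts_Hyp setting of S18x/TsBasic): if `t ∈ W` has `ρ t ≠ 0`, and the pole degree of `t` on
`F` is at most the pole degree of `ρ t` on `Fb` (for `t = j`: both are `ψ(N)`, by the fundamental
identity on both sides and S28-DEG), then the divisor-compatible place reduction `r` maps every
pole of `t` to a pole of `ρ t` ("cusps reduce to places over `∞`").  Consequently, for a place `Q`
of `Fb` which is not a pole of `ρ t`, the function `t - c` (`c ∈ A`) has no pole in the residue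
disc `r ⁻¹ {Q}`: this is the second half of the hypothesis `hT` of `ts_main` / `ns_ts_injective`
for `T = j - c`.
-/
import Fermat.Agent.S18x.TsBasic

set_option autoImplicit false

namespace Fermat.Agent.S18x

open AlgebraicCurve WithZero

section

variable {L k F Fb : Type*} [Field L] [Field k] [Field F] [Field Fb] [Algebra L F] [Algebra k Fb]
variable {A : ValuationSubring L} {π : A →+* k} {W : ValuationSubring F} {ρ : W →+* Fb}
  {r : Place L F → Place k Fb}

/-- Poles reduce to poles, given equality (or `≤`) of the pole degrees. -/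
theorem htp_pole_of_pole (H : ts_Hyp A π W ρ r) (t : W) (ht : ρ t ≠ 0) (n : ℤ)
    (hF : ∃ hfin : {v : Place L F | v.ord (t : F) < 0}.Finite,
      ∑ v ∈ hfin.toFinset, -v.ord (t : F) ≤ n)
    (hFb : ∃ hfin : {v : Place k Fb | v.ord (ρ t) < 0}.Finite,
      n ≤ ∑ v ∈ hfin.toFinset, -v.ord (ρ t))
    (P₀ : Place L F) (hP₀ : P₀.ord (t : F) < 0) : (r P₀).ord (ρ t) < 0 := by
  classical
  by_contra hcon
  rw [not_lt] at hcon
  obtain ⟨hfin, hsum⟩ := hF
  obtain ⟨hfinb, hsumb⟩ := hFb
  have ht0 : (t : F) ≠ 0 := by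
    intro h
    apply ht
    have : t = 0 := Subtype.ext h
    rw [this, map_zero]
  obtain ⟨D, hD⟩ := H.hpd (t : F) ht0
  have hc := H.compat t ht D hD
  -- the set of places of `F` in the support of `D` that map to poles of `ρ t`
  set S := hfin.toFinset with hS
  set Sb := hfinb.toFinset with hSb
  set T := D.support.filter (fun P => r P ∈ Sb) with hT
  -- rewrite the `Fb`-sum through `compat`
  have h1 : ∑ Q ∈ Sb, -Q.ord (ρ t) = ∑ P ∈ T, -D P := by
    have : ∀ Q ∈ Sb, -Q.ord (ρ t) = ∑ P ∈ D.support.filter (fun P => r P = Q), -D P := by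
      intro Q _
      rw [← hc Q, ts_mapDomain_apply, Finset.sum_neg_distrib]
    rw [Finset.sum_congr rfl this]
    rw [hT]
    rw [← Finset.sum_fiberwise_of_maps_to (s := D.support.filter (fun P => r P ∈ Sb)) (t := Sb)
      (g := r) (f := fun P => -D P) (fun P hP => (Finset.mem_filter.mp hP).2)]
    refine Finset.sum_congr rfl fun Q hQ => ?_
    refine Finset.sum_congr ?_ fun _ _ => rfl
    ext P
    simp only [Finset.mem_filter]
    constructor
    · rintro ⟨hP, rfl⟩; exact ⟨⟨hP, hQ⟩, rfl⟩
    · rintro ⟨⟨hP, _⟩, hPQ⟩; exact ⟨hP, hPQ⟩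
  -- bound: only poles contribute positively, and `P₀` is missing
  have h2 : ∑ P ∈ T, -D P ≤ ∑ P ∈ S.erase P₀, -D P := by
    have hsplit : ∑ P ∈ T, -D P ≤ ∑ P ∈ T.filter (fun P => D P < 0), -D P := by
      rw [← Finset.sum_filter_add_sum_filter_not T (fun P => D P < 0)]
      have : ∑ P ∈ T.filter (fun P => ¬ D P < 0), -D P ≤ 0 := by
        refine Finset.sum_nonpos fun P hP => ?_
        have := (Finset.mem_filter.mp hP).2
        omega
      omega
    refine hsplit.trans ?_
    refine Finset.sum_le_sum_of_subset_of_nonneg ?_ ?_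
    · intro P hP
      rw [Finset.mem_filter] at hP
      obtain ⟨hPT, hneg⟩ := hP
      rw [hT, Finset.mem_filter] at hPT
      rw [Finset.mem_erase]
      refine ⟨?_, ?_⟩
      · rintro rfl
        have hmem : r P ∈ Sb := hPT.2
        rw [hSb, Set.Finite.mem_toFinset] at hmem
        exact absurd hmem (not_lt.mpr hcon)
      · rw [hS, Set.Finite.mem_toFinset]
        show P.ord (t : F) < 0
        rw [← hD P]; exact hneg
    · intro P hP _
      rw [Finset.mem_erase, hS, Set.Finite.mem_toFinset] at hP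
      have : P.ord (t : F) < 0 := hP.2
      rw [← hD P] at this
      omega
  have h3 : ∑ P ∈ S.erase P₀, -D P < ∑ P ∈ S, -P.ord (t : F) := by
    have hmem : P₀ ∈ S := by rw [hS, Set.Finite.mem_toFinset]; exact hP₀
    rw [← Finset.add_sum_erase S (fun P => -P.ord (t : F)) hmem]
    have : ∑ P ∈ S.erase P₀, -D P = ∑ P ∈ S.erase P₀, -P.ord (t : F) :=
      Finset.sum_congr rfl fun P _ => by rw [hD P]
    rw [this]
    omega
  omega

/-- Second half of `hT` for `T = t - c` (any constant `c`): no pole in the residue disc of a place which is not a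
pole of `ρ t`. -/
theorem htp_no_pole_in_disc (H : ts_Hyp A π W ρ r) (t : W) (ht : ρ t ≠ 0) (n : ℤ)
    (hF : ∃ hfin : {v : Place L F | v.ord (t : F) < 0}.Finite,
      ∑ v ∈ hfin.toFinset, -v.ord (t : F) ≤ n)
    (hFb : ∃ hfin : {v : Place k Fb | v.ord (ρ t) < 0}.Finite,
      n ≤ ∑ v ∈ hfin.toFinset, -v.ord (ρ t))
    (Q : Place k Fb) (hQ : 0 ≤ Q.ord (ρ t)) (c : L)
    (P : Place L F) (hP : r P = Q) :
    P.adicValuation ((t : F) - algebraMap L F c) ≤ 1 := by
  have h0 : 0 ≤ P.ord (t : F) := by
    by_contra hneg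
    rw [not_le] at hneg
    have := htp_pole_of_pole H t ht n hF hFb P hneg
    rw [hP] at this
    omega
  have h1 : P.adicValuation (t : F) ≤ 1 := by
    rw [P.adicValuation_le_one_iff]
    exact Or.inr h0
  exact (Valuation.map_sub _ _ _).trans (max_le h1 (P.adicValuation_algebraMap_le_one _))

end

end Fermat.Agent.S18x
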