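/-
S18x/HzCountBridge (helper71): small COUNT bridges for the concrete inputs of helper38's
`cpnf_Cinf` (row F of the CUSPN(b) twin).

* `hzc_ncard_placesOver_le` : `#{places over t = c} ≤ [F : K(t)]`  (char `0`, from the
  fundamental identity `sum_ord_placesOver` of S24x) = input `hr₀`;
* `hzc_ncard_polePlaces_le` : same for the poles;
* `hzc_ncard_zero_inv_le`   : through a `ts_Hyp`, `#{zeros of (ρ t)⁻¹} ≤ #{zeros of t⁻¹}`
  (= helper38's `cpnc_ncard_poles_le` in `placesOver` language) = input `hcountle`;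
* `hzc_ncard_zero_le`       : the same statement for an element `x : W` with inverse in `W`
  (shape used by `cpnf_Cinf`: `x = 1/J`).
-/
import Fermat.Agent.S24x.FundIdentity
import Fermat.Agent.S18x.CpnPoleCount
import Fermat.Agent.S18x.HzTraceBridge

set_option autoImplicit false

namespace Fermat.Agent.S18x

open AlgebraicCurve IntermediateField
open Fermat.Agent.S24x

section CharZero

variable {K F : Type*} [Field K] [Field F] [Algebra K F]

/-- a finite set of places on which a function has positive order everywhere has at most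
`∑ ord` elements. -/
theorem hzc_card_le_sum_ord (s : Finset (Place K F)) (f : F) (hpos : ∀ v ∈ s, 0 < v.ord f) :
    (s.card : ℤ) ≤ ∑ v ∈ s, v.ord f := by
  calc (s.card : ℤ) = ∑ _v ∈ s, (1 : ℤ) := by simp
    _ ≤ ∑ v ∈ s, v.ord f := Finset.sum_le_sum fun v hv => by have := hpos v hv; omega

/-- **`hr₀`**: the number of places over `t = c` is at most `[F : K(t)]`. -/
theorem hzc_ncard_placesOver_le [IsAlgClosed K] [CharZero K] {t : F} (ht : IsCoordinate K F t)
    (c : K) : (placesOver K F t c).ncard ≤ cdeg K F t := by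
  classical
  obtain ⟨hfin, hsum⟩ := sum_ord_placesOver ht c
  rw [Set.ncard_eq_toFinset_card _ hfin]
  have h1 := hzc_card_le_sum_ord hfin.toFinset (t - algebraMap K F c) (fun v hv => by
    rw [Set.Finite.mem_toFinset] at hv
    exact hv)
  rw [hsum] at h1
  exact_mod_cast h1

/-- the set of places over `t = c` is finite. -/
theorem hzc_finite_placesOver [IsAlgClosed K] [CharZero K] {t : F} (ht : IsCoordinate K F t)
    (c : K) : (placesOver K F t c).Finite :=
  (sum_ord_placesOver ht c).1

/-- the number of poles of `t` is at most `[F : K(t)]`. -/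
theorem hzc_ncard_polePlaces_le [IsAlgClosed K] [CharZero K] {t : F} (ht : IsCoordinate K F t) :
    (polePlaces K F t).ncard ≤ cdeg K F t := by
  rw [fid_polePlaces_eq, ← fid_cdeg_inv]
  exact hzc_ncard_placesOver_le (fid_isCoordinate_inv ht) 0

/-- the set of poles of `t` is finite. -/
theorem hzc_finite_polePlaces [IsAlgClosed K] [CharZero K] {t : F} (ht : IsCoordinate K F t) :
    (polePlaces K F t).Finite :=
  (sum_ord_polePlaces ht).1

/-- `FFData` gives `IsCoordinate`. -/
theorem hzc_isCoordinate (x : F) [hx : FFData K F x] : IsCoordinate K F x :=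
  ⟨hx.transc, hx.fin⟩

/-- **(F4) `hr₀`, `FFData` form**: `#{places over x = c} ≤ [F : K(x)]`. -/
theorem hzc_hr0_cdeg [IsAlgClosed K] [CharZero K] (x : F) [FFData K F x] (c : K) :
    (placesOver K F x c).ncard ≤ cdeg K F x :=
  hzc_ncard_placesOver_le (hzc_isCoordinate x) c

/-- finiteness, `FFData` form. -/
theorem hzc_hr0_finite [IsAlgClosed K] [CharZero K] (x : F) [FFData K F x] (c : K) :
    (placesOver K F x c).Finite :=
  hzc_finite_placesOver (hzc_isCoordinate x) c

/-- **(F4) `hr₀`, basis form** (exact shape of `cpnf_Cinf`): if `ringB K x` has an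
`ringA K x`-basis indexed by `Fin n`, then `#{places over x = c} ≤ n`. -/
theorem hzc_hr0 [IsAlgClosed K] [CharZero K] (x : F) [FFData K F x] {n : ℕ}
    (γ : Module.Basis (Fin n) (ringA K x) (ringB K x)) (c : K) :
    (placesOver K F x c).ncard ≤ n := by
  haveI : Algebra.IsSeparable K⟮x⟯ F := Algebra.IsSeparable.of_integral _ _
  have h1 : Module.finrank (ringA K x) (ringB K x) = n := by
    rw [Module.finrank_eq_card_basis γ, Fintype.card_fin]
  rw [← h1, hzb_finrank_ringB x]
  exact hzc_hr0_cdeg x c

/-- the basis size is `[F : K(x)]` (separable coordinate, any characteristic). -/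
theorem hzc_card_basis_eq_cdeg (x : F) [FFData K F x] [Algebra.IsSeparable K⟮x⟯ F] {n : ℕ}
    (γ : Module.Basis (Fin n) (ringA K x) (ringB K x)) : n = cdeg K F x := by
  rw [← hzb_finrank_ringB x, Module.finrank_eq_card_basis γ, Fintype.card_fin]

end CharZero

section Reduction

variable {L k F Fb : Type*} [Field L] [Field k] [Field F] [Field Fb] [Algebra L F] [Algebra k Fb]
variable {A : ValuationSubring L} {π : A →+* k} {W : ValuationSubring F} {ρ : W →+* Fb}
  {r : Place L F → Place k Fb}

/-- **`hcountle`, pole form**: `#{zeros of (ρ t)⁻¹} ≤ #{zeros of t⁻¹}` through a `ts_Hyp`. -/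
theorem hzc_ncard_zero_inv_le (H : ts_Hyp A π W ρ r) (t : W) (ht : ρ t ≠ 0)
    (hfin : (polePlaces L F (t : F)).Finite) :
    (placesOver k Fb (ρ t)⁻¹ (0 : k)).ncard ≤ (placesOver L F ((t : F))⁻¹ (0 : L)).ncard := by
  rw [← fid_polePlaces_eq, ← fid_polePlaces_eq]
  exact cpnc_ncard_poles_le H t ht hfin

/-- **`hcountle`, zero form**: for `x, t : W` with `x * t = 1`:
`#{zeros of ρ x} ≤ #{zeros of x}`. -/
theorem hzc_ncard_zero_le (H : ts_Hyp A π W ρ r) (x t : W) (hxt : x * t = 1)
    (hfin : (placesOver L F (x : F) (0 : L)).Finite) :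
    (placesOver k Fb (ρ x) (0 : k)).ncard ≤ (placesOver L F (x : F) (0 : L)).ncard := by
  have h1 : ρ x * ρ t = 1 := by rw [← map_mul, hxt, map_one]
  have ht : ρ t ≠ 0 := right_ne_zero_of_mul_eq_one h1
  have hx : ρ x = (ρ t)⁻¹ := eq_inv_of_mul_eq_one_left h1
  have h2 : (x : F) * (t : F) = 1 := by
    have := congrArg (fun w : W => (w : F)) hxt
    simpa using this
  have hxF : (x : F) = ((t : F))⁻¹ := eq_inv_of_mul_eq_one_left h2
  rw [hx, hxF]
  refine hzc_ncard_zero_inv_le H t ht ?_
  rw [fid_polePlaces_eq, ← hxF]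
  exact hfin

/-- the set of zeros of `ρ x` is finite (same setting). -/
theorem hzc_finite_zero (H : ts_Hyp A π W ρ r) (x t : W) (hxt : x * t = 1)
    (hfin : (placesOver L F (x : F) (0 : L)).Finite) :
    (placesOver k Fb (ρ x) (0 : k)).Finite := by
  have h1 : ρ x * ρ t = 1 := by rw [← map_mul, hxt, map_one]
  have ht : ρ t ≠ 0 := right_ne_zero_of_mul_eq_one h1
  have hx : ρ x = (ρ t)⁻¹ := eq_inv_of_mul_eq_one_left h1
  have h2 : (x : F) * (t : F) = 1 := by
    have := congrArg (fun w : W => (w : F)) hxt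
    simpa using this
  have hxF : (x : F) = ((t : F))⁻¹ := eq_inv_of_mul_eq_one_left h2
  rw [hx, ← fid_polePlaces_eq]
  refine cpnc_finite_poles H t ht ?_
  have : (polePlaces L F (t : F)).Finite := by
    rw [fid_polePlaces_eq, ← hxF]; exact hfin
  exact this

end Reduction

end Fermat.Agent.S18x
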