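/-
S18x/HzCountK (helper71): row B (twin) of the CUSPN(b) plan: the characteristic-`ℓ` side of the
concrete inputs of helper38's `cpnf_Cinf` / `cpnf_pform` for the chart `x̄ = 1/j̄` of
`F̄_N = pls_Fb k N = modularFunctionFieldFullC k N`, plus the matching bases on both sides.

* `hzk_sep_inv`, `hzk_ffData_inv`, `hzk_isSeparable_inv`, `hzk_isDedekindDomain_inv`,
  `hzk_finite_inv` (B0);
* `hzk_cdeg_inv` : `[F̄_N : k(1/j̄)] = ψ(N)` for `char k = ℓ ∤ N` (B4, from helper68's `lvu_cdeg_eq`);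
* `hzk_exists_basis_inv` : a basis of `ringB k x̄` over `ringA k x̄` indexed by `Fin ψ(N)` (B3);
* `hzk_exists_basis_inv_zero` : the same on the characteristic-`0` side (A3).
-/
import Fermat.Agent.S18x.HzCountJ
import Fermat.Agent.S18x.HzCountBridge
import Fermat.Agent.S18x.PlsFbarFinal
import Fermat.Agent.S18x.LvDegUpper
import Fermat.Agent.S18x.CpPlaces
import Fermat.Agent.S18x.NrmDict

set_option autoImplicit false
set_option synthInstance.maxHeartbeats 400000
set_option linter.style.haveILetI false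

namespace Fermat.Agent.S18x

open AlgebraicCurve ModularCurve IntermediateField Module
open Fermat.Agent.S24x

section CharL

variable (k : Type*) [Field k] [PerfectField k] (N : ℕ) [NeZero N]

/-- `1/j̄` is a separating coordinate of `F̄_N`. -/
theorem hzk_sep_inv : pls_IsSepCoordinate k (pls_Fb k N) (pls_jb k N)⁻¹ :=
  pls_isSepCoordinate_inv (pls_isSepCoordinate_jb_perfect k N)

/-- `FFData` for the chart `1/j̄` (B0). -/
theorem hzk_ffData_inv : FFData k (pls_Fb k N) (pls_jb k N)⁻¹ :=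
  cp15_ffData (nrd_cp15_of_pls (hzk_sep_inv k N))

/-- `FFData` for the chart `j̄`. -/
theorem hzk_ffData : FFData k (pls_Fb k N) (pls_jb k N) :=
  cp15_ffData (nrd_cp15_of_pls (pls_isSepCoordinate_jb_perfect k N))

/-- separability over `k(1/j̄)`. -/
theorem hzk_isSeparable_inv : Algebra.IsSeparable k⟮(pls_jb k N)⁻¹⟯ (pls_Fb k N) :=
  (hzk_sep_inv k N).sep

/-- separability over `k(j̄)`. -/
theorem hzk_isSeparable : Algebra.IsSeparable k⟮pls_jb k N⟯ (pls_Fb k N) :=
  (pls_isSepCoordinate_jb_perfect k N).sep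

/-- the integral closure of `k[1/j̄]` in `F̄_N` is a Dedekind domain (B0). -/
theorem hzk_isDedekindDomain_inv :
    haveI := hzk_ffData_inv k N
    IsDedekindDomain (ringB k (pls_jb k N)⁻¹) := by
  haveI := hzk_ffData_inv k N
  haveI := hzk_isSeparable_inv k N
  exact cp15_isDedekindDomain_ringB (K := k) (pls_jb k N)⁻¹

/-- ... and finite over `k[1/j̄]` (B0). -/
theorem hzk_finite_inv :
    haveI := hzk_ffData_inv k N
    Module.Finite (ringA k (pls_jb k N)⁻¹) (ringB k (pls_jb k N)⁻¹) := by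
  haveI := hzk_ffData_inv k N
  haveI := hzk_isSeparable_inv k N
  exact cp15_finite_ringB (K := k) (pls_jb k N)⁻¹

omit [PerfectField k] in
/-- **(B4)** `[F̄_N : k(1/j̄)] = ψ(N)` for `char k = ℓ ∤ N`. -/
theorem hzk_cdeg_inv (ℓ : ℕ) [Fact ℓ.Prime] [CharP k ℓ] (hℓN : ¬ ℓ ∣ N) :
    cdeg k (pls_Fb k N) (pls_jb k N)⁻¹ = dedekindPsi N := by
  rw [fid_cdeg_inv]
  exact lvu_cdeg_eq ℓ N k hℓN

/-- **(B3)** a basis of the integral closure of `k[1/j̄]` over `k[1/j̄]`, indexed by `Fin ψ(N)`. -/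
theorem hzk_exists_basis_inv (ℓ : ℕ) [Fact ℓ.Prime] [CharP k ℓ] (hℓN : ¬ ℓ ∣ N) :
    haveI := hzk_ffData_inv k N
    Nonempty (Basis (Fin (dedekindPsi N)) (ringA k (pls_jb k N)⁻¹) (ringB k (pls_jb k N)⁻¹)) := by
  haveI := hzk_ffData_inv k N
  haveI := hzk_isSeparable_inv k N
  have h := hzb_exists_basis (K := k) (pls_jb k N)⁻¹
  rwa [hzk_cdeg_inv k N ℓ hℓN] at h

end CharL

section CharZero

variable (N : ℕ) [NeZero N]

/-- **(A3)** a basis of the integral closure of `Qbar[1/j]` over `Qbar[1/j]`, indexed by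
`Fin ψ(N)`. -/
theorem hzk_exists_basis_inv_zero :
    haveI := hzj_ffData_inv N
    Nonempty (Basis (Fin (dedekindPsi N)) (ringA Qbar (jBar N)⁻¹) (ringB Qbar (jBar N)⁻¹)) := by
  haveI := hzj_ffData_inv N
  haveI : Algebra.IsSeparable Qbar⟮(jBar N)⁻¹⟯ (FBar N) := Algebra.IsSeparable.of_integral _ _
  have h := hzb_exists_basis (K := Qbar) (jBar N)⁻¹
  rwa [hzj_cdeg_inv N] at h

end CharZero

end Fermat.Agent.S18x
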