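/-
S18x/HzTrace (helper40): WP4 of the "Hurwitz without differentials" toolkit (helper71's Hz plan).

`K` a field, `F/K` a field extension, `t ∈ F` transcendental over `K`, `F/K(t)` finite.
If `y ∈ F` is integral over `K[t]` and `y / t^m` is integral over `K[1/t]`
(i.e. `y ∈ L(m (t)_∞)`), then `Tr_{F/K(t)}(y) = p(t)` for a polynomial `p` of degree `≤ m`.
Pure algebra (no places); Mathlib only.
-/
import Mathlib

set_option autoImplicit false
set_option linter.style.haveILetI false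

namespace Fermat.Agent.S18x

open IntermediateField Polynomial
open scoped IntermediateField.algebraAdjoinAdjoin

variable {K F : Type*} [Field K] [Field F] [Algebra K F]

/-- `K[u]` is a PID when `u` is transcendental -/
theorem hzt_isPrincipalIdealRing_adjoin {u : F} (hu : Transcendental K u) :
    IsPrincipalIdealRing (Algebra.adjoin K {u}) :=
  IsPrincipalIdealRing.of_surjective
    (Polynomial.algEquivOfTranscendental K u hu).toRingEquiv.toRingHom
    (Polynomial.algEquivOfTranscendental K u hu).surjective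

/-- an element of `K(u)` integral over `K[u]` lies in `K[u]` (`u` transcendental) -/
theorem hzt_mem_adjoin_of_isIntegral {u : F} (hu : Transcendental K u) {z : F}
    (hz : z ∈ K⟮u⟯) (hint : IsIntegral (Algebra.adjoin K {u}) z) :
    z ∈ Algebra.adjoin K {u} := by
  haveI := hzt_isPrincipalIdealRing_adjoin hu
  have h1 : IsIntegral (Algebra.adjoin K {u}) (⟨z, hz⟩ : K⟮u⟯) := by
    have hinj : Function.Injective (algebraMap K⟮u⟯ F) := (algebraMap K⟮u⟯ F).injective
    exact (isIntegral_algebraMap_iff hinj).mp hint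
  obtain ⟨a, ha⟩ := IsIntegrallyClosed.isIntegral_iff.mp h1
  have : (a : F) = z := congrArg Subtype.val ha
  rw [← this]
  exact a.2

theorem hzt_exists_aeval_of_mem_adjoin {u z : F} (hz : z ∈ Algebra.adjoin K {u}) :
    ∃ p : K[X], aeval u p = z := by
  rw [Algebra.adjoin_singleton_eq_range_aeval] at hz
  exact hz

/-- the trace of an element integral over `K[u]` (`u ∈ K(t)`), viewed in `F`, is integral
over `K[u]` -/
theorem hzt_isIntegral_trace {t u : F} [FiniteDimensional K⟮t⟯ F] (hu : u ∈ K⟮t⟯) {y : F}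
    (hy : IsIntegral (Algebra.adjoin K {u}) y) :
    IsIntegral (Algebra.adjoin K {u}) (algebraMap K⟮t⟯ F (Algebra.trace K⟮t⟯ F y)) := by
  have hle : Algebra.adjoin K {u} ≤ K⟮t⟯.toSubalgebra :=
    Algebra.adjoin_le (by simpa using hu)
  letI : Algebra (Algebra.adjoin K {u}) K⟮t⟯ := (Subalgebra.inclusion hle).toAlgebra
  haveI : IsScalarTower (Algebra.adjoin K {u}) K⟮t⟯ F :=
    IsScalarTower.of_algebraMap_eq fun _ => rfl
  have h := Algebra.isIntegral_trace (R := Algebra.adjoin K {u}) (L := K⟮t⟯) (F := F) hy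
  exact h.algebraMap

/-- the reversed polynomial: `r(1/t) * t^N = (reverse r)(t)`, `N = natDegree r` -/
theorem hzt_aeval_inv_mul_pow {t : F} (ht0 : t ≠ 0) (r : K[X]) :
    aeval t⁻¹ r * t ^ r.natDegree = aeval t (reverse r) := by
  letI : Invertible t⁻¹ := invertibleOfNonzero (inv_ne_zero ht0)
  have h := Polynomial.eval₂_reverse_mul_pow (algebraMap K F) t⁻¹ r
  rw [invOf_eq_inv, inv_inv] at h
  rw [Polynomial.aeval_def, Polynomial.aeval_def, ← h, mul_assoc, ← mul_pow,
    inv_mul_cancel₀ ht0, one_pow, mul_one]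

/-- **WP4**: trace degree bound. -/
theorem hzt_trace_degree_le {t : F} (ht : Transcendental K t) [FiniteDimensional K⟮t⟯ F]
    (m : ℕ) {y : F} (hy : IsIntegral (Algebra.adjoin K {t}) y)
    (hy' : IsIntegral (Algebra.adjoin K {t⁻¹}) (y * t⁻¹ ^ m)) :
    ∃ p : K[X], p.natDegree ≤ m ∧
      algebraMap K⟮t⟯ F (Algebra.trace K⟮t⟯ F y) = aeval t p := by
  have ht0 : t ≠ 0 := fun h => ht (h ▸ isAlgebraic_zero)
  have hs : Transcendental K t⁻¹ := fun h => ht (by simpa using h.inv)
  have htmem : t ∈ K⟮t⟯ := mem_adjoin_simple_self K t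
  have hsmem : t⁻¹ ∈ K⟮t⟯ := inv_mem htmem
  set T : F := algebraMap K⟮t⟯ F (Algebra.trace K⟮t⟯ F y) with hT
  have hTmem : T ∈ K⟮t⟯ := (Algebra.trace K⟮t⟯ F y).2
  -- finite part
  obtain ⟨p, hp⟩ := hzt_exists_aeval_of_mem_adjoin
    (hzt_mem_adjoin_of_isIntegral ht hTmem (hzt_isIntegral_trace htmem hy))
  refine ⟨p, ?_, hp.symm⟩
  -- infinite part
  have hsm : (t⁻¹ ^ m : F) = algebraMap K⟮t⟯ F (⟨t⁻¹, hsmem⟩ ^ m) := by
    rw [map_pow]; rfl
  have htr : algebraMap K⟮t⟯ F (Algebra.trace K⟮t⟯ F (y * t⁻¹ ^ m)) = T * t⁻¹ ^ m := by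
    rw [hsm, mul_comm y, ← Algebra.smul_def, map_smul, smul_eq_mul, map_mul, mul_comm]
  have hT' : T * t⁻¹ ^ m ∈ K⟮t⁻¹⟯ := by
    have : K⟮t⁻¹⟯ = K⟮t⟯ := by
      apply le_antisymm
      · rw [adjoin_simple_le_iff]; exact hsmem
      · rw [adjoin_simple_le_iff]
        have := inv_mem (mem_adjoin_simple_self K t⁻¹)
        rwa [inv_inv] at this
    rw [this]
    exact mul_mem hTmem (pow_mem hsmem m)
  have hint' := hzt_isIntegral_trace hsmem hy'
  rw [htr] at hint'
  obtain ⟨r, hr⟩ := hzt_exists_aeval_of_mem_adjoin (hzt_mem_adjoin_of_isIntegral hs hT' hint')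
  -- compare
  by_cases hp0 : p = 0
  · simp [hp0]
  have key : aeval t (X ^ r.natDegree * p) = aeval t (X ^ m * reverse r) := by
    rw [map_mul, map_mul, map_pow, map_pow, aeval_X, hp, ← hzt_aeval_inv_mul_pow ht0, hr]
    have h1 : t⁻¹ ^ m * t ^ m = 1 := by rw [← mul_pow, inv_mul_cancel₀ ht0, one_pow]
    calc t ^ r.natDegree * T = t ^ r.natDegree * T * (t⁻¹ ^ m * t ^ m) := by rw [h1, mul_one]
      _ = t ^ m * (T * t⁻¹ ^ m * t ^ r.natDegree) := by ring
  have hinj : Function.Injective (aeval t : K[X] → F) := transcendental_iff_injective.mp ht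
  have hpoly := hinj key
  have hdeg := congrArg natDegree hpoly
  have hr0 : reverse r ≠ 0 := by
    intro h0
    rw [h0, mul_zero] at hpoly
    exact hp0 ((mul_eq_zero.mp hpoly).resolve_left (pow_ne_zero _ X_ne_zero))
  rw [natDegree_mul (pow_ne_zero _ X_ne_zero) hp0, natDegree_mul (pow_ne_zero _ X_ne_zero) hr0,
    natDegree_X_pow, natDegree_X_pow] at hdeg
  have hle : (reverse r).natDegree ≤ r.natDegree := reverse_natDegree_le r
  omega

/-- product form (for the trace matrix `Tr(y_i y_j)`, WP2): degree `≤ a + b`. -/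
theorem hzt_trace_mul_degree_le {t : F} (ht : Transcendental K t) [FiniteDimensional K⟮t⟯ F]
    (a b : ℕ) {y z : F} (hy : IsIntegral (Algebra.adjoin K {t}) y)
    (hy' : IsIntegral (Algebra.adjoin K {t⁻¹}) (y * t⁻¹ ^ a))
    (hz : IsIntegral (Algebra.adjoin K {t}) z)
    (hz' : IsIntegral (Algebra.adjoin K {t⁻¹}) (z * t⁻¹ ^ b)) :
    ∃ p : K[X], p.natDegree ≤ a + b ∧
      algebraMap K⟮t⟯ F (Algebra.trace K⟮t⟯ F (y * z)) = aeval t p := by
  refine hzt_trace_degree_le ht (a + b) (hy.mul hz) ?_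
  have : y * z * t⁻¹ ^ (a + b) = (y * t⁻¹ ^ a) * (z * t⁻¹ ^ b) := by
    rw [pow_add]; ring
  rw [this]
  exact hy'.mul hz'

end Fermat.Agent.S18x
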