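import Mathlib
import Fermat.Agent.S18x.LamS3

/-!
# The tower `k(J) ⊂ k(x²) ⊂ k(x)` of the `λ`-line package (helper17; prefix `ls3t_`)

Supplement to `LamS3.lean`: `[k(x²) : k(J)] = 3`, `[k(x) : k(x²)] = 2`, no field strictly between
`k(x²)` and `k(x)`, and the normality consequence "an irreducible polynomial over `F` with one root
in `F(x)` has all its roots (in any overfield) in `F(x)`".
-/

set_option autoImplicit false

noncomputable section

namespace Fermat.Agent.S18x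

open Polynomial IntermediateField

section Tower

variable {k Ω : Type*} [Field k] [Field Ω] [Algebra k Ω]

theorem ls3t_isCoprime_cubic (h2 : (2 : k) ≠ 0) :
    IsCoprime ((X + C 192 : k[X]) ^ 3) ((X - C 64) ^ 2) := by
  have h256 : (256 : k) ≠ 0 := by
    have : (256 : k) = 2 ^ 8 := by norm_num
    rw [this]; exact pow_ne_zero _ h2
  have c1 : IsCoprime (X + C 192 : k[X]) (X - C 64) := by
    refine ⟨C (256 : k)⁻¹, -C (256 : k)⁻¹, ?_⟩
    have : C (256 : k)⁻¹ * C (256 : k) = 1 := by rw [← C_mul, inv_mul_cancel₀ h256, C_1]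
    have e : (C (256 : k) : k[X]) = C 192 + C 64 := by rw [← C_add]; norm_num
    rw [e] at this
    linear_combination this
  exact c1.pow

/-- `[k(x²) : k(J)] = 3`. -/
theorem ls3t_relfinrank_sq (h2 : (2 : k) ≠ 0) (x : Ω) (hx : Transcendental k x) :
    relfinrank k⟮ls3_J x⟯ k⟮x ^ 2⟯ = 3 := by
  have hx2 : Transcendental k (x ^ 2) := hx.pow (by norm_num)
  have hq : ((X - C 64 : k[X]) ^ 2) ≠ 0 := ((monic_X_sub_C (64 : k)).pow 2).ne_zero
  have := rfd_relfinrank hx2 hq (ls3t_isCoprime_cubic h2)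
  have d1 : ((X + C 192 : k[X]) ^ 3).natDegree = 3 := by
    rw [(monic_X_add_C (192 : k)).natDegree_pow, natDegree_X_add_C]
  have d2 : ((X - C 64 : k[X]) ^ 2).natDegree = 2 := by
    rw [(monic_X_sub_C (64 : k)).natDegree_pow, natDegree_X_sub_C]
  rw [d1, d2] at this
  have e1 : aeval (x ^ 2) ((X + C 192 : k[X]) ^ 3) = (x ^ 2 + 192) ^ 3 := by
    simp [map_ofNat]
  have e2 : aeval (x ^ 2) ((X - C 64 : k[X]) ^ 2) = (x ^ 2 - 64) ^ 2 := by
    simp [map_ofNat]
  rw [e1, e2] at this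
  exact this

/-- `[k(x) : k(x²)] = 2`. -/
theorem ls3t_relfinrank_top (x : Ω) (hx : Transcendental k x) :
    relfinrank k⟮x ^ 2⟯ k⟮x⟯ = 2 := by
  have := rfd_relfinrank hx (one_ne_zero : (1 : k[X]) ≠ 0) (isCoprime_one_right (x := (X ^ 2 : k[X])))
  rw [natDegree_X_pow, natDegree_one] at this
  simpa using this

theorem ls3t_sq_le (x : Ω) : k⟮x ^ 2⟯ ≤ k⟮x⟯ := by
  rw [adjoin_simple_le_iff]
  exact pow_mem (mem_adjoin_simple_self k x) 2

/-- `k(J) ⊆ k(x²)`. -/
theorem ls3t_J_le_sq (x : Ω) : k⟮ls3_J x⟯ ≤ k⟮x ^ 2⟯ := by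
  rw [adjoin_simple_le_iff]
  unfold ls3_J
  have hx : x ^ 2 ∈ k⟮x ^ 2⟯ := mem_adjoin_simple_self k _
  have h192 : (192 : Ω) ∈ k⟮x ^ 2⟯ := by
    have : (192 : Ω) = algebraMap k Ω 192 := by rw [map_ofNat]
    rw [this]; exact IntermediateField.algebraMap_mem _ _
  have h64 : (64 : Ω) ∈ k⟮x ^ 2⟯ := by
    have : (64 : Ω) = algebraMap k Ω 64 := by rw [map_ofNat]
    rw [this]; exact IntermediateField.algebraMap_mem _ _
  exact div_mem (pow_mem (add_mem hx h192) 3) (pow_mem (sub_mem hx h64) 2)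

/-- there is no field strictly between `k(x²)` and `k(x)`. -/
theorem ls3t_between (x : Ω) (hx : Transcendental k x) (E : IntermediateField k Ω)
    (h1 : k⟮x ^ 2⟯ ≤ E) (h2 : E ≤ k⟮x⟯) : E = k⟮x ^ 2⟯ ∨ E = k⟮x⟯ := by
  have hmul := relfinrank_mul_relfinrank h1 h2
  rw [ls3t_relfinrank_top x hx] at hmul
  have hp : Nat.Prime 2 := Nat.prime_two
  have hd : relfinrank k⟮x ^ 2⟯ E ∣ 2 := ⟨_, hmul.symm⟩
  rcases (Nat.dvd_prime hp).mp hd with h | h
  · left
    exact le_antisymm (relfinrank_eq_one_iff.mp h) h1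
  · right
    rw [h] at hmul
    have h' : relfinrank E k⟮x⟯ = 1 := by omega
    exact le_antisymm h2 (relfinrank_eq_one_iff.mp h')

/-- a field between `k(x²)` and `k(x)` that is not contained in `k(x²)` is `k(x)`. -/
theorem ls3t_eq_top_of_not_le (x : Ω) (hx : Transcendental k x) (E : IntermediateField k Ω)
    (h1 : k⟮x ^ 2⟯ ≤ E) (h2 : E ≤ k⟮x⟯) (y : Ω) (hy : y ∈ E) (hy' : y ∉ k⟮x ^ 2⟯) :
    E = k⟮x⟯ := by
  rcases ls3t_between x hx E h1 h2 with h | h
  · rw [h] at hy; exact absurd hy hy'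
  · exact h

end Tower

section Normal

variable {F Ω : Type*} [Field F] [Field Ω] [Algebra F Ω]

/-- **Normality, root form.** `J(x) ∈ F`, `x` not a branch point. If an irreducible `c ∈ F[T]`
has one root in `F(x)`, then every root of `c` in `Ω` lies in `F(x)`. -/
theorem ls3t_root_mem (x : Ω) (J₀ : F) (hJ : algebraMap F Ω J₀ = ls3_J x) (h : ls3_Nondeg x)
    (c : F[X]) (hc : Irreducible c) (y : Ω) (hy : y ∈ F⟮x⟯) (hcy : aeval y c = 0)
    (z : Ω) (hcz : aeval z c = 0) : z ∈ F⟮x⟯ := by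
  have hG : IsGalois F F⟮x⟯ := ls3_isGalois x J₀ hJ h
  have hN : Normal F F⟮x⟯ := IsGalois.to_normal
  have hyint' : IsIntegral F (⟨y, hy⟩ : F⟮x⟯) := hN.isIntegral _
  have hmin : minpoly F y = minpoly F (⟨y, hy⟩ : F⟮x⟯) :=
    minpoly.algebraMap_eq (algebraMap F⟮x⟯ Ω).injective (⟨y, hy⟩ : F⟮x⟯)
  have hyint : IsIntegral F y := by
    have := hyint'.map (IntermediateField.val F⟮x⟯)
    exact this
  have hsplit : ((minpoly F y).map (algebraMap F F⟮x⟯)).Splits := by
    rw [hmin]; exact hN.splits _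
  have hsplitΩ : ((minpoly F y).map (algebraMap F Ω)).Splits := by
    have := hsplit.map (algebraMap F⟮x⟯ Ω)
    rwa [Polynomial.map_map, ← IsScalarTower.algebraMap_eq] at this
  have hceq : c * C c.leadingCoeff⁻¹ = minpoly F y := minpoly.eq_of_irreducible hc hcy
  have hzroot : aeval z (minpoly F y) = 0 := by rw [← hceq, map_mul, hcz, zero_mul]
  refine (IntermediateField.splits_iff_mem hsplitΩ).mp hsplit z ?_
  rw [mem_rootSet]
  exact ⟨minpoly.ne_zero hyint, hzroot⟩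

end Normal

end Fermat.Agent.S18x
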