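/-
S18 project (helper28, prefix `purb_zl_`): `ℤ_(ℓ) = S28x.ZL ℓ` is a PID, `ℓ` is a prime element of it
and `(ℓ)` is maximal.  These are the hypotheses on `O` in `S18x/PurBase.lean` (`pur_Base`).
-/
import Mathlib
import Fermat.Agent.S28x.GaussRing

set_option autoImplicit false

namespace Fermat.Agent.S18x

open Fermat.Agent.S28x

/-- the inverse of a denominator prime to `ℓ` lies in `ℤ_(ℓ)`. -/
theorem purb_zl_inv_den_mem (ℓ : ℕ) (x : ZL ℓ) :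
    (((x : ℚ).den : ℚ))⁻¹ ∈ GaloisRep.ratLocalizedAt ℓ := by
  show ((((x : ℚ).den : ℚ))⁻¹).den.Coprime ℓ
  have h0 : (x : ℚ).den ≠ 0 := (x : ℚ).den_ne_zero
  have h1 : ((((x : ℚ).den : ℚ))⁻¹).den = (x : ℚ).den := by
    rw [Rat.inv_natCast_den]
    simp [h0]
  rw [h1]
  exact x.2

/-- `ℤ_(ℓ)` is a principal ideal ring. -/
instance purb_zl_isPrincipalIdealRing (ℓ : ℕ) : IsPrincipalIdealRing (ZL ℓ) := by
  refine ⟨fun I => ?_⟩
  obtain ⟨n, hn⟩ :=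
    (IsPrincipalIdealRing.principal (I.comap (Int.castRingHom (ZL ℓ)))).principal
  refine ⟨⟨(n : ZL ℓ), ?_⟩⟩
  apply le_antisymm
  · intro x hx
    have h1 : (((x : ℚ).num : ℤ) : ZL ℓ) = (((x : ℚ).den : ℕ) : ZL ℓ) * x := by
      apply Subtype.ext
      push_cast
      rw [mul_comm]
      exact (Rat.mul_den_eq_num _).symm
    have h2 : (((x : ℚ).num : ℤ) : ZL ℓ) ∈ I := h1 ▸ I.mul_mem_left _ hx
    have h3 : (x : ℚ).num ∈ I.comap (Int.castRingHom (ZL ℓ)) := by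
      rw [Ideal.mem_comap, eq_intCast]; exact h2
    rw [hn, Ideal.submodule_span_eq, Ideal.mem_span_singleton] at h3
    obtain ⟨k, hk⟩ := h3
    rw [Ideal.submodule_span_eq, Ideal.mem_span_singleton]
    refine ⟨(k : ZL ℓ) * ⟨_, purb_zl_inv_den_mem ℓ x⟩, Subtype.ext ?_⟩
    have hden0 : ((x : ℚ).den : ℚ) ≠ 0 := Nat.cast_ne_zero.mpr (x : ℚ).den_ne_zero
    have h4 : (x : ℚ) * ((x : ℚ).den : ℚ) = ((x : ℚ).num : ℚ) := Rat.mul_den_eq_num _
    have h5 : ((x : ℚ).num : ℚ) = (n : ℚ) * (k : ℚ) := by rw [hk]; push_cast; ring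
    push_cast
    rw [← mul_assoc, ← h5, ← h4, mul_assoc, mul_inv_cancel₀ hden0, mul_one]
  · rw [Ideal.submodule_span_eq, Ideal.span_singleton_le_iff_mem]
    have h : n ∈ I.comap (Int.castRingHom (ZL ℓ)) := by
      rw [hn]; exact Submodule.mem_span_singleton_self n
    rw [Ideal.mem_comap, eq_intCast] at h
    exact h

variable (ℓ : ℕ) [Fact ℓ.Prime]

theorem purb_zl_resZL_surjective : Function.Surjective (resZL ℓ) := fun z => by
  obtain ⟨n, rfl⟩ := ZMod.natCast_zmod_surjective z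
  exact ⟨(n : ZL ℓ), map_natCast _ n⟩

theorem purb_zl_ker_resZL : RingHom.ker (resZL ℓ) = Ideal.span {(ℓ : ZL ℓ)} := by
  ext a
  rw [RingHom.mem_ker, gr_resZL_eq_zero_iff, Ideal.mem_span_singleton]
  exact ⟨fun ⟨b, hb⟩ => ⟨b, hb⟩, fun ⟨b, hb⟩ => ⟨b, hb⟩⟩

/-- `(ℓ)` is a maximal ideal of `ℤ_(ℓ)`. -/
instance purb_zl_span_isMaximal : (Ideal.span {(ℓ : ZL ℓ)}).IsMaximal := by
  rw [← purb_zl_ker_resZL]
  exact RingHom.ker_isMaximal_of_surjective _ (purb_zl_resZL_surjective ℓ)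

theorem purb_zl_natCast_ne_zero : (ℓ : ZL ℓ) ≠ 0 := by
  intro h
  have h1 : ((ℓ : ZL ℓ) : ℚ) = 0 := by rw [h]; rfl
  push_cast at h1
  exact (Fact.out : ℓ.Prime).ne_zero (by exact_mod_cast h1)

/-- `ℓ` is a prime element of `ℤ_(ℓ)`. -/
theorem purb_zl_prime : Prime (ℓ : ZL ℓ) :=
  (Ideal.span_singleton_prime (purb_zl_natCast_ne_zero ℓ)).mp (purb_zl_span_isMaximal ℓ).isPrime

end Fermat.Agent.S18x
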