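/-
S18 project, block NRM row N1, DESIGN B (helper28, prefix `purb_`): the level-`Y` objects with
`F_Y := F_M` (`M = 4N` for `ℓ` odd, `M = 9N` for `ℓ = 2`), no twist, abstract base ring.

A *datum* `D : purb_Datum ℓ M` is a coordinate `hZ ∈ ℤ_(ℓ)((q))` and a cusp polynomial
`c ∈ ℤ_(ℓ)[X]` such that `h := toQ hZ ∈ F_M`, `c(h) ≠ 0`, `h̄ := red hZ ∈ F̄_M`, `c̄(h̄) ≠ 0`.

* `purb_LD D = F_M = modularFunctionFieldFull M`  (definitionally), `purb_KD D = ℚ(h)`;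
* `purb_BD D = pur_Base D.c = ℤ_(ℓ)[X][1/c]` (helper39's abstract base, `S18x/PurBase`);
* `Algebra (purb_BD D) ↥(purb_KD D)`, `Algebra (purb_BD D) ↥(purb_LD D)` by `X ↦ h`, towers;
* `purb_RD D` = integral closure of `B₀` in `F_M`;
* characteristic `ℓ`: `purb_LDb D = F̄_M = Ft ℓ M` (definitionally), `purb_KDb D = 𝔽_ℓ(h̄)`,
  `purb_BDb D = pur_Base c̄`, algebras by `X ↦ h̄`, `purb_RDb D`;
* reduction: `h ∈ gaussRing ℓ`, `rho h = h̄`.

The instance for `ℓ` odd (`h = X₃`, `c = X² - 64`, `M = 4N`) is `purb_datum3`.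
-/
import Mathlib
import Fermat.Agent.S28x.Defs
import Fermat.Agent.S18x.PurBase
import Fermat.Agent.S18x.LevelYDefs
import Fermat.Agent.S18x.ZLPid

set_option autoImplicit false

noncomputable section

namespace Fermat.Agent.S18x

open ModularCurve Fermat.Agent.S28x Polynomial

/-- constants of `R((q))`. -/
theorem purb_algebraMap_eq_single (R : Type*) [CommRing R] (c : R) :
    algebraMap R (LaurentSeries R) c = HahnSeries.single 0 c := by
  have h1 : algebraMap R (PowerSeries R) c = PowerSeries.C c := by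
    simp
  rw [HahnSeries.algebraMap_apply', h1, HahnSeries.ofPowerSeries_C]
  rfl

/-- constants of an intermediate field of `ℚ((q))` coming from `ℤ_(ℓ)`. -/
theorem purb_algebraMap_ZL_coe (ℓ : ℕ) (L : IntermediateField ℚ (LaurentSeries ℚ)) (a : ZL ℓ) :
    ((algebraMap (ZL ℓ) ↥L a : ↥L) : LaurentSeries ℚ) =
      toQ ℓ (algebraMap (ZL ℓ) (LaurentSeries (ZL ℓ)) a) := by
  have h0 : algebraMap (ZL ℓ) ↥L a = algebraMap ℚ ↥L (a : ℚ) := rfl
  have h1 : ((algebraMap ℚ ↥L (a : ℚ) : ↥L) : LaurentSeries ℚ) =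
      algebraMap ℚ (LaurentSeries ℚ) (a : ℚ) := by
    simp
  rw [h0, h1, purb_algebraMap_eq_single, purb_algebraMap_eq_single, toQ, coeffMap_single]
  rfl

/-- evaluation of a polynomial over `ℤ_(ℓ)` in an intermediate field of `ℚ((q))`, at the image of
an `ℓ`-integral series. -/
theorem purb_aeval_ZL_coe (ℓ : ℕ) (L : IntermediateField ℚ (LaurentSeries ℚ))
    (u : LaurentSeries (ZL ℓ)) (hu : toQ ℓ u ∈ L) (g : (ZL ℓ)[X]) :
    ((aeval (⟨toQ ℓ u, hu⟩ : ↥L) g : ↥L) : LaurentSeries ℚ) = toQ ℓ (aeval u g) := by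
  have key : (L.toSubring.subtype.comp (aeval (⟨toQ ℓ u, hu⟩ : ↥L)).toRingHom) =
      (toQ ℓ).comp (aeval (R := ZL ℓ) u).toRingHom := by
    apply Polynomial.ringHom_ext
    · intro a
      simp only [RingHom.comp_apply, AlgHom.toRingHom_eq_coe, RingHom.coe_coe, aeval_C]
      exact purb_algebraMap_ZL_coe ℓ L a
    · simp only [RingHom.comp_apply, AlgHom.toRingHom_eq_coe, RingHom.coe_coe, aeval_X]
      rfl
  exact congrArg (fun φ : (ZL ℓ)[X] →+* LaurentSeries ℚ => φ g) key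

/-- the residue map `ℤ_(ℓ) → 𝔽_ℓ` on polynomials. -/
abbrev purb_cbar (ℓ : ℕ) [Fact ℓ.Prime] (c : (ZL ℓ)[X]) : (ZMod ℓ)[X] := c.map (resZL ℓ)

/-- A level-`Y` datum: coordinate over `ℤ_(ℓ)` and cusp polynomial. -/
structure purb_Datum (ℓ M : ℕ) [Fact ℓ.Prime] [NeZero M] where
  /-- the coordinate, with `ℓ`-integral coefficients -/
  hZ : LaurentSeries (ZL ℓ)
  /-- the cusp polynomial -/
  c : (ZL ℓ)[X]
  /-- the coordinate is a modular function of level `M` -/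
  hh : toQ ℓ hZ ∈ modularFunctionFieldFull M
  /-- `c(h) ≠ 0` (stated over `ℤ_(ℓ)`; `toQ` is injective) -/
  hc : aeval hZ c ≠ 0
  /-- the reduced coordinate is a modular function of level `M` in characteristic `ℓ` -/
  hhb : red ℓ hZ ∈ Ft ℓ M
  /-- `c̄(h̄) ≠ 0` -/
  hcb : aeval (red ℓ hZ) (purb_cbar ℓ c) ≠ 0

variable {ℓ M : ℕ} [Fact ℓ.Prime] [NeZero M] (D : purb_Datum ℓ M)

/-! ### characteristic `0` -/

/-- the coordinate `h ∈ ℚ((q))`. -/
def purb_Datum.h : LaurentSeries ℚ := toQ ℓ D.hZ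

/-- the reduced coordinate `h̄ ∈ 𝔽_ℓ((q))`. -/
def purb_Datum.hb : LaurentSeries (ZMod ℓ) := red ℓ D.hZ

/-- the reduced cusp polynomial. -/
def purb_Datum.cb : (ZMod ℓ)[X] := purb_cbar ℓ D.c

/-- `F_Y = F_M` (a copy of `modularFunctionFieldFull M` remembering the datum). -/
def purb_LD (_D : purb_Datum ℓ M) : IntermediateField ℚ (LaurentSeries ℚ) :=
  modularFunctionFieldFull M

theorem purb_LD_eq : purb_LD D = modularFunctionFieldFull M := rfl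

/-- `K_Y = ℚ(h)`. -/
def purb_KD : IntermediateField ℚ (LaurentSeries ℚ) := IntermediateField.adjoin ℚ {D.h}

theorem purb_KD_eq : purb_KD D = purb_KY D.h := rfl

theorem purb_h_mem_LD : D.h ∈ purb_LD D := D.hh

theorem purb_h_mem_KD : D.h ∈ purb_KD D := IntermediateField.mem_adjoin_simple_self ℚ _

theorem purb_KD_le_LD : purb_KD D ≤ purb_LD D :=
  IntermediateField.adjoin_le_iff.2 (by
    rintro _ rfl
    exact D.hh)

/-- the coordinate as an element of `F_Y`. -/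
def purb_hLD : ↥(purb_LD D) := ⟨D.h, D.hh⟩

/-- the coordinate as an element of `K_Y`. -/
def purb_hKD : ↥(purb_KD D) := ⟨D.h, purb_h_mem_KD D⟩

@[simp] theorem purb_hLD_coe : ((purb_hLD D : ↥(purb_LD D)) : LaurentSeries ℚ) = D.h := rfl

@[simp] theorem purb_hKD_coe : ((purb_hKD D : ↥(purb_KD D)) : LaurentSeries ℚ) = D.h := rfl

/-- the inclusion `K_Y → F_Y`. -/
def purb_inclKDLD : ↥(purb_KD D) →+* ↥(purb_LD D) :=
  Subring.inclusion
    (show (purb_KD D).toSubring ≤ (purb_LD D).toSubring from purb_KD_le_LD D)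

instance purb_algebraKDLD : Algebra ↥(purb_KD D) ↥(purb_LD D) := (purb_inclKDLD D).toAlgebra

theorem purb_algebraMap_KD_LD_coe (x : ↥(purb_KD D)) :
    ((algebraMap ↥(purb_KD D) ↥(purb_LD D) x : ↥(purb_LD D)) : LaurentSeries ℚ) = x := rfl

instance purb_isScalarTower_Q_KD_LD : IsScalarTower ℚ ↥(purb_KD D) ↥(purb_LD D) :=
  IsScalarTower.of_algebraMap_eq fun r => by
    apply Subtype.ext
    rw [purb_algebraMap_KD_LD_coe]
    simp

/-- the abstract base ring `B₀ = ℤ_(ℓ)[X][1/c]`. -/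
abbrev purb_BD : Type := pur_Base D.c

theorem purb_aeval_coe_LD (g : (ZL ℓ)[X]) :
    ((aeval (purb_hLD D) g : ↥(purb_LD D)) : LaurentSeries ℚ) = toQ ℓ (aeval D.hZ g) :=
  purb_aeval_ZL_coe ℓ (purb_LD D) D.hZ D.hh g

theorem purb_aeval_coe_KD (g : (ZL ℓ)[X]) :
    ((aeval (purb_hKD D) g : ↥(purb_KD D)) : LaurentSeries ℚ) = toQ ℓ (aeval D.hZ g) :=
  purb_aeval_ZL_coe ℓ (purb_KD D) D.hZ (purb_h_mem_KD D) g

theorem purb_hcLD : aeval (purb_hLD D) D.c ≠ 0 := fun h0 => D.hc (by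
  apply toQ_injective ℓ
  rw [← purb_aeval_coe_LD, h0, map_zero]; rfl)

theorem purb_hcKD : aeval (purb_hKD D) D.c ≠ 0 := fun h0 => D.hc (by
  apply toQ_injective ℓ
  rw [← purb_aeval_coe_KD, h0, map_zero]; rfl)

/-- evaluation `B₀ → F_Y`, `X ↦ h`. -/
def purb_evalLD : purb_BD D →+* ↥(purb_LD D) := pur_base_eval D.c (purb_hLD D) (purb_hcLD D)

/-- evaluation `B₀ → K_Y`, `X ↦ h`. -/
def purb_evalKD : purb_BD D →+* ↥(purb_KD D) := pur_base_eval D.c (purb_hKD D) (purb_hcKD D)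

instance purb_algebraBDLD : Algebra (purb_BD D) ↥(purb_LD D) := (purb_evalLD D).toAlgebra

instance purb_algebraBDKD : Algebra (purb_BD D) ↥(purb_KD D) := (purb_evalKD D).toAlgebra

theorem purb_algebraMap_BD_LD (g : (ZL ℓ)[X]) :
    algebraMap (purb_BD D) ↥(purb_LD D) (algebraMap (ZL ℓ)[X] (purb_BD D) g) =
      aeval (purb_hLD D) g :=
  pur_base_eval_algebraMap D.c (purb_hLD D) (purb_hcLD D) g

theorem purb_algebraMap_BD_KD (g : (ZL ℓ)[X]) :
    algebraMap (purb_BD D) ↥(purb_KD D) (algebraMap (ZL ℓ)[X] (purb_BD D) g) =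
      aeval (purb_hKD D) g :=
  pur_base_eval_algebraMap D.c (purb_hKD D) (purb_hcKD D) g

theorem purb_algebraMap_BD_LD_coe (g : (ZL ℓ)[X]) :
    ((algebraMap (purb_BD D) ↥(purb_LD D) (algebraMap (ZL ℓ)[X] (purb_BD D) g) : ↥(purb_LD D)) :
      LaurentSeries ℚ) = toQ ℓ (aeval D.hZ g) := by
  rw [purb_algebraMap_BD_LD, purb_aeval_coe_LD]

theorem purb_algebraMap_BD_KD_coe (g : (ZL ℓ)[X]) :
    ((algebraMap (purb_BD D) ↥(purb_KD D) (algebraMap (ZL ℓ)[X] (purb_BD D) g) : ↥(purb_KD D)) :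
      LaurentSeries ℚ) = toQ ℓ (aeval D.hZ g) := by
  rw [purb_algebraMap_BD_KD, purb_aeval_coe_KD]

/-- the two evaluations are compatible. -/
theorem purb_evalLD_eq_comp :
    purb_evalLD D = (algebraMap ↥(purb_KD D) ↥(purb_LD D)).comp (purb_evalKD D) := by
  apply IsLocalization.ringHom_ext (Submonoid.powers D.c)
  apply Polynomial.ringHom_ext
  · intro a
    apply Subtype.ext
    simp only [RingHom.comp_apply]
    rw [purb_algebraMap_KD_LD_coe]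
    have h1 := purb_algebraMap_BD_LD_coe D (C a)
    have h2 := purb_algebraMap_BD_KD_coe D (C a)
    exact h1.trans h2.symm
  · apply Subtype.ext
    simp only [RingHom.comp_apply]
    rw [purb_algebraMap_KD_LD_coe]
    have h1 := purb_algebraMap_BD_LD_coe D X
    have h2 := purb_algebraMap_BD_KD_coe D X
    exact h1.trans h2.symm

instance purb_isScalarTower_BD_KD_LD : IsScalarTower (purb_BD D) ↥(purb_KD D) ↥(purb_LD D) :=
  IsScalarTower.of_algebraMap_eq fun b => by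
    show purb_evalLD D b = _
    rw [purb_evalLD_eq_comp]; rfl

/-- `R_Y`: the integral closure of `B₀` in `F_Y = F_M`. -/
def purb_RD : Subalgebra (purb_BD D) ↥(purb_LD D) := integralClosure (purb_BD D) ↥(purb_LD D)

/-! ### characteristic `ℓ` -/

/-- `F̄_Y = F̄_M` (a copy of `Ft ℓ M` remembering the datum). -/
def purb_LDb (_D : purb_Datum ℓ M) : IntermediateField (ZMod ℓ) (LaurentSeries (ZMod ℓ)) :=
  Ft ℓ M

theorem purb_LDb_eq : purb_LDb D = Ft ℓ M := rfl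

/-- `K̄_Y = 𝔽_ℓ(h̄)`. -/
def purb_KDb : IntermediateField (ZMod ℓ) (LaurentSeries (ZMod ℓ)) :=
  IntermediateField.adjoin (ZMod ℓ) {D.hb}

theorem purb_KDb_eq : purb_KDb D = purb_KYb ℓ D.hb := rfl

theorem purb_hb_mem_LDb : D.hb ∈ purb_LDb D := D.hhb

theorem purb_hb_mem_KDb : D.hb ∈ purb_KDb D := IntermediateField.mem_adjoin_simple_self _ _

theorem purb_KDb_le_LDb : purb_KDb D ≤ purb_LDb D :=
  IntermediateField.adjoin_le_iff.2 (by
    rintro _ rfl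
    exact D.hhb)

/-- the reduced coordinate as an element of `F̄_Y`. -/
def purb_hLDb : ↥(purb_LDb D) := ⟨D.hb, D.hhb⟩

/-- the reduced coordinate as an element of `K̄_Y`. -/
def purb_hKDb : ↥(purb_KDb D) := ⟨D.hb, purb_hb_mem_KDb D⟩

@[simp] theorem purb_hLDb_coe :
    ((purb_hLDb D : ↥(purb_LDb D)) : LaurentSeries (ZMod ℓ)) = D.hb := rfl

@[simp] theorem purb_hKDb_coe :
    ((purb_hKDb D : ↥(purb_KDb D)) : LaurentSeries (ZMod ℓ)) = D.hb := rfl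

/-- the inclusion `K̄_Y → F̄_Y`. -/
def purb_inclKDbLDb : ↥(purb_KDb D) →+* ↥(purb_LDb D) :=
  Subring.inclusion
    (show (purb_KDb D).toSubring ≤ (purb_LDb D).toSubring from purb_KDb_le_LDb D)

instance purb_algebraKDbLDb : Algebra ↥(purb_KDb D) ↥(purb_LDb D) :=
  (purb_inclKDbLDb D).toAlgebra

theorem purb_algebraMap_KDb_LDb_coe (x : ↥(purb_KDb D)) :
    ((algebraMap ↥(purb_KDb D) ↥(purb_LDb D) x : ↥(purb_LDb D)) : LaurentSeries (ZMod ℓ)) = x :=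
  rfl

/-- the reduced base ring `B̄₀ = 𝔽_ℓ[X][1/c̄]`. -/
abbrev purb_BDb : Type := pur_Base D.cb

theorem purb_aeval_coe_LDb (g : (ZMod ℓ)[X]) :
    ((aeval (purb_hLDb D) g : ↥(purb_LDb D)) : LaurentSeries (ZMod ℓ)) = aeval D.hb g := by
  have := Polynomial.aeval_algebraMap_apply (A := ↥(purb_LDb D)) (LaurentSeries (ZMod ℓ))
    (purb_hLDb D) g
  simpa using this.symm

theorem purb_aeval_coe_KDb (g : (ZMod ℓ)[X]) :
    ((aeval (purb_hKDb D) g : ↥(purb_KDb D)) : LaurentSeries (ZMod ℓ)) = aeval D.hb g := by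
  have := Polynomial.aeval_algebraMap_apply (A := ↥(purb_KDb D)) (LaurentSeries (ZMod ℓ))
    (purb_hKDb D) g
  simpa using this.symm

theorem purb_hcLDb : aeval (purb_hLDb D) D.cb ≠ 0 := fun h0 => D.hcb (by
  rw [← purb_Datum.hb, ← purb_Datum.cb, ← purb_aeval_coe_LDb, h0]; rfl)

theorem purb_hcKDb : aeval (purb_hKDb D) D.cb ≠ 0 := fun h0 => D.hcb (by
  rw [← purb_Datum.hb, ← purb_Datum.cb, ← purb_aeval_coe_KDb, h0]; rfl)

/-- evaluation `B̄₀ → F̄_Y`, `X ↦ h̄`. -/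
def purb_evalLDb : purb_BDb D →+* ↥(purb_LDb D) :=
  pur_base_eval D.cb (purb_hLDb D) (purb_hcLDb D)

/-- evaluation `B̄₀ → K̄_Y`, `X ↦ h̄`. -/
def purb_evalKDb : purb_BDb D →+* ↥(purb_KDb D) :=
  pur_base_eval D.cb (purb_hKDb D) (purb_hcKDb D)

instance purb_algebraBDbLDb : Algebra (purb_BDb D) ↥(purb_LDb D) := (purb_evalLDb D).toAlgebra

instance purb_algebraBDbKDb : Algebra (purb_BDb D) ↥(purb_KDb D) := (purb_evalKDb D).toAlgebra

theorem purb_algebraMap_BDb_LDb (g : (ZMod ℓ)[X]) :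
    algebraMap (purb_BDb D) ↥(purb_LDb D) (algebraMap (ZMod ℓ)[X] (purb_BDb D) g) =
      aeval (purb_hLDb D) g :=
  pur_base_eval_algebraMap D.cb (purb_hLDb D) (purb_hcLDb D) g

theorem purb_algebraMap_BDb_KDb (g : (ZMod ℓ)[X]) :
    algebraMap (purb_BDb D) ↥(purb_KDb D) (algebraMap (ZMod ℓ)[X] (purb_BDb D) g) =
      aeval (purb_hKDb D) g :=
  pur_base_eval_algebraMap D.cb (purb_hKDb D) (purb_hcKDb D) g

/-- `R̄_Y`: the integral closure of `B̄₀` in `F̄_Y = F̄_M`. -/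
def purb_RDb : Subalgebra (purb_BDb D) ↥(purb_LDb D) :=
  integralClosure (purb_BDb D) ↥(purb_LDb D)

/-! ### reduction -/

theorem purb_h_mem_gaussRing : D.h ∈ gaussRing ℓ := toQ_mem_gaussRing ℓ _

theorem purb_rho_h : rho ℓ ⟨D.h, purb_h_mem_gaussRing D⟩ = D.hb := rho_toQ ℓ D.hZ

/-! ### monotonicity of the full function fields in the level -/

theorem purb_full_mono {M M' : ℕ} [NeZero M] [NeZero M'] (hMM : M ∣ M') :
    modularFunctionFieldFull M ≤ modularFunctionFieldFull M' := by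
  apply IntermediateField.adjoin.mono
  rintro x ⟨d, hd, hdM, rfl⟩
  exact ⟨d, hd, hdM.trans hMM, rfl⟩

theorem purb_fullC_mono (K : Type*) [Field K] {M M' : ℕ} [NeZero M] [NeZero M'] (hMM : M ∣ M') :
    modularFunctionFieldFullC K M ≤ modularFunctionFieldFullC K M' := by
  apply IntermediateField.adjoin.mono
  rintro x ⟨d, hd, hdM, rfl⟩
  exact ⟨d, hd, hdM.trans hMM, rfl⟩

/-! ### the instance for odd `ℓ`: `h = X₃`, `c = X² - 64`, `M = 4N` -/

section Odd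

variable (ℓ : ℕ) [Fact ℓ.Prime]

theorem purb_isUnit_two_ZL (hℓ : ℓ ≠ 2) : IsUnit (2 : ZL ℓ) := by
  have hcop : Nat.Coprime 2 ℓ :=
    (Nat.coprime_primes Nat.prime_two (Fact.out : ℓ.Prime)).2 (Ne.symm hℓ)
  have h2 : (2 : ℚ)⁻¹ ∈ GaloisRep.ratLocalizedAt ℓ := by
    show ((2 : ℚ)⁻¹).den.Coprime ℓ
    have : ((2 : ℚ)⁻¹).den = 2 := by norm_num
    rw [this]; exact hcop
  refine ⟨⟨2, ⟨(2 : ℚ)⁻¹, h2⟩, ?_, ?_⟩, rfl⟩
  · apply Subtype.ext
    show (2 : ℚ) * (2 : ℚ)⁻¹ = 1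
    norm_num
  · apply Subtype.ext
    show (2 : ℚ)⁻¹ * (2 : ℚ) = 1
    norm_num

theorem purb_isUnit_two_zmod (hℓ : ℓ ≠ 2) : IsUnit (2 : ZMod ℓ) := by
  have hcop : Nat.Coprime 2 ℓ :=
    (Nat.coprime_primes Nat.prime_two (Fact.out : ℓ.Prime)).2 (Ne.symm hℓ)
  have := (ZMod.isUnit_iff_coprime 2 ℓ).2 hcop
  simpa using this

/-- the `λ`-line coordinate over `ℤ_(ℓ)`, `ℓ` odd. -/
def purb_X3ZL (hℓ : ℓ ≠ 2) : LaurentSeries (ZL ℓ) := purb_X3 (purb_isUnit_two_ZL ℓ hℓ)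

/-- the `λ`-line coordinate over `𝔽_ℓ`, `ℓ` odd. -/
def purb_X3FL (hℓ : ℓ ≠ 2) : LaurentSeries (ZMod ℓ) := purb_X3 (purb_isUnit_two_zmod ℓ hℓ)

theorem purb_toQ_X3ZL (hℓ : ℓ ≠ 2) : toQ ℓ (purb_X3ZL ℓ hℓ) = purb_X3Q :=
  purb_X3_map (GaloisRep.ratLocalizedAt ℓ).subtype (purb_isUnit_two_ZL ℓ hℓ) purb_isUnit_two_rat

theorem purb_red_X3ZL (hℓ : ℓ ≠ 2) : red ℓ (purb_X3ZL ℓ hℓ) = purb_X3FL ℓ hℓ :=
  purb_X3_map (resZL ℓ) (purb_isUnit_two_ZL ℓ hℓ) (purb_isUnit_two_zmod ℓ hℓ)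

/-- `X₃² - 64 ≠ 0` over any nontrivial ring in which `2` is a unit. -/
theorem purb_X3_sq_sub_ne_zero {R : Type*} [CommRing R] [Nontrivial R] (h2 : IsUnit (2 : R)) :
    (purb_X3 h2) ^ 2 - 64 ≠ 0 := by
  intro h0
  have hid := purb_X3_identity h2
  rw [h0] at hid
  have h64 : (purb_X3 h2) ^ 2 = 64 := sub_eq_zero.mp h0
  rw [h64] at hid
  have h3 : ((2 : LaurentSeries R)) ^ 24 = 0 := by
    have : ((64 : LaurentSeries R) + 192) ^ 3 = (2 : LaurentSeries R) ^ 24 := by norm_num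
    rw [← this, hid]; ring
  have hu : IsUnit (2 : LaurentSeries R) := by
    have := h2.map (algebraMap R (LaurentSeries R))
    rwa [map_ofNat] at this
  exact (hu.pow 24).ne_zero h3

/-- the cusp polynomial `X² - 64` over `ℤ_(ℓ)`. -/
def purb_c3L : (ZL ℓ)[X] := X ^ 2 - C 64

theorem purb_aeval_c3L (u : LaurentSeries (ZL ℓ)) : aeval u (purb_c3L ℓ) = u ^ 2 - 64 := by
  simp only [purb_c3L, map_sub, map_pow, aeval_X, aeval_C]
  rw [map_ofNat]

theorem purb_cbar_c3L : purb_cbar ℓ (purb_c3L ℓ) = X ^ 2 - C 64 := by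
  simp only [purb_cbar, purb_c3L, Polynomial.map_sub, Polynomial.map_pow, Polynomial.map_X,
    Polynomial.map_C]
  rw [map_ofNat]

theorem purb_aeval_cbar_c3L (u : LaurentSeries (ZMod ℓ)) :
    aeval u (purb_cbar ℓ (purb_c3L ℓ)) = u ^ 2 - 64 := by
  rw [purb_cbar_c3L]
  simp only [map_sub, map_pow, aeval_X, aeval_C]
  rw [map_ofNat]

/-- the level-`Y` datum for odd `ℓ`, given that `X₃` is a modular function of level `4` in both
characteristics (row N12). -/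
def purb_datum3 (hℓ : ℓ ≠ 2) (N : ℕ) [NeZero N]
    (hX3 : purb_X3Q ∈ modularFunctionFieldFull 4) (hX3b : purb_X3FL ℓ hℓ ∈ Ft ℓ 4) :
    purb_Datum ℓ (4 * N) where
  hZ := purb_X3ZL ℓ hℓ
  c := purb_c3L ℓ
  hh := by
    rw [purb_toQ_X3ZL]
    exact purb_full_mono (Dvd.intro N rfl) hX3
  hc := by
    rw [purb_aeval_c3L]
    exact purb_X3_sq_sub_ne_zero _
  hhb := by
    rw [purb_red_X3ZL]
    exact purb_fullC_mono (ZMod ℓ) (Dvd.intro N rfl) hX3b
  hcb := by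
    rw [purb_aeval_cbar_c3L, purb_red_X3ZL]
    exact purb_X3_sq_sub_ne_zero _

theorem purb_datum3_h (hℓ : ℓ ≠ 2) (N : ℕ) [NeZero N]
    (hX3 : purb_X3Q ∈ modularFunctionFieldFull 4) (hX3b : purb_X3FL ℓ hℓ ∈ Ft ℓ 4) :
    (purb_datum3 ℓ hℓ N hX3 hX3b).h = purb_X3Q := purb_toQ_X3ZL ℓ hℓ

theorem purb_datum3_hb (hℓ : ℓ ≠ 2) (N : ℕ) [NeZero N]
    (hX3 : purb_X3Q ∈ modularFunctionFieldFull 4) (hX3b : purb_X3FL ℓ hℓ ∈ Ft ℓ 4) :
    (purb_datum3 ℓ hℓ N hX3 hX3b).hb = purb_X3FL ℓ hℓ := purb_red_X3ZL ℓ hℓ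

end Odd

end Fermat.Agent.S18x
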