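/-
S18x/LevelYFinite (helper72; Q5 instance obligation of the NRM dry-run; prefix `lyf_`).

Finiteness of the level-`Y` field over its coordinate field, both characteristics:
`FiniteDimensional (purb_KY h) (purb_LY e h N)` and `FiniteDimensional (purb_KYb ℓ hb)
(purb_LYb ℓ e hb N)` (with helper28's algebra instances of `S18x/LevelYDefs.lean`) as soon as
`j(q^e)` lies in the coordinate field; closed instances for `(e, h) = (2, X₃)` and `(3, μ)`.
-/
import Mathlib
import Fermat.Agent.S28x.ModPolyConsFinal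
import Fermat.Agent.S18x.LevelYDefs
import Fermat.Agent.S18x.LevelYInst

set_option autoImplicit false

namespace Fermat.Agent.S18x

open ModularCurve IntermediateField Fermat.Agent.S28x

/-! ### generic layer -/

section Generic

variable {k : Type*} [Field k]

/-- `j(q^{ed})` is integral over every intermediate field containing `j(q^e)`. -/
theorem lyf_isIntegral_qExpand (e d : ℕ) [NeZero e] [NeZero d]
    (E : IntermediateField k (LaurentSeries k)) (hJ : qExpand k e (jqModC k) ∈ E) :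
    IsIntegral E (qExpand k e (qExpand k d (jqModC k))) := by
  obtain ⟨P, hPm, hP⟩ := mpcf_exists_monic_jqd k d
  have hP' : P.eval₂ (Polynomial.aeval (R := k) (qExpand k e (jqModC k))).toRingHom
      (qExpand k e (qExpand k d (jqModC k))) = 0 := by
    have h := Polynomial.hom_eval₂ P (Polynomial.aeval (R := k) (jqModC k)).toRingHom
      (qExpand k e) (qExpand k d (jqModC k))
    rw [hP, map_zero, mpc_qExpand_comp_aeval] at h
    exact h.symm
  have hmem : ∀ Q : Polynomial k,
      (Polynomial.aeval (R := k) (qExpand k e (jqModC k))).toRingHom Q ∈ E := by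
    intro Q
    have h1 : Polynomial.aeval (qExpand k e (jqModC k)) Q ∈
        Algebra.adjoin k {qExpand k e (jqModC k)} := Polynomial.aeval_mem_adjoin_singleton k _
    have h2 : Algebra.adjoin k {qExpand k e (jqModC k)} ≤ E.toSubalgebra :=
      Algebra.adjoin_le (Set.singleton_subset_iff.mpr hJ)
    exact h2 h1
  let g : Polynomial k →+* E :=
    RingHom.codRestrict (Polynomial.aeval (R := k) (qExpand k e (jqModC k))).toRingHom E hmem
  refine ⟨P.map g, hPm.map _, ?_⟩
  rw [Polynomial.eval₂_map]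
  have : (algebraMap E (LaurentSeries k)).comp g =
      (Polynomial.aeval (R := k) (qExpand k e (jqModC k))).toRingHom := by
    ext <;> rfl
  rw [this, hP']

/-- the twisted generators `j(q^{ed})`, `d ∣ N`. -/
def lyf_gens (k : Type*) [Field k] (e N : ℕ) [NeZero e] : Set (LaurentSeries k) :=
  (fun x => qExpand k e x) '' divisorExpansionsC k N

theorem lyf_finite_gens (e N : ℕ) [NeZero e] [NeZero N] : (lyf_gens k e N).Finite :=
  (mpc_finite_divisorExpansionsC k N).image _

theorem lyf_isIntegral_gens (e N : ℕ) [NeZero e] (E : IntermediateField k (LaurentSeries k))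
    (hJ : qExpand k e (jqModC k) ∈ E) : ∀ x ∈ lyf_gens k e N, IsIntegral E x := by
  rintro _ ⟨_, ⟨d, hd, -, rfl⟩, rfl⟩
  exact lyf_isIntegral_qExpand e d E hJ

/-- the twisted copy of `F̃_N` is generated by the twisted generators. -/
theorem lyf_map_le (e N : ℕ) [NeZero e] (f : LaurentSeries k →ₐ[k] LaurentSeries k)
    (hf : ∀ x, f x = qExpand k e x) :
    (modularFunctionFieldFullC k N).map f = IntermediateField.adjoin k (lyf_gens k e N) := by
  rw [modularFunctionFieldFullC, adjoin_map]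
  congr 1
  ext x
  simp only [lyf_gens, Set.mem_image, hf]

/-- finiteness of `L / K` for intermediate fields `K ≤ L` of `k((q))`, `L` generated over `K` by
finitely many integral elements. -/
theorem lyf_finiteDimensional_extendScalars (K L : IntermediateField k (LaurentSeries k))
    (hKL : K ≤ L) (S : Set (LaurentSeries k)) (hfin : S.Finite) (hint : ∀ s ∈ S, IsIntegral K s)
    (hL : L ≤ IntermediateField.adjoin k ((K : Set (LaurentSeries k)) ∪ S)) :
    FiniteDimensional K (IntermediateField.extendScalars hKL) := by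
  haveI : Finite S := hfin.to_subtype
  haveI h1 : FiniteDimensional K (IntermediateField.adjoin K S) :=
    IntermediateField.finiteDimensional_adjoin hint
  have hle : IntermediateField.extendScalars hKL ≤ IntermediateField.adjoin K S := by
    intro x hx
    rw [IntermediateField.mem_extendScalars] at hx
    have h2 := hL hx
    rw [← restrictScalars_adjoin] at h2
    exact h2
  exact FiniteDimensional.of_injective (IntermediateField.inclusion hle).toLinearMap
    (IntermediateField.inclusion hle).toRingHom.injective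

/-- transfer of finiteness from `extendScalars` to the subtype `↥L` with an arbitrary algebra
structure inducing the inclusion. -/
theorem lyf_finite_of_extendScalars (K L : IntermediateField k (LaurentSeries k)) (hKL : K ≤ L)
    [Algebra K L] (hcoe : ∀ x : K, ((algebraMap K L x : L) : LaurentSeries k) = x)
    [FiniteDimensional K (IntermediateField.extendScalars hKL)] : FiniteDimensional K L := by
  let f : ↥(IntermediateField.extendScalars hKL) →ₗ[K] ↥L :=
    { toFun := fun x => ⟨x.1, (IntermediateField.mem_extendScalars hKL).1 x.2⟩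
      map_add' := fun x y => rfl
      map_smul' := fun c x => by
        apply Subtype.ext
        have h1 : ((c • x : ↥(IntermediateField.extendScalars hKL)) : LaurentSeries k) =
            (c : LaurentSeries k) * (x : LaurentSeries k) := rfl
        have h2 : ∀ y : L, ((c • y : L) : LaurentSeries k) =
            (c : LaurentSeries k) * (y : LaurentSeries k) := fun y => by
          rw [Algebra.smul_def, MulMemClass.coe_mul, hcoe]
        exact h1.trans (h2 _).symm }
  refine Module.Finite.of_surjective f ?_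
  rintro ⟨y, hy⟩
  exact ⟨⟨y, (IntermediateField.mem_extendScalars hKL).2 hy⟩, rfl⟩

end Generic

/-! ### characteristic `0`: helper28's `purb_KY`, `purb_LY` -/

section CharZero

variable (e : ℕ) [NeZero e] (h : LaurentSeries ℚ) (N : ℕ) [NeZero N]

omit [NeZero N] in
theorem lyf_FNe_eq : purb_FNe e N = IntermediateField.adjoin ℚ (lyf_gens ℚ e N) :=
  lyf_map_le e N (qExpandₐ e) fun _ => rfl

omit [NeZero N] in
theorem lyf_LY_le :
    purb_LY e h N ≤
      IntermediateField.adjoin ℚ ((purb_KY h : Set (LaurentSeries ℚ)) ∪ lyf_gens ℚ e N) := by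
  rw [purb_LY, lyf_FNe_eq]
  refine sup_le (adjoin.mono ℚ _ _ Set.subset_union_right) ?_
  intro x hx
  exact subset_adjoin ℚ _ (Or.inl hx)

/-- **`F_Y` is finite over `K_Y = ℚ(h)`** as soon as `j(q^e) ∈ ℚ(h)`. -/
theorem lyf_finiteDimensional_LY (hj : qExpand ℚ e jq ∈ purb_KY h) :
    FiniteDimensional ↥(purb_KY h) ↥(purb_LY e h N) := by
  haveI := lyf_finiteDimensional_extendScalars (purb_KY h) (purb_LY e h N) (purb_KY_le_LY e h N)
    (lyf_gens ℚ e N) (lyf_finite_gens e N) (lyf_isIntegral_gens e N (purb_KY h) hj)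
    (lyf_LY_le e h N)
  exact lyf_finite_of_extendScalars (purb_KY h) (purb_LY e h N) (purb_KY_le_LY e h N)
    fun _ => rfl

/-- `F_Y / K_Y` is algebraic and separable (characteristic `0`). -/
theorem lyf_isSeparable_LY (hj : qExpand ℚ e jq ∈ purb_KY h) :
    Algebra.IsSeparable ↥(purb_KY h) ↥(purb_LY e h N) := by
  haveI := lyf_finiteDimensional_LY e h N hj
  infer_instance

end CharZero

/-! ### characteristic `ℓ`: `purb_KYb`, `purb_LYb` -/

section CharL

variable (ℓ e : ℕ) [Fact ℓ.Prime] [NeZero e] (hb : LaurentSeries (ZMod ℓ)) (N : ℕ) [NeZero N]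

omit [NeZero N] in
theorem lyf_FNeb_eq : purb_FNeb ℓ e N = IntermediateField.adjoin (ZMod ℓ) (lyf_gens (ZMod ℓ) e N) :=
  lyf_map_le e N (qExpandAlgHomC (ZMod ℓ) e) fun _ => rfl

omit [NeZero N] in
theorem lyf_LYb_le :
    purb_LYb ℓ e hb N ≤
      IntermediateField.adjoin (ZMod ℓ)
        ((purb_KYb ℓ hb : Set (LaurentSeries (ZMod ℓ))) ∪ lyf_gens (ZMod ℓ) e N) := by
  rw [purb_LYb, lyf_FNeb_eq]
  refine sup_le (adjoin.mono (ZMod ℓ) _ _ Set.subset_union_right) ?_
  intro x hx
  exact subset_adjoin (ZMod ℓ) _ (Or.inl hx)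

/-- **`F̄_Y` is finite over `K̄_Y = 𝔽_ℓ(h̄)`** as soon as `j̄(q^e) ∈ 𝔽_ℓ(h̄)`. -/
theorem lyf_finiteDimensional_LYb
    (hj : qExpand (ZMod ℓ) e (jqModC (ZMod ℓ)) ∈ purb_KYb ℓ hb) :
    FiniteDimensional ↥(purb_KYb ℓ hb) ↥(purb_LYb ℓ e hb N) := by
  haveI := lyf_finiteDimensional_extendScalars (purb_KYb ℓ hb) (purb_LYb ℓ e hb N)
    (purb_KYb_le_LYb ℓ e hb N) (lyf_gens (ZMod ℓ) e N) (lyf_finite_gens e N)
    (lyf_isIntegral_gens e N (purb_KYb ℓ hb) hj) (lyf_LYb_le ℓ e hb N)
  exact lyf_finite_of_extendScalars (purb_KYb ℓ hb) (purb_LYb ℓ e hb N)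
    (purb_KYb_le_LYb ℓ e hb N) fun _ => rfl

end CharL

/-! ### the coordinates `X₃` (`e = 2`) and `μ` (`e = 3`) -/

section Coordinates

variable {k : Type*} [Field k]

/-- `X₃² ≠ 64`. -/
theorem lyf_X3_sq_sub_ne_zero (h2 : IsUnit (2 : k)) : (purb_X3 h2) ^ 2 - 64 ≠ 0 := by
  intro h0
  have hid := purb_X3_identity h2
  rw [h0, zero_pow two_ne_zero, mul_zero] at hid
  have h1 : (purb_X3 h2) ^ 2 + 192 = 0 := (pow_eq_zero_iff three_ne_zero).1 hid
  have h3 : (2 : LaurentSeries k) ^ 8 = 0 := by linear_combination h1 - h0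
  have h4 : (2 : LaurentSeries k) = 0 := (pow_eq_zero_iff (by norm_num)).1 h3
  have h5 : (algebraMap k (LaurentSeries k)) 2 = 0 := by rw [map_ofNat]; exact h4
  exact h2.ne_zero ((map_eq_zero _).1 h5)

/-- `j(q²) ∈ k(X₃)`. -/
theorem lyf_jq2_mem (h2 : IsUnit (2 : k)) :
    qExpand k 2 (jqModC k) ∈ IntermediateField.adjoin k {purb_X3 h2} := by
  have hx : purb_X3 h2 ∈ IntermediateField.adjoin k {purb_X3 h2} :=
    mem_adjoin_simple_self k _
  have hid := purb_X3_identity h2
  have e1 : qExpand k 2 (jqModC k) =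
      ((purb_X3 h2) ^ 2 + 192) ^ 3 / ((purb_X3 h2) ^ 2 - 64) ^ 2 := by
    rw [eq_div_iff (pow_ne_zero 2 (lyf_X3_sq_sub_ne_zero h2))]
    exact hid.symm
  rw [e1]
  exact div_mem (pow_mem (add_mem (pow_mem hx 2) (ofNat_mem _ 192)) 3)
    (pow_mem (sub_mem (pow_mem hx 2) (ofNat_mem _ 64)) 2)

/-- `μ³ ≠ 27`. -/
theorem lyf_mu_cube_sub_ne_zero (h3 : IsUnit (3 : k)) : (hsc_mu h3) ^ 3 - 27 ≠ 0 := by
  intro h0
  have hid := hsc_mu_identity h3
  rw [h0, zero_pow three_ne_zero, mul_zero] at hid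
  have h27 : (hsc_mu h3) ^ 3 = 27 := sub_eq_zero.1 h0
  rw [h27] at hid
  have h4 : (3 : LaurentSeries k) ^ 18 = 0 := by linear_combination hid
  have h5 : (3 : LaurentSeries k) = 0 := (pow_eq_zero_iff (by norm_num)).1 h4
  have h6 : (algebraMap k (LaurentSeries k)) 3 = 0 := by rw [map_ofNat]; exact h5
  exact h3.ne_zero ((map_eq_zero _).1 h6)

/-- `j(q³) ∈ k(μ)`. -/
theorem lyf_jq3_mem (h3 : IsUnit (3 : k)) :
    qExpand k 3 (jqModC k) ∈ IntermediateField.adjoin k {hsc_mu h3} := by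
  have hx : hsc_mu h3 ∈ IntermediateField.adjoin k {hsc_mu h3} := mem_adjoin_simple_self k _
  have hid := hsc_mu_identity h3
  have e1 : qExpand k 3 (jqModC k) =
      (hsc_mu h3 ^ 3 * (hsc_mu h3 ^ 3 + 216) ^ 3) / ((hsc_mu h3) ^ 3 - 27) ^ 3 := by
    rw [eq_div_iff (pow_ne_zero 3 (lyf_mu_cube_sub_ne_zero h3))]
    exact hid.symm
  rw [e1]
  exact div_mem (mul_mem (pow_mem hx 3) (pow_mem (add_mem (pow_mem hx 3) (ofNat_mem _ 216)) 3))
    (pow_mem (sub_mem (pow_mem hx 3) (ofNat_mem _ 27)) 3)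

end Coordinates

/-! ### closed instances -/

section Closed

variable (N : ℕ) [NeZero N]

/-- `ℓ` odd, characteristic `0`: `F_Y = F_N(q²)(X₃)` is finite over `ℚ(X₃)`. -/
theorem lyf_finiteDimensional_X3Q :
    FiniteDimensional ↥(purb_KY purb_X3Q) ↥(purb_LY 2 purb_X3Q N) :=
  lyf_finiteDimensional_LY 2 purb_X3Q N (lyf_jq2_mem purb_isUnit_two_rat)

theorem lyf_isSeparable_X3Q :
    Algebra.IsSeparable ↥(purb_KY purb_X3Q) ↥(purb_LY 2 purb_X3Q N) :=
  lyf_isSeparable_LY 2 purb_X3Q N (lyf_jq2_mem purb_isUnit_two_rat)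

/-- `ℓ` odd, characteristic `ℓ`. -/
theorem lyf_finiteDimensional_X3F (ℓ : ℕ) [Fact ℓ.Prime] (hl : ℓ ≠ 2) :
    FiniteDimensional ↥(purb_KYb ℓ (lyn_X3F ℓ hl)) ↥(purb_LYb ℓ 2 (lyn_X3F ℓ hl) N) :=
  lyf_finiteDimensional_LYb ℓ 2 (lyn_X3F ℓ hl) N (lyf_jq2_mem (lyn_isUnit_two_zmod ℓ hl))

/-- `ℓ = 2`, characteristic `0`: `F_Y = F_N(q³)(μ)` is finite over `ℚ(μ)`. -/
theorem lyf_finiteDimensional_muQ :
    FiniteDimensional ↥(purb_KY lyn_muQ) ↥(purb_LY 3 lyn_muQ N) :=
  lyf_finiteDimensional_LY 3 lyn_muQ N (lyf_jq3_mem lyn_isUnit_three_rat)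

theorem lyf_isSeparable_muQ :
    Algebra.IsSeparable ↥(purb_KY lyn_muQ) ↥(purb_LY 3 lyn_muQ N) :=
  lyf_isSeparable_LY 3 lyn_muQ N (lyf_jq3_mem lyn_isUnit_three_rat)

/-- `ℓ = 2`, characteristic `2`. -/
theorem lyf_finiteDimensional_muF :
    FiniteDimensional ↥(purb_KYb 2 lyn_muF) ↥(purb_LYb 2 3 lyn_muF N) :=
  lyf_finiteDimensional_LYb 2 3 lyn_muF N (lyf_jq3_mem lyn_isUnit_three_zmod2)

end Closed

end Fermat.Agent.S18x
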