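import Mathlib

/-!
# S18x / N5 (H), leaf for G9 (helper33): maximal ideals of `k[X][1/c]`

`Ah` a domain which is a localization of `k[X]` (e.g. `Localization.Away c`, or any
`IsLocalization M Ah`).  Every `g ≠ 0` with `(g)` maximal (or just prime) is `u * p(X)` with `u` a
unit and `p ∈ k[X]` irreducible.  This is the shape `g = u * p(X)` consumed by
`hzw_hV_of_linear_factors`.
-/

set_option autoImplicit false

namespace Fermat.Agent.S18x

open Polynomial

/-- generators of nonzero prime ideals of a localization of `k[X]`. -/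
theorem lpid_exists_unit_mul_of_isPrime {k Ah : Type*} [Field k] [CommRing Ah] [IsDomain Ah]
    [Algebra k[X] Ah] (M : Submonoid k[X]) [IsLocalization M Ah] (g : Ah) (hg0 : g ≠ 0)
    (hg : (Ideal.span {g}).IsPrime) :
    ∃ u w : Ah, u * w = 1 ∧ ∃ p : k[X], Irreducible p ∧ g = u * algebraMap k[X] Ah p := by
  set I : Ideal Ah := Ideal.span {g} with hI
  set J : Ideal k[X] := I.comap (algebraMap k[X] Ah) with hJ
  have hJprime : J.IsPrime := Ideal.comap_isPrime _ _
  have hmap : J.map (algebraMap k[X] Ah) = I := IsLocalization.map_under M Ah I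
  obtain ⟨p, hp⟩ : ∃ p : k[X], J = Ideal.span {p} :=
    ⟨_, (IsPrincipalIdealRing.principal J).principal.choose_spec⟩
  have hp0 : p ≠ 0 := by
    rintro rfl
    rw [hp, Ideal.map_span, Set.image_singleton, map_zero] at hmap
    have : g ∈ Ideal.span {(0 : Ah)} := by
      rw [hmap]
      exact Ideal.subset_span rfl
    rw [Ideal.mem_span_singleton, zero_dvd_iff] at this
    exact hg0 this
  have hpprime : Prime p := by
    rw [← Ideal.span_singleton_prime hp0, ← hp]
    exact hJprime
  rw [hp, Ideal.map_span, Set.image_singleton] at hmap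
  have hassoc : Associated (algebraMap k[X] Ah p) g :=
    (Ideal.span_singleton_eq_span_singleton).1 hmap
  obtain ⟨u, hu⟩ := hassoc.symm
  refine ⟨(u⁻¹ : Ahˣ), (u : Ah), by rw [Units.inv_mul], p, hpprime.irreducible, ?_⟩
  rw [← hu, mul_comm (g) _, ← mul_assoc, Units.inv_mul, one_mul]

/-- the same for maximal ideals. -/
theorem lpid_exists_unit_mul_of_isMaximal {k Ah : Type*} [Field k] [CommRing Ah] [IsDomain Ah]
    [Algebra k[X] Ah] (M : Submonoid k[X]) [IsLocalization M Ah] (g : Ah) (hg0 : g ≠ 0)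
    (hg : (Ideal.span {g}).IsMaximal) :
    ∃ u w : Ah, u * w = 1 ∧ ∃ p : k[X], Irreducible p ∧ g = u * algebraMap k[X] Ah p :=
  lpid_exists_unit_mul_of_isPrime M g hg0 hg.isPrime

/-- in characteristic zero the irreducible polynomial is separable. -/
theorem lpid_exists_unit_mul_separable {k Ah : Type*} [Field k] [CharZero k] [CommRing Ah]
    [IsDomain Ah] [Algebra k[X] Ah] (M : Submonoid k[X]) [IsLocalization M Ah] (g : Ah)
    (hg0 : g ≠ 0) (hg : (Ideal.span {g}).IsMaximal) :
    ∃ u w : Ah, u * w = 1 ∧ ∃ p : k[X], p.Separable ∧ Irreducible p ∧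
      g = u * algebraMap k[X] Ah p := by
  obtain ⟨u, w, huw, p, hp, hgp⟩ := lpid_exists_unit_mul_of_isMaximal M g hg0 hg
  exact ⟨u, w, huw, p, hp.separable, hp, hgp⟩

end Fermat.Agent.S18x
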