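/-
S18 project, NRM block, row N8d-deg (helper68), prefix `lvu_`: the form (R) requested by
helper87 / helper40 for `finrank_eq` of the `nd_RedPair` between two levels, stated with
helper19's `gi_F` / `gi_Fb` and `[CharP k ℓ]`:
for `N ∣ M`, `ℓ ∤ M`:  `[F̄_M(k) : F̄_N(k)] = [F_M(ℚ̄) : F_N(ℚ̄)]`, and this number is positive.
One-line wrappers of `S18x/LvDegUpper.lean`.
-/
import Mathlib
import Fermat.Agent.S18x.LvDegUpper
import Fermat.Agent.S18x.InstGauss

set_option autoImplicit false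
set_option linter.style.haveILetI false

noncomputable section

namespace Fermat.Agent.S18x

open ModularCurve IntermediateField Fermat.Agent.S28x

variable (ℓ : ℕ) [Fact ℓ.Prime] (k : Type*) [Field k] [CharP k ℓ]
  (N M : ℕ) [NeZero N] [NeZero M]

/-- (R1) `ψ(N) · [F̄_M(k) : F̄_N(k)] = ψ(M)`. -/
theorem lvu_R1 (hNM : N ∣ M) (hℓM : ¬ ℓ ∣ M) :
    dedekindPsi N * relfinrank (gi_Fb k N) (gi_Fb k M) = dedekindPsi M := by
  letI : Algebra (ZMod ℓ) k := ZMod.algebra k ℓ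
  exact lvu_tower ℓ N k M hNM hℓM

/-- (R2) `ψ(N) · [F_M(ℚ̄) : F_N(ℚ̄)] = ψ(M)`. -/
theorem lvu_R2 (hNM : N ∣ M) :
    dedekindPsi N * relfinrank (gi_F (AlgebraicClosure ℚ) N) (gi_F (AlgebraicClosure ℚ) M)
      = dedekindPsi M :=
  lvu_tower_bar N M hNM

/-- (R) `[F̄_M(k) : F̄_N(k)] = [F_M(ℚ̄) : F_N(ℚ̄)]`. -/
theorem lvu_R (hNM : N ∣ M) (hℓM : ¬ ℓ ∣ M) :
    relfinrank (gi_Fb k N) (gi_Fb k M)
      = relfinrank (gi_F (AlgebraicClosure ℚ) N) (gi_F (AlgebraicClosure ℚ) M) := by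
  letI : Algebra (ZMod ℓ) k := ZMod.algebra k ℓ
  exact (lvu_relfinrank_levels_eq N ℓ k M hNM hℓM).symm

/-- positivity in characteristic `ℓ`. -/
theorem lvu_R_pos (hNM : N ∣ M) (hℓM : ¬ ℓ ∣ M) :
    0 < relfinrank (gi_Fb k N) (gi_Fb k M) := by
  have h := lvu_R1 ℓ k N M hNM hℓM
  have hpos : 0 < dedekindPsi M := sa_dedekindPsi_pos M (NeZero.ne M)
  rcases Nat.eq_zero_or_pos (relfinrank (gi_Fb k N) (gi_Fb k M)) with h0 | h0
  · rw [h0, mul_zero] at h; omega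
  · exact h0

/-- positivity in characteristic `0`. -/
theorem lvu_R_pos_bar (hNM : N ∣ M) :
    0 < relfinrank (gi_F (AlgebraicClosure ℚ) N) (gi_F (AlgebraicClosure ℚ) M) := by
  have h := lvu_R2 N M hNM
  have hpos : 0 < dedekindPsi M := sa_dedekindPsi_pos M (NeZero.ne M)
  rcases Nat.eq_zero_or_pos
    (relfinrank (gi_F (AlgebraicClosure ℚ) N) (gi_F (AlgebraicClosure ℚ) M)) with h0 | h0
  · rw [h0, mul_zero] at h; omega
  · exact h0

/-- finiteness of `F̄_M(k)` over `F̄_N(k)`. -/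
theorem lvu_finiteDimensional_levels (hNM : N ∣ M) (hℓM : ¬ ℓ ∣ M) :
    FiniteDimensional (gi_Fb k N) (extendScalars (full_degeneracyC_le k hNM)) := by
  have h := lvu_R_pos ℓ k N M hNM hℓM
  rw [relfinrank_eq_finrank_of_le (full_degeneracyC_le k hNM)] at h
  exact FiniteDimensional.of_finrank_pos h

/-- finiteness of `F_M(ℚ̄)` over `F_N(ℚ̄)`. -/
theorem lvu_finiteDimensional_levels_bar (hNM : N ∣ M) :
    FiniteDimensional (gi_F (AlgebraicClosure ℚ) N) (extendScalars (lvu_bar_mono N M hNM)) := by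
  have h := lvu_R_pos_bar N M hNM
  rw [relfinrank_eq_finrank_of_le (lvu_bar_mono N M hNM)] at h
  exact FiniteDimensional.of_finrank_pos h

end Fermat.Agent.S18x
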