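/-
S18 project, module LV (helper94), file 3: transfer of linear independence over `F(t)` to linear
independence over `k(φ t)` along the coefficientwise base change `φ : F((q)) → k((q))`, for an
ARBITRARY transcendental coordinate `t` (e.g. a Hauptmodul `h̃` of the auxiliary level).
Generalises `lv_li_transfer` (`t = j̃`, `F = 𝔽_ℓ`).  Prefix `lv_`.
-/
import Fermat.Agent.S18x.LvDegK

set_option autoImplicit false

namespace Fermat.Agent.S18x

open ModularCurve HahnSeries IntermediateField Fermat.Agent.S28x

noncomputable section

variable {F k : Type*} [Field F] [Field k] [Algebra F k]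

/-- the coefficientwise base change is injective -/
theorem lv_coeffMap_injective : Function.Injective (coeffMap (algebraMap F k)) := by
  intro x y hxy
  ext n
  have := congrArg (fun z : LaurentSeries k => z.coeff n) hxy
  simpa [coeffMap_coeff] using this

/-- a transcendental element stays transcendental after coefficientwise base change -/
theorem lv_transcendental_coeffMap_aux {t : LaurentSeries F} (ht : Transcendental F t) :
    LinearIndependent k (fun n : ℕ => (coeffMap (algebraMap F k) t) ^ n) := by
  have h1 := duli_linearIndependent_pow t ht
  rw [lv_module_eq F] at h1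
  have h2 := lv_li_coeffMap (k := k) _ h1
  have h3 : (fun n : ℕ => (coeffMap (algebraMap F k) t) ^ n) =
      fun n : ℕ => coeffMap (algebraMap F k) (t ^ n) := by
    funext n
    rw [map_pow]
  rw [h3]
  exact h2

theorem lv_transcendental_coeffMap {t : LaurentSeries F} (ht : Transcendental F t) :
    Transcendental k (coeffMap (algebraMap F k) t) := by
  have h3 := lv_transcendental_coeffMap_aux (k := k) ht
  have key : ∀ (s : Finset ℕ) (g : ℕ → k),
      ∑ n ∈ s, algebraMap k (LaurentSeries k) (g n) * (coeffMap (algebraMap F k) t) ^ n = 0 →
        ∀ n ∈ s, g n = 0 := by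
    intro s g h
    apply linearIndependent_iff'.mp h3 s g
    rw [← h]
    refine Finset.sum_congr rfl fun n _ => ?_
    rw [algebraMap_laurentSeries_eq_single, ← HahnSeries.C_apply, HahnSeries.C_mul_eq_smul]
  rw [transcendental_iff_injective]
  intro p q hpq
  have hsub : Polynomial.aeval (coeffMap (algebraMap F k) t) (p - q) = 0 := by
    rw [map_sub, hpq, sub_self]
  have hzero : p - q = 0 := by
    have h4 := key (Finset.range ((p - q).natDegree + 1)) (fun n => (p - q).coeff n) (by
        rw [← hsub, Polynomial.aeval_eq_sum_range]
        refine Finset.sum_congr rfl fun n _ => ?_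
        rw [Algebra.smul_def])
    ext n
    rw [Polynomial.coeff_zero]
    by_cases hn : n < (p - q).natDegree + 1
    · exact h4 n (Finset.mem_range.mpr hn)
    · exact Polynomial.coeff_eq_zero_of_natDegree_lt (by omega)
  exact sub_eq_zero.mp hzero

/-- **transfer**: an `F(t)`-independent family of `F((q))` is mapped by the coefficientwise base
change `φ` to a `k(φ t)`-independent family of `k((q))`. -/
theorem lv_li_transfer_gen {t : LaurentSeries F} (ht : Transcendental F t) {ι : Type*}
    (e : ι → LaurentSeries F) (he : LinearIndependent (↥(IntermediateField.adjoin F {t})) e) :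
    LinearIndependent (↥(IntermediateField.adjoin k {coeffMap (algebraMap F k) t}))
      (fun i : ι => coeffMap (algebraMap F k) (e i)) := by
  have h1 := duli_linearIndependent_pow_mul_of_adjoin t ht _ he
  rw [lv_module_eq F] at h1
  have h2 := lv_li_coeffMap (k := k) _ h1
  have h3 : LinearIndependent k
      (fun p : ι × ℕ => (coeffMap (algebraMap F k) t) ^ p.2 * coeffMap (algebraMap F k) (e p.1)) := by
    convert h2 using 2 with p
    rw [map_mul, map_pow]
  rw [← lv_module_eq k] at h3
  exact duli_linearIndependent_adjoin_of_pow_mul (coeffMap (algebraMap F k) t) _ h3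

end

end Fermat.Agent.S18x
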