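/-
S18x/LydClosed.lean (helper29, NRM block row N4): the CLOSED corollaries of N4 at level `Y`,
generic in `(ℓ, e, h, c, N', M)`: helper39's `PuriLyd` fed with `H = lyd_levelY_redPair` and the
inputs `lyd_g_hker`, `lyd_levelY_isSeparable`, `lyd_levelY_span_range_eq_top`,
`puri_B0_mem_gaussRing`, `puri_B0_dvd_of_rho_eq_zero`.

* `lyd_closed_HV`      : `puri_HV ℓ e h c N'`  (= `(V)`);
* `lyd_closed_hker`    : helper94/helper10's literal `hker` (kernel of the reduction on `R_Y` is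
                          `ℓ R_Y`), for any proof `hW` of `R_Y ⊆ gaussRing ℓ`;
* `lyd_closed_IR_isPrime` : `ℓ R_Y` is prime.
-/
import Mathlib
import Fermat.Agent.S18x.LydLevelY
import Fermat.Agent.S18x.PuriLyd
import Fermat.Agent.S18x.PuriGauss
import Fermat.Agent.S18x.NrmYIncl
import Fermat.Agent.S18x.NrmYDefs

set_option autoImplicit false
set_option linter.style.haveILetI false
set_option linter.unusedSectionVars false
set_option synthInstance.maxHeartbeats 400000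
set_option maxHeartbeats 1000000

namespace Fermat.Agent.S18x

open Fermat.Agent.S28x ModularCurve Module IntermediateField Polynomial

noncomputable section

local notation "𝕃" => LaurentSeries ℚ

/-! ### small adapters for the hypotheses -/

section Adapters

/-- `htrb` from transcendence. -/
theorem lyd_closed_htrb_of_transcendental {k : Type*} [Field k] {x : LaurentSeries k}
    (hx : Transcendental k x) (p : k[X])
    (hp : Polynomial.eval₂ (HahnSeries.C : k →+* LaurentSeries k) x p = 0) : p = 0 := by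
  by_contra h0
  refine hx ⟨p, h0, ?_⟩
  rw [Polynomial.aeval_def]
  have h1 : algebraMap k (LaurentSeries k) = (HahnSeries.C : k →+* LaurentSeries k) :=
    RingHom.ext fun a => by
      rw [ModularCurve.algebraMap_laurentSeries_eq_single, HahnSeries.C_apply]
  rw [h1]
  exact hp

/-- a Laurent series `q⁻¹ w`, `w(0) = 1`, has order `-1`. -/
theorem lyd_order_single_mul {k : Type*} [Field k] (w : PowerSeries k)
    (hw : PowerSeries.constantCoeff w = 1) :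
    (HahnSeries.single (-1 : ℤ) (1 : k) * HahnSeries.ofPowerSeries ℤ k w).order = -1 := by
  have hcoeff : ∀ n : ℤ, (HahnSeries.single (-1 : ℤ) (1 : k) *
      HahnSeries.ofPowerSeries ℤ k w).coeff n = (HahnSeries.ofPowerSeries ℤ k w).coeff (n + 1) := by
    intro n
    have := HahnSeries.coeff_single_mul_add (r := (1 : k))
      (x := HahnSeries.ofPowerSeries ℤ k w) (a := n + 1) (b := (-1 : ℤ))
    rw [one_mul] at this
    rw [← this]
    congr 1
    ring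
  have h1 : (HahnSeries.single (-1 : ℤ) (1 : k) *
      HahnSeries.ofPowerSeries ℤ k w).coeff (-1) = 1 := by
    rw [hcoeff]
    have : ((-1 : ℤ) + 1) = ((0 : ℕ) : ℤ) := by norm_num
    rw [this, HahnSeries.ofPowerSeries_apply_coeff]
    simpa using hw
  have hne : HahnSeries.single (-1 : ℤ) (1 : k) * HahnSeries.ofPowerSeries ℤ k w ≠ 0 := by
    intro h0
    rw [h0, HahnSeries.coeff_zero] at h1
    exact zero_ne_one h1
  apply le_antisymm
  · apply HahnSeries.order_le_of_coeff_ne_zero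
    rw [h1]
    exact one_ne_zero
  · by_contra hlt
    rw [not_le] at hlt
    have h0 : (HahnSeries.single (-1 : ℤ) (1 : k) * HahnSeries.ofPowerSeries ℤ k w).coeff
        (HahnSeries.single (-1 : ℤ) (1 : k) * HahnSeries.ofPowerSeries ℤ k w).order = 0 := by
      rw [hcoeff]
      have h2 := PowerSeries.coeff_coe (R := k) w
        ((HahnSeries.single (-1 : ℤ) (1 : k) * HahnSeries.ofPowerSeries ℤ k w).order + 1)
      rw [if_pos (by omega)] at h2
      exact h2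
    rw [HahnSeries.coeff_order_eq_zero] at h0
    exact hne h0

end Adapters

section Closed

variable (ℓ e : ℕ) [Fact ℓ.Prime] [NeZero e] {h : 𝕃} (c : ℤ[X]) (N' M : ℕ) [NeZero N'] [NeZero M]
  (hLY : purb_LY e h N' = modularFunctionFieldFull M) (hℓM : ¬ ℓ ∣ M)
  (hj : jq ∈ purb_KY h) [FiniteDimensional ↥(purb_KY h) ↥(purb_LY e h N')]
  (hh : h ∈ gaussRing ℓ)
  (hcb : Polynomial.eval₂ (Int.castRingHom (LaurentSeries (ZMod ℓ))) (rho ℓ ⟨h, hh⟩) c ≠ 0)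

include hh hcb in
/-- `hB0` for the Gauss pair: `B₀ ⊆ W`. -/
theorem lyd_closed_hB0 (b : ↥(purb_B0 ℓ h c)) :
    algebraMap ↥(purb_B0 ℓ h c) ↥(purb_KY h) b ∈
      lyd_gW ℓ (lyd_val (purb_KY h)) (lyd_levelY_mem_frac_base ℓ e h N' M hLY) := by
  show lyd_val (purb_KY h) (algebraMap ↥(purb_B0 ℓ h c) ↥(purb_KY h) b) ∈ gaussRing ℓ
  rw [lyd_val_apply]
  exact puri_B0_mem_gaussRing hh c hcb b

include hh hcb in
/-- `hp` for the Gauss pair: `ρ ℓ = 0`. -/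
theorem lyd_closed_hp :
    lyd_gRhoRes ℓ (lyd_val (purb_KY h)) (lyd_levelY_mem_frac_base ℓ e h N' M hLY)
      ⟨algebraMap ↥(purb_B0 ℓ h c) ↥(purb_KY h) (ℓ : ↥(purb_B0 ℓ h c)),
        lyd_closed_hB0 ℓ e c N' M hLY hh hcb (ℓ : ↥(purb_B0 ℓ h c))⟩ = 0 := by
  apply Subtype.ext
  rw [lyd_gRhoRes_coe]
  have h1 : lyd_val (purb_KY h)
      (algebraMap ↥(purb_B0 ℓ h c) ↥(purb_KY h) (ℓ : ↥(purb_B0 ℓ h c))) = ((ℓ : ℕ) : 𝕃) := by
    rw [map_natCast, map_natCast]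
  have h2 : (⟨lyd_val (purb_KY h)
      (algebraMap ↥(purb_B0 ℓ h c) ↥(purb_KY h) (ℓ : ↥(purb_B0 ℓ h c))),
      lyd_closed_hB0 ℓ e c N' M hLY hh hcb (ℓ : ↥(purb_B0 ℓ h c))⟩ : gaussRing ℓ) =
      (ℓ : gaussRing ℓ) :=
    Subtype.ext (h1.trans (SubringClass.coe_natCast (gaussRing ℓ) ℓ).symm)
  rw [h2, gr_rho_natCast_self]
  rfl

variable (htr : Transcendental ℚ h) (hc : c ≠ 0)
  (htrb : ∀ p : (ZMod ℓ)[X],
    Polynomial.eval₂ (HahnSeries.C : ZMod ℓ →+* LaurentSeries (ZMod ℓ)) (rho ℓ ⟨h, hh⟩) p = 0 →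
      p = 0)

include hh hcb htr hc htrb in
/-- `hdvd` for the Gauss pair: an element of `B₀` with zero reduction is divisible by `ℓ`. -/
theorem lyd_closed_hdvd (b : ↥(purb_B0 ℓ h c))
    (hb : lyd_gRhoRes ℓ (lyd_val (purb_KY h)) (lyd_levelY_mem_frac_base ℓ e h N' M hLY)
      ⟨algebraMap ↥(purb_B0 ℓ h c) ↥(purb_KY h) b,
        lyd_closed_hB0 ℓ e c N' M hLY hh hcb b⟩ = 0) :
    (ℓ : ↥(purb_B0 ℓ h c)) ∣ b := by
  refine puri_B0_dvd_of_rho_eq_zero hh c hcb htr hc htrb b ?_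
  have h1 := congrArg Subtype.val hb
  rw [lyd_gRhoRes_coe] at h1
  exact h1

/-- `hker` for the Gauss pair (in `PuriLyd`'s shape). -/
theorem lyd_closed_hkerW
    (x : lyd_gW ℓ (lyd_val (purb_LY e h N')) (lyd_levelY_mem_frac ℓ e h N' M hLY))
    (hx : lyd_gRhoRes ℓ (lyd_val (purb_LY e h N')) (lyd_levelY_mem_frac ℓ e h N' M hLY) x = 0) :
    ∃ y : lyd_gW ℓ (lyd_val (purb_LY e h N')) (lyd_levelY_mem_frac ℓ e h N' M hLY),
      (x : ↥(purb_LY e h N')) =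
        algebraMap ↥(purb_B0 ℓ h c) ↥(purb_LY e h N') (ℓ : ↥(purb_B0 ℓ h c)) *
          (y : ↥(purb_LY e h N')) := by
  obtain ⟨y, hy⟩ := lyd_g_hker ℓ (lyd_val (purb_LY e h N'))
    (lyd_levelY_mem_frac ℓ e h N' M hLY) x hx
  refine ⟨y, ?_⟩
  rw [hy, map_natCast]

variable (hord : ¬ (ℓ : ℤ) ∣ (rho ℓ ⟨h, hh⟩).order)
  (hjb : jqModC (ZMod ℓ) ∈ (ZMod ℓ)⟮rho ℓ ⟨h, hh⟩⟯)
  (hjR : ∀ d : ℕ, [NeZero d] → d ∣ M →
      ∃ t : ↥(purb_RY ℓ e h c N'), nryp_incl ℓ e h c N' t = qExpand ℚ d jq)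

include hℓM hj hh hcb htr hc in
/-- `R_Y ⊆ W'` for the Gauss pair. -/
theorem lyd_closed_RY_mem (r : ↥(purb_RY ℓ e h c N')) :
    algebraMap ↥(purb_RY ℓ e h c N') ↥(purb_LY e h N') r ∈
      lyd_gW ℓ (lyd_val (purb_LY e h N')) (lyd_levelY_mem_frac ℓ e h N' M hLY) :=
  letI := lyd_gAlgebra ℓ (lyd_val (purb_KY h)) (lyd_levelY_mem_frac_base ℓ e h N' M hLY)
    (lyd_val (purb_LY e h N')) (lyd_levelY_mem_frac ℓ e h N' M hLY) (lyd_levelY_compat e h N')
  puri_RY_mem ℓ e c N' htr hc (lyd_levelY_redPair ℓ e h N' M hLY hℓM hj)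
    (lyd_closed_hB0 ℓ e c N' M hLY hh hcb) (lyd_closed_hp ℓ e c N' M hLY hh hcb) r

/-- the reduction on `R_Y`, as a ring hom into the Gauss residue field. -/
def lyd_closed_phi :
    ↥(purb_RY ℓ e h c N') →+*
      lyd_gRes ℓ (lyd_val (purb_LY e h N')) (lyd_levelY_mem_frac ℓ e h N' M hLY) :=
  (lyd_gRhoRes ℓ (lyd_val (purb_LY e h N')) (lyd_levelY_mem_frac ℓ e h N' M hLY)).comp
    ((algebraMap ↥(purb_RY ℓ e h c N') ↥(purb_LY e h N')).codRestrict
      (lyd_gW ℓ (lyd_val (purb_LY e h N')) (lyd_levelY_mem_frac ℓ e h N' M hLY))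
      (lyd_closed_RY_mem ℓ e c N' M hLY hℓM hj hh hcb htr hc))

theorem lyd_closed_phi_coe (r : ↥(purb_RY ℓ e h c N')) :
    ((lyd_closed_phi ℓ e c N' M hLY hℓM hj hh hcb htr hc r :
      lyd_gRes ℓ (lyd_val (purb_LY e h N')) (lyd_levelY_mem_frac ℓ e h N' M hLY)) :
      LaurentSeries (ZMod ℓ)) =
    rho ℓ ⟨nryp_incl ℓ e h c N' r,
      lyd_closed_RY_mem ℓ e c N' M hLY hℓM hj hh hcb htr hc r⟩ := rfl

include hjR in
/-- **`hspan`** for `R_Y`. -/
theorem lyd_closed_hspan :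
    @Submodule.span
      (lyd_gRes ℓ (lyd_val (purb_KY h)) (lyd_levelY_mem_frac_base ℓ e h N' M hLY))
      (lyd_gRes ℓ (lyd_val (purb_LY e h N')) (lyd_levelY_mem_frac ℓ e h N' M hLY)) _ _
      (lyd_gAlgebra ℓ (lyd_val (purb_KY h)) (lyd_levelY_mem_frac_base ℓ e h N' M hLY)
        (lyd_val (purb_LY e h N')) (lyd_levelY_mem_frac ℓ e h N' M hLY)
        (lyd_levelY_compat e h N')).toModule
      (Set.range fun r : ↥(purb_RY ℓ e h c N') =>
        lyd_gRhoRes ℓ (lyd_val (purb_LY e h N')) (lyd_levelY_mem_frac ℓ e h N' M hLY)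
          ⟨algebraMap ↥(purb_RY ℓ e h c N') ↥(purb_LY e h N') r,
            lyd_closed_RY_mem ℓ e c N' M hLY hℓM hj hh hcb htr hc r⟩) = ⊤ := by
  refine lyd_levelY_span_range_eq_top ℓ e h N' M hLY hℓM hj
    (lyd_closed_phi ℓ e c N' M hLY hℓM hj hh hcb htr hc) ?_
  intro d _ hd
  obtain ⟨t, ht⟩ := hjR d hd
  refine ⟨t, ?_⟩
  rw [lyd_closed_phi_coe]
  have h2 : (⟨nryp_incl ℓ e h c N' t,
      lyd_closed_RY_mem ℓ e c N' M hLY hℓM hj hh hcb htr hc t⟩ : gaussRing ℓ) =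
      ⟨qExpand ℚ d jq, jqd_mem_gaussRing ℓ d⟩ := Subtype.ext ht
  rw [h2, rho_jqd]

include hLY hℓM hj hh hcb htr hc hord hjb hjR in
/-- **(V) at level `Y`**, closed form. -/
theorem lyd_closed_HV : puri_HV ℓ e h c N' := by
  letI := lyd_gAlgebra ℓ (lyd_val (purb_KY h)) (lyd_levelY_mem_frac_base ℓ e h N' M hLY)
    (lyd_val (purb_LY e h N')) (lyd_levelY_mem_frac ℓ e h N' M hLY) (lyd_levelY_compat e h N')
  haveI := lyd_levelY_isSeparable ℓ e h N' M hLY hℓM hh hord hjb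
  exact puri_HV_of_redPair ℓ e c N' htr hc (lyd_levelY_redPair ℓ e h N' M hLY hℓM hj)
    (lyd_closed_hB0 ℓ e c N' M hLY hh hcb) (lyd_closed_hp ℓ e c N' M hLY hh hcb)
    (lyd_closed_hspan ℓ e c N' M hLY hℓM hj hh hcb htr hc hjR)

include hLY hℓM hj hh hcb htr hc htrb in
/-- **FACT 0 at level `Y`**, closed form: an element of `R_Y` with zero reduction lies in
`ℓ R_Y`. -/
theorem lyd_closed_mem_IR (x : ↥(purb_RY ℓ e h c N'))
    (hx : ∀ hm : nryp_incl ℓ e h c N' x ∈ gaussRing ℓ, rho ℓ ⟨nryp_incl ℓ e h c N' x, hm⟩ = 0) :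
    x ∈ puri_IR ℓ e h c N' := by
  letI := lyd_gAlgebra ℓ (lyd_val (purb_KY h)) (lyd_levelY_mem_frac_base ℓ e h N' M hLY)
    (lyd_val (purb_LY e h N')) (lyd_levelY_mem_frac ℓ e h N' M hLY) (lyd_levelY_compat e h N')
  refine puri_mem_IR_of_redPair ℓ e c N' htr hc (lyd_levelY_redPair ℓ e h N' M hLY hℓM hj)
    (lyd_closed_hB0 ℓ e c N' M hLY hh hcb) (lyd_closed_hp ℓ e c N' M hLY hh hcb)
    (lyd_closed_hdvd ℓ e c N' M hLY hh hcb htr hc htrb)
    (lyd_closed_hkerW ℓ e c N' M hLY) x ?_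
  apply Subtype.ext
  rw [lyd_gRhoRes_coe]
  exact hx _

include hLY hℓM hj hh hcb htr hc htrb in
/-- **`hker` at level `Y`**, in helper94's (`nryp_main`) / helper10's (`nrmo_HKer`) shape. -/
theorem lyd_closed_hker (hW : ∀ t, nryp_incl ℓ e h c N' t ∈ gaussRing ℓ)
    (t : ↥(purb_RY ℓ e h c N')) (ht : nry_rhoR (nryp_incl ℓ e h c N') hW t = 0) :
    ∃ t' : ↥(purb_RY ℓ e h c N'), t = (ℓ : ↥(purb_B0 ℓ h c)) • t' := by
  have hmem := lyd_closed_mem_IR ℓ e c N' M hLY hℓM hj hh hcb htr hc htrb t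
    (fun _ => ht)
  refine (puri_mkR_eq_zero_iff ℓ e h c N' t).mp ?_
  exact Ideal.Quotient.eq_zero_iff_mem.mpr hmem

include hLY hℓM hj hh hcb htr hc htrb in
/-- **(hprime) at level `Y`**: `ℓ R_Y` is a prime ideal. -/
theorem lyd_closed_IR_isPrime : (puri_IR ℓ e h c N').IsPrime := by
  letI := lyd_gAlgebra ℓ (lyd_val (purb_KY h)) (lyd_levelY_mem_frac_base ℓ e h N' M hLY)
    (lyd_val (purb_LY e h N')) (lyd_levelY_mem_frac ℓ e h N' M hLY) (lyd_levelY_compat e h N')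
  exact puri_IR_isPrime_of_redPair ℓ e c N' htr hc (lyd_levelY_redPair ℓ e h N' M hLY hℓM hj)
    (lyd_closed_hB0 ℓ e c N' M hLY hh hcb) (lyd_closed_hp ℓ e c N' M hLY hh hcb)
    (lyd_closed_hdvd ℓ e c N' M hLY hh hcb htr hc htrb)
    (lyd_closed_hkerW ℓ e c N' M hLY)

end Closed

end

end Fermat.Agent.S18x
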