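/-
S18x/LydClosedOdd.lean (helper29, NRM block row N4): the closed N4 corollaries for `ℓ` odd at
`(ℓ, e, h, c, N', M) = (ℓ, 2, purb_X3Q, purb_c3, 2N, 4N)`, in helper10's (`NrmFinalOdd`) shapes:

* `lyd_HV_X3`   : `puri_HV ℓ 2 purb_X3Q purb_c3 (2 * N)`;
* `lyd_HKer_X3` : `nrmo_HKer ℓ hl N`;
* `lyd_IR_isPrime_X3`.
-/
import Mathlib
import Fermat.Agent.S18x.LydClosed
import Fermat.Agent.S18x.NrmFinalOdd

set_option autoImplicit false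
set_option linter.style.haveILetI false
set_option linter.unusedSectionVars false
set_option synthInstance.maxHeartbeats 400000
set_option maxHeartbeats 1000000

namespace Fermat.Agent.S18x

open Fermat.Agent.S28x ModularCurve Module IntermediateField Polynomial

noncomputable section

variable (ℓ : ℕ) [Fact ℓ.Prime] (hl : ℓ ≠ 2) (N : ℕ) [NeZero N]

theorem lyd_order_X3 {k : Type*} [Field k] (h2 : IsUnit (2 : k)) : (purb_X3 h2).order = -1 :=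
  lyd_order_single_mul (purb_v3 h2) (purb_constantCoeff_v3 h2)

theorem lyd_hcb_X3 :
    Polynomial.eval₂ (Int.castRingHom (LaurentSeries (ZMod ℓ)))
      (rho ℓ ⟨purb_X3Q, lyn_X3Q_mem_gaussRing ℓ hl⟩) purb_c3 ≠ 0 := by
  rw [lyn_rho_X3Q ℓ hl]
  exact nycf_cval_X3F_ne_zero ℓ hl

theorem lyd_hord_X3 :
    ¬ (ℓ : ℤ) ∣ (rho ℓ ⟨purb_X3Q, lyn_X3Q_mem_gaussRing ℓ hl⟩).order := by
  rw [lyn_rho_X3Q ℓ hl, lyn_X3F, lyd_order_X3]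
  intro hd
  have h1 : (ℓ : ℤ) ∣ 1 := by
    obtain ⟨k, hk⟩ := hd
    exact ⟨-k, by rw [mul_neg, ← hk]; norm_num⟩
  have h2 : ℓ ∣ 1 := by exact_mod_cast h1
  exact (Fact.out : ℓ.Prime).one_lt.ne' (Nat.dvd_one.mp h2)

theorem lyd_hjb_X3 :
    jqModC (ZMod ℓ) ∈ (ZMod ℓ)⟮rho ℓ ⟨purb_X3Q, lyn_X3Q_mem_gaussRing ℓ hl⟩⟯ := by
  rw [lyn_rho_X3Q ℓ hl, lyn_X3F]
  exact bsf4_j_mem (lyn_isUnit_two_zmod ℓ hl)

theorem lyd_htrb_X3 (p : (ZMod ℓ)[X])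
    (hp : Polynomial.eval₂ (HahnSeries.C : ZMod ℓ →+* LaurentSeries (ZMod ℓ))
      (rho ℓ ⟨purb_X3Q, lyn_X3Q_mem_gaussRing ℓ hl⟩) p = 0) : p = 0 := by
  rw [lyn_rho_X3Q ℓ hl] at hp
  exact lyd_closed_htrb_of_transcendental (lyn_transcendental_X3F ℓ hl) p hp

include hl in
/-- **(V) at level `Y`, `ℓ` odd.** -/
theorem lyd_HV_X3 (hℓM : ¬ ℓ ∣ 4 * N) : puri_HV ℓ 2 purb_X3Q purb_c3 (2 * N) := by
  have hLY : purb_LY 2 purb_X3Q (2 * N) = modularFunctionFieldFull (4 * N) := bsf4_LY_eq N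
  haveI : FiniteDimensional ↥(purb_KY purb_X3Q) ↥(purb_LY 2 purb_X3Q (2 * N)) :=
    purf_finiteDimensional_X3Q (2 * N)
  haveI : Fact (Nat.Prime 2) := ⟨Nat.prime_two⟩
  refine lyd_closed_HV ℓ 2 purb_c3 (2 * N) (4 * N) hLY hℓM (bsf4_j_mem purb_isUnit_two_rat)
    (lyn_X3Q_mem_gaussRing ℓ hl) (lyd_hcb_X3 ℓ hl) lyn_transcendental_X3Q nycf_c3_ne_zero
    (lyd_hord_X3 ℓ hl) (lyd_hjb_X3 ℓ hl) ?_
  intro d _ hd
  exact nryj_jd_mem_RY ℓ 2 purb_X3Q purb_c3 (2 * N) (4 * N) hLY (nryj_hje_X3 ℓ) d hd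

/-- **`hker` at level `Y`, `ℓ` odd** (helper10's `nrmo_HKer`). -/
theorem lyd_HKer_X3 (hℓM : ¬ ℓ ∣ 4 * N) : nrmo_HKer ℓ hl N := by
  have hLY : purb_LY 2 purb_X3Q (2 * N) = modularFunctionFieldFull (4 * N) := bsf4_LY_eq N
  haveI : FiniteDimensional ↥(purb_KY purb_X3Q) ↥(purb_LY 2 purb_X3Q (2 * N)) :=
    purf_finiteDimensional_X3Q (2 * N)
  intro t ht
  exact lyd_closed_hker ℓ 2 purb_c3 (2 * N) (4 * N) hLY hℓM (bsf4_j_mem purb_isUnit_two_rat)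
    (lyn_X3Q_mem_gaussRing ℓ hl) (lyd_hcb_X3 ℓ hl) lyn_transcendental_X3Q nycf_c3_ne_zero
    (lyd_htrb_X3 ℓ hl) (nrmo_hW ℓ hl N) t ht

include hl in
/-- **(hprime) at level `Y`, `ℓ` odd.** -/
theorem lyd_IR_isPrime_X3 (hℓM : ¬ ℓ ∣ 4 * N) :
    (puri_IR ℓ 2 purb_X3Q purb_c3 (2 * N)).IsPrime := by
  have hLY : purb_LY 2 purb_X3Q (2 * N) = modularFunctionFieldFull (4 * N) := bsf4_LY_eq N
  haveI : FiniteDimensional ↥(purb_KY purb_X3Q) ↥(purb_LY 2 purb_X3Q (2 * N)) :=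
    purf_finiteDimensional_X3Q (2 * N)
  exact lyd_closed_IR_isPrime ℓ 2 purb_c3 (2 * N) (4 * N) hLY hℓM
    (bsf4_j_mem purb_isUnit_two_rat)
    (lyn_X3Q_mem_gaussRing ℓ hl) (lyd_hcb_X3 ℓ hl) lyn_transcendental_X3Q nycf_c3_ne_zero
    (lyd_htrb_X3 ℓ hl)

end

end Fermat.Agent.S18x
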