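/-
S18x/LydPuri46 (helper46, block NRM, N4 -> N6 glue; prefix `lyp46_`): the three "Gauss" inputs
`hW`, `hker`, `(V) = puri_HV` of helper94's `nryp_main`, GENERIC in `(ℓ, e, h, c, N', M)`, from
helper29's concrete reduction pair `lyd_levelY_redPair` (+ `lyd_levelY_isSeparable`,
`lyd_levelY_span_range_eq_top`, `lyd_g_hker`) through helper39's adapters `puri_RY_mem`,
`puri_mem_IR_of_redPair`, `puri_HV_of_redPair` and `puri_B0_mem_gaussRing`,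
`puri_B0_dvd_of_rho_eq_zero`:

* `lyp46_hW`   : `R_Y ⊆ gaussRing ℓ`                     (`hW` of `nryp_main`, literal shape);
* `lyp46_hker` : `ρ t = 0 → t ∈ ℓ R_Y`                   (`hker` of `nryp_main`, literal shape, any `hW`);
* `lyp46_HV`   : `puri_HV ℓ e h c N'`.

Closed instances:
* `ℓ` odd, `(2, X₃, X² - 64, 2N, 4N)`: `lyp46_HV_X3`, `lyp46_HKer_X3 : nrmo_HKer ℓ hl N`, and
  `lyp46_HY_odd : puri_HH ℓ 2 purb_X3Q purb_c3 (2N) → nrmt_HY (4N) A ℓ hℓM hA` (helper10's `nrmo_HY_of`);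
* `ℓ = 2`, `(3, μ, X³ - 27, 3N, 9N)`: `lyp46_hW_mu`, `lyp46_hker_mu`, `lyp46_HV_mu`.
-/
import Fermat.Agent.S18x.NrmYPuri
import Fermat.Agent.S18x.NrmYCoordFacts
import Fermat.Agent.S18x.NrmYJd
import Fermat.Agent.S18x.BaseIdentNineFin
import Fermat.Agent.S18x.BaseIdentF4
import Fermat.Agent.S18x.PuriSep
import Fermat.Agent.S18x.LydInst
import Fermat.Agent.S18x.LydLevelY
import Fermat.Agent.S18x.PuriLyd
import Fermat.Agent.S18x.PuriGauss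
import Fermat.Agent.S18x.NrmFinalOdd

set_option autoImplicit false
set_option synthInstance.maxHeartbeats 400000
set_option linter.style.haveILetI false
set_option linter.unusedSectionVars false

namespace Fermat.Agent.S18x

open ModularCurve HahnSeries Fermat.Agent.S28x Polynomial Module

noncomputable section

/-! ### generic in `(ℓ, e, h, c, N', M)` -/

section Generic

variable (ℓ e : ℕ) [Fact ℓ.Prime] [NeZero e] (h : LaurentSeries ℚ) (c : ℤ[X]) (N' M : ℕ)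
  [NeZero N'] [NeZero M]
  (hLY : purb_LY e h N' = modularFunctionFieldFull M) (hℓM : ¬ ℓ ∣ M) (hj : jq ∈ purb_KY h)
  [FiniteDimensional ↥(purb_KY h) ↥(purb_LY e h N')]
  (htr : Transcendental ℚ h) (hc : c ≠ 0)
  (hh : h ∈ gaussRing ℓ)
  (hcb : Polynomial.eval₂ (Int.castRingHom (LaurentSeries (ZMod ℓ))) (rho ℓ ⟨h, hh⟩) c ≠ 0)
  (htrb : ∀ p : (ZMod ℓ)[X],
    Polynomial.eval₂ (HahnSeries.C : ZMod ℓ →+* LaurentSeries (ZMod ℓ)) (rho ℓ ⟨h, hh⟩) p = 0 →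
      p = 0)

include hLY hh hcb

/-- `hB0` of helper39's `PuriLyd` for helper29's Gauss valuation ring of `K_Y`. -/
theorem lyp46_hB0 (b : ↥(purb_B0 ℓ h c)) :
    algebraMap ↥(purb_B0 ℓ h c) ↥(purb_KY h) b ∈
      lyd_gW ℓ (lyd_val (purb_KY h)) (lyd_levelY_mem_frac_base ℓ e h N' M hLY) :=
  puri_B0_mem_gaussRing hh c hcb b

/-- `hp` of helper39's `PuriLyd`: the reduction kills `ℓ`. -/
theorem lyp46_hp :
    lyd_gRhoRes ℓ (lyd_val (purb_KY h)) (lyd_levelY_mem_frac_base ℓ e h N' M hLY)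
      ⟨algebraMap ↥(purb_B0 ℓ h c) ↥(purb_KY h) (ℓ : ↥(purb_B0 ℓ h c)),
        lyp46_hB0 ℓ e h c N' M hLY hh hcb (ℓ : ↥(purb_B0 ℓ h c))⟩ = 0 := by
  apply Subtype.ext
  rw [lyd_gRhoRes_coe]
  have h1 : (⟨lyd_val (purb_KY h) (algebraMap ↥(purb_B0 ℓ h c) ↥(purb_KY h)
      (ℓ : ↥(purb_B0 ℓ h c))), lyp46_hB0 ℓ e h c N' M hLY hh hcb (ℓ : ↥(purb_B0 ℓ h c))⟩ :
      gaussRing ℓ) = (ℓ : gaussRing ℓ) := by
    apply Subtype.ext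
    simp
  show rho ℓ _ = 0
  rw [h1, gr_rho_natCast_self]

include hℓM hj htr hc

/-- **`hW`**: `R_Y` lies in the Gauss ring. -/
theorem lyp46_hW (t : ↥(purb_RY ℓ e h c N')) : nryp_incl ℓ e h c N' t ∈ gaussRing ℓ := by
  letI := lyd_gAlgebra ℓ (lyd_val (purb_KY h)) (lyd_levelY_mem_frac_base ℓ e h N' M hLY)
    (lyd_val (purb_LY e h N')) (lyd_levelY_mem_frac ℓ e h N' M hLY) (lyd_levelY_compat e h N')
  have H := lyd_levelY_redPair ℓ e h N' M hLY hℓM hj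
  exact puri_RY_mem ℓ e c N' htr hc H (lyp46_hB0 ℓ e h c N' M hLY hh hcb)
    (lyp46_hp ℓ e h c N' M hLY hh hcb) t

include htrb in
/-- **`hker`**: an element of `R_Y` with zero reduction lies in `ℓ R_Y` (for any proof `hW`). -/
theorem lyp46_hker (hW : ∀ t, nryp_incl ℓ e h c N' t ∈ gaussRing ℓ)
    (t : ↥(purb_RY ℓ e h c N')) (ht : nry_rhoR (nryp_incl ℓ e h c N') hW t = 0) :
    ∃ t' : ↥(purb_RY ℓ e h c N'), t = (ℓ : ↥(purb_B0 ℓ h c)) • t' := by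
  letI := lyd_gAlgebra ℓ (lyd_val (purb_KY h)) (lyd_levelY_mem_frac_base ℓ e h N' M hLY)
    (lyd_val (purb_LY e h N')) (lyd_levelY_mem_frac ℓ e h N' M hLY) (lyd_levelY_compat e h N')
  have H := lyd_levelY_redPair ℓ e h N' M hLY hℓM hj
  have hB0 := lyp46_hB0 ℓ e h c N' M hLY hh hcb
  have hp := lyp46_hp ℓ e h c N' M hLY hh hcb
  have hdvd : ∀ b : ↥(purb_B0 ℓ h c),
      lyd_gRhoRes ℓ (lyd_val (purb_KY h)) (lyd_levelY_mem_frac_base ℓ e h N' M hLY)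
        ⟨algebraMap ↥(purb_B0 ℓ h c) ↥(purb_KY h) b, hB0 b⟩ = 0 →
        (ℓ : ↥(purb_B0 ℓ h c)) ∣ b := by
    intro b hb
    apply puri_B0_dvd_of_rho_eq_zero hh c hcb htr hc htrb b
    have h2 := congrArg Subtype.val hb
    rw [lyd_gRhoRes_coe] at h2
    exact h2
  have hker' : ∀ x : lyd_gW ℓ (lyd_val (purb_LY e h N')) (lyd_levelY_mem_frac ℓ e h N' M hLY),
      lyd_gRhoRes ℓ (lyd_val (purb_LY e h N')) (lyd_levelY_mem_frac ℓ e h N' M hLY) x = 0 →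
      ∃ y : lyd_gW ℓ (lyd_val (purb_LY e h N')) (lyd_levelY_mem_frac ℓ e h N' M hLY),
        (x : ↥(purb_LY e h N')) =
          algebraMap ↥(purb_B0 ℓ h c) ↥(purb_LY e h N') (ℓ : ↥(purb_B0 ℓ h c)) *
            (y : ↥(purb_LY e h N')) := by
    intro x hx
    obtain ⟨y, hy⟩ := lyd_g_hker ℓ _ _ x hx
    exact ⟨y, by rw [hy, map_natCast]⟩
  have hmem := puri_mem_IR_of_redPair ℓ e c N' htr hc H hB0 hp hdvd hker' t (by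
    apply Subtype.ext
    rw [lyd_gRhoRes_coe]
    exact ht)
  exact (puri_mkR_eq_zero_iff ℓ e h c N' t).mp
    ((Ideal.Quotient.eq_zero_iff_mem (I := puri_IR ℓ e h c N') (a := t)).mpr hmem)

/-- **`(V)`** at level `Y`. -/
theorem lyp46_HV (hord : ¬ (ℓ : ℤ) ∣ (rho ℓ ⟨h, hh⟩).order)
    (hjb : jqModC (ZMod ℓ) ∈ IntermediateField.adjoin (ZMod ℓ) {rho ℓ ⟨h, hh⟩})
    (hjR : ∀ d : ℕ, [NeZero d] → d ∣ M →
      ∃ t : ↥(purb_RY ℓ e h c N'), nryp_incl ℓ e h c N' t = qExpand ℚ d jq) :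
    puri_HV ℓ e h c N' := by
  letI := lyd_gAlgebra ℓ (lyd_val (purb_KY h)) (lyd_levelY_mem_frac_base ℓ e h N' M hLY)
    (lyd_val (purb_LY e h N')) (lyd_levelY_mem_frac ℓ e h N' M hLY) (lyd_levelY_compat e h N')
  have H := lyd_levelY_redPair ℓ e h N' M hLY hℓM hj
  have hB0 := lyp46_hB0 ℓ e h c N' M hLY hh hcb
  have hp := lyp46_hp ℓ e h c N' M hLY hh hcb
  haveI := lyd_levelY_isSeparable ℓ e h N' M hLY hℓM hh hord hjb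
  have hmem := puri_RY_mem ℓ e c N' htr hc H hB0 hp
  refine puri_HV_of_redPair ℓ e c N' htr hc H hB0 hp ?_
  -- the ring hom `R_Y → Fb'`
  let φ : ↥(purb_RY ℓ e h c N') →+*
      lyd_gRes ℓ (lyd_val (purb_LY e h N')) (lyd_levelY_mem_frac ℓ e h N' M hLY) :=
    (lyd_gRhoRes ℓ (lyd_val (purb_LY e h N')) (lyd_levelY_mem_frac ℓ e h N' M hLY)).comp
      ((algebraMap ↥(purb_RY ℓ e h c N') ↥(purb_LY e h N')).codRestrict
        (lyd_gW ℓ (lyd_val (purb_LY e h N')) (lyd_levelY_mem_frac ℓ e h N' M hLY)).toSubring hmem)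
  have hspan := lyd_levelY_span_range_eq_top ℓ e h N' M hLY hℓM hj φ (fun d _ hd => by
    obtain ⟨t, ht⟩ := hjR d hd
    refine ⟨t, ?_⟩
    show rho ℓ ⟨nryp_incl ℓ e h c N' t, _⟩ = _
    rw [← rho_jqd ℓ d]
    exact nry_rho_congr ht _ _)
  exact hspan

end Generic

/-! ### `ℓ` odd: `(e, h, c, N', M) = (2, X₃, X² - 64, 2N, 4N)` -/

section Odd

variable (ℓ : ℕ) [Fact ℓ.Prime] (hl : ℓ ≠ 2) (N : ℕ) [NeZero N]

include hl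

theorem lyp46_hcb_X3 :
    Polynomial.eval₂ (Int.castRingHom (LaurentSeries (ZMod ℓ)))
      (rho ℓ ⟨purb_X3Q, lyn_X3Q_mem_gaussRing ℓ hl⟩) purb_c3 ≠ 0 := by
  rw [lyn_rho_X3Q ℓ hl]
  exact nycf_cval_X3F_ne_zero ℓ hl

theorem lyp46_htrb_X3 (p : (ZMod ℓ)[X])
    (hp : Polynomial.eval₂ (HahnSeries.C : ZMod ℓ →+* LaurentSeries (ZMod ℓ))
      (rho ℓ ⟨purb_X3Q, lyn_X3Q_mem_gaussRing ℓ hl⟩) p = 0) : p = 0 := by
  rw [lyn_rho_X3Q ℓ hl] at hp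
  exact puri_htrb_of_transcendental (lyn_transcendental_X3F ℓ hl) p hp

theorem lyp46_not_dvd_neg_one : ¬ (ℓ : ℤ) ∣ (-1 : ℤ) := by
  intro hd
  have h1 : (ℓ : ℤ) ∣ 1 := (Int.dvd_neg).mp hd
  have h2 : ℓ ∣ 1 := by exact_mod_cast h1
  exact (Fact.out : ℓ.Prime).one_lt.ne' (Nat.dvd_one.mp h2)

theorem lyp46_hord_X3 :
    ¬ (ℓ : ℤ) ∣ (rho ℓ ⟨purb_X3Q, lyn_X3Q_mem_gaussRing ℓ hl⟩).order := by
  rw [lyn_rho_X3Q ℓ hl]
  have h1 : (lyn_X3F ℓ hl).order = -1 := purs_order_X3 (lyn_isUnit_two_zmod ℓ hl)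
  rw [h1]
  exact lyp46_not_dvd_neg_one ℓ hl

theorem lyp46_hjb_X3 :
    jqModC (ZMod ℓ) ∈ IntermediateField.adjoin (ZMod ℓ)
      {rho ℓ ⟨purb_X3Q, lyn_X3Q_mem_gaussRing ℓ hl⟩} := by
  rw [lyn_rho_X3Q ℓ hl]
  exact bsf4_j_mem (lyn_isUnit_two_zmod ℓ hl)

omit [Fact ℓ.Prime] hl in
theorem lyp46_hj_X3 : jq ∈ purb_KY purb_X3Q := bsf4_j_mem purb_isUnit_two_rat

/-- **`(V)`, `ℓ` odd.** -/
theorem lyp46_HV_X3 (hℓM : ¬ ℓ ∣ 4 * N) : puri_HV ℓ 2 purb_X3Q purb_c3 (2 * N) := by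
  haveI : FiniteDimensional ↥(purb_KY purb_X3Q) ↥(purb_LY 2 purb_X3Q (2 * N)) :=
    purf_finiteDimensional_X3Q (2 * N)
  haveI : Fact (Nat.Prime 2) := ⟨Nat.prime_two⟩
  exact lyp46_HV ℓ 2 purb_X3Q purb_c3 (2 * N) (4 * N) (bsf4_LY_eq N) hℓM lyp46_hj_X3
    lyn_transcendental_X3Q nycf_c3_ne_zero (lyn_X3Q_mem_gaussRing ℓ hl) (lyp46_hcb_X3 ℓ hl)
    (lyp46_hord_X3 ℓ hl) (lyp46_hjb_X3 ℓ hl)
    (fun d _ hd => nryj_jd_mem_RY ℓ 2 purb_X3Q purb_c3 (2 * N) (4 * N) (bsf4_LY_eq N)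
      (nryj_hje_X3 ℓ) d hd)

/-- **`hker`, `ℓ` odd**, in helper10's literal shape. -/
theorem lyp46_HKer_X3 (hℓM : ¬ ℓ ∣ 4 * N) : nrmo_HKer ℓ hl N := by
  haveI : FiniteDimensional ↥(purb_KY purb_X3Q) ↥(purb_LY 2 purb_X3Q (2 * N)) :=
    purf_finiteDimensional_X3Q (2 * N)
  intro t ht
  exact lyp46_hker ℓ 2 purb_X3Q purb_c3 (2 * N) (4 * N) (bsf4_LY_eq N) hℓM lyp46_hj_X3
    lyn_transcendental_X3Q nycf_c3_ne_zero (lyn_X3Q_mem_gaussRing ℓ hl) (lyp46_hcb_X3 ℓ hl)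
    (lyp46_htrb_X3 ℓ hl) (nrmo_hW ℓ hl N) t ht

/-- **`hY` at level `4N`, `ℓ` odd, from `(H)` alone.** -/
theorem lyp46_HY_odd (A : ValuationSubring (AlgebraicClosure ℚ)) (hA : A.LiesOverPrime ℓ)
    (hℓM : ¬ ℓ ∣ 4 * N) (hH : puri_HH ℓ 2 purb_X3Q purb_c3 (2 * N)) :
    nrmt_HY (4 * N) A ℓ hℓM hA :=
  nrmo_HY_of ℓ hl N A hA hℓM (lyp46_HV_X3 ℓ hl N hℓM) hH (lyp46_HKer_X3 ℓ hl N hℓM)

end Odd

/-! ### `ℓ = 2`: `(e, h, c, N', M) = (3, μ, X³ - 27, 3N, 9N)` -/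

section Two

variable (N : ℕ) [NeZero N]

theorem lyp46_hcb_mu :
    Polynomial.eval₂ (Int.castRingHom (LaurentSeries (ZMod 2)))
      (rho 2 ⟨lyn_muQ, lyn_muQ_mem_gaussRing⟩) lyn_c2 ≠ 0 := by
  rw [lyn_rho_muQ]
  exact nycf_cval_muF_ne_zero

theorem lyp46_htrb_mu (p : (ZMod 2)[X])
    (hp : Polynomial.eval₂ (HahnSeries.C : ZMod 2 →+* LaurentSeries (ZMod 2))
      (rho 2 ⟨lyn_muQ, lyn_muQ_mem_gaussRing⟩) p = 0) : p = 0 := by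
  rw [lyn_rho_muQ] at hp
  exact puri_htrb_of_transcendental lyn_transcendental_muF p hp

theorem lyp46_hord_mu :
    ¬ ((2 : ℕ) : ℤ) ∣ (rho 2 ⟨lyn_muQ, lyn_muQ_mem_gaussRing⟩).order := by
  rw [lyn_rho_muQ]
  have h1 : lyn_muF.order = -1 := bsn_order_mu lyn_isUnit_three_zmod2
  rw [h1]
  decide

theorem lyp46_hjb_mu :
    jqModC (ZMod 2) ∈ IntermediateField.adjoin (ZMod 2)
      {rho 2 ⟨lyn_muQ, lyn_muQ_mem_gaussRing⟩} := by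
  rw [lyn_rho_muQ]
  exact bsn_jq_mem lyn_isUnit_three_zmod2

theorem lyp46_hj_mu : jq ∈ purb_KY lyn_muQ := bsn_jq_mem lyn_isUnit_three_rat

/-- **`hW`, `ℓ = 2`.** -/
theorem lyp46_hW_mu (h2 : ¬ 2 ∣ 9 * N) (t : ↥(purb_RY 2 3 lyn_muQ lyn_c2 (3 * N))) :
    nryp_incl 2 3 lyn_muQ lyn_c2 (3 * N) t ∈ gaussRing 2 := by
  haveI : FiniteDimensional ↥(purb_KY lyn_muQ) ↥(purb_LY 3 lyn_muQ (3 * N)) :=
    bsn_lyn_finiteDimensional N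
  exact lyp46_hW 2 3 lyn_muQ lyn_c2 (3 * N) (9 * N) (bsn_lyn_L2_eq N) h2 lyp46_hj_mu
    lyn_transcendental_muQ nycf_c2_ne_zero lyn_muQ_mem_gaussRing lyp46_hcb_mu t

/-- **`hker`, `ℓ = 2`**, literal shape of `nryp_main` (any `hW`). -/
theorem lyp46_hker_mu (h2 : ¬ 2 ∣ 9 * N)
    (hW : ∀ t, nryp_incl 2 3 lyn_muQ lyn_c2 (3 * N) t ∈ gaussRing 2)
    (t : ↥(purb_RY 2 3 lyn_muQ lyn_c2 (3 * N)))
    (ht : nry_rhoR (nryp_incl 2 3 lyn_muQ lyn_c2 (3 * N)) hW t = 0) :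
    ∃ t' : ↥(purb_RY 2 3 lyn_muQ lyn_c2 (3 * N)),
      t = ((2 : ℕ) : ↥(purb_B0 2 lyn_muQ lyn_c2)) • t' := by
  haveI : FiniteDimensional ↥(purb_KY lyn_muQ) ↥(purb_LY 3 lyn_muQ (3 * N)) :=
    bsn_lyn_finiteDimensional N
  exact lyp46_hker 2 3 lyn_muQ lyn_c2 (3 * N) (9 * N) (bsn_lyn_L2_eq N) h2 lyp46_hj_mu
    lyn_transcendental_muQ nycf_c2_ne_zero lyn_muQ_mem_gaussRing lyp46_hcb_mu lyp46_htrb_mu hW t ht

/-- **`(V)`, `ℓ = 2`.** -/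
theorem lyp46_HV_mu (h2 : ¬ 2 ∣ 9 * N) : puri_HV 2 3 lyn_muQ lyn_c2 (3 * N) := by
  haveI : FiniteDimensional ↥(purb_KY lyn_muQ) ↥(purb_LY 3 lyn_muQ (3 * N)) :=
    bsn_lyn_finiteDimensional N
  exact lyp46_HV 2 3 lyn_muQ lyn_c2 (3 * N) (9 * N) (bsn_lyn_L2_eq N) h2 lyp46_hj_mu
    lyn_transcendental_muQ nycf_c2_ne_zero lyn_muQ_mem_gaussRing lyp46_hcb_mu
    lyp46_hord_mu lyp46_hjb_mu
    (fun d _ hd => nryj_jd_mem_RY 2 3 lyn_muQ lyn_c2 (3 * N) (9 * N) (bsn_lyn_L2_eq N)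
      (nryj_hje_mu 2) d hd)

end Two

end

end Fermat.Agent.S18x
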