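import Fermat.Agent.S18x.LydSpan
import Fermat.Agent.S18x.LevelYDefs
import Fermat.Agent.S28x.ModPolyConsFinal
import Fermat.Agent.S28x.GaussRing

/-!
# S18x / NRM row N4: the `hspan` input of `lyd_hV` on the level-`Y` objects (prefix `lyds_`)

For helper28's `LevelYDefs` objects (`K_Y = ℚ(h)`, `F_Y = F_N(q^e)·ℚ(h)`, `B₀ = ℤ_(ℓ)[h, 1/c(h)]`,
`R_Y` = integral closure of `B₀` in `F_Y`, and the characteristic-`ℓ` twins):

if `j(q^e) ∈ B₀` then every `j(q^{e d})`, `d ∣ N`, lies in `R_Y` (`lyds_isIntegral_gen`), and hence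
for ANY map `φ : R_Y → F̄_Y` which is "the reduction" (`φ r = ρ(r)` as Laurent series) the
`K̄_Y`-span of the range of `φ` is everything (`lyds_hspan_levelY`).
-/

set_option autoImplicit false
set_option synthInstance.maxHeartbeats 400000
set_option linter.unusedSectionVars false

noncomputable section

namespace Fermat.Agent.S18x

open ModularCurve Fermat.Agent.S28x Polynomial

/-- the two-variable modular relation between `j(q^e)` and `j(q^{e d})` over `ℚ`, with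
`ℤ`-coefficients -/
theorem lyds_exists_monic_jqed (e d : ℕ) [NeZero e] [NeZero d] :
    ∃ P : Polynomial (Polynomial ℤ), P.Monic ∧
      P.eval₂ (Polynomial.eval₂RingHom (Int.castRingHom (LaurentSeries ℚ)) (qExpand ℚ e jq))
        (qExpand ℚ (e * d) jq) = 0 := by
  obtain ⟨P, hPm, hP⟩ := mpcf_exists_monic_jqd ℤ d
  refine ⟨P, hPm, ?_⟩
  let Θ : LaurentSeries ℤ →+* LaurentSeries ℚ :=
    (qExpand ℚ e).comp (coeffMap (Int.castRingHom ℚ))
  have h1 := congrArg Θ hP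
  rw [Polynomial.hom_eval₂, map_zero] at h1
  have hJ : Θ (jqModC ℤ) = qExpand ℚ e jq := by
    simp only [Θ, RingHom.comp_apply, coeffMap_jqModC, jqModC_rat]
  have hJd : Θ (qExpand ℤ d (jqModC ℤ)) = qExpand ℚ (e * d) jq := by
    simp only [Θ, RingHom.comp_apply, coeffMap_qExpand, coeffMap_jqModC, jqModC_rat,
      qExpand_qExpand]
  have hcomp : Θ.comp (Polynomial.aeval (R := ℤ) (jqModC ℤ)).toRingHom =
      Polynomial.eval₂RingHom (Int.castRingHom (LaurentSeries ℚ)) (qExpand ℚ e jq) := by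
    apply Polynomial.ringHom_ext'
    · exact RingHom.ext_int _ _
    · simp [hJ]
  rw [hcomp, hJd] at h1
  exact h1

section levelY

variable (ℓ e : ℕ) [NeZero e] (h : LaurentSeries ℚ) (c : Polynomial ℤ) (N : ℕ) [NeZero N]

/-- `j(q^{e d}) ∈ F_N(q^e) ≤ F_Y` for `d ∣ N` -/
theorem lyds_gen_mem_LY {d : ℕ} [NeZero d] (hd : d ∣ N) :
    qExpand ℚ (e * d) jq ∈ purb_LY e h N := by
  apply purb_FNe_le_LY e h N
  rw [purb_FNe, IntermediateField.mem_map]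
  refine ⟨qExpand ℚ d jq, jqd_mem_full N hd, ?_⟩
  show qExpand ℚ e (qExpand ℚ d jq) = _
  rw [qExpand_qExpand]

/-- if `j(q^e) ∈ B₀`, every element of `F_Y` with expansion `j(q^{e d})` is integral over `B₀` -/
theorem lyds_isIntegral_gen (bJ : ↥(purb_B0 ℓ h c))
    (hbJ : ((bJ : ↥(purb_KY h)) : LaurentSeries ℚ) = qExpand ℚ e jq)
    (d : ℕ) [NeZero d] (x : ↥(purb_LY e h N))
    (hx : (x : LaurentSeries ℚ) = qExpand ℚ (e * d) jq) :
    IsIntegral ↥(purb_B0 ℓ h c) x := by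
  obtain ⟨P, hPm, hP⟩ := lyds_exists_monic_jqed e d
  let g : Polynomial ℤ →+* ↥(purb_B0 ℓ h c) :=
    Polynomial.eval₂RingHom (Int.castRingHom _) bJ
  refine ⟨P.map g, hPm.map g, ?_⟩
  rw [Polynomial.eval₂_map]
  apply Subtype.ext
  have h1 := Polynomial.hom_eval₂ P
    ((algebraMap ↥(purb_B0 ℓ h c) ↥(purb_LY e h N)).comp g)
    (purb_LY e h N).toSubring.subtype x
  have hcomp : ((purb_LY e h N).toSubring.subtype).comp
      ((algebraMap ↥(purb_B0 ℓ h c) ↥(purb_LY e h N)).comp g) =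
      Polynomial.eval₂RingHom (Int.castRingHom (LaurentSeries ℚ)) (qExpand ℚ e jq) := by
    apply Polynomial.ringHom_ext'
    · exact RingHom.ext_int _ _
    · simp only [RingHom.comp_apply, g, Polynomial.coe_eval₂RingHom, Polynomial.eval₂_X]
      exact hbJ
  rw [hcomp] at h1
  have h2 : ((purb_LY e h N).toSubring.subtype) x = qExpand ℚ (e * d) jq := hx
  rw [h2, hP] at h1
  exact h1

end levelY

section main

variable (ℓ e : ℕ) [Fact ℓ.Prime] [NeZero e] (h : LaurentSeries ℚ) (c : Polynomial ℤ)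
  (N : ℕ) [NeZero N] (hb : LaurentSeries (ZMod ℓ))

/-- `j̄(q^{e d}) ∈ F̄_Y` for `d ∣ N` -/
theorem lyds_genb_mem_LYb {d : ℕ} [NeZero d] (hd : d ∣ N) :
    qExpand (ZMod ℓ) (e * d) (jqModC (ZMod ℓ)) ∈ purb_LYb ℓ e hb N := by
  apply purb_FNeb_le_LYb ℓ e hb N
  rw [purb_FNeb, IntermediateField.mem_map]
  refine ⟨qExpand (ZMod ℓ) d (jqModC (ZMod ℓ)), jqModCd_mem_full (ZMod ℓ) N hd, ?_⟩
  show qExpand (ZMod ℓ) e (qExpand (ZMod ℓ) d (jqModC (ZMod ℓ))) = _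
  rw [qExpand_qExpand]

/-- the generators `j̄(q^{e d})`, `d ∣ N`, as a subset of `F̄_Y` -/
def lyds_G : Set ↥(purb_LYb ℓ e hb N) :=
  {x | ∃ (d : ℕ) (_ : NeZero d), d ∣ N ∧
    (x : LaurentSeries (ZMod ℓ)) = qExpand (ZMod ℓ) (e * d) (jqModC (ZMod ℓ))}

/-- `F̄_Y = K̄_Y(j̄(q^{e d}) : d ∣ N)` -/
theorem lyds_adjoin_G : IntermediateField.adjoin ↥(purb_KYb ℓ hb) (lyds_G ℓ e N hb) = ⊤ := by
  set E := IntermediateField.adjoin ↥(purb_KYb ℓ hb) (lyds_G ℓ e N hb) with hE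
  -- the image of `E` in `𝔽_ℓ((q))`
  let F₁ : IntermediateField (ZMod ℓ) (LaurentSeries (ZMod ℓ)) :=
    { carrier := {y | ∃ x : ↥(purb_LYb ℓ e hb N), x ∈ E ∧ (x : LaurentSeries (ZMod ℓ)) = y}
      mul_mem' := by
        rintro _ _ ⟨x, hx, rfl⟩ ⟨x', hx', rfl⟩
        exact ⟨x * x', E.mul_mem hx hx', rfl⟩
      one_mem' := ⟨1, E.one_mem, rfl⟩
      add_mem' := by
        rintro _ _ ⟨x, hx, rfl⟩ ⟨x', hx', rfl⟩
        exact ⟨x + x', E.add_mem hx hx', rfl⟩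
      zero_mem' := ⟨0, E.zero_mem, rfl⟩
      algebraMap_mem' := fun r =>
        ⟨algebraMap ↥(purb_KYb ℓ hb) ↥(purb_LYb ℓ e hb N)
          (algebraMap (ZMod ℓ) ↥(purb_KYb ℓ hb) r), E.algebraMap_mem _, rfl⟩
      inv_mem' := by
        rintro _ ⟨x, hx, rfl⟩
        exact ⟨x⁻¹, E.inv_mem hx, rfl⟩ }
  have hmemF₁ : ∀ y : LaurentSeries (ZMod ℓ), y ∈ F₁ ↔
      ∃ x : ↥(purb_LYb ℓ e hb N), x ∈ E ∧ (x : LaurentSeries (ZMod ℓ)) = y := fun y => Iff.rfl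
  have hle : purb_LYb ℓ e hb N ≤ F₁ := by
    apply sup_le
    · -- `F̄_N(q^e) ≤ F₁`
      rw [purb_FNeb, modularFunctionFieldFullC, IntermediateField.adjoin_map,
        IntermediateField.adjoin_le_iff]
      rintro _ ⟨_, ⟨d, hd0, hd, rfl⟩, rfl⟩
      have := hd0
      rw [SetLike.mem_coe, hmemF₁]
      have hmem := lyds_genb_mem_LYb ℓ e N hb hd
      refine ⟨⟨_, hmem⟩, IntermediateField.subset_adjoin _ _ ⟨d, hd0, hd, rfl⟩, ?_⟩
      show _ = qExpand (ZMod ℓ) e (qExpand (ZMod ℓ) d (jqModC (ZMod ℓ)))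
      rw [qExpand_qExpand]
    · -- `K̄_Y ≤ F₁`
      rw [purb_KYb, IntermediateField.adjoin_le_iff]
      intro y hy
      rw [Set.mem_singleton_iff] at hy
      rw [hy, SetLike.mem_coe, hmemF₁]
      refine ⟨algebraMap ↥(purb_KYb ℓ hb) ↥(purb_LYb ℓ e hb N)
        ⟨hb, IntermediateField.mem_adjoin_simple_self _ hb⟩, E.algebraMap_mem _, rfl⟩
  apply top_unique
  intro x _
  obtain ⟨x', hx'E, hx'⟩ := (hmemF₁ _).mp (hle x.2)
  have : x' = x := Subtype.ext hx'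
  rw [← this]
  exact hx'E

/-- **concrete `hspan`**: if `j(q^e) ∈ B₀`, the reductions of the elements of `R_Y` span `F̄_Y` over
`K̄_Y`.  `φ` is ANY map `R_Y → F̄_Y` given on expansions by the Gauss reduction `ρ`. -/
theorem lyds_hspan_levelY
    [Algebra.IsAlgebraic ↥(purb_KYb ℓ hb) ↥(purb_LYb ℓ e hb N)]
    (hJ : ∃ bJ : ↥(purb_B0 ℓ h c), ((bJ : ↥(purb_KY h)) : LaurentSeries ℚ) = qExpand ℚ e jq)
    (φ : ↥(purb_RY ℓ e h c N) → ↥(purb_LYb ℓ e hb N))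
    (hφ : ∀ r : ↥(purb_RY ℓ e h c N),
      ∃ hr : (((r : ↥(purb_LY e h N)) : LaurentSeries ℚ)) ∈ gaussRing ℓ,
        ((φ r : ↥(purb_LYb ℓ e hb N)) : LaurentSeries (ZMod ℓ)) = rho ℓ ⟨_, hr⟩) :
    Submodule.span ↥(purb_KYb ℓ hb) (Set.range φ) = ⊤ := by
  obtain ⟨bJ, hbJ⟩ := hJ
  -- `φ` is a ring homomorphism
  have hval : ∀ (r : ↥(purb_RY ℓ e h c N))
      (hr : (((r : ↥(purb_LY e h N)) : LaurentSeries ℚ)) ∈ gaussRing ℓ),
      ((φ r : ↥(purb_LYb ℓ e hb N)) : LaurentSeries (ZMod ℓ)) = rho ℓ ⟨_, hr⟩ := by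
    intro r hr
    obtain ⟨hr', h'⟩ := hφ r
    exact h'
  let ψ : ↥(purb_RY ℓ e h c N) →+* ↥(purb_LYb ℓ e hb N) :=
    { toFun := φ
      map_one' := by
        apply Subtype.ext
        obtain ⟨hr, h1⟩ := hφ 1
        rw [h1]
        have : (⟨_, hr⟩ : gaussRing ℓ) = 1 := Subtype.ext (by simp)
        rw [this, map_one]; rfl
      map_zero' := by
        apply Subtype.ext
        obtain ⟨hr, h1⟩ := hφ 0
        rw [h1]
        have : (⟨_, hr⟩ : gaussRing ℓ) = 0 := Subtype.ext (by simp)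
        rw [this, map_zero]; rfl
      map_mul' := by
        intro r s
        apply Subtype.ext
        obtain ⟨hr, h1⟩ := hφ r
        obtain ⟨hs, h2⟩ := hφ s
        obtain ⟨hrs, h3⟩ := hφ (r * s)
        rw [h3]
        have : (⟨_, hrs⟩ : gaussRing ℓ) = ⟨_, hr⟩ * ⟨_, hs⟩ := Subtype.ext (by simp)
        rw [this, map_mul, ← h1, ← h2]; rfl
      map_add' := by
        intro r s
        apply Subtype.ext
        obtain ⟨hr, h1⟩ := hφ r
        obtain ⟨hs, h2⟩ := hφ s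
        obtain ⟨hrs, h3⟩ := hφ (r + s)
        rw [h3]
        have : (⟨_, hrs⟩ : gaussRing ℓ) = ⟨_, hr⟩ + ⟨_, hs⟩ := Subtype.ext (by simp)
        rw [this, map_add, ← h1, ← h2]; rfl }
  have hrange : Set.range φ = Set.range ψ := rfl
  rw [hrange]
  refine lyds_span_range_eq_top ψ (lyds_G ℓ e N hb) ?_ (lyds_adjoin_G ℓ e N hb)
  rintro g ⟨d, hd0, hd, hg⟩
  have := hd0
  -- the lift of the generator
  let x : ↥(purb_LY e h N) := ⟨qExpand ℚ (e * d) jq, lyds_gen_mem_LY e h N hd⟩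
  have hxint : IsIntegral ↥(purb_B0 ℓ h c) x := lyds_isIntegral_gen ℓ e h c N bJ hbJ d x rfl
  refine ⟨⟨x, hxint⟩, ?_⟩
  apply Subtype.ext
  show ((φ ⟨x, hxint⟩ : ↥(purb_LYb ℓ e hb N)) : LaurentSeries (ZMod ℓ)) = _
  rw [hval ⟨x, hxint⟩ (jqd_mem_gaussRing ℓ (e * d)), hg]
  exact rho_jqd ℓ (e * d)

end main

/-! ### the hypothesis `hJ` (`j(q^e) ∈ B₀`) from an identity `P(h) = j(q^e) · c(h)^n` -/

section hJ

variable (ℓ e : ℕ) [NeZero e] (h : LaurentSeries ℚ) (c : Polynomial ℤ)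

/-- expansion of `aeval h_K P` for an integer polynomial `P` -/
theorem lyds_coe_aeval_hK (P : Polynomial ℤ) :
    ((Polynomial.aeval (purb_hK h) P : ↥(purb_KY h)) : LaurentSeries ℚ) =
      P.eval₂ (Int.castRingHom (LaurentSeries ℚ)) h := by
  have h1 := Polynomial.hom_eval₂ P (algebraMap ℤ ↥(purb_KY h)) (purb_KY h).toSubring.subtype
    (purb_hK h)
  have h2 : ((purb_KY h).toSubring.subtype).comp (algebraMap ℤ ↥(purb_KY h)) =
      Int.castRingHom (LaurentSeries ℚ) := RingHom.ext_int _ _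
  rw [h2] at h1
  rw [Polynomial.aeval_def]
  exact h1

/-- `aeval h_K P ∈ B₀` for an integer polynomial `P` -/
theorem lyds_aeval_hK_mem_B0 (P : Polynomial ℤ) :
    Polynomial.aeval (purb_hK h) P ∈ purb_B0 ℓ h c := by
  rw [Polynomial.aeval_def, Polynomial.eval₂_eq_sum_range]
  refine Subring.sum_mem _ fun i _ => ?_
  refine Subring.mul_mem _ ?_ (Subring.pow_mem _ (purb_hK_mem_B0 ℓ h c) i)
  rw [eq_intCast]
  exact intCast_mem _ _

/-- **`hJ` from an identity** `P(h) = j(q^e) · c(h)^n` with `c(h) ≠ 0` -/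
theorem lyds_hJ_of_identity (P : Polynomial ℤ) (n : ℕ)
    (hid : P.eval₂ (Int.castRingHom (LaurentSeries ℚ)) h =
      qExpand ℚ e jq * (c.eval₂ (Int.castRingHom (LaurentSeries ℚ)) h) ^ n)
    (hc0 : c.eval₂ (Int.castRingHom (LaurentSeries ℚ)) h ≠ 0) :
    ∃ bJ : ↥(purb_B0 ℓ h c), ((bJ : ↥(purb_KY h)) : LaurentSeries ℚ) = qExpand ℚ e jq := by
  have hmem : Polynomial.aeval (purb_hK h) P * ((purb_cK h c)⁻¹) ^ n ∈ purb_B0 ℓ h c :=
    Subring.mul_mem _ (lyds_aeval_hK_mem_B0 ℓ h c P)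
      (Subring.pow_mem _ (purb_cK_inv_mem_B0 ℓ h c) n)
  refine ⟨⟨_, hmem⟩, ?_⟩
  have hcK : ((purb_cK h c : ↥(purb_KY h)) : LaurentSeries ℚ) =
      c.eval₂ (Int.castRingHom (LaurentSeries ℚ)) h := lyds_coe_aeval_hK h c
  show ((Polynomial.aeval (purb_hK h) P * ((purb_cK h c)⁻¹) ^ n : ↥(purb_KY h)) :
    LaurentSeries ℚ) = _
  push_cast
  rw [lyds_coe_aeval_hK, hcK, hid, mul_assoc, ← mul_pow, mul_inv_cancel₀ hc0, one_pow, mul_one]

end hJ

/-- `hJ` for the `λ`-line coordinate: `j(q²) ∈ ℤ_(ℓ)[X₃, 1/(X₃² - 64)]` -/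
theorem lyds_hJ_X3Q (ℓ : ℕ) :
    ∃ bJ : ↥(purb_B0 ℓ purb_X3Q purb_c3),
      ((bJ : ↥(purb_KY purb_X3Q)) : LaurentSeries ℚ) = qExpand ℚ 2 jq := by
  have hc : purb_c3.eval₂ (Int.castRingHom (LaurentSeries ℚ)) purb_X3Q = purb_X3Q ^ 2 - 64 := by
    simp [purb_c3]
  have hP : ((Polynomial.X ^ 2 + 192) ^ 3 : Polynomial ℤ).eval₂
      (Int.castRingHom (LaurentSeries ℚ)) purb_X3Q = (purb_X3Q ^ 2 + 192) ^ 3 := by
    rw [Polynomial.eval₂_pow, Polynomial.eval₂_add, Polynomial.eval₂_pow, Polynomial.eval₂_X]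
    congr 2
    exact Polynomial.eval₂_ofNat _ _ _
  refine lyds_hJ_of_identity ℓ 2 purb_X3Q purb_c3 ((Polynomial.X ^ 2 + 192) ^ 3) 2 ?_ ?_
  · rw [hc, hP]
    exact purb_X3Q_identity
  · rw [hc]
    intro h0
    have h1 := purb_X3Q_identity
    rw [h0] at h1
    have h2 : purb_X3Q ^ 2 + 192 = 0 := by
      have : (purb_X3Q ^ 2 + 192) ^ 3 = 0 := by rw [h1]; ring
      exact pow_eq_zero_iff (by norm_num) |>.mp this
    have h3 : (256 : LaurentSeries ℚ) = 0 := by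
      have : (purb_X3Q ^ 2 + 192) - (purb_X3Q ^ 2 - 64) = 256 := by ring
      rw [← this, h2, h0, sub_zero]
    have : CharZero (LaurentSeries ℚ) := algebraRat.charZero _
    exact absurd h3 (by norm_num)

end Fermat.Agent.S18x
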