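/-
S18x/ModIdTwoDual (helper11, row B1.0 addendum): the dual (Fricke side) level-2 modular identity
`E₄(q²)³ Δ Δ(q²) = (Δ + 16 Δ(q²))³`, i.e. `j(q²) · h = (h + 16)³` for `h = Δ(q)/Δ(q²)`.
Same method as `ModIdTwo`: Sturm bound on `Γ₀(2)` in weight 36 + truncated arithmetic mod `X^10`.
-/
import Mathlib
import Fermat.Agent.S18x.ModIdTwo

set_option autoImplicit false

noncomputable section

namespace Fermat.Agent.S18x

open PowerSeries

/-- `E₄(X²)` -/
def mid2_E2 : PowerSeries ℤ := expand 2 two_ne_zero ModularCurve.eisenstein4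

theorem mid2_q_E2 : mid2_q mid2_E2 = mid2_q (mid2_poly [1, 0, 240, 0, 2160, 0, 6720, 0, 17520, 0]) := by
  apply mid2_q_poly_of_coeff
  intro m hm
  rw [mid2_E2, coeff_expand, ModularCurve.eisenstein4, coeff_mk]
  interval_cases m <;> decide

theorem mid2_final_id_dual :
    mid2_poly [1, 0, 240, 0, 2160, 0, 6720, 0, 17520, 0] ^ 3 *
        mid2_poly [0, 1, -24, 252, -1472, 4830, -6048, -16744, 84480, -113643] *
        mid2_poly [0, 0, 1, 0, -24, 0, 252, 0, -1472, 0] -
      (mid2_poly [0, 1, -24, 252, -1472, 4830, -6048, -16744, 84480, -113643] +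
        16 * mid2_poly [0, 0, 1, 0, -24, 0, 252, 0, -1472, 0]) ^ 3 =
      mid2_poly [] + X ^ 10 *
        mid2_poly [0, -4830, 115920, -1855488, 80748480, -366254224, 20900838624, -123810446112, 2506444728960, -21575312025879, 143972101487832, -838529341799732, 3624576785737152, -12648673850545482, 37314038642512544, -90608620660985736, 175987227958838784, -268384261551522093, 111501242081280000, 944292928686336000, -4382083390950604800, 14451086126701900800, -32751678958239744000, 79419320160262963200, -132391574539075584000, 278441610683696640000, -363122703276244992000, 658826043894337536000, -607157350576422912000, 1013702195626444800000, -668750347480596480000, 899606957134675968000] := by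
  simp only [mid2_poly, List.length_cons, List.length_nil, Finset.sum_range_succ,
    Finset.sum_range_zero]
  simp
  ring

theorem mid2_q_T_dual :
    mid2_q (mid2_E2 ^ 3 * mid2_D * mid2_D2 - (mid2_D + 16 * mid2_D2) ^ 3) = 0 := by
  have h := mid2_q_of_eq _ _ _ mid2_final_id_dual
  have h0 : mid2_poly [] = 0 := by simp [mid2_poly]
  rw [h0, map_zero] at h
  rw [← h]
  simp only [map_sub, map_mul, map_pow, map_add, mid2_q_E2, mid2_q_D, mid2_q_D2]

theorem mid2_trunc_zero_dual (n : ℕ) (hn : n ≤ 9) :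
    coeff n (mid2_E2 ^ 3 * mid2_D * mid2_D2 - (mid2_D + 16 * mid2_D2) ^ 3) = 0 := by
  have h := mid2_q_T_dual
  rw [← map_zero mid2_q, mid2_q_eq_iff, sub_zero, X_pow_dvd_iff] at h
  exact h n (by omega)

end Fermat.Agent.S18x

namespace Fermat.Agent.S18x

open UpperHalfPlane ModularForm EisensteinSeries CongruenceSubgroup
open Fermat.Agent.S23x
open scoped MatrixGroups Manifold

/-- `z ↦ E₄(2z)` -/
def mid2_fE2 : ℍ → ℂ := fun z => E₄ (mulN 2 z)

/-- `E₄(2z)³ Δ Δ₂ - (Δ + 16 Δ₂)³` -/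
def mid2_Psi : ℍ → ℂ :=
  mid2_fE2 ^ 3 * mid2_fD * mid2_fD2 + (-1 : ℂ) • (mid2_fD + (16 : ℂ) • mid2_fD2) ^ 3

theorem mid2_isMF_fE2 : IsMF 2 4 mid2_fE2 := isMF_comp_mulN 2 m08_isMF1_E4

theorem mid2_isMF_Psi : IsMF 2 36 mid2_Psi :=
  ((((mid2_isMF_fE2.pow 3).mul mid2_isMF_fD).mul mid2_isMF_fD2).cast (by norm_num)).add
    ((((mid2_isMF_fD.add (mid2_isMF_fD2.smul 16)).pow 3).smul (-1)).cast (by norm_num))

theorem mid2_qe_fE2 : qExpansion 1 mid2_fE2 = mid2_E2.map mid2_iota := by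
  ext n
  unfold mid2_fE2
  rw [qExpansion_comp_mulN_coeff 2 m08_isMF1_E4 n, PowerSeries.coeff_map,
    mid2_E2, PowerSeries.coeff_expand]
  have h := mid2_qe_fE
  rw [mid2_fE] at h
  split_ifs with hn
  · rw [h, PowerSeries.coeff_map]
  · rw [map_zero]

theorem mid2_qe_Psi :
    qExpansion 1 mid2_Psi =
      (mid2_E2 ^ 3 * mid2_D * mid2_D2 - (mid2_D + 16 * mid2_D2) ^ 3).map mid2_iota := by
  have nE := mid2_isMF_fE2.isNice
  have nD := mid2_isMF_fD.isNice
  have nD2 := mid2_isMF_fD2.isNice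
  rw [mid2_Psi, mid2_qe_add (((nE.pow 3).mul nD).mul nD2) (((nD.add (nD2.smul 16)).pow 3).smul (-1)),
    mid2_qe_mul ((nE.pow 3).mul nD) nD2, mid2_qe_mul (nE.pow 3) nD, mid2_qe_pow nE,
    mid2_qe_smul ((nD.add (nD2.smul 16)).pow 3), mid2_qe_pow (nD.add (nD2.smul 16)),
    mid2_qe_add nD (nD2.smul 16), mid2_qe_smul nD2, mid2_qe_fE2, mid2_qe_fD, mid2_qe_fD2]
  simp only [map_sub, map_mul, map_pow, map_add, map_ofNat, PowerSeries.smul_eq_C_mul, map_neg,
    map_one]
  ring

theorem mid2_Psi_eq_zero : mid2_Psi = 0 := by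
  obtain ⟨F, hF⟩ := mid2_isMF_Psi
  have hidx : (Gamma0 2).index ≤ 3 := Fermat.Agent.S07x.index_Gamma0_two_le
  have hF0 : F = 0 := by
    apply ModularForm.sturm_bound_Gamma0 2 F
    intro n hn
    have hn9 : n ≤ 9 := by
      have h1 : ((36 : ℤ) * ((Gamma0 2).index : ℤ)).toNat = 36 * (Gamma0 2).index := by
        rw [show ((36 : ℤ) * ((Gamma0 2).index : ℤ)) = ((36 * (Gamma0 2).index : ℕ) : ℤ) by
          push_cast; ring, Int.toNat_natCast]
      rw [h1] at hn
      omega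
    rw [hF, mid2_qe_Psi, PowerSeries.coeff_map, mid2_trunc_zero_dual n hn9, map_zero]
  rw [← hF, hF0]
  rfl

/-- **The dual level-2 identity over `ℤ⟦X⟧`**: `E₄(X²)³ · D · D₂ = (D + 16 D₂)³`. -/
theorem mid2_int_dual :
    mid2_E2 ^ 3 * mid2_D * mid2_D2 = (mid2_D + 16 * mid2_D2) ^ 3 := by
  have h := mid2_qe_Psi
  rw [mid2_Psi_eq_zero, qExpansion_zero] at h
  have h2 : (mid2_E2 ^ 3 * mid2_D * mid2_D2 - (mid2_D + 16 * mid2_D2) ^ 3).map
      mid2_iota = (0 : PowerSeries ℤ).map mid2_iota := by rw [← h, map_zero]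
  exact sub_eq_zero.mp (PowerSeries.map_injective _ Int.cast_injective h2)

open ModularCurve

theorem mid2_L_expand (f : PowerSeries ℤ) :
    mid2_L (PowerSeries.expand 2 two_ne_zero f) = qExpand ℚ 2 (mid2_L f) := by
  rw [mid2_L_apply, mid2_L_apply, mid2_qExpand_ofPowerSeries, PowerSeries.map_expand]

theorem mid2_jqN_mul_deltaSeriesN : jqN 2 * deltaSeriesN 2 = mid2_L (mid2_E2 ^ 3) := by
  rw [jqN, deltaSeriesN, ← map_mul, mid2_jq_mul_deltaSeries, ← mid2_L_expand, mid2_E2, map_pow]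

/-- **The dual level-2 modular identity** in the Prelude's notation:
`j(q²) · h = (h + 16)³` for `h = Δ(q)/Δ(q²)`. -/
theorem mid2_main_dual :
    jqN 2 * (deltaSeries / deltaSeriesN 2) = (deltaSeries / deltaSeriesN 2 + 16) ^ 3 := by
  have h := congrArg mid2_L mid2_int_dual
  simp only [map_mul, map_pow, map_add, map_ofNat, mid2_L_D, mid2_L_D2] at h
  rw [← map_pow, ← mid2_jqN_mul_deltaSeriesN] at h
  have hδ2 : deltaSeriesN 2 ≠ 0 := deltaSeriesN_ne_zero 2
  field_simp
  linear_combination h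

end Fermat.Agent.S18x
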