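/-
S18 project, NRM block row N9 (helper83), prefix `mid2c_`.

COROLLARIES of the level-2 modular identities (helper11 `mid2_int`, `mid2_int_dual`; any-ring form
helper30 `mi2_identity_ring`)
  (I1)   j · x = (1 + 256 x)³,     x = Δ(q²)/Δ(q) = `ud_gd R 2`,
  (I1')  j(q²) · y = (y + 16)³,    y = Δ(q)/Δ(q²) = `mi2_y R`,
over an ARBITRARY commutative ring `R`.

* `mid2c_u R = 64 + Δ(q)/Δ(q²) = q⁻¹ · w`, `w ∈ 1 + q R⟦q⟧`, satisfies `(u + 192)³ = j (u - 64)²`;
* with `2` a unit: `(purb_v3)² = w(q²)` (Hensel uniqueness), so `(purb_X3)² = u(q²)`,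
  i.e. `X₃² - 64 = Δ(q²)/Δ(q⁴)`; `purb_v3` is even (so `X₃` is odd);
* `(j² + 195120 j + 4095 j(q²) + 660960000) · y = 4096 ((720 - j)(720 - j(q²)) - 4095²)`, so for every
  FIELD `K` of characteristic `≠ 2`: `y, u ∈ F₂(K) = K(j, j(q²))`, hence `u ∈ F_N(K)` for `2 ∣ N`,
  `X₃² ∈ F₄(K)` (`modularFunctionFieldFullC K 4`), and `X₃² ∈ F_{2N}(K)` for `2 ∣ N`.
Everything is functorial in `R` (`coeffMap`).
-/
import Mathlib
import Fermat.Agent.S18x.PurCoordMap
import Fermat.Agent.S18x.ModIdTwoRing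
import Fermat.Agent.S18x.ModIdTwoDual
import Fermat.Agent.S28x.UnitMemDelta
import Fermat.Agent.S28x.UnitsFormal

set_option autoImplicit false

noncomputable section

namespace Fermat.Agent.S18x

open ModularCurve Fermat.Agent.S28x

section Defs

variable (R : Type*) [CommRing R]

/-- the level-2 modular identity (I1) over `R` (helper11 + helper30), restated. -/
theorem mid2c_I1 : jqModC R * ud_gd R 2 = (1 + 256 * ud_gd R 2) ^ 3 := mi2_identity_ring R

/-- `ξ = ∏ (1 - q^(2n))^24 / ∏ (1 - q^n)^24`, so that `Δ(q²)/Δ(q) = q ξ`. -/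
def mid2c_xi : PowerSeries R := PowerSeries.expand 2 two_ne_zero (ud_eta R) * ud_etaInv R

/-- `ξ⁻¹ = ∏ (1 - q^n)^24 / ∏ (1 - q^(2n))^24`. -/
def mid2c_xiInv : PowerSeries R := ud_eta R * PowerSeries.expand 2 two_ne_zero (ud_etaInv R)

/-- `w = ξ⁻¹ + 64 q`, so that `u = 64 + Δ(q)/Δ(q²) = q⁻¹ w`. -/
def mid2c_w : PowerSeries R := mid2c_xiInv R + 64 * PowerSeries.X

/-- `Δ(q)/Δ(q²)`, the inverse of `ud_gd R 2`, over an arbitrary commutative ring. -/
def mid2c_xinv : LaurentSeries R := ud_DeltaTw R 1 1 * ud_DeltaInv R 2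

/-- the Hauptmodul `u = 64 + Δ(q)/Δ(q²)` of level 2. -/
def mid2c_u : LaurentSeries R := 64 + mid2c_xinv R

theorem mid2c_xi_mul_xiInv : mid2c_xi R * mid2c_xiInv R = 1 := by
  have h1 : ud_eta R * ud_etaInv R = 1 := ul2_eta_mul_etaInv R
  have h2 : PowerSeries.expand 2 two_ne_zero (ud_eta R) *
      PowerSeries.expand 2 two_ne_zero (ud_etaInv R) = 1 := by
    rw [← map_mul, h1, map_one]
  calc mid2c_xi R * mid2c_xiInv R
      = (PowerSeries.expand 2 two_ne_zero (ud_eta R) *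
          PowerSeries.expand 2 two_ne_zero (ud_etaInv R)) * (ud_eta R * ud_etaInv R) := by
        rw [mid2c_xi, mid2c_xiInv]; ring
    _ = 1 := by rw [h1, h2, mul_one]

theorem mid2c_constantCoeff_xiInv : PowerSeries.constantCoeff (mid2c_xiInv R) = 1 := by
  rw [mid2c_xiInv, map_mul, PowerSeries.constantCoeff_expand, ub_ud_eta, ub_ud_etaInv,
    ub_constantCoeff_eta, ub_constantCoeff_etaInv, mul_one]

theorem mid2c_constantCoeff_w : PowerSeries.constantCoeff (mid2c_w R) = 1 := by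
  rw [mid2c_w, map_add, map_mul, PowerSeries.constantCoeff_X, mul_zero, add_zero,
    mid2c_constantCoeff_xiInv]

/-! ### Laurent series versus power series -/

theorem mid2c_single_mul_single (a b : ℤ) :
    HahnSeries.single a (1 : R) * HahnSeries.single b (1 : R) = HahnSeries.single (a + b) (1 : R) := by
  rw [HahnSeries.single_mul_single, mul_one]

theorem mid2c_DeltaTw_one (m : ℕ) [NeZero m] :
    ud_DeltaTw R 1 m = HahnSeries.single (m : ℤ) (1 : R) *
      HahnSeries.ofPowerSeries ℤ R (PowerSeries.expand m (NeZero.ne m) (ud_eta R)) := by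
  rw [ud_DeltaTw, PowerSeries.rescale_one, RingHom.id_apply, pc_qExpand_ofPowerSeries]

theorem mid2c_DeltaInv (m : ℕ) [NeZero m] :
    ud_DeltaInv R m = HahnSeries.single (-(m : ℤ)) (1 : R) *
      HahnSeries.ofPowerSeries ℤ R (PowerSeries.expand m (NeZero.ne m) (ud_etaInv R)) := by
  rw [ud_DeltaInv, pc_qExpand_ofPowerSeries]

theorem mid2c_expand_one (P : PowerSeries R) : PowerSeries.expand 1 one_ne_zero P = P := by
  ext n
  have h := PowerSeries.coeff_expand_mul 1 one_ne_zero P n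
  rwa [one_mul] at h

/-- `Δ(q²)/Δ(q) = q ξ`. -/
theorem mid2c_gd_eq : ud_gd R 2 =
    HahnSeries.single (1 : ℤ) (1 : R) * HahnSeries.ofPowerSeries ℤ R (mid2c_xi R) := by
  rw [ud_gd, ub_ud_G1_of_ne, map_one, one_mul, mid2c_DeltaTw_one, mid2c_DeltaInv, mid2c_expand_one,
    mid2c_xi, map_mul]
  calc HahnSeries.single ((2 : ℕ) : ℤ) (1 : R) *
        HahnSeries.ofPowerSeries ℤ R (PowerSeries.expand 2 (NeZero.ne 2) (ud_eta R)) *
        (HahnSeries.single (-((1 : ℕ) : ℤ)) (1 : R) * HahnSeries.ofPowerSeries ℤ R (ud_etaInv R))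
      = (HahnSeries.single ((2 : ℕ) : ℤ) (1 : R) * HahnSeries.single (-((1 : ℕ) : ℤ)) (1 : R)) *
        (HahnSeries.ofPowerSeries ℤ R (PowerSeries.expand 2 (NeZero.ne 2) (ud_eta R)) *
          HahnSeries.ofPowerSeries ℤ R (ud_etaInv R)) := by ring
    _ = _ := by
        rw [mid2c_single_mul_single]
        norm_num

/-- `Δ(q)/Δ(q²) = q⁻¹ ξ⁻¹`. -/
theorem mid2c_xinv_eq : mid2c_xinv R =
    HahnSeries.single (-1 : ℤ) (1 : R) * HahnSeries.ofPowerSeries ℤ R (mid2c_xiInv R) := by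
  rw [mid2c_xinv, mid2c_DeltaTw_one, mid2c_DeltaInv, mid2c_expand_one, mid2c_xiInv, map_mul]
  calc HahnSeries.single ((1 : ℕ) : ℤ) (1 : R) * HahnSeries.ofPowerSeries ℤ R (ud_eta R) *
        (HahnSeries.single (-((2 : ℕ) : ℤ)) (1 : R) *
          HahnSeries.ofPowerSeries ℤ R (PowerSeries.expand 2 (NeZero.ne 2) (ud_etaInv R)))
      = (HahnSeries.single ((1 : ℕ) : ℤ) (1 : R) * HahnSeries.single (-((2 : ℕ) : ℤ)) (1 : R)) *
        (HahnSeries.ofPowerSeries ℤ R (ud_eta R) *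
          HahnSeries.ofPowerSeries ℤ R (PowerSeries.expand 2 (NeZero.ne 2) (ud_etaInv R))) := by
        ring
    _ = _ := by
        rw [mid2c_single_mul_single]
        norm_num

/-- `ud_gd R 2` is invertible over every commutative ring, with inverse `mid2c_xinv R`. -/
theorem mid2c_gd_mul_xinv : ud_gd R 2 * mid2c_xinv R = 1 := by
  rw [mid2c_gd_eq, mid2c_xinv_eq]
  calc HahnSeries.single (1 : ℤ) (1 : R) * HahnSeries.ofPowerSeries ℤ R (mid2c_xi R) *
        (HahnSeries.single (-1 : ℤ) (1 : R) * HahnSeries.ofPowerSeries ℤ R (mid2c_xiInv R))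
      = (HahnSeries.single (1 : ℤ) (1 : R) * HahnSeries.single (-1 : ℤ) (1 : R)) *
        HahnSeries.ofPowerSeries ℤ R (mid2c_xi R * mid2c_xiInv R) := by
        rw [map_mul]; ring
    _ = 1 := by
        rw [mid2c_xi_mul_xiInv, map_one (HahnSeries.ofPowerSeries ℤ R), mul_one,
          mid2c_single_mul_single]
        norm_num

/-- `u = q⁻¹ w`. -/
theorem mid2c_u_eq : mid2c_u R =
    HahnSeries.single (-1 : ℤ) (1 : R) * HahnSeries.ofPowerSeries ℤ R (mid2c_w R) := by
  rw [mid2c_u, mid2c_xinv_eq, mid2c_w, map_add, map_mul, HahnSeries.ofPowerSeries_X, map_ofNat, mul_add]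
  have h : HahnSeries.single (-1 : ℤ) (1 : R) * ((64 : LaurentSeries R) * HahnSeries.single 1 1) = 64 := by
    calc HahnSeries.single (-1 : ℤ) (1 : R) * ((64 : LaurentSeries R) * HahnSeries.single 1 1)
        = 64 * (HahnSeries.single (-1 : ℤ) (1 : R) * HahnSeries.single 1 1) := by ring
      _ = 64 := by
          rw [mid2c_single_mul_single]
          norm_num
  rw [h, add_comm]

end Defs

/-! ### the cubic relation `(u + 192)³ = j (u - 64)²` -/

section Cubic

/-- **(a)**: `(u + 192)³ = j (u - 64)²`. -/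
theorem mid2c_u_cubic (R : Type*) [CommRing R] :
    (mid2c_u R + 192) ^ 3 = jqModC R * (mid2c_u R - 64) ^ 2 := by
  have hx : ud_gd R 2 * mid2c_xinv R = 1 := mid2c_gd_mul_xinv R
  have hI := mid2c_I1 R
  rw [mid2c_u]
  set x := ud_gd R 2
  set y := mid2c_xinv R
  set j := jqModC R
  linear_combination (-(y ^ 3)) * hI +
    (-256 * ((256 + y) ^ 2 + (256 + y) * (y * (1 + 256 * x)) + (y * (1 + 256 * x)) ^ 2)
      + j * y ^ 2) * hx

/-- the power series form: `(w + 192 q)³ = (q j) (w - 64 q)²`. -/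
theorem mid2c_w_cubic (R : Type*) [CommRing R] :
    (mid2c_w R + 192 * PowerSeries.X) ^ 3 = purb_J R * (mid2c_w R - 64 * PowerSeries.X) ^ 2 := by
  have hL := mid2c_u_cubic R
  rw [mid2c_u_eq] at hL
  have hj : jqModC R = HahnSeries.single (-1 : ℤ) (1 : R) *
      HahnSeries.ofPowerSeries ℤ R (purb_J R) := rfl
  rw [hj] at hL
  have hst : HahnSeries.single (-1 : ℤ) (1 : R) * HahnSeries.single (1 : ℤ) (1 : R) = 1 := by
    rw [mid2c_single_mul_single]
    norm_num
  apply HahnSeries.ofPowerSeries_injective (Γ := ℤ)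
  simp only [map_pow, map_add, map_mul, map_sub, map_ofNat, HahnSeries.ofPowerSeries_X]
  set s : LaurentSeries R := HahnSeries.single (-1 : ℤ) (1 : R)
  set t : LaurentSeries R := HahnSeries.single (1 : ℤ) (1 : R)
  set W : LaurentSeries R := HahnSeries.ofPowerSeries ℤ R (mid2c_w R)
  set J : LaurentSeries R := HahnSeries.ofPowerSeries ℤ R (purb_J R)
  have hu : IsUnit (s ^ 3) := (IsUnit.of_mul_eq_one _ hst).pow 3
  apply hu.mul_left_cancel
  have e1 : s * W + 192 = s * (W + 192 * t) := by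
    rw [mul_add, mul_left_comm, hst, mul_one]
  have e2 : s * W - 64 = s * (W - 64 * t) := by
    rw [mul_sub, mul_left_comm, hst, mul_one]
  rw [e1, e2] at hL
  linear_combination hL

end Cubic

/-! ### Hensel uniqueness: `v₃² = w(q²)` -/

section Hensel

open Polynomial in
/-- the cubic `(T + a)³ - J (T - b)²`. -/
def mid2c_cubic {S : Type*} [CommRing S] (a b J : S) : Polynomial S :=
  (Polynomial.X + Polynomial.C a) ^ 3 - Polynomial.C J * (Polynomial.X - Polynomial.C b) ^ 2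

theorem mid2c_cubic_eval {S : Type*} [CommRing S] (a b J t : S) :
    (mid2c_cubic a b J).eval t = (t + a) ^ 3 - J * (t - b) ^ 2 := by
  simp [mid2c_cubic]

theorem mid2c_cubic_deriv_eval {S : Type*} [CommRing S] (a b J t : S) :
    (mid2c_cubic a b J).derivative.eval t = 3 * (t + a) ^ 2 - 2 * J * (t - b) := by
  simp [mid2c_cubic, Polynomial.derivative_pow]
  ring

variable {R : Type*} [CommRing R]

/-- `w(q²)`. -/
def mid2c_w2 (R : Type*) [CommRing R] : PowerSeries R :=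
  PowerSeries.expand 2 two_ne_zero (mid2c_w R)

theorem mid2c_constantCoeff_w2 : PowerSeries.constantCoeff (mid2c_w2 R) = 1 := by
  rw [mid2c_w2, PowerSeries.constantCoeff_expand, mid2c_constantCoeff_w]

/-- `(w(q²) + 192 q²)³ = (q² j(q²)) (w(q²) - 64 q²)²`. -/
theorem mid2c_w2_cubic (R : Type*) [CommRing R] :
    (mid2c_w2 R + 192 * PowerSeries.X ^ 2) ^ 3
      = purb_J2 R * (mid2c_w2 R - 64 * PowerSeries.X ^ 2) ^ 2 := by
  have h := congrArg (PowerSeries.expand 2 two_ne_zero) (mid2c_w_cubic R)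
  simpa only [map_pow, map_add, map_mul, map_sub, map_ofNat, PowerSeries.expand_X, mid2c_w2,
    purb_J2] using h

/-- **Hensel uniqueness**: helper28's root `v₃` satisfies `v₃² = w(q²)`. -/
theorem mid2c_v3_sq [Nontrivial R] (h2 : IsUnit (2 : R)) :
    (purb_v3 h2) ^ 2 = mid2c_w2 R := by
  refine purb_hensel_unique
    (mid2c_cubic ((192 : PowerSeries R) * PowerSeries.X ^ 2) ((64 : PowerSeries R) * PowerSeries.X ^ 2)
      (purb_J2 R)) _ _ ?_ ?_ ?_ ?_
  · rw [Polynomial.IsRoot, mid2c_cubic_eval, sub_eq_zero]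
    exact purb_v3_identity h2
  · rw [Polynomial.IsRoot, mid2c_cubic_eval, sub_eq_zero]
    exact mid2c_w2_cubic R
  · rw [map_pow, purb_constantCoeff_v3, one_pow, mid2c_constantCoeff_w2]
  · rw [mid2c_cubic_deriv_eval]
    simp only [map_sub, map_mul, map_pow, map_add, purb_constantCoeff_J2, purb_constantCoeff_v3,
      PowerSeries.constantCoeff_X, map_ofNat]
    norm_num

/-- **the coordinate**: `X₃² = u(q²)`, i.e. `X₃² = 64 + Δ(q²)/Δ(q⁴)`. -/
theorem mid2c_X3_sq [Nontrivial R] (h2 : IsUnit (2 : R)) :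
    (purb_X3 h2) ^ 2 = qExpand R 2 (mid2c_u R) := by
  rw [mid2c_u_eq, map_mul, qExpand_single, pc_qExpand_ofPowerSeries, purb_X3, mul_pow,
    ← map_pow (HahnSeries.ofPowerSeries ℤ R), mid2c_v3_sq h2, HahnSeries.single_pow, one_pow]
  rfl

end Hensel

/-! ### functoriality in the coefficient ring -/

section Functorial

variable {R R' : Type*} [CommRing R] [CommRing R'] (φ : R →+* R')

theorem mid2c_coeffMap_jqModC : coeffMap φ (jqModC R) = jqModC R' := map_jqModC φ

theorem mid2c_coeffMap_xinv : coeffMap φ (mid2c_xinv R) = mid2c_xinv R' := by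
  rw [mid2c_xinv, mid2c_xinv, map_mul, ub_coeffMap_DeltaTw, ub_coeffMap_DeltaInv, map_one]

theorem mid2c_coeffMap_u : coeffMap φ (mid2c_u R) = mid2c_u R' := by
  rw [mid2c_u, mid2c_u, map_add, map_ofNat, mid2c_coeffMap_xinv]

theorem mid2c_map_eta : (ud_eta R).map φ = ud_eta R' := by
  rw [ub_ud_eta, ub_ud_eta, ub_map_eta]

theorem mid2c_map_etaInv : (ud_etaInv R).map φ = ud_etaInv R' := by
  rw [ub_ud_etaInv, ub_ud_etaInv, ub_map_etaInv]

theorem mid2c_map_xiInv : (mid2c_xiInv R).map φ = mid2c_xiInv R' := by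
  rw [mid2c_xiInv, mid2c_xiInv, map_mul, PowerSeries.map_expand, mid2c_map_eta, mid2c_map_etaInv]

theorem mid2c_map_xi : (mid2c_xi R).map φ = mid2c_xi R' := by
  rw [mid2c_xi, mid2c_xi, map_mul, PowerSeries.map_expand, mid2c_map_eta, mid2c_map_etaInv]

theorem mid2c_map_w : (mid2c_w R).map φ = mid2c_w R' := by
  rw [mid2c_w, mid2c_w, map_add, map_mul, PowerSeries.map_X, map_ofNat, mid2c_map_xiInv]

theorem mid2c_map_w2 : (mid2c_w2 R).map φ = mid2c_w2 R' := by
  rw [mid2c_w2, mid2c_w2, PowerSeries.map_expand, mid2c_map_w]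

end Functorial

/-! ### parity: `v₃ ∈ R⟦q²⟧`, `X₃` is odd -/

section Parity

variable {R : Type*} [CommRing R]

theorem mid2c_rescale_expand_two (P : PowerSeries R) :
    PowerSeries.rescale (-1 : R) (PowerSeries.expand 2 two_ne_zero P)
      = PowerSeries.expand 2 two_ne_zero P := by
  ext n
  rw [PowerSeries.coeff_rescale]
  by_cases hn : 2 ∣ n
  · obtain ⟨m, rfl⟩ := hn
    rw [pow_mul, neg_one_sq, one_pow, one_mul]
  · rw [PowerSeries.coeff_expand_of_not_dvd 2 two_ne_zero P hn, mul_zero]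

theorem mid2c_rescale_X_sq :
    PowerSeries.rescale (-1 : R) ((PowerSeries.X : PowerSeries R) ^ 2) = PowerSeries.X ^ 2 := by
  rw [map_pow, PowerSeries.rescale_neg_one_X, neg_sq]

/-- `v₃(-q) = v₃(q)`. -/
theorem mid2c_v3_rescale [Nontrivial R] (h2 : IsUnit (2 : R)) :
    PowerSeries.rescale (-1 : R) (purb_v3 h2) = purb_v3 h2 := by
  have hroot : (purb_f3 R).IsRoot (PowerSeries.rescale (-1 : R) (purb_v3 h2)) := by
    have h := congrArg (PowerSeries.rescale (-1 : R)) (purb_v3_identity h2)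
    simp only [map_pow, map_add, map_mul, map_sub, map_ofNat, PowerSeries.rescale_neg_one_X,
      neg_sq] at h
    rw [purb_J2, mid2c_rescale_expand_two] at h
    rw [Polynomial.IsRoot, purb_f3, purb_sextic_eval, sub_eq_zero]
    exact h
  have hcc : PowerSeries.constantCoeff (PowerSeries.rescale (-1 : R) (purb_v3 h2)) = 1 := by
    rw [← PowerSeries.coeff_zero_eq_constantCoeff, PowerSeries.coeff_rescale, pow_zero, one_mul,
      PowerSeries.coeff_zero_eq_constantCoeff, purb_constantCoeff_v3]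
  refine (purb_hensel_unique (purb_f3 R) (purb_v3 h2) _ (purb_v3_isRoot h2) hroot
    (by rw [purb_constantCoeff_v3, hcc]) ?_).symm
  rw [purb_f3, purb_sextic_deriv_eval]
  simp only [map_sub, map_mul, map_pow, map_add, purb_constantCoeff_J2, purb_constantCoeff_v3,
    PowerSeries.constantCoeff_X, map_ofNat]
  have : (6 : R) * 1 * (1 ^ 2 + 192 * 0 ^ 2) ^ 2 - 4 * 1 * 1 * (1 ^ 2 - 64 * 0 ^ 2) = 2 := by ring
  rw [this]
  exact h2

/-- the odd coefficients of `v₃` vanish. -/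
theorem mid2c_v3_coeff_of_not_dvd [Nontrivial R] (h2 : IsUnit (2 : R)) {n : ℕ} (hn : ¬ 2 ∣ n) :
    PowerSeries.coeff n (purb_v3 h2) = 0 := by
  have h := congrArg (PowerSeries.coeff n) (mid2c_v3_rescale h2)
  rw [PowerSeries.coeff_rescale] at h
  have hodd : Odd n := Nat.odd_iff.mpr (Nat.two_dvd_ne_zero.mp hn)
  rw [hodd.neg_one_pow, neg_one_mul] at h
  have h' : (2 : R) * PowerSeries.coeff n (purb_v3 h2) = 0 := by
    linear_combination -h
  exact (h2.mul_right_eq_zero).1 h'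

/-- `v₃ = v(q²)` with `v = mid2c_v3half`. -/
def mid2c_v3half [Nontrivial R] (h2 : IsUnit (2 : R)) : PowerSeries R :=
  PowerSeries.mk fun n => PowerSeries.coeff (2 * n) (purb_v3 h2)

theorem mid2c_expand_v3half [Nontrivial R] (h2 : IsUnit (2 : R)) :
    PowerSeries.expand 2 two_ne_zero (mid2c_v3half h2) = purb_v3 h2 := by
  ext n
  by_cases hn : 2 ∣ n
  · obtain ⟨m, rfl⟩ := hn
    rw [PowerSeries.coeff_expand_mul, mid2c_v3half, PowerSeries.coeff_mk]
  · rw [PowerSeries.coeff_expand_of_not_dvd 2 two_ne_zero _ hn, mid2c_v3_coeff_of_not_dvd h2 hn]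

theorem mid2c_expand_two_injective :
    Function.Injective (PowerSeries.expand 2 two_ne_zero : PowerSeries R → PowerSeries R) := by
  intro P Q h
  ext n
  have := congrArg (PowerSeries.coeff (2 * n)) h
  rwa [PowerSeries.coeff_expand_mul, PowerSeries.coeff_expand_mul] at this

theorem mid2c_constantCoeff_v3half [Nontrivial R] (h2 : IsUnit (2 : R)) :
    PowerSeries.constantCoeff (mid2c_v3half h2) = 1 := by
  rw [← PowerSeries.constantCoeff_expand 2 two_ne_zero, mid2c_expand_v3half, purb_constantCoeff_v3]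

/-- `w` has the square root `mid2c_v3half` in `1 + q R⟦q⟧`: `u = q⁻¹ v²`. -/
theorem mid2c_v3half_sq [Nontrivial R] (h2 : IsUnit (2 : R)) :
    (mid2c_v3half h2) ^ 2 = mid2c_w R := by
  apply mid2c_expand_two_injective
  rw [map_pow, mid2c_expand_v3half, mid2c_v3_sq h2, mid2c_w2]

/-- `X₃` is an odd Laurent series: its coefficients at even exponents vanish. -/
theorem mid2c_X3_coeff_of_even [Nontrivial R] (h2 : IsUnit (2 : R)) {k : ℤ} (hk : 2 ∣ k) :
    (purb_X3 h2).coeff k = 0 := by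
  rw [purb_X3, HahnSeries.coeff_single_mul, one_mul]
  rcases lt_or_ge (k - -1) 0 with h | h
  · exact ub_ofPowerSeries_coeff_of_neg _ h
  · obtain ⟨m, hm⟩ := Int.eq_ofNat_of_zero_le h
    rw [hm, ub_ofPowerSeries_coeff_natCast]
    apply mid2c_v3_coeff_of_not_dvd h2
    intro h2m
    have : (2 : ℤ) ∣ (m : ℤ) := by exact_mod_cast h2m
    omega

end Parity

/-! ### the dual identity over any ring and `y ∈ R[j, j(q²)]`-type relations -/

section Dual

variable (R : Type*) [CommRing R]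

/-- our `Δ(q)/Δ(q²)` is helper30's `mi2_y`. -/
theorem mid2c_xinv_eq_y : mid2c_xinv R = mi2_y R := by
  have h1 : ud_gd R 2 * mid2c_xinv R = 1 := mid2c_gd_mul_xinv R
  have h2 : ud_gd R 2 * mi2_y R = 1 := mi2_gd_two_mul_y R
  calc mid2c_xinv R = (ud_gd R 2 * mi2_y R) * mid2c_xinv R := by rw [h2, one_mul]
    _ = (ud_gd R 2 * mid2c_xinv R) * mi2_y R := by ring
    _ = mi2_y R := by rw [h1, one_mul]

theorem mid2c_u_eq_y : mid2c_u R = 64 + mi2_y R := by
  rw [mid2c_u, mid2c_xinv_eq_y]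

/-- `j(q²) · Δ(q²) = E₄(q²)³` formally over `R`. -/
theorem mid2c_jq2_mul_D2 :
    qExpand R 2 (jqModC R) * mi2_iota R mid2_D2 = mi2_iota R mid2_E2 ^ 3 := by
  have h := congrArg (qExpand R 2) (mi2_jq_mul_D R)
  rw [map_mul, map_pow, ← mi2_iota_expand, ← mi2_iota_expand] at h
  exact h

/-- **the dual level-two identity `j(q²) · y = (y + 16)³`, `y = Δ(q)/Δ(q²)`, over any commutative
ring** (base change of helper11's `mid2_int_dual`). -/
theorem mid2c_dual_ring : qExpand R 2 (jqModC R) * mi2_y R = (mi2_y R + 16) ^ 3 := by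
  set D := mi2_iota R mid2_D with hD
  set D2 := mi2_iota R mid2_D2 with hD2
  set J2 := qExpand R 2 (jqModC R) with hJ2
  have hint : mi2_iota R mid2_E2 ^ 3 * D * D2 = (D + 16 * D2) ^ 3 := by
    have h := congrArg (mi2_iota R) mid2_int_dual
    simpa only [map_mul, map_pow, map_add, map_ofNat] using h
  have hjD : J2 * D2 = mi2_iota R mid2_E2 ^ 3 := mid2c_jq2_mul_D2 R
  have hinv : ud_DeltaInv R 2 * D2 = 1 := mi2_DeltaInv_two_mul_D2 R
  have hyD : mi2_y R * D2 = D := by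
    rw [mi2_y, mul_assoc, hinv, mul_one]
  have key : (J2 * mi2_y R) * D2 ^ 3 = ((mi2_y R + 16) ^ 3) * D2 ^ 3 := by
    calc (J2 * mi2_y R) * D2 ^ 3 = (J2 * D2) * (mi2_y R * D2) * D2 := by ring
      _ = (D + 16 * D2) ^ 3 := by rw [hjD, hyD, hint]
      _ = (mi2_y R * D2 + 16 * D2) ^ 3 := by rw [hyD]
      _ = ((mi2_y R + 16) ^ 3) * D2 ^ 3 := by ring
  have hunit : D2 ^ 3 * ud_DeltaInv R 2 ^ 3 = 1 := by
    rw [← mul_pow, mul_comm, hinv, one_pow]
  calc J2 * mi2_y R = (J2 * mi2_y R) * D2 ^ 3 * ud_DeltaInv R 2 ^ 3 := by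
        rw [mul_assoc, hunit, mul_one]
    _ = ((mi2_y R + 16) ^ 3) * D2 ^ 3 * ud_DeltaInv R 2 ^ 3 := by rw [key]
    _ = (mi2_y R + 16) ^ 3 := by rw [mul_assoc, hunit, mul_one]

/-- the second quadratic relation (Fricke transform of the difference of the two cubics):
`4095 y² + (195840 + j) y + 4096 (720 - j(q²)) = 0`. -/
theorem mid2c_quadratic :
    4095 * mi2_y R ^ 2 + (195840 + jqModC R) * mi2_y R
      + 4096 * (720 - qExpand R 2 (jqModC R)) = 0 := by
  have h1 := mi2_cubic_ring R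
  have h2 := mid2c_dual_ring R
  have hxy := mi2_gd_two_mul_y R
  set y := mi2_y R
  set x := ud_gd R 2
  set j := jqModC R
  set j2 := qExpand R 2 (jqModC R)
  have h0 : y * (4095 * y ^ 2 + (195840 + j) * y + 4096 * (720 - j2)) = 0 := by
    linear_combination (-1 : LaurentSeries R) * h1 - 4096 * h2
  calc 4095 * y ^ 2 + (195840 + j) * y + 4096 * (720 - j2)
      = (x * y) * (4095 * y ^ 2 + (195840 + j) * y + 4096 * (720 - j2)) := by rw [hxy, one_mul]
    _ = x * (y * (4095 * y ^ 2 + (195840 + j) * y + 4096 * (720 - j2))) := by ring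
    _ = 0 := by rw [h0, mul_zero]

/-- **`y = Δ(q)/Δ(q²)` is a rational function of `j` and `j(q²)`**, over any commutative ring:
`(j² + 195120 j + 4095 j(q²) + 660960000) · y = 4096 ((720 - j)(720 - j(q²)) - 4095²)`. -/
theorem mid2c_linear :
    (jqModC R ^ 2 + 195120 * jqModC R + 4095 * qExpand R 2 (jqModC R) + 660960000) * mi2_y R
      = 4096 * ((720 - jqModC R) * (720 - qExpand R 2 (jqModC R)) - 16769025) := by
  have h1 := mi2_cubic_ring R
  have h2 := mid2c_dual_ring R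
  have h3 := mid2c_quadratic R
  set y := mi2_y R
  set j := jqModC R
  set j2 := qExpand R 2 (jqModC R)
  linear_combination 4095 * h1 + 4095 * h2 - (720 - j) * h3

end Dual

/-! ### memberships over a field of characteristic `≠ 2` -/

section Field

variable (K : Type*) [Field K]

theorem mid2c_coeff_ofNat_mul (n : ℕ) [n.AtLeastTwo] (x : LaurentSeries K) (k : ℤ) :
    ((OfNat.ofNat n : LaurentSeries K) * x).coeff k = (OfNat.ofNat n : K) * x.coeff k := by
  rw [← map_ofNat (HahnSeries.C : K →+* LaurentSeries K) n, HahnSeries.C_mul_eq_smul,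
    HahnSeries.coeff_smul, smul_eq_mul]

theorem mid2c_coeff_ofNat (n : ℕ) [n.AtLeastTwo] {k : ℤ} (hk : k ≠ 0) :
    ((OfNat.ofNat n : LaurentSeries K)).coeff k = 0 := by
  rw [← map_ofNat (HahnSeries.C : K →+* LaurentSeries K) n, HahnSeries.C_apply,
    HahnSeries.coeff_single_of_ne hk]

/-- the denominator `j² + 195120 j + 4095 j(q²) + 660960000 = 4096 q⁻² + …`. -/
def mid2c_den : LaurentSeries K :=
  jqModC K ^ 2 + 195120 * jqModC K + 4095 * qExpand K 2 (jqModC K) + 660960000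

theorem mid2c_den_coeff : (mid2c_den K).coeff (-2) = 4096 := by
  have h1 : (jqModC K ^ 2).coeff (-2 : ℤ) = 1 := by
    have := coeff_jqModC_pow_self K 2
    simpa using this
  have h2 : (jqModC K).coeff (-2 : ℤ) = 0 := coeff_jqModC_of_lt K (by norm_num)
  have h3 : (qExpand K 2 (jqModC K)).coeff (-2 : ℤ) = 1 := by
    have := qExpand_coeff_mul (R := K) 2 (jqModC K) (-1)
    rw [coeff_jqModC_neg_one] at this
    simpa using this
  rw [mid2c_den, HahnSeries.coeff_add, HahnSeries.coeff_add, HahnSeries.coeff_add,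
    mid2c_coeff_ofNat_mul, mid2c_coeff_ofNat_mul, mid2c_coeff_ofNat K _ (by norm_num), h1, h2, h3]
  norm_num

theorem mid2c_den_ne_zero (h2 : (2 : K) ≠ 0) : mid2c_den K ≠ 0 := by
  intro h
  have hc := mid2c_den_coeff K
  rw [h, HahnSeries.coeff_zero] at hc
  have : (4096 : K) = 2 ^ 12 := by norm_num
  rw [this] at hc
  exact pow_ne_zero 12 h2 hc.symm

theorem mid2c_den_mem : mid2c_den K ∈ modularFunctionFieldFullC K 2 := by
  have hj : jqModC K ∈ modularFunctionFieldFullC K 2 := jqModC_mem_full K 2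
  have hj2 : qExpand K 2 (jqModC K) ∈ modularFunctionFieldFullC K 2 :=
    jqModCd_mem_full K 2 (dvd_refl 2)
  exact add_mem (add_mem (add_mem (pow_mem hj 2) (mul_mem (ofNat_mem _ _) hj))
    (mul_mem (ofNat_mem _ _) hj2)) (ofNat_mem _ _)

/-- **`y = Δ(q)/Δ(q²) ∈ K(j, j(q²)) = F₂(K)`** for every field of characteristic `≠ 2`. -/
theorem mid2c_y_mem (h2 : (2 : K) ≠ 0) : mi2_y K ∈ modularFunctionFieldFullC K 2 := by
  have hj : jqModC K ∈ modularFunctionFieldFullC K 2 := jqModC_mem_full K 2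
  have hj2 : qExpand K 2 (jqModC K) ∈ modularFunctionFieldFullC K 2 :=
    jqModCd_mem_full K 2 (dvd_refl 2)
  have hlin := mid2c_linear K
  have hne := mid2c_den_ne_zero K h2
  have hrhs : (4096 * ((720 - jqModC K) * (720 - qExpand K 2 (jqModC K)) - 16769025) :
      LaurentSeries K) ∈ modularFunctionFieldFullC K 2 :=
    mul_mem (ofNat_mem _ _) (sub_mem (mul_mem (sub_mem (ofNat_mem _ _) hj)
      (sub_mem (ofNat_mem _ _) hj2)) (ofNat_mem _ _))
  have hy : mi2_y K = (mid2c_den K)⁻¹ *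
      (4096 * ((720 - jqModC K) * (720 - qExpand K 2 (jqModC K)) - 16769025)) := by
    rw [← hlin, ← mid2c_den, ← mul_assoc, inv_mul_cancel₀ hne, one_mul]
  rw [hy]
  exact mul_mem (inv_mem (mid2c_den_mem K)) hrhs

/-- `u = 64 + Δ(q)/Δ(q²) ∈ F₂(K)`. -/
theorem mid2c_u_mem (h2 : (2 : K) ≠ 0) : mid2c_u K ∈ modularFunctionFieldFullC K 2 := by
  rw [mid2c_u_eq_y]
  exact add_mem (ofNat_mem _ _) (mid2c_y_mem K h2)

/-- `x = Δ(q²)/Δ(q) ∈ F₂(K)`. -/
theorem mid2c_gd_mem (h2 : (2 : K) ≠ 0) : ud_gd K 2 ∈ modularFunctionFieldFullC K 2 := by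
  have h : ud_gd K 2 = (mi2_y K)⁻¹ := eq_inv_of_mul_eq_one_left (mi2_gd_two_mul_y K)
  rw [h]
  exact inv_mem (mid2c_y_mem K h2)

/-- `u ∈ F_N(K)` for every even `N`. -/
theorem mid2c_u_mem_of_even (h2 : (2 : K) ≠ 0) (N : ℕ) [NeZero N] (hN : 2 ∣ N) :
    mid2c_u K ∈ modularFunctionFieldFullC K N :=
  full_degeneracyC_le K hN (mid2c_u_mem K h2)

/-- `u(q²) ∈ F₄(K)`. -/
theorem mid2c_u2_mem (h2 : (2 : K) ≠ 0) :
    qExpand K 2 (mid2c_u K) ∈ modularFunctionFieldFullC K 4 := by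
  have h1 : qExpandAlgHomC K 2 (mid2c_u K)
      ∈ (modularFunctionFieldFullC K 2).map (qExpandAlgHomC K 2) :=
    ⟨_, mid2c_u_mem K h2, rfl⟩
  have h3 := full_degeneracyC_map_le K 2 2 h1
  simpa using h3

/-- **`X₃² ∈ F₄(K)`** for every field of characteristic `≠ 2`. -/
theorem mid2c_X3_sq_mem (h2 : IsUnit (2 : K)) :
    (purb_X3 h2) ^ 2 ∈ modularFunctionFieldFullC K 4 := by
  rw [mid2c_X3_sq h2]
  exact mid2c_u2_mem K h2.ne_zero

/-- `X₃² ∈ F_N(K)` whenever `4 ∣ N`. -/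
theorem mid2c_X3_sq_mem_of_four_dvd (h2 : IsUnit (2 : K)) (N : ℕ) [NeZero N] (hN : 4 ∣ N) :
    (purb_X3 h2) ^ 2 ∈ modularFunctionFieldFullC K N :=
  full_degeneracyC_le K hN (mid2c_X3_sq_mem K h2)

/-- the rational case in the Prelude's notation: `X₃² ∈ F₄`. -/
theorem mid2c_X3_sq_mem_rat (h2 : IsUnit (2 : ℚ)) :
    (purb_X3 h2) ^ 2 ∈ modularFunctionFieldFull 4 :=
  mid2c_X3_sq_mem ℚ h2

/-- the rational case in the Prelude's notation: `u ∈ F₂`. -/
theorem mid2c_u_mem_rat : mid2c_u ℚ ∈ modularFunctionFieldFull 2 :=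
  mid2c_u_mem ℚ (by norm_num)

end Field

end Fermat.Agent.S18x
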