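/-
S18x/ModId3Mem (helper76, row N10 corollary, prefix `mid3m_`): the level-3 Hauptmodul
`t = mid3_t ℚ = q⁻¹ ∏ ((1-qⁿ)/(1-q³ⁿ))¹²` lies in `F₃ = ℚ(j(q), j(q³)) = modularFunctionFieldFull 3`
(and in `F_N` for `3 ∣ N`).  From helper11's `mid3_t_lin`
(`t ((j-756) s - 19131876) = s² + 196830 s + 3¹⁸`, `s = Δ/Δ₃`) and S28x `ul2_gd_mem_full`
(`Δ₃/Δ ∈ F₃`); the factor `(j-756) s - 19131876` is nonzero because its coefficient at `q⁻³` is `1`.
-/
import Fermat.Agent.S18x.ModIdThree
import Fermat.Agent.S28x.UnitMemDelta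

set_option autoImplicit false

noncomputable section

namespace Fermat.Agent.S18x

open ModularCurve Fermat.Agent.S28x

/-- `s = Δ(q)/Δ(q³)` lies in `F_N` for `3 ∣ N`. -/
theorem mid3m_s_mem (N : ℕ) [NeZero N] (h3 : 3 ∣ N) :
    deltaSeries / deltaSeriesN 3 ∈ modularFunctionFieldFull N := by
  have h := ul2_gd_mem_full N 3 h3
  rw [ul2_gd_eq] at h
  have := inv_mem h
  rwa [inv_div] at this

theorem mid3m_isMonicOfOrder_jq : IsMonicOfOrder jq (-1) := by
  have h := (IsMonicOfOrder.single (-1 : ℤ)).mul (IsMonicOfOrder.ofPowerSeries constantCoeff_jNumQ)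
  rwa [add_zero] at h

theorem mid3m_natCast_coeff (c : ℕ) {k : ℤ} (hk : k ≠ 0) :
    ((c : LaurentSeries ℚ)).coeff k = 0 := by
  have : (c : LaurentSeries ℚ) = HahnSeries.single 0 (c : ℚ) := by
    rw [← algebraMap_apply_eq_single, map_natCast]
  rw [this, HahnSeries.coeff_single_of_ne hk]

theorem mid3m_natCast_mul_coeff (c : ℕ) (f : LaurentSeries ℚ) (k : ℤ) :
    ((c : LaurentSeries ℚ) * f).coeff k = c * f.coeff k := by
  have hc : (c : LaurentSeries ℚ) = HahnSeries.single 0 (c : ℚ) := by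
    rw [← algebraMap_apply_eq_single, map_natCast]
  rw [hc, HahnSeries.single_zero_mul_eq_smul, HahnSeries.coeff_smul, smul_eq_mul]

/-- the denominator `(j - 756) s - 19131876` of `t` is nonzero: its `q⁻³`-coefficient is `1` -/
theorem mid3m_den_ne_zero :
    (jq - 756) * (deltaSeries / deltaSeriesN 3) - 19131876 ≠ 0 := by
  intro h0
  have hs : IsMonicOfOrder (deltaSeries / deltaSeriesN 3) (1 - (3 : ℕ)) := by
    rw [div_eq_mul_inv]
    exact isMonicOfOrder_modularUnitSeries 3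
  have hjs := mid3m_isMonicOfOrder_jq.mul hs
  have h1 : ((jq - 756) * (deltaSeries / deltaSeriesN 3) - 19131876).coeff (-3) = 1 := by
    have e : (jq - 756) * (deltaSeries / deltaSeriesN 3) - 19131876 =
        jq * (deltaSeries / deltaSeriesN 3) - ((756 : ℕ) : LaurentSeries ℚ) *
          (deltaSeries / deltaSeriesN 3) - ((19131876 : ℕ) : LaurentSeries ℚ) := by
      push_cast; ring
    rw [e, HahnSeries.coeff_sub, HahnSeries.coeff_sub, mid3m_natCast_mul_coeff,
      mid3m_natCast_coeff _ (by norm_num), hs.coeff_of_lt (by norm_num)]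
    have := hjs.coeff_self
    norm_num at this ⊢
    exact this
  rw [h0] at h1
  simp at h1

/-- **`t ∈ F_N` for `3 ∣ N`** (in particular `t ∈ F₃ = ℚ(j(q), j(q³))`). -/
theorem mid3m_t_mem (N : ℕ) [NeZero N] (h3 : 3 ∣ N) :
    mid3_t ℚ ∈ modularFunctionFieldFull N := by
  have hs := mid3m_s_mem N h3
  have hj : jq ∈ modularFunctionFieldFull N := by
    simpa [qExpand_one_apply] using jqd_mem_full N (one_dvd N)
  have hlin := mid3_t_lin
  have hne := mid3m_den_ne_zero
  have ht : mid3_t ℚ = ((deltaSeries / deltaSeriesN 3) ^ 2 + 196830 * (deltaSeries / deltaSeriesN 3)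
      + 3 ^ 18) / ((jq - 756) * (deltaSeries / deltaSeriesN 3) - 19131876) := by
    rw [eq_div_iff hne, hlin]
  rw [ht]
  have hnat : ∀ c : ℕ, (c : LaurentSeries ℚ) ∈ modularFunctionFieldFull N := fun c => natCast_mem _ c
  refine div_mem (add_mem (add_mem (pow_mem hs 2) (mul_mem ?_ hs)) (pow_mem ?_ 18))
    (sub_mem (mul_mem (sub_mem hj ?_) hs) ?_)
  · exact_mod_cast hnat 196830
  · exact_mod_cast hnat 3
  · exact_mod_cast hnat 756
  · exact_mod_cast hnat 19131876

theorem mid3m_t_mem_three : mid3_t ℚ ∈ modularFunctionFieldFull 3 := mid3m_t_mem 3 dvd_rfl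

end Fermat.Agent.S18x
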