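/-
S18 project, NRM block, row N10 corollaries, FINAL (hypothesis-free) forms (helper86, prefix
`mid3f_`): helper11's level-three identities `mid3_main`, `mid3_main_dual` (any commutative ring)
combined with the Hensel uniqueness of `S18x/HesseCoord.lean` (via `S18x/ModId3Cor.lean`):

  `hsc_stilde R = mid3_t R + 27`,  `μ³ = t(q³) + 27`,
  dual identity in `s̃`-form: `j(q³) (s̃ - 27) = s̃ (s̃ - 24)³`,
  functoriality of `t`, and over `ℚ`: `s̃ ∈ F₃`, `μ³ ∈ F₉` (helper76's `mid3m_t_mem_three`).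
-/
import Mathlib
import Fermat.Agent.S18x.ModId3Cor
import Fermat.Agent.S18x.ModIdThreeDual
import Fermat.Agent.S18x.ModId3Mem

set_option autoImplicit false

noncomputable section

namespace Fermat.Agent.S18x

open ModularCurve

section General

variable (R : Type*) [CommRing R]

/-- the power series `w` of `t = X⁻¹ w` over `R`. -/
def mid3f_w : PowerSeries R := mid3_w.map (Int.castRingHom R)

theorem mid3f_constantCoeff_w : PowerSeries.constantCoeff (mid3f_w R) = 1 := by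
  rw [mid3f_w, ← PowerSeries.coeff_zero_eq_constantCoeff, PowerSeries.coeff_map,
    PowerSeries.coeff_zero_eq_constantCoeff, mid3_constantCoeff_w, map_one]

theorem mid3f_t_eq : mid3_t R = mid3c_t (mid3f_w R) := rfl

theorem mid3f_I3 :
    jqModC R * mid3c_t (mid3f_w R) ^ 3
      = (mid3c_t (mid3f_w R) + 27) * (mid3c_t (mid3f_w R) + 243) ^ 3 :=
  mid3_main R

/-- **`σ = w + 27 X`.** -/
theorem mid3f_sigma_eq : hsc_sigma R = mid3f_w R + 27 * PowerSeries.X :=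
  mid3c_sigma_eq (mid3f_w R) (mid3f_constantCoeff_w R) (mid3f_I3 R)

/-- **`s̃ = t + 27`.** -/
theorem mid3f_stilde_eq : hsc_stilde R = mid3_t R + 27 :=
  mid3c_stilde_eq (mid3f_w R) (mid3f_constantCoeff_w R) (mid3f_I3 R)

/-- `t = s̃ - 27`. -/
theorem mid3f_t_eq_stilde : mid3_t R = hsc_stilde R - 27 := by
  rw [mid3f_stilde_eq, add_sub_cancel_right]

/-- **the dual identity in `s̃`-form**: `j(q³) (s̃ - 27) = s̃ (s̃ - 24)³`. -/
theorem mid3f_hdual :
    qExpand R 3 (jqModC R) * (hsc_stilde R - 27) = hsc_stilde R * (hsc_stilde R - 24) ^ 3 := by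
  have h := mid3_main_dual R
  rw [mid3f_t_eq_stilde] at h
  rw [h]
  ring

/-- the primal identity in `t`-form for `t = s̃ - 27`. -/
theorem mid3f_primal :
    jqModC R * (hsc_stilde R - 27) ^ 3 = hsc_stilde R * (hsc_stilde R + 216) ^ 3 :=
  (hsc_stilde_identity R).symm

variable {R}

/-- **`μ³ = t(q³) + 27`.** -/
theorem mid3f_mu_cube (h3 : IsUnit (3 : R)) :
    hsc_mu h3 ^ 3 = qExpand R 3 (mid3_t R) + 27 :=
  mid3c_mu_cube' h3 (mid3f_w R) (mid3f_constantCoeff_w R) (mid3f_I3 R)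

/-- the dual identity at `q³`: `j(q⁹) (μ³ - 27) = μ³ (μ³ - 24)³`. -/
theorem mid3f_mu_dual (h3 : IsUnit (3 : R)) :
    qExpand R 9 (jqModC R) * (hsc_mu h3 ^ 3 - 27) = hsc_mu h3 ^ 3 * (hsc_mu h3 ^ 3 - 24) ^ 3 := by
  have h := congrArg (qExpand R 3) (mid3f_hdual R)
  rw [map_mul, map_mul, map_pow, map_sub, map_sub, map_ofNat, map_ofNat, qExpand_qExpand,
    ← hsc_mu_cube h3] at h
  exact h

/-- functoriality of `t`. -/
theorem mid3f_t_map {R' : Type*} [CommRing R'] (φ : R →+* R') :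
    coeffMap φ (mid3_t R) = mid3_t R' := by
  rw [mid3f_t_eq_stilde, mid3f_t_eq_stilde, map_sub, hsc_stilde_map, map_ofNat]

end General

section Rat

/-- `s̃ ∈ F₃` over `ℚ`. -/
theorem mid3f_stilde_mem : hsc_stilde ℚ ∈ modularFunctionFieldFull 3 :=
  mid3c_stilde_mem ℚ (mid3f_w ℚ) (mid3f_constantCoeff_w ℚ) (mid3f_I3 ℚ) mid3m_t_mem_three

/-- `s̃ ∈ F_N` over `ℚ` for `3 ∣ N`. -/
theorem mid3f_stilde_mem_of_dvd (N : ℕ) [NeZero N] (h3 : 3 ∣ N) :
    hsc_stilde ℚ ∈ modularFunctionFieldFull N :=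
  full_degeneracy_le h3 mid3f_stilde_mem

/-- `s̃(q³) ∈ F₉` over `ℚ`. -/
theorem mid3f_stilde3_mem : qExpand ℚ 3 (hsc_stilde ℚ) ∈ modularFunctionFieldFull 9 :=
  mid3c_stilde3_mem ℚ (mid3f_w ℚ) (mid3f_constantCoeff_w ℚ) (mid3f_I3 ℚ) mid3m_t_mem_three

/-- `μ³ ∈ F₉` over `ℚ`. -/
theorem mid3f_mu_cube_mem (h3 : IsUnit (3 : ℚ)) :
    hsc_mu h3 ^ 3 ∈ modularFunctionFieldFull 9 :=
  mid3c_mu_cube_mem ℚ h3 (mid3f_w ℚ) (mid3f_constantCoeff_w ℚ) (mid3f_I3 ℚ) mid3m_t_mem_three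

end Rat

end Fermat.Agent.S18x
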