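/-
S18x/ModIdTwoArith (helper11, row B1.0 of the PUR/NRM_Y block): verified truncated arithmetic
mod `X^10` in `ℤ⟦X⟧` for the level-2 modular identity
`E₄³ Δ Δ(q²) = (Δ + 256 Δ(q²))³`.  Output: `mid2_trunc_zero`: the first ten coefficients of
`E₄³ D D₂ - (D + 256 D₂)³` vanish, where `E₄ = eisenstein4`, `D = X etaProd^24`,
`D₂ = expand 2 D` (Prelude notation).  Cofactor polynomials were computed offline and are
checked by `ring`.
-/
import Mathlib
import Fermat.Prelude.Def_ModularCurve_X0
import Fermat.Agent.S24x.DeltaQExp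

set_option autoImplicit false

noncomputable section

namespace Fermat.Agent.S18x

open PowerSeries

/-- explicit truncated series from a coefficient list -/
def mid2_poly (l : List ℤ) : PowerSeries ℤ :=
  ∑ i ∈ Finset.range l.length, ((l.getD i 0 : ℤ) : PowerSeries ℤ) * X ^ i

theorem mid2_coeff_poly (l : List ℤ) (m : ℕ) : coeff m (mid2_poly l) = l.getD m 0 := by
  rw [mid2_poly, map_sum]
  have h : ∀ i ∈ Finset.range l.length,
      coeff m (((l.getD i 0 : ℤ) : PowerSeries ℤ) * X ^ i) = if m = i then l.getD i 0 else 0 := by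
    intro i _
    rw [← map_intCast (C (R := ℤ)), coeff_C_mul_X_pow, Int.cast_id]
  rw [Finset.sum_congr rfl h]
  by_cases hm : m < l.length
  · rw [Finset.sum_ite_eq (Finset.range l.length) m (fun i => l.getD i 0)]
    simp [hm]
  · rw [Finset.sum_eq_zero]
    · rw [List.getD_eq_default _ _ (by omega)]
    · intro i hi
      have := Finset.mem_range.mp hi
      rw [if_neg (by omega)]

theorem mid2_dvd_sub_poly (f : PowerSeries ℤ) (l : List ℤ) (n : ℕ)
    (h : ∀ m < n, coeff m f = l.getD m 0) : X ^ n ∣ f - mid2_poly l := by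
  rw [X_pow_dvd_iff]
  intro m hm
  rw [map_sub, mid2_coeff_poly, h m hm, sub_self]

/-- the ideal `(X^10)` of `ℤ⟦X⟧` -/
def mid2_I : Ideal (PowerSeries ℤ) := Ideal.span {X ^ 10}

/-- reduction mod `X^10` -/
def mid2_q : PowerSeries ℤ →+* PowerSeries ℤ ⧸ mid2_I := Ideal.Quotient.mk mid2_I

theorem mid2_q_eq_iff (a b : PowerSeries ℤ) : mid2_q a = mid2_q b ↔ X ^ 10 ∣ a - b := by
  rw [mid2_q, Ideal.Quotient.eq, mid2_I, Ideal.mem_span_singleton]

theorem mid2_q_X10 : mid2_q (X ^ 10) = 0 :=
  Ideal.Quotient.eq_zero_iff_mem.mpr (Ideal.subset_span rfl)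

theorem mid2_q_of_eq (a c r : PowerSeries ℤ) (h : a = c + X ^ 10 * r) : mid2_q a = mid2_q c := by
  rw [h, map_add, map_mul, mid2_q_X10, zero_mul, add_zero]

theorem mid2_coeff_of_q_eq {a b : PowerSeries ℤ} (h : mid2_q a = mid2_q b) {k : ℕ} (hk : k < 10) :
    coeff k a = coeff k b := by
  rw [mid2_q_eq_iff, X_pow_dvd_iff] at h
  have := h k hk
  rwa [map_sub, sub_eq_zero] at this

theorem mid2_q_poly_of_coeff (f : PowerSeries ℤ) (l : List ℤ)
    (h : ∀ m < 10, coeff m f = l.getD m 0) : mid2_q f = mid2_q (mid2_poly l) := by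
  rw [mid2_q_eq_iff]
  exact mid2_dvd_sub_poly f l 10 h

/-! ### the eta product mod `X^10` (pentagonal numbers) -/

theorem mid2_etaFin_eq :
    Fermat.Agent.S24x.etaFin ℤ (Finset.range 10) =
      mid2_poly [1, -1, -1, 0, 0, 1, 0, 1, 0, 0] +
        X ^ 10 * mid2_poly [0, 1, -1, -1, -1, -2, 0, 0, 1, 1, 1, 1, 3, 0, 0, -1, -1, -2, -2, -1, -1, 0, 0, 3, 1, 1, 1, 1, 0, 0, -2, -1, -1, -1, 1, 0, 0, 0, 1, 0, 1, 0, 0, -1, -1, 1] := by
  simp only [Fermat.Agent.S24x.etaFin, Finset.prod_range_succ, Finset.prod_range_zero, mid2_poly,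
    List.length_cons, List.length_nil, Finset.sum_range_succ, Finset.sum_range_zero]
  simp
  ring

theorem mid2_q_etaProd :
    mid2_q ModularCurve.etaProd = mid2_q (mid2_poly [1, -1, -1, 0, 0, 1, 0, 1, 0, 0]) := by
  have h1 : mid2_q ModularCurve.etaProd =
      mid2_q (Fermat.Agent.S24x.etaFin ℤ (Finset.range 10)) := by
    rw [mid2_q_eq_iff, X_pow_dvd_iff]
    intro m hm
    rw [map_sub, Fermat.Agent.S24x.coeff_etaProd_eq hm (Finset.Subset.refl _), sub_self]
  rw [h1]
  exact mid2_q_of_eq _ _ _ mid2_etaFin_eq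

theorem mid2_step2 :
    mid2_poly [1, -1, -1, 0, 0, 1, 0, 1, 0, 0] *
      mid2_poly [1, -1, -1, 0, 0, 1, 0, 1, 0, 0] =
      mid2_poly [1, -2, -1, 2, 1, 2, -2, 0, -2, -2] +
        X ^ 10 * mid2_poly [1, 0, 2, 0, 1] := by
  simp only [mid2_poly, List.length_cons, List.length_nil, Finset.sum_range_succ,
    Finset.sum_range_zero]
  simp
  ring

theorem mid2_step3 :
    mid2_poly [1, -2, -1, 2, 1, 2, -2, 0, -2, -2] *
      mid2_poly [1, -1, -1, 0, 0, 1, 0, 1, 0, 0] =
      mid2_poly [1, -3, 0, 5, 0, 0, -7, 0, 0, 0] +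
        X ^ 10 * mid2_poly [8, 1, 2, -4, -2, -2, -2] := by
  simp only [mid2_poly, List.length_cons, List.length_nil, Finset.sum_range_succ,
    Finset.sum_range_zero]
  simp
  ring

theorem mid2_step6 :
    mid2_poly [1, -3, 0, 5, 0, 0, -7, 0, 0, 0] *
      mid2_poly [1, -3, 0, 5, 0, 0, -7, 0, 0, 0] =
      mid2_poly [1, -6, 9, 10, -30, 0, 11, 42, 0, -70] +
        X ^ 10 * mid2_poly [0, 0, 49] := by
  simp only [mid2_poly, List.length_cons, List.length_nil, Finset.sum_range_succ,
    Finset.sum_range_zero]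
  simp
  ring

theorem mid2_step12 :
    mid2_poly [1, -6, 9, 10, -30, 0, 11, 42, 0, -70] *
      mid2_poly [1, -6, 9, 10, -30, 0, 11, 42, 0, -70] =
      mid2_poly [1, -12, 54, -88, -99, 540, -418, -648, 594, 836] +
        X ^ 10 * mid2_poly [1020, -3780, -1279, 5124, 1764, -1540, -5880, 0, 4900] := by
  simp only [mid2_poly, List.length_cons, List.length_nil, Finset.sum_range_succ,
    Finset.sum_range_zero]
  simp
  ring

theorem mid2_step24 :
    mid2_poly [1, -12, 54, -88, -99, 540, -418, -648, 594, 836] *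
      mid2_poly [1, -12, 54, -88, -99, 540, -418, -648, 594, 836] =
      mid2_poly [1, -24, 252, -1472, 4830, -6048, -16744, 84480, -113643, -115920] +
        X ^ 10 * mid2_poly [532500, -337392, -789864, 1017720, 826200, -1468720, -730620, 993168, 698896] := by
  simp only [mid2_poly, List.length_cons, List.length_nil, Finset.sum_range_succ,
    Finset.sum_range_zero]
  simp
  ring

theorem mid2_stepD :
    X * mid2_poly [1, -24, 252, -1472, 4830, -6048, -16744, 84480, -113643, -115920] =
      mid2_poly [0, 1, -24, 252, -1472, 4830, -6048, -16744, 84480, -113643] +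
        X ^ 10 * mid2_poly [-115920] := by
  simp only [mid2_poly, List.length_cons, List.length_nil, Finset.sum_range_succ,
    Finset.sum_range_zero]
  simp
  ring

theorem mid2_q_eta24 :
    mid2_q (ModularCurve.etaProd ^ 24) = mid2_q (mid2_poly [1, -24, 252, -1472, 4830, -6048, -16744, 84480, -113643, -115920]) := by
  have h2 := mid2_q_of_eq _ _ _ mid2_step2
  have h3 := mid2_q_of_eq _ _ _ mid2_step3
  have h6 := mid2_q_of_eq _ _ _ mid2_step6
  have h12 := mid2_q_of_eq _ _ _ mid2_step12
  have h24 := mid2_q_of_eq _ _ _ mid2_step24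
  rw [map_mul] at h2 h3 h6 h12 h24
  rw [map_pow, mid2_q_etaProd, ← h24, ← h12, ← h6, ← h3, ← h2]
  ring

/-- `D = X · etaProd^24`, the formal discriminant -/
def mid2_D : PowerSeries ℤ := X * ModularCurve.etaProd ^ 24

/-- `D₂ = D(X²)` -/
def mid2_D2 : PowerSeries ℤ := expand 2 two_ne_zero mid2_D

theorem mid2_q_D : mid2_q mid2_D = mid2_q (mid2_poly [0, 1, -24, 252, -1472, 4830, -6048, -16744, 84480, -113643]) := by
  rw [mid2_D, map_mul, mid2_q_eta24, ← map_mul]
  exact mid2_q_of_eq _ _ _ mid2_stepD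

theorem mid2_q_D2 : mid2_q mid2_D2 = mid2_q (mid2_poly [0, 0, 1, 0, -24, 0, 252, 0, -1472, 0]) := by
  apply mid2_q_poly_of_coeff
  intro m hm
  rw [mid2_D2, coeff_expand]
  have hD : ∀ k < 10, coeff k mid2_D = ([0, 1, -24, 252, -1472, 4830, -6048, -16744, 84480, -113643] : List ℤ).getD k 0 := by
    intro k hk
    rw [mid2_coeff_of_q_eq mid2_q_D hk, mid2_coeff_poly]
  interval_cases m
  · rw [if_pos (by decide), hD _ (by decide)]; rfl
  · rw [if_neg (by decide)]; rfl
  · rw [if_pos (by decide), hD _ (by decide)]; rfl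
  · rw [if_neg (by decide)]; rfl
  · rw [if_pos (by decide), hD _ (by decide)]; rfl
  · rw [if_neg (by decide)]; rfl
  · rw [if_pos (by decide), hD _ (by decide)]; rfl
  · rw [if_neg (by decide)]; rfl
  · rw [if_pos (by decide), hD _ (by decide)]; rfl
  · rw [if_neg (by decide)]; rfl

theorem mid2_q_E4 : mid2_q ModularCurve.eisenstein4 = mid2_q (mid2_poly [1, 240, 2160, 6720, 17520, 30240, 60480, 82560, 140400, 181680]) := by
  apply mid2_q_poly_of_coeff
  intro m hm
  rw [ModularCurve.eisenstein4, coeff_mk]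
  interval_cases m <;> decide

theorem mid2_final_id :
    mid2_poly [1, 240, 2160, 6720, 17520, 30240, 60480, 82560, 140400, 181680] ^ 3 *
        mid2_poly [0, 1, -24, 252, -1472, 4830, -6048, -16744, 84480, -113643] *
        mid2_poly [0, 0, 1, 0, -24, 0, 252, 0, -1472, 0] -
      (mid2_poly [0, 1, -24, 252, -1472, 4830, -6048, -16744, 84480, -113643] +
        256 * mid2_poly [0, 0, 1, 0, -24, 0, 252, 0, -1472, 0]) ^ 3 =
      mid2_poly [] + X ^ 10 *
        mid2_poly [0, -4830, 115920, 859863552, 141419881920, 2088210483056, 29304008189664, 282546841345248, 947509932017280, -2199489447659799, -22935010304192808, -51275848561776692, 52616708848669632, 458221226328833718, 753279848406268064, -2250508354480436616, -12635835153239702016, -28799650345317435693, -26945457187439116800, 72631192399335417600, 536254410120791961600, 2292342291595015142400, 7254173893452086937600, 19998722104269662131200, 47003664881659723776000, 98309946313481773363200, 189196244739168551424000, 338378244515853378048000,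 563108628703260501504000, 818880710909104355328000, 1119986707556066863104000, 1351394158996676302848000, 1412047866585287632896000, 1579964336954672578560000, 1003163826913875689472000] := by
  simp only [mid2_poly, List.length_cons, List.length_nil, Finset.sum_range_succ,
    Finset.sum_range_zero]
  simp
  ring

/-- the level-2 identity holds modulo `X^10`. -/
theorem mid2_q_T :
    mid2_q (ModularCurve.eisenstein4 ^ 3 * mid2_D * mid2_D2 - (mid2_D + 256 * mid2_D2) ^ 3) = 0 := by
  have h := mid2_q_of_eq _ _ _ mid2_final_id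
  have h0 : mid2_poly [] = 0 := by simp [mid2_poly]
  rw [h0, map_zero] at h
  rw [← h]
  simp only [map_sub, map_mul, map_pow, map_add, mid2_q_E4, mid2_q_D, mid2_q_D2]

theorem mid2_trunc_zero (n : ℕ) (hn : n ≤ 9) :
    coeff n (ModularCurve.eisenstein4 ^ 3 * mid2_D * mid2_D2 - (mid2_D + 256 * mid2_D2) ^ 3) = 0 := by
  have h := mid2_q_T
  rw [← map_zero mid2_q, mid2_q_eq_iff, sub_zero, X_pow_dvd_iff] at h
  exact h n (by omega)

end Fermat.Agent.S18x
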