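/-
S18 project, row B1.0 (helper30): the DUAL level-two identity `j(q²) · y = (y + 16)³`,
`y = Δ(q)/Δ(q²)`, as an identity of formal Laurent series over an ARBITRARY commutative ring `R`
(Prelude `jqNModC R 2`, `mi2_y R` of `ModIdTwoRing`).  Deduced from helper11's integral identity
`mid2_int_dual` (`S18x/ModIdTwoDual.lean`) by base change `ℤ⟦X⟧ → R((X))`.  Prefix `mi2_`.
-/
import Mathlib
import Fermat.Agent.S18x.ModIdTwoRing
import Fermat.Agent.S18x.ModIdTwoDual
import Fermat.Agent.S28x.UnitMemDelta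
import Fermat.Agent.S28x.UnitsFormal
import Fermat.Prelude.Def_ModularCurve_LaurentCoeff

set_option autoImplicit false

noncomputable section

namespace Fermat.Agent.S18x

open ModularCurve Fermat.Agent.S28x

variable (R : Type*) [CommRing R]

/-- `j(q²) · Δ(q²) = E₄(q²)³` formally over `R`. -/
theorem mi2_jq2_mul_D2 : jqNModC R 2 * mi2_iota R mid2_D2 = mi2_iota R mid2_E2 ^ 3 := by
  have h : mid2_D2 = PowerSeries.expand 2 (NeZero.ne 2) mid2_D := rfl
  have h' : mid2_E2 = PowerSeries.expand 2 (NeZero.ne 2) eisenstein4 := rfl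
  rw [jqNModC, h, h', mi2_iota_expand, mi2_iota_expand, ← map_mul, mi2_jq_mul_D, map_pow]

/-- `y · Δ(q²) = Δ(q)` for `y = Δ(q)/Δ(q²)`. -/
theorem mi2_y_mul_D2 : mi2_y R * mi2_iota R mid2_D2 = mi2_iota R mid2_D := by
  rw [mi2_y, mul_assoc, mi2_DeltaInv_two_mul_D2, mul_one]

/-- **the dual level-two identity `j(q²) · y = (y + 16)³`, `y = Δ(q)/Δ(q²)`, over any commutative
ring.** -/
theorem mi2_identity_dual_ring : jqNModC R 2 * mi2_y R = (mi2_y R + 16) ^ 3 := by
  set D := mi2_iota R mid2_D with hD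
  set D2 := mi2_iota R mid2_D2 with hD2
  set y := mi2_y R with hy
  have hint : mi2_iota R mid2_E2 ^ 3 * D * D2 = (D + 16 * D2) ^ 3 := by
    have h := congrArg (mi2_iota R) mid2_int_dual
    simpa only [map_mul, map_pow, map_add, map_ofNat] using h
  have hyD : y * D2 = D := mi2_y_mul_D2 R
  have hjD : jqNModC R 2 * D2 = mi2_iota R mid2_E2 ^ 3 := mi2_jq2_mul_D2 R
  have key : (jqNModC R 2 * y) * D2 ^ 3 = ((y + 16) ^ 3) * D2 ^ 3 := by
    calc (jqNModC R 2 * y) * D2 ^ 3 = (jqNModC R 2 * D2) * (y * D2) * D2 := by ring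
      _ = (y * D2 + 16 * D2) ^ 3 := by rw [hjD, hyD, hint]
      _ = ((y + 16) ^ 3) * D2 ^ 3 := by ring
  have hunit : D2 ^ 3 * ud_DeltaInv R 2 ^ 3 = 1 := by
    rw [← mul_pow, mul_comm, mi2_DeltaInv_two_mul_D2, one_pow]
  calc jqNModC R 2 * y = (jqNModC R 2 * y) * D2 ^ 3 * ud_DeltaInv R 2 ^ 3 := by
        rw [mul_assoc, hunit, mul_one]
    _ = ((y + 16) ^ 3) * D2 ^ 3 * ud_DeltaInv R 2 ^ 3 := by rw [key]
    _ = (y + 16) ^ 3 := by rw [mul_assoc, hunit, mul_one]

/-- in terms of `u = 64 + y`: `j(q²) (u - 64) = (u - 48)³`. -/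
theorem mi2_identity_dual_ring_u :
    jqNModC R 2 * ((64 + mi2_y R) - 64) = ((64 + mi2_y R) - 48) ^ 3 := by
  have h := mi2_identity_dual_ring R
  calc jqNModC R 2 * ((64 + mi2_y R) - 64) = jqNModC R 2 * mi2_y R := by ring
    _ = (mi2_y R + 16) ^ 3 := h
    _ = ((64 + mi2_y R) - 48) ^ 3 := by ring

/-- `mi2_y ℚ` is the Prelude's `Δ(q)/Δ(q²)`. -/
theorem mi2_y_rat : mi2_y ℚ = deltaSeries / deltaSeriesN 2 := by
  have h1 := mi2_gd_two_mul_y ℚ
  rw [ul2_gd_eq] at h1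
  have hδ : deltaSeries ≠ 0 := deltaSeries_ne_zero
  have hδ2 : deltaSeriesN 2 ≠ 0 := deltaSeriesN_ne_zero 2
  field_simp at h1
  rw [eq_div_iff hδ2]
  linear_combination h1

/-- compatibility with coefficient maps. -/
theorem mi2_iota_coeffMap {S : Type*} [CommRing S] (f : R →+* S) (x : PowerSeries ℤ) :
    coeffMap f (mi2_iota R x) = mi2_iota S x := by
  ext k
  rw [coeffMap_coeff, mi2_iota_apply, mi2_iota_apply]
  rcases lt_or_ge k 0 with hk | hk
  · rw [ofPowerSeries_coeff_of_neg _ hk, ofPowerSeries_coeff_of_neg _ hk, map_zero]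
  · obtain ⟨n, rfl⟩ := Int.eq_ofNat_of_zero_le hk
    rw [HahnSeries.ofPowerSeries_apply_coeff, HahnSeries.ofPowerSeries_apply_coeff,
      PowerSeries.coeff_map, PowerSeries.coeff_map]
    simp

/-- `Δ(q)/Δ(q²)` is compatible with coefficient maps (e.g. reduction mod `l`). -/
theorem mi2_coeffMap_y {S : Type*} [CommRing S] (f : R →+* S) :
    coeffMap f (mi2_y R) = mi2_y S := by
  rw [mi2_y, mi2_y, map_mul, mi2_iota_coeffMap, ub_coeffMap_DeltaInv]

end Fermat.Agent.S18x
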