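import Fermat.Agent.S18x.MuHesse2
import Fermat.Agent.S28x.LaurentField

/-!
# Hesse parameter, part 3: the ramified root of the quartic and the Kummer obstruction (`muh_`)

Concrete Laurent-series inputs for `muh_finrank_adjoin` (over a field `K`, `3 ≠ 0`):

* `muh_pow_ne_of_not_dvd_order`: a Laurent series whose order is not divisible by `p` is not a
  `p`-th power;
* `muh_exists_w`: for `G ∈ K⟦X⟧`, `G(0) = 1`, there is `w ∈ K⟦X⟧`, `w(0) = 729`, with
  `(27 + Xw)(243 + Xw)³ = G w³`;
* `muh_exists_ramified_root`: hence `s₁ = 27 + Xw ∈ K((X))` solves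
  `s₁(s₁+216)³ = (X⁻³G)(s₁-27)³` and its coefficient of `X¹` is `729 ≠ 0`
  (so `s₁ ∉ K((X³))`).
-/

set_option autoImplicit false

open Polynomial

namespace Fermat.Agent.S18x

section NotPower

variable {K : Type*} [Field K]

/-- A Laurent series whose order is not divisible by `p` is not a `p`-th power. -/
theorem muh_pow_ne_of_not_dvd_order {p : ℕ} {x : HahnSeries ℤ K} (hx : x ≠ 0)
    (hord : ¬ (p : ℤ) ∣ x.order) (b : HahnSeries ℤ K) : b ^ p ≠ x := by
  intro hb
  rcases Nat.eq_zero_or_pos p with hp | hp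
  · subst hp
    rw [pow_zero] at hb
    subst hb
    apply hord
    rw [HahnSeries.order_one]
    exact dvd_zero _
  have hb0 : b ≠ 0 := by
    rintro rfl
    rw [zero_pow hp.ne'] at hb; exact hx hb.symm
  have h1 := Fermat.Agent.S28x.lf_orderTop_pow b p
  rw [hb, Fermat.Agent.S28x.lf_orderTop_eq_order hx, Fermat.Agent.S28x.lf_orderTop_eq_order hb0,
    ← WithTop.coe_nsmul, WithTop.coe_eq_coe, nsmul_eq_mul] at h1
  exact hord ⟨b.order, h1⟩

end NotPower

section RamifiedRoot

variable {K : Type*} [Field K]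

/-- The monic quartic in `z = 1/w`:
`(z + X/27)(z + X/243)³ - (G/(27·243³)) z`. -/
noncomputable def muh_zpoly (G : PowerSeries K) : (PowerSeries K)[X] :=
  (X + C (PowerSeries.C (27 : K)⁻¹ * PowerSeries.X)) *
      (X + C (PowerSeries.C (243 : K)⁻¹ * PowerSeries.X)) ^ 3 -
    C (PowerSeries.C ((27 : K)⁻¹ * ((243 : K)⁻¹) ^ 3) * G) * X

theorem muh_zpoly_monic (G : PowerSeries K) : (muh_zpoly G).Monic := by
  unfold muh_zpoly
  monicity!

theorem muh_zpoly_eval (G a : PowerSeries K) :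
    (muh_zpoly G).eval a =
      (a + PowerSeries.C (27 : K)⁻¹ * PowerSeries.X) *
          (a + PowerSeries.C (243 : K)⁻¹ * PowerSeries.X) ^ 3 -
        PowerSeries.C ((27 : K)⁻¹ * ((243 : K)⁻¹) ^ 3) * G * a := by
  simp [muh_zpoly]

theorem muh_zpoly_derivative_eval (G a : PowerSeries K) :
    (muh_zpoly G).derivative.eval a =
      (a + PowerSeries.C (243 : K)⁻¹ * PowerSeries.X) ^ 3 +
        (a + PowerSeries.C (27 : K)⁻¹ * PowerSeries.X) *
          (3 * (a + PowerSeries.C (243 : K)⁻¹ * PowerSeries.X) ^ 2) -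
        PowerSeries.C ((27 : K)⁻¹ * ((243 : K)⁻¹) ^ 3) * G := by
  simp [muh_zpoly, derivative_mul, derivative_pow]

theorem muh_exists_w (h3 : (3 : K) ≠ 0) (G : PowerSeries K)
    (hG : PowerSeries.constantCoeff G = 1) :
    ∃ w : PowerSeries K, PowerSeries.constantCoeff w = 729 ∧
      (27 + PowerSeries.X * w) * (243 + PowerSeries.X * w) ^ 3 = G * w ^ 3 := by
  have h27 : (27 : K) ≠ 0 := by
    have : (27 : K) = 3 ^ 3 := by norm_num
    rw [this]; exact pow_ne_zero _ h3
  have h243 : (243 : K) ≠ 0 := by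
    have : (243 : K) = 3 ^ 5 := by norm_num
    rw [this]; exact pow_ne_zero _ h3
  have h729 : (729 : K) ≠ 0 := by
    have : (729 : K) = 3 ^ 6 := by norm_num
    rw [this]; exact pow_ne_zero _ h3
  set z₀ : PowerSeries K := PowerSeries.C (729 : K)⁻¹ with hz₀
  have hcube : ((729 : K)⁻¹) ^ 3 = (27 : K)⁻¹ * ((243 : K)⁻¹) ^ 3 := by
    rw [inv_pow, inv_pow, ← mul_inv]
    congr 1
    norm_num
  have h0 : PowerSeries.constantCoeff ((muh_zpoly G).eval z₀) = 0 := by
    rw [muh_zpoly_eval, hz₀]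
    simp only [map_sub, map_add, map_mul, map_pow, PowerSeries.constantCoeff_C,
      PowerSeries.constantCoeff_X, mul_zero, add_zero, hG, mul_one]
    rw [← hcube]; ring
  have h1 : IsUnit (PowerSeries.constantCoeff ((muh_zpoly G).derivative.eval z₀)) := by
    rw [muh_zpoly_derivative_eval, hz₀]
    simp only [map_sub, map_add, map_mul, map_pow, PowerSeries.constantCoeff_C,
      PowerSeries.constantCoeff_X, mul_zero, add_zero, hG, mul_one, map_ofNat]
    rw [← hcube]
    have : ((729 : K)⁻¹) ^ 3 + (729 : K)⁻¹ * (3 * ((729 : K)⁻¹) ^ 2) - ((729 : K)⁻¹) ^ 3 =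
        3 * ((729 : K)⁻¹) ^ 3 := by ring
    rw [this]
    exact (mul_ne_zero h3 (pow_ne_zero _ (inv_ne_zero h729))).isUnit
  obtain ⟨z, hz, hz0⟩ := psh_exists_root (muh_zpoly G) (muh_zpoly_monic G) z₀ h0 h1
  have hzc : PowerSeries.constantCoeff z = (729 : K)⁻¹ := by
    rw [map_sub, sub_eq_zero, hz₀, PowerSeries.constantCoeff_C] at hz0
    exact hz0
  have hzne : PowerSeries.constantCoeff z ≠ 0 := by rw [hzc]; exact inv_ne_zero h729
  refine ⟨z⁻¹, ?_, ?_⟩
  · rw [PowerSeries.constantCoeff_inv, hzc, inv_inv]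
  · have hw : z * z⁻¹ = 1 := PowerSeries.mul_inv_cancel z hzne
    have hzeq := hz.eq_zero
    rw [muh_zpoly_eval, sub_eq_zero] at hzeq
    set w := z⁻¹ with hwdef
    set A : PowerSeries K := PowerSeries.C (27 : K)⁻¹ with hAdef
    set B : PowerSeries K := PowerSeries.C (243 : K)⁻¹ with hBdef
    have hA : 27 * A = 1 := by
      have : (27 : PowerSeries K) = PowerSeries.C (27 : K) := by rw [map_ofNat]
      rw [this, hAdef, ← map_mul, mul_inv_cancel₀ h27, map_one]
    have hB : 243 * B = 1 := by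
      have : (243 : PowerSeries K) = PowerSeries.C (243 : K) := by rw [map_ofNat]
      rw [this, hBdef, ← map_mul, mul_inv_cancel₀ h243, map_one]
    have hE : PowerSeries.C ((27 : K)⁻¹ * ((243 : K)⁻¹) ^ 3) = A * B ^ 3 := by
      rw [hAdef, hBdef, map_mul, map_pow]
    rw [hE] at hzeq
    have hAB : 27 * 243 ^ 3 * (A * B ^ 3) = 1 := by
      linear_combination (243 * B) ^ 3 * hA + ((243 * B) ^ 2 + 243 * B + 1) * hB
    have e1 : 27 + PowerSeries.X * w = 27 * ((z + A * PowerSeries.X) * w) := by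
      linear_combination (-27 : PowerSeries K) * hw - PowerSeries.X * w * hA
    have e2 : 243 + PowerSeries.X * w = 243 * ((z + B * PowerSeries.X) * w) := by
      linear_combination (-243 : PowerSeries K) * hw - PowerSeries.X * w * hB
    rw [e1, e2]
    linear_combination (27 * 243 ^ 3 * w ^ 4) * hzeq + (G * w ^ 3 * z * w) * hAB + (G * w ^ 3) * hw

/-- **The ramified root of the quartic.** -/
theorem muh_exists_ramified_root (h3 : (3 : K) ≠ 0) (G : PowerSeries K)
    (hG : PowerSeries.constantCoeff G = 1) :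
    ∃ s1 : LaurentSeries K,
      s1 * (s1 + 216) ^ 3 =
        (HahnSeries.single (-3 : ℤ) (1 : K) * HahnSeries.ofPowerSeries ℤ K G) * (s1 - 27) ^ 3 ∧
      s1.coeff 1 = 729 := by
  obtain ⟨w, hw0, hw⟩ := muh_exists_w h3 G hG
  refine ⟨HahnSeries.ofPowerSeries ℤ K (27 + PowerSeries.X * w), ?_, ?_⟩
  · have h' := congrArg (HahnSeries.ofPowerSeries ℤ K) hw
    simp only [map_mul, map_pow, map_add, map_ofNat] at h'
    have hsx : HahnSeries.single (-1 : ℤ) (1 : K) *
        HahnSeries.ofPowerSeries ℤ K (PowerSeries.X : PowerSeries K) = 1 := by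
      rw [HahnSeries.ofPowerSeries_X, HahnSeries.single_mul_single]
      simp
    have h3' : HahnSeries.single (-3 : ℤ) (1 : K) = HahnSeries.single (-1 : ℤ) (1 : K) ^ 3 := by
      rw [HahnSeries.single_pow]
      simp
    simp only [map_mul, map_add, map_ofNat]
    rw [h3']
    set s := HahnSeries.single (-1 : ℤ) (1 : K)
    set x := HahnSeries.ofPowerSeries ℤ K (PowerSeries.X : PowerSeries K)
    set W := HahnSeries.ofPowerSeries ℤ K w
    set Gh := HahnSeries.ofPowerSeries ℤ K G
    linear_combination h' - (Gh * W ^ 3 * ((s * x) ^ 2 + s * x + 1)) * hsx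
  · have : ((1 : ℕ) : ℤ) = 1 := rfl
    rw [← this, HahnSeries.ofPowerSeries_apply_coeff]
    have h27c : (27 : PowerSeries K) = PowerSeries.C (27 : K) := by rw [map_ofNat]
    rw [map_add, h27c, PowerSeries.coeff_C, if_neg one_ne_zero, zero_add,
      show (1 : ℕ) = 0 + 1 from rfl, PowerSeries.coeff_succ_X_mul,
      PowerSeries.coeff_zero_eq_constantCoeff_apply, hw0]

end RamifiedRoot

end Fermat.Agent.S18x
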