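/-
S18x/NakGlue (helper81; N8 glue, abstract Nakayama step of helper23's note): a submodule `S` of a
finite module `M` over a commutative ring `R` with `S + 𝔪 M = M` for every maximal ideal `𝔪` is
all of `M`; over `R = k[X]`, `k` algebraically closed, it suffices to test the ideals `(X - c)`.
Elementwise and subalgebra forms are provided.  Mathlib only.  Prefix `nkg_`.
-/
import Mathlib

set_option autoImplicit false

namespace Fermat.Agent.S18x

open Polynomial
open scoped Pointwise

section General

variable {R M : Type*} [CommRing R] [AddCommGroup M] [Module R M]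

/-- **global Nakayama**: a submodule `S` of a finite module with `S + 𝔪 M = M` for every
maximal ideal `𝔪` is everything. -/
theorem nkg_eq_top_of_forall_isMaximal [Module.Finite R M] (S : Submodule R M)
    (h : ∀ m : Ideal R, m.IsMaximal → S ⊔ m • (⊤ : Submodule R M) = ⊤) : S = ⊤ := by
  by_contra hS
  -- the conductor of `M` into `S`
  have hI : S.colon (⊤ : Submodule R M) ≠ ⊤ := by
    intro hI
    apply hS
    rw [eq_top_iff]
    intro x _
    have h1 : (1 : R) ∈ S.colon (⊤ : Submodule R M) := by rw [hI]; trivial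
    have := Submodule.mem_colon.mp h1 x trivial
    simpa using this
  obtain ⟨m, hm, hIm⟩ := Ideal.exists_le_maximal _ hI
  obtain ⟨r, hr1, hr⟩ := Submodule.exists_sub_one_mem_and_smul_le_of_fg_of_le_sup
    (I := m) (N := S) (N' := ⊤) (P := ⊤) (Module.Finite.fg_top) le_rfl (h m hm).ge
  have hrI : r ∈ S.colon (⊤ : Submodule R M) := by
    rw [Submodule.mem_colon]
    intro p hp
    exact hr (Submodule.smul_mem_pointwise_smul p r ⊤ hp)
  have hrm : r ∈ m := hIm hrI
  have h1 : (1 : R) ∈ m := by
    have := m.sub_mem hrm hr1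
    simpa using this
  exact hm.ne_top ((Ideal.eq_top_iff_one m).mpr h1)

/-- elementwise form of `nkg_eq_top_of_forall_isMaximal`. -/
theorem nkg_mem_of_forall_isMaximal [Module.Finite R M] (S : Submodule R M)
    (h : ∀ m : Ideal R, m.IsMaximal → ∀ b : M, ∃ s ∈ S, b - s ∈ m • (⊤ : Submodule R M))
    (b : M) : b ∈ S := by
  have : S = ⊤ := by
    apply nkg_eq_top_of_forall_isMaximal
    intro m hm
    rw [eq_top_iff]
    intro b _
    obtain ⟨s, hs, hbs⟩ := h m hm b
    have : b = s + (b - s) := by abel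
    rw [this]
    exact Submodule.add_mem_sup hs hbs
  rw [this]; trivial

end General

section Poly

variable {k : Type*} [Field k] [IsAlgClosed k]

/-- every maximal ideal of `k[X]`, `k` algebraically closed, contains some `X - c`. -/
theorem nkg_exists_X_sub_C_mem (m : Ideal k[X]) (hm : m.IsMaximal) : ∃ c : k, X - C c ∈ m := by
  classical
  have hbot : m ≠ ⊥ := by
    intro h0
    have hf : IsField k[X] := Ring.isField_iff_maximal_bot.mpr (h0 ▸ hm)
    exact Polynomial.not_isField k hf
  obtain ⟨p, hpm, hp0⟩ := Submodule.exists_mem_ne_zero_of_ne_bot hbot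
  have hsplit : p.Splits := IsAlgClosed.splits p
  have hprod := hsplit.eq_prod_roots
  have hmem : C p.leadingCoeff * (p.roots.map fun a => X - C a).prod ∈ m := by
    rw [← hprod]; exact hpm
  have hprime : m.IsPrime := hm.isPrime
  rcases hprime.mem_or_mem hmem with h1 | h2
  · exfalso
    have hu : IsUnit (C p.leadingCoeff : k[X]) :=
      Polynomial.isUnit_C.mpr (isUnit_iff_ne_zero.mpr (leadingCoeff_ne_zero.mpr hp0))
    exact hm.ne_top (Ideal.eq_top_of_isUnit_mem _ h1 hu)
  · obtain ⟨q, hq, hqm⟩ := (hprime.multiset_prod_mem_iff_exists_mem _).mp h2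
    obtain ⟨a, _, rfl⟩ := Multiset.mem_map.mp hq
    exact ⟨a, hqm⟩

variable {M : Type*} [AddCommGroup M] [Module k[X] M]

/-- **Nakayama glue over `k[X]`**: `S + (X - c) M = M` for all `c : k` implies `S = M`. -/
theorem nkg_eq_top_of_forall_X_sub_C [Module.Finite k[X] M] (S : Submodule k[X] M)
    (h : ∀ c : k, S ⊔ (Ideal.span {(X - C c : k[X])}) • (⊤ : Submodule k[X] M) = ⊤) : S = ⊤ := by
  apply nkg_eq_top_of_forall_isMaximal
  intro m hm
  obtain ⟨c, hc⟩ := nkg_exists_X_sub_C_mem m hm
  have hle : Ideal.span {(X - C c : k[X])} ≤ m := by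
    rw [Ideal.span_singleton_le_iff_mem]
    exact hc
  refine le_antisymm le_top ?_
  calc (⊤ : Submodule k[X] M)
      = S ⊔ (Ideal.span {(X - C c : k[X])}) • (⊤ : Submodule k[X] M) := (h c).symm
    _ ≤ S ⊔ m • (⊤ : Submodule k[X] M) := sup_le_sup_left (Submodule.smul_mono_left hle) S

/-- elementwise form: if every `b` is congruent to an element of `S` modulo `(X - c) M`, for
every `c : k`, then `S = M`. -/
theorem nkg_mem_of_forall_X_sub_C [Module.Finite k[X] M] (S : Submodule k[X] M)
    (h : ∀ c : k, ∀ b : M, ∃ s ∈ S, ∃ b' : M, b = s + (X - C c : k[X]) • b') (b : M) : b ∈ S := by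
  have : S = ⊤ := by
    apply nkg_eq_top_of_forall_X_sub_C
    intro c
    rw [eq_top_iff]
    intro b _
    obtain ⟨s, hs, b', rfl⟩ := h c b
    refine Submodule.add_mem_sup hs ?_
    exact Submodule.smul_mem_smul (Ideal.mem_span_singleton_self _) trivial
  rw [this]; trivial

end Poly

section Adjoin

variable {k : Type*} [Field k] [IsAlgClosed k]

/-- maximal ideals of a quotient of `k[X]`. -/
theorem nkg_exists_map_X_sub_C_mem {R : Type*} [CommRing R] (φ : k[X] →+* R)
    (hφ : Function.Surjective φ) (m : Ideal R) (hm : m.IsMaximal) :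
    ∃ c : k, φ (X - C c) ∈ m := by
  have hcm : (m.comap φ).IsMaximal := Ideal.comap_isMaximal_of_surjective φ hφ
  obtain ⟨c, hc⟩ := nkg_exists_X_sub_C_mem _ hcm
  exact ⟨c, hc⟩

variable {F : Type*} [CommRing F] [Algebra k F] (x : F)

/-- the generator of `k[x]`. -/
def nkg_gen : Algebra.adjoin k {x} := ⟨x, Algebra.subset_adjoin rfl⟩

omit [IsAlgClosed k] in
@[simp] theorem nkg_gen_coe : ((nkg_gen (k := k) x : Algebra.adjoin k {x}) : F) = x := rfl

omit [IsAlgClosed k] in
theorem nkg_aeval_gen_surjective :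
    Function.Surjective (aeval (R := k) (nkg_gen (k := k) x)) := by
  rintro ⟨y, hy⟩
  rw [Algebra.adjoin_singleton_eq_range_aeval] at hy
  obtain ⟨p, hp⟩ := hy
  refine ⟨p, Subtype.ext ?_⟩
  rw [Polynomial.aeval_subalgebra_coe]
  exact hp

/-- every maximal ideal of `k[x]` contains some `x - c`. -/
theorem nkg_exists_gen_sub_mem (m : Ideal (Algebra.adjoin k {x})) (hm : m.IsMaximal) :
    ∃ c : k, nkg_gen (k := k) x - algebraMap k (Algebra.adjoin k {x}) c ∈ m := by
  obtain ⟨c, hc⟩ := nkg_exists_map_X_sub_C_mem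
    ((aeval (R := k) (nkg_gen (k := k) x)) : k[X] →+* Algebra.adjoin k {x})
    (nkg_aeval_gen_surjective x) m hm
  refine ⟨c, ?_⟩
  simpa using hc

variable {M : Type*} [AddCommGroup M] [Module (Algebra.adjoin k {x}) M]

/-- **Nakayama glue over `k[x]`** (`x` any element of a `k`-algebra, `k` algebraically closed):
`S + (x - c) M = M` for all `c : k` implies `S = M`. -/
theorem nkg_eq_top_of_forall_gen_sub [Module.Finite (Algebra.adjoin k {x}) M]
    (S : Submodule (Algebra.adjoin k {x}) M)
    (h : ∀ c : k, S ⊔ (Ideal.span {nkg_gen (k := k) x - algebraMap k (Algebra.adjoin k {x}) c}) •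
      (⊤ : Submodule (Algebra.adjoin k {x}) M) = ⊤) : S = ⊤ := by
  apply nkg_eq_top_of_forall_isMaximal
  intro m hm
  obtain ⟨c, hc⟩ := nkg_exists_gen_sub_mem x m hm
  have hle : Ideal.span {nkg_gen (k := k) x - algebraMap k (Algebra.adjoin k {x}) c} ≤ m := by
    rw [Ideal.span_singleton_le_iff_mem]
    exact hc
  refine le_antisymm le_top ?_
  calc (⊤ : Submodule (Algebra.adjoin k {x}) M)
      = S ⊔ (Ideal.span {nkg_gen (k := k) x - algebraMap k (Algebra.adjoin k {x}) c}) •
          (⊤ : Submodule (Algebra.adjoin k {x}) M) := (h c).symm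
    _ ≤ S ⊔ m • (⊤ : Submodule (Algebra.adjoin k {x}) M) :=
        sup_le_sup_left (Submodule.smul_mono_left hle) S

/-- elementwise form of `nkg_eq_top_of_forall_gen_sub`. -/
theorem nkg_mem_of_forall_gen_sub [Module.Finite (Algebra.adjoin k {x}) M]
    (S : Submodule (Algebra.adjoin k {x}) M)
    (h : ∀ c : k, ∀ b : M, ∃ s ∈ S, ∃ b' : M,
      b = s + (nkg_gen (k := k) x - algebraMap k (Algebra.adjoin k {x}) c) • b') (b : M) :
    b ∈ S := by
  have : S = ⊤ := by
    apply nkg_eq_top_of_forall_gen_sub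
    intro c
    rw [eq_top_iff]
    intro b _
    obtain ⟨s, hs, b', rfl⟩ := h c b
    refine Submodule.add_mem_sup hs ?_
    exact Submodule.smul_mem_smul (Ideal.mem_span_singleton_self _) trivial
  rw [this]; trivial

end Adjoin

end Fermat.Agent.S18x
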