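/-
S18x/NrmFinalOfPlace (helper34): variants of `nig_normality_of_int0_onto` so that EITHER cusp twin
and EITHER language of the finite chart plugs into helper80's `s18f_result`:
`s18f_Normality N A h` for the canonical pair `(s18f_W, s18f_rho)` from
* `nig_normality_of_N0_cusp`   : (N0) in place form + OUT-C in uniformizer form (`hC`);
* `nig_normality_of_N0_onto`   : (N0) in place form + OUT-C in localised-onto ring form (`hCo`);
* `nig_normality_of_int0_cusp` : `hInt0` (ring form) + `hC`.
Everything is stated with `jBar N` / `pls_jb k N` written out.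
-/
import Mathlib
import Fermat.Agent.S18x.NrmFinalOfInt

set_option autoImplicit false
set_option synthInstance.maxHeartbeats 400000

namespace Fermat.Agent.S18x

open AlgebraicCurve ModularCurve Polynomial
open Fermat.Agent.S24x

variable (N : ℕ) [NeZero N] (A : ValuationSubring (AlgebraicClosure ℚ))
  (h : ModularCurve.ReductionInputsModL A N)

set_option maxHeartbeats 2000000 in
/-- **`s18f_Normality` from (N0) in place form + OUT-C in uniformizer form.** -/
theorem nig_normality_of_N0_cusp {ℓ : ℕ} [Fact ℓ.Prime] (hℓN : ¬ ℓ ∣ N)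
    (hA : A.LiesOverPrime ℓ)
    (hN0 : ∀ yb : modularFunctionFieldFullC (IsLocalRing.ResidueField A) N,
      (∀ Q : Place (IsLocalRing.ResidueField A)
          (modularFunctionFieldFullC (IsLocalRing.ResidueField A) N),
        0 ≤ Q.ord (pls_jb (IsLocalRing.ResidueField A) N) → 0 ≤ Q.ord yb) →
      ∃ u : s18f_W N A h, s18f_rho N A h u = yb ∧
        ∀ P : Place (AlgebraicClosure ℚ) (modularFunctionFieldBar N),
          0 ≤ P.ord (jBar N) → 0 ≤ P.ord (u : modularFunctionFieldBar N))
    (hC : ∀ Q : Place (IsLocalRing.ResidueField A)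
        (modularFunctionFieldFullC (IsLocalRing.ResidueField A) N),
      Q.ord (pls_jb (IsLocalRing.ResidueField A) N) < 0 → ∃ u : s18f_W N A h,
        (∀ P : Place (AlgebraicClosure ℚ) (modularFunctionFieldBar N),
          P.ord (jBar N) ≤ 0 → 0 ≤ P.ord (u : modularFunctionFieldBar N)) ∧
        Q.ord (s18f_rho N A h u) = 1 ∧
        ∀ Q' : Place (IsLocalRing.ResidueField A)
            (modularFunctionFieldFullC (IsLocalRing.ResidueField A) N),
          Q'.ord (pls_jb (IsLocalRing.ResidueField A) N) < 0 → Q' ≠ Q →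
            Q'.ord (s18f_rho N A h u) = 0) :
    s18f_Normality N A h := by
  have hk : IsAlgClosed (IsLocalRing.ResidueField A) := s18a_isAlgClosed_residue A
  have H := s18f_hyp N A h
  have hρJ := s18f_rho_J N A h
  have htb : pls_IsSepCoordinate (IsLocalRing.ResidueField A)
      (modularFunctionFieldFullC (IsLocalRing.ResidueField A) N)
      (s18f_rho N A h (s18f_J N A h)) := by
    rw [hρJ]
    exact pls_isSepCoordinate_jb_perfect (IsLocalRing.ResidueField A) N
  have hzero := nig_hzero_canonical N A h hℓN hA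
  refine ⟨hN0, ?_⟩
  have hNinf := nrd_Ninf_of_N0_of_cusp H (s18f_J N A h) htb hzero
    (by rw [hρJ]; exact hN0) (by rw [hρJ]; exact hC)
  rw [hρJ] at hNinf
  exact hNinf

set_option maxHeartbeats 2000000 in
/-- **`s18f_Normality` from (N0) in place form + OUT-C in localised-onto ring form.** -/
theorem nig_normality_of_N0_onto {ℓ : ℕ} [Fact ℓ.Prime] (hℓN : ¬ ℓ ∣ N)
    (hA : A.LiesOverPrime ℓ)
    (hN0 : ∀ yb : modularFunctionFieldFullC (IsLocalRing.ResidueField A) N,
      (∀ Q : Place (IsLocalRing.ResidueField A)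
          (modularFunctionFieldFullC (IsLocalRing.ResidueField A) N),
        0 ≤ Q.ord (pls_jb (IsLocalRing.ResidueField A) N) → 0 ≤ Q.ord yb) →
      ∃ u : s18f_W N A h, s18f_rho N A h u = yb ∧
        ∀ P : Place (AlgebraicClosure ℚ) (modularFunctionFieldBar N),
          0 ≤ P.ord (jBar N) → 0 ≤ P.ord (u : modularFunctionFieldBar N))
    (hCo : ∀ yb : modularFunctionFieldFullC (IsLocalRing.ResidueField A) N,
      IsIntegral (Algebra.adjoin (IsLocalRing.ResidueField A)
        {(pls_jb (IsLocalRing.ResidueField A) N)⁻¹}) yb →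
      ∃ (u : s18f_W N A h) (s : Polynomial (IsLocalRing.ResidueField A)), s.eval 0 ≠ 0 ∧
        s18f_rho N A h u = Polynomial.aeval (pls_jb (IsLocalRing.ResidueField A) N)⁻¹ s * yb ∧
        IsIntegral (Algebra.adjoin (AlgebraicClosure ℚ) {(jBar N)⁻¹})
          (u : modularFunctionFieldBar N)) :
    s18f_Normality N A h := by
  have hk : IsAlgClosed (IsLocalRing.ResidueField A) := s18a_isAlgClosed_residue A
  have ht : pls_IsSepCoordinate (AlgebraicClosure ℚ) (modularFunctionFieldBar N) (jBar N) :=
    pls_isSepCoordinate_jBar N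
  have htb : pls_IsSepCoordinate (IsLocalRing.ResidueField A)
      (modularFunctionFieldFullC (IsLocalRing.ResidueField A) N)
      (pls_jb (IsLocalRing.ResidueField A) N) :=
    pls_isSepCoordinate_jb_perfect (IsLocalRing.ResidueField A) N
  -- (N0) place form ⟹ hInt0 ring form, then the landed theorem
  refine nig_normality_of_int0_onto N A h hℓN hA (fun yb hyb => ?_) hCo
  obtain ⟨u, hu, hreg⟩ := hN0 yb ((nrd_regular_iff htb yb).mpr hyb)
  exact ⟨u, hu, (nrd_regular_iff ht (u : modularFunctionFieldBar N)).mp hreg⟩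

set_option maxHeartbeats 2000000 in
/-- **`s18f_Normality` from `hInt0` (ring form) + OUT-C in uniformizer form.** -/
theorem nig_normality_of_int0_cusp {ℓ : ℕ} [Fact ℓ.Prime] (hℓN : ¬ ℓ ∣ N)
    (hA : A.LiesOverPrime ℓ)
    (hInt0 : ∀ yb : modularFunctionFieldFullC (IsLocalRing.ResidueField A) N,
      IsIntegral (Algebra.adjoin (IsLocalRing.ResidueField A)
        {pls_jb (IsLocalRing.ResidueField A) N}) yb →
      ∃ u : s18f_W N A h, s18f_rho N A h u = yb ∧
        IsIntegral (Algebra.adjoin (AlgebraicClosure ℚ) {jBar N}) (u : modularFunctionFieldBar N))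
    (hC : ∀ Q : Place (IsLocalRing.ResidueField A)
        (modularFunctionFieldFullC (IsLocalRing.ResidueField A) N),
      Q.ord (pls_jb (IsLocalRing.ResidueField A) N) < 0 → ∃ u : s18f_W N A h,
        (∀ P : Place (AlgebraicClosure ℚ) (modularFunctionFieldBar N),
          P.ord (jBar N) ≤ 0 → 0 ≤ P.ord (u : modularFunctionFieldBar N)) ∧
        Q.ord (s18f_rho N A h u) = 1 ∧
        ∀ Q' : Place (IsLocalRing.ResidueField A)
            (modularFunctionFieldFullC (IsLocalRing.ResidueField A) N),
          Q'.ord (pls_jb (IsLocalRing.ResidueField A) N) < 0 → Q' ≠ Q →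
            Q'.ord (s18f_rho N A h u) = 0) :
    s18f_Normality N A h := by
  have hk : IsAlgClosed (IsLocalRing.ResidueField A) := s18a_isAlgClosed_residue A
  have ht : pls_IsSepCoordinate (AlgebraicClosure ℚ) (modularFunctionFieldBar N) (jBar N) :=
    pls_isSepCoordinate_jBar N
  have htb : pls_IsSepCoordinate (IsLocalRing.ResidueField A)
      (modularFunctionFieldFullC (IsLocalRing.ResidueField A) N)
      (pls_jb (IsLocalRing.ResidueField A) N) :=
    pls_isSepCoordinate_jb_perfect (IsLocalRing.ResidueField A) N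
  refine nig_normality_of_N0_cusp N A h hℓN hA (fun yb hyb => ?_) hC
  obtain ⟨u, hu, hint⟩ := hInt0 yb ((nrd_regular_iff htb yb).mp hyb)
  exact ⟨u, hu, (nrd_regular_iff ht (u : modularFunctionFieldBar N)).mpr hint⟩

end Fermat.Agent.S18x
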