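/-
S18x/NrmFinalTwoV46 (helper46, block NRM, `ℓ = 2` bottom; prefix `lyp46_`): helper31's
`nrm2_HY_of'` with `(V) = puri_HV 2 3 lyn_muQ lyn_c2 (3N)` DISCHARGED by `lyp46_HV_mu`
(S18x/LydPuri46.lean): **`hY = nrmt_HY (9N) A 2` from `(H) = puri_HH 2 3 lyn_muQ lyn_c2 (3N)`
alone** (`ℓ = 2` twin of `lyp46_HY_odd` / helper10's `nrmo_HY_of_HH`).
-/
import Fermat.Agent.S18x.NrmFinalTwoKer
import Fermat.Agent.S18x.LydPuri46

set_option autoImplicit false
set_option synthInstance.maxHeartbeats 400000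

namespace Fermat.Agent.S18x

open ModularCurve Fermat.Agent.S28x

noncomputable section

/-- **`hY` at level `9N`, `ℓ = 2`, from `(H)` alone.** -/
theorem lyp46_HY_two (N : ℕ) [NeZero N] (A : ValuationSubring (AlgebraicClosure ℚ))
    (hA : A.LiesOverPrime 2) (h29 : ¬ 2 ∣ 9 * N)
    (hH : puri_HH 2 3 lyn_muQ lyn_c2 (3 * N)) :
    nrmt_HY (9 * N) A 2 h29 hA :=
  nrm2_HY_of' N A hA h29 (lyp46_HV_mu N h29) hH

end

end Fermat.Agent.S18x
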