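/-
S18x/NrmInfFree.lean (helper85, prefix `nrif_`): **`hIntInf` FROM `hInt0` + OUT-C-onto WITHOUT any
place map `r`** (no `ts_Hyp`, no `compat`, no `hzero`, no separating coordinates, no `IsAlgClosed`).

Same statement as `nig_hIntInf` (helper34, S18x/NrmInfGlue) with the hypotheses
`H : ts_Hyp A π W ρ r`, `ht`, `htb`, `hzero` REPLACED by the three constant clauses
(`hmem`, `hρalg`, `hπ`) and `IsUnit J`.  Hence it applies to the `h`-free Gauss pair at any level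
(needed for S37 [B1], where `r` is what is being constructed), and it removes the dependence of the
chart at infinity on DEG / `hpol` in S18.

Proof.  Let `yb` be integral over `k[1/j̄]`.
* OUT-C: `s(1/j̄) · yb = ρ u₁`, `u₁ ∈ W` integral over `L[1/J]`, `s(0) ≠ 0`;
* `yb · j̄ ^ m` is integral over `k[j̄]` for `m ≫ 0` (`nrif_isIntegral_mul_pow`), so by `hInt0` it
  is `ρ u₀`, `u₀ ∈ W` integral over `L[J]`; then `u₂ := u₀ · J⁻ⁿ` (`n ≫ 0`, `n ≥ m`) is in `W`,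
  integral over `L[1/J]`, and `ρ u₂ = (1/j̄)^(n-m) · yb`;
* `s` and `X^(n-m)` are coprime in `k[X]`: `a s + b X^(n-m) = 1`; lift `a(1/j̄)`, `b(1/j̄)` to
  polynomials in `1/J` over `A` (`nrn_lift_adjoin`):  `u := ã u₁ + b̃ u₂`.
-/
import Mathlib
import Fermat.Agent.S18x.NrnCore

set_option autoImplicit false

namespace Fermat.Agent.S18x

open Polynomial

section Twist

variable {K F : Type*} [Field K] [Field F] [Algebra K F]

/-- `P(t⁻¹) · t ^ n ∈ K[t]` for `deg P ≤ n`. -/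
theorem nrif_aeval_inv_mul_pow_mem {t : F} (ht : t ≠ 0) (P : K[X]) (n : ℕ)
    (hn : P.natDegree ≤ n) : aeval t⁻¹ P * t ^ n ∈ Algebra.adjoin K {t} := by
  rw [Polynomial.aeval_eq_sum_range' (Nat.lt_succ_of_le hn), Finset.sum_mul]
  refine Subalgebra.sum_mem _ fun i hi => ?_
  have hi' : i ≤ n := Nat.lt_succ_iff.mp (Finset.mem_range.mp hi)
  have h1 : (P.coeff i • t⁻¹ ^ i) * t ^ n = P.coeff i • t ^ (n - i) := by
    rw [smul_mul_assoc]
    congr 1
    have : t ^ n = t ^ i * t ^ (n - i) := by rw [← pow_add, Nat.add_sub_cancel' hi']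
    rw [this, ← mul_assoc, inv_pow, inv_mul_cancel₀ (pow_ne_zero i ht), one_mul]
  rw [h1]
  exact Subalgebra.smul_mem _ (Subalgebra.pow_mem _ (Algebra.self_mem_adjoin_singleton K t) _) _

/-- If `y` is integral over `K[t⁻¹]` then `y · t ^ m` is integral over `K[t]` for all large `m`. -/
theorem nrif_isIntegral_mul_pow {t : F} (ht : t ≠ 0) {y : F}
    (hy : IsIntegral (Algebra.adjoin K {t⁻¹}) y) :
    ∃ m₀ : ℕ, ∀ m : ℕ, m₀ ≤ m → IsIntegral (Algebra.adjoin K {t}) (y * t ^ m) := by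
  classical
  obtain ⟨p, hp, hpy⟩ := hy
  -- the polynomial over `F`
  set pF : F[X] := p.map (algebraMap (Algebra.adjoin K {t⁻¹}) F) with hpF
  have hpFm : pF.Monic := hp.map _
  have hpFy : pF.eval y = 0 := by
    rw [hpF, Polynomial.eval_map]
    exact hpy
  have hdeg : pF.natDegree = p.natDegree := hp.natDegree_map _
  -- the coefficients are polynomials in `t⁻¹`
  have hcoef : ∀ i : ℕ, ∃ P : K[X], aeval t⁻¹ P = pF.coeff i := by
    intro i
    have h0 : ∀ z : F, z ∈ Algebra.adjoin K {t⁻¹} → ∃ P : K[X], aeval t⁻¹ P = z := by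
      intro z hz
      rw [Algebra.adjoin_singleton_eq_range_aeval] at hz
      exact hz
    obtain ⟨P, hP⟩ := h0 _ (p.coeff i).2
    refine ⟨P, ?_⟩
    rw [hpF, Polynomial.coeff_map]
    exact hP
  choose P hP using hcoef
  refine ⟨(Finset.range (pF.natDegree + 1)).sup fun i => (P i).natDegree, fun m hm => ?_⟩
  -- scale the roots by `t ^ m`
  set qF : F[X] := Polynomial.scaleRoots pF (t ^ m) with hqF
  have hqFm : qF.Monic := (Polynomial.monic_scaleRoots_iff _).mpr hpFm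
  have hqFy : qF.eval (t ^ m * y) = 0 := by
    have h := Polynomial.scaleRoots_eval₂_eq_zero (RingHom.id F) (p := pF) (s := t ^ m) (r := y)
      (by rw [Polynomial.eval₂_id]; exact hpFy)
    rw [Polynomial.eval₂_id] at h
    simpa using h
  -- all coefficients of `qF` lie in `K[t]`
  have hlift : qF ∈ Polynomial.lifts (algebraMap (Algebra.adjoin K {t}) F) := by
    rw [Polynomial.lifts_iff_coeff_lifts]
    intro i
    have hmem : qF.coeff i ∈ Algebra.adjoin K {t} := by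
      rw [hqF, Polynomial.coeff_scaleRoots]
      rcases lt_trichotomy i pF.natDegree with hi | hi | hi
      · -- a genuine coefficient
        rw [← hP i, ← pow_mul]
        refine nrif_aeval_inv_mul_pow_mem ht (P i) _ ?_
        have h1 : (P i).natDegree ≤ m := le_trans
          (Finset.le_sup (f := fun i => (P i).natDegree)
            (Finset.mem_range.mpr (Nat.lt_succ_of_lt hi))) hm
        have h2 : 1 ≤ pF.natDegree - i := Nat.sub_pos_of_lt hi
        calc (P i).natDegree ≤ m := h1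
          _ = m * 1 := (mul_one m).symm
          _ ≤ m * (pF.natDegree - i) := Nat.mul_le_mul_left m h2
      · rw [hi, Nat.sub_self, pow_zero, mul_one, Polynomial.coeff_natDegree, hpFm.leadingCoeff]
        exact Subalgebra.one_mem _
      · rw [Polynomial.coeff_eq_zero_of_natDegree_lt hi, zero_mul]
        exact Subalgebra.zero_mem _
    exact ⟨⟨qF.coeff i, hmem⟩, rfl⟩
  obtain ⟨q, hq, -, hqm⟩ := Polynomial.lifts_and_natDegree_eq_and_monic hlift hqFm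
  refine ⟨q, hqm, ?_⟩
  rw [← Polynomial.eval_map, hq, mul_comm]
  exact hqFy

end Twist

section Main

variable {L k F Fb : Type*} [Field L] [Field k] [Field F] [Field Fb] [Algebra L F] [Algebra k Fb]
  {A : ValuationSubring L} {π : A →+* k} {W : ValuationSubring F} {ρ : W →+* Fb}

/-- **`hIntInf` from `hInt0` + OUT-C-onto, WITHOUT a place map** (statement of `nig_hIntInf` minus
`ts_Hyp`, `ht`, `htb`, `hzero`, `IsAlgClosed`). -/
theorem nrif_hIntInf (hmem : ∀ c : L, algebraMap L F c ∈ W ↔ c ∈ A)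
    (hρalg : ∀ (c : L) (hc : c ∈ A) (hW : algebraMap L F c ∈ W),
      ρ ⟨algebraMap L F c, hW⟩ = algebraMap k Fb (π ⟨c, hc⟩))
    (hπ : Function.Surjective π) (J : W) (hJu : IsUnit J)
    (hInt0 : ∀ yb : Fb, IsIntegral (Algebra.adjoin k {ρ J}) yb →
      ∃ u : W, ρ u = yb ∧ IsIntegral (Algebra.adjoin L {(J : F)}) (u : F))
    (hCo : ∀ yb : Fb, IsIntegral (Algebra.adjoin k {(ρ J)⁻¹}) yb →
      ∃ (u : W) (s : k[X]), s.eval 0 ≠ 0 ∧ ρ u = aeval (ρ J)⁻¹ s * yb ∧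
        IsIntegral (Algebra.adjoin L {((J : F))⁻¹}) (u : F)) :
    ∀ yb : Fb, IsIntegral (Algebra.adjoin k {(ρ J)⁻¹}) yb →
      ∃ u : W, ρ u = yb ∧ IsIntegral (Algebra.adjoin L {((J : F))⁻¹}) (u : F) := by
  classical
  intro yb hyb
  -- the inverse of `J` in `W`
  obtain ⟨⟨J', Ji, hJJi, hJiJ⟩, rfl⟩ := hJu
  change ∃ u : W, ρ u = yb ∧ IsIntegral (Algebra.adjoin L {((J' : F))⁻¹}) (u : F)
  change IsIntegral (Algebra.adjoin k {(ρ J')⁻¹}) yb at hyb
  have hJF : (J' : F) * (Ji : F) = 1 := by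
    have := congrArg (fun w : W => (w : F)) hJJi
    simpa using this
  have hJ0 : (J' : F) ≠ 0 := left_ne_zero_of_mul_eq_one hJF
  have hJiF : (Ji : F) = (J' : F)⁻¹ := eq_inv_of_mul_eq_one_right hJF
  have hρJJi : ρ J' * ρ Ji = 1 := by rw [← map_mul, hJJi, map_one]
  have hρJ0 : ρ J' ≠ 0 := left_ne_zero_of_mul_eq_one hρJJi
  have hρJi : ρ Ji = (ρ J')⁻¹ := eq_inv_of_mul_eq_one_right hρJJi
  -- OUT-C
  obtain ⟨u₁, s, hs0, hρu₁, hu₁int⟩ := hCo yb hyb
  -- the finite chart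
  obtain ⟨m, hm⟩ := nrif_isIntegral_mul_pow (K := k) hρJ0 hyb
  obtain ⟨u₀, hρu₀, hu₀int⟩ := hInt0 (yb * ρ J' ^ m) (hm m le_rfl)
  have hu₀int' : IsIntegral (Algebra.adjoin L {((J' : F)⁻¹)⁻¹}) (u₀ : F) := by
    rw [inv_inv]; exact hu₀int
  obtain ⟨n₀, hn₀⟩ := nrif_isIntegral_mul_pow (K := L) (inv_ne_zero hJ0) hu₀int'
  set n := max n₀ m with hn
  have hn₀n : n₀ ≤ n := le_max_left _ _
  have hmn : m ≤ n := le_max_right _ _
  set u₂ : W := u₀ * Ji ^ n with hu₂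
  have hu₂int : IsIntegral (Algebra.adjoin L {((J' : F))⁻¹}) (u₂ : F) := by
    have h1 : ((u₂ : W) : F) = (u₀ : F) * ((J' : F)⁻¹) ^ n := by
      rw [hu₂]
      push_cast
      rw [hJiF]
    rw [h1]
    exact hn₀ n hn₀n
  have hρu₂ : ρ u₂ = (ρ J')⁻¹ ^ (n - m) * yb := by
    rw [hu₂, map_mul, map_pow, hρu₀, hρJi]
    have h2 : (ρ J')⁻¹ ^ n = (ρ J')⁻¹ ^ (n - m) * (ρ J')⁻¹ ^ m := by
      rw [← pow_add, Nat.sub_add_cancel hmn]
    rw [h2]
    have h3 : ρ J' ^ m * (ρ J')⁻¹ ^ m = 1 := by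
      rw [← mul_pow, mul_inv_cancel₀ hρJ0, one_pow]
    calc yb * ρ J' ^ m * ((ρ J')⁻¹ ^ (n - m) * (ρ J')⁻¹ ^ m)
        = (ρ J')⁻¹ ^ (n - m) * yb * (ρ J' ^ m * (ρ J')⁻¹ ^ m) := by ring
      _ = (ρ J')⁻¹ ^ (n - m) * yb := by rw [h3, mul_one]
  -- Bezout in `k[X]`
  have hcop : IsCoprime s ((X : k[X]) ^ (n - m)) := by
    have h1 : IsCoprime (X : k[X]) s := by
      rw [(Polynomial.irreducible_X).coprime_iff_not_dvd, Polynomial.X_dvd_iff,
        Polynomial.coeff_zero_eq_eval_zero]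
      exact hs0
    exact h1.symm.pow_right
  obtain ⟨a, b, hab⟩ := hcop
  -- lift `a(1/j̄)` and `b(1/j̄)`
  have hamem : aeval (ρ Ji) a ∈ Algebra.adjoin k {ρ Ji} := by
    rw [Algebra.adjoin_singleton_eq_range_aeval]; exact ⟨a, rfl⟩
  have hbmem : aeval (ρ Ji) b ∈ Algebra.adjoin k {ρ Ji} := by
    rw [Algebra.adjoin_singleton_eq_range_aeval]; exact ⟨b, rfl⟩
  obtain ⟨ya, hya, hρya⟩ := nrn_lift_adjoin hmem hρalg hπ Ji _ hamem
  obtain ⟨yb', hyb', hρyb'⟩ := nrn_lift_adjoin hmem hρalg hπ Ji _ hbmem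
  have hint_of_mem : ∀ z : F, z ∈ Algebra.adjoin L {((J' : F))⁻¹} →
      IsIntegral (Algebra.adjoin L {((J' : F))⁻¹}) z := by
    intro z hz
    have h1 : z = algebraMap (Algebra.adjoin L {((J' : F))⁻¹}) F ⟨z, hz⟩ := rfl
    rw [h1]
    exact isIntegral_algebraMap
  rw [hJiF] at hya hyb'
  refine ⟨ya * u₁ + yb' * u₂, ?_, ?_⟩
  · rw [map_add, map_mul, map_mul, hρya, hρyb', hρu₁, hρu₂, hρJi]
    have h4 : aeval (ρ J')⁻¹ a * aeval (ρ J')⁻¹ s + aeval (ρ J')⁻¹ b * (ρ J')⁻¹ ^ (n - m) = 1 := by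
      have := congrArg (aeval (ρ J')⁻¹) hab
      simpa using this
    calc aeval (ρ J')⁻¹ a * (aeval (ρ J')⁻¹ s * yb) +
          aeval (ρ J')⁻¹ b * ((ρ J')⁻¹ ^ (n - m) * yb)
        = (aeval (ρ J')⁻¹ a * aeval (ρ J')⁻¹ s +
            aeval (ρ J')⁻¹ b * (ρ J')⁻¹ ^ (n - m)) * yb := by ring
      _ = yb := by rw [h4, one_mul]
  · push_cast
    exact ((hint_of_mem _ hya).mul hu₁int).add ((hint_of_mem _ hyb').mul hu₂int)

/-- Variant of `nrif_hIntInf` with `IsUnit J` obtained from the kernel clause `ρ x = 0 ↔ ¬ IsUnit x`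
and `ρ J ≠ 0` (the form available for every Gauss pair: `gi_ker`, `gwm_rhoM_ker`,
`nrmt_rho_eq_zero_iff`, `ts_Hyp.ker`, `s18a_Gauss.ker`). -/
theorem nrif_hIntInf_of_ker (hmem : ∀ c : L, algebraMap L F c ∈ W ↔ c ∈ A)
    (hρalg : ∀ (c : L) (hc : c ∈ A) (hW : algebraMap L F c ∈ W),
      ρ ⟨algebraMap L F c, hW⟩ = algebraMap k Fb (π ⟨c, hc⟩))
    (hπ : Function.Surjective π) (hker : ∀ x : W, ρ x = 0 ↔ ¬ IsUnit x)
    (J : W) (hρJ0 : ρ J ≠ 0)
    (hInt0 : ∀ yb : Fb, IsIntegral (Algebra.adjoin k {ρ J}) yb →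
      ∃ u : W, ρ u = yb ∧ IsIntegral (Algebra.adjoin L {(J : F)}) (u : F))
    (hCo : ∀ yb : Fb, IsIntegral (Algebra.adjoin k {(ρ J)⁻¹}) yb →
      ∃ (u : W) (s : k[X]), s.eval 0 ≠ 0 ∧ ρ u = aeval (ρ J)⁻¹ s * yb ∧
        IsIntegral (Algebra.adjoin L {((J : F))⁻¹}) (u : F)) :
    ∀ yb : Fb, IsIntegral (Algebra.adjoin k {(ρ J)⁻¹}) yb →
      ∃ u : W, ρ u = yb ∧ IsIntegral (Algebra.adjoin L {((J : F))⁻¹}) (u : F) := by
  have hJu : IsUnit J := by
    by_contra hnu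
    exact hρJ0 ((hker J).mpr hnu)
  exact nrif_hIntInf hmem hρalg hπ J hJu hInt0 hCo

end Main

end Fermat.Agent.S18x
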