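/-
S18x/NrmNCoordFin (helper48, row N8a (c), complement of S18x/NrmNCoord): FINITENESS twins.

* generic `nncf_finite_inclusion` : `A ≤ B` intermediate fields of `Ω / K`, `t ∈ B` with underlying
  element in `A`, `B / K(t)` finite  ⟹  `B / A` finite (inclusion algebra);
* `nncf_finite_Fb` : `F̄_M / F̄_N` is finite (any field `k`);  `nncf_finite_F` : `F_M / F_N` is finite;
* `nncf_isAlgebraic_Fb`, `nncf_isAlgebraic_F` : the algebraic versions.
All `Algebra ↥A ↥B` structures are `(IntermediateField.inclusion h).toAlgebra`, given explicitly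
(defeq to helper87's reducible `gwm_algF` / `gwm_algFb`).
-/
import Mathlib
import Fermat.Agent.S18x.NrmNCoord

set_option autoImplicit false
set_option synthInstance.maxHeartbeats 400000

namespace Fermat.Agent.S18x

open ModularCurve IntermediateField
open Fermat.Agent.S24x AlgebraicCurve

section Generic

variable {K Ω : Type*} [Field K] [Field Ω] [Algebra K Ω]

/-- **Finiteness over an intermediate field.**  If `B / K(t)` is finite (`t ∈ B`) and `A ≤ B` is an
intermediate field containing `t`, then `B / A` is finite (inclusion algebra). -/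
theorem nncf_finite_inclusion {A B : IntermediateField K Ω} (h : A ≤ B) (t : ↥B)
    (ht : (t : Ω) ∈ A) (hfin : Module.Finite K⟮t⟯ ↥B) :
    @Module.Finite ↥A ↥B _ _ (IntermediateField.inclusion h).toAlgebra.toModule := by
  let _ : Algebra ↥A ↥B := (IntermediateField.inclusion h).toAlgebra
  have hmem : ∀ y : K⟮t⟯, ((y : ↥B) : Ω) ∈ A := by
    intro y
    have h1 : ((y : ↥B) : Ω) ∈ (K⟮t⟯ : IntermediateField K ↥B).map B.val :=
      (IntermediateField.mem_map _).mpr ⟨y, y.2, rfl⟩
    rw [IntermediateField.adjoin_map, Set.image_singleton] at h1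
    have h2 : K⟮B.val t⟯ ≤ A := by
      rw [IntermediateField.adjoin_simple_le_iff]
      exact ht
    exact h2 h1
  let φ : K⟮t⟯ →+* ↥A :=
    { toFun := fun y => ⟨((y : ↥B) : Ω), hmem y⟩
      map_one' := rfl
      map_mul' := fun _ _ => rfl
      map_zero' := rfl
      map_add' := fun _ _ => rfl }
  let _ : Algebra K⟮t⟯ ↥A := φ.toAlgebra
  have : IsScalarTower K⟮t⟯ ↥A ↥B := IsScalarTower.of_algebraMap_eq fun _ => rfl
  exact Module.Finite.of_restrictScalars_finite K⟮t⟯ ↥A ↥B

/-- algebraic version. -/
theorem nncf_isAlgebraic_inclusion {A B : IntermediateField K Ω} (h : A ≤ B) (t : ↥B)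
    (ht : (t : Ω) ∈ A) (hfin : Module.Finite K⟮t⟯ ↥B) :
    @Algebra.IsAlgebraic ↥A ↥B _ _ (IntermediateField.inclusion h).toAlgebra := by
  let _ : Algebra ↥A ↥B := (IntermediateField.inclusion h).toAlgebra
  have : Module.Finite ↥A ↥B := nncf_finite_inclusion h t ht hfin
  exact Algebra.IsAlgebraic.of_finite ↥A ↥B

end Generic

section Levels

variable (k : Type*) [Field k]

/-- **`F̄_M / F̄_N` is finite** (any field `k`), for the inclusion algebra. -/
theorem nncf_finite_Fb {N M : ℕ} [NeZero N] [NeZero M]
    (hFb : modularFunctionFieldFullC k N ≤ modularFunctionFieldFullC k M) :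
    @Module.Finite ↥(modularFunctionFieldFullC k N) ↥(modularFunctionFieldFullC k M) _ _
      (IntermediateField.inclusion hFb).toAlgebra.toModule :=
  nncf_finite_inclusion hFb (pls_jb k M) (jqModC_mem_full k N) (pls_finiteDimensional_jb k M)

theorem nncf_isAlgebraic_Fb {N M : ℕ} [NeZero N] [NeZero M]
    (hFb : modularFunctionFieldFullC k N ≤ modularFunctionFieldFullC k M) :
    @Algebra.IsAlgebraic ↥(modularFunctionFieldFullC k N) ↥(modularFunctionFieldFullC k M) _ _
      (IntermediateField.inclusion hFb).toAlgebra :=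
  nncf_isAlgebraic_inclusion hFb (pls_jb k M) (jqModC_mem_full k N) (pls_finiteDimensional_jb k M)

end Levels

section CharZero

/-- **`F_M / F_N` is finite**, for the inclusion algebra. -/
theorem nncf_finite_F {N M : ℕ} [NeZero M]
    (hF : modularFunctionFieldBar N ≤ modularFunctionFieldBar M) :
    @Module.Finite ↥(modularFunctionFieldBar N) ↥(modularFunctionFieldBar M) _ _
      (IntermediateField.inclusion hF).toAlgebra.toModule :=
  nncf_finite_inclusion hF (jBar M)
    (by rw [← nnc_incl_jBar hF]; exact (jBar N).2)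
    (pls_isSepCoordinate_jBar M).coord.finite

theorem nncf_isAlgebraic_F {N M : ℕ} [NeZero M]
    (hF : modularFunctionFieldBar N ≤ modularFunctionFieldBar M) :
    @Algebra.IsAlgebraic ↥(modularFunctionFieldBar N) ↥(modularFunctionFieldBar M) _ _
      (IntermediateField.inclusion hF).toAlgebra :=
  nncf_isAlgebraic_inclusion hF (jBar M)
    (by rw [← nnc_incl_jBar hF]; exact (jBar N).2)
    (pls_isSepCoordinate_jBar M).coord.finite

end CharZero

end Fermat.Agent.S18x
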