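/-
S18x/NrmNGlue.lean (helper85): GLUE for row N8a of the S18 NRM plan (instantiation of `nds_descent`).
Abstract over `L ⊆ F ⊆ F'` (think `ℚ̄ ⊆ F_N ⊆ F_{4N}` or `F_{9N}`), a valuation subring `A` of `L`
and a coordinate `x : F` (think `x = j`).

* `nng_hom A x : A[X] →+* F`, `nng_Int A x y` ("`y` is integral over `A[x]`"), `nng_O A x : Subring F`
  = the subring `O` (resp. `O'`) fed to `nds_descent`;
* `nng_norm_mem`  = hypothesis `hOnorm` of `nds_descent`: `Norm_{F'/F}` maps `O'` into `O`;
* `nng_hk0`       = hypothesis `hk0` of `nds_descent` for `k0 = k[X]`: every polynomial in `ρ J` with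
  coefficients in `k` is the reduction of an element of `O ∩ W` (a polynomial in `J` over `A`);
* `nng_isIntegral_adjoin`, `nng_h1v` : elements of `O` are integral over `L[x]`
  (`Algebra.adjoin L {x}` form and `RingHom.IsIntegralElem (aeval x)` form);
* `nng_hInt0` = the assembled statement: NRM at the upper level (`hY`) ⟹ `hInt0` at the lower level in
  the exact shape consumed by `ged_N0` (helper4, S18x/GeDict.lean).
Mathlib + S18x/NdsDescent only.
-/
import Mathlib
import Fermat.Agent.S18x.NdsDescent

set_option autoImplicit false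

namespace Fermat.Agent.S18x

open Polynomial

section Defs

variable {L F : Type*} [Field L] [Field F] [Algebra L F]

/-- The evaluation map `A[X] → F`, `X ↦ x`. -/
noncomputable def nng_hom (A : ValuationSubring L) (x : F) : (↥A)[X] →+* F :=
  Polynomial.eval₂RingHom ((algebraMap L F).comp A.subtype) x

theorem nng_hom_apply (A : ValuationSubring L) (x : F) (p : (↥A)[X]) :
    nng_hom A x p = p.eval₂ ((algebraMap L F).comp A.subtype) x := rfl

/-- `y` is integral over `A[x]`. -/
def nng_Int (A : ValuationSubring L) (x y : F) : Prop := (nng_hom A x).IsIntegralElem y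

/-- The subring of `F` of elements integral over `A[x]`. -/
def nng_O (A : ValuationSubring L) (x : F) : Subring F where
  carrier := {y | nng_Int A x y}
  mul_mem' := fun ha hb => RingHom.IsIntegralElem.mul _ ha hb
  one_mem' := by
    have := (nng_hom A x).isIntegralElem_map (x := (1 : (↥A)[X]))
    simpa [nng_Int] using this
  add_mem' := fun ha hb => RingHom.IsIntegralElem.add _ ha hb
  zero_mem' := by
    have := (nng_hom A x).isIntegralElem_map (x := (0 : (↥A)[X]))
    simpa [nng_Int] using this
  neg_mem' := fun ha => RingHom.IsIntegralElem.neg _ ha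

theorem nng_mem_O {A : ValuationSubring L} {x y : F} : y ∈ nng_O A x ↔ nng_Int A x y := Iff.rfl

theorem nng_hom_mem_O (A : ValuationSubring L) (x : F) (p : (↥A)[X]) : nng_hom A x p ∈ nng_O A x :=
  (nng_hom A x).isIntegralElem_map

/-- integrality descends along a factorisation of the ring map -/
theorem nng_isIntegralElem_of_comp {R S T : Type*} [CommRing R] [CommRing S] [CommRing T]
    (g : S →+* T) (h : R →+* S) {y : T} (hy : (g.comp h).IsIntegralElem y) : g.IsIntegralElem y := by
  obtain ⟨P, hP, hPy⟩ := hy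
  refine ⟨P.map h, hP.map h, ?_⟩
  rw [Polynomial.eval₂_map]
  exact hPy

end Defs

section Norm

variable {L F F' : Type*} [Field L] [Field F] [Field F'] [Algebra L F] [Algebra F F'] [Algebra L F']
  [IsScalarTower L F F']

theorem nng_hom_top (A : ValuationSubring L) (x : F) :
    nng_hom A (algebraMap F F' x) = (algebraMap F F').comp (nng_hom A x) := by
  apply Polynomial.ringHom_ext
  · intro a
    simp [nng_hom, IsScalarTower.algebraMap_apply L F F']
  · simp [nng_hom]

/-- `hOnorm` of `nds_descent`: the norm of an element integral over `A[x]` is integral over `A[x]`. -/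
theorem nng_norm_mem (A : ValuationSubring L) (x : F) {z : F'}
    (hz : z ∈ nng_O A (algebraMap F F' x)) : Algebra.norm F z ∈ nng_O A x := by
  let _ : Algebra (↥A)[X] F := (nng_hom A x).toAlgebra
  let _ : Algebra (↥A)[X] F' := ((algebraMap F F').comp (nng_hom A x)).toAlgebra
  have : IsScalarTower (↥A)[X] F F' := IsScalarTower.of_algebraMap_eq' rfl
  have hz' : IsIntegral (↥A)[X] z := by
    rw [nng_mem_O, nng_Int, nng_hom_top] at hz
    exact hz
  exact Algebra.isIntegral_norm F hz'

end Norm

section OverL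

variable {L F : Type*} [Field L] [Field F] [Algebra L F]

/-- `nng_hom A x` factors through `aeval x : L[X] → F`. -/
theorem nng_hom_eq_comp (A : ValuationSubring L) (x : F) :
    nng_hom A x = ((Polynomial.aeval (R := L) x).toRingHom).comp (Polynomial.mapRingHom A.subtype) := by
  apply Polynomial.ringHom_ext
  · intro a
    simp [nng_hom]
  · simp [nng_hom]

/-- Elements of `O` are integral over `L[x]`, `RingHom.IsIntegralElem` form (= `h1v_Int L x y`). -/
theorem nng_h1v {A : ValuationSubring L} {x y : F} (hy : y ∈ nng_O A x) :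
    (Polynomial.aeval (R := L) x).toRingHom.IsIntegralElem y := by
  rw [nng_mem_O, nng_Int, nng_hom_eq_comp] at hy
  exact nng_isIntegralElem_of_comp _ _ hy

/-- Elements of `O` are integral over `L[x] = Algebra.adjoin L {x}`. -/
theorem nng_isIntegral_adjoin {A : ValuationSubring L} {x y : F} (hy : y ∈ nng_O A x) :
    IsIntegral (Algebra.adjoin L {x}) y := by
  obtain ⟨P, hP, hPy⟩ := nng_h1v hy
  -- the map `L[X] → Algebra.adjoin L {x}`
  let φ : L[X] →+* Algebra.adjoin L {x} :=
    (Polynomial.aeval (R := L) (⟨x, Algebra.subset_adjoin (Set.mem_singleton x)⟩ :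
      Algebra.adjoin L {x})).toRingHom
  have hφ : ∀ p : L[X], ((φ p : Algebra.adjoin L {x}) : F) = Polynomial.aeval x p := by
    intro p
    have := Polynomial.aeval_algHom_apply (Algebra.adjoin L {x}).val
      (⟨x, Algebra.subset_adjoin (Set.mem_singleton x)⟩ : Algebra.adjoin L {x}) p
    exact this.symm
  refine ⟨P.map φ, hP.map φ, ?_⟩
  rw [Polynomial.eval₂_map]
  have hcomp : (algebraMap (Algebra.adjoin L {x}) F).comp φ =
      (Polynomial.aeval (R := L) x).toRingHom := by
    ext p
    · simp [φ]
    · simp [φ]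
  rw [hcomp]
  exact hPy

end OverL

section Hk0

variable {L F k Fb : Type*} [Field L] [Field F] [Field k] [Field Fb] [Algebra L F] [Algebra k Fb]

/-- `hk0` of `nds_descent` for `k0 = k[X]`: every polynomial in `ρ J` with coefficients in `k` is the
reduction of a polynomial in `J` with coefficients in `A`, an element of `O ∩ W`. -/
theorem nng_hk0 (A : ValuationSubring L) (π : A →+* k) (hπ : Function.Surjective π)
    (W : ValuationSubring F) (ρ : W →+* Fb)
    (hAW : ∀ a : A, algebraMap L F (a : L) ∈ W)
    (hρ : ∀ a : A, ρ ⟨algebraMap L F (a : L), hAW a⟩ = algebraMap k Fb (π a))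
    (J : W) (c : k[X]) :
    ∃ y : W, (y : F) ∈ nng_O A (J : F) ∧ ρ y = c.eval₂ (algebraMap k Fb) (ρ J) := by
  obtain ⟨p, rfl⟩ := Polynomial.map_surjective π hπ c
  -- the ring hom `A → W`
  let ι : A →+* W := ((algebraMap L F).comp A.subtype).codRestrict W.toSubring hAW
  have hι : ∀ a : A, ((ι a : W) : F) = algebraMap L F (a : L) := fun a => rfl
  refine ⟨p.eval₂ ι J, ?_, ?_⟩
  · have : ((p.eval₂ ι J : W) : F) = nng_hom A (J : F) p := by
      rw [nng_hom_apply]
      have h1 := Polynomial.hom_eval₂ p ι W.subtype J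
      have h2 : W.subtype.comp ι = (algebraMap L F).comp A.subtype := by
        ext a
        rfl
      rw [h2] at h1
      exact h1
    rw [this]
    exact nng_hom_mem_O A (J : F) p
  · rw [Polynomial.hom_eval₂, Polynomial.eval₂_map]
    congr 1
    ext a
    exact hρ a

end Hk0

section Assembled

variable {L F F' k Fb Fb' : Type*} [Field L] [Field F] [Field F'] [Field k] [Field Fb] [Field Fb']
  [Algebra L F] [Algebra F F'] [Algebra L F'] [IsScalarTower L F F'] [Algebra k Fb] [Algebra Fb Fb']
  {W : ValuationSubring F} {W' : ValuationSubring F'} {ρ : W →+* Fb} {ρ' : W' →+* Fb'}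
  {D E : Type*} [CommRing D] [IsDedekindDomain D] [Algebra k[X] D] [Module.Finite k[X] D]
  [CommRing E] [IsDedekindDomain E] [Algebra D E] [Module.Finite D E] [Module.IsTorsionFree D E]
  [Algebra D Fb] [IsFractionRing D Fb] [Algebra E Fb'] [IsFractionRing E Fb'] [Algebra D Fb']
  [IsScalarTower D Fb Fb'] [IsScalarTower D E Fb']

/-- **N8a glue**: normality at the upper level (`hY`: every element of `E`, the integral closure of
`k[ρ J]` in `Fb'`, is the reduction of an element of `W'` integral over `A[J]`) implies `hInt0` at the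
lower level, in the shape consumed by `ged_N0` (helper4): every `yb : Fb` integral over `k[ρ J]` is the
reduction of some `u : W` integral over `L[J]` (indeed over `A[J]`).  No Galois hypothesis. -/
theorem nng_hInt0 (H : nd_RedPair W W' ρ ρ') (A : ValuationSubring L) (π : A →+* k)
    (hπ : Function.Surjective π)
    (hAW : ∀ a : A, algebraMap L F (a : L) ∈ W)
    (hρ : ∀ a : A, ρ ⟨algebraMap L F (a : L), hAW a⟩ = algebraMap k Fb (π a))
    (J : W)
    (hcomp : ∀ c : k[X], algebraMap D Fb (algebraMap k[X] D c) = c.eval₂ (algebraMap k Fb) (ρ J))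
    (hDint : ∀ yb : Fb, IsIntegral (Algebra.adjoin k {ρ J}) yb → ∃ d : D, algebraMap D Fb d = yb)
    (hD : ¬ IsField D)
    (hresD : ∀ 𝔮 : Ideal D, 𝔮.IsMaximal → ∀ s : D, ∃ c : k[X], s - algebraMap k[X] D c ∈ 𝔮)
    (hresE : ∀ P : Ideal E, P.IsMaximal → ∀ x : E, ∃ d : D, x - algebraMap D E d ∈ P)
    (hY : ∀ e : E, ∃ z : W', (z : F') ∈ nng_O A (algebraMap F F' (J : F)) ∧
      ρ' z = algebraMap E Fb' e) :
    ∀ yb : Fb, IsIntegral (Algebra.adjoin k {ρ J}) yb →
      ∃ u : W, (u : F) ∈ nng_O A (J : F) ∧ ρ u = yb ∧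
        IsIntegral (Algebra.adjoin L {(J : F)}) (u : F) := by
  have hdesc := nds_descent (k0 := k[X]) (D := D) (E := E) H (nng_O A (J : F))
    (nng_O A (algebraMap F F' (J : F))) (fun z hz => nng_norm_mem A (J : F) hz) hD
    (fun c => by
      obtain ⟨y, hyO, hy⟩ := nng_hk0 A π hπ W ρ hAW hρ J c
      exact ⟨y, hyO, by rw [hy, hcomp]⟩)
    hresD hresE hY
  intro yb hyb
  obtain ⟨d, rfl⟩ := hDint yb hyb
  obtain ⟨y, hyO, hy⟩ := hdesc d
  exact ⟨y, hyO, hy, nng_isIntegral_adjoin hyO⟩

end Assembled

end Fermat.Agent.S18x
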