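/-
S18x/NrmNInst.lean (helper85, row N8a of s18_nrm_plan, prefix `nninst_`): CONCRETE instantiation, in
HYPOTHESIS FORM, of the norm descent of normality `nrns_N0_descent` (helper8, S18x/NrnCoreS) for the
modular function fields

  `F  = FBar N ⊆ F' = FBar M`   over `Q̄`,      `Fb = F̄_N ⊆ Fb' = F̄_M`   over `k = A / 𝔪_A`,

`F̄_M = pls_Fb k M = modularFunctionFieldFullC k M`, with coordinates `x = j` at all four places.

What is taken as a hypothesis is exactly what is not on main yet:
* the algebra structures `F → F'`, `Fb → Fb'` (any instances with `j ↦ j`; row N8d defines them);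
* the level-`M` Gauss pair `(W', ρ')` with `H : nd_RedPair W W' ρ ρ'` (row N8d, `gwm_redPair`);
* `hY` = (N0) of GE2 at the auxiliary level `M` (row N6).
Everything else is discharged here: constants (`s18a_Gauss`), surjectivity of the residue map,
`IsAlgClosed k`, the four separating coordinates, and separability of `F̄_M / F̄_N`
(`nninst_isSeparable_of_sepCoordinate`: NOT an input any more).

* `nninst_N0_descent`   : abstract `nrns_N0_descent` WITHOUT `[Algebra.IsSeparable Fb Fb']`;
* `nninst_N0_of_redPair`: (N0) at level `N` for ANY pair `(W, ρ)` with `s18a_Gauss`, in the exact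
  `hN0` shape of `nrd_Ninf_levelN` / `glu_result_of_gauss_nrm`;
* `nninst_N0_gi`        : the same for helper19's canonical pair `(gi_W, gi_rho, gi_J)`, in the
  `(pls_jb, jBar)` shape of `s18f_Normality` (first conjunct).
-/
import Mathlib
import Fermat.Agent.S18x.NrnCoreS
import Fermat.Agent.S18x.InstGaussJ
import Fermat.Agent.S18x.PlsTsFields
import Fermat.Agent.S18x.PlsFbarFinal

set_option autoImplicit false
set_option synthInstance.maxHeartbeats 400000

namespace Fermat.Agent.S18x

open AlgebraicCurve IntermediateField Polynomial ModularCurve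
open Fermat.Agent.S24x

section Sep

variable {k Fb Fb' : Type*} [Field k] [Field Fb] [Field Fb'] [Algebra k Fb] [Algebra k Fb']
  [Algebra Fb Fb'] [IsScalarTower k Fb Fb']

/-- If `Fb'` is separable over `k(t')` with `t'` the image of `t ∈ Fb`, then `Fb' / Fb` is
separable. -/
theorem nninst_isSeparable_of_sep_adjoin (t : Fb) (t' : Fb') (ht' : t' = algebraMap Fb Fb' t)
    [hsep : Algebra.IsSeparable k⟮t'⟯ Fb'] : Algebra.IsSeparable Fb Fb' := by
  subst ht'
  let f : Fb →ₐ[k] Fb' := IsScalarTower.toAlgHom k Fb Fb'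
  have hmap : (k⟮t⟯).map f = k⟮algebraMap Fb Fb' t⟯ := by
    rw [IntermediateField.adjoin_map, Set.image_singleton]
    rfl
  let e₁ : k⟮t⟯ ≃ₐ[k] k⟮algebraMap Fb Fb' t⟯ :=
    (IntermediateField.equivMap k⟮t⟯ f).trans (IntermediateField.equivOfEq hmap)
  have he : (algebraMap k⟮t⟯ Fb').comp (e₁.symm.toRingEquiv : k⟮algebraMap Fb Fb' t⟯ →+* k⟮t⟯)
      = ((RingEquiv.refl Fb' : Fb' ≃+* Fb') : Fb' →+* Fb').comp
        (algebraMap k⟮algebraMap Fb Fb' t⟯ Fb') := by
    ext y
    obtain ⟨s, rfl⟩ := e₁.surjective y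
    simp only [RingHom.coe_comp, Function.comp_apply]
    have h1 : (e₁.symm.toRingEquiv : k⟮algebraMap Fb Fb' t⟯ →+* k⟮t⟯) (e₁ s) = s :=
      e₁.symm_apply_apply s
    rw [h1]
    rfl
  have h2 : Algebra.IsSeparable k⟮t⟯ Fb' :=
    Algebra.IsSeparable.of_equiv_equiv e₁.symm.toRingEquiv (RingEquiv.refl Fb') he
  exact Algebra.isSeparable_tower_top_of_isSeparable k⟮t⟯ Fb Fb'

/-- A separating coordinate of `Fb' / k` coming from `Fb` makes `Fb' / Fb` separable. -/
theorem nninst_isSeparable_of_sepCoordinate (t : Fb) (t' : Fb') (ht' : t' = algebraMap Fb Fb' t)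
    (h : pls_IsSepCoordinate k Fb' t') : Algebra.IsSeparable Fb Fb' := by
  have := h.sep
  exact nninst_isSeparable_of_sep_adjoin (k := k) t t' ht'

end Sep

section Abstract

variable {L k F F' Fb Fb' : Type*} [Field L] [Field k] [Field F] [Field F'] [Field Fb] [Field Fb']
  [Algebra L F] [Algebra L F'] [Algebra F F'] [IsScalarTower L F F']
  [Algebra k Fb] [Algebra k Fb'] [Algebra Fb Fb'] [IsScalarTower k Fb Fb']
  {A : ValuationSubring L} {π : A →+* k} {W : ValuationSubring F} {W' : ValuationSubring F'}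
  {ρ : W →+* Fb} {ρ' : W' →+* Fb'}

/-- The coordinate upstairs reduces to the image of the reduction of the coordinate downstairs. -/
theorem nninst_rho_coord (H : nd_RedPair W W' ρ ρ') (x : W) (x' : W')
    (hx' : (x' : F') = algebraMap F F' (x : F)) : ρ' x' = algebraMap Fb Fb' (ρ x) := by
  have h1 : x' = ⟨algebraMap F F' (x : F), (H.mem_iff _).mpr x.2⟩ := Subtype.ext hx'
  rw [h1]
  exact H.compat _ x.2 _

/-- **(N0) at the auxiliary level ==> (N0) at the lower level**: `nrns_N0_descent` (helper8) with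
the instance `[Algebra.IsSeparable Fb Fb']` REMOVED (it follows from `hxb'`). -/
theorem nninst_N0_descent [IsAlgClosed k] (H : nd_RedPair W W' ρ ρ')
    (hmem : ∀ c : L, algebraMap L F c ∈ W ↔ c ∈ A)
    (hρalg : ∀ (c : L) (hc : c ∈ A) (hW : algebraMap L F c ∈ W),
      ρ ⟨algebraMap L F c, hW⟩ = algebraMap k Fb (π ⟨c, hc⟩))
    (hπ : Function.Surjective π)
    (x : W) (x' : W') (hx' : (x' : F') = algebraMap F F' (x : F))
    (hxF : pls_IsSepCoordinate L F (x : F)) (hxF' : pls_IsSepCoordinate L F' (x' : F'))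
    (hxb : pls_IsSepCoordinate k Fb (ρ x)) (hxb' : pls_IsSepCoordinate k Fb' (ρ' x'))
    (hY : ∀ yb : Fb', (∀ Q : Place k Fb', 0 ≤ Q.ord (ρ' x') → 0 ≤ Q.ord yb) →
        ∃ u : W', ρ' u = yb ∧ ∀ P : Place L F', 0 ≤ P.ord (x' : F') → 0 ≤ P.ord (u : F')) :
    ∀ yb : Fb, (∀ Q : Place k Fb, 0 ≤ Q.ord (ρ x) → 0 ≤ Q.ord yb) →
        ∃ u : W, ρ u = yb ∧ ∀ P : Place L F, 0 ≤ P.ord (x : F) → 0 ≤ P.ord (u : F) := by
  have : Algebra.IsSeparable Fb Fb' :=
    nninst_isSeparable_of_sepCoordinate (k := k) (ρ x) (ρ' x') (nninst_rho_coord H x x' hx') hxb'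
  exact nrns_N0_descent H hmem hρalg hπ x x' hx' hxF hxF' hxb hxb' hY

end Abstract

section Concrete

variable (N M : ℕ) [NeZero N] [NeZero M] (A : ValuationSubring (AlgebraicClosure ℚ))

/-- **(N0) of GE2 at level `N` from (N0) at the auxiliary level `M`** (hypothesis form), for ANY
level-`N` pair `(W, ρ)` satisfying `s18a_Gauss` with `J = j`, `ρ J = j̄`, ANY algebra structures
`F_N → F_M`, `F̄_N → F̄_M` mapping `j` to `j`, and ANY level-`M` pair `(W', ρ')` forming an
`nd_RedPair` with `(W, ρ)` and containing `J' = j`, `ρ' J' = j̄`.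
The conclusion is in the exact `hN0` shape of `nrd_Ninf_levelN` / `glu_result_of_gauss_nrm`. -/
theorem nninst_N0_of_redPair
    [Algebra (FBar N) (FBar M)] [IsScalarTower (AlgebraicClosure ℚ) (FBar N) (FBar M)]
    [Algebra (modularFunctionFieldFullC (IsLocalRing.ResidueField A) N)
      (modularFunctionFieldFullC (IsLocalRing.ResidueField A) M)]
    [IsScalarTower (IsLocalRing.ResidueField A)
      (modularFunctionFieldFullC (IsLocalRing.ResidueField A) N)
      (modularFunctionFieldFullC (IsLocalRing.ResidueField A) M)]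
    (hjj : algebraMap (FBar N) (FBar M) (jBar N) = jBar M)
    {W : ValuationSubring (modularFunctionFieldBar N)}
    {ρ : W →+* modularFunctionFieldFullC (IsLocalRing.ResidueField A) N}
    {r : Place (AlgebraicClosure ℚ) (modularFunctionFieldBar N) →
      Place (IsLocalRing.ResidueField A) (modularFunctionFieldFullC (IsLocalRing.ResidueField A) N)}
    (G : s18a_Gauss A (IsLocalRing.residue A) W ρ r)
    (J : W) (hJ : (J : modularFunctionFieldBar N) = jBar N)
    (hρJ : ((ρ J : modularFunctionFieldFullC (IsLocalRing.ResidueField A) N) :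
      LaurentSeries (IsLocalRing.ResidueField A)) = jqModC (IsLocalRing.ResidueField A))
    {W' : ValuationSubring (modularFunctionFieldBar M)}
    {ρ' : W' →+* modularFunctionFieldFullC (IsLocalRing.ResidueField A) M}
    (H : nd_RedPair W W' ρ ρ')
    (J' : W') (hJ' : (J' : modularFunctionFieldBar M) = jBar M)
    (hρJ' : ((ρ' J' : modularFunctionFieldFullC (IsLocalRing.ResidueField A) M) :
      LaurentSeries (IsLocalRing.ResidueField A)) = jqModC (IsLocalRing.ResidueField A))
    (hY : ∀ yb : modularFunctionFieldFullC (IsLocalRing.ResidueField A) M,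
      (∀ Q : Place (IsLocalRing.ResidueField A)
          (modularFunctionFieldFullC (IsLocalRing.ResidueField A) M),
        0 ≤ Q.ord (ρ' J') → 0 ≤ Q.ord yb) →
      ∃ u : W', ρ' u = yb ∧ ∀ P : Place (AlgebraicClosure ℚ) (modularFunctionFieldBar M),
        0 ≤ P.ord (J' : modularFunctionFieldBar M) → 0 ≤ P.ord (u : modularFunctionFieldBar M)) :
    ∀ yb : modularFunctionFieldFullC (IsLocalRing.ResidueField A) N,
      (∀ Q : Place (IsLocalRing.ResidueField A)
          (modularFunctionFieldFullC (IsLocalRing.ResidueField A) N),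
        0 ≤ Q.ord (ρ J) → 0 ≤ Q.ord yb) →
      ∃ u : W, ρ u = yb ∧ ∀ P : Place (AlgebraicClosure ℚ) (modularFunctionFieldBar N),
        0 ≤ P.ord (J : modularFunctionFieldBar N) → 0 ≤ P.ord (u : modularFunctionFieldBar N) := by
  have hk : IsAlgClosed (IsLocalRing.ResidueField A) := s18a_isAlgClosed_residue A
  have hρJe : ρ J = pls_jb (IsLocalRing.ResidueField A) N := Subtype.ext hρJ
  have hρJe' : ρ' J' = pls_jb (IsLocalRing.ResidueField A) M := Subtype.ext hρJ'
  have hx' : (J' : modularFunctionFieldBar M) =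
      algebraMap (FBar N) (FBar M) (J : modularFunctionFieldBar N) := by
    rw [hJ', hJ, hjj]
  have hxF : pls_IsSepCoordinate (AlgebraicClosure ℚ) (FBar N) (J : modularFunctionFieldBar N) := by
    rw [hJ]
    exact pls_isSepCoordinate_jBar N
  have hxF' : pls_IsSepCoordinate (AlgebraicClosure ℚ) (FBar M)
      (J' : modularFunctionFieldBar M) := by
    rw [hJ']
    exact pls_isSepCoordinate_jBar M
  have hxb : pls_IsSepCoordinate (IsLocalRing.ResidueField A)
      (modularFunctionFieldFullC (IsLocalRing.ResidueField A) N) (ρ J) := by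
    rw [hρJe]
    exact pls_isSepCoordinate_jb_perfect (IsLocalRing.ResidueField A) N
  have hxb' : pls_IsSepCoordinate (IsLocalRing.ResidueField A)
      (modularFunctionFieldFullC (IsLocalRing.ResidueField A) M) (ρ' J') := by
    rw [hρJe']
    exact pls_isSepCoordinate_jb_perfect (IsLocalRing.ResidueField A) M
  exact nninst_N0_descent (F := FBar N) (F' := FBar M) H G.mem_iff G.rho_alg G.pi_surj J J' hx'
    hxF hxF' hxb hxb' hY

/-- The same with the coordinates written `j`, `j̄` (shape of the first conjunct of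
`s18f_Normality`) on both sides. -/
theorem nninst_N0_of_redPair'
    [Algebra (FBar N) (FBar M)] [IsScalarTower (AlgebraicClosure ℚ) (FBar N) (FBar M)]
    [Algebra (modularFunctionFieldFullC (IsLocalRing.ResidueField A) N)
      (modularFunctionFieldFullC (IsLocalRing.ResidueField A) M)]
    [IsScalarTower (IsLocalRing.ResidueField A)
      (modularFunctionFieldFullC (IsLocalRing.ResidueField A) N)
      (modularFunctionFieldFullC (IsLocalRing.ResidueField A) M)]
    (hjj : algebraMap (FBar N) (FBar M) (jBar N) = jBar M)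
    {W : ValuationSubring (modularFunctionFieldBar N)}
    {ρ : W →+* modularFunctionFieldFullC (IsLocalRing.ResidueField A) N}
    {r : Place (AlgebraicClosure ℚ) (modularFunctionFieldBar N) →
      Place (IsLocalRing.ResidueField A) (modularFunctionFieldFullC (IsLocalRing.ResidueField A) N)}
    (G : s18a_Gauss A (IsLocalRing.residue A) W ρ r)
    (J : W) (hJ : (J : modularFunctionFieldBar N) = jBar N)
    (hρJ : ((ρ J : modularFunctionFieldFullC (IsLocalRing.ResidueField A) N) :
      LaurentSeries (IsLocalRing.ResidueField A)) = jqModC (IsLocalRing.ResidueField A))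
    {W' : ValuationSubring (modularFunctionFieldBar M)}
    {ρ' : W' →+* modularFunctionFieldFullC (IsLocalRing.ResidueField A) M}
    (H : nd_RedPair W W' ρ ρ')
    (J' : W') (hJ' : (J' : modularFunctionFieldBar M) = jBar M)
    (hρJ' : ((ρ' J' : modularFunctionFieldFullC (IsLocalRing.ResidueField A) M) :
      LaurentSeries (IsLocalRing.ResidueField A)) = jqModC (IsLocalRing.ResidueField A))
    (hY : ∀ yb : modularFunctionFieldFullC (IsLocalRing.ResidueField A) M,
      (∀ Q : Place (IsLocalRing.ResidueField A)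
          (modularFunctionFieldFullC (IsLocalRing.ResidueField A) M),
        0 ≤ Q.ord (pls_jb (IsLocalRing.ResidueField A) M) → 0 ≤ Q.ord yb) →
      ∃ u : W', ρ' u = yb ∧ ∀ P : Place (AlgebraicClosure ℚ) (modularFunctionFieldBar M),
        0 ≤ P.ord (jBar M) → 0 ≤ P.ord (u : modularFunctionFieldBar M)) :
    ∀ yb : modularFunctionFieldFullC (IsLocalRing.ResidueField A) N,
      (∀ Q : Place (IsLocalRing.ResidueField A)
          (modularFunctionFieldFullC (IsLocalRing.ResidueField A) N),
        0 ≤ Q.ord (pls_jb (IsLocalRing.ResidueField A) N) → 0 ≤ Q.ord yb) →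
      ∃ u : W, ρ u = yb ∧ ∀ P : Place (AlgebraicClosure ℚ) (modularFunctionFieldBar N),
        0 ≤ P.ord (jBar N) → 0 ≤ P.ord (u : modularFunctionFieldBar N) := by
  have hρJe : ρ J = pls_jb (IsLocalRing.ResidueField A) N := Subtype.ext hρJ
  have hρJe' : ρ' J' = pls_jb (IsLocalRing.ResidueField A) M := Subtype.ext hρJ'
  have key := nninst_N0_of_redPair N M A hjj G J hJ hρJ H J' hJ' hρJ'
    (by rw [hρJe', hJ']; exact hY)
  rw [hρJe, hJ] at key
  exact key

/-- **(N0) for helper19's canonical Gauss pair** `(gi_W, gi_rho)` at level `N`, in the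
`(pls_jb, jBar)` shape of the first conjunct of `s18f_Normality`, from an `nd_RedPair` with a
level-`M` pair and (N0) at level `M`. -/
theorem nninst_N0_gi (h : ReductionInputsModL A N)
    [Algebra (FBar N) (FBar M)] [IsScalarTower (AlgebraicClosure ℚ) (FBar N) (FBar M)]
    [Algebra (modularFunctionFieldFullC (IsLocalRing.ResidueField A) N)
      (modularFunctionFieldFullC (IsLocalRing.ResidueField A) M)]
    [IsScalarTower (IsLocalRing.ResidueField A)
      (modularFunctionFieldFullC (IsLocalRing.ResidueField A) N)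
      (modularFunctionFieldFullC (IsLocalRing.ResidueField A) M)]
    (hjj : algebraMap (FBar N) (FBar M) (jBar N) = jBar M)
    {W' : ValuationSubring (modularFunctionFieldBar M)}
    {ρ' : W' →+* modularFunctionFieldFullC (IsLocalRing.ResidueField A) M}
    (H : nd_RedPair (gi_W (gi_inputs_S18 N A h)) W' (gi_rho (gi_inputs_S18 N A h)) ρ')
    (J' : W') (hJ' : (J' : modularFunctionFieldBar M) = jBar M)
    (hρJ' : ((ρ' J' : modularFunctionFieldFullC (IsLocalRing.ResidueField A) M) :
      LaurentSeries (IsLocalRing.ResidueField A)) = jqModC (IsLocalRing.ResidueField A))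
    (hY : ∀ yb : modularFunctionFieldFullC (IsLocalRing.ResidueField A) M,
      (∀ Q : Place (IsLocalRing.ResidueField A)
          (modularFunctionFieldFullC (IsLocalRing.ResidueField A) M),
        0 ≤ Q.ord (pls_jb (IsLocalRing.ResidueField A) M) → 0 ≤ Q.ord yb) →
      ∃ u : W', ρ' u = yb ∧ ∀ P : Place (AlgebraicClosure ℚ) (modularFunctionFieldBar M),
        0 ≤ P.ord (jBar M) → 0 ≤ P.ord (u : modularFunctionFieldBar M)) :
    ∀ yb : modularFunctionFieldFullC (IsLocalRing.ResidueField A) N,
      (∀ Q : Place (IsLocalRing.ResidueField A)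
          (modularFunctionFieldFullC (IsLocalRing.ResidueField A) N),
        0 ≤ Q.ord (pls_jb (IsLocalRing.ResidueField A) N) → 0 ≤ Q.ord yb) →
      ∃ u : gi_W (gi_inputs_S18 N A h), gi_rho (gi_inputs_S18 N A h) u = yb ∧
        ∀ P : Place (AlgebraicClosure ℚ) (modularFunctionFieldBar N),
          0 ≤ P.ord (jBar N) → 0 ≤ P.ord (u : modularFunctionFieldBar N) :=
  nninst_N0_of_redPair' N M A hjj (gi_gauss_S18 N A h) (gi_J N A h) (gi_J_coe N A h)
    (gi_rho_J N A h) H J' hJ' hρJ' hY

end Concrete

end Fermat.Agent.S18x
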