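/-
S18x/NrmTop (helper40, block NRM wiring (T) = TOP-GENERIC): from normality at ONE admissible
auxiliary level `M` (`N ∣ M`, `ℓ ∤ M`) to the inputs of the S18 assembly; NO mention of the
coordinates `X3`, `μ`, of `e`, `h`, `c`.

* `nrmt_redPair`      : `nd_RedPair` for the levels `N ∣ M` over `(ℚ̄, A, k)`, canonical data
  `(gi_W (gi_inputs_S18 N A h), gi_rho ..)` below and `(nrmt_W M A, nrmt_rho ..)` above, inclusion
  algebras (`mem_iff`, `compat` definitional; `ker'`, `surj'` helper81/helper87; degrees `GlueTower`);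
* `nrmt_NRM_of_HY`    : `nrmt_HY M ..` ⟹ `nrn_NRM ℚ̄ k (gi_rho ..) (gi_J ..)`  (`nrns_descent`);
* `nrmt_hInt0_of_HY`  : the same as the literal `hInt0` of `glu_result_of_gauss_int`;
* `nrmt_result`       : `nrmt_HY` at some admissible `M` + the cusp input `hCo` (helper34's `nig_`
  shape, OUT-C-onto) ⟹ the frozen S18 conclusion `z = 0`.
-/
import Mathlib
import Fermat.Agent.S18x.NrmTopDefs
import Fermat.Agent.S18x.NrnCoreS
import Fermat.Agent.S18x.NrmNCoord
import Fermat.Agent.S18x.GlueTower
import Fermat.Agent.S18x.LvDegUpper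
import Fermat.Agent.S18x.NrmInfGlue
import Fermat.Agent.S18x.GlueInt

set_option autoImplicit false
set_option synthInstance.maxHeartbeats 400000
set_option linter.style.haveILetI false

namespace Fermat.Agent.S18x

open ModularCurve HahnSeries AlgebraicCurve IntermediateField Fermat.Agent.S24x

noncomputable section

section Generic

variable {K Ω : Type*} [Field K] [Field Ω] [Algebra K Ω] {E F : IntermediateField K Ω}

/-- the inclusion algebra of intermediate fields does not change the underlying element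
(stated generically: the concrete `rfl` is very slow in the kernel). -/
theorem nrmt_coe_algebraMap_inclusion (hEF : E ≤ F) (x : E) :
    ((@algebraMap E F _ _ (IntermediateField.inclusion hEF).toAlgebra x : F) : Ω) = (x : Ω) := rfl

end Generic

variable {N M : ℕ} [NeZero N] [NeZero M] (hNM : N ∣ M)
  (A : ValuationSubring (AlgebraicClosure ℚ)) (h : ReductionInputsModL A N)
  (ℓ : ℕ) [Fact ℓ.Prime] (hℓM : ¬ ℓ ∣ M) (hA : A.LiesOverPrime ℓ)

set_option maxHeartbeats 1000000 in
/-- **the reduction pair of the levels `N ∣ M`** (inclusion algebras). -/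
theorem nrmt_redPair :
    @nd_RedPair (FBar N) (FBar M) (modularFunctionFieldFullC (IsLocalRing.ResidueField A) N)
      (modularFunctionFieldFullC (IsLocalRing.ResidueField A) M) _ _ _ _
      (IntermediateField.inclusion (nnc_F_le hNM)).toAlgebra
      (IntermediateField.inclusion (nnc_Fb_le (IsLocalRing.ResidueField A) hNM)).toAlgebra
      (gi_W (gi_inputs_S18 N A h)) (nrmt_W M A) (gi_rho (gi_inputs_S18 N A h))
      (nrmt_rho M A ℓ hℓM hA) := by
  letI : Algebra (FBar N) (FBar M) := (IntermediateField.inclusion (nnc_F_le hNM)).toAlgebra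
  letI : Algebra (modularFunctionFieldFullC (IsLocalRing.ResidueField A) N)
      (modularFunctionFieldFullC (IsLocalRing.ResidueField A) M) :=
    (IntermediateField.inclusion (nnc_Fb_le (IsLocalRing.ResidueField A) hNM)).toAlgebra
  have hch : CharP (IsLocalRing.ResidueField A) ℓ := glu_charP A (Fact.out : ℓ.Prime) hA
  have hpos := glu_relfinrank_pos hNM
  have hfr : Module.finrank (FBar N) (FBar M) =
      IntermediateField.relfinrank (modularFunctionFieldBar N) (modularFunctionFieldBar M) :=
    lvu_finrank_inclusion _ _ (nnc_F_le hNM)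
  have hfrb : Module.finrank (modularFunctionFieldFullC (IsLocalRing.ResidueField A) N)
      (modularFunctionFieldFullC (IsLocalRing.ResidueField A) M) =
      IntermediateField.relfinrank (modularFunctionFieldFullC (IsLocalRing.ResidueField A) N)
        (modularFunctionFieldFullC (IsLocalRing.ResidueField A) M) :=
    lvu_finrank_inclusion _ _ (nnc_Fb_le (IsLocalRing.ResidueField A) hNM)
  refine ⟨?_, ?_, nrmt_rho_eq_zero_iff M A ℓ hℓM hA,
    nrmt_rho_surjective M A ℓ hℓM hA, ?_, ?_⟩
  · intro x
    rw [nrmt_mem_W_iff, gi_mem_W_iff, nrmt_coe_algebraMap_inclusion (nnc_F_le hNM) x]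
  · intro x hx hx'
    apply Subtype.ext
    rw [nrmt_coe_algebraMap_inclusion (nnc_Fb_le (IsLocalRing.ResidueField A) hNM), gi_rho_coe,
      nrmt_rho_coe]
    exact (gwm_rho0_apply (nrmt_nf M A) ⟨_, hx'⟩).trans
      (ga_rho_congr A (IsLocalRing.residue A)
        (nrmt_coe_algebraMap_inclusion (nnc_F_le hNM) x) _ _)
  · apply Module.finite_of_finrank_pos
    rw [hfr]
    exact hpos
  · rw [hfr, hfrb]
    exact glu_relfinrank_eq ℓ (IsLocalRing.ResidueField A) hNM hℓM

include hNM in
set_option maxHeartbeats 1000000 in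
/-- **normality at an admissible auxiliary level `M` ⟹ normality at level `N`** (ring form). -/
theorem nrmt_NRM_of_HY (hY : nrmt_HY M A ℓ hℓM hA) :
    nrn_NRM (AlgebraicClosure ℚ) (IsLocalRing.ResidueField A) (gi_rho (gi_inputs_S18 N A h))
      (gi_J N A h) := by
  have hk : IsAlgClosed (IsLocalRing.ResidueField A) := s18a_isAlgClosed_residue A
  letI : Algebra (FBar N) (FBar M) := (IntermediateField.inclusion (nnc_F_le hNM)).toAlgebra
  letI : Algebra (modularFunctionFieldFullC (IsLocalRing.ResidueField A) N)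
      (modularFunctionFieldFullC (IsLocalRing.ResidueField A) M) :=
    (IntermediateField.inclusion (nnc_Fb_le (IsLocalRing.ResidueField A) hNM)).toAlgebra
  haveI : IsScalarTower (AlgebraicClosure ℚ) (FBar N) (FBar M) :=
    nnc_isScalarTower_inclusion (nnc_F_le hNM)
  haveI : IsScalarTower (IsLocalRing.ResidueField A)
      (modularFunctionFieldFullC (IsLocalRing.ResidueField A) N)
      (modularFunctionFieldFullC (IsLocalRing.ResidueField A) M) :=
    nnc_isScalarTower_inclusion (nnc_Fb_le (IsLocalRing.ResidueField A) hNM)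
  have G := gi_gauss_S18 N A h
  have hρJ : gi_rho (gi_inputs_S18 N A h) (gi_J N A h) = pls_jb (IsLocalRing.ResidueField A) N :=
    Subtype.ext (gi_rho_J N A h)
  have hxb : cp15_IsSepCoordinate (IsLocalRing.ResidueField A)
      (modularFunctionFieldFullC (IsLocalRing.ResidueField A) N)
      (gi_rho (gi_inputs_S18 N A h) (gi_J N A h)) := by
    rw [hρJ]
    exact nnc_cp15_sepCoord_Fb (IsLocalRing.ResidueField A) N
  haveI : FFData (IsLocalRing.ResidueField A)
      (modularFunctionFieldFullC (IsLocalRing.ResidueField A) N)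
      (gi_rho (gi_inputs_S18 N A h) (gi_J N A h)) := cp15_ffData hxb
  haveI : Algebra.IsSeparable
      (IntermediateField.adjoin (IsLocalRing.ResidueField A)
        {gi_rho (gi_inputs_S18 N A h) (gi_J N A h)})
      (modularFunctionFieldFullC (IsLocalRing.ResidueField A) N) := hxb.sep
  haveI : Algebra.IsSeparable (modularFunctionFieldFullC (IsLocalRing.ResidueField A) N)
      (modularFunctionFieldFullC (IsLocalRing.ResidueField A) M) :=
    nnc_isSeparable_Fb (IsLocalRing.ResidueField A) (nnc_Fb_le (IsLocalRing.ResidueField A) hNM)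
  have hx' : ((nrmt_J M A : nrmt_W M A) : FBar M) =
      algebraMap (FBar N) (FBar M) ((gi_J N A h : gi_W (gi_inputs_S18 N A h)) : FBar N) := by
    rw [nrmt_J_coe, gi_J_coe]
    exact (nnc_algebraMap_jBar (nnc_F_le hNM)).symm
  exact nrns_descent (nrmt_redPair hNM A h ℓ hℓM hA) G.mem_iff G.rho_alg
    IsLocalRing.residue_surjective (gi_J N A h) (nrmt_J M A) hx' hY

include hNM in
/-- the same as the literal `hInt0` of `glu_result_of_gauss_int` / `nig_result_of_gauss_int0_onto`
for the canonical `(gi_W .., gi_rho .., gi_J ..)`. -/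
theorem nrmt_hInt0_of_HY (hY : nrmt_HY M A ℓ hℓM hA) :
    ∀ yb : modularFunctionFieldFullC (IsLocalRing.ResidueField A) N,
      IsIntegral (Algebra.adjoin (IsLocalRing.ResidueField A)
        {gi_rho (gi_inputs_S18 N A h) (gi_J N A h)}) yb →
      ∃ u : gi_W (gi_inputs_S18 N A h), gi_rho (gi_inputs_S18 N A h) u = yb ∧
        IsIntegral (Algebra.adjoin (AlgebraicClosure ℚ)
          {((gi_J N A h : gi_W (gi_inputs_S18 N A h)) : modularFunctionFieldBar N)})
          (u : modularFunctionFieldBar N) := by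
  intro yb hyb
  obtain ⟨u, hu, hρ⟩ := nrmt_NRM_of_HY hNM A h ℓ hℓM hA hY yb hyb
  exact ⟨u, hρ, hu⟩

include hNM in
/-- **S18 from normality at ONE admissible auxiliary level `M` and the cusp input `hCo`.** -/
theorem nrmt_result (hℓN : ¬ ℓ ∣ N) (hY : nrmt_HY M A ℓ hℓM hA)
    (hCo : ∀ yb : modularFunctionFieldFullC (IsLocalRing.ResidueField A) N,
      IsIntegral (Algebra.adjoin (IsLocalRing.ResidueField A)
        {(gi_rho (gi_inputs_S18 N A h) (gi_J N A h))⁻¹}) yb →
      ∃ (u : gi_W (gi_inputs_S18 N A h)) (s : Polynomial (IsLocalRing.ResidueField A)),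
        s.eval 0 ≠ 0 ∧
        gi_rho (gi_inputs_S18 N A h) u =
          Polynomial.aeval (gi_rho (gi_inputs_S18 N A h) (gi_J N A h))⁻¹ s * yb ∧
        IsIntegral (Algebra.adjoin (AlgebraicClosure ℚ)
          {(((gi_J N A h : gi_W (gi_inputs_S18 N A h)) : modularFunctionFieldBar N))⁻¹})
          (u : modularFunctionFieldBar N))
    (m : ℕ) (hm : ¬ ℓ ∣ m) (z : ModularCurve.JZero N) (hmz : m • z = 0)
    (hz : ModularCurve.reductionModL A N z = 0) : z = 0 :=
  nig_result_of_gauss_int0_onto N hℓN A hA h (gi_W (gi_inputs_S18 N A h))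
    (gi_rho (gi_inputs_S18 N A h)) (gi_gauss_S18 N A h) (gi_J N A h) (gi_J_coe N A h)
    (gi_rho_J N A h) (nrmt_hInt0_of_HY hNM A h ℓ hℓM hA hY) hCo m hm z hmz hz

end

end Fermat.Agent.S18x
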