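/-
S18x/NrmTopFree.lean (helper85, prefix `nrtf_`): the `h`-FREE part of the normality chain, in
helper40's canonical names (`S18x/NrmTopDefs`: `nrmt_W`, `nrmt_rho`, `nrmt_J`, `nrmt_HY`), i.e.
WITHOUT any hypothesis `ReductionInputsModL` / place map `r` (needed for S37 [B1], where `r` is what
is being constructed; for S18 itself `NrmTop` (helper40) transports to `(gi_W, gi_rho)`).

* `nrtf_redPair`      : `nd_RedPair` between the canonical `h`-free Gauss pairs at levels `N ∣ M`;
* `nrtf_HY_descent`   : **`nrmt_HY M A ℓ → nrmt_HY N A ℓ`** for `N ∣ M`, `ℓ ∤ M`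
                        (norm descent of the finite chart, `nrns_descent`, no Galois hypothesis);
* `nrtf_hIntInf`      : the chart at infinity for the canonical pair at level `N` from
                        `nrmt_HY N` + OUT-C-onto (`nrif_hIntInf_of_ker`, no place map).
-/
import Mathlib
import Fermat.Agent.S18x.NrmTopDefs
import Fermat.Agent.S18x.NrnCoreS
import Fermat.Agent.S18x.NrmNInst
import Fermat.Agent.S18x.NrmInfFree
import Fermat.Agent.S18x.GaussWM3
import Fermat.Agent.S18x.LvDegUpper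
import Fermat.Agent.S18x.PlsFbarFinal

set_option autoImplicit false
set_option synthInstance.maxHeartbeats 400000
set_option linter.style.haveILetI false

namespace Fermat.Agent.S18x

open ModularCurve HahnSeries AlgebraicCurve IntermediateField Polynomial
open Fermat.Agent.S24x Fermat.Agent.S28x

noncomputable section

variable (N M : ℕ) [NeZero N] [NeZero M] (A : ValuationSubring (AlgebraicClosure ℚ))
  (ℓ : ℕ) [Fact ℓ.Prime]

/-- the reduction pair between the canonical `h`-free Gauss pairs at levels `N ∣ M`. -/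
theorem nrtf_redPair (hNM : N ∣ M) (hℓN : ¬ ℓ ∣ N) (hℓM : ¬ ℓ ∣ M) (hA : A.LiesOverPrime ℓ) :
    @nd_RedPair ↥(gi_F (AlgebraicClosure ℚ) N) ↥(gi_F (AlgebraicClosure ℚ) M)
      ↥(gi_Fb (IsLocalRing.ResidueField A) N) ↥(gi_Fb (IsLocalRing.ResidueField A) M) _ _ _ _
      (gwm_algF (gwm_F_le (AlgebraicClosure ℚ) hNM))
      (gwm_algFb (gwm_Fb_le (IsLocalRing.ResidueField A) hNM))
      (nrmt_W N A) (nrmt_W M A) (nrmt_rho N A ℓ hℓN hA) (nrmt_rho M A ℓ hℓM hA) := by
  haveI : CharP (IsLocalRing.ResidueField A) ℓ := glu_charP A (Fact.out : ℓ.Prime) hA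
  letI : Algebra (ZMod ℓ) (IsLocalRing.ResidueField A) := ZMod.algebra _ ℓ
  have hrank := (lvu_relfinrank_levels_eq N ℓ (IsLocalRing.ResidueField A) M hNM hℓM).symm
  have hpos : 0 < IntermediateField.relfinrank (gi_F (AlgebraicClosure ℚ) N)
      (gi_F (AlgebraicClosure ℚ) M) := by
    have h2 := lvu_tower_bar N M hNM
    have hM : 0 < dedekindPsi M := sa_dedekindPsi_pos M (NeZero.ne M)
    rcases Nat.eq_zero_or_pos (IntermediateField.relfinrank (gi_F (AlgebraicClosure ℚ) N)
      (gi_F (AlgebraicClosure ℚ) M)) with h0 | h0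
    · exfalso
      have h3 : dedekindPsi N * IntermediateField.relfinrank (gi_F (AlgebraicClosure ℚ) N)
          (gi_F (AlgebraicClosure ℚ) M) = dedekindPsi M := h2
      rw [h0, mul_zero] at h3
      omega
    · exact h0
  have hinto : ∀ x : gwm_W (nrmt_nf M A), gwm_rho0 (nrmt_nf M A) x ∈
      gi_Fb (IsLocalRing.ResidueField A) M :=
    gwmi_rho0_mem ℓ hℓM (nrmt_nf M A) IsLocalRing.residue_surjective
  have key := gwm_redPair_of (gwm_F_le (AlgebraicClosure ℚ) hNM)
    (gwm_Fb_le (IsLocalRing.ResidueField A) hNM) (nrmt_nf M A) hinto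
    IsLocalRing.residue_surjective (nrmt_W N A) (nrmt_rho N A ℓ hℓN hA) (fun _ => Iff.rfl)
    (fun x hx _ => nrmt_rho_coe N A ℓ hℓN hA ⟨x, hx⟩) hpos hrank
  have hρeq : gwm_rho (nrmt_nf M A) hinto = nrmt_rho M A ℓ hℓM hA :=
    RingHom.ext fun x => Subtype.ext rfl
  rw [hρeq] at key
  exact key

/-- constants at level `N` for the canonical pair (`hmem`). -/
theorem nrtf_mem_iff (c : AlgebraicClosure ℚ) :
    algebraMap (AlgebraicClosure ℚ) (FBar N) c ∈ nrmt_W N A ↔ c ∈ A := by
  refine gwm_mem_iff (nrmt_nf N A) ?_ c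
  intro a ha
  by_contra hnu
  exact ha ((IsLocalRing.residue_eq_zero_iff a).mpr ((IsLocalRing.mem_maximalIdeal a).mpr hnu))

/-- the residue map on constants at level `N` for the canonical pair (`hρalg`). -/
theorem nrtf_rho_alg (hℓN : ¬ ℓ ∣ N) (hA : A.LiesOverPrime ℓ) (c : AlgebraicClosure ℚ)
    (hc : c ∈ A) (hW : algebraMap (AlgebraicClosure ℚ) (FBar N) c ∈ nrmt_W N A) :
    nrmt_rho N A ℓ hℓN hA ⟨algebraMap (AlgebraicClosure ℚ) (FBar N) c, hW⟩ =
      algebraMap (IsLocalRing.ResidueField A)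
        (modularFunctionFieldFullC (IsLocalRing.ResidueField A) N)
        (IsLocalRing.residue A ⟨c, hc⟩) := by
  apply Subtype.ext
  rw [nrmt_rho_coe]
  exact gwm_rho0_alg (nrmt_nf N A) ⟨c, hc⟩

set_option maxHeartbeats 1000000 in
/-- **NORM DESCENT OF THE FINITE CHART, `h`-free**: normality of the finite chart of the `j`-line
at level `M` implies normality at every level `N ∣ M` (`ℓ ∤ M`). -/
theorem nrtf_HY_descent (hNM : N ∣ M) (hℓN : ¬ ℓ ∣ N) (hℓM : ¬ ℓ ∣ M) (hA : A.LiesOverPrime ℓ)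
    (hY : nrmt_HY M A ℓ hℓM hA) : nrmt_HY N A ℓ hℓN hA := by
  have hk : IsAlgClosed (IsLocalRing.ResidueField A) := s18a_isAlgClosed_residue A
  letI := gwm_algF (gwm_F_le (AlgebraicClosure ℚ) hNM)
  letI := gwm_algFb (gwm_Fb_le (IsLocalRing.ResidueField A) hNM)
  haveI := gwm_towerF (gwm_F_le (AlgebraicClosure ℚ) hNM)
  haveI := gwm_towerFb (gwm_Fb_le (IsLocalRing.ResidueField A) hNM)
  have H := nrtf_redPair N M A ℓ hNM hℓN hℓM hA
  have hx' : ((nrmt_J M A : nrmt_W M A) : FBar M) =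
      algebraMap (FBar N) (FBar M) ((nrmt_J N A : nrmt_W N A) : FBar N) := by
    apply Subtype.ext
    rw [gwm_algF_coe, nrmt_J_coe, nrmt_J_coe, coe_jBar, coe_jBar]
  have hxb : pls_IsSepCoordinate (IsLocalRing.ResidueField A)
      (modularFunctionFieldFullC (IsLocalRing.ResidueField A) N)
      (nrmt_rho N A ℓ hℓN hA (nrmt_J N A)) := by
    rw [nrmt_rho_J]
    exact pls_isSepCoordinate_jb_perfect (IsLocalRing.ResidueField A) N
  have hxb' : pls_IsSepCoordinate (IsLocalRing.ResidueField A)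
      (modularFunctionFieldFullC (IsLocalRing.ResidueField A) M)
      (nrmt_rho M A ℓ hℓM hA (nrmt_J M A)) := by
    rw [nrmt_rho_J]
    exact pls_isSepCoordinate_jb_perfect (IsLocalRing.ResidueField A) M
  haveI : FFData (IsLocalRing.ResidueField A)
      (modularFunctionFieldFullC (IsLocalRing.ResidueField A) N)
      (nrmt_rho N A ℓ hℓN hA (nrmt_J N A)) := cp15_ffData (nrd_cp15_of_pls hxb)
  haveI : Algebra.IsSeparable
      (IsLocalRing.ResidueField A)⟮nrmt_rho N A ℓ hℓN hA (nrmt_J N A)⟯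
      (modularFunctionFieldFullC (IsLocalRing.ResidueField A) N) := hxb.sep
  haveI : Algebra.IsSeparable (modularFunctionFieldFullC (IsLocalRing.ResidueField A) N)
      (modularFunctionFieldFullC (IsLocalRing.ResidueField A) M) :=
    nninst_isSeparable_of_sepCoordinate (k := IsLocalRing.ResidueField A)
      (nrmt_rho N A ℓ hℓN hA (nrmt_J N A)) (nrmt_rho M A ℓ hℓM hA (nrmt_J M A))
      (nninst_rho_coord H (nrmt_J N A) (nrmt_J M A) hx') hxb'
  exact nrns_descent (F := FBar N) (F' := FBar M) H (nrtf_mem_iff N A) (nrtf_rho_alg N A ℓ hℓN hA)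
    IsLocalRing.residue_surjective (nrmt_J N A) (nrmt_J M A) hx' hY

/-- **THE CHART AT INFINITY, `h`-free**, for the canonical pair at level `N`: from the finite chart
`nrmt_HY N` and OUT-C-onto (`hCo`, shape of `nig_hIntInf`), with no place map. -/
theorem nrtf_hIntInf (hℓN : ¬ ℓ ∣ N) (hA : A.LiesOverPrime ℓ)
    (hY : nrmt_HY N A ℓ hℓN hA)
    (hCo : ∀ yb : modularFunctionFieldFullC (IsLocalRing.ResidueField A) N,
      IsIntegral (Algebra.adjoin (IsLocalRing.ResidueField A)
        {(pls_jb (IsLocalRing.ResidueField A) N)⁻¹}) yb →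
      ∃ (u : nrmt_W N A) (s : Polynomial (IsLocalRing.ResidueField A)), s.eval 0 ≠ 0 ∧
        nrmt_rho N A ℓ hℓN hA u =
          Polynomial.aeval (pls_jb (IsLocalRing.ResidueField A) N)⁻¹ s * yb ∧
        IsIntegral (Algebra.adjoin (AlgebraicClosure ℚ) {(jBar N)⁻¹}) (u : FBar N)) :
    ∀ yb : modularFunctionFieldFullC (IsLocalRing.ResidueField A) N,
      IsIntegral (Algebra.adjoin (IsLocalRing.ResidueField A)
        {(pls_jb (IsLocalRing.ResidueField A) N)⁻¹}) yb →
      ∃ u : nrmt_W N A, nrmt_rho N A ℓ hℓN hA u = yb ∧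
        IsIntegral (Algebra.adjoin (AlgebraicClosure ℚ) {(jBar N)⁻¹}) (u : FBar N) := by
  have hρJ := nrmt_rho_J N A ℓ hℓN hA
  have hρJ0 : nrmt_rho N A ℓ hℓN hA (nrmt_J N A) ≠ 0 := by
    rw [hρJ]
    intro h0
    exact (pls_transcendental_jb (IsLocalRing.ResidueField A) N) (h0 ▸ isAlgebraic_zero)
  have key := nrif_hIntInf_of_ker (F := FBar N) (nrtf_mem_iff N A) (nrtf_rho_alg N A ℓ hℓN hA)
    IsLocalRing.residue_surjective (nrmt_rho_eq_zero_iff N A ℓ hℓN hA) (nrmt_J N A) hρJ0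
    (by
      rw [hρJ, nrmt_J_coe]
      intro yb hyb
      obtain ⟨u, hu, hρu⟩ := (nrmt_HY_iff N A ℓ hℓN hA).mp hY yb hyb
      exact ⟨u, hρu, hu⟩)
    (by
      rw [hρJ, nrmt_J_coe]
      exact hCo)
  rw [hρJ, nrmt_J_coe] at key
  exact key

end

end Fermat.Agent.S18x
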