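/-
S18 project, block NRM, `ℓ = 2` bottom (helper86, prefix `nrm2c_`, part 2): Hesse twin of the
`Consumer` section of helper10's `NrmOddChart`: for the consumer subring
`S = FBar M ∩ (integral over ℚ̄[j])` of `nryg_main`, the coordinate `μ`, `1/(μ³ - 27)` and all of
`R_Y = purb_RY ℓ 3 μ (X³ - 27) N₀`, base-changed to `ℚ̄`, lie in `FBar M` and are integral over
`ℚ̄[jBar M]` as soon as `purb_LY 3 μ N₀ = F_M`; closed forms for `(N₀, M) = (3N, 9N)` via helper63's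
`bsn_LY_eq_Q`.
-/
import Fermat.Agent.S18x.NrmChartGen
import Fermat.Agent.S18x.NrmTwoChart
import Fermat.Agent.S18x.BaseIdentNineCor

set_option autoImplicit false
set_option linter.style.haveILetI false
set_option linter.unusedSectionVars false

namespace Fermat.Agent.S18x

open ModularCurve HahnSeries Polynomial Fermat.Agent.S24x Fermat.Agent.S28x

noncomputable section

section Consumer

variable (ℓ : ℕ) (N₀ : ℕ) [NeZero N₀] (M : ℕ) [NeZero M]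
  (hLY : purb_LY 3 lyn_muQ N₀ = modularFunctionFieldFull M)

include hLY

/-- `μ ∈ F_M`. -/
theorem nrm2c_mu_mem : lyn_muQ ∈ modularFunctionFieldFull M := by
  rw [← hLY]; exact nrmc_h_mem_LY 3 lyn_muQ N₀

/-- `1/(μ³ - 27) ∈ F_M`. -/
theorem nrm2c_cinv_mem : (nry_cval lyn_c2 lyn_muQ)⁻¹ ∈ modularFunctionFieldFull M := by
  rw [← hLY]; exact nrmc_cinv_mem_LY 3 lyn_muQ lyn_c2 N₀

/-- `R_Y ⊆ F_M`. -/
theorem nrm2c_RY_mem (t : ↥(purb_RY ℓ 3 lyn_muQ lyn_c2 N₀)) :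
    ((t : ↥(purb_LY 3 lyn_muQ N₀)) : LaurentSeries ℚ) ∈ modularFunctionFieldFull M := by
  rw [← hLY]; exact (t : ↥(purb_LY 3 lyn_muQ N₀)).2

/-- `μ` over `ℚ̄` is integral over `ℚ̄[jBar M]`. -/
theorem nrm2c_mu_isIntegral_FBar :
    IsIntegral (Algebra.adjoin (AlgebraicClosure ℚ) ({jBar M} : Set (FBar M)))
      (⟨coeffEmb (AlgebraicClosure ℚ) lyn_muQ,
        coeffEmb_mem_laurentBaseChange (AlgebraicClosure ℚ) (nrm2c_mu_mem N₀ M hLY)⟩ : FBar M) :=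
  nrmc_isIntegral_FBar M (nrm2c_mu_mem N₀ M hLY)
    (nrm2c_isIntegral_jq (nrmc_h_isIntegral lyn_muQ lyn_c2))

/-- `1/(μ³ - 27)` over `ℚ̄` is integral over `ℚ̄[jBar M]`. -/
theorem nrm2c_cinv_isIntegral_FBar :
    IsIntegral (Algebra.adjoin (AlgebraicClosure ℚ) ({jBar M} : Set (FBar M)))
      (⟨coeffEmb (AlgebraicClosure ℚ) (nry_cval lyn_c2 lyn_muQ)⁻¹,
        coeffEmb_mem_laurentBaseChange (AlgebraicClosure ℚ) (nrm2c_cinv_mem N₀ M hLY)⟩ : FBar M) :=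
  nrmc_isIntegral_FBar M (nrm2c_cinv_mem N₀ M hLY)
    (nrm2c_isIntegral_jq (nrmc_cinv_isIntegral lyn_muQ lyn_c2))

/-- every element of `R_Y`, over `ℚ̄`, is integral over `ℚ̄[jBar M]`. -/
theorem nrm2c_RY_isIntegral_FBar (t : ↥(purb_RY ℓ 3 lyn_muQ lyn_c2 N₀)) :
    IsIntegral (Algebra.adjoin (AlgebraicClosure ℚ) ({jBar M} : Set (FBar M)))
      (⟨coeffEmb (AlgebraicClosure ℚ) ((t : ↥(purb_LY 3 lyn_muQ N₀)) : LaurentSeries ℚ),
        coeffEmb_mem_laurentBaseChange (AlgebraicClosure ℚ) (nrm2c_RY_mem ℓ N₀ M hLY t)⟩ : FBar M) :=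
  nrmc_isIntegral_FBar M (nrm2c_RY_mem ℓ N₀ M hLY t)
    (nrm2c_isIntegral_jq (nrmc_RY_isIntegral ℓ 3 lyn_muQ lyn_c2 N₀ t))

end Consumer

/-! ### the closed instance `(N₀, M) = (3N, 9N)` -/

section Closed

variable (N : ℕ) [NeZero N]

/-- `purb_LY 3 μ (3N) = F_{9N}` in `lyn_` names (helper63's `bsn_LY_eq_Q`). -/
theorem nrm2c_hLY : purb_LY 3 lyn_muQ (3 * N) = modularFunctionFieldFull (9 * N) :=
  bsn_LY_eq_Q lyn_isUnit_three_rat N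

/-- `ℚ(μ) = F₉` in `lyn_` names (helper63's `bsn_F9_eq_Q'`). -/
theorem nrm2c_hKY : purb_KY lyn_muQ = modularFunctionFieldFull 9 :=
  (bsn_F9_eq_Q' lyn_isUnit_three_rat).symm

theorem nrm2c_mu_mem_nine : lyn_muQ ∈ modularFunctionFieldFull (9 * N) :=
  nrm2c_mu_mem (3 * N) (9 * N) (nrm2c_hLY N)

theorem nrm2c_cinv_mem_nine : (nry_cval lyn_c2 lyn_muQ)⁻¹ ∈ modularFunctionFieldFull (9 * N) :=
  nrm2c_cinv_mem (3 * N) (9 * N) (nrm2c_hLY N)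

theorem nrm2c_RY_mem_nine (ℓ : ℕ) (t : ↥(purb_RY ℓ 3 lyn_muQ lyn_c2 (3 * N))) :
    ((t : ↥(purb_LY 3 lyn_muQ (3 * N))) : LaurentSeries ℚ) ∈ modularFunctionFieldFull (9 * N) :=
  nrm2c_RY_mem ℓ (3 * N) (9 * N) (nrm2c_hLY N) t

end Closed

end

end Fermat.Agent.S18x
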