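/-
S18 project, block NRM row N6 (W2, part 2, helper19, prefix `nryv_`): the `S`-side inputs
`hSA`, `hSh`, `hSc`, `hSR` of helper94's `nry_main` / `nryg_main` for

  `S := nryw_S (gi_F L M) x`   (elements of `F_M ⊗ L ⊆ L((q))` integral over `L[x]`, `x = j`),

from: `h ∈ F_M`, `F_Y ⊆ F_M`, and the integrality over `ℚ[j]` of `h` and `1/c(h)` (ChartEq).

* `nryv_isIntegralElem_square`, `nryv_isIntegral_coeffEmb` : integrality over `ℚ[j]` in `ℚ((q))`
  gives integrality over `L[j]` in `L((q))` (coefficientwise base change);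
* `nryv_mem_S_of_amb` : membership in `nryw_S F x` from ambient integrality;
* `nryv_coeffEmb_mem_S` : `y ∈ F_M` integral over `ℚ[j]` ⇒ `coeffEmb L y ∈ S`;
* `nryv_B0_isIntegral`, `nryv_RY_isIntegral` : `B₀`, `R_Y` are integral over `ℚ[j]`;
* `nryv_hSA`, `nryv_hSh`, `nryv_hSc`, `nryv_hSR`.
-/
import Fermat.Agent.S18x.NrmYInst19
import Fermat.Agent.S18x.NrmYWrap
import Fermat.Agent.S18x.InstGauss

set_option autoImplicit false
set_option linter.unusedSectionVars false

namespace Fermat.Agent.S18x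

open ModularCurve HahnSeries Fermat.Agent.S28x Polynomial

noncomputable section

/-! ### transport of integrality -/

/-- integrality along a commutative square of ring homomorphisms. -/
theorem nryv_isIntegralElem_square {R S R' S' : Type*} [CommRing R] [CommRing S] [CommRing R']
    [CommRing S'] (f : R →+* S) (f' : R' →+* S') (φ : R →+* R') (g : S →+* S')
    (hsq : g.comp f = f'.comp φ) {y : S} (hy : f.IsIntegralElem y) : f'.IsIntegralElem (g y) := by
  obtain ⟨p, hp, hpy⟩ := hy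
  refine ⟨p.map φ, hp.map φ, ?_⟩
  rw [Polynomial.eval₂_map, ← hsq, ← Polynomial.hom_eval₂, hpy, map_zero]

section Transport

variable (L : Type*) [Field L] [Algebra ℚ L]

theorem nryv_coeffEmb_C (a : ℚ) :
    coeffEmb L (algebraMap ℚ (LaurentSeries ℚ) a) =
      algebraMap L (LaurentSeries L) (algebraMap ℚ L a) := by
  rw [algebraMap_laurentSeries_eq_single, algebraMap_laurentSeries_eq_single, coeffEmb,
    coeffMap_single]

/-- integrality over `ℚ[t]` in `ℚ((q))` gives integrality over `L[t_L]` in `L((q))`. -/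
theorem nryv_isIntegral_coeffEmb (t : LaurentSeries ℚ) {y : LaurentSeries ℚ}
    (hy : IsIntegral (Algebra.adjoin ℚ {t}) y) :
    IsIntegral (Algebra.adjoin L {coeffEmb L t}) (coeffEmb L y) := by
  rw [nrn_isIntegral_adjoin_iff_aeval (K := ℚ) (F := LaurentSeries ℚ) (F' := LaurentSeries ℚ)] at hy
  rw [nrn_isIntegral_adjoin_iff_aeval (K := L) (F := LaurentSeries L) (F' := LaurentSeries L)]
  refine nryv_isIntegralElem_square _ _ (Polynomial.mapRingHom (algebraMap ℚ L)) (coeffEmb L) ?_ hy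
  apply Polynomial.ringHom_ext
  · intro a
    simp only [RingHom.coe_comp, Function.comp_apply, RingHom.coe_coe, Polynomial.aeval_C,
      Polynomial.coe_mapRingHom, Polynomial.map_C]
    exact nryv_coeffEmb_C L a
  · simp only [RingHom.coe_comp, Function.comp_apply, RingHom.coe_coe, Polynomial.aeval_X,
      Polynomial.coe_mapRingHom, Polynomial.map_X]
    rfl

variable {L}

/-- membership in `nryw_S F x` from ambient integrality. -/
theorem nryv_mem_S_of_amb (F : IntermediateField L (LaurentSeries L)) (x : F)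
    {z : LaurentSeries L} (hzF : z ∈ F)
    (hz : IsIntegral (Algebra.adjoin L {(x : LaurentSeries L)}) z) : z ∈ nryw_S F x := by
  refine (nryw_mem_S F x).mpr ⟨⟨z, hzF⟩, ?_, rfl⟩
  have h1 : IsIntegral (Algebra.adjoin L {x}) (algebraMap F (LaurentSeries L) ⟨z, hzF⟩) :=
    (nrn_isIntegral_adjoin_iff (K := L) (F := F) (F' := LaurentSeries L) x z).mpr hz
  exact (isIntegral_algebraMap_iff (R := Algebra.adjoin L {x}) (A := F) (B := LaurentSeries L)
    (algebraMap F (LaurentSeries L)).injective).mp h1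

variable (M : ℕ) [NeZero M] (x : gi_F L M) (hx : (x : LaurentSeries L) = coeffEmb L jq)

include hx in
/-- an element of `F_M` integral over `ℚ[j]` base changes into `S`. -/
theorem nryv_coeffEmb_mem_S {y : LaurentSeries ℚ} (hyF : y ∈ modularFunctionFieldFull M)
    (hyint : IsIntegral (Algebra.adjoin ℚ {jq}) y) : coeffEmb L y ∈ nryw_S (gi_F L M) x := by
  refine nryv_mem_S_of_amb (gi_F L M) x (coeffEmb_mem_laurentBaseChange L hyF) ?_
  rw [hx]
  exact nryv_isIntegral_coeffEmb L jq hyint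

/-- **input `hSA`** (for every valuation subring `A` of `L`). -/
theorem nryv_hSA (A : ValuationSubring L) (a : A) :
    HahnSeries.C (a : L) ∈ nryw_S (gi_F L M) x :=
  nryw_C_mem_S (gi_F L M) x (a : L)

end Transport

/-! ### `B₀` and `R_Y` are integral over `ℚ[j]` -/

section Integral

variable (ℓ e : ℕ) [Fact ℓ.Prime] [NeZero e] (c : ℤ[X]) (N : ℕ) [NeZero N] (h : LaurentSeries ℚ)
  (hhint : IsIntegral (Algebra.adjoin ℚ {jq}) h)
  (hcint : IsIntegral (Algebra.adjoin ℚ {jq}) (nry_cval c h)⁻¹)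

include hhint hcint in
theorem nryv_B0_isIntegral (b : ↥(purb_B0 ℓ h c)) :
    IsIntegral (Algebra.adjoin ℚ {jq}) ((b : ↥(purb_KY h)) : LaurentSeries ℚ) := by
  have hle : purb_B0 ℓ h c ≤
      ((integralClosure (Algebra.adjoin ℚ {jq}) (LaurentSeries ℚ)).toSubring).comap
        (algebraMap ↥(purb_KY h) (LaurentSeries ℚ)) := by
    rw [purb_B0, Subring.closure_le]
    rintro y (⟨z, rfl⟩ | hy | hy)
    · show IsIntegral (Algebra.adjoin ℚ {jq})
        ((algebraMap ℚ ↥(purb_KY h) (z : ℚ) : ↥(purb_KY h)) : LaurentSeries ℚ)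
      rw [nryv_coe_algebraMap_rat, ← nry_algebraMap_eq_C,
        IsScalarTower.algebraMap_apply ℚ (Algebra.adjoin ℚ {jq}) (LaurentSeries ℚ)]
      exact isIntegral_algebraMap
    · rw [Set.mem_singleton_iff.mp hy]
      exact hhint
    · rw [Set.mem_singleton_iff.mp hy]
      show IsIntegral (Algebra.adjoin ℚ {jq})
        (((purb_cK h c)⁻¹ : ↥(purb_KY h)) : LaurentSeries ℚ)
      push_cast
      rw [nryv_coe_cK]
      exact hcint
  exact hle b.2

/-- `B₀ →` the integral closure of `ℚ[j]` in `ℚ((q))`. -/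
def nryv_B0toI : ↥(purb_B0 ℓ h c) →+*
    ↥(integralClosure (Algebra.adjoin ℚ {jq}) (LaurentSeries ℚ)) where
  toFun b := ⟨((b : ↥(purb_KY h)) : LaurentSeries ℚ), nryv_B0_isIntegral ℓ c h hhint hcint b⟩
  map_one' := by
    apply Subtype.ext
    show (((1 : ↥(purb_B0 ℓ h c)) : ↥(purb_KY h)) : LaurentSeries ℚ) = 1
    rw [OneMemClass.coe_one, OneMemClass.coe_one]
  map_mul' a b := by
    apply Subtype.ext
    show (((a * b : ↥(purb_B0 ℓ h c)) : ↥(purb_KY h)) : LaurentSeries ℚ) = _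
    rw [MulMemClass.coe_mul, MulMemClass.coe_mul]
    rfl
  map_zero' := by
    apply Subtype.ext
    show (((0 : ↥(purb_B0 ℓ h c)) : ↥(purb_KY h)) : LaurentSeries ℚ) = 0
    rw [ZeroMemClass.coe_zero, ZeroMemClass.coe_zero]
  map_add' a b := by
    apply Subtype.ext
    show (((a + b : ↥(purb_B0 ℓ h c)) : ↥(purb_KY h)) : LaurentSeries ℚ) = _
    rw [AddMemClass.coe_add, AddMemClass.coe_add]
    rfl

include hhint hcint in
/-- every element of `R_Y` is integral over `ℚ[j]`. -/
theorem nryv_RY_isIntegral (t : ↥(purb_RY ℓ e h c N)) :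
    IsIntegral (Algebra.adjoin ℚ {jq}) (nryp_incl ℓ e h c N t) := by
  have hint : IsIntegral ↥(purb_B0 ℓ h c) (t : ↥(purb_LY e h N)) := t.2
  have h1 : IsIntegral ↥(integralClosure (Algebra.adjoin ℚ {jq}) (LaurentSeries ℚ))
      (algebraMap ↥(purb_LY e h N) (LaurentSeries ℚ) (t : ↥(purb_LY e h N))) :=
    IsIntegral.map_of_comp_eq (nryv_B0toI ℓ c h hhint hcint)
      (algebraMap ↥(purb_LY e h N) (LaurentSeries ℚ)) (RingHom.ext fun b => rfl) hint
  exact isIntegral_trans (R := Algebra.adjoin ℚ {jq})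
    (A := ↥(integralClosure (Algebra.adjoin ℚ {jq}) (LaurentSeries ℚ))) _ h1

end Integral

/-! ### the inputs `hSh`, `hSc`, `hSR` -/

section SSide

variable {L : Type*} [Field L] [Algebra ℚ L] (M : ℕ) [NeZero M] (x : gi_F L M)
  (hx : (x : LaurentSeries L) = coeffEmb L jq)
variable (ℓ e : ℕ) [Fact ℓ.Prime] [NeZero e] (hZ : LaurentSeries (ZL ℓ)) (c : ℤ[X])
  (N : ℕ) [NeZero N] {h : LaurentSeries ℚ} (hh : toQ ℓ hZ = h)
  (hhF : h ∈ modularFunctionFieldFull M)
  (hhint : IsIntegral (Algebra.adjoin ℚ {jq}) h)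
  (hcint : IsIntegral (Algebra.adjoin ℚ {jq}) (nry_cval c h)⁻¹)
  (hLY : purb_LY e h N ≤ modularFunctionFieldFull M)

include hx hh hhF hhint in
/-- **input `hSh`**. -/
theorem nryv_hSh : coeffEmb L (toQ ℓ hZ) ∈ nryw_S (gi_F L M) x := by
  subst hh
  exact nryv_coeffEmb_mem_S M x hx hhF hhint

include hx hh hhF hcint in
/-- **input `hSc`**. -/
theorem nryv_hSc : (nry_cval c (coeffEmb L (toQ ℓ hZ)))⁻¹ ∈ nryw_S (gi_F L M) x := by
  subst hh
  rw [← nry_cval_map, ← map_inv₀]
  refine nryv_coeffEmb_mem_S M x hx ?_ hcint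
  have h1 : nry_cval c (toQ ℓ hZ) =
      ((nry_cval c (⟨toQ ℓ hZ, hhF⟩ : ↥(modularFunctionFieldFull M)) :
        ↥(modularFunctionFieldFull M)) : LaurentSeries ℚ) :=
    (nry_cval_map (algebraMap ↥(modularFunctionFieldFull M) (LaurentSeries ℚ)) c
      (⟨toQ ℓ hZ, hhF⟩ : ↥(modularFunctionFieldFull M))).symm
  rw [h1]
  exact (modularFunctionFieldFull M).inv_mem (SetLike.coe_mem _)

include hx hhint hcint hLY in
/-- **input `hSR`**. -/
theorem nryv_hSR (t : ↥(purb_RY ℓ e h c N)) :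
    coeffEmb L (nryp_incl ℓ e h c N t) ∈ nryw_S (gi_F L M) x :=
  nryv_coeffEmb_mem_S M x hx (hLY (t : ↥(purb_LY e h N)).2)
    (nryv_RY_isIntegral ℓ e c N h hhint hcint t)

end SSide

end

end Fermat.Agent.S18x
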