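/-
S18 project, block NRM row N6 (W2, part 3, helper19, prefix `nryv_`): the integrality inputs
`hhint`, `hcint` of `S18x/NrmYInstS19` for the two coordinates:

* `ℓ` odd: `h = purb_X3Q`, `c = purb_c3 = X² - 64`:
  `nryv_hhint_X3 : IsIntegral ℚ[j] X₃`, `nryv_hcint_X3 : IsIntegral ℚ[j] (X₃² - 64)⁻¹`;
* `ℓ = 2`: `h = lyn_muQ`, `c = lyn_c2 = X³ - 27`: `nryv_hhint_mu`, `nryv_hcint_mu`;
* the resulting `S`-side packages `nryv_S_X3`, `nryv_S_mu` (inputs `hSh`, `hSc`, `hSR` of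
  `nry_main` from `F_Y = F_M`).
(ChartEq / ChartEqJ of helper42 + the coordinate identities.)
-/
import Fermat.Agent.S18x.NrmYInstS19
import Fermat.Agent.S18x.ChartEqJ

set_option autoImplicit false
set_option linter.unusedSectionVars false

namespace Fermat.Agent.S18x

open ModularCurve HahnSeries Fermat.Agent.S28x Polynomial

noncomputable section

/-! ### `ℓ` odd: the coordinate `X₃` -/

theorem nryv_charZero_laurent : CharZero (LaurentSeries ℚ) :=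
  charZero_of_injective_algebraMap (algebraMap ℚ (LaurentSeries ℚ)).injective

theorem nryv_X3Q_sq_ne : purb_X3Q ^ 2 ≠ 64 := by
  have := nryv_charZero_laurent
  intro h1
  have hid := purb_X3Q_identity
  rw [h1] at hid
  norm_num at hid

theorem nryv_J_X3Q :
    (purb_X3Q ^ 2 + 192) ^ 3 / (purb_X3Q ^ 2 - 64) ^ 2 = qExpand ℚ 2 jq := by
  have hne : purb_X3Q ^ 2 - 64 ≠ 0 := sub_ne_zero.2 nryv_X3Q_sq_ne
  rw [purb_X3Q_identity, mul_div_assoc, div_self (pow_ne_zero 2 hne), mul_one]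

/-- integrality over `ℚ[j(q²)]` gives integrality over `ℚ[j]`. -/
theorem nryv_isIntegral_of_jq2 {y : LaurentSeries ℚ}
    (hy : IsIntegral (Algebra.adjoin ℚ {qExpand ℚ 2 jq}) y) :
    IsIntegral (Algebra.adjoin ℚ {jq}) y := by
  have : Fact (Nat.Prime 2) := ⟨Nat.prime_two⟩
  have h := (cheqj_isIntegral_iff ℚ 2 y).mp
  rw [jqModC_rat] at h
  exact h hy

theorem nryv_hhint_X3 : IsIntegral (Algebra.adjoin ℚ {jq}) purb_X3Q := by
  apply nryv_isIntegral_of_jq2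
  have h := cheq_field_isIntegral_h (R0 := ℚ) nryv_X3Q_sq_ne
  rwa [nryv_J_X3Q] at h

theorem nryv_hcint_X3 : IsIntegral (Algebra.adjoin ℚ {jq}) (nry_cval purb_c3 purb_X3Q)⁻¹ := by
  rw [nryv_cval_c3]
  apply nryv_isIntegral_of_jq2
  have h := cheq_field_isIntegral_inv (R0 := ℚ) purb_isUnit_two_rat nryv_X3Q_sq_ne
  rwa [nryv_J_X3Q] at h

/-! ### `ℓ = 2`: the Hesse coordinate `μ` -/

theorem nryv_muQ_cube_ne : lyn_muQ ^ 3 ≠ 27 := by
  have := nryv_charZero_laurent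
  intro h1
  have hid := lyn_muQ_identity
  rw [h1] at hid
  norm_num at hid

theorem nryv_J_muQ :
    lyn_muQ ^ 3 * (lyn_muQ ^ 3 + 216) ^ 3 / (lyn_muQ ^ 3 - 27) ^ 3 = qExpand ℚ 3 jq := by
  have hne : lyn_muQ ^ 3 - 27 ≠ 0 := sub_ne_zero.2 nryv_muQ_cube_ne
  rw [lyn_muQ_identity, mul_div_assoc, div_self (pow_ne_zero 3 hne), mul_one]

/-- integrality over `ℚ[j(q³)]` gives integrality over `ℚ[j]`. -/
theorem nryv_isIntegral_of_jq3 {y : LaurentSeries ℚ}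
    (hy : IsIntegral (Algebra.adjoin ℚ {qExpand ℚ 3 jq}) y) :
    IsIntegral (Algebra.adjoin ℚ {jq}) y := by
  have : Fact (Nat.Prime 3) := ⟨Nat.prime_three⟩
  have h := (cheqj_isIntegral_iff ℚ 3 y).mp
  rw [jqModC_rat] at h
  exact h hy

theorem nryv_hhint_mu : IsIntegral (Algebra.adjoin ℚ {jq}) lyn_muQ := by
  apply nryv_isIntegral_of_jq3
  have h := cheq3_field_isIntegral_mu (R0 := ℚ) nryv_muQ_cube_ne
  rwa [nryv_J_muQ] at h

theorem nryv_hcint_mu : IsIntegral (Algebra.adjoin ℚ {jq}) (nry_cval lyn_c2 lyn_muQ)⁻¹ := by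
  rw [nryv_cval_c2]
  apply nryv_isIntegral_of_jq3
  have h := cheq3_field_isIntegral_inv (R0 := ℚ) lyn_isUnit_three_rat nryv_muQ_cube_ne
  rwa [nryv_J_muQ] at h

/-! ### the `S`-side packages -/

section Packages

variable {L : Type*} [Field L] [Algebra ℚ L] (M : ℕ) [NeZero M] (x : gi_F L M)
  (hx : (x : LaurentSeries L) = coeffEmb L jq)

include hx in
/-- `ℓ` odd: the inputs `hSh`, `hSc`, `hSR` of `nry_main` for `S = nryw_S (gi_F L M) x`, from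
`F_Y ≤ F_M` (row N12: `bsly_LY_eq`, `M = 4 N`, `N' = 2 N`). -/
theorem nryv_S_X3 (ℓ : ℕ) [Fact ℓ.Prime] (hZ : LaurentSeries (ZL ℓ)) (hh : toQ ℓ hZ = purb_X3Q)
    (N' : ℕ) [NeZero N'] (hLY : purb_LY 2 purb_X3Q N' ≤ modularFunctionFieldFull M) :
    coeffEmb L (toQ ℓ hZ) ∈ nryw_S (gi_F L M) x ∧
    (nry_cval purb_c3 (coeffEmb L (toQ ℓ hZ)))⁻¹ ∈ nryw_S (gi_F L M) x ∧
    ∀ t : ↥(purb_RY ℓ 2 purb_X3Q purb_c3 N'),
      coeffEmb L (nryp_incl ℓ 2 purb_X3Q purb_c3 N' t) ∈ nryw_S (gi_F L M) x := by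
  have hhF : purb_X3Q ∈ modularFunctionFieldFull M :=
    hLY (purb_KY_le_LY 2 purb_X3Q N' (purb_h_mem_KY purb_X3Q))
  exact ⟨nryv_hSh M x hx ℓ hZ hh hhF nryv_hhint_X3,
    nryv_hSc M x hx ℓ hZ purb_c3 hh hhF nryv_hcint_X3,
    nryv_hSR M x hx ℓ 2 purb_c3 N' nryv_hhint_X3 nryv_hcint_X3 hLY⟩

include hx in
/-- `ℓ = 2`: the inputs `hSh`, `hSc`, `hSR` of `nry_main` for `S = nryw_S (gi_F L M) x`, from
`F_Y ≤ F_M` (`M = 9 N`, `N' = 3 N`). -/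
theorem nryv_S_mu [Fact (Nat.Prime 2)] (N' : ℕ) [NeZero N']
    (hLY : purb_LY 3 lyn_muQ N' ≤ modularFunctionFieldFull M) :
    coeffEmb L (toQ 2 lyn_muZ) ∈ nryw_S (gi_F L M) x ∧
    (nry_cval lyn_c2 (coeffEmb L (toQ 2 lyn_muZ)))⁻¹ ∈ nryw_S (gi_F L M) x ∧
    ∀ t : ↥(purb_RY 2 3 lyn_muQ lyn_c2 N'),
      coeffEmb L (nryp_incl 2 3 lyn_muQ lyn_c2 N' t) ∈ nryw_S (gi_F L M) x := by
  have hhF : lyn_muQ ∈ modularFunctionFieldFull M :=
    hLY (purb_KY_le_LY 3 lyn_muQ N' (purb_h_mem_KY lyn_muQ))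
  exact ⟨nryv_hSh M x hx 2 lyn_muZ lyn_toQ_muZ hhF nryv_hhint_mu,
    nryv_hSc M x hx 2 lyn_muZ lyn_c2 lyn_toQ_muZ hhF nryv_hcint_mu,
    nryv_hSR M x hx 2 3 lyn_c2 N' nryv_hhint_mu nryv_hcint_mu hLY⟩

end Packages

end

end Fermat.Agent.S18x
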