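/-
S18 project, block NRM row N6 (LIFTING half, helper19, prefix `nryl_`; pairs with helper94's
`S18x/NrmY.lean`).  Generic in a field `L`, a valuation subring `A` of `L` and a ring map
`π : A →+* k`; `W = ga_W A π ⊆ L((q))` the Gauss ring, `ρ = ga_rho A π : W → k((q))`
(`S18x/GaussA.lean`).

* `nryl_CA : A →+* W` (constants), `nryl_rho_CA`;
* `nryl_ev g : MvPolynomial κ A →+* W` (evaluation of an `A`-polynomial at a family `g : κ → W`),
  `nryl_rho_ev : ρ (P(g)) = (P mod π)(ρ g)`;
* `nryl_lift_adjoin` : if `π` is onto, every element of `k[ρ g]` (`Algebra.adjoin k (range (ρ ∘ g))`)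
  is `ρ (P(g))` for some `A`-polynomial `P`;
* `nryl_lift_sum` : every `∑ c̄ᵢ ρ(tᵢ)` with `c̄ᵢ ∈ k[ρ g]`, `tᵢ ∈ W` is `ρ (∑ Pᵢ(g) tᵢ)`;
* `nryl_main` : the same inside an intermediate field `F ⊆ L((q))`, with integrality over `L[x]`
  of the lift (`g j`, `t i` integral over `L[x]` ⇒ the lift is integral over `L[x]`).
-/
import Mathlib
import Fermat.Agent.S18x.GaussA

set_option autoImplicit false

namespace Fermat.Agent.S18x

open ModularCurve HahnSeries

noncomputable section

variable {L : Type*} [Field L] (A : ValuationSubring L) {k : Type*} [Field k] (π : A →+* k)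

/-- constants: `A → W`, `a ↦ C a`. -/
def nryl_CA : A →+* ga_W A π where
  toFun a := ⟨HahnSeries.C (a : L), ga_C_mem_W A π a⟩
  map_one' := by
    apply Subtype.ext
    show HahnSeries.C ((1 : A) : L) = 1
    rw [OneMemClass.coe_one, map_one]
  map_mul' a b := by
    apply Subtype.ext
    show HahnSeries.C ((a * b : A) : L) = HahnSeries.C (a : L) * HahnSeries.C (b : L)
    rw [MulMemClass.coe_mul, map_mul]
  map_zero' := by
    apply Subtype.ext
    show HahnSeries.C ((0 : A) : L) = 0
    rw [ZeroMemClass.coe_zero, map_zero]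
  map_add' a b := by
    apply Subtype.ext
    show HahnSeries.C ((a + b : A) : L) = HahnSeries.C (a : L) + HahnSeries.C (b : L)
    rw [AddMemClass.coe_add, map_add]

theorem nryl_CA_coe (a : A) : ((nryl_CA A π a : ga_W A π) : LaurentSeries L) = HahnSeries.C (a : L) :=
  rfl

theorem nryl_algebraMap_eq_C (c : k) : algebraMap k (LaurentSeries k) c = HahnSeries.C c := by
  rw [algebraMap_laurentSeries_eq_single, HahnSeries.C_apply]

theorem nryl_rho_CA (a : A) :
    ga_rho A π (nryl_CA A π a) = algebraMap k (LaurentSeries k) (π a) := by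
  rw [nryl_algebraMap_eq_C]
  exact ga_rho_C A π a

/-- evaluation of an `A`-polynomial at a family of elements of `W`. -/
def nryl_ev {κ : Type*} (g : κ → ga_W A π) : MvPolynomial κ A →+* ga_W A π :=
  MvPolynomial.eval₂Hom (nryl_CA A π) g

theorem nryl_rho_ev {κ : Type*} (g : κ → ga_W A π) (P : MvPolynomial κ A) :
    ga_rho A π (nryl_ev A π g P) =
      MvPolynomial.aeval (fun i => ga_rho A π (g i)) (MvPolynomial.map π P) := by
  rw [nryl_ev, MvPolynomial.coe_eval₂Hom, MvPolynomial.eval₂_comp_left, MvPolynomial.aeval_def,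
    MvPolynomial.eval₂_map]
  congr 1
  exact RingHom.ext fun a => nryl_rho_CA A π a

/-- the value of `nryl_ev` in `L((q))`. -/
theorem nryl_ev_coe {κ : Type*} (g : κ → ga_W A π) (P : MvPolynomial κ A) :
    ((nryl_ev A π g P : ga_W A π) : LaurentSeries L) =
      MvPolynomial.eval₂ ((algebraMap L (LaurentSeries L)).comp A.subtype)
        (fun i => (g i : LaurentSeries L)) P := by
  have h := MvPolynomial.eval₂_comp_left (ga_W A π).subtype (nryl_CA A π) g P
  rw [nryl_ev, MvPolynomial.coe_eval₂Hom]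
  refine h.trans ?_
  congr 1
  refine RingHom.ext fun a => ?_
  show HahnSeries.C (a : L) = algebraMap L (LaurentSeries L) (a : L)
  rw [algebraMap_laurentSeries_eq_single, HahnSeries.C_apply]

/-- **lifting of coefficients**: if `π` is onto, every element of `k[ρ g]` is the residue of an
`A`-polynomial in `g`. -/
theorem nryl_lift_adjoin (hπ : Function.Surjective π) {κ : Type*} (g : κ → ga_W A π)
    {y : LaurentSeries k}
    (hy : y ∈ Algebra.adjoin k (Set.range fun i => ga_rho A π (g i))) :
    ∃ P : MvPolynomial κ A, ga_rho A π (nryl_ev A π g P) = y := by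
  rw [Algebra.adjoin_range_eq_range_aeval] at hy
  obtain ⟨Pb, rfl⟩ := hy
  obtain ⟨P, rfl⟩ := MvPolynomial.map_surjective π hπ Pb
  exact ⟨P, nryl_rho_ev A π g P⟩

/-- **lifting of combinations** (in `W`). -/
theorem nryl_lift_sum (hπ : Function.Surjective π) {κ ι : Type*} [Fintype ι]
    (g : κ → ga_W A π) (t : ι → ga_W A π) (cb : ι → LaurentSeries k)
    (hcb : ∀ i, cb i ∈ Algebra.adjoin k (Set.range fun j => ga_rho A π (g j))) :
    ∃ P : ι → MvPolynomial κ A,
      ga_rho A π (∑ i, nryl_ev A π g (P i) * t i) = ∑ i, cb i * ga_rho A π (t i) := by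
  choose P hP using fun i => nryl_lift_adjoin A π hπ g (hcb i)
  refine ⟨P, ?_⟩
  rw [map_sum]
  refine Finset.sum_congr rfl fun i _ => ?_
  rw [map_mul, hP i]

section Field

variable (F : IntermediateField L (LaurentSeries L))

/-- evaluation of an `A`-polynomial at a family of elements of `F`. -/
def nryl_evF {κ : Type*} (g : κ → F) : MvPolynomial κ A →+* F :=
  MvPolynomial.eval₂Hom ((algebraMap L F).comp A.subtype) g

theorem nryl_evF_coe {κ : Type*} (g : κ → F) (P : MvPolynomial κ A) :
    ((nryl_evF A F g P : F) : LaurentSeries L) =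
      MvPolynomial.eval₂ ((algebraMap L (LaurentSeries L)).comp A.subtype)
        (fun i => (g i : LaurentSeries L)) P := by
  have h := MvPolynomial.eval₂_comp_left (algebraMap F (LaurentSeries L))
    ((algebraMap L F).comp A.subtype) g P
  rw [nryl_evF, MvPolynomial.coe_eval₂Hom]
  exact h

theorem nryl_evF_coe_eq {κ : Type*} (g : κ → F)
    (hgW : ∀ j, (g j : LaurentSeries L) ∈ ga_W A π) (P : MvPolynomial κ A) :
    ((nryl_evF A F g P : F) : LaurentSeries L) =
      ((nryl_ev A π (fun j => (⟨g j, hgW j⟩ : ga_W A π)) P : ga_W A π) : LaurentSeries L) := by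
  rw [nryl_evF_coe, nryl_ev_coe]

/-- integrality of `P(g)` over `L[x]`. -/
theorem nryl_evF_isIntegral (x : F) {κ : Type*} (g : κ → F)
    (hgint : ∀ j, IsIntegral (Algebra.adjoin L {x}) (g j)) (P : MvPolynomial κ A) :
    IsIntegral (Algebra.adjoin L {x}) (nryl_evF A F g P) := by
  have hmem : nryl_evF A F g P ∈ (integralClosure (Algebra.adjoin L {x}) F).toSubring := by
    rw [nryl_evF, MvPolynomial.coe_eval₂Hom]
    refine MvPolynomial.eval₂_mem (fun i _ => ?_) (fun j => hgint j)
    have : ((algebraMap L F).comp A.subtype) (P.coeff i) =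
        algebraMap (Algebra.adjoin L {x}) F (algebraMap L (Algebra.adjoin L {x}) ((P.coeff i : A) : L)) := by
      rw [← IsScalarTower.algebraMap_apply]
      rfl
    rw [this]
    exact (integralClosure (Algebra.adjoin L {x}) F).algebraMap_mem _
  exact hmem

/-- **N6, lifting half**: inside an intermediate field `F ⊆ L((q))`, every combination
`∑ c̄ᵢ ρ(tᵢ)` with `c̄ᵢ ∈ k[ρ g]` is the residue of an element `z = ∑ Pᵢ(g) tᵢ` of `F ∩ W`,
integral over `L[x]` as soon as the `g j` and the `t i` are. -/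
theorem nryl_main (hπ : Function.Surjective π) (x : F) {κ ι : Type*} [Fintype ι]
    (g : κ → F) (hgW : ∀ j, (g j : LaurentSeries L) ∈ ga_W A π)
    (hgint : ∀ j, IsIntegral (Algebra.adjoin L {x}) (g j))
    (t : ι → F) (htW : ∀ i, (t i : LaurentSeries L) ∈ ga_W A π)
    (htint : ∀ i, IsIntegral (Algebra.adjoin L {x}) (t i))
    (cb : ι → LaurentSeries k)
    (hcb : ∀ i, cb i ∈ Algebra.adjoin k (Set.range fun j => ga_rho A π ⟨g j, hgW j⟩)) :
    ∃ z : F, ∃ hz : (z : LaurentSeries L) ∈ ga_W A π,
      IsIntegral (Algebra.adjoin L {x}) z ∧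
        ga_rho A π ⟨z, hz⟩ = ∑ i, cb i * ga_rho A π ⟨t i, htW i⟩ := by
  obtain ⟨P, hP⟩ := nryl_lift_sum A π hπ (fun j => (⟨g j, hgW j⟩ : ga_W A π))
    (fun i => (⟨t i, htW i⟩ : ga_W A π)) cb hcb
  refine ⟨∑ i, nryl_evF A F g (P i) * t i, ?_, ?_, ?_⟩
  · have : ((∑ i, nryl_evF A F g (P i) * t i : F) : LaurentSeries L) =
        ((∑ i, nryl_ev A π (fun j => (⟨g j, hgW j⟩ : ga_W A π)) (P i) * ⟨t i, htW i⟩ :
          ga_W A π) : LaurentSeries L) := by
      push_cast
      refine Finset.sum_congr rfl fun i _ => ?_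
      rw [nryl_evF_coe_eq A π F g hgW]
    rw [this]
    exact SetLike.coe_mem _
  · exact IsIntegral.sum (fun i => nryl_evF A F g (P i) * t i)
      fun i _ => (nryl_evF_isIntegral A F x g hgint (P i)).mul (htint i)
  · rw [← hP]
    have hcoe : ((∑ i, nryl_evF A F g (P i) * t i : F) : LaurentSeries L) =
        ((∑ i, nryl_ev A π (fun j => (⟨g j, hgW j⟩ : ga_W A π)) (P i) * ⟨t i, htW i⟩ :
          ga_W A π) : LaurentSeries L) := by
      push_cast
      refine Finset.sum_congr rfl fun i _ => ?_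
      rw [nryl_evF_coe_eq A π F g hgW]
    exact ga_rho_congr A π hcoe _ (SetLike.coe_mem _)

end Field

end

end Fermat.Agent.S18x
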