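/-
S18 project, block NRM row N6 (helper94, prefix `nrys_`): the `S`-conditions of `nry_main` /
`nryg_main` / `nryp_main` for the consumer subring `S = nryw_S F x` of helper19's wrapper
(`S18x/NrmYWrap`): the elements of an intermediate field `F ⊆ L((q))` integral over `L[x]`, `x = j`.

* `nrys_mem_S_iff` : `z ∈ nryw_S F x ↔ z ∈ F ∧ IsIntegral (Algebra.adjoin L {↑x}) z` (ambient form);
* `nrys_hSh_hSc_two` / `nrys_hSh_hSc_three` : the coordinate `h` and `1/c(h)` lie in `S`, from the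
  Legendre identity `(h²+192)³ = j(q²)(h²-64)²` resp. the Hesse identity
  `μ³(μ³+216)³ = j(q³)(μ³-27)³` (helper42's `ChartEq`, `ChartEqJ`);
* `nrys_hSR` : if the constants, `h` and `1/c(h)` lie in `S`, `R` is integral over `B₀`, the image
  of `B₀` is `ℤ_(ℓ)[h, 1/c(h)]` and the image of `R` lies in `F`, then the image of `R` lies in `S`.
-/
import Fermat.Agent.S18x.NrmYWrap
import Fermat.Agent.S18x.NrmYDefs
import Fermat.Agent.S18x.ChartEqJ

set_option autoImplicit false
set_option linter.unusedSectionVars false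

namespace Fermat.Agent.S18x

open ModularCurve HahnSeries Fermat.Agent.S28x Polynomial

noncomputable section

variable {L : Type*} [Field L] (F : IntermediateField L (LaurentSeries L)) (x : F)

/-- ambient description of `nryw_S`. -/
theorem nrys_mem_S_iff {z : LaurentSeries L} :
    z ∈ nryw_S F x ↔
      z ∈ F ∧ IsIntegral (Algebra.adjoin L {(x : LaurentSeries L)}) z := by
  rw [nryw_mem_S]
  constructor
  · rintro ⟨z', hz', rfl⟩
    refine ⟨z'.2, ?_⟩
    have h1 : IsIntegral (Algebra.adjoin L {x}) (algebraMap F (LaurentSeries L) z') :=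
      IsIntegral.algebraMap (R := Algebra.adjoin L {x}) (A := F) (B := LaurentSeries L) hz'
    exact (nrn_isIntegral_adjoin_iff (K := L) (F := F) (F' := LaurentSeries L) x _).mp h1
  · rintro ⟨hzF, hz⟩
    refine ⟨⟨z, hzF⟩, ?_, rfl⟩
    have h1 : IsIntegral (Algebra.adjoin L {x}) (algebraMap F (LaurentSeries L) ⟨z, hzF⟩) :=
      (nrn_isIntegral_adjoin_iff (K := L) (F := F) (F' := LaurentSeries L) x _).mpr hz
    exact (isIntegral_algebraMap_iff (algebraMap F (LaurentSeries L)).injective).mp h1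

/-- the Legendre coordinate and `1/(h² - 64)` lie in `S`. -/
theorem nrys_hSh_hSc_two (h2 : IsUnit (2 : L)) (hx : (x : LaurentSeries L) = jqModC L)
    {h : LaurentSeries L} (hF : h ∈ F) (hh : h ^ 2 ≠ 64)
    (hid : (h ^ 2 + 192) ^ 3 = qExpand L 2 (jqModC L) * (h ^ 2 - 64) ^ 2) :
    h ∈ nryw_S F x ∧ (h ^ 2 - 64)⁻¹ ∈ nryw_S F x := by
  have : Fact (Nat.Prime 2) := ⟨Nat.prime_two⟩
  have hne : h ^ 2 - 64 ≠ 0 := sub_ne_zero.2 hh
  have hv : (h ^ 2 - 64)⁻¹ * (h ^ 2 - 64) = 1 := inv_mul_cancel₀ hne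
  refine ⟨(nrys_mem_S_iff F x).mpr ⟨hF, ?_⟩, (nrys_mem_S_iff F x).mpr ⟨?_, ?_⟩⟩
  · rw [hx]
    exact (cheqj_isIntegral_iff L 2 h).mp (cheq_isIntegral_h (R0 := L) hid)
  · exact inv_mem (sub_mem (pow_mem hF 2) (by
      have : (64 : LaurentSeries L) = algebraMap L (LaurentSeries L) 64 :=
        (map_ofNat (algebraMap L (LaurentSeries L)) 64).symm
      rw [this]
      exact F.algebraMap_mem 64))
  · rw [hx]
    exact (cheqj_isIntegral_iff L 2 _).mp (cheq_isIntegral_v (R0 := L) h2 hv hid)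

/-- the Hesse coordinate and `1/(μ³ - 27)` lie in `S`. -/
theorem nrys_hSh_hSc_three (h3 : IsUnit (3 : L)) (hx : (x : LaurentSeries L) = jqModC L)
    {μ : LaurentSeries L} (hF : μ ∈ F) (hμ : μ ^ 3 ≠ 27)
    (hid : μ ^ 3 * (μ ^ 3 + 216) ^ 3 = qExpand L 3 (jqModC L) * (μ ^ 3 - 27) ^ 3) :
    μ ∈ nryw_S F x ∧ (μ ^ 3 - 27)⁻¹ ∈ nryw_S F x := by
  have : Fact (Nat.Prime 3) := ⟨Nat.prime_three⟩
  have hne : μ ^ 3 - 27 ≠ 0 := sub_ne_zero.2 hμ
  have hw : (μ ^ 3 - 27)⁻¹ * (μ ^ 3 - 27) = 1 := inv_mul_cancel₀ hne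
  refine ⟨(nrys_mem_S_iff F x).mpr ⟨hF, ?_⟩, (nrys_mem_S_iff F x).mpr ⟨?_, ?_⟩⟩
  · rw [hx]
    exact (cheqj_isIntegral_iff L 3 μ).mp (cheq3_isIntegral_mu (R0 := L) hid)
  · exact inv_mem (sub_mem (pow_mem hF 3) (by
      have : (27 : LaurentSeries L) = algebraMap L (LaurentSeries L) 27 :=
        (map_ofNat (algebraMap L (LaurentSeries L)) 27).symm
      rw [this]
      exact F.algebraMap_mem 27))
  · rw [hx]
    exact (cheqj_isIntegral_iff L 3 _).mp (cheq3_isIntegral_w (R0 := L) h3 hw hid)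

section SR

variable [Algebra ℚ L] {ℓ : ℕ} [Fact ℓ.Prime]
variable {B₀ R : Type*} [CommRing B₀] [CommRing R] [Algebra B₀ R]
variable (incl : R →+* LaurentSeries ℚ)

/-- the image of `ℤ_(ℓ)[h, 1/c(h)]` in `L((q))` is integral over `L[x]`. -/
theorem nrys_closure_isIntegral (hZ : LaurentSeries (ZL ℓ)) (c : ℤ[X])
    (hSh : coeffEmb L (toQ ℓ hZ) ∈ nryw_S F x)
    (hSc : (nry_cval c (coeffEmb L (toQ ℓ hZ)))⁻¹ ∈ nryw_S F x)
    {y : LaurentSeries ℚ} (hy : y ∈ Subring.closure (nry_gens hZ c)) :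
    IsIntegral (Algebra.adjoin L {(x : LaurentSeries L)}) (coeffEmb L y) := by
  set IC := integralClosure (Algebra.adjoin L {(x : LaurentSeries L)}) (LaurentSeries L) with hIC
  have hle : Subring.closure (nry_gens hZ c) ≤ IC.toSubring.comap (coeffEmb L) := by
    rw [Subring.closure_le]
    rintro y (⟨z, rfl⟩ | hy)
    · show IsIntegral _ (coeffEmb L (HahnSeries.C (z : ℚ)))
      have h1 : coeffEmb L (HahnSeries.C (z : ℚ)) =
          algebraMap L (LaurentSeries L) (algebraMap ℚ L (z : ℚ)) := by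
        rw [coeffEmb, HahnSeries.C_apply, coeffMap_single, algebraMap_laurentSeries_eq_single]
      rw [h1, IsScalarTower.algebraMap_apply L (Algebra.adjoin L {(x : LaurentSeries L)})
        (LaurentSeries L)]
      exact isIntegral_algebraMap
    · rcases hy with rfl | hy
      · exact ((nrys_mem_S_iff F x).mp hSh).2
      · rw [Set.mem_singleton_iff] at hy
        subst hy
        show IsIntegral _ (coeffEmb L (nry_cval c (toQ ℓ hZ))⁻¹)
        rw [map_inv₀, nry_cval_map]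
        exact ((nrys_mem_S_iff F x).mp hSc).2
  exact hle hy

set_option synthInstance.maxHeartbeats 400000 in
/-- **`hSR`**: the image of `R` lies in `S`. -/
theorem nrys_hSR (hZ : LaurentSeries (ZL ℓ)) (c : ℤ[X])
    (hSh : coeffEmb L (toQ ℓ hZ) ∈ nryw_S F x)
    (hSc : (nry_cval c (coeffEmb L (toQ ℓ hZ)))⁻¹ ∈ nryw_S F x)
    (hB₀le : ∀ b : B₀, incl (algebraMap B₀ R b) ∈ Subring.closure (nry_gens hZ c))
    (hint : ∀ t : R, ∃ P : B₀[X], P.Monic ∧ P.eval₂ (algebraMap B₀ R) t = 0)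
    (hRF : ∀ t : R, coeffEmb L (incl t) ∈ F) (t : R) :
    coeffEmb L (incl t) ∈ nryw_S F x := by
  refine (nrys_mem_S_iff F x).mpr ⟨hRF t, ?_⟩
  obtain ⟨P, hPm, hP⟩ := hint t
  -- the coefficient map into the integral closure
  let g : B₀ →+* integralClosure (Algebra.adjoin L {(x : LaurentSeries L)}) (LaurentSeries L) :=
    (((coeffEmb L).comp incl).comp (algebraMap B₀ R)).codRestrict
      (integralClosure (Algebra.adjoin L {(x : LaurentSeries L)}) (LaurentSeries L)).toSubring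
      (fun b => nrys_closure_isIntegral F x hZ c hSh hSc (hB₀le b))
  have hIC : IsIntegral (integralClosure (Algebra.adjoin L {(x : LaurentSeries L)})
      (LaurentSeries L)) (coeffEmb L (incl t)) := by
    refine ⟨P.map g, hPm.map g, ?_⟩
    rw [Polynomial.eval₂_map]
    have h1 : (algebraMap (integralClosure (Algebra.adjoin L {(x : LaurentSeries L)})
        (LaurentSeries L)) (LaurentSeries L)).comp g =
        ((coeffEmb L).comp incl).comp (algebraMap B₀ R) := by
      ext b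
      rfl
    rw [h1]
    have h2 := congrArg ((coeffEmb L).comp incl) hP
    rw [Polynomial.hom_eval₂, map_zero] at h2
    exact h2
  exact isIntegral_trans (coeffEmb L (incl t)) hIC

end SR

end

end Fermat.Agent.S18x
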