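/-
S18x/OrthoBasis (helper40): the "defectless" lemma for finite-dimensional spaces of series.

Abstract form: `L` a field with a valuation subring `A`, `c j : M →ₗ[L] L` a family of coordinate
functionals on an `L`-module `M` (for `M = LaurentSeries L`: the coefficient functionals),
`V ≤ M` a finite-dimensional subspace in which every non-zero element *attains* its maximal
coordinate valuation (`onb_Attains`).  Then `V` has a basis in reduced echelon form with
max-pivots: `f k ∈ V`, pivots `m k`, `c (m i) (f k) = δ_ik`, all coordinates of `f k` in `A`,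
and `x = ∑ k, c (m k) x • f k` for every `x ∈ V` (`onb_exists`).

Consequences (`onb_IsBasis.*`): the sup-norm of `x ∈ V` is the max of its pivot coordinates;
the coordinatewise reductions of the `f k` are linearly independent over the residue ring and
span the reduction of the integral part of `V`.  Pure linear algebra over a valued field:
no completeness, no discreteness.  Imports Mathlib only.
-/
import Mathlib
import Fermat.Prelude.Def_ModularCurve_LaurentCoeff

set_option autoImplicit false

namespace Fermat.Agent.S18x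

open Module

section Abstract

variable {L : Type*} [Field L] (A : ValuationSubring L)
variable {ι : Type*} {M : Type*} [AddCommGroup M] [Module L M]
variable (c : ι → M →ₗ[L] L)

/-- every non-zero element of `V` has a non-zero coordinate of maximal valuation -/
def onb_Attains (V : Submodule L M) : Prop :=
  ∀ x ∈ V, x ≠ 0 → ∃ i, c i x ≠ 0 ∧ ∀ j, A.valuation (c j x) ≤ A.valuation (c i x)

/-- a max-pivot reduced echelon basis of `V` -/
structure onb_IsBasis (V : Submodule L M) {n : ℕ} (f : Fin n → M) (m : Fin n → ι) : Prop where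
  mem : ∀ k, f k ∈ V
  delta : ∀ i k, c (m i) (f k) = if i = k then 1 else 0
  int : ∀ k j, c j (f k) ∈ A
  expand : ∀ x ∈ V, x = ∑ k, c (m k) x • f k

variable {A c}

theorem onb_Attains.mono {V V' : Submodule L M} (h : onb_Attains A c V) (hle : V' ≤ V) :
    onb_Attains A c V' :=
  fun x hx hx0 => h x (hle hx) hx0

theorem onb_isBasis_bot : onb_IsBasis A c (⊥ : Submodule L M) (Fin.elim0 : Fin 0 → M)
    (Fin.elim0 : Fin 0 → ι) where
  mem k := k.elim0
  delta i := i.elim0
  int k := k.elim0
  expand x hx := by
    rw [Submodule.mem_bot] at hx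
    simp [hx]

/-- the normalised pivot vector has integral coordinates -/
theorem onb_normalise_mem {x : M} {i : ι} (hi : c i x ≠ 0)
    (hmax : ∀ j, A.valuation (c j x) ≤ A.valuation (c i x)) (j : ι) :
    c j ((c i x)⁻¹ • x) ∈ A := by
  rw [← A.valuation_le_one_iff, map_smul, smul_eq_mul, map_mul, map_inv₀]
  have h0 : A.valuation (c i x) ≠ 0 := (Valuation.ne_zero_iff _).mpr hi
  calc (A.valuation (c i x))⁻¹ * A.valuation (c j x)
      ≤ (A.valuation (c i x))⁻¹ * A.valuation (c i x) := by gcongr; exact hmax j
    _ = 1 := inv_mul_cancel₀ h0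

/-- the inductive step -/
theorem onb_step {V : Submodule L M} {x : M} (hxV : x ∈ V) {i₀ : ι} (hi : c i₀ x ≠ 0)
    (hmax : ∀ j, A.valuation (c j x) ≤ A.valuation (c i₀ x))
    {n : ℕ} {f : Fin n → M} {m : Fin n → ι}
    (hB : onb_IsBasis A c (V ⊓ LinearMap.ker (c i₀)) f m) :
    ∃ (f' : Fin (n + 1) → M) (m' : Fin (n + 1) → ι), onb_IsBasis A c V f' m' := by
  set f₀ : M := (c i₀ x)⁻¹ • x with hf₀
  have hf₀V : f₀ ∈ V := V.smul_mem _ hxV
  have hf₀1 : c i₀ f₀ = 1 := by
    rw [hf₀, map_smul, smul_eq_mul, inv_mul_cancel₀ hi]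
  have hf₀int : ∀ j, c j f₀ ∈ A := onb_normalise_mem hi hmax
  have hfV : ∀ k, f k ∈ V := fun k => (hB.mem k).1
  have hfker : ∀ k, c i₀ (f k) = 0 := fun k => LinearMap.mem_ker.mp (hB.mem k).2
  set g₀ : M := f₀ - ∑ k, c (m k) f₀ • f k with hg₀
  have hg₀V : g₀ ∈ V :=
    V.sub_mem hf₀V (V.sum_mem fun k _ => V.smul_mem _ (hfV k))
  have hcg₀ : ∀ j, c j g₀ = c j f₀ - ∑ k, c (m k) f₀ * c j (f k) := by
    intro j
    rw [hg₀, map_sub, map_sum]
    simp only [map_smul, smul_eq_mul]
  have hg₀1 : c i₀ g₀ = 1 := by
    rw [hcg₀, hf₀1]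
    simp [hfker]
  have hg₀m : ∀ i, c (m i) g₀ = 0 := by
    intro i
    rw [hcg₀]
    simp only [hB.delta, mul_ite, mul_one, mul_zero]
    rw [Finset.sum_ite_eq Finset.univ i]
    simp
  refine ⟨Fin.cons g₀ f, Fin.cons i₀ m, ?_, ?_, ?_, ?_⟩
  · intro k
    refine Fin.cases ?_ (fun k => ?_) k
    · simpa using hg₀V
    · simpa using hfV k
  · intro i k
    refine Fin.cases ?_ (fun i => ?_) i <;> refine Fin.cases ?_ (fun k => ?_) k
    · simpa using hg₀1
    · simp only [Fin.cons_zero, Fin.cons_succ]
      rw [hfker k, if_neg (Fin.succ_ne_zero k).symm]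
    · simp only [Fin.cons_zero, Fin.cons_succ]
      rw [hg₀m i, if_neg (Fin.succ_ne_zero i)]
    · simp only [Fin.cons_succ]
      rw [hB.delta i k]
      simp only [Fin.succ_inj]
  · intro k j
    refine Fin.cases ?_ (fun k => ?_) k
    · simp only [Fin.cons_zero]
      rw [hcg₀]
      exact sub_mem (hf₀int j)
        (sum_mem fun k _ => mul_mem (hf₀int (m k)) (hB.int k j))
    · simpa using hB.int k j
  · intro y hy
    set z : M := y - c i₀ y • g₀ with hz
    have hzV : z ∈ V := V.sub_mem hy (V.smul_mem _ hg₀V)
    have hzker : c i₀ z = 0 := by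
      rw [hz, map_sub, map_smul, smul_eq_mul, hg₀1, mul_one, sub_self]
    have hzm : ∀ k, c (m k) z = c (m k) y := by
      intro k
      rw [hz, map_sub, map_smul, smul_eq_mul, hg₀m k, mul_zero, sub_zero]
    have hexp := hB.expand z ⟨hzV, LinearMap.mem_ker.mpr hzker⟩
    simp only [hzm] at hexp
    rw [Fin.sum_univ_succ]
    simp only [Fin.cons_zero, Fin.cons_succ]
    rw [← hexp, hz]
    abel

theorem onb_exists_aux : ∀ (d : ℕ) (V : Submodule L M), FiniteDimensional L V →
    finrank L V ≤ d → onb_Attains A c V →
    ∃ (n : ℕ) (f : Fin n → M) (m : Fin n → ι), onb_IsBasis A c V f m := by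
  intro d
  induction d with
  | zero =>
    intro V hfd hd _
    have hV : V = ⊥ := by
      rw [← Submodule.finrank_eq_zero]
      omega
    subst hV
    exact ⟨0, _, _, onb_isBasis_bot⟩
  | succ d ih =>
    intro V hfd hd hV
    by_cases hbot : V = ⊥
    · subst hbot
      exact ⟨0, _, _, onb_isBasis_bot⟩
    obtain ⟨x, hxV, hx0⟩ := Submodule.exists_mem_ne_zero_of_ne_bot hbot
    obtain ⟨i₀, hi, hmax⟩ := hV x hxV hx0
    have hlt : V ⊓ LinearMap.ker (c i₀) < V := by
      refine lt_of_le_of_ne inf_le_left fun h => hi ?_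
      have : x ∈ V ⊓ LinearMap.ker (c i₀) := by rw [h]; exact hxV
      exact LinearMap.mem_ker.mp this.2
    have hrank : finrank L ↥(V ⊓ LinearMap.ker (c i₀)) ≤ d := by
      have := Submodule.finrank_lt_finrank_of_lt hlt
      omega
    obtain ⟨n, f, m, hB⟩ := ih (V ⊓ LinearMap.ker (c i₀)) inferInstance hrank
      (hV.mono inf_le_left)
    obtain ⟨f', m', hB'⟩ := onb_step hxV hi hmax hB
    exact ⟨n + 1, f', m', hB'⟩

/-- **Existence of a max-pivot reduced echelon ("orthonormal") basis.** -/
theorem onb_exists (V : Submodule L M) [FiniteDimensional L V] (hV : onb_Attains A c V) :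
    ∃ (n : ℕ) (f : Fin n → M) (m : Fin n → ι), onb_IsBasis A c V f m :=
  onb_exists_aux (finrank L V) V inferInstance le_rfl hV

namespace onb_IsBasis

variable {V : Submodule L M} {n : ℕ} {f : Fin n → M} {m : Fin n → ι}

theorem coord_sum (_hB : onb_IsBasis A c V f m) (a : Fin n → L) (j : ι) :
    c j (∑ k, a k • f k) = ∑ k, a k * c j (f k) := by
  rw [map_sum]
  simp only [map_smul, smul_eq_mul]

theorem pivot_sum (hB : onb_IsBasis A c V f m) (a : Fin n → L) (i : Fin n) :
    c (m i) (∑ k, a k • f k) = a i := by
  rw [hB.coord_sum]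
  simp only [hB.delta, mul_ite, mul_one, mul_zero]
  rw [Finset.sum_ite_eq Finset.univ i]
  simp

theorem linearIndependent (hB : onb_IsBasis A c V f m) : LinearIndependent L f := by
  rw [Fintype.linearIndependent_iff]
  intro a ha i
  have := hB.pivot_sum a i
  rwa [ha, map_zero, eq_comm] at this

theorem span_eq (hB : onb_IsBasis A c V f m) : Submodule.span L (Set.range f) = V := by
  apply le_antisymm
  · rw [Submodule.span_le]
    rintro _ ⟨k, rfl⟩
    exact hB.mem k
  · intro x hx
    rw [hB.expand x hx]
    exact Submodule.sum_mem _ fun k _ =>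
      Submodule.smul_mem _ _ (Submodule.subset_span ⟨k, rfl⟩)

theorem finrank_eq (hB : onb_IsBasis A c V f m) : finrank L V = n := by
  have h := finrank_span_eq_card hB.linearIndependent
  rw [hB.span_eq, Fintype.card_fin] at h
  exact h

/-- sup-norm formula, `≤` form -/
theorem val_le_iff (hB : onb_IsBasis A c V f m) {x : M} (hx : x ∈ V) (γ : A.ValueGroup) :
    (∀ j, A.valuation (c j x) ≤ γ) ↔ ∀ k, A.valuation (c (m k) x) ≤ γ := by
  refine ⟨fun h k => h (m k), fun h j => ?_⟩
  have hexp := hB.expand x hx
  rw [hexp, hB.coord_sum]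
  refine Valuation.map_sum_le _ fun k _ => ?_
  rw [map_mul]
  calc A.valuation (c (m k) x) * A.valuation (c j (f k))
      ≤ γ * 1 := by
        gcongr
        · exact h k
        · exact (A.valuation_le_one_iff _).mpr (hB.int k j)
    _ = γ := mul_one _

/-- sup-norm formula, `<` form -/
theorem val_lt_iff (hB : onb_IsBasis A c V f m) {x : M} (hx : x ∈ V) {γ : A.ValueGroup}
    (hγ : γ ≠ 0) :
    (∀ j, A.valuation (c j x) < γ) ↔ ∀ k, A.valuation (c (m k) x) < γ := by
  refine ⟨fun h k => h (m k), fun h j => ?_⟩
  have hexp := hB.expand x hx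
  rw [hexp, hB.coord_sum]
  refine Valuation.map_sum_lt _ hγ fun k _ => ?_
  rw [map_mul]
  calc A.valuation (c (m k) x) * A.valuation (c j (f k))
      ≤ A.valuation (c (m k) x) * 1 := by
        gcongr
        exact (A.valuation_le_one_iff _).mpr (hB.int k j)
    _ = A.valuation (c (m k) x) := mul_one _
    _ < γ := h k

/-- `x ∈ V` has all coordinates in `A` iff its pivot coordinates are in `A` -/
theorem int_iff (hB : onb_IsBasis A c V f m) {x : M} (hx : x ∈ V) :
    (∀ j, c j x ∈ A) ↔ ∀ k, c (m k) x ∈ A := by
  simp only [← A.valuation_le_one_iff]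
  exact hB.val_le_iff hx 1

/-- `x ∈ V` has all coordinates in the maximal ideal iff its pivot coordinates are -/
theorem nonunit_iff (hB : onb_IsBasis A c V f m) {x : M} (hx : x ∈ V) :
    (∀ j, A.valuation (c j x) < 1) ↔ ∀ k, A.valuation (c (m k) x) < 1 :=
  hB.val_lt_iff hx one_ne_zero

end onb_IsBasis

end Abstract

section Laurent

open ModularCurve HahnSeries

variable {L : Type*} [Field L]

/-- the `j`-th coefficient functional on Laurent series -/
def onb_coeff (j : ℤ) : LaurentSeries L →ₗ[L] L where
  toFun x := x.coeff j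
  map_add' _ _ := rfl
  map_smul' _ _ := rfl

@[simp]
theorem onb_coeff_apply (j : ℤ) (x : LaurentSeries L) : onb_coeff j x = x.coeff j := rfl

variable (A : ValuationSubring L)

/-- a Laurent series over `L` with all coefficients in `A` comes from `A((q))` -/
theorem onb_exists_lift (x : LaurentSeries L) (hx : ∀ j, x.coeff j ∈ A) :
    ∃ y : LaurentSeries A, coeffMap A.subtype y = x := by
  refine ⟨⟨fun j => ⟨x.coeff j, hx j⟩, x.isPWO_support.mono ?_⟩, ?_⟩
  · intro j hj
    rw [Function.mem_support] at hj
    rw [HahnSeries.mem_support]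
    intro h0
    exact hj (Subtype.ext h0)
  · ext j
    rfl

theorem onb_coeffMap_subtype_injective :
    Function.Injective (coeffMap A.subtype : LaurentSeries A → LaurentSeries L) := by
  intro a b h
  ext j
  have := congrArg (fun x : LaurentSeries L => x.coeff j) h
  simpa using this

variable {A}

/-- Laurent form of `onb_exists`: the basis vectors come from `A((q))`. -/
theorem onb_laurent_exists (V : Submodule L (LaurentSeries L)) [FiniteDimensional L V]
    (hV : onb_Attains A onb_coeff V) :
    ∃ (n : ℕ) (y : Fin n → LaurentSeries A) (m : Fin n → ℤ),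
      onb_IsBasis A onb_coeff V (fun k => coeffMap A.subtype (y k)) m := by
  obtain ⟨n, f, m, hB⟩ := onb_exists V hV
  choose y hy using fun k => onb_exists_lift A (f k) (hB.int k)
  refine ⟨n, y, m, ?_⟩
  have : (fun k => coeffMap A.subtype (y k)) = f := funext hy
  rw [this]
  exact hB

section Reduction

variable {V : Submodule L (LaurentSeries L)} {n : ℕ} {y : Fin n → LaurentSeries A} {m : Fin n → ℤ}
variable {k' : Type*} [Field k'] (π : A →+* k')

theorem onb_laurent_delta (hB : onb_IsBasis A onb_coeff V (fun k => coeffMap A.subtype (y k)) m)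
    (i k : Fin n) : (y k).coeff (m i) = if i = k then 1 else 0 := by
  have h := hB.delta i k
  simp only [onb_coeff_apply, coeffMap_coeff] at h
  apply Subtype.ext
  rw [show ((y k).coeff (m i) : L) = A.subtype ((y k).coeff (m i)) from rfl, h]
  split_ifs <;> simp

/-- coefficientwise expansion inside `A((q))` -/
theorem onb_laurent_coeff_expand
    (hB : onb_IsBasis A onb_coeff V (fun k => coeffMap A.subtype (y k)) m)
    (z : LaurentSeries A) (hz : coeffMap A.subtype z ∈ V) (j : ℤ) :
    z.coeff j = ∑ k, z.coeff (m k) * (y k).coeff j := by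
  have h := congrArg (fun x : LaurentSeries L => x.coeff j) (hB.expand _ hz)
  simp only [onb_coeff_apply, coeffMap_coeff] at h
  apply Subtype.ext
  have h2 : ((∑ k, z.coeff (m k) * (y k).coeff j : A) : L)
      = ∑ k, (z.coeff (m k) : L) * ((y k).coeff j : L) := by
    rw [show ((∑ k, z.coeff (m k) * (y k).coeff j : A) : L)
      = A.subtype (∑ k, z.coeff (m k) * (y k).coeff j) from rfl, map_sum]
    rfl
  rw [h2]
  rw [show (z.coeff j : L) = A.subtype (z.coeff j) from rfl, h]
  have h3 : ∀ w : Fin n → LaurentSeries L, (∑ k, w k).coeff j = ∑ k, (w k).coeff j := by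
    intro w
    exact map_sum (HahnSeries.coeff.addMonoidHom j) w Finset.univ
  rw [h3]
  rfl

/-- the reductions of the basis vectors expand the reduction of any integral element of `V` -/
theorem onb_laurent_red_expand
    (hB : onb_IsBasis A onb_coeff V (fun k => coeffMap A.subtype (y k)) m)
    (z : LaurentSeries A) (hz : coeffMap A.subtype z ∈ V) :
    coeffMap π z = ∑ k, π (z.coeff (m k)) • coeffMap π (y k) := by
  ext j
  have h3 : ∀ w : Fin n → LaurentSeries k', (∑ k, w k).coeff j = ∑ k, (w k).coeff j := by
    intro w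
    exact map_sum (HahnSeries.coeff.addMonoidHom j) w Finset.univ
  rw [h3, coeffMap_coeff, onb_laurent_coeff_expand hB z hz j, map_sum]
  refine Finset.sum_congr rfl fun k _ => ?_
  rw [map_mul]
  rfl

/-- the reductions of the basis vectors are linearly independent -/
theorem onb_laurent_red_linearIndependent
    (hB : onb_IsBasis A onb_coeff V (fun k => coeffMap A.subtype (y k)) m) :
    LinearIndependent k' (fun k => coeffMap π (y k)) := by
  rw [Fintype.linearIndependent_iff]
  intro a ha i
  have h := congrArg (fun x : LaurentSeries k' => x.coeff (m i)) ha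
  have h3 : ∀ w : Fin n → LaurentSeries k',
      (∑ k, w k).coeff (m i) = ∑ k, (w k).coeff (m i) := by
    intro w
    exact map_sum (HahnSeries.coeff.addMonoidHom (m i)) w Finset.univ
  simp only [h3, HahnSeries.coeff_zero] at h
  have h4 : ∀ k, (a k • coeffMap π (y k)).coeff (m i) = if i = k then a k else 0 := by
    intro k
    rw [HahnSeries.coeff_smul, coeffMap_coeff, onb_laurent_delta hB i k]
    split_ifs <;> simp
  simp only [h4] at h
  rw [Finset.sum_ite_eq Finset.univ i] at h
  simpa using h

/-- the reduction of the integral part of `V` is exactly the span of the reduced basis -/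
theorem onb_laurent_red_image
    (hB : onb_IsBasis A onb_coeff V (fun k => coeffMap A.subtype (y k)) m)
    (hπ : Function.Surjective π) :
    {w : LaurentSeries k' | ∃ z : LaurentSeries A, coeffMap A.subtype z ∈ V ∧ coeffMap π z = w}
      = (Submodule.span k' (Set.range fun k => coeffMap π (y k)) : Set (LaurentSeries k')) := by
  ext w
  constructor
  · rintro ⟨z, hz, rfl⟩
    rw [onb_laurent_red_expand π hB z hz]
    exact Submodule.sum_mem _ fun k _ =>
      Submodule.smul_mem _ _ (Submodule.subset_span ⟨k, rfl⟩)
  · intro hw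
    rw [SetLike.mem_coe, Submodule.mem_span_range_iff_exists_fun] at hw
    obtain ⟨b, rfl⟩ := hw
    choose a ha using fun k => hπ (b k)
    refine ⟨∑ k, HahnSeries.C (a k) * y k, ?_, ?_⟩
    · rw [map_sum]
      refine V.sum_mem fun k _ => ?_
      rw [map_mul]
      have hC : coeffMap A.subtype (HahnSeries.C (a k)) = HahnSeries.C ((a k : A) : L) := by
        show coeffMap A.subtype (HahnSeries.single 0 (a k)) = _
        rw [coeffMap_single]
        rfl
      rw [hC, HahnSeries.C_mul_eq_smul]
      exact V.smul_mem _ (hB.mem k)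
    · rw [map_sum]
      refine Finset.sum_congr rfl fun k _ => ?_
      rw [map_mul]
      have hC : coeffMap π (HahnSeries.C (a k)) = HahnSeries.C (π (a k)) := by
        show coeffMap π (HahnSeries.single 0 (a k)) = _
        rw [coeffMap_single]
        rfl
      rw [hC, HahnSeries.C_mul_eq_smul, ha k]

/-- **Defectless lemma**: the reduction of the integral part of `V` has dimension `dim V`. -/
theorem onb_laurent_finrank_red
    (hB : onb_IsBasis A onb_coeff V (fun k => coeffMap A.subtype (y k)) m) :
    Module.finrank k' (Submodule.span k' (Set.range fun k => coeffMap π (y k)))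
      = Module.finrank L V := by
  rw [finrank_span_eq_card (onb_laurent_red_linearIndependent π hB), Fintype.card_fin,
    hB.finrank_eq]

end Reduction

end Laurent

end Fermat.Agent.S18x
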