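import Mathlib

/-!
# Hensel's lemma in `R⟦X⟧` for the `X`-adic topology, with uniqueness (prefix `psh_`)

Generic helper for the S18 auxiliary-level parameters (`λ` for odd `ℓ`, Hesse `μ` for `ℓ = 2`):
a monic polynomial over `R⟦X⟧` with a simple root modulo `X` has a unique root lifting it.
-/

set_option autoImplicit false

open Polynomial

namespace Fermat.Agent.S18x

variable {R : Type*} [CommRing R]

theorem psh_mem_span_X_iff (a : PowerSeries R) :
    a ∈ Ideal.span {(PowerSeries.X : PowerSeries R)} ↔ PowerSeries.constantCoeff a = 0 := by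
  rw [Ideal.mem_span_singleton, PowerSeries.X_dvd_iff]

theorem psh_isUnit_quotient_iff (a : PowerSeries R) :
    IsUnit (Ideal.Quotient.mk (Ideal.span {(PowerSeries.X : PowerSeries R)}) a) ↔
      IsUnit (PowerSeries.constantCoeff a) := by
  constructor
  · intro h
    obtain ⟨b, hb⟩ := h.exists_right_inv
    obtain ⟨b', rfl⟩ := Ideal.Quotient.mk_surjective b
    rw [← map_mul, ← map_one (Ideal.Quotient.mk _), Ideal.Quotient.eq, psh_mem_span_X_iff,
      map_sub, map_mul, map_one, sub_eq_zero] at hb
    exact IsUnit.of_mul_eq_one _ hb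
  · intro h
    exact (PowerSeries.isUnit_iff_constantCoeff.mpr h).map _

/-- Existence: Hensel's lemma for monic polynomials over `R⟦X⟧`. -/
theorem psh_exists_root (f : (PowerSeries R)[X]) (hf : f.Monic) (a₀ : PowerSeries R)
    (h₀ : PowerSeries.constantCoeff (f.eval a₀) = 0)
    (h₁ : IsUnit (PowerSeries.constantCoeff (f.derivative.eval a₀))) :
    ∃ a : PowerSeries R, f.IsRoot a ∧ PowerSeries.constantCoeff (a - a₀) = 0 := by
  obtain ⟨a, ha, ha'⟩ := HenselianRing.is_henselian (I := Ideal.span {(PowerSeries.X : PowerSeries R)})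
    f hf a₀ ((psh_mem_span_X_iff _).mpr h₀) ((psh_isUnit_quotient_iff _).mpr h₁)
  exact ⟨a, ha, (psh_mem_span_X_iff _).mp ha'⟩

/-- Uniqueness of the Hensel root. -/
theorem psh_root_unique (f : (PowerSeries R)[X]) (a b : PowerSeries R)
    (ha : f.IsRoot a) (hb : f.IsRoot b)
    (hab : PowerSeries.constantCoeff (b - a) = 0)
    (h₁ : IsUnit (PowerSeries.constantCoeff (f.derivative.eval a))) : a = b := by
  obtain ⟨k, hk⟩ := f.binomExpansion a (b - a)
  rw [add_sub_cancel, hb.eq_zero, ha.eq_zero, zero_add] at hk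
  have hu : IsUnit (f.derivative.eval a + k * (b - a)) := by
    rw [PowerSeries.isUnit_iff_constantCoeff, map_add, map_mul, hab, mul_zero, add_zero]
    exact h₁
  have h0 : (f.derivative.eval a + k * (b - a)) * (b - a) = 0 := by
    rw [hk]; ring
  have := (hu.mul_right_eq_zero).mp h0
  exact (sub_eq_zero.mp this).symm

/-- Hensel's lemma in `R⟦X⟧`, existence and uniqueness. -/
theorem psh_existsUnique_root (f : (PowerSeries R)[X]) (hf : f.Monic) (a₀ : PowerSeries R)
    (h₀ : PowerSeries.constantCoeff (f.eval a₀) = 0)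
    (h₁ : IsUnit (PowerSeries.constantCoeff (f.derivative.eval a₀))) :
    ∃! a : PowerSeries R, f.IsRoot a ∧ PowerSeries.constantCoeff (a - a₀) = 0 := by
  obtain ⟨a, ha, ha0⟩ := psh_exists_root f hf a₀ h₀ h₁
  refine ⟨a, ⟨ha, ha0⟩, ?_⟩
  rintro b ⟨hb, hb0⟩
  -- derivative at `a` is a unit since `a ≡ a₀`
  have hda : IsUnit (PowerSeries.constantCoeff (f.derivative.eval a)) := by
    obtain ⟨c, hc⟩ := f.derivative.evalSubFactor a a₀
    have : f.derivative.eval a = f.derivative.eval a₀ + c * (a - a₀) := by rw [← hc]; ring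
    rw [this, map_add, map_mul, ha0, mul_zero, add_zero]
    exact h₁
  refine (psh_root_unique f a b ha hb ?_ hda).symm
  have : b - a = (b - a₀) - (a - a₀) := by ring
  rw [this, map_sub, hb0, ha0, sub_zero]

end Fermat.Agent.S18x
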