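import Mathlib

/-!
# S18x / PUR-A (A3): the discriminant of a free algebra is a unit if it is so in codimension one

`B` a Noetherian domain, `R` a `B`-algebra with a finite `B`-basis `b`, `p` a prime element of `B`.
If some family has discriminant outside `(p)` and, for every prime `q` of `B` not containing `p`,
some family has discriminant outside `q`, then `discr B b` is a unit (Krull's Hauptidealsatz).
-/

set_option autoImplicit false

namespace Fermat.Agent.S18x

open Matrix

section A3

variable {B R : Type*} [CommRing B] [CommRing R] [Algebra B R]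
variable {ι : Type*} [Fintype ι] [DecidableEq ι]

/-- the discriminant of a basis divides the discriminant of every family. -/
theorem pur_discr_basis_dvd (b : Module.Basis ι B R) (c : ι → R) :
    Algebra.discr B b ∣ Algebra.discr B c := by
  set P : Matrix ι ι B := Matrix.of fun i j => b.repr (c i) j with hP
  have hc : c = (P.map (algebraMap B R)) *ᵥ (b : ι → R) := by
    funext i
    simp only [Matrix.mulVec, dotProduct, Matrix.map_apply, hP, Matrix.of_apply]
    conv_lhs => rw [← b.sum_repr (c i)]
    refine Finset.sum_congr rfl fun j _ => ?_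
    rw [Algebra.smul_def]
  rw [hc, Algebra.discr_of_matrix_mulVec]
  exact Dvd.intro_left _ rfl

/-- **(A3)** -/
theorem pur_isUnit_discr [IsDomain B] [IsNoetherianRing B] (b : Module.Basis ι B R)
    {p : B} (hp : Prime p)
    (hV : ∃ c : ι → R, Algebra.discr B c ∉ Ideal.span {p})
    (hH : ∀ q : Ideal B, q.IsPrime → p ∉ q → ∃ c : ι → R, Algebra.discr B c ∉ q) :
    IsUnit (Algebra.discr B b) := by
  set d := Algebra.discr B b with hd
  by_contra hunit
  have hne : Ideal.span {d} ≠ ⊤ := by
    rwa [Ne, Ideal.span_singleton_eq_top]
  obtain ⟨q, hq⟩ := Ideal.nonempty_minimalPrimes hne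
  have hqprime : q.IsPrime := hq.1.1
  have hdq : d ∈ q := hq.1.2 (Ideal.subset_span rfl)
  have hdvd : ∀ c : ι → R, Algebra.discr B c ∈ q := fun c =>
    q.mem_of_dvd (pur_discr_basis_dvd b c) hdq
  by_cases hpq : p ∈ q
  · -- `q = (p)` by Krull
    have hle : Ideal.span {p} ≤ q := (Ideal.span_singleton_le_iff_mem q).mpr hpq
    have hpprime : (Ideal.span {p}).IsPrime :=
      (Ideal.span_singleton_prime hp.ne_zero).mpr hp
    have hheight : q.height ≤ 1 :=
      Ideal.height_le_one_of_isPrincipal_of_mem_minimalPrimes (Ideal.span {d}) q hq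
    have heq : Ideal.span {p} = q := by
      by_contra hneq
      have hlt : Ideal.span {p} < q := lt_of_le_of_ne hle hneq
      have h1 := Ideal.height_add_one_le_of_lt_of_isPrime hlt
      have h2 : (Ideal.span {p}).height + 1 ≤ 1 := h1.trans hheight
      have h3 : (Ideal.span {p}).height = 0 := by
        have := (ENat.add_one_le_iff (by
          intro htop; rw [htop] at h2; simp at h2)).mp h2
        simpa using this
      rw [Ideal.height_eq_zero_iff_eq_bot, Ideal.span_singleton_eq_bot] at h3
      exact hp.ne_zero h3
    obtain ⟨c, hc⟩ := hV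
    exact hc (heq ▸ hdvd c)
  · obtain ⟨c, hc⟩ := hH q hqprime hpq
    exact hc (hdvd c)

end A3

end Fermat.Agent.S18x
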