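import Mathlib
import Fermat.Agent.S18x.PurTorsion
import Fermat.Agent.S18x.PurFree

/-!
# S18x / PUR-A (P1): the normalisation over a 2-dimensional regular local base is free

`B` a Noetherian local integrally closed domain, `p` a prime element in the maximal ideal with
`B / p` a PID (e.g. `B` regular local of dimension 2 with parameters `p, t`).  `L / Frac B` finite
separable, `R` the integral closure of `B` in `L`.  Then `R` is a free `B`-module of finite rank.
-/

set_option autoImplicit false

namespace Fermat.Agent.S18x

/-- **(P1)** -/
theorem pur_integralClosure_exists_basis {B : Type*} (K : Type*) (L : Type*) {R : Type*}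
    [CommRing B] [IsDomain B] [IsIntegrallyClosed B] [IsLocalRing B] [IsNoetherianRing B]
    [Field K] [Algebra B K] [IsFractionRing B K]
    [Field L] [Algebra K L] [Algebra B L] [IsScalarTower B K L]
    [FiniteDimensional K L] [Algebra.IsSeparable K L]
    [CommRing R] [Algebra B R] [Algebra R L] [IsScalarTower B R L] [IsIntegralClosure R B L]
    {p : B} (hp : Prime p) (hpm : p ∈ IsLocalRing.maximalIdeal B)
    [IsDomain (B ⧸ Ideal.span {p})] [IsPrincipalIdealRing (B ⧸ Ideal.span {p})] :
    ∃ (r : ℕ) (_ : Module.Basis (Fin r) B R), True := by
  haveI : Module.Finite B R := IsIntegralClosure.finite B K L R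
  refine pur_exists_basis_of_torsionFree_quotient (M := R) hpm ?_ ?_
  · intro x hx
    exact pur_smul_eq_zero_imp K L hp.ne_zero x hx
  · intro t ht x hx
    exact pur_integralClosure_quotient_torsionFree K L hp ht x hx

end Fermat.Agent.S18x
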