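import Mathlib
import Fermat.Agent.S18x.PuriGauss
import Fermat.Agent.S18x.NdNorm

/-!
# S18x / concrete reduction pairs w.r.t. the Gauss ring `S28x.gaussRing ℓ`

For intermediate fields `E ≤ E'` of `ℚ((q))` consisting of quotients of `ℓ`-integral series
(`E' ≤ gr_fracField ℓ`) and intermediate fields `Eb ≤ Eb'` of `𝔽_ℓ((q))`:

* `purv_W ℓ E hE : ValuationSubring E` — the elements of `E` lying in `gaussRing ℓ`;
* `purv_rho ℓ E hE Eb hinto : purv_W ℓ E hE →+* Eb` — the restriction of `S28x.rho ℓ`;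
* `purv_redPair` — `nd_RedPair` from INTO/ONTO + the degree equality.
-/

set_option autoImplicit false
set_option linter.style.haveILetI false
set_option linter.unusedSectionVars false

noncomputable section

namespace Fermat.Agent.S18x

open Fermat.Agent.S28x ModularCurve

variable (ℓ : ℕ) [Fact ℓ.Prime]

/-- a non-zero quotient of `ℓ`-integral series, or its inverse, lies in the Gauss ring. -/
theorem purv_mem_or_inv_mem {z : LaurentSeries ℚ} (hz : z ∈ gr_fracField ℓ) :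
    z ∈ gaussRing ℓ ∨ z⁻¹ ∈ gaussRing ℓ := by
  by_cases h0 : z = 0
  · left; rw [h0]; exact (gaussRing ℓ).zero_mem
  obtain ⟨m, y, hy, hy', -, rfl⟩ := exists_zpow_mul_unit ℓ h0 hz
  have hℓW : (ℓ : LaurentSeries ℚ) ∈ gaussRing ℓ := gr_natCast_mem_gaussRing ℓ ℓ
  rcases le_or_gt 0 m with hm | hm
  · left
    obtain ⟨n, rfl⟩ := Int.eq_ofNat_of_zero_le hm
    rw [zpow_natCast]
    exact (gaussRing ℓ).mul_mem ((gaussRing ℓ).pow_mem hℓW n) hy
  · right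
    obtain ⟨n, hn⟩ := Int.eq_ofNat_of_zero_le (by omega : 0 ≤ -m)
    rw [mul_inv, ← zpow_neg, hn, zpow_natCast]
    exact (gaussRing ℓ).mul_mem ((gaussRing ℓ).pow_mem hℓW n) hy'

variable (E : IntermediateField ℚ (LaurentSeries ℚ)) (hE : E ≤ gr_fracField ℓ)

/-- the Gauss valuation subring of `E`. -/
def purv_W : ValuationSubring ↥E where
  carrier := {x | (x : LaurentSeries ℚ) ∈ gaussRing ℓ}
  mul_mem' := fun {a b} ha hb => by
    show ((a * b : ↥E) : LaurentSeries ℚ) ∈ gaussRing ℓ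
    push_cast
    exact (gaussRing ℓ).mul_mem ha hb
  one_mem' := by
    show ((1 : ↥E) : LaurentSeries ℚ) ∈ gaussRing ℓ
    push_cast
    exact (gaussRing ℓ).one_mem
  add_mem' := fun {a b} ha hb => by
    show ((a + b : ↥E) : LaurentSeries ℚ) ∈ gaussRing ℓ
    push_cast
    exact (gaussRing ℓ).add_mem ha hb
  zero_mem' := by
    show ((0 : ↥E) : LaurentSeries ℚ) ∈ gaussRing ℓ
    push_cast
    exact (gaussRing ℓ).zero_mem
  neg_mem' := fun {a} ha => by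
    show ((-a : ↥E) : LaurentSeries ℚ) ∈ gaussRing ℓ
    push_cast
    exact (gaussRing ℓ).neg_mem ha
  mem_or_inv_mem' := fun a => by
    rcases purv_mem_or_inv_mem ℓ (hE a.2) with h | h
    · left; exact h
    · right
      show ((a⁻¹ : ↥E) : LaurentSeries ℚ) ∈ gaussRing ℓ
      push_cast
      exact h

theorem purv_mem_W_iff (x : ↥E) : x ∈ purv_W ℓ E hE ↔ (x : LaurentSeries ℚ) ∈ gaussRing ℓ :=
  Iff.rfl

variable (Eb : IntermediateField (ZMod ℓ) (LaurentSeries (ZMod ℓ)))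
  (hinto : ∀ x ∈ E, ∀ hx : x ∈ gaussRing ℓ, rho ℓ ⟨x, hx⟩ ∈ Eb)

/-- the restriction of `ρ` to `W ∩ E`, with values in `Eb`. -/
def purv_rho : ↥(purv_W ℓ E hE) →+* ↥Eb where
  toFun x := ⟨rho ℓ ⟨((x : ↥E) : LaurentSeries ℚ), x.2⟩, hinto _ (x : ↥E).2 x.2⟩
  map_one' := by
    apply Subtype.ext
    show rho ℓ ⟨(((1 : ↥(purv_W ℓ E hE)) : ↥E) : LaurentSeries ℚ), _⟩ = ((1 : ↥Eb) : _)
    have : (⟨(((1 : ↥(purv_W ℓ E hE)) : ↥E) : LaurentSeries ℚ),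
        (1 : ↥(purv_W ℓ E hE)).2⟩ : gaussRing ℓ) = 1 := Subtype.ext (by push_cast; rfl)
    rw [this, map_one]; rfl
  map_zero' := by
    apply Subtype.ext
    show rho ℓ ⟨(((0 : ↥(purv_W ℓ E hE)) : ↥E) : LaurentSeries ℚ), _⟩ = ((0 : ↥Eb) : _)
    have : (⟨(((0 : ↥(purv_W ℓ E hE)) : ↥E) : LaurentSeries ℚ),
        (0 : ↥(purv_W ℓ E hE)).2⟩ : gaussRing ℓ) = 0 := Subtype.ext (by push_cast; rfl)
    rw [this, map_zero]; rfl
  map_mul' x y := by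
    apply Subtype.ext
    show rho ℓ ⟨(((x * y : ↥(purv_W ℓ E hE)) : ↥E) : LaurentSeries ℚ), _⟩ =
      rho ℓ ⟨((x : ↥E) : LaurentSeries ℚ), x.2⟩ * rho ℓ ⟨((y : ↥E) : LaurentSeries ℚ), y.2⟩
    rw [← map_mul]
    congr 1
  map_add' x y := by
    apply Subtype.ext
    show rho ℓ ⟨(((x + y : ↥(purv_W ℓ E hE)) : ↥E) : LaurentSeries ℚ), _⟩ =
      rho ℓ ⟨((x : ↥E) : LaurentSeries ℚ), x.2⟩ + rho ℓ ⟨((y : ↥E) : LaurentSeries ℚ), y.2⟩
    rw [← map_add]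
    congr 1

theorem purv_rho_coe (x : ↥(purv_W ℓ E hE)) :
    ((purv_rho ℓ E hE Eb hinto x : ↥Eb) : LaurentSeries (ZMod ℓ)) =
      rho ℓ ⟨((x : ↥E) : LaurentSeries ℚ), x.2⟩ :=
  rfl

/-- kernel of `purv_rho` = non-units. -/
theorem purv_rho_eq_zero_iff (x : ↥(purv_W ℓ E hE)) :
    purv_rho ℓ E hE Eb hinto x = 0 ↔ ¬ IsUnit x := by
  have hcoe : purv_rho ℓ E hE Eb hinto x = 0 ↔
      rho ℓ ⟨((x : ↥E) : LaurentSeries ℚ), x.2⟩ = 0 := by
    rw [← purv_rho_coe ℓ E hE Eb hinto x]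
    constructor
    · intro h; rw [h]; rfl
    · intro h; exact Subtype.ext h
  rw [hcoe]
  constructor
  · intro h0 hu
    have h1 := (purv_rho ℓ E hE Eb hinto).isUnit_map hu
    rw [hcoe.mpr h0] at h1
    exact not_isUnit_zero h1
  · intro hnu
    by_contra hne
    apply hnu
    have hinv : ((x : ↥E) : LaurentSeries ℚ)⁻¹ ∈ gaussRing ℓ := puri_inv_mem_gaussRing ℓ x.2 hne
    have hx0 : (x : ↥E) ≠ 0 := by
      intro h0
      apply hne
      have : (⟨((x : ↥E) : LaurentSeries ℚ), x.2⟩ : gaussRing ℓ) = 0 := by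
        apply Subtype.ext
        show ((x : ↥E) : LaurentSeries ℚ) = 0
        rw [h0]; rfl
      rw [this, map_zero]
    have hinvW : (x : ↥E)⁻¹ ∈ purv_W ℓ E hE := by
      show (((x : ↥E)⁻¹ : ↥E) : LaurentSeries ℚ) ∈ gaussRing ℓ
      push_cast
      exact hinv
    refine isUnit_iff_exists_inv.mpr ⟨⟨(x : ↥E)⁻¹, hinvW⟩, ?_⟩
    apply Subtype.ext
    show (x : ↥E) * (x : ↥E)⁻¹ = 1
    exact mul_inv_cancel₀ hx0

/-! ### the reduction pair -/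

section Pair

variable (E E' : IntermediateField ℚ (LaurentSeries ℚ)) (hE : E ≤ gr_fracField ℓ)
  (hE' : E' ≤ gr_fracField ℓ)
  (Eb Eb' : IntermediateField (ZMod ℓ) (LaurentSeries (ZMod ℓ)))
  (hinto : ∀ x ∈ E, ∀ hx : x ∈ gaussRing ℓ, rho ℓ ⟨x, hx⟩ ∈ Eb)
  (hinto' : ∀ x ∈ E', ∀ hx : x ∈ gaussRing ℓ, rho ℓ ⟨x, hx⟩ ∈ Eb')
  [Algebra ↥E ↥E'] [Algebra ↥Eb ↥Eb']

/-- **the concrete reduction pair** for `E ≤ E'` w.r.t. the Gauss ring. -/
theorem purv_redPair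
    (halg : ∀ x : ↥E, ((algebraMap ↥E ↥E' x : ↥E') : LaurentSeries ℚ) = x)
    (halgb : ∀ x : ↥Eb, ((algebraMap ↥Eb ↥Eb' x : ↥Eb') : LaurentSeries (ZMod ℓ)) = x)
    (honto' : ∀ c ∈ Eb', ∃ x ∈ E', ∃ hx : x ∈ gaussRing ℓ, rho ℓ ⟨x, hx⟩ = c)
    (hfin : FiniteDimensional ↥E ↥E')
    (hdeg : Module.finrank ↥Eb ↥Eb' = Module.finrank ↥E ↥E') :
    nd_RedPair (purv_W ℓ E hE) (purv_W ℓ E' hE') (purv_rho ℓ E hE Eb hinto)
      (purv_rho ℓ E' hE' Eb' hinto') where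
  mem_iff x := by
    rw [purv_mem_W_iff, purv_mem_W_iff, halg]
  compat x hx hx' := by
    apply Subtype.ext
    rw [halgb, purv_rho_coe, purv_rho_coe]
    congr 1
    apply Subtype.ext
    exact halg x
  ker' x := purv_rho_eq_zero_iff ℓ E' hE' Eb' hinto' x
  surj' c := by
    obtain ⟨x, hxE, hxW, hx⟩ := honto' c c.2
    exact ⟨⟨⟨x, hxE⟩, hxW⟩, Subtype.ext hx⟩
  finite := hfin
  finrank_eq := hdeg

/-- `hker` of `lyd_fact0` / `lyd_hprime`: an element of `W'` with zero reduction is `ℓ` times an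
element of `W'`. -/
theorem purv_hker (x : ↥(purv_W ℓ E' hE')) (hx : purv_rho ℓ E' hE' Eb' hinto' x = 0) :
    ∃ y : ↥(purv_W ℓ E' hE'), ((x : ↥E') : LaurentSeries ℚ) =
      (ℓ : LaurentSeries ℚ) * ((y : ↥E') : LaurentSeries ℚ) := by
  have h1 : rho ℓ ⟨((x : ↥E') : LaurentSeries ℚ), x.2⟩ = 0 := by
    rw [← purv_rho_coe ℓ E' hE' Eb' hinto' x, hx]; rfl
  obtain ⟨y, hy⟩ := (rho_eq_zero_iff ℓ _).mp h1
  have hy' : ((x : ↥E') : LaurentSeries ℚ) = (ℓ : LaurentSeries ℚ) * (y : LaurentSeries ℚ) := by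
    have := congrArg (fun z : gaussRing ℓ => (z : LaurentSeries ℚ)) hy
    simpa using this
  have hℓ0 : (ℓ : LaurentSeries ℚ) ≠ 0 := gr_natCast_ne_zero ℓ
  have hyE : (y : LaurentSeries ℚ) ∈ E' := by
    have h2 : (y : LaurentSeries ℚ) = (ℓ : LaurentSeries ℚ)⁻¹ * ((x : ↥E') : LaurentSeries ℚ) := by
      rw [hy', ← mul_assoc, inv_mul_cancel₀ hℓ0, one_mul]
    rw [h2]
    exact E'.mul_mem (E'.inv_mem (natCast_mem E' ℓ)) (x : ↥E').2
  exact ⟨⟨⟨(y : LaurentSeries ℚ), hyE⟩, y.2⟩, hy'⟩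

end Pair

end Fermat.Agent.S18x
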