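import Mathlib
import Fermat.Agent.S18x.PurvGauss
import Fermat.Agent.S18x.BaseIdentF4
import Fermat.Agent.S18x.LevelDeg
import Fermat.Agent.S18x.BaseIdentNineFin
import Fermat.Agent.S18x.LevelYFinite
import Fermat.Agent.S18x.LevelYInst

/-!
# S18x / the concrete reduction pair at level `Y = 4N`, `ℓ` odd

`(K_Y, L_Y) = (ℚ(X₃), F_{2N}(q²)·ℚ(X₃)) = (F_4, F_{4N})` with the Gauss valuation rings and residue
fields `(𝔽_ℓ(X̄₃), F̃_{4N})`.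
-/

set_option autoImplicit false
set_option linter.style.haveILetI false
set_option linter.unusedSectionVars false
set_option synthInstance.maxHeartbeats 400000
set_option maxHeartbeats 1000000

noncomputable section

namespace Fermat.Agent.S18x

open Fermat.Agent.S28x ModularCurve IntermediateField

variable (ℓ : ℕ) [Fact ℓ.Prime] (hl : ℓ ≠ 2) (N : ℕ) [NeZero N] (hℓN : ¬ ℓ ∣ N)

theorem purv_not_dvd_four_mul {ℓ : ℕ} [Fact ℓ.Prime] (hl : ℓ ≠ 2) {N : ℕ} (hℓN : ¬ ℓ ∣ N) :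
    ¬ ℓ ∣ 4 * N := by
  have hℓ : ℓ.Prime := Fact.out
  intro h
  rcases (Nat.Prime.dvd_mul hℓ).mp h with h4 | hN
  · have h22 : ℓ ∣ 2 * 2 := by simpa using h4
    rcases (Nat.Prime.dvd_mul hℓ).mp h22 with h2 | h2 <;>
      exact hl ((Nat.prime_dvd_prime_iff_eq hℓ Nat.prime_two).mp h2)
  · exact hℓN hN

theorem purv_LY_le : lyn_LY (2 * N) ≤ gr_fracField ℓ := by
  rw [bsf4_lyn_LY_eq]
  intro z hz
  exact exists_frac_of_mem_full ℓ (4 * N) hz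

theorem purv_KY_le : lyn_KY ≤ gr_fracField ℓ :=
  (purb_KY_le_LY 2 purb_X3Q (2 * 1)).trans (purv_LY_le ℓ 1)

theorem purv_KY_eq : lyn_KY = modularFunctionFieldFull 4 := bsf4_F4_eq_Q.symm

theorem purv_KYb_eq : lyn_KYb ℓ hl = Ft ℓ 4 :=
  (bsf4_F4_eq_F ℓ hl (lyn_isUnit_two_zmod ℓ hl)).symm

include hℓN

theorem purv_hinto' : ∀ x ∈ lyn_LY (2 * N), ∀ hx : x ∈ gaussRing ℓ,
    rho ℓ ⟨x, hx⟩ ∈ lyn_LYb ℓ hl (2 * N) := by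
  intro x hxE hx
  rw [bsf4_lyn_LYb_eq ℓ hl N hℓN]
  rw [bsf4_lyn_LY_eq] at hxE
  exact lvd_rho_mem_Ft ℓ (4 * N) (purv_not_dvd_four_mul hl hℓN) hxE hx

theorem purv_hinto : ∀ x ∈ lyn_KY, ∀ hx : x ∈ gaussRing ℓ,
    rho ℓ ⟨x, hx⟩ ∈ lyn_KYb ℓ hl := by
  intro x hxE hx
  rw [purv_KYb_eq ℓ hl]
  rw [purv_KY_eq] at hxE
  have h4 : ¬ ℓ ∣ 4 := by
    have := purv_not_dvd_four_mul hl (N := 1) (by
      intro h1
      exact (Fact.out : ℓ.Prime).one_lt.ne' (Nat.dvd_one.mp h1))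
    simpa using this
  exact lvd_rho_mem_Ft ℓ 4 h4 hxE hx

theorem purv_honto' : ∀ c ∈ lyn_LYb ℓ hl (2 * N), ∃ x ∈ lyn_LY (2 * N),
    ∃ hx : x ∈ gaussRing ℓ, rho ℓ ⟨x, hx⟩ = c := by
  intro c hc
  rw [bsf4_lyn_LYb_eq ℓ hl N hℓN] at hc
  obtain ⟨x, hxF, hxW, hx⟩ := lvd_exists_rho_eq ℓ (4 * N) hc
  refine ⟨x, ?_, hxW, hx⟩
  rw [bsf4_lyn_LY_eq]
  exact hxF

theorem purv_finrank_eq :
    Module.finrank ↥(lyn_KYb ℓ hl) ↥(lyn_LYb ℓ hl (2 * N)) =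
      Module.finrank ↥lyn_KY ↥(lyn_LY (2 * N)) := by
  have h1 := bsn_finrank_eq_relfinrank (lyn_KYb ℓ hl) (lyn_LYb ℓ hl (2 * N))
    (purb_KYb_le_LYb ℓ 2 (lyn_X3F ℓ hl) (2 * N))
  have h2 := bsn_finrank_eq_relfinrank lyn_KY (lyn_LY (2 * N))
    (purb_KY_le_LY 2 purb_X3Q (2 * N))
  have h3 := lvd_relfinrank_eq ℓ 4 (4 * N) (Dvd.intro N rfl) (purv_not_dvd_four_mul hl hℓN)
  have e1 : lyn_LYb ℓ hl (2 * N) = Ft ℓ (4 * N) := bsf4_lyn_LYb_eq ℓ hl N hℓN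
  rw [← purv_KYb_eq ℓ hl, ← e1, ← purv_KY_eq, ← bsf4_lyn_LY_eq N] at h3
  exact h1.trans (h3.trans h2.symm)

/-- **the concrete reduction pair** `(ℚ(X₃), F_{4N})` over `(ℤ_(ℓ), 𝔽_ℓ)`. -/
theorem purv_redPair_X3 :
    nd_RedPair (purv_W ℓ lyn_KY (purv_KY_le ℓ))
      (purv_W ℓ (lyn_LY (2 * N)) (purv_LY_le ℓ N))
      (purv_rho ℓ lyn_KY (purv_KY_le ℓ) (lyn_KYb ℓ hl) (purv_hinto ℓ hl N hℓN))
      (purv_rho ℓ (lyn_LY (2 * N)) (purv_LY_le ℓ N) (lyn_LYb ℓ hl (2 * N))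
        (purv_hinto' ℓ hl N hℓN)) :=
  purv_redPair ℓ lyn_KY (lyn_LY (2 * N)) (purv_KY_le ℓ) (purv_LY_le ℓ N)
    (lyn_KYb ℓ hl) (lyn_LYb ℓ hl (2 * N)) (purv_hinto ℓ hl N hℓN) (purv_hinto' ℓ hl N hℓN)
    (fun _ => rfl) (fun _ => rfl) (purv_honto' ℓ hl N hℓN)
    (lyf_finiteDimensional_X3Q (N := 2 * N)) (purv_finrank_eq ℓ hl N hℓN)

end Fermat.Agent.S18x
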