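import Mathlib
import Fermat.Agent.S18x.PurvX3
import Fermat.Agent.S18x.PuriLyd
import Fermat.Agent.S18x.LydSpanInst

/-!
# S18x / `(V)`, FACT 0 and `(hprime)` at level `Y = 4N`, `ℓ` odd — closed forms

Closed corollaries of `PuriLyd` for the concrete reduction pair `purv_redPair_X3`.
-/

set_option autoImplicit false
set_option linter.style.haveILetI false
set_option linter.unusedSectionVars false
set_option synthInstance.maxHeartbeats 400000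
set_option maxHeartbeats 1000000

noncomputable section

namespace Fermat.Agent.S18x

open Fermat.Agent.S28x ModularCurve IntermediateField Polynomial

theorem purv_order_aux {K : Type*} [Field K] (w : PowerSeries K)
    (hw : PowerSeries.constantCoeff w = 1) :
    (HahnSeries.single (-1 : ℤ) (1 : K) * HahnSeries.ofPowerSeries ℤ K w).order = -1 := by
  have h1 : (HahnSeries.single (-1 : ℤ) (1 : K)) ≠ 0 := by simp
  have hc0 : (HahnSeries.ofPowerSeries ℤ K w).coeff 0 = 1 := by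
    have h3 := PowerSeries.coeff_coe (R := K) w (0 : ℤ)
    rw [if_neg (lt_irrefl 0)] at h3
    rw [h3]
    simpa using hw
  have hw0 : HahnSeries.ofPowerSeries ℤ K w ≠ 0 := by
    intro h
    rw [h] at hc0
    simp at hc0
  rw [HahnSeries.order_mul h1 hw0, HahnSeries.order_single one_ne_zero]
  have : (HahnSeries.ofPowerSeries ℤ K w).order = 0 := by
    apply le_antisymm
    · apply HahnSeries.order_le_of_coeff_ne_zero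
      rw [hc0]; exact one_ne_zero
    · rw [HahnSeries.le_order_iff_forall hw0]
      intro j hj
      have h3 := PowerSeries.coeff_coe (R := K) w j
      rw [if_pos hj] at h3
      exact h3
  rw [this]; ring

theorem purv_order_X3 {K : Type*} [Field K] (h2 : IsUnit (2 : K)) : (purb_X3 h2).order = -1 :=
  purv_order_aux (purb_v3 h2) (purb_constantCoeff_v3 h2)

theorem purv_c3_monic : purb_c3.Monic := by
  rw [purb_c3]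
  exact Polynomial.monic_X_pow_sub_C _ (by norm_num)

theorem purv_c3_ne_zero : purb_c3 ≠ 0 := purv_c3_monic.ne_zero

variable (ℓ : ℕ) [Fact ℓ.Prime] (hl : ℓ ≠ 2) (N : ℕ) [NeZero N] (hℓN : ¬ ℓ ∣ N)

/-- transcendence of `X̄₃` in `eval₂` form. -/
theorem purv_htrb :
    ∀ p : (ZMod ℓ)[X], Polynomial.eval₂ (HahnSeries.C : ZMod ℓ →+* LaurentSeries (ZMod ℓ))
      (rho ℓ ⟨purb_X3Q, lyn_X3Q_mem_gaussRing ℓ hl⟩) p = 0 → p = 0 := by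
  rw [lyn_rho_X3Q ℓ hl]
  exact puri_htrb_of_transcendental (lyn_transcendental_X3F ℓ hl)

theorem purv_hcb :
    Polynomial.eval₂ (Int.castRingHom (LaurentSeries (ZMod ℓ)))
      (rho ℓ ⟨purb_X3Q, lyn_X3Q_mem_gaussRing ℓ hl⟩) purb_c3 ≠ 0 :=
  puri_hcb_of_htrb purb_c3 (purv_htrb ℓ hl) (puri_not_C_dvd_of_monic ℓ purb_c3 purv_c3_monic)

include hl

/-- `B₀ ⊆ W`. -/
theorem purv_hB0 (b : ↥(purb_B0 ℓ purb_X3Q purb_c3)) :
    algebraMap ↥(purb_B0 ℓ purb_X3Q purb_c3) ↥(purb_KY purb_X3Q) b ∈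
      purv_W ℓ lyn_KY (purv_KY_le ℓ) :=
  puri_B0_mem_gaussRing (lyn_X3Q_mem_gaussRing ℓ hl) purb_c3 (purv_hcb ℓ hl) b

include hℓN

theorem purv_hp :
    purv_rho ℓ lyn_KY (purv_KY_le ℓ) (lyn_KYb ℓ hl) (purv_hinto ℓ hl N hℓN)
      ⟨algebraMap ↥(purb_B0 ℓ purb_X3Q purb_c3) ↥(purb_KY purb_X3Q)
        (ℓ : ↥(purb_B0 ℓ purb_X3Q purb_c3)), purv_hB0 ℓ hl _⟩ = 0 := by
  apply Subtype.ext
  rw [purv_rho_coe]
  have h1 : (⟨((algebraMap ↥(purb_B0 ℓ purb_X3Q purb_c3) ↥(purb_KY purb_X3Q)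
      (ℓ : ↥(purb_B0 ℓ purb_X3Q purb_c3)) : ↥(purb_KY purb_X3Q)) : LaurentSeries ℚ),
      purv_hB0 ℓ hl _⟩ : gaussRing ℓ) = (ℓ : gaussRing ℓ) := by
    apply Subtype.ext
    show ((algebraMap ↥(purb_B0 ℓ purb_X3Q purb_c3) ↥(purb_KY purb_X3Q)
      (ℓ : ↥(purb_B0 ℓ purb_X3Q purb_c3)) : ↥(purb_KY purb_X3Q)) : LaurentSeries ℚ) =
      ((ℓ : gaussRing ℓ) : LaurentSeries ℚ)
    have e : (algebraMap ↥(purb_B0 ℓ purb_X3Q purb_c3) ↥(purb_KY purb_X3Q)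
      (ℓ : ↥(purb_B0 ℓ purb_X3Q purb_c3)) : ↥(purb_KY purb_X3Q)) =
      (ℓ : ↥(purb_KY purb_X3Q)) := map_natCast _ _
    rw [e]
    push_cast
    rfl
  have h2 := gr_rho_natCast_self ℓ
  rw [← h1] at h2
  rw [h2]
  rfl

theorem purv_relfinrank_ne_zero :
    relfinrank (purb_KYb ℓ (lyn_X3F ℓ hl)) (purb_LYb ℓ 2 (lyn_X3F ℓ hl) (2 * N)) ≠ 0 := by
  have e0 : purb_KYb ℓ (lyn_X3F ℓ hl) = Ft ℓ 4 := purv_KYb_eq ℓ hl
  have e1 : purb_LYb ℓ 2 (lyn_X3F ℓ hl) (2 * N) = Ft ℓ (4 * N) := bsf4_lyn_LYb_eq ℓ hl N hℓN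
  rw [e0, e1, lvd_relfinrank_eq ℓ 4 (4 * N) (Dvd.intro N rfl) (purv_not_dvd_four_mul hl hℓN)]
  exact (lvd_relfinrank_pos ℓ 4 (4 * N) (Dvd.intro N rfl) (purv_not_dvd_four_mul hl hℓN)).ne'

/-- **(V)** at level `Y = 4N`, `ℓ` odd. -/
theorem purv_HV_X3 : puri_HV ℓ 2 purb_X3Q purb_c3 (2 * N) := by
  haveI : FiniteDimensional ↥(purb_KYb ℓ (lyn_X3F ℓ hl))
      ↥(purb_LYb ℓ 2 (lyn_X3F ℓ hl) (2 * N)) := lyf_finiteDimensional_X3F (N := 2 * N) ℓ hl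
  haveI : Algebra.IsSeparable ↥(lyn_KYb ℓ hl) ↥(lyn_LYb ℓ hl (2 * N)) :=
    bsn_isSeparable_KYb_LYb_of_order ℓ 2 (lyn_X3F ℓ hl) (2 * N) (purv_order_X3 _)
      (purv_relfinrank_ne_zero ℓ hl N hℓN)
  refine puri_HV_of_redPair ℓ 2 purb_c3 (2 * N) lyn_transcendental_X3Q purv_c3_ne_zero
    (purv_redPair_X3 ℓ hl N hℓN) (purv_hB0 ℓ hl) (purv_hp ℓ hl N hℓN) ?_
  exact lyds_hspan_levelY ℓ 2 purb_X3Q purb_c3 (2 * N) (lyn_X3F ℓ hl) (lyds_hJ_X3Q ℓ) _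
    (fun r => ⟨_, rfl⟩)

theorem purv_hdvd (b : ↥(purb_B0 ℓ purb_X3Q purb_c3))
    (hb : purv_rho ℓ lyn_KY (purv_KY_le ℓ) (lyn_KYb ℓ hl) (purv_hinto ℓ hl N hℓN)
      ⟨algebraMap ↥(purb_B0 ℓ purb_X3Q purb_c3) ↥(purb_KY purb_X3Q) b, purv_hB0 ℓ hl b⟩ = 0) :
    (ℓ : ↥(purb_B0 ℓ purb_X3Q purb_c3)) ∣ b := by
  apply puri_B0_dvd_of_rho_eq_zero (lyn_X3Q_mem_gaussRing ℓ hl) purb_c3 (purv_hcb ℓ hl)
    lyn_transcendental_X3Q purv_c3_ne_zero (purv_htrb ℓ hl) b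
  have h1 := congrArg (fun z : ↥(lyn_KYb ℓ hl) => (z : LaurentSeries (ZMod ℓ))) hb
  simp only [purv_rho_coe, ZeroMemClass.coe_zero] at h1
  exact h1

theorem purv_hker_X3 (x : ↥(purv_W ℓ (lyn_LY (2 * N)) (purv_LY_le ℓ N)))
    (hx : purv_rho ℓ (lyn_LY (2 * N)) (purv_LY_le ℓ N) (lyn_LYb ℓ hl (2 * N))
      (purv_hinto' ℓ hl N hℓN) x = 0) :
    ∃ y : ↥(purv_W ℓ (lyn_LY (2 * N)) (purv_LY_le ℓ N)),
      (x : ↥(purb_LY 2 purb_X3Q (2 * N))) =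
        algebraMap ↥(purb_B0 ℓ purb_X3Q purb_c3) ↥(purb_LY 2 purb_X3Q (2 * N))
          (ℓ : ↥(purb_B0 ℓ purb_X3Q purb_c3)) * (y : ↥(purb_LY 2 purb_X3Q (2 * N))) := by
  obtain ⟨y, hy⟩ := purv_hker ℓ (lyn_LY (2 * N)) (purv_LY_le ℓ N) (lyn_LYb ℓ hl (2 * N))
    (purv_hinto' ℓ hl N hℓN) x hx
  refine ⟨y, ?_⟩
  apply Subtype.ext
  rw [map_natCast]
  push_cast
  exact hy

/-- **FACT 0** at level `Y = 4N`, `ℓ` odd: an element of `R_Y` with zero reduction is in `ℓ R_Y`. -/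
theorem purv_mem_IR_X3 (t : ↥(purb_RY ℓ 2 purb_X3Q purb_c3 (2 * N)))
    (ht : ((t : ↥(purb_LY 2 purb_X3Q (2 * N))) : LaurentSeries ℚ) ∈ gaussRing ℓ)
    (h0 : rho ℓ ⟨((t : ↥(purb_LY 2 purb_X3Q (2 * N))) : LaurentSeries ℚ), ht⟩ = 0) :
    t ∈ puri_IR ℓ 2 purb_X3Q purb_c3 (2 * N) := by
  refine puri_mem_IR_of_redPair ℓ 2 purb_c3 (2 * N) lyn_transcendental_X3Q purv_c3_ne_zero
    (purv_redPair_X3 ℓ hl N hℓN) (purv_hB0 ℓ hl) (purv_hp ℓ hl N hℓN)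
    (purv_hdvd ℓ hl N hℓN) (purv_hker_X3 ℓ hl N hℓN) t ?_
  apply Subtype.ext
  rw [purv_rho_coe]
  exact h0

/-- **`hker`** (the kernel of the reduction on `R_Y` is `ℓ R_Y`), proof-irrelevant form. -/
theorem purv_HKer_X3 (t : ↥(purb_RY ℓ 2 purb_X3Q purb_c3 (2 * N)))
    (ht : ((t : ↥(purb_LY 2 purb_X3Q (2 * N))) : LaurentSeries ℚ) ∈ gaussRing ℓ)
    (h0 : rho ℓ ⟨((t : ↥(purb_LY 2 purb_X3Q (2 * N))) : LaurentSeries ℚ), ht⟩ = 0) :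
    ∃ t' : ↥(purb_RY ℓ 2 purb_X3Q purb_c3 (2 * N)),
      t = (ℓ : ↥(purb_B0 ℓ purb_X3Q purb_c3)) • t' :=
  (puri_mkR_eq_zero_iff ℓ 2 purb_X3Q purb_c3 (2 * N) t).mp
    (Ideal.Quotient.eq_zero_iff_mem.mpr (purv_mem_IR_X3 ℓ hl N hℓN t ht h0))

/-- **(hprime)** at level `Y = 4N`, `ℓ` odd. -/
theorem purv_IR_isPrime_X3 : (puri_IR ℓ 2 purb_X3Q purb_c3 (2 * N)).IsPrime :=
  puri_IR_isPrime_of_redPair ℓ 2 purb_c3 (2 * N) lyn_transcendental_X3Q purv_c3_ne_zero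
    (purv_redPair_X3 ℓ hl N hℓN) (purv_hB0 ℓ hl) (purv_hp ℓ hl N hℓN)
    (purv_hdvd ℓ hl N hℓN) (purv_hker_X3 ℓ hl N hℓN)

end Fermat.Agent.S18x
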