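/-
S18x/RankOne (helper21): a valuation subring `A` of `ℚ̄` lying over a prime `ℓ` is non-trivial and
of rank one, in the exact form of the fields `nontriv` and `arch` of helper77's `h1v_Hyp`:
* `rk1_nontriv : ∃ π, π ≠ 0 ∧ A.valuation π < 1`;
* `rk1_arch : ∀ π, A.valuation π < 1 → ∀ c, ∃ s : ℕ, π ^ s * c ∈ A`.
Uses the S13x valuation bookkeeping (`vq_exists_pow_eq_qbar`).
-/
import Fermat.Agent.S13x.ValQbar

set_option autoImplicit false

namespace Fermat.Agent.S18x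

open Fermat.Agent.S13x

local notation "Qc" => AlgebraicClosure ℚ

theorem rk1_nontriv (A : ValuationSubring Qc) {ℓ : ℕ} (hℓ : ℓ.Prime) (hA : A.LiesOverPrime ℓ) :
    ∃ π : Qc, π ≠ 0 ∧ A.valuation π < 1 :=
  ⟨(ℓ : Qc), by exact_mod_cast hℓ.ne_zero, vq_val_q_lt_one hA⟩

/-- In a linearly ordered group with zero, `x ^ n ≤ 1` with `n ≠ 0` forces `x ≤ 1`. -/
theorem rk1_le_one_of_pow_le_one {Γ : Type*} [LinearOrderedCommGroupWithZero Γ] {x : Γ} {n : ℕ}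
    (hn : n ≠ 0) (h : x ^ n ≤ 1) : x ≤ 1 := by
  by_contra hx
  rw [not_le] at hx
  exact absurd h (not_le.mpr (one_lt_pow₀ hx hn))

theorem rk1_arch (A : ValuationSubring Qc) {ℓ : ℕ} (hℓ : ℓ.Prime) (hA : A.LiesOverPrime ℓ) :
    ∀ π : Qc, A.valuation π < 1 → ∀ c : Qc, ∃ s : ℕ, π ^ s * c ∈ A := by
  intro π hπ c
  rcases eq_or_ne π 0 with rfl | hπ0
  · exact ⟨1, by rw [pow_one, zero_mul]; exact A.zero_mem⟩
  rcases eq_or_ne c 0 with rfl | hc0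
  · exact ⟨0, by rw [mul_zero]; exact A.zero_mem⟩
  set vq := A.valuation ((ℓ : ℕ) : Qc) with hvq
  have hvq1 : vq < 1 := vq_val_q_lt_one hA
  have hvq0 : vq ≠ 0 := by
    rw [hvq, Ne, map_eq_zero]
    exact_mod_cast hℓ.ne_zero
  have hvqpos : 0 < vq := zero_lt_iff.mpr hvq0
  obtain ⟨m, hm, k, hk⟩ := vq_exists_pow_eq_qbar hℓ hA hπ0
  obtain ⟨m', hm', k', hk'⟩ := vq_exists_pow_eq_qbar hℓ hA hc0
  -- `k > 0`
  have hkpos : 0 < k := by
    by_contra hk0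
    rw [not_lt] at hk0
    obtain ⟨j, hj⟩ := Int.exists_eq_neg_ofNat hk0
    have h1 : A.valuation π ^ m < 1 := pow_lt_one₀ zero_le hπ hm.ne'
    rw [hk, hj, zpow_neg, zpow_natCast] at h1
    have h2 : vq ^ j ≤ 1 := pow_le_one₀ zero_le hvq1.le
    have h3 : 1 ≤ (vq ^ j)⁻¹ := (one_le_inv₀ (pow_pos hvqpos j)).mpr h2
    exact absurd h1 (not_lt.mpr h3)
  obtain ⟨K, hK⟩ := Int.eq_ofNat_of_zero_le hkpos.le
  have hK1 : 1 ≤ K := by omega
  rw [hK, zpow_natCast] at hk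
  by_cases hk'0 : 0 ≤ k'
  · -- `c ∈ A` already
    obtain ⟨K', hK'⟩ := Int.eq_ofNat_of_zero_le hk'0
    rw [hK', zpow_natCast] at hk'
    refine ⟨0, ?_⟩
    rw [pow_zero, one_mul, ← A.valuation_le_one_iff]
    refine rk1_le_one_of_pow_le_one hm'.ne' ?_
    rw [hk']
    exact pow_le_one₀ zero_le hvq1.le
  · rw [not_le] at hk'0
    obtain ⟨K', hK'⟩ := Int.exists_eq_neg_ofNat hk'0.le
    rw [hK', zpow_neg, zpow_natCast] at hk'
    refine ⟨m * K', ?_⟩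
    rw [← A.valuation_le_one_iff]
    refine rk1_le_one_of_pow_le_one hm'.ne' ?_
    rw [map_mul, map_pow, mul_pow, hk', pow_mul, hk, ← pow_mul, ← pow_mul]
    have hle : vq ^ (K * K' * m') ≤ vq ^ K' := by
      refine pow_le_pow_of_le_one zero_le hvq1.le ?_
      calc K' = 1 * K' * 1 := by ring
        _ ≤ K * K' * m' := by gcongr; exact hm'
    rw [← mul_assoc]
    calc vq ^ (K * K' * m') * (vq ^ K')⁻¹ ≤ vq ^ K' * (vq ^ K')⁻¹ := by gcongr
      _ = 1 := mul_inv_cancel₀ (pow_ne_zero _ hvq0)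

end Fermat.Agent.S18x
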