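/-
S18x/ResidueInto.lean (helper8; offered to row N8d "INTO"): abstract RESIDUE FIELD IDENTIFICATION by
the easy half of the fundamental inequality.  Mathlib only.

Setting: `F ⊆ F'` finite, `W'` a valuation subring of `F'`, `ρ' : W' →+* Ω` a ring map into a big
field `Ω` (e.g. `k((q))`), `κ0 → Ω` a field such that `ρ' (W' ∩ F) ⊆ κ0`, and `E` an intermediate
field of `Ω / κ0`.

* `rsi_linearIndependent_lift` : lifts to `W'` of a `κ0`-linearly independent family of residues are
  `F`-linearly independent (no completeness, no discreteness, no hypothesis on `ker ρ'`).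
* `rsi_finrank_le` : hence `#family ≤ [F' : F]`.
* `rsi_into` : if every element of `E` is a residue and `[F' : F] ≤ [E : κ0]`, then
  `ρ' (W') ⊆ E`   ("the residue field is exactly `E`").
-/
import Mathlib

set_option autoImplicit false

namespace Fermat.Agent.S18x

open Module

variable {F F' Ω κ0 : Type*} [Field F] [Field F'] [Field Ω] [Field κ0] [Algebra F F']
  [Algebra κ0 Ω]

/-- Lifts of `κ0`-independent residues are `F`-independent. -/
theorem rsi_linearIndependent_lift (W' : ValuationSubring F') (ρ' : W' →+* Ω)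
    (hκ0 : ∀ (x : F) (hx : algebraMap F F' x ∈ W'),
      ρ' ⟨algebraMap F F' x, hx⟩ ∈ Set.range (algebraMap κ0 Ω))
    {ι : Type*} [Fintype ι] (b : ι → W') (hb : LinearIndependent κ0 (fun i => ρ' (b i))) :
    LinearIndependent F (fun i => ((b i : W') : F')) := by
  classical
  rw [Fintype.linearIndependent_iff]
  intro c hc i1
  by_contra hi1
  let V : ValuationSubring F := W'.comap (algebraMap F F')
  obtain ⟨i0, -, hi0⟩ := Finset.exists_max_image Finset.univ (fun i => V.valuation (c i))
    ⟨i1, Finset.mem_univ _⟩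
  have hv1 : V.valuation (c i1) ≠ 0 := (Valuation.ne_zero_iff _).mpr hi1
  have hv0 : V.valuation (c i0) ≠ 0 := by
    intro h0
    have := hi0 i1 (Finset.mem_univ _)
    rw [h0] at this
    exact hv1 (le_antisymm this zero_le)
  have hc0 : c i0 ≠ 0 := (Valuation.ne_zero_iff _).mp hv0
  have hc' : ∀ i, algebraMap F F' (c i / c i0) ∈ W' := by
    intro i
    have : c i / c i0 ∈ V := by
      rw [← ValuationSubring.valuation_le_one_iff, map_div₀]
      exact (div_le_one₀ (zero_lt_iff.mpr hv0)).mpr (hi0 i (Finset.mem_univ _))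
    exact this
  choose t ht using fun i => hκ0 (c i / c i0) (hc' i)
  have hsum : (∑ i, (⟨algebraMap F F' (c i / c i0), hc' i⟩ : W') * b i : W') = 0 := by
    apply Subtype.ext
    simp only [AddSubmonoidClass.coe_finsetSum, MulMemClass.coe_mul, ZeroMemClass.coe_zero]
    have : ∑ i, algebraMap F F' (c i / c i0) * ((b i : W') : F')
        = algebraMap F F' (c i0)⁻¹ * ∑ i, c i • ((b i : W') : F') := by
      rw [Finset.mul_sum]
      refine Finset.sum_congr rfl fun i _ => ?_
      rw [div_eq_mul_inv, map_mul, Algebra.smul_def]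
      ring
    rw [this, hc, mul_zero]
  have hred : ∑ i, t i • ρ' (b i) = 0 := by
    have h1 := congrArg ρ' hsum
    rw [map_sum, map_zero] at h1
    rw [← h1]
    refine Finset.sum_congr rfl fun i _ => ?_
    rw [map_mul, ← ht i, Algebra.smul_def]
  have h0 := (Fintype.linearIndependent_iff.mp hb) t hred i0
  have h1 : algebraMap κ0 Ω (t i0) = 1 := by
    rw [ht i0]
    have : (⟨algebraMap F F' (c i0 / c i0), hc' i0⟩ : W') = 1 :=
      Subtype.ext (by simp [div_self hc0])
    rw [this, map_one]
  rw [h0, map_zero] at h1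
  exact zero_ne_one h1

/-- Easy half of the fundamental inequality. -/
theorem rsi_card_le_finrank [FiniteDimensional F F'] (W' : ValuationSubring F') (ρ' : W' →+* Ω)
    (hκ0 : ∀ (x : F) (hx : algebraMap F F' x ∈ W'),
      ρ' ⟨algebraMap F F' x, hx⟩ ∈ Set.range (algebraMap κ0 Ω))
    {ι : Type*} [Fintype ι] (b : ι → W') (hb : LinearIndependent κ0 (fun i => ρ' (b i))) :
    Fintype.card ι ≤ finrank F F' :=
  (rsi_linearIndependent_lift W' ρ' hκ0 b hb).fintype_card_le_finrank

/-- RESIDUE FIELD IDENTIFICATION: if `E ⊆ ρ'(W')` and `[F':F] ≤ [E:κ0]` then `ρ'(W') ⊆ E`. -/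
theorem rsi_into [FiniteDimensional F F'] (W' : ValuationSubring F') (ρ' : W' →+* Ω)
    (hκ0 : ∀ (x : F) (hx : algebraMap F F' x ∈ W'),
      ρ' ⟨algebraMap F F' x, hx⟩ ∈ Set.range (algebraMap κ0 Ω))
    (E : IntermediateField κ0 Ω) [FiniteDimensional κ0 E]
    (hE : ∀ e ∈ E, ∃ y : W', ρ' y = e)
    (hdeg : finrank F F' ≤ finrank κ0 E) (z : W') : ρ' z ∈ E := by
  classical
  by_contra hz
  let e : Basis (Fin (finrank κ0 E)) κ0 E := Module.finBasis κ0 E
  choose y hy using fun i => hE (e i : Ω) (e i).2
  let v : Fin (finrank κ0 E + 1) → W' := Fin.cons z y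
  have hli : LinearIndependent κ0 (fun i => ρ' (v i)) := by
    have hv : (fun i => ρ' (v i)) = Fin.cons (ρ' z) (fun i => ((e i : E) : Ω)) := by
      funext i
      refine Fin.cases ?_ (fun j => ?_) i
      · simp [v]
      · simp [v, hy]
    rw [hv, linearIndependent_finCons]
    refine ⟨?_, ?_⟩
    · have h1 : LinearIndependent κ0 (fun i => (e i : E)) := e.linearIndependent
      exact h1.map' E.val.toLinearMap (LinearMap.ker_eq_bot.mpr Subtype.val_injective)
    · intro hmem
      apply hz
      have hspan : Submodule.span κ0 (Set.range fun i => ((e i : E) : Ω)) = E.toSubalgebra.toSubmodule := by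
        have h2 : (Set.range fun i => ((e i : E) : Ω)) = E.val.toLinearMap '' Set.range e := by
          rw [← Set.range_comp]
          rfl
        rw [h2, Submodule.span_image, e.span_eq, Submodule.map_top]
        ext w
        simp
      rw [hspan] at hmem
      exact hmem
  have hcard := rsi_card_le_finrank W' ρ' hκ0 v hli
  rw [Fintype.card_fin] at hcard
  omega

end Fermat.Agent.S18x
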