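/-
S18x/RmnGraded (helper95): the graded module `⊕_t L(t B)`, `B = (x)_∞`, is generated in bounded
degree over `K[x]`.  From EXACT Riemann (`rmn_Hyp` + `rmn_Bound`):
`L((t+1) B) = L(t B) + x · L(t B)` for `t ≥ t₁`, hence every `z ∈ L(T B)` (`T ≥ t₁`) is
`∑_{i ≤ T - t₁} x^i y_i` with `y_i ∈ L(t₁ B)`.  (Riemann half of the "last mile" GE1.)
-/
import Fermat.Agent.S18x.RmnCompare
import Fermat.Agent.S18x.RmnCoord

set_option autoImplicit false

namespace Fermat.Agent.S18x

open AlgebraicCurve WithZero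

variable {K F : Type*} [Field K] [Field F] [Algebra K F]

/-- `x · L(D) ⊆ L(D + (x)_∞)` -/
theorem rmn_mul_mem_add_pole {x : F} (hx0 : x ≠ 0) {Dx : Divisor K F} (hDx : ∀ P, Dx P = P.ord x)
    {D : Divisor K F} {y : F} (hy : y ∈ riemannRochSpace D) :
    x * y ∈ riemannRochSpace (D + rmn_pos (-Dx)) := by
  rw [mem_riemannRochSpace_iff] at hy ⊢
  intro P
  rcases eq_or_ne y 0 with rfl | hy0
  · left; simp
  right
  have h1 := (hy P).resolve_left hy0
  rw [P.ord_mul hx0 hy0, Finsupp.add_apply, rmn_pos_apply, Finsupp.neg_apply, hDx]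
  have : -P.ord x ≤ max (-P.ord x) 0 := le_max_left _ _
  omega

/-- if `y` and `x y` both lie in `L(t B)`, `B = (x)_∞`, then `y ∈ L((t-1) B)` -/
theorem rmn_mem_pred_of_mul_mem {x : F} (hx0 : x ≠ 0) {Dx : Divisor K F}
    (hDx : ∀ P, Dx P = P.ord x) {t : ℕ} {y : F}
    (hy : y ∈ riemannRochSpace ((t + 1) • rmn_pos (-Dx)))
    (hxy : x * y ∈ riemannRochSpace ((t + 1) • rmn_pos (-Dx))) :
    y ∈ riemannRochSpace (t • rmn_pos (-Dx)) := by
  rw [mem_riemannRochSpace_iff] at hy hxy ⊢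
  intro P
  rcases eq_or_ne y 0 with rfl | hy0
  · left; rfl
  right
  have h1 := (hy P).resolve_left hy0
  have h2 := (hxy P).resolve_left (mul_ne_zero hx0 hy0)
  rw [P.ord_mul hx0 hy0] at h2
  rw [Finsupp.smul_apply, rmn_pos_apply, Finsupp.neg_apply, hDx, nsmul_eq_mul] at h1 h2 ⊢
  push_cast at h1 h2
  rcases le_total (-P.ord x) 0 with h | h
  · rw [max_eq_right h] at h1 h2 ⊢
    omega
  · rw [max_eq_left h] at h1 h2 ⊢
    nlinarith

/-- **the graded step**: `L((t+1) B) = L(t B) ⊔ x · L(t B)` for all large `t`, `B = (x)_∞` -/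
theorem rmn_graded_step (H : rmn_Hyp K F) (hB : rmn_Bound K F) {x : F} (hx0 : x ≠ 0)
    {Dx : Divisor K F} (hDx : ∀ P, Dx P = P.ord x)
    (hpos : 0 < Divisor.degree (rmn_pos (-Dx))) :
    ∃ t₁ : ℕ, ∀ t : ℕ, t₁ ≤ t →
      riemannRochSpace ((t + 1) • rmn_pos (-Dx)) =
        riemannRochSpace (t • rmn_pos (-Dx)) ⊔
          (riemannRochSpace (t • rmn_pos (-Dx))).map (LinearMap.mulLeft K x) := by
  obtain ⟨c, hc⟩ := rmn_finrank_nsmul H hB (rmn_pos (-Dx)) hpos
  refine ⟨c + 1, fun t ht => ?_⟩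
  obtain ⟨s, rfl⟩ : ∃ s, t = s + 1 := ⟨t - 1, by omega⟩
  set B := rmn_pos (-Dx) with hBdef
  have hBnonneg : ∀ P, 0 ≤ B P := fun P => rmn_pos_nonneg _ P
  have hinj : Function.Injective (LinearMap.mulLeft K x) := by
    intro a b hab
    simpa [hx0] using hab
  have : Module.Finite K (riemannRochSpace ((s + 1) • B)) := rmn_finite H _
  have : Module.Finite K (riemannRochSpace ((s + 1 + 1) • B)) := rmn_finite H _
  have : Module.Finite K (riemannRochSpace (s • B)) := rmn_finite H _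
  set S := riemannRochSpace ((s + 1) • B) with hS
  set S' := S.map (LinearMap.mulLeft K x) with hS'
  have hfinS' : Module.Finite K S' := by rw [hS']; infer_instance
  -- inclusion
  have hle : S ⊔ S' ≤ riemannRochSpace ((s + 1 + 1) • B) := by
    apply sup_le
    · apply rmn_L_mono
      intro P
      simp only [Finsupp.smul_apply, nsmul_eq_mul]
      have := hBnonneg P
      push_cast
      nlinarith
    · rintro z ⟨y, hy, rfl⟩
      have h1 := rmn_mul_mem_add_pole hx0 hDx hy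
      show x * y ∈ riemannRochSpace ((s + 1 + 1) • B)
      rw [succ_nsmul B (s + 1)]
      exact h1
  -- the intersection
  have hinf : S ⊓ S' ≤ (riemannRochSpace (s • B)).map (LinearMap.mulLeft K x) := by
    rintro z ⟨hz1, y, hy, rfl⟩
    exact ⟨y, rmn_mem_pred_of_mul_mem hx0 hDx hy hz1, rfl⟩
  have hfr_inf : Module.finrank K ↥(S ⊓ S') ≤ Module.finrank K (riemannRochSpace (s • B)) := by
    have h1 := Submodule.finrank_mono hinf
    have h2 : Module.finrank K ((riemannRochSpace (s • B)).map (LinearMap.mulLeft K x)) =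
        Module.finrank K (riemannRochSpace (s • B)) :=
      (LinearEquiv.finrank_eq (Submodule.equivMapOfInjective _ hinj _)).symm
    omega
  have hfrS' : Module.finrank K S' = Module.finrank K S :=
    (LinearEquiv.finrank_eq (Submodule.equivMapOfInjective _ hinj _)).symm
  have hsum := Submodule.finrank_sup_add_finrank_inf_eq S S'
  have e0 := hc s (by omega)
  have e1 := hc (s + 1) (by omega)
  have e2 := hc (s + 1 + 1) (by omega)
  refine (Submodule.eq_of_le_of_finrank_le hle ?_).symm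
  have hcast : (Module.finrank K (riemannRochSpace ((s + 1 + 1) • B)) : ℤ) ≤
      Module.finrank K ↥(S ⊔ S') := by
    have h3 : (Module.finrank K ↥(S ⊔ S') : ℤ) + Module.finrank K ↥(S ⊓ S') =
        Module.finrank K S + Module.finrank K S' := by exact_mod_cast hsum
    have h4 : (Module.finrank K ↥(S ⊓ S') : ℤ) ≤ Module.finrank K (riemannRochSpace (s • B)) := by
      exact_mod_cast hfr_inf
    rw [hfrS'] at h3
    push_cast at e0 e1 e2
    rw [e2]
    rw [e1] at h3
    rw [e0] at h4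
    linarith
  exact_mod_cast hcast

/-- elementwise form of the graded step -/
theorem rmn_graded_step_mem (H : rmn_Hyp K F) (hB : rmn_Bound K F) {x : F} (hx0 : x ≠ 0)
    {Dx : Divisor K F} (hDx : ∀ P, Dx P = P.ord x)
    (hpos : 0 < Divisor.degree (rmn_pos (-Dx))) :
    ∃ t₁ : ℕ, ∀ t : ℕ, t₁ ≤ t → ∀ z ∈ riemannRochSpace ((t + 1) • rmn_pos (-Dx)),
      ∃ y₀ ∈ riemannRochSpace (t • rmn_pos (-Dx)),
        ∃ y₁ ∈ riemannRochSpace (t • rmn_pos (-Dx)), z = y₀ + x * y₁ := by
  obtain ⟨t₁, h⟩ := rmn_graded_step H hB hx0 hDx hpos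
  refine ⟨t₁, fun t ht z hz => ?_⟩
  rw [h t ht, Submodule.mem_sup] at hz
  obtain ⟨y₀, hy₀, w, ⟨y₁, hy₁, rfl⟩, rfl⟩ := hz
  exact ⟨y₀, hy₀, y₁, hy₁, rfl⟩

/-- **generation in bounded degree**: for `T ≥ t₁`, every element of `L(T B)` is
`∑_{i ≤ T - t₁} x^i y_i` with all `y_i ∈ L(t₁ B)` -/
theorem rmn_graded_span (H : rmn_Hyp K F) (hB : rmn_Bound K F) {x : F} (hx0 : x ≠ 0)
    {Dx : Divisor K F} (hDx : ∀ P, Dx P = P.ord x)
    (hpos : 0 < Divisor.degree (rmn_pos (-Dx))) :
    ∃ t₁ : ℕ, ∀ m : ℕ, ∀ z ∈ riemannRochSpace ((t₁ + m) • rmn_pos (-Dx)),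
      ∃ y : Fin (m + 1) → F, (∀ i, y i ∈ riemannRochSpace (t₁ • rmn_pos (-Dx))) ∧
        z = ∑ i : Fin (m + 1), x ^ (i : ℕ) * y i := by
  obtain ⟨t₁, h⟩ := rmn_graded_step_mem H hB hx0 hDx hpos
  refine ⟨t₁, fun m => ?_⟩
  induction m with
  | zero =>
    intro z hz
    refine ⟨fun _ => z, fun _ => by simpa using hz, by simp⟩
  | succ m ih =>
    intro z hz
    have hz' : z ∈ riemannRochSpace ((t₁ + m + 1) • rmn_pos (-Dx)) := by
      rwa [show t₁ + (m + 1) = t₁ + m + 1 by omega] at hz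
    obtain ⟨y₀, hy₀, y₁, hy₁, rfl⟩ := h (t₁ + m) (by omega) z hz'
    obtain ⟨a, ha, rfl⟩ := ih y₀ hy₀
    obtain ⟨b, hb, rfl⟩ := ih y₁ hy₁
    -- combine: coefficient i is a_i + b_{i-1}
    refine ⟨fun i => (Fin.snoc (α := fun _ => F) a 0 : Fin (m + 1 + 1) → F) i +
      (Fin.cons (α := fun _ => F) 0 b : Fin (m + 1 + 1) → F) i, fun i => ?_, ?_⟩
    · apply Submodule.add_mem
      · refine Fin.lastCases ?_ (fun j => ?_) i
        · rw [Fin.snoc_last]
          exact Submodule.zero_mem _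
        · rw [Fin.snoc_castSucc]
          exact ha j
      · refine Fin.cases ?_ (fun j => ?_) i
        · rw [Fin.cons_zero]
          exact Submodule.zero_mem _
        · rw [Fin.cons_succ]
          exact hb j
    · simp only [mul_add, Finset.sum_add_distrib]
      congr 1
      · rw [Fin.sum_univ_castSucc (n := m + 1)]
        simp only [Fin.snoc_castSucc, Fin.snoc_last, mul_zero, add_zero, Fin.val_castSucc]
      · rw [Fin.sum_univ_succ (n := m + 1), Finset.mul_sum]
        simp only [Fin.cons_zero, mul_zero, zero_add, Fin.cons_succ, Fin.val_succ]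
        refine Finset.sum_congr rfl fun i _ => ?_
        rw [pow_succ']
        ring

end Fermat.Agent.S18x
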