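/-
S18x/RmtRmnBridge (helper24): bridge between the two Riemann-theorem packages on main:
`rmt_` (helper24: `RmtBase`, `RmtCoord`, coordinate ⇒ bounded defect) and `rmn_` (helper95:
`rmn_Hyp`, `rmn_Bound`, `rmn_genus`).  Main output = helper95's RT2:
a coordinate `x` with `deg (x)_∞ ≤ [F : K(x)]` gives `rmn_Bound K F`; and the S24x/pls layer-A
shapes give BOTH `rmn_Hyp K F` and `rmn_Bound K F` in any characteristic.
-/
import Mathlib
import Fermat.Agent.S18x.RiemannOfCoord
import Fermat.Agent.S18x.RmnRiemann

set_option autoImplicit false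

namespace Fermat.Agent.S18x

open AlgebraicCurve Fermat.Agent.S24x IntermediateField

variable {K F : Type*} [Field K] [Field F] [Algebra K F]

/-! ### `RmtBase → rmn_Hyp` -/

theorem rmtb_hyp_of_base (hb : RmtBase K F) : rmn_Hyp K F where
  eval P x hx := by
    have hmem : x ∈ P.toValuationSubring := by
      rcases eq_or_ne x 0 with rfl | hx0
      · exact P.toValuationSubring.zero_mem
      · rw [pb_mem_iff P hx0]
        exact ((P.adicValuation_le_one_iff).mp hx).resolve_left hx0
    obtain ⟨c, hc⟩ := rmt_exists_residue hb P hmem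
    refine ⟨c, ?_⟩
    rw [rmn_val_lt_one_iff]
    rcases hc with hc | hc
    · left; rw [hc, sub_self]
    · right; omega
  hdeg := rmt_deg_one hb
  hpd x _ := ⟨rmtDiv hb x, rmtDiv_apply hb x⟩
  hprin0 x Dx _ hDx := by
    have : Dx = rmtDiv hb x := Finsupp.ext fun P => by rw [hDx, rmtDiv_apply]
    rw [this, rmtDiv_degree]
  hconst y hy hpole := by
    have hmem : y ∈ rmtL (0 : Divisor K F) := by
      rw [rmt_mem_iff' hy]
      intro v
      simpa using hpole v
    rw [rmtL_zero hb, Submodule.mem_span_singleton] at hmem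
    obtain ⟨a, ha⟩ := hmem
    exact ⟨a, by rw [← ha, Algebra.smul_def, mul_one]⟩

/-! ### `rmn_Hyp → RmtBase` -/

theorem rmtb_base_of_rmn (H : rmn_Hyp K F) (hne : Nonempty (Place K F)) : RmtBase K F where
  principal g hg := by
    classical
    obtain ⟨D, hD⟩ := H.hpd g hg
    have hset : {v : Place K F | v.ord g ≠ 0} = ↑D.support := by
      ext v
      simp [Finsupp.mem_support_iff, hD]
    have hfin : {v : Place K F | v.ord g ≠ 0}.Finite := by
      rw [hset]; exact D.support.finite_toSet
    refine ⟨hfin, ?_⟩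
    have h0 := H.hprin0 g D hg hD
    rw [rmn_degree_eq_sum H, Finsupp.sum] at h0
    refine Eq.trans (Finset.sum_congr ?_ fun v _ => (hD v).symm) h0
    ext v
    simp [Finsupp.mem_support_iff, hD]
  residue v := by
    intro y
    obtain ⟨u, rfl⟩ := IsLocalRing.residue_surjective y
    obtain ⟨c, hc⟩ := H.eval v (u : F) (v.adicValuation_le_one_of_mem u.2)
    refine ⟨c, ?_⟩
    rw [rmn_val_lt_one_iff] at hc
    have hmem : (u - algebraMap K v.toValuationSubring c : v.toValuationSubring) ∈
        IsLocalRing.maximalIdeal v.toValuationSubring := by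
      rw [IsLocalRing.mem_maximalIdeal, mem_nonunits_iff]
      intro hunit
      have h0 := v.ord_coe_unit hunit.unit
      simp only [IsUnit.unit_spec, AddSubgroupClass.coe_sub, Place.coe_algebraMap] at h0
      rcases hc with hc | hc
      · have : (u - algebraMap K v.toValuationSubring c : v.toValuationSubring) = 0 := by
          ext; simpa using hc
        rw [this] at hunit
        exact not_isUnit_zero hunit
      · omega
    have := (IsLocalRing.residue_eq_zero_iff _).mpr hmem
    rw [map_sub, sub_eq_zero] at this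
    rw [this]
    rfl
  nonempty := hne

/-! ### the bound -/

/-- **RT2**: a coordinate whose pole divisor has degree `≤ [F : K(x)]` gives `rmn_Bound`. -/
theorem rmtb_bound (hb : RmtBase K F) {x : F} (hc : RmtCoord hb x) : rmn_Bound K F := by
  have := hc.finite
  refine ⟨rmtPoleDiv hb x,
    Divisor.degree (rmtBasisDiv hb x) - Module.finrank K⟮x⟯ F + 1,
    rmt_poleDiv_degree_pos hb x hc.transcendental,
    fun P => Finsupp.le_def.mp (rmtPoleDiv_nonneg hb x) P, fun m => ?_⟩
  have h := rmt_defect_mul hb x hc.transcendental hc.pole_le m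
  rw [natCast_zsmul] at h
  unfold rmn_delta
  unfold rmtl rmtL at h
  omega

/-- **both packages from the layer-A shapes** (any characteristic). -/
theorem rmtb_hyp_and_bound_of_fund [IsAlgClosed K]
    (hA3z : ∀ {t : F}, IsCoordinate K F t → ∀ c : K, ∃ hfin : (placesOver K F t c).Finite,
        ∑ v ∈ hfin.toFinset, v.ord (t - algebraMap K F c) = (cdeg K F t : ℤ))
    (hA3p : ∀ {t : F}, IsCoordinate K F t → ∃ hfin : (polePlaces K F t).Finite,
        ∑ v ∈ hfin.toFinset, - v.ord t = (cdeg K F t : ℤ))
    {t : F} (ht : IsCoordinate K F t) : rmn_Hyp K F ∧ rmn_Bound K F :=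
  ⟨rmtb_hyp_of_base (rmt_base_of_fund hA3z hA3p ht),
    rmtb_bound _ (rmt_coord_of_fund (rmt_base_of_fund hA3z hA3p ht) ht (hA3p ht))⟩

/-- characteristic zero: both packages from one coordinate (S24x). -/
theorem rmtb_hyp_and_bound_of_isCoordinate [IsAlgClosed K] [CharZero K] {t : F}
    (ht : IsCoordinate K F t) : rmn_Hyp K F ∧ rmn_Bound K F :=
  rmtb_hyp_and_bound_of_fund (fun ht' c => sum_ord_placesOver ht' c)
    (fun ht' => sum_ord_polePlaces ht') ht

/-- the two genera agree. -/
theorem rmtb_genus_eq (hb : RmtBase K F) {x : F} (hc : RmtCoord hb x) :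
    rmn_genus K F = rmtGenus K F := by
  refine rmn_genus_eq (rmtb_hyp_of_base hb) (rmtb_bound hb hc) (fun D => ?_) ?_
  · have := rmt_riemann_ineq hb hc D
    unfold rmn_delta
    unfold rmtl rmtL at this
    omega
  · obtain ⟨D₀, hD₀⟩ := rmt_genus_attained hb hc
    refine ⟨D₀, ?_⟩
    unfold rmn_delta
    unfold rmtl rmtL at hD₀
    omega

end Fermat.Agent.S18x
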