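/-
S18 project, block NRM row N4 wiring (helper86, prefix `sepx_`): INSTANCE-AGNOSTIC separability of
`B / A` for intermediate fields `A, B` of `k((q))`.

`k` perfect of characteristic `p`, `A B : IntermediateField k k((q))`, ANY `[Algebra ↥A ↥B]` whose
`algebraMap` is the identity on underlying series (`hcoe`), `t ∈ A` with `p ∤ ord t`, every element
of `B` algebraic over `k(t)`   ⟹   `Algebra.IsSeparable ↥A ↥B`.

(`A` is NOT assumed to be `k(t)`: tower-top argument on minimal polynomials; built on helper81's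
`SepLaurent`.)  This is the form needed for the residue fields `lyd_gRes ℓ ι hι` of helper29's
`LydGauss` with the algebra instance `lyd_gAlgebra`, where no identification with
`purb_KYb`/`purb_LYb` is available definitionally.
-/
import Mathlib
import Fermat.Agent.S18x.SepLaurent

set_option autoImplicit false
set_option linter.style.haveILetI false

namespace Fermat.Agent.S18x

open Polynomial IntermediateField

section Alg

variable {k Ω : Type*} [Field k] [Field Ω] [Algebra k Ω]

/-- algebraicity over a smaller intermediate field implies algebraicity over a bigger one. -/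
theorem sepx_isAlgebraic_mono {E0 E1 : IntermediateField k Ω} (h : E0 ≤ E1) {y : Ω}
    (hy : IsAlgebraic E0 y) : IsAlgebraic E1 y := by
  letI : Algebra E0 E1 := (IntermediateField.inclusion h).toRingHom.toAlgebra
  haveI : IsScalarTower E0 E1 Ω := IsScalarTower.of_algebraMap_eq fun _ => rfl
  exact hy.extendScalars (IntermediateField.inclusion h).injective

/-- if `j ∈ k(t)` and `y` is algebraic over `k(j)` then `y` is algebraic over `k(t)`. -/
theorem sepx_isAlgebraic_of_mem_adjoin {j t : Ω} (hj : j ∈ k⟮t⟯) {y : Ω}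
    (hy : IsAlgebraic k⟮j⟯ y) : IsAlgebraic k⟮t⟯ y :=
  sepx_isAlgebraic_mono (adjoin_simple_le_iff.2 hj) hy

/-- an element of an intermediate field `E` finite over `k(j)` (inside `Ω`) is algebraic over
`k(t)` as soon as `j ∈ k(t)`. -/
theorem sepx_isAlgebraic_of_relfinrank_ne_zero {j t : Ω} (hj : j ∈ k⟮t⟯)
    (E : IntermediateField k Ω) (hjE : j ∈ E) (hfin : relfinrank k⟮j⟯ E ≠ 0) {y : Ω} (hy : y ∈ E) :
    IsAlgebraic k⟮t⟯ y := by
  refine sepx_isAlgebraic_of_mem_adjoin hj ?_
  have hle : k⟮j⟯ ≤ E := adjoin_simple_le_iff.2 hjE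
  haveI : FiniteDimensional k⟮j⟯ (extendScalars hle) := by
    apply Module.finite_of_finrank_pos
    rw [← relfinrank_eq_finrank_of_le hle]
    exact Nat.pos_of_ne_zero hfin
  have h1 : IsAlgebraic k⟮j⟯ (⟨y, hy⟩ : extendScalars hle) :=
    Algebra.IsAlgebraic.isAlgebraic _
  have h2 := h1.algebraMap (A := Ω)
  exact h2

end Alg

section Sep

variable {k : Type*} [Field k] [PerfectField k]

/-- **Separability inside Laurent series, ambient element form**: `y ∈ k((q))` algebraic over
`k(t)`, `p ∤ ord t` ⟹ `y` separable over `k(t)`. -/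
theorem sepx_isSeparable_elt (p : ℕ) [hp : Fact p.Prime] [CharP k p] (t : LaurentSeries k)
    (ht : ¬ (p : ℤ) ∣ t.order) {y : LaurentSeries k} (hy : IsAlgebraic k⟮t⟯ y) :
    IsSeparable k⟮t⟯ y := by
  haveI hcΩ : CharP (LaurentSeries k) p :=
    charP_of_injective_algebraMap (algebraMap k (LaurentSeries k)).injective p
  exact sepl_isSeparable_of_pbasis (K := k⟮t⟯) (M := LaurentSeries k) p (AdjoinSimple.gen k t)
    (sepl_pbasis_adjoin p t)
    (fun m hm => sepl_indep_laurent p t ht m hm) hy

/-- **Instance-agnostic separability of `B / A`** for intermediate fields of `k((q))`. -/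
theorem sepx_isSeparable (p : ℕ) [hp : Fact p.Prime] [CharP k p]
    (A B : IntermediateField k (LaurentSeries k)) [Algebra ↥A ↥B]
    (hcoe : ∀ x : ↥A, ((algebraMap ↥A ↥B x : ↥B) : LaurentSeries k) = (x : LaurentSeries k))
    (t : LaurentSeries k) (htA : t ∈ A) (ht : ¬ (p : ℤ) ∣ t.order)
    (halg : ∀ y : ↥B, IsAlgebraic k⟮t⟯ (y : LaurentSeries k)) :
    Algebra.IsSeparable ↥A ↥B := by
  have hle : k⟮t⟯ ≤ A := adjoin_simple_le_iff.2 htA
  let φ : k⟮t⟯ →+* ↥A := (IntermediateField.inclusion hle).toRingHom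
  refine ⟨fun y => ?_⟩
  have hsep : IsSeparable k⟮t⟯ (y : LaurentSeries k) := sepx_isSeparable_elt p t ht (halg y)
  set f := minpoly k⟮t⟯ (y : LaurentSeries k) with hf
  have hfsep : f.Separable := hsep
  have hgsep : (f.map φ).Separable := hfsep.map
  have hroot : Polynomial.aeval y (f.map φ) = 0 := by
    apply Subtype.ext
    have h1 : ((Polynomial.aeval y (f.map φ) : ↥B) : LaurentSeries k) =
        Polynomial.eval₂ (algebraMap k⟮t⟯ (LaurentSeries k)) (y : LaurentSeries k) f := by
      rw [Polynomial.aeval_def, Polynomial.eval₂_map]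
      have h2 := Polynomial.hom_eval₂ f ((algebraMap ↥A ↥B).comp φ) B.val.toRingHom y
      have h3 : B.val.toRingHom.comp ((algebraMap ↥A ↥B).comp φ) =
          algebraMap k⟮t⟯ (LaurentSeries k) := by
        refine RingHom.ext fun x => ?_
        show ((algebraMap ↥A ↥B (φ x) : ↥B) : LaurentSeries k) = _
        rw [hcoe]
        rfl
      rw [h3] at h2
      exact h2
    rw [h1, ← Polynomial.aeval_def, hf, minpoly.aeval]
    rfl
  have hdvd : minpoly ↥A y ∣ f.map φ := minpoly.dvd ↥A y hroot
  exact hgsep.of_dvd hdvd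

/-- the same for a coordinate of order `-1` (any characteristic `p`). -/
theorem sepx_isSeparable_of_order_neg_one (p : ℕ) [hp : Fact p.Prime] [CharP k p]
    (A B : IntermediateField k (LaurentSeries k)) [Algebra ↥A ↥B]
    (hcoe : ∀ x : ↥A, ((algebraMap ↥A ↥B x : ↥B) : LaurentSeries k) = (x : LaurentSeries k))
    (t : LaurentSeries k) (htA : t ∈ A) (ht : t.order = -1)
    (halg : ∀ y : ↥B, IsAlgebraic k⟮t⟯ (y : LaurentSeries k)) :
    Algebra.IsSeparable ↥A ↥B := by
  refine sepx_isSeparable p A B hcoe t htA ?_ halg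
  rw [ht]
  intro hdvd
  have h1 : (p : ℤ) ∣ 1 := by simpa using (dvd_neg.mpr hdvd)
  have h2 : p ∣ 1 := by exact_mod_cast h1
  exact hp.out.one_lt.ne' (Nat.dvd_one.mp h2)

end Sep

end Fermat.Agent.S18x
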