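/-
S18x/TameDisc (helper25): TAME DISCRIMINANT in residue characteristic zero, Mathlib-only
(+ S18x/PurxUnitDiscr for reduction of traces modulo an ideal).

`tmd_discr_eq`: `D` a domain, `x : D` prime with `(x)` maximal, no nonzero natural number divisible
by `x` (i.e. `D / x` of characteristic zero), `O` a noetherian integrally closed domain, free over
`D` with basis `b : Basis ι D O`, all residue fields of `O` at the primes containing `x` equal to
`D / x`.  Then
  `Algebra.discr D b = x ^ (card ι - r) * u`,  `¬ x ∣ u`,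
`r = {P : Ideal O | P.IsPrime ∧ algebraMap D O x ∈ P}.ncard`.
(`r = card ι`: unramified, `x ∤ discr`; general case: "tame different" `d_P = e_P - 1`.)
This is the upper-bound half; the lower bound `x ^ (n - r) ∣ discr` is `hz_pow_dvd_discr` (HzCore).

Proof (no different ideal, no completion, no prime factorisation): `J := rad (x O)`.
* `tmd_dvd_trace_of_mem_radical`: `z ∈ J → x ∣ Tr z` (nilpotent mod `x`).
* `tmd_exists_trace_ne_zero`: char 0, finite-dimensional commutative algebra: a non-nilpotent `t`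
  has a multiple `t w` of nonzero trace (idempotent trick).
* `tmd_exists_mul_eq`: `z ∉ x O → ∃ y ∈ J, t ∉ J, z y = x t` (determinant trick + `O` integrally
  closed).
* `tmd_core`: `z ∉ x O → ∃ y ∈ J, ¬ x ^ 2 ∣ Tr (z y)`.
* `tmd_exists_adapted`: a family `b'` lifting a basis of `O / x O` adapted to `J / x O`.
* `tmd_discr_adapted`: Gram matrix of `b'` = `M * diag(x,..,x,1,..,1)`, `M` invertible mod `x`.
* `tmd_finrank_Jb`: `dim J / x O = n - #primes` (Artinian structure theorem).
-/
import Mathlib
import Fermat.Agent.S18x.PurxUnitDiscr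

set_option autoImplicit false

namespace Fermat.Agent.S18x

open Module

section Nilrad

variable {k R : Type*} [Field k] [CharZero k] [CommRing R] [Algebra k R] [Module.Finite k R]

/-- In a finite-dimensional commutative algebra over a field of characteristic zero, a
non-nilpotent element `t` has a multiple `t * w` of nonzero trace. -/
theorem tmd_exists_trace_ne_zero {t : R} (ht : ¬ IsNilpotent t) :
    ∃ w : R, Algebra.trace k R (t * w) ≠ 0 := by
  have : IsArtinianRing R := IsArtinianRing.of_finite k R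
  obtain ⟨n, y, hy⟩ := IsArtinian.exists_pow_succ_smul_dvd t (1 : R)
  simp only [smul_eq_mul, mul_one] at hy
  -- hy : t ^ (n+1) * y = t ^ n
  have hpow : ∀ m : ℕ, t ^ (n + m) * y ^ m = t ^ n := by
    intro m
    induction m with
    | zero => simp
    | succ m ih =>
      calc t ^ (n + (m + 1)) * y ^ (m + 1) = (t ^ (n + 1) * y) * (t ^ m * y ^ m) := by ring
        _ = t ^ n * (t ^ m * y ^ m) := by rw [hy]
        _ = t ^ (n + m) * y ^ m := by ring
        _ = t ^ n := ih
  -- e := t^(n+1) * y^(n+1) is idempotent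
  set e : R := t ^ (n + 1) * y ^ (n + 1) with he
  have he1 : t ^ n * e = t ^ n := by
    calc t ^ n * e = t ^ (n + (n + 1)) * y ^ (n + 1) := by rw [he]; ring
      _ = t ^ n := hpow (n + 1)
  have hidem : e * e = e := by
    calc e * e = (t * y ^ (n + 1)) * (t ^ n * e) := by rw [he]; ring
      _ = (t * y ^ (n + 1)) * t ^ n := by rw [he1]
      _ = e := by rw [he]; ring
  have hne : e ≠ 0 := by
    intro h0
    apply ht
    refine ⟨n, ?_⟩
    rw [← he1, h0, mul_zero]
  refine ⟨t ^ n * y ^ (n + 1), ?_⟩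
  have heq : t * (t ^ n * y ^ (n + 1)) = e := by rw [he]; ring
  rw [heq]
  intro htr
  have hidem' : IsIdempotentElem (LinearMap.mulLeft k e) := by
    show LinearMap.mulLeft k e * LinearMap.mulLeft k e = LinearMap.mulLeft k e
    ext z
    simp [← mul_assoc, hidem]
  have h0 : LinearMap.trace k R (LinearMap.mulLeft k e) = 0 := htr
  have := (LinearMap.IsIdempotentElem.trace_eq_zero_iff hidem').mp h0
  apply hne
  have h1 := congrArg (fun f => f 1) this
  simpa using h1

end Nilrad

section Core

attribute [local instance] Ideal.Quotient.field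

variable {D O : Type*} [CommRing D] [IsDomain D] [CommRing O] [IsDomain O] [Algebra D O]
  {ι : Type*} [Fintype ι] [DecidableEq ι] {x : D}

/-- trace reduces modulo `x`. -/
theorem tmd_trace_quot (b : Module.Basis ι D O) (x : D) (z : O) :
    Algebra.trace (D ⧸ Ideal.span {x}) (O ⧸ (Ideal.span {x}).map (algebraMap D O))
      (Ideal.Quotient.mk _ z) = Ideal.Quotient.mk _ (Algebra.trace D O z) :=
  purx_trace_map (Ideal.Quotient.mk (Ideal.span {x}))
    (Ideal.Quotient.mk ((Ideal.span {x}).map (algebraMap D O))) (fun _ => rfl) b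
    (purx_quotientBasis (Ideal.span {x}) b)
    (fun i => (purx_quotientBasis_apply (Ideal.span {x}) b i).symm) z

/-- Step 1: elements of the radical of `x O` have trace divisible by `x`. -/
theorem tmd_dvd_trace_of_mem_radical (b : Module.Basis ι D O) [(Ideal.span {x}).IsMaximal] {z : O}
    (hz : z ∈ ((Ideal.span {x}).map (algebraMap D O)).radical) : x ∣ Algebra.trace D O z := by
  obtain ⟨m, hm⟩ := hz
  have hnil : IsNilpotent (Ideal.Quotient.mk ((Ideal.span {x}).map (algebraMap D O)) z) := by
    refine ⟨m, ?_⟩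
    rw [← map_pow]
    exact Ideal.Quotient.eq_zero_iff_mem.mpr hm
  have h1 := Algebra.isNilpotent_trace_of_isNilpotent (R := D ⧸ Ideal.span {x}) hnil
  rw [tmd_trace_quot b x z] at h1
  have h2 := h1.eq_zero
  rw [Ideal.Quotient.eq_zero_iff_mem, Ideal.mem_span_singleton] at h2
  exact h2

/-- Step 2: an element outside the radical of `x O` has a multiple whose trace is not divisible
by `x` (residue characteristic zero). -/
theorem tmd_exists_not_dvd_trace (b : Module.Basis ι D O) [(Ideal.span {x}).IsMaximal]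
    [CharZero (D ⧸ Ideal.span {x})] {t : O}
    (ht : t ∉ ((Ideal.span {x}).map (algebraMap D O)).radical) :
    ∃ w : O, ¬ x ∣ Algebra.trace D O (t * w) := by
  have hfin : Module.Finite (D ⧸ Ideal.span {x}) (O ⧸ (Ideal.span {x}).map (algebraMap D O)) :=
    Module.Finite.of_basis (purx_quotientBasis (Ideal.span {x}) b)
  have hnn : ¬ IsNilpotent (Ideal.Quotient.mk ((Ideal.span {x}).map (algebraMap D O)) t) := by
    rintro ⟨m, hm⟩
    apply ht
    refine ⟨m, ?_⟩
    rw [← map_pow] at hm
    exact Ideal.Quotient.eq_zero_iff_mem.mp hm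
  obtain ⟨wb, hwb⟩ := tmd_exists_trace_ne_zero (k := D ⧸ Ideal.span {x}) hnn
  obtain ⟨w, rfl⟩ := Ideal.Quotient.mk_surjective wb
  refine ⟨w, fun hdvd => hwb ?_⟩
  rw [← map_mul, tmd_trace_quot b x (t * w), Ideal.Quotient.eq_zero_iff_mem,
    Ideal.mem_span_singleton]
  exact hdvd

/-- Step 3: for `z ∉ X O` there is `y` in the radical `J` of `X O` with `z y = X t`, `t ∉ J`. -/
theorem tmd_exists_mul_eq [IsNoetherianRing O] [IsIntegrallyClosed O] {X : O} (hX0 : X ≠ 0)
    {z : O} (hz : z ∉ Ideal.span {X}) :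
    ∃ y ∈ (Ideal.span {X}).radical, ∃ t : O, t ∉ (Ideal.span {X}).radical ∧ z * y = X * t := by
  set J := (Ideal.span {X}).radical with hJ
  have hXJ : X ∈ J := Ideal.le_radical (Ideal.mem_span_singleton_self X)
  have hJfg : J.FG := IsNoetherian.noetherian J
  obtain ⟨E, hE⟩ := Ideal.exists_radical_pow_le_of_fg (Ideal.span {X}) hJfg
  have hex : ∃ m : ℕ, ∀ y ∈ J ^ m, z * y ∈ Ideal.span {X} :=
    ⟨E, fun y hy => Ideal.mul_mem_left _ z (hE hy)⟩
  classical
  have hm0 : Nat.find hex ≠ 0 := by
    intro h0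
    have := Nat.find_spec hex
    rw [h0, pow_zero, Ideal.one_eq_top] at this
    apply hz
    have h1 := this 1 Submodule.mem_top
    rwa [mul_one] at h1
  obtain ⟨m, hm⟩ := Nat.exists_eq_succ_of_ne_zero hm0
  have hnot : ¬ ∀ y ∈ J ^ m, z * y ∈ Ideal.span {X} :=
    Nat.find_min hex (by rw [hm]; exact Nat.lt_succ_self m)
  push Not at hnot
  obtain ⟨y₀, hy₀, hu⟩ := hnot
  have hsucc : ∀ y ∈ J ^ (m + 1), z * y ∈ Ideal.span {X} := by
    have := Nat.find_spec hex
    rwa [hm] at this
  have huJ : ∀ y₁ ∈ J, z * y₀ * y₁ ∈ Ideal.span {X} := by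
    intro y₁ hy₁
    rw [mul_assoc]
    apply hsucc
    rw [pow_succ]
    exact Ideal.mul_mem_mul hy₀ hy₁
  by_contra hcon
  push Not at hcon
  apply hu
  -- integrality argument
  let K := FractionRing O
  have hXK : algebraMap O K X ≠ 0 := by
    rw [Ne, IsFractionRing.to_map_eq_zero_iff]; exact hX0
  set ξ : K := algebraMap O K (z * y₀) / algebraMap O K X with hξ
  let N : Submodule O K := Submodule.map (Algebra.linearMap O K) J
  have hN0 : N ≠ ⊥ := by
    intro h
    have hmem : algebraMap O K X ∈ N := ⟨X, hXJ, rfl⟩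
    rw [h, Submodule.mem_bot] at hmem
    exact hXK hmem
  have hNfg : N.FG := Submodule.FG.map _ hJfg
  have hstab : ∀ n ∈ N, ξ • n ∈ N := by
    rintro _ ⟨y₁, hy₁, rfl⟩
    obtain ⟨t, ht⟩ := Ideal.mem_span_singleton.mp (huJ y₁ hy₁)
    have htJ : t ∈ J := by
      by_contra htJ
      have hyJ : y₀ * y₁ ∈ J := Ideal.mul_mem_left _ _ hy₁
      exact absurd (hcon (y₀ * y₁) hyJ t htJ) (by rw [← mul_assoc, ht]; simp)
    refine ⟨t, htJ, ?_⟩
    show algebraMap O K t = ξ * algebraMap O K y₁
    rw [hξ, div_mul_eq_mul_div, ← map_mul, ht, map_mul, mul_div_cancel_left₀ _ hXK]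
  have hint : IsIntegral O ξ := isIntegral_of_smul_mem_submodule N hN0 hNfg ξ hstab
  obtain ⟨t₀, ht₀⟩ := IsIntegrallyClosed.algebraMap_eq_of_integral hint
  rw [Ideal.mem_span_singleton]
  refine ⟨t₀, ?_⟩
  apply IsFractionRing.injective O K
  rw [map_mul (algebraMap O K) X t₀, ht₀, hξ, mul_div_cancel₀ _ hXK]

theorem tmd_map_span (x : D) :
    (Ideal.span {x}).map (algebraMap D O) = Ideal.span {algebraMap D O x} := by
  rw [Ideal.map_span, Set.image_singleton]

/-- Step 4: for `z ∉ x O` there is `y` in the radical of `x O` with `x ^ 2 ∤ Tr (z y)`. -/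
theorem tmd_core (b : Module.Basis ι D O) (hx : Prime x) [(Ideal.span {x}).IsMaximal]
    [CharZero (D ⧸ Ideal.span {x})] [IsNoetherianRing O] [IsIntegrallyClosed O] {z : O}
    (hz : z ∉ (Ideal.span {x}).map (algebraMap D O)) :
    ∃ y ∈ ((Ideal.span {x}).map (algebraMap D O)).radical,
      ¬ x ^ 2 ∣ Algebra.trace D O (z * y) := by
  have hinj : Function.Injective (algebraMap D O) := b.algebraMap_injective
  have hX0 : algebraMap D O x ≠ 0 := by
    rw [Ne, map_eq_zero_iff _ hinj]; exact hx.ne_zero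
  rw [tmd_map_span] at hz ⊢
  obtain ⟨y, hy, t, ht, hzy⟩ := tmd_exists_mul_eq hX0 hz
  rw [← tmd_map_span] at ht
  obtain ⟨w, hw⟩ := tmd_exists_not_dvd_trace b ht
  refine ⟨y * w, Ideal.mul_mem_right _ _ hy, fun hdvd => hw ?_⟩
  have h1 : z * (y * w) = x • (t * w) := by
    rw [← mul_assoc, hzy, Algebra.smul_def, mul_assoc]
  rw [h1, map_smul, smul_eq_mul, pow_two] at hdvd
  exact (mul_dvd_mul_iff_left hx.ne_zero).mp hdvd

end Core

section Adapted

attribute [local instance] Ideal.Quotient.field

variable {D O : Type*} [CommRing D] [CommRing O] [Algebra D O]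
  {ι : Type*} [Fintype ι] [DecidableEq ι]

/-- the image of the radical of `x O` in `O / x O`, as a subspace over `D / x`. -/
noncomputable def tmd_Jb (x : D) (O : Type*) [CommRing O] [Algebra D O] :
    Submodule (D ⧸ Ideal.span {x}) (O ⧸ (Ideal.span {x}).map (algebraMap D O)) :=
  (((Ideal.span {x}).map (algebraMap D O)).radical.map
    (Ideal.Quotient.mk ((Ideal.span {x}).map (algebraMap D O)))).restrictScalars _

theorem tmd_mem_Jb {x : D} {yb : O ⧸ (Ideal.span {x}).map (algebraMap D O)} :
    yb ∈ tmd_Jb x O ↔ ∃ y ∈ ((Ideal.span {x}).map (algebraMap D O)).radical,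
      Ideal.Quotient.mk _ y = yb := by
  unfold tmd_Jb
  rw [Submodule.restrictScalars_mem]
  exact Ideal.mem_map_iff_of_surjective _ Ideal.Quotient.mk_surjective

/-- Step 5: an adapted family. -/
theorem tmd_exists_adapted (b : Module.Basis ι D O) {x : D} [(Ideal.span {x}).IsMaximal] :
    ∃ (r : ℕ) (b' : Fin (finrank (D ⧸ Ideal.span {x}) (tmd_Jb x O)) ⊕ Fin r → O)
      (β : Module.Basis (Fin (finrank (D ⧸ Ideal.span {x}) (tmd_Jb x O)) ⊕ Fin r)
        (D ⧸ Ideal.span {x}) (O ⧸ (Ideal.span {x}).map (algebraMap D O))),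
      (∀ i, β i = Ideal.Quotient.mk _ (b' i)) ∧
      (∀ a, b' (Sum.inl a) ∈ ((Ideal.span {x}).map (algebraMap D O)).radical) ∧
      (∀ y ∈ ((Ideal.span {x}).map (algebraMap D O)).radical,
        ∃ (μ : Fin (finrank (D ⧸ Ideal.span {x}) (tmd_Jb x O)) → D) (w : O),
          y = ∑ a, μ a • b' (Sum.inl a) + x • w) := by
  set k := D ⧸ Ideal.span {x} with hk
  set I := (Ideal.span {x}).map (algebraMap D O) with hI
  have hfin : Module.Finite k (O ⧸ I) := Module.Finite.of_basis (purx_quotientBasis _ b)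
  set s := finrank k (tmd_Jb x O) with hs
  let bJ : Module.Basis (Fin s) k (tmd_Jb x O) := Module.finBasis k (tmd_Jb x O)
  obtain ⟨C, hC⟩ := Submodule.exists_isCompl (tmd_Jb x O)
  let bC : Module.Basis (Fin (finrank k C)) k C := Module.finBasis k C
  let β : Module.Basis (Fin s ⊕ Fin (finrank k C)) k (O ⧸ I) :=
    (bJ.prod bC).map (Submodule.prodEquivOfIsCompl (tmd_Jb x O) C hC)
  have hβl : ∀ a, β (Sum.inl a) = (bJ a : O ⧸ I) := by
    intro a
    simp [β, Submodule.coe_prodEquivOfIsCompl', Module.Basis.prod_apply]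
  have hβr : ∀ c, β (Sum.inr c) = (bC c : O ⧸ I) := by
    intro c
    simp [β, Submodule.coe_prodEquivOfIsCompl', Module.Basis.prod_apply]
  have hJlift : ∀ a, ∃ y ∈ I.radical, Ideal.Quotient.mk I y = (bJ a : O ⧸ I) :=
    fun a => tmd_mem_Jb.mp (bJ a).2
  choose lJ hlJ hlJ' using hJlift
  have hClift : ∀ c, ∃ y : O, Ideal.Quotient.mk I y = (bC c : O ⧸ I) :=
    fun c => Ideal.Quotient.mk_surjective _
  choose lC hlC using hClift
  refine ⟨finrank k C, Sum.elim lJ lC, β, ?_, ?_, ?_⟩
  · rintro (a | c)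
    · rw [hβl, Sum.elim_inl, hlJ']
    · rw [hβr, Sum.elim_inr, hlC]
  · intro a
    rw [Sum.elim_inl]; exact hlJ a
  · intro y hy
    have hyb : Ideal.Quotient.mk I y ∈ tmd_Jb x O := tmd_mem_Jb.mpr ⟨y, hy, rfl⟩
    set v : tmd_Jb x O := ⟨Ideal.Quotient.mk I y, hyb⟩ with hv
    have hμ : ∀ a, ∃ m : D, Ideal.Quotient.mk (Ideal.span {x}) m = bJ.repr v a :=
      fun a => Ideal.Quotient.mk_surjective _
    choose μ hμ' using hμ
    have hzero : Ideal.Quotient.mk I (y - ∑ a, μ a • lJ a) = 0 := by
      rw [map_sub, map_sum]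
      have h1 : ∀ a, Ideal.Quotient.mk I (μ a • lJ a) = bJ.repr v a • (bJ a : O ⧸ I) := by
        intro a
        rw [← hμ' a, ← hlJ' a, Algebra.smul_def,
          Ideal.Quotient.mk_smul_mk_quotient_map_quotient]
      simp_rw [h1]
      have h2 : (∑ a, bJ.repr v a • (bJ a : O ⧸ I)) = ((∑ a, bJ.repr v a • bJ a : tmd_Jb x O) : O ⧸ I) := by
        rw [Submodule.coe_sum]
        rfl
      rw [h2, bJ.sum_repr v, hv, sub_self]
    rw [Ideal.Quotient.eq_zero_iff_mem, hI, Ideal.map_span, Set.image_singleton,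
      Ideal.mem_span_singleton] at hzero
    obtain ⟨w, hw⟩ := hzero
    refine ⟨μ, w, ?_⟩
    simp only [Sum.elim_inl]
    rw [Algebra.smul_def x w, ← hw]
    ring

end Adapted

section Main

attribute [local instance] Ideal.Quotient.field

theorem tmd_mk_smul {D O : Type*} [CommRing D] [CommRing O] [Algebra D O] (x m : D) (y : O) :
    Ideal.Quotient.mk ((Ideal.span {x}).map (algebraMap D O)) (m • y) =
      Ideal.Quotient.mk (Ideal.span {x}) m •
        Ideal.Quotient.mk ((Ideal.span {x}).map (algebraMap D O)) y := by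
  rw [Algebra.smul_def]
  exact (Ideal.Quotient.mk_smul_mk_quotient_map_quotient m y).symm

variable {D O : Type*} [CommRing D] [IsDomain D] [CommRing O] [IsDomain O] [Algebra D O]
  {x : D}

/-- Step 6 (matrix argument) for a basis indexed by `Fin s ⊕ Fin r` together with an adapted
family. -/
theorem tmd_discr_adapted {s r : ℕ} (b₁ : Module.Basis (Fin s ⊕ Fin r) D O) (hx : Prime x)
    [(Ideal.span {x}).IsMaximal] [CharZero (D ⧸ Ideal.span {x})] [IsNoetherianRing O]
    [IsIntegrallyClosed O]
    (b' : Fin s ⊕ Fin r → O)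
    (β : Module.Basis (Fin s ⊕ Fin r) (D ⧸ Ideal.span {x})
      (O ⧸ (Ideal.span {x}).map (algebraMap D O)))
    (hβ : ∀ i, β i = Ideal.Quotient.mk _ (b' i))
    (hJ : ∀ a, b' (Sum.inl a) ∈ ((Ideal.span {x}).map (algebraMap D O)).radical)
    (hspan : ∀ y ∈ ((Ideal.span {x}).map (algebraMap D O)).radical,
        ∃ (μ : Fin s → D) (w : O), y = ∑ a, μ a • b' (Sum.inl a) + x • w) :
    ∃ u : D, ¬ x ∣ u ∧ Algebra.discr D b₁ = x ^ s * u := by
  classical
  set I := (Ideal.span {x}).map (algebraMap D O) with hI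
  set mkD := Ideal.Quotient.mk (Ideal.span {x}) with hmkD
  set mkO := Ideal.Quotient.mk I with hmkO
  have hx0 : x ≠ 0 := hx.ne_zero
  have hdvd_iff : ∀ d : D, mkD d = 0 ↔ x ∣ d := fun d => by
    rw [hmkD, Ideal.Quotient.eq_zero_iff_mem, Ideal.mem_span_singleton]
  -- the transition matrix
  let P : Matrix (Fin s ⊕ Fin r) (Fin s ⊕ Fin r) D := fun i j => b₁.repr (b' j) i
  have hb' : b' = Matrix.vecMul (⇑b₁) (P.map (algebraMap D O)) := by
    funext j
    rw [Matrix.vecMul, dotProduct]
    conv_lhs => rw [← b₁.sum_repr (b' j)]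
    refine Finset.sum_congr rfl fun i _ => ?_
    rw [Matrix.map_apply, Algebra.smul_def, mul_comm]
  have hdiscr' : Algebra.discr D b' = P.det ^ 2 * Algebra.discr D b₁ := by
    rw [hb']; exact Algebra.discr_of_matrix_vecMul _ _
  -- `P` is invertible modulo `x`
  have hPdet : ¬ x ∣ P.det := by
    intro hdvd
    let bq := purx_quotientBasis (Ideal.span {x}) b₁
    have hPb : P.map mkD = bq.toMatrix β := by
      ext i j
      rw [Matrix.map_apply, Module.Basis.toMatrix_apply, hβ j]
      exact (purx_repr_map mkD mkO (fun _ => rfl) b₁ bq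
        (fun i => (purx_quotientBasis_apply _ b₁ i).symm) (b' j) i).symm
    have h1 : (P.map mkD).det * (β.toMatrix bq).det = 1 := by
      rw [← Matrix.det_mul, hPb, Module.Basis.toMatrix_mul_toMatrix_flip, Matrix.det_one]
    have h2 : (P.map mkD).det = 0 := by
      rw [← RingHom.mapMatrix_apply, ← RingHom.map_det, hdvd_iff]; exact hdvd
    rw [h2, zero_mul] at h1
    exact zero_ne_one h1
  -- the Gram matrix of `b'`
  set G := Algebra.traceMatrix D b' with hG
  have hGapp : ∀ i j, G i j = Algebra.trace D O (b' i * b' j) := fun i j => by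
    rw [hG, Algebra.traceMatrix_apply, Algebra.traceForm_apply]
  have hdiv : ∀ i (a : Fin s), x ∣ G i (Sum.inl a) := by
    intro i a
    rw [hGapp]
    exact tmd_dvd_trace_of_mem_radical b₁ (Ideal.mul_mem_left _ _ (hJ a))
  choose q hq using hdiv
  let M : Matrix (Fin s ⊕ Fin r) (Fin s ⊕ Fin r) D :=
    fun i j => Sum.elim (fun a => q i a) (fun c => G i (Sum.inr c)) j
  let d : Fin s ⊕ Fin r → D := Sum.elim (fun _ => x) (fun _ => 1)
  have hGM : G = M * Matrix.diagonal d := by
    ext i j
    rw [Matrix.mul_diagonal]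
    rcases j with a | c
    · simp only [M, d, Sum.elim_inl]; rw [hq i a, mul_comm]
    · simp only [M, d, Sum.elim_inr]; rw [mul_one]
  have hdetG : G.det = M.det * x ^ s := by
    rw [hGM, Matrix.det_mul, Matrix.det_diagonal, Fintype.prod_sum_type]
    simp [d]
  -- key claim
  have hMdet : ¬ x ∣ M.det := by
    intro hdvd
    have h0 : (M.map mkD).det = 0 := by
      rw [← RingHom.mapMatrix_apply, ← RingHom.map_det, hdvd_iff]; exact hdvd
    obtain ⟨vb, hvb0, hvb⟩ := Matrix.exists_vecMul_eq_zero_iff.mpr h0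
    have hlift : ∀ i, ∃ m : D, mkD m = vb i := fun i => Ideal.Quotient.mk_surjective _
    choose v hv using hlift
    set z : O := ∑ i, v i • b' i with hz
    -- (a) z ∉ I
    have hzI : z ∉ I := by
      intro hmem
      have h1 : mkO z = 0 := Ideal.Quotient.eq_zero_iff_mem.mpr hmem
      have h2 : mkO z = ∑ i, vb i • β i := by
        rw [hz, map_sum]
        refine Finset.sum_congr rfl fun i _ => ?_
        rw [hβ i, ← hv i]
        exact tmd_mk_smul x (v i) (b' i)
      rw [h2] at h1
      have h3 := Fintype.linearIndependent_iff.mp β.linearIndependent vb h1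
      exact hvb0 (funext h3)
    -- (b)
    have hcol : ∀ j, x ∣ ∑ i, v i * M i j := by
      intro j
      rw [← hdvd_iff, map_sum]
      have := congrFun hvb j
      rw [Matrix.vecMul, dotProduct] at this
      simp only [Pi.zero_apply] at this
      rw [← this]
      refine Finset.sum_congr rfl fun i _ => ?_
      rw [map_mul, hv i, Matrix.map_apply]
    -- (c)
    have htr : ∀ j, Algebra.trace D O (z * b' j) = ∑ i, v i * G i j := by
      intro j
      rw [hz, Finset.sum_mul, map_sum]
      refine Finset.sum_congr rfl fun i _ => ?_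
      rw [smul_mul_assoc, map_smul, smul_eq_mul, hGapp]
    have htrl : ∀ a, x ^ 2 ∣ Algebra.trace D O (z * b' (Sum.inl a)) := by
      intro a
      rw [htr]
      obtain ⟨c, hc⟩ := hcol (Sum.inl a)
      have : ∑ i, v i * G i (Sum.inl a) = x * ∑ i, v i * M i (Sum.inl a) := by
        rw [Finset.mul_sum]
        refine Finset.sum_congr rfl fun i _ => ?_
        simp only [M, Sum.elim_inl]
        rw [hq i a]; ring
      rw [this, hc]
      exact ⟨c, by ring⟩
    have htrr : ∀ c, x ∣ Algebra.trace D O (z * b' (Sum.inr c)) := by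
      intro c
      rw [htr]
      have : ∑ i, v i * G i (Sum.inr c) = ∑ i, v i * M i (Sum.inr c) := by
        refine Finset.sum_congr rfl fun i _ => ?_
        simp only [M, Sum.elim_inr]
      rw [this]
      exact hcol (Sum.inr c)
    have htrall : ∀ j, x ∣ Algebra.trace D O (z * b' j) := by
      rintro (a | c)
      · exact dvd_trans (Dvd.intro _ (pow_two x).symm) (htrl a)
      · exact htrr c
    -- (d)
    have hall : ∀ w : O, x ∣ Algebra.trace D O (z * w) := by
      intro w
      have hc : ∀ j, ∃ m : D, mkD m = β.repr (mkO w) j := fun j => Ideal.Quotient.mk_surjective _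
      choose c hc' using hc
      have hzero : mkO (w - ∑ j, c j • b' j) = 0 := by
        rw [map_sub, map_sum]
        have h1 : ∀ j, mkO (c j • b' j) = β.repr (mkO w) j • β j := by
          intro j
          rw [hβ j, ← hc' j]
          exact tmd_mk_smul x (c j) (b' j)
        simp_rw [h1]
        rw [β.sum_repr, sub_self]
      rw [hmkO, Ideal.Quotient.eq_zero_iff_mem, hI, Ideal.map_span, Set.image_singleton,
        Ideal.mem_span_singleton] at hzero
      obtain ⟨w', hw'⟩ := hzero
      have hw : w = ∑ j, c j • b' j + x • w' := by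
        rw [Algebra.smul_def x w', ← hw']; ring
      rw [hw, mul_add, map_add, Finset.mul_sum, map_sum]
      refine dvd_add (Finset.dvd_sum fun j _ => ?_) ?_
      · rw [mul_smul_comm, map_smul, smul_eq_mul]
        exact Dvd.dvd.mul_left (htrall j) _
      · rw [mul_smul_comm, map_smul, smul_eq_mul]
        exact Dvd.intro _ rfl
    -- (e)
    obtain ⟨y, hyJ, hy⟩ := tmd_core b₁ hx hzI
    apply hy
    obtain ⟨μ, w, hyw⟩ := hspan y hyJ
    rw [hyw, mul_add, map_add, Finset.mul_sum, map_sum]
    refine dvd_add (Finset.dvd_sum fun a _ => ?_) ?_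
    · rw [mul_smul_comm, map_smul, smul_eq_mul]
      exact Dvd.dvd.mul_left (htrl a) _
    · rw [mul_smul_comm, map_smul, smul_eq_mul, pow_two]
      exact mul_dvd_mul_left x (hall w)
  -- conclusion
  have heq : P.det ^ 2 * Algebra.discr D b₁ = M.det * x ^ s := by
    rw [← hdiscr', Algebra.discr_def, ← hG, hdetG]
  have hPsq : ¬ x ∣ P.det ^ 2 := fun h => hPdet (hx.dvd_of_dvd_pow h)
  have hdvd : x ^ s ∣ Algebra.discr D b₁ :=
    hx.pow_dvd_of_dvd_mul_left s hPsq (by rw [heq]; exact Dvd.intro_left _ rfl)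
  obtain ⟨u, hu⟩ := hdvd
  refine ⟨u, ?_, hu⟩
  intro hxu
  apply hMdet
  have h1 : x ^ s * (P.det ^ 2 * u) = x ^ s * M.det := by
    rw [hu] at heq
    rw [mul_comm (x ^ s) M.det, ← heq]; ring
  have h2 := mul_left_cancel₀ (pow_ne_zero s hx0) h1
  rw [← h2]
  exact Dvd.dvd.mul_left hxu _

/-- **Tame discriminant, intrinsic exponent**: the discriminant of a basis is
`x ^ dim (rad (x O) / x O)` times an element not divisible by `x`. -/
theorem tmd_discr_eq_finrank {ι : Type*} [Fintype ι] [DecidableEq ι] (b : Module.Basis ι D O)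
    (hx : Prime x) [(Ideal.span {x}).IsMaximal] [CharZero (D ⧸ Ideal.span {x})]
    [IsNoetherianRing O] [IsIntegrallyClosed O] :
    ∃ u : D, ¬ x ∣ u ∧
      Algebra.discr D b = x ^ (finrank (D ⧸ Ideal.span {x}) (tmd_Jb x O)) * u := by
  obtain ⟨r, b', β, hβ, hJ, hspan⟩ := tmd_exists_adapted b (x := x)
  have hcard : Fintype.card ι =
      Fintype.card (Fin (finrank (D ⧸ Ideal.span {x}) (tmd_Jb x O)) ⊕ Fin r) := by
    rw [← Module.finrank_eq_card_basis (purx_quotientBasis (Ideal.span {x}) b),
      Module.finrank_eq_card_basis β]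
  let e := Fintype.equivOfCardEq hcard
  obtain ⟨u, hu, hdisc⟩ := tmd_discr_adapted (b.reindex e) hx b' β hβ hJ hspan
  refine ⟨u, hu, ?_⟩
  rw [← hdisc, Module.Basis.coe_reindex]
  exact (Algebra.discr_reindex D b e).symm

end Main

section Count

attribute [local instance] Ideal.Quotient.field

variable {D O : Type*} [CommRing D] [CommRing O] [Algebra D O]
  {ι : Type*} [Fintype ι] [DecidableEq ι]

theorem tmd_Jb_eq (x : D) :
    tmd_Jb x O = (nilradical (O ⧸ (Ideal.span {x}).map (algebraMap D O))).restrictScalars _ := by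
  unfold tmd_Jb
  congr 1
  rw [Ideal.map_radical_of_surjective Ideal.Quotient.mk_surjective
    (by rw [Ideal.mk_ker]), Ideal.map_quotient_self]
  rfl

/-- Step 7a: the number of primes of `O` containing `x` equals the number of maximal ideals of
`O / x O`. -/
theorem tmd_ncard_primes (x : D) [IsArtinianRing (O ⧸ (Ideal.span {x}).map (algebraMap D O))] :
    {P : Ideal O | P.IsPrime ∧ algebraMap D O x ∈ P}.ncard =
      Nat.card (MaximalSpectrum (O ⧸ (Ideal.span {x}).map (algebraMap D O))) := by
  set I := (Ideal.span {x}).map (algebraMap D O) with hI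
  have hIX : I = Ideal.span {algebraMap D O x} := by
    rw [hI, Ideal.map_span, Set.image_singleton]
  let f : MaximalSpectrum (O ⧸ I) → Ideal O := fun m => m.asIdeal.comap (Ideal.Quotient.mk I)
  have hf : Function.Injective f := by
    intro m m' h
    have := Ideal.comap_injective_of_surjective (Ideal.Quotient.mk I)
      Ideal.Quotient.mk_surjective h
    exact MaximalSpectrum.ext this
  have hrange : {P : Ideal O | P.IsPrime ∧ algebraMap D O x ∈ P} = f '' Set.univ := by
    ext P
    simp only [Set.mem_ofPred_eq, Set.image_univ, Set.mem_range]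
    constructor
    · rintro ⟨hP, hxP⟩
      have hIP : I ≤ P := by
        rw [hIX, Ideal.span_singleton_le_iff_mem]; exact hxP
      have hker : RingHom.ker (Ideal.Quotient.mk I) ≤ P := by rwa [Ideal.mk_ker]
      have hprime : (P.map (Ideal.Quotient.mk I)).IsPrime :=
        Ideal.map_isPrime_of_surjective Ideal.Quotient.mk_surjective hker
      have hmax : (P.map (Ideal.Quotient.mk I)).IsMaximal :=
        IsArtinianRing.isMaximal_of_isPrime _
      refine ⟨⟨P.map (Ideal.Quotient.mk I), hmax⟩, ?_⟩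
      show (P.map (Ideal.Quotient.mk I)).comap (Ideal.Quotient.mk I) = P
      rw [Ideal.comap_map_of_surjective _ Ideal.Quotient.mk_surjective, ← RingHom.ker_eq_comap_bot,
        Ideal.mk_ker, sup_eq_left]
      exact hIP
    · rintro ⟨m, rfl⟩
      refine ⟨Ideal.IsPrime.comap _, ?_⟩
      show Ideal.Quotient.mk I (algebraMap D O x) ∈ m.asIdeal
      have : Ideal.Quotient.mk I (algebraMap D O x) = 0 := by
        rw [Ideal.Quotient.eq_zero_iff_mem, hIX]
        exact Ideal.mem_span_singleton_self _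
      rw [this]; exact Ideal.zero_mem _
  rw [hrange, Set.ncard_image_of_injective _ hf, Set.ncard_univ]

/-- Step 7b: if all residue fields of `O` at primes containing `x` are `D / x`, then
`dim (O / x O) / nil = #MaxSpec (O / x O)`. -/
theorem tmd_finrank_quot_nilradical (x : D) [(Ideal.span {x}).IsMaximal]
    [Module.Finite (D ⧸ Ideal.span {x}) (O ⧸ (Ideal.span {x}).map (algebraMap D O))]
    (hres : ∀ P : Ideal O, P.IsPrime → algebraMap D O x ∈ P →
      ∀ z : O, ∃ a : D, z - algebraMap D O a ∈ P) :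
    finrank (D ⧸ Ideal.span {x}) ((O ⧸ (Ideal.span {x}).map (algebraMap D O)) ⧸
      nilradical (O ⧸ (Ideal.span {x}).map (algebraMap D O))) =
      Nat.card (MaximalSpectrum (O ⧸ (Ideal.span {x}).map (algebraMap D O))) := by
  set k := D ⧸ Ideal.span {x} with hk
  set I := (Ideal.span {x}).map (algebraMap D O) with hI
  have hIX : I = Ideal.span {algebraMap D O x} := by
    rw [hI, Ideal.map_span, Set.image_singleton]
  have hart : IsArtinianRing (O ⧸ I) := IsArtinianRing.of_finite k (O ⧸ I)
  have hfinMS : Finite (MaximalSpectrum (O ⧸ I)) := inferInstance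
  let _ := Fintype.ofFinite (MaximalSpectrum (O ⧸ I))
  have e := (IsArtinianRing.quotNilradicalEquivPi (O ⧸ I)).restrictScalars k
  rw [e.toLinearEquiv.finrank_eq]
  have hone : ∀ m : MaximalSpectrum (O ⧸ I), finrank k ((O ⧸ I) ⧸ m.asIdeal) = 1 := by
    intro m
    have hm : m.asIdeal.IsMaximal := m.isMaximal
    let _ : Field ((O ⧸ I) ⧸ m.asIdeal) := Ideal.Quotient.field _
    have hinj : Function.Injective (algebraMap k ((O ⧸ I) ⧸ m.asIdeal)) :=
      (algebraMap k ((O ⧸ I) ⧸ m.asIdeal)).injective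
    have hsurj : Function.Surjective (algebraMap k ((O ⧸ I) ⧸ m.asIdeal)) := by
      intro y
      obtain ⟨yb, rfl⟩ := Ideal.Quotient.mk_surjective y
      obtain ⟨z, rfl⟩ := Ideal.Quotient.mk_surjective yb
      have hP : (m.asIdeal.comap (Ideal.Quotient.mk I)).IsPrime := Ideal.IsPrime.comap _
      have hxP : algebraMap D O x ∈ m.asIdeal.comap (Ideal.Quotient.mk I) := by
        show Ideal.Quotient.mk I (algebraMap D O x) ∈ m.asIdeal
        have : Ideal.Quotient.mk I (algebraMap D O x) = 0 := by
          rw [Ideal.Quotient.eq_zero_iff_mem, hIX]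
          exact Ideal.mem_span_singleton_self _
        rw [this]; exact Ideal.zero_mem _
      obtain ⟨a, ha⟩ := hres _ hP hxP z
      refine ⟨Ideal.Quotient.mk _ a, ?_⟩
      have h1 : Ideal.Quotient.mk I (z - algebraMap D O a) ∈ m.asIdeal := ha
      rw [map_sub] at h1
      have h2 := (Ideal.Quotient.eq (I := m.asIdeal)).mpr h1
      rw [h2]
      rfl
    have hbij : Function.Bijective (Algebra.linearMap k ((O ⧸ I) ⧸ m.asIdeal)) := ⟨hinj, hsurj⟩
    rw [← (LinearEquiv.ofBijective _ hbij).finrank_eq, Module.finrank_self]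
  rw [Module.finrank_pi_fintype k]
  simp_rw [hone]
  rw [Finset.sum_const, Finset.card_univ, smul_eq_mul, mul_one, Nat.card_eq_fintype_card]

end Count

section Final

attribute [local instance] Ideal.Quotient.field

variable {D O : Type*} [CommRing D] [IsDomain D] [CommRing O] [IsDomain O] [Algebra D O]
  {x : D} {ι : Type*} [Fintype ι] [DecidableEq ι]

/-- Step 7: `dim rad (x O) / x O = n - #primes over x` when all residue fields at the primes
over `x` are `D / x`. -/
theorem tmd_finrank_Jb (b : Module.Basis ι D O) [(Ideal.span {x}).IsMaximal]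
    (hres : ∀ P : Ideal O, P.IsPrime → algebraMap D O x ∈ P →
      ∀ z : O, ∃ a : D, z - algebraMap D O a ∈ P) :
    finrank (D ⧸ Ideal.span {x}) (tmd_Jb x O) =
      Fintype.card ι - {P : Ideal O | P.IsPrime ∧ algebraMap D O x ∈ P}.ncard := by
  set k := D ⧸ Ideal.span {x} with hk
  set I := (Ideal.span {x}).map (algebraMap D O) with hI
  have hfin : Module.Finite k (O ⧸ I) := Module.Finite.of_basis (purx_quotientBasis _ b)
  have hart : IsArtinianRing (O ⧸ I) := IsArtinianRing.of_finite k (O ⧸ I)
  have h1 := Submodule.finrank_quotient_add_finrank (tmd_Jb x O)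
  rw [Module.finrank_eq_card_basis (purx_quotientBasis (Ideal.span {x}) b)] at h1
  have h2 : finrank k ((O ⧸ I) ⧸ tmd_Jb x O) =
      {P : Ideal O | P.IsPrime ∧ algebraMap D O x ∈ P}.ncard := by
    rw [tmd_ncard_primes x, ← tmd_finrank_quot_nilradical x hres, tmd_Jb_eq x]
    exact (Submodule.Quotient.restrictScalarsEquiv k (nilradical (O ⧸ I))).finrank_eq
  rw [h2] at h1
  rw [← h1, Nat.add_sub_cancel_left]

/-- **TAME DISCRIMINANT** (residue characteristic zero): `D` a domain, `x` a prime element with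
`(x)` maximal and `D / x` of characteristic zero, `O` a noetherian integrally closed domain which
is a free `D`-module with basis `b`, all residue fields of `O` at primes containing `x` equal to
`D / x`.  Then `discr b = x ^ (n - r) * u` with `x ∤ u`, where `r` is the number of primes of `O`
containing `x`. -/
theorem tmd_discr_eq (b : Module.Basis ι D O) (hx : Prime x) [(Ideal.span {x}).IsMaximal]
    (hchar : ∀ n : ℕ, n ≠ 0 → ¬ x ∣ (n : D)) [IsNoetherianRing O] [IsIntegrallyClosed O]
    (hres : ∀ P : Ideal O, P.IsPrime → algebraMap D O x ∈ P →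
      ∀ z : O, ∃ a : D, z - algebraMap D O a ∈ P) :
    ∃ u : D, ¬ x ∣ u ∧ Algebra.discr D b =
      x ^ (Fintype.card ι - {P : Ideal O | P.IsPrime ∧ algebraMap D O x ∈ P}.ncard) * u := by
  have hc0 : CharZero (D ⧸ Ideal.span {x}) := by
    refine charZero_of_inj_zero fun n hn => ?_
    by_contra hn0
    apply hchar n hn0
    have : Ideal.Quotient.mk (Ideal.span {x}) (n : D) = 0 := by rw [map_natCast]; exact hn
    rwa [Ideal.Quotient.eq_zero_iff_mem, Ideal.mem_span_singleton] at this
  rw [← tmd_finrank_Jb b hres]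
  exact tmd_discr_eq_finrank b hx

end Final

end Fermat.Agent.S18x
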