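/-
S18x/ValGen.lean (helper18, row G4 of docs S18_N5_spec_helper33): from valuation subrings to the
elementwise unramifiedness form consumed by `purx_hH_at_of_unramified` / `purh_unramified`.
 * vgen_exists_of_dvd_pow: `T` integral over `O`, `(g)` maximal in `O`, `T / g T` reduced (in
   divisibility form) => at every maximal `M ∋ g`: `∀ x ∈ M, ∃ s ∉ M, ∃ u, s * x = g * u`.
 * vgen_unramified_of_valuationSubrings = G4 verbatim.
Mathlib + PurxValCrit only.
-/
import Mathlib
import Fermat.Agent.S18x.PurxValCrit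

set_option autoImplicit false
set_option linter.unusedSectionVars false

namespace Fermat.Agent.S18x

section GEN

/-- zero-dimensional + reduced fibre => `g` generates `M T_M` elementwise. -/
theorem vgen_exists_of_dvd_pow {O T : Type*} [CommRing O] [CommRing T] [Algebra O T]
    [Algebra.IsIntegral O T] (g : O) (hmax : (Ideal.span {g}).IsMaximal)
    (hred : ∀ (y : T) (m : ℕ), algebraMap O T g ∣ y ^ m → algebraMap O T g ∣ y) :
    ∀ M : Ideal T, M.IsMaximal → algebraMap O T g ∈ M →
      ∀ x ∈ M, ∃ s : T, s ∉ M ∧ ∃ u : T, s * x = algebraMap O T g * u := by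
  intro M hM hgM x hxM
  by_contra hcon
  have hcon : ∀ s : T, s ∉ M → ∀ u : T, s * x ≠ algebraMap O T g * u := by
    intro s hs u hsu
    exact hcon ⟨s, hs, u, hsu⟩
  have hMprime : M.IsPrime := hM.isPrime
  -- the multiplicative set `{s * x ^ n : s ∉ M}`
  let S : Submonoid T :=
    { carrier := {t | ∃ s : T, s ∉ M ∧ ∃ n : ℕ, t = s * x ^ n}
      mul_mem' := by
        rintro a b ⟨s, hs, n, rfl⟩ ⟨s', hs', n', rfl⟩
        refine ⟨s * s', fun h => ?_, n + n', by ring⟩
        rcases hMprime.mem_or_mem h with h | h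
        · exact hs h
        · exact hs' h
      one_mem' := ⟨1, fun h => hM.ne_top ((Ideal.eq_top_iff_one M).2 h), 0, by simp⟩ }
  have hdisj : Disjoint ((Ideal.span {algebraMap O T g} : Ideal T) : Set T) (S : Set T) := by
    rw [Set.disjoint_left]
    rintro t ht ⟨s, hs, n, rfl⟩
    rw [SetLike.mem_coe, Ideal.mem_span_singleton] at ht
    have h1 : algebraMap O T g ∣ (s * x) ^ (n + 1) := by
      have : (s * x) ^ (n + 1) = (s * x ^ n) * (s ^ n * x) := by ring
      rw [this]
      exact Dvd.dvd.mul_right ht _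
    obtain ⟨u, hu⟩ := hred (s * x) (n + 1) h1
    exact hcon s hs u hu
  obtain ⟨P, hPprime, hgP, hPS⟩ := Ideal.exists_le_prime_disjoint _ S hdisj
  have hPM : P ≤ M := by
    intro t ht
    by_contra htM
    exact (Set.disjoint_left.1 hPS) ht ⟨t, htM, 0, by simp⟩
  have hxP : x ∉ P := fun h => (Set.disjoint_left.1 hPS) h
    ⟨1, fun h1 => hM.ne_top ((Ideal.eq_top_iff_one M).2 h1), 1, by simp⟩
  -- `P` lies over the maximal ideal `(g)`, hence is maximal, hence equals `M`
  have hcomap : P.comap (algebraMap O T) = Ideal.span {g} := by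
    have hle : Ideal.span {g} ≤ P.comap (algebraMap O T) := by
      rw [Ideal.span_singleton_le_iff_mem, Ideal.mem_comap]
      exact hgP (Ideal.subset_span rfl)
    have hne : P.comap (algebraMap O T) ≠ ⊤ := (Ideal.comap_isPrime _ P).ne_top
    exact (hmax.eq_of_le hne hle).symm
  have hPmax : P.IsMaximal :=
    Ideal.isMaximal_of_isIntegral_of_isMaximal_comap (R := O) P (hcomap ▸ hmax)
  have hPeq : P = M := hPmax.eq_of_le hM.ne_top hPM
  exact hxP (hPeq ▸ hxM)

/-- (G4) from valuation subrings to the elementwise form. -/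
theorem vgen_unramified_of_valuationSubrings {O T L : Type*} [CommRing O] [IsDomain O]
    [CommRing T] [IsDomain T] [Field L] [Algebra O T] [Algebra T L] [Algebra O L]
    [IsScalarTower O T L] [IsIntegralClosure T O L] [IsFractionRing T L]
    (g : O) (hmax : (Ideal.span {g}).IsMaximal)
    (hV : ∀ V : ValuationSubring L, (∀ a : O, algebraMap O L a ∈ V) →
      algebraMap O L g ∈ V.nonunits → ∀ x ∈ V.nonunits, x / algebraMap O L g ∈ V) :
    ∀ M : Ideal T, M.IsMaximal → algebraMap O T g ∈ M →
      ∀ x ∈ M, ∃ s : T, s ∉ M ∧ ∃ u : T, s * x = algebraMap O T g * u := by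
  have hint : Algebra.IsIntegral O T := IsIntegralClosure.isIntegral_algebra O L
  refine vgen_exists_of_dvd_pow g hmax ?_
  by_cases hg0 : algebraMap O L g = 0
  · -- degenerate case `g = 0` in `T`
    have hgT : algebraMap O T g = 0 := by
      apply IsIntegralClosure.algebraMap_injective T O L
      rw [← IsScalarTower.algebraMap_apply, hg0, map_zero]
    intro y m hdvd
    rw [hgT, zero_dvd_iff] at hdvd ⊢
    exact pow_eq_zero_iff (fun hm => by
      rw [hm, pow_zero] at hdvd; exact one_ne_zero hdvd) |>.1 hdvd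
  · refine purx_dvd_of_dvd_pow_of_valuationSubring (L := L) g hg0 ?_
    intro V hOV hginv y hyV hy0 hyinv
    rw [← div_eq_mul_inv]
    refine hV V hOV ?_ y ?_
    · exact (ValuationSubring.mem_nonunits_iff_or V).2 (Or.inr hginv)
    · exact (ValuationSubring.mem_nonunits_iff_or V).2 (Or.inr hyinv)

end GEN

end Fermat.Agent.S18x
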